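import Mathlib
import Fermat.Agent.S18.Pack15

/-!
# S36 lab, row 599 C-REGq, twin sub-part (helper93): the residue fields of the closed points of
a chart are perfect

`R` a local ring with finite residue field of characteristic `q`, `B` an `R`-subalgebra of a field
`F` containing `h` and integral over `R[h]` (e.g. the chart `pk15_chart R {h}`), `n` a maximal
ideal of `B` over the maximal ideal of `R`.  Then `B ⧸ n` is algebraic over `𝔽_q`, hence
perfect: every element of `B` is a `q`-th power modulo `n`.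

* `cp93_perf` : `∀ x : B, ∃ c : B, x - c ^ q ∈ n` (the hypothesis `hperf` of `dl93c_deriv_loc`,
  and of the "constants modulo the uniformiser" clauses of the derivation lemmas).
* `cp93_perf_chart` : the same for `B = pk15_chart R {h}`.
* `cp93_perf_chart_dvr` : the same with `R` a discrete valuation ring and `π ∈ n` a uniformiser.

All names are prefixed `cp93_`.
-/

set_option autoImplicit false
set_option linter.style.haveILetI false

open Polynomial

namespace Fermat.Agent.S36

open Fermat.Agent.S18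

/-- Elements of `L` hit by a ring hom from a ring integral over a subring whose image lies in a
subring `T` are integral over `T`. -/
theorem cp93_integral_elem {A₀ B L T : Type*} [CommRing A₀] [CommRing B] [CommRing L]
    [SetLike T L] [SubringClass T L] (ι : A₀ →+* B) (φ : B →+* L) (s : T)
    (hmem : ∀ a : A₀, φ (ι a) ∈ s) (x : B) (hx : ι.IsIntegralElem x) :
    (SubringClass.subtype s).IsIntegralElem (φ x) := by
  obtain ⟨p, hp, hpx⟩ := hx
  let ρ : A₀ →+* ↥s := (φ.comp ι).codRestrict s hmem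
  refine ⟨p.map ρ, hp.map ρ, ?_⟩
  rw [eval₂_map]
  have hcomp : (SubringClass.subtype s).comp ρ = φ.comp ι := by
    ext a
    rfl
  rw [hcomp, ← hom_eval₂, hpx, map_zero]

/-- A field `L` which is a quotient of a ring `B ∋ h` integral over `R[h]`, `R` local with finite
residue field of characteristic `q` mapping to `L` through its residue field, has surjective
Frobenius (it is algebraic over `𝔽_q`). -/
theorem cp93_perf_field {R F L : Type*} [CommRing R] [IsLocalRing R]
    [Finite (IsLocalRing.ResidueField R)] [Field F] [Algebra R F] [Field L]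
    (q : ℕ) (hq : q.Prime) (hqR : (q : R) ∈ IsLocalRing.maximalIdeal R)
    (h : F) (B : Subalgebra R F) (hh : h ∈ B)
    (hint : ∀ x ∈ B, IsIntegral (Algebra.adjoin R ({h} : Set F)) x)
    (φ : ↥B →+* L) (hφ : Function.Surjective φ)
    (hk : ∀ r ∈ IsLocalRing.maximalIdeal R, φ (algebraMap R B r) = 0) :
    ∀ y : L, ∃ d : L, d ^ q = y := by
  classical
  haveI : Fact q.Prime := ⟨hq⟩
  -- characteristic `q`
  have hqL : ((q : ℕ) : L) = 0 := by
    have h2 : φ (algebraMap R B (q : R)) = 0 := hk _ hqR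
    rwa [map_natCast, map_natCast] at h2
  haveI hcharP : CharP L q := (CharP.charP_iff_prime_eq_zero hq).mpr hqL
  letI halg : Algebra (ZMod q) L := ZMod.algebra L q
  haveI hexp : ExpChar L q := ExpChar.prime hq
  set K₀ : IntermediateField (ZMod q) L := algebraicClosure (ZMod q) L with hK₀
  -- (a) the image of `R` is algebraic over `𝔽_q`
  have hR : ∀ r : R, φ (algebraMap R B r) ∈ K₀ := by
    intro r
    letI : Fintype (IsLocalRing.ResidueField R) := Fintype.ofFinite _
    let ψ : R →+* L := φ.comp (algebraMap R B)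
    have hψ : ∀ a ∈ IsLocalRing.maximalIdeal R, ψ a = 0 := fun a ha => hk a ha
    let ψ' : IsLocalRing.ResidueField R →+* L :=
      Ideal.Quotient.lift (IsLocalRing.maximalIdeal R) ψ hψ
    have hψ' : ψ' (IsLocalRing.residue R r) = ψ r := Ideal.Quotient.lift_mk _ _ _
    set m := Fintype.card (IsLocalRing.ResidueField R) with hm
    have hm1 : 1 < m := Fintype.one_lt_card
    have hpow : ψ r ^ m = ψ r := by
      rw [← hψ', ← map_pow, FiniteField.pow_card]
    rw [hK₀, mem_algebraicClosure_iff]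
    refine IsIntegral.isAlgebraic ⟨X ^ m - X, monic_X_pow_sub (by
      rw [degree_X]; exact_mod_cast hm1), ?_⟩
    rw [eval₂_sub, eval₂_X_pow, eval₂_X]
    show ψ r ^ m - ψ r = 0
    rw [hpow, sub_self]
  -- the inclusion `R[h] → B`
  have hle : Algebra.adjoin R ({h} : Set F) ≤ B :=
    Algebra.adjoin_le (Set.singleton_subset_iff.mpr hh)
  let ι : ↥(Algebra.adjoin R ({h} : Set F)) →+* ↥B := (Subalgebra.inclusion hle).toRingHom
  have hintB : ∀ x : ↥B, ι.IsIntegralElem x := by
    intro x
    obtain ⟨p, hp, hpx⟩ := hint (x : F) x.2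
    refine ⟨p, hp, ?_⟩
    apply Subtype.ext
    have h1 : ((eval₂ ι x p : ↥B) : F) = B.val.toRingHom (eval₂ ι x p) := rfl
    rw [h1, hom_eval₂]
    exact hpx
  set hbar : L := φ ⟨h, hh⟩ with hhbar
  -- (b) the image of `R[h]` lies in `K₀[h̄]`
  set S' : Subalgebra ↥K₀ L := (Polynomial.aeval hbar : (↥K₀)[X] →ₐ[↥K₀] L).range with hS'
  have hS'mem : ∀ a : ↥(Algebra.adjoin R ({h} : Set F)), φ (ι a) ∈ S' := by
    rintro ⟨a, ha⟩
    induction ha using Algebra.adjoin_induction with
    | mem x hx =>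
      rw [Set.mem_singleton_iff] at hx
      subst hx
      exact ⟨X, aeval_X _⟩
    | algebraMap r =>
      have e : φ (ι ⟨algebraMap R F r, Subalgebra.algebraMap_mem _ r⟩)
          = algebraMap ↥K₀ L ⟨φ (algebraMap R B r), hR r⟩ := rfl
      rw [e]
      exact Subalgebra.algebraMap_mem _ _
    | add x y hx hy ihx ihy =>
      have e : φ (ι ⟨x + y, Subalgebra.add_mem _ hx hy⟩) = φ (ι ⟨x, hx⟩) + φ (ι ⟨y, hy⟩) := by
        rw [← map_add, ← map_add]; rfl
      rw [e]
      exact Subalgebra.add_mem _ ihx ihy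
    | mul x y hx hy ihx ihy =>
      have e : φ (ι ⟨x * y, Subalgebra.mul_mem _ hx hy⟩) = φ (ι ⟨x, hx⟩) * φ (ι ⟨y, hy⟩) := by
        rw [← map_mul, ← map_mul]; rfl
      rw [e]
      exact Subalgebra.mul_mem _ ihx ihy
  -- (c) `L` is integral over `K₀[h̄]`, which is therefore a field
  haveI hintS' : Algebra.IsIntegral ↥S' L := by
    refine ⟨fun y => ?_⟩
    obtain ⟨x, rfl⟩ := hφ y
    exact cp93_integral_elem ι φ S' hS'mem x (hintB x)
  have hfield : IsField ↥S' :=
    isField_of_isIntegral_of_isField (R := ↥S') (S := L) Subtype.val_injective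
      (Field.toIsField L)
  -- (e) `h̄` is algebraic over `K₀`, hence lies in `K₀`
  have hhalg : IsAlgebraic ↥K₀ hbar := by
    by_cases h0 : hbar = 0
    · rw [h0]; exact isAlgebraic_zero
    · have hmemS : hbar ∈ S' := ⟨X, aeval_X _⟩
      have hne : (⟨hbar, hmemS⟩ : ↥S') ≠ 0 := fun e => h0 (congrArg Subtype.val e)
      obtain ⟨⟨b, p, hp⟩, hb⟩ := hfield.mul_inv_cancel hne
      have hb' : hbar * b = 1 := congrArg Subtype.val hb
      refine ⟨X * p - 1, ?_, ?_⟩
      · intro e
        have := congrArg (fun f : (↥K₀)[X] => f.coeff 0) e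
        simp at this
      · have hp' : aeval hbar p = b := hp
        rw [map_sub, map_mul, aeval_X, map_one, hp', hb', sub_self]
  have hhK₀ : hbar ∈ K₀ := by
    rw [hK₀, mem_algebraicClosure_iff]
    have := IsAlgebraic.restrictScalars (ZMod q) hhalg
    exact this
  -- (g) the image of `R[h]` lies in `K₀`
  have hK₀mem : ∀ a : ↥(Algebra.adjoin R ({h} : Set F)), φ (ι a) ∈ K₀ := by
    rintro ⟨a, ha⟩
    induction ha using Algebra.adjoin_induction with
    | mem x hx =>
      rw [Set.mem_singleton_iff] at hx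
      subst hx
      exact hhK₀
    | algebraMap r => exact hR r
    | add x y hx hy ihx ihy =>
      have e : φ (ι ⟨x + y, Subalgebra.add_mem _ hx hy⟩) = φ (ι ⟨x, hx⟩) + φ (ι ⟨y, hy⟩) := by
        rw [← map_add, ← map_add]; rfl
      rw [e]
      exact K₀.add_mem ihx ihy
    | mul x y hx hy ihx ihy =>
      have e : φ (ι ⟨x * y, Subalgebra.mul_mem _ hx hy⟩) = φ (ι ⟨x, hx⟩) * φ (ι ⟨y, hy⟩) := by
        rw [← map_mul, ← map_mul]; rfl
      rw [e]
      exact K₀.mul_mem ihx ihy
  -- (h) `L` is algebraic over `𝔽_q`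
  haveI hLalg : Algebra.IsAlgebraic (ZMod q) L := by
    refine ⟨fun y => ?_⟩
    obtain ⟨x, rfl⟩ := hφ y
    have h1 : IsIntegral ↥K₀ (φ x) := cp93_integral_elem ι φ K₀ hK₀mem x (hintB x)
    exact IsAlgebraic.restrictScalars (ZMod q) h1.isAlgebraic
  haveI hperfL : PerfectField L := Algebra.IsAlgebraic.perfectField (ZMod q)
  haveI : PerfectRing L q := PerfectField.toPerfectRing q
  intro y
  obtain ⟨d, hd⟩ := surjective_frobenius L q y
  exact ⟨d, by rw [← hd, frobenius_def]⟩

/-- **Perfect residue fields at the closed points of a chart.** -/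
theorem cp93_perf {R F : Type*} [CommRing R] [IsLocalRing R]
    [Finite (IsLocalRing.ResidueField R)] [Field F] [Algebra R F]
    (q : ℕ) (hq : q.Prime) (hqR : (q : R) ∈ IsLocalRing.maximalIdeal R)
    (h : F) (B : Subalgebra R F) (hh : h ∈ B)
    (hint : ∀ x ∈ B, IsIntegral (Algebra.adjoin R ({h} : Set F)) x)
    (n : Ideal B) [hn : n.IsMaximal]
    (hk : ∀ r ∈ IsLocalRing.maximalIdeal R, algebraMap R B r ∈ n) :
    ∀ x : B, ∃ c : B, x - c ^ q ∈ n := by
  letI : Field (↥B ⧸ n) := Ideal.Quotient.field n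
  intro x
  obtain ⟨d, hd⟩ := cp93_perf_field q hq hqR h B hh hint (Ideal.Quotient.mk n)
    Ideal.Quotient.mk_surjective (fun r hr => Ideal.Quotient.eq_zero_iff_mem.mpr (hk r hr))
    (Ideal.Quotient.mk n x)
  obtain ⟨c, rfl⟩ := Ideal.Quotient.mk_surjective d
  refine ⟨c, Ideal.Quotient.eq_zero_iff_mem.mp ?_⟩
  rw [map_sub, map_pow, hd, sub_self]

/-- `cp93_perf` for the chart `pk15_chart R {h}`. -/
theorem cp93_perf_chart {R F : Type*} [CommRing R] [IsLocalRing R]
    [Finite (IsLocalRing.ResidueField R)] [Field F] [Algebra R F]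
    (q : ℕ) (hq : q.Prime) (hqR : (q : R) ∈ IsLocalRing.maximalIdeal R)
    (h : F) (n : Ideal ↥(pk15_chart R ({h} : Set F))) [hn : n.IsMaximal]
    (hk : ∀ r ∈ IsLocalRing.maximalIdeal R, algebraMap R ↥(pk15_chart R ({h} : Set F)) r ∈ n) :
    ∀ x : ↥(pk15_chart R ({h} : Set F)), ∃ c : ↥(pk15_chart R ({h} : Set F)), x - c ^ q ∈ n := by
  refine cp93_perf q hq hqR h (pk15_chart R ({h} : Set F)) ?_ (fun x hx => hx) n hk
  rw [pk15_mem_chart]
  exact isIntegral_algebraMap (R := ↥(Algebra.adjoin R ({h} : Set F)))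
    (x := ⟨h, Algebra.subset_adjoin (Set.mem_singleton h)⟩)

/-- `cp93_perf_chart` over a discrete valuation ring with uniformiser `π ∈ n`. -/
theorem cp93_perf_chart_dvr {R F : Type*} [CommRing R] [IsDomain R] [IsDiscreteValuationRing R]
    [Finite (IsLocalRing.ResidueField R)] [Field F] [Algebra R F]
    (q : ℕ) (hq : q.Prime) (hqR : ¬ IsUnit (q : R)) (π : R) (hπ : Irreducible π)
    (h : F) (n : Ideal ↥(pk15_chart R ({h} : Set F))) [hn : n.IsMaximal]
    (hπn : algebraMap R ↥(pk15_chart R ({h} : Set F)) π ∈ n) :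
    ∀ x : ↥(pk15_chart R ({h} : Set F)), ∃ c : ↥(pk15_chart R ({h} : Set F)), x - c ^ q ∈ n := by
  refine cp93_perf_chart q hq ((IsLocalRing.mem_maximalIdeal _).mpr hqR) h n ?_
  intro r hr
  rw [hπ.maximalIdeal_eq, Ideal.mem_span_singleton] at hr
  obtain ⟨r', rfl⟩ := hr
  rw [map_mul]
  exact n.mul_mem_right _ hπn

end Fermat.Agent.S36
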