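import Mathlib

/-!
# S36 lab, row 599 C-REGq, twin sub-part (helper93): derivations and local rings (Mathlib only)

The derivation lemmas needed by every `d/dt` route to `κ = 1` at the nodes.

* `dl93_deriv_mem` (**Nakayama stability**): `B` noetherian, `I ≤ Jac(B)` generated by elements
  `t` with `D t ∈ B`, `q ∈ I`, Frobenius surjective on `B / I`, `D(B)` inside a finitely generated
  `B`-module.  Then `D(B) ⊆ B`.  (Mixed characteristic allowed: for the two-dimensional regular
  local ring `B'_{n'}` of a smooth point, `I = (t, π)`, `D = d/dt`, `D π = 0`.)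

All names are prefixed `dl93_`.
-/

set_option autoImplicit false

namespace Fermat.Agent.S36

/-- **Nakayama stability of a derivation.**  `B` noetherian, `F` a `B`-algebra with a derivation
`D`, `I` an ideal of `B` inside the Jacobson radical, generated by a set `T` with `D t ∈ B` for
`t ∈ T`; `q ∈ I` and every element of `B` is a `q`-th power modulo `I`; `D(B)` lies in a finitely
generated `B`-submodule of `F`.  Then `D(B) ⊆ B`. -/
theorem dl93_deriv_mem {B F : Type*} [CommRing B] [IsNoetherianRing B] [CommRing F] [Algebra B F]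
    (q : ℕ) (D : Derivation ℤ F F) (I : Ideal B) (hI : I ≤ Ideal.jacobson ⊥)
    (hq : (q : B) ∈ I)
    (hperf : ∀ x : B, ∃ c : B, x - c ^ q ∈ I)
    (T : Set B) (hT : I = Ideal.span T)
    (hDT : ∀ t ∈ T, ∃ b : B, D (algebraMap B F t) = algebraMap B F b)
    (G : Finset F) (hG : ∀ x : B, D (algebraMap B F x) ∈ Submodule.span B (G : Set F)) :
    ∀ x : B, ∃ y : B, D (algebraMap B F x) = algebraMap B F y := by
  classical
  set N : Submodule B F := LinearMap.range (Algebra.linearMap B F) with hN
  set S : Submodule B F := Submodule.span B (Set.range fun x : B => D (algebraMap B F x)) with hS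
  have hSfg : S.FG := by
    have hle : S ≤ Submodule.span B (G : Set F) := by
      refine Submodule.span_le.mpr ?_
      rintro _ ⟨x, rfl⟩
      exact hG x
    exact Submodule.FG.of_le (Submodule.fg_span (Finset.finite_toSet G)) hle
  have hDS : ∀ x : B, D (algebraMap B F x) ∈ S := fun x => Submodule.subset_span ⟨x, rfl⟩
  have hNmem : ∀ b : B, algebraMap B F b ∈ N := fun b => ⟨b, rfl⟩
  -- elements of `I`
  have hkeyI : ∀ y ∈ I, D (algebraMap B F y) ∈ N ⊔ I • S := by
    intro y hy
    rw [hT] at hy
    induction hy using Submodule.span_induction with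
    | mem t ht =>
      obtain ⟨b, hb⟩ := hDT t ht
      rw [hb]
      exact Submodule.mem_sup_left (hNmem b)
    | zero => simp
    | add y1 y2 h1 h2 ih1 ih2 =>
      rw [map_add, map_add]
      exact Submodule.add_mem _ ih1 ih2
    | smul b y hy ih =>
      rw [smul_eq_mul, map_mul, Derivation.leibniz]
      refine Submodule.add_mem _ ?_ ?_
      · have : algebraMap B F b • D (algebraMap B F y) = b • D (algebraMap B F y) := by
          rw [algebraMap_smul]
        rw [this]
        exact Submodule.smul_mem _ _ ih
      · have : algebraMap B F y • D (algebraMap B F b) = y • D (algebraMap B F b) := by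
          rw [algebraMap_smul]
        rw [this]
        exact Submodule.mem_sup_right (Submodule.smul_mem_smul (hT ▸ hy) (hDS b))
  have hkey : ∀ x : B, D (algebraMap B F x) ∈ N ⊔ I • S := by
    intro x
    obtain ⟨c, hc⟩ := hperf x
    have hx : x = (x - c ^ q) + c ^ q := by ring
    rw [hx, map_add, map_add]
    refine Submodule.add_mem _ (hkeyI _ hc) ?_
    rw [map_pow, Derivation.leibniz_pow]
    have : q • (algebraMap B F c ^ (q - 1) • D (algebraMap B F c))
        = (q : B) • (c ^ (q - 1) • D (algebraMap B F c)) := by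
      rw [Nat.cast_smul_eq_nsmul, ← map_pow, algebraMap_smul]
    rw [this]
    exact Submodule.mem_sup_right
      (Submodule.smul_mem_smul hq (Submodule.smul_mem _ _ (hDS c)))
  have hSN : S ≤ N := by
    refine Submodule.le_of_le_smul_of_le_jacobson_bot hSfg hI ?_
    refine Submodule.span_le.mpr ?_
    rintro _ ⟨x, rfl⟩
    exact hkey x
  intro x
  obtain ⟨y, hy⟩ := hSN (hDS x)
  exact ⟨y, hy.symm⟩

/-- `dl93_deriv_mem` for a bare additive map with the Leibniz rule. -/
theorem dl93_deriv_mem' {B F : Type*} [CommRing B] [IsNoetherianRing B] [CommRing F] [Algebra B F]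
    (q : ℕ) (D : F → F) (hadd : ∀ x y, D (x + y) = D x + D y)
    (hmul : ∀ x y, D (x * y) = x * D y + y * D x)
    (I : Ideal B) (hI : I ≤ Ideal.jacobson ⊥)
    (hq : (q : B) ∈ I)
    (hperf : ∀ x : B, ∃ c : B, x - c ^ q ∈ I)
    (T : Set B) (hT : I = Ideal.span T)
    (hDT : ∀ t ∈ T, ∃ b : B, D (algebraMap B F t) = algebraMap B F b)
    (G : Finset F) (hG : ∀ x : B, D (algebraMap B F x) ∈ Submodule.span B (G : Set F)) :
    ∀ x : B, ∃ y : B, D (algebraMap B F x) = algebraMap B F y :=
  dl93_deriv_mem q
    (Derivation.mk' (AddMonoidHom.mk' D hadd).toIntLinearMap (fun a b => by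
      simpa [smul_eq_mul] using hmul a b))
    I hI hq hperf T hT hDT G hG

/-- **Two-generator form** (a smooth point of an arithmetic surface): `B` noetherian local with
maximal ideal `(t, π)`, `D t ∈ B`, `D π = 0`, `q ∈ (t, π)`, perfect residue field. -/
theorem dl93_deriv_mem_two {B F : Type*} [CommRing B] [IsNoetherianRing B] [IsLocalRing B]
    [CommRing F] [Algebra B F]
    (q : ℕ) (D : F → F) (hadd : ∀ x y, D (x + y) = D x + D y)
    (hmul : ∀ x y, D (x * y) = x * D y + y * D x)
    (t π : B) (hm : IsLocalRing.maximalIdeal B = Ideal.span {t, π})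
    (hq : (q : B) ∈ IsLocalRing.maximalIdeal B)
    (hperf : ∀ x : B, ∃ c : B, x - c ^ q ∈ IsLocalRing.maximalIdeal B)
    (hDt : ∃ b : B, D (algebraMap B F t) = algebraMap B F b)
    (hDπ : ∃ b : B, D (algebraMap B F π) = algebraMap B F b)
    (G : Finset F) (hG : ∀ x : B, D (algebraMap B F x) ∈ Submodule.span B (G : Set F)) :
    ∀ x : B, ∃ y : B, D (algebraMap B F x) = algebraMap B F y := by
  refine dl93_deriv_mem' q D hadd hmul (IsLocalRing.maximalIdeal B)
    (IsLocalRing.maximalIdeal_le_jacobson ⊥) hq hperf {t, π} hm ?_ G hG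
  intro x hx
  rcases hx with rfl | hx
  · exact hDt
  · rw [Set.mem_singleton_iff] at hx
    subst hx
    exact hDπ

end Fermat.Agent.S36
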