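import Mathlib
import Fermat.Agent.S34.SpecFibre79
import Fermat.Agent.S36.DerivLocal93

/-!
# S36 lab, row 599 C-REGq, twin sub-part (helper93): a derivation preserves the local ring of a
smooth point of the chart

Binding of `dl93_deriv_mem'` (Nakayama stability) to the chart language of S34
(`sf79_loc B n` = the local ring `B_n` as a subring of the function field `F`).

* `dl93c_isLocalization`, `dl93c_noeth` : `sf79_loc B n` is the localisation of `B` at `n`, hence
  noetherian if `B` is.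
* `dl93c_fin` : if the chart `B` lies in the `R[h]`-span of a finite set `G₀` and `D` kills `R`,
  then `D (B_n)` lies in the `B_n`-span of the finite set `D h • G₀ ∪ D G₀`.
* `dl93c_deriv_loc` : **`D (B_n) ⊆ B_n`** at a maximal ideal `n` with `n B_n = (t, π)`,
  `D t ∈ B_n`, `D` zero on `R`, `q ∈ π R`, every element of `B` a `q`-th power modulo `n`.

All names are prefixed `dl93c_`.
-/

set_option autoImplicit false
set_option linter.style.haveILetI false

namespace Fermat.Agent.S36

open Fermat.Agent.S34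

section DL93C

variable {R F : Type*} [CommRing R] [Field F] [Algebra R F]

/-- The inclusion `B → B_n`. -/
def dl93c_incl (B : Subalgebra R F) (n : Ideal B) [n.IsPrime] : ↥B →+* ↥(sf79_loc B n) where
  toFun x := ⟨(x : F), sf79_le_loc B n x x.2⟩
  map_one' := rfl
  map_mul' _ _ := rfl
  map_zero' := rfl
  map_add' _ _ := rfl

/-- `sf79_loc B n` is the localisation of `B` at `n`. -/
theorem dl93c_isLocalization (B : Subalgebra R F) (n : Ideal B) [hn : n.IsPrime] :
    @IsLocalization ↥B _ n.primeCompl ↥(sf79_loc B n) _ (dl93c_incl B n).toAlgebra := by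
  letI := (dl93c_incl B n).toAlgebra
  rw [isLocalization_iff]
  refine ⟨?_, ?_, ?_⟩
  · rintro ⟨s, hs⟩
    have hs' : s ∉ n := hs
    refine isUnit_iff_exists_inv.mpr ⟨⟨(s : F)⁻¹, sf79_inv_mem_loc B n s hs'⟩, ?_⟩
    apply Subtype.ext
    show (s : F) * (s : F)⁻¹ = 1
    exact mul_inv_cancel₀ (sf79_ne_zero B n s hs')
  · rintro ⟨z, s, hs, hsz⟩
    refine ⟨(⟨_, hsz⟩, ⟨s, hs⟩), ?_⟩
    apply Subtype.ext
    show z * (s : F) = (s : F) * z
    ring
  · intro x y hxy
    refine ⟨1, ?_⟩
    have : (x : F) = (y : F) := congrArg (fun w : ↥(sf79_loc B n) => (w : F)) hxy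
    rw [Subtype.ext this]

/-- `sf79_loc B n` is noetherian if `B` is. -/
theorem dl93c_noeth (B : Subalgebra R F) [IsNoetherianRing B] (n : Ideal B) [n.IsPrime] :
    IsNoetherianRing ↥(sf79_loc B n) := by
  letI := (dl93c_incl B n).toAlgebra
  haveI := dl93c_isLocalization B n
  exact IsLocalization.isNoetherianRing n.primeCompl _ inferInstance

/-- Basic facts on an additive map with the Leibniz rule. -/
theorem dl93c_zero (D : F → F) (hadd : ∀ x y, D (x + y) = D x + D y) : D 0 = 0 := by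
  have h := hadd 0 0
  rw [add_zero] at h
  exact left_eq_add.mp h

/-- `D (p) ∈ R[h] · D h` for `p ∈ R[h]`, if `D` kills `R`. -/
theorem dl93c_adjoin (D : F → F) (hadd : ∀ x y, D (x + y) = D x + D y)
    (hmul : ∀ x y, D (x * y) = x * D y + y * D x)
    (hDR : ∀ r : R, D (algebraMap R F r) = 0) (h : F) (p : F)
    (hp : p ∈ Algebra.adjoin R ({h} : Set F)) :
    ∃ p' ∈ Algebra.adjoin R ({h} : Set F), D p = p' * D h := by
  induction hp using Algebra.adjoin_induction with
  | mem x hx =>
    rw [Set.mem_singleton_iff] at hx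
    subst hx
    exact ⟨1, Subalgebra.one_mem _, (one_mul _).symm⟩
  | algebraMap r => exact ⟨0, Subalgebra.zero_mem _, by rw [hDR, zero_mul]⟩
  | add x y hx hy ihx ihy =>
    obtain ⟨x', hx', ex⟩ := ihx
    obtain ⟨y', hy', ey⟩ := ihy
    exact ⟨x' + y', Subalgebra.add_mem _ hx' hy', by rw [hadd, ex, ey]; ring⟩
  | mul x y hx hy ihx ihy =>
    obtain ⟨x', hx', ex⟩ := ihx
    obtain ⟨y', hy', ey⟩ := ihy
    exact ⟨x * y' + y * x', Subalgebra.add_mem _ (Subalgebra.mul_mem _ hx hy')
      (Subalgebra.mul_mem _ hy hx'), by rw [hmul, ex, ey]; ring⟩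

/-- **Bounded denominators from finite generation.**  If the chart `B ∋ h` lies in the
`R[h]`-span of the finite set `G₀` and `D` kills `R`, then `D (B_n)` lies in the `B_n`-span of
the finite set `D h • G₀ ∪ D G₀`. -/
theorem dl93c_fin (B : Subalgebra R F) (n : Ideal B) [n.IsPrime]
    (D : F → F) (hadd : ∀ x y, D (x + y) = D x + D y)
    (hmul : ∀ x y, D (x * y) = x * D y + y * D x)
    (hDR : ∀ r : R, D (algebraMap R F r) = 0)
    (h : F) (hh : h ∈ B) (G₀ : Finset F)
    (hG₀ : ∀ x ∈ B, x ∈ Submodule.span (Algebra.adjoin R ({h} : Set F)) (G₀ : Set F)) :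
    ∃ G : Finset F, ∀ x : ↥(sf79_loc B n),
      D (x : F) ∈ Submodule.span ↥(sf79_loc B n) (G : Set F) := by
  classical
  set A := sf79_loc B n with hA
  refine ⟨G₀.image (fun g => D h * g) ∪ G₀.image D, ?_⟩
  set G : Finset F := G₀.image (fun g => D h * g) ∪ G₀.image D with hG
  have hadjB : ∀ p ∈ Algebra.adjoin R ({h} : Set F), p ∈ B := fun p hp =>
    (Algebra.adjoin_le (Set.singleton_subset_iff.mpr hh) : Algebra.adjoin R ({h} : Set F) ≤ B) hp
  have hadjA : ∀ p ∈ Algebra.adjoin R ({h} : Set F), p ∈ A := fun p hp =>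
    sf79_le_loc B n p (hadjB p hp)
  -- multiplication by an element of `A` preserves the `A`-span
  have hsm : ∀ a ∈ A, ∀ y ∈ Submodule.span ↥A (G : Set F), a * y ∈ Submodule.span ↥A (G : Set F) :=
    fun a ha y hy => Submodule.smul_mem _ (⟨a, ha⟩ : ↥A) hy
  -- (a) `D h * x`
  have hstep_a : ∀ x ∈ Submodule.span (Algebra.adjoin R ({h} : Set F)) (G₀ : Set F),
      D h * x ∈ Submodule.span ↥A (G : Set F) := by
    intro x hx
    induction hx using Submodule.span_induction with
    | mem g hg =>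
      refine Submodule.subset_span ?_
      rw [hG, Finset.coe_union]
      exact Or.inl (Finset.mem_coe.mpr (Finset.mem_image_of_mem _ (Finset.mem_coe.mp hg)))
    | zero => rw [mul_zero]; exact Submodule.zero_mem _
    | add x y hx hy ihx ihy => rw [mul_add]; exact Submodule.add_mem _ ihx ihy
    | smul p x hx ih =>
      have e : D h * (p • x) = (p : F) * (D h * x) := by
        rw [Subalgebra.smul_def, smul_eq_mul]; ring
      rw [e]
      exact hsm _ (hadjA _ p.2) _ ih
  -- (b) `D x`
  have hstep_b : ∀ x ∈ Submodule.span (Algebra.adjoin R ({h} : Set F)) (G₀ : Set F),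
      D x ∈ Submodule.span ↥A (G : Set F) := by
    intro x hx
    induction hx using Submodule.span_induction with
    | mem g hg =>
      refine Submodule.subset_span ?_
      rw [hG, Finset.coe_union]
      exact Or.inr (Finset.mem_coe.mpr (Finset.mem_image_of_mem _ (Finset.mem_coe.mp hg)))
    | zero => rw [dl93c_zero D hadd]; exact Submodule.zero_mem _
    | add x y hx hy ihx ihy => rw [hadd]; exact Submodule.add_mem _ ihx ihy
    | smul p x hx ih =>
      obtain ⟨p', hp', ep⟩ := dl93c_adjoin D hadd hmul hDR h (p : F) p.2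
      have e : D (p • x) = (p : F) * D x + p' * (D h * x) := by
        rw [Subalgebra.smul_def, smul_eq_mul, hmul, ep]; ring
      rw [e]
      exact Submodule.add_mem _ (hsm _ (hadjA _ p.2) _ ih)
        (hsm _ (hadjA _ hp') _ (hstep_a x hx))
  have hB : ∀ x ∈ B, D x ∈ Submodule.span ↥A (G : Set F) := fun x hx => hstep_b x (hG₀ x hx)
  -- the local ring
  rintro ⟨x, s, hs, hsx⟩
  have hs0 : (s : F) ≠ 0 := sf79_ne_zero B n s hs
  have e1 : D ((s : F) * x) = (s : F) * D x + x * D (s : F) := hmul _ _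
  have e2 : D x = (s : F)⁻¹ * D ((s : F) * x) - ((s : F)⁻¹ * x) * D (s : F) := by
    rw [e1]; field_simp; ring
  show D x ∈ Submodule.span ↥A (G : Set F)
  rw [e2]
  have hsinv : (s : F)⁻¹ ∈ A := sf79_inv_mem_loc B n s hs
  have hxA : x ∈ A := ⟨s, hs, hsx⟩
  exact Submodule.sub_mem _ (hsm _ hsinv _ (hB _ hsx))
    (hsm _ (A.mul_mem hsinv hxA) _ (hB _ s.2))

/-- **A derivation preserves the local ring of a smooth point of the chart.**
`B` a noetherian chart, `n` a maximal ideal with `n B_n = (t, π)`; `D` additive with the Leibniz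
rule, zero on `R`, `D t ∈ B_n`; `q ∈ π R` and every element of `B` is a `q`-th power modulo `n`
(perfect residue field); `B` lies in the `R[h]`-span of a finite set (`h ∈ B`).
Then `D (B_n) ⊆ B_n`. -/
theorem dl93c_deriv_loc (π : R) (B : Subalgebra R F) [IsNoetherianRing B] (n : Ideal B)
    [hn : n.IsMaximal] (q : ℕ) (hq : ∃ u₀ : R, (q : R) = π * u₀)
    (D : F → F) (hadd : ∀ x y, D (x + y) = D x + D y)
    (hmul : ∀ x y, D (x * y) = x * D y + y * D x)
    (hDR : ∀ r : R, D (algebraMap R F r) = 0)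
    (t : B) (ht : t ∈ n) (hπ : algebraMap R B π ∈ n)
    (hgen : ∀ x ∈ n, ∃ s : B, s ∉ n ∧ ∃ a b : B, s * x = a * t + b * algebraMap R B π)
    (hperf : ∀ x : B, ∃ c : B, x - c ^ q ∈ n)
    (hDt : D (t : F) ∈ sf79_loc B n)
    (h : F) (hh : h ∈ B) (G₀ : Finset F)
    (hG₀ : ∀ x ∈ B, x ∈ Submodule.span (Algebra.adjoin R ({h} : Set F)) (G₀ : Set F)) :
    ∀ x ∈ sf79_loc B n, D x ∈ sf79_loc B n := by
  classical
  set A := sf79_loc B n with hA
  haveI : IsNoetherianRing ↥A := dl93c_noeth B n
  obtain ⟨G, hG⟩ := dl93c_fin B n D hadd hmul hDR h hh G₀ hG₀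
  let tA : ↥A := ⟨(t : F), sf79_le_loc B n _ t.2⟩
  let πA : ↥A := ⟨algebraMap R F π, sf79_le_loc B n _ (B.algebraMap_mem π)⟩
  set I : Ideal ↥A := Ideal.span {tA, πA} with hI
  -- elements of `I` lie in `n B_n`
  have hInm : ∀ x ∈ I, sf79_nmem B n (x : F) := by
    intro x hx
    induction hx using Submodule.span_induction with
    | mem y hy =>
      rcases hy with rfl | hy
      · exact sf79_nmem_of_mem B n t ht
      · rw [Set.mem_singleton_iff] at hy
        subst hy
        exact sf79_nmem_of_mem B n (algebraMap R B π) hπ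
    | zero => exact sf79_nmem_of_mem B n 0 n.zero_mem
    | add x y hx hy ihx ihy => exact sf79_nmem_add B n _ _ ihx ihy
    | smul a x hx ih => exact sf79_nmem_mul B n _ _ a.2 ih
  -- elements of `n` lie in `I`
  have hnI : ∀ y : B, y ∈ n → ∀ hy' : (y : F) ∈ A, (⟨(y : F), hy'⟩ : ↥A) ∈ I := by
    intro y hy hy'
    obtain ⟨s, hs, a, b, e⟩ := hgen y hy
    have hs0 : (s : F) ≠ 0 := sf79_ne_zero B n s hs
    have e' : (s : F) * (y : F) = (a : F) * (t : F) + (b : F) * algebraMap R F π := by
      have := congrArg (fun w : B => (w : F)) e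
      simpa using this
    have e2 : (⟨(y : F), hy'⟩ : ↥A)
        = (⟨(s : F)⁻¹ * (a : F), A.mul_mem (sf79_inv_mem_loc B n s hs)
            (sf79_le_loc B n _ a.2)⟩ : ↥A) * tA
          + (⟨(s : F)⁻¹ * (b : F), A.mul_mem (sf79_inv_mem_loc B n s hs)
            (sf79_le_loc B n _ b.2)⟩ : ↥A) * πA := by
      apply Subtype.ext
      show (y : F) = (s : F)⁻¹ * (a : F) * (t : F) + (s : F)⁻¹ * (b : F) * algebraMap R F π
      field_simp
      linear_combination e'
    rw [e2]
    exact I.add_mem (I.mul_mem_left _ (Ideal.subset_span (Set.mem_insert _ _)))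
      (I.mul_mem_left _ (Ideal.subset_span (Set.mem_insert_of_mem _ rfl)))
  have hres : ∀ x : ↥A, ∃ y : ↥A, D (algebraMap ↥A F x) = algebraMap ↥A F y := by
    refine dl93_deriv_mem' q D hadd hmul I ?_ ?_ ?_ {tA, πA} hI ?_ G hG
    · -- `I ≤ Jac`
      intro x hx
      rw [Ideal.mem_jacobson_bot]
      intro y
      obtain ⟨s, hs, b, hb, e⟩ := sf79_nmem_mul B n (y : F) (x : F) y.2 (hInm x hx)
      have hs0 : (s : F) ≠ 0 := sf79_ne_zero B n s hs
      have hbs : b + s ∉ n := fun hmem => hs (by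
        have := n.sub_mem hmem hb
        simpa using this)
      have hbs0 : ((b + s : B) : F) ≠ 0 := sf79_ne_zero B n _ hbs
      refine isUnit_iff_exists_inv.mpr
        ⟨⟨(s : F) * ((b + s : B) : F)⁻¹, A.mul_mem (sf79_le_loc B n _ s.2)
          (sf79_inv_mem_loc B n _ hbs)⟩, ?_⟩
      apply Subtype.ext
      show ((x : F) * (y : F) + 1) * ((s : F) * ((b + s : B) : F)⁻¹) = 1
      have e3 : ((x : F) * (y : F) + 1) * (s : F) = ((b + s : B) : F) := by
        push_cast
        rw [← e]; ring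
      rw [← mul_assoc, e3, mul_inv_cancel₀ hbs0]
    · -- `q ∈ I`
      obtain ⟨u₀, hu₀⟩ := hq
      have e : ((q : ℕ) : ↥A) = (⟨algebraMap R F u₀, sf79_le_loc B n _ (B.algebraMap_mem u₀)⟩ : ↥A)
          * πA := by
        apply Subtype.ext
        show ((q : ℕ) : F) = algebraMap R F u₀ * algebraMap R F π
        rw [← map_mul, mul_comm u₀ π, ← hu₀, map_natCast]
      rw [e]
      exact I.mul_mem_left _ (Ideal.subset_span (Set.mem_insert_of_mem _ rfl))
    · -- perfect residue field
      rintro ⟨x, s, hs, hsx⟩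
      obtain ⟨s', i, hi, e⟩ := hn.exists_inv hs
      obtain ⟨c, hc⟩ := hperf (⟨(s : F) * x, hsx⟩ * s')
      have hs0 : (s : F) ≠ 0 := sf79_ne_zero B n s hs
      have hxA : x ∈ A := ⟨s, hs, hsx⟩
      refine ⟨⟨(c : F), sf79_le_loc B n _ c.2⟩, ?_⟩
      have e' : (s' : F) * (s : F) + (i : F) = 1 := by
        have := congrArg (fun w : B => (w : F)) e
        simpa using this
      have e2 : (⟨x, hxA⟩ : ↥A) - (⟨(c : F), sf79_le_loc B n _ c.2⟩ : ↥A) ^ q
          = (⟨x, hxA⟩ : ↥A) * (⟨(i : F), sf79_le_loc B n _ i.2⟩ : ↥A)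
            + (⟨((⟨(s : F) * x, hsx⟩ * s' - c ^ q : B) : F), sf79_le_loc B n _ (Subtype.prop _)⟩ :
              ↥A) := by
        apply Subtype.ext
        show x - (c : F) ^ q = x * (i : F) + (((⟨(s : F) * x, hsx⟩ * s' - c ^ q : B)) : F)
        push_cast
        linear_combination (-x) * e'
      rw [e2]
      exact I.add_mem (I.mul_mem_left _ (hnI i hi _)) (hnI _ hc _)
    · -- `D t`, `D π`
      intro y hy
      rcases hy with rfl | hy
      · exact ⟨⟨D (t : F), hDt⟩, rfl⟩
      · rw [Set.mem_singleton_iff] at hy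
        subst hy
        exact ⟨0, by
          show D (algebraMap R F π) = 0
          exact hDR π⟩
  intro x hx
  obtain ⟨y, hy⟩ := hres ⟨x, hx⟩
  have : D x = (y : F) := hy
  rw [this]
  exact y.2

end DL93C

end Fermat.Agent.S36
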