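import Fermat.Agent.S36.RigidRoot68
import Fermat.Agent.S34.BranchInf93
import Fermat.Agent.S34.AtkinLehnerVal73
import Fermat.Agent.S34.Krull65

/-!
# S36 lab, row C-REGq-RIG (helper68), binder (a): the chart hypotheses of `rr68_root` at a good
level

* `rrb68_disc` : `hmax` + rank one (`harch`) give the discreteness hypothesis `hdisc`.
* `rrb68_two_gen` : a chart with Dedekind special fibre is 2-generated at every closed point of
  the special fibre (`n B_n = (z, π)`).
* `rrb68_chart_root` : `rr68_root` for a chart `pk15_chart R {x}` of `F_K(M)` with the Gauss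
  valuation ring `cm85_Vinf`, from: noetherian, fraction field, Dedekind special fibre,
  saturation.
* `rrb68_Block`, `rrb68_block_chart`, `rrb68_root_of_block` : the chart hypotheses as ONE Prop
  (literal shapes of `rr68_root` and of its twins), its proof for a chart of `F_K(M)`, and
  `rr68_root` from it.
* `rrb68_block_level2`, `rrb68_block_level3` : the block for the two affine charts of the
  Hauptmoduln `pk85_h2 K M`, `pk85_h3 K M` at a good level `M` (a unit of `R`).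
-/

set_option autoImplicit false
set_option linter.unusedSectionVars false
set_option linter.style.haveILetI false

open ModularCurve IntermediateField Polynomial

namespace Fermat.Agent.S36

open Fermat.Agent.S34 Fermat.Agent.S18 Fermat.Agent.S24 Fermat.Agent.S35

section Abs

variable {R F : Type*} [CommRing R] [Field F] [Algebra R F]

/-- Discreteness from `hmax` and rank one. -/
theorem rrb68_disc (π : R) (V : ValuationSubring F)
    (hmax : ∀ x ∈ V, x⁻¹ ∉ V → (algebraMap R F π)⁻¹ * x ∈ V)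
    (harch : ∀ x : F, x ≠ 0 → ∃ k : ℕ, (algebraMap R F π ^ k)⁻¹ * x ∉ V)
    (x : F) (hx : x ≠ 0) :
    ∃ k : ℤ, algebraMap R F π ^ k * x ∈ V ∧ (algebraMap R F π ^ k * x)⁻¹ ∈ V := by
  classical
  set p : F := algebraMap R F π with hp
  -- the case `x ∈ V`
  have key : ∀ y : F, y ≠ 0 → y ∈ V → ∃ k : ℕ, (p ^ k)⁻¹ * y ∈ V ∧ ((p ^ k)⁻¹ * y)⁻¹ ∈ V := by
    intro y hy0 hyV
    have hex := harch y hy0
    have hmin : ∀ {m : ℕ}, m < Nat.find hex → ¬ ((p ^ m)⁻¹ * y ∉ V) := fun {m} h => Nat.find_min hex h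
    have hspec := Nat.find_spec hex
    set k := Nat.find hex with hk
    have hk0 : k ≠ 0 := by
      intro h0
      rw [h0] at hspec
      simp at hspec
      exact hspec hyV
    obtain ⟨j, hj⟩ : ∃ j, k = j + 1 := ⟨k - 1, by omega⟩
    have hjV : (p ^ j)⁻¹ * y ∈ V := by
      by_contra hcon
      exact hmin (by omega : j < k) hcon
    refine ⟨j, hjV, ?_⟩
    by_contra hcon
    have h1 := hmax _ hjV hcon
    apply hspec
    have h2 : (p ^ k)⁻¹ * y = p⁻¹ * ((p ^ j)⁻¹ * y) := by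
      rw [hj, pow_succ, mul_inv, ← mul_assoc, mul_comm p⁻¹]
    rw [h2]
    exact h1
  rcases V.mem_or_inv_mem x with hxV | hxV
  · obtain ⟨k, h1, h2⟩ := key x hx hxV
    refine ⟨-(k : ℤ), ?_, ?_⟩
    · rw [zpow_neg, zpow_natCast]; exact h1
    · rw [zpow_neg, zpow_natCast]; exact h2
  · obtain ⟨k, h1, h2⟩ := key x⁻¹ (inv_ne_zero hx) hxV
    refine ⟨(k : ℤ), ?_, ?_⟩
    · have h3 : p ^ (k : ℤ) * x = ((p ^ k)⁻¹ * x⁻¹)⁻¹ := by
        rw [zpow_natCast, mul_inv, inv_inv, inv_inv]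
      rw [h3]; exact h2
    · have h3 : (p ^ (k : ℤ) * x)⁻¹ = (p ^ k)⁻¹ * x⁻¹ := by
        rw [zpow_natCast, mul_inv]
      rw [h3]; exact h1

/-- A chart with Dedekind special fibre is 2-generated at the closed points of the special
fibre. -/
theorem rrb68_two_gen (π : R) (B : Subalgebra R F)
    [IsDedekindDomain (B ⧸ Ideal.span {algebraMap R B π})]
    (n : Ideal B) (hn : n.IsMaximal) (hπn : algebraMap R B π ∈ n) :
    ∃ x y : B, x ∈ n ∧ y ∈ n ∧
      ∀ v ∈ n, ∃ s : B, s ∉ n ∧ ∃ a b : B, s * v = a * x + b * y := by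
  haveI := hn.isPrime
  have hPn : Ideal.span {algebraMap R B π} ≤ n := by
    rw [Ideal.span_le]
    intro y hy
    rw [Set.mem_singleton_iff] at hy
    rw [hy]; exact hπn
  obtain ⟨z, hz, hgen⟩ := ls63_unif_of_dedekind (Ideal.span {algebraMap R B π}) n hPn
  refine ⟨z, algebraMap R B π, hz, hπn, ?_⟩
  intro v hv
  obtain ⟨s, hs, a, ha⟩ := hgen v hv
  obtain ⟨b, hb⟩ := Ideal.mem_span_singleton'.mp ha
  refine ⟨s, hs, a, b, ?_⟩
  have : s * v = a * z + (s * v - a * z) := by ring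
  rw [this, ← hb]

end Abs

section Level

variable {R K : Type} [CommRing R] [IsDomain R] [IsDiscreteValuationRing R] [Field K] [CharZero K]
  [Algebra R K] [IsFractionRing R K]
  (M : ℕ) [NeZero M]
  [Algebra R ↥(modularFunctionFieldFullC K M)]
  [IsScalarTower R K ↥(modularFunctionFieldFullC K M)]

/-- **`rr68_root` for a chart of `F_K(M)` with the Gauss valuation ring**: noetherian, fraction
field, Dedekind special fibre and saturation are the only chart hypotheses. -/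
theorem rrb68_chart_root {π : R} (hπ : Irreducible π) (x : ↥(modularFunctionFieldFullC K M))
    (hxV : x ∈ cm85_Vinf (K := K) M hπ)
    (hN : IsNoetherianRing (pk15_chart R ({x} : Set ↥(modularFunctionFieldFullC K M))))
    (hfrac : ∀ t : ↥(modularFunctionFieldFullC K M),
      ∃ a ∈ pk15_chart R ({x} : Set ↥(modularFunctionFieldFullC K M)),
      ∃ b ∈ pk15_chart R ({x} : Set ↥(modularFunctionFieldFullC K M)), b ≠ 0 ∧ t * b = a)
    (hD : IsDedekindDomain (pk15_chart R ({x} : Set ↥(modularFunctionFieldFullC K M)) ⧸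
      Ideal.span {algebraMap R (pk15_chart R ({x} : Set ↥(modularFunctionFieldFullC K M))) π}))
    (hsat : cm15_Sat R π ({x} : Set ↥(modularFunctionFieldFullC K M))
      (cm85_Vinf (K := K) M hπ).toSubring)
    (n : Ideal (pk15_chart R ({x} : Set ↥(modularFunctionFieldFullC K M)))) (hn : n.IsMaximal)
    (hπn : algebraMap R (pk15_chart R ({x} : Set ↥(modularFunctionFieldFullC K M))) π ∈ n)
    (m : ℕ) (hm : 0 < m) (f : ↥(modularFunctionFieldFullC K M)) (hf : f ≠ 0)
    (hfB : ∃ s : pk15_chart R ({x} : Set ↥(modularFunctionFieldFullC K M)), s ∉ n ∧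
      (s : ↥(modularFunctionFieldFullC K M)) * f ∈
        pk15_chart R ({x} : Set ↥(modularFunctionFieldFullC K M)))
    (hfV : f ∈ cm85_Vinf (K := K) M hπ) (hfV' : f⁻¹ ∈ cm85_Vinf (K := K) M hπ)
    (hOrd : ∀ O : ValuationSubring ↥(modularFunctionFieldFullC K M), s34i47_IsHoriz π O →
      s34i47_Through (pk15_chart R ({x} : Set ↥(modularFunctionFieldFullC K M))) n O →
      ∃ ε w : ↥(modularFunctionFieldFullC K M), ε ∈ O ∧ ε⁻¹ ∈ O ∧ f = ε * w ^ m)
    (hFin : {O : ValuationSubring ↥(modularFunctionFieldFullC K M) | s34i47_IsHoriz π O ∧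
      s34i47_Through (pk15_chart R ({x} : Set ↥(modularFunctionFieldFullC K M))) n O ∧
      ¬ (f ∈ O ∧ f⁻¹ ∈ O)}.Finite) :
    ∃ c u : ↥(modularFunctionFieldFullC K M),
      (∃ s : pk15_chart R ({x} : Set ↥(modularFunctionFieldFullC K M)), s ∉ n ∧
        (s : ↥(modularFunctionFieldFullC K M)) * c ∈
          pk15_chart R ({x} : Set ↥(modularFunctionFieldFullC K M))) ∧
      (∃ s : pk15_chart R ({x} : Set ↥(modularFunctionFieldFullC K M)), s ∉ n ∧
        (s : ↥(modularFunctionFieldFullC K M)) * u ∈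
          pk15_chart R ({x} : Set ↥(modularFunctionFieldFullC K M))) ∧
      (∃ s : pk15_chart R ({x} : Set ↥(modularFunctionFieldFullC K M)), s ∉ n ∧
        (s : ↥(modularFunctionFieldFullC K M)) * u⁻¹ ∈
          pk15_chart R ({x} : Set ↥(modularFunctionFieldFullC K M))) ∧
      f = u * c ^ m := by
  have hπ0 : algebraMap R ↥(modularFunctionFieldFullC K M) π ≠ 0 := by
    rw [IsScalarTower.algebraMap_apply R K ↥(modularFunctionFieldFullC K M)]
    intro h0
    have h1 : algebraMap R K π = 0 :=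
      (map_eq_zero (algebraMap K ↥(modularFunctionFieldFullC K M))).mp h0
    exact hπ.ne_zero ((IsFractionRing.injective R K) (by rw [h1, map_zero]))
  have hRV : ∀ r : R, algebraMap R ↥(modularFunctionFieldFullC K M) r ∈
      cm85_Vinf (K := K) M hπ := pk85_hRV M hπ
  have hBV : ∀ y ∈ pk15_chart R ({x} : Set ↥(modularFunctionFieldFullC K M)),
      y ∈ cm85_Vinf (K := K) M hπ :=
    pk15_chart_le_V _ hRV _ (fun g hg => by rw [Set.mem_singleton_iff.mp hg]; exact hxV)
  have hmax : ∀ y ∈ cm85_Vinf (K := K) M hπ, y⁻¹ ∉ cm85_Vinf (K := K) M hπ →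
      (algebraMap R ↥(modularFunctionFieldFullC K M) π)⁻¹ * y ∈ cm85_Vinf (K := K) M hπ := by
    intro y hy hy'
    rw [alv73_pi_eq]
    exact alv73_hmax_Vinf M hπ y hy hy'
  have harch : ∀ y : ↥(modularFunctionFieldFullC K M), y ≠ 0 →
      ∃ k : ℕ, (algebraMap R ↥(modularFunctionFieldFullC K M) π ^ k)⁻¹ * y ∉
        cm85_Vinf (K := K) M hπ := by
    intro y hy
    rw [alv73_pi_eq]
    exact alv73_harch M hπ y hy
  have hdisc := rrb68_disc π (cm85_Vinf (K := K) M hπ) hmax harch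
  have h2 := rrb68_two_gen π (pk15_chart R ({x} : Set ↥(modularFunctionFieldFullC K M))) n hn hπn
  have hKr := kr65_krull π hπ0 (pk15_chart R ({x} : Set ↥(modularFunctionFieldFullC K M)))
    (kr65_chart_closed _) hfrac n hn hπn
  exact rr68_root π hπ0 _ hfrac n hn hπn h2 (cm85_Vinf (K := K) M hπ) hBV hmax hdisc hsat hKr
    m hm f hf hfB hfV hfV' hOrd hFin

/-- **The chart block** (helper68): the hypotheses of `rr68_root` (and of its twins `rs96_spec`,
`rs96_spec_chart`, `rc43_root`, `rp28_unit_pow`) which only depend on the chart `B` and the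
vertical valuation ring `V`, in their literal shapes: noetherian, fraction field, `B ⊆ V`,
saturation, `hmax`, `harch`, `hdisc`, and at every closed point of the special fibre:
2-generation and the Krull clause. -/
def rrb68_Block {R F : Type*} [CommRing R] [Field F] [Algebra R F] (π : R) (B : Subalgebra R F)
    (V : ValuationSubring F) : Prop :=
  IsNoetherianRing B ∧
  (∀ t : F, ∃ a ∈ B, ∃ b ∈ B, b ≠ 0 ∧ t * b = a) ∧
  (∀ x ∈ B, x ∈ V) ∧
  (∀ x ∈ B, (algebraMap R F π)⁻¹ * x ∈ V → (algebraMap R F π)⁻¹ * x ∈ B) ∧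
  (∀ x ∈ V, x⁻¹ ∉ V → (algebraMap R F π)⁻¹ * x ∈ V) ∧
  (∀ x : F, x ≠ 0 → ∃ k : ℕ, (algebraMap R F π ^ k)⁻¹ * x ∉ V) ∧
  (∀ x : F, x ≠ 0 → ∃ k : ℤ, algebraMap R F π ^ k * x ∈ V ∧
    (algebraMap R F π ^ k * x)⁻¹ ∈ V) ∧
  ∀ n : Ideal B, n.IsMaximal → algebraMap R B π ∈ n →
    (∃ x y : B, x ∈ n ∧ y ∈ n ∧
      ∀ v ∈ n, ∃ s : B, s ∉ n ∧ ∃ a b : B, s * v = a * x + b * y) ∧
    (∀ x : F,
      (∀ O : ValuationSubring F, s34i47_IsHoriz π O → s34i47_Through B n O → x ∈ O) →
      ∃ s : B, s ∉ n ∧ ∃ k : ℕ, algebraMap R F π ^ k * ((s : F) * x) ∈ B)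

/-- `rr68_root` from the chart block. -/
theorem rrb68_root_of_block {R F : Type*} [CommRing R] [Field F] [Algebra R F] (π : R)
    (hπ0 : algebraMap R F π ≠ 0) (B : Subalgebra R F) (V : ValuationSubring F)
    (hblk : rrb68_Block π B V)
    (n : Ideal B) (hn : n.IsMaximal) (hπn : algebraMap R B π ∈ n)
    (m : ℕ) (hm : 0 < m) (f : F) (hf : f ≠ 0)
    (hfB : ∃ s : B, s ∉ n ∧ (s : F) * f ∈ B) (hfV : f ∈ V) (hfV' : f⁻¹ ∈ V)
    (hOrd : ∀ O : ValuationSubring F, s34i47_IsHoriz π O → s34i47_Through B n O →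
      ∃ ε w : F, ε ∈ O ∧ ε⁻¹ ∈ O ∧ f = ε * w ^ m)
    (hFin : {O : ValuationSubring F | s34i47_IsHoriz π O ∧ s34i47_Through B n O ∧
      ¬ (f ∈ O ∧ f⁻¹ ∈ O)}.Finite) :
    ∃ c u : F, (∃ s : B, s ∉ n ∧ (s : F) * c ∈ B) ∧ (∃ s : B, s ∉ n ∧ (s : F) * u ∈ B) ∧
      (∃ s : B, s ∉ n ∧ (s : F) * u⁻¹ ∈ B) ∧ f = u * c ^ m := by
  obtain ⟨hN, hfrac, hBV, hsat, hmax, -, hdisc, hpt⟩ := hblk
  haveI := hN
  obtain ⟨h2, hKr⟩ := hpt n hn hπn
  exact rr68_root π hπ0 B hfrac n hn hπn h2 V hBV hmax hdisc hsat hKr m hm f hf hfB hfV hfV'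
    hOrd hFin

/-- **The chart block for a chart of `F_K(M)` with the Gauss valuation ring.** -/
theorem rrb68_block_chart {π : R} (hπ : Irreducible π) (x : ↥(modularFunctionFieldFullC K M))
    (hxV : x ∈ cm85_Vinf (K := K) M hπ)
    (hN : IsNoetherianRing (pk15_chart R ({x} : Set ↥(modularFunctionFieldFullC K M))))
    (hfrac : ∀ t : ↥(modularFunctionFieldFullC K M),
      ∃ a ∈ pk15_chart R ({x} : Set ↥(modularFunctionFieldFullC K M)),
      ∃ b ∈ pk15_chart R ({x} : Set ↥(modularFunctionFieldFullC K M)), b ≠ 0 ∧ t * b = a)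
    (hD : IsDedekindDomain (pk15_chart R ({x} : Set ↥(modularFunctionFieldFullC K M)) ⧸
      Ideal.span {algebraMap R (pk15_chart R ({x} : Set ↥(modularFunctionFieldFullC K M))) π}))
    (hsat : cm15_Sat R π ({x} : Set ↥(modularFunctionFieldFullC K M))
      (cm85_Vinf (K := K) M hπ).toSubring) :
    rrb68_Block π (pk15_chart R ({x} : Set ↥(modularFunctionFieldFullC K M)))
      (cm85_Vinf (K := K) M hπ) := by
  have hπ0 : algebraMap R ↥(modularFunctionFieldFullC K M) π ≠ 0 := by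
    rw [IsScalarTower.algebraMap_apply R K ↥(modularFunctionFieldFullC K M)]
    intro h0
    have h1 : algebraMap R K π = 0 :=
      (map_eq_zero (algebraMap K ↥(modularFunctionFieldFullC K M))).mp h0
    exact hπ.ne_zero ((IsFractionRing.injective R K) (by rw [h1, map_zero]))
  have hRV : ∀ r : R, algebraMap R ↥(modularFunctionFieldFullC K M) r ∈
      cm85_Vinf (K := K) M hπ := pk85_hRV M hπ
  have hBV : ∀ y ∈ pk15_chart R ({x} : Set ↥(modularFunctionFieldFullC K M)),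
      y ∈ cm85_Vinf (K := K) M hπ :=
    pk15_chart_le_V _ hRV _ (fun g hg => by rw [Set.mem_singleton_iff.mp hg]; exact hxV)
  have hmax : ∀ y ∈ cm85_Vinf (K := K) M hπ, y⁻¹ ∉ cm85_Vinf (K := K) M hπ →
      (algebraMap R ↥(modularFunctionFieldFullC K M) π)⁻¹ * y ∈ cm85_Vinf (K := K) M hπ := by
    intro y hy hy'
    rw [alv73_pi_eq]
    exact alv73_hmax_Vinf M hπ y hy hy'
  have harch : ∀ y : ↥(modularFunctionFieldFullC K M), y ≠ 0 →
      ∃ k : ℕ, (algebraMap R ↥(modularFunctionFieldFullC K M) π ^ k)⁻¹ * y ∉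
        cm85_Vinf (K := K) M hπ := by
    intro y hy
    rw [alv73_pi_eq]
    exact alv73_harch M hπ y hy
  have hdisc := rrb68_disc π (cm85_Vinf (K := K) M hπ) hmax harch
  refine ⟨hN, hfrac, hBV, hsat, hmax, harch, hdisc, ?_⟩
  intro n hn hπn
  exact ⟨rrb68_two_gen π (pk15_chart R ({x} : Set ↥(modularFunctionFieldFullC K M))) n hn hπn,
    kr65_krull π hπ0 (pk15_chart R ({x} : Set ↥(modularFunctionFieldFullC K M)))
      (kr65_chart_closed _) hfrac n hn hπn⟩

end Level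

section Inst

local notation "Q̄" => AlgebraicClosure ℚ

variable {R K : Type} [CommRing R] [IsDomain R] [IsDiscreteValuationRing R] [Field K] [CharZero K]
  [Algebra R K] [IsFractionRing R K] [Algebra K Q̄] [Algebra.IsAlgebraic K Q̄]
  (M : ℕ) [NeZero M]
  [Algebra R ↥(modularFunctionFieldFullC K M)]
  [IsScalarTower R K ↥(modularFunctionFieldFullC K M)]

/-- **Level 2**: the chart block for both affine charts of `h = pk85_h2 K M` at a good level
`M` (`2 ∣ M`, `M` a unit of `R`), with the Gauss valuation ring. -/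
theorem rrb68_block_level2 {π : R} (hπ : Irreducible π) (h2 : 2 ∣ M) (hMu : IsUnit (M : R)) :
    rrb68_Block π (pk15_chart R ({pk85_h2 K M h2} : Set ↥(modularFunctionFieldFullC K M)))
        (cm85_Vinf (K := K) M hπ) ∧
      rrb68_Block π (pk15_chart R ({(pk85_h2 K M h2)⁻¹} : Set ↥(modularFunctionFieldFullC K M)))
        (cm85_Vinf (K := K) M hπ) := by
  obtain ⟨-, -, -, -, hhV, hhV', hN₁, hN₂, -, -, hfrac₁, hfrac₂, -⟩ :=
    cm85_facts_level2 (R := R) (K := K) M hπ h2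
  obtain ⟨hs₁, hs₂, -⟩ := cm15_base_sat_level2 (R := R) (K := K) M hπ h2 hMu
  obtain ⟨⟨hD₁, -⟩, ⟨hD₂, -⟩⟩ := sm79_level2 (R := R) K M hπ hMu h2
  exact ⟨rrb68_block_chart M hπ _ hhV hN₁ hfrac₁ hD₁ hs₁,
    rrb68_block_chart M hπ _ hhV' hN₂ hfrac₂ hD₂ hs₂⟩

/-- **Level 3**: the chart block for both affine charts of `h = pk85_h3 K M` at a good level
`M` (`3 ∣ M`, `M` a unit of `R`), with the Gauss valuation ring. -/
theorem rrb68_block_level3 {π : R} (hπ : Irreducible π) (h3 : 3 ∣ M) (hMu : IsUnit (M : R)) :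
    rrb68_Block π (pk15_chart R ({pk85_h3 K M h3} : Set ↥(modularFunctionFieldFullC K M)))
        (cm85_Vinf (K := K) M hπ) ∧
      rrb68_Block π (pk15_chart R ({(pk85_h3 K M h3)⁻¹} : Set ↥(modularFunctionFieldFullC K M)))
        (cm85_Vinf (K := K) M hπ) := by
  obtain ⟨-, -, -, -, hhV, hhV', hN₁, hN₂, -, -, hfrac₁, hfrac₂, -⟩ :=
    cm85_facts_level3 (R := R) (K := K) M hπ h3
  obtain ⟨hs₁, hs₂, -⟩ := cm15_base_sat_level3 (R := R) (K := K) M hπ h3 hMu
  obtain ⟨⟨hD₁, -⟩, ⟨hD₂, -⟩⟩ := sm79_level3 (R := R) K M hπ hMu h3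
  exact ⟨rrb68_block_chart M hπ _ hhV hN₁ hfrac₁ hD₁ hs₁,
    rrb68_block_chart M hπ _ hhV' hN₂ hfrac₂ hD₂ hs₂⟩

end Inst

end Fermat.Agent.S36
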