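import Fermat.Agent.S36.GxPlace95
import Fermat.Agent.S36.DerivChart93
import Fermat.Agent.S36.ChartPerf93
import Fermat.Agent.S36.RigidBind68
import Fermat.Agent.S34.ResField25
import Fermat.Agent.S18.SmoothAsm79

/-!
# S36 lab, row 600 (C-C2), uniform coordinate route (seat 27): the COORDINATE PACKAGE at a good
level

`F = modularFunctionFieldFullC K M`, `B = pk15_chart R {g}` a chart whose special fibre is a
Dedekind domain (`sm79_ChartOut R π g`: a good level), `n` a closed point of the special fibre.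

* `cg27_theta_ne_zero` : `θ x ≠ 0` for a non-constant `x ∈ F`.
* `cg27_coord` : there is a LOCAL COORDINATE `x ∈ B` at `n`:
  `x ∈ n`, `θ x ≠ 0`, `n B_n = (x, π)` (in the literal `hgen` shape of `dl93c_deriv_loc`), and
  `D_x = tf69_Dx K M x = θ(·)/θ(x)` PRESERVES the local ring `sf79_loc B n`
  (= the inputs `x`, `hxA`, `hθx`, `hDA` of `gxp95_unit`).
  [`x` = a uniformiser `z` of the Dedekind fibre at `n` (`ls63_unif_of_dedekind`), replaced by
  `z + π g` if `θ z = 0`; `dl93c_deriv_loc` with `cp93_perf_chart_dvr`.]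
* `cg27_coord_level2` / `_level2_inv` / `_level3` / `_level3_inv` : the same on the four charts
  `{h}`, `{h⁻¹}` of `h = pk85_h2 K M`, `pk85_h3 K M` at a good level `M` (a unit of `R`), `K` a
  number field, `q = π u₀` the residue characteristic.
* `cg27_base` : `K`-algebraicity of `ℚ̄` and finiteness of the residue field of `R`.

Consumer: `gxp95_unit` / `gxq95_datum` (`G_x` is a unit of `B_n`), then `c2x11_mid_dvd`.

All names are prefixed `cg27_`.
-/

set_option autoImplicit false
set_option linter.style.longLine false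
set_option linter.unusedVariables false
set_option linter.unusedSectionVars false
set_option linter.style.haveILetI false

open ModularCurve AlgebraicCurve

namespace Fermat.Agent.S36

open Fermat.Agent.S18 Fermat.Agent.S24 Fermat.Agent.S28 Fermat.Agent.S34

local notation "Q̄" => AlgebraicClosure ℚ

section Abs

variable {R : Type} [CommRing R] [IsDomain R] [IsDiscreteValuationRing R]
  (K : Type) [Field K] [CharZero K] [Algebra R K] [IsFractionRing R K] (M : ℕ) [NeZero M]
  [Algebra R ↥(modularFunctionFieldFullC K M)]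
  [IsScalarTower R K ↥(modularFunctionFieldFullC K M)]

/-- `θ x ≠ 0` for a non-constant element of the modular function field. -/
theorem cg27_theta_ne_zero (x : ↥(modularFunctionFieldFullC K M))
    (hx : ∀ c : K, x ≠ algebraMap K ↥(modularFunctionFieldFullC K M) c) :
    partC_theta (x : LaurentSeries K) ≠ 0 := by
  intro h0
  have h1 := (tf69_theta_eq_zero_iff K (x : LaurentSeries K)).mp h0
  apply hx ((x : LaurentSeries K).coeff 0)
  refine Subtype.ext (h1.trans ?_)
  show HahnSeries.C ((x : LaurentSeries K).coeff 0) =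
    algebraMap K (LaurentSeries K) ((x : LaurentSeries K).coeff 0)
  have h2 : algebraMap K (PowerSeries K) ((x : LaurentSeries K).coeff 0) =
      PowerSeries.C ((x : LaurentSeries K).coeff 0) := by simp
  rw [HahnSeries.algebraMap_apply', h2, HahnSeries.ofPowerSeries_C]

/-- `θ x ≠ 0` for a transcendental element. -/
theorem cg27_theta_ne_zero_of_transcendental (x : ↥(modularFunctionFieldFullC K M))
    (hx : Transcendental K x) : partC_theta (x : LaurentSeries K) ≠ 0 := by
  refine cg27_theta_ne_zero K M x (fun c hc => hx ?_)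
  rw [hc]
  exact isAlgebraic_algebraMap c

/-- `θ x⁻¹ ≠ 0` for a transcendental element. -/
theorem cg27_theta_inv_ne_zero_of_transcendental (x : ↥(modularFunctionFieldFullC K M))
    (hx : Transcendental K x) : partC_theta ((x⁻¹ : ↥(modularFunctionFieldFullC K M)) : LaurentSeries K) ≠ 0 := by
  refine cg27_theta_ne_zero K M x⁻¹ (fun c hc => hx ?_)
  have h1 : x = algebraMap K ↥(modularFunctionFieldFullC K M) c⁻¹ := by
    rw [map_inv₀, ← hc, inv_inv]
  rw [h1]
  exact isAlgebraic_algebraMap c⁻¹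

/-- **The coordinate package at a closed point of a chart with Dedekind special fibre.** -/
theorem cg27_coord [Finite (IsLocalRing.ResidueField R)] {π : R} (hπ : Irreducible π) (q : ℕ)
    (hq : q.Prime) (hqπ : ∃ u₀ : R, (q : R) = π * u₀)
    (g : ↥(modularFunctionFieldFullC K M))
    (hθg : partC_theta (g : LaurentSeries K) ≠ 0)
    (hC : sm79_ChartOut R π g)
    (n : Ideal (pk15_chart R ({g} : Set ↥(modularFunctionFieldFullC K M)))) [hn : n.IsMaximal]
    (hπn : algebraMap R (pk15_chart R ({g} : Set ↥(modularFunctionFieldFullC K M))) π ∈ n) :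
    ∃ x : pk15_chart R ({g} : Set ↥(modularFunctionFieldFullC K M)), x ∈ n ∧
      partC_theta (((x : ↥(modularFunctionFieldFullC K M)) : LaurentSeries K)) ≠ 0 ∧
      (∀ v ∈ n, ∃ s : pk15_chart R ({g} : Set ↥(modularFunctionFieldFullC K M)), s ∉ n ∧
        ∃ a b : pk15_chart R ({g} : Set ↥(modularFunctionFieldFullC K M)),
          s * v = a * x +
            b * algebraMap R (pk15_chart R ({g} : Set ↥(modularFunctionFieldFullC K M))) π) ∧
      ∀ y ∈ sf79_loc (pk15_chart R ({g} : Set ↥(modularFunctionFieldFullC K M))) n,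
        tf69_Dx K M (x : ↥(modularFunctionFieldFullC K M)) y ∈
          sf79_loc (pk15_chart R ({g} : Set ↥(modularFunctionFieldFullC K M))) n := by
  classical
  obtain ⟨hD, hN, ⟨G, hG⟩, -⟩ := hC
  haveI := hD
  haveI := hN
  have hqR : ¬ IsUnit (q : R) := by
    obtain ⟨u₀, hu₀⟩ := hqπ
    rw [hu₀]
    exact fun h => hπ.not_isUnit (isUnit_of_mul_isUnit_left h)
  have hPn : Ideal.span {algebraMap R (pk15_chart R ({g} : Set ↥(modularFunctionFieldFullC K M))) π}
      ≤ n := by
    rw [Ideal.span_le]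
    intro y hy
    rw [Set.mem_singleton_iff] at hy
    rw [hy]
    exact hπn
  obtain ⟨z, hz, hgen0⟩ := ls63_unif_of_dedekind
    (Ideal.span {algebraMap R (pk15_chart R ({g} : Set ↥(modularFunctionFieldFullC K M))) π}) n hPn
  have hgenz : ∀ v ∈ n, ∃ s : pk15_chart R ({g} : Set ↥(modularFunctionFieldFullC K M)), s ∉ n ∧
      ∃ a b : pk15_chart R ({g} : Set ↥(modularFunctionFieldFullC K M)),
        s * v = a * z +
          b * algebraMap R (pk15_chart R ({g} : Set ↥(modularFunctionFieldFullC K M))) π := by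
    intro v hv
    obtain ⟨s, hs, a, ha⟩ := hgen0 v hv
    obtain ⟨b, hb⟩ := Ideal.mem_span_singleton'.mp ha
    exact ⟨s, hs, a, b, by rw [hb]; ring⟩
  have hgB : g ∈ pk15_chart R ({g} : Set ↥(modularFunctionFieldFullC K M)) :=
    pk15_subset_chart _ (Set.mem_singleton _)
  -- the derivation step, for any coordinate with `θ ≠ 0`
  have key : ∀ x : pk15_chart R ({g} : Set ↥(modularFunctionFieldFullC K M)), x ∈ n →
      partC_theta (((x : ↥(modularFunctionFieldFullC K M)) : LaurentSeries K)) ≠ 0 →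
      (∀ v ∈ n, ∃ s : pk15_chart R ({g} : Set ↥(modularFunctionFieldFullC K M)), s ∉ n ∧
        ∃ a b : pk15_chart R ({g} : Set ↥(modularFunctionFieldFullC K M)),
          s * v = a * x +
            b * algebraMap R (pk15_chart R ({g} : Set ↥(modularFunctionFieldFullC K M))) π) →
      ∀ y ∈ sf79_loc (pk15_chart R ({g} : Set ↥(modularFunctionFieldFullC K M))) n,
        tf69_Dx K M (x : ↥(modularFunctionFieldFullC K M)) y ∈
          sf79_loc (pk15_chart R ({g} : Set ↥(modularFunctionFieldFullC K M))) n := by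
    intro x hx hθx hgenx
    refine dl93c_deriv_loc π (pk15_chart R ({g} : Set ↥(modularFunctionFieldFullC K M))) n q hqπ
      (tf69_Dx K M (x : ↥(modularFunctionFieldFullC K M))) (tf69_Dx_add K M _)
      (fun a b => tf69_Dx_mul K M _ a b) ?_ x hx hπn hgenx
      (cp93_perf_chart_dvr q hq hqR π hπ g n hπn) ?_ g hgB G hG
    · intro r
      rw [IsScalarTower.algebraMap_apply R K ↥(modularFunctionFieldFullC K M)]
      exact tf69_Dx_algebraMap K M _ _
    · rw [tf69_Dx_self K M _ hθx]
      exact (sf79_loc (pk15_chart R ({g} : Set ↥(modularFunctionFieldFullC K M))) n).one_mem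
  by_cases hθz : partC_theta (((z : ↥(modularFunctionFieldFullC K M)) : LaurentSeries K)) = 0
  · -- `θ z = 0`: take `x = z + π g`
    have hπK : algebraMap R K π ≠ 0 := fun h0 =>
      hπ.ne_zero ((IsFractionRing.injective R K) (by rw [h0, map_zero]))
    have hxn : z + algebraMap R (pk15_chart R ({g} : Set ↥(modularFunctionFieldFullC K M))) π *
        (⟨g, hgB⟩ : pk15_chart R ({g} : Set ↥(modularFunctionFieldFullC K M))) ∈ n :=
      n.add_mem hz (n.mul_mem_right _ hπn)
    have e0 : ((z + algebraMap R (pk15_chart R ({g} : Set ↥(modularFunctionFieldFullC K M))) π *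
        (⟨g, hgB⟩ : pk15_chart R ({g} : Set ↥(modularFunctionFieldFullC K M))) :
          pk15_chart R ({g} : Set ↥(modularFunctionFieldFullC K M))) :
            ↥(modularFunctionFieldFullC K M)) =
        (z : ↥(modularFunctionFieldFullC K M)) +
          algebraMap K ↥(modularFunctionFieldFullC K M) (algebraMap R K π) * g := by
      rw [Subalgebra.coe_add, Subalgebra.coe_mul, Subalgebra.coe_algebraMap,
        IsScalarTower.algebraMap_apply R K ↥(modularFunctionFieldFullC K M)]
    have hθx : partC_theta (((z +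
        algebraMap R (pk15_chart R ({g} : Set ↥(modularFunctionFieldFullC K M))) π *
        (⟨g, hgB⟩ : pk15_chart R ({g} : Set ↥(modularFunctionFieldFullC K M))) :
          pk15_chart R ({g} : Set ↥(modularFunctionFieldFullC K M))) :
            ↥(modularFunctionFieldFullC K M)) : LaurentSeries K) ≠ 0 := by
      rw [e0]
      show partC_theta (((z : ↥(modularFunctionFieldFullC K M)) : LaurentSeries K) +
        algebraMap K (LaurentSeries K) (algebraMap R K π) * (g : LaurentSeries K)) ≠ 0
      rw [map_add, hθz, zero_add, Derivation.leibniz, Derivation.map_algebraMap, smul_zero,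
        add_zero, smul_eq_mul]
      refine mul_ne_zero ?_ hθg
      rw [Ne, map_eq_zero]
      exact hπK
    have hgenx : ∀ v ∈ n, ∃ s : pk15_chart R ({g} : Set ↥(modularFunctionFieldFullC K M)), s ∉ n ∧
        ∃ a b : pk15_chart R ({g} : Set ↥(modularFunctionFieldFullC K M)),
          s * v = a * (z + algebraMap R (pk15_chart R ({g} : Set ↥(modularFunctionFieldFullC K M))) π *
              (⟨g, hgB⟩ : pk15_chart R ({g} : Set ↥(modularFunctionFieldFullC K M)))) +
            b * algebraMap R (pk15_chart R ({g} : Set ↥(modularFunctionFieldFullC K M))) π := by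
      intro v hv
      obtain ⟨s, hs, a, b, hab⟩ := hgenz v hv
      exact ⟨s, hs, a, b - a * ⟨g, hgB⟩, by rw [hab]; ring⟩
    exact ⟨_, hxn, hθx, hgenx, key _ hxn hθx hgenx⟩
  · exact ⟨z, hz, hθz, hgenz, key z hz hθz hgenz⟩

end Abs

section Inst

variable {R : Type} [CommRing R] [IsDomain R] [IsDiscreteValuationRing R]
  (K : Type) [Field K] [NumberField K] [Algebra K Q̄] [Algebra R K] [IsFractionRing R K]
  (M : ℕ) [NeZero M]
  [Algebra R ↥(modularFunctionFieldFullC K M)]
  [IsScalarTower R K ↥(modularFunctionFieldFullC K M)]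

/-- `K`-algebraicity of `ℚ̄` and finiteness of the residue field of the base. -/
theorem cg27_base {π : R} (hπ : Irreducible π) (q : ℕ) (hq : q.Prime)
    (hqπ : ∃ u₀ : R, (q : R) = π * u₀) (hinj : Function.Injective (algebraMap R K)) :
    Algebra.IsAlgebraic K Q̄ ∧ Finite (IsLocalRing.ResidueField R) := by
  have hqR : ¬ IsUnit (q : R) := by
    obtain ⟨u₀, hu₀⟩ := hqπ
    rw [hu₀]
    exact fun h => hπ.not_isUnit (isUnit_of_mul_isUnit_left h)
  refine ⟨?_, rf25_finite (K := K) hinj hq hqR⟩
  haveI : Algebra.IsAlgebraic ℚ Q̄ := AlgebraicClosure.isAlgebraic ℚ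
  exact Algebra.IsAlgebraic.tower_top (K := ℚ) K

/-- **Coordinate package, level 2, chart `{h₂}`** (good level). -/
theorem cg27_coord_level2 {π : R} (hπ : Irreducible π) (q : ℕ) (hq : q.Prime)
    (hqπ : ∃ u₀ : R, (q : R) = π * u₀) (hMu : IsUnit (M : R)) (h2 : 2 ∣ M)
    (n : Ideal (pk15_chart R ({pk85_h2 K M h2} : Set ↥(modularFunctionFieldFullC K M))))
    [hn : n.IsMaximal]
    (hπn : algebraMap R (pk15_chart R ({pk85_h2 K M h2} : Set ↥(modularFunctionFieldFullC K M))) π
      ∈ n) :
    ∃ x : pk15_chart R ({pk85_h2 K M h2} : Set ↥(modularFunctionFieldFullC K M)), x ∈ n ∧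
      partC_theta (((x : ↥(modularFunctionFieldFullC K M)) : LaurentSeries K)) ≠ 0 ∧
      (∀ v ∈ n, ∃ s : pk15_chart R ({pk85_h2 K M h2} : Set ↥(modularFunctionFieldFullC K M)),
        s ∉ n ∧
        ∃ a b : pk15_chart R ({pk85_h2 K M h2} : Set ↥(modularFunctionFieldFullC K M)),
          s * v = a * x + b * algebraMap R
            (pk15_chart R ({pk85_h2 K M h2} : Set ↥(modularFunctionFieldFullC K M))) π) ∧
      ∀ y ∈ sf79_loc (pk15_chart R ({pk85_h2 K M h2} : Set ↥(modularFunctionFieldFullC K M))) n,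
        tf69_Dx K M (x : ↥(modularFunctionFieldFullC K M)) y ∈
          sf79_loc (pk15_chart R ({pk85_h2 K M h2} : Set ↥(modularFunctionFieldFullC K M))) n := by
  obtain ⟨hAlg, hFinRes⟩ := cg27_base K hπ q hq hqπ (IsFractionRing.injective R K)
  haveI := hAlg
  haveI := hFinRes
  obtain ⟨hC₁, -⟩ := sm79_level2 (R := R) K M hπ hMu h2
  exact cg27_coord K M hπ q hq hqπ (pk85_h2 K M h2)
    (cg27_theta_ne_zero_of_transcendental K M _ (pk85_h2_transcendental K M h2)) hC₁ n hπn

/-- **Coordinate package, level 2, chart `{h₂⁻¹}`** (good level). -/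
theorem cg27_coord_level2_inv {π : R} (hπ : Irreducible π) (q : ℕ) (hq : q.Prime)
    (hqπ : ∃ u₀ : R, (q : R) = π * u₀) (hMu : IsUnit (M : R)) (h2 : 2 ∣ M)
    (n : Ideal (pk15_chart R ({(pk85_h2 K M h2)⁻¹} : Set ↥(modularFunctionFieldFullC K M))))
    [hn : n.IsMaximal]
    (hπn : algebraMap R
      (pk15_chart R ({(pk85_h2 K M h2)⁻¹} : Set ↥(modularFunctionFieldFullC K M))) π ∈ n) :
    ∃ x : pk15_chart R ({(pk85_h2 K M h2)⁻¹} : Set ↥(modularFunctionFieldFullC K M)), x ∈ n ∧
      partC_theta (((x : ↥(modularFunctionFieldFullC K M)) : LaurentSeries K)) ≠ 0 ∧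
      (∀ v ∈ n, ∃ s : pk15_chart R ({(pk85_h2 K M h2)⁻¹} : Set ↥(modularFunctionFieldFullC K M)),
        s ∉ n ∧
        ∃ a b : pk15_chart R ({(pk85_h2 K M h2)⁻¹} : Set ↥(modularFunctionFieldFullC K M)),
          s * v = a * x + b * algebraMap R
            (pk15_chart R ({(pk85_h2 K M h2)⁻¹} : Set ↥(modularFunctionFieldFullC K M))) π) ∧
      ∀ y ∈ sf79_loc (pk15_chart R ({(pk85_h2 K M h2)⁻¹} : Set ↥(modularFunctionFieldFullC K M))) n,
        tf69_Dx K M (x : ↥(modularFunctionFieldFullC K M)) y ∈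
          sf79_loc (pk15_chart R ({(pk85_h2 K M h2)⁻¹} : Set ↥(modularFunctionFieldFullC K M))) n := by
  obtain ⟨hAlg, hFinRes⟩ := cg27_base K hπ q hq hqπ (IsFractionRing.injective R K)
  haveI := hAlg
  haveI := hFinRes
  obtain ⟨-, hC₂⟩ := sm79_level2 (R := R) K M hπ hMu h2
  exact cg27_coord K M hπ q hq hqπ (pk85_h2 K M h2)⁻¹
    (cg27_theta_inv_ne_zero_of_transcendental K M _ (pk85_h2_transcendental K M h2)) hC₂ n hπn

/-- **Coordinate package, level 3, chart `{h₃}`** (good level). -/
theorem cg27_coord_level3 {π : R} (hπ : Irreducible π) (q : ℕ) (hq : q.Prime)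
    (hqπ : ∃ u₀ : R, (q : R) = π * u₀) (hMu : IsUnit (M : R)) (h3 : 3 ∣ M)
    (n : Ideal (pk15_chart R ({pk85_h3 K M h3} : Set ↥(modularFunctionFieldFullC K M))))
    [hn : n.IsMaximal]
    (hπn : algebraMap R (pk15_chart R ({pk85_h3 K M h3} : Set ↥(modularFunctionFieldFullC K M))) π
      ∈ n) :
    ∃ x : pk15_chart R ({pk85_h3 K M h3} : Set ↥(modularFunctionFieldFullC K M)), x ∈ n ∧
      partC_theta (((x : ↥(modularFunctionFieldFullC K M)) : LaurentSeries K)) ≠ 0 ∧
      (∀ v ∈ n, ∃ s : pk15_chart R ({pk85_h3 K M h3} : Set ↥(modularFunctionFieldFullC K M)),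
        s ∉ n ∧
        ∃ a b : pk15_chart R ({pk85_h3 K M h3} : Set ↥(modularFunctionFieldFullC K M)),
          s * v = a * x + b * algebraMap R
            (pk15_chart R ({pk85_h3 K M h3} : Set ↥(modularFunctionFieldFullC K M))) π) ∧
      ∀ y ∈ sf79_loc (pk15_chart R ({pk85_h3 K M h3} : Set ↥(modularFunctionFieldFullC K M))) n,
        tf69_Dx K M (x : ↥(modularFunctionFieldFullC K M)) y ∈
          sf79_loc (pk15_chart R ({pk85_h3 K M h3} : Set ↥(modularFunctionFieldFullC K M))) n := by
  obtain ⟨hAlg, hFinRes⟩ := cg27_base K hπ q hq hqπ (IsFractionRing.injective R K)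
  haveI := hAlg
  haveI := hFinRes
  obtain ⟨hC₁, -⟩ := sm79_level3 (R := R) K M hπ hMu h3
  exact cg27_coord K M hπ q hq hqπ (pk85_h3 K M h3)
    (cg27_theta_ne_zero_of_transcendental K M _ (pk85_h3_transcendental K M h3)) hC₁ n hπn

/-- **Coordinate package, level 3, chart `{h₃⁻¹}`** (good level). -/
theorem cg27_coord_level3_inv {π : R} (hπ : Irreducible π) (q : ℕ) (hq : q.Prime)
    (hqπ : ∃ u₀ : R, (q : R) = π * u₀) (hMu : IsUnit (M : R)) (h3 : 3 ∣ M)
    (n : Ideal (pk15_chart R ({(pk85_h3 K M h3)⁻¹} : Set ↥(modularFunctionFieldFullC K M))))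
    [hn : n.IsMaximal]
    (hπn : algebraMap R
      (pk15_chart R ({(pk85_h3 K M h3)⁻¹} : Set ↥(modularFunctionFieldFullC K M))) π ∈ n) :
    ∃ x : pk15_chart R ({(pk85_h3 K M h3)⁻¹} : Set ↥(modularFunctionFieldFullC K M)), x ∈ n ∧
      partC_theta (((x : ↥(modularFunctionFieldFullC K M)) : LaurentSeries K)) ≠ 0 ∧
      (∀ v ∈ n, ∃ s : pk15_chart R ({(pk85_h3 K M h3)⁻¹} : Set ↥(modularFunctionFieldFullC K M)),
        s ∉ n ∧
        ∃ a b : pk15_chart R ({(pk85_h3 K M h3)⁻¹} : Set ↥(modularFunctionFieldFullC K M)),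
          s * v = a * x + b * algebraMap R
            (pk15_chart R ({(pk85_h3 K M h3)⁻¹} : Set ↥(modularFunctionFieldFullC K M))) π) ∧
      ∀ y ∈ sf79_loc (pk15_chart R ({(pk85_h3 K M h3)⁻¹} : Set ↥(modularFunctionFieldFullC K M))) n,
        tf69_Dx K M (x : ↥(modularFunctionFieldFullC K M)) y ∈
          sf79_loc (pk15_chart R ({(pk85_h3 K M h3)⁻¹} : Set ↥(modularFunctionFieldFullC K M))) n := by
  obtain ⟨hAlg, hFinRes⟩ := cg27_base K hπ q hq hqπ (IsFractionRing.injective R K)
  haveI := hAlg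
  haveI := hFinRes
  obtain ⟨-, hC₂⟩ := sm79_level3 (R := R) K M hπ hMu h3
  exact cg27_coord K M hπ q hq hqπ (pk85_h3 K M h3)⁻¹
    (cg27_theta_inv_ne_zero_of_transcendental K M _ (pk85_h3_transcendental K M h3)) hC₂ n hπn

end Inst

end Fermat.Agent.S36
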