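import Mathlib

/-!
# S36 lab (helper30): the cyclotomic discrete valuation ring over an unramified base

TWIN of the item `cyc86_exists` requested in row B1-V2 (helper64): Mathlib only.

`R` a discrete valuation ring with fraction field `K` of characteristic zero and uniformiser `π`
associated to the prime number `q`.  Then there are a field `K' ⊇ K` (`= K(ζ_q)`), a valuation
subring `A'` of `K'` with a uniformiser `ϖ` (`𝔪 = (ϖ)`, `⋂ (ϖ^n) = 0`), dominating `R`, and a
`q`-th root of unity `ζ ≠ 1` in `A'` with `(ζ - 1)^(q-1) = π · unit`.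

* `cyc30_exists` : the statement (literally the requested one).
* `cyc30_sub_one_pow` : in a domain, `ζ` a primitive `q`-th root of unity, `q` prime:
  `(ζ - 1)^(q-1) * unit = q`.
-/

set_option autoImplicit false

namespace Fermat.Agent.S36

open IsDedekindDomain

theorem cyc30_lt_one_iff (x : WithZero (Multiplicative ℤ)) :
    x < 1 ↔ x ≤ WithZero.exp (-1 : ℤ) := by
  rcases eq_or_ne x 0 with rfl | hx
  · simp
  · obtain ⟨n, rfl⟩ : ∃ n : ℤ, x = WithZero.exp n := ⟨WithZero.log x, (WithZero.exp_log hx).symm⟩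
    rw [← WithZero.exp_zero, WithZero.exp_lt_exp, WithZero.exp_le_exp]
    omega

/-- In a domain: `(ζ - 1)^(q-1)` is associated to `q` for a primitive `q`-th root of unity. -/
theorem cyc30_sub_one_pow {A : Type*} [CommRing A] [IsDomain A] (q : ℕ) (hq : q.Prime) (ζ : A)
    (hζ : IsPrimitiveRoot ζ q) : ∃ u : Aˣ, (ζ - 1) ^ (q - 1) * u = (q : A) := by
  classical
  obtain ⟨n, rfl⟩ : ∃ n, q = n + 1 := ⟨q - 1, (Nat.sub_add_cancel hq.pos).symm⟩
  have hprod := hζ.prod_pow_sub_one_eq_order
  have hassoc : ∀ k ∈ Finset.range n, ∃ u : Aˣ, (ζ - 1) * u = ζ ^ (k + 1) - 1 := by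
    intro k hk
    have hk' : k < n := Finset.mem_range.mp hk
    have hcop : (k + 1).Coprime (n + 1) :=
      (Nat.coprime_of_lt_prime (by omega) (by omega) hq).symm
    exact hζ.associated_sub_one_pow_sub_one_of_coprime hcop
  choose! u hu using hassoc
  have h1 : ∏ k ∈ Finset.range n, (ζ ^ (k + 1) - 1) =
      (ζ - 1) ^ n * ((∏ k ∈ Finset.range n, u k : Aˣ) : A) := by
    calc ∏ k ∈ Finset.range n, (ζ ^ (k + 1) - 1)
        = ∏ k ∈ Finset.range n, ((ζ - 1) * (u k : A)) :=
          Finset.prod_congr rfl fun k hk => (hu k hk).symm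
      _ = (ζ - 1) ^ n * ((∏ k ∈ Finset.range n, u k : Aˣ) : A) := by
          rw [Finset.prod_mul_distrib, Finset.prod_const, Finset.card_range, Units.coe_prod]
  refine ⟨(-1) ^ n * ∏ k ∈ Finset.range n, u k, ?_⟩
  rw [Nat.add_sub_cancel]
  push_cast
  rw [← hprod, h1]
  push_cast
  ring

/-- The valuation subring of a height-one prime of a Dedekind domain is a discrete valuation
ring in the elementary shape: it contains `O`, has a uniformiser `ϖ` with `𝔪 = (ϖ)` and
`⋂ (ϖ ^ n) = 0`, and an element is a non-unit iff its valuation is `< 1`. -/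
theorem cyc30_dvr {O L : Type*} [CommRing O] [IsDedekindDomain O] [Field L] [Algebra O L]
    [IsFractionRing O L] (v : HeightOneSpectrum O) :
    (∀ x : O, algebraMap O L x ∈ (v.valuation L).valuationSubring) ∧
    (∀ r : (v.valuation L).valuationSubring,
      IsLocalRing.residue (v.valuation L).valuationSubring r = 0 ↔ v.valuation L (r : L) < 1) ∧
    ∃ ϖ : (v.valuation L).valuationSubring, ϖ ≠ 0 ∧
      (∀ r : (v.valuation L).valuationSubring,
        IsLocalRing.residue (v.valuation L).valuationSubring r = 0 ↔ ϖ ∣ r) ∧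
      (∀ r : (v.valuation L).valuationSubring, r ≠ 0 → ∃ n : ℕ, ¬ ϖ ^ (n + 1) ∣ r) := by
  have hmem : ∀ x : L, x ∈ (v.valuation L).valuationSubring ↔ v.valuation L x ≤ 1 :=
    fun x => Valuation.mem_valuationSubring_iff (v.valuation L) x
  have hres : ∀ r : (v.valuation L).valuationSubring,
      IsLocalRing.residue (v.valuation L).valuationSubring r = 0 ↔ v.valuation L (r : L) < 1 := by
    intro r
    rw [IsLocalRing.residue_eq_zero_iff, ValuationSubring.valuation_lt_one_iff]
    exact ((v.valuation L).isEquiv_valuation_valuationSubring.lt_one_iff_lt_one).symm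
  refine ⟨fun x => (hmem _).mpr (v.valuation_le_one x), hres, ?_⟩
  obtain ⟨ϖ0, hϖ0⟩ := v.valuation_exists_uniformizer L
  have hexp : (WithZero.exp (-1 : ℤ) : WithZero (Multiplicative ℤ)) ≤ 1 := by
    rw [← WithZero.exp_zero, WithZero.exp_le_exp]
    norm_num
  have hϖmem : ϖ0 ∈ (v.valuation L).valuationSubring := by
    rw [hmem, hϖ0]
    exact hexp
  have hϖ0ne : ϖ0 ≠ 0 := by
    rintro rfl
    rw [map_zero] at hϖ0
    exact WithZero.exp_ne_zero hϖ0.symm
  have hdvd : ∀ (n : ℕ) (r : (v.valuation L).valuationSubring),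
      (⟨ϖ0, hϖmem⟩ : (v.valuation L).valuationSubring) ^ n ∣ r ↔
        v.valuation L (r : L) ≤ WithZero.exp (-(n : ℤ)) := by
    intro n r
    have hpow : v.valuation L (ϖ0 ^ n) = WithZero.exp (-(n : ℤ)) := by
      rw [map_pow, hϖ0, ← WithZero.exp_nsmul]
      congr 1
      simp
    constructor
    · rintro ⟨s, hs⟩
      have hs1 : v.valuation L (s : L) ≤ 1 := (hmem _).mp s.2
      have h1 : (r : L) = ϖ0 ^ n * (s : L) := by
        rw [hs]
        rfl
      rw [h1, map_mul, hpow]
      exact mul_le_of_le_one_right' hs1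
    · intro h
      have hmem2 : (r : L) * (ϖ0 ^ n)⁻¹ ∈ (v.valuation L).valuationSubring := by
        rw [hmem, map_mul, map_inv₀, hpow, mul_inv_le_iff₀ WithZero.exp_pos, one_mul]
        exact h
      refine ⟨⟨_, hmem2⟩, Subtype.ext ?_⟩
      show (r : L) = ϖ0 ^ n * ((r : L) * (ϖ0 ^ n)⁻¹)
      field_simp
  refine ⟨⟨ϖ0, hϖmem⟩, fun h0 => hϖ0ne (congrArg Subtype.val h0), ?_, ?_⟩
  · intro r
    rw [hres, cyc30_lt_one_iff, ← pow_one (⟨ϖ0, hϖmem⟩ : (v.valuation L).valuationSubring),
      hdvd 1 r]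
    simp
  · intro r hr
    have hr0 : (r : L) ≠ 0 := fun h0 => hr (Subtype.ext h0)
    have hv0 : v.valuation L (r : L) ≠ 0 := (Valuation.ne_zero_iff _).mpr hr0
    have hle : v.valuation L (r : L) ≤ 1 := (hmem _).mp r.2
    obtain ⟨k, hk⟩ : ∃ k : ℤ, v.valuation L (r : L) = WithZero.exp k :=
      ⟨WithZero.log (v.valuation L (r : L)), (WithZero.exp_log hv0).symm⟩
    have hk0 : k ≤ 0 := by
      rw [hk, ← WithZero.exp_zero, WithZero.exp_le_exp] at hle
      exact hle
    refine ⟨(-k).toNat, fun hd => ?_⟩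
    rw [hdvd, hk, WithZero.exp_le_exp] at hd
    have : ((-k).toNat : ℤ) = -k := Int.toNat_of_nonneg (by omega)
    push_cast at hd
    omega

/-- The algebraic half: a valuation subring `A'` of `K' ⊇ K` containing `R` and a primitive `q`-th
root of unity, with `q ~ π` in `R`: the map `ρ`, the unit `ζ` and `(ζ - 1)^(q-1) = π · unit`. -/
theorem cyc30_finish {R K K' : Type*} [CommRing R] [Field K] [Algebra R K] [Field K']
    [Algebra K K'] (A' : ValuationSubring K') (q : ℕ) (hq : q.Prime) {π : R}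
    (hqπ : Associated ((q : ℕ) : R) π)
    (hRmem : ∀ r : R, (algebraMap K K').comp (algebraMap R K) r ∈ A')
    (ζ0 : K') (hζ0 : IsPrimitiveRoot ζ0 q) (hζmem : ζ0 ∈ A') :
    ∃ (ρ : R →+* A') (ζ : A'ˣ),
      (∀ r : R, algebraMap A' K' (ρ r) = algebraMap K K' (algebraMap R K r)) ∧
      ζ ^ q = 1 ∧ ζ ≠ 1 ∧ ∃ u : A'ˣ, ((ζ : A') - 1) ^ (q - 1) = ρ π * u := by
  have hzpow : (⟨ζ0, hζmem⟩ : A') ^ q = 1 := Subtype.ext hζ0.pow_eq_one
  have hzprim : IsPrimitiveRoot (⟨ζ0, hζmem⟩ : A') q :=
    IsPrimitiveRoot.of_map_of_injective (f := A'.subtype) hζ0 Subtype.val_injective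
  have hzunit : IsUnit (⟨ζ0, hζmem⟩ : A') := IsUnit.of_pow_eq_one hzpow hq.ne_zero
  refine ⟨((algebraMap K K').comp (algebraMap R K)).codRestrict A' hRmem, hzunit.unit,
    fun r => rfl, ?_, ?_, ?_⟩
  · apply Units.ext
    rw [Units.val_pow_eq_pow_val, IsUnit.unit_spec, hzpow, Units.val_one]
  · intro h1
    have h2 : (⟨ζ0, hζmem⟩ : A') = 1 := by
      rw [← IsUnit.unit_spec hzunit, h1, Units.val_one]
    exact hzprim.ne_one hq.one_lt h2
  · obtain ⟨u, hu⟩ := cyc30_sub_one_pow q hq (⟨ζ0, hζmem⟩ : A') hzprim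
    obtain ⟨w, hw⟩ := hqπ
    set ρ : R →+* A' := ((algebraMap K K').comp (algebraMap R K)).codRestrict A' hRmem with hρ
    have hρπ : ρ π = (q : A') * ρ (w : R) := by
      rw [← hw, map_mul, map_natCast]
    refine ⟨(Units.map (ρ : R →* A') w)⁻¹ * u⁻¹, ?_⟩
    rw [IsUnit.unit_spec]
    calc ((⟨ζ0, hζmem⟩ : A') - 1) ^ (q - 1)
        = ((⟨ζ0, hζmem⟩ : A') - 1) ^ (q - 1) * (u * ↑u⁻¹) := by rw [Units.mul_inv, mul_one]
      _ = (q : A') * ↑u⁻¹ := by rw [← mul_assoc, hu]
      _ = (q : A') * (((Units.map (ρ : R →* A') w : A'ˣ) : A') *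
            ↑(Units.map (ρ : R →* A') w)⁻¹) * ↑u⁻¹ := by rw [Units.mul_inv, mul_one]
      _ = ρ π * ↑((Units.map (ρ : R →* A') w)⁻¹ * u⁻¹) := by
          rw [hρπ, Units.val_mul]
          have h3 : ((Units.map (ρ : R →* A') w : A'ˣ) : A') = ρ (w : R) := rfl
          rw [h3]
          ring

/-- **The cyclotomic discrete valuation ring** (twin of `cyc86_exists`, literal statement). -/
theorem cyc30_exists {R K : Type} [CommRing R] [IsDomain R] [IsDiscreteValuationRing R] [Field K]
    [CharZero K] [Algebra R K] [IsFractionRing R K] (q : ℕ) (hq : q.Prime) {π : R}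
    (hπ : Irreducible π) (hqπ : Associated ((q : ℕ) : R) π) :
    ∃ (K' : Type) (_ : Field K') (_ : Algebra K K') (A' : ValuationSubring K') (ϖ : A')
      (ρ : R →+* A') (ζ : A'ˣ),
      ϖ ≠ 0 ∧ (∀ r : A', IsLocalRing.residue A' r = 0 ↔ ϖ ∣ r) ∧
      (∀ r : A', r ≠ 0 → ∃ n : ℕ, ¬ ϖ ^ (n + 1) ∣ r) ∧
      (∀ r : R, algebraMap A' K' (ρ r) = algebraMap K K' (algebraMap R K r)) ∧
      IsLocalRing.residue A' (ρ π) = 0 ∧
      ζ ^ q = 1 ∧ ζ ≠ 1 ∧ ∃ u : A'ˣ, ((ζ : A') - 1) ^ (q - 1) = ρ π * u := by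
  classical
  haveI : NeZero q := ⟨hq.ne_zero⟩
  haveI : NeZero ((q : ℕ) : K) := ⟨Nat.cast_ne_zero.mpr hq.ne_zero⟩
  haveI hcyc : IsCyclotomicExtension {q} K (CyclotomicField q K) :=
    CyclotomicField.isCyclotomicExtension q K
  haveI : FiniteDimensional K (CyclotomicField q K) :=
    IsCyclotomicExtension.finiteDimensional {q} K (CyclotomicField q K)
  haveI : IsDedekindDomain (integralClosure R (CyclotomicField q K)) :=
    integralClosure.isDedekindDomain R K (CyclotomicField q K)
  haveI : IsFractionRing (integralClosure R (CyclotomicField q K)) (CyclotomicField q K) :=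
    integralClosure.isFractionRing_of_finite_extension K (CyclotomicField q K)
  -- injectivity of `R → K'`
  have hinj : Function.Injective (algebraMap R (CyclotomicField q K)) := by
    rw [IsScalarTower.algebraMap_eq R K (CyclotomicField q K)]
    exact (algebraMap K (CyclotomicField q K)).injective.comp (IsFractionRing.injective R K)
  have hinjO : Function.Injective (algebraMap R (integralClosure R (CyclotomicField q K))) := by
    intro a b hab
    apply hinj
    have := congrArg (algebraMap (integralClosure R (CyclotomicField q K)) (CyclotomicField q K)) hab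
    rwa [← IsScalarTower.algebraMap_apply, ← IsScalarTower.algebraMap_apply] at this
  -- a prime over the maximal ideal
  obtain ⟨Q, hQmax, hQover⟩ := Ideal.exists_ideal_over_maximal_of_isIntegral
    (S := integralClosure R (CyclotomicField q K)) (IsLocalRing.maximalIdeal R) (by
      intro x hx
      rw [RingHom.mem_ker] at hx
      have : x = 0 := hinjO (by rw [hx, map_zero])
      rw [this]
      exact Ideal.zero_mem _)
  have hπmem : π ∈ IsLocalRing.maximalIdeal R := by
    rw [IsLocalRing.mem_maximalIdeal]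
    exact hπ.not_isUnit
  have hπQ : algebraMap R (integralClosure R (CyclotomicField q K)) π ∈ Q := by
    have : π ∈ Q.comap (algebraMap R (integralClosure R (CyclotomicField q K))) := by
      rw [hQover]; exact hπmem
    exact this
  have hQbot : Q ≠ ⊥ := by
    rintro rfl
    rw [Ideal.mem_bot] at hπQ
    exact hπ.ne_zero (hinjO (by rw [hπQ, map_zero]))
  obtain ⟨hO, hres, ϖ, hϖne, hϖres, hϖfin⟩ := cyc30_dvr (L := CyclotomicField q K)
    (⟨Q, hQmax.isPrime, hQbot⟩ : HeightOneSpectrum (integralClosure R (CyclotomicField q K)))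
  have hRK' : ∀ r : R, algebraMap K (CyclotomicField q K) (algebraMap R K r) =
      algebraMap (integralClosure R (CyclotomicField q K)) (CyclotomicField q K)
        (algebraMap R (integralClosure R (CyclotomicField q K)) r) := by
    intro r
    rw [← IsScalarTower.algebraMap_apply R K (CyclotomicField q K),
      ← IsScalarTower.algebraMap_apply R (integralClosure R (CyclotomicField q K))
        (CyclotomicField q K)]
  have hRmem : ∀ r : R, (algebraMap K (CyclotomicField q K)).comp (algebraMap R K) r ∈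
      ((⟨Q, hQmax.isPrime, hQbot⟩ : HeightOneSpectrum
        (integralClosure R (CyclotomicField q K))).valuation (CyclotomicField q K)).valuationSubring := by
    intro r
    rw [RingHom.comp_apply, hRK']
    exact hO _
  have hζ' : IsPrimitiveRoot (IsCyclotomicExtension.zeta q K (CyclotomicField q K)) q :=
    IsCyclotomicExtension.zeta_spec q K (CyclotomicField q K)
  have hζint : IsIntegral R (IsCyclotomicExtension.zeta q K (CyclotomicField q K)) := by
    refine ⟨Polynomial.X ^ q - 1, Polynomial.monic_X_pow_sub_C 1 hq.ne_zero, ?_⟩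
    simp [hζ'.pow_eq_one]
  have hζmem : IsCyclotomicExtension.zeta q K (CyclotomicField q K) ∈
      ((⟨Q, hQmax.isPrime, hQbot⟩ : HeightOneSpectrum
        (integralClosure R (CyclotomicField q K))).valuation (CyclotomicField q K)).valuationSubring :=
    hO ⟨_, hζint⟩
  obtain ⟨ρ, ζ, hρ, hζq, hζ1, hu⟩ := cyc30_finish (R := R) (K := K) _ q hq hqπ hRmem _ hζ' hζmem
  refine ⟨CyclotomicField q K, inferInstance, inferInstance, _, ϖ, ρ, ζ, hϖne, hϖres, hϖfin, hρ,
    ?_, hζq, hζ1, hu⟩
  rw [hres]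
  have h1 : ((ρ π : _) : CyclotomicField q K) =
      algebraMap K (CyclotomicField q K) (algebraMap R K π) := hρ π
  rw [h1, hRK']
  exact (HeightOneSpectrum.valuation_lt_one_iff_mem _ _).mpr hπQ

end Fermat.Agent.S36
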