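import Mathlib

/-!
# S36 lab (helper41), registry row 615 (B2-I1-NORMVAL-ABS): the valuation of a norm

ABSTRACT, Mathlib only.  `L / K` a finite extension of fields, `V'` a discrete valuation
subring of `K` in the elementary shape of `oe72_ram_main` / `oe10_main` (uniformizer `π`,
`hmax`, `harch`).  This file proves the input (I1) of the (B) bookkeeping text of S36:
"the valuation of a norm is `∑ f_i v_i`" in the two cases that occur at level `q²`:

* `nv41_ram` (pair `(e, f) = (1, 1) + (n, 1)`, degree `n + 1`): if `V1`, `V2` are valuation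
  subrings of `L` over `V'` with `V1 ⊓ V2` integral over `V'`, `π` a nonunit of both, `s` a unit
  of `V1` with `v₂(s) ^ n = v₂(π)`, then
  `v₁(y) = v₁(π) ^ a`, `v₂(y) = v₂(s) ^ b` imply `v'(N y) = v'(π) ^ (a + b)`.
  (`v_∞'(N_α y) = v_1 y + v_2 y`, `v_0'(N_β y) = v_3 y + v_2 y`.)
* `nv41_inert` (one valuation subring `V`, integral over `V'`, degree `d`):
  `v(y) = v(π) ^ c` implies `v'(N y) = v'(π) ^ (d * c)`.
  (`v_0'(N_α y) = q v_3 y`, `v_∞'(N_β y) = q v_1 y`.)
* `nv41_norm_nonunit` : an integral element which is a nonunit of some valuation subring over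
  `V'` has a nonunit norm.
* `nv41_dvr`, `nv41_arch_up`, `nv41_arch_pow` : every nonzero element has valuation
  `v(t) ^ c`, `c : ℤ` (for `V'`, and for the valuation subrings of `L` over `V'`).
* `nv41_ord` : the resulting `ℤ`-valued function, `nv41_ord_mul` (multiplicativity in the shape
  `b2v1_IsVal` of `ValUnit1`), `nv41_ord_eq`, `nv41_ord_self`;
  `nv41_ord_norm_ram`, `nv41_ord_norm_inert` : the two formulas for `nv41_ord`.

All names are prefixed `nv41_`.
-/

set_option autoImplicit false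
set_option linter.style.haveILetI false
set_option linter.unusedSectionVars false

namespace Fermat.Agent.S36

open Module IntermediateField

/-! ### Elementary facts on valuation subrings -/

/-- A nonzero element of a valuation subring whose inverse also lies in it has valuation `1`. -/
theorem nv41_val_eq_one {F : Type*} [Field F] (V : ValuationSubring F) (x : F) (hx : x ≠ 0)
    (h1 : x ∈ V) (h2 : x⁻¹ ∈ V) : V.valuation x = 1 := by
  have a := (V.valuation_le_one_iff x).2 h1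
  have b := (V.valuation_le_one_iff x⁻¹).2 h2
  rw [map_inv₀] at b
  have hpos : 0 < V.valuation x := zero_lt_iff.2 ((Valuation.ne_zero_iff _).2 hx)
  exact le_antisymm a ((inv_le_one₀ hpos).1 b)

/-- Valuation `1` means unit. -/
theorem nv41_mem_of_val_eq_one {F : Type*} [Field F] (V : ValuationSubring F) (x : F)
    (h : V.valuation x = 1) : x ∈ V ∧ x⁻¹ ∈ V := by
  refine ⟨(V.valuation_le_one_iff x).1 h.le, (V.valuation_le_one_iff x⁻¹).1 ?_⟩
  rw [map_inv₀, h, inv_one]

/-- A uniformizer in the elementary shape is nonzero, lies in `V`, and has valuation `< 1`. -/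
theorem nv41_unif {F : Type*} [Field F] (V : ValuationSubring F) (t : F)
    (harch : ∀ x : F, x ≠ 0 → ∃ n : ℕ, (t ^ n)⁻¹ * x ∉ V) :
    t ≠ 0 ∧ V.valuation t < 1 := by
  obtain ⟨n, hn⟩ := harch 1 one_ne_zero
  rw [mul_one] at hn
  have ht0 : t ≠ 0 := by
    rintro rfl
    rcases Nat.eq_zero_or_pos n with h | h
    · subst h; simp at hn
    · rw [zero_pow h.ne', inv_zero] at hn
      exact hn V.zero_mem
  refine ⟨ht0, ?_⟩
  by_contra hcon
  have h1 : 1 ≤ V.valuation t := not_lt.1 hcon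
  apply hn
  rw [← V.valuation_le_one_iff, map_inv₀, map_pow]
  have hpos : 0 < V.valuation t ^ n :=
    pow_pos (zero_lt_iff.2 ((Valuation.ne_zero_iff _).2 ht0)) n
  exact (inv_le_one₀ hpos).2 (one_le_pow₀ h1)

/-- **Discreteness**: with a uniformizer `t` (elementary shape), every nonzero element has
valuation `v(t) ^ c` for an integer `c`. -/
theorem nv41_dvr {F : Type*} [Field F] (V : ValuationSubring F) (t : F)
    (hmax : ∀ x ∈ V, x⁻¹ ∉ V → t⁻¹ * x ∈ V)
    (harch : ∀ x : F, x ≠ 0 → ∃ n : ℕ, (t ^ n)⁻¹ * x ∉ V) :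
    ∀ y : F, y ≠ 0 → ∃ c : ℤ, V.valuation y = V.valuation t ^ c := by
  classical
  obtain ⟨ht0, -⟩ := nv41_unif V t harch
  have key : ∀ y : F, y ≠ 0 → y ∈ V → ∃ c : ℕ, V.valuation y = V.valuation t ^ c := by
    intro y hy hyV
    have hex := harch y hy
    have hn1 : (t ^ Nat.find hex)⁻¹ * y ∉ V := Nat.find_spec hex
    have hn0 : Nat.find hex ≠ 0 := by
      intro h0
      rw [h0, pow_zero, inv_one, one_mul] at hn1
      exact hn1 hyV
    obtain ⟨k, hk⟩ := Nat.exists_eq_succ_of_ne_zero hn0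
    have hk1 : (t ^ k)⁻¹ * y ∈ V := by
      by_contra hcon
      exact Nat.find_min hex (by omega : k < Nat.find hex) hcon
    have hz : ((t ^ k)⁻¹ * y)⁻¹ ∈ V := by
      by_contra hcon
      have h3 := hmax _ hk1 hcon
      apply hn1
      have e : (t ^ Nat.find hex)⁻¹ * y = t⁻¹ * ((t ^ k)⁻¹ * y) := by
        rw [hk, pow_succ, mul_inv]
        ring
      rw [e]
      exact h3
    have hz0 : (t ^ k)⁻¹ * y ≠ 0 := mul_ne_zero (inv_ne_zero (pow_ne_zero k ht0)) hy
    have hz1 := nv41_val_eq_one V _ hz0 hk1 hz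
    refine ⟨k, ?_⟩
    have hy' : y = t ^ k * ((t ^ k)⁻¹ * y) := by
      rw [← mul_assoc, mul_inv_cancel₀ (pow_ne_zero k ht0), one_mul]
    rw [hy', map_mul, hz1, mul_one, map_pow]
  intro y hy
  rcases V.mem_or_inv_mem y with h | h
  · obtain ⟨c, hc⟩ := key y hy h
    exact ⟨c, by rw [hc, zpow_natCast]⟩
  · obtain ⟨c, hc⟩ := key y⁻¹ (inv_ne_zero hy) h
    refine ⟨-c, ?_⟩
    rw [map_inv₀] at hc
    rw [zpow_neg, zpow_natCast, ← hc, inv_inv]

/-- Injectivity of `c ↦ v(t) ^ c`. -/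
theorem nv41_zpow_inj {F : Type*} [Field F] (V : ValuationSubring F) (t : F) (ht0 : t ≠ 0)
    (ht1 : V.valuation t < 1) {a b : ℤ} (h : V.valuation t ^ a = V.valuation t ^ b) : a = b :=
  zpow_right_injective₀ (zero_lt_iff.2 ((Valuation.ne_zero_iff _).2 ht0)) ht1.ne h

/-! ### The `ℤ`-valued order function -/

/-- The exponent `c` with `v(y) = v(t) ^ c` (junk value if there is none). -/
noncomputable def nv41_ord {F : Type*} [Field F] (V : ValuationSubring F) (t : F) (y : F) : ℤ :=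
  Classical.epsilon (fun c : ℤ => V.valuation y = V.valuation t ^ c)

theorem nv41_ord_spec {F : Type*} [Field F] (V : ValuationSubring F) (t : F) (y : F)
    (h : ∃ c : ℤ, V.valuation y = V.valuation t ^ c) :
    V.valuation y = V.valuation t ^ nv41_ord V t y :=
  Classical.epsilon_spec h

theorem nv41_ord_eq {F : Type*} [Field F] (V : ValuationSubring F) (t : F) (ht0 : t ≠ 0)
    (ht1 : V.valuation t < 1) (y : F) (c : ℤ) (h : V.valuation y = V.valuation t ^ c) :
    nv41_ord V t y = c := by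
  have h2 := nv41_ord_spec V t y ⟨c, h⟩
  rw [h] at h2
  exact (nv41_zpow_inj V t ht0 ht1 h2).symm

theorem nv41_ord_self {F : Type*} [Field F] (V : ValuationSubring F) (t : F) (ht0 : t ≠ 0)
    (ht1 : V.valuation t < 1) : nv41_ord V t t = 1 :=
  nv41_ord_eq V t ht0 ht1 t 1 (zpow_one _).symm

/-- Multiplicativity of `nv41_ord` on nonzero elements (the shape `b2v1_IsVal`). -/
theorem nv41_ord_mul {F : Type*} [Field F] (V : ValuationSubring F) (t : F) (ht0 : t ≠ 0)
    (ht1 : V.valuation t < 1)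
    (hdvr : ∀ y : F, y ≠ 0 → ∃ c : ℤ, V.valuation y = V.valuation t ^ c) :
    ∀ x y : F, x ≠ 0 → y ≠ 0 → nv41_ord V t (x * y) = nv41_ord V t x + nv41_ord V t y := by
  intro x y hx hy
  apply nv41_ord_eq V t ht0 ht1
  rw [map_mul, nv41_ord_spec V t x (hdvr x hx), nv41_ord_spec V t y (hdvr y hy),
    zpow_add₀ ((Valuation.ne_zero_iff _).2 ht0)]

/-! ### Norms of integral elements -/

section nv41_norm

variable {K L : Type*} [Field K] [Field L] [Algebra K L] [FiniteDimensional K L]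

/-- The norm of an element integral over `V'` lies in `V'`. -/
theorem nv41_norm_mem (V' : ValuationSubring K) (x : L)
    (hx : ((algebraMap K L).comp V'.subtype).IsIntegralElem x) :
    Algebra.norm K x ∈ V' := by
  letI : Algebra V' L := ((algebraMap K L).comp V'.subtype).toAlgebra
  haveI : IsScalarTower V' K L := IsScalarTower.of_algebraMap_eq (fun _ => rfl)
  have h1 : IsIntegral V' x := hx
  have h2 : IsIntegral V' (Algebra.norm K x) := Algebra.isIntegral_norm K h1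
  obtain ⟨v, hv⟩ := IsIntegrallyClosed.isIntegral_iff.mp h2
  rw [← hv]
  exact v.2

/-- The norm of an element which is integral over `V'` together with its inverse is a unit of
`V'`. -/
theorem nv41_norm_unit (V' : ValuationSubring K) (x : L) (hx0 : x ≠ 0)
    (hx : ((algebraMap K L).comp V'.subtype).IsIntegralElem x)
    (hx' : ((algebraMap K L).comp V'.subtype).IsIntegralElem x⁻¹) :
    V'.valuation (Algebra.norm K x) = 1 := by
  apply nv41_val_eq_one
  · exact Algebra.norm_ne_zero_iff.2 hx0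
  · exact nv41_norm_mem V' x hx
  · rw [← Algebra.norm_inv]
    exact nv41_norm_mem V' x⁻¹ hx'

/-- Polynomial expressions in an element of `V` with coefficients in `V'` lie in `V`. -/
theorem nv41_eval_mem (V' : ValuationSubring K) (V : ValuationSubring L)
    (hV : ∀ x ∈ V', algebraMap K L x ∈ V) (y : L) (hyV : y ∈ V) (g : Polynomial V') :
    Polynomial.eval₂ ((algebraMap K L).comp V'.subtype) y g ∈ V := by
  rw [Polynomial.eval₂_eq_sum_range]
  exact sum_mem (fun i _ => mul_mem (hV _ (g.coeff i).2) (pow_mem hyV i))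

/-- **Nonunits have nonunit norms**: if `y` is integral over `V'` and is a nonunit of some
valuation subring `V` of `L` containing the image of `V'`, then `N(y)` is a nonunit of `V'`. -/
theorem nv41_norm_nonunit (V' : ValuationSubring K) (V : ValuationSubring L)
    (hV : ∀ x ∈ V', algebraMap K L x ∈ V) (y : L) (hyV : y ∈ V) (hyV' : y⁻¹ ∉ V)
    (hy : ((algebraMap K L).comp V'.subtype).IsIntegralElem y) :
    (Algebra.norm K y)⁻¹ ∉ V' := by
  intro hN
  letI : Algebra V' L := ((algebraMap K L).comp V'.subtype).toAlgebra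
  haveI : IsScalarTower V' K L := IsScalarTower.of_algebraMap_eq (fun _ => rfl)
  have h1 : IsIntegral V' y := hy
  have hy0 : y ≠ 0 := by
    rintro rfl
    exact hyV' (by rw [inv_zero]; exact V.zero_mem)
  have hyK : IsIntegral K y := Algebra.IsIntegral.isIntegral y
  have hpK : minpoly K y = (minpoly V' y).map (algebraMap V' K) :=
    minpoly.isIntegrallyClosed_eq_field_fractions' K h1
  -- the norm is a power of `± c0`
  have hN1 : Algebra.norm K y
      = ((-1) ^ (adjoin.powerBasis hyK).dim * (((minpoly V' y).coeff 0 : V') : K))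
          ^ finrank K⟮y⟯ L := by
    rw [Algebra.norm_eq_norm_adjoin K y]
    congr 1
    have h3 := Algebra.PowerBasis.norm_gen_eq_coeff_zero_minpoly (adjoin.powerBasis hyK)
    rw [adjoin.powerBasis_gen, minpoly_gen, hpK, Polynomial.coeff_map] at h3
    exact h3
  have hk : finrank K⟮y⟯ L ≠ 0 := (Module.finrank_pos).ne'
  have hNne : Algebra.norm K y ≠ 0 := Algebra.norm_ne_zero_iff.2 hy0
  have hv1 : V'.valuation (Algebra.norm K y) = 1 :=
    nv41_val_eq_one V' _ hNne (nv41_norm_mem V' y hy) hN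
  have hvc : V'.valuation (((minpoly V' y).coeff 0 : V') : K) ^ finrank K⟮y⟯ L = 1 := by
    rw [hN1, map_pow, map_mul, map_pow, Valuation.map_neg, map_one, one_pow, one_mul] at hv1
    exact hv1
  have hc1 : V'.valuation (((minpoly V' y).coeff 0 : V') : K) = 1 := by
    have hle : V'.valuation (((minpoly V' y).coeff 0 : V') : K) ≤ 1 :=
      (V'.valuation_le_one_iff _).2 ((minpoly V' y).coeff 0).2
    rcases lt_or_eq_of_le hle with hlt | heq
    · exact absurd hvc (pow_lt_one₀ zero_le hlt hk).ne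
    · exact heq
  obtain ⟨-, hcinv⟩ := nv41_mem_of_val_eq_one V' _ hc1
  have hc0 : (((minpoly V' y).coeff 0 : V') : K) ≠ 0 := by
    intro h0
    rw [h0, map_zero] at hc1
    exact zero_ne_one hc1
  -- `y * g(y) = - c0`
  have hp : Polynomial.eval₂ ((algebraMap K L).comp V'.subtype) y (minpoly V' y) = 0 :=
    minpoly.aeval V' y
  rw [← Polynomial.divX_mul_X_add (minpoly V' y), Polynomial.eval₂_add, Polynomial.eval₂_mul,
    Polynomial.eval₂_X, Polynomial.eval₂_C] at hp
  have hg := nv41_eval_mem V' V hV y hyV (minpoly V' y).divX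
  have hcL : algebraMap K L (((minpoly V' y).coeff 0 : V') : K) ≠ 0 :=
    (map_ne_zero (algebraMap K L)).2 hc0
  have hinv : y⁻¹ = -(Polynomial.eval₂ ((algebraMap K L).comp V'.subtype) y (minpoly V' y).divX
      * algebraMap K L ((((minpoly V' y).coeff 0 : V') : K))⁻¹) := by
    have h5 : Polynomial.eval₂ ((algebraMap K L).comp V'.subtype) y (minpoly V' y).divX * y
        = - algebraMap K L (((minpoly V' y).coeff 0 : V') : K) := by
      rw [eq_neg_iff_add_eq_zero]
      exact hp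
    rw [map_inv₀]
    refine inv_eq_of_mul_eq_one_left ?_
    calc -(Polynomial.eval₂ ((algebraMap K L).comp V'.subtype) y (minpoly V' y).divX
          * (algebraMap K L (((minpoly V' y).coeff 0 : V') : K))⁻¹) * y
        = -(Polynomial.eval₂ ((algebraMap K L).comp V'.subtype) y (minpoly V' y).divX * y)
          * (algebraMap K L (((minpoly V' y).coeff 0 : V') : K))⁻¹ := by ring
      _ = 1 := by rw [h5, neg_neg, mul_inv_cancel₀ hcL]
  apply hyV'
  rw [hinv]
  exact neg_mem (mul_mem hg (hV _ hcinv))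

end nv41_norm

/-! ### The two formulas, in valuation form -/

section nv41_main

variable {K L : Type*} [Field K] [Field L] [Algebra K L] [FiniteDimensional K L]

/-- Every nonzero element of `V'` has valuation `v'(π) ^ c` with `c : ℕ`. -/
theorem nv41_nat_exp (V' : ValuationSubring K) (π : K)
    (hmax : ∀ x ∈ V', x⁻¹ ∉ V' → π⁻¹ * x ∈ V')
    (harch : ∀ x : K, x ≠ 0 → ∃ n : ℕ, (π ^ n)⁻¹ * x ∉ V')
    (x : K) (hx0 : x ≠ 0) (hx : x ∈ V') :
    ∃ c : ℕ, V'.valuation x = V'.valuation π ^ c := by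
  obtain ⟨hπ0, hπ1⟩ := nv41_unif V' π harch
  obtain ⟨c, hc⟩ := nv41_dvr V' π hmax harch x hx0
  have hpos : 0 < V'.valuation π := zero_lt_iff.2 ((Valuation.ne_zero_iff _).2 hπ0)
  have hle : V'.valuation x ≤ 1 := (V'.valuation_le_one_iff x).2 hx
  have hc0 : 0 ≤ c := by
    by_contra hneg
    have hlt : c < 0 := not_le.1 hneg
    have h1 : 1 < V'.valuation π ^ c := by
      have h2 : V'.valuation π ^ c = (V'.valuation π ^ (-c).toNat)⁻¹ := by
        rw [← zpow_natCast, Int.toNat_of_nonneg (by omega), zpow_neg, inv_inv]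
      rw [h2]
      exact (one_lt_inv₀ (pow_pos hpos _)).2
        (pow_lt_one₀ zero_le hπ1 (by omega))
    rw [hc] at hle
    exact absurd hle (not_le.2 h1)
  refine ⟨c.toNat, ?_⟩
  rw [hc, ← zpow_natCast, Int.toNat_of_nonneg hc0]

/-- **The ramified pair.**  `L / K` of degree `n + 1`, `V1`, `V2` valuation subrings of `L`
containing the image of `V'`, with `V1 ⊓ V2` integral over `V'`, `π` a nonunit of both, `s` a
unit of `V1` with `v₂(s) ^ n = v₂(π)`.  Then `v'(N y) = v'(π) ^ (a + b)` whenever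
`v₁(y) = v₁(π) ^ a` and `v₂(y) = v₂(s) ^ b`. -/
theorem nv41_ram (n : ℕ) (hn : 1 ≤ n) (hdeg : Module.finrank K L = n + 1)
    (V' : ValuationSubring K) (π : K)
    (hmax : ∀ x ∈ V', x⁻¹ ∉ V' → π⁻¹ * x ∈ V')
    (harch : ∀ x : K, x ≠ 0 → ∃ n : ℕ, (π ^ n)⁻¹ * x ∉ V')
    (V1 V2 : ValuationSubring L)
    (h1 : ∀ x ∈ V', algebraMap K L x ∈ V1) (h1' : (algebraMap K L π)⁻¹ ∉ V1)
    (h2 : ∀ x ∈ V', algebraMap K L x ∈ V2) (h2' : (algebraMap K L π)⁻¹ ∉ V2)
    (hint : ∀ x : L, x ∈ V1 → x ∈ V2 → ((algebraMap K L).comp V'.subtype).IsIntegralElem x)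
    (s : L) (hs : V2.valuation s ^ n = V2.valuation (algebraMap K L π))
    (hs1 : V1.valuation s = 1)
    (y : L) (a b : ℤ)
    (ha : V1.valuation y = V1.valuation (algebraMap K L π) ^ a)
    (hb : V2.valuation y = V2.valuation s ^ b) :
    V'.valuation (Algebra.norm K y) = V'.valuation π ^ (a + b) := by
  obtain ⟨hπ0, hπ1⟩ := nv41_unif V' π harch
  have hπV' : π ∈ V' := (V'.valuation_le_one_iff π).1 hπ1.le
  have hvπ0 : V'.valuation π ≠ 0 := (Valuation.ne_zero_iff _).2 hπ0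
  have hvπpos : 0 < V'.valuation π := zero_lt_iff.2 hvπ0
  obtain ⟨P, hP⟩ : ∃ P : L, P = algebraMap K L π := ⟨_, rfl⟩
  rw [← hP] at h1' h2' hs ha
  have hP0 : P ≠ 0 := by rw [hP]; exact (map_ne_zero (algebraMap K L)).2 hπ0
  have hP1 : P ∈ V1 := by rw [hP]; exact h1 π hπV'
  have hP2 : P ∈ V2 := by rw [hP]; exact h2 π hπV'
  have hv1P0 : V1.valuation P ≠ 0 := (Valuation.ne_zero_iff _).2 hP0
  have hv2P0 : V2.valuation P ≠ 0 := (Valuation.ne_zero_iff _).2 hP0
  have hv1P : V1.valuation P < 1 := by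
    rcases lt_or_eq_of_le ((V1.valuation_le_one_iff P).2 hP1) with h | h
    · exact h
    · exact absurd (nv41_mem_of_val_eq_one V1 P h).2 h1'
  have hv2P : V2.valuation P < 1 := by
    rcases lt_or_eq_of_le ((V2.valuation_le_one_iff P).2 hP2) with h | h
    · exact h
    · exact absurd (nv41_mem_of_val_eq_one V2 P h).2 h2'
  have hs0 : s ≠ 0 := by
    rintro rfl
    rw [map_zero] at hs1
    exact zero_ne_one hs1
  have hv2s0 : V2.valuation s ≠ 0 := (Valuation.ne_zero_iff _).2 hs0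
  have hv2s : V2.valuation s < 1 := by
    by_contra hcon
    have h3 : 1 ≤ V2.valuation s ^ n := one_le_pow₀ (not_lt.1 hcon)
    rw [hs] at h3
    exact absurd hv2P (not_lt.2 h3)
  -- the two "coordinate" elements
  obtain ⟨y1, hy1⟩ : ∃ y1 : L, y1 = P * (s ^ n)⁻¹ := ⟨_, rfl⟩
  have hy10 : y1 ≠ 0 := by rw [hy1]; exact mul_ne_zero hP0 (inv_ne_zero (pow_ne_zero n hs0))
  have hv1y1 : V1.valuation y1 = V1.valuation P := by
    rw [hy1, map_mul, map_inv₀, map_pow, hs1, one_pow, inv_one, mul_one]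
  have hv2y1 : V2.valuation y1 = 1 := by
    rw [hy1, map_mul, map_inv₀, map_pow, hs, mul_inv_cancel₀ hv2P0]
  -- integrality of the coordinate elements
  have hy1int : ((algebraMap K L).comp V'.subtype).IsIntegralElem y1 :=
    hint y1 ((V1.valuation_le_one_iff y1).1 (hv1y1 ▸ hv1P.le))
      ((V2.valuation_le_one_iff y1).1 hv2y1.le)
  have hsint : ((algebraMap K L).comp V'.subtype).IsIntegralElem s :=
    hint s ((V1.valuation_le_one_iff s).1 hs1.le) ((V2.valuation_le_one_iff s).1 hv2s.le)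
  -- their norms are nonunits of `V'`
  have hNy1 : (Algebra.norm K y1)⁻¹ ∉ V' := by
    refine nv41_norm_nonunit V' V1 h1 y1 ((V1.valuation_le_one_iff y1).1 (hv1y1 ▸ hv1P.le))
      ?_ hy1int
    intro hcon
    have h3 := (V1.valuation_le_one_iff _).2 hcon
    rw [map_inv₀, hv1y1] at h3
    exact absurd ((inv_le_one₀ (zero_lt_iff.2 hv1P0)).1 h3) (not_le.2 hv1P)
  have hNs : (Algebra.norm K s)⁻¹ ∉ V' := by
    refine nv41_norm_nonunit V' V2 h2 s ((V2.valuation_le_one_iff s).1 hv2s.le) ?_ hsint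
    intro hcon
    have h3 := (V2.valuation_le_one_iff _).2 hcon
    rw [map_inv₀] at h3
    exact absurd ((inv_le_one₀ (zero_lt_iff.2 hv2s0)).1 h3) (not_le.2 hv2s)
  have hNy1ne : Algebra.norm K y1 ≠ 0 := Algebra.norm_ne_zero_iff.2 hy10
  have hNsne : Algebra.norm K s ≠ 0 := Algebra.norm_ne_zero_iff.2 hs0
  obtain ⟨c1, hc1⟩ := nv41_nat_exp V' π hmax harch _ hNy1ne (nv41_norm_mem V' y1 hy1int)
  obtain ⟨c2, hc2⟩ := nv41_nat_exp V' π hmax harch _ hNsne (nv41_norm_mem V' s hsint)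
  have hc1pos : 1 ≤ c1 := by
    rcases Nat.eq_zero_or_pos c1 with h | h
    · rw [h, pow_zero] at hc1
      exact absurd (nv41_mem_of_val_eq_one V' _ hc1).2 hNy1
    · exact h
  have hc2pos : 1 ≤ c2 := by
    rcases Nat.eq_zero_or_pos c2 with h | h
    · rw [h, pow_zero] at hc2
      exact absurd (nv41_mem_of_val_eq_one V' _ hc2).2 hNs
    · exact h
  -- `N(π) = π ^ (n + 1)` and `π = y1 * s ^ n`
  have hPeq : P = y1 * s ^ n := by
    rw [hy1, mul_assoc, inv_mul_cancel₀ (pow_ne_zero n hs0), mul_one]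
  have hNP : Algebra.norm K P = π ^ (n + 1) := by
    rw [hP, Algebra.norm_algebraMap, hdeg]
  have hsum : c1 + n * c2 = n + 1 := by
    have h3 : V'.valuation (Algebra.norm K P) = V'.valuation π ^ (c1 + n * c2) := by
      rw [hPeq, map_mul, map_pow, map_mul, map_pow, hc1, hc2, ← pow_mul, ← pow_add,
        mul_comm c2 n]
    rw [hNP, map_pow] at h3
    have h4 : (V'.valuation π) ^ ((n + 1 : ℕ) : ℤ) = (V'.valuation π) ^ ((c1 + n * c2 : ℕ) : ℤ) := by
      rw [zpow_natCast, zpow_natCast]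
      exact h3
    have h5 := nv41_zpow_inj V' π hπ0 hπ1 h4
    exact_mod_cast h5.symm
  have hc2one : c2 = 1 := by
    by_contra hne
    have h2le : 2 ≤ c2 := by omega
    have h3 : n * 2 ≤ n * c2 := Nat.mul_le_mul_left n h2le
    omega
  have hc1one : c1 = 1 := by
    rw [hc2one, mul_one] at hsum
    omega
  rw [hc1one, pow_one] at hc1
  rw [hc2one, pow_one] at hc2
  -- the unit part of `y`
  have hy0 : y ≠ 0 := by
    rintro rfl
    rw [map_zero] at ha
    exact (zpow_ne_zero a hv1P0) ha.symm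
  obtain ⟨u, hu⟩ : ∃ u : L, u = y * (y1 ^ a * s ^ b)⁻¹ := ⟨_, rfl⟩
  have hden : y1 ^ a * s ^ b ≠ 0 := mul_ne_zero (zpow_ne_zero a hy10) (zpow_ne_zero b hs0)
  have hu0 : u ≠ 0 := by rw [hu]; exact mul_ne_zero hy0 (inv_ne_zero hden)
  have hv1u : V1.valuation u = 1 := by
    rw [hu, map_mul, map_inv₀, map_mul, map_zpow₀, map_zpow₀, hv1y1, hs1, one_zpow, mul_one, ha,
      mul_inv_cancel₀ (zpow_ne_zero a hv1P0)]
  have hv2u : V2.valuation u = 1 := by
    rw [hu, map_mul, map_inv₀, map_mul, map_zpow₀, map_zpow₀, hv2y1, one_zpow, one_mul, hb,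
      mul_inv_cancel₀ (zpow_ne_zero b hv2s0)]
  obtain ⟨hu1, hu1'⟩ := nv41_mem_of_val_eq_one V1 u hv1u
  obtain ⟨hu2, hu2'⟩ := nv41_mem_of_val_eq_one V2 u hv2u
  have hNu : V'.valuation (Algebra.norm K u) = 1 :=
    nv41_norm_unit V' u hu0 (hint u hu1 hu2) (hint u⁻¹ hu1' hu2')
  have hyeq : y = u * (y1 ^ a * s ^ b) := by
    rw [hu, mul_assoc, inv_mul_cancel₀ hden, mul_one]
  rw [hyeq, map_mul (Algebra.norm K), map_mul (Algebra.norm K), Algebra.norm_zpow,
    Algebra.norm_zpow, map_mul, map_mul, map_zpow₀, map_zpow₀, hNu, hc1, hc2, one_mul,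
    zpow_add₀ hvπ0]

/-- **The inert (or purely inseparable) case.**  `L / K` of degree `d`, `V` a valuation
subring of `L` all of whose elements are integral over `V'`.  Then
`v'(N y) = v'(π) ^ (d * c)` whenever `v(y) = v(π) ^ c`. -/
theorem nv41_inert (d : ℕ) (hdeg : Module.finrank K L = d)
    (V' : ValuationSubring K) (π : K) (hπ0 : π ≠ 0)
    (V : ValuationSubring L)
    (hint : ∀ x : L, x ∈ V → ((algebraMap K L).comp V'.subtype).IsIntegralElem x)
    (y : L) (c : ℤ)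
    (hc : V.valuation y = V.valuation (algebraMap K L π) ^ c) :
    V'.valuation (Algebra.norm K y) = V'.valuation π ^ ((d : ℤ) * c) := by
  have hP0 : algebraMap K L π ≠ 0 := (map_ne_zero (algebraMap K L)).2 hπ0
  have hvP0 : V.valuation (algebraMap K L π) ≠ 0 := (Valuation.ne_zero_iff _).2 hP0
  have hy0 : y ≠ 0 := by
    rintro rfl
    rw [map_zero] at hc
    exact (zpow_ne_zero c hvP0) hc.symm
  have hden : algebraMap K L π ^ c ≠ 0 := zpow_ne_zero c hP0
  have hu0 : y * (algebraMap K L π ^ c)⁻¹ ≠ 0 := mul_ne_zero hy0 (inv_ne_zero hden)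
  have hvu : V.valuation (y * (algebraMap K L π ^ c)⁻¹) = 1 := by
    rw [map_mul, map_inv₀, map_zpow₀, hc, mul_inv_cancel₀ (zpow_ne_zero c hvP0)]
  obtain ⟨hu1, hu1'⟩ := nv41_mem_of_val_eq_one V _ hvu
  have hNu := nv41_norm_unit V' _ hu0 (hint _ hu1) (hint _ hu1')
  have hyeq : y = (y * (algebraMap K L π ^ c)⁻¹) * algebraMap K L π ^ c := by
    rw [mul_assoc, inv_mul_cancel₀ hden, mul_one]
  rw [hyeq, map_mul, map_mul, Algebra.norm_zpow, Algebra.norm_algebraMap, hdeg, hNu, one_mul,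
    map_zpow₀, map_pow, ← zpow_natCast, ← zpow_mul]

/-! ### Discreteness of the valuation subrings over `V'` -/

/-- A valuation subring of `L` over `V'` (containing its image, `π` a nonunit) meets `K` in
`V'`. -/
theorem nv41_comap (V' : ValuationSubring K) (π : K)
    (hmax : ∀ x ∈ V', x⁻¹ ∉ V' → π⁻¹ * x ∈ V')
    (V : ValuationSubring L) (hV : ∀ x ∈ V', algebraMap K L x ∈ V)
    (hV' : (algebraMap K L π)⁻¹ ∉ V) (x : K) (hx : algebraMap K L x ∈ V) : x ∈ V' := by
  by_contra hcon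
  have hxi : x⁻¹ ∈ V' := (V'.mem_or_inv_mem x).resolve_left hcon
  have hx0 : x ≠ 0 := by
    rintro rfl
    exact hcon V'.zero_mem
  have h3 : π⁻¹ * x⁻¹ ∈ V' := hmax x⁻¹ hxi (by rwa [inv_inv])
  apply hV'
  have h4 : (algebraMap K L π)⁻¹ = algebraMap K L (π⁻¹ * x⁻¹) * algebraMap K L x := by
    rw [← map_mul, mul_assoc, inv_mul_cancel₀ hx0, mul_one, map_inv₀]
  rw [h4]
  exact mul_mem (hV _ h3) hx

/-- **Archimedean property upstairs**: a valuation subring of `L` over the discrete valuation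
subring `V'` is archimedean with respect to `π`. -/
theorem nv41_arch_up (V' : ValuationSubring K) (π : K)
    (hmax : ∀ x ∈ V', x⁻¹ ∉ V' → π⁻¹ * x ∈ V')
    (harch : ∀ x : K, x ≠ 0 → ∃ n : ℕ, (π ^ n)⁻¹ * x ∉ V')
    (V : ValuationSubring L) (hV : ∀ x ∈ V', algebraMap K L x ∈ V)
    (hV' : (algebraMap K L π)⁻¹ ∉ V) :
    ∀ y : L, y ≠ 0 → ∃ n : ℕ, (algebraMap K L π ^ n)⁻¹ * y ∉ V := by
  classical
  intro y hy
  obtain ⟨hπ0, hπ1⟩ := nv41_unif V' π harch
  have hπV' : π ∈ V' := (V'.valuation_le_one_iff π).1 hπ1.le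
  have hP0 : algebraMap K L π ≠ 0 := (map_ne_zero (algebraMap K L)).2 hπ0
  have hvP0 : V.valuation (algebraMap K L π) ≠ 0 := (Valuation.ne_zero_iff _).2 hP0
  have hvP1 : V.valuation (algebraMap K L π) ≤ 1 := (V.valuation_le_one_iff _).2 (hV π hπV')
  have hyK : IsIntegral K y := Algebra.IsIntegral.isIntegral y
  have hp0 : (minpoly K y).coeff 0 ≠ 0 := minpoly.coeff_zero_ne_zero hyK hy
  have hpy : Polynomial.aeval y (minpoly K y) = 0 := minpoly.aeval K y
  have hdeg : 0 < (minpoly K y).natDegree := minpoly.natDegree_pos hyK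
  rw [Polynomial.aeval_eq_sum_range, Finset.sum_range_succ', pow_zero] at hpy
  -- the largest coefficient among those of positive degree
  obtain ⟨j, hjmem, hjmax⟩ := Finset.exists_max_image (Finset.range (minpoly K y).natDegree)
    (fun i => V.valuation (algebraMap K L ((minpoly K y).coeff (i + 1))))
    ⟨0, Finset.mem_range.2 hdeg⟩
  have hlead : (1 : _) ≤ V.valuation (algebraMap K L ((minpoly K y).coeff (j + 1))) := by
    obtain ⟨k, hk⟩ := Nat.exists_eq_succ_of_ne_zero hdeg.ne'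
    have h3 := hjmax k (Finset.mem_range.2 (by omega))
    have h4 : (minpoly K y).coeff (k + 1) = 1 := by
      have h5 := (minpoly.monic hyK).coeff_natDegree
      rw [hk] at h5
      exact h5
    simp only [h4, map_one] at h3
    exact h3
  have hcj0 : (minpoly K y).coeff (j + 1) ≠ 0 := by
    intro h0
    rw [h0, map_zero, map_zero] at hlead
    exact absurd hlead (not_le.2 zero_lt_one)
  obtain ⟨n, hn⟩ := harch ((minpoly K y).coeff 0 * ((minpoly K y).coeff (j + 1))⁻¹)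
    (mul_ne_zero hp0 (inv_ne_zero hcj0))
  refine ⟨n, fun hmem => hn ?_⟩
  -- `v(y) ≤ v(π) ^ n ≤ 1`
  have hvy : V.valuation y ≤ V.valuation (algebraMap K L π) ^ n := by
    have h3 := (V.valuation_le_one_iff _).2 hmem
    rw [map_mul, map_inv₀, map_pow, inv_mul_le_iff₀ (pow_pos (zero_lt_iff.2 hvP0) n),
      mul_one] at h3
    exact h3
  have hvy1 : V.valuation y ≤ 1 := hvy.trans (pow_le_one₀ zero_le hvP1)
  -- bound the constant coefficient
  have hc0 : algebraMap K L ((minpoly K y).coeff 0)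
      = -∑ i ∈ Finset.range (minpoly K y).natDegree,
          (minpoly K y).coeff (i + 1) • y ^ (i + 1) := by
    rw [eq_neg_iff_add_eq_zero, add_comm]
    rw [Algebra.smul_def, mul_one] at hpy
    exact hpy
  have hbound : V.valuation (algebraMap K L ((minpoly K y).coeff 0))
      ≤ V.valuation (algebraMap K L ((minpoly K y).coeff (j + 1))) * V.valuation y := by
    rw [hc0, Valuation.map_neg]
    refine Valuation.map_sum_le _ (fun i hi => ?_)
    rw [Algebra.smul_def, map_mul, map_pow, pow_succ']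
    have h5 : V.valuation y * V.valuation y ^ i ≤ V.valuation y :=
      mul_le_of_le_one_right zero_le (pow_le_one₀ zero_le hvy1)
    exact mul_le_mul' (hjmax i hi) h5
  -- conclude
  apply nv41_comap V' π hmax V hV hV'
  have hcjv : V.valuation (algebraMap K L ((minpoly K y).coeff (j + 1))) ≠ 0 :=
    (Valuation.ne_zero_iff _).2 ((map_ne_zero (algebraMap K L)).2 hcj0)
  have e : algebraMap K L ((π ^ n)⁻¹ * ((minpoly K y).coeff 0 * ((minpoly K y).coeff (j + 1))⁻¹))
      = (algebraMap K L π ^ n)⁻¹ * (algebraMap K L ((minpoly K y).coeff 0)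
          * (algebraMap K L ((minpoly K y).coeff (j + 1)))⁻¹) := by
    simp only [map_mul, map_inv₀, map_pow]
  rw [e, ← V.valuation_le_one_iff, map_mul, map_inv₀, map_pow, map_mul, map_inv₀,
    inv_mul_le_iff₀ (pow_pos (zero_lt_iff.2 hvP0) n), mul_one,
    mul_inv_le_iff₀ (zero_lt_iff.2 hcjv)]
  calc V.valuation (algebraMap K L ((minpoly K y).coeff 0))
      ≤ V.valuation (algebraMap K L ((minpoly K y).coeff (j + 1))) * V.valuation y := hbound
    _ ≤ V.valuation (algebraMap K L ((minpoly K y).coeff (j + 1)))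
          * V.valuation (algebraMap K L π) ^ n := mul_le_mul' le_rfl hvy
    _ = V.valuation (algebraMap K L π) ^ n
          * V.valuation (algebraMap K L ((minpoly K y).coeff (j + 1))) := mul_comm _ _

/-- The archimedean property with respect to an element `s` with `v(s) ^ n = v(π)`. -/
theorem nv41_arch_pow (π : K) (V : ValuationSubring L) (s : L) (n : ℕ)
    (hs : V.valuation s ^ n = V.valuation (algebraMap K L π))
    (harchV : ∀ y : L, y ≠ 0 → ∃ k : ℕ, (algebraMap K L π ^ k)⁻¹ * y ∉ V) :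
    ∀ y : L, y ≠ 0 → ∃ k : ℕ, (s ^ k)⁻¹ * y ∉ V := by
  intro y hy
  obtain ⟨k, hk⟩ := harchV y hy
  refine ⟨n * k, fun hmem => hk ?_⟩
  have h3 := (V.valuation_le_one_iff _).2 hmem
  rw [← V.valuation_le_one_iff]
  rw [map_mul, map_inv₀, map_pow, pow_mul, hs] at h3
  rw [map_mul, map_inv₀, map_pow]
  exact h3

end nv41_main

/-! ### The `ℤ`-valued orders: membership, constants, and the two norm formulas -/

/-- `0 ≤ ord y` iff `y ∈ V`. -/
theorem nv41_ord_nonneg_iff {F : Type*} [Field F] (V : ValuationSubring F) (t : F) (ht0 : t ≠ 0)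
    (ht1 : V.valuation t < 1)
    (hdvr : ∀ y : F, y ≠ 0 → ∃ c : ℤ, V.valuation y = V.valuation t ^ c)
    (y : F) (hy : y ≠ 0) : 0 ≤ nv41_ord V t y ↔ y ∈ V := by
  rw [← V.valuation_le_one_iff, nv41_ord_spec V t y (hdvr y hy),
    zpow_le_one_iff_right_of_lt_one₀ (zero_lt_iff.2 ((Valuation.ne_zero_iff _).2 ht0)) ht1]

/-- `ord y = 0` iff `y` is a unit of `V`. -/
theorem nv41_ord_eq_zero_iff {F : Type*} [Field F] (V : ValuationSubring F) (t : F)
    (ht0 : t ≠ 0) (ht1 : V.valuation t < 1)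
    (hdvr : ∀ y : F, y ≠ 0 → ∃ c : ℤ, V.valuation y = V.valuation t ^ c)
    (y : F) (hy : y ≠ 0) : nv41_ord V t y = 0 ↔ (y ∈ V ∧ y⁻¹ ∈ V) := by
  constructor
  · intro h
    have h2 := nv41_ord_spec V t y (hdvr y hy)
    rw [h, zpow_zero] at h2
    exact nv41_mem_of_val_eq_one V y h2
  · rintro ⟨h1, h2⟩
    apply nv41_ord_eq V t ht0 ht1
    rw [zpow_zero]
    exact nv41_val_eq_one V y hy h1 h2

section nv41_ordnorm

variable {K L : Type*} [Field K] [Field L] [Algebra K L] [FiniteDimensional K L]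

/-- The order of a constant: if `v(t) ^ e = v(π)` then `ord_t (c) = e * ord_π (c)`. -/
theorem nv41_ord_algebraMap (V' : ValuationSubring K) (π : K)
    (hmax : ∀ x ∈ V', x⁻¹ ∉ V' → π⁻¹ * x ∈ V')
    (harch : ∀ x : K, x ≠ 0 → ∃ n : ℕ, (π ^ n)⁻¹ * x ∉ V')
    (V : ValuationSubring L) (hV : ∀ x ∈ V', algebraMap K L x ∈ V)
    (t : L) (ht0 : t ≠ 0) (ht1 : V.valuation t < 1) (e : ℕ)
    (hte : V.valuation t ^ e = V.valuation (algebraMap K L π))
    (c : K) (hc : c ≠ 0) :
    nv41_ord V t (algebraMap K L c) = (e : ℤ) * nv41_ord V' π c := by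
  obtain ⟨hπ0, hπ1⟩ := nv41_unif V' π harch
  obtain ⟨k, hk⟩ := nv41_dvr V' π hmax harch c hc
  rw [nv41_ord_eq V' π hπ0 hπ1 c k hk]
  have hvπ0 : V'.valuation π ≠ 0 := (Valuation.ne_zero_iff _).2 hπ0
  have hu : V'.valuation (c * (π ^ k)⁻¹) = 1 := by
    rw [map_mul, map_inv₀, map_zpow₀, hk, mul_inv_cancel₀ (zpow_ne_zero k hvπ0)]
  obtain ⟨hu1, hu2⟩ := nv41_mem_of_val_eq_one V' _ hu
  have hu0 : c * (π ^ k)⁻¹ ≠ 0 := mul_ne_zero hc (inv_ne_zero (zpow_ne_zero k hπ0))
  have hvu : V.valuation (algebraMap K L (c * (π ^ k)⁻¹)) = 1 := by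
    apply nv41_val_eq_one V _ ((map_ne_zero (algebraMap K L)).2 hu0) (hV _ hu1)
    rw [← map_inv₀]
    exact hV _ hu2
  apply nv41_ord_eq V t ht0 ht1
  calc V.valuation (algebraMap K L c)
      = V.valuation (algebraMap K L (c * (π ^ k)⁻¹) * algebraMap K L π ^ k) := by
        rw [← map_zpow₀, ← map_mul, mul_assoc, inv_mul_cancel₀ (zpow_ne_zero k hπ0), mul_one]
    _ = V.valuation t ^ ((e : ℤ) * k) := by
        rw [map_mul, hvu, one_mul, map_zpow₀, ← hte, ← zpow_natCast, ← zpow_mul]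

/-- **(I1), ramified pair, `ℤ`-valued form.**  Hypotheses = the outputs of `oe72_ram_main`
(integrality of `V1 ⊓ V2`, uniformizers `π` of `V1` and `s` of `V2`, degree `n + 1`) together
with `v₁(s) = 1`.  Conclusions: the orders `ord' = nv41_ord V' π`, `ord₁ = nv41_ord V1 π`,
`ord₂ = nv41_ord V2 s` are multiplicative, `ord'(N y) = ord₁ y + ord₂ y`, with the expected
values on `π`, `s` and on constants, and `ord_i y = 0` iff `y` is a unit of `V_i`. -/
theorem nv41_ord_norm_ram (n : ℕ) (hn : 1 ≤ n) (hdeg : Module.finrank K L = n + 1)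
    (V' : ValuationSubring K) (π : K)
    (hmax : ∀ x ∈ V', x⁻¹ ∉ V' → π⁻¹ * x ∈ V')
    (harch : ∀ x : K, x ≠ 0 → ∃ n : ℕ, (π ^ n)⁻¹ * x ∉ V')
    (V1 V2 : ValuationSubring L)
    (h1 : ∀ x ∈ V', algebraMap K L x ∈ V1) (h1' : (algebraMap K L π)⁻¹ ∉ V1)
    (h2 : ∀ x ∈ V', algebraMap K L x ∈ V2) (h2' : (algebraMap K L π)⁻¹ ∉ V2)
    (hint : ∀ x : L, x ∈ V1 → x ∈ V2 → ((algebraMap K L).comp V'.subtype).IsIntegralElem x)
    (hu1 : ∀ x ∈ V1, x⁻¹ ∉ V1 → (algebraMap K L π)⁻¹ * x ∈ V1)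
    (s : L) (hs : V2.valuation s ^ n = V2.valuation (algebraMap K L π))
    (hu2 : ∀ x ∈ V2, x⁻¹ ∉ V2 → s⁻¹ * x ∈ V2)
    (hs1 : V1.valuation s = 1) :
    (∀ y : L, y ≠ 0 → nv41_ord V' π (Algebra.norm K y)
        = nv41_ord V1 (algebraMap K L π) y + nv41_ord V2 s y) ∧
    (∀ x y : K, x ≠ 0 → y ≠ 0 →
      nv41_ord V' π (x * y) = nv41_ord V' π x + nv41_ord V' π y) ∧
    (∀ x y : L, x ≠ 0 → y ≠ 0 → nv41_ord V1 (algebraMap K L π) (x * y)
        = nv41_ord V1 (algebraMap K L π) x + nv41_ord V1 (algebraMap K L π) y) ∧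
    (∀ x y : L, x ≠ 0 → y ≠ 0 →
      nv41_ord V2 s (x * y) = nv41_ord V2 s x + nv41_ord V2 s y) ∧
    nv41_ord V' π π = 1 ∧
    nv41_ord V1 (algebraMap K L π) (algebraMap K L π) = 1 ∧
    nv41_ord V1 (algebraMap K L π) s = 0 ∧
    nv41_ord V2 s (algebraMap K L π) = n ∧
    nv41_ord V2 s s = 1 ∧
    (∀ c : K, c ≠ 0 → nv41_ord V1 (algebraMap K L π) (algebraMap K L c) = nv41_ord V' π c) ∧
    (∀ c : K, c ≠ 0 → nv41_ord V2 s (algebraMap K L c) = (n : ℤ) * nv41_ord V' π c) ∧
    (∀ y : L, y ≠ 0 → (nv41_ord V1 (algebraMap K L π) y = 0 ↔ (y ∈ V1 ∧ y⁻¹ ∈ V1))) ∧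
    (∀ y : L, y ≠ 0 → (nv41_ord V2 s y = 0 ↔ (y ∈ V2 ∧ y⁻¹ ∈ V2))) ∧
    (∀ y : K, y ≠ 0 → (nv41_ord V' π y = 0 ↔ (y ∈ V' ∧ y⁻¹ ∈ V'))) := by
  obtain ⟨hπ0, hπ1⟩ := nv41_unif V' π harch
  have harch1 := nv41_arch_up V' π hmax harch V1 h1 h1'
  have harch2P := nv41_arch_up V' π hmax harch V2 h2 h2'
  have harch2 := nv41_arch_pow π V2 s n hs harch2P
  obtain ⟨hP0, hP1⟩ := nv41_unif V1 (algebraMap K L π) harch1
  obtain ⟨hs0, hs2⟩ := nv41_unif V2 s harch2
  have dvr' := nv41_dvr V' π hmax harch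
  have dvr1 := nv41_dvr V1 (algebraMap K L π) hu1 harch1
  have dvr2 := nv41_dvr V2 s hu2 harch2
  refine ⟨fun y hy => ?_, nv41_ord_mul V' π hπ0 hπ1 dvr',
    nv41_ord_mul V1 _ hP0 hP1 dvr1, nv41_ord_mul V2 s hs0 hs2 dvr2,
    nv41_ord_self V' π hπ0 hπ1, nv41_ord_self V1 _ hP0 hP1, ?_, ?_,
    nv41_ord_self V2 s hs0 hs2, fun c hc => ?_, fun c hc => ?_,
    nv41_ord_eq_zero_iff V1 _ hP0 hP1 dvr1, nv41_ord_eq_zero_iff V2 s hs0 hs2 dvr2,
    nv41_ord_eq_zero_iff V' π hπ0 hπ1 dvr'⟩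
  · exact nv41_ord_eq V' π hπ0 hπ1 _ _
      (nv41_ram n hn hdeg V' π hmax harch V1 V2 h1 h1' h2 h2' hint s hs hs1 y _ _
        (nv41_ord_spec V1 _ y (dvr1 y hy)) (nv41_ord_spec V2 s y (dvr2 y hy)))
  · exact nv41_ord_eq V1 _ hP0 hP1 s 0 (by rw [zpow_zero]; exact hs1)
  · exact nv41_ord_eq V2 s hs0 hs2 _ n (by rw [zpow_natCast]; exact hs.symm)
  · have h3 := nv41_ord_algebraMap V' π hmax harch V1 h1 (algebraMap K L π) hP0 hP1 1
      (pow_one _) c hc
    rw [h3, Nat.cast_one, one_mul]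
  · exact nv41_ord_algebraMap V' π hmax harch V2 h2 s hs0 hs2 n hs c hc

/-- **(I1), inert case, `ℤ`-valued form.**  Hypotheses = the outputs of `oe72_inert_main`
(integrality of `V`, uniformizer `π` of `V`, degree `d`).  Conclusions: `ord = nv41_ord V π`
is multiplicative, `ord'(N y) = d * ord y`, `ord π = 1`, `ord c = ord' c` on constants, and
`ord y = 0` iff `y` is a unit of `V`. -/
theorem nv41_ord_norm_inert (d : ℕ) (hdeg : Module.finrank K L = d)
    (V' : ValuationSubring K) (π : K)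
    (hmax : ∀ x ∈ V', x⁻¹ ∉ V' → π⁻¹ * x ∈ V')
    (harch : ∀ x : K, x ≠ 0 → ∃ n : ℕ, (π ^ n)⁻¹ * x ∉ V')
    (V : ValuationSubring L)
    (hV : ∀ x ∈ V', algebraMap K L x ∈ V) (hV' : (algebraMap K L π)⁻¹ ∉ V)
    (hint : ∀ x : L, x ∈ V → ((algebraMap K L).comp V'.subtype).IsIntegralElem x)
    (hu : ∀ x ∈ V, x⁻¹ ∉ V → (algebraMap K L π)⁻¹ * x ∈ V) :
    (∀ y : L, y ≠ 0 → nv41_ord V' π (Algebra.norm K y)
        = (d : ℤ) * nv41_ord V (algebraMap K L π) y) ∧
    (∀ x y : L, x ≠ 0 → y ≠ 0 → nv41_ord V (algebraMap K L π) (x * y)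
        = nv41_ord V (algebraMap K L π) x + nv41_ord V (algebraMap K L π) y) ∧
    nv41_ord V (algebraMap K L π) (algebraMap K L π) = 1 ∧
    (∀ c : K, c ≠ 0 → nv41_ord V (algebraMap K L π) (algebraMap K L c) = nv41_ord V' π c) ∧
    (∀ y : L, y ≠ 0 → (nv41_ord V (algebraMap K L π) y = 0 ↔ (y ∈ V ∧ y⁻¹ ∈ V))) := by
  obtain ⟨hπ0, hπ1⟩ := nv41_unif V' π harch
  have harchV := nv41_arch_up V' π hmax harch V hV hV'
  obtain ⟨hP0, hP1⟩ := nv41_unif V (algebraMap K L π) harchV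
  have dvrV := nv41_dvr V (algebraMap K L π) hu harchV
  refine ⟨fun y hy => ?_, nv41_ord_mul V _ hP0 hP1 dvrV, nv41_ord_self V _ hP0 hP1,
    fun c hc => ?_, nv41_ord_eq_zero_iff V _ hP0 hP1 dvrV⟩
  · exact nv41_ord_eq V' π hπ0 hπ1 _ _
      (nv41_inert d hdeg V' π hπ0 V hint y _ (nv41_ord_spec V _ y (dvrV y hy)))
  · have h3 := nv41_ord_algebraMap V' π hmax harch V hV (algebraMap K L π) hP0 hP1 1
      (pow_one _) c hc
    rw [h3, Nat.cast_one, one_mul]

end nv41_ordnorm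

end Fermat.Agent.S36
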