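/-
# S36 lab (helper39): the index/degree roots of the newness chain at `q ∣ N`

For a prime `q` DIVIDING `N` (the case `q² ∣ N q` of S36; the S35 chain has `¬ q ∣ N`):

* `dr39_psi_mul`        : `ψ(N q) = q ψ(N)`;
* `dr39_relindex`       : `[Γ₀(N) : Γ₀(N q)] = q`;
* `dr39_relfinrank`     : `[F_K(N q) : F_K(N)] = q` inside `K((q))`;
* `dr39_finrank_alpha`  : the degree of `F_L(N q)` over `F_L(N)` along `heckeAlphaBar` is `q`.

These replace `gi41_relindex` / `gi41_finrank_alpha` (`= ℓ + 1` for `ℓ ∤ N`).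
All names are prefixed `dr39_`.
-/
import Fermat.Agent.S42.GaloisK1_41

set_option autoImplicit false
set_option synthInstance.maxHeartbeats 400000

open ModularCurve IntermediateField AlgebraicCurve MatrixGroups CongruenceSubgroup

namespace Fermat.Agent.S36

open Fermat.Agent.S18 Fermat.Agent.S28 Fermat.Agent.S24 Fermat.Agent.S37 Fermat.Agent.S42

/-- `ψ(N q) = q ψ(N)` for a prime `q ∣ N`. -/
theorem dr39_psi_mul (N q : ℕ) [NeZero N] (hq : q.Prime) (hqN : q ∣ N) :
    dedekindPsi (N * q) = q * dedekindPsi N := by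
  -- write `N = q ^ (k+1) * m` with `q ∤ m`
  obtain ⟨e, m, hm, hN⟩ := Nat.exists_eq_pow_mul_and_not_dvd (NeZero.ne N) q hq.ne_one
  have he : 0 < e := by
    rcases Nat.eq_zero_or_pos e with h0 | h0
    · exfalso
      rw [h0, pow_zero, one_mul] at hN
      exact hm (hN ▸ hqN)
    · exact h0
  have hcop : Nat.Coprime (q ^ e) m :=
    Nat.Coprime.pow_left e ((Nat.Prime.coprime_iff_not_dvd hq).mpr hm)
  have hcop' : Nat.Coprime (q ^ (e + 1)) m :=
    Nat.Coprime.pow_left (e + 1) ((Nat.Prime.coprime_iff_not_dvd hq).mpr hm)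
  have hNq : N * q = q ^ (e + 1) * m := by rw [hN, pow_succ]; ring
  obtain ⟨k, rfl⟩ : ∃ k, e = k + 1 := ⟨e - 1, by omega⟩
  have h1 : dedekindPsi (q ^ (k + 1 + 1)) = q ^ (k + 1 + 1) + q ^ (k + 1) := by
    have := Fermat.Agent.Lib.G0C.dedekindPsi_prime_pow hq (e := k + 1 + 1) (Nat.succ_pos _)
    simpa using this
  have h2 : dedekindPsi (q ^ (k + 1)) = q ^ (k + 1) + q ^ k := by
    have := Fermat.Agent.Lib.G0C.dedekindPsi_prime_pow hq (e := k + 1) (Nat.succ_pos _)
    simpa using this
  rw [hNq, hN, Fermat.Agent.Lib.G0C.dedekindPsi_mul hcop', Fermat.Agent.Lib.G0C.dedekindPsi_mul hcop,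
    h1, h2]
  ring

/-- `[Γ₀(N) : Γ₀(N q)] = q` for a prime `q ∣ N`. -/
theorem dr39_relindex (N q : ℕ) [NeZero N] [NeZero q] (hq : q.Prime) (hqN : q ∣ N) :
    (Gamma0 (N * q)).relIndex (Gamma0 N) = q := by
  have hle : Gamma0 (N * q) ≤ Gamma0 N := by
    intro g hg
    rw [Gamma0_mem] at hg ⊢
    have h1 : ((N * q : ℕ) : ℤ) ∣ g 1 0 := (ZMod.intCast_zmod_eq_zero_iff_dvd _ _).1 hg
    apply (ZMod.intCast_zmod_eq_zero_iff_dvd _ _).2
    exact dvd_trans (by exact_mod_cast dvd_mul_right N q) h1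
  have h1 := Subgroup.relIndex_mul_index hle
  rw [gi41_index, gi41_index, dr39_psi_mul N q hq hqN, mul_comm, mul_comm q] at h1
  exact Nat.eq_of_mul_eq_mul_left (gi41_psi_pos N) h1

/-- `[F_K(N q) : F_K(N)] = q` (relative degree inside `K((q))`) for a prime `q ∣ N`. -/
theorem dr39_relfinrank (K : Type) [Field K] (N q : ℕ) [NeZero N] [NeZero q]
    (hq : q.Prime) (hqN : q ∣ N) (hK : ((N * q : ℕ) : K) ≠ 0) :
    (modularFunctionFieldFullC K N).relfinrank (modularFunctionFieldFullC K (N * q)) = q := by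
  have h1 := gi41_relfinrank K (N := N) (N' := N * q) (dvd_mul_right N q) hK
  rw [dr39_psi_mul N q hq hqN, mul_comm q] at h1
  exact Nat.eq_of_mul_eq_mul_left (gi41_psi_pos N) h1

/-- The degree of `F_L(N q)` over `F_L(N)` along the inclusion `α`, for a prime `q ∣ N`. -/
theorem dr39_finrank_alpha (L : Type) [Field L] [Algebra ℚ L] (N q : ℕ) [NeZero N] [NeZero q]
    (hq : q.Prime) (hqN : q ∣ N) :
    @Module.finrank (laurentBaseChange L (modularFunctionFieldFull N))
      (laurentBaseChange L (modularFunctionFieldFull (N * q))) _ _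
      (algebraAlong (heckeAlphaBar L N q)).toModule = q := by
  have hle : laurentBaseChange L (modularFunctionFieldFull N) ≤
      laurentBaseChange L (modularFunctionFieldFull (N * q)) :=
    nd38_baseChange_le L (dvd_mul_right N q)
  have hchar : CharZero L := charZero_of_injective_algebraMap (algebraMap ℚ L).injective
  have hK : ((N * q : ℕ) : L) ≠ 0 := Nat.cast_ne_zero.mpr (NeZero.ne (N * q))
  have hrel : (laurentBaseChange L (modularFunctionFieldFull N)).relfinrank
      (laurentBaseChange L (modularFunctionFieldFull (N * q))) = q := by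
    rw [gi41_baseChange_eq, gi41_baseChange_eq]
    exact dr39_relfinrank L N q hq hqN hK
  refine Eq.trans ?_ hrel
  rw [IntermediateField.relfinrank_eq_finrank_of_le hle]
  let _ := algebraAlong (heckeAlphaBar L N q)
  let j : ↥(laurentBaseChange L (modularFunctionFieldFull (N * q))) ≃+*
      ↥(IntermediateField.extendScalars hle) :=
    { toFun := fun x => ⟨x.1, (IntermediateField.mem_extendScalars hle).mpr x.2⟩
      invFun := fun x => ⟨x.1, (IntermediateField.mem_extendScalars hle).mp x.2⟩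
      left_inv := fun _ => rfl
      right_inv := fun _ => rfl
      map_mul' := fun _ _ => rfl
      map_add' := fun _ _ => rfl }
  exact Algebra.finrank_eq_of_equiv_equiv (RingEquiv.refl _) j (RingHom.ext fun x => rfl)

end Fermat.Agent.S36
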