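import Fermat.Agent.S36.OnlyExt72
import Fermat.Agent.S36.DegRoot39
import Fermat.Agent.S34.FrameSat85

/-!
# S36 lab, row B1-only3 (helper72): binding of `OnlyExt72` to the level `M * q`, `q ∣ M`

`E = F(M)_K ⊆ F = F(M q)_K` along the inclusion `α = al97L_alpha K M q`, degree `q`
(`ob72_finrank`, from `dr39_relfinrank`).  `V' = cm85_Vinf M` (Gauss ring of level `M`),
`V₁ = cm85_Vinf (M q)`.  The third valuation `V₂` is a PARAMETER with exactly the facts that the
row B1-V2 produces: `α V' ⊆ V₂`, `π⁻¹ ∉ V₂`, `V₁ ≠ V₂`, and an element `s` with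
`v₂(s) ^ (q - 1) = v₂(π)`.

`ob72_ram` : then `V₁`, `V₂` are the only valuation subrings of `F` over `V'`, `V₁ ⊓ V₂` is
integral over `V'`, `s` is a uniformizer of `V₂`, and the residue fields of `V₁` and of `V₂` are
that of `V'`.  `ob72_ram_basis` : `V₁ ⊓ V₂` is a free `V'`-module of rank `q`.

All names are prefixed `ob72_`.
-/

set_option autoImplicit false
set_option linter.unusedSectionVars false
set_option linter.style.haveILetI false

open ModularCurve IntermediateField Polynomial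

namespace Fermat.Agent.S36

open Fermat.Agent.S18 Fermat.Agent.S24 Fermat.Agent.S37 Fermat.Agent.S34

/-- `[F(M q) : F(M)] = q` along the inclusion `α`, for a prime `q ∣ M`. -/
theorem ob72_finrank (K : Type) [Field K] [CharZero K] (M q : ℕ) [NeZero M] [NeZero q]
    (hq : q.Prime) (hqM : q ∣ M) :
    letI : Algebra ↥(modularFunctionFieldFullC K M) ↥(modularFunctionFieldFullC K (M * q)) :=
      (al97L_alpha K M q).toRingHom.toAlgebra
    Module.finrank ↥(modularFunctionFieldFullC K M) ↥(modularFunctionFieldFullC K (M * q)) =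
      q := by
  letI : Algebra ↥(modularFunctionFieldFullC K M) ↥(modularFunctionFieldFullC K (M * q)) :=
    (al97L_alpha K M q).toRingHom.toAlgebra
  have hle := full_degeneracyC_le K (dvd_mul_right M q)
  have hK : ((M * q : ℕ) : K) ≠ 0 := Nat.cast_ne_zero.mpr (NeZero.ne _)
  have h1 := dr39_relfinrank K M q hq hqM hK
  rw [IntermediateField.relfinrank_eq_finrank_of_le hle] at h1
  let e : ↥(modularFunctionFieldFullC K (M * q)) ≃ₗ[↥(modularFunctionFieldFullC K M)]
      ↥(IntermediateField.extendScalars hle) :=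
    { toFun := fun x => ⟨x.1, x.2⟩
      invFun := fun x => ⟨x.1, x.2⟩
      map_add' := fun _ _ => rfl
      map_smul' := fun _ _ => rfl
      left_inv := fun _ => rfl
      right_inv := fun _ => rfl }
  exact e.finrank_eq.trans h1

section ob72_main

variable {R K : Type} [CommRing R] [IsDomain R] [IsDiscreteValuationRing R] [Field K] [CharZero K]
  [Algebra R K] [IsFractionRing R K] (M q : ℕ) [NeZero M] [NeZero q]

/-- **B1-only3, ramified pair over `V_∞'` along `α`.** -/
theorem ob72_ram (hq : q.Prime) (hqM : q ∣ M) {π : R} (hπ : Irreducible π)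
    (V₂ : ValuationSubring ↥(modularFunctionFieldFullC K (M * q)))
    (hV₂ : ∀ c ∈ cm85_Vinf (K := K) M hπ, al97L_alpha K M q c ∈ V₂)
    (hπ₂ : (algebraMap K ↥(modularFunctionFieldFullC K (M * q)) (algebraMap R K π))⁻¹ ∉ V₂)
    (hne : cm85_Vinf (K := K) (M * q) hπ ≠ V₂)
    (s : ↥(modularFunctionFieldFullC K (M * q)))
    (hs : V₂.valuation s ^ (q - 1) =
      V₂.valuation (algebraMap K ↥(modularFunctionFieldFullC K (M * q)) (algebraMap R K π))) :
    (∀ V : ValuationSubring ↥(modularFunctionFieldFullC K (M * q)),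
      (∀ c ∈ cm85_Vinf (K := K) M hπ, al97L_alpha K M q c ∈ V) →
      (algebraMap K ↥(modularFunctionFieldFullC K (M * q)) (algebraMap R K π))⁻¹ ∉ V →
      V = cm85_Vinf (K := K) (M * q) hπ ∨ V = V₂) ∧
    (∀ x : ↥(modularFunctionFieldFullC K (M * q)), x ∈ cm85_Vinf (K := K) (M * q) hπ → x ∈ V₂ →
      ((al97L_alpha K M q).toRingHom.comp
        (cm85_Vinf (K := K) M hπ).subtype).IsIntegralElem x) ∧
    (∀ x ∈ V₂, x⁻¹ ∉ V₂ → s⁻¹ * x ∈ V₂) ∧
    (∀ x ∈ cm85_Vinf (K := K) (M * q) hπ, ∃ b ∈ cm85_Vinf (K := K) M hπ,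
      (algebraMap K ↥(modularFunctionFieldFullC K (M * q)) (algebraMap R K π))⁻¹ *
        (x - al97L_alpha K M q b) ∈ cm85_Vinf (K := K) (M * q) hπ) ∧
    (∀ x ∈ V₂, ∃ b ∈ cm85_Vinf (K := K) M hπ, s⁻¹ * (x - al97L_alpha K M q b) ∈ V₂) := by
  letI alg : Algebra ↥(modularFunctionFieldFullC K M) ↥(modularFunctionFieldFullC K (M * q)) :=
    (al97L_alpha K M q).toRingHom.toAlgebra
  have hfr := ob72_finrank K M q hq hqM
  haveI : FiniteDimensional ↥(modularFunctionFieldFullC K M)
      ↥(modularFunctionFieldFullC K (M * q)) :=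
    Module.finite_of_finrank_pos (by rw [hfr]; exact hq.pos)
  have hπEF : algebraMap ↥(modularFunctionFieldFullC K M) ↥(modularFunctionFieldFullC K (M * q))
      (algebraMap K ↥(modularFunctionFieldFullC K M) (algebraMap R K π)) =
      algebraMap K ↥(modularFunctionFieldFullC K (M * q)) (algebraMap R K π) :=
    (al97L_alpha K M q).commutes _
  have hπV' : algebraMap K ↥(modularFunctionFieldFullC K M) (algebraMap R K π) ∈
      cm85_Vinf (K := K) M hπ :=
    gv85_mem_V_of_integral _ _ _ _ (HahnSeries.C π) (by rw [gv85_coe_algebraMap, gv85_coeffMap_C])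
  have hπV'' : (algebraMap K ↥(modularFunctionFieldFullC K M) (algebraMap R K π))⁻¹ ∉
      cm85_Vinf (K := K) M hπ :=
    gv85_pi_inv_not_mem (IsLocalRing.residue R) π (pk85_res_iff hπ) hπ.ne_zero _ _
  have hmax : ∀ x ∈ cm85_Vinf (K := K) M hπ, x⁻¹ ∉ cm85_Vinf (K := K) M hπ →
      (algebraMap K ↥(modularFunctionFieldFullC K M) (algebraMap R K π))⁻¹ * x ∈
        cm85_Vinf (K := K) M hπ := fun x hx hx' =>
    gv85_hmax (IsLocalRing.residue R) π (pk85_res_iff hπ) hπ.ne_zero _ _ x hx hx'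
  have harch := fs85_harch (K := K) M hπ
  have hV₁ : ∀ c ∈ cm85_Vinf (K := K) M hπ,
      algebraMap ↥(modularFunctionFieldFullC K M) ↥(modularFunctionFieldFullC K (M * q)) c ∈
        cm85_Vinf (K := K) (M * q) hπ := fun c hc =>
    (al97V_alpha_mem_Vinf M q hπ c).mpr hc
  have hπ₁ : (algebraMap ↥(modularFunctionFieldFullC K M) ↥(modularFunctionFieldFullC K (M * q))
      (algebraMap K ↥(modularFunctionFieldFullC K M) (algebraMap R K π)))⁻¹ ∉
        cm85_Vinf (K := K) (M * q) hπ := by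
    rw [hπEF]
    exact gv85_pi_inv_not_mem (IsLocalRing.residue R) π (pk85_res_iff hπ) hπ.ne_zero _ _
  have hπ₂' : (algebraMap ↥(modularFunctionFieldFullC K M) ↥(modularFunctionFieldFullC K (M * q))
      (algebraMap K ↥(modularFunctionFieldFullC K M) (algebraMap R K π)))⁻¹ ∉ V₂ := by
    rw [hπEF]; exact hπ₂
  have hs' : V₂.valuation s ^ (q - 1) = V₂.valuation
      (algebraMap ↥(modularFunctionFieldFullC K M) ↥(modularFunctionFieldFullC K (M * q))
        (algebraMap K ↥(modularFunctionFieldFullC K M) (algebraMap R K π))) := by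
    rw [hπEF]; exact hs
  have hq2 := hq.two_le
  obtain ⟨h1, h2, -, h4, h5, h6, -⟩ := oe72_ram_main (q - 1) (by omega) (by rw [hfr]; omega)
    (cm85_Vinf (K := K) M hπ) (algebraMap K ↥(modularFunctionFieldFullC K M) (algebraMap R K π))
    hπV' hπV'' hmax harch (cm85_Vinf (K := K) (M * q) hπ) V₂ hne hV₁ hπ₁ hV₂ hπ₂' s hs'
  refine ⟨fun V hV hV' => h1 V hV (by rw [hπEF]; exact hV'), h2, h4, ?_, h6⟩
  intro x hx
  obtain ⟨b, hb, hb'⟩ := h5 x hx
  rw [hπEF] at hb'
  exact ⟨b, hb, hb'⟩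

/-- **B1-only3, freeness.**  `V₁ ⊓ V₂` is a free module of rank `q` over the Gauss ring of level
`M` (along `α`): a basis of `F(M q)` over `F(M)` inside `V₁ ⊓ V₂` in which the elements of
`V₁ ⊓ V₂` have coordinates in `V'`. -/
theorem ob72_ram_basis (hq : q.Prime) (hqM : q ∣ M) {π : R} (hπ : Irreducible π)
    (V₂ : ValuationSubring ↥(modularFunctionFieldFullC K (M * q)))
    (hV₂ : ∀ c ∈ cm85_Vinf (K := K) M hπ, al97L_alpha K M q c ∈ V₂)
    (hπ₂ : (algebraMap K ↥(modularFunctionFieldFullC K (M * q)) (algebraMap R K π))⁻¹ ∉ V₂)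
    (hne : cm85_Vinf (K := K) (M * q) hπ ≠ V₂)
    (s : ↥(modularFunctionFieldFullC K (M * q)))
    (hs : V₂.valuation s ^ (q - 1) =
      V₂.valuation (algebraMap K ↥(modularFunctionFieldFullC K (M * q)) (algebraMap R K π))) :
    letI : Algebra ↥(modularFunctionFieldFullC K M) ↥(modularFunctionFieldFullC K (M * q)) :=
      (al97L_alpha K M q).toRingHom.toAlgebra
    ∃ b : Module.Basis (Unit ⊕ Fin (q - 1)) ↥(modularFunctionFieldFullC K M)
        ↥(modularFunctionFieldFullC K (M * q)),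
      (∀ i, b i ∈ cm85_Vinf (K := K) (M * q) hπ ∧ b i ∈ V₂) ∧
      ∀ x : ↥(modularFunctionFieldFullC K (M * q)), x ∈ cm85_Vinf (K := K) (M * q) hπ → x ∈ V₂ →
        ∀ i, b.repr x i ∈ cm85_Vinf (K := K) M hπ := by
  letI alg : Algebra ↥(modularFunctionFieldFullC K M) ↥(modularFunctionFieldFullC K (M * q)) :=
    (al97L_alpha K M q).toRingHom.toAlgebra
  have hfr := ob72_finrank K M q hq hqM
  haveI : FiniteDimensional ↥(modularFunctionFieldFullC K M)
      ↥(modularFunctionFieldFullC K (M * q)) :=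
    Module.finite_of_finrank_pos (by rw [hfr]; exact hq.pos)
  have hπEF : algebraMap ↥(modularFunctionFieldFullC K M) ↥(modularFunctionFieldFullC K (M * q))
      (algebraMap K ↥(modularFunctionFieldFullC K M) (algebraMap R K π)) =
      algebraMap K ↥(modularFunctionFieldFullC K (M * q)) (algebraMap R K π) :=
    (al97L_alpha K M q).commutes _
  have hD : oe10_DVR (cm85_Vinf (K := K) M hπ)
      (algebraMap K ↥(modularFunctionFieldFullC K M) (algebraMap R K π)) :=
    ⟨gv85_mem_V_of_integral _ _ _ _ (HahnSeries.C π)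
        (by rw [gv85_coe_algebraMap, gv85_coeffMap_C]),
      gv85_pi_inv_not_mem (IsLocalRing.residue R) π (pk85_res_iff hπ) hπ.ne_zero _ _,
      fun x hx hx' =>
        gv85_hmax (IsLocalRing.residue R) π (pk85_res_iff hπ) hπ.ne_zero _ _ x hx hx',
      fs85_harch (K := K) M hπ⟩
  have hO1 : oe10_Over (cm85_Vinf (K := K) M hπ)
      (algebraMap K ↥(modularFunctionFieldFullC K M) (algebraMap R K π))
      (cm85_Vinf (K := K) (M * q) hπ) :=
    ⟨fun c hc => (al97V_alpha_mem_Vinf M q hπ c).mpr hc, by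
      rw [hπEF]
      exact gv85_pi_inv_not_mem (IsLocalRing.residue R) π (pk85_res_iff hπ) hπ.ne_zero _ _⟩
  have hO2 : oe10_Over (cm85_Vinf (K := K) M hπ)
      (algebraMap K ↥(modularFunctionFieldFullC K M) (algebraMap R K π)) V₂ :=
    ⟨hV₂, by rw [hπEF]; exact hπ₂⟩
  have hs' : V₂.valuation s ^ (q - 1) = V₂.valuation
      (algebraMap ↥(modularFunctionFieldFullC K M) ↥(modularFunctionFieldFullC K (M * q))
        (algebraMap K ↥(modularFunctionFieldFullC K M) (algebraMap R K π))) := by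
    rw [hπEF]; exact hs
  have hq2 := hq.two_le
  exact oe72_pair_basis hD hO1 hO2 hne _ _
    (oe10_ind_of_sind hD hO1 (oe10_sind_one hD hO1)) (oe72_ind_pow hD hO2 hs')
    (by rw [hfr, Fintype.card_unit, Fintype.card_fin]; omega)

end ob72_main

end Fermat.Agent.S36
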