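import Fermat.Agent.S36.FrameBind85
import Fermat.Agent.S36.OnlyBind72
import Fermat.Agent.S36.CycDVR30
import Fermat.Agent.S36.NormVal41

/-!
# S36 lab (helper73), row 605 support: the FRAME CLAUSES of `ci57_Datum` for the canonical
three-valuation frame of level `M' q q`

`V₁ = cm85_Vinf (M' q q)`, `V₃ = nsb86_V3`, `V₂` = any valuation subring with the four facts of
`v2g64_exists_of_datum` / `ob72_ram`.

* `fc73_exists_V2` : the UNCONDITIONAL middle valuation `V₂` over an unramified base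
  (`Associated (q : R) π`): `cyc30_exists` + `v2g64_exists_of_datum`.
* `fc73_vec` : the family `![V₁, V₂, V₃] : Fin 3 → ValuationSubring F`.
* `fc73_pi`, `fc73_rad`, `fc73_arch` : the literal clauses `hπV`, `hrad`, `harch` of `ci57_Datum`
  (in the `[Algebra R F] [IsScalarTower R K F]` form) for that family.
* `fc73_frame_level2/3` : `s34i47_WProps ∧ s34i47_ChartProps ∧ hπV ∧ hrad ∧ harch`.

All names are prefixed `fc73_`.
-/

set_option autoImplicit false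
set_option linter.unusedSectionVars false
set_option linter.unusedVariables false
set_option linter.style.haveILetI false
set_option linter.style.longLine false

open ModularCurve IntermediateField Polynomial

namespace Fermat.Agent.S36

open Fermat.Agent.S18 Fermat.Agent.S24 Fermat.Agent.S37 Fermat.Agent.S34

local notation "Q̄" => AlgebraicClosure ℚ

section fc73

variable {R K : Type} [CommRing R] [IsDomain R] [IsDiscreteValuationRing R] [Field K] [CharZero K]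
  [Algebra R K] [IsFractionRing R K] [Algebra K Q̄] (M' q : ℕ) [NeZero M'] [NeZero q]

/-- **The middle valuation exists** over an unramified base. -/
theorem fc73_exists_V2 (hq : q.Prime) (hM' : ¬ q ∣ M') {π : R} (hπ : Irreducible π)
    (hqπ : Associated ((q : ℕ) : R) π) :
    ∃ V₂ : ValuationSubring ↥(modularFunctionFieldFullC K (M' * q * q)),
      (∀ c ∈ cm85_Vinf (K := K) (M' * q) hπ, al97L_alpha K (M' * q) q c ∈ V₂) ∧
      (algebraMap K ↥(modularFunctionFieldFullC K (M' * q * q)) (algebraMap R K π))⁻¹ ∉ V₂ ∧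
      cm85_Vinf (K := K) (M' * q * q) hπ ≠ V₂ ∧
      V₂.valuation (v2g64_s K M' q) ^ (q - 1) =
        V₂.valuation (algebraMap K ↥(modularFunctionFieldFullC K (M' * q * q))
          (algebraMap R K π)) := by
  obtain ⟨K', _, _, A', ϖ, ρ, ζ, hD⟩ := cyc30_exists (R := R) (K := K) q hq hπ hqπ
  exact v2g64_exists_of_datum A' (algebraMap K Q̄) M' q hq hM' hπ ϖ ρ ζ hD

/-- The canonical family of the three valuation subrings. -/
noncomputable def fc73_vec (hq : q.Prime) (hM' : ¬ q ∣ M') {π : R} (hπ : Irreducible π)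
    (V₂ : ValuationSubring ↥(modularFunctionFieldFullC K (M' * q * q))) :
    Fin 3 → ValuationSubring ↥(modularFunctionFieldFullC K (M' * q * q)) :=
  ![cm85_Vinf (K := K) (M' * q * q) hπ, V₂, nsb86_V3 (K := K) M' q hq hM' hπ]

theorem fc73_vec_zero (hq : q.Prime) (hM' : ¬ q ∣ M') {π : R} (hπ : Irreducible π)
    (V₂ : ValuationSubring ↥(modularFunctionFieldFullC K (M' * q * q))) :
    fc73_vec M' q hq hM' hπ V₂ 0 = cm85_Vinf (K := K) (M' * q * q) hπ := rfl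

theorem fc73_vec_one (hq : q.Prime) (hM' : ¬ q ∣ M') {π : R} (hπ : Irreducible π)
    (V₂ : ValuationSubring ↥(modularFunctionFieldFullC K (M' * q * q))) :
    fc73_vec M' q hq hM' hπ V₂ 1 = V₂ := rfl

theorem fc73_vec_two (hq : q.Prime) (hM' : ¬ q ∣ M') {π : R} (hπ : Irreducible π)
    (V₂ : ValuationSubring ↥(modularFunctionFieldFullC K (M' * q * q))) :
    fc73_vec M' q hq hM' hπ V₂ 2 = nsb86_V3 (K := K) M' q hq hM' hπ := rfl

/-- `π⁻¹ ∉ V i`, `K`-form. -/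
theorem fc73_piK (hq : q.Prime) (hM' : ¬ q ∣ M') {π : R} (hπ : Irreducible π)
    (V₂ : ValuationSubring ↥(modularFunctionFieldFullC K (M' * q * q)))
    (hπ₂ : (algebraMap K ↥(modularFunctionFieldFullC K (M' * q * q)) (algebraMap R K π))⁻¹ ∉ V₂)
    (i : Fin 3) :
    (algebraMap K ↥(modularFunctionFieldFullC K (M' * q * q)) (algebraMap R K π))⁻¹ ∉
      fc73_vec M' q hq hM' hπ V₂ i := by
  fin_cases i
  · show _ ∉ cm85_Vinf (K := K) (M' * q * q) hπ
    exact gv85_pi_inv_not_mem (IsLocalRing.residue R) π (pk85_res_iff hπ) hπ.ne_zero _ _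
  · exact hπ₂
  · show _ ∉ nsb86_V3 (K := K) M' q hq hM' hπ
    exact o3x72_V3_pi M' q hq hM' hπ (nsb86_hL K (M' * q * q)) _ (nsb86_mem_V3 M' q hq hM' hπ)

/-- `rad (π V i) = 𝔪 (V i)`, `K`-form: exponents `1`, `q - 1`, `1`. -/
theorem fc73_radK (hq : q.Prime) (hM' : ¬ q ∣ M') {π : R} (hπ : Irreducible π)
    (hqR : ¬ IsUnit (q : R))
    (V₂ : ValuationSubring ↥(modularFunctionFieldFullC K (M' * q * q)))
    (hV₂ : ∀ c ∈ cm85_Vinf (K := K) (M' * q) hπ, al97L_alpha K (M' * q) q c ∈ V₂)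
    (hπ₂ : (algebraMap K ↥(modularFunctionFieldFullC K (M' * q * q)) (algebraMap R K π))⁻¹ ∉ V₂)
    (hne : cm85_Vinf (K := K) (M' * q * q) hπ ≠ V₂)
    (hs : V₂.valuation (v2g64_s K M' q) ^ (q - 1) =
      V₂.valuation (algebraMap K ↥(modularFunctionFieldFullC K (M' * q * q)) (algebraMap R K π)))
    (i : Fin 3) (x : ↥(modularFunctionFieldFullC K (M' * q * q)))
    (hx : x ∈ fc73_vec M' q hq hM' hπ V₂ i) (hx' : x⁻¹ ∉ fc73_vec M' q hq hM' hπ V₂ i) :
    ∃ k : ℕ, (algebraMap K ↥(modularFunctionFieldFullC K (M' * q * q)) (algebraMap R K π))⁻¹ *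
      x ^ k ∈ fc73_vec M' q hq hM' hπ V₂ i := by
  fin_cases i
  · refine ⟨1, ?_⟩
    rw [pow_one]
    have hx1 : x ∈ cm85_Vinf (K := K) (M' * q * q) hπ := hx
    have hx1' : x⁻¹ ∉ cm85_Vinf (K := K) (M' * q * q) hπ := hx'
    show _ ∈ cm85_Vinf (K := K) (M' * q * q) hπ
    exact gv85_hmax (IsLocalRing.residue R) π (pk85_res_iff hπ) hπ.ne_zero _ _ x hx1 hx1'
  · refine ⟨q - 1, ?_⟩
    have hx2 : x ∈ V₂ := hx
    have hx2' : x⁻¹ ∉ V₂ := hx'
    obtain ⟨-, -, hmax₂, -, -⟩ := ob72_ram (K := K) (M' * q) q hq (dvd_mul_left q M') hπ V₂ hV₂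
      hπ₂ hne (v2g64_s K M' q) hs
    have h1 : (v2g64_s K M' q)⁻¹ * x ∈ V₂ := hmax₂ x hx2 hx2'
    have hπ0 : algebraMap K ↥(modularFunctionFieldFullC K (M' * q * q)) (algebraMap R K π) ≠ 0 := by
      intro h0
      apply hπ₂
      rw [h0, inv_zero]
      exact V₂.zero_mem
    have hv0 : V₂.valuation (algebraMap K ↥(modularFunctionFieldFullC K (M' * q * q))
        (algebraMap R K π)) ≠ 0 := (Valuation.ne_zero_iff _).2 hπ0
    have h2 : (algebraMap K ↥(modularFunctionFieldFullC K (M' * q * q)) (algebraMap R K π))⁻¹ *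
        v2g64_s K M' q ^ (q - 1) ∈ V₂ := by
      rw [← V₂.valuation_le_one_iff, map_mul, map_inv₀, map_pow, hs, inv_mul_cancel₀ hv0]
    have hs0 : v2g64_s K M' q ≠ 0 := by
      intro h0
      rw [h0, map_zero, zero_pow (by have := hq.two_le; omega)] at hs
      exact hv0 hs.symm
    have e : (algebraMap K ↥(modularFunctionFieldFullC K (M' * q * q)) (algebraMap R K π))⁻¹ *
        x ^ (q - 1) =
        ((algebraMap K ↥(modularFunctionFieldFullC K (M' * q * q)) (algebraMap R K π))⁻¹ *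
          v2g64_s K M' q ^ (q - 1)) * ((v2g64_s K M' q)⁻¹ * x) ^ (q - 1) := by
      rw [mul_pow, inv_pow]
      field_simp
    show _ ∈ V₂
    rw [e]
    exact V₂.mul_mem _ _ h2 (pow_mem h1 _)
  · refine ⟨1, ?_⟩
    rw [pow_one]
    obtain ⟨-, -, hmax₃, -⟩ := o3x72_inert (K := K) M' q hq hM' hπ hqR (nsb86_hL K (M' * q * q))
      (nsb86_V3 (K := K) M' q hq hM' hπ) (nsb86_mem_V3 M' q hq hM' hπ)
    have hx3 : x ∈ nsb86_V3 (K := K) M' q hq hM' hπ := hx
    have hx3' : x⁻¹ ∉ nsb86_V3 (K := K) M' q hq hM' hπ := hx'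
    show _ ∈ nsb86_V3 (K := K) M' q hq hM' hπ
    exact hmax₃ x hx3 hx3'

/-- The archimedean property of the three valuations, `K`-form. -/
theorem fc73_archK (hq : q.Prime) (hM' : ¬ q ∣ M') {π : R} (hπ : Irreducible π)
    (V₂ : ValuationSubring ↥(modularFunctionFieldFullC K (M' * q * q)))
    (hV₂ : ∀ c ∈ cm85_Vinf (K := K) (M' * q) hπ, al97L_alpha K (M' * q) q c ∈ V₂)
    (hπ₂ : (algebraMap K ↥(modularFunctionFieldFullC K (M' * q * q)) (algebraMap R K π))⁻¹ ∉ V₂)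
    (i : Fin 3) (x : ↥(modularFunctionFieldFullC K (M' * q * q))) (hx : x ≠ 0) :
    ∃ k : ℕ, ((algebraMap K ↥(modularFunctionFieldFullC K (M' * q * q)) (algebraMap R K π)) ^ k)⁻¹ *
      x ∉ fc73_vec M' q hq hM' hπ V₂ i := by
  fin_cases i
  · show ∃ k : ℕ, _ ∉ cm85_Vinf (K := K) (M' * q * q) hπ
    exact fs85_harch (K := K) (M' * q * q) hπ x hx
  · show ∃ k : ℕ, _ ∉ V₂
    letI alg : Algebra ↥(modularFunctionFieldFullC K (M' * q))
        ↥(modularFunctionFieldFullC K (M' * q * q)) :=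
      (al97L_alpha K (M' * q) q).toRingHom.toAlgebra
    have hfr := ob72_finrank K (M' * q) q hq (dvd_mul_left q M')
    haveI : FiniteDimensional ↥(modularFunctionFieldFullC K (M' * q))
        ↥(modularFunctionFieldFullC K (M' * q * q)) :=
      Module.finite_of_finrank_pos (by rw [hfr]; exact hq.pos)
    have hπEF : algebraMap ↥(modularFunctionFieldFullC K (M' * q))
        ↥(modularFunctionFieldFullC K (M' * q * q))
        (algebraMap K ↥(modularFunctionFieldFullC K (M' * q)) (algebraMap R K π)) =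
        algebraMap K ↥(modularFunctionFieldFullC K (M' * q * q)) (algebraMap R K π) :=
      (al97L_alpha K (M' * q) q).commutes _
    have h := nv41_arch_up (cm85_Vinf (K := K) (M' * q) hπ)
      (algebraMap K ↥(modularFunctionFieldFullC K (M' * q)) (algebraMap R K π))
      (fun y hy hy' =>
        gv85_hmax (IsLocalRing.residue R) π (pk85_res_iff hπ) hπ.ne_zero _ _ y hy hy')
      (fs85_harch (K := K) (M' * q) hπ) V₂ hV₂ (by rw [hπEF]; exact hπ₂) x hx
    rw [hπEF] at h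
    exact h
  · have hw0 : als86_w2 (algebraMap K Q̄) M' q hq hM' (nsb86_hL K (M' * q * q)) x ≠ 0 :=
      (_root_.map_ne_zero _).2 hx
    obtain ⟨k, hk⟩ := fs85_harch (K := K) (M' * q * q) hπ _ hw0
    refine ⟨k, fun hmem => hk ?_⟩
    have hmem3 : _ ∈ nsb86_V3 (K := K) M' q hq hM' hπ := hmem
    have h1 := (nsb86_mem_V3 M' q hq hM' hπ _).1 hmem3
    rw [map_mul, map_inv₀, map_pow, AlgEquiv.commutes] at h1
    exact h1

variable [Algebra R ↥(modularFunctionFieldFullC K (M' * q * q))]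
  [IsScalarTower R K ↥(modularFunctionFieldFullC K (M' * q * q))]

/-- **Clause `hπV` of `ci57_Datum`.** -/
theorem fc73_pi (hq : q.Prime) (hM' : ¬ q ∣ M') {π : R} (hπ : Irreducible π)
    (V₂ : ValuationSubring ↥(modularFunctionFieldFullC K (M' * q * q)))
    (hπ₂ : (algebraMap K ↥(modularFunctionFieldFullC K (M' * q * q)) (algebraMap R K π))⁻¹ ∉ V₂) :
    ∀ i, (algebraMap R ↥(modularFunctionFieldFullC K (M' * q * q)) π)⁻¹ ∉
      fc73_vec M' q hq hM' hπ V₂ i := by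
  intro i
  rw [IsScalarTower.algebraMap_apply R K ↥(modularFunctionFieldFullC K (M' * q * q))]
  exact fc73_piK M' q hq hM' hπ V₂ hπ₂ i

/-- **Clause `hrad` of `ci57_Datum`.** -/
theorem fc73_rad (hq : q.Prime) (hM' : ¬ q ∣ M') {π : R} (hπ : Irreducible π)
    (hqR : ¬ IsUnit (q : R))
    (V₂ : ValuationSubring ↥(modularFunctionFieldFullC K (M' * q * q)))
    (hV₂ : ∀ c ∈ cm85_Vinf (K := K) (M' * q) hπ, al97L_alpha K (M' * q) q c ∈ V₂)
    (hπ₂ : (algebraMap K ↥(modularFunctionFieldFullC K (M' * q * q)) (algebraMap R K π))⁻¹ ∉ V₂)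
    (hne : cm85_Vinf (K := K) (M' * q * q) hπ ≠ V₂)
    (hs : V₂.valuation (v2g64_s K M' q) ^ (q - 1) =
      V₂.valuation (algebraMap K ↥(modularFunctionFieldFullC K (M' * q * q)) (algebraMap R K π))) :
    ∀ i, ∀ x ∈ fc73_vec M' q hq hM' hπ V₂ i, x⁻¹ ∉ fc73_vec M' q hq hM' hπ V₂ i → ∃ k : ℕ,
      (algebraMap R ↥(modularFunctionFieldFullC K (M' * q * q)) π)⁻¹ * x ^ k ∈
        fc73_vec M' q hq hM' hπ V₂ i := by
  intro i x hx hx'
  rw [IsScalarTower.algebraMap_apply R K ↥(modularFunctionFieldFullC K (M' * q * q))]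
  exact fc73_radK M' q hq hM' hπ hqR V₂ hV₂ hπ₂ hne hs i x hx hx'

/-- **Clause `harch` of `ci57_Datum`.** -/
theorem fc73_arch (hq : q.Prime) (hM' : ¬ q ∣ M') {π : R} (hπ : Irreducible π)
    (V₂ : ValuationSubring ↥(modularFunctionFieldFullC K (M' * q * q)))
    (hV₂ : ∀ c ∈ cm85_Vinf (K := K) (M' * q) hπ, al97L_alpha K (M' * q) q c ∈ V₂)
    (hπ₂ : (algebraMap K ↥(modularFunctionFieldFullC K (M' * q * q)) (algebraMap R K π))⁻¹ ∉ V₂) :
    ∀ i, ∀ x : ↥(modularFunctionFieldFullC K (M' * q * q)), x ≠ 0 → ∃ k : ℕ,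
      (algebraMap R ↥(modularFunctionFieldFullC K (M' * q * q)) π ^ k)⁻¹ * x ∉
        fc73_vec M' q hq hM' hπ V₂ i := by
  intro i x hx
  rw [IsScalarTower.algebraMap_apply R K ↥(modularFunctionFieldFullC K (M' * q * q))]
  exact fc73_archK M' q hq hM' hπ V₂ hV₂ hπ₂ i x hx

/-- **The frame clauses of `ci57_Datum`, Hauptmodul of level 2.** -/
theorem fc73_frame_level2 [Algebra.IsAlgebraic K Q̄]
    (hq : q.Prime) (hM' : ¬ q ∣ M') {π : R} (hπ : Irreducible π)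
    (hqR : ¬ IsUnit (q : R)) (hMu : IsUnit (M' : R)) (h2 : 2 ∣ M')
    (V₂ : ValuationSubring ↥(modularFunctionFieldFullC K (M' * q * q)))
    (hV₂ : ∀ c ∈ cm85_Vinf (K := K) (M' * q) hπ, al97L_alpha K (M' * q) q c ∈ V₂)
    (hπ₂ : (algebraMap K ↥(modularFunctionFieldFullC K (M' * q * q)) (algebraMap R K π))⁻¹ ∉ V₂)
    (hne : cm85_Vinf (K := K) (M' * q * q) hπ ≠ V₂)
    (hs : V₂.valuation (v2g64_s K M' q) ^ (q - 1) =
      V₂.valuation (algebraMap K ↥(modularFunctionFieldFullC K (M' * q * q)) (algebraMap R K π))) :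
    s34i47_WProps π ((fc73_vec M' q hq hM' hπ V₂ 0).toSubring ⊓
        (fc73_vec M' q hq hM' hπ V₂ 1).toSubring ⊓ (fc73_vec M' q hq hM' hπ V₂ 2).toSubring) ∧
      s34i47_ChartProps K π ((fc73_vec M' q hq hM' hπ V₂ 0).toSubring ⊓
        (fc73_vec M' q hq hM' hπ V₂ 1).toSubring ⊓ (fc73_vec M' q hq hM' hπ V₂ 2).toSubring)
        (pk85_h2 K (M' * q * q)
          (h2.trans ((dvd_mul_right M' q).trans (dvd_mul_right (M' * q) q)))) ∧
      (∀ i, (algebraMap R ↥(modularFunctionFieldFullC K (M' * q * q)) π)⁻¹ ∉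
        fc73_vec M' q hq hM' hπ V₂ i) ∧
      (∀ i, ∀ x ∈ fc73_vec M' q hq hM' hπ V₂ i, x⁻¹ ∉ fc73_vec M' q hq hM' hπ V₂ i → ∃ k : ℕ,
        (algebraMap R ↥(modularFunctionFieldFullC K (M' * q * q)) π)⁻¹ * x ^ k ∈
          fc73_vec M' q hq hM' hπ V₂ i) ∧
      (∀ i, ∀ x : ↥(modularFunctionFieldFullC K (M' * q * q)), x ≠ 0 → ∃ k : ℕ,
        (algebraMap R ↥(modularFunctionFieldFullC K (M' * q * q)) π ^ k)⁻¹ * x ∉
          fc73_vec M' q hq hM' hπ V₂ i) := by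
  obtain ⟨hW, hC, -⟩ := fb85_frameV3_level2 (K := K) M' q hq hM' hπ hqR hMu h2 V₂ hV₂ hπ₂ hs
  exact ⟨hW, hC, fc73_pi M' q hq hM' hπ V₂ hπ₂, fc73_rad M' q hq hM' hπ hqR V₂ hV₂ hπ₂ hne hs,
    fc73_arch M' q hq hM' hπ V₂ hV₂ hπ₂⟩

/-- **The frame clauses of `ci57_Datum`, Hauptmodul of level 3.** -/
theorem fc73_frame_level3 [Algebra.IsAlgebraic K Q̄]
    (hq : q.Prime) (hM' : ¬ q ∣ M') {π : R} (hπ : Irreducible π)
    (hqR : ¬ IsUnit (q : R)) (hMu : IsUnit (M' : R)) (h3 : 3 ∣ M')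
    (V₂ : ValuationSubring ↥(modularFunctionFieldFullC K (M' * q * q)))
    (hV₂ : ∀ c ∈ cm85_Vinf (K := K) (M' * q) hπ, al97L_alpha K (M' * q) q c ∈ V₂)
    (hπ₂ : (algebraMap K ↥(modularFunctionFieldFullC K (M' * q * q)) (algebraMap R K π))⁻¹ ∉ V₂)
    (hne : cm85_Vinf (K := K) (M' * q * q) hπ ≠ V₂)
    (hs : V₂.valuation (v2g64_s K M' q) ^ (q - 1) =
      V₂.valuation (algebraMap K ↥(modularFunctionFieldFullC K (M' * q * q)) (algebraMap R K π))) :
    s34i47_WProps π ((fc73_vec M' q hq hM' hπ V₂ 0).toSubring ⊓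
        (fc73_vec M' q hq hM' hπ V₂ 1).toSubring ⊓ (fc73_vec M' q hq hM' hπ V₂ 2).toSubring) ∧
      s34i47_ChartProps K π ((fc73_vec M' q hq hM' hπ V₂ 0).toSubring ⊓
        (fc73_vec M' q hq hM' hπ V₂ 1).toSubring ⊓ (fc73_vec M' q hq hM' hπ V₂ 2).toSubring)
        (pk85_h3 K (M' * q * q)
          (h3.trans ((dvd_mul_right M' q).trans (dvd_mul_right (M' * q) q)))) ∧
      (∀ i, (algebraMap R ↥(modularFunctionFieldFullC K (M' * q * q)) π)⁻¹ ∉
        fc73_vec M' q hq hM' hπ V₂ i) ∧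
      (∀ i, ∀ x ∈ fc73_vec M' q hq hM' hπ V₂ i, x⁻¹ ∉ fc73_vec M' q hq hM' hπ V₂ i → ∃ k : ℕ,
        (algebraMap R ↥(modularFunctionFieldFullC K (M' * q * q)) π)⁻¹ * x ^ k ∈
          fc73_vec M' q hq hM' hπ V₂ i) ∧
      (∀ i, ∀ x : ↥(modularFunctionFieldFullC K (M' * q * q)), x ≠ 0 → ∃ k : ℕ,
        (algebraMap R ↥(modularFunctionFieldFullC K (M' * q * q)) π ^ k)⁻¹ * x ∉
          fc73_vec M' q hq hM' hπ V₂ i) := by
  obtain ⟨hW, hC, -⟩ := fb85_frameV3_level3 (K := K) M' q hq hM' hπ hqR hMu h3 V₂ hV₂ hπ₂ hs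
  exact ⟨hW, hC, fc73_pi M' q hq hM' hπ V₂ hπ₂, fc73_rad M' q hq hM' hπ hqR V₂ hV₂ hπ₂ hne hs,
    fc73_arch M' q hq hM' hπ V₂ hV₂ hπ₂⟩

end fc73

end Fermat.Agent.S36
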