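import Fermat.Agent.S36.GlueConst26

/-!
# S36 lab, row 602 (B3-const), helper26: the twisted unit has a common value at a triple point

Imports only `GlueConst26` (Mathlib only).  Output in the input shape of the per-point gluing
lemmas (`gl47_glue`, row 603): at a triple point `n` (local ring `Bn ⊆ F2`, all three vertical
valuation rings `V1, V2, V3 ⊇ Bn`), for the twisted unit `u' = (u ^ ((d+2) d) * θ ^ m) ^ k`
(`d = q - 1`) there are a root `c'` (`u' / c' ^ m` a unit of `Bn`) and lifts `β_i ∈ Bn` of the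
three branch residues of `c'` (`c' ≡ β_i mod 𝔪(V_i)`), ALL `≡ 1` modulo the maximal ideal of `Bn`.

* `gc26_max Bn`: the maximal ideal of the local subring `Bn`, as an additive subgroup of `F2`.
* `gc26_arith_max`: `gc26_arith` for `gc26_max Bn`.
* `gc26_triple`: the statement above, from the `α`-data and the `β`-data of `GlueConst26`.
-/

set_option autoImplicit false

namespace Fermat.Agent.S36

open IsLocalRing

section Max

variable {F : Type*} [Field F] (Bn : Subring F) [IsLocalRing Bn]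

/-- The maximal ideal of a local subring of a field, as an additive subgroup of the field. -/
def gc26_max : AddSubgroup F :=
  (maximalIdeal Bn).toAddSubgroup.map Bn.subtype.toAddMonoidHom

theorem gc26_max_iff {x : F} :
    x ∈ gc26_max Bn ↔ ∃ h : x ∈ Bn, (⟨x, h⟩ : Bn) ∈ maximalIdeal Bn := by
  constructor
  · rintro ⟨y, hy, rfl⟩
    exact ⟨y.2, hy⟩
  · rintro ⟨h, hx⟩
    exact ⟨⟨x, h⟩, hx, rfl⟩

theorem gc26_max_coe (y : Bn) : (y : F) ∈ gc26_max Bn ↔ y ∈ maximalIdeal Bn := by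
  rw [gc26_max_iff]
  constructor
  · rintro ⟨_, hy⟩
    exact hy
  · intro hy
    exact ⟨y.2, hy⟩

theorem gc26_max_mem {x : F} (hx : x ∈ gc26_max Bn) : x ∈ Bn :=
  ((gc26_max_iff Bn).mp hx).1

theorem gc26_max_mul {b x : F} (hb : b ∈ Bn) (hx : x ∈ gc26_max Bn) : b * x ∈ gc26_max Bn := by
  obtain ⟨h, hx⟩ := (gc26_max_iff Bn).mp hx
  exact (gc26_max_iff Bn).mpr ⟨Bn.mul_mem hb h, (maximalIdeal Bn).mul_mem_left ⟨b, hb⟩ hx⟩

theorem gc26_max_of_not_inv {x : F} (hx : x ∈ Bn) (h : x ≠ 0 → x⁻¹ ∉ Bn) :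
    x ∈ gc26_max Bn := by
  rw [gc26_max_iff]
  refine ⟨hx, ?_⟩
  rw [IsLocalRing.mem_maximalIdeal, mem_nonunits_iff]
  intro hu
  obtain ⟨y, hy⟩ := hu.exists_right_inv
  have hxy : x * (y : F) = 1 := congrArg Subtype.val hy
  have hx0 : x ≠ 0 := by
    rintro rfl
    simp at hxy
  apply h hx0
  have e : x⁻¹ = (y : F) := by
    rw [inv_eq_iff_eq_inv]
    exact eq_inv_of_mul_eq_one_left hxy
  rw [e]
  exact y.2

theorem gc26_inv_mem_of_not_max {x : F} (hx : x ∈ Bn) (h : x ∉ gc26_max Bn) : x⁻¹ ∈ Bn := by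
  by_contra hinv
  exact h (gc26_max_of_not_inv Bn hx (fun _ => hinv))

theorem gc26_not_max_of_inv {x : F} (hx0 : x ≠ 0) (hinv : x⁻¹ ∈ Bn) :
    x ∉ gc26_max Bn := by
  rw [gc26_max_iff]
  rintro ⟨h, hm⟩
  have hu : IsUnit (⟨x, h⟩ : Bn) :=
    IsUnit.of_mul_eq_one ⟨x⁻¹, hinv⟩ (Subtype.ext (mul_inv_cancel₀ hx0))
  exact (IsLocalRing.mem_maximalIdeal _).mp hm hu

theorem gc26_one_not_max : (1 : F) ∉ gc26_max Bn :=
  gc26_not_max_of_inv Bn one_ne_zero (by simp)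

/-- `V ⊇ Bn`: an element of `Bn` in the maximal ideal of `V` is a non-unit of `Bn`. -/
theorem gc26_max_of_val {V : ValuationSubring F} (hBV : ∀ x ∈ Bn, x ∈ V) {x : F} (hx : x ∈ Bn)
    (hv : V.valuation x < 1) : x ∈ gc26_max Bn := by
  apply gc26_max_of_not_inv Bn hx
  intro hx0 hinv
  have h1 : V.valuation x⁻¹ ≤ 1 := (V.valuation_le_one_iff _).mpr (hBV _ hinv)
  have h2 : V.valuation x * V.valuation x⁻¹ = 1 := by
    rw [← map_mul, mul_inv_cancel₀ hx0, map_one]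
  have h3 : V.valuation x * V.valuation x⁻¹ < 1 := by
    calc V.valuation x * V.valuation x⁻¹ ≤ V.valuation x * 1 := mul_le_mul' le_rfl h1
      _ = V.valuation x := mul_one _
      _ < 1 := hv
  rw [h2] at h3
  exact lt_irrefl _ h3

/-- `x ≡ 1` ⟹ `x ^ k ≡ 1` modulo the maximal ideal. -/
theorem gc26_max_pow_sub_one {x : F} (hx : x ∈ Bn) (h : x - 1 ∈ gc26_max Bn) (k : ℕ) :
    x ^ k - 1 ∈ gc26_max Bn := by
  have e : x ^ k - 1 = (∑ j ∈ Finset.range k, x ^ j) * (x - 1) := (geom_sum_mul x k).symm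
  rw [e]
  exact gc26_max_mul Bn (Bn.sum_mem fun j _ => Bn.pow_mem hx j) h

/-- `gc26_arith` for the maximal ideal of a local subring of a field. -/
theorem gc26_arith_max (d : ℕ) (b1 b2 b3 Ti T0 Si S0 w1 w2 : F)
    (hb1 : b1 ∈ Bn) (hb2 : b2 ∈ Bn) (hb3 : b3 ∈ Bn) (hTi : Ti ∈ Bn) (hT0 : T0 ∈ Bn)
    (hSi : Si ∈ Bn) (hS0 : S0 ∈ Bn) (hw1B : w1 ∈ Bn) (hw2B : w2 ∈ Bn)
    (hb2' : b2 ∉ gc26_max Bn) (hb3' : b3 ∉ gc26_max Bn) (hTi' : Ti ∉ gc26_max Bn)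
    (hSi' : Si ∉ gc26_max Bn) (hS0' : S0 ∉ gc26_max Bn)
    (hα : b1 * b2 ^ d * T0 - b3 ^ (d + 1) * Ti ∈ gc26_max Bn)
    (hβ : b3 * b2 ^ d * Si - b1 ^ (d + 1) * S0 ∈ gc26_max Bn)
    (hw1 : w1 * (Ti * Si) ^ d - (T0 * S0) ^ d ∈ gc26_max Bn)
    (hw2 : w2 * (Ti ^ (d + 1) * S0) - T0 ^ (d + 1) * Si ∈ gc26_max Bn) :
    b1 ^ ((d + 2) * d) * w1 - b3 ^ ((d + 2) * d) ∈ gc26_max Bn ∧
      b2 ^ ((d + 2) * d) * w2 - b3 ^ ((d + 2) * d) ∈ gc26_max Bn := by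
  have key := gc26_arith (maximalIdeal Bn) d ⟨b1, hb1⟩ ⟨b2, hb2⟩ ⟨b3, hb3⟩ ⟨Ti, hTi⟩ ⟨T0, hT0⟩
    ⟨Si, hSi⟩ ⟨S0, hS0⟩ ⟨w1, hw1B⟩ ⟨w2, hw2B⟩
    (fun h => hb2' ((gc26_max_coe Bn _).mpr h)) (fun h => hb3' ((gc26_max_coe Bn _).mpr h))
    (fun h => hTi' ((gc26_max_coe Bn _).mpr h)) (fun h => hSi' ((gc26_max_coe Bn _).mpr h))
    (fun h => hS0' ((gc26_max_coe Bn _).mpr h))
    ((gc26_max_coe Bn _).mp (by simpa using hα)) ((gc26_max_coe Bn _).mp (by simpa using hβ))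
    ((gc26_max_coe Bn _).mp (by simpa using hw1)) ((gc26_max_coe Bn _).mp (by simpa using hw2))
  constructor
  · have := (gc26_max_coe Bn _).mpr key.1
    simpa using this
  · have := (gc26_max_coe Bn _).mpr key.2
    simpa using this

end Max

/-- **The common value at a triple point.**  `Bn ⊆ F2` the local ring at a triple point,
`V1, V2, V3 ⊇ Bn` the three vertical valuation rings; along `al` (= `α^*`, norm `Nal`, local
ring `Aal` at the node `α(n)`) `V1, V2` lie over `Vinf` with residue degree one (`hO1`, `hO2`)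
and `V3` over `V0` (purely inseparably: `hN2`); along `be` the roles are `(3,2|1)`, `(0,inf)`.
`u = eps * c ^ m` with `eps ∈ Bnˣ`, `u ≡ 1` on the three branches, `Nal u = cu * Au ^ m`,
`Nbe u = du * Bu ^ m` with `Au, Bu` congruent to constants on both branches of level `q`.
Then for the twist `θ` (`θ ≡ w1, w2, 1` on the three branches, with the explicit constants
`w1, w2`) and every `k`, the unit `u' = (u ^ ((d+2) d) * θ ^ m) ^ k` has a root `c'` and lifts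
`β_i ∈ Bn` of the branch residues of `c'`, all `≡ 1` modulo the maximal ideal of `Bn`. -/
theorem gc26_triple {F1 F2 : Type*} [Field F1] [Field F2]
    (al be : F1 →+* F2) (Nal Nbe : F2 →* F1)
    (V1 V2 V3 : ValuationSubring F2) (Vinf V0 : ValuationSubring F1)
    (Aal Abe : Subring F1) (Bn : Subring F2) [IsLocalRing Bn]
    (hB1 : ∀ x ∈ Bn, x ∈ V1) (hB2 : ∀ x ∈ Bn, x ∈ V2) (hB3 : ∀ x ∈ Bn, x ∈ V3)
    -- `α`
    (hAB : ∀ x ∈ Aal, al x ∈ Bn) (hAinf : ∀ x ∈ Aal, x ∈ Vinf)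
    (hloc : ∀ x ∈ Aal, (al x)⁻¹ ∈ Bn → x⁻¹ ∈ Aal)
    (hal3 : ∀ x : F1, V0.valuation x < 1 → V3.valuation (al x) < 1)
    (hO1 : ∀ b ∈ Bn, ∃ a ∈ Aal, V1.valuation (al a - b) < 1)
    (hO2 : ∀ b ∈ Bn, ∃ a ∈ Aal, V2.valuation (al a - b) < 1)
    -- `β`
    (hAB' : ∀ x ∈ Abe, be x ∈ Bn) (hA0' : ∀ x ∈ Abe, x ∈ V0)
    (hloc' : ∀ x ∈ Abe, (be x)⁻¹ ∈ Bn → x⁻¹ ∈ Abe)
    (hbe1 : ∀ x : F1, Vinf.valuation x < 1 → V1.valuation (be x) < 1)
    (hO3' : ∀ b ∈ Bn, ∃ a ∈ Abe, V3.valuation (be a - b) < 1)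
    (hO2' : ∀ b ∈ Bn, ∃ a ∈ Abe, V2.valuation (be a - b) < 1)
    -- the unit and its local root
    (m d : ℕ) (hm : 0 < m)
    (hrootA : ∀ x : F1, x ^ m ∈ Aal → x ∈ Aal) (hrootB : ∀ x : F1, x ^ m ∈ Abe → x ∈ Abe)
    (u c eps : F2) (hu : u = eps * c ^ m) (heps : eps ∈ Bn) (heps' : eps⁻¹ ∈ Bn)
    (hu1 : V1.valuation (u - 1) < 1) (hu2 : V2.valuation (u - 1) < 1)
    (hu3 : V3.valuation (u - 1) < 1)
    -- the norm along `α`
    (Au cu tinf t0 : F1) (hNu : Nal u = cu * Au ^ m) (hAu : Au ≠ 0)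
    (hNeps0 : Nal eps ≠ 0) (hNeps : (Nal eps)⁻¹ ∈ Aal) (hcu : cu ∈ Aal)
    (htinf : tinf ∈ Aal) (ht0 : t0 ∈ Aal)
    (hAuinf : Vinf.valuation (Au - tinf) < 1) (hAu0 : V0.valuation (Au - t0) < 1)
    (hN1 : ∀ y1 y2 : F1, V1.valuation (al y1 - c) < 1 → V2.valuation (al y2 - c) < 1 →
        Vinf.valuation (Nal c - y1 * y2 ^ d) < 1)
    (hN2 : V3.valuation (al (Nal c) - c ^ (d + 1)) < 1)
    -- the norm along `β`
    (Bu du sinf s0 : F1) (hNu' : Nbe u = du * Bu ^ m) (hBu : Bu ≠ 0)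
    (hNeps0' : Nbe eps ≠ 0) (hNeps' : (Nbe eps)⁻¹ ∈ Abe) (hdu : du ∈ Abe)
    (hsinf : sinf ∈ Abe) (hs0 : s0 ∈ Abe)
    (hBuinf : Vinf.valuation (Bu - sinf) < 1) (hBu0 : V0.valuation (Bu - s0) < 1)
    (hN4 : ∀ y3 y2 : F1, V3.valuation (be y3 - c) < 1 → V2.valuation (be y2 - c) < 1 →
        V0.valuation (Nbe c - y3 * y2 ^ d) < 1)
    (hN3 : V1.valuation (be (Nbe c) - c ^ (d + 1)) < 1)
    -- the constants are units
    (htinf0 : tinf ≠ 0) (hsinf0 : sinf ≠ 0) (hs00 : s0 ≠ 0)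
    (hTi : (al tinf)⁻¹ ∈ Bn) (hSi : (be sinf)⁻¹ ∈ Bn) (hS0 : (be s0)⁻¹ ∈ Bn)
    -- lifts of the branch residues of `c`
    (b1 b2 b3 : F2) (hb1 : b1 ∈ Bn) (hb2 : b2 ∈ Bn) (hb3 : b3 ∈ Bn)
    (hcb1 : V1.valuation (c - b1) < 1) (hcb2 : V2.valuation (c - b2) < 1)
    (hcb3 : V3.valuation (c - b3) < 1)
    -- the twist
    (θ w1 w2 : F2) (hw1B : w1 ∈ Bn) (hw2B : w2 ∈ Bn)
    (hθ1 : V1.valuation (θ - w1) < 1) (hθ2 : V2.valuation (θ - w2) < 1)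
    (hθ3 : V3.valuation (θ - 1) < 1)
    (hw1 : w1 * (al tinf * be sinf) ^ d - (al t0 * be s0) ^ d ∈ gc26_max Bn)
    (hw2 : w2 * (al tinf ^ (d + 1) * be s0) - al t0 ^ (d + 1) * be sinf ∈ gc26_max Bn)
    (k : ℕ) :
    ∃ c' β1 β2 β3 : F2, c' ≠ 0 ∧
      (u ^ ((d + 2) * d) * θ ^ m) ^ k / c' ^ m ∈ Bn ∧
      c' ^ m / (u ^ ((d + 2) * d) * θ ^ m) ^ k ∈ Bn ∧
      β1 ∈ Bn ∧ β2 ∈ Bn ∧ β3 ∈ Bn ∧
      β1 - 1 ∈ gc26_max Bn ∧ β2 - 1 ∈ gc26_max Bn ∧ β3 - 1 ∈ gc26_max Bn ∧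
      V1.valuation (c' - β1) < 1 ∧ V2.valuation (c' - β2) < 1 ∧
      V3.valuation (c' - β3) < 1 := by
  -- basic non-vanishing
  have hone : ∀ V : ValuationSubring F2, ¬ V.valuation ((0 : F2) - 1) < 1 := by
    intro V h
    rw [zero_sub, Valuation.map_neg, map_one] at h
    exact lt_irrefl _ h
  have hu0 : u ≠ 0 := by
    rintro rfl
    exact hone V3 hu3
  have heps0 : eps ≠ 0 := by
    rintro rfl
    exact hu0 (by rw [hu, zero_mul])
  have hc0 : c ≠ 0 := by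
    rintro rfl
    exact hu0 (by rw [hu, zero_pow hm.ne', mul_zero])
  have hθ0 : θ ≠ 0 := by
    rintro rfl
    exact hone V3 hθ3
  -- `c ∈ V_i`
  have hcV : ∀ (V : ValuationSubring F2) (b : F2), b ∈ V → V.valuation (c - b) < 1 → c ∈ V := by
    intro V b hb h
    have e : c = (c - b) + b := by ring
    rw [e]
    exact add_mem (gc26_mem V h) hb
  have hc1 : c ∈ V1 := hcV V1 b1 (hB1 b1 hb1) hcb1
  have hc2 : c ∈ V2 := hcV V2 b2 (hB2 b2 hb2) hcb2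
  have hc3 : c ∈ V3 := hcV V3 b3 (hB3 b3 hb3) hcb3
  -- the lifts are units of `Bn`
  have hunit : ∀ (V : ValuationSubring F2) (b : F2), (∀ x ∈ Bn, x ∈ V) → b ∈ Bn → c ∈ V →
      V.valuation (c - b) < 1 → V.valuation (u - 1) < 1 → b ∉ gc26_max Bn := by
    intro V b hBV hb hcV' hcb huV hbm
    have h1 : V.valuation (b ^ m * eps - 1) < 1 := by
      have e : b ^ m * eps - 1 = (u - 1) - eps * (c ^ m - b ^ m) := by
        rw [hu]
        ring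
      rw [e]
      exact gc26_sub V huV (gc26_mul V (hBV eps heps) (gc26_pow_congr V hcV' (hBV b hb) hcb m))
    have h2 : b ^ m * eps - 1 ∈ gc26_max Bn :=
      gc26_max_of_val Bn hBV (Bn.sub_mem (Bn.mul_mem (Bn.pow_mem hb m) heps) Bn.one_mem) h1
    have h3 : b ^ m * eps ∈ gc26_max Bn := by
      obtain ⟨j, rfl⟩ : ∃ j, m = j + 1 := ⟨m - 1, by omega⟩
      have e : b ^ (j + 1) * eps = (b ^ j * eps) * b := by ring
      rw [e]
      exact gc26_max_mul Bn (Bn.mul_mem (Bn.pow_mem hb j) heps) hbm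
    apply gc26_one_not_max Bn
    have e : (1 : F2) = b ^ m * eps - (b ^ m * eps - 1) := by ring
    rw [e]
    exact (gc26_max Bn).sub_mem h3 h2
  have hb1u : b1 ∉ gc26_max Bn := hunit V1 b1 hB1 hb1 hc1 hcb1 hu1
  have hb2u : b2 ∉ gc26_max Bn := hunit V2 b2 hB2 hb2 hc2 hcb2 hu2
  have hb3u : b3 ∉ gc26_max Bn := hunit V3 b3 hB3 hb3 hc3 hcb3 hu3
  have hb3i : b3⁻¹ ∈ Bn := gc26_inv_mem_of_not_max Bn hb3 hb3u
  have hb30 : b3 ≠ 0 := by
    rintro rfl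
    exact hb3u (gc26_max Bn).zero_mem
  -- the two relations
  have hnB : ∀ b ∈ Bn, ∀ x ∈ gc26_max Bn, b * x ∈ gc26_max Bn :=
    fun b hb x hx => gc26_max_mul Bn hb hx
  have hlocA : ∀ x ∈ Aal, Vinf.valuation x < 1 → al x ∈ gc26_max Bn := by
    intro x hx hv
    apply gc26_max_of_not_inv Bn (hAB x hx)
    intro hx0 hinv
    have hxi : x⁻¹ ∈ Vinf := hAinf _ (hloc x hx hinv)
    have hx0' : x ≠ 0 := by
      rintro rfl
      exact hx0 (map_zero al)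
    have h1 : Vinf.valuation x⁻¹ ≤ 1 := (Vinf.valuation_le_one_iff _).mpr hxi
    have h2 : Vinf.valuation x * Vinf.valuation x⁻¹ = 1 := by
      rw [← map_mul, mul_inv_cancel₀ hx0', map_one]
    have h3 : Vinf.valuation x * Vinf.valuation x⁻¹ < 1 := by
      calc Vinf.valuation x * Vinf.valuation x⁻¹ ≤ Vinf.valuation x * 1 :=
            mul_le_mul' le_rfl h1
        _ = Vinf.valuation x := mul_one _
        _ < 1 := hv
    rw [h2] at h3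
    exact lt_irrefl _ h3
  have hlocB : ∀ x ∈ Abe, V0.valuation x < 1 → be x ∈ gc26_max Bn := by
    intro x hx hv
    apply gc26_max_of_not_inv Bn (hAB' x hx)
    intro hx0 hinv
    have hxi : x⁻¹ ∈ V0 := hA0' _ (hloc' x hx hinv)
    have hx0' : x ≠ 0 := by
      rintro rfl
      exact hx0 (map_zero be)
    have h1 : V0.valuation x⁻¹ ≤ 1 := (V0.valuation_le_one_iff _).mpr hxi
    have h2 : V0.valuation x * V0.valuation x⁻¹ = 1 := by
      rw [← map_mul, mul_inv_cancel₀ hx0', map_one]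
    have h3 : V0.valuation x * V0.valuation x⁻¹ < 1 := by
      calc V0.valuation x * V0.valuation x⁻¹ ≤ V0.valuation x * 1 :=
            mul_le_mul' le_rfl h1
        _ = V0.valuation x := mul_one _
        _ < 1 := hv
    rw [h2] at h3
    exact lt_irrefl _ h3
  have hα : b1 * b2 ^ d * al t0 - b3 ^ (d + 1) * al tinf ∈ gc26_max Bn := by
    have := gc26_alpha_rel_raw al Nal V1 V2 V3 Vinf V0 Aal Bn (gc26_max Bn) hnB hAB hAinf hB3
      (fun x hx hv => gc26_max_of_val Bn hB1 hx hv) (fun x hx hv => gc26_max_of_val Bn hB2 hx hv)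
      (fun x hx hv => gc26_max_of_val Bn hB3 hx hv) hlocA hal3 hO1 hO2 m (d + 1) hrootA
      u c eps Au cu tinf t0 hu hNu hAu hNeps0 hNeps hcu htinf ht0 hAuinf hAu0 hc3
      (by simpa using hN1) hN2 b1 b2 b3 hb1 hb2 hb3 hcb1 hcb2 hcb3
    simpa using this
  have hβ : b3 * b2 ^ d * be sinf - b1 ^ (d + 1) * be s0 ∈ gc26_max Bn := by
    have := gc26_alpha_rel_raw be Nbe V3 V2 V1 V0 Vinf Abe Bn (gc26_max Bn) hnB hAB' hA0' hB1
      (fun x hx hv => gc26_max_of_val Bn hB3 hx hv) (fun x hx hv => gc26_max_of_val Bn hB2 hx hv)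
      (fun x hx hv => gc26_max_of_val Bn hB1 hx hv) hlocB hbe1 hO3' hO2' m (d + 1) hrootB
      u c eps Bu du s0 sinf hu hNu' hBu hNeps0' hNeps' hdu hs0 hsinf hBu0 hBuinf hc1
      (by simpa using hN4) hN3 b3 b2 b1 hb3 hb2 hb1 hcb3 hcb2 hcb1
    simpa using this
  -- arithmetic
  have hTiu : al tinf ∉ gc26_max Bn :=
    gc26_not_max_of_inv Bn ((map_ne_zero al).mpr htinf0) hTi
  have hSiu : be sinf ∉ gc26_max Bn :=
    gc26_not_max_of_inv Bn ((map_ne_zero be).mpr hsinf0) hSi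
  have hS0u : be s0 ∉ gc26_max Bn :=
    gc26_not_max_of_inv Bn ((map_ne_zero be).mpr hs00) hS0
  obtain ⟨hr1, hr2⟩ := gc26_arith_max Bn d b1 b2 b3 (al tinf) (al t0) (be sinf) (be s0) w1 w2
    hb1 hb2 hb3 (hAB _ htinf) (hAB _ ht0) (hAB' _ hsinf) (hAB' _ hs0) hw1B hw2B
    hb2u hb3u hTiu hSiu hS0u hα hβ hw1 hw2
  -- the normalised root and its lifts
  set E : ℕ := (d + 2) * d with hE
  set g : F2 := (b3⁻¹) ^ E with hg
  have hgB : g ∈ Bn := Bn.pow_mem hb3i E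
  have hgb : g * b3 ^ E = 1 := by
    rw [hg, ← mul_pow, inv_mul_cancel₀ hb30, one_pow]
  have hg0 : g ≠ 0 := by
    rw [hg]
    exact pow_ne_zero _ (inv_ne_zero hb30)
  -- branch congruences for `c ^ E * θ`
  have hbr : ∀ (V : ValuationSubring F2) (b w : F2), (∀ x ∈ Bn, x ∈ V) → b ∈ Bn → w ∈ V →
      c ∈ V → V.valuation (c - b) < 1 → V.valuation (θ - w) < 1 →
      V.valuation ((g * (c ^ E * θ)) ^ k - (g * (b ^ E * w)) ^ k) < 1 := by
    intro V b w hBV hb hw hcV' hcb hθw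
    have h1 : V.valuation (c ^ E * θ - b ^ E * w) < 1 :=
      gc26_mul_congr V (pow_mem hcV' E) hw (gc26_pow_congr V hcV' (hBV b hb) hcb E) hθw
    have hθV : θ ∈ V := by
      have e : θ = (θ - w) + w := by ring
      rw [e]
      exact add_mem (gc26_mem V hθw) hw
    have h2 : V.valuation (g * (c ^ E * θ) - g * (b ^ E * w)) < 1 := by
      rw [← mul_sub]
      exact gc26_mul V (hBV g hgB) h1
    exact gc26_pow_congr V (mul_mem (hBV g hgB) (mul_mem (pow_mem hcV' E) hθV))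
      (mul_mem (hBV g hgB) (mul_mem (pow_mem (hBV b hb) E) hw)) h2 k
  have hmax : ∀ (b w : F2), b ∈ Bn → w ∈ Bn → b ^ E * w - b3 ^ E ∈ gc26_max Bn →
      (g * (b ^ E * w)) ^ k - 1 ∈ gc26_max Bn := by
    intro b w hb hw h
    apply gc26_max_pow_sub_one Bn (Bn.mul_mem hgB (Bn.mul_mem (Bn.pow_mem hb E) hw))
    have e : g * (b ^ E * w) - 1 = g * (b ^ E * w - b3 ^ E) := by
      rw [mul_sub, hgb]
    rw [e]
    exact gc26_max_mul Bn hgB h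
  have h3self : b3 ^ E * 1 - b3 ^ E ∈ gc26_max Bn := by
    rw [mul_one, sub_self]
    exact (gc26_max Bn).zero_mem
  have hX : u ^ E * θ ^ m = eps ^ E * (c ^ E * θ) ^ m := by
    rw [hu]
    ring
  have hX0 : c ^ E * θ ≠ 0 := mul_ne_zero (pow_ne_zero _ hc0) hθ0
  have hne : ((g * (c ^ E * θ)) ^ k) ^ m ≠ 0 :=
    pow_ne_zero _ (pow_ne_zero _ (mul_ne_zero hg0 hX0))
  have hne2 : (eps ^ E * (c ^ E * θ) ^ m) ^ k ≠ 0 :=
    pow_ne_zero _ (mul_ne_zero (pow_ne_zero _ heps0) (pow_ne_zero _ hX0))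
  refine ⟨(g * (c ^ E * θ)) ^ k, (g * (b1 ^ E * w1)) ^ k, (g * (b2 ^ E * w2)) ^ k,
    (g * (b3 ^ E * 1)) ^ k, ?_, ?_, ?_, ?_, ?_, ?_, ?_, ?_, ?_, ?_, ?_, ?_⟩
  · exact pow_ne_zero _ (mul_ne_zero hg0 hX0)
  · have e : (u ^ E * θ ^ m) ^ k / ((g * (c ^ E * θ)) ^ k) ^ m =
        (eps ^ E * (b3 ^ E) ^ m) ^ k := by
      rw [div_eq_iff hne, hX]
      have e2 : (eps ^ E * (b3 ^ E) ^ m) ^ k * ((g * (c ^ E * θ)) ^ k) ^ m =
          (eps ^ E * (c ^ E * θ) ^ m * (g * b3 ^ E) ^ m) ^ k := by ring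
      rw [e2, hgb, one_pow, mul_one]
    rw [e]
    exact Bn.pow_mem (Bn.mul_mem (Bn.pow_mem heps E) (Bn.pow_mem (Bn.pow_mem hb3 E) m)) k
  · have e : ((g * (c ^ E * θ)) ^ k) ^ m / (u ^ E * θ ^ m) ^ k =
        ((eps⁻¹) ^ E * g ^ m) ^ k := by
      rw [hX, div_eq_iff hne2]
      have e2 : ((eps⁻¹) ^ E * g ^ m) ^ k * (eps ^ E * (c ^ E * θ) ^ m) ^ k =
          ((eps⁻¹ * eps) ^ E) ^ k * ((g * (c ^ E * θ)) ^ k) ^ m := by ring
      rw [e2, inv_mul_cancel₀ heps0, one_pow, one_pow, one_mul]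
    rw [e]
    exact Bn.pow_mem (Bn.mul_mem (Bn.pow_mem heps' E) (Bn.pow_mem hgB m)) k
  · exact Bn.pow_mem (Bn.mul_mem hgB (Bn.mul_mem (Bn.pow_mem hb1 E) hw1B)) k
  · exact Bn.pow_mem (Bn.mul_mem hgB (Bn.mul_mem (Bn.pow_mem hb2 E) hw2B)) k
  · exact Bn.pow_mem (Bn.mul_mem hgB (Bn.mul_mem (Bn.pow_mem hb3 E) Bn.one_mem)) k
  · exact hmax b1 w1 hb1 hw1B hr1
  · exact hmax b2 w2 hb2 hw2B hr2
  · exact hmax b3 1 hb3 Bn.one_mem h3self
  · exact hbr V1 b1 w1 hB1 hb1 (hB1 w1 hw1B) hc1 hcb1 hθ1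
  · exact hbr V2 b2 w2 hB2 hb2 (hB2 w2 hw2B) hc2 hcb2 hθ2
  · exact hbr V3 b3 1 hB3 hb3 V3.one_mem hc3 hcb3 hθ3

end Fermat.Agent.S36
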