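import Fermat.Agent.S34.SpecFibre79
import Fermat.Agent.S36.GlueTriple26

/-!
# S36 lab, row 602 (B3-const), helper26: bridge to the chart language of `S34/SpecFibre79`

* `gcb26_isLocalRing`: the localisation `sf79_loc B n` (a subring of the field `F`) is a local
  ring, for every prime `n` of the chart `B`.
* `gcb26_max_iff`: its maximal ideal (as `gc26_max`) is `sf79_nmem B n` (`= n B_n`).
* `gcb26_val_lt_one_iff`, `gcb26_val_lt_one_iff_unif`: `V.valuation x < 1` in the elementwise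
  forms `x ∈ V ∧ (x = 0 ∨ x⁻¹ ∉ V)` and (reduced branch, uniformiser `ϖ`) `ϖ⁻¹ * x ∈ V`.

With these, `gc26_triple` applies verbatim with `Bn := sf79_loc B n`.
-/

set_option autoImplicit false

namespace Fermat.Agent.S36

open Fermat.Agent.S34 IsLocalRing

section Loc

variable {R F : Type*} [CommRing R] [Field F] [Algebra R F]

theorem gcb26_nmem_mem_loc (B : Subalgebra R F) (n : Ideal B) [n.IsPrime] (x : F)
    (h : sf79_nmem B n x) : x ∈ sf79_loc B n := by
  obtain ⟨s, hs, b, _, e⟩ := h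
  exact ⟨s, hs, by rw [e]; exact b.2⟩

theorem gcb26_nmem_zero (B : Subalgebra R F) (n : Ideal B) [hn : n.IsPrime] :
    sf79_nmem B n (0 : F) :=
  ⟨1, (Ideal.ne_top_iff_one n).mp hn.ne_top, 0, n.zero_mem, by simp⟩

/-- An element of `B_n` outside `n B_n` is a unit of `B_n`. -/
theorem gcb26_inv_mem (B : Subalgebra R F) (n : Ideal B) [hn : n.IsPrime] (x : F)
    (hx : x ∈ sf79_loc B n) (h : ¬ sf79_nmem B n x) : x⁻¹ ∈ sf79_loc B n := by
  obtain ⟨s, hs, hsx⟩ := hx
  have hb : (⟨(s : F) * x, hsx⟩ : B) ∉ n := fun hb => h ⟨s, hs, ⟨_, hsx⟩, hb, rfl⟩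
  have hs0 := sf79_ne_zero B n s hs
  have hx0 : x ≠ 0 := by
    rintro rfl
    exact h (gcb26_nmem_zero B n)
  have e : x⁻¹ = (s : F) * ((s : F) * x)⁻¹ := by
    field_simp
  rw [e]
  exact (sf79_loc B n).mul_mem (sf79_le_loc B n _ s.2) (sf79_inv_mem_loc B n ⟨_, hsx⟩ hb)

/-- An element of `n B_n` is not a unit of `B_n`. -/
theorem gcb26_not_unit (B : Subalgebra R F) (n : Ideal B) [hn : n.IsPrime] (x y : F)
    (hx : sf79_nmem B n x) (hy : y ∈ sf79_loc B n) : x * y ≠ 1 := by
  intro h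
  have h1 := sf79_nmem_mul B n y x hy hx
  rw [mul_comm, h] at h1
  exact sf79_not_nmem_one B n h1

theorem gcb26_nonunits_iff (B : Subalgebra R F) (n : Ideal B) [hn : n.IsPrime]
    (a : sf79_loc B n) : a ∈ nonunits (sf79_loc B n) ↔ sf79_nmem B n (a : F) := by
  rw [mem_nonunits_iff]
  constructor
  · intro hnu
    by_contra hnm
    apply hnu
    have ha0 : (a : F) ≠ 0 := by
      intro h0
      rw [h0] at hnm
      exact hnm (gcb26_nmem_zero B n)
    exact IsUnit.of_mul_eq_one ⟨(a : F)⁻¹, gcb26_inv_mem B n a a.2 hnm⟩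
      (Subtype.ext (mul_inv_cancel₀ ha0))
  · intro hnm hu
    obtain ⟨y, hy⟩ := hu.exists_right_inv
    exact gcb26_not_unit B n a y hnm y.2 (congrArg Subtype.val hy)

/-- **`B_n` is a local ring.** -/
theorem gcb26_isLocalRing (B : Subalgebra R F) (n : Ideal B) [hn : n.IsPrime] :
    IsLocalRing (sf79_loc B n) := by
  refine IsLocalRing.of_nonunits_add ?_
  intro a b ha hb
  rw [gcb26_nonunits_iff] at ha hb ⊢
  have := sf79_nmem_add B n _ _ ha hb
  simpa using this

/-- **The maximal ideal of `B_n` is `n B_n`.** -/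
theorem gcb26_max_iff (B : Subalgebra R F) (n : Ideal B) [hn : n.IsPrime]
    [IsLocalRing (sf79_loc B n)] (x : F) :
    x ∈ gc26_max (sf79_loc B n) ↔ sf79_nmem B n x := by
  rw [gc26_max_iff]
  constructor
  · rintro ⟨h, hm⟩
    rw [IsLocalRing.mem_maximalIdeal] at hm
    exact (gcb26_nonunits_iff B n ⟨x, h⟩).mp hm
  · intro hx
    refine ⟨gcb26_nmem_mem_loc B n x hx, ?_⟩
    rw [IsLocalRing.mem_maximalIdeal]
    exact (gcb26_nonunits_iff B n ⟨x, _⟩).mpr hx

end Loc

section Val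

variable {F : Type*} [Field F]

/-- `x ∈ 𝔪(V)`, elementwise. -/
theorem gcb26_val_lt_one_iff (V : ValuationSubring F) (x : F) :
    V.valuation x < 1 ↔ x ∈ V ∧ (x = 0 ∨ x⁻¹ ∉ V) := by
  constructor
  · intro h
    refine ⟨gc26_mem V h, ?_⟩
    by_cases hx0 : x = 0
    · exact Or.inl hx0
    · right
      intro hinv
      have h1 : V.valuation x⁻¹ ≤ 1 := (V.valuation_le_one_iff _).mpr hinv
      have h2 : V.valuation x * V.valuation x⁻¹ = 1 := by
        rw [← map_mul, mul_inv_cancel₀ hx0, map_one]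
      have h3 : V.valuation x * V.valuation x⁻¹ < 1 := by
        calc V.valuation x * V.valuation x⁻¹ ≤ V.valuation x * 1 := mul_le_mul' le_rfl h1
          _ = V.valuation x := mul_one _
          _ < 1 := h
      rw [h2] at h3
      exact lt_irrefl _ h3
  · rintro ⟨hx, h⟩
    rcases h with rfl | hinv
    · simp
    · have h1 : V.valuation x ≤ 1 := (V.valuation_le_one_iff _).mpr hx
      rcases lt_or_eq_of_le h1 with h2 | h2
      · exact h2
      · exfalso
        apply hinv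
        have hx0 : x ≠ 0 := by
          rintro rfl
          simp at h2
        have h3 : V.valuation x⁻¹ = 1 := by
          have h4 : V.valuation x * V.valuation x⁻¹ = 1 := by
            rw [← map_mul, mul_inv_cancel₀ hx0, map_one]
          rw [h2, one_mul] at h4
          exact h4
        exact (V.valuation_le_one_iff _).mp h3.le

/-- `x ∈ 𝔪(V)` for a branch with uniformiser `ϖ` (`ϖ⁻¹ ∉ V`, every `y ∈ V` with `ϖ⁻¹ y ∉ V` is a
unit of `V`): `V.valuation x < 1 ↔ ϖ⁻¹ * x ∈ V`. -/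
theorem gcb26_val_lt_one_iff_unif (V : ValuationSubring F) (ϖ : F) (hϖ : ϖ⁻¹ ∉ V)
    (hV : ∀ y ∈ V, ϖ⁻¹ * y ∉ V → y⁻¹ ∈ V) (x : F) :
    V.valuation x < 1 ↔ ϖ⁻¹ * x ∈ V := by
  have hϖ0 : ϖ ≠ 0 := by
    rintro rfl
    exact hϖ (by simp)
  have hϖV : V.valuation ϖ < 1 := by
    rw [gcb26_val_lt_one_iff]
    refine ⟨?_, Or.inr hϖ⟩
    rcases V.mem_or_inv_mem ϖ with h | h
    · exact h
    · exact absurd h hϖ
  constructor
  · intro h
    by_contra hn
    rw [gcb26_val_lt_one_iff] at h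
    rcases h.2 with rfl | hinv
    · exact hn (by simp)
    · exact hinv (hV x h.1 hn)
  · intro h
    have e : x = ϖ * (ϖ⁻¹ * x) := by
      rw [← mul_assoc, mul_inv_cancel₀ hϖ0, one_mul]
    rw [e, mul_comm]
    exact gc26_mul V h hϖV

end Val

end Fermat.Agent.S36
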