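import Fermat.Agent.S35.PkgPic17
import Fermat.Agent.S35.PushJac40

/-!
# S36 lab (helper17): the dictionary class ↔ Kummer function for the statement (INV)

`(INV)` at level `N * q` (think `N = q * M'`, so `N * q = q² M'`), exponent `m`, constant `c`:
a class `x ∈ J₀(N q)[m]` fixed by the inertia group of ONE place `A` over `q` and with
`α_* x = 0 = β_* x` (push-forwards to level `N`) is killed by `c`.

Function-field form `(FF-INV)`: for `f ≠ 0` in `F_ℚ̄(N q)` with `m ∣ ord_v f` for all `v`,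
`N_α f`, `N_β f` both `m`-th powers, and `σ̂ f / f` an `m`-th power for every `σ` in the inertia
group of `A`: `f ^ c` is an `m`-th power.

* `ji17_smul_fix_pow`  : `g • [D] = [D]`, `m D = div f`  ⟹  `g • f = f * h ^ m`  (abstract);
* `ji17_nsmul_eq_zero` : `m D = div f`, `g ^ m = f ^ c`  ⟹  `c • [D] = 0`         (abstract);
* `ji17_inv_of_ffInv`  : `ji17_FFInv N q m c → ji17_Inv N q m c`;
* `ji17_inv_of_ffInvPush` : the same with the newness hypotheses in the `IsPrincipal` form.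

All names are prefixed `ji17_`.
-/

set_option autoImplicit false
set_option linter.style.haveILetI false

open AlgebraicCurve ModularCurve IntermediateField

namespace Fermat.Agent.S36

open Fermat.Agent.S35 Fermat.Agent.S37 Fermat.Agent.S42

local notation "Q̄" => AlgebraicClosure ℚ
local notation "GQ" => AlgebraicClosure ℚ ≃ₐ[ℚ] AlgebraicClosure ℚ

section Abstract

variable {K F : Type*} [Field K] [IsAlgClosed K] [CharZero K] [Field F] [Algebra K F]

/-- If the class of `D` is fixed by `g` and `m • D = div f`, then `g • f = f * h ^ m`. -/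
theorem ji17_smul_fix_pow (x : F) (hx : Transcendental K x) [FiniteDimensional K⟮x⟯ F]
    (g : SemilinearAut K F) (m : ℕ) (hm : 0 < m) (D : Divisor.degZero (K := K) (F := F))
    (f : F) (hf : f ≠ 0) (hfD : ∀ v : Place K F, (m : ℤ) * (D : Divisor K F) v = v.ord f)
    (hfix : g • Pic0.mk D = Pic0.mk D) : ∃ h : F, g • f = f * h ^ m := by
  rw [SemilinearAut.pic0_smul_mk] at hfix
  have h1 := (QuotientAddGroup.eq (s := (Divisor.principal (K := K) (F := F)).addSubgroupOf
    (Divisor.degZero (K := K) (F := F)))).mp hfix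
  rw [AddSubgroup.mem_addSubgroupOf] at h1
  obtain ⟨h₀, hh₀, hh⟩ := h1
  have hgf : g • f ≠ 0 := by simpa using hf
  have h3 : ∀ v : Place K F, v.ord (g • f / f * h₀ ^ m) = 0 := by
    intro v
    have e1 := jf17_ord_smul g m D f hfD v
    have e2 := hh v
    rw [AddSubgroup.coe_add, AddSubgroup.coe_neg, Finsupp.add_apply, Finsupp.neg_apply,
      SemilinearAut.coe_degZeroSMulHom] at e2
    rw [v.ord_mul (div_ne_zero hgf hf) (pow_ne_zero _ hh₀), div_eq_mul_inv,
      v.ord_mul hgf (inv_ne_zero hf), v.ord_inv, ← zpow_natCast, v.ord_zpow, e1, ← hfD v, ← e2]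
    ring
  obtain ⟨c, hc⟩ := pa36_const_of_ord_eq_zero x hx _ h3
  obtain ⟨d, hd⟩ := IsAlgClosed.exists_pow_nat_eq c hm
  refine ⟨algebraMap K F d / h₀, ?_⟩
  rw [div_pow, ← map_pow, hd, ← hc]
  field_simp

omit [IsAlgClosed K] [CharZero K] in
/-- If `m • D = div f` and `f ^ c` is an `m`-th power, then `c • [D] = 0`. -/
theorem ji17_nsmul_eq_zero (m : ℕ) (hm : 0 < m) (c : ℕ) (D : Divisor.degZero (K := K) (F := F))
    (f : F) (hf : f ≠ 0) (hfD : ∀ v : Place K F, (m : ℤ) * (D : Divisor K F) v = v.ord f)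
    (g : F) (hg : g ^ m = f ^ c) : c • Pic0.mk D = 0 := by
  have hmZ : (m : ℤ) ≠ 0 := by exact_mod_cast hm.ne'
  have hg0 : g ≠ 0 := by
    rintro rfl
    rw [zero_pow hm.ne'] at hg
    exact pow_ne_zero c hf hg.symm
  have h2 : Pic0.mk ((c : ℤ) • D) = (c : ℤ) • Pic0.mk D := rfl
  rw [← natCast_zsmul, ← h2]
  refine (QuotientAddGroup.eq_zero_iff _).mpr ?_
  rw [AddSubgroup.mem_addSubgroupOf]
  refine ⟨g, hg0, fun v => ?_⟩
  have e1 := congrArg v.ord hg
  rw [← zpow_natCast, v.ord_zpow, ← zpow_natCast, v.ord_zpow, ← hfD v] at e1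
  have e2 : (m : ℤ) * v.ord g = (m : ℤ) * ((c : ℤ) * (D : Divisor K F) v) := by
    rw [e1]; ring
  have e3 := mul_left_cancel₀ hmZ e2
  rw [e3]
  simp

end Abstract

/-- **(FF-INV)**: the function-field form of (INV) over `ℚ̄` at level `N * q`. -/
def ji17_FFInv (N q m c : ℕ) [NeZero N] [NeZero q] : Prop :=
  ∀ A : ValuationSubring Q̄, A.LiesOverPrime q →
    ∀ f : ↥(modularFunctionFieldBar (N * q)), f ≠ 0 →
      (∀ v : Place Q̄ ↥(modularFunctionFieldBar (N * q)), (m : ℤ) ∣ v.ord f) →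
      (∃ a : ↥(modularFunctionFieldBar N), s35i62_normABar N q f = a ^ m) →
      (∃ b : ↥(modularFunctionFieldBar N), s35i62_normBBar N q f = b ^ m) →
      (∀ σ ∈ A.inertiaSubgroupIn ℚ, ∃ h : ↥(modularFunctionFieldBar (N * q)),
        arithmeticRingAut (modularFunctionFieldFull (N * q)) σ f = f * h ^ m) →
      ∃ g : ↥(modularFunctionFieldBar (N * q)), g ^ m = f ^ c

/-- **(INV)**, push-forwards as maps of `JZero` (`pj40_alphaPush`, `pj40_betaPush`). -/
def ji17_Inv (N q m c : ℕ) [NeZero N] [NeZero q] : Prop :=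
  ∀ A : ValuationSubring Q̄, A.LiesOverPrime q →
    ∀ x : JZero (N * q), m • x = 0 → (∀ σ ∈ A.inertiaSubgroupIn ℚ, σ • x = x) →
      pj40_alphaPush N q x = 0 → pj40_betaPush N q x = 0 → c • x = 0

/-- **(INV)** for a divisor `D`, newness in the `IsPrincipal` form of `s35i62_IsNew`. -/
theorem ji17_inv_of_ffInvPush (N q m c : ℕ) [NeZero N] [NeZero q] (hm : 0 < m)
    (h : ji17_FFInv N q m c) (A : ValuationSubring Q̄) (hA : A.LiesOverPrime q)
    (hα : HeckeAlphaBarIntegral Q̄ N q) (hβ : HeckeBetaBarIntegral Q̄ N q)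
    (D : ↥(Divisor.degZero (K := Q̄) (F := ↥(modularFunctionFieldBar (N * q)))))
    (hx : m • (Pic0.mk D : JZero (N * q)) = 0)
    (hfix : ∀ σ ∈ A.inertiaSubgroupIn ℚ, σ • (Pic0.mk D : JZero (N * q)) = Pic0.mk D)
    (hDα : (Divisor.pushforwardAlong (heckeAlphaBar Q̄ N q) hα
      (D : Divisor Q̄ ↥(modularFunctionFieldBar (N * q)))).IsPrincipal)
    (hDβ : (Divisor.pushforwardAlong (heckeBetaBar Q̄ N q) hβ
      (D : Divisor Q̄ ↥(modularFunctionFieldBar (N * q)))).IsPrincipal) :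
    c • (Pic0.mk D : JZero (N * q)) = 0 := by
  haveI : NeZero (N * q) := ⟨mul_ne_zero (NeZero.ne N) (NeZero.ne q)⟩
  haveI := hi63_finite_x N
  haveI := hi63_finite_x (N * q)
  haveI := hi63_hasPrincipalDivisors_bar (N * q)
  obtain ⟨-, hfinα, -, hNα⟩ := hi63_along_all (heckeAlphaBar Q̄ N q)
    (hi63_x N) (hi63_x_transcendental N) (hi63_x (N * q)) (hi63_x_transcendental (N * q))
  obtain ⟨-, hfinβ, -, hNβ⟩ := hi63_along_all (heckeBetaBar Q̄ N q)
    (hi63_x N) (hi63_x_transcendental N) (hi63_x (N * q)) (hi63_x_transcendental (N * q))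
  -- the Kummer function
  have hx' : (m : ℤ) • (Pic0.mk D : JZero (N * q)) = 0 := by rwa [natCast_zsmul]
  have h1 : ((m : ℤ) • D : Divisor.degZero (K := Q̄) (F := ↥(modularFunctionFieldBar (N * q)))) ∈
      (Divisor.principal (K := Q̄) (F := ↥(modularFunctionFieldBar (N * q)))).addSubgroupOf
        (Divisor.degZero (K := Q̄) (F := ↥(modularFunctionFieldBar (N * q)))) := by
    have h2 : (Pic0.mk ((m : ℤ) • D) : JZero (N * q)) = (m : ℤ) • Pic0.mk D := rfl
    rw [← h2] at hx'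
    exact (QuotientAddGroup.eq_zero_iff _).mp hx'
  rw [AddSubgroup.mem_addSubgroupOf] at h1
  obtain ⟨f, hf0, hf⟩ := h1
  have hfD : ∀ v : Place Q̄ ↥(modularFunctionFieldBar (N * q)),
      (m : ℤ) * (D : Divisor Q̄ ↥(modularFunctionFieldBar (N * q))) v = v.ord f := by
    intro v
    rw [← hf v]
    simp
  obtain ⟨a, ha⟩ := jf17_norm_pow (heckeAlphaBar Q̄ N q) hα hfinα hNα (hi63_x N)
    (hi63_x_transcendental N) m hm D f hf0 hfD hDα
  obtain ⟨b, hb⟩ := jf17_norm_pow (heckeBetaBar Q̄ N q) hβ hfinβ hNβ (hi63_x N)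
    (hi63_x_transcendental N) m hm D f hf0 hfD hDβ
  obtain ⟨g, hg⟩ := h A hA f hf0 (fun v => ⟨_, (hfD v).symm⟩) ⟨a, ha⟩ ⟨b, hb⟩
    (fun σ hσ => by
      have hfix' : arithmeticGalois (modularFunctionFieldFull (N * q)) σ •
          (Pic0.mk D : JZero (N * q)) = Pic0.mk D := by
        rw [← galois_smul_pic0_def]
        exact hfix σ hσ
      exact ji17_smul_fix_pow (hi63_x (N * q)) (hi63_x_transcendental (N * q))
        (arithmeticGalois (modularFunctionFieldFull (N * q)) σ) m hm D f hf0 hfD hfix')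
  exact ji17_nsmul_eq_zero m hm c D f hf0 hfD g hg

/-- **P-PIC36**: (FF-INV) ⟹ (INV). -/
theorem ji17_inv_of_ffInv (N q m c : ℕ) [NeZero N] [NeZero q] (hm : 0 < m)
    (h : ji17_FFInv N q m c) : ji17_Inv N q m c := by
  intro A hA x hx hfix hxα hxβ
  obtain ⟨D, rfl⟩ := Pic0.mk_surjective x
  have hα := hx63_heckeAlphaBarIntegral N q
  have hβ := hx63_heckeBetaBarIntegral N q
  exact ji17_inv_of_ffInvPush N q m c hm h A hA hα hβ D hx hfix
    ((pj40_alphaPush_mk_eq_zero_iff N q hα D).mp hxα)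
    ((pj40_betaPush_mk_eq_zero_iff N q hβ D).mp hxβ)

end Fermat.Agent.S36
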