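import Fermat.Agent.S35.PkgNew83

/-!
# S36 lab, sub-lab NEW36 (helper83): `q`-new classes form a Galois-stable subgroup, at EVERY level

For all `N, q ≠ 0` (no primality, no coprimality: in particular `q ∣ N`, the case `q² ∥ M`):

* `nst83_newSub N q : AddSubgroup (JZero (N * q))` : the classes killed by `α_*` and `β_*`
  (`pj40_alphaPush`, `pj40_betaPush`, to level `N`);
* `nst83_mem_newSub` : membership is the literal `s35i62_IsNew N q` of the S35 interface;
* `nst83_smul_mem` / `nst83_isNew_smul` : stable under `Gal(ℚ̄/ℚ)`;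
* `nst83_isNew_zero/_add/_neg/_sub/_nsmul/_zsmul/_sum` : subgroup laws for `s35i62_IsNew`;
* `nst83_isNewAt_*` : the same for the cast-free form `s35i62_IsNewAt M q` (any `M`);
* `nst83_isNewAt_group_sum` : a `ℤ[G_ℚ]`-combination `∑ i, c i • σ i • x` of `q`-new classes is
  `q`-new (the shape needed for the components `θ • Θ n k`, `θ ∈ ℤ[I_q]`, of the endgame).
-/

set_option autoImplicit false
set_option linter.unusedSectionVars false
set_option linter.unusedVariables false
set_option linter.style.longLine false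

open CongruenceSubgroup ModularCurve AlgebraicCurve

namespace Fermat.Agent.S36

open Fermat.Agent.S35

local notation "GQ" => AlgebraicClosure ℚ ≃ₐ[ℚ] AlgebraicClosure ℚ

section nst83_level

variable (N q : ℕ) [NeZero N] [NeZero q]

/-- The subgroup of `q`-new classes of `J₀(N q)`: the common kernel of `α_*` and `β_*`. -/
noncomputable def nst83_newSub : AddSubgroup (JZero (N * q)) :=
  (pj40_alphaPush N q).ker ⊓ (pj40_betaPush N q).ker

theorem nst83_mem_newSub (x : JZero (N * q)) :
    x ∈ nst83_newSub N q ↔ s35i62_IsNew N q x := by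
  rw [pn83_isNew_iff]
  exact Iff.rfl

theorem nst83_mem_newSub_iff (x : JZero (N * q)) :
    x ∈ nst83_newSub N q ↔ pj40_alphaPush N q x = 0 ∧ pj40_betaPush N q x = 0 :=
  Iff.rfl

/-- The new subgroup is stable under the Galois action. -/
theorem nst83_smul_mem (σ : GQ) {x : JZero (N * q)} (hx : x ∈ nst83_newSub N q) :
    σ • x ∈ nst83_newSub N q := by
  obtain ⟨h1, h2⟩ := (nst83_mem_newSub_iff N q x).mp hx
  refine (nst83_mem_newSub_iff N q _).mpr ⟨?_, ?_⟩
  · rw [pj40_alphaPush_smul, h1]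
    exact (inferInstance : DistribMulAction GQ (JZero N)).smul_zero σ
  · rw [pj40_betaPush_smul, h2]
    exact (inferInstance : DistribMulAction GQ (JZero N)).smul_zero σ

variable {N q}

theorem nst83_isNew_smul (σ : GQ) {x : JZero (N * q)} (hx : s35i62_IsNew N q x) :
    s35i62_IsNew N q (σ • x) :=
  (nst83_mem_newSub N q _).mp (nst83_smul_mem N q σ ((nst83_mem_newSub N q x).mpr hx))

theorem nst83_isNew_zero : s35i62_IsNew N q (0 : JZero (N * q)) :=
  (nst83_mem_newSub N q _).mp (nst83_newSub N q).zero_mem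

theorem nst83_isNew_add {x y : JZero (N * q)} (hx : s35i62_IsNew N q x)
    (hy : s35i62_IsNew N q y) : s35i62_IsNew N q (x + y) :=
  (nst83_mem_newSub N q _).mp ((nst83_newSub N q).add_mem ((nst83_mem_newSub N q x).mpr hx)
    ((nst83_mem_newSub N q y).mpr hy))

theorem nst83_isNew_neg {x : JZero (N * q)} (hx : s35i62_IsNew N q x) :
    s35i62_IsNew N q (-x) :=
  (nst83_mem_newSub N q _).mp ((nst83_newSub N q).neg_mem ((nst83_mem_newSub N q x).mpr hx))

theorem nst83_isNew_sub {x y : JZero (N * q)} (hx : s35i62_IsNew N q x)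
    (hy : s35i62_IsNew N q y) : s35i62_IsNew N q (x - y) :=
  (nst83_mem_newSub N q _).mp ((nst83_newSub N q).sub_mem ((nst83_mem_newSub N q x).mpr hx)
    ((nst83_mem_newSub N q y).mpr hy))

theorem nst83_isNew_nsmul (m : ℕ) {x : JZero (N * q)} (hx : s35i62_IsNew N q x) :
    s35i62_IsNew N q (m • x) :=
  (nst83_mem_newSub N q _).mp ((nst83_newSub N q).nsmul_mem ((nst83_mem_newSub N q x).mpr hx) m)

theorem nst83_isNew_zsmul (m : ℤ) {x : JZero (N * q)} (hx : s35i62_IsNew N q x) :
    s35i62_IsNew N q (m • x) :=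
  (nst83_mem_newSub N q _).mp ((nst83_newSub N q).zsmul_mem ((nst83_mem_newSub N q x).mpr hx) m)

theorem nst83_isNew_sum {ι : Type*} (s : Finset ι) (f : ι → JZero (N * q))
    (hf : ∀ i ∈ s, s35i62_IsNew N q (f i)) : s35i62_IsNew N q (∑ i ∈ s, f i) :=
  (nst83_mem_newSub N q _).mp ((nst83_newSub N q).sum_mem
    fun i hi => (nst83_mem_newSub N q (f i)).mpr (hf i hi))

end nst83_level

section nst83_at

variable {M q : ℕ}

/-- Unfolding of the cast-free form at a level written as `M' * q`. -/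
theorem nst83_isNewAt_iff (M' : ℕ) [NeZero M'] [NeZero q] (x : JZero (M' * q)) :
    s35i62_IsNewAt (M' * q) q x ↔ s35i62_IsNew M' q x := by
  constructor
  · intro h
    exact h M' rfl
  · intro h M'' _ _ h'
    have hq : 0 < q := Nat.pos_of_ne_zero (NeZero.ne q)
    obtain rfl : M' = M'' := Nat.eq_of_mul_eq_mul_right hq h'
    exact h

theorem nst83_isNewAt_smul (σ : GQ) {x : JZero M} (hx : s35i62_IsNewAt M q x) :
    s35i62_IsNewAt M q (σ • x) := by
  intro M' _ _ h
  subst h
  exact nst83_isNew_smul σ (hx M' rfl)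

theorem nst83_isNewAt_zero : s35i62_IsNewAt M q (0 : JZero M) := by
  intro M' _ _ h
  subst h
  exact nst83_isNew_zero

theorem nst83_isNewAt_add {x y : JZero M} (hx : s35i62_IsNewAt M q x)
    (hy : s35i62_IsNewAt M q y) : s35i62_IsNewAt M q (x + y) := by
  intro M' _ _ h
  subst h
  exact nst83_isNew_add (hx M' rfl) (hy M' rfl)

theorem nst83_isNewAt_neg {x : JZero M} (hx : s35i62_IsNewAt M q x) :
    s35i62_IsNewAt M q (-x) := by
  intro M' _ _ h
  subst h
  exact nst83_isNew_neg (hx M' rfl)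

theorem nst83_isNewAt_sub {x y : JZero M} (hx : s35i62_IsNewAt M q x)
    (hy : s35i62_IsNewAt M q y) : s35i62_IsNewAt M q (x - y) := by
  intro M' _ _ h
  subst h
  exact nst83_isNew_sub (hx M' rfl) (hy M' rfl)

theorem nst83_isNewAt_nsmul (m : ℕ) {x : JZero M} (hx : s35i62_IsNewAt M q x) :
    s35i62_IsNewAt M q (m • x) := by
  intro M' _ _ h
  subst h
  exact nst83_isNew_nsmul m (hx M' rfl)

theorem nst83_isNewAt_zsmul (m : ℤ) {x : JZero M} (hx : s35i62_IsNewAt M q x) :
    s35i62_IsNewAt M q (m • x) := by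
  intro M' _ _ h
  subst h
  exact nst83_isNew_zsmul m (hx M' rfl)

theorem nst83_isNewAt_sum {ι : Type*} (s : Finset ι) (f : ι → JZero M)
    (hf : ∀ i ∈ s, s35i62_IsNewAt M q (f i)) : s35i62_IsNewAt M q (∑ i ∈ s, f i) := by
  intro M' _ _ h
  subst h
  exact nst83_isNew_sum s f fun i hi => hf i hi M' rfl

/-- A `ℤ[G_ℚ]`-combination of `q`-new classes is `q`-new. -/
theorem nst83_isNewAt_group_sum {ι : Type*} (s : Finset ι) (c : ι → ℤ) (σ : ι → GQ)
    (f : ι → JZero M) (hf : ∀ i ∈ s, s35i62_IsNewAt M q (f i)) :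
    s35i62_IsNewAt M q (∑ i ∈ s, c i • σ i • f i) :=
  nst83_isNewAt_sum s _ fun i hi => nst83_isNewAt_zsmul (c i) (nst83_isNewAt_smul (σ i) (hf i hi))

end nst83_at

end Fermat.Agent.S36
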