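import Mathlib
import Fermat.Agent.S35.Iface62
import Fermat.Agent.S36.JacInv17
import Fermat.Agent.S36.NewStable83

/-!
# S36 lab: the interface (helper62, architect)

Row S36 (Carayol): for `q ≠ lam`, `q² ∥ M`, the attached representation is NOT unipotent on the
inertia at `q`.  Working text: report #2863 (helper26); gate: `Gate67` (helper67).

## The chain (every arrow is one package = one closed `Prop` below, assembly = modus ponens)

```
 CORE36 (number field K, DVR R with uniformizer q = UNRAMIFIED base, RIGID level N)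
                                                              [s36i62_Pkg_Core]
   ⟹ (FF-INV) over ℚ̄ at the rigid level   (descent to the inertia field)  [s36i62_Pkg_FieldDef]
   ⟹ (FF-INV) at the level N from the rigid levels N''   [s36i62_Pkg_LevelFF]
        (or, after `ji17_inv_of_ffInv`, on classes:        [s36i62_Pkg_LevelJac])
   ⟹ (INV) on classes of J₀(N q) (`ji17_inv_of_ffInv`, on main)
   ⟹ (INV) cast-free at every level N with q² ∥ N : `s36i62_InvAt N q p`  [proved here]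
 TRANSFER (rows A1/A2 + gate): `pna32_Pkg_New` + `∀ N q p …, s36i62_InvAt N q p` ⟹ P-ET9 of Gate67.
```

Conventions: the LEVEL of the curve is `N * q` with `q ∣ N`, `¬ q² ∣ N` (so `N = q M'`); the two
degeneracy maps go to level `N` (`al97L_alpha K N q`, `al97L_beta K N q`, norms
`s35i62_normA K N q`, `s35i62_normB K N q`).  The exponent is `m = p ^ n`, `p ≠ q`; the constant
`c ≠ 0` NEVER depends on `n` (it may depend on `N, q, p`; it absorbs `(q+1)`, `(q-1)`, `q²-1`,
the degree of the level change, 2, 3, 12).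

All names are prefixed `s36i62_`.
-/

set_option autoImplicit false
set_option linter.style.longLine false
set_option linter.unusedVariables false
set_option linter.unusedSectionVars false
set_option linter.style.haveILetI false

open ModularCurve AlgebraicCurve CongruenceSubgroup

namespace Fermat.Agent.S36

open Fermat.Agent.S18 Fermat.Agent.S34 Fermat.Agent.S35

local notation "Q̄" => AlgebraicClosure ℚ
local notation "GQ" => AlgebraicClosure ℚ ≃ₐ[ℚ] AlgebraicClosure ℚ

/-! ## 0. Definitions -/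

/-- The level `N` is RIGID for `q`: it is divisible by a Hauptmodul prime `p₀ ∈ {2, 3}`,
`p₀ ≠ q`, and by a prime `r ≡ 11 mod 12`, `r ≠ q` (no elliptic points in any characteristic
`≠ r`: `rl5_rigid`). -/
def s36i62_Rigid (N q p₀ r : ℕ) : Prop :=
  (p₀ = 2 ∨ p₀ = 3) ∧ p₀ ≠ q ∧ p₀ ∣ N ∧ r.Prime ∧ r % 12 = 11 ∧ r ≠ q ∧ r ∣ N

/-- **CORE36** at level `N * q` (`q ∣ N`), exponent `m`, constant `c`: over a number field `K`
with a discrete valuation ring `R` in which `q` is a UNIFORMIZER (unramified base): if all orders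
of `f ∈ F_K(N q)` are divisible by `m`, `N_α f = ca · a^m` and `N_β f = cb · b^m`, then `f ^ c`
is a constant times an `m`-th power.  (No rationality hypothesis on the zeros and poles.) -/
def s36i62_Core (N q m c : ℕ) [NeZero N] [NeZero q] : Prop :=
  ∀ (R K : Type) [CommRing R] [IsDomain R] [IsDiscreteValuationRing R] [Field K] [NumberField K]
    [Algebra K Q̄] [Algebra R K] [IsFractionRing R K]
    [Algebra R ↥(modularFunctionFieldFullC K (N * q))]
    [IsScalarTower R K ↥(modularFunctionFieldFullC K (N * q))],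
    Irreducible ((q : ℕ) : R) → (∀ n : ℕ, Nat.Coprime n q → IsUnit (n : R)) →
    ∀ (f : ↥(modularFunctionFieldFullC K (N * q))) (a b : ↥(modularFunctionFieldFullC K N))
      (ca cb : K), f ≠ 0 → a ≠ 0 → b ≠ 0 → ca ≠ 0 → cb ≠ 0 →
      (∀ P : Place K ↥(modularFunctionFieldFullC K (N * q)), (m : ℤ) ∣ P.ord f) →
      s35i62_normA K N q f = algebraMap K ↥(modularFunctionFieldFullC K N) ca * a ^ m →
      s35i62_normB K N q f = algebraMap K ↥(modularFunctionFieldFullC K N) cb * b ^ m →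
      ∃ (f₀ : ↥(modularFunctionFieldFullC K (N * q))) (c' : K), f₀ ≠ 0 ∧ c' ≠ 0 ∧
        f ^ c = algebraMap K ↥(modularFunctionFieldFullC K (N * q)) c' * f₀ ^ m

/-- CORE36 for all `p`-power exponents with ONE constant. -/
def s36i62_CoreAll (N q p : ℕ) [NeZero N] [NeZero q] : Prop :=
  ∃ c : ℕ, c ≠ 0 ∧ ∀ n : ℕ, s36i62_Core N q (p ^ n) c

/-- (FF-INV) (`ji17_FFInv`) for all `p`-power exponents with ONE constant. -/
def s36i62_FFInvAll (N q p : ℕ) [NeZero N] [NeZero q] : Prop :=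
  ∃ c : ℕ, c ≠ 0 ∧ ∀ n : ℕ, ji17_FFInv N q (p ^ n) c

/-- (INV) on classes (`ji17_Inv`) for all `p`-power exponents with ONE constant. -/
def s36i62_InvAll (N q p : ℕ) [NeZero N] [NeZero q] : Prop :=
  ∃ c : ℕ, c ≠ 0 ∧ ∀ n : ℕ, ji17_Inv N q (p ^ n) c

/-- **(INV)** at a level `N` (cast-free; what the transfer / endgame consumes): there is a
constant `c ≠ 0` such that for EVERY place `A` over `q` and every `n`, a `q`-new class of
`J₀(N)[p^n]` fixed by the inertia group of `A` is killed by `c`. -/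
def s36i62_InvAt (N q p : ℕ) : Prop :=
  ∃ c : ℕ, c ≠ 0 ∧ ∀ A : ValuationSubring Q̄, A.LiesOverPrime q →
    ∀ (n : ℕ) (x : JZero N), (p ^ n) • x = 0 → s35i62_IsNewAt N q x →
      (∀ σ ∈ A.inertiaSubgroupIn ℚ, σ • x = x) → c • x = 0

/-! ## 1. The package theorems (each package proves exactly one of these `Prop`s) -/

/-- **P-CORE36** (rows B1–B3, C, INV-core): CORE36 at every RIGID level, one constant for all
`p`-power exponents. -/
def s36i62_Pkg_Core : Prop :=
  ∀ (N q p p₀ r : ℕ) [NeZero N] [NeZero q], q.Prime → q ∣ N → ¬ q ^ 2 ∣ N →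
    s36i62_Rigid N q p₀ r → p.Prime → p ≠ q → s36i62_CoreAll N q p

/-- **P-FD36** (row LVL-descent): CORE36 ⟹ (FF-INV) at the same level (descent of `f`, up to
`m`-th powers and constants, to a number field inside the inertia field of `A`: there `q` is a
uniformizer).  The constant may change. -/
def s36i62_Pkg_FieldDef : Prop :=
  ∀ (N q p : ℕ) [NeZero N] [NeZero q], q.Prime → q ∣ N → ¬ q ^ 2 ∣ N → p.Prime → p ≠ q →
    s36i62_CoreAll N q p → s36i62_FFInvAll N q p

/-- **P-LEVEL36, function-field form** (row LVL-rigid): (FF-INV) at the rigid levels `N''`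
(multiples of `N` with the same `q`-part) ⟹ (FF-INV) at level `N`. -/
def s36i62_Pkg_LevelFF : Prop :=
  ∀ (N q p : ℕ) [NeZero N] [NeZero q], q.Prime → q ∣ N → ¬ q ^ 2 ∣ N → p.Prime → p ≠ q →
    (∀ (N'' p₀ r : ℕ) [NeZero N''], q ∣ N'' → ¬ q ^ 2 ∣ N'' → s36i62_Rigid N'' q p₀ r →
      s36i62_FFInvAll N'' q p) →
    s36i62_FFInvAll N q p

/-- **P-LEVEL36, class form** (alternative to `s36i62_Pkg_LevelFF`; ONE of the two suffices):
(INV) on classes at the rigid levels ⟹ (INV) on classes at level `N`. -/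
def s36i62_Pkg_LevelJac : Prop :=
  ∀ (N q p : ℕ) [NeZero N] [NeZero q], q.Prime → q ∣ N → ¬ q ^ 2 ∣ N → p.Prime → p ≠ q →
    (∀ (N'' p₀ r : ℕ) [NeZero N''], q ∣ N'' → ¬ q ^ 2 ∣ N'' → s36i62_Rigid N'' q p₀ r →
      s36i62_InvAll N'' q p) →
    s36i62_InvAll N q p

/-! ## 2. Assembly (modus ponens) -/

/-- (FF-INV) ⟹ (INV) on classes (`ji17_inv_of_ffInv`). -/
theorem s36i62_invAll_of_ffInvAll (N q p : ℕ) [NeZero N] [NeZero q] (hp : p.Prime)
    (h : s36i62_FFInvAll N q p) : s36i62_InvAll N q p := by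
  obtain ⟨c, hc, hff⟩ := h
  exact ⟨c, hc, fun n => ji17_inv_of_ffInv N q (p ^ n) c (pow_pos hp.pos n) (hff n)⟩

/-- (INV) at a level `N` with `q² ∥ N` from (INV) at the levels `N₁ * q`, `q ∥ N₁`. -/
theorem s36i62_invAt_of (N q p : ℕ) (hq : q.Prime) (hN2 : N.factorization q = 2)
    (h : ∀ (N₁ : ℕ) [NeZero N₁] [NeZero q], q ∣ N₁ → ¬ q ^ 2 ∣ N₁ → s36i62_InvAll N₁ q p) :
    s36i62_InvAt N q p := by
  have hN0 : N ≠ 0 := by
    rintro rfl
    simp at hN2
  have hdvd : ∀ k : ℕ, q ^ k ∣ N ↔ k ≤ 2 := fun k => by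
    rw [hq.pow_dvd_iff_le_factorization hN0, hN2]
  obtain ⟨N₁, rfl⟩ : q ∣ N := by
    have h1 := (hdvd 1).mpr (by norm_num)
    simpa using h1
  have hN₁0 : N₁ ≠ 0 := by
    rintro rfl
    exact hN0 (by simp)
  have hqN₁ : q ∣ N₁ := by
    have h2 := (hdvd 2).mpr le_rfl
    rw [pow_two] at h2
    exact (Nat.mul_dvd_mul_iff_left hq.pos).mp h2
  have hq2N₁ : ¬ q ^ 2 ∣ N₁ := by
    intro hd
    have h3 : q ^ 3 ∣ q * N₁ := by
      have e : q ^ 3 = q * q ^ 2 := by ring
      rw [e]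
      exact Nat.mul_dvd_mul_left q hd
    have := (hdvd 3).mp h3
    omega
  haveI : NeZero N₁ := ⟨hN₁0⟩
  haveI : NeZero q := ⟨hq.ne_zero⟩
  obtain ⟨c, hc, hInv⟩ := h N₁ hqN₁ hq2N₁
  refine ⟨c, hc, ?_⟩
  intro A hA n
  have hN : q * N₁ = N₁ * q := Nat.mul_comm q N₁
  rw [hN]
  intro x hx hnew hfix
  have hmem := (nst83_mem_newSub N₁ q x).mpr (hnew N₁ rfl)
  obtain ⟨h1, h2⟩ := (nst83_mem_newSub_iff N₁ q x).mp hmem
  exact hInv n A hA x hx hfix h1 h2

/-- **ASSEMBLY (geometric side), function-field level change**: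
P-CORE36 + P-FD36 + P-LEVEL36 (FF form) ⟹ (INV) at every level `N` with `q² ∥ N`, for every
prime `p ≠ q`. -/
theorem s36i62_assembly (hCore : s36i62_Pkg_Core) (hFD : s36i62_Pkg_FieldDef)
    (hLevel : s36i62_Pkg_LevelFF)
    (N q p : ℕ) (hq : q.Prime) (hp : p.Prime) (hpq : p ≠ q) (hN2 : N.factorization q = 2) :
    s36i62_InvAt N q p := by
  refine s36i62_invAt_of N q p hq hN2 ?_
  intro N₁ _ _ hqN₁ hq2N₁
  refine s36i62_invAll_of_ffInvAll N₁ q p hp (hLevel N₁ q p hq hqN₁ hq2N₁ hp hpq ?_)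
  intro N'' p₀ r _ hqN'' hq2N'' hrig
  exact hFD N'' q p hq hqN'' hq2N'' hp hpq (hCore N'' q p p₀ r hq hqN'' hq2N'' hrig hp hpq)

/-- **ASSEMBLY (geometric side), class-level level change**:
P-CORE36 + P-FD36 + P-LEVEL36 (class form) ⟹ (INV) at every level `N` with `q² ∥ N`. -/
theorem s36i62_assembly_jac (hCore : s36i62_Pkg_Core) (hFD : s36i62_Pkg_FieldDef)
    (hLevel : s36i62_Pkg_LevelJac)
    (N q p : ℕ) (hq : q.Prime) (hp : p.Prime) (hpq : p ≠ q) (hN2 : N.factorization q = 2) :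
    s36i62_InvAt N q p := by
  refine s36i62_invAt_of N q p hq hN2 ?_
  intro N₁ _ _ hqN₁ hq2N₁
  refine hLevel N₁ q p hq hqN₁ hq2N₁ hp hpq ?_
  intro N'' p₀ r _ hqN'' hq2N'' hrig
  exact s36i62_invAll_of_ffInvAll N'' q p hp
    (hFD N'' q p hq hqN'' hq2N'' hp hpq (hCore N'' q p p₀ r hq hqN'' hq2N'' hrig hp hpq))

end Fermat.Agent.S36
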