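import Mathlib
import Fermat.Agent.S36.Iface62
import Fermat.Agent.S34.PkgMain85
import Fermat.Agent.S34.CoreAsm57
import Fermat.Agent.S34.FinSupp29

/-!
# S36 lab, row 605 INV-core (helper57, integrator): `s36i62_Pkg_Core` from THREE frame packages

Text: #2876 (helper1), #2863 (helper26).  Per unramified base `(R, K)`, `π = (q : R)`, level
`N * q` (`q ∣ N`), `F1 = F_K(N)`, `F2 = F_K(N q)`, norms `Nal = s35i62_normA K N q`,
`Nbe = s35i62_normB K N q`; a Hauptmodul `h`, three valuation subrings `V₁ V₂ V₃` of `F2`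
(`W = V₁ ⊓ V₂ ⊓ V₃`), two valuation subrings `Vinf V0` of `F1`:

* **(HF)** `ci57x_HF` : `s34i47_WProps π W ∧ s34i47_ChartProps K π W h`;
* **(HB)** `ci57x_HB` : for `f` as in `s36i62_Core`: `f ^ E₁ = c₀ g ^ m u` with
  `E₁ = (q+1)(q-1)(q²-1)`, `u ≡ 1` modulo `𝔪 (V i)`, and the norm data
  `Nal u = cu Au ^ m`, `Nbe u = du Bu ^ m`, `Au ≡ tinf`, `t0`, `Bu ≡ sinf`, `s0` on the two
  level-`q` branches, all six constants being units of `R` (`ci57x_UnitData`);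
* **(HP)** `ci57x_HP` : for every such `u` with `m ∣ ord` and finite support there is a twist
  `θ` with `u₂ = (u ^ ((d+2) d) θ ^ m) ^ q ≡ 1` modulo `π V i` (`d = q - 1`) and
  `s34i47_LocalDatum π m W B u₂` on both charts.

`ci57x_core` : (HF) + (HB) + (HP) ⟹ `s36i62_Core N q m E`, `E = E₁ (d+2) d q`
(`cm85_pkg_main`); `ci57x_pkg_core` : the package `s36i62_Pkg_Core`.

All names are prefixed `ci57x_`.
-/

set_option autoImplicit false
set_option linter.style.longLine false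
set_option linter.unusedVariables false
set_option linter.unusedSectionVars false

open ModularCurve AlgebraicCurve

namespace Fermat.Agent.S36

open Fermat.Agent.S18 Fermat.Agent.S34 Fermat.Agent.S35

local notation "Q̄" => AlgebraicClosure ℚ

section Defs

variable {R K F1 F2 : Type*} [CommRing R] [Field K] [Field F1] [Field F2] [Algebra R K]
  [Algebra K F1] [Algebra R F2] [Algebra K F2]

/-- **(HF)** the frame: (W) and (C) for `W = V₁ ⊓ V₂ ⊓ V₃` and the Hauptmodul `h`. -/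
def ci57x_HF (K : Type*) [Field K] [Algebra K F2] (π : R) (h : F2)
    (V₁ V₂ V₃ : ValuationSubring F2) : Prop :=
  s34i47_WProps π (V₁.toSubring ⊓ V₂.toSubring ⊓ V₃.toSubring) ∧
    s34i47_ChartProps K π (V₁.toSubring ⊓ V₂.toSubring ⊓ V₃.toSubring) h

/-- The unit data of (HB): `u ≡ 1` modulo the three maximal ideals, and the two norms of `u` are
(unit constant) times an `m`-th power of a function with constant reductions on both level-`q`
branches; the constants are units of `R`. -/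
def ci57x_UnitData (R : Type*) [CommRing R] [Algebra R K] (Nal Nbe : F2 →* F1)
    (V₁ V₂ V₃ : ValuationSubring F2) (Vinf V0 : ValuationSubring F1) (m : ℕ)
    (u : F2) (cu Au tinf t0 du Bu sinf s0 : F1) : Prop :=
  V₁.valuation (u - 1) < 1 ∧ V₂.valuation (u - 1) < 1 ∧ V₃.valuation (u - 1) < 1 ∧
  Nal u = cu * Au ^ m ∧ Au ≠ 0 ∧ Nbe u = du * Bu ^ m ∧ Bu ≠ 0 ∧
  (∃ r : Rˣ, cu = algebraMap K F1 (algebraMap R K r)) ∧
  (∃ r : Rˣ, tinf = algebraMap K F1 (algebraMap R K r)) ∧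
  (∃ r : Rˣ, t0 = algebraMap K F1 (algebraMap R K r)) ∧
  (∃ r : Rˣ, du = algebraMap K F1 (algebraMap R K r)) ∧
  (∃ r : Rˣ, sinf = algebraMap K F1 (algebraMap R K r)) ∧
  (∃ r : Rˣ, s0 = algebraMap K F1 (algebraMap R K r)) ∧
  Vinf.valuation (Au - tinf) < 1 ∧ V0.valuation (Au - t0) < 1 ∧
  Vinf.valuation (Bu - sinf) < 1 ∧ V0.valuation (Bu - s0) < 1

/-- **(HP)** the points: every `u` with the unit data, `m ∣ ord` and finite support has a twist
`θ` such that `u₂ = (u ^ ((d+2) d) θ ^ m) ^ q` (`d = q - 1`) is `≡ 1` modulo `π V i` and has a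
local datum on both charts. -/
def ci57x_HP (π : R) (q m : ℕ) (h : F2) (Nal Nbe : F2 →* F1)
    (V₁ V₂ V₃ : ValuationSubring F2) (Vinf V0 : ValuationSubring F1) : Prop :=
  ∀ (u : F2) (cu Au tinf t0 du Bu sinf s0 : F1), u ≠ 0 → s34i47_Ord π m u → s34i47_Fin π u →
    ci57x_UnitData (K := K) R Nal Nbe V₁ V₂ V₃ Vinf V0 m u cu Au tinf t0 du Bu sinf s0 →
    ∃ θ : F2, θ ≠ 0 ∧
      (algebraMap R F2 π)⁻¹ * ((u ^ ((q - 1 + 2) * (q - 1)) * θ ^ m) ^ q - 1) ∈ V₁ ∧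
      (algebraMap R F2 π)⁻¹ * ((u ^ ((q - 1 + 2) * (q - 1)) * θ ^ m) ^ q - 1) ∈ V₂ ∧
      (algebraMap R F2 π)⁻¹ * ((u ^ ((q - 1 + 2) * (q - 1)) * θ ^ m) ^ q - 1) ∈ V₃ ∧
      s34i47_LocalDatum π m (V₁.toSubring ⊓ V₂.toSubring ⊓ V₃.toSubring)
        (pk15_chart R ({h} : Set F2)) ((u ^ ((q - 1 + 2) * (q - 1)) * θ ^ m) ^ q) ∧
      s34i47_LocalDatum π m (V₁.toSubring ⊓ V₂.toSubring ⊓ V₃.toSubring)
        (pk15_chart R ({h⁻¹} : Set F2)) ((u ^ ((q - 1 + 2) * (q - 1)) * θ ^ m) ^ q)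

end Defs

/-- **(HB)** the unit step (B0–B2 of #2876) at level `N * q`, exponent `m`, over `(R, K)`. -/
def ci57x_HB (N q m : ℕ) [NeZero N] [NeZero q] (R K : Type) [CommRing R] [Field K]
    [Algebra R K]
    (V₁ V₂ V₃ : ValuationSubring ↥(modularFunctionFieldFullC K (N * q)))
    (Vinf V0 : ValuationSubring ↥(modularFunctionFieldFullC K N)) : Prop :=
  ∀ (f : ↥(modularFunctionFieldFullC K (N * q))) (a b : ↥(modularFunctionFieldFullC K N))
    (ca cb : K), f ≠ 0 → a ≠ 0 → b ≠ 0 → ca ≠ 0 → cb ≠ 0 →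
    (∀ P : Place K ↥(modularFunctionFieldFullC K (N * q)), (m : ℤ) ∣ P.ord f) →
    s35i62_normA K N q f = algebraMap K ↥(modularFunctionFieldFullC K N) ca * a ^ m →
    s35i62_normB K N q f = algebraMap K ↥(modularFunctionFieldFullC K N) cb * b ^ m →
    ∃ (u g : ↥(modularFunctionFieldFullC K (N * q))) (c₀ : K)
      (cu Au tinf t0 du Bu sinf s0 : ↥(modularFunctionFieldFullC K N)),
      g ≠ 0 ∧ c₀ ≠ 0 ∧
      f ^ ((q + 1) * (q - 1) * (q ^ 2 - 1)) =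
        algebraMap K ↥(modularFunctionFieldFullC K (N * q)) c₀ * g ^ m * u ∧
      ci57x_UnitData (K := K) R (s35i62_normA K N q) (s35i62_normB K N q) V₁ V₂ V₃ Vinf V0 m
        u cu Au tinf t0 du Bu sinf s0

section Core

variable {R K : Type} [CommRing R] [IsDomain R] [IsDiscreteValuationRing R] [Field K]
  [NumberField K] [Algebra K Q̄] [Algebra R K] [IsFractionRing R K]

/-- The final field identity. -/
theorem ci57x_alg {F : Type*} [Field F] (C g u f₀ θ : F) (m e2 q : ℕ) (hf₀ : f₀ ≠ 0)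
    (hθ : θ ≠ 0) :
    (C * g ^ m * u) ^ (e2 * q) =
      C ^ (e2 * q) * (f₀ ^ m * (u ^ e2 * θ ^ m) ^ q) * (g ^ (e2 * q) / (θ ^ q * f₀)) ^ m := by
  have h1 : (g ^ (e2 * q) / (θ ^ q * f₀)) ^ m = g ^ (e2 * q * m) / (θ ^ (q * m) * f₀ ^ m) := by
    rw [div_pow, mul_pow, ← pow_mul, ← pow_mul]
  have h2 : (u ^ e2 * θ ^ m) ^ q = u ^ (e2 * q) * θ ^ (m * q) := by
    rw [mul_pow, ← pow_mul, ← pow_mul]
  have h3 : (C * g ^ m * u) ^ (e2 * q) = C ^ (e2 * q) * g ^ (m * (e2 * q)) * u ^ (e2 * q) := by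
    rw [mul_pow, mul_pow, ← pow_mul]
  rw [h1, h2, h3, Nat.mul_comm q m, Nat.mul_comm (e2 * q) m]
  have hθ' : θ ^ (m * q) ≠ 0 := pow_ne_zero _ hθ
  have hf' : f₀ ^ m ≠ 0 := pow_ne_zero _ hf₀
  field_simp

/-- `m ∣ ord` in valuation-subring form passes to `f ^ E / (c₀ g ^ m)`. -/
theorem ci57x_ord_of {F : Type*} [Field F] [Algebra R F] [Algebra K F] [IsScalarTower R K F]
    {π : R} (hπ : Irreducible π) (m E : ℕ) (f u g : F) (c₀ : K) (hg : g ≠ 0) (hc₀ : c₀ ≠ 0)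
    (hfu : f ^ E = algebraMap K F c₀ * g ^ m * u) (hOrd : s34i47_Ord π m f) :
    s34i47_Ord π m u := by
  intro O hO
  obtain ⟨ε, w, hε, hεinv, hfw⟩ := hOrd O hO
  have hc : algebraMap K F c₀ ∈ O := ca57_algebraMap_mem hπ O hO.2.2.1 hO.2.2.2 c₀
  have hcinv : (algebraMap K F c₀)⁻¹ ∈ O := by
    rw [← map_inv₀]
    exact ca57_algebraMap_mem hπ O hO.2.2.1 hO.2.2.2 c₀⁻¹
  have hc0 : algebraMap K F c₀ ≠ 0 := (map_ne_zero _).mpr hc₀
  refine ⟨ε ^ E * (algebraMap K F c₀)⁻¹, w ^ E / g, O.mul_mem _ _ (pow_mem hε E) hcinv, ?_, ?_⟩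
  · rw [mul_inv, inv_inv, ← inv_pow]
    exact O.mul_mem _ _ (pow_mem hεinv E) hc
  · have e1 : u = f ^ E / (algebraMap K F c₀ * g ^ m) := by
      rw [hfu]
      field_simp
    rw [e1, hfw, mul_pow, div_pow, ← pow_mul, ← pow_mul, Nat.mul_comm m E]
    field_simp

/-- **(HF) + (HB) + (HP) ⟹ CORE36** with the constant `E = (q+1)(q-1)(q²-1) · (d+2) d · q`. -/
theorem ci57x_core (N q m : ℕ) [NeZero N] [NeZero q] (hm0 : 0 < m)
    [Algebra R ↥(modularFunctionFieldFullC K (N * q))]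
    [IsScalarTower R K ↥(modularFunctionFieldFullC K (N * q))]
    (hπ : Irreducible ((q : ℕ) : R)) (hm : IsUnit (m : R))
    (h : ↥(modularFunctionFieldFullC K (N * q)))
    (V₁ V₂ V₃ : ValuationSubring ↥(modularFunctionFieldFullC K (N * q)))
    (Vinf V0 : ValuationSubring ↥(modularFunctionFieldFullC K N))
    (hF : ci57x_HF K ((q : ℕ) : R) h V₁ V₂ V₃)
    (hB : ci57x_HB N q m R K V₁ V₂ V₃ Vinf V0)
    (hP : ci57x_HP (K := K) ((q : ℕ) : R) q m h (s35i62_normA K N q) (s35i62_normB K N q)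
      V₁ V₂ V₃ Vinf V0)
    (f : ↥(modularFunctionFieldFullC K (N * q))) (a b : ↥(modularFunctionFieldFullC K N))
    (ca cb : K) (hf : f ≠ 0) (ha : a ≠ 0) (hb : b ≠ 0) (hca : ca ≠ 0) (hcb : cb ≠ 0)
    (hord : ∀ P : Place K ↥(modularFunctionFieldFullC K (N * q)), (m : ℤ) ∣ P.ord f)
    (hNa : s35i62_normA K N q f = algebraMap K ↥(modularFunctionFieldFullC K N) ca * a ^ m)
    (hNb : s35i62_normB K N q f = algebraMap K ↥(modularFunctionFieldFullC K N) cb * b ^ m) :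
    ∃ (f₀ : ↥(modularFunctionFieldFullC K (N * q))) (c' : K), f₀ ≠ 0 ∧ c' ≠ 0 ∧
      f ^ ((q + 1) * (q - 1) * (q ^ 2 - 1) * ((q - 1 + 2) * (q - 1)) * q) =
        algebraMap K ↥(modularFunctionFieldFullC K (N * q)) c' * f₀ ^ m := by
  have hNq : NeZero (N * q) := ⟨mul_ne_zero (NeZero.ne N) (NeZero.ne q)⟩
  obtain ⟨hW, hC⟩ := hF
  obtain ⟨u, g, c₀, cu, Au, tinf, t0, du, Bu, sinf, s0, hg, hc₀, hfu, hdata⟩ :=
    hB f a b ca cb hf ha hb hca hcb hord hNa hNb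
  have hu0 : u ≠ 0 := by
    rintro rfl
    rw [mul_zero] at hfu
    exact pow_ne_zero _ hf hfu
  have hOrdf : s34i47_Ord ((q : ℕ) : R) m f := ca57_ord (K := K) hπ m f hf hord
  have hOrdu : s34i47_Ord ((q : ℕ) : R) m u :=
    ci57x_ord_of (K := K) hπ m _ f u g c₀ hg hc₀ hfu hOrdf
  have hFinu : s34i47_Fin ((q : ℕ) : R) u :=
    ca57_fin (K := K) hπ u (fs29_Pkg_Fin (N * q) hNq K u hu0)
  obtain ⟨θ, hθ0, hu1, hu2, hu3, hLD₁, hLD₂⟩ :=
    hP u cu Au tinf t0 du Bu sinf s0 hu0 hOrdu hFinu hdata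
  obtain ⟨f₀, cR, hf₀, hfc⟩ := cm85_pkg_main R K ↥(modularFunctionFieldFullC K (N * q))
    ((q : ℕ) : R) hπ m hm0 hm (cap87_algClosed_in (modularFunctionFieldFullC K (N * q)))
    _ h hW hC _ ⟨⟨hu1, hu2⟩, hu3⟩ hLD₁ hLD₂
  have hu20 : (u ^ ((q - 1 + 2) * (q - 1)) * θ ^ m) ^ q ≠ 0 :=
    pow_ne_zero _ (mul_ne_zero (pow_ne_zero _ hu0) (pow_ne_zero _ hθ0))
  have hcR : algebraMap R K cR ≠ 0 := by
    intro h0
    have h1 : f₀ ^ m * (u ^ ((q - 1 + 2) * (q - 1)) * θ ^ m) ^ q = 0 := by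
      rw [hfc, IsScalarTower.algebraMap_apply R K ↥(modularFunctionFieldFullC K (N * q)), h0,
        map_zero]
    rcases mul_eq_zero.mp h1 with h2 | h2
    · exact hf₀ (pow_eq_zero_iff hm0.ne' |>.mp h2)
    · exact hu20 h2
  refine ⟨g ^ ((q - 1 + 2) * (q - 1) * q) / (θ ^ q * f₀),
    c₀ ^ ((q - 1 + 2) * (q - 1) * q) * algebraMap R K cR,
    div_ne_zero (pow_ne_zero _ hg) (mul_ne_zero (pow_ne_zero _ hθ0) hf₀),
    mul_ne_zero (pow_ne_zero _ hc₀) hcR, ?_⟩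
  have e0 : f ^ ((q + 1) * (q - 1) * (q ^ 2 - 1) * ((q - 1 + 2) * (q - 1)) * q) =
      (f ^ ((q + 1) * (q - 1) * (q ^ 2 - 1))) ^ ((q - 1 + 2) * (q - 1) * q) := by
    rw [← pow_mul]
    congr 1
    ring
  have e2 : algebraMap K ↥(modularFunctionFieldFullC K (N * q)) (algebraMap R K cR) =
      f₀ ^ m * (u ^ ((q - 1 + 2) * (q - 1)) * θ ^ m) ^ q := by
    rw [← IsScalarTower.algebraMap_apply R K ↥(modularFunctionFieldFullC K (N * q)), hfc]
  rw [e0, hfu, map_mul, map_pow, e2]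
  exact ci57x_alg _ g u f₀ θ m _ q hf₀ hθ0

/-- **P-CORE36** (`s36i62_Pkg_Core`) from (HF) + (HB) + (HP) at every rigid level, for every
`p`-power exponent and every unramified base. -/
theorem ci57x_pkg_core
    (hX : ∀ (N q p p₀ r : ℕ) [NeZero N] [NeZero q], q.Prime → q ∣ N → ¬ q ^ 2 ∣ N →
      s36i62_Rigid N q p₀ r → p.Prime → p ≠ q → ∀ n : ℕ,
      ∀ (R K : Type) [CommRing R] [IsDomain R] [IsDiscreteValuationRing R] [Field K]
        [NumberField K] [Algebra K Q̄] [Algebra R K] [IsFractionRing R K]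
        [Algebra R ↥(modularFunctionFieldFullC K (N * q))]
        [IsScalarTower R K ↥(modularFunctionFieldFullC K (N * q))],
        Irreducible ((q : ℕ) : R) → (∀ k : ℕ, Nat.Coprime k q → IsUnit (k : R)) →
        ∃ (h : ↥(modularFunctionFieldFullC K (N * q)))
          (V₁ V₂ V₃ : ValuationSubring ↥(modularFunctionFieldFullC K (N * q)))
          (Vinf V0 : ValuationSubring ↥(modularFunctionFieldFullC K N)),
          ci57x_HF K ((q : ℕ) : R) h V₁ V₂ V₃ ∧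
          ci57x_HB N q (p ^ n) R K V₁ V₂ V₃ Vinf V0 ∧
          ci57x_HP (K := K) ((q : ℕ) : R) q (p ^ n) h (s35i62_normA K N q)
            (s35i62_normB K N q) V₁ V₂ V₃ Vinf V0) :
    s36i62_Pkg_Core := by
  intro N q p p₀ r _ _ hq hqN hq2 hrig hp hpq
  have hq2' : 2 ≤ q := hq.two_le
  refine ⟨(q + 1) * (q - 1) * (q ^ 2 - 1) * ((q - 1 + 2) * (q - 1)) * q, ?_, fun n => ?_⟩
  · have h1 : 0 < q - 1 := by omega
    have h2 : 0 < q ^ 2 - 1 := by
      have : 4 ≤ q ^ 2 := by nlinarith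
      omega
    positivity
  · intro R K _ _ _ _ _ _ _ _ _ _ hπ hunit f a b ca cb hf ha hb hca hcb hord hNa hNb
    obtain ⟨h, V₁, V₂, V₃, Vinf, V0, hF, hB, hP⟩ :=
      hX N q p p₀ r hq hqN hq2 hrig hp hpq n R K hπ hunit
    exact ci57x_core N q (p ^ n) (pow_pos hp.pos n) hπ
      (hunit (p ^ n) (Nat.Coprime.pow_left n ((Nat.coprime_primes hp hq).mpr hpq)))
      h V₁ V₂ V₃ Vinf V0 hF hB hP f a b ca cb hf ha hb hca hcb hord hNa hNb

end Core

end Fermat.Agent.S36
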