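import Mathlib
import Fermat.Agent.S36.CoreIface57
import Fermat.Agent.S34.SpecFibre79

/-!
# S36 lab, row 605 INV-core (helper57, integrator): the package (HP) split per point

`ci57x_HP` (CoreIface57) from three packages in the same frame parameters
(`π`, `q`, `m`, `h`, `al`, `be`, `Nal`, `Nbe`, `V₁ V₂ V₃`, `Vinf V0`):

* **(HP-T)** `cp57_HPT` : the twist.  For `u` with the unit data there is `θ ≠ 0` with
  `cp57_TwistData`: `θ ≡ (w₁, w₂, 1)` modulo `(𝔪 V₁, 𝔪 V₂, 𝔪 V₃)` for constants `w₁ w₂ ∈ R` with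
  `w₁ (α tinf · β sinf)^d = (α t0 · β s0)^d`, `w₂ (α tinf^(d+1) · β s0) = α t0^(d+1) · β sinf`
  (`d = q - 1`; exactly `hθ1 hθ2 hθ3 hw1 hw2` of `gcd26_datum_triple`), and
  `u₂ = (u ^ ((d+2) d) θ ^ m) ^ q ≡ 1` modulo `π V i`.
* **(HP-1)** `cp57_HP1` : the clause of `s34i47_LocalDatum` for `u₂` at the closed points of a
  chart lying on AT MOST ONE branch (`ld84_datum_at` + `ud57_locPrin_at` + (3a) root lift).
* **(HP-3)** `cp57_HP3` : the same clause at the closed points lying on two branches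
  (the triple points; `gcd26_datum_triple`).

`cp57_HP_of : cp57_HPT → cp57_HP1 (chart h) → cp57_HP1 (chart h⁻¹) → cp57_HP3 (chart h) →
  cp57_HP3 (chart h⁻¹) → ci57x_HP`.

All names are prefixed `cp57_`.
-/

set_option autoImplicit false
set_option linter.style.longLine false
set_option linter.unusedVariables false
set_option linter.unusedSectionVars false

namespace Fermat.Agent.S36

open Fermat.Agent.S18 Fermat.Agent.S34 Fermat.Agent.S35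

section Defs

variable {R K F1 F2 : Type*} [CommRing R] [Field K] [Field F1] [Field F2] [Algebra R K]
  [Algebra K F1] [Algebra R F2] [Algebra K F2]

/-- The twisted function `u₂ = (u ^ ((d+2) d) θ ^ m) ^ q`, `d = q - 1` (the `u'` of
`gcd26_datum_triple` with `k = q`). -/
def cp57_u2 (q m : ℕ) (u θ : F2) : F2 :=
  (u ^ ((q - 1 + 2) * (q - 1)) * θ ^ m) ^ q

/-- The closed point `n` of the chart `B` lies on at most one of the three branches. -/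
def cp57_OneBr (π : R) (B : Subalgebra R F2) (V₁ V₂ V₃ : ValuationSubring F2) (n : Ideal B) :
    Prop :=
  ¬ (sf79_OnBr π B V₁.toSubring n ∧ sf79_OnBr π B V₂.toSubring n) ∧
  ¬ (sf79_OnBr π B V₁.toSubring n ∧ sf79_OnBr π B V₃.toSubring n) ∧
  ¬ (sf79_OnBr π B V₂.toSubring n ∧ sf79_OnBr π B V₃.toSubring n)

/-- The twist data: `θ ≡ (w₁, w₂, 1)` with constants `w₁, w₂` solving the two gluing relations
exactly, and `u₂ ≡ 1` modulo `π V i`. -/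
def cp57_TwistData (π : R) (q m : ℕ) (al be : F1 →+* F2) (V₁ V₂ V₃ : ValuationSubring F2)
    (u : F2) (tinf t0 sinf s0 : F1) (θ : F2) : Prop :=
  θ ≠ 0 ∧ (θ ∈ V₁ ∧ θ⁻¹ ∈ V₁) ∧ (θ ∈ V₂ ∧ θ⁻¹ ∈ V₂) ∧ (θ ∈ V₃ ∧ θ⁻¹ ∈ V₃) ∧
  (∃ w₁ w₂ : R,
    V₁.valuation (θ - algebraMap R F2 w₁) < 1 ∧ V₂.valuation (θ - algebraMap R F2 w₂) < 1 ∧
    V₃.valuation (θ - 1) < 1 ∧
    algebraMap R F2 w₁ * (al tinf * be sinf) ^ (q - 1) = (al t0 * be s0) ^ (q - 1) ∧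
    algebraMap R F2 w₂ * (al tinf ^ (q - 1 + 1) * be s0) = al t0 ^ (q - 1 + 1) * be sinf) ∧
  (algebraMap R F2 π)⁻¹ * (cp57_u2 q m u θ - 1) ∈ V₁ ∧
  (algebraMap R F2 π)⁻¹ * (cp57_u2 q m u θ - 1) ∈ V₂ ∧
  (algebraMap R F2 π)⁻¹ * (cp57_u2 q m u θ - 1) ∈ V₃

/-- **(HP-T)** existence of the twist. -/
def cp57_HPT (π : R) (q m : ℕ) (al be : F1 →+* F2) (Nal Nbe : F2 →* F1)
    (V₁ V₂ V₃ : ValuationSubring F2) (Vinf V0 : ValuationSubring F1) : Prop :=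
  ∀ (u : F2) (cu Au tinf t0 du Bu sinf s0 : F1), u ≠ 0 →
    ci57x_UnitData (K := K) R Nal Nbe V₁ V₂ V₃ Vinf V0 m u cu Au tinf t0 du Bu sinf s0 →
    ∃ θ : F2, cp57_TwistData π q m al be V₁ V₂ V₃ u tinf t0 sinf s0 θ

/-- The clause of `s34i47_LocalDatum π m (V₁ ⊓ V₂ ⊓ V₃) B v` at the closed point `n`. -/
def cp57_LDAt (π : R) (m : ℕ) (B : Subalgebra R F2) (V₁ V₂ V₃ : ValuationSubring F2)
    (n : Ideal B) (v : F2) : Prop :=
  ∃ φ : F2, (algebraMap R F2 π)⁻¹ * (φ - 1) ∈ V₁.toSubring ⊓ V₂.toSubring ⊓ V₃.toSubring ∧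
    ∃ s : B, s ∉ n ∧ (s : F2) * (φ ^ m * v) ∈ B

/-- **(HP-1)** the local datum of `u₂` at the closed points on at most one branch. -/
def cp57_HP1 (π : R) (q m : ℕ) (B : Subalgebra R F2) (al be : F1 →+* F2) (Nal Nbe : F2 →* F1)
    (V₁ V₂ V₃ : ValuationSubring F2) (Vinf V0 : ValuationSubring F1) : Prop :=
  ∀ (u : F2) (cu Au tinf t0 du Bu sinf s0 : F1) (θ : F2), u ≠ 0 → s34i47_Ord π m u →
    s34i47_Fin π u →
    ci57x_UnitData (K := K) R Nal Nbe V₁ V₂ V₃ Vinf V0 m u cu Au tinf t0 du Bu sinf s0 →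
    cp57_TwistData π q m al be V₁ V₂ V₃ u tinf t0 sinf s0 θ →
    ∀ n : Ideal B, n.IsMaximal → algebraMap R B π ∈ n → cp57_OneBr π B V₁ V₂ V₃ n →
      cp57_LDAt π m B V₁ V₂ V₃ n (cp57_u2 q m u θ)

/-- **(HP-3)** the local datum of `u₂` at the closed points on two branches (triple points). -/
def cp57_HP3 (π : R) (q m : ℕ) (B : Subalgebra R F2) (al be : F1 →+* F2) (Nal Nbe : F2 →* F1)
    (V₁ V₂ V₃ : ValuationSubring F2) (Vinf V0 : ValuationSubring F1) : Prop :=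
  ∀ (u : F2) (cu Au tinf t0 du Bu sinf s0 : F1) (θ : F2), u ≠ 0 → s34i47_Ord π m u →
    s34i47_Fin π u →
    ci57x_UnitData (K := K) R Nal Nbe V₁ V₂ V₃ Vinf V0 m u cu Au tinf t0 du Bu sinf s0 →
    cp57_TwistData π q m al be V₁ V₂ V₃ u tinf t0 sinf s0 θ →
    ∀ n : Ideal B, n.IsMaximal → algebraMap R B π ∈ n → ¬ cp57_OneBr π B V₁ V₂ V₃ n →
      cp57_LDAt π m B V₁ V₂ V₃ n (cp57_u2 q m u θ)

/-- **(HP) from (HP-T), (HP-1), (HP-3)** on both charts. -/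
theorem cp57_HP_of (π : R) (q m : ℕ) (h : F2) (al be : F1 →+* F2) (Nal Nbe : F2 →* F1)
    (V₁ V₂ V₃ : ValuationSubring F2) (Vinf V0 : ValuationSubring F1)
    (hT : cp57_HPT (K := K) π q m al be Nal Nbe V₁ V₂ V₃ Vinf V0)
    (h1 : cp57_HP1 (K := K) π q m (pk15_chart R ({h} : Set F2)) al be Nal Nbe V₁ V₂ V₃ Vinf V0)
    (h1' : cp57_HP1 (K := K) π q m (pk15_chart R ({h⁻¹} : Set F2)) al be Nal Nbe V₁ V₂ V₃
      Vinf V0)
    (h3 : cp57_HP3 (K := K) π q m (pk15_chart R ({h} : Set F2)) al be Nal Nbe V₁ V₂ V₃ Vinf V0)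
    (h3' : cp57_HP3 (K := K) π q m (pk15_chart R ({h⁻¹} : Set F2)) al be Nal Nbe V₁ V₂ V₃
      Vinf V0) :
    ci57x_HP (K := K) π q m h Nal Nbe V₁ V₂ V₃ Vinf V0 := by
  classical
  intro u cu Au tinf t0 du Bu sinf s0 hu0 hOrd hFin hdata
  obtain ⟨θ, hθ⟩ := hT u cu Au tinf t0 du Bu sinf s0 hu0 hdata
  have hθ' := hθ
  obtain ⟨hθ0, -, -, -, -, hu1, hu2, hu3⟩ := hθ'
  refine ⟨θ, hθ0, hu1, hu2, hu3, ?_, ?_⟩
  · intro n hn hπn
    by_cases hone : cp57_OneBr π (pk15_chart R ({h} : Set F2)) V₁ V₂ V₃ n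
    · exact h1 u cu Au tinf t0 du Bu sinf s0 θ hu0 hOrd hFin hdata hθ n hn hπn hone
    · exact h3 u cu Au tinf t0 du Bu sinf s0 θ hu0 hOrd hFin hdata hθ n hn hπn hone
  · intro n hn hπn
    by_cases hone : cp57_OneBr π (pk15_chart R ({h⁻¹} : Set F2)) V₁ V₂ V₃ n
    · exact h1' u cu Au tinf t0 du Bu sinf s0 θ hu0 hOrd hFin hdata hθ n hn hπn hone
    · exact h3' u cu Au tinf t0 du Bu sinf s0 θ hu0 hOrd hFin hdata hθ n hn hπn hone

end Defs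

end Fermat.Agent.S36
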