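import Fermat.Agent.S36.AtkinLehnerSq86
import Fermat.Agent.S35.NormCong97

/-!
# S36 lab (helper86): the norm along `β₂ : F(Nℓ) → F(Nℓ²)` and the two "inert" norm congruences

`ℓ` prime, `ℓ ∤ N`; `F₁ = F(Nℓ)_L`, `F₂ = F(Nℓ²)_L`, `α₂ = al97L_alpha L (N * ℓ) ℓ`,
`β₂ = al97L_beta L (N * ℓ) ℓ`, `w₂ = als86_w2` the Atkin–Lehner involution of `F₂`.

* `nsb86_norm_beta_prod` : `(Nm_{β₂} y)^φ(q^ℓ) = ∏_{b<ℓ} y^φ(ζ^b q)` in `ℚ̄((q))`
  (the `ℓ` embeddings of `F₂` over `β₂ F₁` are the twists of the `q`-expansion at `∞`);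

on the canonical frame (`R` a DVR with fraction field `K ⊆ ℚ̄`, residue characteristic `q`,
level `M' q²`, `V₁ = cm85_Vinf (M' * q * q) hπ`, `V₃ = nsb86_V3 = V₁.comap w₂`):

* `nsb86_beta_cong_nonunits`  : `β₂ (Nm_{β₂} y) - y ^ q ∈ 𝔪_{V₁}` for `y ∈ V₁`;
* `nsb86_beta_cong`           : `π⁻¹ (β₂ (Nm_{β₂} y) - y ^ q) ∈ V₁`
  (i.e. `V(red_∞'(N_β y)) = red₁(y)^q`: only `V₁` lies over `V_∞'` along `β₂`);
* `nsb86_alpha_cong_nonunits` : `α₂ (Nm_{α₂} y) - y ^ q ∈ 𝔪_{V₃}` for `y ∈ V₃`;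
* `nsb86_alpha_cong`          : `w₂ (π⁻¹ (α₂ (Nm_{α₂} y) - y ^ q)) ∈ V₁`
  (i.e. `V(red_0'(N_α y)) = red₃(y)^q`: only `V₃` lies over `V_0'` along `α₂`).

No Frobenius lift, no modular polynomial.  All names are prefixed `nsb86_`.
-/

set_option autoImplicit false
set_option linter.style.haveILetI false
set_option linter.unusedSectionVars false

open ModularCurve AlgebraicCurve IntermediateField
open Fermat.Agent.S24 Fermat.Agent.S28 Fermat.Agent.S18 Fermat.Agent.S37 Fermat.Agent.S34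
open Fermat.Agent.S42 Fermat.Agent.S35

namespace Fermat.Agent.S36

section nsb86_prod

variable {L : Type} [Field L] (φ : L →+* Kbar)
variable (N ℓ : ℕ) [NeZero N] [NeZero ℓ] (hℓ : ℓ.Prime) (hN : ¬ ℓ ∣ N)

include hℓ hN in
/-- **The norm along `β₂` as a product of `q`-expansions**:
`(Nm_{β₂} y)^φ(q^ℓ) = ∏_{b<ℓ} y^φ(ζ^b q)`. -/
theorem nsb86_norm_beta_prod (hL : ((N * ℓ * ℓ : ℕ) : L) ≠ 0) (ζ : Kbarˣ)
    (hζ : IsPrimitiveRoot ζ ℓ) (y : ↥(modularFunctionFieldFullC L (N * ℓ * ℓ))) :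
    letI := algebraAlong (al97L_beta L (N * ℓ) ℓ)
    qExpand Kbar ℓ (coeffMap φ ((Algebra.norm ↥(modularFunctionFieldFullC L (N * ℓ)) y :
        ↥(modularFunctionFieldFullC L (N * ℓ))) : LaurentSeries L)) =
      ∏ b : Fin ℓ, twist (ζ ^ (b : ℕ)) (coeffMap φ (y : LaurentSeries L)) := by
  letI := algebraAlong (al97L_beta L (N * ℓ) ℓ)
  have hfr := als86_finrank_beta φ N ℓ hℓ hN hL
  haveI : FiniteDimensional ↥(modularFunctionFieldFullC L (N * ℓ))
      ↥(modularFunctionFieldFullC L (N * ℓ * ℓ)) :=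
    Module.finite_of_finrank_pos (by rw [hfr]; exact hℓ.pos)
  haveI : CharZero L := RingHom.charZero φ
  haveI : CharZero ↥(modularFunctionFieldFullC L (N * ℓ)) :=
    charZero_of_injective_algebraMap
      (algebraMap L ↥(modularFunctionFieldFullC L (N * ℓ))).injective
  haveI : Algebra.IsSeparable ↥(modularFunctionFieldFullC L (N * ℓ))
      ↥(modularFunctionFieldFullC L (N * ℓ * ℓ)) :=
    Algebra.IsAlgebraic.isSeparable_of_perfectField
  let val : ↥(modularFunctionFieldFullC L (N * ℓ * ℓ)) →+* LaurentSeries Kbar :=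
    (coeffMap φ).comp (modularFunctionFieldFullC L (N * ℓ * ℓ)).val.toRingHom
  let ι : ↥(modularFunctionFieldFullC L (N * ℓ)) →+* LaurentSeries Kbar :=
    (qExpand Kbar ℓ).comp ((coeffMap φ).comp (modularFunctionFieldFullC L (N * ℓ)).val.toRingHom)
  let σ : Fin ℓ → (↥(modularFunctionFieldFullC L (N * ℓ * ℓ)) →+* LaurentSeries Kbar) :=
    fun b => (twist (ζ ^ (b : ℕ))).comp val
  have hσ : ∀ i, (σ i).comp (algebraMap ↥(modularFunctionFieldFullC L (N * ℓ))
      ↥(modularFunctionFieldFullC L (N * ℓ * ℓ))) = ι := by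
    intro b
    ext1 x
    have hx : algebraMap ↥(modularFunctionFieldFullC L (N * ℓ))
        ↥(modularFunctionFieldFullC L (N * ℓ * ℓ)) x = al97L_beta L (N * ℓ) ℓ x := rfl
    rw [RingHom.comp_apply, hx]
    show twist (ζ ^ (b : ℕ)) (coeffMap φ ((al97L_beta L (N * ℓ) ℓ x :
      ↥(modularFunctionFieldFullC L (N * ℓ * ℓ))) : LaurentSeries L)) =
        qExpand Kbar ℓ (coeffMap φ (x : LaurentSeries L))
    rw [al97L_beta_coe, coeffMap_qExpand]
    exact twist_qExpand_of_pow_eq_one _ ℓ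
      (by rw [← pow_mul, mul_comm, pow_mul, hζ.pow_eq_one, one_pow]) _
  have hinj : Function.Injective σ := by
    let x0 : ↥(modularFunctionFieldFullC L (N * ℓ * ℓ)) :=
      ⟨qExpand L 1 (jqModC L), jqModCd_mem_full L (N * ℓ * ℓ) (one_dvd _)⟩
    have hsome : ∀ b : Fin ℓ, (σ b x0).coeff (-1) =
        (((ζ ^ (b : ℕ)) ^ (-1 : ℤ) : Kbarˣ) : Kbar) := by
      intro b
      show (twist (ζ ^ (b : ℕ)) (coeffMap φ (qExpand L 1 (jqModC L)))).coeff (-1) = _
      rw [al97L_coeffMap_gen φ 1, twist_coeff, kn97_JJ_one_coeff, mul_one]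
    intro a b hab
    have hc : (σ a x0).coeff (-1) = (σ b x0).coeff (-1) := by rw [hab]
    rw [hsome, hsome] at hc
    have h1 : (ζ ^ (a : ℕ)) ^ (-1 : ℤ) = (ζ ^ (b : ℕ)) ^ (-1 : ℤ) := Units.ext hc
    have h2 : ζ ^ (a : ℕ) = ζ ^ (b : ℕ) := by
      simpa using h1
    exact Fin.ext (hζ.pow_inj a.2 b.2 h2)
  have hn : Module.finrank ↥(modularFunctionFieldFullC L (N * ℓ))
      ↥(modularFunctionFieldFullC L (N * ℓ * ℓ)) = Fintype.card (Fin ℓ) := by
    rw [hfr, Fintype.card_fin]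
  exact kn97_norm_eq_prod ι σ hσ hinj hn y

end nsb86_prod

section nsb86_frame

variable {R K : Type} [CommRing R] [IsDomain R] [IsDiscreteValuationRing R] [Field K]
  [Algebra R K] [IsFractionRing R K] [Algebra K Kbar]
  (M' q : ℕ) [NeZero M'] [NeZero q] (hq : q.Prime) (hM' : ¬ q ∣ M')

/-- The level is invertible in `K ⊆ ℚ̄`. -/
theorem nsb86_hL (K : Type) [Field K] [Algebra K Kbar] (M : ℕ) [NeZero M] : ((M : ℕ) : K) ≠ 0 := by
  haveI : CharZero K := RingHom.charZero (algebraMap K Kbar)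
  exact Nat.cast_ne_zero.mpr (NeZero.ne M)

include hq hM' in
/-- **The norm congruence along `β₂` at `V₁`, as membership in the maximal ideal.**
For `y ∈ V₁ = cm85_Vinf (M' q²)`: `β₂ (Nm_{β₂} y) - y ^ q ∈ 𝔪_{V₁}`. -/
theorem nsb86_beta_cong_nonunits {π : R} (hπ : Irreducible π) (hqR : ¬ IsUnit (q : R))
    (y : ↥(modularFunctionFieldFullC K (M' * q * q)))
    (hy : y ∈ cm85_Vinf (K := K) (M' * q * q) hπ) :
    letI := algebraAlong (al97L_beta K (M' * q) q)
    al97L_beta K (M' * q) q (Algebra.norm ↥(modularFunctionFieldFullC K (M' * q)) y) - y ^ q ∈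
      (cm85_Vinf (K := K) (M' * q * q) hπ).nonunits := by
  letI := algebraAlong (al97L_beta K (M' * q) q)
  have hL : ((M' * q * q : ℕ) : K) ≠ 0 := nsb86_hL K (M' * q * q)
  obtain ⟨B, _, j, ι, k, _, _, ρ, ζB, hj, hjι, hρι, hζ, hρζ⟩ :=
    ng97_exists_red (R := R) (K := K) q hq hqR
  have hnorm := nsb86_norm_beta_prod (algebraMap K Kbar) M' q hq hM' hL _ hζ y
  set φ : K →+* Kbar := algebraMap K Kbar with hφ
  set ζ : Kbarˣ := Units.map (j : B →* Kbar) ζB with hζdef
  set Ny : ↥(modularFunctionFieldFullC K (M' * q)) :=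
    Algebra.norm ↥(modularFunctionFieldFullC K (M' * q)) y with hNy
  set D : ↥(modularFunctionFieldFullC K (M' * q * q)) :=
    al97L_beta K (M' * q) q Ny - y ^ q with hD
  have hDcoe : (D : LaurentSeries K) = qExpand K q (Ny : LaurentSeries K) -
      (y : LaurentSeries K) ^ q := by
    rw [← al97L_beta_coe K (M' * q) q Ny]
    rfl
  by_contra hcon
  have hD0 : D ≠ 0 := fun h0 => hcon (by
    rw [h0, ValuationSubring.mem_nonunits_iff, map_zero]
    exact zero_lt_one)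
  have hDinv : D⁻¹ ∈ cm85_Vinf (K := K) (M' * q * q) hπ := by
    rw [← ValuationSubring.valuation_le_one_iff, map_inv₀]
    have h1 : ¬ (cm85_Vinf (K := K) (M' * q * q) hπ).valuation D < 1 := fun h =>
      hcon ((ValuationSubring.mem_nonunits_iff _).mpr h)
    exact inv_le_one_of_one_le₀ (not_lt.mp h1)
  obtain ⟨s, t, hs, hst⟩ := hDinv
  obtain ⟨s1, t1, hs1, hst1⟩ := hy
  -- `s = t * D`
  have hsD : coeffMap (algebraMap R K) s = coeffMap (algebraMap R K) t * (D : LaurentSeries K) := by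
    have h1 : ((D⁻¹ : ↥(modularFunctionFieldFullC K (M' * q * q))) : LaurentSeries K) *
        (D : LaurentSeries K) = 1 := by
      have h2 := congrArg (fun x : ↥(modularFunctionFieldFullC K (M' * q * q)) =>
        (x : LaurentSeries K)) (inv_mul_cancel₀ hD0)
      exact h2
    rw [← hst, mul_assoc, h1, mul_one]
  -- transfer to `ℚ̄((Q))`
  let T : LaurentSeries K →+* LaurentSeries Kbar := coeffMap φ
  have hcomp : j.comp ι = φ.comp (algebraMap R K) := RingHom.ext hjι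
  have hT : ∀ x : LaurentSeries R, T (coeffMap (algebraMap R K) x) =
      coeffMap j (coeffMap ι x) := by
    intro x
    show coeffMap φ (coeffMap (algebraMap R K) x) = _
    rw [coeffMap_coeffMap, coeffMap_coeffMap, hcomp]
  have htw : ∀ (b : ℕ) (x : LaurentSeries R),
      twist (ζ ^ b) (coeffMap φ (coeffMap (algebraMap R K) x)) =
        coeffMap j (twist (ζB ^ b) (coeffMap ι x)) := by
    intro b x
    rw [coeffMap_twist, map_pow, coeffMap_coeffMap, coeffMap_coeffMap, hcomp]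
  have e1 : T (coeffMap (algebraMap R K) s1) * T (y : LaurentSeries K) =
      T (coeffMap (algebraMap R K) t1) := by rw [← map_mul, hst1]
  have e2 : (∏ b : Fin q, twist (ζ ^ (b : ℕ)) (coeffMap φ (coeffMap (algebraMap R K) s1))) *
      (∏ b : Fin q, twist (ζ ^ (b : ℕ)) (coeffMap φ (y : LaurentSeries K))) =
      ∏ b : Fin q, twist (ζ ^ (b : ℕ)) (coeffMap φ (coeffMap (algebraMap R K) t1)) := by
    rw [← Finset.prod_mul_distrib]
    refine Finset.prod_congr rfl fun b _ => ?_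
    rw [← map_mul, ← map_mul, hst1]
  have e4 : T (qExpand K q (Ny : LaurentSeries K)) =
      ∏ b : Fin q, twist (ζ ^ (b : ℕ)) (coeffMap φ (y : LaurentSeries K)) := by
    show coeffMap φ (qExpand K q (Ny : LaurentSeries K)) = _
    rw [coeffMap_qExpand]
    exact hnorm
  have e5 : T (D : LaurentSeries K) = T (qExpand K q (Ny : LaurentSeries K)) -
      T (y : LaurentSeries K) ^ q := by
    rw [hDcoe, map_sub, map_pow]
  have e6 : T (coeffMap (algebraMap R K) s) =
      T (coeffMap (algebraMap R K) t) * T (D : LaurentSeries K) := by rw [hsD, map_mul]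
  have key : T (coeffMap (algebraMap R K) s) *
      ((∏ b : Fin q, twist (ζ ^ (b : ℕ)) (coeffMap φ (coeffMap (algebraMap R K) s1))) *
        T (coeffMap (algebraMap R K) s1) ^ q) =
      T (coeffMap (algebraMap R K) t) *
      ((∏ b : Fin q, twist (ζ ^ (b : ℕ)) (coeffMap φ (coeffMap (algebraMap R K) t1))) *
        T (coeffMap (algebraMap R K) s1) ^ q -
       (∏ b : Fin q, twist (ζ ^ (b : ℕ)) (coeffMap φ (coeffMap (algebraMap R K) s1))) *
        T (coeffMap (algebraMap R K) t1) ^ q) := by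
    rw [e6, e5, e4, ← e2, ← e1]
    ring
  -- over `B`
  have keyB : coeffMap ι s *
      ((∏ b : Fin q, twist (ζB ^ (b : ℕ)) (coeffMap ι s1)) * coeffMap ι s1 ^ q) =
      coeffMap ι t *
      ((∏ b : Fin q, twist (ζB ^ (b : ℕ)) (coeffMap ι t1)) * coeffMap ι s1 ^ q -
       (∏ b : Fin q, twist (ζB ^ (b : ℕ)) (coeffMap ι s1)) * coeffMap ι t1 ^ q) := by
    apply kn97_coeffMap_injective j hj
    simp only [map_mul, map_sub, map_prod, map_pow, ← hT, ← htw]
    exact key
  -- reduce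
  set r : R →+* k := ρ.comp ι with hr
  have hprod : ∀ x : LaurentSeries R,
      coeffMap ρ (∏ b : Fin q, twist (ζB ^ (b : ℕ)) (coeffMap ι x)) = coeffMap r x ^ q := by
    intro x
    rw [map_prod]
    have h4 : ∀ b ∈ (Finset.univ : Finset (Fin q)),
        coeffMap ρ (twist (ζB ^ (b : ℕ)) (coeffMap ι x)) = coeffMap r x := by
      intro b _
      rw [coeffMap_twist, map_pow, hρζ, one_pow, twist_one, coeffMap_coeffMap]
    rw [Finset.prod_congr rfl h4, Finset.prod_const, Finset.card_univ, Fintype.card_fin]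
  have hιr : ∀ x : LaurentSeries R, coeffMap ρ (coeffMap ι x) = coeffMap r x := by
    intro x
    rw [coeffMap_coeffMap]
  have hne : ∀ x : LaurentSeries R, coeffMap (IsLocalRing.residue R) x ≠ 0 →
      coeffMap r x ≠ 0 := by
    intro x hx h0
    apply hx
    ext n
    have h1 := congrArg (fun z : LaurentSeries k => z.coeff n) h0
    simp only [coeffMap_coeff, HahnSeries.coeff_zero] at h1
    rw [coeffMap_coeff, HahnSeries.coeff_zero, IsLocalRing.residue_eq_zero_iff]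
    exact (hρι _).mp h1
  have hred := congrArg (coeffMap ρ) keyB
  simp only [map_mul, map_sub, map_pow, hprod, hιr] at hred
  rw [mul_comm (coeffMap r t1 ^ q) (coeffMap r s1 ^ q), sub_self, mul_zero] at hred
  have hs1ne : coeffMap r s1 ^ q ≠ 0 := pow_ne_zero q (hne s1 hs1)
  exact mul_ne_zero (hne s hs) (mul_ne_zero hs1ne hs1ne) hred

include hq hM' in
/-- **The norm congruence along `β₂` at `V₁`**: `β₂ (Nm_{β₂} y) ≡ y ^ q` modulo `π V₁` for
`y ∈ V₁`. -/
theorem nsb86_beta_cong {π : R} (hπ : Irreducible π) (hqR : ¬ IsUnit (q : R))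
    (y : ↥(modularFunctionFieldFullC K (M' * q * q)))
    (hy : y ∈ cm85_Vinf (K := K) (M' * q * q) hπ) :
    letI := algebraAlong (al97L_beta K (M' * q) q)
    (algebraMap K ↥(modularFunctionFieldFullC K (M' * q * q)) (algebraMap R K π))⁻¹ *
      (al97L_beta K (M' * q) q (Algebra.norm ↥(modularFunctionFieldFullC K (M' * q)) y) -
        y ^ q) ∈ cm85_Vinf (K := K) (M' * q * q) hπ :=
  fi66_pi_inv_mul_mem (IsLocalRing.residue R) π (pk85_res_iff hπ) hπ.ne_zero _
    (pk85_HF K (M' * q * q) hπ) _ (nsb86_beta_cong_nonunits M' q hq hM' hπ hqR y hy)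

/-- The third Gauss ring `V₃ = w₂^* V₁` of `F_K(M' q²)` (the cusp `0`). -/
noncomputable def nsb86_V3 {π : R} (hπ : Irreducible π) :
    ValuationSubring ↥(modularFunctionFieldFullC K (M' * q * q)) :=
  (cm85_Vinf (M' * q * q) hπ).comap
    ((als86_w2 (algebraMap K Kbar) M' q hq hM' (nsb86_hL K (M' * q * q)) :
      ↥(modularFunctionFieldFullC K (M' * q * q)) ≃ₐ[K]
        ↥(modularFunctionFieldFullC K (M' * q * q))) :
      ↥(modularFunctionFieldFullC K (M' * q * q)) →+*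
        ↥(modularFunctionFieldFullC K (M' * q * q)))

theorem nsb86_mem_V3 {π : R} (hπ : Irreducible π)
    (x : ↥(modularFunctionFieldFullC K (M' * q * q))) :
    x ∈ nsb86_V3 M' q hq hM' hπ ↔
      als86_w2 (algebraMap K Kbar) M' q hq hM' (nsb86_hL K (M' * q * q)) x ∈
        cm85_Vinf (K := K) (M' * q * q) hπ :=
  Iff.rfl

/-- `x ∈ 𝔪_{V₃} ↔ w₂ x ∈ 𝔪_{V₁}`. -/
theorem nsb86_mem_V3_nonunits {π : R} (hπ : Irreducible π)
    (x : ↥(modularFunctionFieldFullC K (M' * q * q))) :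
    x ∈ (nsb86_V3 M' q hq hM' hπ).nonunits ↔
      als86_w2 (algebraMap K Kbar) M' q hq hM' (nsb86_hL K (M' * q * q)) x ∈
        (cm85_Vinf (K := K) (M' * q * q) hπ).nonunits := by
  rw [ValuationSubring.mem_nonunits_iff_or, ValuationSubring.mem_nonunits_iff_or,
    nsb86_mem_V3, map_inv₀, map_eq_zero]

/-- **The norm congruence along `α₂` at `V₃`, as membership in the maximal ideal.**
For `y ∈ V₃`: `α₂ (Nm_{α₂} y) - y ^ q ∈ 𝔪_{V₃}`. -/
theorem nsb86_alpha_cong_nonunits {π : R} (hπ : Irreducible π) (hqR : ¬ IsUnit (q : R))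
    (y : ↥(modularFunctionFieldFullC K (M' * q * q)))
    (hy : y ∈ nsb86_V3 M' q hq hM' hπ) :
    letI := algebraAlong (al97L_alpha K (M' * q) q)
    al97L_alpha K (M' * q) q (Algebra.norm ↥(modularFunctionFieldFullC K (M' * q)) y) - y ^ q ∈
      (nsb86_V3 M' q hq hM' hπ).nonunits := by
  rw [nsb86_mem_V3_nonunits, map_sub, map_pow, als86_w2_alpha]
  have h1 := als86_norm_beta (algebraMap K Kbar) M' q hq hM' (nsb86_hL K (M' * q * q))
    (als86_w2 (algebraMap K Kbar) M' q hq hM' (nsb86_hL K (M' * q * q)) y)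
  rw [als86_w2_w2] at h1
  rw [← h1]
  exact nsb86_beta_cong_nonunits M' q hq hM' hπ hqR _ hy

/-- **The norm congruence along `α₂` at `V₃`**: `α₂ (Nm_{α₂} y) ≡ y ^ q` modulo `π V₃` for
`y ∈ V₃` (`π` is fixed by `w₂`). -/
theorem nsb86_alpha_cong {π : R} (hπ : Irreducible π) (hqR : ¬ IsUnit (q : R))
    (y : ↥(modularFunctionFieldFullC K (M' * q * q)))
    (hy : y ∈ nsb86_V3 M' q hq hM' hπ) :
    letI := algebraAlong (al97L_alpha K (M' * q) q)
    (algebraMap K ↥(modularFunctionFieldFullC K (M' * q * q)) (algebraMap R K π))⁻¹ *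
      (al97L_alpha K (M' * q) q (Algebra.norm ↥(modularFunctionFieldFullC K (M' * q)) y) -
        y ^ q) ∈ nsb86_V3 M' q hq hM' hπ := by
  letI := algebraAlong (al97L_alpha K (M' * q) q)
  have h := (nsb86_mem_V3_nonunits M' q hq hM' hπ _).mp
    (nsb86_alpha_cong_nonunits M' q hq hM' hπ hqR y hy)
  have h2 := fi66_pi_inv_mul_mem (IsLocalRing.residue R) π (pk85_res_iff hπ) hπ.ne_zero _
    (pk85_HF K (M' * q * q) hπ) _ h
  rw [nsb86_mem_V3, map_mul, map_inv₀, AlgEquiv.commutes]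
  exact h2

end nsb86_frame

end Fermat.Agent.S36
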