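import Fermat.Agent.S36.ConjEmb97

/-!
# S36 lab (helper86): the Atkin–Lehner involution `w_{ℓ²}` on `F(N ℓ²)_L`

`ℓ` prime, `ℓ ∤ N`, `L` a field with `φ : L →+* ℚ̄`.  `F₁ = F(Nℓ)_L`, `F₂ = F(Nℓ²)_L`,
`α₂ = al97L_alpha L (N * ℓ) ℓ`, `β₂ = al97L_beta L (N * ℓ) ℓ : F₁ → F₂`, `w = al97L_w φ N ℓ` the
Atkin–Lehner involution of `F₁`.  From `ce97_exists_hom` (helper97) with target `Ω = F₂` itself:

* `als86_exists`   : there is a ring endomorphism `W` of `F₂` with `W ∘ α₂ = β₂ ∘ w` and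
  `W ∘ β₂ = α₂ ∘ w`;
* `als86_w2`       : `F₂ ≃ₐ[L] F₂`, the involution `w_{ℓ²}`;
* `als86_w2_alpha` : `w₂ (α₂ x) = β₂ (w x)`;   `als86_w2_beta` : `w₂ (β₂ x) = α₂ (w x)`;
* `als86_w2_w2`    : `w₂ (w₂ y) = y`;
* `als86_finrank_beta` : `[F₂ : β₂ F₁] = ℓ`;
* `als86_norm_beta`  : `Nm_{β₂} y = w (Nm_{α₂} (w₂ y))`;
  `als86_norm_alpha` : `Nm_{α₂} y = w (Nm_{β₂} (w₂ y))`.

So the third Gauss valuation ring of level `N ℓ²` ("`V₃`", the cusp `0`) is `V₁.comap w₂`, and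
every statement along `β₂` is the `w₂`-transport of a statement along `α₂`.
All names are prefixed `als86_`.
-/

set_option autoImplicit false
set_option linter.style.haveILetI false
set_option linter.unusedSectionVars false

open ModularCurve AlgebraicCurve IntermediateField
open Fermat.Agent.S24 Fermat.Agent.S28 Fermat.Agent.S18 Fermat.Agent.S37 Fermat.Agent.S34
open Fermat.Agent.S42 Fermat.Agent.S35

namespace Fermat.Agent.S36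

section als86

variable {L : Type} [Field L] (φ : L →+* Kbar)
variable (N ℓ : ℕ) [NeZero N] [NeZero ℓ] (hℓ : ℓ.Prime) (hN : ¬ ℓ ∣ N)

/-- **Existence of `w_{ℓ²}`**: a ring endomorphism of `F(Nℓ²)_L` exchanging the two copies of
`F(Nℓ)_L` through the Atkin–Lehner involution of level `Nℓ`. -/
theorem als86_exists (hL : ((N * ℓ * ℓ : ℕ) : L) ≠ 0) :
    ∃ W : ↥(modularFunctionFieldFullC L (N * ℓ * ℓ)) →+*
        ↥(modularFunctionFieldFullC L (N * ℓ * ℓ)),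
      (∀ x, W (al97L_alpha L (N * ℓ) ℓ x) = al97L_beta L (N * ℓ) ℓ (al97L_w φ N ℓ hℓ hN x)) ∧
      (∀ x, W (al97L_beta L (N * ℓ) ℓ x) = al97L_alpha L (N * ℓ) ℓ (al97L_w φ N ℓ hℓ hN x)) := by
  let ι : ↥(modularFunctionFieldFullC L (N * ℓ)) →+* ↥(modularFunctionFieldFullC L (N * ℓ * ℓ)) :=
    (al97L_beta L (N * ℓ) ℓ).toRingHom.comp (al97L_w φ N ℓ hℓ hN).toAlgHom.toRingHom
  let τ : ↥(modularFunctionFieldFullC L (N * ℓ)) →+* ↥(modularFunctionFieldFullC L (N * ℓ * ℓ)) :=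
    (al97L_alpha L (N * ℓ) ℓ).toRingHom.comp (al97L_w φ N ℓ hℓ hN).toAlgHom.toRingHom
  have hιτ : ∀ e : ↥(modularFunctionFieldFullC L N),
      τ (al97L_alpha L N ℓ e) = ι (al97L_beta L N ℓ e) := by
    intro e
    show al97L_alpha L (N * ℓ) ℓ (al97L_w φ N ℓ hℓ hN (al97L_alpha L N ℓ e)) =
      al97L_beta L (N * ℓ) ℓ (al97L_w φ N ℓ hℓ hN (al97L_beta L N ℓ e))
    rw [al97L_w_alpha_apply, al97L_w_beta_apply, ce97_beta_alpha]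
  let x0 : ↥(modularFunctionFieldFullC L (N * ℓ)) :=
    ⟨qExpand L ℓ (jqModC L), jqModCd_mem_full L (N * ℓ) (dvd_mul_left ℓ N)⟩
  have hℓ2 : ¬ ((ℓ : ℤ) ∣ (-1 : ℤ)) := by
    intro hd
    have h1 : (ℓ : ℤ) ∣ 1 := (dvd_neg).mp hd
    have h2 : ℓ ∣ 1 := by exact_mod_cast h1
    exact hℓ.one_lt.ne' (Nat.dvd_one.mp h2)
  have hy₁ : τ x0 ≠ ι (al97L_w φ N ℓ hℓ hN x0) := by
    intro h
    have h' : al97L_alpha L (N * ℓ) ℓ (al97L_w φ N ℓ hℓ hN x0) =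
        al97L_beta L (N * ℓ) ℓ (al97L_w φ N ℓ hℓ hN (al97L_w φ N ℓ hℓ hN x0)) := h
    rw [al97L_w_w] at h'
    have h1 := congrArg (fun z : ↥(modularFunctionFieldFullC L (N * ℓ * ℓ)) =>
      (coeffMap φ (z : LaurentSeries L)).coeff (-1)) h'
    rw [al97L_alpha_coe, al97L_beta_coe, ce97_w_x0 φ N ℓ hℓ hN, kn97_JJ_one_coeff,
      coeffMap_qExpand, qExpand_coeff_of_not_dvd ℓ _ hℓ2] at h1
    exact one_ne_zero h1
  exact ce97_exists_hom φ N ℓ hℓ hN hL ι τ hιτ x0 hy₁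

/-- The endomorphism `w_{ℓ²}` (a choice; it is unique by `ce97_gen`). -/
noncomputable def als86_w2Hom (hL : ((N * ℓ * ℓ : ℕ) : L) ≠ 0) :
    ↥(modularFunctionFieldFullC L (N * ℓ * ℓ)) →+* ↥(modularFunctionFieldFullC L (N * ℓ * ℓ)) :=
  Classical.choose (als86_exists φ N ℓ hℓ hN hL)

theorem als86_w2Hom_alpha (hL : ((N * ℓ * ℓ : ℕ) : L) ≠ 0)
    (x : ↥(modularFunctionFieldFullC L (N * ℓ))) :
    als86_w2Hom φ N ℓ hℓ hN hL (al97L_alpha L (N * ℓ) ℓ x) =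
      al97L_beta L (N * ℓ) ℓ (al97L_w φ N ℓ hℓ hN x) :=
  (Classical.choose_spec (als86_exists φ N ℓ hℓ hN hL)).1 x

theorem als86_w2Hom_beta (hL : ((N * ℓ * ℓ : ℕ) : L) ≠ 0)
    (x : ↥(modularFunctionFieldFullC L (N * ℓ))) :
    als86_w2Hom φ N ℓ hℓ hN hL (al97L_beta L (N * ℓ) ℓ x) =
      al97L_alpha L (N * ℓ) ℓ (al97L_w φ N ℓ hℓ hN x) :=
  (Classical.choose_spec (als86_exists φ N ℓ hℓ hN hL)).2 x

include hℓ in
/-- Two ring homs out of `F(Nℓ²)_L` agreeing on `α₂ F(Nℓ)` and on `β₂ F(Nℓ)` are equal. -/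
theorem als86_hom_ext {Ω : Type*} [DivisionRing Ω]
    (f g : ↥(modularFunctionFieldFullC L (N * ℓ * ℓ)) →+* Ω)
    (hα : ∀ x, f (al97L_alpha L (N * ℓ) ℓ x) = g (al97L_alpha L (N * ℓ) ℓ x))
    (hβ : ∀ x, f (al97L_beta L (N * ℓ) ℓ x) = g (al97L_beta L (N * ℓ) ℓ x))
    (y : ↥(modularFunctionFieldFullC L (N * ℓ * ℓ))) : f y = g y := by
  have h := ce97_gen L N ℓ hℓ (RingHom.eqLocusField f g) hα hβ
  have hy : y ∈ RingHom.eqLocusField f g := by rw [h]; exact Subfield.mem_top y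
  exact hy

/-- `w_{ℓ²}` is an involution. -/
theorem als86_w2Hom_w2Hom (hL : ((N * ℓ * ℓ : ℕ) : L) ≠ 0)
    (y : ↥(modularFunctionFieldFullC L (N * ℓ * ℓ))) :
    als86_w2Hom φ N ℓ hℓ hN hL (als86_w2Hom φ N ℓ hℓ hN hL y) = y := by
  refine als86_hom_ext N ℓ hℓ
    ((als86_w2Hom φ N ℓ hℓ hN hL).comp (als86_w2Hom φ N ℓ hℓ hN hL)) (RingHom.id _) ?_ ?_ y
  · intro x
    show als86_w2Hom φ N ℓ hℓ hN hL (als86_w2Hom φ N ℓ hℓ hN hL (al97L_alpha L (N * ℓ) ℓ x)) =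
      al97L_alpha L (N * ℓ) ℓ x
    rw [als86_w2Hom_alpha, als86_w2Hom_beta, al97L_w_w]
  · intro x
    show als86_w2Hom φ N ℓ hℓ hN hL (als86_w2Hom φ N ℓ hℓ hN hL (al97L_beta L (N * ℓ) ℓ x)) =
      al97L_beta L (N * ℓ) ℓ x
    rw [als86_w2Hom_beta, als86_w2Hom_alpha, al97L_w_w]

theorem als86_w2Hom_algebraMap (hL : ((N * ℓ * ℓ : ℕ) : L) ≠ 0) (c : L) :
    als86_w2Hom φ N ℓ hℓ hN hL (algebraMap L ↥(modularFunctionFieldFullC L (N * ℓ * ℓ)) c) =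
      algebraMap L ↥(modularFunctionFieldFullC L (N * ℓ * ℓ)) c := by
  have h1 : algebraMap L ↥(modularFunctionFieldFullC L (N * ℓ * ℓ)) c =
      al97L_alpha L (N * ℓ) ℓ (algebraMap L ↥(modularFunctionFieldFullC L (N * ℓ)) c) :=
    ((al97L_alpha L (N * ℓ) ℓ).commutes c).symm
  rw [h1, als86_w2Hom_alpha, AlgEquiv.commutes, AlgHom.commutes, AlgHom.commutes]

/-- **The Atkin–Lehner involution `w_{ℓ²}` of `F(Nℓ²)_L`** (`ℓ` prime, `ℓ ∤ N`). -/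
noncomputable def als86_w2 (hL : ((N * ℓ * ℓ : ℕ) : L) ≠ 0) :
    ↥(modularFunctionFieldFullC L (N * ℓ * ℓ)) ≃ₐ[L] ↥(modularFunctionFieldFullC L (N * ℓ * ℓ)) :=
  { als86_w2Hom φ N ℓ hℓ hN hL with
    invFun := als86_w2Hom φ N ℓ hℓ hN hL
    left_inv := als86_w2Hom_w2Hom φ N ℓ hℓ hN hL
    right_inv := als86_w2Hom_w2Hom φ N ℓ hℓ hN hL
    commutes' := als86_w2Hom_algebraMap φ N ℓ hℓ hN hL }

theorem als86_w2_apply (hL : ((N * ℓ * ℓ : ℕ) : L) ≠ 0)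
    (y : ↥(modularFunctionFieldFullC L (N * ℓ * ℓ))) :
    als86_w2 φ N ℓ hℓ hN hL y = als86_w2Hom φ N ℓ hℓ hN hL y := rfl

/-- `w₂ ∘ α₂ = β₂ ∘ w`. -/
theorem als86_w2_alpha (hL : ((N * ℓ * ℓ : ℕ) : L) ≠ 0)
    (x : ↥(modularFunctionFieldFullC L (N * ℓ))) :
    als86_w2 φ N ℓ hℓ hN hL (al97L_alpha L (N * ℓ) ℓ x) =
      al97L_beta L (N * ℓ) ℓ (al97L_w φ N ℓ hℓ hN x) :=
  als86_w2Hom_alpha φ N ℓ hℓ hN hL x

/-- `w₂ ∘ β₂ = α₂ ∘ w`. -/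
theorem als86_w2_beta (hL : ((N * ℓ * ℓ : ℕ) : L) ≠ 0)
    (x : ↥(modularFunctionFieldFullC L (N * ℓ))) :
    als86_w2 φ N ℓ hℓ hN hL (al97L_beta L (N * ℓ) ℓ x) =
      al97L_alpha L (N * ℓ) ℓ (al97L_w φ N ℓ hℓ hN x) :=
  als86_w2Hom_beta φ N ℓ hℓ hN hL x

/-- `w₂` is an involution. -/
theorem als86_w2_w2 (hL : ((N * ℓ * ℓ : ℕ) : L) ≠ 0)
    (y : ↥(modularFunctionFieldFullC L (N * ℓ * ℓ))) :
    als86_w2 φ N ℓ hℓ hN hL (als86_w2 φ N ℓ hℓ hN hL y) = y :=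
  als86_w2Hom_w2Hom φ N ℓ hℓ hN hL y

theorem als86_w2_symm (hL : ((N * ℓ * ℓ : ℕ) : L) ≠ 0) :
    (als86_w2 φ N ℓ hℓ hN hL).symm = als86_w2 φ N ℓ hℓ hN hL := rfl

/-- The compatibility square `algebraMap_β ∘ w = w₂ ∘ algebraMap_α` as ring homs. -/
theorem als86_square (hL : ((N * ℓ * ℓ : ℕ) : L) ≠ 0) :
    RingHom.comp (@algebraMap ↥(modularFunctionFieldFullC L (N * ℓ))
        ↥(modularFunctionFieldFullC L (N * ℓ * ℓ)) _ _ (algebraAlong (al97L_beta L (N * ℓ) ℓ)))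
      (((al97L_w φ N ℓ hℓ hN).toRingEquiv : ↥(modularFunctionFieldFullC L (N * ℓ)) ≃+*
        ↥(modularFunctionFieldFullC L (N * ℓ))) : ↥(modularFunctionFieldFullC L (N * ℓ)) →+*
        ↥(modularFunctionFieldFullC L (N * ℓ))) =
    RingHom.comp (((als86_w2 φ N ℓ hℓ hN hL).toRingEquiv :
        ↥(modularFunctionFieldFullC L (N * ℓ * ℓ)) ≃+*
        ↥(modularFunctionFieldFullC L (N * ℓ * ℓ))) :
        ↥(modularFunctionFieldFullC L (N * ℓ * ℓ)) →+*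
        ↥(modularFunctionFieldFullC L (N * ℓ * ℓ)))
      (@algebraMap ↥(modularFunctionFieldFullC L (N * ℓ))
        ↥(modularFunctionFieldFullC L (N * ℓ * ℓ)) _ _ (algebraAlong (al97L_alpha L (N * ℓ) ℓ))) := by
  ext1 x
  show al97L_beta L (N * ℓ) ℓ (al97L_w φ N ℓ hℓ hN x) =
    als86_w2 φ N ℓ hℓ hN hL (al97L_alpha L (N * ℓ) ℓ x)
  rw [als86_w2_alpha]

include φ hℓ hN in
/-- `[F(Nℓ²)_L : β₂ F(Nℓ)_L] = ℓ`. -/
theorem als86_finrank_beta (hL : ((N * ℓ * ℓ : ℕ) : L) ≠ 0) :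
    letI := algebraAlong (al97L_beta L (N * ℓ) ℓ)
    Module.finrank ↥(modularFunctionFieldFullC L (N * ℓ))
      ↥(modularFunctionFieldFullC L (N * ℓ * ℓ)) = ℓ := by
  have h := @Algebra.finrank_eq_of_equiv_equiv ↥(modularFunctionFieldFullC L (N * ℓ))
    ↥(modularFunctionFieldFullC L (N * ℓ * ℓ)) _ _ (algebraAlong (al97L_alpha L (N * ℓ) ℓ))
    ↥(modularFunctionFieldFullC L (N * ℓ)) ↥(modularFunctionFieldFullC L (N * ℓ * ℓ)) _ _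
    (algebraAlong (al97L_beta L (N * ℓ) ℓ)) (al97L_w φ N ℓ hℓ hN).toRingEquiv
    (als86_w2 φ N ℓ hℓ hN hL).toRingEquiv (als86_square φ N ℓ hℓ hN hL)
  rw [← h]
  exact ce97_finrank_sq L N ℓ hℓ hN hL

/-- **`Nm_{α₂} y = w (Nm_{β₂} (w₂ y))`.** -/
theorem als86_norm_alpha (hL : ((N * ℓ * ℓ : ℕ) : L) ≠ 0)
    (y : ↥(modularFunctionFieldFullC L (N * ℓ * ℓ))) :
    (letI := algebraAlong (al97L_alpha L (N * ℓ) ℓ);
      Algebra.norm ↥(modularFunctionFieldFullC L (N * ℓ)) y) =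
    al97L_w φ N ℓ hℓ hN (letI := algebraAlong (al97L_beta L (N * ℓ) ℓ);
      Algebra.norm ↥(modularFunctionFieldFullC L (N * ℓ)) (als86_w2 φ N ℓ hℓ hN hL y)) := by
  have h := @Algebra.norm_eq_of_equiv_equiv ↥(modularFunctionFieldFullC L (N * ℓ))
    ↥(modularFunctionFieldFullC L (N * ℓ * ℓ)) ↥(modularFunctionFieldFullC L (N * ℓ))
    ↥(modularFunctionFieldFullC L (N * ℓ * ℓ)) _ _ _ _ (algebraAlong (al97L_alpha L (N * ℓ) ℓ))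
    (algebraAlong (al97L_beta L (N * ℓ) ℓ)) (al97L_w φ N ℓ hℓ hN).toRingEquiv
    (als86_w2 φ N ℓ hℓ hN hL).toRingEquiv (als86_square φ N ℓ hℓ hN hL) y
  exact h

/-- **`Nm_{β₂} y = w (Nm_{α₂} (w₂ y))`.** -/
theorem als86_norm_beta (hL : ((N * ℓ * ℓ : ℕ) : L) ≠ 0)
    (y : ↥(modularFunctionFieldFullC L (N * ℓ * ℓ))) :
    (letI := algebraAlong (al97L_beta L (N * ℓ) ℓ);
      Algebra.norm ↥(modularFunctionFieldFullC L (N * ℓ)) y) =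
    al97L_w φ N ℓ hℓ hN (letI := algebraAlong (al97L_alpha L (N * ℓ) ℓ);
      Algebra.norm ↥(modularFunctionFieldFullC L (N * ℓ)) (als86_w2 φ N ℓ hℓ hN hL y)) := by
  have h := als86_norm_alpha φ N ℓ hℓ hN hL (als86_w2 φ N ℓ hℓ hN hL y)
  rw [als86_w2_w2] at h
  rw [h, al97L_w_w]

end als86

end Fermat.Agent.S36
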