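import Fermat.Agent.S36.OnlyBindInert72
import Fermat.Agent.S36.AtkinLehnerSq86
import Fermat.Agent.S34.ResDeg90

/-!
# S36 lab, row B1-only3 (helper72): the three valuations of level `M' q²`, and "β by `w₂`"

Level `M' q q` (`q` prime, `q ∤ M'`), `F₀ = F(M')_K ⊆ F₁ = F(M' q)_K ⊆ F₂ = F(M' q q)_K`,
`α₁, β₁ : F₀ → F₁`, `α₂, β₂ : F₁ → F₂`, `w` the Atkin–Lehner involution of `F₁`,
`w₂ = als86_w2` that of `F₂` (helper86).  `V' = cm85_Vinf M'`, `V_∞ = cm85_Vinf (M' q)`,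
`V_0 = s34i47c_V0 M' q`, `V₁ = cm85_Vinf (M' q q)`.

* `V₃` is ANY valuation subring with `x ∈ V₃ ↔ w₂ x ∈ V₁` (`hV₃mem`; for the literal
  `V₁.comap w₂` this is `Iff.rfl`).  `o3x72_V3_over/_pi/_y/_frob` are the hypotheses of
  `obi72_inert` for `V₃` and `y = β₂ (β₁ J) = j(Q^(q²))`; `o3x72_inert` its conclusions.
* `V₂` is a PARAMETER with the four facts of row B1-V2 (`hV₂`, `hπ₂`, `hne`, `hs`).
* `o3x72_only_three` : every valuation subring of `F₂` over `α₂ α₁ V'` not containing `π⁻¹` is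
  `V₁`, `V₂` or `V₃`.
* `o3x72_beta_inf`  : the only valuation subring over `β₂ V_∞` is `V₁`.
* `o3x72_beta_zero` : the valuation subrings over `β₂ V_0` are `V₃` and `V₂.comap w₂`.
* `o3x72_V2_stable` : if moreover `β₂ β₁ V' ⊆ V₂`, then `x ∈ V₂ ↔ w₂ x ∈ V₂`.

All names are prefixed `o3x72_`.
-/

set_option autoImplicit false
set_option linter.unusedSectionVars false
set_option linter.style.haveILetI false

open ModularCurve IntermediateField Polynomial

namespace Fermat.Agent.S36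

open Fermat.Agent.S18 Fermat.Agent.S24 Fermat.Agent.S37 Fermat.Agent.S34

local notation "Q̄" => AlgebraicClosure ℚ

section o3x72

variable {R K : Type} [CommRing R] [IsDomain R] [IsDiscreteValuationRing R] [Field K] [CharZero K]
  [Algebra R K] [IsFractionRing R K] [Algebra K Q̄] (M' q : ℕ) [NeZero M'] [NeZero q]

/-- `α₂ V_0 ⊆ V₃`. -/
theorem o3x72_V3_over (hq : q.Prime) (hM' : ¬ q ∣ M') {π : R} (hπ : Irreducible π)
    (hL : ((M' * q * q : ℕ) : K) ≠ 0)
    (V₃ : ValuationSubring ↥(modularFunctionFieldFullC K (M' * q * q)))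
    (hV₃mem : ∀ x, x ∈ V₃ ↔
      als86_w2 (algebraMap K Q̄) M' q hq hM' hL x ∈ cm85_Vinf (K := K) (M' * q * q) hπ)
    (c : ↥(modularFunctionFieldFullC K (M' * q)))
    (hc : c ∈ s34i47c_V0 (K := K) M' q hq hM' hπ) : al97L_alpha K (M' * q) q c ∈ V₃ := by
  rw [hV₃mem, als86_w2_alpha]
  exact (al97V_beta_mem_Vinf (M' * q) q hπ _).mpr ((s34i47c_mem_V0 M' q hq hM' hπ c).1 hc)

/-- `π⁻¹ ∉ V₃`. -/
theorem o3x72_V3_pi (hq : q.Prime) (hM' : ¬ q ∣ M') {π : R} (hπ : Irreducible π)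
    (hL : ((M' * q * q : ℕ) : K) ≠ 0)
    (V₃ : ValuationSubring ↥(modularFunctionFieldFullC K (M' * q * q)))
    (hV₃mem : ∀ x, x ∈ V₃ ↔
      als86_w2 (algebraMap K Q̄) M' q hq hM' hL x ∈ cm85_Vinf (K := K) (M' * q * q) hπ) :
    (algebraMap K ↥(modularFunctionFieldFullC K (M' * q * q)) (algebraMap R K π))⁻¹ ∉ V₃ := by
  rw [hV₃mem, map_inv₀, AlgEquiv.commutes]
  exact gv85_pi_inv_not_mem (IsLocalRing.residue R) π (pk85_res_iff hπ) hπ.ne_zero _ _

/-- `y = β₂ (β₁ J) = j(Q^(q²)) ∈ V₃`. -/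
theorem o3x72_V3_y (hq : q.Prime) (hM' : ¬ q ∣ M') {π : R} (hπ : Irreducible π)
    (hL : ((M' * q * q : ℕ) : K) ≠ 0)
    (V₃ : ValuationSubring ↥(modularFunctionFieldFullC K (M' * q * q)))
    (hV₃mem : ∀ x, x ∈ V₃ ↔
      als86_w2 (algebraMap K Q̄) M' q hq hM' hL x ∈ cm85_Vinf (K := K) (M' * q * q) hπ) :
    al97L_beta K (M' * q) q (al97L_beta K M' q (relimc_J K M')) ∈ V₃ := by
  rw [hV₃mem, als86_w2_beta, al97L_w_beta_apply]
  have hJV' : relimc_J K M' ∈ cm85_Vinf (K := K) M' hπ :=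
    gv85_mem_V_of_integral _ _ _ _ (jqModC R) (by rw [relimc_J_coe, coeffMap_jqModC])
  exact (al97V_alpha_mem_Vinf (M' * q) q hπ _).mpr ((al97V_alpha_mem_Vinf M' q hπ _).mpr hJV')

/-- The Frobenius congruence at `V₃`: `j(Q^(q²)) ^ q ≡ j(Q^q)` modulo `π V₃`. -/
theorem o3x72_V3_frob (hq : q.Prime) (hM' : ¬ q ∣ M') {π : R} (hπ : Irreducible π)
    (hqR : ¬ IsUnit (q : R)) (hL : ((M' * q * q : ℕ) : K) ≠ 0)
    (V₃ : ValuationSubring ↥(modularFunctionFieldFullC K (M' * q * q)))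
    (hV₃mem : ∀ x, x ∈ V₃ ↔
      als86_w2 (algebraMap K Q̄) M' q hq hM' hL x ∈ cm85_Vinf (K := K) (M' * q * q) hπ) :
    (algebraMap K ↥(modularFunctionFieldFullC K (M' * q * q)) (algebraMap R K π))⁻¹ *
      (al97L_beta K (M' * q) q (al97L_beta K M' q (relimc_J K M')) ^ q -
        al97L_alpha K (M' * q) q (al97L_beta K M' q (relimc_J K M'))) ∈ V₃ := by
  rw [hV₃mem, map_mul, map_inv₀, AlgEquiv.commutes, map_sub, map_pow, als86_w2_beta,
    als86_w2_alpha, al97L_w_beta_apply]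
  have hJ : al97L_alpha K M' q (relimc_J K M') = relimc_J K (M' * q) := Subtype.ext rfl
  rw [hJ]
  have h2 := (cm85_Vinf (K := K) (M' * q * q) hπ).neg_mem _
    (fs85_frob (K := K) (M' * q) q hq hπ hqR)
  have h3 : (algebraMap K ↥(modularFunctionFieldFullC K (M' * q * q)) (algebraMap R K π))⁻¹ *
      (al97L_alpha K (M' * q) q (relimc_J K (M' * q)) ^ q -
        al97L_beta K (M' * q) q (relimc_J K (M' * q))) =
      -((algebraMap K ↥(modularFunctionFieldFullC K (M' * q * q)) (algebraMap R K π))⁻¹ *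
        (al97L_beta K (M' * q) q (relimc_J K (M' * q)) -
          al97L_alpha K (M' * q) q (relimc_J K (M' * q) ^ q))) := by
    rw [map_pow]; ring
  rw [h3]
  exact h2

/-- **The inert half for the literal `V₃`**: `V₃` is the only valuation subring of `F₂` over
`α₂ V_0`; it is integral over `V_0`; `π` is a uniformizer; the residue field is generated by
`j(Q^(q²))`. -/
theorem o3x72_inert (hq : q.Prime) (hM' : ¬ q ∣ M') {π : R} (hπ : Irreducible π)
    (hqR : ¬ IsUnit (q : R)) (hL : ((M' * q * q : ℕ) : K) ≠ 0)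
    (V₃ : ValuationSubring ↥(modularFunctionFieldFullC K (M' * q * q)))
    (hV₃mem : ∀ x, x ∈ V₃ ↔
      als86_w2 (algebraMap K Q̄) M' q hq hM' hL x ∈ cm85_Vinf (K := K) (M' * q * q) hπ) :
    (∀ V : ValuationSubring ↥(modularFunctionFieldFullC K (M' * q * q)),
      (∀ c ∈ s34i47c_V0 (K := K) M' q hq hM' hπ, al97L_alpha K (M' * q) q c ∈ V) →
      (algebraMap K ↥(modularFunctionFieldFullC K (M' * q * q)) (algebraMap R K π))⁻¹ ∉ V →
      V = V₃) ∧
    (∀ x ∈ V₃, ((al97L_alpha K (M' * q) q).toRingHom.comp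
        (s34i47c_V0 (K := K) M' q hq hM' hπ).subtype).IsIntegralElem x) ∧
    (∀ x ∈ V₃, x⁻¹ ∉ V₃ →
      (algebraMap K ↥(modularFunctionFieldFullC K (M' * q * q)) (algebraMap R K π))⁻¹ * x ∈ V₃) ∧
    (∀ x ∈ V₃, ∃ c : Fin q → ↥(modularFunctionFieldFullC K (M' * q)),
      (∀ i, c i ∈ s34i47c_V0 (K := K) M' q hq hM' hπ) ∧
      (algebraMap K ↥(modularFunctionFieldFullC K (M' * q * q)) (algebraMap R K π))⁻¹ *
        (x - ∑ i, al97L_alpha K (M' * q) q (c i) *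
          al97L_beta K (M' * q) q (al97L_beta K M' q (relimc_J K M')) ^ (i : ℕ)) ∈ V₃) :=
  obi72_inert (K := K) M' q hq hM' hπ V₃
    (o3x72_V3_over M' q hq hM' hπ hL V₃ hV₃mem)
    (o3x72_V3_pi M' q hq hM' hπ hL V₃ hV₃mem) _
    (o3x72_V3_y M' q hq hM' hπ hL V₃ hV₃mem)
    (o3x72_V3_frob M' q hq hM' hπ hqR hL V₃ hV₃mem)

/-- **Only three**: every valuation subring of `F(M' q q)` over the Gauss ring of level `M'`
(along `α₂ ∘ α₁`) not containing `π⁻¹` is `V₁`, `V₂` or `V₃`. -/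
theorem o3x72_only_three (hq : q.Prime) (hM' : ¬ q ∣ M') {π : R} (hπ : Irreducible π)
    (hqR : ¬ IsUnit (q : R)) (hL : ((M' * q * q : ℕ) : K) ≠ 0)
    (V₂ V₃ : ValuationSubring ↥(modularFunctionFieldFullC K (M' * q * q)))
    (hV₂ : ∀ c ∈ cm85_Vinf (K := K) (M' * q) hπ, al97L_alpha K (M' * q) q c ∈ V₂)
    (hπ₂ : (algebraMap K ↥(modularFunctionFieldFullC K (M' * q * q)) (algebraMap R K π))⁻¹ ∉ V₂)
    (hne : cm85_Vinf (K := K) (M' * q * q) hπ ≠ V₂)
    (s : ↥(modularFunctionFieldFullC K (M' * q * q)))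
    (hs : V₂.valuation s ^ (q - 1) =
      V₂.valuation (algebraMap K ↥(modularFunctionFieldFullC K (M' * q * q)) (algebraMap R K π)))
    (hV₃mem : ∀ x, x ∈ V₃ ↔
      als86_w2 (algebraMap K Q̄) M' q hq hM' hL x ∈ cm85_Vinf (K := K) (M' * q * q) hπ)
    (V : ValuationSubring ↥(modularFunctionFieldFullC K (M' * q * q)))
    (hV : ∀ a ∈ cm85_Vinf (K := K) M' hπ,
      al97L_alpha K (M' * q) q (al97L_alpha K M' q a) ∈ V)
    (hπV : (algebraMap K ↥(modularFunctionFieldFullC K (M' * q * q)) (algebraMap R K π))⁻¹ ∉ V) :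
    V = cm85_Vinf (K := K) (M' * q * q) hπ ∨ V = V₂ ∨ V = V₃ := by
  letI a0 : Algebra R ↥(modularFunctionFieldFullC K M') :=
    ((algebraMap K ↥(modularFunctionFieldFullC K M')).comp (algebraMap R K)).toAlgebra
  haveI t0 : IsScalarTower R K ↥(modularFunctionFieldFullC K M') :=
    IsScalarTower.of_algebraMap_eq (fun _ => rfl)
  letI a1 : Algebra R ↥(modularFunctionFieldFullC K (M' * q)) :=
    ((algebraMap K ↥(modularFunctionFieldFullC K (M' * q))).comp (algebraMap R K)).toAlgebra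
  haveI t1 : IsScalarTower R K ↥(modularFunctionFieldFullC K (M' * q)) :=
    IsScalarTower.of_algebraMap_eq (fun _ => rfl)
  -- the restriction of `V` to `F₁`
  let V' : ValuationSubring ↥(modularFunctionFieldFullC K (M' * q)) :=
    V.comap (al97L_alpha K (M' * q) q : ↥(modularFunctionFieldFullC K (M' * q)) →+*
      ↥(modularFunctionFieldFullC K (M' * q * q)))
  have hV'mem : ∀ c, c ∈ V' ↔ al97L_alpha K (M' * q) q c ∈ V := fun c => Iff.rfl
  have h1 : ∀ a ∈ cm85_Vinf (K := K) M' hπ, al97L_alpha K M' q a ∈ V' := fun a ha =>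
    (hV'mem _).2 (hV a ha)
  have h2 : (algebraMap R ↥(modularFunctionFieldFullC K (M' * q)) π)⁻¹ ∉ V' := by
    rw [hV'mem, map_inv₀]
    have e : al97L_alpha K (M' * q) q (algebraMap R ↥(modularFunctionFieldFullC K (M' * q)) π) =
        algebraMap K ↥(modularFunctionFieldFullC K (M' * q * q)) (algebraMap R K π) :=
      (al97L_alpha K (M' * q) q).commutes _
    rw [e]
    exact hπV
  rcases rd90_only (K := K) M' q hq hM' hπ hqR V' h1 h2 with h | h
  · have hover : ∀ c ∈ cm85_Vinf (K := K) (M' * q) hπ, al97L_alpha K (M' * q) q c ∈ V := by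
      intro c hc
      rw [← hV'mem, h]
      exact hc
    rcases (ob72_ram (K := K) (M' * q) q hq (dvd_mul_left q M') hπ V₂ hV₂ hπ₂ hne s hs).1 V
      hover hπV with h3 | h3
    · exact Or.inl h3
    · exact Or.inr (Or.inl h3)
  · have hover : ∀ c ∈ s34i47c_V0 (K := K) M' q hq hM' hπ, al97L_alpha K (M' * q) q c ∈ V := by
      intro c hc
      rw [← hV'mem, h]
      exact hc
    exact Or.inr (Or.inr ((o3x72_inert (K := K) M' q hq hM' hπ hqR hL V₃ hV₃mem).1 V hover hπV))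

/-- **β by `w₂`, ∞-side**: the only valuation subring of `F₂` over `β₂ V_∞` is `V₁`. -/
theorem o3x72_beta_inf (hq : q.Prime) (hM' : ¬ q ∣ M') {π : R} (hπ : Irreducible π)
    (hqR : ¬ IsUnit (q : R)) (hL : ((M' * q * q : ℕ) : K) ≠ 0)
    (V : ValuationSubring ↥(modularFunctionFieldFullC K (M' * q * q)))
    (hV : ∀ c ∈ cm85_Vinf (K := K) (M' * q) hπ, al97L_beta K (M' * q) q c ∈ V)
    (hπV : (algebraMap K ↥(modularFunctionFieldFullC K (M' * q * q)) (algebraMap R K π))⁻¹ ∉ V) :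
    V = cm85_Vinf (K := K) (M' * q * q) hπ := by
  -- `V₃ := V₁.comap w₂`, `Vw := V.comap w₂`
  let V₃ : ValuationSubring ↥(modularFunctionFieldFullC K (M' * q * q)) :=
    (cm85_Vinf (K := K) (M' * q * q) hπ).comap
      ((als86_w2 (algebraMap K Q̄) M' q hq hM' hL :
        ↥(modularFunctionFieldFullC K (M' * q * q)) ≃ₐ[K] _) :
        ↥(modularFunctionFieldFullC K (M' * q * q)) →+* _)
  have hV₃mem : ∀ x, x ∈ V₃ ↔
      als86_w2 (algebraMap K Q̄) M' q hq hM' hL x ∈ cm85_Vinf (K := K) (M' * q * q) hπ :=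
    fun x => Iff.rfl
  let Vw : ValuationSubring ↥(modularFunctionFieldFullC K (M' * q * q)) :=
    V.comap ((als86_w2 (algebraMap K Q̄) M' q hq hM' hL :
        ↥(modularFunctionFieldFullC K (M' * q * q)) ≃ₐ[K] _) :
        ↥(modularFunctionFieldFullC K (M' * q * q)) →+* _)
  have hVwmem : ∀ x, x ∈ Vw ↔ als86_w2 (algebraMap K Q̄) M' q hq hM' hL x ∈ V := fun x => Iff.rfl
  have h1 : ∀ c ∈ s34i47c_V0 (K := K) M' q hq hM' hπ, al97L_alpha K (M' * q) q c ∈ Vw := by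
    intro c hc
    rw [hVwmem, als86_w2_alpha]
    exact hV _ ((s34i47c_mem_V0 M' q hq hM' hπ c).1 hc)
  have h2 : (algebraMap K ↥(modularFunctionFieldFullC K (M' * q * q)) (algebraMap R K π))⁻¹ ∉
      Vw := by
    rw [hVwmem, map_inv₀, AlgEquiv.commutes]
    exact hπV
  have h3 := (o3x72_inert (K := K) M' q hq hM' hπ hqR hL V₃ hV₃mem).1 Vw h1 h2
  ext x
  have e : x = als86_w2 (algebraMap K Q̄) M' q hq hM' hL
      (als86_w2 (algebraMap K Q̄) M' q hq hM' hL x) := (als86_w2_w2 _ M' q hq hM' hL x).symm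
  constructor
  · intro hx
    rw [e] at hx
    have h4 : als86_w2 (algebraMap K Q̄) M' q hq hM' hL x ∈ Vw := (hVwmem _).2 hx
    rw [h3, hV₃mem, als86_w2_w2] at h4
    exact h4
  · intro hx
    rw [e] at hx
    have h4 : als86_w2 (algebraMap K Q̄) M' q hq hM' hL x ∈ V₃ := (hV₃mem _).2 hx
    rw [← h3, hVwmem, als86_w2_w2] at h4
    exact h4

/-- **β by `w₂`, 0-side**: a valuation subring of `F₂` over `β₂ V_0` is `V₃` or `V₂.comap w₂`
(membership form). -/
theorem o3x72_beta_zero (hq : q.Prime) (hM' : ¬ q ∣ M') {π : R} (hπ : Irreducible π)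
    (hL : ((M' * q * q : ℕ) : K) ≠ 0)
    (V₂ : ValuationSubring ↥(modularFunctionFieldFullC K (M' * q * q)))
    (hV₂ : ∀ c ∈ cm85_Vinf (K := K) (M' * q) hπ, al97L_alpha K (M' * q) q c ∈ V₂)
    (hπ₂ : (algebraMap K ↥(modularFunctionFieldFullC K (M' * q * q)) (algebraMap R K π))⁻¹ ∉ V₂)
    (hne : cm85_Vinf (K := K) (M' * q * q) hπ ≠ V₂)
    (s : ↥(modularFunctionFieldFullC K (M' * q * q)))
    (hs : V₂.valuation s ^ (q - 1) =
      V₂.valuation (algebraMap K ↥(modularFunctionFieldFullC K (M' * q * q)) (algebraMap R K π)))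
    (V : ValuationSubring ↥(modularFunctionFieldFullC K (M' * q * q)))
    (hV : ∀ c ∈ s34i47c_V0 (K := K) M' q hq hM' hπ, al97L_beta K (M' * q) q c ∈ V)
    (hπV : (algebraMap K ↥(modularFunctionFieldFullC K (M' * q * q)) (algebraMap R K π))⁻¹ ∉ V) :
    (∀ x, x ∈ V ↔
      als86_w2 (algebraMap K Q̄) M' q hq hM' hL x ∈ cm85_Vinf (K := K) (M' * q * q) hπ) ∨
    (∀ x, x ∈ V ↔ als86_w2 (algebraMap K Q̄) M' q hq hM' hL x ∈ V₂) := by
  let Vw : ValuationSubring ↥(modularFunctionFieldFullC K (M' * q * q)) :=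
    V.comap ((als86_w2 (algebraMap K Q̄) M' q hq hM' hL :
        ↥(modularFunctionFieldFullC K (M' * q * q)) ≃ₐ[K] _) :
        ↥(modularFunctionFieldFullC K (M' * q * q)) →+* _)
  have hVwmem : ∀ x, x ∈ Vw ↔ als86_w2 (algebraMap K Q̄) M' q hq hM' hL x ∈ V := fun x => Iff.rfl
  have h1 : ∀ c ∈ cm85_Vinf (K := K) (M' * q) hπ, al97L_alpha K (M' * q) q c ∈ Vw := by
    intro c hc
    rw [hVwmem, als86_w2_alpha]
    apply hV
    rw [s34i47c_mem_V0, al97L_w_w]
    exact hc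
  have h2 : (algebraMap K ↥(modularFunctionFieldFullC K (M' * q * q)) (algebraMap R K π))⁻¹ ∉
      Vw := by
    rw [hVwmem, map_inv₀, AlgEquiv.commutes]
    exact hπV
  have key : ∀ x, x ∈ V ↔ als86_w2 (algebraMap K Q̄) M' q hq hM' hL x ∈ Vw := by
    intro x
    rw [hVwmem, als86_w2_w2]
  rcases (ob72_ram (K := K) (M' * q) q hq (dvd_mul_left q M') hπ V₂ hV₂ hπ₂ hne s hs).1 Vw
    h1 h2 with h3 | h3
  · left
    intro x
    rw [key, h3]
  · right
    intro x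
    rw [key, h3]

/-- Two comparable valuation subrings, the smaller one discrete with uniformizer `π`, the bigger
one not containing `π⁻¹`, are equal. -/
theorem o3x72_le_of_le {F : Type*} [Field F] (A B : ValuationSubring F) (π : F) (hAB : A ≤ B)
    (hmax : ∀ x ∈ A, x⁻¹ ∉ A → π⁻¹ * x ∈ A) (hπB : π⁻¹ ∉ B) : B ≤ A := by
  intro x hxB
  by_contra hxA
  have hx0 : x ≠ 0 := by
    rintro rfl
    exact hxA A.zero_mem
  have hinv : x⁻¹ ∈ A := (A.mem_or_inv_mem x).resolve_left hxA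
  have h1 : π⁻¹ * x⁻¹ ∈ A := hmax _ hinv (by rwa [inv_inv])
  apply hπB
  have e : π⁻¹ = π⁻¹ * x⁻¹ * x := by
    rw [mul_assoc, inv_mul_cancel₀ hx0, mul_one]
  rw [e]
  exact B.mul_mem _ _ (hAB h1) hxB

/-- **`V₂` is `w₂`-stable**, provided `β₂ β₁ V' ⊆ V₂` (the Gauss ring of level `M'` along the
other extreme degeneracy map). -/
theorem o3x72_V2_stable (hq : q.Prime) (hM' : ¬ q ∣ M') {π : R} (hπ : Irreducible π)
    (hqR : ¬ IsUnit (q : R)) (hL : ((M' * q * q : ℕ) : K) ≠ 0)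
    (V₂ : ValuationSubring ↥(modularFunctionFieldFullC K (M' * q * q)))
    (hV₂ : ∀ c ∈ cm85_Vinf (K := K) (M' * q) hπ, al97L_alpha K (M' * q) q c ∈ V₂)
    (hπ₂ : (algebraMap K ↥(modularFunctionFieldFullC K (M' * q * q)) (algebraMap R K π))⁻¹ ∉ V₂)
    (hne : cm85_Vinf (K := K) (M' * q * q) hπ ≠ V₂)
    (s : ↥(modularFunctionFieldFullC K (M' * q * q)))
    (hs : V₂.valuation s ^ (q - 1) =
      V₂.valuation (algebraMap K ↥(modularFunctionFieldFullC K (M' * q * q)) (algebraMap R K π)))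
    (hE2 : ∀ a ∈ cm85_Vinf (K := K) M' hπ,
      al97L_beta K (M' * q) q (al97L_beta K M' q a) ∈ V₂)
    (x : ↥(modularFunctionFieldFullC K (M' * q * q))) :
    x ∈ V₂ ↔ als86_w2 (algebraMap K Q̄) M' q hq hM' hL x ∈ V₂ := by
  letI a0 : Algebra R ↥(modularFunctionFieldFullC K M') :=
    ((algebraMap K ↥(modularFunctionFieldFullC K M')).comp (algebraMap R K)).toAlgebra
  haveI t0 : IsScalarTower R K ↥(modularFunctionFieldFullC K M') :=
    IsScalarTower.of_algebraMap_eq (fun _ => rfl)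
  letI a1 : Algebra R ↥(modularFunctionFieldFullC K (M' * q)) :=
    ((algebraMap K ↥(modularFunctionFieldFullC K (M' * q))).comp (algebraMap R K)).toAlgebra
  haveI t1 : IsScalarTower R K ↥(modularFunctionFieldFullC K (M' * q)) :=
    IsScalarTower.of_algebraMap_eq (fun _ => rfl)
  let V₃ : ValuationSubring ↥(modularFunctionFieldFullC K (M' * q * q)) :=
    (cm85_Vinf (K := K) (M' * q * q) hπ).comap
      ((als86_w2 (algebraMap K Q̄) M' q hq hM' hL :
        ↥(modularFunctionFieldFullC K (M' * q * q)) ≃ₐ[K] _) :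
        ↥(modularFunctionFieldFullC K (M' * q * q)) →+* _)
  have hV₃mem : ∀ x, x ∈ V₃ ↔
      als86_w2 (algebraMap K Q̄) M' q hq hM' hL x ∈ cm85_Vinf (K := K) (M' * q * q) hπ :=
    fun x => Iff.rfl
  let V₂w : ValuationSubring ↥(modularFunctionFieldFullC K (M' * q * q)) :=
    V₂.comap ((als86_w2 (algebraMap K Q̄) M' q hq hM' hL :
        ↥(modularFunctionFieldFullC K (M' * q * q)) ≃ₐ[K] _) :
        ↥(modularFunctionFieldFullC K (M' * q * q)) →+* _)
  have hwmem : ∀ x, x ∈ V₂w ↔ als86_w2 (algebraMap K Q̄) M' q hq hM' hL x ∈ V₂ :=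
    fun x => Iff.rfl
  have h1 : ∀ a ∈ cm85_Vinf (K := K) M' hπ,
      al97L_alpha K (M' * q) q (al97L_alpha K M' q a) ∈ V₂w := by
    intro a ha
    rw [hwmem, als86_w2_alpha, al97L_w_alpha_apply]
    exact hE2 a ha
  have h2 : (algebraMap K ↥(modularFunctionFieldFullC K (M' * q * q)) (algebraMap R K π))⁻¹ ∉
      V₂w := by
    rw [hwmem, map_inv₀, AlgEquiv.commutes]
    exact hπ₂
  rcases o3x72_only_three (K := K) M' q hq hM' hπ hqR hL V₂ V₃ hV₂ hπ₂ hne s hs hV₃mem V₂w h1 h2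
    with h3 | h3 | h3
  · -- `V₂w = V₁`, so `V₂ = V₃`: impossible (`V₂` over `V_∞`, `V₃` over `V_0`)
    exfalso
    have h23 : ∀ y, y ∈ V₂ ↔ y ∈ V₃ := by
      intro y
      rw [hV₃mem, ← h3, hwmem, als86_w2_w2]
    let U : ValuationSubring ↥(modularFunctionFieldFullC K (M' * q)) :=
      V₂.comap (al97L_alpha K (M' * q) q : ↥(modularFunctionFieldFullC K (M' * q)) →+*
        ↥(modularFunctionFieldFullC K (M' * q * q)))
    have hUmem : ∀ c, c ∈ U ↔ al97L_alpha K (M' * q) q c ∈ V₂ := fun c => Iff.rfl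
    have hU1 : cm85_Vinf (K := K) (M' * q) hπ ≤ U := fun c hc => (hUmem c).2 (hV₂ c hc)
    have hU0 : s34i47c_V0 (K := K) M' q hq hM' hπ ≤ U := fun c hc =>
      (hUmem c).2 ((h23 _).2 (o3x72_V3_over M' q hq hM' hπ hL V₃ hV₃mem c hc))
    have hπU : (algebraMap K ↥(modularFunctionFieldFullC K (M' * q)) (algebraMap R K π))⁻¹ ∉
        U := by
      rw [hUmem, map_inv₀, AlgHom.commutes]
      exact hπ₂
    have hD0 := obi72_V0_dvr (K := K) M' q hq hM' hπ
    have e1 : U ≤ cm85_Vinf (K := K) (M' * q) hπ :=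
      o3x72_le_of_le _ _ _ hU1 (fun x hx hx' =>
        gv85_hmax (IsLocalRing.residue R) π (pk85_res_iff hπ) hπ.ne_zero _ _ x hx hx') hπU
    have e0 : U ≤ s34i47c_V0 (K := K) M' q hq hM' hπ :=
      o3x72_le_of_le _ _ _ hU0 hD0.hmax hπU
    exact rd90_ne (K := K) M' q hq hM' hπ hqR
      ((le_antisymm e1 hU1).symm.trans (le_antisymm e0 hU0))
  · rw [← hwmem x, h3]
  · -- `V₂w = V₃`, so `V₂ = V₁`
    exfalso
    apply hne
    ext y
    have hA : y ∈ V₂ ↔ als86_w2 (algebraMap K Q̄) M' q hq hM' hL y ∈ V₂w := by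
      rw [hwmem, als86_w2_w2]
    have hB : als86_w2 (algebraMap K Q̄) M' q hq hM' hL y ∈ V₃ ↔
        y ∈ cm85_Vinf (K := K) (M' * q * q) hπ := by
      rw [hV₃mem, als86_w2_w2]
    rw [hA, h3, hB]

end o3x72

end Fermat.Agent.S36
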