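import Fermat.Agent.S36.ConjEmb97
import Fermat.Agent.S34.ChartM85

/-!
# S36 lab, row B1-V2 (helper64): the third valuation `V₂` of `F(N q²)` as a Gauss pull-back

`q` prime, `q ∤ N`, `R` a discrete valuation ring with fraction field `K` (characteristic zero),
`π` a uniformizer.  `F₁ = F(N q)_K ⊆ F₂ = F(N q²)_K` along `α₂ = al97L_alpha K (N * q) q`.

A *cyclotomic datum* (`v2g64_Datum`) is a valuation subring `A'` of an extension field `K'` of
`K`, discrete with uniformizer `ϖ`, with a ring hom `ρ : R → A'` compatible with `K → K'`, local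
(`ρ π ∈ m(A')`), and a unit `ζ` of `A'` with `ζ^q = 1`, `ζ ≠ 1`, `(ζ - 1)^(q-1) = ρ(π) · unit`.

Given such a datum, helper97's `ce97_exists_hom` gives the conjugate embedding
`Θ : F₂ → K'((Q))` with `Θ ∘ α₂ = ` coefficient extension and `Θ ∘ β₂ = twist ζ ∘ ` coefficient
extension `∘ w`; `V₂` is the pull-back along `Θ` of the Gauss valuation ring of `A'`
(`gv85_V`).  `v2g64_exists`: `V₂` has LITERALLY the four facts used by `ob72_ram`
(helper72, `OnlyBind72`): `α₂ V_∞' ⊆ V₂`, `π⁻¹ ∉ V₂`, `V₁ ≠ V₂`, and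
`v₂(s)^(q-1) = v₂(π)` for `s = j(Q^(q²)) - j(Q)`.

All names are prefixed `v2g64_`.
-/

set_option autoImplicit false
set_option linter.unusedSectionVars false
set_option linter.style.haveILetI false

open ModularCurve IntermediateField

namespace Fermat.Agent.S36

open Fermat.Agent.S18 Fermat.Agent.S24 Fermat.Agent.S28 Fermat.Agent.S37 Fermat.Agent.S34
open Fermat.Agent.S35

section v2g64_gauss

variable {K' : Type} [Field K'] (A' : ValuationSubring K')

/-- The series with coefficients in `A'`. -/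
def v2g64_S : Set (LaurentSeries K') :=
  {z | ∃ y : LaurentSeries A', z = coeffMap (algebraMap A' K') y}

/-- The field generated by the series with coefficients in `A'`. -/
noncomputable def v2g64_F : IntermediateField K' (LaurentSeries K') :=
  IntermediateField.adjoin K' (v2g64_S A')

theorem v2g64_int_mem (y : LaurentSeries A') :
    coeffMap (algebraMap A' K') y ∈ v2g64_F A' :=
  IntermediateField.subset_adjoin K' _ ⟨y, rfl⟩

variable (ϖ : A')

/-- `(HF)` for the field generated by the `A'`-integral series. -/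
theorem v2g64_HF (hres : ∀ r : A', IsLocalRing.residue A' r = 0 ↔ ϖ ∣ r) (hϖ0 : ϖ ≠ 0)
    (hfin : ∀ r : A', r ≠ 0 → ∃ n : ℕ, ¬ ϖ ^ (n + 1) ∣ r) :
    gv85_HF (IsLocalRing.residue A') (v2g64_F A') :=
  gv85_HF_adjoin (IsLocalRing.residue A') ϖ hres hϖ0 hfin (v2g64_S A') (fun _ hx => hx)

/-- An integral series lies in the Gauss ring. -/
theorem v2g64_mem_of_int (hF : gv85_HF (IsLocalRing.residue A') (v2g64_F A'))
    (z : ↥(v2g64_F A')) (y : LaurentSeries A')
    (hz : (z : LaurentSeries K') = coeffMap (algebraMap A' K') y) :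
    z ∈ gv85_V (IsLocalRing.residue A') (v2g64_F A') hF :=
  gv85_mem_V_of_integral _ _ _ z y hz

/-- The inverse of an integral series with nonzero reduction lies in the Gauss ring. -/
theorem v2g64_inv_mem_of_int (hF : gv85_HF (IsLocalRing.residue A') (v2g64_F A'))
    (z : ↥(v2g64_F A')) (y : LaurentSeries A')
    (hz : (z : LaurentSeries K') = coeffMap (algebraMap A' K') y)
    (hy : coeffMap (IsLocalRing.residue A') y ≠ 0) :
    z⁻¹ ∈ gv85_V (IsLocalRing.residue A') (v2g64_F A') hF := by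
  have hy0 : y ≠ 0 := fun h => hy (by rw [h, map_zero])
  have hz0 : (z : LaurentSeries K') ≠ 0 := by
    rw [hz]
    intro h
    apply hy0
    apply gv85_emb_injective (R := A') (K := K')
    rw [h, map_zero]
  refine ⟨y, 1, hy, ?_⟩
  have h1 : ((z⁻¹ : ↥(v2g64_F A')) : LaurentSeries K') = (z : LaurentSeries K')⁻¹ := rfl
  rw [h1, ← hz, map_one, mul_inv_cancel₀ hz0]

/-- General form: the inverse of an integral series with nonzero reduction lies in the Gauss
ring (any Gauss ring `gv85_V`). -/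
theorem v2g64_gv_inv_mem {R K κ : Type*} [CommRing R] [IsDomain R] [Field K] [Algebra R K]
    [IsFractionRing R K] [Field κ] [ValuationRing R] (res : R →+* κ)
    (F : IntermediateField K (LaurentSeries K)) (hF : gv85_HF res F) (z : ↥F)
    (y : LaurentSeries R) (hz : (z : LaurentSeries K) = coeffMap (algebraMap R K) y)
    (hy : coeffMap res y ≠ 0) : z⁻¹ ∈ gv85_V res F hF := by
  have hy0 : y ≠ 0 := fun h => hy (by rw [h, map_zero])
  have hz0 : (z : LaurentSeries K) ≠ 0 := by
    rw [hz]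
    intro h
    apply hy0
    apply gv85_emb_injective (R := R) (K := K)
    rw [h, map_zero]
  refine ⟨y, 1, hy, ?_⟩
  have h1 : ((z⁻¹ : ↥F) : LaurentSeries K) = (z : LaurentSeries K)⁻¹ := rfl
  rw [h1, ← hz, map_one, mul_inv_cancel₀ hz0]

/-- `v(s)^n = v(p)` from `p⁻¹ s^n` being a unit of the valuation ring. -/
theorem v2g64_val_pow_eq {F : Type*} [Field F] (V : ValuationSubring F) (p s : F) (hp0 : p ≠ 0)
    (n : ℕ) (hs0 : s ≠ 0) (hu : p⁻¹ * s ^ n ∈ V) (hu' : (p⁻¹ * s ^ n)⁻¹ ∈ V) :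
    V.valuation s ^ n = V.valuation p := by
  have hp : V.valuation p ≠ 0 := (Valuation.ne_zero_iff _).2 hp0
  have hsn : V.valuation s ^ n ≠ 0 := pow_ne_zero _ ((Valuation.ne_zero_iff _).2 hs0)
  have a1 := (V.valuation_le_one_iff _).2 hu
  have a2 := (V.valuation_le_one_iff _).2 hu'
  rw [map_mul, map_inv₀, map_pow, inv_mul_le_iff₀ (zero_lt_iff.2 hp), mul_one] at a1
  rw [mul_inv, inv_inv, map_mul, map_inv₀, map_pow, mul_inv_le_iff₀ (zero_lt_iff.2 hsn),
    one_mul] at a2
  exact le_antisymm a1 a2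

/-- A nonzero constant of the maximal ideal of `A'` is not invertible in the Gauss ring. -/
theorem v2g64_const_inv_not_mem (hF : gv85_HF (IsLocalRing.residue A') (v2g64_F A'))
    (c : A') (hc : IsLocalRing.residue A' c = 0) (hc0 : algebraMap A' K' c ≠ 0)
    (z : ↥(v2g64_F A')) (hz : (z : LaurentSeries K') = HahnSeries.C (algebraMap A' K' c)) :
    z⁻¹ ∉ gv85_V (IsLocalRing.residue A') (v2g64_F A') hF := by
  rintro ⟨s, t, hs, hst⟩
  have h1 : ((z⁻¹ : ↥(v2g64_F A')) : LaurentSeries K') = (z : LaurentSeries K')⁻¹ := rfl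
  rw [h1, hz] at hst
  have hC0 : (HahnSeries.C (algebraMap A' K' c) : LaurentSeries K') ≠ 0 :=
    HahnSeries.C_ne_zero hc0
  have h2 : coeffMap (algebraMap A' K') s =
      coeffMap (algebraMap A' K') (HahnSeries.C c * t) := by
    rw [map_mul, gv85_coeffMap_C, ← hst]
    field_simp
  have h3 := gv85_emb_injective (R := A') (K := K') h2
  apply hs
  rw [h3, map_mul, gv85_coeffMap_C, hc, HahnSeries.C_zero, zero_mul]

end v2g64_gauss

section v2g64_series

variable {K' : Type} [Field K'] (A' : ValuationSubring K')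

/-- `ζ - 1` divides `ζ^n - 1` for every integer `n`, when `ζ^q = 1`, `q ≠ 0`. -/
theorem v2g64_sub_one_dvd (ζ : A'ˣ) (q : ℕ) (hq0 : q ≠ 0) (hζq : ζ ^ q = 1) (n : ℤ) :
    ((ζ : A') - 1) ∣ (((ζ ^ n : A'ˣ) : A') - 1) := by
  have hq' : (ζ : A'ˣ) ^ ((q : ℕ) : ℤ) = 1 := by rw [zpow_natCast]; exact hζq
  have h1 : ζ ^ n = ζ ^ (n % (q : ℤ)) := zpow_eq_zpow_emod n hq'
  have h2 : 0 ≤ n % (q : ℤ) := Int.emod_nonneg n (by exact_mod_cast hq0)
  obtain ⟨k, hk⟩ := Int.eq_ofNat_of_zero_le h2
  rw [h1, hk, zpow_natCast, Units.val_pow_eq_pow_val]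
  have h3 := sub_dvd_pow_sub_pow (ζ : A') 1 k
  rwa [one_pow] at h3

/-- **The divided twist**: `f(ζQ) - f(Q) = (ζ - 1) · y` with `y` integral. -/
theorem v2g64_twist_sub (ζ : A'ˣ) (q : ℕ) (hq0 : q ≠ 0) (hζq : ζ ^ q = 1) (hζ1 : ζ ≠ 1)
    (f : LaurentSeries A') :
    ∃ y : LaurentSeries A', twist ζ f - f = HahnSeries.C ((ζ : A') - 1) * y := by
  apply gv85_exists_div
  · intro h
    apply hζ1
    ext
    exact congrArg Subtype.val (sub_eq_zero.mp h)
  · intro n
    have h1 : (twist ζ f - f).coeff n = (((ζ ^ n : A'ˣ) : A') - 1) * f.coeff n := by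
      rw [HahnSeries.coeff_sub, twist_coeff]
      ring
    rw [h1]
    exact Dvd.dvd.mul_right (v2g64_sub_one_dvd A' ζ q hq0 hζq n) _

/-- For `f = j`: the quotient `(j(ζQ) - j(Q)) / (ζ - 1)` has nonzero reduction. -/
theorem v2g64_twist_sub_j (ζ : A'ˣ) (q : ℕ) (hq0 : q ≠ 0) (hζq : ζ ^ q = 1) (hζ1 : ζ ≠ 1) :
    ∃ y : LaurentSeries A', coeffMap (IsLocalRing.residue A') y ≠ 0 ∧
      twist ζ (jqModC A') - jqModC A' = HahnSeries.C ((ζ : A') - 1) * y := by
  obtain ⟨y, hy⟩ := v2g64_twist_sub A' ζ q hq0 hζq hζ1 (jqModC A')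
  refine ⟨y, ?_, hy⟩
  have hζ0 : (ζ : A') - 1 ≠ 0 := by
    intro h
    apply hζ1
    ext
    exact congrArg Subtype.val (sub_eq_zero.mp h)
  have h1 := congrArg (fun z : LaurentSeries A' => z.coeff (-1)) hy
  simp only [HahnSeries.coeff_sub, twist_coeff, gv85_coeff_C_mul, coeff_jqModC_neg_one,
    mul_one] at h1
  -- `ζ⁻¹ - 1 = (ζ - 1) * y₋₁`, hence `y₋₁ = -ζ⁻¹`
  have h2 : y.coeff (-1) = -((ζ⁻¹ : A'ˣ) : A') := by
    apply mul_left_cancel₀ hζ0
    rw [← h1, zpow_neg_one]
    have h3 : ((ζ⁻¹ : A'ˣ) : A') * (ζ : A') = 1 := by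
      rw [← Units.val_mul, inv_mul_cancel, Units.val_one]
    linear_combination h3
  intro h0
  have h4 := congrArg (fun z : LaurentSeries (IsLocalRing.ResidueField A') => z.coeff (-1)) h0
  simp only [coeffMap_coeff, HahnSeries.coeff_zero] at h4
  rw [h2, map_neg, neg_eq_zero, IsLocalRing.residue_eq_zero_iff] at h4
  exact (IsLocalRing.mem_maximalIdeal _).mp h4 (ζ⁻¹).isUnit

end v2g64_series

/-- **The cyclotomic datum**: `A'` is discrete with uniformizer `ϖ`, `ρ : R → A'` is compatible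
with `K → K'` and local, `ζ` is a unit of `A'` with `ζ^q = 1 ≠ ζ` and `(ζ-1)^(q-1) = ρ(π)·unit`. -/
def v2g64_Datum {R : Type} [CommRing R] (K : Type) [Field K] [Algebra R K] {K' : Type}
    [Field K'] [Algebra K K'] (A' : ValuationSubring K') (q : ℕ) (π : R) (ϖ : A')
    (ρ : R →+* A') (ζ : A'ˣ) : Prop :=
  ϖ ≠ 0 ∧ (∀ r : A', IsLocalRing.residue A' r = 0 ↔ ϖ ∣ r) ∧
  (∀ r : A', r ≠ 0 → ∃ n : ℕ, ¬ ϖ ^ (n + 1) ∣ r) ∧
  (∀ r : R, algebraMap A' K' (ρ r) = algebraMap K K' (algebraMap R K r)) ∧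
  IsLocalRing.residue A' (ρ π) = 0 ∧
  ζ ^ q = 1 ∧ ζ ≠ 1 ∧
  ∃ u : A'ˣ, ((ζ : A') - 1) ^ (q - 1) = ρ π * u

section v2g64_main

variable {R K : Type} [CommRing R] [IsDomain R] [IsDiscreteValuationRing R] [Field K] [CharZero K]
  [Algebra R K] [IsFractionRing R K]
variable {K' : Type} [Field K'] [Algebra K K'] (A' : ValuationSubring K')

/-- Coefficient extension commutes with `ρ`. -/
theorem v2g64_coeffMap_rho (ρ : R →+* A')
    (hρ : ∀ r : R, algebraMap A' K' (ρ r) = algebraMap K K' (algebraMap R K r))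
    (y : LaurentSeries R) :
    coeffMap (algebraMap A' K') (coeffMap ρ y) =
      coeffMap (algebraMap K K') (coeffMap (algebraMap R K) y) := by
  ext n
  simp only [coeffMap_coeff]
  exact hρ _

/-- `ρ` is local: nonzero reductions stay nonzero. -/
theorem v2g64_res_rho (ρ : R →+* A') (y : LaurentSeries R)
    (hy : coeffMap (IsLocalRing.residue R) y ≠ 0) :
    coeffMap (IsLocalRing.residue A') (coeffMap ρ y) ≠ 0 := by
  intro h0
  apply hy
  ext n
  have h1 := congrArg (fun z : LaurentSeries (IsLocalRing.ResidueField A') => z.coeff n) h0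
  simp only [coeffMap_coeff, HahnSeries.coeff_zero] at h1 ⊢
  rw [IsLocalRing.residue_eq_zero_iff] at h1 ⊢
  by_contra hu
  have hu' : IsUnit (y.coeff n) := by
    by_contra hnu
    exact hu ((IsLocalRing.mem_maximalIdeal _).mpr hnu)
  exact (IsLocalRing.mem_maximalIdeal _).mp h1 (hu'.map ρ)

/-- A ring hom `Ψ : K((Q)) → K'((Q))` mapping the constants and the generators `j(Q^d)` into
an intermediate field `F'` maps every `F(M)_K` into `F'`. -/
theorem v2g64_hom_mem (Ψ : LaurentSeries K →+* LaurentSeries K')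
    (F' : IntermediateField K' (LaurentSeries K'))
    (hc : ∀ c : K, Ψ (algebraMap K (LaurentSeries K) c) ∈ F')
    (hg : ∀ (d : ℕ) [NeZero d], Ψ (qExpand K d (jqModC K)) ∈ F') (M : ℕ)
    (x : LaurentSeries K) (hx : x ∈ modularFunctionFieldFullC K M) : Ψ x ∈ F' := by
  unfold modularFunctionFieldFullC at hx
  induction hx using IntermediateField.adjoin_induction with
  | mem y hy =>
    obtain ⟨d, hd, -, rfl⟩ := hy
    haveI := hd
    exact hg d
  | algebraMap c => exact hc c
  | add x y hx hy ihx ihy => rw [map_add]; exact add_mem ihx ihy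
  | inv x hx ihx => rw [map_inv₀]; exact inv_mem ihx
  | mul x y hx hy ihx ihy => rw [map_mul]; exact mul_mem ihx ihy

/-- Coefficient extension maps `F(M)_K` into the field of `A'`-integral series. -/
theorem v2g64_coeffMap_mem (M : ℕ) (x : LaurentSeries K)
    (hx : x ∈ modularFunctionFieldFullC K M) :
    coeffMap (algebraMap K K') x ∈ v2g64_F A' := by
  refine v2g64_hom_mem (coeffMap (algebraMap K K')) (v2g64_F A') ?_ ?_ M x hx
  · intro c
    rw [algebraMap_laurentSeries_eq_single, coeffMap_single, ← algebraMap_laurentSeries_eq_single]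
    exact IntermediateField.algebraMap_mem _ _
  · intro d _
    have h : coeffMap (algebraMap K K') (qExpand K d (jqModC K)) =
        coeffMap (algebraMap A' K') (qExpand A' d (jqModC A')) := by
      rw [coeffMap_qExpand, coeffMap_jqModC, coeffMap_qExpand, coeffMap_jqModC]
    rw [h]
    exact v2g64_int_mem A' _

/-- The twisted coefficient extension maps `F(M)_K` into the field of `A'`-integral series. -/
theorem v2g64_twist_coeffMap_mem (ζ : A'ˣ) (M : ℕ) (x : LaurentSeries K)
    (hx : x ∈ modularFunctionFieldFullC K M) :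
    twist (Units.map (algebraMap A' K' : A' →* K') ζ) (coeffMap (algebraMap K K') x) ∈
      v2g64_F A' := by
  refine v2g64_hom_mem ((twist (Units.map (algebraMap A' K' : A' →* K') ζ)).comp
    (coeffMap (algebraMap K K'))) (v2g64_F A') ?_ ?_ M x hx
  · intro c
    rw [RingHom.comp_apply, algebraMap_laurentSeries_eq_single, coeffMap_single,
      ← HahnSeries.C_apply, twist_C, HahnSeries.C_apply, ← algebraMap_laurentSeries_eq_single]
    exact IntermediateField.algebraMap_mem _ _
  · intro d _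
    have h : twist (Units.map (algebraMap A' K' : A' →* K') ζ)
        (coeffMap (algebraMap K K') (qExpand K d (jqModC K))) =
        coeffMap (algebraMap A' K') (twist ζ (qExpand A' d (jqModC A'))) := by
      rw [coeffMap_twist, coeffMap_qExpand, coeffMap_jqModC, coeffMap_qExpand, coeffMap_jqModC]
    rw [RingHom.comp_apply, h]
    exact v2g64_int_mem A' _

variable (φ : K →+* Kbar) (N q : ℕ) [NeZero N] [NeZero q] (hq : q.Prime) (hN : ¬ q ∣ N)

/-- `j ∈ F(N)_K`. -/
noncomputable def v2g64_j (K : Type) [Field K] (N : ℕ) : ↥(modularFunctionFieldFullC K N) :=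
  ⟨jqModC K, jqModC_mem_full K N⟩

/-- `s = j(Q^(q²)) - j(Q) ∈ F(N q²)_K`, written as `β₂ β₁ j - α₂ α₁ j`. -/
noncomputable def v2g64_s (K : Type) [Field K] (N q : ℕ) [NeZero N] [NeZero q] :
    ↥(modularFunctionFieldFullC K (N * q * q)) :=
  al97L_beta K (N * q) q (al97L_beta K N q (v2g64_j K N)) -
    al97L_alpha K (N * q) q (al97L_alpha K N q (v2g64_j K N))

theorem v2g64_s_coe (K : Type) [Field K] (N q : ℕ) [NeZero N] [NeZero q] :
    ((v2g64_s K N q : ↥(modularFunctionFieldFullC K (N * q * q))) : LaurentSeries K) =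
      qExpand K q (qExpand K q (jqModC K)) - jqModC K := rfl

/-- **The conjugate embedding** `Θ : F(N q²)_K → K'((Q))` (from `ce97_exists_hom`):
`Θ ∘ α₂` is the coefficient extension and `Θ ∘ β₂ = twist ζ ∘ ` coefficient extension `∘ w`. -/
theorem v2g64_exists_Theta (ζ : K'ˣ) (hζq : ζ ^ q = 1) (hζ1 : ζ ≠ 1) :
    ∃ Θ : ↥(modularFunctionFieldFullC K (N * q * q)) →+* LaurentSeries K',
      (∀ x : ↥(modularFunctionFieldFullC K (N * q)),
        Θ (al97L_alpha K (N * q) q x) = coeffMap (algebraMap K K') (x : LaurentSeries K)) ∧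
      (∀ x : ↥(modularFunctionFieldFullC K (N * q)),
        Θ (al97L_beta K (N * q) q x) = twist ζ (coeffMap (algebraMap K K')
          ((al97L_w φ N q hq hN x : ↥(modularFunctionFieldFullC K (N * q))) :
            LaurentSeries K))) := by
  have hL : ((N * q * q : ℕ) : K) ≠ 0 := Nat.cast_ne_zero.mpr (NeZero.ne _)
  let ι0 : ↥(modularFunctionFieldFullC K (N * q)) →+* LaurentSeries K' :=
    (coeffMap (algebraMap K K')).comp
      (algebraMap ↥(modularFunctionFieldFullC K (N * q)) (LaurentSeries K))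
  let τ0 : ↥(modularFunctionFieldFullC K (N * q)) →+* LaurentSeries K' :=
    (twist ζ).comp (ι0.comp (al97L_w φ N q hq hN).toAlgHom.toRingHom)
  have hι0 : ∀ x : ↥(modularFunctionFieldFullC K (N * q)),
      ι0 x = coeffMap (algebraMap K K') (x : LaurentSeries K) := fun _ => rfl
  have hτ0 : ∀ x : ↥(modularFunctionFieldFullC K (N * q)),
      τ0 x = twist ζ (coeffMap (algebraMap K K')
        ((al97L_w φ N q hq hN x : ↥(modularFunctionFieldFullC K (N * q))) :
          LaurentSeries K)) := fun _ => rfl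
  have hιτ : ∀ e : ↥(modularFunctionFieldFullC K N),
      τ0 (al97L_alpha K N q e) = ι0 (al97L_beta K N q e) := by
    intro e
    rw [hτ0, hι0, al97L_w_alpha_apply φ N q hq hN e, al97L_beta_coe, coeffMap_qExpand,
      twist_qExpand_of_pow_eq_one ζ q hζq]
  have hy₁ : τ0 (al97L_beta K N q (v2g64_j K N)) ≠
      ι0 (al97L_w φ N q hq hN (al97L_beta K N q (v2g64_j K N))) := by
    rw [hτ0, hι0, al97L_w_beta_apply φ N q hq hN (v2g64_j K N), al97L_alpha_coe]
    intro h
    have h1 := congrArg (fun z : LaurentSeries K' => z.coeff (-1)) h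
    have hj : coeffMap (algebraMap K K') ((v2g64_j K N : ↥(modularFunctionFieldFullC K N)) :
        LaurentSeries K) = jqModC K' := coeffMap_jqModC (algebraMap K K')
    simp only [hj, twist_coeff, coeff_jqModC_neg_one, mul_one] at h1
    apply hζ1
    have h2 : ζ ^ (-1 : ℤ) = 1 := Units.ext h1
    rw [zpow_neg_one, inv_eq_one] at h2
    exact h2
  obtain ⟨Θ, h1, h2⟩ := ce97_exists_hom φ N q hq hN hL ι0 τ0 hιτ _ hy₁
  exact ⟨Θ, fun x => (h1 x).trans (hι0 x), fun x => (h2 x).trans (hτ0 x)⟩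

include φ hq hN in
/-- **B1-V2 from a cyclotomic datum.**  The Gauss pull-back `V₂` along the conjugate embedding
has literally the four facts used by `ob72_ram` (with `M = N * q`). -/
theorem v2g64_exists_of_datum {π : R} (hπ : Irreducible π) (ϖ : A') (ρ : R →+* A') (ζ : A'ˣ)
    (hD : v2g64_Datum K A' q π ϖ ρ ζ) :
    ∃ V₂ : ValuationSubring ↥(modularFunctionFieldFullC K (N * q * q)),
      (∀ c ∈ cm85_Vinf (K := K) (N * q) hπ, al97L_alpha K (N * q) q c ∈ V₂) ∧
      (algebraMap K ↥(modularFunctionFieldFullC K (N * q * q)) (algebraMap R K π))⁻¹ ∉ V₂ ∧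
      cm85_Vinf (K := K) (N * q * q) hπ ≠ V₂ ∧
      V₂.valuation (v2g64_s K N q) ^ (q - 1) =
        V₂.valuation (algebraMap K ↥(modularFunctionFieldFullC K (N * q * q))
          (algebraMap R K π)) := by
  obtain ⟨hϖ0, hres, hfin, hρ, hρπ, hζq, hζ1, u, hu⟩ := hD
  have hq0 : q ≠ 0 := hq.ne_zero
  have hζKq : (Units.map (algebraMap A' K' : A' →* K') ζ) ^ q = 1 := by
    rw [← map_pow, hζq, map_one]
  have hζK1 : Units.map (algebraMap A' K' : A' →* K') ζ ≠ 1 := by
    intro h
    apply hζ1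
    have h1 := congrArg (fun z : K'ˣ => (z : K')) h
    simp only [Units.coe_map, MonoidHom.coe_coe, Units.val_one] at h1
    ext
    exact h1
  obtain ⟨Θ, hΘα, hΘβ⟩ := v2g64_exists_Theta φ N q hq hN
    (Units.map (algebraMap A' K' : A' →* K') ζ) hζKq hζK1
  have hF := v2g64_HF A' ϖ hres hϖ0 hfin
  -- the image of `Θ` lies in the field of integral series
  have hmem : ∀ x, Θ x ∈ v2g64_F A' := by
    have hS := ce97_gen K N q hq ((v2g64_F A').toSubfield.comap Θ)
      (fun a => by
        show Θ _ ∈ v2g64_F A'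
        rw [hΘα]
        exact v2g64_coeffMap_mem A' (N * q) _ a.2)
      (fun b => by
        show Θ _ ∈ v2g64_F A'
        rw [hΘβ]
        exact v2g64_twist_coeffMap_mem A' ζ (N * q) _ (al97L_w φ N q hq hN b).2)
    intro x
    have hx : x ∈ (v2g64_F A').toSubfield.comap Θ := by rw [hS]; exact Subfield.mem_top x
    exact hx
  let Θ' : ↥(modularFunctionFieldFullC K (N * q * q)) →+* ↥(v2g64_F A') :=
    Θ.codRestrict (v2g64_F A') hmem
  have hΘ' : ∀ x, ((Θ' x : ↥(v2g64_F A')) : LaurentSeries K') = Θ x := fun _ => rfl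
  -- (A) `α₂ V_∞' ⊆ V₂`
  have hA : ∀ c ∈ cm85_Vinf (K := K) (N * q) hπ, Θ' (al97L_alpha K (N * q) q c) ∈
      gv85_V (IsLocalRing.residue A') (v2g64_F A') hF := by
    intro c hc
    obtain ⟨s, t, hs, hst⟩ := hc
    refine ⟨coeffMap ρ s, coeffMap ρ t, v2g64_res_rho A' ρ s hs, ?_⟩
    rw [hΘ', hΘα, v2g64_coeffMap_rho A' ρ hρ, v2g64_coeffMap_rho A' ρ hρ, ← hst, map_mul]
  -- (B) `π⁻¹ ∉ V₂`
  have hπ0' : algebraMap A' K' (ρ π) ≠ 0 := by
    rw [hρ]
    exact (map_ne_zero _).mpr ((map_ne_zero_iff _ (IsFractionRing.injective R K)).mpr hπ.ne_zero)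
  have hπΘ : ((Θ' (algebraMap K ↥(modularFunctionFieldFullC K (N * q * q))
      (algebraMap R K π)) : ↥(v2g64_F A')) : LaurentSeries K') =
      HahnSeries.C (algebraMap A' K' (ρ π)) := by
    rw [hΘ']
    have h1 : algebraMap K ↥(modularFunctionFieldFullC K (N * q * q)) (algebraMap R K π) =
        al97L_alpha K (N * q) q
          (algebraMap K ↥(modularFunctionFieldFullC K (N * q)) (algebraMap R K π)) :=
      ((al97L_alpha K (N * q) q).commutes _).symm
    rw [h1, hΘα, gv85_coe_algebraMap, gv85_coeffMap_C, hρ]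
  have hB := v2g64_const_inv_not_mem A' hF (ρ π) hρπ hπ0' _ hπΘ
  -- (C) `s`
  obtain ⟨y, hy, hyj⟩ := v2g64_twist_sub_j A' ζ q hq0 hζq hζ1
  have hsΘ : Θ (v2g64_s K N q) =
      coeffMap (algebraMap A' K') (HahnSeries.C ((ζ : A') - 1) * y) := by
    unfold v2g64_s
    rw [map_sub, hΘβ, hΘα, al97L_w_beta_apply φ N q hq hN (v2g64_j K N), al97L_alpha_coe]
    have hj : coeffMap (algebraMap K K')
        ((v2g64_j K N : ↥(modularFunctionFieldFullC K N)) : LaurentSeries K) =
        coeffMap (algebraMap A' K') (jqModC A') := by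
      show coeffMap (algebraMap K K') (jqModC K) = _
      rw [coeffMap_jqModC, coeffMap_jqModC]
    rw [hj, ← hyj, map_sub, coeffMap_twist]
  have hζ0 : (ζ : A') - 1 ≠ 0 := by
    intro h
    apply hζ1
    ext
    exact congrArg Subtype.val (sub_eq_zero.mp h)
  have hy0 : y ≠ 0 := fun h => hy (by rw [h, map_zero])
  have hs0 : v2g64_s K N q ≠ 0 := by
    intro h
    have h1 : coeffMap (algebraMap A' K') (HahnSeries.C ((ζ : A') - 1) * y) = 0 := by
      rw [← hsΘ, h, map_zero]
    have h2 : HahnSeries.C ((ζ : A') - 1) * y = 0 := by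
      apply gv85_emb_injective (R := A') (K := K')
      rw [h1, map_zero]
    rcases mul_eq_zero.mp h2 with h3 | h3
    · exact HahnSeries.C_ne_zero hζ0 h3
    · exact hy0 h3
  have hC0 : (HahnSeries.C (algebraMap A' K' (ρ π)) : LaurentSeries K') ≠ 0 :=
    HahnSeries.C_ne_zero hπ0'
  have hZ : ((Θ' ((algebraMap K ↥(modularFunctionFieldFullC K (N * q * q))
      (algebraMap R K π))⁻¹ * v2g64_s K N q ^ (q - 1)) : ↥(v2g64_F A')) : LaurentSeries K') =
      coeffMap (algebraMap A' K') (HahnSeries.C (u : A') * y ^ (q - 1)) := by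
    rw [hΘ', map_mul, map_inv₀, map_pow, hsΘ, ← hΘ', hπΘ, inv_mul_eq_iff_eq_mul₀ hC0,
      ← gv85_coeffMap_C (algebraMap A' K') (ρ π), ← map_pow, ← map_mul]
    congr 1
    rw [mul_pow, ← map_pow, hu, map_mul]
    ring
  have hZres : coeffMap (IsLocalRing.residue A') (HahnSeries.C (u : A') * y ^ (q - 1)) ≠ 0 := by
    rw [map_mul, map_pow, gv85_coeffMap_C]
    refine mul_ne_zero (HahnSeries.C_ne_zero ?_) (pow_ne_zero _ hy)
    intro h
    rw [IsLocalRing.residue_eq_zero_iff] at h
    exact (IsLocalRing.mem_maximalIdeal _).mp h u.isUnit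
  have hu1 := v2g64_mem_of_int A' hF _ _ hZ
  have hu2 := v2g64_inv_mem_of_int A' hF _ _ hZ hZres
  -- `s` is a unit of `V₁`
  have hsV1 : (v2g64_s K N q)⁻¹ ∈ cm85_Vinf (K := K) (N * q * q) hπ := by
    have hsR : ((v2g64_s K N q : ↥(modularFunctionFieldFullC K (N * q * q))) :
        LaurentSeries K) = coeffMap (algebraMap R K)
          (qExpand R q (qExpand R q (jqModC R)) - jqModC R) := by
      rw [v2g64_s_coe, map_sub, coeffMap_qExpand, coeffMap_qExpand, coeffMap_jqModC]
    refine v2g64_gv_inv_mem _ _ _ _ _ hsR ?_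
    intro h0
    have h1 := congrArg (fun z : LaurentSeries (IsLocalRing.ResidueField R) =>
      z.coeff ((q : ℤ) * ((q : ℤ) * (-1)))) h0
    have hlt : (q : ℤ) * ((q : ℤ) * (-1)) < -1 := by
      have h2 : (2 : ℤ) ≤ q := by exact_mod_cast hq.two_le
      nlinarith
    simp only [coeffMap_coeff, HahnSeries.coeff_sub, qExpand_coeff_mul,
      coeff_jqModC_neg_one, coeff_jqModC_of_lt R hlt, sub_zero, map_one,
      HahnSeries.coeff_zero] at h1
    exact one_ne_zero h1
  refine ⟨(gv85_V (IsLocalRing.residue A') (v2g64_F A') hF).comap Θ', ?_, ?_, ?_, ?_⟩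
  · intro c hc
    exact ValuationSubring.mem_comap.mpr (hA c hc)
  · intro h
    apply hB
    rw [← map_inv₀]
    exact ValuationSubring.mem_comap.mp h
  · intro heq
    rw [heq] at hsV1
    apply hB
    rw [← map_inv₀]
    apply ValuationSubring.mem_comap.mp
    have h1 : (algebraMap K ↥(modularFunctionFieldFullC K (N * q * q)) (algebraMap R K π))⁻¹ =
        ((algebraMap K ↥(modularFunctionFieldFullC K (N * q * q)) (algebraMap R K π))⁻¹ *
          v2g64_s K N q ^ (q - 1)) * ((v2g64_s K N q)⁻¹) ^ (q - 1) := by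
      rw [inv_pow, mul_inv_cancel_right₀ (pow_ne_zero _ hs0)]
    rw [h1]
    exact mul_mem (ValuationSubring.mem_comap.mpr hu1) (pow_mem hsV1 _)
  · refine v2g64_val_pow_eq _ _ _ ?_ (q - 1) hs0 (ValuationSubring.mem_comap.mpr hu1) ?_
    · exact (map_ne_zero _).mpr
        ((map_ne_zero_iff _ (IsFractionRing.injective R K)).mpr hπ.ne_zero)
    · apply ValuationSubring.mem_comap.mpr
      rw [map_inv₀]
      exact hu2

end v2g64_main

end Fermat.Agent.S36
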