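import Fermat.Agent.S36.FrameSq85
import Fermat.Agent.S36.OnlyThree72
import Fermat.Agent.S36.V2Gauss64
import Fermat.Agent.S36.NormSqBeta86

/-!
# S36 lab (helper85), row B1-W: (W) + (C) for the CANONICAL three-valuation ring of level `M' q q`

`V₁ = cm85_Vinf (M' q q)`, `V₃` = any valuation subring with `x ∈ V₃ ↔ w₂ x ∈ V₁` (`hV₃mem`, the
shape of `OnlyThree72`; in particular the canonical `nsb86_V3`), `V₂` = a PARAMETER with the facts
of `v2g64_exists_of_datum` (`hV₂`, `hπ₂`, `hs` for `s = v2g64_s`; `hne` is not needed).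

* `fb85_s_eq` : `v2g64_s K M' q = fq85_y K M' q - α₂ J`;
* `fb85_WInt` : `cm15_WInt` for `W = V₁ ⊓ V₂ ⊓ V₃`;
* `fb85_frame_level2/3` : `s34i47_WProps π W ∧ s34i47_ChartProps K π W h ∧ ∀ σ, σ h = h`;
* `fb85_frameV3_level2/3`, `fb85_WIntV3` : the same with the literal `V₃ = nsb86_V3`.

All names are prefixed `fb85_`.
-/

set_option autoImplicit false
set_option linter.unusedSectionVars false
set_option linter.style.haveILetI false

open ModularCurve IntermediateField Polynomial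

namespace Fermat.Agent.S36

open Fermat.Agent.S18 Fermat.Agent.S24 Fermat.Agent.S37 Fermat.Agent.S34

local notation "Q̄" => AlgebraicClosure ℚ

/-- `s = j(Q^(q²)) - j` in the two notations. -/
theorem fb85_s_eq (K : Type) [Field K] [CharZero K] (M' q : ℕ) [NeZero M'] [NeZero q] :
    v2g64_s K M' q = fq85_y K M' q - al97L_alpha K (M' * q) q (relimc_J K (M' * q)) := rfl

section fb85

variable {R K : Type} [CommRing R] [IsDomain R] [IsDiscreteValuationRing R] [Field K] [CharZero K]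
  [Algebra R K] [IsFractionRing R K] [Algebra K Q̄] (M' q : ℕ) [NeZero M'] [NeZero q]

/-- **(WInt)** for `W = V₁ ⊓ V₂ ⊓ V₃`, `V₃` in the `w₂`-membership shape. -/
theorem fb85_WInt (hq : q.Prime) (hM' : ¬ q ∣ M') {π : R} (hπ : Irreducible π)
    (hqR : ¬ IsUnit (q : R)) (hL : ((M' * q * q : ℕ) : K) ≠ 0)
    (V₂ : ValuationSubring ↥(modularFunctionFieldFullC K (M' * q * q)))
    (hV₂ : ∀ c ∈ cm85_Vinf (K := K) (M' * q) hπ, al97L_alpha K (M' * q) q c ∈ V₂)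
    (hπ₂ : (algebraMap K ↥(modularFunctionFieldFullC K (M' * q * q)) (algebraMap R K π))⁻¹ ∉ V₂)
    (hs : V₂.valuation (v2g64_s K M' q) ^ (q - 1) =
      V₂.valuation (algebraMap K ↥(modularFunctionFieldFullC K (M' * q * q)) (algebraMap R K π)))
    (V₃ : ValuationSubring ↥(modularFunctionFieldFullC K (M' * q * q)))
    (hV₃mem : ∀ x, x ∈ V₃ ↔
      als86_w2 (algebraMap K Q̄) M' q hq hM' hL x ∈ cm85_Vinf (K := K) (M' * q * q) hπ) :
    cm15_WInt R K M' (M' * q * q) ((dvd_mul_right M' q).trans (dvd_mul_right (M' * q) q)) hπ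
      ((cm85_Vinf (K := K) (M' * q * q) hπ).toSubring ⊓ V₂.toSubring ⊓ V₃.toSubring) :=
  fq85_WInt M' q hq hM' hπ hqR V₂ V₃ hV₂ hπ₂ hs
    (fun c hc => o3x72_V3_over M' q hq hM' hπ hL V₃ hV₃mem c hc)
    (o3x72_V3_pi M' q hq hM' hπ hL V₃ hV₃mem) (o3x72_V3_y M' q hq hM' hπ hL V₃ hV₃mem)
    (o3x72_V3_frob M' q hq hM' hπ hqR hL V₃ hV₃mem)

/-- **(WInt)** for the canonical `V₃ = nsb86_V3`. -/
theorem fb85_WIntV3 (hq : q.Prime) (hM' : ¬ q ∣ M') {π : R} (hπ : Irreducible π)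
    (hqR : ¬ IsUnit (q : R))
    (V₂ : ValuationSubring ↥(modularFunctionFieldFullC K (M' * q * q)))
    (hV₂ : ∀ c ∈ cm85_Vinf (K := K) (M' * q) hπ, al97L_alpha K (M' * q) q c ∈ V₂)
    (hπ₂ : (algebraMap K ↥(modularFunctionFieldFullC K (M' * q * q)) (algebraMap R K π))⁻¹ ∉ V₂)
    (hs : V₂.valuation (v2g64_s K M' q) ^ (q - 1) =
      V₂.valuation (algebraMap K ↥(modularFunctionFieldFullC K (M' * q * q)) (algebraMap R K π))) :
    cm15_WInt R K M' (M' * q * q) ((dvd_mul_right M' q).trans (dvd_mul_right (M' * q) q)) hπ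
      ((cm85_Vinf (K := K) (M' * q * q) hπ).toSubring ⊓ V₂.toSubring ⊓
        (nsb86_V3 (K := K) M' q hq hM' hπ).toSubring) :=
  fb85_WInt M' q hq hM' hπ hqR (nsb86_hL K (M' * q * q)) V₂ hV₂ hπ₂ hs _
    (nsb86_mem_V3 M' q hq hM' hπ)

/-- **(W) + (C) + `σ h = h`** for `W = V₁ ⊓ V₂ ⊓ V₃`, Hauptmodul of level 2, `V₃` in the
`w₂`-membership shape. -/
theorem fb85_frame_level2 [Algebra.IsAlgebraic K Q̄]
    [Algebra R ↥(modularFunctionFieldFullC K (M' * q * q))]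
    [IsScalarTower R K ↥(modularFunctionFieldFullC K (M' * q * q))]
    (hq : q.Prime) (hM' : ¬ q ∣ M') {π : R} (hπ : Irreducible π)
    (hqR : ¬ IsUnit (q : R)) (hMu : IsUnit (M' : R)) (h2 : 2 ∣ M')
    (hL : ((M' * q * q : ℕ) : K) ≠ 0)
    (V₂ : ValuationSubring ↥(modularFunctionFieldFullC K (M' * q * q)))
    (hV₂ : ∀ c ∈ cm85_Vinf (K := K) (M' * q) hπ, al97L_alpha K (M' * q) q c ∈ V₂)
    (hπ₂ : (algebraMap K ↥(modularFunctionFieldFullC K (M' * q * q)) (algebraMap R K π))⁻¹ ∉ V₂)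
    (hs : V₂.valuation (v2g64_s K M' q) ^ (q - 1) =
      V₂.valuation (algebraMap K ↥(modularFunctionFieldFullC K (M' * q * q)) (algebraMap R K π)))
    (V₃ : ValuationSubring ↥(modularFunctionFieldFullC K (M' * q * q)))
    (hV₃mem : ∀ x, x ∈ V₃ ↔
      als86_w2 (algebraMap K Q̄) M' q hq hM' hL x ∈ cm85_Vinf (K := K) (M' * q * q) hπ) :
    s34i47_WProps π ((cm85_Vinf (K := K) (M' * q * q) hπ).toSubring ⊓ V₂.toSubring ⊓ V₃.toSubring) ∧
      s34i47_ChartProps K π ((cm85_Vinf (K := K) (M' * q * q) hπ).toSubring ⊓ V₂.toSubring ⊓ V₃.toSubring)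
        (pk85_h2 K (M' * q * q)
          (h2.trans ((dvd_mul_right M' q).trans (dvd_mul_right (M' * q) q)))) ∧
      ∀ σ : K ≃+* K, s34i47_coeffEquiv σ (M' * q * q)
          (pk85_h2 K (M' * q * q)
            (h2.trans ((dvd_mul_right M' q).trans (dvd_mul_right (M' * q) q)))) =
        pk85_h2 K (M' * q * q)
          (h2.trans ((dvd_mul_right M' q).trans (dvd_mul_right (M' * q) q))) :=
  fq85_frame_level2 M' q hq hM' hπ hqR hMu h2 V₂ V₃ hV₂ hπ₂ hs
    (fun c hc => o3x72_V3_over M' q hq hM' hπ hL V₃ hV₃mem c hc)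
    (o3x72_V3_pi M' q hq hM' hπ hL V₃ hV₃mem) (o3x72_V3_y M' q hq hM' hπ hL V₃ hV₃mem)
    (o3x72_V3_frob M' q hq hM' hπ hqR hL V₃ hV₃mem)

/-- **(W) + (C) + `σ h = h`** for the canonical `V₃ = nsb86_V3`, Hauptmodul of level 2. -/
theorem fb85_frameV3_level2 [Algebra.IsAlgebraic K Q̄]
    [Algebra R ↥(modularFunctionFieldFullC K (M' * q * q))]
    [IsScalarTower R K ↥(modularFunctionFieldFullC K (M' * q * q))]
    (hq : q.Prime) (hM' : ¬ q ∣ M') {π : R} (hπ : Irreducible π)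
    (hqR : ¬ IsUnit (q : R)) (hMu : IsUnit (M' : R)) (h2 : 2 ∣ M')
    (V₂ : ValuationSubring ↥(modularFunctionFieldFullC K (M' * q * q)))
    (hV₂ : ∀ c ∈ cm85_Vinf (K := K) (M' * q) hπ, al97L_alpha K (M' * q) q c ∈ V₂)
    (hπ₂ : (algebraMap K ↥(modularFunctionFieldFullC K (M' * q * q)) (algebraMap R K π))⁻¹ ∉ V₂)
    (hs : V₂.valuation (v2g64_s K M' q) ^ (q - 1) =
      V₂.valuation (algebraMap K ↥(modularFunctionFieldFullC K (M' * q * q)) (algebraMap R K π))) :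
    s34i47_WProps π ((cm85_Vinf (K := K) (M' * q * q) hπ).toSubring ⊓ V₂.toSubring ⊓
        (nsb86_V3 (K := K) M' q hq hM' hπ).toSubring) ∧
      s34i47_ChartProps K π ((cm85_Vinf (K := K) (M' * q * q) hπ).toSubring ⊓ V₂.toSubring ⊓
        (nsb86_V3 (K := K) M' q hq hM' hπ).toSubring)
        (pk85_h2 K (M' * q * q)
          (h2.trans ((dvd_mul_right M' q).trans (dvd_mul_right (M' * q) q)))) ∧
      ∀ σ : K ≃+* K, s34i47_coeffEquiv σ (M' * q * q)
          (pk85_h2 K (M' * q * q)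
            (h2.trans ((dvd_mul_right M' q).trans (dvd_mul_right (M' * q) q)))) =
        pk85_h2 K (M' * q * q)
          (h2.trans ((dvd_mul_right M' q).trans (dvd_mul_right (M' * q) q))) :=
  fb85_frame_level2 M' q hq hM' hπ hqR hMu h2 (nsb86_hL K (M' * q * q)) V₂ hV₂ hπ₂ hs _
    (nsb86_mem_V3 M' q hq hM' hπ)

/-- **(W) + (C) + `σ h = h`** for `W = V₁ ⊓ V₂ ⊓ V₃`, Hauptmodul of level 3, `V₃` in the
`w₂`-membership shape. -/
theorem fb85_frame_level3 [Algebra.IsAlgebraic K Q̄]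
    [Algebra R ↥(modularFunctionFieldFullC K (M' * q * q))]
    [IsScalarTower R K ↥(modularFunctionFieldFullC K (M' * q * q))]
    (hq : q.Prime) (hM' : ¬ q ∣ M') {π : R} (hπ : Irreducible π)
    (hqR : ¬ IsUnit (q : R)) (hMu : IsUnit (M' : R)) (h3 : 3 ∣ M')
    (hL : ((M' * q * q : ℕ) : K) ≠ 0)
    (V₂ : ValuationSubring ↥(modularFunctionFieldFullC K (M' * q * q)))
    (hV₂ : ∀ c ∈ cm85_Vinf (K := K) (M' * q) hπ, al97L_alpha K (M' * q) q c ∈ V₂)
    (hπ₂ : (algebraMap K ↥(modularFunctionFieldFullC K (M' * q * q)) (algebraMap R K π))⁻¹ ∉ V₂)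
    (hs : V₂.valuation (v2g64_s K M' q) ^ (q - 1) =
      V₂.valuation (algebraMap K ↥(modularFunctionFieldFullC K (M' * q * q)) (algebraMap R K π)))
    (V₃ : ValuationSubring ↥(modularFunctionFieldFullC K (M' * q * q)))
    (hV₃mem : ∀ x, x ∈ V₃ ↔
      als86_w2 (algebraMap K Q̄) M' q hq hM' hL x ∈ cm85_Vinf (K := K) (M' * q * q) hπ) :
    s34i47_WProps π ((cm85_Vinf (K := K) (M' * q * q) hπ).toSubring ⊓ V₂.toSubring ⊓ V₃.toSubring) ∧
      s34i47_ChartProps K π ((cm85_Vinf (K := K) (M' * q * q) hπ).toSubring ⊓ V₂.toSubring ⊓ V₃.toSubring)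
        (pk85_h3 K (M' * q * q)
          (h3.trans ((dvd_mul_right M' q).trans (dvd_mul_right (M' * q) q)))) ∧
      ∀ σ : K ≃+* K, s34i47_coeffEquiv σ (M' * q * q)
          (pk85_h3 K (M' * q * q)
            (h3.trans ((dvd_mul_right M' q).trans (dvd_mul_right (M' * q) q)))) =
        pk85_h3 K (M' * q * q)
          (h3.trans ((dvd_mul_right M' q).trans (dvd_mul_right (M' * q) q))) :=
  fq85_frame_level3 M' q hq hM' hπ hqR hMu h3 V₂ V₃ hV₂ hπ₂ hs
    (fun c hc => o3x72_V3_over M' q hq hM' hπ hL V₃ hV₃mem c hc)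
    (o3x72_V3_pi M' q hq hM' hπ hL V₃ hV₃mem) (o3x72_V3_y M' q hq hM' hπ hL V₃ hV₃mem)
    (o3x72_V3_frob M' q hq hM' hπ hqR hL V₃ hV₃mem)

/-- **(W) + (C) + `σ h = h`** for the canonical `V₃ = nsb86_V3`, Hauptmodul of level 3. -/
theorem fb85_frameV3_level3 [Algebra.IsAlgebraic K Q̄]
    [Algebra R ↥(modularFunctionFieldFullC K (M' * q * q))]
    [IsScalarTower R K ↥(modularFunctionFieldFullC K (M' * q * q))]
    (hq : q.Prime) (hM' : ¬ q ∣ M') {π : R} (hπ : Irreducible π)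
    (hqR : ¬ IsUnit (q : R)) (hMu : IsUnit (M' : R)) (h3 : 3 ∣ M')
    (V₂ : ValuationSubring ↥(modularFunctionFieldFullC K (M' * q * q)))
    (hV₂ : ∀ c ∈ cm85_Vinf (K := K) (M' * q) hπ, al97L_alpha K (M' * q) q c ∈ V₂)
    (hπ₂ : (algebraMap K ↥(modularFunctionFieldFullC K (M' * q * q)) (algebraMap R K π))⁻¹ ∉ V₂)
    (hs : V₂.valuation (v2g64_s K M' q) ^ (q - 1) =
      V₂.valuation (algebraMap K ↥(modularFunctionFieldFullC K (M' * q * q)) (algebraMap R K π))) :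
    s34i47_WProps π ((cm85_Vinf (K := K) (M' * q * q) hπ).toSubring ⊓ V₂.toSubring ⊓
        (nsb86_V3 (K := K) M' q hq hM' hπ).toSubring) ∧
      s34i47_ChartProps K π ((cm85_Vinf (K := K) (M' * q * q) hπ).toSubring ⊓ V₂.toSubring ⊓
        (nsb86_V3 (K := K) M' q hq hM' hπ).toSubring)
        (pk85_h3 K (M' * q * q)
          (h3.trans ((dvd_mul_right M' q).trans (dvd_mul_right (M' * q) q)))) ∧
      ∀ σ : K ≃+* K, s34i47_coeffEquiv σ (M' * q * q)
          (pk85_h3 K (M' * q * q)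
            (h3.trans ((dvd_mul_right M' q).trans (dvd_mul_right (M' * q) q)))) =
        pk85_h3 K (M' * q * q)
          (h3.trans ((dvd_mul_right M' q).trans (dvd_mul_right (M' * q) q))) :=
  fb85_frame_level3 M' q hq hM' hπ hqR hMu h3 (nsb86_hL K (M' * q * q)) V₂ hV₂ hπ₂ hs _
    (nsb86_mem_V3 M' q hq hM' hπ)

end fb85

end Fermat.Agent.S36
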