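import Mathlib

/-!
# S36 lab (helper10): regularity of a node from a "double" function — abstract, Mathlib only

`(REG-q)` / `κ = 1` twin (report #2825).  Setting, in the elementwise valuation-subring language
of the S34 frame:

* `A` a local subring of a field `K` (think: the local ring `B_n` of the normal level-`qM''`
  chart at a node `n`), which is the intersection of two valuation subrings `Vi`, `V0` (the two
  branches through `n`) and a family `H` (the horizontal valuations through `n`): `hKr`;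
* `q ∈ A` a common non-unit of `Vi`, `V0` and a unit of every `O ∈ H`; "`x ≡ 0` on the `∞`-branch"
  is written `q⁻¹ * x ∈ Vi` throughout;
* `T ∈ A` whose image generates the maximal ideal of `A / (A ∩ q Vi)` (`hmax`): the `∞`-branch
  is smooth at `n` with local coordinate `T`;
* `N ∈ A ∩ q Vi` (the Kronecker factor `β(t^σ) - α(t)^q`) and `D` (the derivative
  `dβ(t^σ)/dα(t)`), with `v_∞(D) = 1`, `v_0(D) ≤ -1`, and no horizontal zero of `D` through `n`;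
* the reductions `gbar = red_∞(N / q)` and `ρ = red_∞(D / q)` satisfy: `ρ` is regular at `n` if
  `gbar` is, and `ρ` has a pole of order `≤ m + 1` if `gbar` has one of order `≤ m` (`m ≥ 1`)
  — this is what `ρ = tbar^(q-1) + d gbar / d tbar` gives.

Conclusion (`nr10_node_regular`): `N * (N / D) = q * unit`, the `∞`-branch ideal is `N A`, the
`0`-branch ideal is `(N / D) A` and the maximal ideal of `A` is `(N / D, N)`: `A` is regular.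
-/

set_option autoImplicit false

namespace Fermat.Agent.S36

variable {K : Type*} [Field K]

/-- `f` is congruent, modulo `q Vi`, to an element of `A`. -/
def nr10_cong (A : Subring K) (Vi : ValuationSubring K) (q f : K) : Prop :=
  ∃ a ∈ A, q⁻¹ * (f - a) ∈ Vi

/-- In a local subring `A ⊆ Vi` in which `q` is a non-unit of `Vi`: `1 - p` is a unit of `A` for
every `p ∈ A ∩ q Vi`. -/
theorem nr10_one_sub_unit (A : Subring K) (Vi : ValuationSubring K) (q : K)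
    (hAi : ∀ x ∈ A, x ∈ Vi) (hloc : ∀ x ∈ A, x⁻¹ ∈ A ∨ (1 - x)⁻¹ ∈ A) (hqi : q⁻¹ ∉ Vi)
    (p : K) (hp : p ∈ A) (hpi : q⁻¹ * p ∈ Vi) : (1 - p)⁻¹ ∈ A := by
  rcases hloc p hp with h | h
  · by_cases hp0 : p = 0
    · subst hp0
      simp
    · exfalso
      apply hqi
      have h1 : q⁻¹ = q⁻¹ * p * p⁻¹ := by field_simp
      rw [h1]
      exact Vi.mul_mem _ _ hpi (hAi _ h)
  · exact h

/-- Something congruent mod `q Vi` to a unit of `A` is non-zero. -/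
theorem nr10_ne_zero_of_cong (A : Subring K) (Vi : ValuationSubring K) (q : K)
    (hAi : ∀ x ∈ A, x ∈ Vi) (hqi : q⁻¹ ∉ Vi)
    (u x : K) (hu' : u⁻¹ ∈ A) (hu0 : u ≠ 0) (hxu : q⁻¹ * (x - u) ∈ Vi) : x ≠ 0 := by
  rintro rfl
  apply hqi
  have h1 : q⁻¹ = -(q⁻¹ * (0 - u)) * u⁻¹ := by
    rw [zero_sub, mul_neg, neg_neg, mul_assoc, mul_inv_cancel₀ hu0, mul_one]
  rw [h1]
  exact Vi.mul_mem _ _ (Vi.neg_mem _ hxu) (hAi _ hu')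

/-- A unit of `A` modulo `q Vi` is a unit of `A`. -/
theorem nr10_unit_of_cong (A : Subring K) (Vi : ValuationSubring K) (q : K)
    (hAi : ∀ x ∈ A, x ∈ Vi) (hloc : ∀ x ∈ A, x⁻¹ ∈ A ∨ (1 - x)⁻¹ ∈ A) (hqi : q⁻¹ ∉ Vi)
    (u x : K) (hu : u ∈ A) (hu' : u⁻¹ ∈ A) (hu0 : u ≠ 0) (hx : x ∈ A)
    (hxu : q⁻¹ * (x - u) ∈ Vi) : x⁻¹ ∈ A := by
  have hx0 : x ≠ 0 := nr10_ne_zero_of_cong A Vi q hAi hqi u x hu' hu0 hxu
  have hp : (u - x) * u⁻¹ ∈ A := A.mul_mem (A.sub_mem hu hx) hu'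
  have hpi : q⁻¹ * ((u - x) * u⁻¹) ∈ Vi := by
    have h1 : q⁻¹ * ((u - x) * u⁻¹) = -(q⁻¹ * (x - u)) * u⁻¹ := by ring
    rw [h1]
    exact Vi.mul_mem _ _ (Vi.neg_mem _ hxu) (hAi _ hu')
  have h := nr10_one_sub_unit A Vi q hAi hloc hqi _ hp hpi
  have h2 : x⁻¹ = u⁻¹ * (1 - (u - x) * u⁻¹)⁻¹ := by
    have h3 : 1 - (u - x) * u⁻¹ = x * u⁻¹ := by field_simp; ring
    rw [h3]
    field_simp
  rw [h2]
  exact A.mul_mem hu' h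

/-- An element of `A` which lies in `q V0` (with `q` a non-unit of `V0 ⊇ A`) and is non-zero is
not a unit of `A`. -/
theorem nr10_not_unit (A : Subring K) (V0 : ValuationSubring K) (q : K)
    (hA0 : ∀ x ∈ A, x ∈ V0) (hq0 : q⁻¹ ∉ V0) (x : K) (hx0 : x ≠ 0) (hx : q⁻¹ * x ∈ V0) :
    x⁻¹ ∉ A := by
  intro h
  apply hq0
  have h1 : q⁻¹ = q⁻¹ * x * x⁻¹ := by field_simp
  rw [h1]
  exact V0.mul_mem _ _ hx (hA0 _ h)

/-- Powers preserve congruences modulo `q Vi`. -/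
theorem nr10_pow_cong (Vi : ValuationSubring K) (q x y : K) (hx : x ∈ Vi) (hy : y ∈ Vi)
    (hxy : q⁻¹ * (x - y) ∈ Vi) (m : ℕ) : q⁻¹ * (x ^ m - y ^ m) ∈ Vi := by
  induction m with
  | zero => simp
  | succ k ih =>
    have h1 : q⁻¹ * (x ^ (k + 1) - y ^ (k + 1)) =
        x * (q⁻¹ * (x ^ k - y ^ k)) + q⁻¹ * (x - y) * y ^ k := by ring
    rw [h1]
    exact Vi.add_mem _ _ (Vi.mul_mem _ _ hx ih) (Vi.mul_mem _ _ hxy (pow_mem hy k))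

/-- **Regularity of a node from the derivative `D`** (see the module docstring). -/
theorem nr10_node_regular (A : Subring K) (Vi V0 : ValuationSubring K)
    (H : Set (ValuationSubring K)) (q N D T : K)
    (hAi : ∀ x ∈ A, x ∈ Vi) (hA0 : ∀ x ∈ A, x ∈ V0) (hAH : ∀ O ∈ H, ∀ x ∈ A, x ∈ O)
    (hKr : ∀ x : K, x ∈ Vi → x ∈ V0 → (∀ O ∈ H, x ∈ O) → x ∈ A)
    (hloc : ∀ x ∈ A, x⁻¹ ∈ A ∨ (1 - x)⁻¹ ∈ A)
    (hq : q ∈ A) (hqi : q⁻¹ ∉ Vi) (hq0 : q⁻¹ ∉ V0) (hqH : ∀ O ∈ H, q⁻¹ ∈ O)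
    (hT : T ∈ A) (hT0 : T ≠ 0) (hTi : T⁻¹ ∈ Vi)
    (hmax : ∀ x ∈ A, x⁻¹ ∈ A ∨ ∃ a ∈ A, q⁻¹ * (x - T * a) ∈ Vi)
    (hN : N ∈ A) (hNi : q⁻¹ * N ∈ Vi)
    (hD : D ≠ 0) (hDi' : q * D⁻¹ ∈ Vi) (hD0 : (q * D)⁻¹ ∈ V0)
    (hDH : ∀ O ∈ H, D⁻¹ ∈ O)
    (hpole : ∃ k : ℕ, nr10_cong A Vi q (T ^ k * (q⁻¹ * N)))
    (hder0 : nr10_cong A Vi q (q⁻¹ * N) → nr10_cong A Vi q (q⁻¹ * D))
    (hder : ∀ m : ℕ, 1 ≤ m → nr10_cong A Vi q (T ^ m * (q⁻¹ * N)) →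
      nr10_cong A Vi q (T ^ (m + 1) * (q⁻¹ * D))) :
    ∃ U : K, U ∈ A ∧ U⁻¹ ∈ A ∧ N * D⁻¹ ∈ A ∧ N * (N * D⁻¹) = q * U ∧ N ≠ 0 ∧
      (∀ x ∈ A, q⁻¹ * x ∈ Vi → N⁻¹ * x ∈ A) ∧
      (∀ x ∈ A, q⁻¹ * x ∈ V0 → (N * D⁻¹)⁻¹ * x ∈ A) ∧
      (∀ x ∈ A, x⁻¹ ∈ A ∨ ∃ a ∈ A, ∃ b ∈ A, x = a * (N * D⁻¹) + b * N) := by
  classical
  have hq_ne : q ≠ 0 := by
    rintro rfl
    exact hqi (by simp)
  -- Step 1: `E = q / D` lies in `A` and in `q V0`: it is a non-unit of `A`.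
  have hE : q * D⁻¹ ∈ A := by
    refine hKr _ hDi' ?_ (fun O hO => O.mul_mem _ _ (hAH O hO _ hq) (hDH O hO))
    have h1 : q * D⁻¹ = q * q * (q * D)⁻¹ := by field_simp
    rw [h1]
    exact V0.mul_mem _ _ (V0.mul_mem _ _ (hA0 _ hq) (hA0 _ hq)) hD0
  have hE0 : q⁻¹ * (q * D⁻¹) ∈ V0 := by
    have h1 : q⁻¹ * (q * D⁻¹) = q * (q * D)⁻¹ := by field_simp
    rw [h1]
    exact V0.mul_mem _ _ (hA0 _ hq) hD0
  have hE_ne : q * D⁻¹ ≠ 0 := mul_ne_zero hq_ne (inv_ne_zero hD)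
  have hE_nu : (q * D⁻¹)⁻¹ ∉ A := nr10_not_unit A V0 q hA0 hq0 _ hE_ne hE0
  -- Step 2: `gbar` is not regular at `n`.
  have h0 : ¬ nr10_cong A Vi q (q⁻¹ * N) := by
    intro h
    obtain ⟨b, hb, hbi⟩ := hder0 h
    have hpi : q⁻¹ * (q * D⁻¹ * b - 1) ∈ Vi := by
      have h1 : q⁻¹ * (q * D⁻¹ * b - 1) = -((q * D⁻¹) * (q⁻¹ * (q⁻¹ * D - b))) := by
        field_simp
        ring
      rw [h1]
      exact Vi.neg_mem _ (Vi.mul_mem _ _ hDi' hbi)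
    have hu : (q * D⁻¹ * b)⁻¹ ∈ A :=
      nr10_unit_of_cong A Vi q hAi hloc hqi 1 (q * D⁻¹ * b) A.one_mem (by simp)
        one_ne_zero (A.mul_mem hE hb) hpi
    have hEb : q * D⁻¹ * b ≠ 0 :=
      nr10_ne_zero_of_cong A Vi q hAi hqi 1 _ (by simp) one_ne_zero hpi
    have hb0 : b ≠ 0 := right_ne_zero_of_mul hEb
    apply hE_nu
    have h2 : (q * D⁻¹)⁻¹ = b * (q * D⁻¹ * b)⁻¹ := by field_simp
    rw [h2]
    exact A.mul_mem hb hu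
  -- Step 3: the exact pole order `m ≥ 1` of `gbar`, with unit leading coefficient `a`.
  have hP : ∃ k : ℕ, nr10_cong A Vi q (T ^ k * (q⁻¹ * N)) := hpole
  obtain ⟨m, hPm, hmin⟩ : ∃ m : ℕ, nr10_cong A Vi q (T ^ m * (q⁻¹ * N)) ∧
      ∀ k < m, ¬ nr10_cong A Vi q (T ^ k * (q⁻¹ * N)) :=
    ⟨Nat.find hP, Nat.find_spec hP, fun k hk => Nat.find_min hP hk⟩
  have hm1 : 1 ≤ m := by
    rcases Nat.eq_zero_or_pos m with h | h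
    · exfalso
      apply h0
      rw [h] at hPm
      simpa using hPm
    · exact h
  obtain ⟨k, hk⟩ : ∃ k, m = k + 1 := ⟨m - 1, by omega⟩
  obtain ⟨a, ha, hai⟩ := hPm
  have hdesc : ∀ a' ∈ A, q⁻¹ * (a - T * a') ∈ Vi → False := by
    intro a' ha' ha'i
    apply hmin k (by omega)
    refine ⟨a', ha', ?_⟩
    have h1 : q⁻¹ * (T ^ k * (q⁻¹ * N) - a') =
        T⁻¹ * (q⁻¹ * (T ^ m * (q⁻¹ * N) - a) + q⁻¹ * (a - T * a')) := by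
      rw [hk, pow_succ]
      field_simp
      ring
    rw [h1]
    exact Vi.mul_mem _ _ hTi (Vi.add_mem _ _ hai ha'i)
  have ha0 : a ≠ 0 := by
    rintro rfl
    exact hdesc 0 A.zero_mem (by simp)
  have ha' : a⁻¹ ∈ A := by
    rcases hmax a ha with h | ⟨a', ha', ha'i⟩
    · exact h
    · exact (hdesc a' ha' ha'i).elim
  have hN0 : N ≠ 0 := by
    rintro rfl
    apply hqi
    have h1 : q⁻¹ = -(q⁻¹ * (T ^ m * (q⁻¹ * 0) - a)) * a⁻¹ := by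
      rw [mul_zero, mul_zero, zero_sub, mul_neg, neg_neg, mul_assoc, mul_inv_cancel₀ ha0, mul_one]
    rw [h1]
    exact Vi.mul_mem _ _ (Vi.neg_mem _ hai) (hAi _ ha')
  -- Step 4: `Y = N / D` lies in `A ∩ q V0` and restricts to a uniformiser of the `∞`-branch.
  obtain ⟨b, hb, hbi⟩ := hder m hm1 ⟨a, ha, hai⟩
  have hY0' : q⁻¹ * (N * D⁻¹) ∈ V0 := by
    have h1 : q⁻¹ * (N * D⁻¹) = N * (q * D)⁻¹ := by field_simp
    rw [h1]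
    exact V0.mul_mem _ _ (hA0 _ hN) hD0
  have hYA : N * D⁻¹ ∈ A := by
    refine hKr _ ?_ ?_ (fun O hO => O.mul_mem _ _ (hAH O hO _ hN) (hDH O hO))
    · have h1 : N * D⁻¹ = (q⁻¹ * N) * (q * D⁻¹) := by field_simp
      rw [h1]
      exact Vi.mul_mem _ _ hNi hDi'
    · have h1 : N * D⁻¹ = q * (q⁻¹ * (N * D⁻¹)) := by field_simp
      rw [h1]
      exact V0.mul_mem _ _ (hA0 _ hq) hY0'
  have hY_ne : N * D⁻¹ ≠ 0 := mul_ne_zero hN0 (inv_ne_zero hD)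
  have hYb : q⁻¹ * (N * D⁻¹ * b - T * a) ∈ Vi := by
    have h1 : q⁻¹ * (N * D⁻¹ * b - T * a) = T * (q⁻¹ * (T ^ m * (q⁻¹ * N) - a)) -
        N * D⁻¹ * (q⁻¹ * (T ^ (m + 1) * (q⁻¹ * D) - b)) := by
      field_simp
      ring
    rw [h1]
    exact sub_mem (Vi.mul_mem _ _ (hAi _ hT) hai) (Vi.mul_mem _ _ (hAi _ hYA) hbi)
  obtain ⟨c, hc, hci⟩ : ∃ c ∈ A, q⁻¹ * (N * D⁻¹ - T * c) ∈ Vi := by
    rcases hmax _ hYA with h | h
    · exact absurd h (nr10_not_unit A V0 q hA0 hq0 _ hY_ne hY0')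
    · exact h
  have hcb : q⁻¹ * (c * b - a) ∈ Vi := by
    have h1 : q⁻¹ * (c * b - a) =
        T⁻¹ * (q⁻¹ * (N * D⁻¹ * b - T * a) - b * (q⁻¹ * (N * D⁻¹ - T * c))) := by
      field_simp
      ring
    rw [h1]
    exact Vi.mul_mem _ _ hTi (sub_mem hYb (Vi.mul_mem _ _ (hAi _ hb) hci))
  have hcb' : (c * b)⁻¹ ∈ A :=
    nr10_unit_of_cong A Vi q hAi hloc hqi a (c * b) ha ha' ha0 (A.mul_mem hc hb) hcb
  have hcb0 : c * b ≠ 0 := nr10_ne_zero_of_cong A Vi q hAi hqi a _ ha' ha0 hcb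
  have hc0 : c ≠ 0 := left_ne_zero_of_mul hcb0
  have hb0 : b ≠ 0 := right_ne_zero_of_mul hcb0
  have hc' : c⁻¹ ∈ A := by
    have h1 : c⁻¹ = b * (c * b)⁻¹ := by field_simp
    rw [h1]
    exact A.mul_mem hb hcb'
  -- Step 5: `U = Y ^ m * (N / q)` is a unit of `A`.
  have hUi : (N * D⁻¹) ^ m * (q⁻¹ * N) ∈ Vi := Vi.mul_mem _ _ (pow_mem (hAi _ hYA) m) hNi
  have hU0 : (N * D⁻¹) ^ m * (q⁻¹ * N) ∈ V0 := by
    have hqk : q ^ k * q⁻¹ ^ k = 1 := by rw [← mul_pow, mul_inv_cancel₀ hq_ne, one_pow]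
    have h1 : (N * D⁻¹) ^ m * (q⁻¹ * N) = q ^ k * (q⁻¹ * (N * D⁻¹)) ^ m * N := by
      rw [hk, mul_pow q⁻¹, pow_succ q⁻¹ k]
      linear_combination (-(q⁻¹ * (N * D⁻¹) ^ (k + 1) * N)) * hqk
    rw [h1]
    exact V0.mul_mem _ _ (V0.mul_mem _ _ (pow_mem (hA0 _ hq) k) (pow_mem hY0' m)) (hA0 _ hN)
  have hUA : (N * D⁻¹) ^ m * (q⁻¹ * N) ∈ A :=
    hKr _ hUi hU0 (fun O hO => O.mul_mem _ _ (pow_mem (hAH O hO _ hYA) m)
      (O.mul_mem _ _ (hqH O hO) (hAH O hO _ hN)))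
  have hUc : q⁻¹ * ((N * D⁻¹) ^ m * (q⁻¹ * N) - c ^ m * a) ∈ Vi := by
    have hpw := nr10_pow_cong Vi q (N * D⁻¹) (T * c) (hAi _ hYA)
      (Vi.mul_mem _ _ (hAi _ hT) (hAi _ hc)) hci m
    have h1 : q⁻¹ * ((N * D⁻¹) ^ m * (q⁻¹ * N) - c ^ m * a) =
        (q⁻¹ * N) * (q⁻¹ * ((N * D⁻¹) ^ m - (T * c) ^ m)) +
          c ^ m * (q⁻¹ * (T ^ m * (q⁻¹ * N) - a)) := by
      ring
    rw [h1]
    exact Vi.add_mem _ _ (Vi.mul_mem _ _ hNi hpw) (Vi.mul_mem _ _ (pow_mem (hAi _ hc) m) hai)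
  have hcma' : (c ^ m * a)⁻¹ ∈ A := by
    rw [mul_inv, ← inv_pow]
    exact A.mul_mem (pow_mem hc' m) ha'
  have hU' : ((N * D⁻¹) ^ m * (q⁻¹ * N))⁻¹ ∈ A :=
    nr10_unit_of_cong A Vi q hAi hloc hqi (c ^ m * a) _ (A.mul_mem (pow_mem hc m) ha) hcma'
      (mul_ne_zero (pow_ne_zero m hc0) ha0) hUA hUc
  have hU_ne : (N * D⁻¹) ^ m * (q⁻¹ * N) ≠ 0 :=
    mul_ne_zero (pow_ne_zero m hY_ne) (mul_ne_zero (inv_ne_zero hq_ne) hN0)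
  -- Step 6: `m = 1`.
  have hm_eq : m = 1 := by
    by_contra hne
    obtain ⟨j, hj⟩ : ∃ j, m = j + 2 := ⟨m - 2, by omega⟩
    have hqj : q ^ j * q⁻¹ ^ j = 1 := by rw [← mul_pow, mul_inv_cancel₀ hq_ne, one_pow]
    have h1 : q⁻¹ * ((N * D⁻¹) ^ m * (q⁻¹ * N)) = q ^ j * (q⁻¹ * (N * D⁻¹)) ^ m * N := by
      rw [hj, mul_pow q⁻¹, pow_add q⁻¹ j 2]
      linear_combination (-(q⁻¹ ^ 2 * (N * D⁻¹) ^ (j + 2) * N)) * hqj
    have h2 : q⁻¹ * ((N * D⁻¹) ^ m * (q⁻¹ * N)) ∈ V0 := by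
      rw [h1]
      exact V0.mul_mem _ _ (V0.mul_mem _ _ (pow_mem (hA0 _ hq) j) (pow_mem hY0' m)) (hA0 _ hN)
    exact nr10_not_unit A V0 q hA0 hq0 _ hU_ne h2 hU'
  subst hm_eq
  rw [pow_one] at hUA hU' hU_ne hUi hU0
  -- the branch ideals are principal
  have hpinf : ∀ x ∈ A, q⁻¹ * x ∈ Vi → N⁻¹ * x ∈ A := by
    intro x hx hxi
    have h1 : N⁻¹ * x = x * (N * D⁻¹) * q⁻¹ * (N * D⁻¹ * (q⁻¹ * N))⁻¹ := by field_simp
    refine hKr _ ?_ ?_ ?_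
    · have h2 : N⁻¹ * x = (q⁻¹ * x) * (N * D⁻¹) * (N * D⁻¹ * (q⁻¹ * N))⁻¹ := by
        rw [h1]
        ring
      rw [h2]
      exact Vi.mul_mem _ _ (Vi.mul_mem _ _ hxi (hAi _ hYA)) (hAi _ hU')
    · have h2 : N⁻¹ * x = x * (q⁻¹ * (N * D⁻¹)) * (N * D⁻¹ * (q⁻¹ * N))⁻¹ := by
        rw [h1]
        ring
      rw [h2]
      exact V0.mul_mem _ _ (V0.mul_mem _ _ (hA0 _ hx) hY0') (hA0 _ hU')
    · intro O hO
      rw [h1]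
      exact O.mul_mem _ _ (O.mul_mem _ _ (O.mul_mem _ _ (hAH O hO _ hx) (hAH O hO _ hYA))
        (hqH O hO)) (hAH O hO _ hU')
  have hp0 : ∀ x ∈ A, q⁻¹ * x ∈ V0 → (N * D⁻¹)⁻¹ * x ∈ A := by
    intro x hx hx0
    have h1 : (N * D⁻¹)⁻¹ * x = x * N * q⁻¹ * (N * D⁻¹ * (q⁻¹ * N))⁻¹ := by field_simp
    refine hKr _ ?_ ?_ ?_
    · have h2 : (N * D⁻¹)⁻¹ * x = x * (q⁻¹ * N) * (N * D⁻¹ * (q⁻¹ * N))⁻¹ := by
        rw [h1]
        ring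
      rw [h2]
      exact Vi.mul_mem _ _ (Vi.mul_mem _ _ (hAi _ hx) hNi) (hAi _ hU')
    · have h2 : (N * D⁻¹)⁻¹ * x = (q⁻¹ * x) * N * (N * D⁻¹ * (q⁻¹ * N))⁻¹ := by
        rw [h1]
        ring
      rw [h2]
      exact V0.mul_mem _ _ (V0.mul_mem _ _ hx0 (hA0 _ hN)) (hA0 _ hU')
    · intro O hO
      rw [h1]
      exact O.mul_mem _ _ (O.mul_mem _ _ (O.mul_mem _ _ (hAH O hO _ hx) (hAH O hO _ hN))
        (hqH O hO)) (hAH O hO _ hU')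
  refine ⟨N * D⁻¹ * (q⁻¹ * N), hUA, hU', hYA, by field_simp, hN0, hpinf, hp0, ?_⟩
  -- the maximal ideal is `(Y, N)`
  intro x hx
  rcases hmax x hx with h | ⟨a'', ha'', hxi⟩
  · exact Or.inl h
  · right
    -- `x = T a'' + p`, `T a = Y b - p₁`
    have hp'A : x - T * a'' - (N * D⁻¹ * b - T * a) * a⁻¹ * a'' ∈ A :=
      A.sub_mem (A.sub_mem hx (A.mul_mem hT ha''))
        (A.mul_mem (A.mul_mem (A.sub_mem (A.mul_mem hYA hb) (A.mul_mem hT ha)) ha') ha'')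
    have hp'i : q⁻¹ * (x - T * a'' - (N * D⁻¹ * b - T * a) * a⁻¹ * a'') ∈ Vi := by
      have h1 : q⁻¹ * (x - T * a'' - (N * D⁻¹ * b - T * a) * a⁻¹ * a'') =
          q⁻¹ * (x - T * a'') - q⁻¹ * (N * D⁻¹ * b - T * a) * (a⁻¹ * a'') := by ring
      rw [h1]
      exact sub_mem hxi (Vi.mul_mem _ _ hYb (hAi _ (A.mul_mem ha' ha'')))
    refine ⟨b * a⁻¹ * a'', A.mul_mem (A.mul_mem hb ha') ha'',
      N⁻¹ * (x - T * a'' - (N * D⁻¹ * b - T * a) * a⁻¹ * a''), hpinf _ hp'A hp'i, ?_⟩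
    field_simp
    ring

/-- **Smooth point of the `∞`-branch**: if only `Vi` (and the horizontal `O ∈ H`) pass through
`n`, `v_∞(D) = 1` and `D` is a unit of every `O ∈ H`, then `D / q` is a unit of `A`
(so `ρ = red_∞(D / q)` is finite and non-zero at `n`). -/
theorem nr10_smooth_unit (A : Subring K) (Vi : ValuationSubring K)
    (H : Set (ValuationSubring K)) (q D : K)
    (hAH : ∀ O ∈ H, ∀ x ∈ A, x ∈ O)
    (hKr : ∀ x : K, x ∈ Vi → (∀ O ∈ H, x ∈ O) → x ∈ A)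
    (hq : q ∈ A) (hqH : ∀ O ∈ H, q⁻¹ ∈ O)
    (hDi : q⁻¹ * D ∈ Vi) (hDi' : q * D⁻¹ ∈ Vi)
    (hDH : ∀ O ∈ H, D ∈ O ∧ D⁻¹ ∈ O) :
    q⁻¹ * D ∈ A ∧ (q⁻¹ * D)⁻¹ ∈ A := by
  refine ⟨hKr _ hDi (fun O hO => O.mul_mem _ _ (hqH O hO) (hDH O hO).1), ?_⟩
  have h1 : (q⁻¹ * D)⁻¹ = q * D⁻¹ := by rw [mul_inv, inv_inv]
  rw [h1]
  exact hKr _ hDi' (fun O hO => O.mul_mem _ _ (hAH O hO _ hq) (hDH O hO).2)

end Fermat.Agent.S36
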