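import Mathlib
import Fermat.Agent.S34.SpecFibre79
import Fermat.Agent.S34.Iface47
import Fermat.Agent.S36.NodeReg10

/-!
# S36 lab, row C-REGq (helper79): the FRAME HALF of the instance of `nr10_node_regular`

Abstract chart language of the S34 lab: `B` a chart (`Subalgebra R F`), `Vi`, `V0` two valuation
subrings of `F` over `R` with uniformiser `π` (shape `hV`), `B ⊆ Vi ⊓ V0` saturated (`hsat`),
the Krull property `s34i47_Krull π B`, `n` a closed point of the special fibre lying on BOTH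
branches, `z` a local coordinate of the `Vi`-branch at `n` (`sf79_Unif`), and one element of
`p_{V0} \ p_{Vi}` (`hsep`).

* `nf79_H π B n`: the set of horizontal valuation subrings through `n`;
* `nf79_frame`: the local ring `A = sf79_loc B n` satisfies ALL the frame hypotheses of
  `nr10_node_regular` (`hAi hA0 hAH hKr hloc hq hqi hq0 hqH hT hT0 hTi hmax`) with
  `q := algebraMap R F π` and `T := z`;
* `nf79_node_regular`: hence the conclusion of `nr10_node_regular` for `A = sf79_loc B n` from the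
  function data `N`, `D` alone (`hN hNi hD hDi' hD0 hDH hpole hder0 hder`).

All names are prefixed `nf79_`.
-/

set_option autoImplicit false

namespace Fermat.Agent.S36

open Fermat.Agent.S34

section NF79

variable {R F : Type*} [CommRing R] [Field F] [Algebra R F]

/-- The horizontal valuation subrings of `F` through the closed point `n` of the chart `B`. -/
def nf79_H (π : R) (B : Subalgebra R F) (n : Ideal B) : Set (ValuationSubring F) :=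
  {O | s34i47_IsHoriz π O ∧ s34i47_Through B n O}

/-- `B_n ⊆ O` for every horizontal `O` through `n`. -/
theorem nf79_hAH (π : R) (B : Subalgebra R F) (n : Ideal B) [n.IsPrime] :
    ∀ O ∈ nf79_H π B n, ∀ x ∈ sf79_loc B n, x ∈ O := by
  rintro O ⟨-, hB, hinv⟩ x ⟨s, hs, hsx⟩
  have h1 : x = (s : F)⁻¹ * ((s : F) * x) := by
    rw [← mul_assoc, inv_mul_cancel₀ (sf79_ne_zero B n s hs), one_mul]
  rw [h1]
  exact O.mul_mem _ _ (hinv s hs) (hB _ hsx)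

/-- `π` is a unit of every horizontal `O`. -/
theorem nf79_hqH (π : R) (B : Subalgebra R F) (n : Ideal B) :
    ∀ O ∈ nf79_H π B n, (algebraMap R F π)⁻¹ ∈ O := by
  rintro O ⟨hO, -⟩
  exact hO.2.2.2

/-- `B_n` is local (elementwise form). -/
theorem nf79_hloc (B : Subalgebra R F) (n : Ideal B) [hn : n.IsPrime] :
    ∀ x ∈ sf79_loc B n, x⁻¹ ∈ sf79_loc B n ∨ (1 - x)⁻¹ ∈ sf79_loc B n := by
  rintro x ⟨s, hs, hsx⟩
  by_cases hb : (⟨(s : F) * x, hsx⟩ : B) ∈ n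
  · right
    have hc : s - ⟨(s : F) * x, hsx⟩ ∉ n := by
      intro h
      apply hs
      have := n.add_mem h hb
      rwa [sub_add_cancel] at this
    have hx1 : 1 - x ≠ 0 := by
      intro h
      have hx : x = 1 := by linear_combination -h
      apply hs
      have : s = ⟨(s : F) * x, hsx⟩ := Subtype.ext (by simp [hx])
      rw [this]
      exact hb
    refine ⟨s - ⟨(s : F) * x, hsx⟩, hc, ?_⟩
    have : ((s - ⟨(s : F) * x, hsx⟩ : B) : F) * (1 - x)⁻¹ = (s : F) := by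
      push_cast
      field_simp
    rw [this]
    exact s.2
  · left
    have hx0 : x ≠ 0 := by
      rintro rfl
      apply hb
      have : (⟨(s : F) * 0, hsx⟩ : B) = 0 := Subtype.ext (by simp)
      rw [this]
      exact n.zero_mem
    refine ⟨⟨(s : F) * x, hsx⟩, hb, ?_⟩
    have : ((⟨(s : F) * x, hsx⟩ : B) : F) * x⁻¹ = (s : F) := by
      show (s : F) * x * x⁻¹ = (s : F)
      field_simp
    rw [this]
    exact s.2

/-- Krull + saturation: `Vi ⊓ V0 ⊓ (horizontal through n) ⊆ B_n`. -/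
theorem nf79_hKr (π : R) (B : Subalgebra R F) (Vi V0 : ValuationSubring F)
    (hB₁ : ∀ x ∈ B, x ∈ Vi) (hB₂ : ∀ x ∈ B, x ∈ V0)
    (hπ₁ : (algebraMap R F π)⁻¹ ∉ Vi)
    (hsat : ∀ x ∈ B, (algebraMap R F π)⁻¹ * x ∈ Vi → (algebraMap R F π)⁻¹ * x ∈ V0 →
      (algebraMap R F π)⁻¹ * x ∈ B)
    (hKrull : s34i47_Krull π B) (n : Ideal B) (hn : n.IsMaximal)
    (hπn : algebraMap R B π ∈ n) :
    ∀ x : F, x ∈ Vi → x ∈ V0 → (∀ O ∈ nf79_H π B n, x ∈ O) → x ∈ sf79_loc B n := by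
  intro x hxi hx0 hxH
  have hp0 : algebraMap R F π ≠ 0 := fun h0 => hπ₁ (by rw [h0, inv_zero]; exact Vi.zero_mem)
  have hpB : algebraMap R F π ∈ B := B.algebraMap_mem π
  obtain ⟨s, hs, k, hk⟩ := hKrull n hn hπn x (fun O hO hT => hxH O ⟨hO, hT⟩)
  refine ⟨s, hs, ?_⟩
  have key : ∀ j : ℕ, algebraMap R F π ^ j * ((s : F) * x) ∈ B → (s : F) * x ∈ B := by
    intro j
    induction j with
    | zero => intro h; simpa using h
    | succ j ih =>
      intro h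
      apply ih
      have e : algebraMap R F π ^ j * ((s : F) * x) =
          (algebraMap R F π)⁻¹ * (algebraMap R F π ^ (j + 1) * ((s : F) * x)) := by
        rw [pow_succ]
        field_simp
      rw [e]
      apply hsat _ h
      · rw [← e]
        exact Vi.mul_mem _ _ (pow_mem (hB₁ _ hpB) j) (Vi.mul_mem _ _ (hB₁ _ s.2) hxi)
      · rw [← e]
        exact V0.mul_mem _ _ (pow_mem (hB₂ _ hpB) j) (V0.mul_mem _ _ (hB₂ _ s.2) hx0)
  exact key k hk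

/-- the coordinate `z` of the `Vi`-branch is not in `p_{Vi}`. -/
theorem nf79_coord_not_mem (π : R) (B : Subalgebra R F) (Vi V0 : ValuationSubring F)
    (hB₁ : ∀ x ∈ B, x ∈ Vi)
    (hV₁ : ∀ x ∈ Vi.toSubring, (algebraMap R F π)⁻¹ * x ∉ Vi.toSubring → x⁻¹ ∈ Vi.toSubring)
    (n : Ideal B) [n.IsPrime] (h1 : sf79_OnBr π B Vi.toSubring n)
    (h2 : sf79_OnBr π B V0.toSubring n)
    (z : B) (hz : sf79_Unif π B Vi.toSubring n z)
    (hsep : ∃ δ : B, (algebraMap R F π)⁻¹ * (δ : F) ∈ V0 ∧ (algebraMap R F π)⁻¹ * (δ : F) ∉ Vi) :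
    (algebraMap R F π)⁻¹ * (z : F) ∉ Vi := by
  intro hzi
  obtain ⟨δ, hδ0, hδi⟩ := hsep
  obtain ⟨s, hs, a, ha⟩ := hz.2 δ (h2 δ hδ0)
  apply hδi
  have hsinv : (s : F)⁻¹ ∈ Vi := sf79_inv_mem π B Vi.toSubring hB₁ hV₁ n h1 s hs
  have e : (algebraMap R F π)⁻¹ * (δ : F) = (s : F)⁻¹ *
      ((algebraMap R F π)⁻¹ * ((s : F) * (δ : F) - (a : F) * (z : F)) +
        (a : F) * ((algebraMap R F π)⁻¹ * (z : F))) := by
    have := sf79_ne_zero B n s hs
    field_simp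
    ring
  rw [e]
  exact Vi.mul_mem _ _ hsinv (Vi.add_mem _ _ ha (Vi.mul_mem _ _ (hB₁ _ a.2) hzi))

/-- `z` generates the maximal ideal of `B_n / p_{Vi}` (elementwise form `hmax` of `nr10`). -/
theorem nf79_hmax (π : R) (B : Subalgebra R F) (Vi : ValuationSubring F)
    (hB₁ : ∀ x ∈ B, x ∈ Vi)
    (hV₁ : ∀ x ∈ Vi.toSubring, (algebraMap R F π)⁻¹ * x ∉ Vi.toSubring → x⁻¹ ∈ Vi.toSubring)
    (n : Ideal B) [hn : n.IsPrime] (h1 : sf79_OnBr π B Vi.toSubring n)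
    (z : B) (hz : sf79_Unif π B Vi.toSubring n z) :
    ∀ x ∈ sf79_loc B n, x⁻¹ ∈ sf79_loc B n ∨
      ∃ a ∈ sf79_loc B n, (algebraMap R F π)⁻¹ * (x - (z : F) * a) ∈ Vi := by
  rintro x ⟨s₀, hs₀, hsx⟩
  by_cases hb : (⟨(s₀ : F) * x, hsx⟩ : B) ∈ n
  · right
    obtain ⟨s, hs, a, ha⟩ := hz.2 _ hb
    have hs0 := sf79_ne_zero B n s hs
    have hs₀0 := sf79_ne_zero B n s₀ hs₀
    have hsinv : (s : F)⁻¹ ∈ Vi := sf79_inv_mem π B Vi.toSubring hB₁ hV₁ n h1 s hs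
    have hs₀inv : (s₀ : F)⁻¹ ∈ Vi := sf79_inv_mem π B Vi.toSubring hB₁ hV₁ n h1 s₀ hs₀
    refine ⟨(a : F) * ((s : F) * (s₀ : F))⁻¹, ⟨s * s₀, fun h => (hn.mem_or_mem h).elim hs hs₀, ?_⟩,
      ?_⟩
    · have : ((s * s₀ : B) : F) * ((a : F) * ((s : F) * (s₀ : F))⁻¹) = (a : F) := by
        push_cast
        field_simp
      rw [this]
      exact a.2
    · have e : (algebraMap R F π)⁻¹ * (x - (z : F) * ((a : F) * ((s : F) * (s₀ : F))⁻¹)) =
          (algebraMap R F π)⁻¹ * ((s : F) * ((s₀ : F) * x) - (a : F) * (z : F)) *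
            ((s : F)⁻¹ * (s₀ : F)⁻¹) := by
        field_simp
      rw [e]
      exact Vi.mul_mem _ _ ha (Vi.mul_mem _ _ hsinv hs₀inv)
  · left
    have hx0 : x ≠ 0 := by
      rintro rfl
      apply hb
      have : (⟨(s₀ : F) * 0, hsx⟩ : B) = 0 := Subtype.ext (by simp)
      rw [this]
      exact n.zero_mem
    refine ⟨⟨(s₀ : F) * x, hsx⟩, hb, ?_⟩
    have : ((⟨(s₀ : F) * x, hsx⟩ : B) : F) * x⁻¹ = (s₀ : F) := by
      show (s₀ : F) * x * x⁻¹ = (s₀ : F)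
      field_simp
    rw [this]
    exact s₀.2

/-- **The frame half of the instance of `nr10_node_regular`** at a point `n` of both branches:
with the function data `N`, `D` of `nr10`, the node `n` is regular. -/
theorem nf79_node_regular (π : R) (B : Subalgebra R F) (Vi V0 : ValuationSubring F)
    (hB₁ : ∀ x ∈ B, x ∈ Vi) (hB₂ : ∀ x ∈ B, x ∈ V0)
    (hπ₁ : (algebraMap R F π)⁻¹ ∉ Vi) (hπ₂ : (algebraMap R F π)⁻¹ ∉ V0)
    (hV₁ : ∀ x ∈ Vi.toSubring, (algebraMap R F π)⁻¹ * x ∉ Vi.toSubring → x⁻¹ ∈ Vi.toSubring)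
    (hV₂ : ∀ x ∈ V0.toSubring, (algebraMap R F π)⁻¹ * x ∉ V0.toSubring → x⁻¹ ∈ V0.toSubring)
    (hsat : ∀ x ∈ B, (algebraMap R F π)⁻¹ * x ∈ Vi → (algebraMap R F π)⁻¹ * x ∈ V0 →
      (algebraMap R F π)⁻¹ * x ∈ B)
    (hKrull : s34i47_Krull π B) (n : Ideal B) (hn : n.IsMaximal)
    (hπn : algebraMap R B π ∈ n)
    (h1 : sf79_OnBr π B Vi.toSubring n) (h2 : sf79_OnBr π B V0.toSubring n)
    (z : B) (hz : sf79_Unif π B Vi.toSubring n z)
    (hsep : ∃ δ : B, (algebraMap R F π)⁻¹ * (δ : F) ∈ V0 ∧ (algebraMap R F π)⁻¹ * (δ : F) ∉ Vi)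
    (N D : F)
    (hN : N ∈ sf79_loc B n) (hNi : (algebraMap R F π)⁻¹ * N ∈ Vi)
    (hD : D ≠ 0) (hDi' : algebraMap R F π * D⁻¹ ∈ Vi) (hD0 : (algebraMap R F π * D)⁻¹ ∈ V0)
    (hDH : ∀ O ∈ nf79_H π B n, D⁻¹ ∈ O)
    (hpole : ∃ k : ℕ, nr10_cong (sf79_loc B n) Vi (algebraMap R F π)
      ((z : F) ^ k * ((algebraMap R F π)⁻¹ * N)))
    (hder0 : nr10_cong (sf79_loc B n) Vi (algebraMap R F π) ((algebraMap R F π)⁻¹ * N) →
      nr10_cong (sf79_loc B n) Vi (algebraMap R F π) ((algebraMap R F π)⁻¹ * D))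
    (hder : ∀ m : ℕ, 1 ≤ m →
      nr10_cong (sf79_loc B n) Vi (algebraMap R F π) ((z : F) ^ m * ((algebraMap R F π)⁻¹ * N)) →
      nr10_cong (sf79_loc B n) Vi (algebraMap R F π)
        ((z : F) ^ (m + 1) * ((algebraMap R F π)⁻¹ * D))) :
    ∃ U : F, U ∈ sf79_loc B n ∧ U⁻¹ ∈ sf79_loc B n ∧ N * D⁻¹ ∈ sf79_loc B n ∧
      N * (N * D⁻¹) = algebraMap R F π * U ∧ N ≠ 0 ∧
      (∀ x ∈ sf79_loc B n, (algebraMap R F π)⁻¹ * x ∈ Vi → N⁻¹ * x ∈ sf79_loc B n) ∧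
      (∀ x ∈ sf79_loc B n, (algebraMap R F π)⁻¹ * x ∈ V0 → (N * D⁻¹)⁻¹ * x ∈ sf79_loc B n) ∧
      (∀ x ∈ sf79_loc B n, x⁻¹ ∈ sf79_loc B n ∨
        ∃ a ∈ sf79_loc B n, ∃ b ∈ sf79_loc B n, x = a * (N * D⁻¹) + b * N) := by
  haveI hnp : n.IsPrime := hn.isPrime
  have hAi : ∀ x ∈ sf79_loc B n, x ∈ Vi :=
    fun x hx => sf79_loc_le π B Vi.toSubring hB₁ hV₁ n h1 hx
  have hA0 : ∀ x ∈ sf79_loc B n, x ∈ V0 :=
    fun x hx => sf79_loc_le π B V0.toSubring hB₂ hV₂ n h2 hx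
  have hzn : (algebraMap R F π)⁻¹ * (z : F) ∉ Vi :=
    nf79_coord_not_mem π B Vi V0 hB₁ hV₁ n h1 h2 z hz hsep
  have hz0 : (z : F) ≠ 0 := by
    intro h
    apply hzn
    rw [h, mul_zero]
    exact Vi.zero_mem
  exact nr10_node_regular (sf79_loc B n) Vi V0 (nf79_H π B n) (algebraMap R F π) N D (z : F)
    hAi hA0 (nf79_hAH π B n)
    (nf79_hKr π B Vi V0 hB₁ hB₂ hπ₁ hsat hKrull n hn hπn)
    (nf79_hloc B n)
    (sf79_le_loc B n _ (B.algebraMap_mem π)) hπ₁ hπ₂ (nf79_hqH π B n)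
    (sf79_le_loc B n _ z.2) hz0 (hV₁ _ (hB₁ _ z.2) hzn)
    (nf79_hmax π B Vi hB₁ hV₁ n h1 z hz)
    hN hNi hD hDi' hD0 hDH hpole hder0 hder

end NF79

end Fermat.Agent.S36
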