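import Mathlib
import Fermat.Agent.S34.FrameLS79
import Fermat.Agent.S34.Krull65
import Fermat.Agent.S36.NodeFrame79

/-!
# S36 lab, row C-REGq (helper79): `nr10_node_regular` on the CANONICAL level-`q` frame

Canonical frame data of `Iface47c` at level `M' * q` (`q ∤ M'`, any discrete valuation ring `R`
of a number field `K` of residue characteristic `q`): `V_∞ = cm85_Vinf (M' * q) hπ`,
`V_0 = s34i47c_V0 M' q hq hM' hπ`, `h` an admissible Hauptmodul, charts `pk15_chart R {h}` and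
`pk15_chart R {h⁻¹}`.

* `nf79c_node_regular` / `nf79c_node_regular'`: at a closed point `n` of the special fibre of the
  chart of `h` (resp. `h⁻¹`) lying on BOTH branches, for ANY local coordinate `z` of the
  `∞`-branch at `n` (`sf79_Unif`; one exists by `sf79f_smooth_inf`), the function data `N`, `D` of
  `nr10_node_regular` (`hN hNi hD hDi' hD0 hDH hpole hder0 hder`, with `q := π`, `T := z`) give
  the regularity of the node: `N * (N / D) = π * unit`, `p_∞ B_n = N B_n`, `p_0 B_n = (N/D) B_n`,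
  `n B_n = (N / D, N)`.

Everything else (`hAi hA0 hAH hKr hloc hq hqi hq0 hqH hT hTi hmax`) is discharged here from
`fs85_frameSat`, `kr65_Pkg_Krull`, `uvf22_UVAt` and the uniformiser properties of `π`.

All names are prefixed `nf79c_`.
-/

set_option autoImplicit false

open ModularCurve AlgebraicCurve IntermediateField

namespace Fermat.Agent.S36

open Fermat.Agent.S18 Fermat.Agent.S34

local notation "Q̄" => AlgebraicClosure ℚ

section NF79C

variable {R K : Type} [CommRing R] [IsDomain R] [IsDiscreteValuationRing R] [Field K]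
  [NumberField K] [Algebra K Q̄] [Algebra R K] [IsFractionRing R K]
  (M' q : ℕ) [NeZero M'] [NeZero q] (hq : q.Prime) (hM' : ¬ q ∣ M')
  [Algebra R ↥(modularFunctionFieldFullC K (M' * q))]
  [IsScalarTower R K ↥(modularFunctionFieldFullC K (M' * q))] {π : R} (hπ : Irreducible π)

/-- common core for the two charts. -/
theorem nf79c_aux (B : Subalgebra R ↥(modularFunctionFieldFullC K (M' * q)))
    (hBW : ∀ x ∈ B, x ∈ s34i47c_W (K := K) M' q hq hM' hπ)
    (hsatB : ∀ x ∈ B, (algebraMap R ↥(modularFunctionFieldFullC K (M' * q)) π)⁻¹ * x ∈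
      s34i47c_W (K := K) M' q hq hM' hπ →
      (algebraMap R ↥(modularFunctionFieldFullC K (M' * q)) π)⁻¹ * x ∈ B)
    (hKrull : s34i47_Krull π B)
    (hUV : sf79_UVAt π B (cm85_Vinf (K := K) (M' * q) hπ).toSubring
      (s34i47c_V0 (K := K) M' q hq hM' hπ).toSubring)
    (n : Ideal B) (hn : n.IsMaximal) (hπn : algebraMap R B π ∈ n)
    (h1 : sf79_OnBr π B (cm85_Vinf (K := K) (M' * q) hπ).toSubring n)
    (h2 : sf79_OnBr π B (s34i47c_V0 (K := K) M' q hq hM' hπ).toSubring n)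
    (z : B) (hz : sf79_Unif π B (cm85_Vinf (K := K) (M' * q) hπ).toSubring n z)
    (N D : ↥(modularFunctionFieldFullC K (M' * q)))
    (hN : N ∈ sf79_loc B n)
    (hNi : (algebraMap R ↥(modularFunctionFieldFullC K (M' * q)) π)⁻¹ * N ∈
      cm85_Vinf (K := K) (M' * q) hπ)
    (hD : D ≠ 0)
    (hDi' : algebraMap R ↥(modularFunctionFieldFullC K (M' * q)) π * D⁻¹ ∈
      cm85_Vinf (K := K) (M' * q) hπ)
    (hD0 : (algebraMap R ↥(modularFunctionFieldFullC K (M' * q)) π * D)⁻¹ ∈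
      s34i47c_V0 (K := K) M' q hq hM' hπ)
    (hDH : ∀ O ∈ nf79_H π B n, D⁻¹ ∈ O)
    (hpole : ∃ k : ℕ, nr10_cong (sf79_loc B n) (cm85_Vinf (K := K) (M' * q) hπ)
      (algebraMap R ↥(modularFunctionFieldFullC K (M' * q)) π)
      ((z : ↥(modularFunctionFieldFullC K (M' * q))) ^ k *
        ((algebraMap R ↥(modularFunctionFieldFullC K (M' * q)) π)⁻¹ * N)))
    (hder0 : nr10_cong (sf79_loc B n) (cm85_Vinf (K := K) (M' * q) hπ)
        (algebraMap R ↥(modularFunctionFieldFullC K (M' * q)) π)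
        ((algebraMap R ↥(modularFunctionFieldFullC K (M' * q)) π)⁻¹ * N) →
      nr10_cong (sf79_loc B n) (cm85_Vinf (K := K) (M' * q) hπ)
        (algebraMap R ↥(modularFunctionFieldFullC K (M' * q)) π)
        ((algebraMap R ↥(modularFunctionFieldFullC K (M' * q)) π)⁻¹ * D))
    (hder : ∀ m : ℕ, 1 ≤ m →
      nr10_cong (sf79_loc B n) (cm85_Vinf (K := K) (M' * q) hπ)
        (algebraMap R ↥(modularFunctionFieldFullC K (M' * q)) π)
        ((z : ↥(modularFunctionFieldFullC K (M' * q))) ^ m *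
          ((algebraMap R ↥(modularFunctionFieldFullC K (M' * q)) π)⁻¹ * N)) →
      nr10_cong (sf79_loc B n) (cm85_Vinf (K := K) (M' * q) hπ)
        (algebraMap R ↥(modularFunctionFieldFullC K (M' * q)) π)
        ((z : ↥(modularFunctionFieldFullC K (M' * q))) ^ (m + 1) *
          ((algebraMap R ↥(modularFunctionFieldFullC K (M' * q)) π)⁻¹ * D))) :
    ∃ U : ↥(modularFunctionFieldFullC K (M' * q)), U ∈ sf79_loc B n ∧ U⁻¹ ∈ sf79_loc B n ∧
      N * D⁻¹ ∈ sf79_loc B n ∧
      N * (N * D⁻¹) = algebraMap R ↥(modularFunctionFieldFullC K (M' * q)) π * U ∧ N ≠ 0 ∧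
      (∀ x ∈ sf79_loc B n, (algebraMap R ↥(modularFunctionFieldFullC K (M' * q)) π)⁻¹ * x ∈
        cm85_Vinf (K := K) (M' * q) hπ → N⁻¹ * x ∈ sf79_loc B n) ∧
      (∀ x ∈ sf79_loc B n, (algebraMap R ↥(modularFunctionFieldFullC K (M' * q)) π)⁻¹ * x ∈
        s34i47c_V0 (K := K) M' q hq hM' hπ → (N * D⁻¹)⁻¹ * x ∈ sf79_loc B n) ∧
      (∀ x ∈ sf79_loc B n, x⁻¹ ∈ sf79_loc B n ∨
        ∃ a ∈ sf79_loc B n, ∃ b ∈ sf79_loc B n, x = a * (N * D⁻¹) + b * N) := by
  haveI hnp : n.IsPrime := hn.isPrime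
  have hπ₁ : (algebraMap R ↥(modularFunctionFieldFullC K (M' * q)) π)⁻¹ ∉
      (cm85_Vinf (K := K) (M' * q) hπ).toSubring := al97C_pi_inv_not_mem_Vinf M' q hπ
  have hπ₂ : (algebraMap R ↥(modularFunctionFieldFullC K (M' * q)) π)⁻¹ ∉
      (s34i47c_V0 (K := K) M' q hq hM' hπ).toSubring := al97C_pi_inv_not_mem_V0 M' q hq hM' hπ
  have hV₁ : ∀ x ∈ (cm85_Vinf (K := K) (M' * q) hπ).toSubring,
      (algebraMap R ↥(modularFunctionFieldFullC K (M' * q)) π)⁻¹ * x ∉
        (cm85_Vinf (K := K) (M' * q) hπ).toSubring →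
      x⁻¹ ∈ (cm85_Vinf (K := K) (M' * q) hπ).toSubring := by
    intro x hx hx'
    by_contra hcon
    apply hx'
    have hconv : algebraMap R ↥(modularFunctionFieldFullC K (M' * q)) π =
        algebraMap K ↥(modularFunctionFieldFullC K (M' * q)) (algebraMap R K π) :=
      IsScalarTower.algebraMap_apply R K ↥(modularFunctionFieldFullC K (M' * q)) π
    rw [hconv]
    exact gv85_hmax (IsLocalRing.residue R) π (pk85_res_iff hπ) hπ.ne_zero _ _ x hx hcon
  have hV₂ : ∀ x ∈ (s34i47c_V0 (K := K) M' q hq hM' hπ).toSubring,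
      (algebraMap R ↥(modularFunctionFieldFullC K (M' * q)) π)⁻¹ * x ∉
        (s34i47c_V0 (K := K) M' q hq hM' hπ).toSubring →
      x⁻¹ ∈ (s34i47c_V0 (K := K) M' q hq hM' hπ).toSubring := by
    intro x hx hx'
    by_contra hcon
    exact hx' (al97C_hmax_V0 M' q hq hM' hπ x hx hcon)
  have hmemW : ∀ x : ↥(modularFunctionFieldFullC K (M' * q)),
      x ∈ s34i47c_W (K := K) M' q hq hM' hπ →
      x ∈ (cm85_Vinf (K := K) (M' * q) hπ).toSubring ∧
        x ∈ (s34i47c_V0 (K := K) M' q hq hM' hπ).toSubring := by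
    intro x hx
    obtain ⟨h1, h2⟩ := (s34i47c_mem_W M' q hq hM' hπ x).mp hx
    exact ⟨h1, (s34i47c_mem_V0 M' q hq hM' hπ x).mpr h2⟩
  have hWmem : ∀ x : ↥(modularFunctionFieldFullC K (M' * q)),
      x ∈ (cm85_Vinf (K := K) (M' * q) hπ).toSubring →
      x ∈ (s34i47c_V0 (K := K) M' q hq hM' hπ).toSubring →
      x ∈ s34i47c_W (K := K) M' q hq hM' hπ := by
    intro x h1 h2
    exact (s34i47c_mem_W M' q hq hM' hπ x).mpr ⟨h1, (s34i47c_mem_V0 M' q hq hM' hπ x).mp h2⟩
  have hB₁ : ∀ x ∈ B, x ∈ cm85_Vinf (K := K) (M' * q) hπ := fun x hx => (hmemW x (hBW x hx)).1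
  have hB₂ : ∀ x ∈ B, x ∈ s34i47c_V0 (K := K) M' q hq hM' hπ := fun x hx => (hmemW x (hBW x hx)).2
  -- the separating element `δ ∈ p_0 \ p_∞` from the pair `u v = π ^ e * s`
  have hsep : ∃ δ : B, (algebraMap R ↥(modularFunctionFieldFullC K (M' * q)) π)⁻¹ *
      (δ : ↥(modularFunctionFieldFullC K (M' * q))) ∈ s34i47c_V0 (K := K) M' q hq hM' hπ ∧
      (algebraMap R ↥(modularFunctionFieldFullC K (M' * q)) π)⁻¹ *
        (δ : ↥(modularFunctionFieldFullC K (M' * q))) ∉ cm85_Vinf (K := K) (M' * q) hπ := by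
    obtain ⟨u, v, s₀, e, hs₀, he, huv, hu, hv⟩ := hUV n hn hπn h1 h2
    refine ⟨u, ?_, hu⟩
    have hp0 : algebraMap R ↥(modularFunctionFieldFullC K (M' * q)) π ≠ 0 := fun h0 =>
      hπ₁ (by rw [h0, inv_zero]; exact Subring.zero_mem _)
    have hvinv : (v : ↥(modularFunctionFieldFullC K (M' * q)))⁻¹ ∈
        s34i47c_V0 (K := K) M' q hq hM' hπ := hV₂ _ (hB₂ _ v.2) hv
    have hv0 : (v : ↥(modularFunctionFieldFullC K (M' * q))) ≠ 0 := by
      intro h
      apply hv
      rw [h, mul_zero]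
      exact Subring.zero_mem _
    have huvF : (u : ↥(modularFunctionFieldFullC K (M' * q))) *
        (v : ↥(modularFunctionFieldFullC K (M' * q))) =
        algebraMap R ↥(modularFunctionFieldFullC K (M' * q)) π ^ e *
          (s₀ : ↥(modularFunctionFieldFullC K (M' * q))) := by
      have := congrArg (fun t : B => (t : ↥(modularFunctionFieldFullC K (M' * q)))) huv
      simpa using this
    obtain ⟨e', rfl⟩ : ∃ e', e = e' + 1 := ⟨e - 1, by omega⟩
    have e1 : (algebraMap R ↥(modularFunctionFieldFullC K (M' * q)) π)⁻¹ *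
        (u : ↥(modularFunctionFieldFullC K (M' * q))) =
        algebraMap R ↥(modularFunctionFieldFullC K (M' * q)) π ^ e' *
          (s₀ : ↥(modularFunctionFieldFullC K (M' * q))) *
          (v : ↥(modularFunctionFieldFullC K (M' * q)))⁻¹ := by
      have h3 : (u : ↥(modularFunctionFieldFullC K (M' * q))) =
          algebraMap R ↥(modularFunctionFieldFullC K (M' * q)) π ^ (e' + 1) *
            (s₀ : ↥(modularFunctionFieldFullC K (M' * q))) *
            (v : ↥(modularFunctionFieldFullC K (M' * q)))⁻¹ := by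
        rw [← huvF]
        field_simp
      rw [h3, pow_succ]
      field_simp
    rw [e1]
    exact (s34i47c_V0 (K := K) M' q hq hM' hπ).mul_mem _ _
      ((s34i47c_V0 (K := K) M' q hq hM' hπ).mul_mem _ _
        (pow_mem (hB₂ _ (B.algebraMap_mem π)) e') (hB₂ _ s₀.2)) hvinv
  exact nf79_node_regular π B (cm85_Vinf (K := K) (M' * q) hπ)
    (s34i47c_V0 (K := K) M' q hq hM' hπ) hB₁ hB₂ hπ₁ hπ₂ hV₁ hV₂
    (fun x hx h1 h2 => hsatB x hx (hWmem _ h1 h2)) hKrull n hn hπn h1 h2 z hz hsep N D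
    hN hNi hD hDi' hD0 hDH hpole hder0 hder

include hq hM' in
/-- **The chart inputs of `nf79c_aux` on the canonical frame**, for both affine charts of an
admissible Hauptmodul `h`: `B ⊆ W`, saturation, the Krull property, the pair `u v = π ^ e * s`
at the points of both branches, and a local coordinate of the `∞`-branch at every closed point
of it (`sf79_Smooth`). -/
theorem nf79c_chart_facts (hunit : ∀ n : ℕ, Nat.Coprime n q → IsUnit (n : R))
    (hqR : ¬ IsUnit (q : R)) (h : ↥(modularFunctionFieldFullC K (M' * q)))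
    (hh : s34i47c_IsHaupt K (M' * q) q h) :
    ((∀ x ∈ pk15_chart R ({h} : Set ↥(modularFunctionFieldFullC K (M' * q))),
        x ∈ s34i47c_W (K := K) M' q hq hM' hπ) ∧
      (∀ x ∈ pk15_chart R ({h} : Set ↥(modularFunctionFieldFullC K (M' * q))),
        (algebraMap R ↥(modularFunctionFieldFullC K (M' * q)) π)⁻¹ * x ∈
          s34i47c_W (K := K) M' q hq hM' hπ →
        (algebraMap R ↥(modularFunctionFieldFullC K (M' * q)) π)⁻¹ * x ∈
          pk15_chart R ({h} : Set ↥(modularFunctionFieldFullC K (M' * q)))) ∧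
      s34i47_Krull π (pk15_chart R ({h} : Set ↥(modularFunctionFieldFullC K (M' * q)))) ∧
      sf79_UVAt π (pk15_chart R ({h} : Set ↥(modularFunctionFieldFullC K (M' * q))))
        (cm85_Vinf (K := K) (M' * q) hπ).toSubring
        (s34i47c_V0 (K := K) M' q hq hM' hπ).toSubring ∧
      sf79_Smooth π (pk15_chart R ({h} : Set ↥(modularFunctionFieldFullC K (M' * q))))
        (cm85_Vinf (K := K) (M' * q) hπ).toSubring) ∧
    ((∀ x ∈ pk15_chart R ({h⁻¹} : Set ↥(modularFunctionFieldFullC K (M' * q))),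
        x ∈ s34i47c_W (K := K) M' q hq hM' hπ) ∧
      (∀ x ∈ pk15_chart R ({h⁻¹} : Set ↥(modularFunctionFieldFullC K (M' * q))),
        (algebraMap R ↥(modularFunctionFieldFullC K (M' * q)) π)⁻¹ * x ∈
          s34i47c_W (K := K) M' q hq hM' hπ →
        (algebraMap R ↥(modularFunctionFieldFullC K (M' * q)) π)⁻¹ * x ∈
          pk15_chart R ({h⁻¹} : Set ↥(modularFunctionFieldFullC K (M' * q)))) ∧
      s34i47_Krull π (pk15_chart R ({h⁻¹} : Set ↥(modularFunctionFieldFullC K (M' * q)))) ∧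
      sf79_UVAt π (pk15_chart R ({h⁻¹} : Set ↥(modularFunctionFieldFullC K (M' * q))))
        (cm85_Vinf (K := K) (M' * q) hπ).toSubring
        (s34i47c_V0 (K := K) M' q hq hM' hπ).toSubring ∧
      sf79_Smooth π (pk15_chart R ({h⁻¹} : Set ↥(modularFunctionFieldFullC K (M' * q))))
        (cm85_Vinf (K := K) (M' * q) hπ).toSubring) := by
  obtain ⟨-, hC⟩ := fs85_frameSat M' q hq hM' R K π hπ hunit hqR
  obtain ⟨htr, h12W, hsat1, hsat2, -, hN1, hN2, hfin, hfrac⟩ := hC h hh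
  obtain ⟨hSi1, hSi2⟩ := sf79f_smooth_inf M' q hq hM' hπ hunit hqR h hh
  obtain ⟨hUV1, hUV2⟩ := uvf22_UVAt (R := R) (K := K) M' q hq hM' hπ hunit hqR h hh
  obtain ⟨hK1, hK2⟩ := kr65_Pkg_Krull R K ↥(modularFunctionFieldFullC K (M' * q)) π hπ h htr
    hN1 hN2 hfin hfrac
  have hsub1 : ({h} : Set ↥(modularFunctionFieldFullC K (M' * q))) ⊆ {h, h⁻¹} := by
    intro x hx
    rw [Set.mem_singleton_iff.mp hx]
    exact Set.mem_insert _ _
  have hsub2 : ({h⁻¹} : Set ↥(modularFunctionFieldFullC K (M' * q))) ⊆ {h, h⁻¹} := by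
    intro x hx
    rw [Set.mem_singleton_iff.mp hx]
    exact Set.mem_insert_of_mem _ rfl
  exact ⟨⟨fun x hx => h12W x (pk15_chart_mono hsub1 hx), hsat1, hK1, hUV1, hSi1⟩,
    ⟨fun x hx => h12W x (pk15_chart_mono hsub2 hx), hsat2, hK2, hUV2, hSi2⟩⟩

end NF79C

end Fermat.Agent.S36
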