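import Fermat.Agent.S36.OnlyBind72
import Fermat.Agent.S34.BranchInf93

/-!
# S36 lab, row B1-only3 (helper72): residue degree one of `V₁` over the Gauss ring of level `M`
in the literal `bi93_F1` shape (input `hstep` of `sm7_F1_sq`, row B1-3a)

`obf72_F1` : for a prime `q ∣ M`, given the third valuation `V₂` of `F(M q)_K` with the facts
of row B1-V2 (`ι V' ⊆ V₂`, `π⁻¹ ∉ V₂`, `V₁ ≠ V₂`, `v₂(s) ^ (q - 1) = v₂(π)`), the Gauss ring
`cm85_Vinf (M q)` has residue degree one over `cm85_Vinf M`:
`bi93_F1 M (M * q) (dvd_mul_right M q) hπ`.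

All names are prefixed `obf72_`.
-/

set_option autoImplicit false
set_option linter.unusedSectionVars false
set_option linter.style.haveILetI false

open ModularCurve IntermediateField Polynomial

namespace Fermat.Agent.S36

open Fermat.Agent.S18 Fermat.Agent.S24 Fermat.Agent.S37 Fermat.Agent.S34

section obf72

variable {R K : Type} [CommRing R] [IsDomain R] [IsDiscreteValuationRing R] [Field K] [CharZero K]
  [Algebra R K] [IsFractionRing R K] (M q : ℕ) [NeZero M] [NeZero q]
  [Algebra R ↥(modularFunctionFieldFullC K M)]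
  [IsScalarTower R K ↥(modularFunctionFieldFullC K M)]
  [Algebra R ↥(modularFunctionFieldFullC K (M * q))]
  [IsScalarTower R K ↥(modularFunctionFieldFullC K (M * q))]

/-- **Residue degree one of `V₁ = cm85_Vinf (M q)` over `cm85_Vinf M`**, `q ∣ M`, in the
`bi93_F1` shape. -/
theorem obf72_F1 (hq : q.Prime) (hqM : q ∣ M) {π : R} (hπ : Irreducible π)
    (V₂ : ValuationSubring ↥(modularFunctionFieldFullC K (M * q)))
    (hV₂ : ∀ c ∈ cm85_Vinf (K := K) M hπ, cm15_incl K M (M * q) (dvd_mul_right M q) c ∈ V₂)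
    (hπ₂ : (algebraMap R ↥(modularFunctionFieldFullC K (M * q)) π)⁻¹ ∉ V₂)
    (hne : cm85_Vinf (K := K) (M * q) hπ ≠ V₂)
    (s : ↥(modularFunctionFieldFullC K (M * q)))
    (hs : V₂.valuation s ^ (q - 1) =
      V₂.valuation (algebraMap R ↥(modularFunctionFieldFullC K (M * q)) π)) :
    bi93_F1 (K := K) M (M * q) (dvd_mul_right M q) hπ := by
  have e : algebraMap R ↥(modularFunctionFieldFullC K (M * q)) π =
      algebraMap K ↥(modularFunctionFieldFullC K (M * q)) (algebraMap R K π) :=
    IsScalarTower.algebraMap_apply R K _ π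
  rw [e] at hπ₂ hs
  obtain ⟨-, -, -, h4, -⟩ := ob72_ram (K := K) M q hq hqM hπ V₂ hV₂ hπ₂ hne s hs
  intro x hx
  obtain ⟨b, hb, hb'⟩ := h4 x hx
  refine ⟨b, hb, ?_⟩
  rw [e]
  exact hb'

end obf72

end Fermat.Agent.S36
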