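/-
helper71: S36 pre-lab, abstract chart algebra (Mathlib only) for the local structure of a
saturated chart `B` with several (possibly non-reduced) vertical components.

Setting: `B : Subalgebra R F`, `W : Subring F` (in the application `W = V₁ ⊓ V₂ ⊓ V₃`, the
intersection of the three vertical valuation rings of level `q² M'`), `B ⊆ W`, and saturation
`hsat : x ∈ B, π⁻¹ x ∈ W ⇒ π⁻¹ x ∈ B`  (the same `hsat` as in `ntc47_main`).

* `tl71_dvd_of_sat` : if `g ^ (k+1) * c = t * π` in `B` (so `g` divides `π` at every prime `n ∌ t`)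
  then every `x ∈ B` with `x / g ∈ W` satisfies `t * x ∈ g B`.  [the vertical prime cut out by
  `g` is principal at `n`, generated by `g`: report #2798 (k = 0, reduced component) and
  #2805 (k = q - 2, the middle component)].
* `tl71_branch_principal` : three-valuation form for a reduced component `V₁`
  (`p₁ = {x ∈ B | π⁻¹ x ∈ V₁}`): if `z ∈ p₁` divides `π` at `n`, `π / z ∈ V₁` and `z` is a unit
  of `V₂`, `V₃`, then `p₁ B_n = z B_n`.
* `tl71_mid_principal` : three-valuation form for the non-reduced component `V₂`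
  (`p₂ = {x ∈ B | x / s ∈ V₂}`).
* `tl71_max_two` : if moreover the branch is regular at `n` with parameter `t₀`
  (`∀ x ∈ n, ∃ s ∉ n, ∃ a, s x - a t₀ ∈ p`), then `n B_n = (t₀, z)` elementwise.
* `tl71_maximalIdeal_eq` : the same in `Localization.AtPrime n`:
  `maximalIdeal = Ideal.span {t₀, z}` (the hypothesis `hm` of the (LP2) lemmas).
-/
import Mathlib

set_option autoImplicit false

namespace Fermat.Agent.S36.TripleLoc71

open IsLocalRing

section

variable {R F : Type*} [CommRing R] [Field F] [Algebra R F]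

/-- **Principal from a local divisor of `π`.**  `B` saturated in `W`; `g ^ (k+1) * c = t * π`
in `B`.  Then every `x ∈ B` with `x / g ∈ W` has `t * x ∈ g B`. -/
theorem tl71_dvd_of_sat (π : R) (B : Subalgebra R F) (W : Subring F)
    (hBW : ∀ x ∈ B, x ∈ W)
    (hsat : ∀ x ∈ B, (algebraMap R F π)⁻¹ * x ∈ W → (algebraMap R F π)⁻¹ * x ∈ B)
    (hπ0 : algebraMap R F π ≠ 0)
    (g c t : B) (k : ℕ) (hk : g ^ (k + 1) * c = t * algebraMap R B π)
    (x : B) (hx : (x : F) * (g : F)⁻¹ ∈ W) :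
    ∃ b : B, t * x = b * g := by
  have hkF : (g : F) ^ (k + 1) * (c : F) = (t : F) * algebraMap R F π := by
    have := congrArg (fun y : B => (y : F)) hk
    simpa using this
  by_cases hg : (g : F) = 0
  · -- then `t = 0`
    have ht : (t : F) = 0 := by
      rw [hg, zero_pow (Nat.succ_ne_zero k), zero_mul] at hkF
      rcases mul_eq_zero.mp hkF.symm with h | h
      · exact h
      · exact absurd h hπ0
    refine ⟨0, Subtype.ext ?_⟩
    simp [ht]
  · have hval : (algebraMap R F π)⁻¹ * ((x : F) * (c : F) * (g : F) ^ k)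
        = (t : F) * ((x : F) * (g : F)⁻¹) := by
      have h1 : (c : F) * (g : F) ^ k = (t : F) * algebraMap R F π * (g : F)⁻¹ := by
        rw [← hkF, pow_succ]
        field_simp
      rw [mul_assoc (x : F), h1]
      field_simp
    have hmemB : (x : F) * (c : F) * (g : F) ^ k ∈ B :=
      B.mul_mem (B.mul_mem x.2 c.2) (B.pow_mem g.2 k)
    have hW : (algebraMap R F π)⁻¹ * ((x : F) * (c : F) * (g : F) ^ k) ∈ W := by
      rw [hval]
      exact W.mul_mem (hBW _ t.2) hx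
    refine ⟨⟨_, hsat _ hmemB hW⟩, Subtype.ext ?_⟩
    show (t : F) * (x : F) = (algebraMap R F π)⁻¹ * ((x : F) * (c : F) * (g : F) ^ k) * (g : F)
    rw [hval]
    field_simp

/-- **A reduced branch is principal where a branch function divides `π`** (three vertical
valuation rings).  `z ∈ p₁ = {x ∈ B | π⁻¹ x ∈ V₁}`, `z * c = t * π`, `π / z ∈ V₁`,
`z⁻¹ ∈ V₂`, `z⁻¹ ∈ V₃`.  Then `t * p₁ ⊆ z B`. -/
theorem tl71_branch_principal (π : R) (B : Subalgebra R F) (V₁ V₂ V₃ : Subring F)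
    (hB₁ : ∀ x ∈ B, x ∈ V₁) (hB₂ : ∀ x ∈ B, x ∈ V₂) (hB₃ : ∀ x ∈ B, x ∈ V₃)
    (hsat : ∀ x ∈ B, (algebraMap R F π)⁻¹ * x ∈ V₁ → (algebraMap R F π)⁻¹ * x ∈ V₂ →
      (algebraMap R F π)⁻¹ * x ∈ V₃ → (algebraMap R F π)⁻¹ * x ∈ B)
    (hπ0 : algebraMap R F π ≠ 0)
    (z c t : B) (hzc : z * c = t * algebraMap R B π)
    (hz₁ : algebraMap R F π * (z : F)⁻¹ ∈ V₁) (hz₂ : (z : F)⁻¹ ∈ V₂) (hz₃ : (z : F)⁻¹ ∈ V₃)
    (x : B) (hx : (algebraMap R F π)⁻¹ * (x : F) ∈ V₁) :
    ∃ b : B, t * x = b * z := by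
  refine tl71_dvd_of_sat π B (V₁ ⊓ V₂ ⊓ V₃)
    (fun y hy => ⟨⟨hB₁ y hy, hB₂ y hy⟩, hB₃ y hy⟩)
    (fun y hy hyW => hsat y hy hyW.1.1 hyW.1.2 hyW.2) hπ0 z c t 0 (by simpa using hzc) x ?_
  refine ⟨⟨?_, V₂.mul_mem (hB₂ _ x.2) hz₂⟩, V₃.mul_mem (hB₃ _ x.2) hz₃⟩
  have : (x : F) * (z : F)⁻¹
      = (algebraMap R F π)⁻¹ * (x : F) * (algebraMap R F π * (z : F)⁻¹) := by
    field_simp
  rw [this]
  exact V₁.mul_mem hx hz₁

/-- **The non-reduced middle branch is principal where a power of a branch function divides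
`π`** (three vertical valuation rings).  `s ^ (k+1) * c = t * π`, `s⁻¹ ∈ V₁`, `s⁻¹ ∈ V₃`;
`p₂ = {x ∈ B | x / s ∈ V₂}`.  Then `t * p₂ ⊆ s B`. -/
theorem tl71_mid_principal (π : R) (B : Subalgebra R F) (V₁ V₂ V₃ : Subring F)
    (hB₁ : ∀ x ∈ B, x ∈ V₁) (hB₂ : ∀ x ∈ B, x ∈ V₂) (hB₃ : ∀ x ∈ B, x ∈ V₃)
    (hsat : ∀ x ∈ B, (algebraMap R F π)⁻¹ * x ∈ V₁ → (algebraMap R F π)⁻¹ * x ∈ V₂ →
      (algebraMap R F π)⁻¹ * x ∈ V₃ → (algebraMap R F π)⁻¹ * x ∈ B)
    (hπ0 : algebraMap R F π ≠ 0)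
    (s c t : B) (k : ℕ) (hsc : s ^ (k + 1) * c = t * algebraMap R B π)
    (hs₁ : (s : F)⁻¹ ∈ V₁) (hs₃ : (s : F)⁻¹ ∈ V₃)
    (x : B) (hx : (x : F) * (s : F)⁻¹ ∈ V₂) :
    ∃ b : B, t * x = b * s :=
  tl71_dvd_of_sat π B (V₁ ⊓ V₂ ⊓ V₃)
    (fun y hy => ⟨⟨hB₁ y hy, hB₂ y hy⟩, hB₃ y hy⟩)
    (fun y hy hyW => hsat y hy hyW.1.1 hyW.1.2 hyW.2) hπ0 s c t k hsc x
    ⟨⟨V₁.mul_mem (hB₁ _ x.2) hs₁, hx⟩, V₃.mul_mem (hB₃ _ x.2) hs₃⟩

end

section twoGen

variable {B : Type*} [CommRing B]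

/-- **Two generators, elementwise.**  `n` a prime of `B`, `P : B → Prop` (membership in a
branch prime) such that the branch is regular at `n` with parameter `t₀`
(`∀ x ∈ n, ∃ s ∉ n, ∃ a, P (s x - a t₀)`) and principal at `n` with generator `z`
(`P y → ∃ b, t y = b z`, `t ∉ n`).  Then `n B_n = (t₀, z)` elementwise. -/
theorem tl71_max_two (n : Ideal B) [hn : n.IsPrime] (P : B → Prop) (t₀ z t : B) (ht : t ∉ n)
    (hbr : ∀ x ∈ n, ∃ s : B, s ∉ n ∧ ∃ a : B, P (s * x - a * t₀))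
    (hprin : ∀ y : B, P y → ∃ b : B, t * y = b * z) :
    ∀ x ∈ n, ∃ s : B, s ∉ n ∧ ∃ a b : B, s * x = a * t₀ + b * z := by
  intro x hx
  obtain ⟨s, hs, a, ha⟩ := hbr x hx
  obtain ⟨b, hb⟩ := hprin _ ha
  refine ⟨t * s, fun h => (hn.mem_or_mem h).elim ht hs, t * a, b, ?_⟩
  linear_combination hb

/-- **Two generators in the localisation.**  If `t₀, z ∈ n` and every `x ∈ n` satisfies
`s x = a t₀ + b z` with `s ∉ n`, then the maximal ideal of `B_n` is `(t₀, z)`. -/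
theorem tl71_maximalIdeal_eq (n : Ideal B) [hn : n.IsPrime] (t₀ z : B) (ht₀ : t₀ ∈ n) (hz : z ∈ n)
    (hgen : ∀ x ∈ n, ∃ s : B, s ∉ n ∧ ∃ a b : B, s * x = a * t₀ + b * z) :
    maximalIdeal (Localization.AtPrime n)
      = Ideal.span {algebraMap B (Localization.AtPrime n) t₀,
          algebraMap B (Localization.AtPrime n) z} := by
  apply le_antisymm
  · rw [← Localization.AtPrime.map_eq_maximalIdeal, Ideal.map_le_iff_le_comap]
    intro x hx
    obtain ⟨s, hs, a, b, hab⟩ := hgen x hx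
    rw [Ideal.mem_comap]
    have hsu : IsUnit (algebraMap B (Localization.AtPrime n) s) :=
      IsLocalization.map_units (Localization.AtPrime n) (⟨s, hs⟩ : n.primeCompl)
    have h1 : algebraMap B (Localization.AtPrime n) s * algebraMap B (Localization.AtPrime n) x
        ∈ Ideal.span {algebraMap B (Localization.AtPrime n) t₀,
          algebraMap B (Localization.AtPrime n) z} := by
      rw [← map_mul, hab, map_add, map_mul, map_mul]
      exact Ideal.add_mem _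
        (Ideal.mul_mem_left _ _ (Ideal.subset_span (Set.mem_insert _ _)))
        (Ideal.mul_mem_left _ _ (Ideal.subset_span (Set.mem_insert_of_mem _ rfl)))
    exact (Ideal.unit_mul_mem_iff_mem _ hsu).mp h1
  · rw [Ideal.span_le]
    rintro y (rfl | rfl)
    · rw [← Localization.AtPrime.map_eq_maximalIdeal]
      exact Ideal.mem_map_of_mem _ ht₀
    · rw [← Localization.AtPrime.map_eq_maximalIdeal]
      exact Ideal.mem_map_of_mem _ hz

end twoGen

end Fermat.Agent.S36.TripleLoc71
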