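/-
helper71: S36 pre-lab, abstract assembly (on top of `S34/SpecFibre79` + `S36/TripleLoc71`):
**two generators at every closed point of a chart with three vertical components**
`V₁`, `V₃` (reduced: `π` a uniformiser) and `V₂` (non-reduced: `σ` a uniformiser, `σ ^ e ∣ π`).

Branch ideals: `p₁ = {x ∈ B | π⁻¹ x ∈ V₁}`, `p₃ = {x ∈ B | π⁻¹ x ∈ V₃}` (the `sf79_OnBr` shape)
and `p₂ = {x ∈ B | x σ⁻¹ ∈ V₂}` (`tl71_OnMid`).

`tl71_twoGen` : from saturation in `V₁ ⊓ V₂ ⊓ V₃`, the three smoothness statements (3a), and one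
local divisor of `π` per multiple point (`tl71_DivAt`, from the regular node of level `q` by
pull-back: report #2798) resp. per point of the middle component only (`tl71_MidDivAt`,
`g ^ (k+1) ∣ π` at `n`: report #2805), every maximal ideal `n ∋ π` of `B` satisfies
`n B_n = (x, y)` (elementwise) : `tl71_TwoGen π B`.
-/
import Fermat.Agent.S34.SpecFibre79
import Fermat.Agent.S36.TripleLoc71

set_option autoImplicit false

namespace Fermat.Agent.S36.TripleLoc71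

open Fermat.Agent.S34

section

variable {R F : Type*} [CommRing R] [Field F] [Algebra R F]

/-- The middle branch `p₂ = {x ∈ B | x σ⁻¹ ∈ V₂}` is contained in `n`. -/
def tl71_OnMid (σ : F) (B : Subalgebra R F) (V₂ : Subring F) (n : Ideal B) : Prop :=
  ∀ x : B, (x : F) * σ⁻¹ ∈ V₂ → x ∈ n

/-- **(3a) for the middle branch**: every closed point of the middle branch has a local
coordinate `z`: `n B_n = z B_n + p₂ B_n`. -/
def tl71_MidSmooth (π : R) (σ : F) (B : Subalgebra R F) (V₂ : Subring F) : Prop :=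
  ∀ n : Ideal B, n.IsMaximal → algebraMap R B π ∈ n → tl71_OnMid σ B V₂ n →
    ∃ z : B, z ∈ n ∧ ∀ x ∈ n, ∃ s : B, s ∉ n ∧ ∃ a : B,
      ((s : F) * (x : F) - (a : F) * (z : F)) * σ⁻¹ ∈ V₂

/-- A local divisor of `π` at `n` cutting out the reduced branch `V` exactly:
`z * c = t * π`, `t ∉ n`, `z ∈ p_V`, `π / z ∈ V`, and `z` a unit along `V'`, `V''`. -/
def tl71_DivAt (π : R) (B : Subalgebra R F) (V V' V'' : Subring F) (n : Ideal B) : Prop :=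
  ∃ z c t : B, t ∉ n ∧ z * c = t * algebraMap R B π ∧
    (algebraMap R F π)⁻¹ * (z : F) ∈ V ∧ algebraMap R F π * (z : F)⁻¹ ∈ V ∧
    (z : F)⁻¹ ∈ V' ∧ (z : F)⁻¹ ∈ V''

/-- A local generator of the middle branch at `n`: `g ^ (k+1) * c = t * π`, `t ∉ n`,
`g ∈ p₂`, `σ / g ∈ V₂`, and `g` a unit along `V₁`, `V₃`. -/
def tl71_MidDivAt (π : R) (σ : F) (B : Subalgebra R F) (V₁ V₂ V₃ : Subring F) (n : Ideal B) :
    Prop :=
  ∃ (g c t : B) (k : ℕ), t ∉ n ∧ g ^ (k + 1) * c = t * algebraMap R B π ∧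
    (g : F) * σ⁻¹ ∈ V₂ ∧ σ * (g : F)⁻¹ ∈ V₂ ∧ (g : F)⁻¹ ∈ V₁ ∧ (g : F)⁻¹ ∈ V₃

/-- **Two generators at every closed point of the special fibre.** -/
def tl71_TwoGen (π : R) (B : Subalgebra R F) : Prop :=
  ∀ n : Ideal B, n.IsMaximal → algebraMap R B π ∈ n →
    ∃ x y : B, x ∈ n ∧ y ∈ n ∧
      ∀ v ∈ n, ∃ s : B, s ∉ n ∧ ∃ a b : B, s * v = a * x + b * y

/-- At a point of the reduced branch `V` which is not on the two other components
(`t ∉ n`, `π⁻¹ t ∈ V'`, `π⁻¹ t ∈ V''`), the branch is cut out by `π`. -/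
theorem tl71_two_of_smooth (π : R) (B : Subalgebra R F) (V V' V'' : Subring F)
    (hB : ∀ x ∈ B, x ∈ V) (hB' : ∀ x ∈ B, x ∈ V') (hB'' : ∀ x ∈ B, x ∈ V'')
    (hsat : ∀ x ∈ B, (algebraMap R F π)⁻¹ * x ∈ V → (algebraMap R F π)⁻¹ * x ∈ V' →
      (algebraMap R F π)⁻¹ * x ∈ V'' → (algebraMap R F π)⁻¹ * x ∈ B)
    (hπ0 : algebraMap R F π ≠ 0)
    (n : Ideal B) [hn : n.IsPrime] (hπn : algebraMap R B π ∈ n)
    (z₀ : B) (hz₀ : sf79_Unif π B V n z₀)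
    (t : B) (ht : t ∉ n) (ht' : (algebraMap R F π)⁻¹ * (t : F) ∈ V')
    (ht'' : (algebraMap R F π)⁻¹ * (t : F) ∈ V'') :
    ∃ x y : B, x ∈ n ∧ y ∈ n ∧
      ∀ v ∈ n, ∃ s : B, s ∉ n ∧ ∃ a b : B, s * v = a * x + b * y := by
  refine ⟨z₀, algebraMap R B π, hz₀.1, hπn, ?_⟩
  refine tl71_max_two n (fun y : B => (algebraMap R F π)⁻¹ * (y : F) ∈ V) z₀ (algebraMap R B π)
    t ht ?_ ?_
  · intro x hx
    obtain ⟨s, hs, a, ha⟩ := hz₀.2 x hx
    exact ⟨s, hs, a, by simpa using ha⟩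
  · intro y hy
    have hmem : (t : F) * (y : F) ∈ B := B.mul_mem t.2 y.2
    have h1 : (algebraMap R F π)⁻¹ * ((t : F) * (y : F)) ∈ V := by
      have : (algebraMap R F π)⁻¹ * ((t : F) * (y : F))
          = (t : F) * ((algebraMap R F π)⁻¹ * (y : F)) := by ring
      rw [this]; exact V.mul_mem (hB _ t.2) hy
    have h2 : (algebraMap R F π)⁻¹ * ((t : F) * (y : F)) ∈ V' := by
      rw [← mul_assoc]; exact V'.mul_mem ht' (hB' _ y.2)
    have h3 : (algebraMap R F π)⁻¹ * ((t : F) * (y : F)) ∈ V'' := by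
      rw [← mul_assoc]; exact V''.mul_mem ht'' (hB'' _ y.2)
    refine ⟨⟨_, hsat _ hmem h1 h2 h3⟩, Subtype.ext ?_⟩
    show (t : F) * (y : F) = (algebraMap R F π)⁻¹ * ((t : F) * (y : F)) * algebraMap R F π
    field_simp

/-- At a point of the reduced branch `V` with a local divisor of `π` (`tl71_DivAt`). -/
theorem tl71_two_of_div (π : R) (B : Subalgebra R F) (V V' V'' : Subring F)
    (hB : ∀ x ∈ B, x ∈ V) (hB' : ∀ x ∈ B, x ∈ V') (hB'' : ∀ x ∈ B, x ∈ V'')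
    (hsat : ∀ x ∈ B, (algebraMap R F π)⁻¹ * x ∈ V → (algebraMap R F π)⁻¹ * x ∈ V' →
      (algebraMap R F π)⁻¹ * x ∈ V'' → (algebraMap R F π)⁻¹ * x ∈ B)
    (hπ0 : algebraMap R F π ≠ 0)
    (n : Ideal B) [hn : n.IsPrime] (hon : sf79_OnBr π B V n)
    (z₀ : B) (hz₀ : sf79_Unif π B V n z₀)
    (hdiv : tl71_DivAt π B V V' V'' n) :
    ∃ x y : B, x ∈ n ∧ y ∈ n ∧
      ∀ v ∈ n, ∃ s : B, s ∉ n ∧ ∃ a b : B, s * v = a * x + b * y := by
  obtain ⟨z, c, t, ht, hzc, hzV, hπz, hz', hz''⟩ := hdiv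
  refine ⟨z₀, z, hz₀.1, hon z hzV, ?_⟩
  refine tl71_max_two n (fun y : B => (algebraMap R F π)⁻¹ * (y : F) ∈ V) z₀ z t ht ?_ ?_
  · intro x hx
    obtain ⟨s, hs, a, ha⟩ := hz₀.2 x hx
    exact ⟨s, hs, a, by simpa using ha⟩
  · intro y hy
    exact tl71_branch_principal π B V V' V'' hB hB' hB'' hsat hπ0 z c t hzc hπz hz' hz'' y hy

/-- **Assembly: two generators at every closed point** of a saturated chart with the three
vertical components `V₁`, `V₂` (uniformiser `σ`, `σ ^ e ∣ π` along `V₂`), `V₃`. -/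
theorem tl71_twoGen (π : R) (σ : F) (e : ℕ) (B : Subalgebra R F) (V₁ V₂ V₃ : Subring F)
    (hB₁ : ∀ x ∈ B, x ∈ V₁) (hB₂ : ∀ x ∈ B, x ∈ V₂) (hB₃ : ∀ x ∈ B, x ∈ V₃)
    (hsat : ∀ x ∈ B, (algebraMap R F π)⁻¹ * x ∈ V₁ → (algebraMap R F π)⁻¹ * x ∈ V₂ →
      (algebraMap R F π)⁻¹ * x ∈ V₃ → (algebraMap R F π)⁻¹ * x ∈ B)
    (hπ0 : algebraMap R F π ≠ 0) (hσ0 : σ ≠ 0)
    (hσe : (algebraMap R F π)⁻¹ * σ ^ e ∈ V₂)
    (hS₁ : sf79_Smooth π B V₁) (hS₃ : sf79_Smooth π B V₃) (hS₂ : tl71_MidSmooth π σ B V₂)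
    (hD₁ : ∀ n : Ideal B, n.IsMaximal → sf79_OnBr π B V₁ n →
      (tl71_OnMid σ B V₂ n ∨ sf79_OnBr π B V₃ n) → tl71_DivAt π B V₁ V₂ V₃ n)
    (hD₃ : ∀ n : Ideal B, n.IsMaximal → sf79_OnBr π B V₃ n →
      (tl71_OnMid σ B V₂ n ∨ sf79_OnBr π B V₁ n) → tl71_DivAt π B V₃ V₂ V₁ n)
    (hD₂ : ∀ n : Ideal B, n.IsMaximal → algebraMap R B π ∈ n → tl71_OnMid σ B V₂ n →
      ¬ sf79_OnBr π B V₁ n → ¬ sf79_OnBr π B V₃ n → tl71_MidDivAt π σ B V₁ V₂ V₃ n) :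
    tl71_TwoGen π B := by
  classical
  intro n hnmax hπn
  have hnp : n.IsPrime := hnmax.isPrime
  -- a witness off the middle branch gives `t ∉ n` with `π⁻¹ t ∈ V₂`
  have hmidw : ¬ tl71_OnMid σ B V₂ n →
      ∃ y : B, y ∉ n ∧ (algebraMap R F π)⁻¹ * (y : F) ∈ V₂ := by
    intro h
    have hex : ∃ y : B, (y : F) * σ⁻¹ ∈ V₂ ∧ y ∉ n := by
      by_contra hcon
      exact h fun x hx => by
        by_contra hxn
        exact hcon ⟨x, hx, hxn⟩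
    obtain ⟨y, hy, hyn⟩ := hex
    have hσe0 : σ ^ e ≠ 0 := pow_ne_zero e hσ0
    refine ⟨y ^ e, fun hh => hyn (hnp.mem_of_pow_mem e hh), ?_⟩
    have : (algebraMap R F π)⁻¹ * ((y ^ e : B) : F)
        = ((y : F) * σ⁻¹) ^ e * ((algebraMap R F π)⁻¹ * σ ^ e) := by
      push_cast
      rw [mul_pow, inv_pow]
      field_simp
    rw [this]
    exact V₂.mul_mem (V₂.pow_mem hy e) hσe
  have hbrw : ∀ V : Subring F, ¬ sf79_OnBr π B V n →
      ∃ y : B, y ∉ n ∧ (algebraMap R F π)⁻¹ * (y : F) ∈ V := by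
    intro V h
    by_contra hcon
    exact h fun x hx => by
      by_contra hxn
      exact hcon ⟨x, hxn, hx⟩
  -- the symmetric form of saturation
  have hsat' : ∀ x ∈ B, (algebraMap R F π)⁻¹ * x ∈ V₃ → (algebraMap R F π)⁻¹ * x ∈ V₂ →
      (algebraMap R F π)⁻¹ * x ∈ V₁ → (algebraMap R F π)⁻¹ * x ∈ B :=
    fun x hx h3 h2 h1 => hsat x hx h1 h2 h3
  by_cases h1 : sf79_OnBr π B V₁ n
  · -- on the first branch
    obtain ⟨z₀, hz₀⟩ := hS₁ n hnmax hπn h1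
    by_cases h23 : tl71_OnMid σ B V₂ n ∨ sf79_OnBr π B V₃ n
    · exact tl71_two_of_div π B V₁ V₂ V₃ hB₁ hB₂ hB₃ hsat hπ0 n h1 z₀ hz₀ (hD₁ n hnmax h1 h23)
    · obtain ⟨y₂, hy₂n, hy₂⟩ := hmidw (not_or.mp h23).1
      obtain ⟨y₃, hy₃n, hy₃⟩ := hbrw V₃ (not_or.mp h23).2
      refine tl71_two_of_smooth π B V₁ V₂ V₃ hB₁ hB₂ hB₃ hsat hπ0 n hπn z₀ hz₀ (y₂ * y₃)
        (fun hh => (hnp.mem_or_mem hh).elim hy₂n hy₃n) ?_ ?_
      · have : (algebraMap R F π)⁻¹ * ((y₂ * y₃ : B) : F)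
            = (algebraMap R F π)⁻¹ * (y₂ : F) * (y₃ : F) := by push_cast; ring
        rw [this]; exact V₂.mul_mem hy₂ (hB₂ _ y₃.2)
      · have : (algebraMap R F π)⁻¹ * ((y₂ * y₃ : B) : F)
            = (y₂ : F) * ((algebraMap R F π)⁻¹ * (y₃ : F)) := by push_cast; ring
        rw [this]; exact V₃.mul_mem (hB₃ _ y₂.2) hy₃
  · by_cases h3 : sf79_OnBr π B V₃ n
    · -- on the third branch, not on the first
      obtain ⟨z₀, hz₀⟩ := hS₃ n hnmax hπn h3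
      by_cases h2 : tl71_OnMid σ B V₂ n
      · exact tl71_two_of_div π B V₃ V₂ V₁ hB₃ hB₂ hB₁ hsat' hπ0 n h3 z₀ hz₀
          (hD₃ n hnmax h3 (Or.inl h2))
      · obtain ⟨y₂, hy₂n, hy₂⟩ := hmidw h2
        obtain ⟨y₁, hy₁n, hy₁⟩ := hbrw V₁ h1
        refine tl71_two_of_smooth π B V₃ V₂ V₁ hB₃ hB₂ hB₁ hsat' hπ0 n hπn z₀ hz₀ (y₂ * y₁)
          (fun hh => (hnp.mem_or_mem hh).elim hy₂n hy₁n) ?_ ?_
        · have : (algebraMap R F π)⁻¹ * ((y₂ * y₁ : B) : F)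
              = (algebraMap R F π)⁻¹ * (y₂ : F) * (y₁ : F) := by push_cast; ring
          rw [this]; exact V₂.mul_mem hy₂ (hB₂ _ y₁.2)
        · have : (algebraMap R F π)⁻¹ * ((y₂ * y₁ : B) : F)
              = (y₂ : F) * ((algebraMap R F π)⁻¹ * (y₁ : F)) := by push_cast; ring
          rw [this]; exact V₁.mul_mem (hB₁ _ y₂.2) hy₁
    · by_cases h2 : tl71_OnMid σ B V₂ n
      · -- on the middle branch only
        obtain ⟨z₀, hz₀n, hz₀⟩ := hS₂ n hnmax hπn h2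
        obtain ⟨g, c, t, k, ht, hgc, hgσ, hσg, hg₁, hg₃⟩ := hD₂ n hnmax hπn h2 h1 h3
        refine ⟨z₀, g, hz₀n, h2 g hgσ, ?_⟩
        refine tl71_max_two n (fun y : B => (y : F) * σ⁻¹ ∈ V₂) z₀ g t ht ?_ ?_
        · intro x hx
          obtain ⟨s, hs, a, ha⟩ := hz₀ x hx
          exact ⟨s, hs, a, by simpa using ha⟩
        · intro y hy
          refine tl71_mid_principal π B V₁ V₂ V₃ hB₁ hB₂ hB₃ hsat hπ0 g c t k hgc hg₁ hg₃ y ?_
          have : (y : F) * (g : F)⁻¹ = (y : F) * σ⁻¹ * (σ * (g : F)⁻¹) := by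
            field_simp
          rw [this]
          exact V₂.mul_mem hy hσg
      · -- on no branch: impossible
        exfalso
        obtain ⟨y₁, hy₁n, hy₁⟩ := hbrw V₁ h1
        obtain ⟨y₂, hy₂n, hy₂⟩ := hmidw h2
        obtain ⟨y₃, hy₃n, hy₃⟩ := hbrw V₃ h3
        have hmem : (y₁ : F) * (y₂ : F) * (y₃ : F) ∈ B := B.mul_mem (B.mul_mem y₁.2 y₂.2) y₃.2
        have e1 : (algebraMap R F π)⁻¹ * ((y₁ : F) * (y₂ : F) * (y₃ : F)) ∈ V₁ := by
          have : (algebraMap R F π)⁻¹ * ((y₁ : F) * (y₂ : F) * (y₃ : F))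
              = (algebraMap R F π)⁻¹ * (y₁ : F) * ((y₂ : F) * (y₃ : F)) := by ring
          rw [this]; exact V₁.mul_mem hy₁ (V₁.mul_mem (hB₁ _ y₂.2) (hB₁ _ y₃.2))
        have e2 : (algebraMap R F π)⁻¹ * ((y₁ : F) * (y₂ : F) * (y₃ : F)) ∈ V₂ := by
          have : (algebraMap R F π)⁻¹ * ((y₁ : F) * (y₂ : F) * (y₃ : F))
              = (algebraMap R F π)⁻¹ * (y₂ : F) * ((y₁ : F) * (y₃ : F)) := by ring
          rw [this]; exact V₂.mul_mem hy₂ (V₂.mul_mem (hB₂ _ y₁.2) (hB₂ _ y₃.2))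
        have e3 : (algebraMap R F π)⁻¹ * ((y₁ : F) * (y₂ : F) * (y₃ : F)) ∈ V₃ := by
          have : (algebraMap R F π)⁻¹ * ((y₁ : F) * (y₂ : F) * (y₃ : F))
              = (algebraMap R F π)⁻¹ * (y₃ : F) * ((y₁ : F) * (y₂ : F)) := by ring
          rw [this]; exact V₃.mul_mem hy₃ (V₃.mul_mem (hB₃ _ y₁.2) (hB₃ _ y₂.2))
        have hb := hsat _ hmem e1 e2 e3
        have hprod : y₁ * y₂ * y₃ ∈ n := by
          have : y₁ * y₂ * y₃ = algebraMap R B π * ⟨_, hb⟩ := by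
            apply Subtype.ext
            show (y₁ : F) * (y₂ : F) * (y₃ : F)
              = algebraMap R F π * ((algebraMap R F π)⁻¹ * ((y₁ : F) * (y₂ : F) * (y₃ : F)))
            field_simp
          rw [this]; exact n.mul_mem_right _ hπn
        rcases hnp.mem_or_mem hprod with h | h
        · rcases hnp.mem_or_mem h with h | h
          · exact hy₁n h
          · exact hy₂n h
        · exact hy₃n h

end

end Fermat.Agent.S36.TripleLoc71
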