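import Fermat.Agent.S36.BranchRamInst19
import Fermat.Agent.S36.LocStrThree71

/-!
# S36 lab, row 592 B1-3a (helper7): (3a)₂ for the MIDDLE component, bound to the charts of the
Hauptmodul, in the literal shape `tl71_MidSmooth` of `tl71_twoGen`

`M' ∣ M`, `M'` a good level (`p₀ ∣ M'`, `p₀ ∈ {2, 3}`, `M'` a unit of `R`), `V` ANY valuation
subring of `F_K(M)` over the Gauss ring of level `M'` with a uniformiser `σ` (`σ⁻¹ ∉ V`,
`x ∈ V`, `x⁻¹ ∉ V → σ⁻¹ x ∈ V`), `π ∈ σ V`, and residue degree one over the good level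
(`∀ x ∈ V, ∃ b ∈ V', σ⁻¹ (x - ι b) ∈ V`) — the facts of `oe72_ram_main` for `V = V₂`,
`σ = j(q² τ) - j(τ)` at `M = M' q²`.  From `bbi19_main` (helper19):

* `sm7_mid_of_unif` : the third clause of `bbi19_main` gives `tl71_MidSmooth π σ B V`.
* `sm7_midSmooth_level2/3` : `tl71_MidSmooth π σ B V.toSubring` for both affine charts
  `B = pk15_chart R {h}`, `pk15_chart R {h⁻¹}` of `h = pk85_h2/3 K M` (the literal `hS₂` of
  `tl71_twoGen`).

All names are prefixed `sm7_`.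
-/

set_option autoImplicit false
set_option linter.unusedSectionVars false
set_option linter.style.haveILetI false

open ModularCurve AlgebraicCurve

namespace Fermat.Agent.S36

open Fermat.Agent.S18 Fermat.Agent.S24 Fermat.Agent.S34 Fermat.Agent.S36.TripleLoc71

local notation "Q̄" => AlgebraicClosure ℚ

section sm7_mid

variable {R K : Type} [CommRing R] [IsDomain R] [IsDiscreteValuationRing R] [Field K] [CharZero K]
  [Algebra R K] [IsFractionRing R K]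
  (M' M : ℕ) [NeZero M'] [NeZero M]
  [Algebra R ↥(modularFunctionFieldFullC K M')]
  [IsScalarTower R K ↥(modularFunctionFieldFullC K M')]
  [Algebra R ↥(modularFunctionFieldFullC K M)]
  [IsScalarTower R K ↥(modularFunctionFieldFullC K M)]

/-- The uniformiser clause of `bbi19_main` is `tl71_MidSmooth`. -/
theorem sm7_mid_of_unif (hdvd : M' ∣ M) (π : R)
    (S₀ : Set ↥(modularFunctionFieldFullC K M')) (S : Set ↥(modularFunctionFieldFullC K M))
    (hS : S = (cm15_incl K M' M hdvd) '' S₀)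
    (V : ValuationSubring ↥(modularFunctionFieldFullC K M))
    (σ : ↥(modularFunctionFieldFullC K M))
    (hU : ∀ n : Ideal ↥(pk15_chart R ((cm15_incl K M' M hdvd) '' S₀)), n.IsPrime →
      (∀ x : ↥(pk15_chart R ((cm15_incl K M' M hdvd) '' S₀)),
        σ⁻¹ * (x : ↥(modularFunctionFieldFullC K M)) ∈ V → x ∈ n) →
      ∃ z' ∈ pk15_chart R S₀, ∃ z ∈ n,
        (z : ↥(modularFunctionFieldFullC K M)) = cm15_incl K M' M hdvd z' ∧
        ∀ x ∈ n, ∃ s₀ : ↥(pk15_chart R ((cm15_incl K M' M hdvd) '' S₀)), s₀ ∉ n ∧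
          ∃ a : ↥(pk15_chart R ((cm15_incl K M' M hdvd) '' S₀)),
            σ⁻¹ * ((s₀ : ↥(modularFunctionFieldFullC K M)) *
                (x : ↥(modularFunctionFieldFullC K M)) -
              (a : ↥(modularFunctionFieldFullC K M)) *
                (z : ↥(modularFunctionFieldFullC K M))) ∈ V) :
    tl71_MidSmooth π σ (pk15_chart R S) V.toSubring := by
  subst hS
  intro n hn _ hOn
  obtain ⟨z', -, z, hz, -, hgen⟩ := hU n hn.isPrime (fun x hx => hOn x (by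
    rw [mul_comm]
    exact hx))
  refine ⟨z, hz, fun x hx => ?_⟩
  obtain ⟨s₀, hs₀, a, ha⟩ := hgen x hx
  refine ⟨s₀, hs₀, a, ?_⟩
  rw [mul_comm]
  exact ha

variable [Algebra K Q̄] [Algebra.IsAlgebraic K Q̄]

/-- **(3a)₂, level 2**: both affine charts of `h = pk85_h2 K M` are smooth along a ramified
valuation `V` with uniformiser `σ` and residue degree one over the good level `M'`. -/
theorem sm7_midSmooth_level2 (hdvd : M' ∣ M) {π : R} (hπ : Irreducible π) (h2 : 2 ∣ M')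
    (hMu : IsUnit (M' : R))
    (V : ValuationSubring ↥(modularFunctionFieldFullC K M))
    (σ : ↥(modularFunctionFieldFullC K M))
    (hV'V : ∀ y ∈ cm85_Vinf (K := K) M' hπ, cm15_incl K M' M hdvd y ∈ V)
    (hσV : σ⁻¹ ∉ V) (hmaxV : ∀ x ∈ V, x⁻¹ ∉ V → σ⁻¹ * x ∈ V)
    (hσπ : σ⁻¹ * algebraMap R ↥(modularFunctionFieldFullC K M) π ∈ V)
    (hf1 : ∀ x ∈ V, ∃ b ∈ cm85_Vinf (K := K) M' hπ,
      σ⁻¹ * (x - cm15_incl K M' M hdvd b) ∈ V) :
    tl71_MidSmooth π σ (pk15_chart R {pk85_h2 K M (h2.trans hdvd)}) V.toSubring ∧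
      tl71_MidSmooth π σ (pk15_chart R {(pk85_h2 K M (h2.trans hdvd))⁻¹}) V.toSubring := by
  obtain ⟨-, -, -, -, hhV, hhV', -, -, -, -, hfrac₁, hfrac₂, -⟩ :=
    cm85_facts_level2 (R := R) (K := K) M' hπ h2
  obtain ⟨hs₁, hs₂, -⟩ := cm15_base_sat_level2 (R := R) (K := K) M' hπ h2 hMu
  obtain ⟨⟨hD₁, -⟩, ⟨hD₂, -⟩⟩ := sm79_level2 (R := R) K M' hπ hMu h2
  haveI hD₁' : IsDedekindDomain (pk15_chart R ({pk85_h2 K M' h2} :
      Set ↥(modularFunctionFieldFullC K M')) ⧸ Ideal.span {algebraMap R (pk15_chart R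
        ({pk85_h2 K M' h2} : Set ↥(modularFunctionFieldFullC K M'))) π}) := hD₁
  haveI hD₂' : IsDedekindDomain (pk15_chart R ({(pk85_h2 K M' h2)⁻¹} :
      Set ↥(modularFunctionFieldFullC K M')) ⧸ Ideal.span {algebraMap R (pk15_chart R
        ({(pk85_h2 K M' h2)⁻¹} : Set ↥(modularFunctionFieldFullC K M'))) π}) := hD₂
  have hh : cm15_incl K M' M hdvd (pk85_h2 K M' h2) = pk85_h2 K M (h2.trans hdvd) :=
    Subtype.ext (cm15_incl_coe M' M hdvd _)
  have k₁ := (bbi19_main M' M hdvd hπ ({pk85_h2 K M' h2} : Set ↥(modularFunctionFieldFullC K M'))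
    (fun g hg => by rw [Set.mem_singleton_iff.mp hg]; exact hhV) hs₁ hfrac₁ V σ hV'V hσV hmaxV
    hσπ hf1).2.2
  have k₂ := (bbi19_main M' M hdvd hπ
    ({(pk85_h2 K M' h2)⁻¹} : Set ↥(modularFunctionFieldFullC K M'))
    (fun g hg => by rw [Set.mem_singleton_iff.mp hg]; exact hhV') hs₂ hfrac₂ V σ hV'V hσV hmaxV
    hσπ hf1).2.2
  exact ⟨sm7_mid_of_unif M' M hdvd π _ _ (by rw [Set.image_singleton, hh]) V σ k₁,
    sm7_mid_of_unif M' M hdvd π _ _ (by rw [Set.image_singleton, map_inv₀, hh]) V σ k₂⟩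

/-- **(3a)₂, level 3.** -/
theorem sm7_midSmooth_level3 (hdvd : M' ∣ M) {π : R} (hπ : Irreducible π) (h3 : 3 ∣ M')
    (hMu : IsUnit (M' : R))
    (V : ValuationSubring ↥(modularFunctionFieldFullC K M))
    (σ : ↥(modularFunctionFieldFullC K M))
    (hV'V : ∀ y ∈ cm85_Vinf (K := K) M' hπ, cm15_incl K M' M hdvd y ∈ V)
    (hσV : σ⁻¹ ∉ V) (hmaxV : ∀ x ∈ V, x⁻¹ ∉ V → σ⁻¹ * x ∈ V)
    (hσπ : σ⁻¹ * algebraMap R ↥(modularFunctionFieldFullC K M) π ∈ V)
    (hf1 : ∀ x ∈ V, ∃ b ∈ cm85_Vinf (K := K) M' hπ,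
      σ⁻¹ * (x - cm15_incl K M' M hdvd b) ∈ V) :
    tl71_MidSmooth π σ (pk15_chart R {pk85_h3 K M (h3.trans hdvd)}) V.toSubring ∧
      tl71_MidSmooth π σ (pk15_chart R {(pk85_h3 K M (h3.trans hdvd))⁻¹}) V.toSubring := by
  obtain ⟨-, -, -, -, hhV, hhV', -, -, -, -, hfrac₁, hfrac₂, -⟩ :=
    cm85_facts_level3 (R := R) (K := K) M' hπ h3
  obtain ⟨hs₁, hs₂, -⟩ := cm15_base_sat_level3 (R := R) (K := K) M' hπ h3 hMu
  obtain ⟨⟨hD₁, -⟩, ⟨hD₂, -⟩⟩ := sm79_level3 (R := R) K M' hπ hMu h3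
  haveI hD₁' : IsDedekindDomain (pk15_chart R ({pk85_h3 K M' h3} :
      Set ↥(modularFunctionFieldFullC K M')) ⧸ Ideal.span {algebraMap R (pk15_chart R
        ({pk85_h3 K M' h3} : Set ↥(modularFunctionFieldFullC K M'))) π}) := hD₁
  haveI hD₂' : IsDedekindDomain (pk15_chart R ({(pk85_h3 K M' h3)⁻¹} :
      Set ↥(modularFunctionFieldFullC K M')) ⧸ Ideal.span {algebraMap R (pk15_chart R
        ({(pk85_h3 K M' h3)⁻¹} : Set ↥(modularFunctionFieldFullC K M'))) π}) := hD₂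
  have hh : cm15_incl K M' M hdvd (pk85_h3 K M' h3) = pk85_h3 K M (h3.trans hdvd) :=
    Subtype.ext (cm15_incl_coe M' M hdvd _)
  have k₁ := (bbi19_main M' M hdvd hπ ({pk85_h3 K M' h3} : Set ↥(modularFunctionFieldFullC K M'))
    (fun g hg => by rw [Set.mem_singleton_iff.mp hg]; exact hhV) hs₁ hfrac₁ V σ hV'V hσV hmaxV
    hσπ hf1).2.2
  have k₂ := (bbi19_main M' M hdvd hπ
    ({(pk85_h3 K M' h3)⁻¹} : Set ↥(modularFunctionFieldFullC K M'))
    (fun g hg => by rw [Set.mem_singleton_iff.mp hg]; exact hhV') hs₂ hfrac₂ V σ hV'V hσV hmaxV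
    hσπ hf1).2.2
  exact ⟨sm7_mid_of_unif M' M hdvd π _ _ (by rw [Set.image_singleton, hh]) V σ k₁,
    sm7_mid_of_unif M' M hdvd π _ _ (by rw [Set.image_singleton, map_inv₀, hh]) V σ k₂⟩

end sm7_mid

end Fermat.Agent.S36
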