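import Fermat.Agent.S36.Smooth3_7
import Fermat.Agent.S36.SmoothMid7
import Fermat.Agent.S36.OnlyBindF1_72

/-!
# S36 lab, row 592 B1-3a (helper7): ALL THREE (3a)ᵢ at level `M' q²` from the facts of the
middle valuation `V₂` (row B1-V2), in the literal shapes of `tl71_twoGen`

Level `M' * q * q`, `q ∤ M'`, `M'` a good level (`p₀ ∣ M'`, `M'` a unit of `R`).
`V₁ = cm85_Vinf (M' * q * q) hπ`, `V₃ = nsb86_V3 M' q hq hM' hπ`, and `V₂` a PARAMETER with
exactly the hypotheses of `obf72_F1` (helper72) at `M = M' * q`: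

* `hV₂ : ∀ c ∈ cm85_Vinf (M' q), cm15_incl c ∈ V₂`, `hπ₂ : π⁻¹ ∉ V₂`, `hne : V₁ ≠ V₂`,
* `hs : v₂(s) ^ (q - 1) = v₂(π)`.

* `sm7_mid_facts` : then `V₂` lies over the Gauss ring of the good level `M'`, `s` is a
  uniformiser of `V₂`, `π ∈ s V₂`, and `V₂` has residue degree one over the good level
  (`ob72_ram` composed with `fl7_F1`).
* `sm7_three_smooth_sq_level2/3` : for both affine charts `B = pk15_chart R {h}`, `{h⁻¹}` of the
  Hauptmodul: `sf79_Smooth π B V₁`, `tl71_MidSmooth π s B V₂`, `sf79_Smooth π B V₃`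
  (`hS₁`, `hS₂`, `hS₃` of `tl71_twoGen`).

All names are prefixed `sm7_`.
-/

set_option autoImplicit false
set_option linter.unusedSectionVars false
set_option linter.style.haveILetI false

open ModularCurve AlgebraicCurve

namespace Fermat.Agent.S36

open Fermat.Agent.S18 Fermat.Agent.S24 Fermat.Agent.S34 Fermat.Agent.S36.TripleLoc71

section sm7_aux

/-- Field bookkeeping for the mixed composition of residue-degree-one statements. -/
theorem sm7_aux_field {F : Type*} [Field F] (s ϖ x b c : F) (hϖ : ϖ ≠ 0) :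
    s⁻¹ * (x - c) = s⁻¹ * (x - b) + s⁻¹ * ϖ * (ϖ⁻¹ * (b - c)) := by
  field_simp
  ring

/-- Value-group bookkeeping: `a ^ (n - 1) = p < 1`, `p ≠ 0`, `2 ≤ n` give `a ≠ 0`, `a < 1` and
`a⁻¹ p ≤ 1`. -/
theorem sm7_aux_val {Γ : Type*} [LinearOrderedCommGroupWithZero Γ] (a p : Γ) (n : ℕ)
    (hn : 2 ≤ n) (hp0 : p ≠ 0) (hp : p < 1) (h : a ^ (n - 1) = p) :
    a ≠ 0 ∧ a < 1 ∧ a⁻¹ * p ≤ 1 := by
  have ha0 : a ≠ 0 := by
    rintro rfl
    apply hp0
    rw [← h, zero_pow (by omega)]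
  have ha : a < 1 := by
    by_contra hcon
    have h1 : 1 ≤ a ^ (n - 1) := one_le_pow₀ (not_lt.mp hcon)
    rw [h] at h1
    exact absurd hp (not_lt.mpr h1)
  refine ⟨ha0, ha, ?_⟩
  obtain ⟨k, rfl⟩ : ∃ k, n = k + 2 := ⟨n - 2, by omega⟩
  have e : k + 2 - 1 = k + 1 := by omega
  rw [← h, e, pow_succ', inv_mul_cancel_left₀ ha0]
  exact pow_le_one₀ zero_le ha.le

end sm7_aux

section sm7_all

variable {R K : Type} [CommRing R] [IsDomain R] [IsDiscreteValuationRing R] [Field K]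
  [CharZero K] [Algebra R K] [IsFractionRing R K] [Algebra K Kbar] [Algebra.IsAlgebraic K Kbar]
  (M' q : ℕ) [NeZero M'] [NeZero q] (hq : q.Prime) (hM' : ¬ q ∣ M')
  [Algebra R ↥(modularFunctionFieldFullC K M')]
  [IsScalarTower R K ↥(modularFunctionFieldFullC K M')]
  [Algebra R ↥(modularFunctionFieldFullC K (M' * q))]
  [IsScalarTower R K ↥(modularFunctionFieldFullC K (M' * q))]
  [Algebra R ↥(modularFunctionFieldFullC K (M' * q * q))]
  [IsScalarTower R K ↥(modularFunctionFieldFullC K (M' * q * q))]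

include hq hM' in
/-- **The middle valuation over the good level**: from the row B1-V2 facts at level `M' q`,
the inputs of `sm7_midSmooth_level2/3` at the good level `M'`. -/
theorem sm7_mid_facts {π : R} (hπ : Irreducible π) (hqR : ¬ IsUnit (q : R))
    (V₂ : ValuationSubring ↥(modularFunctionFieldFullC K (M' * q * q)))
    (hV₂ : ∀ c ∈ cm85_Vinf (K := K) (M' * q) hπ,
      cm15_incl K (M' * q) (M' * q * q) (dvd_mul_right (M' * q) q) c ∈ V₂)
    (hπ₂ : (algebraMap R ↥(modularFunctionFieldFullC K (M' * q * q)) π)⁻¹ ∉ V₂)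
    (hne : cm85_Vinf (K := K) (M' * q * q) hπ ≠ V₂)
    (s : ↥(modularFunctionFieldFullC K (M' * q * q)))
    (hs : V₂.valuation s ^ (q - 1) =
      V₂.valuation (algebraMap R ↥(modularFunctionFieldFullC K (M' * q * q)) π)) :
    (∀ y ∈ cm85_Vinf (K := K) M' hπ, cm15_incl K M' (M' * q * q)
      ((dvd_mul_right M' q).trans (dvd_mul_right (M' * q) q)) y ∈ V₂) ∧
    s⁻¹ ∉ V₂ ∧ (∀ x ∈ V₂, x⁻¹ ∉ V₂ → s⁻¹ * x ∈ V₂) ∧
    s⁻¹ * algebraMap R ↥(modularFunctionFieldFullC K (M' * q * q)) π ∈ V₂ ∧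
    (∀ x ∈ V₂, ∃ b ∈ cm85_Vinf (K := K) M' hπ,
      s⁻¹ * (x - cm15_incl K M' (M' * q * q)
        ((dvd_mul_right M' q).trans (dvd_mul_right (M' * q) q)) b) ∈ V₂) := by
  have e : algebraMap R ↥(modularFunctionFieldFullC K (M' * q * q)) π =
      algebraMap K ↥(modularFunctionFieldFullC K (M' * q * q)) (algebraMap R K π) :=
    IsScalarTower.algebraMap_apply R K _ π
  have hπ₂' := hπ₂
  have hs' := hs
  rw [e] at hπ₂' hs'
  obtain ⟨-, -, h3, -, h5⟩ := ob72_ram (K := K) (M' * q) q hq (dvd_mul_left q M') hπ V₂ hV₂ hπ₂'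
    hne s hs'
  have hcomp : ∀ c : ↥(modularFunctionFieldFullC K M'),
      cm15_incl K M' (M' * q * q) ((dvd_mul_right M' q).trans (dvd_mul_right (M' * q) q)) c =
        cm15_incl K (M' * q) (M' * q * q) (dvd_mul_right (M' * q) q)
          (cm15_incl K M' (M' * q) (dvd_mul_right M' q) c) := fun c =>
    Subtype.ext (by
      have e1 : ((cm15_incl K M' (M' * q * q)
          ((dvd_mul_right M' q).trans (dvd_mul_right (M' * q) q)) c :
          ↥(modularFunctionFieldFullC K (M' * q * q))) : LaurentSeries K) =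
          (c : LaurentSeries K) := IntermediateField.coe_inclusion _ c
      have e2 : ((cm15_incl K (M' * q) (M' * q * q) (dvd_mul_right (M' * q) q)
          (cm15_incl K M' (M' * q) (dvd_mul_right M' q) c) :
          ↥(modularFunctionFieldFullC K (M' * q * q))) : LaurentSeries K) =
          ((cm15_incl K M' (M' * q) (dvd_mul_right M' q) c :
            ↥(modularFunctionFieldFullC K (M' * q))) : LaurentSeries K) :=
        IntermediateField.coe_inclusion _ _
      have e3 : ((cm15_incl K M' (M' * q) (dvd_mul_right M' q) c :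
          ↥(modularFunctionFieldFullC K (M' * q))) : LaurentSeries K) = (c : LaurentSeries K) :=
        IntermediateField.coe_inclusion _ c
      rw [e1, e2, e3])
  -- valuation bookkeeping
  have hϖ0 : algebraMap R ↥(modularFunctionFieldFullC K (M' * q * q)) π ≠ 0 := by
    intro h0
    apply hπ₂
    rw [h0, inv_zero]
    exact V₂.zero_mem
  have hvϖ0 : V₂.valuation (algebraMap R ↥(modularFunctionFieldFullC K (M' * q * q)) π) ≠ 0 :=
    (Valuation.ne_zero_iff _).mpr hϖ0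
  have hvϖ : V₂.valuation (algebraMap R ↥(modularFunctionFieldFullC K (M' * q * q)) π) < 1 := by
    by_contra hcon
    apply hπ₂
    rw [← ValuationSubring.valuation_le_one_iff, map_inv₀]
    exact inv_le_one_of_one_le₀ (not_lt.mp hcon)
  obtain ⟨hvs0, hvs, hvsπ⟩ := sm7_aux_val _ _ q hq.two_le hvϖ0 hvϖ hs
  have hsV : s⁻¹ ∉ V₂ := by
    rw [← ValuationSubring.valuation_le_one_iff, map_inv₀, not_le]
    exact (one_lt_inv₀ (zero_lt_iff.mpr hvs0)).mpr hvs
  have hsπ : s⁻¹ * algebraMap R ↥(modularFunctionFieldFullC K (M' * q * q)) π ∈ V₂ := by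
    rw [← ValuationSubring.valuation_le_one_iff, map_mul, map_inv₀]
    exact hvsπ
  have hV'V : ∀ y ∈ cm85_Vinf (K := K) M' hπ, cm15_incl K M' (M' * q * q)
      ((dvd_mul_right M' q).trans (dvd_mul_right (M' * q) q)) y ∈ V₂ := by
    intro y hy
    rw [hcomp]
    exact hV₂ _ (wi18_incl_mem M' (M' * q) (dvd_mul_right M' q) hπ y hy)
  refine ⟨hV'V, hsV, h3, hsπ, ?_⟩
  intro x hx
  obtain ⟨b, hb, hxb⟩ := h5 x hx
  obtain ⟨c, hc, hbc⟩ := fl7_F1 (R := R) (K := K) M' q hq hM' hπ hqR b hb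
  refine ⟨c, hc, ?_⟩
  have himg := hV₂ _ hbc
  have e3 : s⁻¹ * (x - cm15_incl K M' (M' * q * q)
        ((dvd_mul_right M' q).trans (dvd_mul_right (M' * q) q)) c) =
      s⁻¹ * (x - cm15_incl K (M' * q) (M' * q * q) (dvd_mul_right (M' * q) q) b) +
        (s⁻¹ * algebraMap R ↥(modularFunctionFieldFullC K (M' * q * q)) π) *
          cm15_incl K (M' * q) (M' * q * q) (dvd_mul_right (M' * q) q)
            ((algebraMap R ↥(modularFunctionFieldFullC K (M' * q)) π)⁻¹ *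
              (b - cm15_incl K M' (M' * q) (dvd_mul_right M' q) c)) := by
    rw [hcomp, map_mul, map_inv₀,
      wi18_incl_algebraMap (M' * q) (M' * q * q) (dvd_mul_right (M' * q) q) π, map_sub]
    exact sm7_aux_field _ _ _ _ _ hϖ0
  rw [e3]
  exact V₂.add_mem _ _ hxb (V₂.mul_mem _ _ hsπ himg)

/-- **All three (3a)ᵢ at level `M' q²`, level 2**, for both affine charts of the Hauptmodul. -/
theorem sm7_three_smooth_sq_level2 {π : R} (hπ : Irreducible π) (hqR : ¬ IsUnit (q : R))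
    (h2 : 2 ∣ M') (hMu : IsUnit (M' : R))
    (V₂ : ValuationSubring ↥(modularFunctionFieldFullC K (M' * q * q)))
    (hV₂ : ∀ c ∈ cm85_Vinf (K := K) (M' * q) hπ,
      cm15_incl K (M' * q) (M' * q * q) (dvd_mul_right (M' * q) q) c ∈ V₂)
    (hπ₂ : (algebraMap R ↥(modularFunctionFieldFullC K (M' * q * q)) π)⁻¹ ∉ V₂)
    (hne : cm85_Vinf (K := K) (M' * q * q) hπ ≠ V₂)
    (s : ↥(modularFunctionFieldFullC K (M' * q * q)))
    (hs : V₂.valuation s ^ (q - 1) =
      V₂.valuation (algebraMap R ↥(modularFunctionFieldFullC K (M' * q * q)) π)) :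
    (sf79_Smooth π (pk15_chart R {pk85_h2 K (M' * q * q)
          (h2.trans ((dvd_mul_right M' q).trans (dvd_mul_right (M' * q) q)))})
        (cm85_Vinf (K := K) (M' * q * q) hπ).toSubring ∧
      tl71_MidSmooth π s (pk15_chart R {pk85_h2 K (M' * q * q)
          (h2.trans ((dvd_mul_right M' q).trans (dvd_mul_right (M' * q) q)))}) V₂.toSubring ∧
      sf79_Smooth π (pk15_chart R {pk85_h2 K (M' * q * q)
          (h2.trans ((dvd_mul_right M' q).trans (dvd_mul_right (M' * q) q)))})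
        (nsb86_V3 (K := K) M' q hq hM' hπ).toSubring) ∧
    (sf79_Smooth π (pk15_chart R {(pk85_h2 K (M' * q * q)
          (h2.trans ((dvd_mul_right M' q).trans (dvd_mul_right (M' * q) q))))⁻¹})
        (cm85_Vinf (K := K) (M' * q * q) hπ).toSubring ∧
      tl71_MidSmooth π s (pk15_chart R {(pk85_h2 K (M' * q * q)
          (h2.trans ((dvd_mul_right M' q).trans (dvd_mul_right (M' * q) q))))⁻¹}) V₂.toSubring ∧
      sf79_Smooth π (pk15_chart R {(pk85_h2 K (M' * q * q)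
          (h2.trans ((dvd_mul_right M' q).trans (dvd_mul_right (M' * q) q))))⁻¹})
        (nsb86_V3 (K := K) M' q hq hM' hπ).toSubring) := by
  have hstep : bi93_F1 (K := K) (M' * q) (M' * q * q) (dvd_mul_right (M' * q) q) hπ :=
    obf72_F1 (K := K) (M' * q) q hq (dvd_mul_left q M') hπ V₂ hV₂ hπ₂ hne s hs
  obtain ⟨⟨a1, a3⟩, ⟨b1, b3⟩⟩ :=
    sm7_smooth13_sq_level2 (R := R) (K := K) M' q hq hM' hπ hqR h2 hMu hstep
  obtain ⟨f1, f2, f3, f4, f5⟩ := sm7_mid_facts (R := R) (K := K) M' q hq hM' hπ hqR V₂ hV₂ hπ₂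
    hne s hs
  obtain ⟨a2, b2⟩ := sm7_midSmooth_level2 (R := R) (K := K) M' (M' * q * q)
    ((dvd_mul_right M' q).trans (dvd_mul_right (M' * q) q)) hπ h2 hMu V₂ s f1 f2 f3 f4 f5
  exact ⟨⟨a1, a2, a3⟩, ⟨b1, b2, b3⟩⟩

/-- **All three (3a)ᵢ at level `M' q²`, level 3.** -/
theorem sm7_three_smooth_sq_level3 {π : R} (hπ : Irreducible π) (hqR : ¬ IsUnit (q : R))
    (h3 : 3 ∣ M') (hMu : IsUnit (M' : R))
    (V₂ : ValuationSubring ↥(modularFunctionFieldFullC K (M' * q * q)))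
    (hV₂ : ∀ c ∈ cm85_Vinf (K := K) (M' * q) hπ,
      cm15_incl K (M' * q) (M' * q * q) (dvd_mul_right (M' * q) q) c ∈ V₂)
    (hπ₂ : (algebraMap R ↥(modularFunctionFieldFullC K (M' * q * q)) π)⁻¹ ∉ V₂)
    (hne : cm85_Vinf (K := K) (M' * q * q) hπ ≠ V₂)
    (s : ↥(modularFunctionFieldFullC K (M' * q * q)))
    (hs : V₂.valuation s ^ (q - 1) =
      V₂.valuation (algebraMap R ↥(modularFunctionFieldFullC K (M' * q * q)) π)) :
    (sf79_Smooth π (pk15_chart R {pk85_h3 K (M' * q * q)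
          (h3.trans ((dvd_mul_right M' q).trans (dvd_mul_right (M' * q) q)))})
        (cm85_Vinf (K := K) (M' * q * q) hπ).toSubring ∧
      tl71_MidSmooth π s (pk15_chart R {pk85_h3 K (M' * q * q)
          (h3.trans ((dvd_mul_right M' q).trans (dvd_mul_right (M' * q) q)))}) V₂.toSubring ∧
      sf79_Smooth π (pk15_chart R {pk85_h3 K (M' * q * q)
          (h3.trans ((dvd_mul_right M' q).trans (dvd_mul_right (M' * q) q)))})
        (nsb86_V3 (K := K) M' q hq hM' hπ).toSubring) ∧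
    (sf79_Smooth π (pk15_chart R {(pk85_h3 K (M' * q * q)
          (h3.trans ((dvd_mul_right M' q).trans (dvd_mul_right (M' * q) q))))⁻¹})
        (cm85_Vinf (K := K) (M' * q * q) hπ).toSubring ∧
      tl71_MidSmooth π s (pk15_chart R {(pk85_h3 K (M' * q * q)
          (h3.trans ((dvd_mul_right M' q).trans (dvd_mul_right (M' * q) q))))⁻¹}) V₂.toSubring ∧
      sf79_Smooth π (pk15_chart R {(pk85_h3 K (M' * q * q)
          (h3.trans ((dvd_mul_right M' q).trans (dvd_mul_right (M' * q) q))))⁻¹})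
        (nsb86_V3 (K := K) M' q hq hM' hπ).toSubring) := by
  have hstep : bi93_F1 (K := K) (M' * q) (M' * q * q) (dvd_mul_right (M' * q) q) hπ :=
    obf72_F1 (K := K) (M' * q) q hq (dvd_mul_left q M') hπ V₂ hV₂ hπ₂ hne s hs
  obtain ⟨⟨a1, a3⟩, ⟨b1, b3⟩⟩ :=
    sm7_smooth13_sq_level3 (R := R) (K := K) M' q hq hM' hπ hqR h3 hMu hstep
  obtain ⟨f1, f2, f3, f4, f5⟩ := sm7_mid_facts (R := R) (K := K) M' q hq hM' hπ hqR V₂ hV₂ hπ₂
    hne s hs
  obtain ⟨a2, b2⟩ := sm7_midSmooth_level3 (R := R) (K := K) M' (M' * q * q)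
    ((dvd_mul_right M' q).trans (dvd_mul_right (M' * q) q)) hπ h3 hMu V₂ s f1 f2 f3 f4 f5
  exact ⟨⟨a1, a2, a3⟩, ⟨b1, b2, b3⟩⟩

end sm7_all

end Fermat.Agent.S36
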