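import Mathlib

/-!
# Extending a pair of embeddings to a compositum (helper97, S36 lab material)

`K₂` is a field generated by the images of two fields `A` (structure map) and `B`
(`iB`), amalgamated over a common subfield `E`.  If `[B : E] = n + 1`, `[K₂ : A] = n`
and there is a "diagonal" `ρ : B → A` over `E` which is *not* the way `B` sits in `K₂`,
then `A ⊗[E] B ≃ K₂ × A`, and hence every pair of ring homs `ι : A → Ω`, `τ : B → Ω`
into a domain, agreeing on `E` and with `τ ≠ ι ∘ ρ`, is induced by a unique ring hom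
`K₂ → Ω`.  (Used for the conjugate embeddings of the level `N ℓ²` modular function
field over the level `N ℓ` one.)
-/

namespace Fermat.Agent.S36

open scoped TensorProduct

theorem ce97_exists_ext {E A B K₂ Ω : Type*} [Field E] [Field A] [Field B] [Field K₂]
    [CommRing Ω] [IsDomain Ω] [Algebra E A] [Algebra E B] [Algebra A K₂]
    [Module.Finite E B]
    (iB : B →+* K₂) (ρ : B →+* A)
    (hcomm : ∀ e : E, iB (algebraMap E B e) = algebraMap A K₂ (algebraMap E A e))
    (hρ : ∀ e : E, ρ (algebraMap E B e) = algebraMap E A e)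
    (n : ℕ) (hB : Module.finrank E B = n + 1) (hK : Module.finrank A K₂ = n)
    (hgen : ∀ S : Subfield K₂, (∀ a : A, algebraMap A K₂ a ∈ S) → (∀ b : B, iB b ∈ S) →
      S = ⊤)
    (y₀ : B) (hy₀ : iB y₀ ≠ algebraMap A K₂ (ρ y₀))
    (ι : A →+* Ω) (τ : B →+* Ω)
    (hιτ : ∀ e : E, τ (algebraMap E B e) = ι (algebraMap E A e))
    (y₁ : B) (hy₁ : τ y₁ ≠ ι (ρ y₁)) :
    ∃ σ : K₂ →+* Ω, (∀ a : A, σ (algebraMap A K₂ a) = ι a) ∧ (∀ b : B, σ (iB b) = τ b) := by
  classical
  letI algEK : Algebra E K₂ := ((algebraMap A K₂).comp (algebraMap E A)).toAlgebra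
  haveI towK : IsScalarTower E A K₂ := IsScalarTower.of_algebraMap_eq (fun _ => rfl)
  letI algAΩ : Algebra A Ω := ι.toAlgebra
  letI algEΩ : Algebra E Ω := (ι.comp (algebraMap E A)).toAlgebra
  haveI towΩ : IsScalarTower E A Ω := IsScalarTower.of_algebraMap_eq (fun _ => rfl)
  -- the three maps out of the tensor product
  let gK : B →ₐ[E] K₂ := { iB with commutes' := fun e => hcomm e }
  let gA : B →ₐ[E] A := { ρ with commutes' := fun e => hρ e }
  let gΩ : B →ₐ[E] Ω := { τ with commutes' := fun e => hιτ e }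
  let μ : A ⊗[E] B →ₐ[A] K₂ :=
    Algebra.TensorProduct.lift (Algebra.ofId A K₂) gK (fun _ _ => Commute.all _ _)
  let ν : A ⊗[E] B →ₐ[A] A :=
    Algebra.TensorProduct.lift (AlgHom.id A A) gA (fun _ _ => Commute.all _ _)
  let m : A ⊗[E] B →ₐ[A] Ω :=
    Algebra.TensorProduct.lift (Algebra.ofId A Ω) gΩ (fun _ _ => Commute.all _ _)
  have hμ1 : ∀ a : A, μ (a ⊗ₜ[E] (1 : B)) = algebraMap A K₂ a := by
    intro a; simp [μ, Algebra.ofId_apply]
  have hμ2 : ∀ b : B, μ ((1 : A) ⊗ₜ[E] b) = iB b := by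
    intro b; simp [μ, gK]
  have hν1 : ∀ a : A, ν (a ⊗ₜ[E] (1 : B)) = a := by
    intro a; simp [ν]
  have hν2 : ∀ b : B, ν ((1 : A) ⊗ₜ[E] b) = ρ b := by
    intro b; simp [ν, gA]
  have hm1 : ∀ a : A, m (a ⊗ₜ[E] (1 : B)) = ι a := by
    intro a; simp [m, Algebra.ofId_apply]; rfl
  have hm2 : ∀ b : B, m ((1 : A) ⊗ₜ[E] b) = τ b := by
    intro b; simp [m, gΩ]
  -- `μ` is surjective: its range is a field containing both generators
  haveI finT : Module.Finite A (A ⊗[E] B) := inferInstance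
  have hrangeField : IsField μ.range := by
    haveI : Module.Finite A μ.range := by
      have : Module.Finite A (LinearMap.range μ.toLinearMap) := inferInstance
      exact this
    haveI : Algebra.IsIntegral A μ.range := Algebra.IsIntegral.of_finite A μ.range
    exact isField_of_isIntegral_of_isField' (Field.toIsField A)
  have hμsurj : Function.Surjective μ := by
    let S : Subfield K₂ :=
      { μ.range.toSubring with
        inv_mem' := by
          intro x hx
          by_cases hx0 : x = 0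
          · subst hx0; simpa using hx
          · obtain ⟨y, hy⟩ := hrangeField.mul_inv_cancel
              (a := (⟨x, hx⟩ : μ.range)) (fun h => hx0 (congrArg Subtype.val h))
            have hxy : x * (y : K₂) = 1 := congrArg Subtype.val hy
            have : x⁻¹ = (y : K₂) := by
              exact inv_eq_of_mul_eq_one_right hxy
            rw [this]; exact y.2 }
    have hS : S = ⊤ := hgen S (fun a => ⟨a ⊗ₜ[E] (1 : B), hμ1 a⟩)
      (fun b => ⟨(1 : A) ⊗ₜ[E] b, hμ2 b⟩)
    intro k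
    have hk : k ∈ S := by rw [hS]; trivial
    exact hk
  -- the pair `(μ, ν)` is surjective, hence bijective by a dimension count
  set u : K₂ := iB y₀ - algebraMap A K₂ (ρ y₀) with hu
  have hu0 : u ≠ 0 := sub_ne_zero.mpr hy₀
  let t₀ : A ⊗[E] B := (1 : A) ⊗ₜ[E] y₀ - (ρ y₀) ⊗ₜ[E] (1 : B)
  have hμt₀ : μ t₀ = u := by simp only [t₀, map_sub, hμ1, hμ2, hu]
  have hνt₀ : ν t₀ = 0 := by simp only [t₀, map_sub, hν1, hν2, sub_self]
  let P : A ⊗[E] B →ₗ[A] K₂ × A := LinearMap.prod μ.toLinearMap ν.toLinearMap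
  have hPapply : ∀ t, P t = (μ t, ν t) := fun _ => rfl
  have hPsurj : Function.Surjective P := by
    rintro ⟨k, a⟩
    obtain ⟨s, hs⟩ := hμsurj ((k - algebraMap A K₂ a) * u⁻¹)
    refine ⟨a ⊗ₜ[E] (1 : B) + s * t₀, ?_⟩
    rw [hPapply, map_add, map_add, map_mul, map_mul, hμ1, hν1, hμt₀, hνt₀, hs]
    refine Prod.ext ?_ ?_
    · simp only [inv_mul_cancel_right₀ hu0]; ring
    · simp
  haveI finK : Module.Finite A K₂ :=
    Module.Finite.of_surjective μ.toLinearMap hμsurj
  have hdim : Module.finrank A (A ⊗[E] B) = Module.finrank A (K₂ × A) := by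
    rw [Module.finrank_baseChange, Module.finrank_prod, Module.finrank_self, hB, hK]
  have hPinj : Function.Injective P :=
    (LinearMap.injective_iff_surjective_of_finrank_eq_finrank hdim).mpr hPsurj
  -- `m` kills the kernel of `μ`
  let t₁ : A ⊗[E] B := (1 : A) ⊗ₜ[E] y₁ - (ρ y₁) ⊗ₜ[E] (1 : B)
  have hνt₁ : ν t₁ = 0 := by simp only [t₁, map_sub, hν1, hν2, sub_self]
  have hmt₁ : m t₁ ≠ 0 := by
    simp only [t₁, map_sub, hm1, hm2]
    exact sub_ne_zero.mpr hy₁
  have hker : RingHom.ker (μ : A ⊗[E] B →+* K₂) ≤ RingHom.ker (m : A ⊗[E] B →+* Ω) := by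
    intro t ht
    rw [RingHom.mem_ker] at ht ⊢
    have ht' : μ t = 0 := ht
    have hzero : t * t₁ = 0 := by
      apply hPinj
      rw [hPapply, map_mul, map_mul, ht', hνt₁, map_zero]
      simp
    have : m t * m t₁ = 0 := by rw [← map_mul, hzero, map_zero]
    rcases mul_eq_zero.mp this with h | h
    · exact h
    · exact absurd h hmt₁
  have hμsurj' : Function.Surjective (μ : A ⊗[E] B →+* K₂) := hμsurj
  let σ : K₂ →+* Ω := RingHom.liftOfSurjective (μ : A ⊗[E] B →+* K₂) hμsurj'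
    ⟨(m : A ⊗[E] B →+* Ω), hker⟩
  have hσ : ∀ t, σ (μ t) = m t := fun t =>
    RingHom.liftOfRightInverse_comp_apply (μ : A ⊗[E] B →+* K₂) _ _
      ⟨(m : A ⊗[E] B →+* Ω), hker⟩ t
  refine ⟨σ, fun a => ?_, fun b => ?_⟩
  · rw [← hμ1 a, hσ, hm1]
  · rw [← hμ2 b, hσ, hm2]

end Fermat.Agent.S36
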