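import Fermat.Agent.S35.NormGenL97
import Fermat.Agent.S36.ConjEmbAlg97

/-!
# S36 lab material (helper97): the conjugate embeddings of `F(Nℓ²)_L` over `F(Nℓ)_L`

`ℓ` prime, `ℓ ∤ N`.  `F₀ = F(N)_L ⊆ F₁ = F(Nℓ)_L ⊆ F₂ = F(Nℓ²)_L` (fields of `q`-expansions),
`α₁, β₁ : F₀ → F₁`, `α₂, β₂ : F₁ → F₂` the degeneracy maps (`α` = inclusion, `β` = `q ↦ q^ℓ`),
`w` the Atkin–Lehner involution of `F₁`.  Then `β₂ ∘ α₁ = α₂ ∘ β₁`, `[F₂ : α₂ F₁] = ℓ`,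
`F₂ = α₂ F₁ · β₂ F₁`, and

* `ce97_exists_hom`: for ring homs `ι, τ : F₁ → Ω` into a domain with `τ ∘ α₁ = ι ∘ β₁` and
  `τ ≠ ι ∘ w` there is a ring hom `Θ : F₂ → Ω` with `Θ ∘ α₂ = ι` and `Θ ∘ β₂ = τ`.

All names are prefixed `ce97_`.
-/

set_option autoImplicit false

open ModularCurve AlgebraicCurve IntermediateField
open Fermat.Agent.S24 Fermat.Agent.S28 Fermat.Agent.S18 Fermat.Agent.S37 Fermat.Agent.S34
open Fermat.Agent.S42 Fermat.Agent.S35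

namespace Fermat.Agent.S36

section ce97_app

/-- `[F(Nℓ²)_L : α F(Nℓ)_L] = ℓ`. -/
theorem ce97_finrank_sq (L : Type) [Field L] (N ℓ : ℕ) [NeZero N] [NeZero ℓ] (hℓ : ℓ.Prime)
    (hN : ¬ ℓ ∣ N) (hL : ((N * ℓ * ℓ : ℕ) : L) ≠ 0) :
    letI := algebraAlong (al97L_alpha L (N * ℓ) ℓ)
    Module.finrank ↥(modularFunctionFieldFullC L (N * ℓ))
      ↥(modularFunctionFieldFullC L (N * ℓ * ℓ)) = ℓ := by
  letI := algebraAlong (al97L_alpha L (N * ℓ) ℓ)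
  have hle : modularFunctionFieldFullC L (N * ℓ) ≤ modularFunctionFieldFullC L (N * ℓ * ℓ) :=
    full_degeneracyC_le L (dvd_mul_right (N * ℓ) ℓ)
  have h1 := gi41_relfinrank L (N := N * ℓ) (N' := N * ℓ * ℓ) (dvd_mul_right (N * ℓ) ℓ) hL
  have hcop : Nat.Coprime N ℓ := ((Nat.Prime.coprime_iff_not_dvd hℓ).mpr hN).symm
  have hcop2 : Nat.Coprime N (ℓ ^ 2) := Nat.Coprime.pow_right 2 hcop
  have hp1 : dedekindPsi ℓ = ℓ + 1 := by
    simpa using Fermat.Agent.Lib.G0C.dedekindPsi_prime_pow hℓ (e := 1) one_pos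
  have hp2 : dedekindPsi (ℓ ^ 2) = ℓ ^ 2 + ℓ := by
    simpa using Fermat.Agent.Lib.G0C.dedekindPsi_prime_pow hℓ (e := 2) (by norm_num)
  have hpsi1 : dedekindPsi (N * ℓ) = dedekindPsi N * (ℓ + 1) := by
    rw [Fermat.Agent.Lib.G0C.dedekindPsi_mul hcop, hp1]
  have hpsi2 : dedekindPsi (N * ℓ * ℓ) = dedekindPsi N * (ℓ + 1) * ℓ := by
    have e1 : N * ℓ * ℓ = N * ℓ ^ 2 := by ring
    rw [e1, Fermat.Agent.Lib.G0C.dedekindPsi_mul hcop2, hp2]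
    ring
  rw [hpsi1, hpsi2] at h1
  have hpos : 0 < dedekindPsi N * (ℓ + 1) := Nat.mul_pos (gi41_psi_pos N) (Nat.succ_pos ℓ)
  have h2 := Nat.eq_of_mul_eq_mul_left hpos h1
  rw [IntermediateField.relfinrank_eq_finrank_of_le hle] at h2
  let e : ↥(modularFunctionFieldFullC L (N * ℓ * ℓ)) ≃ₗ[↥(modularFunctionFieldFullC L (N * ℓ))]
      ↥(IntermediateField.extendScalars hle) :=
    { toFun := fun x => ⟨x.1, x.2⟩
      invFun := fun x => ⟨x.1, x.2⟩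
      map_add' := fun _ _ => rfl
      map_smul' := fun _ _ => rfl
      left_inv := fun _ => rfl
      right_inv := fun _ => rfl }
  exact e.finrank_eq.trans h2

/-- `F(Nℓ²)_L` is generated, as a field, by `α F(Nℓ)_L` and `β F(Nℓ)_L`. -/
theorem ce97_gen (L : Type) [Field L] (N ℓ : ℕ) [NeZero N] [NeZero ℓ] (hℓ : ℓ.Prime)
    (S : Subfield ↥(modularFunctionFieldFullC L (N * ℓ * ℓ)))
    (hα : ∀ a : ↥(modularFunctionFieldFullC L (N * ℓ)), al97L_alpha L (N * ℓ) ℓ a ∈ S)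
    (hβ : ∀ b : ↥(modularFunctionFieldFullC L (N * ℓ)), al97L_beta L (N * ℓ) ℓ b ∈ S) :
    S = ⊤ := by
  let S' : IntermediateField L (LaurentSeries L) :=
    Subfield.toIntermediateField
      (S.map ((modularFunctionFieldFullC L (N * ℓ * ℓ)).val : _ →+* LaurentSeries L))
      (fun c => ⟨al97L_alpha L (N * ℓ) ℓ (algebraMap L _ c), hα _, rfl⟩)
  have hle : modularFunctionFieldFullC L (N * ℓ * ℓ) ≤ S' := by
    rw [modularFunctionFieldFullC, adjoin_le_iff]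
    rintro x ⟨d, hne, hdvd, rfl⟩
    haveI := hne
    by_cases hd : ℓ ∣ d
    · obtain ⟨d', rfl⟩ := hd
      have hd'0 : d' ≠ 0 := fun h => (NeZero.ne (ℓ * d')) (by rw [h, mul_zero])
      haveI : NeZero d' := ⟨hd'0⟩
      have hd' : d' ∣ N * ℓ := by
        have h3 : ℓ * d' ∣ ℓ * (N * ℓ) := by rwa [mul_comm ℓ (N * ℓ)]
        exact (Nat.mul_dvd_mul_iff_left hℓ.pos).mp h3
      refine ⟨al97L_beta L (N * ℓ) ℓ ⟨qExpand L d' (jqModC L),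
        jqModCd_mem_full L (N * ℓ) hd'⟩, hβ _, ?_⟩
      show qExpand L ℓ (qExpand L d' (jqModC L)) = qExpand L (ℓ * d') (jqModC L)
      exact qExpand_qExpand (R := L) d' ℓ (jqModC L)
    · have hd' : d ∣ N * ℓ := by
        have hc : Nat.Coprime d ℓ := ((Nat.Prime.coprime_iff_not_dvd hℓ).mpr hd).symm
        exact hc.dvd_of_dvd_mul_right hdvd
      exact ⟨al97L_alpha L (N * ℓ) ℓ ⟨qExpand L d (jqModC L),
        jqModCd_mem_full L (N * ℓ) hd'⟩, hα _, rfl⟩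
  rw [eq_top_iff]
  rintro ⟨x, hx⟩ -
  obtain ⟨s, hs, hsx⟩ := hle hx
  have h6 : s = ⟨x, hx⟩ := Subtype.ext hsx
  rw [← h6]; exact hs

variable {L : Type} [Field L] (φ : L →+* Kbar)
variable (N ℓ : ℕ) [NeZero N] [NeZero ℓ] (hℓ : ℓ.Prime) (hN : ¬ ℓ ∣ N)

/-- `β₂ ∘ α₁ = α₂ ∘ β₁` (both are `x ↦ x(q^ℓ)` from level `N` to level `Nℓ²`). -/
theorem ce97_beta_alpha (L : Type) [Field L] (N ℓ : ℕ) [NeZero N] [NeZero ℓ]
    (e : ↥(modularFunctionFieldFullC L N)) :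
    al97L_beta L (N * ℓ) ℓ (al97L_alpha L N ℓ e) = al97L_alpha L (N * ℓ) ℓ (al97L_beta L N ℓ e) := by
  apply Subtype.ext
  rw [al97L_beta_coe, al97L_alpha_coe, al97L_alpha_coe, al97L_beta_coe]

/-- `w (j(q^ℓ)) = j(q)`, after base change to `ℚ̄`. -/
theorem ce97_w_x0 :
    coeffMap φ ((al97L_w φ N ℓ hℓ hN
      (⟨qExpand L ℓ (jqModC L), jqModCd_mem_full L (N * ℓ) (dvd_mul_left ℓ N)⟩ :
        ↥(modularFunctionFieldFullC L (N * ℓ))) : ↥(modularFunctionFieldFullC L (N * ℓ))) :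
      LaurentSeries L) = JJ 1 := by
  have hsw : al97_swap ℓ ℓ = 1 := by
    rw [al97_swap_of_dvd dvd_rfl, Nat.div_self hℓ.pos]
  haveI : NeZero (al97_swap ℓ ℓ) := ⟨by rw [hsw]; exact one_ne_zero⟩
  rw [al97L_w_gen φ N ℓ hℓ hN ℓ (dvd_mul_left ℓ N) _ rfl]
  have h1 : ∀ (d : ℕ) [NeZero d], d = 1 →
      qExpand L d (jqModC L) = qExpand L 1 (jqModC L) := by
    intro d _ hd
    subst hd
    rfl
  rw [h1 _ hsw]
  exact al97L_coeffMap_gen φ 1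

/-- **Existence of the conjugate embeddings.**  For ring homs `ι, τ : F(Nℓ)_L → Ω` into a
domain with `τ ∘ α₁ = ι ∘ β₁` and `τ ≠ ι ∘ w`, there is a ring hom `Θ : F(Nℓ²)_L → Ω` with
`Θ ∘ α₂ = ι` and `Θ ∘ β₂ = τ`. -/
theorem ce97_exists_hom (hL : ((N * ℓ * ℓ : ℕ) : L) ≠ 0) {Ω : Type*} [CommRing Ω] [IsDomain Ω]
    (ι τ : ↥(modularFunctionFieldFullC L (N * ℓ)) →+* Ω)
    (hιτ : ∀ e : ↥(modularFunctionFieldFullC L N),
      τ (al97L_alpha L N ℓ e) = ι (al97L_beta L N ℓ e))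
    (y₁ : ↥(modularFunctionFieldFullC L (N * ℓ)))
    (hy₁ : τ y₁ ≠ ι (al97L_w φ N ℓ hℓ hN y₁)) :
    ∃ Θ : ↥(modularFunctionFieldFullC L (N * ℓ * ℓ)) →+* Ω,
      (∀ x, Θ (al97L_alpha L (N * ℓ) ℓ x) = ι x) ∧
      (∀ x, Θ (al97L_beta L (N * ℓ) ℓ x) = τ x) := by
  have hL1 : ((N * ℓ : ℕ) : L) ≠ 0 := by
    intro h; apply hL; rw [Nat.cast_mul, h, zero_mul]
  have hB := ng97_finrank L N ℓ hℓ hN hL1
  have hK := ce97_finrank_sq L N ℓ hℓ hN hL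
  have hfin : @Module.Finite ↥(modularFunctionFieldFullC L N)
      ↥(modularFunctionFieldFullC L (N * ℓ)) _ _
      (algebraAlong (al97L_alpha L N ℓ)).toModule := by
    letI := algebraAlong (al97L_alpha L N ℓ)
    exact Module.finite_of_finrank_pos (by rw [hB]; omega)
  let x0 : ↥(modularFunctionFieldFullC L (N * ℓ)) :=
    ⟨qExpand L ℓ (jqModC L), jqModCd_mem_full L (N * ℓ) (dvd_mul_left ℓ N)⟩
  have hℓ2 : ¬ ((ℓ : ℤ) ∣ (-1 : ℤ)) := by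
    intro hd
    have h1 : (ℓ : ℤ) ∣ 1 := (dvd_neg).mp hd
    have h2 : ℓ ∣ 1 := by exact_mod_cast h1
    exact hℓ.one_lt.ne' (Nat.dvd_one.mp h2)
  have hy₀ : al97L_beta L (N * ℓ) ℓ x0 ≠
      al97L_alpha L (N * ℓ) ℓ (al97L_w φ N ℓ hℓ hN x0) := by
    intro h
    have h1 := congrArg (fun z : ↥(modularFunctionFieldFullC L (N * ℓ * ℓ)) =>
      (coeffMap φ (z : LaurentSeries L)).coeff (-1)) h
    rw [al97L_beta_coe, al97L_alpha_coe, ce97_w_x0 φ N ℓ hℓ hN, kn97_JJ_one_coeff,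
      coeffMap_qExpand, qExpand_coeff_of_not_dvd ℓ _ hℓ2] at h1
    exact zero_ne_one h1
  exact @ce97_exists_ext ↥(modularFunctionFieldFullC L N) ↥(modularFunctionFieldFullC L (N * ℓ))
    ↥(modularFunctionFieldFullC L (N * ℓ)) ↥(modularFunctionFieldFullC L (N * ℓ * ℓ)) Ω
    _ _ _ _ _ _
    (algebraAlong (al97L_beta L N ℓ)) (algebraAlong (al97L_alpha L N ℓ))
    (algebraAlong (al97L_alpha L (N * ℓ) ℓ)) hfin
    (al97L_beta L (N * ℓ) ℓ).toRingHom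
    (al97L_w φ N ℓ hℓ hN).toAlgHom.toRingHom
    (fun e => ce97_beta_alpha L N ℓ e) (fun e => al97L_w_alpha_apply φ N ℓ hℓ hN e)
    ℓ hB hK (ce97_gen L N ℓ hℓ) x0 hy₀ ι τ hιτ y₁ hy₁

end ce97_app

end Fermat.Agent.S36
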