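import Mathlib
import Fermat.Agent.S36.OnlyThree72
import Fermat.Agent.S36.ConjEmb97
import Fermat.Agent.S34.AtkinLehnerVal73

/-!
# S36 lab (helper66): the middle valuation `V₂` of level `M' q²` lies over `V_0'` along `β₂`

Level `M' q q` (`q` prime, `q ∤ M'`, residue characteristic `q`), `F₁ = F(M' q)_K`,
`F₂ = F(M' q q)_K`, `α₂, β₂ : F₁ → F₂`.  `V₂` is ANY valuation subring of `F₂` with the facts of
row B1-V2 used by `ob72_ram` / `o3x72_only_three` (helper72):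

* `hV₂ : α₂ V_∞' ⊆ V₂`, `hπ₂ : π⁻¹ ∉ V₂`, `hne : V₁ ≠ V₂` (`V₁ = cm85_Vinf (M' * q * q)`).

Then (no further hypothesis, in particular nothing about the construction of `V₂`):

* `bv66_beta_mem_V2` : `β₂ x ∈ V₂ ↔ x ∈ V_0' = s34i47c_V0 M' q` — `V₂` lies over `V_0'` along `β₂`;
* `bv66_E2` : `β₂ β₁ V' ⊆ V₂` (the hypothesis `hE2` of `o3x72_V2_stable`).

Proof: `V₂.comap β₂` is a valuation subring of `F₁` over the Gauss ring `V'` of level `M'` along
`α₁` (because `β₂ α₁ = α₂ β₁`), so it is `V_∞'` or `V_0'` (`alv73_main`); it is not `V_∞'`, since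
the only valuation subring of `F₂` over `β₂ V_∞'` is `V₁` (`o3x72_beta_inf`).
-/

set_option autoImplicit false
set_option linter.unusedSectionVars false
set_option linter.style.haveILetI false

open ModularCurve IntermediateField Polynomial

namespace Fermat.Agent.S36

open Fermat.Agent.S18 Fermat.Agent.S24 Fermat.Agent.S37 Fermat.Agent.S34

local notation "Q̄" => AlgebraicClosure ℚ

section bv66

variable {R K : Type} [CommRing R] [IsDomain R] [IsDiscreteValuationRing R] [Field K] [CharZero K]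
  [Algebra R K] [IsFractionRing R K] [Algebra K Q̄] (M' q : ℕ) [NeZero M'] [NeZero q]

/-- **`V₂` lies over `V_0'` along `β₂`**: `β₂ x ∈ V₂ ↔ x ∈ V_0'`. -/
theorem bv66_beta_mem_V2 (hq : q.Prime) (hM' : ¬ q ∣ M') {π : R} (hπ : Irreducible π)
    (hqR : ¬ IsUnit (q : R)) (hL : ((M' * q * q : ℕ) : K) ≠ 0)
    (V₂ : ValuationSubring ↥(modularFunctionFieldFullC K (M' * q * q)))
    (hV₂ : ∀ c ∈ cm85_Vinf (K := K) (M' * q) hπ, al97L_alpha K (M' * q) q c ∈ V₂)
    (hπ₂ : (algebraMap K ↥(modularFunctionFieldFullC K (M' * q * q)) (algebraMap R K π))⁻¹ ∉ V₂)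
    (hne : cm85_Vinf (K := K) (M' * q * q) hπ ≠ V₂)
    (x : ↥(modularFunctionFieldFullC K (M' * q))) :
    al97L_beta K (M' * q) q x ∈ V₂ ↔ x ∈ s34i47c_V0 (K := K) M' q hq hM' hπ := by
  let U : ValuationSubring ↥(modularFunctionFieldFullC K (M' * q)) :=
    V₂.comap ((al97L_beta K (M' * q) q : ↥(modularFunctionFieldFullC K (M' * q)) →ₐ[K] _) :
      ↥(modularFunctionFieldFullC K (M' * q)) →+* ↥(modularFunctionFieldFullC K (M' * q * q)))
  have hU : ∀ y, y ∈ U ↔ al97L_beta K (M' * q) q y ∈ V₂ := fun y => Iff.rfl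
  have hUα : ∀ a ∈ cm85_Vinf (K := K) M' hπ, al97L_alpha K M' q a ∈ U := by
    intro a ha
    rw [hU, ce97_beta_alpha]
    exact hV₂ _ ((al97V_beta_mem_Vinf M' q hπ a).mpr ha)
  have hUπ : (alv73_pi K (M' * q) π)⁻¹ ∉ U := by
    rw [hU, map_inv₀]
    have h1 : al97L_beta K (M' * q) q (alv73_pi K (M' * q) π) =
        algebraMap K ↥(modularFunctionFieldFullC K (M' * q * q)) (algebraMap R K π) :=
      (al97L_beta K (M' * q) q).commutes _
    rw [h1]
    exact hπ₂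
  obtain ⟨honly, -, -⟩ := alv73_main (K := K) (algebraMap K Q̄) M' q hq hM' hπ hqR
  have hU0 : U = alv73_V0 (algebraMap K Q̄) M' q hq hM' hπ := by
    rcases honly U hUα hUπ with h | h
    · exfalso
      apply hne
      symm
      refine o3x72_beta_inf (K := K) M' q hq hM' hπ hqR hL V₂ ?_ hπ₂
      intro c hc
      rw [← hU, h]
      exact hc
    · exact h
  rw [← hU, hU0]
  exact Iff.rfl

/-- `β₂ β₁ V' ⊆ V₂` (hypothesis `hE2` of `o3x72_V2_stable`). -/
theorem bv66_E2 (hq : q.Prime) (hM' : ¬ q ∣ M') {π : R} (hπ : Irreducible π)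
    (hqR : ¬ IsUnit (q : R)) (hL : ((M' * q * q : ℕ) : K) ≠ 0)
    (V₂ : ValuationSubring ↥(modularFunctionFieldFullC K (M' * q * q)))
    (hV₂ : ∀ c ∈ cm85_Vinf (K := K) (M' * q) hπ, al97L_alpha K (M' * q) q c ∈ V₂)
    (hπ₂ : (algebraMap K ↥(modularFunctionFieldFullC K (M' * q * q)) (algebraMap R K π))⁻¹ ∉ V₂)
    (hne : cm85_Vinf (K := K) (M' * q * q) hπ ≠ V₂) :
    ∀ a ∈ cm85_Vinf (K := K) M' hπ, al97L_beta K (M' * q) q (al97L_beta K M' q a) ∈ V₂ := by
  intro a ha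
  rw [bv66_beta_mem_V2 (K := K) M' q hq hM' hπ hqR hL V₂ hV₂ hπ₂ hne]
  exact (al97C_beta_mem_V0 M' q hq hM' hπ a).mpr ha

end bv66

end Fermat.Agent.S36
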