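import Mathlib

/-!
# S36 lab (helper66): separators and CRT for three valuation rings, abstract (Mathlib only)

`F` a field, `V₁ V₂ V₃` valuation rings of `F`, `ϖ : F` a common non-unit (`ϖ ∈ Vᵢ`, `ϖ⁻¹ ∉ Vᵢ`).
Input: two "two-branch" separators
* `eA` with `eA ≡ 0` modulo `ϖ V₁`, `ϖ V₂` and `eA ≡ 1` modulo `ϖ V₃`
  (pull-back along `α` of the level-`q` splitting element `se66_e0`),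
* `eB` with `eB ≡ 0` modulo `ϖ V₁` and `eB ≡ 1` modulo `ϖ V₂`, `ϖ V₃` (pull-back along `β`).

Output:
* `s3a66_sep` : `ε₁ = 1 - eB`, `ε₂ = eB - eA`, `ε₃ = eA` reduce to `(1,0,0)`, `(0,1,0)`, `(0,0,1)`;
* `s3a66_crt` : for `y₁ y₂ y₃ ∈ W = V₁ ⊓ V₂ ⊓ V₃` there is `G ∈ W` with `G ≡ yᵢ` modulo `ϖ Vᵢ`;
* `s3a66_crt_unit` : if moreover `yᵢ` is a unit of `Vᵢ`, then `G` is a unit of `W`;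
* `s3a66_one_add_inv_mem` : `1 + ϖ t` is a unit of a valuation ring `V` when `ϖ⁻¹ ∉ V`, `t ∈ V`.
-/

set_option autoImplicit false

namespace Fermat.Agent.S36

variable {F : Type*} [Field F]

/-- In a valuation ring `V` with a non-unit `ϖ` (`ϖ⁻¹ ∉ V`), `1 + ϖ t` is a unit for `t ∈ V`. -/
theorem s3a66_one_add_inv_mem (V : ValuationSubring F) (ϖ : F)
    (hϖ : ϖ⁻¹ ∉ V) (t : F) (ht : t ∈ V) : (1 + ϖ * t)⁻¹ ∈ V := by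
  have h1 : V.valuation ϖ < 1 := by
    by_contra h
    rw [not_lt] at h
    apply hϖ
    rw [← V.valuation_le_one_iff, map_inv₀]
    exact inv_le_one_of_one_le₀ h
  have ht' : V.valuation t ≤ 1 := (V.valuation_le_one_iff t).mpr ht
  have h2 : V.valuation (ϖ * t) < 1 := by
    rw [map_mul]
    exact mul_lt_one_of_lt_of_le h1 ht'
  have h3 : V.valuation (1 + ϖ * t) = 1 := (V.valuation).map_one_add_of_lt h2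
  rw [← V.valuation_le_one_iff, map_inv₀, h3, inv_one]

/-- A non-unit `ϖ` of a valuation ring lies in it. -/
theorem s3a66_mem_of_inv_not_mem (V : ValuationSubring F) (ϖ : F) (hϖ : ϖ⁻¹ ∉ V) : ϖ ∈ V := by
  rcases V.mem_or_inv_mem ϖ with h | h
  · exact h
  · exact absurd h hϖ

/-- `x ≡ y` modulo `ϖ V` implies `x ∈ V ↔ y ∈ V` (one direction). -/
theorem s3a66_mem_of_cong (V : ValuationSubring F) (ϖ : F) (hϖ : ϖ⁻¹ ∉ V) {x y : F}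
    (h : ϖ⁻¹ * (x - y) ∈ V) (hy : y ∈ V) : x ∈ V := by
  have hϖ0 : ϖ ≠ 0 := by
    rintro rfl
    exact hϖ (by rw [inv_zero]; exact zero_mem V)
  have h1 : x = y + ϖ * (ϖ⁻¹ * (x - y)) := by field_simp; ring
  rw [h1]
  exact add_mem hy (mul_mem (s3a66_mem_of_inv_not_mem V ϖ hϖ) h)

section Three

variable (V₁ V₂ V₃ : ValuationSubring F) (ϖ : F)
  (h₁ : ϖ⁻¹ ∉ V₁) (h₂ : ϖ⁻¹ ∉ V₂) (h₃ : ϖ⁻¹ ∉ V₃)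
  (eA eB : F)
  (hA₁ : ϖ⁻¹ * eA ∈ V₁) (hA₂ : ϖ⁻¹ * eA ∈ V₂) (hA₃ : ϖ⁻¹ * (eA - 1) ∈ V₃)
  (hB₁ : ϖ⁻¹ * eB ∈ V₁) (hB₂ : ϖ⁻¹ * (eB - 1) ∈ V₂) (hB₃ : ϖ⁻¹ * (eB - 1) ∈ V₃)

include hA₁ hA₂ hA₃ hB₁ hB₂ hB₃ in
/-- **The three separators** `ε₁ = 1 - eB`, `ε₂ = eB - eA`, `ε₃ = eA`. -/
theorem s3a66_sep :
    (ϖ⁻¹ * ((1 - eB) - 1) ∈ V₁ ∧ ϖ⁻¹ * (1 - eB) ∈ V₂ ∧ ϖ⁻¹ * (1 - eB) ∈ V₃) ∧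
    (ϖ⁻¹ * (eB - eA) ∈ V₁ ∧ ϖ⁻¹ * ((eB - eA) - 1) ∈ V₂ ∧ ϖ⁻¹ * (eB - eA) ∈ V₃) ∧
    (ϖ⁻¹ * eA ∈ V₁ ∧ ϖ⁻¹ * eA ∈ V₂ ∧ ϖ⁻¹ * (eA - 1) ∈ V₃) := by
  refine ⟨⟨?_, ?_, ?_⟩, ⟨?_, ?_, ?_⟩, hA₁, hA₂, hA₃⟩
  · have : ϖ⁻¹ * ((1 - eB) - 1) = -(ϖ⁻¹ * eB) := by ring
    rw [this]; exact neg_mem hB₁
  · have : ϖ⁻¹ * (1 - eB) = -(ϖ⁻¹ * (eB - 1)) := by ring
    rw [this]; exact neg_mem hB₂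
  · have : ϖ⁻¹ * (1 - eB) = -(ϖ⁻¹ * (eB - 1)) := by ring
    rw [this]; exact neg_mem hB₃
  · have : ϖ⁻¹ * (eB - eA) = ϖ⁻¹ * eB - ϖ⁻¹ * eA := by ring
    rw [this]; exact sub_mem hB₁ hA₁
  · have : ϖ⁻¹ * ((eB - eA) - 1) = ϖ⁻¹ * (eB - 1) - ϖ⁻¹ * eA := by ring
    rw [this]; exact sub_mem hB₂ hA₂
  · have : ϖ⁻¹ * (eB - eA) = ϖ⁻¹ * (eB - 1) - ϖ⁻¹ * (eA - 1) := by ring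
    rw [this]; exact sub_mem hB₃ hA₃

include h₁ h₂ h₃ hA₁ hA₂ hA₃ hB₁ hB₂ hB₃ in
/-- **CRT for `W = V₁ ⊓ V₂ ⊓ V₃` modulo `ϖ`**: three elements of `W` are the reductions along
`V₁`, `V₂`, `V₃` of one element of `W`. -/
theorem s3a66_crt (y₁ y₂ y₃ : F)
    (hy₁ : y₁ ∈ V₁ ∧ y₁ ∈ V₂ ∧ y₁ ∈ V₃) (hy₂ : y₂ ∈ V₁ ∧ y₂ ∈ V₂ ∧ y₂ ∈ V₃)
    (hy₃ : y₃ ∈ V₁ ∧ y₃ ∈ V₂ ∧ y₃ ∈ V₃) :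
    ∃ G : F, (G ∈ V₁ ∧ G ∈ V₂ ∧ G ∈ V₃) ∧
      ϖ⁻¹ * (G - y₁) ∈ V₁ ∧ ϖ⁻¹ * (G - y₂) ∈ V₂ ∧ ϖ⁻¹ * (G - y₃) ∈ V₃ := by
  have c₁ : ϖ⁻¹ * (((1 - eB) * y₁ + (eB - eA) * y₂ + eA * y₃) - y₁) ∈ V₁ := by
    have : ϖ⁻¹ * (((1 - eB) * y₁ + (eB - eA) * y₂ + eA * y₃) - y₁) =
        ϖ⁻¹ * eB * (y₂ - y₁) + ϖ⁻¹ * eA * (y₃ - y₂) := by ring
    rw [this]
    exact add_mem (mul_mem hB₁ (sub_mem hy₂.1 hy₁.1))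
      (mul_mem hA₁ (sub_mem hy₃.1 hy₂.1))
  have c₂ : ϖ⁻¹ * (((1 - eB) * y₁ + (eB - eA) * y₂ + eA * y₃) - y₂) ∈ V₂ := by
    have : ϖ⁻¹ * (((1 - eB) * y₁ + (eB - eA) * y₂ + eA * y₃) - y₂) =
        ϖ⁻¹ * (eB - 1) * (y₂ - y₁) + ϖ⁻¹ * eA * (y₃ - y₂) := by ring
    rw [this]
    exact add_mem (mul_mem hB₂ (sub_mem hy₂.2.1 hy₁.2.1))
      (mul_mem hA₂ (sub_mem hy₃.2.1 hy₂.2.1))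
  have c₃ : ϖ⁻¹ * (((1 - eB) * y₁ + (eB - eA) * y₂ + eA * y₃) - y₃) ∈ V₃ := by
    have : ϖ⁻¹ * (((1 - eB) * y₁ + (eB - eA) * y₂ + eA * y₃) - y₃) =
        ϖ⁻¹ * (eB - 1) * (y₂ - y₁) + ϖ⁻¹ * (eA - 1) * (y₃ - y₂) := by ring
    rw [this]
    exact add_mem (mul_mem hB₃ (sub_mem hy₂.2.2 hy₁.2.2))
      (mul_mem hA₃ (sub_mem hy₃.2.2 hy₂.2.2))
  exact ⟨(1 - eB) * y₁ + (eB - eA) * y₂ + eA * y₃,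
    ⟨s3a66_mem_of_cong V₁ ϖ h₁ c₁ hy₁.1, s3a66_mem_of_cong V₂ ϖ h₂ c₂ hy₂.2.1,
      s3a66_mem_of_cong V₃ ϖ h₃ c₃ hy₃.2.2⟩, c₁, c₂, c₃⟩

/-- If `G ≡ y` modulo `ϖ V` and `y` is a unit of `V`, then `G⁻¹ ∈ V`. -/
theorem s3a66_inv_mem_of_cong (V : ValuationSubring F) (ϖ : F) (hϖ : ϖ⁻¹ ∉ V) {G y : F}
    (h : ϖ⁻¹ * (G - y) ∈ V) (hy0 : y ≠ 0) (hy' : y⁻¹ ∈ V) : G⁻¹ ∈ V := by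
  have hϖ0 : ϖ ≠ 0 := by
    rintro rfl
    exact hϖ (by rw [inv_zero]; exact zero_mem V)
  have h1 : G = y * (1 + ϖ * (ϖ⁻¹ * (G - y) * y⁻¹)) := by field_simp; ring
  rw [h1, mul_inv]
  exact mul_mem hy' (s3a66_one_add_inv_mem V ϖ hϖ _ (mul_mem h hy'))

include h₁ h₂ h₃ hA₁ hA₂ hA₃ hB₁ hB₂ hB₃ in
/-- **CRT for units of `W`**: if `yᵢ ∈ W` is a unit along `Vᵢ` (`i = 1, 2, 3`), the element `G`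
is a unit of `W`. -/
theorem s3a66_crt_unit (y₁ y₂ y₃ : F)
    (hy₁ : y₁ ∈ V₁ ∧ y₁ ∈ V₂ ∧ y₁ ∈ V₃) (hy₂ : y₂ ∈ V₁ ∧ y₂ ∈ V₂ ∧ y₂ ∈ V₃)
    (hy₃ : y₃ ∈ V₁ ∧ y₃ ∈ V₂ ∧ y₃ ∈ V₃)
    (h0₁ : y₁ ≠ 0) (h0₂ : y₂ ≠ 0) (h0₃ : y₃ ≠ 0)
    (hu₁ : y₁⁻¹ ∈ V₁) (hu₂ : y₂⁻¹ ∈ V₂) (hu₃ : y₃⁻¹ ∈ V₃) :
    ∃ G : F, (G ∈ V₁ ∧ G ∈ V₂ ∧ G ∈ V₃) ∧ (G⁻¹ ∈ V₁ ∧ G⁻¹ ∈ V₂ ∧ G⁻¹ ∈ V₃) ∧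
      ϖ⁻¹ * (G - y₁) ∈ V₁ ∧ ϖ⁻¹ * (G - y₂) ∈ V₂ ∧ ϖ⁻¹ * (G - y₃) ∈ V₃ := by
  obtain ⟨G, hG, c₁, c₂, c₃⟩ := s3a66_crt V₁ V₂ V₃ ϖ h₁ h₂ h₃ eA eB hA₁ hA₂ hA₃ hB₁ hB₂ hB₃
    y₁ y₂ y₃ hy₁ hy₂ hy₃
  exact ⟨G, hG, ⟨s3a66_inv_mem_of_cong V₁ ϖ h₁ c₁ h0₁ hu₁, s3a66_inv_mem_of_cong V₂ ϖ h₂ c₂ h0₂ hu₂,
    s3a66_inv_mem_of_cong V₃ ϖ h₃ c₃ h0₃ hu₃⟩, c₁, c₂, c₃⟩

end Three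

end Fermat.Agent.S36
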