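import Mathlib
import Fermat.Agent.S35.SplitElt66
import Fermat.Agent.S36.Split3Abs66

/-!
# S36 lab (helper66): the three separators on the level-`M' q²` frame

Level `M' * q * q`, `q ∤ M'`.  `F₁ = F_K(M' q)`, `F₂ = F_K(M' q q)`, `α₂ = al97L_alpha K (M' * q) q`,
`β₂ = al97L_beta K (M' * q) q : F₁ → F₂`.  `V₁ = cm85_Vinf (M' * q * q) hπ` (Gauss ring), and
`V₂`, `V₃` are ANY valuation subrings of `F₂` with

* `V₂` over `V_∞'` along `α₂` and over `V_0'` along `β₂`,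
* `V₃` over `V_0'` along `α₂` and along `β₂`,
* `π` a non-unit of `V₂`, `V₃`

(only the inclusions `α₂ V_∞' ⊆ V₂`, `β₂ V_0' ⊆ V₂`, `α₂ V_0' ⊆ V₃`, `β₂ V_0' ⊆ V₃` are used;
`V_∞' = cm85_Vinf (M' * q) hπ`, `V_0' = s34i47c_V0 M' q hq hM' hπ`).

* `s3i66_alpha_pi`, `s3i66_beta_pi` : `α₂ π = π = β₂ π`;
* `s3i66_alpha_mem_V1`, `s3i66_beta_mem_V1` : `α₂ V_∞' ⊆ V₁`, `β₂ V_∞' ⊆ V₁`;
* `s3i66_eAB` : `eA = α₂ e0`, `eB = β₂ e0` (`e0` = `se66_e0` at level `M' q`) reduce to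
  `(0,0,1)` and `(0,1,1)` along `(V₁, V₂, V₃)`;
* `s3i66_sep` : the three separators `ε₁, ε₂, ε₃` with reductions `(1,0,0)`, `(0,1,0)`, `(0,0,1)`;
* `s3i66_crt` : `y₁ y₂ y₃ ∈ W = V₁ ⊓ V₂ ⊓ V₃` are the reductions of one `G ∈ W`;
* `s3i66_crt_unit` : if `yᵢ` is a unit of `Vᵢ`, then `G` is a unit of `W`.
-/

set_option autoImplicit false
set_option linter.unusedSectionVars false

namespace Fermat.Agent.S36

open ModularCurve AlgebraicCurve IntermediateField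
open Fermat.Agent.S24 Fermat.Agent.S37 Fermat.Agent.S18 Fermat.Agent.S28 Fermat.Agent.S34
open Fermat.Agent.S35

local notation "Q̄" => AlgebraicClosure ℚ

section S3I66

variable {R K : Type} [CommRing R] [IsDomain R] [IsDiscreteValuationRing R] [Field K]
  [CharZero K] [Algebra R K] [IsFractionRing R K] [Algebra K Q̄]
  (M' q : ℕ) [NeZero M'] [NeZero q] (hq : q.Prime) (hM' : ¬ q ∣ M')
  {π : R} (hπ : Irreducible π)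
  [Algebra R ↥(modularFunctionFieldFullC K (M' * q))]
  [IsScalarTower R K ↥(modularFunctionFieldFullC K (M' * q))]
  [Algebra R ↥(modularFunctionFieldFullC K (M' * q * q))]
  [IsScalarTower R K ↥(modularFunctionFieldFullC K (M' * q * q))]

/-- `α₂` fixes the constants of `R`. -/
theorem s3i66_alpha_algebraMap (r : R) :
    al97L_alpha K (M' * q) q (algebraMap R ↥(modularFunctionFieldFullC K (M' * q)) r) =
      algebraMap R ↥(modularFunctionFieldFullC K (M' * q * q)) r := by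
  rw [IsScalarTower.algebraMap_apply R K ↥(modularFunctionFieldFullC K (M' * q)),
    IsScalarTower.algebraMap_apply R K ↥(modularFunctionFieldFullC K (M' * q * q)),
    AlgHom.commutes]

/-- `β₂` fixes the constants of `R`. -/
theorem s3i66_beta_algebraMap (r : R) :
    al97L_beta K (M' * q) q (algebraMap R ↥(modularFunctionFieldFullC K (M' * q)) r) =
      algebraMap R ↥(modularFunctionFieldFullC K (M' * q * q)) r := by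
  rw [IsScalarTower.algebraMap_apply R K ↥(modularFunctionFieldFullC K (M' * q)),
    IsScalarTower.algebraMap_apply R K ↥(modularFunctionFieldFullC K (M' * q * q)),
    AlgHom.commutes]

/-- `α₂ V_∞' ⊆ V₁` (indeed `α₂ x ∈ V₁ ↔ x ∈ V_∞'`). -/
theorem s3i66_alpha_mem_V1 (x : ↥(modularFunctionFieldFullC K (M' * q))) :
    al97L_alpha K (M' * q) q x ∈ cm85_Vinf (K := K) (M' * q * q) hπ ↔
      x ∈ cm85_Vinf (K := K) (M' * q) hπ :=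
  al97V_alpha_mem_Vinf (M' * q) q hπ x

/-- `β₂ V_∞' ⊆ V₁` (indeed `β₂ x ∈ V₁ ↔ x ∈ V_∞'`). -/
theorem s3i66_beta_mem_V1 (x : ↥(modularFunctionFieldFullC K (M' * q))) :
    al97L_beta K (M' * q) q x ∈ cm85_Vinf (K := K) (M' * q * q) hπ ↔
      x ∈ cm85_Vinf (K := K) (M' * q) hπ :=
  al97V_beta_mem_Vinf (M' * q) q hπ x

/-- `π` is a non-unit of `V₁`. -/
theorem s3i66_pi_inv_not_mem_V1 :
    (algebraMap R ↥(modularFunctionFieldFullC K (M' * q * q)) π)⁻¹ ∉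
      cm85_Vinf (K := K) (M' * q * q) hπ :=
  c1g55_pi_inv_not_mem hπ

variable (V₂ V₃ : ValuationSubring ↥(modularFunctionFieldFullC K (M' * q * q)))

/-- **The two pulled-back splitting elements** `eA = α₂ e0`, `eB = β₂ e0`: reductions `(0,0,1)`
and `(0,1,1)` along `(V₁, V₂, V₃)`. -/
theorem s3i66_eAB (hqR : ¬ IsUnit (q : R))
    (hα₂ : ∀ x ∈ cm85_Vinf (K := K) (M' * q) hπ, al97L_alpha K (M' * q) q x ∈ V₂)
    (hα₃ : ∀ x ∈ s34i47c_V0 (K := K) M' q hq hM' hπ, al97L_alpha K (M' * q) q x ∈ V₃)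
    (hβ₂ : ∀ x ∈ s34i47c_V0 (K := K) M' q hq hM' hπ, al97L_beta K (M' * q) q x ∈ V₂)
    (hβ₃ : ∀ x ∈ s34i47c_V0 (K := K) M' q hq hM' hπ, al97L_beta K (M' * q) q x ∈ V₃) :
    ∃ eA eB : ↥(modularFunctionFieldFullC K (M' * q * q)),
      ((algebraMap R ↥(modularFunctionFieldFullC K (M' * q * q)) π)⁻¹ * eA ∈
          cm85_Vinf (K := K) (M' * q * q) hπ ∧
        (algebraMap R ↥(modularFunctionFieldFullC K (M' * q * q)) π)⁻¹ * eA ∈ V₂ ∧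
        (algebraMap R ↥(modularFunctionFieldFullC K (M' * q * q)) π)⁻¹ * (eA - 1) ∈ V₃) ∧
      ((algebraMap R ↥(modularFunctionFieldFullC K (M' * q * q)) π)⁻¹ * eB ∈
          cm85_Vinf (K := K) (M' * q * q) hπ ∧
        (algebraMap R ↥(modularFunctionFieldFullC K (M' * q * q)) π)⁻¹ * (eB - 1) ∈ V₂ ∧
        (algebraMap R ↥(modularFunctionFieldFullC K (M' * q * q)) π)⁻¹ * (eB - 1) ∈ V₃) := by
  obtain ⟨e, he1, he2⟩ := se66_e0 (K := K) M' q hq hM' hπ hqR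
  have ea : ∀ x : ↥(modularFunctionFieldFullC K (M' * q)),
      (algebraMap R ↥(modularFunctionFieldFullC K (M' * q * q)) π)⁻¹ *
          al97L_alpha K (M' * q) q x =
        al97L_alpha K (M' * q) q
          ((algebraMap R ↥(modularFunctionFieldFullC K (M' * q)) π)⁻¹ * x) := by
    intro x
    rw [map_mul, map_inv₀, s3i66_alpha_algebraMap]
  have eb : ∀ x : ↥(modularFunctionFieldFullC K (M' * q)),
      (algebraMap R ↥(modularFunctionFieldFullC K (M' * q * q)) π)⁻¹ *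
          al97L_beta K (M' * q) q x =
        al97L_beta K (M' * q) q
          ((algebraMap R ↥(modularFunctionFieldFullC K (M' * q)) π)⁻¹ * x) := by
    intro x
    rw [map_mul, map_inv₀, s3i66_beta_algebraMap]
  have ea1 : al97L_alpha K (M' * q) q e - 1 = al97L_alpha K (M' * q) q (e - 1) := by
    rw [map_sub, map_one]
  have eb1 : al97L_beta K (M' * q) q e - 1 = al97L_beta K (M' * q) q (e - 1) := by
    rw [map_sub, map_one]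
  refine ⟨al97L_alpha K (M' * q) q e, al97L_beta K (M' * q) q e, ⟨?_, ?_, ?_⟩, ?_, ?_, ?_⟩
  · rw [ea]; exact (s3i66_alpha_mem_V1 M' q hπ _).mpr he1
  · rw [ea]; exact hα₂ _ he1
  · rw [ea1, ea]; exact hα₃ _ he2
  · rw [eb]; exact (s3i66_beta_mem_V1 M' q hπ _).mpr he1
  · rw [eb1, eb]; exact hβ₂ _ he2
  · rw [eb1, eb]; exact hβ₃ _ he2

/-- **The three separators** of the level-`M' q²` frame: `ε₁, ε₂, ε₃` with reductions `(1,0,0)`,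
`(0,1,0)`, `(0,0,1)` along `(V₁, V₂, V₃)`. -/
theorem s3i66_sep (hqR : ¬ IsUnit (q : R))
    (hα₂ : ∀ x ∈ cm85_Vinf (K := K) (M' * q) hπ, al97L_alpha K (M' * q) q x ∈ V₂)
    (hα₃ : ∀ x ∈ s34i47c_V0 (K := K) M' q hq hM' hπ, al97L_alpha K (M' * q) q x ∈ V₃)
    (hβ₂ : ∀ x ∈ s34i47c_V0 (K := K) M' q hq hM' hπ, al97L_beta K (M' * q) q x ∈ V₂)
    (hβ₃ : ∀ x ∈ s34i47c_V0 (K := K) M' q hq hM' hπ, al97L_beta K (M' * q) q x ∈ V₃) :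
    ∃ ε₁ ε₂ ε₃ : ↥(modularFunctionFieldFullC K (M' * q * q)),
      ((algebraMap R ↥(modularFunctionFieldFullC K (M' * q * q)) π)⁻¹ * (ε₁ - 1) ∈
          cm85_Vinf (K := K) (M' * q * q) hπ ∧
        (algebraMap R ↥(modularFunctionFieldFullC K (M' * q * q)) π)⁻¹ * ε₁ ∈ V₂ ∧
        (algebraMap R ↥(modularFunctionFieldFullC K (M' * q * q)) π)⁻¹ * ε₁ ∈ V₃) ∧
      ((algebraMap R ↥(modularFunctionFieldFullC K (M' * q * q)) π)⁻¹ * ε₂ ∈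
          cm85_Vinf (K := K) (M' * q * q) hπ ∧
        (algebraMap R ↥(modularFunctionFieldFullC K (M' * q * q)) π)⁻¹ * (ε₂ - 1) ∈ V₂ ∧
        (algebraMap R ↥(modularFunctionFieldFullC K (M' * q * q)) π)⁻¹ * ε₂ ∈ V₃) ∧
      ((algebraMap R ↥(modularFunctionFieldFullC K (M' * q * q)) π)⁻¹ * ε₃ ∈
          cm85_Vinf (K := K) (M' * q * q) hπ ∧
        (algebraMap R ↥(modularFunctionFieldFullC K (M' * q * q)) π)⁻¹ * ε₃ ∈ V₂ ∧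
        (algebraMap R ↥(modularFunctionFieldFullC K (M' * q * q)) π)⁻¹ * (ε₃ - 1) ∈ V₃) ∧
      ε₁ + ε₂ + ε₃ = 1 := by
  obtain ⟨eA, eB, ⟨hA₁, hA₂, hA₃⟩, hB₁, hB₂, hB₃⟩ :=
    s3i66_eAB (K := K) M' q hq hM' hπ V₂ V₃ hqR hα₂ hα₃ hβ₂ hβ₃
  obtain ⟨h1, h2, h3⟩ := s3a66_sep (cm85_Vinf (K := K) (M' * q * q) hπ) V₂ V₃
    (algebraMap R ↥(modularFunctionFieldFullC K (M' * q * q)) π) eA eB hA₁ hA₂ hA₃ hB₁ hB₂ hB₃
  exact ⟨1 - eB, eB - eA, eA, h1, h2, h3, by ring⟩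

/-- **CRT modulo `π` for `W = V₁ ⊓ V₂ ⊓ V₃`** on the level-`M' q²` frame. -/
theorem s3i66_crt (hqR : ¬ IsUnit (q : R))
    (h₂ : (algebraMap R ↥(modularFunctionFieldFullC K (M' * q * q)) π)⁻¹ ∉ V₂)
    (h₃ : (algebraMap R ↥(modularFunctionFieldFullC K (M' * q * q)) π)⁻¹ ∉ V₃)
    (hα₂ : ∀ x ∈ cm85_Vinf (K := K) (M' * q) hπ, al97L_alpha K (M' * q) q x ∈ V₂)
    (hα₃ : ∀ x ∈ s34i47c_V0 (K := K) M' q hq hM' hπ, al97L_alpha K (M' * q) q x ∈ V₃)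
    (hβ₂ : ∀ x ∈ s34i47c_V0 (K := K) M' q hq hM' hπ, al97L_beta K (M' * q) q x ∈ V₂)
    (hβ₃ : ∀ x ∈ s34i47c_V0 (K := K) M' q hq hM' hπ, al97L_beta K (M' * q) q x ∈ V₃)
    (y₁ y₂ y₃ : ↥(modularFunctionFieldFullC K (M' * q * q)))
    (hy₁ : y₁ ∈ cm85_Vinf (K := K) (M' * q * q) hπ ∧ y₁ ∈ V₂ ∧ y₁ ∈ V₃)
    (hy₂ : y₂ ∈ cm85_Vinf (K := K) (M' * q * q) hπ ∧ y₂ ∈ V₂ ∧ y₂ ∈ V₃)
    (hy₃ : y₃ ∈ cm85_Vinf (K := K) (M' * q * q) hπ ∧ y₃ ∈ V₂ ∧ y₃ ∈ V₃) :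
    ∃ G : ↥(modularFunctionFieldFullC K (M' * q * q)),
      (G ∈ cm85_Vinf (K := K) (M' * q * q) hπ ∧ G ∈ V₂ ∧ G ∈ V₃) ∧
      (algebraMap R ↥(modularFunctionFieldFullC K (M' * q * q)) π)⁻¹ * (G - y₁) ∈
        cm85_Vinf (K := K) (M' * q * q) hπ ∧
      (algebraMap R ↥(modularFunctionFieldFullC K (M' * q * q)) π)⁻¹ * (G - y₂) ∈ V₂ ∧
      (algebraMap R ↥(modularFunctionFieldFullC K (M' * q * q)) π)⁻¹ * (G - y₃) ∈ V₃ := by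
  obtain ⟨eA, eB, ⟨hA₁, hA₂, hA₃⟩, hB₁, hB₂, hB₃⟩ :=
    s3i66_eAB (K := K) M' q hq hM' hπ V₂ V₃ hqR hα₂ hα₃ hβ₂ hβ₃
  exact s3a66_crt (cm85_Vinf (K := K) (M' * q * q) hπ) V₂ V₃
    (algebraMap R ↥(modularFunctionFieldFullC K (M' * q * q)) π)
    (s3i66_pi_inv_not_mem_V1 (K := K) M' q hπ) h₂ h₃ eA eB hA₁ hA₂ hA₃ hB₁ hB₂ hB₃
    y₁ y₂ y₃ hy₁ hy₂ hy₃

/-- **CRT for units of `W = V₁ ⊓ V₂ ⊓ V₃`** on the level-`M' q²` frame: if `yᵢ ∈ W` is a unit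
of `Vᵢ`, the glued element `G` is a unit of `W`. -/
theorem s3i66_crt_unit (hqR : ¬ IsUnit (q : R))
    (h₂ : (algebraMap R ↥(modularFunctionFieldFullC K (M' * q * q)) π)⁻¹ ∉ V₂)
    (h₃ : (algebraMap R ↥(modularFunctionFieldFullC K (M' * q * q)) π)⁻¹ ∉ V₃)
    (hα₂ : ∀ x ∈ cm85_Vinf (K := K) (M' * q) hπ, al97L_alpha K (M' * q) q x ∈ V₂)
    (hα₃ : ∀ x ∈ s34i47c_V0 (K := K) M' q hq hM' hπ, al97L_alpha K (M' * q) q x ∈ V₃)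
    (hβ₂ : ∀ x ∈ s34i47c_V0 (K := K) M' q hq hM' hπ, al97L_beta K (M' * q) q x ∈ V₂)
    (hβ₃ : ∀ x ∈ s34i47c_V0 (K := K) M' q hq hM' hπ, al97L_beta K (M' * q) q x ∈ V₃)
    (y₁ y₂ y₃ : ↥(modularFunctionFieldFullC K (M' * q * q)))
    (hy₁ : y₁ ∈ cm85_Vinf (K := K) (M' * q * q) hπ ∧ y₁ ∈ V₂ ∧ y₁ ∈ V₃)
    (hy₂ : y₂ ∈ cm85_Vinf (K := K) (M' * q * q) hπ ∧ y₂ ∈ V₂ ∧ y₂ ∈ V₃)
    (hy₃ : y₃ ∈ cm85_Vinf (K := K) (M' * q * q) hπ ∧ y₃ ∈ V₂ ∧ y₃ ∈ V₃)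
    (h0₁ : y₁ ≠ 0) (h0₂ : y₂ ≠ 0) (h0₃ : y₃ ≠ 0)
    (hu₁ : y₁⁻¹ ∈ cm85_Vinf (K := K) (M' * q * q) hπ) (hu₂ : y₂⁻¹ ∈ V₂) (hu₃ : y₃⁻¹ ∈ V₃) :
    ∃ G : ↥(modularFunctionFieldFullC K (M' * q * q)),
      (G ∈ cm85_Vinf (K := K) (M' * q * q) hπ ∧ G ∈ V₂ ∧ G ∈ V₃) ∧
      (G⁻¹ ∈ cm85_Vinf (K := K) (M' * q * q) hπ ∧ G⁻¹ ∈ V₂ ∧ G⁻¹ ∈ V₃) ∧
      (algebraMap R ↥(modularFunctionFieldFullC K (M' * q * q)) π)⁻¹ * (G - y₁) ∈
        cm85_Vinf (K := K) (M' * q * q) hπ ∧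
      (algebraMap R ↥(modularFunctionFieldFullC K (M' * q * q)) π)⁻¹ * (G - y₂) ∈ V₂ ∧
      (algebraMap R ↥(modularFunctionFieldFullC K (M' * q * q)) π)⁻¹ * (G - y₃) ∈ V₃ := by
  obtain ⟨eA, eB, ⟨hA₁, hA₂, hA₃⟩, hB₁, hB₂, hB₃⟩ :=
    s3i66_eAB (K := K) M' q hq hM' hπ V₂ V₃ hqR hα₂ hα₃ hβ₂ hβ₃
  exact s3a66_crt_unit (cm85_Vinf (K := K) (M' * q * q) hπ) V₂ V₃
    (algebraMap R ↥(modularFunctionFieldFullC K (M' * q * q)) π)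
    (s3i66_pi_inv_not_mem_V1 (K := K) M' q hπ) h₂ h₃ eA eB hA₁ hA₂ hA₃ hB₁ hB₂ hB₃
    y₁ y₂ y₃ hy₁ hy₂ hy₃ h0₁ h0₂ h0₃ hu₁ hu₂ hu₃

end S3I66

end Fermat.Agent.S36
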