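import Mathlib
import Fermat.Agent.S36.Split3Inst66
import Fermat.Agent.S36.BetaV2_66

/-!
# S36 lab (helper66): separators / CRT / unit gluing on the level-`M' q²` frame, frame facts only

Level `M' q q` (`q` prime, `q ∤ M'`, residue characteristic `q`), `F₂ = F(M' q q)_K`,
`ϖ = algebraMap K F₂ (algebraMap R K π)` (no `R`-algebra structure on the function fields is
assumed).  `V₁ = cm85_Vinf (M' * q * q) hπ`; `V₂` is ANY valuation subring with the facts of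
`ob72_ram` / `o3x72_only_three` (`hV₂ : α₂ V_∞' ⊆ V₂`, `hπ₂ : ϖ⁻¹ ∉ V₂`, `hne : V₁ ≠ V₂`);
`V₃` is ANY valuation subring with `hV₃mem : x ∈ V₃ ↔ w₂ x ∈ V₁` (`w₂ = als86_w2`).

* `s3f66_sep` : separators `ε₁ + ε₂ + ε₃ = 1` with reductions `(1,0,0)`, `(0,1,0)`, `(0,0,1)`
  modulo `ϖ` along `(V₁, V₂, V₃)`;
* `s3f66_crt` : `y₁ y₂ y₃ ∈ W = V₁ ⊓ V₂ ⊓ V₃` are the reductions modulo `ϖ` of one `G ∈ W`;
* `s3f66_crt_unit` : if `yᵢ` is a unit of `Vᵢ`, then `G` is a unit of `W`.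
-/

set_option autoImplicit false
set_option linter.unusedSectionVars false
set_option linter.style.haveILetI false

open ModularCurve IntermediateField Polynomial

namespace Fermat.Agent.S36

open Fermat.Agent.S18 Fermat.Agent.S24 Fermat.Agent.S37 Fermat.Agent.S34 Fermat.Agent.S35

local notation "Q̄" => AlgebraicClosure ℚ

section s3f66

variable {R K : Type} [CommRing R] [IsDomain R] [IsDiscreteValuationRing R] [Field K] [CharZero K]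
  [Algebra R K] [IsFractionRing R K] [Algebra K Q̄] (M' q : ℕ) [NeZero M'] [NeZero q]

/-- `β₂ V_0' ⊆ V₃`. -/
theorem s3f66_V3_beta (hq : q.Prime) (hM' : ¬ q ∣ M') {π : R} (hπ : Irreducible π)
    (hL : ((M' * q * q : ℕ) : K) ≠ 0)
    (V₃ : ValuationSubring ↥(modularFunctionFieldFullC K (M' * q * q)))
    (hV₃mem : ∀ x, x ∈ V₃ ↔
      als86_w2 (algebraMap K Q̄) M' q hq hM' hL x ∈ cm85_Vinf (K := K) (M' * q * q) hπ)
    (c : ↥(modularFunctionFieldFullC K (M' * q)))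
    (hc : c ∈ s34i47c_V0 (K := K) M' q hq hM' hπ) : al97L_beta K (M' * q) q c ∈ V₃ := by
  rw [hV₃mem, als86_w2_beta]
  exact (al97V_alpha_mem_Vinf (M' * q) q hπ _).mpr ((s34i47c_mem_V0 M' q hq hM' hπ c).1 hc)

/-- **The three separators** of the level-`M' q²` frame, from the frame facts only. -/
theorem s3f66_sep (hq : q.Prime) (hM' : ¬ q ∣ M') {π : R} (hπ : Irreducible π)
    (hqR : ¬ IsUnit (q : R)) (hL : ((M' * q * q : ℕ) : K) ≠ 0)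
    (V₂ V₃ : ValuationSubring ↥(modularFunctionFieldFullC K (M' * q * q)))
    (hV₂ : ∀ c ∈ cm85_Vinf (K := K) (M' * q) hπ, al97L_alpha K (M' * q) q c ∈ V₂)
    (hπ₂ : (algebraMap K ↥(modularFunctionFieldFullC K (M' * q * q)) (algebraMap R K π))⁻¹ ∉ V₂)
    (hne : cm85_Vinf (K := K) (M' * q * q) hπ ≠ V₂)
    (hV₃mem : ∀ x, x ∈ V₃ ↔
      als86_w2 (algebraMap K Q̄) M' q hq hM' hL x ∈ cm85_Vinf (K := K) (M' * q * q) hπ) :
    ∃ ε₁ ε₂ ε₃ : ↥(modularFunctionFieldFullC K (M' * q * q)),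
      ((algebraMap K ↥(modularFunctionFieldFullC K (M' * q * q)) (algebraMap R K π))⁻¹ *
          (ε₁ - 1) ∈ cm85_Vinf (K := K) (M' * q * q) hπ ∧
        (algebraMap K ↥(modularFunctionFieldFullC K (M' * q * q)) (algebraMap R K π))⁻¹ * ε₁ ∈ V₂ ∧
        (algebraMap K ↥(modularFunctionFieldFullC K (M' * q * q)) (algebraMap R K π))⁻¹ * ε₁ ∈
          V₃) ∧
      ((algebraMap K ↥(modularFunctionFieldFullC K (M' * q * q)) (algebraMap R K π))⁻¹ * ε₂ ∈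
          cm85_Vinf (K := K) (M' * q * q) hπ ∧
        (algebraMap K ↥(modularFunctionFieldFullC K (M' * q * q)) (algebraMap R K π))⁻¹ *
          (ε₂ - 1) ∈ V₂ ∧
        (algebraMap K ↥(modularFunctionFieldFullC K (M' * q * q)) (algebraMap R K π))⁻¹ * ε₂ ∈
          V₃) ∧
      ((algebraMap K ↥(modularFunctionFieldFullC K (M' * q * q)) (algebraMap R K π))⁻¹ * ε₃ ∈
          cm85_Vinf (K := K) (M' * q * q) hπ ∧
        (algebraMap K ↥(modularFunctionFieldFullC K (M' * q * q)) (algebraMap R K π))⁻¹ * ε₃ ∈ V₂ ∧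
        (algebraMap K ↥(modularFunctionFieldFullC K (M' * q * q)) (algebraMap R K π))⁻¹ *
          (ε₃ - 1) ∈ V₃) ∧
      ε₁ + ε₂ + ε₃ = 1 := by
  letI a1 : Algebra R ↥(modularFunctionFieldFullC K (M' * q)) :=
    ((algebraMap K ↥(modularFunctionFieldFullC K (M' * q))).comp (algebraMap R K)).toAlgebra
  haveI t1 : IsScalarTower R K ↥(modularFunctionFieldFullC K (M' * q)) :=
    IsScalarTower.of_algebraMap_eq (fun _ => rfl)
  letI a2 : Algebra R ↥(modularFunctionFieldFullC K (M' * q * q)) :=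
    ((algebraMap K ↥(modularFunctionFieldFullC K (M' * q * q))).comp (algebraMap R K)).toAlgebra
  haveI t2 : IsScalarTower R K ↥(modularFunctionFieldFullC K (M' * q * q)) :=
    IsScalarTower.of_algebraMap_eq (fun _ => rfl)
  exact s3i66_sep (K := K) M' q hq hM' hπ V₂ V₃ hqR hV₂
    (fun c hc => o3x72_V3_over (K := K) M' q hq hM' hπ hL V₃ hV₃mem c hc)
    (fun c hc => (bv66_beta_mem_V2 (K := K) M' q hq hM' hπ hqR hL V₂ hV₂ hπ₂ hne c).mpr hc)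
    (fun c hc => s3f66_V3_beta (K := K) M' q hq hM' hπ hL V₃ hV₃mem c hc)

/-- **CRT modulo `π` for `W = V₁ ⊓ V₂ ⊓ V₃`**, from the frame facts only. -/
theorem s3f66_crt (hq : q.Prime) (hM' : ¬ q ∣ M') {π : R} (hπ : Irreducible π)
    (hqR : ¬ IsUnit (q : R)) (hL : ((M' * q * q : ℕ) : K) ≠ 0)
    (V₂ V₃ : ValuationSubring ↥(modularFunctionFieldFullC K (M' * q * q)))
    (hV₂ : ∀ c ∈ cm85_Vinf (K := K) (M' * q) hπ, al97L_alpha K (M' * q) q c ∈ V₂)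
    (hπ₂ : (algebraMap K ↥(modularFunctionFieldFullC K (M' * q * q)) (algebraMap R K π))⁻¹ ∉ V₂)
    (hne : cm85_Vinf (K := K) (M' * q * q) hπ ≠ V₂)
    (hV₃mem : ∀ x, x ∈ V₃ ↔
      als86_w2 (algebraMap K Q̄) M' q hq hM' hL x ∈ cm85_Vinf (K := K) (M' * q * q) hπ)
    (y₁ y₂ y₃ : ↥(modularFunctionFieldFullC K (M' * q * q)))
    (hy₁ : y₁ ∈ cm85_Vinf (K := K) (M' * q * q) hπ ∧ y₁ ∈ V₂ ∧ y₁ ∈ V₃)
    (hy₂ : y₂ ∈ cm85_Vinf (K := K) (M' * q * q) hπ ∧ y₂ ∈ V₂ ∧ y₂ ∈ V₃)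
    (hy₃ : y₃ ∈ cm85_Vinf (K := K) (M' * q * q) hπ ∧ y₃ ∈ V₂ ∧ y₃ ∈ V₃) :
    ∃ G : ↥(modularFunctionFieldFullC K (M' * q * q)),
      (G ∈ cm85_Vinf (K := K) (M' * q * q) hπ ∧ G ∈ V₂ ∧ G ∈ V₃) ∧
      (algebraMap K ↥(modularFunctionFieldFullC K (M' * q * q)) (algebraMap R K π))⁻¹ *
        (G - y₁) ∈ cm85_Vinf (K := K) (M' * q * q) hπ ∧
      (algebraMap K ↥(modularFunctionFieldFullC K (M' * q * q)) (algebraMap R K π))⁻¹ *
        (G - y₂) ∈ V₂ ∧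
      (algebraMap K ↥(modularFunctionFieldFullC K (M' * q * q)) (algebraMap R K π))⁻¹ *
        (G - y₃) ∈ V₃ := by
  letI a1 : Algebra R ↥(modularFunctionFieldFullC K (M' * q)) :=
    ((algebraMap K ↥(modularFunctionFieldFullC K (M' * q))).comp (algebraMap R K)).toAlgebra
  haveI t1 : IsScalarTower R K ↥(modularFunctionFieldFullC K (M' * q)) :=
    IsScalarTower.of_algebraMap_eq (fun _ => rfl)
  letI a2 : Algebra R ↥(modularFunctionFieldFullC K (M' * q * q)) :=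
    ((algebraMap K ↥(modularFunctionFieldFullC K (M' * q * q))).comp (algebraMap R K)).toAlgebra
  haveI t2 : IsScalarTower R K ↥(modularFunctionFieldFullC K (M' * q * q)) :=
    IsScalarTower.of_algebraMap_eq (fun _ => rfl)
  exact s3i66_crt (K := K) M' q hq hM' hπ V₂ V₃ hqR hπ₂
    (o3x72_V3_pi (K := K) M' q hq hM' hπ hL V₃ hV₃mem) hV₂
    (fun c hc => o3x72_V3_over (K := K) M' q hq hM' hπ hL V₃ hV₃mem c hc)
    (fun c hc => (bv66_beta_mem_V2 (K := K) M' q hq hM' hπ hqR hL V₂ hV₂ hπ₂ hne c).mpr hc)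
    (fun c hc => s3f66_V3_beta (K := K) M' q hq hM' hπ hL V₃ hV₃mem c hc)
    y₁ y₂ y₃ hy₁ hy₂ hy₃

/-- **CRT for units of `W = V₁ ⊓ V₂ ⊓ V₃`**, from the frame facts only: if `yᵢ ∈ W` is a unit of
`Vᵢ`, the glued element `G` is a unit of `W`. -/
theorem s3f66_crt_unit (hq : q.Prime) (hM' : ¬ q ∣ M') {π : R} (hπ : Irreducible π)
    (hqR : ¬ IsUnit (q : R)) (hL : ((M' * q * q : ℕ) : K) ≠ 0)
    (V₂ V₃ : ValuationSubring ↥(modularFunctionFieldFullC K (M' * q * q)))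
    (hV₂ : ∀ c ∈ cm85_Vinf (K := K) (M' * q) hπ, al97L_alpha K (M' * q) q c ∈ V₂)
    (hπ₂ : (algebraMap K ↥(modularFunctionFieldFullC K (M' * q * q)) (algebraMap R K π))⁻¹ ∉ V₂)
    (hne : cm85_Vinf (K := K) (M' * q * q) hπ ≠ V₂)
    (hV₃mem : ∀ x, x ∈ V₃ ↔
      als86_w2 (algebraMap K Q̄) M' q hq hM' hL x ∈ cm85_Vinf (K := K) (M' * q * q) hπ)
    (y₁ y₂ y₃ : ↥(modularFunctionFieldFullC K (M' * q * q)))
    (hy₁ : y₁ ∈ cm85_Vinf (K := K) (M' * q * q) hπ ∧ y₁ ∈ V₂ ∧ y₁ ∈ V₃)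
    (hy₂ : y₂ ∈ cm85_Vinf (K := K) (M' * q * q) hπ ∧ y₂ ∈ V₂ ∧ y₂ ∈ V₃)
    (hy₃ : y₃ ∈ cm85_Vinf (K := K) (M' * q * q) hπ ∧ y₃ ∈ V₂ ∧ y₃ ∈ V₃)
    (h0₁ : y₁ ≠ 0) (h0₂ : y₂ ≠ 0) (h0₃ : y₃ ≠ 0)
    (hu₁ : y₁⁻¹ ∈ cm85_Vinf (K := K) (M' * q * q) hπ) (hu₂ : y₂⁻¹ ∈ V₂) (hu₃ : y₃⁻¹ ∈ V₃) :
    ∃ G : ↥(modularFunctionFieldFullC K (M' * q * q)),
      (G ∈ cm85_Vinf (K := K) (M' * q * q) hπ ∧ G ∈ V₂ ∧ G ∈ V₃) ∧
      (G⁻¹ ∈ cm85_Vinf (K := K) (M' * q * q) hπ ∧ G⁻¹ ∈ V₂ ∧ G⁻¹ ∈ V₃) ∧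
      (algebraMap K ↥(modularFunctionFieldFullC K (M' * q * q)) (algebraMap R K π))⁻¹ *
        (G - y₁) ∈ cm85_Vinf (K := K) (M' * q * q) hπ ∧
      (algebraMap K ↥(modularFunctionFieldFullC K (M' * q * q)) (algebraMap R K π))⁻¹ *
        (G - y₂) ∈ V₂ ∧
      (algebraMap K ↥(modularFunctionFieldFullC K (M' * q * q)) (algebraMap R K π))⁻¹ *
        (G - y₃) ∈ V₃ := by
  letI a1 : Algebra R ↥(modularFunctionFieldFullC K (M' * q)) :=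
    ((algebraMap K ↥(modularFunctionFieldFullC K (M' * q))).comp (algebraMap R K)).toAlgebra
  haveI t1 : IsScalarTower R K ↥(modularFunctionFieldFullC K (M' * q)) :=
    IsScalarTower.of_algebraMap_eq (fun _ => rfl)
  letI a2 : Algebra R ↥(modularFunctionFieldFullC K (M' * q * q)) :=
    ((algebraMap K ↥(modularFunctionFieldFullC K (M' * q * q))).comp (algebraMap R K)).toAlgebra
  haveI t2 : IsScalarTower R K ↥(modularFunctionFieldFullC K (M' * q * q)) :=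
    IsScalarTower.of_algebraMap_eq (fun _ => rfl)
  exact s3i66_crt_unit (K := K) M' q hq hM' hπ V₂ V₃ hqR hπ₂
    (o3x72_V3_pi (K := K) M' q hq hM' hπ hL V₃ hV₃mem) hV₂
    (fun c hc => o3x72_V3_over (K := K) M' q hq hM' hπ hL V₃ hV₃mem c hc)
    (fun c hc => (bv66_beta_mem_V2 (K := K) M' q hq hM' hπ hqR hL V₂ hV₂ hπ₂ hne c).mpr hc)
    (fun c hc => s3f66_V3_beta (K := K) M' q hq hM' hπ hL V₃ hV₃mem c hc)
    y₁ y₂ y₃ hy₁ hy₂ hy₃ h0₁ h0₂ h0₃ hu₁ hu₂ hu₃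

end s3f66

end Fermat.Agent.S36
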