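/-
helper71: S36 lab row 598 (C-triple), binder lemmas on top of `LocStrThree71`.

* `tl71_divAt_of_node` : a REGULAR node of a two-branch chart in labelled form
  (`s * z * z' = π * s'`, `s, s' ∉ n'`, `z ∈ p_U`, `z' ∈ p_{U'}`, `n'` on both branches) gives
  the local divisors of `π` cutting out each branch:
  `tl71_DivAt π B' U U' U' n'` (generator `z`) and `tl71_DivAt π B' U' U U n'` (generator `z'`).
  [This is the literal target shape for the package C-REGq (`κ = 1`).]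
* `tl71_divAt_comap` : pull-back of a local divisor along a degeneracy map `φ : F' → F`
  (`φ B' ⊆ B`, `φ U ⊆ V`, `φ U' ⊆ V'`, `φ U' ⊆ V''`): `tl71_DivAt π B' U U' U' (φ⁻¹ n)` gives
  `tl71_DivAt π B V V' V'' n`.   [report #2798: `z_β = β^* z`.]
* `tl71_onBr_comap`, `tl71_onBr_comap_mid` : the point `φ⁻¹ n` lies on the branch `U'` of the
  small chart as soon as `n` lies on a branch of the big chart over `U'`.
-/
import Fermat.Agent.S36.LocStrThree71

set_option autoImplicit false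

namespace Fermat.Agent.S36.TripleLoc71

open Fermat.Agent.S34

section

variable {R F' F : Type*} [CommRing R] [Field F'] [Field F] [Algebra R F'] [Algebra R F]

/-- **A regular node in labelled form gives the two local divisors of `π`.** -/
theorem tl71_divAt_of_node (π : R) (B' : Subalgebra R F') (U U' : Subring F')
    (hBU : ∀ x ∈ B', x ∈ U) (hBU' : ∀ x ∈ B', x ∈ U')
    (hU : ∀ x ∈ U, (algebraMap R F' π)⁻¹ * x ∉ U → x⁻¹ ∈ U)
    (hU' : ∀ x ∈ U', (algebraMap R F' π)⁻¹ * x ∉ U' → x⁻¹ ∈ U')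
    (hπ0 : algebraMap R F' π ≠ 0)
    (n' : Ideal B') (hon : sf79_OnBr π B' U n') (hon' : sf79_OnBr π B' U' n')
    (z z' s s' : B') (hs : s ∉ n') (hs' : s' ∉ n')
    (hz : (algebraMap R F' π)⁻¹ * (z : F') ∈ U) (hz' : (algebraMap R F' π)⁻¹ * (z' : F') ∈ U')
    (hnode : s * z * z' = algebraMap R B' π * s') :
    tl71_DivAt π B' U U' U' n' ∧ tl71_DivAt π B' U' U U n' := by
  have hnodeF : (s : F') * (z : F') * (z' : F') = algebraMap R F' π * (s' : F') := by
    have := congrArg (fun y : B' => (y : F')) hnode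
    simpa using this
  -- `s'` is a unit along both branches
  have hs'U : (s' : F')⁻¹ ∈ U := hU _ (hBU _ s'.2) (fun h => hs' (hon s' h))
  have hs'U' : (s' : F')⁻¹ ∈ U' := hU' _ (hBU' _ s'.2) (fun h => hs' (hon' s' h))
  have hs'0 : (s' : F') ≠ 0 := by
    intro h0
    apply hs'
    have : s' = 0 := Subtype.ext h0
    rw [this]; exact n'.zero_mem
  have hs0 : (s : F') ≠ 0 := by
    intro h0
    apply hs
    have : s = 0 := Subtype.ext h0
    rw [this]; exact n'.zero_mem
  have hz0 : (z : F') ≠ 0 := by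
    intro h0
    rw [h0, mul_zero, zero_mul] at hnodeF
    exact (mul_ne_zero hπ0 hs'0) hnodeF.symm
  have hz'0 : (z' : F') ≠ 0 := by
    intro h0
    rw [h0, mul_zero] at hnodeF
    exact (mul_ne_zero hπ0 hs'0) hnodeF.symm
  -- `π / z = s z' / s'` and `1 / z = s (z'/π) / s'`
  have e1 : algebraMap R F' π * (z : F')⁻¹ = (s : F') * (z' : F') * (s' : F')⁻¹ := by
    field_simp
    first | linear_combination hnodeF | linear_combination -hnodeF
  have e2 : (z : F')⁻¹ = (s : F') * ((algebraMap R F' π)⁻¹ * (z' : F')) * (s' : F')⁻¹ := by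
    field_simp
    first | linear_combination hnodeF | linear_combination -hnodeF
  have e1' : algebraMap R F' π * (z' : F')⁻¹ = (s : F') * (z : F') * (s' : F')⁻¹ := by
    field_simp
    first | linear_combination hnodeF | linear_combination -hnodeF
  have e2' : (z' : F')⁻¹ = (s : F') * ((algebraMap R F' π)⁻¹ * (z : F')) * (s' : F')⁻¹ := by
    field_simp
    first | linear_combination hnodeF | linear_combination -hnodeF
  constructor
  · refine ⟨z, s * z', s', hs', ?_, hz, ?_, ?_, ?_⟩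
    · linear_combination hnode
    · rw [e1]; exact U.mul_mem (U.mul_mem (hBU _ s.2) (hBU _ z'.2)) hs'U
    · rw [e2]; exact U'.mul_mem (U'.mul_mem (hBU' _ s.2) hz') hs'U'
    · rw [e2]; exact U'.mul_mem (U'.mul_mem (hBU' _ s.2) hz') hs'U'
  · refine ⟨z', s * z, s', hs', ?_, hz', ?_, ?_, ?_⟩
    · linear_combination hnode
    · rw [e1']; exact U'.mul_mem (U'.mul_mem (hBU' _ s.2) (hBU' _ z.2)) hs'U'
    · rw [e2']; exact U.mul_mem (U.mul_mem (hBU _ s.2) hz) hs'U
    · rw [e2']; exact U.mul_mem (U.mul_mem (hBU _ s.2) hz) hs'U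

/-- **Pull-back of a local divisor of `π` along a degeneracy map.** -/
theorem tl71_divAt_comap (π : R) (φ : F' →ₐ[R] F) (B' : Subalgebra R F') (B : Subalgebra R F)
    (hBB : ∀ x ∈ B', φ x ∈ B) (U U' : Subring F') (V V' V'' : Subring F)
    (hUV : ∀ x ∈ U, φ x ∈ V) (hUV' : ∀ x ∈ U', φ x ∈ V') (hUV'' : ∀ x ∈ U', φ x ∈ V'')
    (n : Ideal B) (n' : Ideal B')
    (hn' : ∀ x : B', x ∈ n' ↔ (⟨φ x, hBB _ x.2⟩ : B) ∈ n)
    (hdiv : tl71_DivAt π B' U U' U' n') :
    tl71_DivAt π B V V' V'' n := by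
  obtain ⟨z, c, t, ht, hzc, hzU, hπz, hzU', -⟩ := hdiv
  have hφπ : φ (algebraMap R F' π) = algebraMap R F π := φ.commutes π
  refine ⟨⟨φ z, hBB _ z.2⟩, ⟨φ c, hBB _ c.2⟩, ⟨φ t, hBB _ t.2⟩,
    fun h => ht ((hn' t).mpr h), ?_, ?_, ?_, ?_, ?_⟩
  · apply Subtype.ext
    show φ (z : F') * φ (c : F') = φ (t : F') * algebraMap R F π
    have := congrArg (fun y : B' => φ (y : F')) hzc
    simpa [hφπ] using this
  · show (algebraMap R F π)⁻¹ * φ (z : F') ∈ V
    have := hUV _ hzU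
    rwa [map_mul, map_inv₀, hφπ] at this
  · show algebraMap R F π * (φ (z : F'))⁻¹ ∈ V
    have := hUV _ hπz
    rwa [map_mul, map_inv₀, hφπ] at this
  · show (φ (z : F'))⁻¹ ∈ V'
    have := hUV' _ hzU'
    rwa [map_inv₀] at this
  · show (φ (z : F'))⁻¹ ∈ V''
    have := hUV'' _ hzU'
    rwa [map_inv₀] at this

/-- The contraction of `n` lies on the branch `U'` of the small chart if `n` lies on a reduced
branch `V` of the big chart with `φ (π U') ⊆ π V`. -/
theorem tl71_onBr_comap (π : R) (φ : F' →ₐ[R] F) (B' : Subalgebra R F') (B : Subalgebra R F)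
    (hBB : ∀ x ∈ B', φ x ∈ B) (U' : Subring F') (V : Subring F)
    (hUV : ∀ x ∈ U', φ x ∈ V)
    (n : Ideal B) (n' : Ideal B')
    (hn' : ∀ x : B', x ∈ n' ↔ (⟨φ x, hBB _ x.2⟩ : B) ∈ n)
    (hon : sf79_OnBr π B V n) : sf79_OnBr π B' U' n' := by
  intro x hx
  rw [hn']
  apply hon
  show (algebraMap R F π)⁻¹ * φ (x : F') ∈ V
  have := hUV _ hx
  rwa [map_mul, map_inv₀, φ.commutes] at this

/-- The contraction of `n` lies on the branch `U'` of the small chart if `n` lies on the middle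
branch `V₂` (uniformiser `σ`, `π / σ ∈ V₂`) of the big chart with `φ U' ⊆ V₂`. -/
theorem tl71_onBr_comap_mid (π : R) (σ : F) (φ : F' →ₐ[R] F) (B' : Subalgebra R F')
    (B : Subalgebra R F) (hBB : ∀ x ∈ B', φ x ∈ B) (U' : Subring F') (V₂ : Subring F)
    (hUV : ∀ x ∈ U', φ x ∈ V₂) (hπσ : algebraMap R F π * σ⁻¹ ∈ V₂)
    (hπ0 : algebraMap R F π ≠ 0)
    (n : Ideal B) (n' : Ideal B')
    (hn' : ∀ x : B', x ∈ n' ↔ (⟨φ x, hBB _ x.2⟩ : B) ∈ n)
    (hon : tl71_OnMid σ B V₂ n) : sf79_OnBr π B' U' n' := by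
  intro x hx
  rw [hn']
  apply hon
  show φ (x : F') * σ⁻¹ ∈ V₂
  have h1 := hUV _ hx
  rw [map_mul, map_inv₀, φ.commutes] at h1
  have : φ (x : F') * σ⁻¹
      = (algebraMap R F π)⁻¹ * φ (x : F') * (algebraMap R F π * σ⁻¹) := by
    field_simp
  rw [this]
  exact V₂.mul_mem h1 hπσ

end

end Fermat.Agent.S36.TripleLoc71
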