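/-
helper71: S36 lab row 598 (C-triple): from (REG-q) on the small chart to the hypotheses
`hD₁` / `hD₃` of `tl71_twoGen` on the big chart, along a degeneracy map.  No maximality of the
contracted ideal is needed (a local divisor at a bigger ideal is a local divisor at a smaller
one).

* `tl71_divAt_mono`   : `n' ≤ m'`, `tl71_DivAt … m'` ⇒ `tl71_DivAt … n'`.
* `tl71_divAt_of_reg` : `φ : F' →ₐ[R] F`, `φ B' ⊆ B`, `φ U ⊆ V`, `φ U' ⊆ V₂`, `φ U' ⊆ V''`,
  `π / σ ∈ V₂`, and (REG) on `B'`: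
  `∀ m' maximal on both branches U, U', tl71_DivAt π B' U U' U' m'`.
  Then for every prime `n` of `B` on the branch `V` and on (the middle branch `V₂` or the
  branch `V''`): `tl71_DivAt π B V V₂ V'' n`.
  [φ = β, (U, U') = (V_inf', V_0'), (V, V₂, V'') = (V₁, V₂, V₃): this is `hD₁`;
   φ = α, (U, U') = (V_0', V_inf'), (V, V₂, V'') = (V₃, V₂, V₁): this is `hD₃`.]
* `tl71_reg_of_nodes` : (REG) in both directions from labelled regular nodes
  (`s * z * z' = π * s'` at every maximal ideal on both branches).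
-/
import Fermat.Agent.S36.TripleBind71

set_option autoImplicit false

namespace Fermat.Agent.S36.TripleLoc71

open Fermat.Agent.S34

section

variable {R F' F : Type*} [CommRing R] [Field F'] [Field F] [Algebra R F'] [Algebra R F]

/-- A local divisor of `π` at `m'` is a local divisor at every ideal `n' ≤ m'`. -/
theorem tl71_divAt_mono (π : R) (B' : Subalgebra R F') (U U' U'' : Subring F')
    (n' m' : Ideal B') (hle : n' ≤ m') (h : tl71_DivAt π B' U U' U'' m') :
    tl71_DivAt π B' U U' U'' n' := by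
  obtain ⟨z, c, t, ht, rest⟩ := h
  exact ⟨z, c, t, fun hh => ht (hle hh), rest⟩

/-- **From (REG) on the small chart to the local divisors at the multiple points of the big
chart.** -/
theorem tl71_divAt_of_reg (π : R) (σ : F) (φ : F' →ₐ[R] F) (B' : Subalgebra R F')
    (B : Subalgebra R F) (hBB : ∀ x ∈ B', φ x ∈ B) (U U' : Subring F') (V V₂ V'' : Subring F)
    (hUV : ∀ x ∈ U, φ x ∈ V) (hUV₂ : ∀ x ∈ U', φ x ∈ V₂) (hUV'' : ∀ x ∈ U', φ x ∈ V'')
    (hπσ : algebraMap R F π * σ⁻¹ ∈ V₂) (hπ0 : algebraMap R F π ≠ 0)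
    (hreg : ∀ m' : Ideal B', m'.IsMaximal → sf79_OnBr π B' U m' → sf79_OnBr π B' U' m' →
      tl71_DivAt π B' U U' U' m')
    (n : Ideal B) (hn : n ≠ ⊤)
    (hon : sf79_OnBr π B V n) (hon' : tl71_OnMid σ B V₂ n ∨ sf79_OnBr π B V'' n) :
    tl71_DivAt π B V V₂ V'' n := by
  classical
  let f : B' →ₐ[R] B := (φ.comp B'.val).codRestrict B (fun x => hBB _ x.2)
  have hf : ∀ x : B', f x = (⟨φ x, hBB _ x.2⟩ : B) := fun x => rfl
  set n' : Ideal B' := n.comap f with hn'def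
  have hn' : ∀ x : B', x ∈ n' ↔ (⟨φ x, hBB _ x.2⟩ : B) ∈ n := fun x => by
    rw [hn'def, Ideal.mem_comap, hf]
  have hn'top : n' ≠ ⊤ := by
    intro h
    apply hn
    rw [Ideal.eq_top_iff_one]
    have h1 : (1 : B') ∈ n' := by rw [h]; exact Submodule.mem_top
    rw [hn'] at h1
    have : (⟨φ ((1 : B') : F'), hBB _ (1 : B').2⟩ : B) = 1 := by
      apply Subtype.ext
      show φ ((1 : B') : F') = 1
      simp
    rwa [this] at h1
  obtain ⟨m', hm', hle⟩ := Ideal.exists_le_maximal n' hn'top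
  have honU : sf79_OnBr π B' U n' := tl71_onBr_comap π φ B' B hBB U V hUV n n' hn' hon
  have honU' : sf79_OnBr π B' U' n' := by
    rcases hon' with h | h
    · exact tl71_onBr_comap_mid π σ φ B' B hBB U' V₂ hUV₂ hπσ hπ0 n n' hn' h
    · exact tl71_onBr_comap π φ B' B hBB U' V'' hUV'' n n' hn' h
  have hdiv := hreg m' hm' (fun x hx => hle (honU x hx)) (fun x hx => hle (honU' x hx))
  exact tl71_divAt_comap π φ B' B hBB U U' V V₂ V'' hUV hUV₂ hUV'' n n' hn'
    (tl71_divAt_mono π B' U U' U' n' m' hle hdiv)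

/-- **(REG) in both directions from labelled regular nodes.** -/
theorem tl71_reg_of_nodes (π : R) (B' : Subalgebra R F') (U U' : Subring F')
    (hBU : ∀ x ∈ B', x ∈ U) (hBU' : ∀ x ∈ B', x ∈ U')
    (hU : ∀ x ∈ U, (algebraMap R F' π)⁻¹ * x ∉ U → x⁻¹ ∈ U)
    (hU' : ∀ x ∈ U', (algebraMap R F' π)⁻¹ * x ∉ U' → x⁻¹ ∈ U')
    (hπ0 : algebraMap R F' π ≠ 0)
    (hnode : ∀ m' : Ideal B', m'.IsMaximal → sf79_OnBr π B' U m' → sf79_OnBr π B' U' m' →
      ∃ z z' s s' : B', s ∉ m' ∧ s' ∉ m' ∧ (algebraMap R F' π)⁻¹ * (z : F') ∈ U ∧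
        (algebraMap R F' π)⁻¹ * (z' : F') ∈ U' ∧ s * z * z' = algebraMap R B' π * s') :
    (∀ m' : Ideal B', m'.IsMaximal → sf79_OnBr π B' U m' → sf79_OnBr π B' U' m' →
      tl71_DivAt π B' U U' U' m') ∧
    (∀ m' : Ideal B', m'.IsMaximal → sf79_OnBr π B' U' m' → sf79_OnBr π B' U m' →
      tl71_DivAt π B' U' U U m') := by
  constructor
  · intro m' hm' h1 h2
    obtain ⟨z, z', s, s', hs, hs', hz, hz', he⟩ := hnode m' hm' h1 h2
    exact (tl71_divAt_of_node π B' U U' hBU hBU' hU hU' hπ0 m' h1 h2 z z' s s' hs hs' hz hz'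
      he).1
  · intro m' hm' h2 h1
    obtain ⟨z, z', s, s', hs, hs', hz, hz', he⟩ := hnode m' hm' h1 h2
    exact (tl71_divAt_of_node π B' U U' hBU hBU' hU hU' hπ0 m' h1 h2 z z' s s' hs hs' hz hz'
      he).2

end

end Fermat.Agent.S36.TripleLoc71
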