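/-
helper71: S36 lab row 598 (C-triple), concrete chart maps.

For every level `N`, every prime `q` and every admissible Hauptmodul `h'` of level `N`
(`s34i47c_IsHaupt K N q h'`), with `h := α h'` (the same Hauptmodul at level `N * q`):
both degeneracy maps `α = al97L_alpha K N q` and `β = al97L_beta K N q` (`Q ↦ Q^q`) send the
charts `pk15_chart R {h'}`, `pk15_chart R {h'⁻¹}` of level `N` into the charts
`pk15_chart R {h}`, `pk15_chart R {h⁻¹}` of level `N * q`.
(`β`: integrality of `h(Q^q)` over `R[h]` = `hi70_level2_full` / `hi70_level3_full` on main.)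

These are the hypotheses `hBB` of `tl71_divAt_comap` / `tl71_divAt_of_reg` (with `N = M' * q`).
-/
import Fermat.Agent.S34.FrameLSAsm71
import Fermat.Agent.S36.TripleReg71

set_option autoImplicit false
set_option linter.unusedSectionVars false

open ModularCurve

namespace Fermat.Agent.S36.TripleLoc71

open Fermat.Agent.S34 Fermat.Agent.S18 Fermat.Agent.S24

section abstract

variable {R F' F : Type*} [CommRing R] [Field F'] [Field F] [Algebra R F'] [Algebra R F]

/-- An `R`-algebra map sends the chart of `s'` into the chart of `s` as soon as it sends the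
generators `s'` into the chart of `s`. -/
theorem cm71_map_chart (φ : F' →ₐ[R] F) (s' : Set F') (s : Set F)
    (hs : ∀ y ∈ s', IsIntegral (Algebra.adjoin R s) (φ y)) (x : F') (hx : x ∈ pk15_chart R s') :
    φ x ∈ pk15_chart R s := by
  have h1 : IsIntegral (Algebra.adjoin R (φ '' s')) (φ x) :=
    (pk15_mem_chart (φ '' s') (φ x)).mp (sf79i_map_mem φ s' x hx)
  refine (pk15_mem_chart s (φ x)).mpr (bz7_isIntegral_trans s (φ '' s') ?_ _ h1)
  rintro _ ⟨y, hy, rfl⟩
  exact hs y hy

end abstract

section concrete

variable {R K : Type} [CommRing R] [Field K] [CharZero K] [Algebra R K]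
  (N q : ℕ) [NeZero N] [NeZero q]
  [Algebra R ↥(modularFunctionFieldFullC K N)]
  [IsScalarTower R K ↥(modularFunctionFieldFullC K N)]
  [Algebra R ↥(modularFunctionFieldFullC K (N * q))]
  [IsScalarTower R K ↥(modularFunctionFieldFullC K (N * q))]

/-- `α` of an admissible Hauptmodul of level `N` is an admissible Hauptmodul of level `N * q`. -/
theorem cm71_alpha_isHaupt (h' : ↥(modularFunctionFieldFullC K N))
    (hh' : s34i47c_IsHaupt K N q h') :
    s34i47c_IsHaupt K (N * q) q (al97L_alpha K N q h') := by
  rcases hh' with ⟨hq2, h2, rfl⟩ | ⟨hq3, h3, rfl⟩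
  · refine Or.inl ⟨hq2, Dvd.dvd.mul_right h2 q, ?_⟩
    apply Subtype.ext
    rw [al97L_alpha_coe, pk85_h2_coe, pk85_h2_coe]
  · refine Or.inr ⟨hq3, Dvd.dvd.mul_right h3 q, ?_⟩
    apply Subtype.ext
    rw [al97L_alpha_coe, pk85_h3_coe, pk85_h3_coe]

/-- **`α` maps the two affine charts of level `N` into those of level `N * q`.** -/
theorem cm71_alpha_charts (h' : ↥(modularFunctionFieldFullC K N)) :
    (∀ x ∈ pk15_chart R ({h'} : Set ↥(modularFunctionFieldFullC K N)),
      al97L_alpha K N q x ∈
        pk15_chart R ({al97L_alpha K N q h'} : Set ↥(modularFunctionFieldFullC K (N * q)))) ∧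
    (∀ x ∈ pk15_chart R ({h'⁻¹} : Set ↥(modularFunctionFieldFullC K N)),
      al97L_alpha K N q x ∈
        pk15_chart R ({(al97L_alpha K N q h')⁻¹} :
          Set ↥(modularFunctionFieldFullC K (N * q)))) := by
  constructor
  · intro x hx
    refine cm71_map_chart ((al97L_alpha K N q).restrictScalars R) _ _ ?_ x hx
    intro y hy
    rw [Set.mem_singleton_iff.mp hy]
    exact (pk15_mem_chart _ _).mp (pk15_subset_chart _ (Set.mem_singleton _))
  · intro x hx
    refine cm71_map_chart ((al97L_alpha K N q).restrictScalars R) _ _ ?_ x hx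
    intro y hy
    rw [Set.mem_singleton_iff.mp hy]
    have : ((al97L_alpha K N q).restrictScalars R) h'⁻¹ = (al97L_alpha K N q h')⁻¹ :=
      map_inv₀ (al97L_alpha K N q) h'
    rw [this]
    exact (pk15_mem_chart _ _).mp (pk15_subset_chart _ (Set.mem_singleton _))

/-- **`β` maps the two affine charts of level `N` into those of level `N * q`**
(admissible Hauptmodul; `hi70_level2_full` / `hi70_level3_full`). -/
theorem cm71_beta_charts (hq : q.Prime) (hunit : ∀ n : ℕ, Nat.Coprime n q → IsUnit (n : R))
    (h' : ↥(modularFunctionFieldFullC K N)) (hh' : s34i47c_IsHaupt K N q h') :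
    (∀ x ∈ pk15_chart R ({h'} : Set ↥(modularFunctionFieldFullC K N)),
      al97L_beta K N q x ∈
        pk15_chart R ({al97L_alpha K N q h'} : Set ↥(modularFunctionFieldFullC K (N * q)))) ∧
    (∀ x ∈ pk15_chart R ({h'⁻¹} : Set ↥(modularFunctionFieldFullC K N)),
      al97L_beta K N q x ∈
        pk15_chart R ({(al97L_alpha K N q h')⁻¹} :
          Set ↥(modularFunctionFieldFullC K (N * q)))) := by
  have key : IsIntegral (Algebra.adjoin R
        ({al97L_alpha K N q h'} : Set ↥(modularFunctionFieldFullC K (N * q))))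
        (al97L_beta K N q h') ∧
      IsIntegral (Algebra.adjoin R
        ({(al97L_alpha K N q h')⁻¹} : Set ↥(modularFunctionFieldFullC K (N * q))))
        (al97L_beta K N q h')⁻¹ := by
    rcases hh' with ⟨hq2, h2, rfl⟩ | ⟨hq3, h3, rfl⟩
    · have hM : 2 * q ∣ N * q := Nat.mul_dvd_mul_right h2 q
      have hu : IsUnit (2 : R) := by
        have := hunit 2 ((Nat.coprime_primes Nat.prime_two hq).mpr (Ne.symm hq2))
        simpa using this
      obtain ⟨i1, i2, -, -⟩ := hi70_level2_full (K := K) (N * q) (R := R) q hq hq2 hu hM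
        (al97L_alpha K N q (pk85_h2 K N h2)) (al97L_beta K N q (pk85_h2 K N h2))
        (by rw [al97L_alpha_coe, pk85_h2_coe]) (by rw [al97L_beta_coe, pk85_h2_coe])
      exact ⟨i1, i2⟩
    · have hM : 3 * q ∣ N * q := Nat.mul_dvd_mul_right h3 q
      have hu : IsUnit (3 : R) := by
        have := hunit 3 ((Nat.coprime_primes Nat.prime_three hq).mpr (Ne.symm hq3))
        simpa using this
      obtain ⟨i1, i2, -, -⟩ := hi70_level3_full (K := K) (N * q) (R := R) q hq hq3 hu hM
        (al97L_alpha K N q (pk85_h3 K N h3)) (al97L_beta K N q (pk85_h3 K N h3))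
        (by rw [al97L_alpha_coe, pk85_h3_coe]) (by rw [al97L_beta_coe, pk85_h3_coe])
      exact ⟨i1, i2⟩
  constructor
  · intro x hx
    refine cm71_map_chart ((al97L_beta K N q).restrictScalars R) _ _ ?_ x hx
    intro y hy
    rw [Set.mem_singleton_iff.mp hy]
    exact key.1
  · intro x hx
    refine cm71_map_chart ((al97L_beta K N q).restrictScalars R) _ _ ?_ x hx
    intro y hy
    rw [Set.mem_singleton_iff.mp hy]
    have : ((al97L_beta K N q).restrictScalars R) h'⁻¹ = (al97L_beta K N q h')⁻¹ :=
      map_inv₀ (al97L_beta K N q) h'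
    rw [this]
    exact key.2

end concrete

end Fermat.Agent.S36.TripleLoc71
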