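/-
helper71: S36 lab row 598 (C-triple), the CONCRETE binder on the level-`M' q²` frame.

Conventions of `Split3Inst66`: `F₁ = F_K(M' q)`, `F₂ = F_K(M' q q)`,
`α₂ = al97L_alpha K (M' * q) q`, `β₂ = al97L_beta K (M' * q) q : F₁ → F₂`,
`V_∞' = cm85_Vinf (M' * q) hπ`, `V_0' = s34i47c_V0 M' q hq hM' hπ`, `V₁ = cm85_Vinf (M' * q * q) hπ`,
and `V₂`, `V₃` ANY valuation subrings of `F₂` with the four inclusions
`α₂ V_∞' ⊆ V₂`, `α₂ V_0' ⊆ V₃`, `β₂ V_0' ⊆ V₂`, `β₂ V_0' ⊆ V₃`; `σ` with `π / σ ∈ V₂`.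

* `tf71_hD` : for a pair of charts `B'` (level `M' q`, inside `W' = V_∞' ⊓ V_0'`) and `B`
  (level `M' q q`) with `α₂ B' ⊆ B`, `β₂ B' ⊆ B`, and LABELLED REGULAR NODES on `B'`
  (`s * z * z' = π * s'` at every maximal ideal on both branches = (REG-q), row 599):
  the hypotheses `hD₁` and `hD₃` of `tl71_twoGen` hold on `B`.
* `tf71_hD_haupt` : the same for the two affine charts `pk15_chart R {h'}`, `{h'⁻¹}` of an
  admissible Hauptmodul `h'` of level `M' q` and the charts `{α₂ h'}`, `{(α₂ h')⁻¹}` of level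
  `M' q q` (`cm71_alpha_charts`, `cm71_beta_charts`).
-/
import Fermat.Agent.S36.ChartMaps71

set_option autoImplicit false
set_option linter.unusedSectionVars false
set_option linter.style.haveILetI false

open ModularCurve

namespace Fermat.Agent.S36.TripleLoc71

open Fermat.Agent.S34 Fermat.Agent.S18 Fermat.Agent.S24

local notation "Q̄" => AlgebraicClosure ℚ

section TF71

variable {R K : Type} [CommRing R] [IsDomain R] [IsDiscreteValuationRing R] [Field K]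
  [CharZero K] [Algebra R K] [IsFractionRing R K] [Algebra K Q̄]
  (M' q : ℕ) [NeZero M'] [NeZero q] (hq : q.Prime) (hM' : ¬ q ∣ M')
  {π : R} (hπ : Irreducible π)
  [Algebra R ↥(modularFunctionFieldFullC K (M' * q))]
  [IsScalarTower R K ↥(modularFunctionFieldFullC K (M' * q))]
  [Algebra R ↥(modularFunctionFieldFullC K (M' * q * q))]
  [IsScalarTower R K ↥(modularFunctionFieldFullC K (M' * q * q))]

/-- **`hD₁` and `hD₃` of `tl71_twoGen` on a chart of level `M' q²`** from labelled regular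
nodes on the chart of level `M' q` below it. -/
theorem tf71_hD (hqR : ¬ IsUnit (q : R))
    (V₂ V₃ : ValuationSubring ↥(modularFunctionFieldFullC K (M' * q * q)))
    (σ : ↥(modularFunctionFieldFullC K (M' * q * q)))
    (hα₂ : ∀ x ∈ cm85_Vinf (K := K) (M' * q) hπ, al97L_alpha K (M' * q) q x ∈ V₂)
    (hα₃ : ∀ x ∈ s34i47c_V0 (K := K) M' q hq hM' hπ, al97L_alpha K (M' * q) q x ∈ V₃)
    (hβ₂ : ∀ x ∈ s34i47c_V0 (K := K) M' q hq hM' hπ, al97L_beta K (M' * q) q x ∈ V₂)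
    (hβ₃ : ∀ x ∈ s34i47c_V0 (K := K) M' q hq hM' hπ, al97L_beta K (M' * q) q x ∈ V₃)
    (hπσ : algebraMap R ↥(modularFunctionFieldFullC K (M' * q * q)) π * σ⁻¹ ∈ V₂)
    (B' : Subalgebra R ↥(modularFunctionFieldFullC K (M' * q)))
    (B : Subalgebra R ↥(modularFunctionFieldFullC K (M' * q * q)))
    (hαB : ∀ x ∈ B', al97L_alpha K (M' * q) q x ∈ B)
    (hβB : ∀ x ∈ B', al97L_beta K (M' * q) q x ∈ B)
    (hB'W : ∀ x ∈ B', x ∈ s34i47c_W (K := K) M' q hq hM' hπ)
    (hnode : ∀ m' : Ideal B', m'.IsMaximal →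
      sf79_OnBr π B' (cm85_Vinf (K := K) (M' * q) hπ).toSubring m' →
      sf79_OnBr π B' (s34i47c_V0 (K := K) M' q hq hM' hπ).toSubring m' →
      ∃ z z' s s' : B', s ∉ m' ∧ s' ∉ m' ∧
        (algebraMap R ↥(modularFunctionFieldFullC K (M' * q)) π)⁻¹ *
          (z : ↥(modularFunctionFieldFullC K (M' * q))) ∈
            (cm85_Vinf (K := K) (M' * q) hπ).toSubring ∧
        (algebraMap R ↥(modularFunctionFieldFullC K (M' * q)) π)⁻¹ *
          (z' : ↥(modularFunctionFieldFullC K (M' * q))) ∈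
            (s34i47c_V0 (K := K) M' q hq hM' hπ).toSubring ∧
        s * z * z' = algebraMap R B' π * s') :
    (∀ n : Ideal B, n.IsMaximal →
      sf79_OnBr π B (cm85_Vinf (K := K) (M' * q * q) hπ).toSubring n →
      (tl71_OnMid σ B V₂.toSubring n ∨ sf79_OnBr π B V₃.toSubring n) →
      tl71_DivAt π B (cm85_Vinf (K := K) (M' * q * q) hπ).toSubring V₂.toSubring
        V₃.toSubring n) ∧
    (∀ n : Ideal B, n.IsMaximal → sf79_OnBr π B V₃.toSubring n →
      (tl71_OnMid σ B V₂.toSubring n ∨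
        sf79_OnBr π B (cm85_Vinf (K := K) (M' * q * q) hπ).toSubring n) →
      tl71_DivAt π B V₃.toSubring V₂.toSubring
        (cm85_Vinf (K := K) (M' * q * q) hπ).toSubring n) := by
  letI : Algebra R ↥(modularFunctionFieldFullC K M') :=
    ((algebraMap K ↥(modularFunctionFieldFullC K M')).comp (algebraMap R K)).toAlgebra
  haveI : IsScalarTower R K ↥(modularFunctionFieldFullC K M') :=
    IsScalarTower.of_algebraMap_eq (fun _ => rfl)
  have hB₁ : ∀ x ∈ B', x ∈ (cm85_Vinf (K := K) (M' * q) hπ).toSubring :=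
    fun x hx => ((s34i47c_mem_W M' q hq hM' hπ x).mp (hB'W x hx)).1
  have hB₂ : ∀ x ∈ B', x ∈ (s34i47c_V0 (K := K) M' q hq hM' hπ).toSubring :=
    fun x hx => ((s34i47c_mem_W M' q hq hM' hπ x).mp (hB'W x hx)).2
  have hV₁ : ∀ x ∈ (cm85_Vinf (K := K) (M' * q) hπ).toSubring,
      (algebraMap R ↥(modularFunctionFieldFullC K (M' * q)) π)⁻¹ * x ∉
        (cm85_Vinf (K := K) (M' * q) hπ).toSubring →
      x⁻¹ ∈ (cm85_Vinf (K := K) (M' * q) hπ).toSubring := by
    intro x hx hx'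
    by_contra hcon
    apply hx'
    show (algebraMap R ↥(modularFunctionFieldFullC K (M' * q)) π)⁻¹ * x ∈
      cm85_Vinf (K := K) (M' * q) hπ
    rw [IsScalarTower.algebraMap_apply R K ↥(modularFunctionFieldFullC K (M' * q))]
    exact gv85_hmax (IsLocalRing.residue R) π (pk85_res_iff hπ) hπ.ne_zero _ _ x hx hcon
  have hV₂ : ∀ x ∈ (s34i47c_V0 (K := K) M' q hq hM' hπ).toSubring,
      (algebraMap R ↥(modularFunctionFieldFullC K (M' * q)) π)⁻¹ * x ∉
        (s34i47c_V0 (K := K) M' q hq hM' hπ).toSubring →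
      x⁻¹ ∈ (s34i47c_V0 (K := K) M' q hq hM' hπ).toSubring := by
    intro x hx hx'
    by_contra hcon
    exact hx' (tv2c_hmax_zero (R := R) (K := K) M' q hq hM' hπ hqR x hx hcon)
  have hπ0' : algebraMap R ↥(modularFunctionFieldFullC K (M' * q)) π ≠ 0 := by
    intro h0
    apply (ci22_Vinf_pi (K := K) (M' * q) hπ).2
    rw [h0, inv_zero]
    exact (cm85_Vinf (K := K) (M' * q) hπ).zero_mem
  have hπ0 : algebraMap R ↥(modularFunctionFieldFullC K (M' * q * q)) π ≠ 0 := by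
    intro h0
    apply (ci22_Vinf_pi (K := K) (M' * q * q) hπ).2
    rw [h0, inv_zero]
    exact (cm85_Vinf (K := K) (M' * q * q) hπ).zero_mem
  obtain ⟨hr₁, hr₂⟩ := tl71_reg_of_nodes π B' (cm85_Vinf (K := K) (M' * q) hπ).toSubring
    (s34i47c_V0 (K := K) M' q hq hM' hπ).toSubring hB₁ hB₂ hV₁ hV₂ hπ0' hnode
  have hαV₁ : ∀ x ∈ (cm85_Vinf (K := K) (M' * q) hπ).toSubring,
      ((al97L_alpha K (M' * q) q).restrictScalars R) x ∈
        (cm85_Vinf (K := K) (M' * q * q) hπ).toSubring :=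
    fun x hx => (al97V_alpha_mem_Vinf (M' * q) q hπ x).mpr hx
  have hβV₁ : ∀ x ∈ (cm85_Vinf (K := K) (M' * q) hπ).toSubring,
      ((al97L_beta K (M' * q) q).restrictScalars R) x ∈
        (cm85_Vinf (K := K) (M' * q * q) hπ).toSubring :=
    fun x hx => (al97V_beta_mem_Vinf (M' * q) q hπ x).mpr hx
  constructor
  · intro n hn hon hon'
    exact tl71_divAt_of_reg π σ ((al97L_beta K (M' * q) q).restrictScalars R) B' B hβB
      (cm85_Vinf (K := K) (M' * q) hπ).toSubring (s34i47c_V0 (K := K) M' q hq hM' hπ).toSubring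
      (cm85_Vinf (K := K) (M' * q * q) hπ).toSubring V₂.toSubring V₃.toSubring
      hβV₁ hβ₂ hβ₃ hπσ hπ0 hr₁ n hn.ne_top hon hon'
  · intro n hn hon hon'
    exact tl71_divAt_of_reg π σ ((al97L_alpha K (M' * q) q).restrictScalars R) B' B hαB
      (s34i47c_V0 (K := K) M' q hq hM' hπ).toSubring (cm85_Vinf (K := K) (M' * q) hπ).toSubring
      V₃.toSubring V₂.toSubring (cm85_Vinf (K := K) (M' * q * q) hπ).toSubring
      hα₃ hα₂ hαV₁ hπσ hπ0 hr₂ n hn.ne_top hon hon'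

/-- The labelled regular nodes of a chart `B'` of level `M' q` (the hypothesis `hnode` of
`tf71_hD`; = (REG-q), row 599). -/
def tf71_RegNodes (B' : Subalgebra R ↥(modularFunctionFieldFullC K (M' * q))) : Prop :=
  ∀ m' : Ideal B', m'.IsMaximal →
    sf79_OnBr π B' (cm85_Vinf (K := K) (M' * q) hπ).toSubring m' →
    sf79_OnBr π B' (s34i47c_V0 (K := K) M' q hq hM' hπ).toSubring m' →
    ∃ z z' s s' : B', s ∉ m' ∧ s' ∉ m' ∧
      (algebraMap R ↥(modularFunctionFieldFullC K (M' * q)) π)⁻¹ *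
        (z : ↥(modularFunctionFieldFullC K (M' * q))) ∈
          (cm85_Vinf (K := K) (M' * q) hπ).toSubring ∧
      (algebraMap R ↥(modularFunctionFieldFullC K (M' * q)) π)⁻¹ *
        (z' : ↥(modularFunctionFieldFullC K (M' * q))) ∈
          (s34i47c_V0 (K := K) M' q hq hM' hπ).toSubring ∧
      s * z * z' = algebraMap R B' π * s'

/-- **`hD₁` and `hD₃` of `tl71_twoGen` for the two affine charts of an admissible Hauptmodul**
(`h₂ = α₂ h'` at level `M' q q`). -/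
theorem tf71_hD_haupt (hunit : ∀ n : ℕ, Nat.Coprime n q → IsUnit (n : R))
    (hqR : ¬ IsUnit (q : R))
    (V₂ V₃ : ValuationSubring ↥(modularFunctionFieldFullC K (M' * q * q)))
    (σ : ↥(modularFunctionFieldFullC K (M' * q * q)))
    (hα₂ : ∀ x ∈ cm85_Vinf (K := K) (M' * q) hπ, al97L_alpha K (M' * q) q x ∈ V₂)
    (hα₃ : ∀ x ∈ s34i47c_V0 (K := K) M' q hq hM' hπ, al97L_alpha K (M' * q) q x ∈ V₃)
    (hβ₂ : ∀ x ∈ s34i47c_V0 (K := K) M' q hq hM' hπ, al97L_beta K (M' * q) q x ∈ V₂)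
    (hβ₃ : ∀ x ∈ s34i47c_V0 (K := K) M' q hq hM' hπ, al97L_beta K (M' * q) q x ∈ V₃)
    (hπσ : algebraMap R ↥(modularFunctionFieldFullC K (M' * q * q)) π * σ⁻¹ ∈ V₂)
    (h' : ↥(modularFunctionFieldFullC K (M' * q))) (hh' : s34i47c_IsHaupt K (M' * q) q h')
    (hBW₁ : ∀ x ∈ pk15_chart R ({h'} : Set ↥(modularFunctionFieldFullC K (M' * q))),
      x ∈ s34i47c_W (K := K) M' q hq hM' hπ)
    (hBW₂ : ∀ x ∈ pk15_chart R ({h'⁻¹} : Set ↥(modularFunctionFieldFullC K (M' * q))),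
      x ∈ s34i47c_W (K := K) M' q hq hM' hπ)
    (hreg₁ : tf71_RegNodes (K := K) M' q hq hM' hπ
      (pk15_chart R ({h'} : Set ↥(modularFunctionFieldFullC K (M' * q)))))
    (hreg₂ : tf71_RegNodes (K := K) M' q hq hM' hπ
      (pk15_chart R ({h'⁻¹} : Set ↥(modularFunctionFieldFullC K (M' * q))))) :
    ((∀ n : Ideal ↥(pk15_chart R ({al97L_alpha K (M' * q) q h'} :
          Set ↥(modularFunctionFieldFullC K (M' * q * q)))), n.IsMaximal →
        sf79_OnBr π _ (cm85_Vinf (K := K) (M' * q * q) hπ).toSubring n →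
        (tl71_OnMid σ _ V₂.toSubring n ∨ sf79_OnBr π _ V₃.toSubring n) →
        tl71_DivAt π _ (cm85_Vinf (K := K) (M' * q * q) hπ).toSubring V₂.toSubring
          V₃.toSubring n) ∧
      (∀ n : Ideal ↥(pk15_chart R ({al97L_alpha K (M' * q) q h'} :
          Set ↥(modularFunctionFieldFullC K (M' * q * q)))), n.IsMaximal →
        sf79_OnBr π _ V₃.toSubring n →
        (tl71_OnMid σ _ V₂.toSubring n ∨
          sf79_OnBr π _ (cm85_Vinf (K := K) (M' * q * q) hπ).toSubring n) →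
        tl71_DivAt π _ V₃.toSubring V₂.toSubring
          (cm85_Vinf (K := K) (M' * q * q) hπ).toSubring n)) ∧
    ((∀ n : Ideal ↥(pk15_chart R ({(al97L_alpha K (M' * q) q h')⁻¹} :
          Set ↥(modularFunctionFieldFullC K (M' * q * q)))), n.IsMaximal →
        sf79_OnBr π _ (cm85_Vinf (K := K) (M' * q * q) hπ).toSubring n →
        (tl71_OnMid σ _ V₂.toSubring n ∨ sf79_OnBr π _ V₃.toSubring n) →
        tl71_DivAt π _ (cm85_Vinf (K := K) (M' * q * q) hπ).toSubring V₂.toSubring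
          V₃.toSubring n) ∧
      (∀ n : Ideal ↥(pk15_chart R ({(al97L_alpha K (M' * q) q h')⁻¹} :
          Set ↥(modularFunctionFieldFullC K (M' * q * q)))), n.IsMaximal →
        sf79_OnBr π _ V₃.toSubring n →
        (tl71_OnMid σ _ V₂.toSubring n ∨
          sf79_OnBr π _ (cm85_Vinf (K := K) (M' * q * q) hπ).toSubring n) →
        tl71_DivAt π _ V₃.toSubring V₂.toSubring
          (cm85_Vinf (K := K) (M' * q * q) hπ).toSubring n)) := by
  obtain ⟨hα1, hα2⟩ := cm71_alpha_charts (R := R) (K := K) (M' * q) q h'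
  obtain ⟨hβ1, hβ2⟩ := cm71_beta_charts (R := R) (K := K) (M' * q) q hq hunit h' hh'
  exact ⟨tf71_hD (K := K) M' q hq hM' hπ hqR V₂ V₃ σ hα₂ hα₃ hβ₂ hβ₃ hπσ _ _ hα1 hβ1 hBW₁ hreg₁,
    tf71_hD (K := K) M' q hq hM' hπ hqR V₂ V₃ σ hα₂ hα₃ hβ₂ hβ₃ hπσ _ _ hα2 hβ2 hBW₂ hreg₂⟩

end TF71

end Fermat.Agent.S36.TripleLoc71
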