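/-
helper71: S36 lab row 598 (C-triple), concrete binder, SECOND FORM: the (REG-q) input in the
`tl71_DivAt` shape (= the literal output of `nf79c_divAt` / `nf79_divAt_of_regular`, NodeDiv79).

Conventions of `Split3Inst66` / `TripleFrame71`.

* `tf71b_hD` : on a pair of charts `B'` (level `M' q`), `B` (level `M' q q`) with `α₂ B' ⊆ B`,
  `β₂ B' ⊆ B`: (REG) in both directions on `B'` gives `hD₁` and `hD₃` of `tl71_twoGen` on `B`.
* `tf71b_twoGen` : all hypotheses of `tl71_twoGen` on `B` with `hD₁`, `hD₃` replaced by (REG) on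
  `B'`: `tl71_TwoGen π B` (= `h2` of `lpz9_locPrin` / input of `lp3x9_locPrin_of_twoGen`).
-/
import Fermat.Agent.S36.TripleFrame71

set_option autoImplicit false
set_option linter.unusedSectionVars false

open ModularCurve

namespace Fermat.Agent.S36.TripleLoc71

open Fermat.Agent.S34 Fermat.Agent.S18 Fermat.Agent.S24

local notation "Q̄" => AlgebraicClosure ℚ

section TF71B

variable {R K : Type} [CommRing R] [IsDomain R] [IsDiscreteValuationRing R] [Field K]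
  [CharZero K] [Algebra R K] [IsFractionRing R K] [Algebra K Q̄]
  (M' q : ℕ) [NeZero M'] [NeZero q] (hq : q.Prime) (hM' : ¬ q ∣ M')
  {π : R} (hπ : Irreducible π)
  [Algebra R ↥(modularFunctionFieldFullC K (M' * q))]
  [IsScalarTower R K ↥(modularFunctionFieldFullC K (M' * q))]
  [Algebra R ↥(modularFunctionFieldFullC K (M' * q * q))]
  [IsScalarTower R K ↥(modularFunctionFieldFullC K (M' * q * q))]

/-- **`hD₁` and `hD₃` of `tl71_twoGen` from (REG) in the `tl71_DivAt` shape.** -/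
theorem tf71b_hD
    (V₂ V₃ : ValuationSubring ↥(modularFunctionFieldFullC K (M' * q * q)))
    (σ : ↥(modularFunctionFieldFullC K (M' * q * q)))
    (hα₂ : ∀ x ∈ cm85_Vinf (K := K) (M' * q) hπ, al97L_alpha K (M' * q) q x ∈ V₂)
    (hα₃ : ∀ x ∈ s34i47c_V0 (K := K) M' q hq hM' hπ, al97L_alpha K (M' * q) q x ∈ V₃)
    (hβ₂ : ∀ x ∈ s34i47c_V0 (K := K) M' q hq hM' hπ, al97L_beta K (M' * q) q x ∈ V₂)
    (hβ₃ : ∀ x ∈ s34i47c_V0 (K := K) M' q hq hM' hπ, al97L_beta K (M' * q) q x ∈ V₃)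
    (hπσ : algebraMap R ↥(modularFunctionFieldFullC K (M' * q * q)) π * σ⁻¹ ∈ V₂)
    (B' : Subalgebra R ↥(modularFunctionFieldFullC K (M' * q)))
    (B : Subalgebra R ↥(modularFunctionFieldFullC K (M' * q * q)))
    (hαB : ∀ x ∈ B', al97L_alpha K (M' * q) q x ∈ B)
    (hβB : ∀ x ∈ B', al97L_beta K (M' * q) q x ∈ B)
    (hr₁ : ∀ m' : Ideal B', m'.IsMaximal →
      sf79_OnBr π B' (cm85_Vinf (K := K) (M' * q) hπ).toSubring m' →
      sf79_OnBr π B' (s34i47c_V0 (K := K) M' q hq hM' hπ).toSubring m' →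
      tl71_DivAt π B' (cm85_Vinf (K := K) (M' * q) hπ).toSubring
        (s34i47c_V0 (K := K) M' q hq hM' hπ).toSubring
        (s34i47c_V0 (K := K) M' q hq hM' hπ).toSubring m')
    (hr₂ : ∀ m' : Ideal B', m'.IsMaximal →
      sf79_OnBr π B' (s34i47c_V0 (K := K) M' q hq hM' hπ).toSubring m' →
      sf79_OnBr π B' (cm85_Vinf (K := K) (M' * q) hπ).toSubring m' →
      tl71_DivAt π B' (s34i47c_V0 (K := K) M' q hq hM' hπ).toSubring
        (cm85_Vinf (K := K) (M' * q) hπ).toSubring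
        (cm85_Vinf (K := K) (M' * q) hπ).toSubring m') :
    (∀ n : Ideal B, n.IsMaximal →
      sf79_OnBr π B (cm85_Vinf (K := K) (M' * q * q) hπ).toSubring n →
      (tl71_OnMid σ B V₂.toSubring n ∨ sf79_OnBr π B V₃.toSubring n) →
      tl71_DivAt π B (cm85_Vinf (K := K) (M' * q * q) hπ).toSubring V₂.toSubring
        V₃.toSubring n) ∧
    (∀ n : Ideal B, n.IsMaximal → sf79_OnBr π B V₃.toSubring n →
      (tl71_OnMid σ B V₂.toSubring n ∨
        sf79_OnBr π B (cm85_Vinf (K := K) (M' * q * q) hπ).toSubring n) →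
      tl71_DivAt π B V₃.toSubring V₂.toSubring
        (cm85_Vinf (K := K) (M' * q * q) hπ).toSubring n) := by
  have hπ0 : algebraMap R ↥(modularFunctionFieldFullC K (M' * q * q)) π ≠ 0 := by
    intro h0
    apply (ci22_Vinf_pi (K := K) (M' * q * q) hπ).2
    rw [h0, inv_zero]
    exact (cm85_Vinf (K := K) (M' * q * q) hπ).zero_mem
  have hαV₁ : ∀ x ∈ (cm85_Vinf (K := K) (M' * q) hπ).toSubring,
      ((al97L_alpha K (M' * q) q).restrictScalars R) x ∈
        (cm85_Vinf (K := K) (M' * q * q) hπ).toSubring :=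
    fun x hx => (al97V_alpha_mem_Vinf (M' * q) q hπ x).mpr hx
  have hβV₁ : ∀ x ∈ (cm85_Vinf (K := K) (M' * q) hπ).toSubring,
      ((al97L_beta K (M' * q) q).restrictScalars R) x ∈
        (cm85_Vinf (K := K) (M' * q * q) hπ).toSubring :=
    fun x hx => (al97V_beta_mem_Vinf (M' * q) q hπ x).mpr hx
  constructor
  · intro n hn hon hon'
    exact tl71_divAt_of_reg π σ ((al97L_beta K (M' * q) q).restrictScalars R) B' B hβB
      (cm85_Vinf (K := K) (M' * q) hπ).toSubring (s34i47c_V0 (K := K) M' q hq hM' hπ).toSubring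
      (cm85_Vinf (K := K) (M' * q * q) hπ).toSubring V₂.toSubring V₃.toSubring
      hβV₁ hβ₂ hβ₃ hπσ hπ0 hr₁ n hn.ne_top hon hon'
  · intro n hn hon hon'
    exact tl71_divAt_of_reg π σ ((al97L_alpha K (M' * q) q).restrictScalars R) B' B hαB
      (s34i47c_V0 (K := K) M' q hq hM' hπ).toSubring (cm85_Vinf (K := K) (M' * q) hπ).toSubring
      V₃.toSubring V₂.toSubring (cm85_Vinf (K := K) (M' * q * q) hπ).toSubring
      hα₃ hα₂ hαV₁ hπσ hπ0 hr₂ n hn.ne_top hon hon'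

/-- **Two generators at every closed point of a chart of level `M' q²`**: all hypotheses of
`tl71_twoGen` with `hD₁`, `hD₃` replaced by (REG) on the chart of level `M' q` below. -/
theorem tf71b_twoGen
    (V₂ V₃ : ValuationSubring ↥(modularFunctionFieldFullC K (M' * q * q)))
    (σ : ↥(modularFunctionFieldFullC K (M' * q * q))) (e : ℕ)
    (hα₂ : ∀ x ∈ cm85_Vinf (K := K) (M' * q) hπ, al97L_alpha K (M' * q) q x ∈ V₂)
    (hα₃ : ∀ x ∈ s34i47c_V0 (K := K) M' q hq hM' hπ, al97L_alpha K (M' * q) q x ∈ V₃)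
    (hβ₂ : ∀ x ∈ s34i47c_V0 (K := K) M' q hq hM' hπ, al97L_beta K (M' * q) q x ∈ V₂)
    (hβ₃ : ∀ x ∈ s34i47c_V0 (K := K) M' q hq hM' hπ, al97L_beta K (M' * q) q x ∈ V₃)
    (hπσ : algebraMap R ↥(modularFunctionFieldFullC K (M' * q * q)) π * σ⁻¹ ∈ V₂)
    (hσ0 : σ ≠ 0)
    (hσe : (algebraMap R ↥(modularFunctionFieldFullC K (M' * q * q)) π)⁻¹ * σ ^ e ∈ V₂)
    (B' : Subalgebra R ↥(modularFunctionFieldFullC K (M' * q)))
    (B : Subalgebra R ↥(modularFunctionFieldFullC K (M' * q * q)))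
    (hαB : ∀ x ∈ B', al97L_alpha K (M' * q) q x ∈ B)
    (hβB : ∀ x ∈ B', al97L_beta K (M' * q) q x ∈ B)
    (hB₁ : ∀ x ∈ B, x ∈ (cm85_Vinf (K := K) (M' * q * q) hπ).toSubring)
    (hB₂ : ∀ x ∈ B, x ∈ V₂.toSubring) (hB₃ : ∀ x ∈ B, x ∈ V₃.toSubring)
    (hsat : ∀ x ∈ B,
      (algebraMap R ↥(modularFunctionFieldFullC K (M' * q * q)) π)⁻¹ * x ∈
        (cm85_Vinf (K := K) (M' * q * q) hπ).toSubring →
      (algebraMap R ↥(modularFunctionFieldFullC K (M' * q * q)) π)⁻¹ * x ∈ V₂.toSubring →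
      (algebraMap R ↥(modularFunctionFieldFullC K (M' * q * q)) π)⁻¹ * x ∈ V₃.toSubring →
      (algebraMap R ↥(modularFunctionFieldFullC K (M' * q * q)) π)⁻¹ * x ∈ B)
    (hS₁ : sf79_Smooth π B (cm85_Vinf (K := K) (M' * q * q) hπ).toSubring)
    (hS₃ : sf79_Smooth π B V₃.toSubring) (hS₂ : tl71_MidSmooth π σ B V₂.toSubring)
    (hr₁ : ∀ m' : Ideal B', m'.IsMaximal →
      sf79_OnBr π B' (cm85_Vinf (K := K) (M' * q) hπ).toSubring m' →
      sf79_OnBr π B' (s34i47c_V0 (K := K) M' q hq hM' hπ).toSubring m' →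
      tl71_DivAt π B' (cm85_Vinf (K := K) (M' * q) hπ).toSubring
        (s34i47c_V0 (K := K) M' q hq hM' hπ).toSubring
        (s34i47c_V0 (K := K) M' q hq hM' hπ).toSubring m')
    (hr₂ : ∀ m' : Ideal B', m'.IsMaximal →
      sf79_OnBr π B' (s34i47c_V0 (K := K) M' q hq hM' hπ).toSubring m' →
      sf79_OnBr π B' (cm85_Vinf (K := K) (M' * q) hπ).toSubring m' →
      tl71_DivAt π B' (s34i47c_V0 (K := K) M' q hq hM' hπ).toSubring
        (cm85_Vinf (K := K) (M' * q) hπ).toSubring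
        (cm85_Vinf (K := K) (M' * q) hπ).toSubring m')
    (hD₂ : ∀ n : Ideal B, n.IsMaximal → algebraMap R B π ∈ n → tl71_OnMid σ B V₂.toSubring n →
      ¬ sf79_OnBr π B (cm85_Vinf (K := K) (M' * q * q) hπ).toSubring n →
      ¬ sf79_OnBr π B V₃.toSubring n →
      tl71_MidDivAt π σ B (cm85_Vinf (K := K) (M' * q * q) hπ).toSubring V₂.toSubring
        V₃.toSubring n) :
    tl71_TwoGen π B := by
  have hπ0 : algebraMap R ↥(modularFunctionFieldFullC K (M' * q * q)) π ≠ 0 := by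
    intro h0
    apply (ci22_Vinf_pi (K := K) (M' * q * q) hπ).2
    rw [h0, inv_zero]
    exact (cm85_Vinf (K := K) (M' * q * q) hπ).zero_mem
  obtain ⟨hD₁, hD₃⟩ := tf71b_hD (K := K) M' q hq hM' hπ V₂ V₃ σ hα₂ hα₃ hβ₂ hβ₃ hπσ B' B hαB hβB
    hr₁ hr₂
  exact tl71_twoGen π σ e B _ _ _ hB₁ hB₂ hB₃ hsat hπ0 hσ0 hσe hS₁ hS₃ hS₂ hD₁ hD₃ hD₂

end TF71B

end Fermat.Agent.S36.TripleLoc71
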