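/-
helper71: S36 lab, row 598 (C-triple) -> row 605 (HP-1)/(HP-3): the hypothesis `h2` (two local
generators of the closed point) of `ud57_locPrin_at` / `ud57_decomp_at` / `lpz9_locPrin_at`
ON THE CANONICAL FRAME of level `M' q q`, PER POINT, split as in `cp57_HP1` / `cp57_HP3`.

Frame: `V₁ = cm85_Vinf (M' * q * q) hπ`, `V₃ = nsb86_V3 M' q hq hM' hπ`, `V₂` ANY valuation
subring with the four facts of row B1-V2 (`hV₂ hπ₂ hs` of `fb85_frameV3_level2/3` and `hne`),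
middle uniformiser `σ = v2g64_s K M' q`; charts `B = pk15_chart R {h}`, `{h⁻¹}` for
`h = pk85_h2 / pk85_h3` at level `M' q q`, and `B'` the corresponding charts at level `M' q`.

* `tl71_twoGen_at` : `tl71_twoGen` at ONE closed point `n` (the divisor hypotheses only at `n`).
* `tg71_Out V₂ B' B` : the conjunction of
  (1) [triple points] `tf71_RegNodes B'` (labelled regular nodes of the level-`q` chart, = (REG-q),
      row 599; literally the conclusion of `nf40_node` / `rq44_node` at every node)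
      `→ ∀ n` maximal `∋ π`, `¬ cp57_OneBr π B V₁ V₂ V₃ n → h2` at `n`;
  (2) [one-branch points] (`tl71_MidDivAt` at the `C₂`-only points of `B`, rows 600/601)
      `→ ∀ n` maximal `∋ π`, `cp57_OneBr π B V₁ V₂ V₃ n → h2` at `n`.
  (1) needs nothing from rows 600/601, (2) nothing from row 599.
* `tg71_core` : `tg71_Out` for any pair of charts with the frame facts as hypotheses.
* `tg71_level2`, `tg71_level3` : `tg71_Out` for both affine charts of the Hauptmodul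
  (frame: `fb85_frameV3_level2/3`; (3a): `sm7_three_smooth_sq_level2/3`; chart maps:
  `cm71_alpha_charts`, `cm71_beta_charts`; level-`q` frame: `nf79c_chart_facts`).
* `tg71_twoGen_of_out` : both parts of `tg71_Out` give `tl71_TwoGen π B`.
-/
import Fermat.Agent.S36.TripleFrameB71
import Fermat.Agent.S36.SmoothThree7
import Fermat.Agent.S36.FrameBind85
import Fermat.Agent.S36.Split3Full66
import Fermat.Agent.S36.NodeFrameInst79
import Fermat.Agent.S36.LocPrinStrongThree9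
import Fermat.Agent.S36.CorePoints57

set_option autoImplicit false
set_option linter.unusedSectionVars false
set_option linter.unusedVariables false
set_option linter.style.haveILetI false
set_option linter.style.longLine false

open ModularCurve

namespace Fermat.Agent.S36.TripleLoc71

open Fermat.Agent.S34 Fermat.Agent.S18 Fermat.Agent.S24 Fermat.Agent.S36

local notation "Q̄" => AlgebraicClosure ℚ

section abstract71

variable {R F : Type*} [CommRing R] [Field F] [Algebra R F]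

/-- **Two generators at ONE closed point `n` of the special fibre**: `tl71_twoGen` with the
divisor hypotheses `hD₁`, `hD₃`, `hD₂` required at `n` only. -/
theorem tl71_twoGen_at (π : R) (σ : F) (e : ℕ) (B : Subalgebra R F) (V₁ V₂ V₃ : Subring F)
    (hB₁ : ∀ x ∈ B, x ∈ V₁) (hB₂ : ∀ x ∈ B, x ∈ V₂) (hB₃ : ∀ x ∈ B, x ∈ V₃)
    (hsat : ∀ x ∈ B, (algebraMap R F π)⁻¹ * x ∈ V₁ → (algebraMap R F π)⁻¹ * x ∈ V₂ →
      (algebraMap R F π)⁻¹ * x ∈ V₃ → (algebraMap R F π)⁻¹ * x ∈ B)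
    (hπ0 : algebraMap R F π ≠ 0) (hσ0 : σ ≠ 0)
    (hσe : (algebraMap R F π)⁻¹ * σ ^ e ∈ V₂)
    (hS₁ : sf79_Smooth π B V₁) (hS₃ : sf79_Smooth π B V₃) (hS₂ : tl71_MidSmooth π σ B V₂)
    (n : Ideal B) (hnmax : n.IsMaximal) (hπn : algebraMap R B π ∈ n)
    (hD₁ : sf79_OnBr π B V₁ n → (tl71_OnMid σ B V₂ n ∨ sf79_OnBr π B V₃ n) →
      tl71_DivAt π B V₁ V₂ V₃ n)
    (hD₃ : sf79_OnBr π B V₃ n → (tl71_OnMid σ B V₂ n ∨ sf79_OnBr π B V₁ n) →
      tl71_DivAt π B V₃ V₂ V₁ n)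
    (hD₂ : tl71_OnMid σ B V₂ n → ¬ sf79_OnBr π B V₁ n → ¬ sf79_OnBr π B V₃ n →
      tl71_MidDivAt π σ B V₁ V₂ V₃ n) :
    ∃ x y : B, x ∈ n ∧ y ∈ n ∧
      ∀ v ∈ n, ∃ s : B, s ∉ n ∧ ∃ a b : B, s * v = a * x + b * y := by
  classical
  have hnp : n.IsPrime := hnmax.isPrime
  -- a witness off the middle branch gives `t ∉ n` with `π⁻¹ t ∈ V₂`
  have hmidw : ¬ tl71_OnMid σ B V₂ n →
      ∃ y : B, y ∉ n ∧ (algebraMap R F π)⁻¹ * (y : F) ∈ V₂ := by
    intro h
    have hex : ∃ y : B, (y : F) * σ⁻¹ ∈ V₂ ∧ y ∉ n := by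
      by_contra hcon
      exact h fun x hx => by
        by_contra hxn
        exact hcon ⟨x, hx, hxn⟩
    obtain ⟨y, hy, hyn⟩ := hex
    have hσe0 : σ ^ e ≠ 0 := pow_ne_zero e hσ0
    refine ⟨y ^ e, fun hh => hyn (hnp.mem_of_pow_mem e hh), ?_⟩
    have : (algebraMap R F π)⁻¹ * ((y ^ e : B) : F)
        = ((y : F) * σ⁻¹) ^ e * ((algebraMap R F π)⁻¹ * σ ^ e) := by
      push_cast
      rw [mul_pow, inv_pow]
      field_simp
    rw [this]
    exact V₂.mul_mem (V₂.pow_mem hy e) hσe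
  have hbrw : ∀ V : Subring F, ¬ sf79_OnBr π B V n →
      ∃ y : B, y ∉ n ∧ (algebraMap R F π)⁻¹ * (y : F) ∈ V := by
    intro V h
    by_contra hcon
    exact h fun x hx => by
      by_contra hxn
      exact hcon ⟨x, hxn, hx⟩
  -- the symmetric form of saturation
  have hsat' : ∀ x ∈ B, (algebraMap R F π)⁻¹ * x ∈ V₃ → (algebraMap R F π)⁻¹ * x ∈ V₂ →
      (algebraMap R F π)⁻¹ * x ∈ V₁ → (algebraMap R F π)⁻¹ * x ∈ B :=
    fun x hx h3 h2 h1 => hsat x hx h1 h2 h3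
  by_cases h1 : sf79_OnBr π B V₁ n
  · -- on the first branch
    obtain ⟨z₀, hz₀⟩ := hS₁ n hnmax hπn h1
    by_cases h23 : tl71_OnMid σ B V₂ n ∨ sf79_OnBr π B V₃ n
    · exact tl71_two_of_div π B V₁ V₂ V₃ hB₁ hB₂ hB₃ hsat hπ0 n h1 z₀ hz₀ (hD₁ h1 h23)
    · obtain ⟨y₂, hy₂n, hy₂⟩ := hmidw (not_or.mp h23).1
      obtain ⟨y₃, hy₃n, hy₃⟩ := hbrw V₃ (not_or.mp h23).2
      refine tl71_two_of_smooth π B V₁ V₂ V₃ hB₁ hB₂ hB₃ hsat hπ0 n hπn z₀ hz₀ (y₂ * y₃)
        (fun hh => (hnp.mem_or_mem hh).elim hy₂n hy₃n) ?_ ?_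
      · have : (algebraMap R F π)⁻¹ * ((y₂ * y₃ : B) : F)
            = (algebraMap R F π)⁻¹ * (y₂ : F) * (y₃ : F) := by push_cast; ring
        rw [this]; exact V₂.mul_mem hy₂ (hB₂ _ y₃.2)
      · have : (algebraMap R F π)⁻¹ * ((y₂ * y₃ : B) : F)
            = (y₂ : F) * ((algebraMap R F π)⁻¹ * (y₃ : F)) := by push_cast; ring
        rw [this]; exact V₃.mul_mem (hB₃ _ y₂.2) hy₃
  · by_cases h3 : sf79_OnBr π B V₃ n
    · -- on the third branch, not on the first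
      obtain ⟨z₀, hz₀⟩ := hS₃ n hnmax hπn h3
      by_cases h2 : tl71_OnMid σ B V₂ n
      · exact tl71_two_of_div π B V₃ V₂ V₁ hB₃ hB₂ hB₁ hsat' hπ0 n h3 z₀ hz₀
          (hD₃ h3 (Or.inl h2))
      · obtain ⟨y₂, hy₂n, hy₂⟩ := hmidw h2
        obtain ⟨y₁, hy₁n, hy₁⟩ := hbrw V₁ h1
        refine tl71_two_of_smooth π B V₃ V₂ V₁ hB₃ hB₂ hB₁ hsat' hπ0 n hπn z₀ hz₀ (y₂ * y₁)
          (fun hh => (hnp.mem_or_mem hh).elim hy₂n hy₁n) ?_ ?_
        · have : (algebraMap R F π)⁻¹ * ((y₂ * y₁ : B) : F)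
              = (algebraMap R F π)⁻¹ * (y₂ : F) * (y₁ : F) := by push_cast; ring
          rw [this]; exact V₂.mul_mem hy₂ (hB₂ _ y₁.2)
        · have : (algebraMap R F π)⁻¹ * ((y₂ * y₁ : B) : F)
              = (y₂ : F) * ((algebraMap R F π)⁻¹ * (y₁ : F)) := by push_cast; ring
          rw [this]; exact V₁.mul_mem (hB₁ _ y₂.2) hy₁
    · by_cases h2 : tl71_OnMid σ B V₂ n
      · -- on the middle branch only
        obtain ⟨z₀, hz₀n, hz₀⟩ := hS₂ n hnmax hπn h2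
        obtain ⟨g, c, t, k, ht, hgc, hgσ, hσg, hg₁, hg₃⟩ := hD₂ h2 h1 h3
        refine ⟨z₀, g, hz₀n, h2 g hgσ, ?_⟩
        refine tl71_max_two n (fun y : B => (y : F) * σ⁻¹ ∈ V₂) z₀ g t ht ?_ ?_
        · intro x hx
          obtain ⟨s, hs, a, ha⟩ := hz₀ x hx
          exact ⟨s, hs, a, by simpa using ha⟩
        · intro y hy
          refine tl71_mid_principal π B V₁ V₂ V₃ hB₁ hB₂ hB₃ hsat hπ0 g c t k hgc hg₁ hg₃ y ?_
          have : (y : F) * (g : F)⁻¹ = (y : F) * σ⁻¹ * (σ * (g : F)⁻¹) := by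
            field_simp
          rw [this]
          exact V₂.mul_mem hy hσg
      · -- on no branch: impossible
        exfalso
        obtain ⟨y₁, hy₁n, hy₁⟩ := hbrw V₁ h1
        obtain ⟨y₂, hy₂n, hy₂⟩ := hmidw h2
        obtain ⟨y₃, hy₃n, hy₃⟩ := hbrw V₃ h3
        have hmem : (y₁ : F) * (y₂ : F) * (y₃ : F) ∈ B := B.mul_mem (B.mul_mem y₁.2 y₂.2) y₃.2
        have e1 : (algebraMap R F π)⁻¹ * ((y₁ : F) * (y₂ : F) * (y₃ : F)) ∈ V₁ := by
          have : (algebraMap R F π)⁻¹ * ((y₁ : F) * (y₂ : F) * (y₃ : F))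
              = (algebraMap R F π)⁻¹ * (y₁ : F) * ((y₂ : F) * (y₃ : F)) := by ring
          rw [this]; exact V₁.mul_mem hy₁ (V₁.mul_mem (hB₁ _ y₂.2) (hB₁ _ y₃.2))
        have e2 : (algebraMap R F π)⁻¹ * ((y₁ : F) * (y₂ : F) * (y₃ : F)) ∈ V₂ := by
          have : (algebraMap R F π)⁻¹ * ((y₁ : F) * (y₂ : F) * (y₃ : F))
              = (algebraMap R F π)⁻¹ * (y₂ : F) * ((y₁ : F) * (y₃ : F)) := by ring
          rw [this]; exact V₂.mul_mem hy₂ (V₂.mul_mem (hB₂ _ y₁.2) (hB₂ _ y₃.2))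
        have e3 : (algebraMap R F π)⁻¹ * ((y₁ : F) * (y₂ : F) * (y₃ : F)) ∈ V₃ := by
          have : (algebraMap R F π)⁻¹ * ((y₁ : F) * (y₂ : F) * (y₃ : F))
              = (algebraMap R F π)⁻¹ * (y₃ : F) * ((y₁ : F) * (y₂ : F)) := by ring
          rw [this]; exact V₃.mul_mem hy₃ (V₃.mul_mem (hB₃ _ y₁.2) (hB₃ _ y₂.2))
        have hb := hsat _ hmem e1 e2 e3
        have hprod : y₁ * y₂ * y₃ ∈ n := by
          have : y₁ * y₂ * y₃ = algebraMap R B π * ⟨_, hb⟩ := by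
            apply Subtype.ext
            show (y₁ : F) * (y₂ : F) * (y₃ : F)
              = algebraMap R F π * ((algebraMap R F π)⁻¹ * ((y₁ : F) * (y₂ : F) * (y₃ : F)))
            field_simp
          rw [this]; exact n.mul_mem_right _ hπn
        rcases hnp.mem_or_mem hprod with h | h
        · rcases hnp.mem_or_mem h with h | h
          · exact hy₁n h
          · exact hy₂n h
        · exact hy₃n h

end abstract71

section TG71

variable {R K : Type} [CommRing R] [IsDomain R] [IsDiscreteValuationRing R] [Field K]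
  [NumberField K] [Algebra R K] [IsFractionRing R K] [Algebra K Q̄] [Algebra.IsAlgebraic K Q̄]
  (M' q : ℕ) [NeZero M'] [NeZero q] (hq : q.Prime) (hM' : ¬ q ∣ M')
  {π : R} (hπ : Irreducible π)
  [Algebra R ↥(modularFunctionFieldFullC K M')]
  [IsScalarTower R K ↥(modularFunctionFieldFullC K M')]
  [Algebra R ↥(modularFunctionFieldFullC K (M' * q))]
  [IsScalarTower R K ↥(modularFunctionFieldFullC K (M' * q))]
  [Algebra R ↥(modularFunctionFieldFullC K (M' * q * q))]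
  [IsScalarTower R K ↥(modularFunctionFieldFullC K (M' * q * q))]

/-- **The per-point two-generator package** for a chart `B` of level `M' q q` over a chart `B'`
of level `M' q`: (1) at the points on two branches from the labelled regular nodes of `B'`;
(2) at the points on at most one branch from the `C₂`-only divisors of `B`. -/
def tg71_Out (V₂ : ValuationSubring ↥(modularFunctionFieldFullC K (M' * q * q)))
    (B' : Subalgebra R ↥(modularFunctionFieldFullC K (M' * q)))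
    (B : Subalgebra R ↥(modularFunctionFieldFullC K (M' * q * q))) : Prop :=
  (tf71_RegNodes (K := K) M' q hq hM' hπ B' →
    ∀ n : Ideal B, n.IsMaximal → algebraMap R B π ∈ n →
      ¬ cp57_OneBr π B (cm85_Vinf (K := K) (M' * q * q) hπ) V₂ (nsb86_V3 (K := K) M' q hq hM' hπ) n →
      ∃ x y : B, x ∈ n ∧ y ∈ n ∧
        ∀ v ∈ n, ∃ s : B, s ∉ n ∧ ∃ a b : B, s * v = a * x + b * y) ∧
  ((∀ n : Ideal B, n.IsMaximal → algebraMap R B π ∈ n →
      tl71_OnMid (v2g64_s K M' q) B V₂.toSubring n →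
      ¬ sf79_OnBr π B (cm85_Vinf (K := K) (M' * q * q) hπ).toSubring n →
      ¬ sf79_OnBr π B (nsb86_V3 (K := K) M' q hq hM' hπ).toSubring n →
      tl71_MidDivAt π (v2g64_s K M' q) B (cm85_Vinf (K := K) (M' * q * q) hπ).toSubring V₂.toSubring
        (nsb86_V3 (K := K) M' q hq hM' hπ).toSubring n) →
    ∀ n : Ideal B, n.IsMaximal → algebraMap R B π ∈ n →
      cp57_OneBr π B (cm85_Vinf (K := K) (M' * q * q) hπ) V₂ (nsb86_V3 (K := K) M' q hq hM' hπ) n →
      ∃ x y : B, x ∈ n ∧ y ∈ n ∧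
        ∀ v ∈ n, ∃ s : B, s ∉ n ∧ ∃ a b : B, s * v = a * x + b * y)

/-- Both parts of `tg71_Out` give two generators at EVERY closed point. -/
theorem tg71_twoGen_of_out (V₂ : ValuationSubring ↥(modularFunctionFieldFullC K (M' * q * q)))
    (B' : Subalgebra R ↥(modularFunctionFieldFullC K (M' * q)))
    (B : Subalgebra R ↥(modularFunctionFieldFullC K (M' * q * q)))
    (hout : tg71_Out (K := K) M' q hq hM' hπ V₂ B' B)
    (hreg : tf71_RegNodes (K := K) M' q hq hM' hπ B')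
    (hD₂ : ∀ n : Ideal B, n.IsMaximal → algebraMap R B π ∈ n →
      tl71_OnMid (v2g64_s K M' q) B V₂.toSubring n →
      ¬ sf79_OnBr π B (cm85_Vinf (K := K) (M' * q * q) hπ).toSubring n →
      ¬ sf79_OnBr π B (nsb86_V3 (K := K) M' q hq hM' hπ).toSubring n →
      tl71_MidDivAt π (v2g64_s K M' q) B (cm85_Vinf (K := K) (M' * q * q) hπ).toSubring V₂.toSubring
        (nsb86_V3 (K := K) M' q hq hM' hπ).toSubring n) :
    tl71_TwoGen π B := by
  classical
  intro n hn hπn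
  by_cases hone : cp57_OneBr π B (cm85_Vinf (K := K) (M' * q * q) hπ) V₂ (nsb86_V3 (K := K) M' q hq hM' hπ) n
  · exact hout.2 hD₂ n hn hπn hone
  · exact hout.1 hreg n hn hπn hone

include hq hM' in
/-- **`tg71_Out` from the frame facts of a pair of charts** (`α₂ B' ⊆ B`, `β₂ B' ⊆ B`,
`B' ⊆ W'`, `B ⊆ W = V₁ ⊓ V₂ ⊓ V₃`, saturation of `B` in `W`, (3a) for the three branches). -/
theorem tg71_core (hqR : ¬ IsUnit (q : R))
    (V₂ : ValuationSubring ↥(modularFunctionFieldFullC K (M' * q * q)))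
    (hV₂ : ∀ c ∈ cm85_Vinf (K := K) (M' * q) hπ, al97L_alpha K (M' * q) q c ∈ V₂)
    (hπ₂ : (algebraMap K ↥(modularFunctionFieldFullC K (M' * q * q)) (algebraMap R K π))⁻¹ ∉ V₂)
    (hne : cm85_Vinf (K := K) (M' * q * q) hπ ≠ V₂)
    (hs : V₂.valuation (v2g64_s K M' q) ^ (q - 1) =
      V₂.valuation (algebraMap K ↥(modularFunctionFieldFullC K (M' * q * q)) (algebraMap R K π)))
    (B' : Subalgebra R ↥(modularFunctionFieldFullC K (M' * q)))
    (B : Subalgebra R ↥(modularFunctionFieldFullC K (M' * q * q)))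
    (hαB : ∀ x ∈ B', al97L_alpha K (M' * q) q x ∈ B)
    (hβB : ∀ x ∈ B', al97L_beta K (M' * q) q x ∈ B)
    (hB'W : ∀ x ∈ B', x ∈ s34i47c_W (K := K) M' q hq hM' hπ)
    (hBW : ∀ x ∈ B, x ∈ (cm85_Vinf (K := K) (M' * q * q) hπ).toSubring ⊓ V₂.toSubring ⊓
      (nsb86_V3 (K := K) M' q hq hM' hπ).toSubring)
    (hsatW : ∀ x ∈ B, (algebraMap R ↥(modularFunctionFieldFullC K (M' * q * q)) π)⁻¹ * x ∈
        (cm85_Vinf (K := K) (M' * q * q) hπ).toSubring ⊓ V₂.toSubring ⊓ (nsb86_V3 (K := K) M' q hq hM' hπ).toSubring →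
      (algebraMap R ↥(modularFunctionFieldFullC K (M' * q * q)) π)⁻¹ * x ∈ B)
    (hS₁ : sf79_Smooth π B (cm85_Vinf (K := K) (M' * q * q) hπ).toSubring)
    (hS₂ : tl71_MidSmooth π (v2g64_s K M' q) B V₂.toSubring)
    (hS₃ : sf79_Smooth π B (nsb86_V3 (K := K) M' q hq hM' hπ).toSubring) :
    tg71_Out (K := K) M' q hq hM' hπ V₂ B' B := by
  have e : algebraMap R ↥(modularFunctionFieldFullC K (M' * q * q)) π = (algebraMap K ↥(modularFunctionFieldFullC K (M' * q * q)) (algebraMap R K π)) :=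
    IsScalarTower.algebraMap_apply R K _ π
  have hπ0 : algebraMap R ↥(modularFunctionFieldFullC K (M' * q * q)) π ≠ 0 := by
    intro h0
    apply (ci22_Vinf_pi (K := K) (M' * q * q) hπ).2
    rw [h0, inv_zero]
    exact (cm85_Vinf (K := K) (M' * q * q) hπ).zero_mem
  have hp0 : V₂.valuation (algebraMap R ↥(modularFunctionFieldFullC K (M' * q * q)) π) ≠ 0 :=
    (map_ne_zero V₂.valuation).mpr hπ0
  have hp1 : V₂.valuation (algebraMap R ↥(modularFunctionFieldFullC K (M' * q * q)) π) < 1 := by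
    by_contra hcon
    apply hπ₂
    rw [← e, ← ValuationSubring.valuation_le_one_iff, map_inv₀]
    exact inv_le_one_of_one_le₀ (not_lt.mp hcon)
  have hs' : V₂.valuation (v2g64_s K M' q) ^ (q - 1) =
      V₂.valuation (algebraMap R ↥(modularFunctionFieldFullC K (M' * q * q)) π) := by
    rw [e]
    exact hs
  obtain ⟨ha0, -, ha2⟩ := sm7_aux_val (V₂.valuation (v2g64_s K M' q))
    (V₂.valuation (algebraMap R ↥(modularFunctionFieldFullC K (M' * q * q)) π)) q hq.two_le hp0 hp1 hs'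
  have hσ0 : (v2g64_s K M' q) ≠ 0 := fun h => ha0 (by rw [h, map_zero])
  have hπσ : algebraMap R ↥(modularFunctionFieldFullC K (M' * q * q)) π * (v2g64_s K M' q)⁻¹ ∈ V₂ := by
    rw [← ValuationSubring.valuation_le_one_iff, map_mul, map_inv₀]
    exact (mul_comm _ _).le.trans ha2
  have hσe : (algebraMap R ↥(modularFunctionFieldFullC K (M' * q * q)) π)⁻¹ * (v2g64_s K M' q) ^ (q - 1) ∈ V₂ := by
    rw [← ValuationSubring.valuation_le_one_iff, map_mul, map_inv₀, map_pow, hs',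
      inv_mul_cancel₀ hp0]
  have hL := nsb86_hL K (M' * q * q)
  have hV₃mem := nsb86_mem_V3 (K := K) M' q hq hM' hπ
  have hα₃ : ∀ x ∈ s34i47c_V0 (K := K) M' q hq hM' hπ,
      al97L_alpha K (M' * q) q x ∈ (nsb86_V3 (K := K) M' q hq hM' hπ) := fun c hc =>
    o3x72_V3_over (K := K) M' q hq hM' hπ hL _ hV₃mem c hc
  have hβ₂ : ∀ x ∈ s34i47c_V0 (K := K) M' q hq hM' hπ, al97L_beta K (M' * q) q x ∈ V₂ :=
    fun c hc => (bv66_beta_mem_V2 (K := K) M' q hq hM' hπ hqR hL V₂ hV₂ hπ₂ hne c).mpr hc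
  have hβ₃ : ∀ x ∈ s34i47c_V0 (K := K) M' q hq hM' hπ,
      al97L_beta K (M' * q) q x ∈ (nsb86_V3 (K := K) M' q hq hM' hπ) := fun c hc =>
    s3f66_V3_beta (K := K) M' q hq hM' hπ hL _ hV₃mem c hc
  have hB₁ : ∀ x ∈ B, x ∈ (cm85_Vinf (K := K) (M' * q * q) hπ).toSubring := fun x hx =>
    (Subring.mem_inf.mp (Subring.mem_inf.mp (hBW x hx)).1).1
  have hB₂ : ∀ x ∈ B, x ∈ V₂.toSubring := fun x hx =>
    (Subring.mem_inf.mp (Subring.mem_inf.mp (hBW x hx)).1).2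
  have hB₃ : ∀ x ∈ B, x ∈ (nsb86_V3 (K := K) M' q hq hM' hπ).toSubring := fun x hx =>
    (Subring.mem_inf.mp (hBW x hx)).2
  have hsat : ∀ x ∈ B,
      (algebraMap R ↥(modularFunctionFieldFullC K (M' * q * q)) π)⁻¹ * x ∈ (cm85_Vinf (K := K) (M' * q * q) hπ).toSubring →
      (algebraMap R ↥(modularFunctionFieldFullC K (M' * q * q)) π)⁻¹ * x ∈ V₂.toSubring →
      (algebraMap R ↥(modularFunctionFieldFullC K (M' * q * q)) π)⁻¹ * x ∈ (nsb86_V3 (K := K) M' q hq hM' hπ).toSubring →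
      (algebraMap R ↥(modularFunctionFieldFullC K (M' * q * q)) π)⁻¹ * x ∈ B := fun x hx h1 h2 h3 =>
    hsatW x hx (Subring.mem_inf.mpr ⟨Subring.mem_inf.mpr ⟨h1, h2⟩, h3⟩)
  refine ⟨fun hreg n hn hπn hnot => ?_, fun hD₂ n hn hπn hone => ?_⟩
  · obtain ⟨hD₁, hD₃⟩ := tf71_hD (K := K) M' q hq hM' hπ hqR V₂ (nsb86_V3 (K := K) M' q hq hM' hπ) (v2g64_s K M' q) hV₂ hα₃ hβ₂ hβ₃ hπσ
      B' B hαB hβB hB'W hreg
    exact tl71_twoGen_at π (v2g64_s K M' q) (q - 1) B _ _ _ hB₁ hB₂ hB₃ hsat hπ0 hσ0 hσe hS₁ hS₃ hS₂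
      n hn hπn (fun h1 h23 => hD₁ n hn h1 h23) (fun h3 h21 => hD₃ n hn h3 h21)
      (fun _ h1 h3 => absurd ⟨fun h => h1 h.1, fun h => h1 h.1, fun h => h3 h.2⟩ hnot)
  · have hmid : tl71_OnMid (v2g64_s K M' q) B V₂.toSubring n → sf79_OnBr π B V₂.toSubring n :=
      lps9_onBr_of_onMid π (v2g64_s K M' q) B V₂.toSubring hπ0 hπσ n
    exact tl71_twoGen_at π (v2g64_s K M' q) (q - 1) B _ _ _ hB₁ hB₂ hB₃ hsat hπ0 hσ0 hσe hS₁ hS₃ hS₂
      n hn hπn
      (fun h1 h23 => h23.elim (fun h => absurd ⟨h1, hmid h⟩ hone.1)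
        (fun h => absurd ⟨h1, h⟩ hone.2.1))
      (fun h3 h21 => h21.elim (fun h => absurd ⟨hmid h, h3⟩ hone.2.2)
        (fun h => absurd ⟨h, h3⟩ hone.2.1))
      (fun h2 h1 h3 => hD₂ n hn hπn h2 h1 h3)

include hq hM' in
/-- **The two generators on the canonical frame, Hauptmodul of level 2**: `tg71_Out` for the chart
of `h` and for the chart of `h⁻¹` (`V₂` ANY valuation subring with the four facts of row B1-V2:
`hV₂ hπ₂ hs` of `fb85_frameV3_level2` and `hne`). -/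
theorem tg71_level2 (hunit : ∀ n : ℕ, Nat.Coprime n q → IsUnit (n : R))
    (hqR : ¬ IsUnit (q : R)) (hMu : IsUnit (M' : R)) (h2 : 2 ∣ M')
    (V₂ : ValuationSubring ↥(modularFunctionFieldFullC K (M' * q * q)))
    (hV₂ : ∀ c ∈ cm85_Vinf (K := K) (M' * q) hπ, al97L_alpha K (M' * q) q c ∈ V₂)
    (hπ₂ : (algebraMap K ↥(modularFunctionFieldFullC K (M' * q * q)) (algebraMap R K π))⁻¹ ∉ V₂)
    (hne : cm85_Vinf (K := K) (M' * q * q) hπ ≠ V₂)
    (hs : V₂.valuation (v2g64_s K M' q) ^ (q - 1) =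
      V₂.valuation (algebraMap K ↥(modularFunctionFieldFullC K (M' * q * q)) (algebraMap R K π))) :
    tg71_Out (K := K) M' q hq hM' hπ V₂
        (pk15_chart R ({pk85_h2 K (M' * q) (h2.trans (dvd_mul_right M' q))} : Set ↥(modularFunctionFieldFullC K (M' * q))))
        (pk15_chart R ({pk85_h2 K (M' * q * q) (h2.trans ((dvd_mul_right M' q).trans (dvd_mul_right (M' * q) q)))} : Set ↥(modularFunctionFieldFullC K (M' * q * q)))) ∧
      tg71_Out (K := K) M' q hq hM' hπ V₂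
        (pk15_chart R ({(pk85_h2 K (M' * q) (h2.trans (dvd_mul_right M' q)))⁻¹} : Set ↥(modularFunctionFieldFullC K (M' * q))))
        (pk15_chart R ({(pk85_h2 K (M' * q * q) (h2.trans ((dvd_mul_right M' q).trans (dvd_mul_right (M' * q) q))))⁻¹} : Set ↥(modularFunctionFieldFullC K (M' * q * q)))) := by
  have hqp : q ≠ 2 := by
    intro h
    apply hM'
    rw [h]
    exact h2
  have hh' : s34i47c_IsHaupt K (M' * q) q (pk85_h2 K (M' * q) (h2.trans (dvd_mul_right M' q))) :=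
    Or.inl ⟨hqp, (h2.trans (dvd_mul_right M' q)), rfl⟩
  have hαh : al97L_alpha K (M' * q) q (pk85_h2 K (M' * q) (h2.trans (dvd_mul_right M' q))) =
      pk85_h2 K (M' * q * q) (h2.trans ((dvd_mul_right M' q).trans (dvd_mul_right (M' * q) q))) :=
    Subtype.ext (by rw [al97L_alpha_coe, pk85_h2_coe, pk85_h2_coe])
  obtain ⟨hα1, hα2⟩ := cm71_alpha_charts (R := R) (K := K) (M' * q) q (pk85_h2 K (M' * q) (h2.trans (dvd_mul_right M' q)))
  obtain ⟨hβ1, hβ2⟩ := cm71_beta_charts (R := R) (K := K) (M' * q) q hq hunit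
    (pk85_h2 K (M' * q) (h2.trans (dvd_mul_right M' q))) hh'
  rw [hαh] at hα1 hα2 hβ1 hβ2
  obtain ⟨⟨hBW₁, -⟩, ⟨hBW₂, -⟩⟩ := nf79c_chart_facts (K := K) M' q hq hM' hπ hunit hqR
    (pk85_h2 K (M' * q) (h2.trans (dvd_mul_right M' q))) hh'
  obtain ⟨-, hC, -⟩ := fb85_frameV3_level2 M' q hq hM' hπ hqR hMu h2 V₂ hV₂ hπ₂ hs
  obtain ⟨-, h12W, hsat1, hsat2, -⟩ := hC
  have e : algebraMap R ↥(modularFunctionFieldFullC K (M' * q * q)) π = (algebraMap K ↥(modularFunctionFieldFullC K (M' * q * q)) (algebraMap R K π)) :=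
    IsScalarTower.algebraMap_apply R K _ π
  have hπ₂' : (algebraMap R ↥(modularFunctionFieldFullC K (M' * q * q)) π)⁻¹ ∉ V₂ := by
    rw [e]
    exact hπ₂
  have hs' : V₂.valuation (v2g64_s K M' q) ^ (q - 1) =
      V₂.valuation (algebraMap R ↥(modularFunctionFieldFullC K (M' * q * q)) π) := by
    rw [e]
    exact hs
  obtain ⟨⟨a1, a2, a3⟩, ⟨b1, b2, b3⟩⟩ := sm7_three_smooth_sq_level2 (R := R) (K := K) M' q hq hM'
    hπ hqR h2 hMu V₂ hV₂ hπ₂' hne (v2g64_s K M' q) hs'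
  have hsub1 : ({pk85_h2 K (M' * q * q) (h2.trans ((dvd_mul_right M' q).trans (dvd_mul_right (M' * q) q)))} : Set ↥(modularFunctionFieldFullC K (M' * q * q))) ⊆
      {pk85_h2 K (M' * q * q) (h2.trans ((dvd_mul_right M' q).trans (dvd_mul_right (M' * q) q))), (pk85_h2 K (M' * q * q) (h2.trans ((dvd_mul_right M' q).trans (dvd_mul_right (M' * q) q))))⁻¹} := by
    intro x hx
    rw [Set.mem_singleton_iff.mp hx]
    exact Set.mem_insert _ _
  have hsub2 : ({(pk85_h2 K (M' * q * q) (h2.trans ((dvd_mul_right M' q).trans (dvd_mul_right (M' * q) q))))⁻¹} : Set ↥(modularFunctionFieldFullC K (M' * q * q))) ⊆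
      {pk85_h2 K (M' * q * q) (h2.trans ((dvd_mul_right M' q).trans (dvd_mul_right (M' * q) q))), (pk85_h2 K (M' * q * q) (h2.trans ((dvd_mul_right M' q).trans (dvd_mul_right (M' * q) q))))⁻¹} := by
    intro x hx
    rw [Set.mem_singleton_iff.mp hx]
    exact Set.mem_insert_of_mem _ rfl
  exact ⟨tg71_core (K := K) M' q hq hM' hπ hqR V₂ hV₂ hπ₂ hne hs _ _ hα1 hβ1 hBW₁
      (fun x hx => h12W x (pk15_chart_mono hsub1 hx)) hsat1 a1 a2 a3,
    tg71_core (K := K) M' q hq hM' hπ hqR V₂ hV₂ hπ₂ hne hs _ _ hα2 hβ2 hBW₂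
      (fun x hx => h12W x (pk15_chart_mono hsub2 hx)) hsat2 b1 b2 b3⟩

include hq hM' in
/-- **The two generators on the canonical frame, Hauptmodul of level 3**: `tg71_Out` for the chart
of `h` and for the chart of `h⁻¹` (`V₂` ANY valuation subring with the four facts of row B1-V2:
`hV₂ hπ₂ hs` of `fb85_frameV3_level3` and `hne`). -/
theorem tg71_level3 (hunit : ∀ n : ℕ, Nat.Coprime n q → IsUnit (n : R))
    (hqR : ¬ IsUnit (q : R)) (hMu : IsUnit (M' : R)) (h3 : 3 ∣ M')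
    (V₂ : ValuationSubring ↥(modularFunctionFieldFullC K (M' * q * q)))
    (hV₂ : ∀ c ∈ cm85_Vinf (K := K) (M' * q) hπ, al97L_alpha K (M' * q) q c ∈ V₂)
    (hπ₂ : (algebraMap K ↥(modularFunctionFieldFullC K (M' * q * q)) (algebraMap R K π))⁻¹ ∉ V₂)
    (hne : cm85_Vinf (K := K) (M' * q * q) hπ ≠ V₂)
    (hs : V₂.valuation (v2g64_s K M' q) ^ (q - 1) =
      V₂.valuation (algebraMap K ↥(modularFunctionFieldFullC K (M' * q * q)) (algebraMap R K π))) :
    tg71_Out (K := K) M' q hq hM' hπ V₂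
        (pk15_chart R ({pk85_h3 K (M' * q) (h3.trans (dvd_mul_right M' q))} : Set ↥(modularFunctionFieldFullC K (M' * q))))
        (pk15_chart R ({pk85_h3 K (M' * q * q) (h3.trans ((dvd_mul_right M' q).trans (dvd_mul_right (M' * q) q)))} : Set ↥(modularFunctionFieldFullC K (M' * q * q)))) ∧
      tg71_Out (K := K) M' q hq hM' hπ V₂
        (pk15_chart R ({(pk85_h3 K (M' * q) (h3.trans (dvd_mul_right M' q)))⁻¹} : Set ↥(modularFunctionFieldFullC K (M' * q))))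
        (pk15_chart R ({(pk85_h3 K (M' * q * q) (h3.trans ((dvd_mul_right M' q).trans (dvd_mul_right (M' * q) q))))⁻¹} : Set ↥(modularFunctionFieldFullC K (M' * q * q)))) := by
  have hqp : q ≠ 3 := by
    intro h
    apply hM'
    rw [h]
    exact h3
  have hh' : s34i47c_IsHaupt K (M' * q) q (pk85_h3 K (M' * q) (h3.trans (dvd_mul_right M' q))) :=
    Or.inr ⟨hqp, (h3.trans (dvd_mul_right M' q)), rfl⟩
  have hαh : al97L_alpha K (M' * q) q (pk85_h3 K (M' * q) (h3.trans (dvd_mul_right M' q))) =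
      pk85_h3 K (M' * q * q) (h3.trans ((dvd_mul_right M' q).trans (dvd_mul_right (M' * q) q))) :=
    Subtype.ext (by rw [al97L_alpha_coe, pk85_h3_coe, pk85_h3_coe])
  obtain ⟨hα1, hα2⟩ := cm71_alpha_charts (R := R) (K := K) (M' * q) q (pk85_h3 K (M' * q) (h3.trans (dvd_mul_right M' q)))
  obtain ⟨hβ1, hβ2⟩ := cm71_beta_charts (R := R) (K := K) (M' * q) q hq hunit
    (pk85_h3 K (M' * q) (h3.trans (dvd_mul_right M' q))) hh'
  rw [hαh] at hα1 hα2 hβ1 hβ2
  obtain ⟨⟨hBW₁, -⟩, ⟨hBW₂, -⟩⟩ := nf79c_chart_facts (K := K) M' q hq hM' hπ hunit hqR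
    (pk85_h3 K (M' * q) (h3.trans (dvd_mul_right M' q))) hh'
  obtain ⟨-, hC, -⟩ := fb85_frameV3_level3 M' q hq hM' hπ hqR hMu h3 V₂ hV₂ hπ₂ hs
  obtain ⟨-, h12W, hsat1, hsat2, -⟩ := hC
  have e : algebraMap R ↥(modularFunctionFieldFullC K (M' * q * q)) π = (algebraMap K ↥(modularFunctionFieldFullC K (M' * q * q)) (algebraMap R K π)) :=
    IsScalarTower.algebraMap_apply R K _ π
  have hπ₂' : (algebraMap R ↥(modularFunctionFieldFullC K (M' * q * q)) π)⁻¹ ∉ V₂ := by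
    rw [e]
    exact hπ₂
  have hs' : V₂.valuation (v2g64_s K M' q) ^ (q - 1) =
      V₂.valuation (algebraMap R ↥(modularFunctionFieldFullC K (M' * q * q)) π) := by
    rw [e]
    exact hs
  obtain ⟨⟨a1, a2, a3⟩, ⟨b1, b2, b3⟩⟩ := sm7_three_smooth_sq_level3 (R := R) (K := K) M' q hq hM'
    hπ hqR h3 hMu V₂ hV₂ hπ₂' hne (v2g64_s K M' q) hs'
  have hsub1 : ({pk85_h3 K (M' * q * q) (h3.trans ((dvd_mul_right M' q).trans (dvd_mul_right (M' * q) q)))} : Set ↥(modularFunctionFieldFullC K (M' * q * q))) ⊆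
      {pk85_h3 K (M' * q * q) (h3.trans ((dvd_mul_right M' q).trans (dvd_mul_right (M' * q) q))), (pk85_h3 K (M' * q * q) (h3.trans ((dvd_mul_right M' q).trans (dvd_mul_right (M' * q) q))))⁻¹} := by
    intro x hx
    rw [Set.mem_singleton_iff.mp hx]
    exact Set.mem_insert _ _
  have hsub2 : ({(pk85_h3 K (M' * q * q) (h3.trans ((dvd_mul_right M' q).trans (dvd_mul_right (M' * q) q))))⁻¹} : Set ↥(modularFunctionFieldFullC K (M' * q * q))) ⊆
      {pk85_h3 K (M' * q * q) (h3.trans ((dvd_mul_right M' q).trans (dvd_mul_right (M' * q) q))), (pk85_h3 K (M' * q * q) (h3.trans ((dvd_mul_right M' q).trans (dvd_mul_right (M' * q) q))))⁻¹} := by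
    intro x hx
    rw [Set.mem_singleton_iff.mp hx]
    exact Set.mem_insert_of_mem _ rfl
  exact ⟨tg71_core (K := K) M' q hq hM' hπ hqR V₂ hV₂ hπ₂ hne hs _ _ hα1 hβ1 hBW₁
      (fun x hx => h12W x (pk15_chart_mono hsub1 hx)) hsat1 a1 a2 a3,
    tg71_core (K := K) M' q hq hM' hπ hqR V₂ hV₂ hπ₂ hne hs _ _ hα2 hβ2 hBW₂
      (fun x hx => h12W x (pk15_chart_mono hsub2 hx)) hsat2 b1 b2 b3⟩

end TG71

end Fermat.Agent.S36.TripleLoc71
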