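import Fermat.Agent.S36.CoreHP1_84
import Fermat.Agent.S36.TwoGenCanon71
import Fermat.Agent.S36.FrameClauses73
import Fermat.Agent.S36.GlueBridge26
import Fermat.Agent.S34.Krull65

/-!
# S36 lab (helper36), row 605 (INV-core): the CANONICAL INSTANCE of (HP-1)

`cp57_HP1` (CorePoints57) on the canonical frame of level `M' q q`:
`V₁ = cm85_Vinf (M' * q * q) hπ`, `V₃ = nsb86_V3 M' q hq hM' hπ`, `V₂` ANY valuation subring
with the four facts of row B1-V2 (`hV₂ hπ₂ hne hs`), charts `B = pk15_chart R {h}`, `{h⁻¹}` for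
`h = pk85_h2 / pk85_h3` at level `M' q q`, `B'` the corresponding charts at level `M' q`.

The maps `al be`, the norms `Nal Nbe` and the level-`q` valuation subrings `Vinf V0` are
ARBITRARY (they only occur in the hypotheses of `cp57_HP1`).

Open hypotheses (exactly those of `tg71_Out`, helper71):
* `hreg` : `tf71_RegNodes B'` — the labelled regular nodes of the level-`q` chart ((REG-q), row 599);
* `hD₂`  : `tl71_MidDivAt` at the `C₂`-only closed points of `B` (rows 600/601).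

* `hp1c36_core`   : a pair of charts `(B', B)` with the frame facts as hypotheses;
* `hp1c36_level2` : both affine charts of `pk85_h2` (`2 ∣ M'`);
* `hp1c36_level3` : both affine charts of `pk85_h3` (`3 ∣ M'`).

Proof: `hp84_HP1` (helper84) with `tf71_hD` (helper71), `fc73_pi / fc73_rad / fc73_arch`
(helper73), `gv85_hmax`, `ob72_ram`, `o3x72_inert` (uniformisers), `kr65_Pkg_Krull`,
`sm7_three_smooth_sq_level2/3` (helper7), `fb85_frameV3_level2/3` (helper85).

All names are prefixed `hp1c36_`.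
-/

set_option autoImplicit false
set_option linter.unusedSectionVars false
set_option linter.unusedVariables false
set_option linter.style.haveILetI false
set_option linter.style.longLine false

open ModularCurve

namespace Fermat.Agent.S36

open Fermat.Agent.S34 Fermat.Agent.S18 Fermat.Agent.S24 Fermat.Agent.S36.TripleLoc71

local notation "Q̄" => AlgebraicClosure ℚ

section HP1C

variable {R K : Type} [CommRing R] [IsDomain R] [IsDiscreteValuationRing R] [Field K]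
  [NumberField K] [Algebra R K] [IsFractionRing R K] [Algebra K Q̄] [Algebra.IsAlgebraic K Q̄]
  (M' q : ℕ) [NeZero M'] [NeZero q] (hq : q.Prime) (hM' : ¬ q ∣ M')
  {π : R} (hπ : Irreducible π)
  [Algebra R ↥(modularFunctionFieldFullC K M')]
  [IsScalarTower R K ↥(modularFunctionFieldFullC K M')]
  [Algebra R ↥(modularFunctionFieldFullC K (M' * q))]
  [IsScalarTower R K ↥(modularFunctionFieldFullC K (M' * q))]
  [Algebra R ↥(modularFunctionFieldFullC K (M' * q * q))]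
  [IsScalarTower R K ↥(modularFunctionFieldFullC K (M' * q * q))]

include hq hM' in
/-- **(HP-1) for a pair of charts** `(B', B)` of levels `M' q`, `M' q q` with the frame facts as
hypotheses (those of `tg71_core` + noetherian, fractions, Krull, `m` invertible). -/
theorem hp1c36_core (hqR : ¬ IsUnit (q : R))
    (V₂ : ValuationSubring ↥(modularFunctionFieldFullC K (M' * q * q)))
    (hV₂ : ∀ c ∈ cm85_Vinf (K := K) (M' * q) hπ, al97L_alpha K (M' * q) q c ∈ V₂)
    (hπ₂ : (algebraMap K ↥(modularFunctionFieldFullC K (M' * q * q)) (algebraMap R K π))⁻¹ ∉ V₂)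
    (hne : cm85_Vinf (K := K) (M' * q * q) hπ ≠ V₂)
    (hs : V₂.valuation (v2g64_s K M' q) ^ (q - 1) =
      V₂.valuation (algebraMap K ↥(modularFunctionFieldFullC K (M' * q * q)) (algebraMap R K π)))
    (B' : Subalgebra R ↥(modularFunctionFieldFullC K (M' * q)))
    (B : Subalgebra R ↥(modularFunctionFieldFullC K (M' * q * q))) [IsNoetherianRing B]
    (hαB : ∀ x ∈ B', al97L_alpha K (M' * q) q x ∈ B)
    (hβB : ∀ x ∈ B', al97L_beta K (M' * q) q x ∈ B)
    (hB'W : ∀ x ∈ B', x ∈ s34i47c_W (K := K) M' q hq hM' hπ)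
    (hBW : ∀ x ∈ B, x ∈ (cm85_Vinf (K := K) (M' * q * q) hπ).toSubring ⊓ V₂.toSubring ⊓
      (nsb86_V3 (K := K) M' q hq hM' hπ).toSubring)
    (hsatW : ∀ x ∈ B, (algebraMap R ↥(modularFunctionFieldFullC K (M' * q * q)) π)⁻¹ * x ∈
        (cm85_Vinf (K := K) (M' * q * q) hπ).toSubring ⊓ V₂.toSubring ⊓ (nsb86_V3 (K := K) M' q hq hM' hπ).toSubring →
      (algebraMap R ↥(modularFunctionFieldFullC K (M' * q * q)) π)⁻¹ * x ∈ B)
    (hS₁ : sf79_Smooth π B (cm85_Vinf (K := K) (M' * q * q) hπ).toSubring)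
    (hS₂ : tl71_MidSmooth π (v2g64_s K M' q) B V₂.toSubring)
    (hS₃ : sf79_Smooth π B (nsb86_V3 (K := K) M' q hq hM' hπ).toSubring)
    (hfrac : ∀ t : ↥(modularFunctionFieldFullC K (M' * q * q)), ∃ a ∈ B, ∃ b ∈ B, b ≠ 0 ∧ t * b = a)
    (hKr : s34i47_Krull π B)
    (m : ℕ) (hm : 0 < m)
    (hmB : ∃ μ ∈ B, (m : ↥(modularFunctionFieldFullC K (M' * q * q))) * μ = 1)
    (al be : ↥(modularFunctionFieldFullC K (M' * q)) →+* ↥(modularFunctionFieldFullC K (M' * q * q)))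
    (Nal Nbe : ↥(modularFunctionFieldFullC K (M' * q * q)) →* ↥(modularFunctionFieldFullC K (M' * q)))
    (Vinf V0 : ValuationSubring ↥(modularFunctionFieldFullC K (M' * q)))
    (hreg : tf71_RegNodes (K := K) M' q hq hM' hπ B')
    (hD₂ : ∀ n : Ideal B, n.IsMaximal → algebraMap R B π ∈ n →
      tl71_OnMid (v2g64_s K M' q) B V₂.toSubring n →
      ¬ sf79_OnBr π B (cm85_Vinf (K := K) (M' * q * q) hπ).toSubring n →
      ¬ sf79_OnBr π B (nsb86_V3 (K := K) M' q hq hM' hπ).toSubring n →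
      tl71_MidDivAt π (v2g64_s K M' q) B (cm85_Vinf (K := K) (M' * q * q) hπ).toSubring V₂.toSubring
        (nsb86_V3 (K := K) M' q hq hM' hπ).toSubring n) :
    cp57_HP1 (K := K) π q m B al be Nal Nbe (cm85_Vinf (K := K) (M' * q * q) hπ) V₂
      (nsb86_V3 (K := K) M' q hq hM' hπ) Vinf V0 := by
  have e : algebraMap R ↥(modularFunctionFieldFullC K (M' * q * q)) π = (algebraMap K ↥(modularFunctionFieldFullC K (M' * q * q)) (algebraMap R K π)) :=
    IsScalarTower.algebraMap_apply R K _ π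
  have hπ0 : algebraMap R ↥(modularFunctionFieldFullC K (M' * q * q)) π ≠ 0 := by
    intro h0
    apply (ci22_Vinf_pi (K := K) (M' * q * q) hπ).2
    rw [h0, inv_zero]
    exact (cm85_Vinf (K := K) (M' * q * q) hπ).zero_mem
  have hp0 : V₂.valuation (algebraMap R ↥(modularFunctionFieldFullC K (M' * q * q)) π) ≠ 0 :=
    (map_ne_zero V₂.valuation).mpr hπ0
  have hp1 : V₂.valuation (algebraMap R ↥(modularFunctionFieldFullC K (M' * q * q)) π) < 1 := by
    by_contra hcon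
    apply hπ₂
    rw [← e, ← ValuationSubring.valuation_le_one_iff, map_inv₀]
    exact inv_le_one_of_one_le₀ (not_lt.mp hcon)
  have hs' : V₂.valuation (v2g64_s K M' q) ^ (q - 1) =
      V₂.valuation (algebraMap R ↥(modularFunctionFieldFullC K (M' * q * q)) π) := by
    rw [e]
    exact hs
  obtain ⟨ha0, -, ha2⟩ := sm7_aux_val (V₂.valuation (v2g64_s K M' q))
    (V₂.valuation (algebraMap R ↥(modularFunctionFieldFullC K (M' * q * q)) π)) q hq.two_le hp0 hp1 hs'
  have hσ0 : (v2g64_s K M' q) ≠ 0 := fun h => ha0 (by rw [h, map_zero])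
  have hπσ : algebraMap R ↥(modularFunctionFieldFullC K (M' * q * q)) π * (v2g64_s K M' q)⁻¹ ∈ V₂ := by
    rw [← ValuationSubring.valuation_le_one_iff, map_mul, map_inv₀]
    exact (mul_comm _ _).le.trans ha2
  have hσe : (algebraMap R ↥(modularFunctionFieldFullC K (M' * q * q)) π)⁻¹ * (v2g64_s K M' q) ^ (q - 1) ∈ V₂ := by
    rw [← ValuationSubring.valuation_le_one_iff, map_mul, map_inv₀, map_pow, hs',
      inv_mul_cancel₀ hp0]
  have hL := nsb86_hL K (M' * q * q)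
  have hV₃mem := nsb86_mem_V3 (K := K) M' q hq hM' hπ
  have hα₃ : ∀ x ∈ s34i47c_V0 (K := K) M' q hq hM' hπ,
      al97L_alpha K (M' * q) q x ∈ (nsb86_V3 (K := K) M' q hq hM' hπ) := fun c hc =>
    o3x72_V3_over (K := K) M' q hq hM' hπ hL _ hV₃mem c hc
  have hβ₂ : ∀ x ∈ s34i47c_V0 (K := K) M' q hq hM' hπ, al97L_beta K (M' * q) q x ∈ V₂ :=
    fun c hc => (bv66_beta_mem_V2 (K := K) M' q hq hM' hπ hqR hL V₂ hV₂ hπ₂ hne c).mpr hc
  have hβ₃ : ∀ x ∈ s34i47c_V0 (K := K) M' q hq hM' hπ,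
      al97L_beta K (M' * q) q x ∈ (nsb86_V3 (K := K) M' q hq hM' hπ) := fun c hc =>
    s3f66_V3_beta (K := K) M' q hq hM' hπ hL _ hV₃mem c hc
  have hB₁ : ∀ x ∈ B, x ∈ cm85_Vinf (K := K) (M' * q * q) hπ := fun x hx =>
    (Subring.mem_inf.mp (Subring.mem_inf.mp (hBW x hx)).1).1
  have hB₂ : ∀ x ∈ B, x ∈ V₂ := fun x hx =>
    (Subring.mem_inf.mp (Subring.mem_inf.mp (hBW x hx)).1).2
  have hB₃ : ∀ x ∈ B, x ∈ nsb86_V3 (K := K) M' q hq hM' hπ := fun x hx =>
    (Subring.mem_inf.mp (hBW x hx)).2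
  have hsat : ∀ x ∈ B,
      (algebraMap R ↥(modularFunctionFieldFullC K (M' * q * q)) π)⁻¹ * x ∈ cm85_Vinf (K := K) (M' * q * q) hπ →
      (algebraMap R ↥(modularFunctionFieldFullC K (M' * q * q)) π)⁻¹ * x ∈ V₂ →
      (algebraMap R ↥(modularFunctionFieldFullC K (M' * q * q)) π)⁻¹ * x ∈ nsb86_V3 (K := K) M' q hq hM' hπ →
      (algebraMap R ↥(modularFunctionFieldFullC K (M' * q * q)) π)⁻¹ * x ∈ B := fun x hx h1 h2 h3 =>
    hsatW x hx (Subring.mem_inf.mpr ⟨Subring.mem_inf.mpr ⟨h1, h2⟩, h3⟩)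
  obtain ⟨hD₁, hD₃⟩ := tf71_hD (K := K) M' q hq hM' hπ hqR V₂ (nsb86_V3 (K := K) M' q hq hM' hπ) (v2g64_s K M' q) hV₂ hα₃ hβ₂ hβ₃ hπσ
    B' B hαB hβB hB'W hreg
  -- `π⁻¹ ∉ V i`, `rad`, archimedean (helper73)
  have hpi := fc73_pi (K := K) M' q hq hM' hπ V₂ hπ₂
  have hrad := fc73_rad (K := K) M' q hq hM' hπ hqR V₂ hV₂ hπ₂ hne hs
  have harch := fc73_arch (K := K) M' q hq hM' hπ V₂ hV₂ hπ₂
  -- uniformisers
  have hlt : ∀ (V : ValuationSubring ↥(modularFunctionFieldFullC K (M' * q * q)))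
      (x : ↥(modularFunctionFieldFullC K (M' * q * q))), V.valuation x < 1 →
      x ∈ V ∧ (x = 0 ∨ x⁻¹ ∉ V) := fun V x hx => (gcb26_val_lt_one_iff V x).mp hx
  have hunif₁ : ∀ x : ↥(modularFunctionFieldFullC K (M' * q * q)),
      (cm85_Vinf (K := K) (M' * q * q) hπ).valuation x < 1 →
      (algebraMap R ↥(modularFunctionFieldFullC K (M' * q * q)) π)⁻¹ * x ∈
        cm85_Vinf (K := K) (M' * q * q) hπ := by
    intro x hx
    obtain ⟨hxV, hx0 | hxinv⟩ := hlt _ x hx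
    · rw [hx0, mul_zero]
      exact (cm85_Vinf (K := K) (M' * q * q) hπ).zero_mem
    · rw [e]
      exact gv85_hmax (IsLocalRing.residue R) π (pk85_res_iff hπ) hπ.ne_zero _ _ x hxV hxinv
  have hunif₂ : ∀ x : ↥(modularFunctionFieldFullC K (M' * q * q)), V₂.valuation x < 1 →
      x * (v2g64_s K M' q)⁻¹ ∈ V₂ := by
    intro x hx
    obtain ⟨hxV, hx0 | hxinv⟩ := hlt _ x hx
    · rw [hx0, zero_mul]
      exact V₂.zero_mem
    · obtain ⟨-, -, hmax₂, -, -⟩ := ob72_ram (K := K) (M' * q) q hq (dvd_mul_left q M') hπ V₂ hV₂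
        hπ₂ hne (v2g64_s K M' q) hs
      rw [mul_comm x]
      exact hmax₂ x hxV hxinv
  have hunif₃ : ∀ x : ↥(modularFunctionFieldFullC K (M' * q * q)),
      (nsb86_V3 (K := K) M' q hq hM' hπ).valuation x < 1 →
      (algebraMap R ↥(modularFunctionFieldFullC K (M' * q * q)) π)⁻¹ * x ∈
        nsb86_V3 (K := K) M' q hq hM' hπ := by
    intro x hx
    obtain ⟨hxV, hx0 | hxinv⟩ := hlt _ x hx
    · rw [hx0, mul_zero]
      exact (nsb86_V3 (K := K) M' q hq hM' hπ).zero_mem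
    · obtain ⟨-, -, hmax₃, -⟩ := o3x72_inert (K := K) M' q hq hM' hπ hqR hL
        (nsb86_V3 (K := K) M' q hq hM' hπ) hV₃mem
      rw [e]
      exact hmax₃ x hxV hxinv
  exact hp84_HP1 (K := K) π (v2g64_s K M' q) (q - 1) q m hm B al be Nal Nbe
    (cm85_Vinf (K := K) (M' * q * q) hπ) V₂ (nsb86_V3 (K := K) M' q hq hM' hπ) Vinf V0
    hB₁ hB₂ hB₃ hsat hπ0 hσ0 hσe (hpi 0) (hpi 1) (hpi 2) (hrad 0) (hrad 1) (hrad 2)
    (fun x _ hx0 => harch 0 x hx0) (fun x _ hx0 => harch 1 x hx0) (fun x _ hx0 => harch 2 x hx0)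
    hfrac hmB hunif₁ hunif₂ hunif₃ hKr hS₁ hS₃ hS₂ hD₁ hD₃ hD₂

include hq hM' in
/-- **(HP-1) on both charts of a Hauptmodul** `h = α h'` of the canonical frame, from (C) for `h`
and (3a) for the three branches on both charts. -/
theorem hp1c36_charts (hunit : ∀ n : ℕ, Nat.Coprime n q → IsUnit (n : R))
    (hqR : ¬ IsUnit (q : R))
    (V₂ : ValuationSubring ↥(modularFunctionFieldFullC K (M' * q * q)))
    (hV₂ : ∀ c ∈ cm85_Vinf (K := K) (M' * q) hπ, al97L_alpha K (M' * q) q c ∈ V₂)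
    (hπ₂ : (algebraMap K ↥(modularFunctionFieldFullC K (M' * q * q)) (algebraMap R K π))⁻¹ ∉ V₂)
    (hne : cm85_Vinf (K := K) (M' * q * q) hπ ≠ V₂)
    (hs : V₂.valuation (v2g64_s K M' q) ^ (q - 1) =
      V₂.valuation (algebraMap K ↥(modularFunctionFieldFullC K (M' * q * q)) (algebraMap R K π)))
    (h' : ↥(modularFunctionFieldFullC K (M' * q))) (hh' : s34i47c_IsHaupt K (M' * q) q h')
    (h : ↥(modularFunctionFieldFullC K (M' * q * q))) (hαh : al97L_alpha K (M' * q) q h' = h)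
    (hC : s34i47_ChartProps K π ((cm85_Vinf (K := K) (M' * q * q) hπ).toSubring ⊓ V₂.toSubring ⊓
      (nsb86_V3 (K := K) M' q hq hM' hπ).toSubring) h)
    (hsm₁ : (sf79_Smooth π (pk15_chart R ({h} : Set ↥(modularFunctionFieldFullC K (M' * q * q)))) (cm85_Vinf (K := K) (M' * q * q) hπ).toSubring ∧
      tl71_MidSmooth π (v2g64_s K M' q) (pk15_chart R ({h} : Set ↥(modularFunctionFieldFullC K (M' * q * q)))) V₂.toSubring ∧
      sf79_Smooth π (pk15_chart R ({h} : Set ↥(modularFunctionFieldFullC K (M' * q * q)))) (nsb86_V3 (K := K) M' q hq hM' hπ).toSubring))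
    (hsm₂ : (sf79_Smooth π (pk15_chart R ({h⁻¹} : Set ↥(modularFunctionFieldFullC K (M' * q * q)))) (cm85_Vinf (K := K) (M' * q * q) hπ).toSubring ∧
      tl71_MidSmooth π (v2g64_s K M' q) (pk15_chart R ({h⁻¹} : Set ↥(modularFunctionFieldFullC K (M' * q * q)))) V₂.toSubring ∧
      sf79_Smooth π (pk15_chart R ({h⁻¹} : Set ↥(modularFunctionFieldFullC K (M' * q * q)))) (nsb86_V3 (K := K) M' q hq hM' hπ).toSubring))
    (m : ℕ) (hm0 : 0 < m) (hm : IsUnit (m : R))
    (al be : ↥(modularFunctionFieldFullC K (M' * q)) →+* ↥(modularFunctionFieldFullC K (M' * q * q)))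
    (Nal Nbe : ↥(modularFunctionFieldFullC K (M' * q * q)) →* ↥(modularFunctionFieldFullC K (M' * q)))
    (Vinf V0 : ValuationSubring ↥(modularFunctionFieldFullC K (M' * q))) :
    (tf71_RegNodes (K := K) M' q hq hM' hπ (pk15_chart R ({h'} : Set ↥(modularFunctionFieldFullC K (M' * q)))) →
      (∀ n : Ideal ↥(pk15_chart R ({h} : Set ↥(modularFunctionFieldFullC K (M' * q * q)))), n.IsMaximal → algebraMap R ↥(pk15_chart R ({h} : Set ↥(modularFunctionFieldFullC K (M' * q * q)))) π ∈ n →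
        tl71_OnMid (v2g64_s K M' q) (pk15_chart R ({h} : Set ↥(modularFunctionFieldFullC K (M' * q * q)))) V₂.toSubring n →
        ¬ sf79_OnBr π (pk15_chart R ({h} : Set ↥(modularFunctionFieldFullC K (M' * q * q)))) (cm85_Vinf (K := K) (M' * q * q) hπ).toSubring n →
        ¬ sf79_OnBr π (pk15_chart R ({h} : Set ↥(modularFunctionFieldFullC K (M' * q * q)))) (nsb86_V3 (K := K) M' q hq hM' hπ).toSubring n →
        tl71_MidDivAt π (v2g64_s K M' q) (pk15_chart R ({h} : Set ↥(modularFunctionFieldFullC K (M' * q * q)))) (cm85_Vinf (K := K) (M' * q * q) hπ).toSubring V₂.toSubring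
          (nsb86_V3 (K := K) M' q hq hM' hπ).toSubring n) →
      cp57_HP1 (K := K) π q m (pk15_chart R ({h} : Set ↥(modularFunctionFieldFullC K (M' * q * q)))) al be Nal Nbe (cm85_Vinf (K := K) (M' * q * q) hπ) V₂
        (nsb86_V3 (K := K) M' q hq hM' hπ) Vinf V0) ∧
    (tf71_RegNodes (K := K) M' q hq hM' hπ (pk15_chart R ({h'⁻¹} : Set ↥(modularFunctionFieldFullC K (M' * q)))) →
      (∀ n : Ideal ↥(pk15_chart R ({h⁻¹} : Set ↥(modularFunctionFieldFullC K (M' * q * q)))), n.IsMaximal → algebraMap R ↥(pk15_chart R ({h⁻¹} : Set ↥(modularFunctionFieldFullC K (M' * q * q)))) π ∈ n →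
        tl71_OnMid (v2g64_s K M' q) (pk15_chart R ({h⁻¹} : Set ↥(modularFunctionFieldFullC K (M' * q * q)))) V₂.toSubring n →
        ¬ sf79_OnBr π (pk15_chart R ({h⁻¹} : Set ↥(modularFunctionFieldFullC K (M' * q * q)))) (cm85_Vinf (K := K) (M' * q * q) hπ).toSubring n →
        ¬ sf79_OnBr π (pk15_chart R ({h⁻¹} : Set ↥(modularFunctionFieldFullC K (M' * q * q)))) (nsb86_V3 (K := K) M' q hq hM' hπ).toSubring n →
        tl71_MidDivAt π (v2g64_s K M' q) (pk15_chart R ({h⁻¹} : Set ↥(modularFunctionFieldFullC K (M' * q * q)))) (cm85_Vinf (K := K) (M' * q * q) hπ).toSubring V₂.toSubring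
          (nsb86_V3 (K := K) M' q hq hM' hπ).toSubring n) →
      cp57_HP1 (K := K) π q m (pk15_chart R ({h⁻¹} : Set ↥(modularFunctionFieldFullC K (M' * q * q)))) al be Nal Nbe (cm85_Vinf (K := K) (M' * q * q) hπ) V₂
        (nsb86_V3 (K := K) M' q hq hM' hπ) Vinf V0) := by
  obtain ⟨hα1, hα2⟩ := cm71_alpha_charts (R := R) (K := K) (M' * q) q h'
  obtain ⟨hβ1, hβ2⟩ := cm71_beta_charts (R := R) (K := K) (M' * q) q hq hunit h' hh'
  rw [hαh] at hα1 hα2 hβ1 hβ2
  obtain ⟨⟨hBW₁, -⟩, ⟨hBW₂, -⟩⟩ := nf79c_chart_facts (K := K) M' q hq hM' hπ hunit hqR h' hh'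
  obtain ⟨htr, h12W, hsat1, hsat2, -, hN₁, hN₂, hfin, hfrac⟩ := hC
  have hh0 : h ≠ 0 := by
    rintro rfl
    exact htr isAlgebraic_zero
  have hfrac₂ := ca57_frac_inv (R := R) h hh0 hfrac
  obtain ⟨hKr₁, hKr₂⟩ := kr65_Pkg_Krull R K ↥(modularFunctionFieldFullC K (M' * q * q)) π hπ h htr
    hN₁ hN₂ hfin hfrac
  obtain ⟨μ, hμ⟩ := hm.exists_right_inv
  have hmB : ∀ B : Subalgebra R ↥(modularFunctionFieldFullC K (M' * q * q)),
      ∃ μ' ∈ B, (m : ↥(modularFunctionFieldFullC K (M' * q * q))) * μ' = 1 := by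
    intro B
    refine ⟨algebraMap R ↥(modularFunctionFieldFullC K (M' * q * q)) μ, B.algebraMap_mem μ, ?_⟩
    have e : (m : ↥(modularFunctionFieldFullC K (M' * q * q))) =
        algebraMap R ↥(modularFunctionFieldFullC K (M' * q * q)) (m : R) := by simp
    rw [e, ← map_mul, hμ, map_one]
  have hsub1 : ({h} : Set ↥(modularFunctionFieldFullC K (M' * q * q))) ⊆ {h, h⁻¹} := by
    intro x hx
    rw [Set.mem_singleton_iff.mp hx]
    exact Set.mem_insert _ _
  have hsub2 : ({h⁻¹} : Set ↥(modularFunctionFieldFullC K (M' * q * q))) ⊆ {h, h⁻¹} := by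
    intro x hx
    rw [Set.mem_singleton_iff.mp hx]
    exact Set.mem_insert_of_mem _ rfl
  obtain ⟨a1, a2, a3⟩ := hsm₁
  obtain ⟨b1, b2, b3⟩ := hsm₂
  constructor
  · intro hreg hD₂
    haveI := hN₁
    exact hp1c36_core (K := K) M' q hq hM' hπ hqR V₂ hV₂ hπ₂ hne hs _ _ hα1 hβ1 hBW₁
      (fun x hx => h12W x (pk15_chart_mono hsub1 hx)) hsat1 a1 a2 a3 hfrac hKr₁ m hm0 (hmB _)
      al be Nal Nbe Vinf V0 hreg hD₂
  · intro hreg hD₂
    haveI := hN₂
    exact hp1c36_core (K := K) M' q hq hM' hπ hqR V₂ hV₂ hπ₂ hne hs _ _ hα2 hβ2 hBW₂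
      (fun x hx => h12W x (pk15_chart_mono hsub2 hx)) hsat2 b1 b2 b3 hfrac₂ hKr₂ m hm0 (hmB _)
      al be Nal Nbe Vinf V0 hreg hD₂

include hq hM' in
/-- **(HP-1) on the canonical frame, Hauptmodul of level 2**: both affine charts (`V₂` ANY
valuation subring with the four facts of row B1-V2). Open: `tf71_RegNodes` of the level-`q`
chart and `tl71_MidDivAt` at the `C₂`-only points. -/
theorem hp1c36_level2 (hunit : ∀ n : ℕ, Nat.Coprime n q → IsUnit (n : R))
    (hqR : ¬ IsUnit (q : R)) (hMu : IsUnit (M' : R)) (h2 : 2 ∣ M')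
    (V₂ : ValuationSubring ↥(modularFunctionFieldFullC K (M' * q * q)))
    (hV₂ : ∀ c ∈ cm85_Vinf (K := K) (M' * q) hπ, al97L_alpha K (M' * q) q c ∈ V₂)
    (hπ₂ : (algebraMap K ↥(modularFunctionFieldFullC K (M' * q * q)) (algebraMap R K π))⁻¹ ∉ V₂)
    (hne : cm85_Vinf (K := K) (M' * q * q) hπ ≠ V₂)
    (hs : V₂.valuation (v2g64_s K M' q) ^ (q - 1) =
      V₂.valuation (algebraMap K ↥(modularFunctionFieldFullC K (M' * q * q)) (algebraMap R K π)))
    (m : ℕ) (hm0 : 0 < m) (hm : IsUnit (m : R))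
    (al be : ↥(modularFunctionFieldFullC K (M' * q)) →+* ↥(modularFunctionFieldFullC K (M' * q * q)))
    (Nal Nbe : ↥(modularFunctionFieldFullC K (M' * q * q)) →* ↥(modularFunctionFieldFullC K (M' * q)))
    (Vinf V0 : ValuationSubring ↥(modularFunctionFieldFullC K (M' * q))) :
    (tf71_RegNodes (K := K) M' q hq hM' hπ (pk15_chart R ({pk85_h2 K (M' * q) (h2.trans (dvd_mul_right M' q))} : Set ↥(modularFunctionFieldFullC K (M' * q)))) →
      (∀ n : Ideal ↥(pk15_chart R ({pk85_h2 K (M' * q * q) (h2.trans ((dvd_mul_right M' q).trans (dvd_mul_right (M' * q) q)))} : Set ↥(modularFunctionFieldFullC K (M' * q * q)))), n.IsMaximal → algebraMap R ↥(pk15_chart R ({pk85_h2 K (M' * q * q) (h2.trans ((dvd_mul_right M' q).trans (dvd_mul_right (M' * q) q)))} : Set ↥(modularFunctionFieldFullC K (M' * q * q)))) π ∈ n →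
        tl71_OnMid (v2g64_s K M' q) (pk15_chart R ({pk85_h2 K (M' * q * q) (h2.trans ((dvd_mul_right M' q).trans (dvd_mul_right (M' * q) q)))} : Set ↥(modularFunctionFieldFullC K (M' * q * q)))) V₂.toSubring n →
        ¬ sf79_OnBr π (pk15_chart R ({pk85_h2 K (M' * q * q) (h2.trans ((dvd_mul_right M' q).trans (dvd_mul_right (M' * q) q)))} : Set ↥(modularFunctionFieldFullC K (M' * q * q)))) (cm85_Vinf (K := K) (M' * q * q) hπ).toSubring n →
        ¬ sf79_OnBr π (pk15_chart R ({pk85_h2 K (M' * q * q) (h2.trans ((dvd_mul_right M' q).trans (dvd_mul_right (M' * q) q)))} : Set ↥(modularFunctionFieldFullC K (M' * q * q)))) (nsb86_V3 (K := K) M' q hq hM' hπ).toSubring n →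
        tl71_MidDivAt π (v2g64_s K M' q) (pk15_chart R ({pk85_h2 K (M' * q * q) (h2.trans ((dvd_mul_right M' q).trans (dvd_mul_right (M' * q) q)))} : Set ↥(modularFunctionFieldFullC K (M' * q * q)))) (cm85_Vinf (K := K) (M' * q * q) hπ).toSubring V₂.toSubring
          (nsb86_V3 (K := K) M' q hq hM' hπ).toSubring n) →
      cp57_HP1 (K := K) π q m (pk15_chart R ({pk85_h2 K (M' * q * q) (h2.trans ((dvd_mul_right M' q).trans (dvd_mul_right (M' * q) q)))} : Set ↥(modularFunctionFieldFullC K (M' * q * q)))) al be Nal Nbe (cm85_Vinf (K := K) (M' * q * q) hπ) V₂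
        (nsb86_V3 (K := K) M' q hq hM' hπ) Vinf V0) ∧
    (tf71_RegNodes (K := K) M' q hq hM' hπ (pk15_chart R ({(pk85_h2 K (M' * q) (h2.trans (dvd_mul_right M' q)))⁻¹} : Set ↥(modularFunctionFieldFullC K (M' * q)))) →
      (∀ n : Ideal ↥(pk15_chart R ({(pk85_h2 K (M' * q * q) (h2.trans ((dvd_mul_right M' q).trans (dvd_mul_right (M' * q) q))))⁻¹} : Set ↥(modularFunctionFieldFullC K (M' * q * q)))), n.IsMaximal → algebraMap R ↥(pk15_chart R ({(pk85_h2 K (M' * q * q) (h2.trans ((dvd_mul_right M' q).trans (dvd_mul_right (M' * q) q))))⁻¹} : Set ↥(modularFunctionFieldFullC K (M' * q * q)))) π ∈ n →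
        tl71_OnMid (v2g64_s K M' q) (pk15_chart R ({(pk85_h2 K (M' * q * q) (h2.trans ((dvd_mul_right M' q).trans (dvd_mul_right (M' * q) q))))⁻¹} : Set ↥(modularFunctionFieldFullC K (M' * q * q)))) V₂.toSubring n →
        ¬ sf79_OnBr π (pk15_chart R ({(pk85_h2 K (M' * q * q) (h2.trans ((dvd_mul_right M' q).trans (dvd_mul_right (M' * q) q))))⁻¹} : Set ↥(modularFunctionFieldFullC K (M' * q * q)))) (cm85_Vinf (K := K) (M' * q * q) hπ).toSubring n →
        ¬ sf79_OnBr π (pk15_chart R ({(pk85_h2 K (M' * q * q) (h2.trans ((dvd_mul_right M' q).trans (dvd_mul_right (M' * q) q))))⁻¹} : Set ↥(modularFunctionFieldFullC K (M' * q * q)))) (nsb86_V3 (K := K) M' q hq hM' hπ).toSubring n →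
        tl71_MidDivAt π (v2g64_s K M' q) (pk15_chart R ({(pk85_h2 K (M' * q * q) (h2.trans ((dvd_mul_right M' q).trans (dvd_mul_right (M' * q) q))))⁻¹} : Set ↥(modularFunctionFieldFullC K (M' * q * q)))) (cm85_Vinf (K := K) (M' * q * q) hπ).toSubring V₂.toSubring
          (nsb86_V3 (K := K) M' q hq hM' hπ).toSubring n) →
      cp57_HP1 (K := K) π q m (pk15_chart R ({(pk85_h2 K (M' * q * q) (h2.trans ((dvd_mul_right M' q).trans (dvd_mul_right (M' * q) q))))⁻¹} : Set ↥(modularFunctionFieldFullC K (M' * q * q)))) al be Nal Nbe (cm85_Vinf (K := K) (M' * q * q) hπ) V₂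
        (nsb86_V3 (K := K) M' q hq hM' hπ) Vinf V0) := by
  have hqp : q ≠ 2 := by
    intro h
    apply hM'
    rw [h]
    exact h2
  have hh' : s34i47c_IsHaupt K (M' * q) q (pk85_h2 K (M' * q) (h2.trans (dvd_mul_right M' q))) :=
    Or.inl ⟨hqp, (h2.trans (dvd_mul_right M' q)), rfl⟩
  have hαh : al97L_alpha K (M' * q) q (pk85_h2 K (M' * q) (h2.trans (dvd_mul_right M' q))) =
      pk85_h2 K (M' * q * q) (h2.trans ((dvd_mul_right M' q).trans (dvd_mul_right (M' * q) q))) :=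
    Subtype.ext (by rw [al97L_alpha_coe, pk85_h2_coe, pk85_h2_coe])
  obtain ⟨-, hC, -⟩ := fb85_frameV3_level2 M' q hq hM' hπ hqR hMu h2 V₂ hV₂ hπ₂ hs
  have e : algebraMap R ↥(modularFunctionFieldFullC K (M' * q * q)) π = (algebraMap K ↥(modularFunctionFieldFullC K (M' * q * q)) (algebraMap R K π)) :=
    IsScalarTower.algebraMap_apply R K _ π
  have hπ₂' : (algebraMap R ↥(modularFunctionFieldFullC K (M' * q * q)) π)⁻¹ ∉ V₂ := by
    rw [e]
    exact hπ₂
  have hs' : V₂.valuation (v2g64_s K M' q) ^ (q - 1) =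
      V₂.valuation (algebraMap R ↥(modularFunctionFieldFullC K (M' * q * q)) π) := by
    rw [e]
    exact hs
  obtain ⟨hsm₁, hsm₂⟩ := sm7_three_smooth_sq_level2 (R := R) (K := K) M' q hq hM'
    hπ hqR h2 hMu V₂ hV₂ hπ₂' hne (v2g64_s K M' q) hs'
  exact hp1c36_charts (K := K) M' q hq hM' hπ hunit hqR V₂ hV₂ hπ₂ hne hs _ hh' _ hαh hC
    hsm₁ hsm₂ m hm0 hm al be Nal Nbe Vinf V0

include hq hM' in
/-- **(HP-1) on the canonical frame, Hauptmodul of level 3**: both affine charts (`V₂` ANY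
valuation subring with the four facts of row B1-V2). Open: `tf71_RegNodes` of the level-`q`
chart and `tl71_MidDivAt` at the `C₂`-only points. -/
theorem hp1c36_level3 (hunit : ∀ n : ℕ, Nat.Coprime n q → IsUnit (n : R))
    (hqR : ¬ IsUnit (q : R)) (hMu : IsUnit (M' : R)) (h3 : 3 ∣ M')
    (V₂ : ValuationSubring ↥(modularFunctionFieldFullC K (M' * q * q)))
    (hV₂ : ∀ c ∈ cm85_Vinf (K := K) (M' * q) hπ, al97L_alpha K (M' * q) q c ∈ V₂)
    (hπ₂ : (algebraMap K ↥(modularFunctionFieldFullC K (M' * q * q)) (algebraMap R K π))⁻¹ ∉ V₂)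
    (hne : cm85_Vinf (K := K) (M' * q * q) hπ ≠ V₂)
    (hs : V₂.valuation (v2g64_s K M' q) ^ (q - 1) =
      V₂.valuation (algebraMap K ↥(modularFunctionFieldFullC K (M' * q * q)) (algebraMap R K π)))
    (m : ℕ) (hm0 : 0 < m) (hm : IsUnit (m : R))
    (al be : ↥(modularFunctionFieldFullC K (M' * q)) →+* ↥(modularFunctionFieldFullC K (M' * q * q)))
    (Nal Nbe : ↥(modularFunctionFieldFullC K (M' * q * q)) →* ↥(modularFunctionFieldFullC K (M' * q)))
    (Vinf V0 : ValuationSubring ↥(modularFunctionFieldFullC K (M' * q))) :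
    (tf71_RegNodes (K := K) M' q hq hM' hπ (pk15_chart R ({pk85_h3 K (M' * q) (h3.trans (dvd_mul_right M' q))} : Set ↥(modularFunctionFieldFullC K (M' * q)))) →
      (∀ n : Ideal ↥(pk15_chart R ({pk85_h3 K (M' * q * q) (h3.trans ((dvd_mul_right M' q).trans (dvd_mul_right (M' * q) q)))} : Set ↥(modularFunctionFieldFullC K (M' * q * q)))), n.IsMaximal → algebraMap R ↥(pk15_chart R ({pk85_h3 K (M' * q * q) (h3.trans ((dvd_mul_right M' q).trans (dvd_mul_right (M' * q) q)))} : Set ↥(modularFunctionFieldFullC K (M' * q * q)))) π ∈ n →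
        tl71_OnMid (v2g64_s K M' q) (pk15_chart R ({pk85_h3 K (M' * q * q) (h3.trans ((dvd_mul_right M' q).trans (dvd_mul_right (M' * q) q)))} : Set ↥(modularFunctionFieldFullC K (M' * q * q)))) V₂.toSubring n →
        ¬ sf79_OnBr π (pk15_chart R ({pk85_h3 K (M' * q * q) (h3.trans ((dvd_mul_right M' q).trans (dvd_mul_right (M' * q) q)))} : Set ↥(modularFunctionFieldFullC K (M' * q * q)))) (cm85_Vinf (K := K) (M' * q * q) hπ).toSubring n →
        ¬ sf79_OnBr π (pk15_chart R ({pk85_h3 K (M' * q * q) (h3.trans ((dvd_mul_right M' q).trans (dvd_mul_right (M' * q) q)))} : Set ↥(modularFunctionFieldFullC K (M' * q * q)))) (nsb86_V3 (K := K) M' q hq hM' hπ).toSubring n →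
        tl71_MidDivAt π (v2g64_s K M' q) (pk15_chart R ({pk85_h3 K (M' * q * q) (h3.trans ((dvd_mul_right M' q).trans (dvd_mul_right (M' * q) q)))} : Set ↥(modularFunctionFieldFullC K (M' * q * q)))) (cm85_Vinf (K := K) (M' * q * q) hπ).toSubring V₂.toSubring
          (nsb86_V3 (K := K) M' q hq hM' hπ).toSubring n) →
      cp57_HP1 (K := K) π q m (pk15_chart R ({pk85_h3 K (M' * q * q) (h3.trans ((dvd_mul_right M' q).trans (dvd_mul_right (M' * q) q)))} : Set ↥(modularFunctionFieldFullC K (M' * q * q)))) al be Nal Nbe (cm85_Vinf (K := K) (M' * q * q) hπ) V₂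
        (nsb86_V3 (K := K) M' q hq hM' hπ) Vinf V0) ∧
    (tf71_RegNodes (K := K) M' q hq hM' hπ (pk15_chart R ({(pk85_h3 K (M' * q) (h3.trans (dvd_mul_right M' q)))⁻¹} : Set ↥(modularFunctionFieldFullC K (M' * q)))) →
      (∀ n : Ideal ↥(pk15_chart R ({(pk85_h3 K (M' * q * q) (h3.trans ((dvd_mul_right M' q).trans (dvd_mul_right (M' * q) q))))⁻¹} : Set ↥(modularFunctionFieldFullC K (M' * q * q)))), n.IsMaximal → algebraMap R ↥(pk15_chart R ({(pk85_h3 K (M' * q * q) (h3.trans ((dvd_mul_right M' q).trans (dvd_mul_right (M' * q) q))))⁻¹} : Set ↥(modularFunctionFieldFullC K (M' * q * q)))) π ∈ n →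
        tl71_OnMid (v2g64_s K M' q) (pk15_chart R ({(pk85_h3 K (M' * q * q) (h3.trans ((dvd_mul_right M' q).trans (dvd_mul_right (M' * q) q))))⁻¹} : Set ↥(modularFunctionFieldFullC K (M' * q * q)))) V₂.toSubring n →
        ¬ sf79_OnBr π (pk15_chart R ({(pk85_h3 K (M' * q * q) (h3.trans ((dvd_mul_right M' q).trans (dvd_mul_right (M' * q) q))))⁻¹} : Set ↥(modularFunctionFieldFullC K (M' * q * q)))) (cm85_Vinf (K := K) (M' * q * q) hπ).toSubring n →
        ¬ sf79_OnBr π (pk15_chart R ({(pk85_h3 K (M' * q * q) (h3.trans ((dvd_mul_right M' q).trans (dvd_mul_right (M' * q) q))))⁻¹} : Set ↥(modularFunctionFieldFullC K (M' * q * q)))) (nsb86_V3 (K := K) M' q hq hM' hπ).toSubring n →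
        tl71_MidDivAt π (v2g64_s K M' q) (pk15_chart R ({(pk85_h3 K (M' * q * q) (h3.trans ((dvd_mul_right M' q).trans (dvd_mul_right (M' * q) q))))⁻¹} : Set ↥(modularFunctionFieldFullC K (M' * q * q)))) (cm85_Vinf (K := K) (M' * q * q) hπ).toSubring V₂.toSubring
          (nsb86_V3 (K := K) M' q hq hM' hπ).toSubring n) →
      cp57_HP1 (K := K) π q m (pk15_chart R ({(pk85_h3 K (M' * q * q) (h3.trans ((dvd_mul_right M' q).trans (dvd_mul_right (M' * q) q))))⁻¹} : Set ↥(modularFunctionFieldFullC K (M' * q * q)))) al be Nal Nbe (cm85_Vinf (K := K) (M' * q * q) hπ) V₂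
        (nsb86_V3 (K := K) M' q hq hM' hπ) Vinf V0) := by
  have hqp : q ≠ 3 := by
    intro h
    apply hM'
    rw [h]
    exact h3
  have hh' : s34i47c_IsHaupt K (M' * q) q (pk85_h3 K (M' * q) (h3.trans (dvd_mul_right M' q))) :=
    Or.inr ⟨hqp, (h3.trans (dvd_mul_right M' q)), rfl⟩
  have hαh : al97L_alpha K (M' * q) q (pk85_h3 K (M' * q) (h3.trans (dvd_mul_right M' q))) =
      pk85_h3 K (M' * q * q) (h3.trans ((dvd_mul_right M' q).trans (dvd_mul_right (M' * q) q))) :=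
    Subtype.ext (by rw [al97L_alpha_coe, pk85_h3_coe, pk85_h3_coe])
  obtain ⟨-, hC, -⟩ := fb85_frameV3_level3 M' q hq hM' hπ hqR hMu h3 V₂ hV₂ hπ₂ hs
  have e : algebraMap R ↥(modularFunctionFieldFullC K (M' * q * q)) π = (algebraMap K ↥(modularFunctionFieldFullC K (M' * q * q)) (algebraMap R K π)) :=
    IsScalarTower.algebraMap_apply R K _ π
  have hπ₂' : (algebraMap R ↥(modularFunctionFieldFullC K (M' * q * q)) π)⁻¹ ∉ V₂ := by
    rw [e]
    exact hπ₂
  have hs' : V₂.valuation (v2g64_s K M' q) ^ (q - 1) =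
      V₂.valuation (algebraMap R ↥(modularFunctionFieldFullC K (M' * q * q)) π) := by
    rw [e]
    exact hs
  obtain ⟨hsm₁, hsm₂⟩ := sm7_three_smooth_sq_level3 (R := R) (K := K) M' q hq hM'
    hπ hqR h3 hMu V₂ hV₂ hπ₂' hne (v2g64_s K M' q) hs'
  exact hp1c36_charts (K := K) M' q hq hM' hπ hunit hqR V₂ hV₂ hπ₂ hne hs _ hh' _ hαh hC
    hsm₁ hsm₂ m hm0 hm al be Nal Nbe Vinf V0

end HP1C

end Fermat.Agent.S36
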