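import Mathlib
import Fermat.Agent.S34.Iface47
import Fermat.Agent.S34.UniqueZero37
import Fermat.Agent.S34.LocPrin9
import Fermat.Agent.S35.SemiLocalLP9

/-!
# S36 (helper9): `(LP)` at a closed point whose local ring has a 2-generated maximal ideal

`lpz9_locPrin_at`: let `B` be a noetherian chart with fraction field `F`, `n` a closed point of its
special fibre with `n B_n = (x, y)` (two generators; NO verticality, NO rationality, NO unique-zero
hypothesis).  If `m ∣ ord_O f` at every horizontal `O` and `f` has finitely many zeros and poles,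
then there is `c ≠ 0` with `f / c ^ m` a unit of every horizontal `O` through `n`
(the per-point clause of `s34i47_LocPrin`, without `s34i47_Rat`).

Proof.  `D = B_n ⊆ F`.  The centre of a horizontal `O` through `n` on `D` is a prime different from
the maximal ideal (`π` is a unit of `O`), hence principal, `= g D` (`lpz9_principal`: Krull
intersection in `D / x D` and Nakayama).  Then `O = D_(g)` (`slp9_frac_unit`), `g` is a uniformiser
of `O`, and `g` is a unit of every other horizontal `O'` through `n`, because two principal primes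
one of which contains the other are equal (`lpz9_point`).  The product of the suitable powers of
these `g` is `c`, as in `lp9_Pkg_LP`.
-/

set_option autoImplicit false

namespace Fermat.Agent.S36

open Fermat.Agent.S34 Fermat.Agent.S18 Fermat.Agent.S35

section Alg

/-- Krull intersection modulo `x`: in a noetherian local ring, an element of `(x) + (y ^ k)` for
every `k`, `y` a non-unit, lies in `(x)`. -/
theorem lpz9_krull {A : Type*} [CommRing A] [IsNoetherianRing A] [IsLocalRing A]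
    (x y : A) (hy : y ∈ IsLocalRing.maximalIdeal A) (z : A)
    (h : ∀ k : ℕ, ∃ b c : A, z = x * b + y ^ k * c) : ∃ c : A, z = x * c := by
  set J : Ideal A := Ideal.span {x} with hJ
  have hkrull := Ideal.iInf_pow_smul_eq_bot_of_isLocalRing (R := A) (M := A ⧸ J)
    (Ideal.span {y}) (by
      intro h
      rw [Ideal.span_singleton_eq_top] at h
      exact (IsLocalRing.mem_maximalIdeal _).mp hy h)
  have hmem : (Ideal.Quotient.mk J z : A ⧸ J) ∈
      (⨅ i : ℕ, (Ideal.span {y}) ^ i • (⊤ : Submodule A (A ⧸ J))) := by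
    rw [Submodule.mem_iInf]
    intro k
    obtain ⟨b, c, hbc⟩ := h k
    have hxJ : x * b ∈ J := Ideal.mul_mem_right _ _ (Ideal.mem_span_singleton_self x)
    rw [hbc, map_add, Ideal.Quotient.eq_zero_iff_mem.mpr hxJ, zero_add]
    have h2 : (Ideal.Quotient.mk J (y ^ k * c) : A ⧸ J)
        = (y ^ k) • (Ideal.Quotient.mk J c : A ⧸ J) := by
      rw [Algebra.smul_def, Ideal.Quotient.algebraMap_eq, ← map_mul]
    rw [h2]
    have hyk : y ^ k ∈ (Ideal.span {y} : Ideal A) ^ k :=
      Ideal.pow_mem_pow (Ideal.mem_span_singleton_self y) k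
    exact Submodule.smul_mem_smul hyk Submodule.mem_top
  rw [hkrull] at hmem
  have hzJ : z ∈ J := Ideal.Quotient.eq_zero_iff_mem.mp ((Submodule.mem_bot _).mp hmem)
  obtain ⟨c, hc⟩ := Ideal.mem_span_singleton'.mp hzJ
  exact ⟨c, by rw [← hc]; ring⟩

/-- Nakayama in the form used below: `P ⊆ g A + x P` with `x` a non-unit gives `P ⊆ g A`. -/
theorem lpz9_nakayama {A : Type*} [CommRing A] [IsNoetherianRing A] [IsLocalRing A]
    (x g : A) (hx : x ∈ IsLocalRing.maximalIdeal A) (P : Ideal A)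
    (h : ∀ z ∈ P, ∃ c w : A, w ∈ P ∧ z = g * c + x * w) : ∀ z ∈ P, ∃ c : A, z = g * c := by
  have hle : P ≤ Ideal.span {g} ⊔ Ideal.span {x} • P := by
    intro z hz
    obtain ⟨c, w, hw, hzc⟩ := h z hz
    rw [hzc]
    refine Submodule.add_mem_sup (Ideal.mul_mem_right _ _ (Ideal.mem_span_singleton_self g)) ?_
    rw [smul_eq_mul]
    exact Ideal.mul_mem_mul (Ideal.mem_span_singleton_self x) hw
  have hjac : Ideal.span {x} ≤ Ideal.jacobson (⊥ : Ideal A) := by
    rw [IsLocalRing.jacobson_eq_maximalIdeal ⊥ bot_ne_top]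
    exact (Ideal.span_singleton_le_iff_mem _).mpr hx
  have hP : P ≤ Ideal.span {g} :=
    Submodule.le_of_le_smul_of_le_jacobson_bot (IsNoetherian.noetherian P) hjac hle
  intro z hz
  obtain ⟨c, hc⟩ := Ideal.mem_span_singleton'.mp (hP hz)
  exact ⟨c, by rw [← hc]; ring⟩

/-- **(LP2), one-sided.**  In a noetherian local ring with maximal ideal `(x, y)`, a prime ideal
not containing `x` is principal. -/
theorem lpz9_principal_of_not_mem {A : Type*} [CommRing A] [IsNoetherianRing A] [IsLocalRing A]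
    (x y : A) (hm : IsLocalRing.maximalIdeal A = Ideal.span {x, y})
    (P : Ideal A) (hP : P.IsPrime) (hx : x ∉ P) :
    ∃ g : A, g ∈ P ∧ ∀ z ∈ P, ∃ c : A, z = g * c := by
  classical
  have hxm : x ∈ IsLocalRing.maximalIdeal A := by
    rw [hm]; exact Ideal.subset_span (by simp)
  have hym : y ∈ IsLocalRing.maximalIdeal A := by
    rw [hm]; exact Ideal.subset_span (by simp)
  have hdiv : ∀ b : A, x * b ∈ P → b ∈ P := fun b hb => (hP.mem_or_mem hb).resolve_left hx
  by_cases hcase : ∀ z ∈ P, ∃ c : A, z = x * c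
  · -- `P = x P`, hence `P = 0`
    refine ⟨0, P.zero_mem, ?_⟩
    apply lpz9_nakayama x 0 hxm P
    intro z hz
    obtain ⟨c, hc⟩ := hcase z hz
    exact ⟨0, c, hdiv c (hc ▸ hz), by rw [hc]; ring⟩
  · obtain ⟨z₀, hz₀'⟩ := not_forall.mp hcase
    obtain ⟨hz₀P, hz₀⟩ := Classical.not_imp.mp hz₀'
    have hex : ∃ k : ℕ, ∃ z ∈ P, ¬ ∃ b c : A, z = x * b + y ^ (k + 1) * c := by
      by_contra hall
      apply hz₀
      apply lpz9_krull x y hym z₀
      intro k
      cases k with
      | zero => exact ⟨0, z₀, by ring⟩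
      | succ k =>
        by_contra hno
        exact hall ⟨k, z₀, hz₀P, hno⟩
    have hspec := Nat.find_spec hex
    have hmin := fun k (hk : k < Nat.find hex) => Nat.find_min hex hk
    set d := Nat.find hex with hd
    obtain ⟨g, hgP, hg⟩ := hspec
    have hall : ∀ z ∈ P, ∃ b c : A, z = x * b + y ^ d * c := by
      intro z hz
      rcases Nat.eq_zero_or_pos d with h0 | hpos
      · exact ⟨0, z, by rw [h0]; ring⟩
      · have hlt : d - 1 < d := Nat.sub_lt hpos Nat.one_pos
        have h1 := hmin (d - 1) hlt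
        by_contra hno
        apply h1
        refine ⟨z, hz, ?_⟩
        rw [Nat.sub_add_cancel hpos]
        exact hno
    obtain ⟨a, u, hgau⟩ := hall g hgP
    have hu : IsUnit u := by
      by_contra hnu
      have humem : u ∈ IsLocalRing.maximalIdeal A := (IsLocalRing.mem_maximalIdeal _).mpr hnu
      rw [hm] at humem
      obtain ⟨a', b', hab⟩ := Ideal.mem_span_pair.mp humem
      apply hg
      exact ⟨a + y ^ d * a', b', by rw [hgau, ← hab]; ring⟩
    obtain ⟨u', hu'⟩ := isUnit_iff_exists_inv.mp hu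
    refine ⟨g, hgP, ?_⟩
    apply lpz9_nakayama x g hxm P
    intro z hz
    obtain ⟨a₁, u₁, hz1⟩ := hall z hz
    have hkey : x * (a₁ - u₁ * u' * a) = z - g * (u₁ * u') := by
      rw [hz1, hgau]
      linear_combination (y ^ d * u₁) * hu'
    have hw : a₁ - u₁ * u' * a ∈ P := by
      apply hdiv
      rw [hkey]
      exact P.sub_mem hz (P.mul_mem_right _ hgP)
    exact ⟨u₁ * u', a₁ - u₁ * u' * a, hw, by rw [hkey]; ring⟩

/-- **(LP2).**  In a noetherian local ring with a 2-generated maximal ideal, every prime ideal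
different from the maximal ideal is principal. -/
theorem lpz9_principal {A : Type*} [CommRing A] [IsNoetherianRing A] [IsLocalRing A]
    (x y : A) (hm : IsLocalRing.maximalIdeal A = Ideal.span {x, y})
    (P : Ideal A) (hP : P.IsPrime) (hne : ∃ t ∈ IsLocalRing.maximalIdeal A, t ∉ P) :
    ∃ g : A, g ∈ P ∧ ∀ z ∈ P, ∃ c : A, z = g * c := by
  by_cases hx : x ∈ P
  · by_cases hy : y ∈ P
    · exfalso
      obtain ⟨t, ht, htP⟩ := hne
      apply htP
      rw [hm] at ht
      obtain ⟨a, b, hab⟩ := Ideal.mem_span_pair.mp ht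
      rw [← hab]
      exact P.add_mem (P.mul_mem_left _ hx) (P.mul_mem_left _ hy)
    · exact lpz9_principal_of_not_mem y x (by rw [hm, Ideal.span_pair_comm]) P hP hy
  · exact lpz9_principal_of_not_mem x y hm P hP hx

end Alg

section Point

open IsLocalRing

variable {R F : Type*} [CommRing R] [Field F] [Algebra R F]

/-- **Unique zero at a 2-generated point** (subring form): every horizontal valuation ring `O`
through `n` has a uniformiser which is a unit of every other horizontal valuation ring through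
`n`.  No rationality hypothesis. -/
theorem lpz9_point (π : R) (hπ0 : algebraMap R F π ≠ 0) (B : Subring F) [IsNoetherianRing B]
    (hRB : ∀ r : R, algebraMap R F r ∈ B)
    (hfrac : ∀ t : F, ∃ a ∈ B, ∃ b ∈ B, b ≠ 0 ∧ t * b = a)
    (n : Ideal B) [hn : n.IsPrime] (hπn : (⟨algebraMap R F π, hRB π⟩ : B) ∈ n)
    (x y : B) (hx : x ∈ n) (hy : y ∈ n)
    (hgen : ∀ v ∈ n, ∃ s : B, s ∉ n ∧ ∃ a b : B,
      (s : F) * (v : F) = (a : F) * x + (b : F) * y)
    (O : ValuationSubring F) (hO : O ≠ ⊤) (hPIR : IsPrincipalIdealRing O)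
    (hπO : (algebraMap R F π)⁻¹ ∈ O)
    (hBO : ∀ t ∈ B, t ∈ O) (hthr : ∀ t : B, t ∉ n → (t : F)⁻¹ ∈ O) :
    ∃ g : F, g ≠ 0 ∧ g ∈ O ∧ g⁻¹ ∉ O ∧ (∀ t ∈ O, t⁻¹ ∉ O → t * g⁻¹ ∈ O) ∧
      ∀ O' : ValuationSubring F, (∀ t ∈ B, t ∈ O') → (∀ t : B, t ∉ n → (t : F)⁻¹ ∈ O') →
        (algebraMap R F π)⁻¹ ∈ O' → O' ≠ O → g ∈ O' ∧ g⁻¹ ∈ O' := by
  classical
  have : IsPrincipalIdealRing O := hPIR
  have : IsNoetherianRing (lp7_loc B n) := lp7_loc_isNoetherianRing B n
  have h1n : (1 : B) ∉ n := (Ideal.ne_top_iff_one n).mp hn.ne_top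
  -- `B_n ⊆ O'` for every valuation subring through `n`
  have hDle : ∀ O' : ValuationSubring F, (∀ t ∈ B, t ∈ O') → (∀ t : B, t ∉ n → (t : F)⁻¹ ∈ O') →
      ∀ t : lp7_loc B n, (t : F) ∈ O' := by
    intro O' h1 h2 t
    obtain ⟨s, hs, hst⟩ := t.2
    have hs0 := lp7_ne_zero_of_not_mem B n s hs
    have : (t : F) = (s : F)⁻¹ * ((s : F) * t) := by field_simp
    rw [this]; exact O'.mul_mem _ _ (h2 s hs) (h1 _ hst)
  -- inclusions
  let ι : B →+* lp7_loc B n := Subring.inclusion (fun t ht => lp7_le_loc B n t ht)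
  have hι : ∀ b : B, ((ι b : lp7_loc B n) : F) = b := fun _ => rfl
  have hιmax : ∀ b : B, b ∈ n → ι b ∈ maximalIdeal (lp7_loc B n) := by
    intro b hb
    rw [uz37_mem_max_iff]
    exact ⟨1, h1n, b, hb, by simp [hι]⟩
  set πB : B := ⟨algebraMap R F π, hRB π⟩ with hπB
  have hπmax : ι πB ∈ maximalIdeal (lp7_loc B n) := hιmax _ hπn
  have hmax : maximalIdeal (lp7_loc B n) = Ideal.span {ι x, ι y} := by
    apply le_antisymm
    · intro t ht
      obtain ⟨s, hs, v, hv, hsv⟩ := (uz37_mem_max_iff B n t).mp ht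
      obtain ⟨s₁, hs₁, a, b, hab⟩ := hgen v hv
      have hss : s₁ * s ∉ n := fun h => (hn.mem_or_mem h).elim hs₁ hs
      have hs0 := lp7_ne_zero_of_not_mem B n s hs
      have hs₁0 := lp7_ne_zero_of_not_mem B n s₁ hs₁
      have ht' : t = (⟨((s₁ * s : B) : F)⁻¹, lp7_inv_mem_loc B n _ hss⟩ : lp7_loc B n) *
          (ι a * ι x + ι b * ι y) := by
        apply Subtype.ext
        show (t : F) = ((s₁ * s : B) : F)⁻¹ * ((a : F) * (x : F) + (b : F) * (y : F))
        rw [← hab, ← hsv]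
        push_cast
        field_simp
      rw [ht']
      refine Ideal.mul_mem_left _ _ (Ideal.add_mem _ ?_ ?_)
      · exact Ideal.mul_mem_left _ _ (Ideal.subset_span (by simp))
      · exact Ideal.mul_mem_left _ _ (Ideal.subset_span (by simp))
    · rw [Ideal.span_le]
      rintro t (rfl | rfl)
      · exact hιmax _ hx
      · exact hιmax _ hy
  -- the centre of a horizontal valuation ring through `n` is principal
  have hcen : ∀ (O' : ValuationSubring F) (_ : ∀ t : lp7_loc B n, (t : F) ∈ O'),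
      (algebraMap R F π)⁻¹ ∈ O' →
      ∃ g : lp7_loc B n, O'.valuation (g : F) < 1 ∧
        ∀ t : lp7_loc B n, O'.valuation (t : F) < 1 → ∃ c : lp7_loc B n, t = g * c := by
    intro O' hD' hπO'
    let ιO' : lp7_loc B n →+* O' := Subring.inclusion (fun t ht => hD' ⟨t, ht⟩)
    have hq : ((maximalIdeal O').comap ιO').IsPrime := Ideal.comap_isPrime ιO' _
    have hmemq : ∀ t : lp7_loc B n,
        t ∈ (maximalIdeal O').comap ιO' ↔ O'.valuation (t : F) < 1 := by
      intro t
      rw [Ideal.mem_comap, ValuationSubring.valuation_lt_one_iff]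
      rfl
    have hπq : ι πB ∉ (maximalIdeal O').comap ιO' := by
      rw [hmemq]
      have h1 : O'.valuation (algebraMap R F π) = 1 :=
        uz37_val_eq_one O' _ (hD' (ι πB)) hπO' hπ0
      show ¬ O'.valuation (algebraMap R F π) < 1
      rw [h1]; exact lt_irrefl _
    obtain ⟨g, hg, hgen'⟩ := lpz9_principal (ι x) (ι y) hmax _ hq ⟨ι πB, hπmax, hπq⟩
    exact ⟨g, (hmemq g).mp hg, fun t ht => hgen' t ((hmemq t).mpr ht)⟩
  have hDO := hDle O hBO hthr
  obtain ⟨g, hgv, hgenq⟩ := hcen O hDO hπO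
  -- `g ≠ 0`
  have hg0 : (g : F) ≠ 0 := by
    intro h0
    obtain ⟨w, hw⟩ : ∃ w : F, w ∉ O := by
      by_contra hall
      apply hO
      rw [eq_top_iff]
      intro t _
      by_contra ht
      exact hall ⟨t, ht⟩
    have hw2 := (uz37_inv_not_mem_iff O w⁻¹).mp (by rw [inv_inv]; exact hw)
    obtain ⟨a, ha, b, hb, hb0, hab⟩ := hfrac w⁻¹
    have hva : O.valuation a < 1 := by
      rw [← hab, map_mul]
      exact lt_of_le_of_lt (mul_le_of_le_one_right'
        ((O.valuation_le_one_iff _).mpr (hBO b hb))) hw2.2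
    obtain ⟨c, hc⟩ := hgenq (ι ⟨a, ha⟩) hva
    have hcF : a = (g : F) * (c : F) := congrArg Subtype.val hc
    rw [h0, zero_mul] at hcF
    rw [hcF] at hab
    exact (mul_eq_zero.mp hab).elim hw2.1 hb0
  have hginv : (g : F)⁻¹ ∉ O := (uz37_inv_not_mem_iff O _).mpr ⟨hg0, hgv⟩
  have hfracD : ∀ t : F, ∃ a ∈ lp7_loc B n, ∃ b ∈ lp7_loc B n, b ≠ 0 ∧ t * b = a := by
    intro t
    obtain ⟨a, ha, b, hb, hb0, hab⟩ := hfrac t
    exact ⟨a, lp7_le_loc B n a ha, b, lp7_le_loc B n b hb, hb0, hab⟩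
  have hDO' : ∀ t ∈ lp7_loc B n, t ∈ O := fun t ht => hDO ⟨t, ht⟩
  have hgenO : ∀ t ∈ lp7_loc B n, t ≠ 0 → t⁻¹ ∉ O → ∃ c ∈ lp7_loc B n, t = (g : F) * c := by
    intro t ht _ htinv
    obtain ⟨c, hc⟩ := hgenq ⟨t, ht⟩ ((uz37_inv_not_mem_iff O _).mp htinv).2
    exact ⟨c, c.2, congrArg Subtype.val hc⟩
  refine ⟨(g : F), hg0, hDO g, hginv, ?_, ?_⟩
  · intro t ht htinv
    exact slp9_unif (lp7_loc B n) O hPIR hDO' hfracD (g : F) hg0 g.2 hginv hgenO t ht htinv
  · intro O' hBO' hthr' hπO' hne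
    have hDOO' := hDle O' hBO' hthr'
    refine ⟨hDOO' g, ?_⟩
    by_contra hg'
    apply hne
    obtain ⟨g', hg'v, hgenq'⟩ := hcen O' hDOO' hπO'
    have hgv' : O'.valuation (g : F) < 1 := ((uz37_inv_not_mem_iff O' _).mp hg').2
    obtain ⟨d, hd⟩ := hgenq' g hgv'
    have hdF : (g : F) = (g' : F) * (d : F) := congrArg Subtype.val hd
    -- `g'` is a non-unit of `O`
    have hg'O : O.valuation (g' : F) < 1 := by
      by_contra hnot
      have hval1 : O.valuation (g' : F) = 1 :=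
        le_antisymm ((O.valuation_le_one_iff _).mpr (hDO g')) (not_lt.mp hnot)
      have hdv : O.valuation (d : F) < 1 := by
        have : O.valuation (g : F) = O.valuation (g' : F) * O.valuation (d : F) := by
          rw [hdF, map_mul]
        rw [hval1, one_mul] at this
        rw [← this]; exact hgv
      obtain ⟨e, he⟩ := hgenq d hdv
      have heF : (d : F) = (g : F) * (e : F) := congrArg Subtype.val he
      have h1 : (g' : F) * (e : F) = 1 := by
        have h2 : (g : F) * ((g' : F) * (e : F)) = (g : F) * 1 := by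
          rw [mul_one]
          calc (g : F) * ((g' : F) * (e : F)) = (g' : F) * ((g : F) * (e : F)) := by ring
            _ = (g' : F) * (d : F) := by rw [← heF]
            _ = (g : F) := hdF.symm
        exact mul_left_cancel₀ hg0 h2
      have h3 : O'.valuation ((g' : F) * (e : F)) < 1 := by
        rw [map_mul]
        exact lt_of_le_of_lt (mul_le_of_le_one_right'
          ((O'.valuation_le_one_iff _).mpr (hDOO' e))) hg'v
      rw [h1, map_one] at h3
      exact lt_irrefl _ h3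
    refine slp9_eq_of_center (lp7_loc B n) O hPIR hDO' hfracD (g : F) hg0 g.2 hginv hgenO O'
      (fun t ht => hDOO' ⟨t, ht⟩) ?_ hg'
    intro t ht ht0 htinv
    obtain ⟨c, hc⟩ := hgenq' ⟨t, ht⟩ ((uz37_inv_not_mem_iff O' _).mp htinv).2
    have hcF : t = (g' : F) * (c : F) := congrArg Subtype.val hc
    rw [uz37_inv_not_mem_iff]
    refine ⟨ht0, ?_⟩
    rw [hcF, map_mul]
    exact lt_of_le_of_lt (mul_le_of_le_one_right'
      ((O.valuation_le_one_iff _).mpr (hDO c))) hg'O

/-- **Unique zero at a 2-generated point**, in the language of the frame (`Iface47`), for ALL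
horizontal valuation rings through `n` (rational or not). -/
theorem lpz9_UZ_at (π : R) (hπ0 : algebraMap R F π ≠ 0) (B : Subalgebra R F)
    [hN : IsNoetherianRing B]
    (hfrac : ∀ t : F, ∃ a ∈ B, ∃ b ∈ B, b ≠ 0 ∧ t * b = a)
    (n : Ideal B) (hn : n.IsMaximal) (hπn : algebraMap R B π ∈ n)
    (h2 : ∃ x y : B, x ∈ n ∧ y ∈ n ∧
      ∀ v ∈ n, ∃ s : B, s ∉ n ∧ ∃ a b : B, s * v = a * x + b * y)
    (O : ValuationSubring F) (hO : s34i47_IsHoriz π O) (hOn : s34i47_Through B n O) :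
    ∃ p : F, p ≠ 0 ∧ p ∈ O ∧ p⁻¹ ∉ O ∧ (∀ t ∈ O, t⁻¹ ∉ O → t * p⁻¹ ∈ O) ∧
      ∀ O' : ValuationSubring F, s34i47_IsHoriz π O' → s34i47_Through B n O' → O' ≠ O →
        p ∈ O' ∧ p⁻¹ ∈ O' := by
  obtain ⟨x, y, hx, hy, hgen⟩ := h2
  obtain ⟨hOtop, hPIR, -, hπO⟩ := hO
  obtain ⟨hBO, hthr⟩ := hOn
  have hnp : (show Ideal B.toSubring from n).IsPrime := hn.isPrime
  have hgen' : ∀ v ∈ n, ∃ s : B, s ∉ n ∧ ∃ a b : B,
      (s : F) * (v : F) = (a : F) * x + (b : F) * y := by
    intro v hv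
    obtain ⟨s, hs, a, b, h⟩ := hgen v hv
    exact ⟨s, hs, a, b, congrArg Subtype.val h⟩
  obtain ⟨g, hg0, hgO, hginv, hunif, hother⟩ :=
    @lpz9_point R F _ _ _ π hπ0 B.toSubring hN (fun r => B.algebraMap_mem r) hfrac
      n hnp hπn x y hx hy hgen' O hOtop hPIR hπO hBO hthr
  exact ⟨g, hg0, hgO, hginv, hunif,
    fun O' hO' hthrO' hne => hother O' hthrO'.1 hthrO'.2 hO'.2.2.2 hne⟩

/-- **(LP) at a 2-generated point**: the per-point clause of `s34i47_LocPrin`, from
`n B_n = (x, y)`, `m ∣ ord_O f` at every horizontal `O`, and finiteness of the zeros and poles of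
`f`.  No rationality, no unique-zero hypothesis. -/
theorem lpz9_locPrin_at (π : R) (hπ0 : algebraMap R F π ≠ 0) (B : Subalgebra R F)
    [IsNoetherianRing B]
    (hfrac : ∀ t : F, ∃ a ∈ B, ∃ b ∈ B, b ≠ 0 ∧ t * b = a)
    (n : Ideal B) (hn : n.IsMaximal) (hπn : algebraMap R B π ∈ n)
    (h2 : ∃ x y : B, x ∈ n ∧ y ∈ n ∧
      ∀ v ∈ n, ∃ s : B, s ∉ n ∧ ∃ a b : B, s * v = a * x + b * y)
    (m : ℕ) (hm : 0 < m) (f : F) (hf : f ≠ 0)
    (hOrd : s34i47_Ord π m f) (hFin : s34i47_Fin π f) :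
    ∃ c : F, c ≠ 0 ∧ ∀ O : ValuationSubring F, s34i47_IsHoriz π O → s34i47_Through B n O →
      f / c ^ m ∈ O ∧ c ^ m / f ∈ O := by
  classical
  have hfin : {O : ValuationSubring F | s34i47_IsHoriz π O ∧ s34i47_Through B n O ∧
      ¬ (f ∈ O ∧ f⁻¹ ∈ O)}.Finite :=
    hFin.subset fun O hO => ⟨hO.1, hO.2.2⟩
  set T : Finset (ValuationSubring F) := hfin.toFinset with hT
  have hmemT : ∀ O : ValuationSubring F, O ∈ T ↔
      s34i47_IsHoriz π O ∧ s34i47_Through B n O ∧ ¬ (f ∈ O ∧ f⁻¹ ∈ O) := by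
    intro O
    rw [hT, Set.Finite.mem_toFinset]
    rfl
  have hex : ∀ O ∈ T, ∃ g : F, g ≠ 0 ∧ lp9_IsU O (f / g ^ m) ∧
      ∀ O' : ValuationSubring F, s34i47_IsHoriz π O' → s34i47_Through B n O' → O' ≠ O →
        lp9_IsU O' g := by
    intro O hO
    rw [hmemT] at hO
    obtain ⟨p, hp0, hpO, hpinv, hgen, hother⟩ :=
      lpz9_UZ_at π hπ0 B hfrac n hn hπn h2 O hO.1 hO.2.1
    obtain ⟨ε, w, hε, hεinv, hfw⟩ := hOrd O hO.1
    have hw : w ≠ 0 := by
      rintro rfl
      apply hf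
      rw [hfw, zero_pow (by omega), mul_zero]
    obtain ⟨k, hk⟩ := lp9_exists_zpow O hO.1.2.1 p hp0 hpO hpinv hgen w hw
    refine ⟨p ^ k, zpow_ne_zero k hp0, ?_, ?_⟩
    · have he : f / (p ^ k) ^ m = ε * (w / p ^ k) ^ m := by
        rw [hfw, div_pow, mul_div_assoc]
      rw [he]
      exact lp9_IsU_mul ⟨hε, hεinv⟩ (lp9_IsU_pow hk m)
    · intro O' hO' hOn' hne
      exact lp9_IsU_zpow (hother O' hO' hOn' hne) k
  choose! g hg0 hgU hgother using hex
  refine ⟨∏ O ∈ T, g O, Finset.prod_ne_zero_iff.mpr hg0, ?_⟩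
  intro O hO hOn
  have key : lp9_IsU O (f / (∏ O' ∈ T, g O') ^ m) := by
    by_cases hOT : O ∈ T
    · have hsplit : ∏ O' ∈ T, g O' = g O * ∏ O' ∈ T.erase O, g O' :=
        (Finset.mul_prod_erase T g hOT).symm
      have hrest : lp9_IsU O (∏ O' ∈ T.erase O, g O') := by
        apply lp9_IsU_prod
        intro O' hO'
        have h := Finset.mem_erase.mp hO'
        exact hgother O' h.2 O hO hOn (Ne.symm h.1)
      have he : f / (∏ O' ∈ T, g O') ^ m =
          (f / g O ^ m) * ((∏ O' ∈ T.erase O, g O') ^ m)⁻¹ := by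
        rw [hsplit, mul_pow, div_mul_eq_div_div, div_eq_mul_inv (f / g O ^ m)]
      rw [he]
      exact lp9_IsU_mul (hgU O hOT) (lp9_IsU_inv (lp9_IsU_pow hrest m))
    · have hfU : lp9_IsU O f := by
        by_contra h
        exact hOT ((hmemT O).mpr ⟨hO, hOn, h⟩)
      have hcU : lp9_IsU O (∏ O' ∈ T, g O') := by
        apply lp9_IsU_prod
        intro O' hO'
        exact hgother O' hO' O hO hOn (by rintro rfl; exact hOT hO')
      rw [div_eq_mul_inv]
      exact lp9_IsU_mul hfU (lp9_IsU_inv (lp9_IsU_pow hcU m))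
  refine ⟨key.1, ?_⟩
  have h2' := key.2
  rwa [inv_div] at h2'

/-- **(LP) for a chart all of whose closed points of the special fibre are 2-generated**:
the literal `s34i47_LocPrin π m B f`. -/
theorem lpz9_locPrin (π : R) (hπ0 : algebraMap R F π ≠ 0) (B : Subalgebra R F)
    [IsNoetherianRing B]
    (hfrac : ∀ t : F, ∃ a ∈ B, ∃ b ∈ B, b ≠ 0 ∧ t * b = a)
    (h2 : ∀ n : Ideal B, n.IsMaximal → algebraMap R B π ∈ n →
      ∃ x y : B, x ∈ n ∧ y ∈ n ∧
        ∀ v ∈ n, ∃ s : B, s ∉ n ∧ ∃ a b : B, s * v = a * x + b * y)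
    (m : ℕ) (hm : 0 < m) (f : F) (hf : f ≠ 0)
    (hOrd : s34i47_Ord π m f) (hFin : s34i47_Fin π f) :
    s34i47_LocPrin π m B f :=
  fun n hn hπn => lpz9_locPrin_at π hπ0 B hfrac n hn hπn (h2 n hn hπn) m hm f hf hOrd hFin

end Point

end Fermat.Agent.S36
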