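import Mathlib
import Fermat.Agent.S34.Iface47
import Fermat.Agent.S34.UniqueZero37
import Fermat.Agent.S34.LocPrin9
import Fermat.Agent.S34.SpecFibre79
import Fermat.Agent.S35.SemiLocalLP9
import Fermat.Agent.S36.LocPrinTwoGen9

/-!
# S36 (helper9): the STRONG form of `(LP)` at a closed point

`s34i47_LocPrin` only says that `u / c ^ m` is a unit of every HORIZONTAL valuation ring through
the closed point `n`.  The local datum at `n` needs more: `u / c ^ m` is a unit of the local ring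
`B_n`, and `c` is a unit of every vertical valuation ring through `n`.  This file proves that, for
a chart `B` with a FINITE FAMILY `V : ι → ValuationSubring F` of vertical valuation rings (thick
ones allowed), from

* two generators of `n B_n` (the clause of `tl71_TwoGen` at `n`),
* the Krull clause at `n` (the clause of `s34i47_Krull` at `n`),
* global saturation: `x ∈ B`, `π⁻¹ x ∈ V i` for all `i` `⟹` `π⁻¹ x ∈ B`,
* `hrad`: a non-unit `x` of `V i` has `π⁻¹ x ^ k ∈ V i` for some `k`,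
* separation at `n`: for `i ≠ j` both through `n` there is `E ∈ B`, `E ≠ 0`, with
  `π⁻¹ E ∈ V j` and `E⁻¹ ∈ V i`.

Main statements: `lps9_vert_unit` (the generator `g` of the centre of a horizontal `O` through `n`
is a unit of every vertical `V i` through `n`), `lps9_mem_loc` (Krull + saturation at a closed
point: a function regular along every horizontal `O` through `n` and along every `V i` through `n`
lies in `B_n`), `lps9_strong_at` (the strong `(LP)` at `n`).
-/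

set_option autoImplicit false

namespace Fermat.Agent.S36

open Fermat.Agent.S34 Fermat.Agent.S18 Fermat.Agent.S35

section Desc

variable {F : Type*} [Field F]

/-- The generator `g` of the centre of `O` on `D` is a non-zero-divisor modulo `p`, `p` a unit
of `O`: `a g ^ l ∈ p D ⟹ a ∈ p D`. -/
theorem lps9_desc (p : F) (hp0 : p ≠ 0) (D : Subring F) (O : ValuationSubring F)
    (hDO : ∀ t ∈ D, t ∈ O) (hpO : p⁻¹ ∈ O) (g : F) (hg0 : g ≠ 0) (hgO : g⁻¹ ∉ O)
    (hgen : ∀ t ∈ D, t⁻¹ ∉ O → t * g⁻¹ ∈ D) :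
    ∀ (l : ℕ) (a b : F), a ∈ D → b ∈ D → a * g ^ l = p * b → ∃ b' ∈ D, a = p * b' := by
  intro l
  induction l with
  | zero =>
    intro a b _ hb h
    exact ⟨b, hb, by simpa using h⟩
  | succ l ih =>
    intro a b ha hb h
    have h' : a * g ^ l * g = p * b := by rw [← h, pow_succ]; ring
    by_cases hb0 : b = 0
    · refine ⟨0, D.zero_mem, ?_⟩
      rw [hb0, mul_zero] at h
      rw [mul_zero]
      exact (mul_eq_zero.mp h).resolve_right (pow_ne_zero _ hg0)
    · have hgO' : g ∈ O := (O.mem_or_inv_mem g).resolve_right hgO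
      have hbinv : b⁻¹ ∉ O := by
        intro hb'
        apply hgO
        have e : g⁻¹ = a * g ^ l * p⁻¹ * b⁻¹ := by
          rw [inv_eq_iff_eq_inv]
          have e1 : a * g ^ l * p⁻¹ * b⁻¹ = g⁻¹ := by
            have : a * g ^ l = p * b * g⁻¹ := by
              rw [← h']; field_simp
            rw [this]; field_simp
          rw [e1, inv_inv]
        rw [e]
        exact O.mul_mem _ _ (O.mul_mem _ _ (O.mul_mem _ _ (hDO a ha) (O.pow_mem hgO' l)) hpO) hb'
      refine ih a (b * g⁻¹) ha (hgen b hb hbinv) ?_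
      have : a * g ^ l = p * b * g⁻¹ := by
        rw [← h']; field_simp
      rw [this]; ring

end Desc

section Point

open IsLocalRing

variable {R F : Type*} [CommRing R] [Field F] [Algebra R F]

/-- **Unique zero at a 2-generated point**, strong subring form: the uniformiser `g` of the
horizontal `O` lies in `B_n`, generates the centre of `O` on `B_n`, and is a unit of every other
horizontal valuation ring through `n`. -/
theorem lps9_point (π : R) (hπ0 : algebraMap R F π ≠ 0) (B : Subring F) [IsNoetherianRing B]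
    (hRB : ∀ r : R, algebraMap R F r ∈ B)
    (hfrac : ∀ t : F, ∃ a ∈ B, ∃ b ∈ B, b ≠ 0 ∧ t * b = a)
    (n : Ideal B) [hn : n.IsPrime] (hπn : (⟨algebraMap R F π, hRB π⟩ : B) ∈ n)
    (x y : B) (hx : x ∈ n) (hy : y ∈ n)
    (hgen : ∀ v ∈ n, ∃ s : B, s ∉ n ∧ ∃ a b : B,
      (s : F) * (v : F) = (a : F) * x + (b : F) * y)
    (O : ValuationSubring F) (hO : O ≠ ⊤) (hPIR : IsPrincipalIdealRing O)
    (hπO : (algebraMap R F π)⁻¹ ∈ O)
    (hBO : ∀ t ∈ B, t ∈ O) (hthr : ∀ t : B, t ∉ n → (t : F)⁻¹ ∈ O) :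
    ∃ g : F, g ≠ 0 ∧ g ∈ lp7_loc B n ∧ g ∈ O ∧ g⁻¹ ∉ O ∧ (∀ t ∈ O, t⁻¹ ∉ O → t * g⁻¹ ∈ O) ∧
      (∀ t ∈ lp7_loc B n, t⁻¹ ∉ O → t * g⁻¹ ∈ lp7_loc B n) ∧
      ∀ O' : ValuationSubring F, (∀ t ∈ B, t ∈ O') → (∀ t : B, t ∉ n → (t : F)⁻¹ ∈ O') →
        (algebraMap R F π)⁻¹ ∈ O' → O' ≠ O → g ∈ O' ∧ g⁻¹ ∈ O' := by
  classical
  have : IsPrincipalIdealRing O := hPIR
  have : IsNoetherianRing (lp7_loc B n) := lp7_loc_isNoetherianRing B n
  have h1n : (1 : B) ∉ n := (Ideal.ne_top_iff_one n).mp hn.ne_top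
  -- `B_n ⊆ O'` for every valuation subring through `n`
  have hDle : ∀ O' : ValuationSubring F, (∀ t ∈ B, t ∈ O') → (∀ t : B, t ∉ n → (t : F)⁻¹ ∈ O') →
      ∀ t : lp7_loc B n, (t : F) ∈ O' := by
    intro O' h1 h2 t
    obtain ⟨s, hs, hst⟩ := t.2
    have hs0 := lp7_ne_zero_of_not_mem B n s hs
    have : (t : F) = (s : F)⁻¹ * ((s : F) * t) := by field_simp
    rw [this]; exact O'.mul_mem _ _ (h2 s hs) (h1 _ hst)
  -- inclusions
  let ι : B →+* lp7_loc B n := Subring.inclusion (fun t ht => lp7_le_loc B n t ht)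
  have hι : ∀ b : B, ((ι b : lp7_loc B n) : F) = b := fun _ => rfl
  have hιmax : ∀ b : B, b ∈ n → ι b ∈ maximalIdeal (lp7_loc B n) := by
    intro b hb
    rw [uz37_mem_max_iff]
    exact ⟨1, h1n, b, hb, by simp [hι]⟩
  set πB : B := ⟨algebraMap R F π, hRB π⟩ with hπB
  have hπmax : ι πB ∈ maximalIdeal (lp7_loc B n) := hιmax _ hπn
  have hmax : maximalIdeal (lp7_loc B n) = Ideal.span {ι x, ι y} := by
    apply le_antisymm
    · intro t ht
      obtain ⟨s, hs, v, hv, hsv⟩ := (uz37_mem_max_iff B n t).mp ht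
      obtain ⟨s₁, hs₁, a, b, hab⟩ := hgen v hv
      have hss : s₁ * s ∉ n := fun h => (hn.mem_or_mem h).elim hs₁ hs
      have hs0 := lp7_ne_zero_of_not_mem B n s hs
      have hs₁0 := lp7_ne_zero_of_not_mem B n s₁ hs₁
      have ht' : t = (⟨((s₁ * s : B) : F)⁻¹, lp7_inv_mem_loc B n _ hss⟩ : lp7_loc B n) *
          (ι a * ι x + ι b * ι y) := by
        apply Subtype.ext
        show (t : F) = ((s₁ * s : B) : F)⁻¹ * ((a : F) * (x : F) + (b : F) * (y : F))
        rw [← hab, ← hsv]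
        push_cast
        field_simp
      rw [ht']
      refine Ideal.mul_mem_left _ _ (Ideal.add_mem _ ?_ ?_)
      · exact Ideal.mul_mem_left _ _ (Ideal.subset_span (by simp))
      · exact Ideal.mul_mem_left _ _ (Ideal.subset_span (by simp))
    · rw [Ideal.span_le]
      rintro t (rfl | rfl)
      · exact hιmax _ hx
      · exact hιmax _ hy
  -- the centre of a horizontal valuation ring through `n` is principal
  have hcen : ∀ (O' : ValuationSubring F) (_ : ∀ t : lp7_loc B n, (t : F) ∈ O'),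
      (algebraMap R F π)⁻¹ ∈ O' →
      ∃ g : lp7_loc B n, O'.valuation (g : F) < 1 ∧
        ∀ t : lp7_loc B n, O'.valuation (t : F) < 1 → ∃ c : lp7_loc B n, t = g * c := by
    intro O' hD' hπO'
    let ιO' : lp7_loc B n →+* O' := Subring.inclusion (fun t ht => hD' ⟨t, ht⟩)
    have hq : ((maximalIdeal O').comap ιO').IsPrime := Ideal.comap_isPrime ιO' _
    have hmemq : ∀ t : lp7_loc B n,
        t ∈ (maximalIdeal O').comap ιO' ↔ O'.valuation (t : F) < 1 := by
      intro t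
      rw [Ideal.mem_comap, ValuationSubring.valuation_lt_one_iff]
      rfl
    have hπq : ι πB ∉ (maximalIdeal O').comap ιO' := by
      rw [hmemq]
      have h1 : O'.valuation (algebraMap R F π) = 1 :=
        uz37_val_eq_one O' _ (hD' (ι πB)) hπO' hπ0
      show ¬ O'.valuation (algebraMap R F π) < 1
      rw [h1]; exact lt_irrefl _
    obtain ⟨g, hg, hgen'⟩ := lpz9_principal (ι x) (ι y) hmax _ hq ⟨ι πB, hπmax, hπq⟩
    exact ⟨g, (hmemq g).mp hg, fun t ht => hgen' t ((hmemq t).mpr ht)⟩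
  have hDO := hDle O hBO hthr
  obtain ⟨g, hgv, hgenq⟩ := hcen O hDO hπO
  -- `g ≠ 0`
  have hg0 : (g : F) ≠ 0 := by
    intro h0
    obtain ⟨w, hw⟩ : ∃ w : F, w ∉ O := by
      by_contra hall
      apply hO
      rw [eq_top_iff]
      intro t _
      by_contra ht
      exact hall ⟨t, ht⟩
    have hw2 := (uz37_inv_not_mem_iff O w⁻¹).mp (by rw [inv_inv]; exact hw)
    obtain ⟨a, ha, b, hb, hb0, hab⟩ := hfrac w⁻¹
    have hva : O.valuation a < 1 := by
      rw [← hab, map_mul]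
      exact lt_of_le_of_lt (mul_le_of_le_one_right'
        ((O.valuation_le_one_iff _).mpr (hBO b hb))) hw2.2
    obtain ⟨c, hc⟩ := hgenq (ι ⟨a, ha⟩) hva
    have hcF : a = (g : F) * (c : F) := congrArg Subtype.val hc
    rw [h0, zero_mul] at hcF
    rw [hcF] at hab
    exact (mul_eq_zero.mp hab).elim hw2.1 hb0
  have hginv : (g : F)⁻¹ ∉ O := (uz37_inv_not_mem_iff O _).mpr ⟨hg0, hgv⟩
  have hfracD : ∀ t : F, ∃ a ∈ lp7_loc B n, ∃ b ∈ lp7_loc B n, b ≠ 0 ∧ t * b = a := by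
    intro t
    obtain ⟨a, ha, b, hb, hb0, hab⟩ := hfrac t
    exact ⟨a, lp7_le_loc B n a ha, b, lp7_le_loc B n b hb, hb0, hab⟩
  have hDO' : ∀ t ∈ lp7_loc B n, t ∈ O := fun t ht => hDO ⟨t, ht⟩
  have hgenO : ∀ t ∈ lp7_loc B n, t ≠ 0 → t⁻¹ ∉ O → ∃ c ∈ lp7_loc B n, t = (g : F) * c := by
    intro t ht _ htinv
    obtain ⟨c, hc⟩ := hgenq ⟨t, ht⟩ ((uz37_inv_not_mem_iff O _).mp htinv).2
    exact ⟨c, c.2, congrArg Subtype.val hc⟩
  refine ⟨(g : F), hg0, g.2, hDO g, hginv, ?_, ?_, ?_⟩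
  · intro t ht htinv
    exact slp9_unif (lp7_loc B n) O hPIR hDO' hfracD (g : F) hg0 g.2 hginv hgenO t ht htinv
  · intro t ht htinv
    obtain ⟨c, hc, htc⟩ :=
      hgenO t ht ((uz37_inv_not_mem_iff O _).mp htinv).1 htinv
    have : t * (g : F)⁻¹ = c := by rw [htc]; field_simp
    rw [this]; exact hc
  · intro O' hBO' hthr' hπO' hne
    have hDOO' := hDle O' hBO' hthr'
    refine ⟨hDOO' g, ?_⟩
    by_contra hg'
    apply hne
    obtain ⟨g', hg'v, hgenq'⟩ := hcen O' hDOO' hπO'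
    have hgv' : O'.valuation (g : F) < 1 := ((uz37_inv_not_mem_iff O' _).mp hg').2
    obtain ⟨d, hd⟩ := hgenq' g hgv'
    have hdF : (g : F) = (g' : F) * (d : F) := congrArg Subtype.val hd
    -- `g'` is a non-unit of `O`
    have hg'O : O.valuation (g' : F) < 1 := by
      by_contra hnot
      have hval1 : O.valuation (g' : F) = 1 :=
        le_antisymm ((O.valuation_le_one_iff _).mpr (hDO g')) (not_lt.mp hnot)
      have hdv : O.valuation (d : F) < 1 := by
        have : O.valuation (g : F) = O.valuation (g' : F) * O.valuation (d : F) := by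
          rw [hdF, map_mul]
        rw [hval1, one_mul] at this
        rw [← this]; exact hgv
      obtain ⟨e, he⟩ := hgenq d hdv
      have heF : (d : F) = (g : F) * (e : F) := congrArg Subtype.val he
      have h1 : (g' : F) * (e : F) = 1 := by
        have h2 : (g : F) * ((g' : F) * (e : F)) = (g : F) * 1 := by
          rw [mul_one]
          calc (g : F) * ((g' : F) * (e : F)) = (g' : F) * ((g : F) * (e : F)) := by ring
            _ = (g' : F) * (d : F) := by rw [← heF]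
            _ = (g : F) := hdF.symm
        exact mul_left_cancel₀ hg0 h2
      have h3 : O'.valuation ((g' : F) * (e : F)) < 1 := by
        rw [map_mul]
        exact lt_of_le_of_lt (mul_le_of_le_one_right'
          ((O'.valuation_le_one_iff _).mpr (hDOO' e))) hg'v
      rw [h1, map_one] at h3
      exact lt_irrefl _ h3
    refine slp9_eq_of_center (lp7_loc B n) O hPIR hDO' hfracD (g : F) hg0 g.2 hginv hgenO O'
      (fun t ht => hDOO' ⟨t, ht⟩) ?_ hg'
    intro t ht ht0 htinv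
    obtain ⟨c, hc⟩ := hgenq' ⟨t, ht⟩ ((uz37_inv_not_mem_iff O' _).mp htinv).2
    have hcF : t = (g' : F) * (c : F) := congrArg Subtype.val hc
    rw [uz37_inv_not_mem_iff]
    refine ⟨ht0, ?_⟩
    rw [hcF, map_mul]
    exact lt_of_le_of_lt (mul_le_of_le_one_right'
      ((O.valuation_le_one_iff _).mpr (hDO c))) hg'O

/-- **Unique zero at a 2-generated point**, strong form in the language of the frame: the
uniformiser `p` of the horizontal `O` through `n` lies in `B_n`, divides in `B_n` every element of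
`B_n` which is a non-unit of `O`, and is a unit of every other horizontal `O'` through `n`. -/
theorem lps9_UZ_at (π : R) (hπ0 : algebraMap R F π ≠ 0) (B : Subalgebra R F)
    [hN : IsNoetherianRing B]
    (hfrac : ∀ t : F, ∃ a ∈ B, ∃ b ∈ B, b ≠ 0 ∧ t * b = a)
    (n : Ideal B) (hn : n.IsMaximal) (hπn : algebraMap R B π ∈ n)
    (h2 : ∃ x y : B, x ∈ n ∧ y ∈ n ∧
      ∀ v ∈ n, ∃ s : B, s ∉ n ∧ ∃ a b : B, s * v = a * x + b * y)
    (O : ValuationSubring F) (hO : s34i47_IsHoriz π O) (hOn : s34i47_Through B n O) :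
    ∃ p : F, p ≠ 0 ∧ (∃ s : B, s ∉ n ∧ (s : F) * p ∈ B) ∧ p ∈ O ∧ p⁻¹ ∉ O ∧
      (∀ t ∈ O, t⁻¹ ∉ O → t * p⁻¹ ∈ O) ∧
      (∀ t : F, (∃ s : B, s ∉ n ∧ (s : F) * t ∈ B) → t⁻¹ ∉ O →
        ∃ s : B, s ∉ n ∧ (s : F) * (t * p⁻¹) ∈ B) ∧
      ∀ O' : ValuationSubring F, s34i47_IsHoriz π O' → s34i47_Through B n O' → O' ≠ O →
        p ∈ O' ∧ p⁻¹ ∈ O' := by
  obtain ⟨x, y, hx, hy, hgen⟩ := h2
  obtain ⟨hOtop, hPIR, -, hπO⟩ := hO
  obtain ⟨hBO, hthr⟩ := hOn
  have hnp : (show Ideal B.toSubring from n).IsPrime := hn.isPrime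
  have hgen' : ∀ v ∈ n, ∃ s : B, s ∉ n ∧ ∃ a b : B,
      (s : F) * (v : F) = (a : F) * x + (b : F) * y := by
    intro v hv
    obtain ⟨s, hs, a, b, h⟩ := hgen v hv
    exact ⟨s, hs, a, b, congrArg Subtype.val h⟩
  obtain ⟨g, hg0, hgD, hgO, hginv, hunif, hdiv, hother⟩ :=
    @lps9_point R F _ _ _ π hπ0 B.toSubring hN (fun r => B.algebraMap_mem r) hfrac
      n hnp hπn x y hx hy hgen' O hOtop hPIR hπO hBO hthr
  exact ⟨g, hg0, hgD, hgO, hginv, hunif, fun t ht htinv => hdiv t ht htinv,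
    fun O' hO' hthrO' hne => hother O' hthrO'.1 hthrO'.2 hO'.2.2.2 hne⟩

end Point

section Family

variable {R F : Type*} [CommRing R] [Field F] [Algebra R F]

/-- On a vertical branch `V` through `n` (with `π ∈ rad (x V)` for every non-unit `x` of `V`),
the elements of `B` outside `n` are units of `V`. -/
theorem lps9_thr (π : R) (B : Subalgebra R F) (V : ValuationSubring F) (hBV : ∀ x ∈ B, x ∈ V)
    (hrad : ∀ x ∈ V, x⁻¹ ∉ V → ∃ k : ℕ, (algebraMap R F π)⁻¹ * x ^ k ∈ V)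
    (n : Ideal B) [hn : n.IsPrime] (hOn : sf79_OnBr π B V.toSubring n) (t : B) (ht : t ∉ n) :
    (t : F)⁻¹ ∈ V := by
  by_contra h
  obtain ⟨k, hk⟩ := hrad _ (hBV _ t.2) h
  apply ht
  apply hn.mem_of_pow_mem k
  apply hOn
  show (algebraMap R F π)⁻¹ * ((t ^ k : B) : F) ∈ V
  push_cast
  exact hk

/-- Off a branch: a witness outside `n`. -/
theorem lps9_off (π : R) (B : Subalgebra R F) (V : ValuationSubring F) (n : Ideal B)
    (hOff : ¬ sf79_OnBr π B V.toSubring n) :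
    ∃ e : B, e ∉ n ∧ (algebraMap R F π)⁻¹ * (e : F) ∈ V := by
  by_contra hcon
  exact hOff fun x hx => by
    by_contra hxn
    exact hcon ⟨x, hxn, hx⟩

/-- **The generator of the centre of a horizontal `O` through `n` is a unit of every vertical
`V i` through `n`.**  `g ∈ B_n` generates the centre of `O` on `B_n` (`hgen`); `V i` is through `n`
(`hthr`), and is separated at `n` from the other members of the family (`hsep`); the chart is
saturated (`hsat`). -/
theorem lps9_vert_unit (π : R) (hπ0 : algebraMap R F π ≠ 0) (B : Subalgebra R F)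
    (n : Ideal B) [hn : n.IsPrime]
    {ι : Type*} [Finite ι] (V : ι → ValuationSubring F)
    (hBV : ∀ i, ∀ x ∈ B, x ∈ V i)
    (hsat : ∀ x ∈ B, (∀ i, (algebraMap R F π)⁻¹ * x ∈ V i) → (algebraMap R F π)⁻¹ * x ∈ B)
    (O : ValuationSubring F) (hBO : ∀ t ∈ B, t ∈ O) (hthrO : ∀ t : B, t ∉ n → (t : F)⁻¹ ∈ O)
    (hπO : (algebraMap R F π)⁻¹ ∈ O)
    (g : F) (hg0 : g ≠ 0) (hgD : ∃ s : B, s ∉ n ∧ (s : F) * g ∈ B) (hgO : g⁻¹ ∉ O)
    (hgen : ∀ t : F, (∃ s : B, s ∉ n ∧ (s : F) * t ∈ B) → t⁻¹ ∉ O →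
      ∃ s : B, s ∉ n ∧ (s : F) * (t * g⁻¹) ∈ B)
    (i : ι) (hπi : (algebraMap R F π)⁻¹ ∉ V i)
    (hthr : ∀ t : B, t ∉ n → (t : F)⁻¹ ∈ V i)
    (hrad : ∀ x ∈ V i, x⁻¹ ∉ V i → ∃ k : ℕ, (algebraMap R F π)⁻¹ * x ^ k ∈ V i)
    (hsep : ∀ j, j ≠ i → ∃ E : B, (E : F) ≠ 0 ∧ (algebraMap R F π)⁻¹ * (E : F) ∈ V j ∧
      (E : F)⁻¹ ∈ V i) :
    g ∈ V i ∧ g⁻¹ ∈ V i := by
  classical
  cases nonempty_fintype ι
  set p : F := algebraMap R F π with hp
  obtain ⟨s, hs, hsg⟩ := hgD
  have hs0 : (s : F) ≠ 0 := sf79_ne_zero B n s hs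
  have hgV : g ∈ V i := by
    have : g = (s : F)⁻¹ * ((s : F) * g) := by field_simp
    rw [this]; exact (V i).mul_mem _ _ (hthr s hs) (hBV i _ hsg)
  refine ⟨hgV, ?_⟩
  by_contra hginv
  obtain ⟨k, hk⟩ := hrad g hgV hginv
  choose! E hE0 hE1 hE2 using hsep
  set EE : B := ∏ j ∈ Finset.univ.erase i, E j with hEE
  have hEEF : (EE : F) = ∏ j ∈ Finset.univ.erase i, (E j : F) := by
    rw [hEE]; push_cast; rfl
  have hEE0 : (EE : F) ≠ 0 := by
    rw [hEEF]
    exact Finset.prod_ne_zero_iff.mpr (fun j hj => hE0 j (Finset.ne_of_mem_erase hj))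
  have hEEinv : (EE : F)⁻¹ ∈ V i := by
    rw [hEEF, ← Finset.prod_inv_distrib]
    exact prod_mem (fun j hj => hE2 j (Finset.ne_of_mem_erase hj))
  have hxB : (EE : F) * ((s : F) * g) ^ k ∈ B := B.mul_mem EE.2 (B.pow_mem hsg k)
  have hxV : ∀ j, p⁻¹ * ((EE : F) * ((s : F) * g) ^ k) ∈ V j := by
    intro j
    by_cases hj : j = i
    · rw [hj]
      have e : p⁻¹ * ((EE : F) * ((s : F) * g) ^ k) =
          (p⁻¹ * g ^ k) * ((EE : F) * (s : F) ^ k) := by ring
      rw [e]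
      exact (V i).mul_mem _ _ hk (hBV i _ (B.mul_mem EE.2 (B.pow_mem s.2 k)))
    · have hjm : j ∈ Finset.univ.erase i := Finset.mem_erase.mpr ⟨hj, Finset.mem_univ j⟩
      have hsplit : (EE : F) =
          (E j : F) * ∏ l ∈ (Finset.univ.erase i).erase j, (E l : F) := by
        rw [hEEF]; exact (Finset.mul_prod_erase _ _ hjm).symm
      have e : p⁻¹ * ((EE : F) * ((s : F) * g) ^ k) =
          (p⁻¹ * (E j : F)) * ((∏ l ∈ (Finset.univ.erase i).erase j, (E l : F)) *
            ((s : F) * g) ^ k) := by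
        rw [hsplit]; ring
      rw [e]
      refine (V j).mul_mem _ _ (hE1 j hj) ((V j).mul_mem _ _ ?_ (hBV j _ (B.pow_mem hsg k)))
      exact prod_mem (fun l _ => hBV j _ (E l).2)
  have hb := hsat _ hxB hxV
  have hloc : ∀ t ∈ sf79_loc B n, t⁻¹ ∉ O → t * g⁻¹ ∈ sf79_loc B n := fun t ht h => hgen t ht h
  have hDO : ∀ t ∈ sf79_loc B n, t ∈ O := by
    rintro t ⟨s', hs', hst⟩
    have hs'0 : (s' : F) ≠ 0 := sf79_ne_zero B n s' hs'
    have : t = (s' : F)⁻¹ * ((s' : F) * t) := by field_simp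
    rw [this]; exact O.mul_mem _ _ (hthrO s' hs') (hBO _ hst)
  obtain ⟨b', hb'D, hab'⟩ := lps9_desc p hπ0 (sf79_loc B n) O hDO hπO g hg0 hgO hloc k
    ((EE : F) * (s : F) ^ k) (p⁻¹ * ((EE : F) * ((s : F) * g) ^ k))
    (sf79_le_loc B n _ (B.mul_mem EE.2 (B.pow_mem s.2 k))) (sf79_le_loc B n _ hb)
    (by rw [mul_pow]; field_simp)
  obtain ⟨t, ht, htb⟩ := hb'D
  have ht0 : (t : F) ≠ 0 := sf79_ne_zero B n t ht
  have hb'V : b' ∈ V i := by
    have : b' = (t : F)⁻¹ * ((t : F) * b') := by field_simp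
    rw [this]; exact (V i).mul_mem _ _ (hthr t ht) (hBV i _ htb)
  apply hπi
  have e : p⁻¹ = b' * ((EE : F)⁻¹ * ((s : F)⁻¹) ^ k) := by
    have h1 : b' = p⁻¹ * ((EE : F) * (s : F) ^ k) := by rw [hab']; field_simp
    have hsk : (s : F) ^ k ≠ 0 := pow_ne_zero k hs0
    rw [h1, inv_pow]; field_simp
  rw [e]
  exact (V i).mul_mem _ _ hb'V ((V i).mul_mem _ _ hEEinv ((V i).pow_mem (hthr s hs) k))

/-- **Krull + saturation at a closed point, for a finite family of vertical valuation rings**: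
a function which is regular along every horizontal `O` through `n` and along every `V i` through
`n` lies in `B_n`. -/
theorem lps9_mem_loc (π : R) (hπ0 : algebraMap R F π ≠ 0) (B : Subalgebra R F)
    {ι : Type*} [Finite ι] (V : ι → ValuationSubring F)
    (hBV : ∀ i, ∀ x ∈ B, x ∈ V i)
    (hsat : ∀ x ∈ B, (∀ i, (algebraMap R F π)⁻¹ * x ∈ V i) → (algebraMap R F π)⁻¹ * x ∈ B)
    (n : Ideal B) [hn : n.IsPrime]
    (hKr : ∀ x : F,
      (∀ O : ValuationSubring F, s34i47_IsHoriz π O → s34i47_Through B n O → x ∈ O) →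
      ∃ s : B, s ∉ n ∧ ∃ k : ℕ, algebraMap R F π ^ k * ((s : F) * x) ∈ B)
    (x : F)
    (hxV : ∀ i, (∃ e : B, e ∉ n ∧ (algebraMap R F π)⁻¹ * (e : F) ∈ V i) ∨ x ∈ V i)
    (hx : ∀ O : ValuationSubring F, s34i47_IsHoriz π O → s34i47_Through B n O → x ∈ O) :
    ∃ s : B, s ∉ n ∧ (s : F) * x ∈ B := by
  classical
  cases nonempty_fintype ι
  set p : F := algebraMap R F π with hp
  have h1n : (1 : B) ∉ n := (Ideal.ne_top_iff_one n).mp hn.ne_top
  have hch : ∀ i, ∃ e : B, e ∉ n ∧ (p⁻¹ * (e : F) ∈ V i ∨ x ∈ V i) := fun i =>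
    (hxV i).elim (fun ⟨e, he, h⟩ => ⟨e, he, Or.inl h⟩) (fun h => ⟨1, h1n, Or.inr h⟩)
  choose e he hev using hch
  set EE : B := ∏ j, e j with hEE
  have hEEn : EE ∉ n := by
    intro h
    obtain ⟨j, -, hj⟩ := (Ideal.IsPrime.prod_mem_iff (hp := hn)).mp h
    exact he j hj
  have hEEF : (EE : F) = ∏ j, (e j : F) := by
    rw [hEE]; push_cast; rfl
  have key : ∀ k : ℕ, ∀ s : B, s ∉ n → p ^ k * ((s : F) * x) ∈ B →
      ∃ s' : B, s' ∉ n ∧ (s' : F) * x ∈ B := by
    intro k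
    induction k with
    | zero =>
      intro s hs h
      exact ⟨s, hs, by simpa using h⟩
    | succ k ih =>
      intro s hs h
      apply ih (EE * s) (fun h' => (hn.mem_or_mem h').elim hEEn hs)
      have e1 : p ^ k * (((EE * s : B) : F) * x) =
          p⁻¹ * ((EE : F) * (p ^ (k + 1) * ((s : F) * x))) := by
        push_cast
        rw [pow_succ]
        field_simp
      rw [e1]
      apply hsat _ (B.mul_mem EE.2 h)
      intro i
      rcases hev i with hi | hi
      · have hsplit : (EE : F) = (e i : F) * ∏ l ∈ Finset.univ.erase i, (e l : F) := by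
          rw [hEEF]; exact (Finset.mul_prod_erase _ _ (Finset.mem_univ i)).symm
        have e2 : p⁻¹ * ((EE : F) * (p ^ (k + 1) * ((s : F) * x))) =
            (p⁻¹ * (e i : F)) * ((∏ l ∈ Finset.univ.erase i, (e l : F)) *
              (p ^ (k + 1) * ((s : F) * x))) := by
          rw [hsplit]; ring
        rw [e2]
        exact (V i).mul_mem _ _ hi
          ((V i).mul_mem _ _ (prod_mem (fun l _ => hBV i _ (e l).2)) (hBV i _ h))
      · have e2 : p⁻¹ * ((EE : F) * (p ^ (k + 1) * ((s : F) * x))) =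
            (EE : F) * (p ^ k * ((s : F) * x)) := by
          rw [pow_succ]
          field_simp
        rw [e2]
        exact (V i).mul_mem _ _ (hBV i _ EE.2)
          ((V i).mul_mem _ _ ((V i).pow_mem (hBV i _ (B.algebraMap_mem π)) k)
            ((V i).mul_mem _ _ (hBV i _ s.2) hi))
  obtain ⟨s, hs, k, hk⟩ := hKr x hx
  exact key k s hs hk

/-- **Strong `(LP)` at a closed point.**  `B` a noetherian chart with a finite family `V` of
vertical valuation rings, saturated (`hsat`), `n` a closed point of the special fibre with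
`n B_n` generated by two elements (`h2`) and with the Krull clause (`hKr`); the members of the
family through `n` are pairwise separated at `n` (`hsep`).  If `u` is a unit of every `V i`
through `n`, `m ∣ ord_O u` at every horizontal `O` through `n`, and `u` has finitely many zeros
and poles through `n`, then there is `c ≠ 0`, a unit of every `V i` through `n`, with
`u / c ^ m` a unit of `B_n` (and of every horizontal `O` through `n`). -/
theorem lps9_strong_at (π : R) (hπ0 : algebraMap R F π ≠ 0) (B : Subalgebra R F)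
    [IsNoetherianRing B]
    (hfrac : ∀ t : F, ∃ a ∈ B, ∃ b ∈ B, b ≠ 0 ∧ t * b = a)
    {ι : Type*} [Finite ι] (V : ι → ValuationSubring F)
    (hBV : ∀ i, ∀ x ∈ B, x ∈ V i)
    (hπV : ∀ i, (algebraMap R F π)⁻¹ ∉ V i)
    (hrad : ∀ i, ∀ x ∈ V i, x⁻¹ ∉ V i → ∃ k : ℕ, (algebraMap R F π)⁻¹ * x ^ k ∈ V i)
    (hsat : ∀ x ∈ B, (∀ i, (algebraMap R F π)⁻¹ * x ∈ V i) → (algebraMap R F π)⁻¹ * x ∈ B)
    (n : Ideal B) (hn : n.IsMaximal) (hπn : algebraMap R B π ∈ n)
    (h2 : ∃ x y : B, x ∈ n ∧ y ∈ n ∧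
      ∀ v ∈ n, ∃ s : B, s ∉ n ∧ ∃ a b : B, s * v = a * x + b * y)
    (hKr : ∀ x : F,
      (∀ O : ValuationSubring F, s34i47_IsHoriz π O → s34i47_Through B n O → x ∈ O) →
      ∃ s : B, s ∉ n ∧ ∃ k : ℕ, algebraMap R F π ^ k * ((s : F) * x) ∈ B)
    (hsep : ∀ i j, i ≠ j → sf79_OnBr π B (V i).toSubring n → sf79_OnBr π B (V j).toSubring n →
      ∃ E : B, (E : F) ≠ 0 ∧ (algebraMap R F π)⁻¹ * (E : F) ∈ V j ∧ (E : F)⁻¹ ∈ V i)
    (m : ℕ) (hm : 0 < m) (u : F) (hu : u ≠ 0)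
    (huV : ∀ i, sf79_OnBr π B (V i).toSubring n → u ∈ V i ∧ u⁻¹ ∈ V i)
    (hOrd : ∀ O : ValuationSubring F, s34i47_IsHoriz π O → s34i47_Through B n O →
      ∃ ε w : F, ε ∈ O ∧ ε⁻¹ ∈ O ∧ u = ε * w ^ m)
    (hFin : {O : ValuationSubring F | s34i47_IsHoriz π O ∧ s34i47_Through B n O ∧
      ¬ (u ∈ O ∧ u⁻¹ ∈ O)}.Finite) :
    ∃ c : F, c ≠ 0 ∧
      (∀ i, sf79_OnBr π B (V i).toSubring n → c ∈ V i ∧ c⁻¹ ∈ V i) ∧
      (∀ O : ValuationSubring F, s34i47_IsHoriz π O → s34i47_Through B n O →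
        u / c ^ m ∈ O ∧ c ^ m / u ∈ O) ∧
      (∃ s : B, s ∉ n ∧ (s : F) * (u / c ^ m) ∈ B) ∧
      (∃ s : B, s ∉ n ∧ (s : F) * (c ^ m / u) ∈ B) := by
  classical
  haveI hnp : n.IsPrime := hn.isPrime
  set T : Finset (ValuationSubring F) := hFin.toFinset with hT
  have hmemT : ∀ O : ValuationSubring F, O ∈ T ↔
      s34i47_IsHoriz π O ∧ s34i47_Through B n O ∧ ¬ (u ∈ O ∧ u⁻¹ ∈ O) := by
    intro O
    rw [hT, Set.Finite.mem_toFinset]
    rfl
  have hthr : ∀ i, sf79_OnBr π B (V i).toSubring n → ∀ t : B, t ∉ n → (t : F)⁻¹ ∈ V i :=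
    fun i hi t ht => lps9_thr π B (V i) (hBV i) (hrad i) n hi t ht
  have hsep' : ∀ i, sf79_OnBr π B (V i).toSubring n → ∀ j, j ≠ i →
      ∃ E : B, (E : F) ≠ 0 ∧ (algebraMap R F π)⁻¹ * (E : F) ∈ V j ∧ (E : F)⁻¹ ∈ V i := by
    intro i hi j hji
    by_cases hj : sf79_OnBr π B (V j).toSubring n
    · exact hsep i j (Ne.symm hji) hi hj
    · obtain ⟨e, hen, he⟩ := lps9_off π B (V j) n hj
      exact ⟨e, sf79_ne_zero B n e hen, he, hthr i hi e hen⟩
  have hex : ∀ O ∈ T, ∃ g : F, g ≠ 0 ∧ lp9_IsU O (u / g ^ m) ∧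
      (∀ O' : ValuationSubring F, s34i47_IsHoriz π O' → s34i47_Through B n O' → O' ≠ O →
        lp9_IsU O' g) ∧
      (∀ i, sf79_OnBr π B (V i).toSubring n → lp9_IsU (V i) g) := by
    intro O hO
    rw [hmemT] at hO
    obtain ⟨p, hp0, hpD, hpO, hpinv, hgen, hdiv, hother⟩ :=
      lps9_UZ_at π hπ0 B hfrac n hn hπn h2 O hO.1 hO.2.1
    obtain ⟨ε, w, hε, hεinv, hfw⟩ := hOrd O hO.1 hO.2.1
    have hw : w ≠ 0 := by
      rintro rfl
      apply hu
      rw [hfw, zero_pow (by omega), mul_zero]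
    obtain ⟨k, hk⟩ := lp9_exists_zpow O hO.1.2.1 p hp0 hpO hpinv hgen w hw
    refine ⟨p ^ k, zpow_ne_zero k hp0, ?_, ?_, ?_⟩
    · have he : u / (p ^ k) ^ m = ε * (w / p ^ k) ^ m := by
        rw [hfw, div_pow, mul_div_assoc]
      rw [he]
      exact lp9_IsU_mul ⟨hε, hεinv⟩ (lp9_IsU_pow hk m)
    · intro O' hO' hOn' hne
      exact lp9_IsU_zpow (hother O' hO' hOn' hne) k
    · intro i hi
      exact lp9_IsU_zpow (lps9_vert_unit π hπ0 B n V hBV hsat O hO.2.1.1 hO.2.1.2 hO.1.2.2.2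
        p hp0 hpD hpinv hdiv i (hπV i) (hthr i hi) (hrad i) (hsep' i hi)) k
  choose! g hg0 hgU hgother hgV using hex
  set c : F := ∏ O ∈ T, g O with hc
  have hc0 : c ≠ 0 := Finset.prod_ne_zero_iff.mpr hg0
  have hcV : ∀ i, sf79_OnBr π B (V i).toSubring n → lp9_IsU (V i) c := by
    intro i hi
    exact lp9_IsU_prod T g (fun O hO => hgV O hO i hi)
  have key : ∀ O : ValuationSubring F, s34i47_IsHoriz π O → s34i47_Through B n O →
      lp9_IsU O (u / c ^ m) := by
    intro O hO hOn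
    by_cases hOT : O ∈ T
    · have hsplit : c = g O * ∏ O' ∈ T.erase O, g O' :=
        (Finset.mul_prod_erase T g hOT).symm
      have hrest : lp9_IsU O (∏ O' ∈ T.erase O, g O') := by
        apply lp9_IsU_prod
        intro O' hO'
        have h := Finset.mem_erase.mp hO'
        exact hgother O' h.2 O hO hOn (Ne.symm h.1)
      have he : u / c ^ m =
          (u / g O ^ m) * ((∏ O' ∈ T.erase O, g O') ^ m)⁻¹ := by
        rw [hsplit, mul_pow, div_mul_eq_div_div, div_eq_mul_inv (u / g O ^ m)]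
      rw [he]
      exact lp9_IsU_mul (hgU O hOT) (lp9_IsU_inv (lp9_IsU_pow hrest m))
    · have hfU : lp9_IsU O u := by
        by_contra h
        exact hOT ((hmemT O).mpr ⟨hO, hOn, h⟩)
      have hcU : lp9_IsU O c := by
        apply lp9_IsU_prod
        intro O' hO'
        exact hgother O' hO' O hO hOn (by rintro rfl; exact hOT hO')
      rw [div_eq_mul_inv]
      exact lp9_IsU_mul hfU (lp9_IsU_inv (lp9_IsU_pow hcU m))
  have keyV : ∀ i, sf79_OnBr π B (V i).toSubring n → lp9_IsU (V i) (u / c ^ m) := by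
    intro i hi
    rw [div_eq_mul_inv]
    exact lp9_IsU_mul (huV i hi) (lp9_IsU_inv (lp9_IsU_pow (hcV i hi) m))
  have hdich : ∀ x : F, (∀ i, sf79_OnBr π B (V i).toSubring n → x ∈ V i) →
      ∀ i, (∃ e : B, e ∉ n ∧ (algebraMap R F π)⁻¹ * (e : F) ∈ V i) ∨ x ∈ V i := by
    intro x hx i
    by_cases hi : sf79_OnBr π B (V i).toSubring n
    · exact Or.inr (hx i hi)
    · exact Or.inl (lps9_off π B (V i) n hi)
  have keyinv : ∀ O : ValuationSubring F, s34i47_IsHoriz π O → s34i47_Through B n O →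
      c ^ m / u ∈ O := by
    intro O hO hOn
    have h := (key O hO hOn).2
    rwa [inv_div] at h
  have keyVinv : ∀ i, sf79_OnBr π B (V i).toSubring n → c ^ m / u ∈ V i := by
    intro i hi
    have h := (keyV i hi).2
    rwa [inv_div] at h
  refine ⟨c, hc0, fun i hi => hcV i hi,
    fun O hO hOn => ⟨(key O hO hOn).1, keyinv O hO hOn⟩, ?_, ?_⟩
  · exact lps9_mem_loc π hπ0 B V hBV hsat n hKr _ (hdich _ (fun i hi => (keyV i hi).1))
      (fun O hO hOn => (key O hO hOn).1)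
  · exact lps9_mem_loc π hπ0 B V hBV hsat n hKr _ (hdich _ keyVinv) keyinv

end Family

end Fermat.Agent.S36
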