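import Mathlib
import Fermat.Agent.S36.LocPrinStrong9
import Fermat.Agent.S36.LocStrThree71

/-!
# S36 (helper9): the strong `(LP)` on a three-component chart

`lps9_strong_at` (`LocPrinStrong9`) for the family `V₁, V₂, V₃` of the level-`q²` frame, with the
separation at a closed point read off from the LITERAL hypotheses `hD₁`, `hD₃` of helper71's
`tl71_twoGen` (`tl71_DivAt`: `z * c = t * π`, `z` a generator of the branch, a unit of the two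
others; then `z` and `c` are the separating elements).

* `lps9_sep_of_divAt` : the four separating elements given by one `tl71_DivAt`.
* `lps9_onMid_of_onBr` / `lps9_onBr_of_onMid` : `sf79_OnBr π B V₂ n ↔ tl71_OnMid σ B V₂ n`.
* `lps9_rad_of_unif` / `lps9_rad_of_unif_pow` : the hypothesis `hrad` from a uniformiser.
* `lps9_strong_three_at` : the strong `(LP)` at one closed point.
* `lps9_strong_three` : at every closed point of the special fibre, from `tl71_TwoGen`,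
  `s34i47_Krull`, `s34i47_Ord`, `s34i47_Fin`.
-/

set_option autoImplicit false

namespace Fermat.Agent.S36

open Fermat.Agent.S34 Fermat.Agent.S36.TripleLoc71

section Three

variable {R F : Type*} [CommRing R] [Field F] [Algebra R F]

/-- `hrad` for a valuation ring with uniformiser `π`. -/
theorem lps9_rad_of_unif (π : R) (V : ValuationSubring F)
    (hV : ∀ x ∈ V, x⁻¹ ∉ V → (algebraMap R F π)⁻¹ * x ∈ V) :
    ∀ x ∈ V, x⁻¹ ∉ V → ∃ k : ℕ, (algebraMap R F π)⁻¹ * x ^ k ∈ V :=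
  fun x hx hxi => ⟨1, by rw [pow_one]; exact hV x hx hxi⟩

/-- `hrad` for a valuation ring with uniformiser `σ`, `σ ^ e ∈ π V`. -/
theorem lps9_rad_of_unif_pow (π : R) (σ : F) (e : ℕ) (V : ValuationSubring F) (hσ0 : σ ≠ 0)
    (hσe : (algebraMap R F π)⁻¹ * σ ^ e ∈ V)
    (hV : ∀ x ∈ V, x⁻¹ ∉ V → σ⁻¹ * x ∈ V) :
    ∀ x ∈ V, x⁻¹ ∉ V → ∃ k : ℕ, (algebraMap R F π)⁻¹ * x ^ k ∈ V := by
  intro x hx hxi
  refine ⟨e, ?_⟩
  have h : (algebraMap R F π)⁻¹ * x ^ e = (σ⁻¹ * x) ^ e * ((algebraMap R F π)⁻¹ * σ ^ e) := by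
    rw [mul_pow, inv_pow]
    field_simp
  rw [h]
  exact V.mul_mem _ _ (V.pow_mem (hV x hx hxi) e) hσe

/-- On the thick branch: the `π`-form of "through `n`" gives the `σ`-form. -/
theorem lps9_onMid_of_onBr (π : R) (σ : F) (e : ℕ) (B : Subalgebra R F) (V₂ : Subring F)
    (hσ0 : σ ≠ 0) (hσe : (algebraMap R F π)⁻¹ * σ ^ e ∈ V₂)
    (n : Ideal B) [hn : n.IsPrime] (h : sf79_OnBr π B V₂ n) : tl71_OnMid σ B V₂ n := by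
  intro x hx
  apply hn.mem_of_pow_mem e
  apply h
  have h1 : (algebraMap R F π)⁻¹ * ((x ^ e : B) : F) =
      ((x : F) * σ⁻¹) ^ e * ((algebraMap R F π)⁻¹ * σ ^ e) := by
    push_cast
    rw [mul_pow, inv_pow]
    field_simp
  rw [h1]
  exact V₂.mul_mem (V₂.pow_mem hx e) hσe

/-- On the thick branch: the `σ`-form of "through `n`" gives the `π`-form (`σ ∣ π` along
`V₂`). -/
theorem lps9_onBr_of_onMid (π : R) (σ : F) (B : Subalgebra R F) (V₂ : Subring F)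
    (hπ0 : algebraMap R F π ≠ 0) (hπσ : algebraMap R F π * σ⁻¹ ∈ V₂)
    (n : Ideal B) (h : tl71_OnMid σ B V₂ n) : sf79_OnBr π B V₂ n := by
  intro x hx
  apply h
  have h1 : (x : F) * σ⁻¹ = ((algebraMap R F π)⁻¹ * (x : F)) * (algebraMap R F π * σ⁻¹) := by
    field_simp
  rw [h1]
  exact V₂.mul_mem hx hπσ

/-- The separating elements given by one `tl71_DivAt` (`z * c = t * π`): `z` for the pairs
`(V', V)`, `(V'', V)` and `c` for the pairs `(V, V')`, `(V, V'')`. -/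
theorem lps9_sep_of_divAt (π : R) (hπ0 : algebraMap R F π ≠ 0) (B : Subalgebra R F)
    (V V' V'' : ValuationSubring F)
    (hB' : ∀ x ∈ B, x ∈ V') (hB'' : ∀ x ∈ B, x ∈ V'')
    (n : Ideal B) (hthr : ∀ t : B, t ∉ n → (t : F)⁻¹ ∈ V)
    (hD : tl71_DivAt π B V.toSubring V'.toSubring V''.toSubring n) :
    (∃ E : B, (E : F) ≠ 0 ∧ (algebraMap R F π)⁻¹ * (E : F) ∈ V ∧ (E : F)⁻¹ ∈ V') ∧
    (∃ E : B, (E : F) ≠ 0 ∧ (algebraMap R F π)⁻¹ * (E : F) ∈ V ∧ (E : F)⁻¹ ∈ V'') ∧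
    (∃ E : B, (E : F) ≠ 0 ∧ (algebraMap R F π)⁻¹ * (E : F) ∈ V' ∧ (E : F)⁻¹ ∈ V) ∧
    (∃ E : B, (E : F) ≠ 0 ∧ (algebraMap R F π)⁻¹ * (E : F) ∈ V'' ∧ (E : F)⁻¹ ∈ V) := by
  obtain ⟨z, c, t, ht, hzc, hz, -, hz1, hz2⟩ := hD
  have htn0 : (t : F) ≠ 0 := sf79_ne_zero B n t ht
  have hzcF : (z : F) * (c : F) = (t : F) * algebraMap R F π := by
    have h := congrArg Subtype.val hzc
    simpa using h
  have hz0 : (z : F) ≠ 0 := by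
    intro h
    rw [h, zero_mul] at hzcF
    exact mul_ne_zero htn0 hπ0 hzcF.symm
  have hc0 : (c : F) ≠ 0 := by
    intro h
    rw [h, mul_zero] at hzcF
    exact mul_ne_zero htn0 hπ0 hzcF.symm
  have hc1 : (algebraMap R F π)⁻¹ * (c : F) = (t : F) * (z : F)⁻¹ := by
    have h : (c : F) = (t : F) * algebraMap R F π * (z : F)⁻¹ := by
      rw [← hzcF]; field_simp
    rw [h]; field_simp
  have hc2 : (c : F)⁻¹ = ((algebraMap R F π)⁻¹ * (z : F)) * (t : F)⁻¹ := by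
    have h : (c : F) = (t : F) * algebraMap R F π * (z : F)⁻¹ := by
      rw [← hzcF]; field_simp
    rw [h]; field_simp
  refine ⟨⟨z, hz0, hz, hz1⟩, ⟨z, hz0, hz, hz2⟩, ⟨c, hc0, ?_, ?_⟩, ⟨c, hc0, ?_, ?_⟩⟩
  · rw [hc1]; exact V'.mul_mem _ _ (hB' _ t.2) hz1
  · rw [hc2]; exact V.mul_mem _ _ hz (hthr t ht)
  · rw [hc1]; exact V''.mul_mem _ _ (hB'' _ t.2) hz2
  · rw [hc2]; exact V.mul_mem _ _ hz (hthr t ht)

/-- **Strong `(LP)` at a closed point of a three-component chart**, with the literal hypotheses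
`hD₁`, `hD₃` of `tl71_twoGen` at `n`. -/
theorem lps9_strong_three_at (π : R) (σ : F) (e : ℕ) (B : Subalgebra R F) [IsNoetherianRing B]
    (V₁ V₂ V₃ : ValuationSubring F)
    (hB₁ : ∀ x ∈ B, x ∈ V₁) (hB₂ : ∀ x ∈ B, x ∈ V₂) (hB₃ : ∀ x ∈ B, x ∈ V₃)
    (hsat : ∀ x ∈ B, (algebraMap R F π)⁻¹ * x ∈ V₁ → (algebraMap R F π)⁻¹ * x ∈ V₂ →
      (algebraMap R F π)⁻¹ * x ∈ V₃ → (algebraMap R F π)⁻¹ * x ∈ B)
    (hπ0 : algebraMap R F π ≠ 0) (hσ0 : σ ≠ 0)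
    (hσe : (algebraMap R F π)⁻¹ * σ ^ e ∈ V₂)
    (hπ₁ : (algebraMap R F π)⁻¹ ∉ V₁) (hπ₂ : (algebraMap R F π)⁻¹ ∉ V₂)
    (hπ₃ : (algebraMap R F π)⁻¹ ∉ V₃)
    (hrad₁ : ∀ x ∈ V₁, x⁻¹ ∉ V₁ → ∃ k : ℕ, (algebraMap R F π)⁻¹ * x ^ k ∈ V₁)
    (hrad₂ : ∀ x ∈ V₂, x⁻¹ ∉ V₂ → ∃ k : ℕ, (algebraMap R F π)⁻¹ * x ^ k ∈ V₂)
    (hrad₃ : ∀ x ∈ V₃, x⁻¹ ∉ V₃ → ∃ k : ℕ, (algebraMap R F π)⁻¹ * x ^ k ∈ V₃)
    (hfrac : ∀ t : F, ∃ a ∈ B, ∃ b ∈ B, b ≠ 0 ∧ t * b = a)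
    (n : Ideal B) (hn : n.IsMaximal) (hπn : algebraMap R B π ∈ n)
    (h2 : ∃ x y : B, x ∈ n ∧ y ∈ n ∧
      ∀ v ∈ n, ∃ s : B, s ∉ n ∧ ∃ a b : B, s * v = a * x + b * y)
    (hKr : ∀ x : F,
      (∀ O : ValuationSubring F, s34i47_IsHoriz π O → s34i47_Through B n O → x ∈ O) →
      ∃ s : B, s ∉ n ∧ ∃ k : ℕ, algebraMap R F π ^ k * ((s : F) * x) ∈ B)
    (hD₁ : sf79_OnBr π B V₁.toSubring n →
      (tl71_OnMid σ B V₂.toSubring n ∨ sf79_OnBr π B V₃.toSubring n) →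
      tl71_DivAt π B V₁.toSubring V₂.toSubring V₃.toSubring n)
    (hD₃ : sf79_OnBr π B V₃.toSubring n →
      (tl71_OnMid σ B V₂.toSubring n ∨ sf79_OnBr π B V₁.toSubring n) →
      tl71_DivAt π B V₃.toSubring V₂.toSubring V₁.toSubring n)
    (m : ℕ) (hm : 0 < m) (u : F) (hu : u ≠ 0)
    (hu₁ : u ∈ V₁ ∧ u⁻¹ ∈ V₁) (hu₂ : u ∈ V₂ ∧ u⁻¹ ∈ V₂) (hu₃ : u ∈ V₃ ∧ u⁻¹ ∈ V₃)
    (hOrd : ∀ O : ValuationSubring F, s34i47_IsHoriz π O → s34i47_Through B n O →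
      ∃ ε w : F, ε ∈ O ∧ ε⁻¹ ∈ O ∧ u = ε * w ^ m)
    (hFin : {O : ValuationSubring F | s34i47_IsHoriz π O ∧ s34i47_Through B n O ∧
      ¬ (u ∈ O ∧ u⁻¹ ∈ O)}.Finite) :
    ∃ c : F, c ≠ 0 ∧
      (sf79_OnBr π B V₁.toSubring n → c ∈ V₁ ∧ c⁻¹ ∈ V₁) ∧
      (sf79_OnBr π B V₂.toSubring n → c ∈ V₂ ∧ c⁻¹ ∈ V₂) ∧
      (sf79_OnBr π B V₃.toSubring n → c ∈ V₃ ∧ c⁻¹ ∈ V₃) ∧
      (∀ O : ValuationSubring F, s34i47_IsHoriz π O → s34i47_Through B n O →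
        u / c ^ m ∈ O ∧ c ^ m / u ∈ O) ∧
      (∃ s : B, s ∉ n ∧ (s : F) * (u / c ^ m) ∈ B) ∧
      (∃ s : B, s ∉ n ∧ (s : F) * (c ^ m / u) ∈ B) := by
  haveI hnp : n.IsPrime := hn.isPrime
  have thr₁ : sf79_OnBr π B V₁.toSubring n → ∀ t : B, t ∉ n → (t : F)⁻¹ ∈ V₁ :=
    fun h t ht => lps9_thr π B V₁ hB₁ hrad₁ n h t ht
  have thr₃ : sf79_OnBr π B V₃.toSubring n → ∀ t : B, t ∉ n → (t : F)⁻¹ ∈ V₃ :=
    fun h t ht => lps9_thr π B V₃ hB₃ hrad₃ n h t ht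
  have mid : sf79_OnBr π B V₂.toSubring n → tl71_OnMid σ B V₂.toSubring n :=
    fun h => lps9_onMid_of_onBr π σ e B V₂.toSubring hσ0 hσe n h
  have S12 := fun (h1 : sf79_OnBr π B V₁.toSubring n) (h2 : sf79_OnBr π B V₂.toSubring n) =>
    lps9_sep_of_divAt π hπ0 B V₁ V₂ V₃ hB₂ hB₃ n (thr₁ h1) (hD₁ h1 (Or.inl (mid h2)))
  have S13 := fun (h1 : sf79_OnBr π B V₁.toSubring n) (h3 : sf79_OnBr π B V₃.toSubring n) =>
    lps9_sep_of_divAt π hπ0 B V₁ V₂ V₃ hB₂ hB₃ n (thr₁ h1) (hD₁ h1 (Or.inr h3))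
  have S32 := fun (h3 : sf79_OnBr π B V₃.toSubring n) (h2 : sf79_OnBr π B V₂.toSubring n) =>
    lps9_sep_of_divAt π hπ0 B V₃ V₂ V₁ hB₂ hB₁ n (thr₃ h3) (hD₃ h3 (Or.inl (mid h2)))
  have hBV : ∀ i : Fin 3, ∀ x ∈ B, x ∈ (![V₁, V₂, V₃] : Fin 3 → ValuationSubring F) i := by
    intro i
    fin_cases i
    · exact hB₁
    · exact hB₂
    · exact hB₃
  have hπV : ∀ i : Fin 3,
      (algebraMap R F π)⁻¹ ∉ (![V₁, V₂, V₃] : Fin 3 → ValuationSubring F) i := by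
    intro i
    fin_cases i
    · exact hπ₁
    · exact hπ₂
    · exact hπ₃
  have hrad : ∀ i : Fin 3, ∀ x ∈ (![V₁, V₂, V₃] : Fin 3 → ValuationSubring F) i,
      x⁻¹ ∉ (![V₁, V₂, V₃] : Fin 3 → ValuationSubring F) i →
      ∃ k : ℕ, (algebraMap R F π)⁻¹ * x ^ k ∈ (![V₁, V₂, V₃] : Fin 3 → ValuationSubring F) i := by
    intro i
    fin_cases i
    · exact hrad₁
    · exact hrad₂
    · exact hrad₃
  have hsat' : ∀ x ∈ B,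
      (∀ i : Fin 3, (algebraMap R F π)⁻¹ * x ∈ (![V₁, V₂, V₃] : Fin 3 → ValuationSubring F) i) →
      (algebraMap R F π)⁻¹ * x ∈ B :=
    fun x hx h => hsat x hx (h 0) (h 1) (h 2)
  have huV : ∀ i : Fin 3,
      sf79_OnBr π B ((![V₁, V₂, V₃] : Fin 3 → ValuationSubring F) i).toSubring n →
      u ∈ (![V₁, V₂, V₃] : Fin 3 → ValuationSubring F) i ∧
        u⁻¹ ∈ (![V₁, V₂, V₃] : Fin 3 → ValuationSubring F) i := by
    intro i _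
    fin_cases i
    · exact hu₁
    · exact hu₂
    · exact hu₃
  have hsep : ∀ i j : Fin 3, i ≠ j →
      sf79_OnBr π B ((![V₁, V₂, V₃] : Fin 3 → ValuationSubring F) i).toSubring n →
      sf79_OnBr π B ((![V₁, V₂, V₃] : Fin 3 → ValuationSubring F) j).toSubring n →
      ∃ E : B, (E : F) ≠ 0 ∧
        (algebraMap R F π)⁻¹ * (E : F) ∈ (![V₁, V₂, V₃] : Fin 3 → ValuationSubring F) j ∧
        (E : F)⁻¹ ∈ (![V₁, V₂, V₃] : Fin 3 → ValuationSubring F) i := by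
    intro i j hij hi hj
    fin_cases i <;> fin_cases j
    · exact absurd rfl hij
    · exact (S12 hi hj).2.2.1
    · exact (S13 hi hj).2.2.2
    · exact (S12 hj hi).1
    · exact absurd rfl hij
    · exact (S32 hj hi).1
    · exact (S13 hj hi).2.1
    · exact (S32 hi hj).2.2.1
    · exact absurd rfl hij
  obtain ⟨c, hc0, hcV, hcO, h1, h2'⟩ :=
    lps9_strong_at π hπ0 B hfrac (![V₁, V₂, V₃] : Fin 3 → ValuationSubring F) hBV hπV hrad hsat'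
      n hn hπn h2 hKr hsep m hm u hu huV hOrd hFin
  exact ⟨c, hc0, hcV 0, hcV 1, hcV 2, hcO, h1, h2'⟩

/-- **Strong `(LP)` on a three-component chart**: at EVERY closed point `n` of the special fibre,
`u = (unit of B_n) * c ^ m` with `c` a unit of every vertical `V_i` through `n`.  Inputs:
`tl71_TwoGen`, `s34i47_Krull`, the literal `hD₁`, `hD₃` of `tl71_twoGen`, `u` a unit of
`W = V₁ ⊓ V₂ ⊓ V₃`, `s34i47_Ord`, `s34i47_Fin`. -/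
theorem lps9_strong_three (π : R) (σ : F) (e : ℕ) (B : Subalgebra R F) [IsNoetherianRing B]
    (V₁ V₂ V₃ : ValuationSubring F)
    (hB₁ : ∀ x ∈ B, x ∈ V₁) (hB₂ : ∀ x ∈ B, x ∈ V₂) (hB₃ : ∀ x ∈ B, x ∈ V₃)
    (hsat : ∀ x ∈ B, (algebraMap R F π)⁻¹ * x ∈ V₁ → (algebraMap R F π)⁻¹ * x ∈ V₂ →
      (algebraMap R F π)⁻¹ * x ∈ V₃ → (algebraMap R F π)⁻¹ * x ∈ B)
    (hπ0 : algebraMap R F π ≠ 0) (hσ0 : σ ≠ 0)
    (hσe : (algebraMap R F π)⁻¹ * σ ^ e ∈ V₂)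
    (hπ₁ : (algebraMap R F π)⁻¹ ∉ V₁) (hπ₂ : (algebraMap R F π)⁻¹ ∉ V₂)
    (hπ₃ : (algebraMap R F π)⁻¹ ∉ V₃)
    (hrad₁ : ∀ x ∈ V₁, x⁻¹ ∉ V₁ → ∃ k : ℕ, (algebraMap R F π)⁻¹ * x ^ k ∈ V₁)
    (hrad₂ : ∀ x ∈ V₂, x⁻¹ ∉ V₂ → ∃ k : ℕ, (algebraMap R F π)⁻¹ * x ^ k ∈ V₂)
    (hrad₃ : ∀ x ∈ V₃, x⁻¹ ∉ V₃ → ∃ k : ℕ, (algebraMap R F π)⁻¹ * x ^ k ∈ V₃)
    (hfrac : ∀ t : F, ∃ a ∈ B, ∃ b ∈ B, b ≠ 0 ∧ t * b = a)
    (h2 : tl71_TwoGen π B) (hKr : s34i47_Krull π B)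
    (hD₁ : ∀ n : Ideal B, n.IsMaximal → sf79_OnBr π B V₁.toSubring n →
      (tl71_OnMid σ B V₂.toSubring n ∨ sf79_OnBr π B V₃.toSubring n) →
      tl71_DivAt π B V₁.toSubring V₂.toSubring V₃.toSubring n)
    (hD₃ : ∀ n : Ideal B, n.IsMaximal → sf79_OnBr π B V₃.toSubring n →
      (tl71_OnMid σ B V₂.toSubring n ∨ sf79_OnBr π B V₁.toSubring n) →
      tl71_DivAt π B V₃.toSubring V₂.toSubring V₁.toSubring n)
    (m : ℕ) (hm : 0 < m) (u : F) (hu : u ≠ 0)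
    (hu₁ : u ∈ V₁ ∧ u⁻¹ ∈ V₁) (hu₂ : u ∈ V₂ ∧ u⁻¹ ∈ V₂) (hu₃ : u ∈ V₃ ∧ u⁻¹ ∈ V₃)
    (hOrd : s34i47_Ord π m u) (hFin : s34i47_Fin π u) :
    ∀ n : Ideal B, n.IsMaximal → algebraMap R B π ∈ n →
      ∃ c : F, c ≠ 0 ∧
        (sf79_OnBr π B V₁.toSubring n → c ∈ V₁ ∧ c⁻¹ ∈ V₁) ∧
        (sf79_OnBr π B V₂.toSubring n → c ∈ V₂ ∧ c⁻¹ ∈ V₂) ∧
        (sf79_OnBr π B V₃.toSubring n → c ∈ V₃ ∧ c⁻¹ ∈ V₃) ∧
        (∀ O : ValuationSubring F, s34i47_IsHoriz π O → s34i47_Through B n O →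
          u / c ^ m ∈ O ∧ c ^ m / u ∈ O) ∧
        (∃ s : B, s ∉ n ∧ (s : F) * (u / c ^ m) ∈ B) ∧
        (∃ s : B, s ∉ n ∧ (s : F) * (c ^ m / u) ∈ B) :=
  fun n hn hπn =>
    lps9_strong_three_at π σ e B V₁ V₂ V₃ hB₁ hB₂ hB₃ hsat hπ0 hσ0 hσe hπ₁ hπ₂ hπ₃
      hrad₁ hrad₂ hrad₃ hfrac n hn hπn (h2 n hn hπn) (hKr n hn hπn) (hD₁ n hn) (hD₃ n hn)
      m hm u hu hu₁ hu₂ hu₃ (fun O hO _ => hOrd O hO)
      (hFin.subset fun _ hO => ⟨hO.1, hO.2.2⟩)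

end Three

end Fermat.Agent.S36
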