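import Mathlib

/-!
# S36 lab, row 602 (B3-const), helper26: the gluing constants do not depend on the triple point

Mathlib only.  Abstract core of paragraph 6 of the working text (#2863) / step B3 of the
bookkeeping text (#2876), in the "field + valuation subring + congruence" language (no residue
fields, no reduction maps): `x ≡ y mod 𝔪(V)` is written `V.valuation (x - y) < 1`.

Setting (think: `F1 = F(qM'')`, `F2 = F(q²M'')`, `al = α^*`, `N = N_α`; `V1, V2` the two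
valuations over `Vinf` along `α`, `V3` the purely inseparable one over `V0`; `Bn` the local ring
of a chart at a triple point `n`, `nB` its maximal ideal (as an additive subgroup of `F2`),
`An` the local ring of the level-`q` chart at the node `α(n)`):

* `gc26_eta_mem`: `u = eps * c ^ m`, `N u = cu * Au ^ m`, `N eps` a unit of `An`, `An` closed
  under `m`-th roots ⟹ `η := N c / Au ∈ An`.
* `gc26_alpha_rel`: if `Au ≡ tinf mod 𝔪(Vinf)`, `Au ≡ t0 mod 𝔪(V0)` (constants), the norm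
  formulas hold for `c` in congruence form (`hN1`: `N c ≡ y1 * y2^(q-1) mod 𝔪(Vinf)` whenever
  `al y_i ≡ c mod 𝔪(V_i)`; `hN2`: `al (N c) ≡ c^q mod 𝔪(V3)`), then for ANY lifts `b_i ∈ Bn` of
  the branch residues of `c` (`c ≡ b_i mod 𝔪(V_i)`):
  `b1 * b2^(q-1) * al t0 - b3^q * al tinf ∈ nB`.
  (The `β`-relation is the same lemma with the roles `(1,2|3) ↦ (3,2|1)`, `(inf,0) ↦ (0,inf)`.)
* `gc26_arith_field`, `gc26_arith`: from the `α`- and the `β`-relation, with `d = q - 1`: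
  `b1^((d+2)d) w1 ≡ b3^((d+2)d)` and `b2^((d+2)d) w2 ≡ b3^((d+2)d)` for the explicit constants
  `w1, w2`; i.e. the root `c^(q²-1) θ'` of the twisted unit has ONE common value at the
  triple point (the hypothesis of the Nakayama gluing lemma `gl47_glue` / `g3x84_main`).
-/

set_option autoImplicit false

namespace Fermat.Agent.S36

section Val

variable {F : Type*} [Field F] (V : ValuationSubring F)

theorem gc26_add {x y : F} (hx : V.valuation x < 1) (hy : V.valuation y < 1) :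
    V.valuation (x + y) < 1 := Valuation.map_add_lt _ hx hy

theorem gc26_sub {x y : F} (hx : V.valuation x < 1) (hy : V.valuation y < 1) :
    V.valuation (x - y) < 1 := Valuation.map_sub_lt _ hx hy

theorem gc26_mul {x y : F} (hx : x ∈ V) (hy : V.valuation y < 1) :
    V.valuation (x * y) < 1 := by
  rw [map_mul]
  have h1 : V.valuation x ≤ 1 := (V.valuation_le_one_iff x).mpr hx
  calc V.valuation x * V.valuation y ≤ 1 * V.valuation y := mul_le_mul' h1 le_rfl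
    _ = V.valuation y := one_mul _
    _ < 1 := hy

theorem gc26_mem {x : F} (hx : V.valuation x < 1) : x ∈ V :=
  (V.valuation_le_one_iff x).mp hx.le

/-- `x ≡ y`, `x' ≡ y'` modulo `𝔪(V)` with `x, y' ∈ V` ⟹ `x x' ≡ y y'`. -/
theorem gc26_mul_congr {x y x' y' : F} (hx : x ∈ V) (hy' : y' ∈ V)
    (h : V.valuation (x - y) < 1) (h' : V.valuation (x' - y') < 1) :
    V.valuation (x * x' - y * y') < 1 := by
  have e : x * x' - y * y' = x * (x' - y') + y' * (x - y) := by ring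
  rw [e]
  exact gc26_add V (gc26_mul V hx h') (gc26_mul V hy' h)

/-- `x ≡ y` modulo `𝔪(V)`, `x, y ∈ V` ⟹ `x ^ k ≡ y ^ k`. -/
theorem gc26_pow_congr {x y : F} (hx : x ∈ V) (hy : y ∈ V) (h : V.valuation (x - y) < 1)
    (k : ℕ) : V.valuation (x ^ k - y ^ k) < 1 := by
  induction k with
  | zero => simp
  | succ k ih =>
    rw [pow_succ, pow_succ]
    exact gc26_mul_congr V (V.pow_mem hx k) hy ih h

end Val

/-- **`η ∈ An`.**  `u = eps * c ^ m`, `N u = cu * Au ^ m`, `N eps` a unit of `An`, `cu ∈ An`,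
`An` closed under `m`-th roots (e.g. integrally closed) ⟹ `N c / Au ∈ An`. -/
theorem gc26_eta_mem {F1 F2 : Type*} [Field F1] [Field F2] (N : F2 →* F1) (An : Subring F1)
    (m : ℕ) (hroot : ∀ x : F1, x ^ m ∈ An → x ∈ An)
    (u c eps : F2) (Au cu : F1) (hu : u = eps * c ^ m) (hNu : N u = cu * Au ^ m) (hAu : Au ≠ 0)
    (hNeps0 : N eps ≠ 0) (hNeps : (N eps)⁻¹ ∈ An) (hcu : cu ∈ An) :
    N c / Au ∈ An := by
  apply hroot
  have h1 : N u = N eps * N c ^ m := by rw [hu, map_mul, map_pow]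
  have h2 : (N c / Au) ^ m = cu * (N eps)⁻¹ := by
    rw [div_pow]
    have h3 : N c ^ m = cu * Au ^ m * (N eps)⁻¹ := by
      rw [← hNu, h1]
      field_simp
    rw [h3]
    have hAm : Au ^ m ≠ 0 := pow_ne_zero m hAu
    field_simp
  rw [h2]
  exact An.mul_mem hcu hNeps

/-- **The `α`-relation at a triple point, congruence form.** -/
theorem gc26_alpha_rel {F1 F2 : Type*} [Field F1] [Field F2]
    (al : F1 →+* F2) (N : F2 →* F1)
    (V1 V2 V3 : ValuationSubring F2) (Vinf V0 : ValuationSubring F1)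
    (An : Subring F1) (Bn : Subring F2) (nB : AddSubgroup F2)
    (hnB : ∀ b ∈ Bn, ∀ x ∈ nB, b * x ∈ nB)
    (hAB : ∀ x ∈ An, al x ∈ Bn)
    (hAinf : ∀ x ∈ An, x ∈ Vinf)
    (hB3 : ∀ x ∈ Bn, x ∈ V3)
    (hthr1 : ∀ x ∈ Bn, V1.valuation x < 1 → x ∈ nB)
    (hthr2 : ∀ x ∈ Bn, V2.valuation x < 1 → x ∈ nB)
    (hthr3 : ∀ x ∈ Bn, V3.valuation x < 1 → x ∈ nB)
    (hloc : ∀ x ∈ An, Vinf.valuation x < 1 → al x ∈ nB)
    (hal3 : ∀ x : F1, V0.valuation x < 1 → V3.valuation (al x) < 1)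
    (hO1 : ∀ b ∈ Bn, ∃ a ∈ An, V1.valuation (al a - b) < 1)
    (hO2 : ∀ b ∈ Bn, ∃ a ∈ An, V2.valuation (al a - b) < 1)
    (q : ℕ) (η Au tinf t0 : F1) (c : F2)
    (hη : η ∈ An) (hNc : N c = η * Au)
    (htinf : tinf ∈ An) (ht0 : t0 ∈ An)
    (hAuinf : Vinf.valuation (Au - tinf) < 1) (hAu0 : V0.valuation (Au - t0) < 1)
    (hc3 : c ∈ V3)
    (hN1 : ∀ y1 y2 : F1, V1.valuation (al y1 - c) < 1 → V2.valuation (al y2 - c) < 1 →
        Vinf.valuation (N c - y1 * y2 ^ (q - 1)) < 1)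
    (hN2 : V3.valuation (al (N c) - c ^ q) < 1)
    (b1 b2 b3 : F2) (hb1 : b1 ∈ Bn) (hb2 : b2 ∈ Bn) (hb3 : b3 ∈ Bn)
    (hcb1 : V1.valuation (c - b1) < 1) (hcb2 : V2.valuation (c - b2) < 1)
    (hcb3 : V3.valuation (c - b3) < 1) :
    b1 * b2 ^ (q - 1) * al t0 - b3 ^ q * al tinf ∈ nB := by
  obtain ⟨a1, ha1, ha1b⟩ := hO1 b1 hb1
  obtain ⟨a2, ha2, ha2b⟩ := hO2 b2 hb2
  have h1c : V1.valuation (al a1 - c) < 1 := by
    have e : al a1 - c = (al a1 - b1) - (c - b1) := by ring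
    rw [e]
    exact gc26_sub V1 ha1b hcb1
  have h2c : V2.valuation (al a2 - c) < 1 := by
    have e : al a2 - c = (al a2 - b2) - (c - b2) := by ring
    rw [e]
    exact gc26_sub V2 ha2b hcb2
  have hA := hN1 a1 a2 h1c h2c
  have hx1 : Vinf.valuation (η * tinf - a1 * a2 ^ (q - 1)) < 1 := by
    have e : η * tinf - a1 * a2 ^ (q - 1) = (N c - a1 * a2 ^ (q - 1)) - η * (Au - tinf) := by
      rw [hNc]
      ring
    rw [e]
    exact gc26_sub Vinf hA (gc26_mul Vinf (hAinf η hη) hAuinf)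
  have hx1A : η * tinf - a1 * a2 ^ (q - 1) ∈ An :=
    An.sub_mem (An.mul_mem hη htinf) (An.mul_mem ha1 (An.pow_mem ha2 _))
  have hX1 : al (η * tinf - a1 * a2 ^ (q - 1)) ∈ nB := hloc _ hx1A hx1
  have hd1 : al a1 - b1 ∈ nB := hthr1 _ (Bn.sub_mem (hAB a1 ha1) hb1) ha1b
  have hd2 : al a2 - b2 ∈ nB := hthr2 _ (Bn.sub_mem (hAB a2 ha2) hb2) ha2b
  have hx2 : V3.valuation (al η * al t0 - b3 ^ q) < 1 := by
    have e : al η * al t0 - b3 ^ q =
        (al (N c) - c ^ q) + (c ^ q - b3 ^ q) - al η * al (Au - t0) := by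
      rw [hNc, map_mul, map_sub]
      ring
    rw [e]
    exact gc26_sub V3 (gc26_add V3 hN2 (gc26_pow_congr V3 hc3 (hB3 b3 hb3) hcb3 q))
      (gc26_mul V3 (hB3 _ (hAB η hη)) (hal3 _ hAu0))
  have hX2 : al η * al t0 - b3 ^ q ∈ nB :=
    hthr3 _ (Bn.sub_mem (Bn.mul_mem (hAB η hη) (hAB t0 ht0)) (Bn.pow_mem hb3 q)) hx2
  have hpow : ∀ k : ℕ, al a2 ^ k - b2 ^ k ∈ nB := by
    intro k
    induction k with
    | zero => simp
    | succ k ih =>
      have e : al a2 ^ (k + 1) - b2 ^ (k + 1) =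
          al a2 ^ k * (al a2 - b2) + b2 * (al a2 ^ k - b2 ^ k) := by ring
      rw [e]
      exact nB.add_mem (hnB _ (Bn.pow_mem (hAB a2 ha2) k) _ hd2) (hnB _ hb2 _ ih)
  have hprod : al a1 * al a2 ^ (q - 1) - b1 * b2 ^ (q - 1) ∈ nB := by
    have e : al a1 * al a2 ^ (q - 1) - b1 * b2 ^ (q - 1) =
        al a2 ^ (q - 1) * (al a1 - b1) + b1 * (al a2 ^ (q - 1) - b2 ^ (q - 1)) := by ring
    rw [e]
    exact nB.add_mem (hnB _ (Bn.pow_mem (hAB a2 ha2) _) _ hd1) (hnB _ hb1 _ (hpow _))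
  have e : b1 * b2 ^ (q - 1) * al t0 - b3 ^ q * al tinf =
      al tinf * (al η * al t0 - b3 ^ q) - al t0 * al (η * tinf - a1 * a2 ^ (q - 1))
        - al t0 * (al a1 * al a2 ^ (q - 1) - b1 * b2 ^ (q - 1)) := by
    simp only [map_sub, map_mul, map_pow]
    ring
  rw [e]
  exact nB.sub_mem (nB.sub_mem (hnB _ (hAB tinf htinf) _ hX2) (hnB _ (hAB t0 ht0) _ hX1))
    (hnB _ (hAB t0 ht0) _ hprod)

/-- **The `α`-relation from the raw data** (`gc26_eta_mem` + `gc26_alpha_rel`). -/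
theorem gc26_alpha_rel_raw {F1 F2 : Type*} [Field F1] [Field F2]
    (al : F1 →+* F2) (N : F2 →* F1)
    (V1 V2 V3 : ValuationSubring F2) (Vinf V0 : ValuationSubring F1)
    (An : Subring F1) (Bn : Subring F2) (nB : AddSubgroup F2)
    (hnB : ∀ b ∈ Bn, ∀ x ∈ nB, b * x ∈ nB)
    (hAB : ∀ x ∈ An, al x ∈ Bn)
    (hAinf : ∀ x ∈ An, x ∈ Vinf)
    (hB3 : ∀ x ∈ Bn, x ∈ V3)
    (hthr1 : ∀ x ∈ Bn, V1.valuation x < 1 → x ∈ nB)
    (hthr2 : ∀ x ∈ Bn, V2.valuation x < 1 → x ∈ nB)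
    (hthr3 : ∀ x ∈ Bn, V3.valuation x < 1 → x ∈ nB)
    (hloc : ∀ x ∈ An, Vinf.valuation x < 1 → al x ∈ nB)
    (hal3 : ∀ x : F1, V0.valuation x < 1 → V3.valuation (al x) < 1)
    (hO1 : ∀ b ∈ Bn, ∃ a ∈ An, V1.valuation (al a - b) < 1)
    (hO2 : ∀ b ∈ Bn, ∃ a ∈ An, V2.valuation (al a - b) < 1)
    (m q : ℕ) (hroot : ∀ x : F1, x ^ m ∈ An → x ∈ An)
    (u c eps : F2) (Au cu tinf t0 : F1)
    (hu : u = eps * c ^ m) (hNu : N u = cu * Au ^ m) (hAu : Au ≠ 0)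
    (hNeps0 : N eps ≠ 0) (hNeps : (N eps)⁻¹ ∈ An) (hcu : cu ∈ An)
    (htinf : tinf ∈ An) (ht0 : t0 ∈ An)
    (hAuinf : Vinf.valuation (Au - tinf) < 1) (hAu0 : V0.valuation (Au - t0) < 1)
    (hc3 : c ∈ V3)
    (hN1 : ∀ y1 y2 : F1, V1.valuation (al y1 - c) < 1 → V2.valuation (al y2 - c) < 1 →
        Vinf.valuation (N c - y1 * y2 ^ (q - 1)) < 1)
    (hN2 : V3.valuation (al (N c) - c ^ q) < 1)
    (b1 b2 b3 : F2) (hb1 : b1 ∈ Bn) (hb2 : b2 ∈ Bn) (hb3 : b3 ∈ Bn)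
    (hcb1 : V1.valuation (c - b1) < 1) (hcb2 : V2.valuation (c - b2) < 1)
    (hcb3 : V3.valuation (c - b3) < 1) :
    b1 * b2 ^ (q - 1) * al t0 - b3 ^ q * al tinf ∈ nB := by
  have hη : N c / Au ∈ An :=
    gc26_eta_mem N An m hroot u c eps Au cu hu hNu hAu hNeps0 hNeps hcu
  have hNc : N c = N c / Au * Au := by field_simp
  exact gc26_alpha_rel al N V1 V2 V3 Vinf V0 An Bn nB hnB hAB hAinf hB3 hthr1 hthr2 hthr3 hloc
    hal3 hO1 hO2 q (N c / Au) Au tinf t0 c hη hNc htinf ht0 hAuinf hAu0 hc3 hN1 hN2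
    b1 b2 b3 hb1 hb2 hb3 hcb1 hcb2 hcb3

/-- **Arithmetic of the two relations, field form** (`d = q - 1`). -/
theorem gc26_arith_field {κ : Type*} [Field κ] (d : ℕ) (l1 l2 l3 τi τ0 σi σ0 w1 w2 : κ)
    (hl2 : l2 ≠ 0) (hl3 : l3 ≠ 0) (hτi : τi ≠ 0) (hσi : σi ≠ 0) (hσ0 : σ0 ≠ 0)
    (hα : l1 * l2 ^ d * τ0 = l3 ^ (d + 1) * τi)
    (hβ : l3 * l2 ^ d * σi = l1 ^ (d + 1) * σ0)
    (hw1 : w1 * (τi * σi) ^ d = (τ0 * σ0) ^ d)
    (hw2 : w2 * (τi ^ (d + 1) * σ0) = τ0 ^ (d + 1) * σi) :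
    l1 ^ ((d + 2) * d) * w1 = l3 ^ ((d + 2) * d) ∧
      l2 ^ ((d + 2) * d) * w2 = l3 ^ ((d + 2) * d) := by
  have hA : l1 ^ (d + 2) * (τ0 * σ0) = l3 ^ (d + 2) * (τi * σi) := by
    apply mul_left_cancel₀ (pow_ne_zero d hl2)
    linear_combination (l1 ^ (d + 1) * σ0) * hα - (l3 ^ (d + 1) * τi) * hβ
  have hAd : (l1 ^ (d + 2)) ^ d * (τ0 * σ0) ^ d = (l3 ^ (d + 2)) ^ d * (τi * σi) ^ d := by
    rw [← mul_pow, ← mul_pow, hA]
  have hαp : (l1 * l2 ^ d * τ0) ^ (d + 2) = (l3 ^ (d + 1) * τi) ^ (d + 2) := by rw [hα]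
  constructor
  · apply mul_right_cancel₀ (pow_ne_zero d (mul_ne_zero hτi hσi))
    rw [pow_mul, pow_mul]
    linear_combination (l1 ^ (d + 2)) ^ d * hw1 + hAd
  · have hC : l3 ^ (d + 2) * τi * (τi ^ (d + 1) * σ0) ≠ 0 :=
      mul_ne_zero (mul_ne_zero (pow_ne_zero _ hl3) hτi) (mul_ne_zero (pow_ne_zero _ hτi) hσ0)
    apply mul_right_cancel₀ hC
    linear_combination ((l2 ^ d) ^ (d + 2) * l3 ^ (d + 2) * τi) * hw2
      - ((l2 ^ d) ^ (d + 2) * τ0 ^ (d + 1)) * hA + σ0 * hαp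

/-- **Arithmetic of the two relations modulo a prime ideal** (`d = q - 1`): the root
`c ^ ((d+2) d) * θ'` of the twisted unit has ONE common value. -/
theorem gc26_arith {B : Type*} [CommRing B] (P : Ideal B) [P.IsPrime] (d : ℕ)
    (b1 b2 b3 Ti T0 Si S0 w1 w2 : B)
    (hb2 : b2 ∉ P) (hb3 : b3 ∉ P) (hTi : Ti ∉ P) (hSi : Si ∉ P) (hS0 : S0 ∉ P)
    (hα : b1 * b2 ^ d * T0 - b3 ^ (d + 1) * Ti ∈ P)
    (hβ : b3 * b2 ^ d * Si - b1 ^ (d + 1) * S0 ∈ P)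
    (hw1 : w1 * (Ti * Si) ^ d - (T0 * S0) ^ d ∈ P)
    (hw2 : w2 * (Ti ^ (d + 1) * S0) - T0 ^ (d + 1) * Si ∈ P) :
    b1 ^ ((d + 2) * d) * w1 - b3 ^ ((d + 2) * d) ∈ P ∧
      b2 ^ ((d + 2) * d) * w2 - b3 ^ ((d + 2) * d) ∈ P := by
  set f : B →+* FractionRing (B ⧸ P) :=
    (algebraMap (B ⧸ P) (FractionRing (B ⧸ P))).comp (Ideal.Quotient.mk P) with hf
  have hf0 : ∀ x : B, f x = 0 ↔ x ∈ P := by
    intro x
    rw [hf, RingHom.comp_apply, map_eq_zero_iff _ (IsFractionRing.injective (B ⧸ P) _),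
      Ideal.Quotient.eq_zero_iff_mem]
  have hne : ∀ x : B, x ∉ P → f x ≠ 0 := fun x hx h => hx ((hf0 x).mp h)
  have heq : ∀ x y : B, x - y ∈ P → f x = f y := by
    intro x y h
    have := (hf0 (x - y)).mpr h
    rwa [map_sub, sub_eq_zero] at this
  have key := gc26_arith_field d (f b1) (f b2) (f b3) (f Ti) (f T0) (f Si) (f S0) (f w1) (f w2)
    (hne _ hb2) (hne _ hb3) (hne _ hTi) (hne _ hSi) (hne _ hS0)
    (by simpa using heq _ _ hα) (by simpa using heq _ _ hβ)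
    (by simpa using heq _ _ hw1) (by simpa using heq _ _ hw2)
  constructor
  · rw [← hf0, map_sub, sub_eq_zero]
    simpa using key.1
  · rw [← hf0, map_sub, sub_eq_zero]
    simpa using key.2

end Fermat.Agent.S36
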