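import Mathlib
import Fermat.Agent.S34.SpecFibre79
import Fermat.Agent.S36.GlueConst26

/-!
# S36 lab, row 603 (B3-glue), helper84: the local datum at a closed point by Nakayama gluing

Abstract (Mathlib + the `sf79_*` shapes of `S34/SpecFibre79` + the `s34i47_*` shapes of
`S34/Iface47` + the congruence calculus `gc26_*` of `S36/GlueConst26`).

`B` a chart inside finitely many valuation rings `V i` of `F` (the vertical valuations: any
number, any ramification), saturated in `⨅ V i`; `n` a closed point of the special fibre.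
The branch of `V i` passes through `n` when `sf79_OnBr π B (V i).toSubring n`.

**`ld84_datum_at`** (paragraph 7 of the working text #2863).  Let `u ≡ 1 mod π V i` for all `i`
and let `c ≠ 0` be a local `m`-th root of `u` at `n`: a unit along every branch through `n`
with `u / c ^ m` a unit of every horizontal `O` through `n`.  Suppose
* the residue of `c` on every branch through `n` lifts to `B_n`
  (`∃ b ∈ B_n, (V i).valuation (c - b) < 1`: the branch ring `B_n / p_i` is root closed), and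
* the lifts on two different branches through `n` agree modulo `n B_n` (the common value:
  paragraph 6; void at a one-branch point).
Then there is `φ ≡ 1 mod π V i` for ALL `i` with `φ ^ m * u` regular at `n`.

Proof.  `ε := u / c ^ m` is a unit of `B_n` (Krull + saturation localised at `n`).  In
`Q = ∏_{i through n} V i / π`, the element `c / l` (`l` a lift of the common value) satisfies
`(c / l) ^ m = 1 / (ε l ^ m) ∈ B_n` and `∏ (c / l - b i / l) ^ e i = 0`, `b i / l ≡ 1`; the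
Nakayama gluing lemma gives `η₁ ∈ B_n` with `η₁ ≡ c mod π V i` for the `V i` through `n`.
Density of `B_n` at the `V j` not through `n` corrects `η₁` to `η ∈ B_n`, `η ≡ c mod π c V j`
for all `j`; `φ := η / c`, `φ ^ m * u = η ^ m * ε ∈ B_n`.

* `ld84_root_mem`, `ld84_glue`: the Nakayama gluing lemma, abstract and field form.  These two
  are the statements and proofs of helper47 (`gl47_root_mem`, `gl47_glue`, file `GlueNak47` on
  branch `helper47`), repeated here under the names of this seat so that this file only depends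
  on files of `main`.
* `ld84_isLocalRing`: `B_n` (as the subring `sf79_loc B n` of `F`) is a local ring, with
  non-units `sf79_nmem B n`.
* `ld84_dense`: simultaneous density of `B_n` at the valuations not through `n`.
* `ld84_datum_at`: the datum at one point.
* `ld84_localDatum`: the literal `s34i47_LocalDatum π m W B u` from a root datum at every point.
-/

set_option autoImplicit false

namespace Fermat.Agent.S36

open IsLocalRing Fermat.Agent.S34

/-- **Nakayama gluing lemma, abstract form.** -/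
theorem ld84_root_mem {A Q : Type*} [CommRing A] [IsLocalRing A] [CommRing Q] [Algebra A Q]
    (c : Q) (m : ℕ) (hm : IsUnit (m : A)) (a : A) (ha : a - 1 ∈ maximalIdeal A)
    (hc : c ^ m = algebraMap A Q a)
    {ι : Type*} (s : Finset ι) (b : ι → A) (k : ι → ℕ)
    (hb : ∀ i ∈ s, b i - 1 ∈ maximalIdeal A)
    (hprod : ∏ i ∈ s, (c - algebraMap A Q (b i)) ^ k i = 0) :
    ∃ a' : A, a' - 1 ∈ maximalIdeal A ∧ algebraMap A Q a' = c := by
  classical
  have hm0 : m ≠ 0 := by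
    rintro rfl
    simp at hm
  set R : Subalgebra A Q := Algebra.adjoin A {c} with hR
  have hcR : c ∈ R := Algebra.subset_adjoin (Set.mem_singleton c)
  set c' : R := ⟨c, hcR⟩ with hc'
  set J : Ideal R := (maximalIdeal A).map (algebraMap A R) with hJ
  have hmk : ∀ t : A, t - 1 ∈ maximalIdeal A →
      Ideal.Quotient.mk J (algebraMap A R t) = 1 := by
    intro t ht
    rw [← map_one (Ideal.Quotient.mk J), Ideal.Quotient.eq]
    have e : algebraMap A R t - 1 = algebraMap A R (t - 1) := by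
      rw [map_sub, map_one]
    rw [e]
    exact Ideal.mem_map_of_mem _ ht
  set x : R ⧸ J := Ideal.Quotient.mk J c' with hx
  have hxm : x ^ m = 1 := by
    have e : c' ^ m = algebraMap A R a := Subtype.ext (by simpa using hc)
    rw [hx, ← map_pow, e]
    exact hmk a ha
  have hnil : IsNilpotent (x - 1) := by
    refine ⟨∑ i ∈ s, k i, ?_⟩
    have h0 : ∏ i ∈ s, (c' - algebraMap A R (b i)) ^ k i = 0 := by
      apply Subtype.ext
      simpa using hprod
    have h1 := congrArg (Ideal.Quotient.mk J) h0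
    rw [map_prod, map_zero] at h1
    rw [← Finset.prod_pow_eq_pow_sum, ← h1]
    refine Finset.prod_congr rfl (fun i hi => ?_)
    rw [map_pow, map_sub, hmk (b i) (hb i hi)]
  have hmu : IsUnit ((m : ℕ) : R ⧸ J) := by
    have := hm.map (algebraMap A (R ⧸ J))
    simpa using this
  have hgu : IsUnit (∑ i ∈ Finset.range m, x ^ i) := by
    have e : ∑ i ∈ Finset.range m, x ^ i =
        ((m : ℕ) : R ⧸ J) + ∑ i ∈ Finset.range m, (x ^ i - 1) := by
      rw [Finset.sum_sub_distrib]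
      simp
    rw [e]
    have hn : IsNilpotent (∑ i ∈ Finset.range m, (x ^ i - 1)) := by
      refine isNilpotent_sum (fun i _ => ?_)
      have e2 : x ^ i - 1 = (x - 1) * ∑ j ∈ Finset.range i, x ^ j := by
        rw [mul_comm, geom_sum_mul]
      rw [e2]
      exact (Commute.all _ _).isNilpotent_mul_right hnil
    exact hn.isUnit_add_left_of_commute hmu (Commute.all _ _)
  have hx1 : x - 1 = 0 := by
    have e : (∑ i ∈ Finset.range m, x ^ i) * (x - 1) = 0 := by
      rw [geom_sum_mul, hxm, sub_self]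
    exact (hgu.mul_right_eq_zero).mp e
  have hcJ : c' - 1 ∈ J := by
    rw [← Ideal.Quotient.eq_zero_iff_mem, map_sub, map_one]
    exact hx1
  -- every element of `R` is congruent to an element of `A` modulo `J`
  have key : ∀ (y : Q) (hy : y ∈ R), ∃ t : A, (⟨y, hy⟩ : R) - algebraMap A R t ∈ J := by
    intro y hy
    induction hy using Algebra.adjoin_induction with
    | mem y hy =>
      refine ⟨1, ?_⟩
      have : y = c := hy
      subst this
      rw [map_one]
      exact hcJ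
    | algebraMap r =>
      refine ⟨r, ?_⟩
      have : (⟨algebraMap A Q r, R.algebraMap_mem r⟩ : R) = algebraMap A R r := rfl
      rw [this, sub_self]
      exact J.zero_mem
    | add y z hy hz ihy ihz =>
      obtain ⟨t1, h1⟩ := ihy
      obtain ⟨t2, h2⟩ := ihz
      refine ⟨t1 + t2, ?_⟩
      have e : (⟨y + z, R.add_mem hy hz⟩ : R) - algebraMap A R (t1 + t2) =
          ((⟨y, hy⟩ : R) - algebraMap A R t1) + ((⟨z, hz⟩ : R) - algebraMap A R t2) := by
        rw [map_add]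
        apply Subtype.ext
        simp only [Subalgebra.coe_sub, Subalgebra.coe_add]
        ring
      rw [e]
      exact J.add_mem h1 h2
    | mul y z hy hz ihy ihz =>
      obtain ⟨t1, h1⟩ := ihy
      obtain ⟨t2, h2⟩ := ihz
      refine ⟨t1 * t2, ?_⟩
      have e : (⟨y * z, R.mul_mem hy hz⟩ : R) - algebraMap A R (t1 * t2) =
          ((⟨y, hy⟩ : R) - algebraMap A R t1) * ⟨z, hz⟩ +
            algebraMap A R t1 * ((⟨z, hz⟩ : R) - algebraMap A R t2) := by
        rw [map_mul]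
        apply Subtype.ext
        simp only [Subalgebra.coe_sub, Subalgebra.coe_add, Subalgebra.coe_mul]
        ring
      rw [e]
      exact J.add_mem (J.mul_mem_right _ h1) (J.mul_mem_left _ h2)
  -- `R` is a finite `A`-module
  have hint : IsIntegral A c := by
    refine ⟨Polynomial.X ^ m - Polynomial.C a, Polynomial.monic_X_pow_sub_C a hm0, ?_⟩
    simp [hc]
  have hfg : (⊤ : Submodule A R).FG := by
    have h1 : (Algebra.adjoin A {c}).toSubmodule.FG := hint.fg_adjoin_singleton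
    have h2 : Module.Finite A R := Module.Finite.of_fg h1
    exact Module.finite_def.mp h2
  -- Nakayama
  have htop : (⊤ : Submodule A R) ≤ Submodule.span A {(1 : R)} := by
    refine Submodule.le_of_le_smul_of_le_jacobson_bot (I := maximalIdeal A) hfg
      (IsLocalRing.maximalIdeal_le_jacobson ⊥) ?_
    intro r _
    obtain ⟨t, ht⟩ := key r.1 r.2
    have e : r = algebraMap A R t + (r - algebraMap A R t) := by ring
    rw [e]
    refine Submodule.add_mem_sup ?_ ?_
    · rw [Algebra.algebraMap_eq_smul_one]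
      exact Submodule.smul_mem _ _ (Submodule.subset_span (Set.mem_singleton _))
    · rw [Ideal.smul_top_eq_map]
      exact ht
  have hcs : c' ∈ Submodule.span A {(1 : R)} := htop Submodule.mem_top
  obtain ⟨t, ht⟩ := Submodule.mem_span_singleton.mp hcs
  have htc : algebraMap A Q t = c := by
    have := congrArg (fun z : R => (z : Q)) ht
    simpa [Algebra.algebraMap_eq_smul_one] using this
  by_cases h10 : (1 : Q) = 0
  · refine ⟨1, by simp, ?_⟩
    have : ∀ z w : Q, z = w := fun z w => by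
      rw [← mul_one z, ← mul_one w, h10, mul_zero, mul_zero]
    exact this _ _
  · refine ⟨t, ?_, htc⟩
    by_contra hnot
    have hu : ∀ i ∈ s, IsUnit (t - b i) := by
      intro i hi
      by_contra hnu
      have h1 : t - b i ∈ maximalIdeal A := (IsLocalRing.mem_maximalIdeal _).mpr hnu
      have h2 : t - 1 = (t - b i) + (b i - 1) := by ring
      exact hnot (h2 ▸ (maximalIdeal A).add_mem h1 (hb i hi))
    have hU : IsUnit (∏ i ∈ s, (t - b i) ^ k i) := by
      rw [IsUnit.prod_iff]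
      intro i hi
      exact (hu i hi).pow _
    have h0 : algebraMap A Q (∏ i ∈ s, (t - b i) ^ k i) = 0 := by
      rw [map_prod, ← hprod]
      refine Finset.prod_congr rfl (fun i _ => ?_)
      rw [map_pow, map_sub, htc]
    have := (hU.map (algebraMap A Q))
    rw [h0] at this
    exact h10 (isUnit_zero_iff.mp this).symm

/-- **Nakayama gluing lemma, field form.**  `Bn ⊆ F` a local subring (the local ring of the
chart at a closed point `n`), `π ∈ 𝔪(Bn)`, `V i` finitely many valuation subrings of `F`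
containing `Bn` (the vertical valuations through `n`).  Let `c ∈ ⋂ V i` with
`c ^ m ≡ a mod π V i` for some `a ∈ Bn`, `a ≡ 1 mod 𝔪(Bn)`, `m` invertible in `Bn`, and suppose
that for each `i` there is `b i ∈ Bn`, `b i ≡ 1 mod 𝔪(Bn)`, with `(c - b i) ^ k ∈ π V i` for
some `k` (i.e. `c ≡ b i` modulo the maximal ideal of `V i`: the residue of `c` on the `i`-th
branch lies in `Bn / p_i` and has the value `1` at `n`).  Then there is `e ∈ Bn`,
`e ≡ 1 mod 𝔪(Bn)`, with `c ≡ e mod π V i` for every `i`. -/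
theorem ld84_glue {F : Type*} [Field F] (Bn : Subring F) [IsLocalRing Bn]
    (π : F) (hπ0 : π ≠ 0) (hπ : π ∈ Bn) (hπn : (⟨π, hπ⟩ : Bn) ∈ maximalIdeal Bn)
    {ι : Type*} [Finite ι] (V : ι → ValuationSubring F) (hBV : ∀ i, ∀ x ∈ Bn, x ∈ V i)
    (m : ℕ) (hm : ∃ μ ∈ Bn, (m : F) * μ = 1)
    (c a : F) (hcV : ∀ i, c ∈ V i) (ha : a ∈ Bn)
    (ha1 : (⟨a, ha⟩ : Bn) - 1 ∈ maximalIdeal Bn)
    (hcm : ∀ i, π⁻¹ * (c ^ m - a) ∈ V i)
    (b : ι → F) (hb : ∀ i, b i ∈ Bn)
    (hb1 : ∀ i, (⟨b i, hb i⟩ : Bn) - 1 ∈ maximalIdeal Bn)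
    (hcb : ∀ i, ∃ k : ℕ, π⁻¹ * (c - b i) ^ k ∈ V i) :
    ∃ (e : F) (he : e ∈ Bn), (⟨e, he⟩ : Bn) - 1 ∈ maximalIdeal Bn ∧
      ∀ i, π⁻¹ * (c - e) ∈ V i := by
  classical
  have : Fintype ι := Fintype.ofFinite ι
  set I : Ideal Bn := Ideal.span {(⟨π, hπ⟩ : Bn)} with hI
  have hIm : I ≤ maximalIdeal Bn := by
    rw [hI, Ideal.span_le]
    intro x hx
    have : x = ⟨π, hπ⟩ := hx
    rw [this]
    exact hπn
  have hItop : I ≠ ⊤ := fun h => (IsLocalRing.maximalIdeal.isMaximal Bn).ne_top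
    (top_le_iff.mp (h ▸ hIm))
  have : Nontrivial (Bn ⧸ I) := Ideal.Quotient.nontrivial_iff.mpr hItop
  have : IsLocalRing (Bn ⧸ I) :=
    IsLocalRing.of_surjective' (Ideal.Quotient.mk I) Ideal.Quotient.mk_surjective
  have : IsLocalHom (Ideal.Quotient.mk I) :=
    IsLocalHom.of_surjective (Ideal.Quotient.mk I) Ideal.Quotient.mk_surjective
  -- the target `Q = ∏ V i / π`
  let Ii : ∀ i, Ideal (V i) := fun i => Ideal.span {(⟨π, hBV i π hπ⟩ : V i)}
  have hmemI : ∀ (i : ι) (y : F) (hy : y ∈ V i), π⁻¹ * y ∈ V i → (⟨y, hy⟩ : V i) ∈ Ii i := by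
    intro i y hy h
    refine Ideal.mem_span_singleton'.mpr ⟨⟨π⁻¹ * y, h⟩, ?_⟩
    apply Subtype.ext
    show π⁻¹ * y * π = y
    field_simp
  have hIimem : ∀ (i : ι) (y : V i), y ∈ Ii i → π⁻¹ * (y : F) ∈ V i := by
    intro i y hy
    obtain ⟨z, hz⟩ := Ideal.mem_span_singleton'.mp hy
    have : (y : F) = (z : F) * π := by rw [← hz]; rfl
    rw [this]
    have e : π⁻¹ * ((z : F) * π) = (z : F) := by field_simp
    rw [e]
    exact z.2
  let f : Bn →+* ((i : ι) → (V i) ⧸ Ii i) :=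
    RingHom.pi (fun i => (Ideal.Quotient.mk (Ii i)).comp
      (Subring.inclusion (fun x hx => hBV i x hx : Bn ≤ (V i).toSubring)))
  have hfπ : ∀ x ∈ I, f x = 0 := by
    intro x hx
    obtain ⟨z, hz⟩ := Ideal.mem_span_singleton'.mp hx
    funext i
    show Ideal.Quotient.mk (Ii i) (Subring.inclusion _ x) = 0
    rw [Ideal.Quotient.eq_zero_iff_mem]
    refine Ideal.mem_span_singleton'.mpr ⟨⟨(z : F), hBV i _ z.2⟩, ?_⟩
    apply Subtype.ext
    rw [← hz]
    rfl
  let : Algebra (Bn ⧸ I) ((i : ι) → (V i) ⧸ Ii i) := (Ideal.Quotient.lift I f hfπ).toAlgebra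
  have halg : ∀ (x : F) (hx : x ∈ Bn) (i : ι),
      algebraMap (Bn ⧸ I) ((i : ι) → (V i) ⧸ Ii i) (Ideal.Quotient.mk I ⟨x, hx⟩) i =
        Ideal.Quotient.mk (Ii i) ⟨x, hBV i x hx⟩ := fun x hx i => rfl
  -- the element `c`
  let cQ : (i : ι) → (V i) ⧸ Ii i := fun i => Ideal.Quotient.mk (Ii i) ⟨c, hcV i⟩
  choose k hk using hcb
  obtain ⟨μ, hμB, hμ⟩ := hm
  have hmu : IsUnit ((m : ℕ) : Bn ⧸ I) := by
    refine IsUnit.of_mul_eq_one (Ideal.Quotient.mk I ⟨μ, hμB⟩) ?_
    have : ((m : ℕ) : Bn) * ⟨μ, hμB⟩ = 1 := by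
      apply Subtype.ext
      simpa using hμ
    rw [← map_natCast (Ideal.Quotient.mk I), ← map_mul, this, map_one]
  obtain ⟨a', ha', hca'⟩ := ld84_root_mem (A := Bn ⧸ I) (Q := (i : ι) → (V i) ⧸ Ii i)
    cQ m hmu (Ideal.Quotient.mk I ⟨a, ha⟩)
    (by
      have := map_nonunit (Ideal.Quotient.mk I) _ ha1
      simpa using this)
    (by
      funext i
      rw [halg a ha i]
      show (Ideal.Quotient.mk (Ii i) ⟨c, hcV i⟩) ^ m = _
      rw [← map_pow, Ideal.Quotient.eq]
      have hcmV : c ^ m - a ∈ V i := (V i).sub_mem ((V i).pow_mem (hcV i) m) (hBV i a ha)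
      have := hmemI i (c ^ m - a) hcmV (hcm i)
      exact this)
    Finset.univ (fun i => Ideal.Quotient.mk I ⟨b i, hb i⟩) k
    (fun i _ => by
      have := map_nonunit (Ideal.Quotient.mk I) _ (hb1 i)
      simpa using this)
    (by
      funext j
      rw [Finset.prod_apply]
      refine Finset.prod_eq_zero (Finset.mem_univ j) ?_
      show (cQ j - algebraMap (Bn ⧸ I) ((i : ι) → (V i) ⧸ Ii i)
        (Ideal.Quotient.mk I ⟨b j, hb j⟩) j) ^ k j = 0
      rw [halg (b j) (hb j) j]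
      show (Ideal.Quotient.mk (Ii j) ⟨c, hcV j⟩ - _) ^ k j = 0
      rw [← map_sub, ← map_pow, Ideal.Quotient.eq_zero_iff_mem]
      have hV : (c - b j) ^ k j ∈ V j :=
        (V j).pow_mem ((V j).sub_mem (hcV j) (hBV j _ (hb j))) _
      exact hmemI j ((c - b j) ^ k j) hV (hk j))
  obtain ⟨e, rfl⟩ := Ideal.Quotient.mk_surjective a'
  refine ⟨(e : F), e.2, ?_, ?_⟩
  · by_contra hnot
    have hu : IsUnit ((⟨(e : F), e.2⟩ : Bn) - 1) := by
      by_contra h
      exact hnot ((IsLocalRing.mem_maximalIdeal _).mpr h)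
    have : IsUnit (Ideal.Quotient.mk I e - 1) := by
      have := hu.map (Ideal.Quotient.mk I)
      simpa using this
    exact ((IsLocalRing.mem_maximalIdeal _).mp ha') this
  · intro i
    have h1 := congrFun hca' i
    rw [halg (e : F) e.2 i] at h1
    have h2 : Ideal.Quotient.mk (Ii i) ⟨c, hcV i⟩ = Ideal.Quotient.mk (Ii i) ⟨(e : F), hBV i _ e.2⟩ :=
      h1.symm
    rw [Ideal.Quotient.eq] at h2
    exact hIimem i _ h2

section LD84

variable {R F : Type*} [CommRing R] [Field F] [Algebra R F]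

/-! ### The local ring `B_n` inside `F` -/

theorem ld84_nmem_zero (B : Subalgebra R F) (n : Ideal B) [hn : n.IsPrime] :
    sf79_nmem B n (0 : F) :=
  ⟨1, (Ideal.ne_top_iff_one n).mp hn.ne_top, 0, n.zero_mem, by simp⟩

/-- An element of `B_n` outside `n B_n` is a unit of `B_n`. -/
theorem ld84_inv_mem_loc (B : Subalgebra R F) (n : Ideal B) [hn : n.IsPrime] (x : F)
    (hx : x ∈ sf79_loc B n) (hxn : ¬ sf79_nmem B n x) : x⁻¹ ∈ sf79_loc B n := by
  obtain ⟨s, hs, hsx⟩ := hx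
  have hbn : (⟨_, hsx⟩ : B) ∉ n := fun h => hxn ⟨s, hs, ⟨_, hsx⟩, h, rfl⟩
  have hx0 : x ≠ 0 := by
    rintro rfl
    exact hxn (ld84_nmem_zero B n)
  refine ⟨⟨_, hsx⟩, hbn, ?_⟩
  show (s : F) * x * x⁻¹ ∈ B
  rw [mul_assoc, mul_inv_cancel₀ hx0, mul_one]
  exact s.2

/-- The non-units of `B_n` are the elements of `n B_n`. -/
theorem ld84_not_isUnit_iff (B : Subalgebra R F) (n : Ideal B) [hn : n.IsPrime]
    (a : sf79_loc B n) : ¬ IsUnit a ↔ sf79_nmem B n (a : F) := by
  constructor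
  · intro hu
    by_contra hN
    apply hu
    have hinv := ld84_inv_mem_loc B n a a.2 hN
    have ha0 : (a : F) ≠ 0 := by
      intro h0
      apply hN
      rw [h0]
      exact ld84_nmem_zero B n
    exact IsUnit.of_mul_eq_one ⟨_, hinv⟩ (Subtype.ext (mul_inv_cancel₀ ha0))
  · intro hN hu
    obtain ⟨b, hb⟩ := hu.exists_right_inv
    have h2 : (b : F) * (a : F) = 1 := by
      have := congrArg (fun z : sf79_loc B n => (z : F)) hb
      rw [mul_comm]
      simpa using this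
    have h1 : sf79_nmem B n ((b : F) * (a : F)) := sf79_nmem_mul B n _ _ b.2 hN
    rw [h2] at h1
    exact sf79_not_nmem_one B n h1

/-- `B_n` is a local ring. -/
theorem ld84_isLocalRing (B : Subalgebra R F) (n : Ideal B) [hn : n.IsPrime] :
    IsLocalRing (sf79_loc B n) := by
  have : Nontrivial (sf79_loc B n) := ⟨⟨0, 1, fun h => by
    have := congrArg (fun z : sf79_loc B n => (z : F)) h
    simp at this⟩⟩
  refine IsLocalRing.of_nonunits_add ?_
  intro a b ha hb
  rw [mem_nonunits_iff] at ha hb ⊢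
  rw [ld84_not_isUnit_iff] at ha hb ⊢
  exact sf79_nmem_add B n _ _ ha hb

/-! ### Valuation helpers -/

theorem ld84_val_unif (V : ValuationSubring F) (p : F) (hp : p⁻¹ ∉ V) : V.valuation p < 1 := by
  have h1 : 1 < V.valuation p⁻¹ := not_le.mp (fun h => hp ((V.valuation_le_one_iff _).mp h))
  rw [map_inv₀] at h1
  have hp0 : V.valuation p ≠ 0 := by
    intro h0
    rw [h0, inv_zero] at h1
    exact absurd h1 (by simp)
  exact (one_lt_inv₀ (zero_lt_iff.mpr hp0)).mp h1

/-- `x ∈ π V` ⟹ `x ∈ 𝔪(V)`. -/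
theorem ld84_val_lt (V : ValuationSubring F) (p x : F) (hp : p⁻¹ ∉ V) (hx : p⁻¹ * x ∈ V) :
    V.valuation x < 1 := by
  have hp0 : p ≠ 0 := by
    rintro rfl
    exact hp (by rw [inv_zero]; exact zero_mem _)
  have e : x = (p⁻¹ * x) * p := by field_simp
  rw [e]
  exact gc26_mul V hx (ld84_val_unif V p hp)

/-- `(1 + x)⁻¹ ∈ V` for `x ∈ 𝔪(V)`. -/
theorem ld84_one_add_inv (V : ValuationSubring F) (x : F) (hx : V.valuation x < 1) :
    (1 + x)⁻¹ ∈ V := by
  rw [← V.valuation_le_one_iff, map_inv₀, V.valuation.map_one_add_of_lt hx, inv_one]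

/-- No nonzero element of `𝔪(V)` has its inverse in `V`. -/
theorem ld84_inv_not_mem (V : ValuationSubring F) (x : F) (hx : V.valuation x < 1)
    (hx0 : x ≠ 0) : x⁻¹ ∉ V := by
  intro h
  have h2 := (V.valuation_le_one_iff x⁻¹).mpr h
  rw [map_inv₀] at h2
  have h0 : V.valuation x ≠ 0 := (map_ne_zero _).mpr hx0
  exact absurd ((inv_le_one₀ (zero_lt_iff.mpr h0)).mp h2) (not_le.mpr hx)

/-- `u ≡ 1 mod π V` ⟹ `u` is a unit of `V`. -/
theorem ld84_unit_of_congr (V : ValuationSubring F) (p u : F) (hp : p⁻¹ ∉ V)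
    (hu : p⁻¹ * (u - 1) ∈ V) : u ∈ V ∧ u⁻¹ ∈ V := by
  have h1 : V.valuation (u - 1) < 1 := ld84_val_lt V p _ hp hu
  have e : u = 1 + (u - 1) := by ring
  constructor
  · rw [e]; exact add_mem (one_mem _) (gc26_mem V h1)
  · rw [e]; exact ld84_one_add_inv V _ h1

/-! ### Branches through `n` -/

/-- Elements of `B` outside `n` are units of a valuation ring whose branch passes through `n`
(`hram`: a power of `𝔪(V)` lies in `π V`). -/
theorem ld84_inv_mem_of_on (π : R) (B : Subalgebra R F) (V : ValuationSubring F)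
    (hB : ∀ x ∈ B, x ∈ V) (e : ℕ)
    (hram : ∀ x : F, V.valuation x < 1 → (algebraMap R F π)⁻¹ * x ^ e ∈ V)
    (n : Ideal B) [hn : n.IsPrime] (hOn : sf79_OnBr π B V.toSubring n) (s : B) (hs : s ∉ n) :
    (s : F)⁻¹ ∈ V := by
  have h1 : V.valuation (s : F) ≤ 1 := (V.valuation_le_one_iff _).mpr (hB _ s.2)
  rcases lt_or_eq_of_le h1 with h | h
  · exfalso
    apply hs
    apply hn.mem_of_pow_mem e
    apply hOn
    have e1 : ((s ^ e : B) : F) = (s : F) ^ e := rfl
    rw [e1]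
    exact hram _ h
  · rw [← V.valuation_le_one_iff, map_inv₀, h, inv_one]

/-- `B_n ⊆ V` for a branch through `n`. -/
theorem ld84_loc_le_of_on (π : R) (B : Subalgebra R F) (V : ValuationSubring F)
    (hB : ∀ x ∈ B, x ∈ V) (e : ℕ)
    (hram : ∀ x : F, V.valuation x < 1 → (algebraMap R F π)⁻¹ * x ^ e ∈ V)
    (n : Ideal B) [hn : n.IsPrime] (hOn : sf79_OnBr π B V.toSubring n) (x : F)
    (hx : x ∈ sf79_loc B n) : x ∈ V := by
  obtain ⟨s, hs, hsx⟩ := hx
  have h1 := ld84_inv_mem_of_on π B V hB e hram n hOn s hs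
  have h2 : x = (s : F)⁻¹ * ((s : F) * x) := by
    rw [← mul_assoc, inv_mul_cancel₀ (sf79_ne_zero B n s hs), one_mul]
  rw [h2]
  exact mul_mem h1 (hB _ hsx)

/-- The centre of a valuation ring containing `B_n`: `B_n ∩ 𝔪(V) ⊆ n B_n`. -/
theorem ld84_center (B : Subalgebra R F) (V : ValuationSubring F) (n : Ideal B) [hn : n.IsPrime]
    (hAV : ∀ x ∈ sf79_loc B n, x ∈ V) (x : F) (hx : x ∈ sf79_loc B n)
    (hv : V.valuation x < 1) : sf79_nmem B n x := by
  by_contra hN
  have hx0 : x ≠ 0 := by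
    rintro rfl
    exact hN (ld84_nmem_zero B n)
  exact ld84_inv_not_mem V x hv hx0 (hAV _ (ld84_inv_mem_loc B n x hx hN))

/-- One element of `B` outside `n` which is divisible by `π` along every branch not through
`n`. -/
theorem ld84_off_common {ι : Type*} [Fintype ι] (π : R) (B : Subalgebra R F)
    (V : ι → ValuationSubring F) (hB : ∀ i, ∀ x ∈ B, x ∈ V i) (n : Ideal B) [hn : n.IsPrime] :
    ∃ t : B, t ∉ n ∧ ∀ j, ¬ sf79_OnBr π B (V j).toSubring n →
      (algebraMap R F π)⁻¹ * (t : F) ∈ V j := by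
  classical
  have hex : ∀ j, ∃ t : B, ¬ sf79_OnBr π B (V j).toSubring n →
      (t ∉ n ∧ (algebraMap R F π)⁻¹ * (t : F) ∈ V j) := by
    intro j
    by_cases h : sf79_OnBr π B (V j).toSubring n
    · exact ⟨1, fun h' => absurd h h'⟩
    · obtain ⟨t, ht⟩ := not_forall.mp h
      obtain ⟨htV, htn⟩ := Classical.not_imp.mp ht
      exact ⟨t, fun _ => ⟨htn, htV⟩⟩
  choose t ht using hex
  refine ⟨∏ j ∈ Finset.univ.filter (fun j => ¬ sf79_OnBr π B (V j).toSubring n), t j, ?_, ?_⟩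
  · intro h
    obtain ⟨j, hj, hjn⟩ := (Ideal.IsPrime.prod_mem_iff).mp h
    exact (ht j (Finset.mem_filter.mp hj).2).1 hjn
  · intro j hj
    have hmem : j ∈ Finset.univ.filter (fun j => ¬ sf79_OnBr π B (V j).toSubring n) :=
      Finset.mem_filter.mpr ⟨Finset.mem_univ j, hj⟩
    rw [← Finset.mul_prod_erase _ _ hmem]
    set r : B := ∏ x ∈ (Finset.univ.filter
      (fun j => ¬ sf79_OnBr π B (V j).toSubring n)).erase j, t x with hr
    have e : (algebraMap R F π)⁻¹ * ((t j * r : B) : F)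
        = ((algebraMap R F π)⁻¹ * (t j : F)) * (r : F) := by
      push_cast; ring
    rw [e]
    exact mul_mem (ht j hj).2 (hB j _ r.2)

/-- Saturation localised at `n`: only the branches through `n` matter. -/
theorem ld84_loc_sat {ι : Type*} (π : R) (B : Subalgebra R F)
    (V : ι → ValuationSubring F) (hB : ∀ i, ∀ x ∈ B, x ∈ V i)
    (hsat : ∀ x ∈ B, (∀ i, (algebraMap R F π)⁻¹ * x ∈ V i) → (algebraMap R F π)⁻¹ * x ∈ B)
    (n : Ideal B) [hn : n.IsPrime] (t : B) (htn : t ∉ n)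
    (ht : ∀ j, ¬ sf79_OnBr π B (V j).toSubring n → (algebraMap R F π)⁻¹ * (t : F) ∈ V j)
    (z : F) (hz : z ∈ sf79_loc B n)
    (hzV : ∀ i, sf79_OnBr π B (V i).toSubring n → (algebraMap R F π)⁻¹ * z ∈ V i) :
    (algebraMap R F π)⁻¹ * z ∈ sf79_loc B n := by
  obtain ⟨s, hs, hsz⟩ := hz
  refine ⟨t * s, fun h => (hn.mem_or_mem h).elim htn hs, ?_⟩
  have e : ((t * s : B) : F) * ((algebraMap R F π)⁻¹ * z)
      = (algebraMap R F π)⁻¹ * ((t : F) * ((s : F) * z)) := by push_cast; ring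
  rw [e]
  apply hsat _ (B.mul_mem t.2 hsz)
  intro i
  by_cases hi : sf79_OnBr π B (V i).toSubring n
  · have e' : (algebraMap R F π)⁻¹ * ((t : F) * ((s : F) * z))
        = (t : F) * ((s : F) * ((algebraMap R F π)⁻¹ * z)) := by ring
    rw [e']
    exact mul_mem (hB i _ t.2) (mul_mem (hB i _ s.2) (hzV i hi))
  · have e' : (algebraMap R F π)⁻¹ * ((t : F) * ((s : F) * z))
        = ((algebraMap R F π)⁻¹ * (t : F)) * ((s : F) * z) := by ring
    rw [e']
    exact mul_mem (ht i hi) (hB i _ hsz)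

/-- Removing a power of `π` at `n`. -/
theorem ld84_desat {ι : Type*} (π : R) (hπ0 : algebraMap R F π ≠ 0) (B : Subalgebra R F)
    (V : ι → ValuationSubring F) (hB : ∀ i, ∀ x ∈ B, x ∈ V i)
    (hsat : ∀ x ∈ B, (∀ i, (algebraMap R F π)⁻¹ * x ∈ V i) → (algebraMap R F π)⁻¹ * x ∈ B)
    (n : Ideal B) [hn : n.IsPrime] (t : B) (htn : t ∉ n)
    (ht : ∀ j, ¬ sf79_OnBr π B (V j).toSubring n → (algebraMap R F π)⁻¹ * (t : F) ∈ V j)
    (y : F) (hy : ∀ i, sf79_OnBr π B (V i).toSubring n → y ∈ V i) :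
    ∀ k : ℕ, algebraMap R F π ^ k * y ∈ sf79_loc B n → y ∈ sf79_loc B n := by
  intro k
  induction k with
  | zero => intro h; simpa using h
  | succ k ih =>
    intro h
    apply ih
    have e : algebraMap R F π ^ k * y
        = (algebraMap R F π)⁻¹ * (algebraMap R F π ^ (k + 1) * y) := by
      rw [pow_succ]; field_simp
    rw [e]
    apply ld84_loc_sat π B V hB hsat n t htn ht _ h
    intro i hi
    rw [← e]
    exact mul_mem (pow_mem (hB i _ (B.algebraMap_mem π)) k) (hy i hi)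

/-- Simultaneous density of `B_n` at the valuations not through `n` (those marked by `P`). -/
theorem ld84_dense {ι : Type*} [Fintype ι] (π : R) (hπ0 : algebraMap R F π ≠ 0)
    (B : Subalgebra R F) (V : ι → ValuationSubring F) (hB : ∀ i, ∀ x ∈ B, x ∈ V i)
    (hπV : ∀ i, (algebraMap R F π)⁻¹ ∉ V i)
    (harch : ∀ i, ∀ x : F, ∃ k : ℕ, algebraMap R F π ^ k * x ∈ V i)
    (hFrac : ∀ x : F, ∃ a ∈ B, ∃ b ∈ B, b ≠ 0 ∧ x * b = a)
    (n : Ideal B) [hn : n.IsPrime] (t : B) (htn : t ∉ n) (P : ι → Prop)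
    (ht : ∀ j, P j → (algebraMap R F π)⁻¹ * (t : F) ∈ V j) (x : F) (N : ℕ) :
    ∃ y : F, y ∈ sf79_loc B n ∧ ∀ j, P j → ((algebraMap R F π)⁻¹) ^ N * (x - y) ∈ V j := by
  obtain ⟨a, ha, b, hb, hb0, hxb⟩ := hFrac x
  by_cases hbn : (⟨b, hb⟩ : B) ∈ n
  · set p : F := algebraMap R F π with hp
    choose k1 hk1 using fun j => harch j (p⁻¹ * b⁻¹)
    choose k2 hk2 using fun j => harch j ((p⁻¹) ^ N * a * (b⁻¹ * b⁻¹))
    set K : ℕ := ∑ j, (k1 j + k2 j) with hK
    have hpV : ∀ j, p ∈ V j := fun j => hB j _ (B.algebraMap_mem π)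
    have hup : ∀ (j : ι) (k : ℕ) (z : F), k ≤ K → p ^ k * z ∈ V j → p ^ K * z ∈ V j := by
      intro j k z hk hz
      obtain ⟨r, hr⟩ := Nat.exists_eq_add_of_le hk
      have e1 : p ^ K * z = p ^ r * (p ^ k * z) := by rw [hr, pow_add]; ring
      rw [e1]
      exact mul_mem (pow_mem (hpV j) r) hz
    have hkK : ∀ j, k1 j + k2 j ≤ K := fun j =>
      Finset.single_le_sum (f := fun j => k1 j + k2 j) (fun i _ => Nat.zero_le _)
        (Finset.mem_univ j)
    set b' : B := ⟨b, hb⟩ + t ^ K with hb'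
    have hb'n : b' ∉ n := by
      intro h
      have h2 : b' - ⟨b, hb⟩ ∈ n := n.sub_mem h hbn
      have h3 : b' - ⟨b, hb⟩ = t ^ K := by rw [hb']; ring
      rw [h3] at h2
      exact htn (hn.mem_of_pow_mem _ h2)
    have hb'F : ((b' : B) : F) = b + (t : F) ^ K := rfl
    have hb'0 : ((b' : B) : F) ≠ 0 := sf79_ne_zero B n b' hb'n
    refine ⟨a * ((b' : B) : F)⁻¹, ⟨b', hb'n, ?_⟩, ?_⟩
    · have h2 : ((b' : B) : F) * (a * ((b' : B) : F)⁻¹) = a := by field_simp
      rw [h2]; exact ha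
    · intro j hj
      have ht_eq : (t : F) = p * (p⁻¹ * (t : F)) := by field_simp
      have hwV : p⁻¹ * ((t : F) ^ K * b⁻¹) ∈ V j := by
        have e : p⁻¹ * ((t : F) ^ K * b⁻¹) = (p⁻¹ * (t : F)) ^ K * (p ^ K * (p⁻¹ * b⁻¹)) := by
          rw [mul_pow, inv_pow]
          have hpK : p ^ K ≠ 0 := pow_ne_zero _ hπ0
          field_simp
        rw [e]
        exact mul_mem (pow_mem (ht j hj) K)
          (hup j (k1 j) _ ((Nat.le_add_right _ _).trans (hkK j)) (hk1 j))
      have hwv : (V j).valuation ((t : F) ^ K * b⁻¹) < 1 :=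
        ld84_val_lt (V j) p _ (hπV j) hwV
      have h1w := ld84_one_add_inv (V j) _ hwv
      have hb'w : ((b' : B) : F) = b * (1 + (t : F) ^ K * b⁻¹) := by
        rw [hb'F]; field_simp
      have h1ne : (1 + (t : F) ^ K * b⁻¹) ≠ 0 := by
        intro h0
        rw [hb'w, h0, mul_zero] at hb'0
        exact hb'0 rfl
      have hxa : x = a * b⁻¹ := by rw [← hxb]; field_simp
      have e : (p⁻¹) ^ N * (x - a * ((b' : B) : F)⁻¹)
          = (p⁻¹ * (t : F)) ^ K * (p ^ K * ((p⁻¹) ^ N * a * (b⁻¹ * b⁻¹)))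
            * (1 + (t : F) ^ K * b⁻¹)⁻¹ := by
        rw [hxa, hb'w]
        have hbt : b + (t : F) ^ K ≠ 0 := by rw [← hb'F]; exact hb'0
        have e2 : a * b⁻¹ - a * (b * (1 + (t : F) ^ K * b⁻¹))⁻¹
            = a * (b⁻¹ * b⁻¹) * (t : F) ^ K * (1 + (t : F) ^ K * b⁻¹)⁻¹ := by
          field_simp
          ring
        rw [e2, mul_pow, inv_pow, inv_pow]
        have hpK : p ^ K ≠ 0 := pow_ne_zero _ hπ0
        have hpN : p ^ N ≠ 0 := pow_ne_zero _ hπ0
        field_simp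
      rw [e]
      exact mul_mem (mul_mem (pow_mem (ht j hj) K)
        (hup j (k2 j) _ ((Nat.le_add_left _ _).trans (hkK j)) (hk2 j))) h1w
  · refine ⟨x, ⟨⟨b, hb⟩, hbn, ?_⟩, fun j _ => ?_⟩
    · show b * x ∈ B
      rw [mul_comm, hxb]; exact ha
    · rw [sub_self, mul_zero]; exact zero_mem _

/-! ### The datum at one closed point -/

/-- **Row 603 (B3-glue): the local datum at a closed point by Nakayama gluing.**
`V i` the vertical valuations (finitely many, any ramification: `hram`), `B` saturated in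
`⨅ V i`, `n` a closed point of the special fibre, `u ≡ 1 mod π V i`, and `c` a local `m`-th root
of `u` at `n` (a unit along the branches through `n`, `u / c ^ m` a unit at every horizontal
`O` through `n`) whose branch residues lift to `B_n` (`hres`) with one common value at `n`
(`hCV`, void at a one-branch point).  Then there is `φ ≡ 1 mod π V i` for all `i` with
`φ ^ m * u` regular at `n`. -/
theorem ld84_datum_at {ι : Type*} [Finite ι] (π : R) (hπ0 : algebraMap R F π ≠ 0)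
    (m : ℕ) (B : Subalgebra R F) (V : ι → ValuationSubring F)
    (hB : ∀ i, ∀ x ∈ B, x ∈ V i)
    (hπV : ∀ i, (algebraMap R F π)⁻¹ ∉ V i)
    (hsat : ∀ x ∈ B, (∀ i, (algebraMap R F π)⁻¹ * x ∈ V i) → (algebraMap R F π)⁻¹ * x ∈ B)
    (hFrac : ∀ x : F, ∃ a ∈ B, ∃ b ∈ B, b ≠ 0 ∧ x * b = a)
    (harch : ∀ i, ∀ x : F, ∃ k : ℕ, algebraMap R F π ^ k * x ∈ V i)
    (hram : ∀ i, ∃ e : ℕ, ∀ x : F, (V i).valuation x < 1 →
      (algebraMap R F π)⁻¹ * x ^ e ∈ V i)
    (n : Ideal B) (hn : n.IsMaximal) (hπn : algebraMap R B π ∈ n)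
    (hmu : ∃ μ : F, (∃ s : B, s ∉ n ∧ (s : F) * μ ∈ B) ∧ (m : F) * μ = 1)
    (hKr : ∀ x : F,
      (∀ O : ValuationSubring F, s34i47_IsHoriz π O → s34i47_Through B n O → x ∈ O) →
      ∃ s : B, s ∉ n ∧ ∃ k : ℕ, algebraMap R F π ^ k * ((s : F) * x) ∈ B)
    (u : F) (hu : ∀ i, (algebraMap R F π)⁻¹ * (u - 1) ∈ V i)
    (c : F) (hc0 : c ≠ 0)
    (hcV : ∀ i, sf79_OnBr π B (V i).toSubring n → c ∈ V i ∧ c⁻¹ ∈ V i)
    (hc : ∀ O : ValuationSubring F, s34i47_IsHoriz π O → s34i47_Through B n O →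
      u / c ^ m ∈ O ∧ c ^ m / u ∈ O)
    (hres : ∀ i, sf79_OnBr π B (V i).toSubring n →
      ∃ b : F, (∃ s : B, s ∉ n ∧ (s : F) * b ∈ B) ∧ (V i).valuation (c - b) < 1)
    (hCV : ∀ i j, sf79_OnBr π B (V i).toSubring n → sf79_OnBr π B (V j).toSubring n → i ≠ j →
      ∀ b b' : F, (∃ s : B, s ∉ n ∧ (s : F) * b ∈ B) → (∃ s : B, s ∉ n ∧ (s : F) * b' ∈ B) →
        (V i).valuation (c - b) < 1 → (V j).valuation (c - b') < 1 → sf79_nmem B n (b - b')) :
    ∃ φ : F, (∀ i, (algebraMap R F π)⁻¹ * (φ - 1) ∈ V i) ∧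
      ∃ s : B, s ∉ n ∧ (s : F) * (φ ^ m * u) ∈ B := by
  classical
  cases nonempty_fintype ι
  have hnp : n.IsPrime := hn.isPrime
  set p : F := algebraMap R F π with hp
  obtain ⟨t, htn, ht⟩ := ld84_off_common π B V hB n
  choose e he using hram
  have hAV : ∀ i, sf79_OnBr π B (V i).toSubring n → ∀ x ∈ sf79_loc B n, x ∈ V i :=
    fun i hi x hx => ld84_loc_le_of_on π B (V i) (hB i) (e i) (he i) n hi x hx
  have hpV : ∀ i, p ∈ V i := fun i => hB i _ (B.algebraMap_mem π)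
  have hpA : p ∈ sf79_loc B n := sf79_le_loc B n _ (B.algebraMap_mem π)
  have hm0 : m ≠ 0 := by
    rintro rfl
    obtain ⟨μ, -, hμ⟩ := hmu
    simp at hμ
  -- `u` is a unit of every `V i`
  have huV : ∀ i, u ∈ V i ∧ u⁻¹ ∈ V i :=
    fun i => ld84_unit_of_congr (V i) p u (hπV i) (hu i)
  have hu0 : ∀ _ : ι, u ≠ 0 := by
    intro i h0
    apply hπV i
    have e1 : p⁻¹ = -(p⁻¹ * (u - 1)) := by rw [h0]; ring
    rw [e1]; exact neg_mem (hu i)
  -- `y := u / c ^ m` is a unit of `B_n`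
  set y : F := u / c ^ m with hy
  have hcm0 : c ^ m ≠ 0 := pow_ne_zero _ hc0
  have hyV : ∀ i, sf79_OnBr π B (V i).toSubring n → y ∈ V i := by
    intro i hi
    rw [hy, div_eq_mul_inv, ← inv_pow]
    exact mul_mem (huV i).1 (pow_mem (hcV i hi).2 m)
  have hyinvV : ∀ i, sf79_OnBr π B (V i).toSubring n → y⁻¹ ∈ V i := by
    intro i hi
    rw [hy, inv_div, div_eq_mul_inv]
    exact mul_mem (pow_mem (hcV i hi).1 m) (huV i).2
  have hyA : y ∈ sf79_loc B n := by
    obtain ⟨s, hs, k, hk⟩ := hKr y (fun O hO hT => (hc O hO hT).1)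
    refine ld84_desat π hπ0 B V hB hsat n t htn ht y hyV k ⟨s, hs, ?_⟩
    have e1 : (s : F) * (p ^ k * y) = p ^ k * ((s : F) * y) := by ring
    rw [e1]; exact hk
  have hyinvA : y⁻¹ ∈ sf79_loc B n := by
    obtain ⟨s, hs, k, hk⟩ := hKr y⁻¹ (fun O hO hT => by
      rw [hy, inv_div]; exact (hc O hO hT).2)
    refine ld84_desat π hπ0 B V hB hsat n t htn ht y⁻¹ hyinvV k ⟨s, hs, ?_⟩
    have e1 : (s : F) * (p ^ k * y⁻¹) = p ^ k * ((s : F) * y⁻¹) := by ring
    rw [e1]; exact hk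
  -- the glued element on the branches through `n`
  have hglue : ∃ η₂ : F, η₂ ∈ sf79_loc B n ∧
      ∀ i, sf79_OnBr π B (V i).toSubring n → p⁻¹ * (c - η₂) ∈ V i := by
    by_cases hne : ∃ i₀, sf79_OnBr π B (V i₀).toSubring n
    · obtain ⟨i₀, hi₀⟩ := hne
      choose! b hbA hbv using hres
      have hy0 : y ≠ 0 := div_ne_zero (hu0 i₀) hcm0
      set l : F := b i₀ with hl
      have hlA : l ∈ sf79_loc B n := hbA i₀ hi₀
      -- the common value
      have hcv : ∀ i, sf79_OnBr π B (V i).toSubring n → sf79_nmem B n (b i - l) := by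
        intro i hi
        by_cases hii : i = i₀
        · rw [hl, hii, sub_self]; exact ld84_nmem_zero B n
        · exact hCV i i₀ hi hi₀ hii (b i) (b i₀) (hbA i hi) (hbA i₀ hi₀) (hbv i hi) (hbv i₀ hi₀)
      -- `c ^ m ≡ y⁻¹` modulo `π V i`
      have hcy : ∀ i, sf79_OnBr π B (V i).toSubring n → p⁻¹ * (c ^ m - y⁻¹) ∈ V i := by
        intro i hi
        have e1 : p⁻¹ * (c ^ m - y⁻¹) = c ^ m * u⁻¹ * (p⁻¹ * (u - 1)) := by
          rw [hy, inv_div]
          have := hu0 i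
          field_simp
        rw [e1]
        exact mul_mem (mul_mem (pow_mem (hcV i hi).1 m) (huV i).2) (hu i)
      -- `y⁻¹ ≡ l ^ m` modulo `n B_n`
      have hyl : sf79_nmem B n (y⁻¹ - l ^ m) := by
        apply ld84_center B (V i₀) n (hAV i₀ hi₀) _ (sub_mem hyinvA (pow_mem hlA m))
        have h1 : (V i₀).valuation (c ^ m - l ^ m) < 1 :=
          gc26_pow_congr (V i₀) (hcV i₀ hi₀).1 (hAV i₀ hi₀ _ hlA) (hbv i₀ hi₀) m
        have h2 : (V i₀).valuation (c ^ m - y⁻¹) < 1 :=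
          ld84_val_lt (V i₀) p _ (hπV i₀) (hcy i₀ hi₀)
        have e2 : y⁻¹ - l ^ m = (c ^ m - l ^ m) - (c ^ m - y⁻¹) := by ring
        rw [e2]
        exact gc26_sub (V i₀) h1 h2
      -- `l` is a unit of `B_n`
      have hlN : ¬ sf79_nmem B n l := by
        intro hN
        obtain ⟨d, rfl⟩ : ∃ d, m = d + 1 := ⟨m - 1, by omega⟩
        have h1 : sf79_nmem B n (l ^ (d + 1)) := by
          rw [pow_succ]
          exact sf79_nmem_mul B n _ _ (pow_mem hlA d) hN
        have h2 : sf79_nmem B n (y⁻¹) := by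
          have e2 : y⁻¹ = (y⁻¹ - l ^ (d + 1)) + l ^ (d + 1) := by ring
          rw [e2]
          exact sf79_nmem_add B n _ _ hyl h1
        have h3 : sf79_nmem B n (y * y⁻¹) := sf79_nmem_mul B n _ _ hyA h2
        rw [mul_inv_cancel₀ hy0] at h3
        exact sf79_not_nmem_one B n h3
      have hl0 : l ≠ 0 := by
        intro h0
        apply hlN
        rw [h0]
        exact ld84_nmem_zero B n
      have hlinvA : l⁻¹ ∈ sf79_loc B n := ld84_inv_mem_loc B n l hlA hlN
      have hlm0 : l ^ m ≠ 0 := pow_ne_zero _ hl0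
      -- the hypotheses of the gluing lemma
      have ha1 : sf79_nmem B n (y⁻¹ * (l⁻¹) ^ m - 1) := by
        have e1 : y⁻¹ * (l⁻¹) ^ m - 1 = (l⁻¹) ^ m * (y⁻¹ - l ^ m) := by
          rw [inv_pow]; field_simp
        rw [e1]
        exact sf79_nmem_mul B n _ _ (pow_mem hlinvA m) hyl
      have hcm : ∀ i, sf79_OnBr π B (V i).toSubring n →
          p⁻¹ * ((c * l⁻¹) ^ m - y⁻¹ * (l⁻¹) ^ m) ∈ V i := by
        intro i hi
        have e1 : p⁻¹ * ((c * l⁻¹) ^ m - y⁻¹ * (l⁻¹) ^ m)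
            = (l⁻¹) ^ m * (p⁻¹ * (c ^ m - y⁻¹)) := by
          rw [mul_pow]; ring
        rw [e1]
        exact mul_mem (pow_mem (hAV i hi _ hlinvA) m) (hcy i hi)
      have hb1 : ∀ i, sf79_OnBr π B (V i).toSubring n → sf79_nmem B n (b i * l⁻¹ - 1) := by
        intro i hi
        have e1 : b i * l⁻¹ - 1 = l⁻¹ * (b i - l) := by field_simp
        rw [e1]
        exact sf79_nmem_mul B n _ _ hlinvA (hcv i hi)
      have hcb : ∀ i, sf79_OnBr π B (V i).toSubring n →
          p⁻¹ * (c * l⁻¹ - b i * l⁻¹) ^ e i ∈ V i := by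
        intro i hi
        apply he i
        have e1 : c * l⁻¹ - b i * l⁻¹ = l⁻¹ * (c - b i) := by ring
        rw [e1]
        exact gc26_mul (V i) (hAV i hi _ hlinvA) (hbv i hi)
      have := ld84_isLocalRing B n
      have hmax : ∀ (x : F) (hx : x ∈ sf79_loc B n), sf79_nmem B n x →
          (⟨x, hx⟩ : sf79_loc B n) ∈ maximalIdeal (sf79_loc B n) := by
        intro x hx h
        rw [IsLocalRing.mem_maximalIdeal, mem_nonunits_iff, ld84_not_isUnit_iff]
        exact h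
      have hmax1 : ∀ (x : F) (hx : x ∈ sf79_loc B n), sf79_nmem B n (x - 1) →
          (⟨x, hx⟩ : sf79_loc B n) - 1 ∈ maximalIdeal (sf79_loc B n) := by
        intro x hx h
        rw [IsLocalRing.mem_maximalIdeal, mem_nonunits_iff, ld84_not_isUnit_iff]
        exact h
      have hpN : sf79_nmem B n p := sf79_nmem_of_mem B n (algebraMap R B π) hπn
      obtain ⟨μ, hμA, hμ⟩ := hmu
      obtain ⟨η₁, hη₁A, -, hη₁⟩ := ld84_glue (sf79_loc B n) p hπ0 hpA (hmax p hpA hpN)
        (fun i : {i // sf79_OnBr π B (V i).toSubring n} => V i.1)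
        (fun i x hx => hAV i.1 i.2 x hx) m ⟨μ, hμA, hμ⟩
        (c * l⁻¹) (y⁻¹ * (l⁻¹) ^ m)
        (fun i => mul_mem (hcV i.1 i.2).1 (hAV i.1 i.2 _ hlinvA))
        (mul_mem hyinvA (pow_mem hlinvA m))
        (hmax1 _ _ ha1)
        (fun i => hcm i.1 i.2)
        (fun i => b i.1 * l⁻¹) (fun i => mul_mem (hbA i.1 i.2) hlinvA)
        (fun i => hmax1 _ _ (hb1 i.1 i.2))
        (fun i => ⟨e i.1, hcb i.1 i.2⟩)
      refine ⟨η₁ * l, mul_mem hη₁A hlA, ?_⟩
      intro i hi
      have e1 : p⁻¹ * (c - η₁ * l) = l * (p⁻¹ * (c * l⁻¹ - η₁)) := by field_simp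
      rw [e1]
      exact mul_mem (hAV i hi _ hlA) (hη₁ ⟨i, hi⟩)
    · exact ⟨1, one_mem _, fun i hi => absurd ⟨i, hi⟩ hne⟩
  obtain ⟨η₂, hη₂A, hη₂⟩ := hglue
  -- precision at the branches not through `n`
  choose kN hkN using fun j => harch j c⁻¹
  set N : ℕ := ∑ j, kN j with hN
  have hNc : ∀ j, p ^ N * c⁻¹ ∈ V j := by
    intro j
    have hle : kN j ≤ N :=
      Finset.single_le_sum (f := kN) (fun i _ => Nat.zero_le _) (Finset.mem_univ j)
    obtain ⟨r, hr⟩ := Nat.exists_eq_add_of_le hle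
    have e1 : p ^ N * c⁻¹ = p ^ r * (p ^ kN j * c⁻¹) := by rw [hr, pow_add]; ring
    rw [e1]
    exact mul_mem (pow_mem (hpV j) r) (hkN j)
  obtain ⟨y', hy'A, hy'⟩ := ld84_dense π hπ0 B V hB hπV harch hFrac n t htn
    (fun j => ¬ sf79_OnBr π B (V j).toSubring n) ht (p⁻¹ * (c - η₂)) N
  refine ⟨(η₂ + p * y') * c⁻¹, ?_, ?_⟩
  · intro i
    have e1 : p⁻¹ * ((η₂ + p * y') * c⁻¹ - 1) = (y' - p⁻¹ * (c - η₂)) * c⁻¹ := by
      field_simp
      ring
    rw [e1]
    by_cases hi : sf79_OnBr π B (V i).toSubring n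
    · exact mul_mem (sub_mem (hAV i hi _ hy'A) (hη₂ i hi)) (hcV i hi).2
    · have e2 : (y' - p⁻¹ * (c - η₂)) * c⁻¹
          = -((p⁻¹) ^ N * (p⁻¹ * (c - η₂) - y')) * (p ^ N * c⁻¹) := by
        have hpN : p ^ N ≠ 0 := pow_ne_zero _ hπ0
        rw [inv_pow]
        field_simp
        ring
      rw [e2]
      exact mul_mem (neg_mem (hy' i hi)) (hNc i)
  · have hmem : ((η₂ + p * y') * c⁻¹) ^ m * u ∈ sf79_loc B n := by
      have e1 : ((η₂ + p * y') * c⁻¹) ^ m * u = (η₂ + p * y') ^ m * y := by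
        rw [hy, mul_pow, inv_pow]
        field_simp
      rw [e1]
      exact mul_mem (pow_mem (add_mem hη₂A (mul_mem hpA hy'A)) m) hyA
    exact hmem

/-- The root datum at a closed point `n`: the hypotheses of `ld84_datum_at` on the local
`m`-th root of `u` at `n`. -/
def ld84_RootAt {ι : Type*} (π : R) (m : ℕ) (B : Subalgebra R F) (V : ι → ValuationSubring F)
    (u : F) (n : Ideal B) : Prop :=
  ∃ c : F, c ≠ 0 ∧
    (∀ i, sf79_OnBr π B (V i).toSubring n → c ∈ V i ∧ c⁻¹ ∈ V i) ∧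
    (∀ O : ValuationSubring F, s34i47_IsHoriz π O → s34i47_Through B n O →
      u / c ^ m ∈ O ∧ c ^ m / u ∈ O) ∧
    (∀ i, sf79_OnBr π B (V i).toSubring n →
      ∃ b : F, (∃ s : B, s ∉ n ∧ (s : F) * b ∈ B) ∧ (V i).valuation (c - b) < 1) ∧
    (∀ i j, sf79_OnBr π B (V i).toSubring n → sf79_OnBr π B (V j).toSubring n → i ≠ j →
      ∀ b b' : F, (∃ s : B, s ∉ n ∧ (s : F) * b ∈ B) → (∃ s : B, s ∉ n ∧ (s : F) * b' ∈ B) →
        (V i).valuation (c - b) < 1 → (V j).valuation (c - b') < 1 → sf79_nmem B n (b - b'))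

/-- **`s34i47_LocalDatum` from a root datum at every closed point** (`W ⊇ ⨅ V i`). -/
theorem ld84_localDatum {ι : Type*} [Finite ι] (π : R) (hπ0 : algebraMap R F π ≠ 0)
    (m : ℕ) (B : Subalgebra R F) (V : ι → ValuationSubring F) (W : Subring F)
    (hW : ∀ x : F, (∀ i, x ∈ V i) → x ∈ W)
    (hB : ∀ i, ∀ x ∈ B, x ∈ V i)
    (hπV : ∀ i, (algebraMap R F π)⁻¹ ∉ V i)
    (hsat : ∀ x ∈ B, (∀ i, (algebraMap R F π)⁻¹ * x ∈ V i) → (algebraMap R F π)⁻¹ * x ∈ B)
    (hFrac : ∀ x : F, ∃ a ∈ B, ∃ b ∈ B, b ≠ 0 ∧ x * b = a)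
    (harch : ∀ i, ∀ x : F, ∃ k : ℕ, algebraMap R F π ^ k * x ∈ V i)
    (hram : ∀ i, ∃ e : ℕ, ∀ x : F, (V i).valuation x < 1 →
      (algebraMap R F π)⁻¹ * x ^ e ∈ V i)
    (hmu : ∃ μ ∈ B, (m : F) * μ = 1)
    (hKr : s34i47_Krull π B)
    (u : F) (hu : ∀ i, (algebraMap R F π)⁻¹ * (u - 1) ∈ V i)
    (hroot : ∀ n : Ideal B, n.IsMaximal → algebraMap R B π ∈ n → ld84_RootAt π m B V u n) :
    s34i47_LocalDatum π m W B u := by
  intro n hn hπn
  obtain ⟨c, hc0, hcV, hc, hres, hCV⟩ := hroot n hn hπn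
  obtain ⟨μ, hμB, hμ⟩ := hmu
  have hnp : n.IsPrime := hn.isPrime
  obtain ⟨φ, hφ, hs⟩ := ld84_datum_at π hπ0 m B V hB hπV hsat hFrac harch hram n hn hπn
    ⟨μ, sf79_le_loc B n μ hμB, hμ⟩ (hKr n hn hπn) u hu c hc0 hcV hc hres hCV
  exact ⟨φ, hW _ hφ, hs⟩

end LD84

end Fermat.Agent.S36
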