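import Mathlib
import Fermat.Agent.S34.Iface47
import Fermat.Agent.S34.SpecFibre79

/-!
# S36 lab, row 603 (B3-glue, twin by helper55): the local datum at a closed point, for ANY finite
family of branches (thick branches allowed)

Abstract, in the vocabulary of `Iface47` / `SpecFibre79` (S34 lab).  `B` is a chart, `V i` the
finitely many valuation rings of the function field `F` above the Gauss valuation of the good
level (for S36: `V₁`, `V₂`, `V₃`, with `π = s ^ (q - 1) · unit` in `V₂`), `p = algebraMap R F π`.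
Nothing here asks `π` to be a uniformiser of `V i`: only `π⁻¹ ∉ V i`, `rad (π V i) = 𝔪 (V i)`
(`hrad`) and the archimedean property (`harch`).

* `ld55_root_mem` : abstract Nakayama root lemma (Mathlib only).
* `ld55_glue` : its field form for a local subring and finitely many valuation rings.
* `ld55_dense` : SIMULTANEOUS density of `B_n` for the branches which do not pass through `n`.
* `ld55_datum_at` : the clause of `s34i47_LocalDatum` at the closed point `n`, from a local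
  factorisation `u = ε c ^ m` (`ε` a unit of `B_n`) and, for every branch THROUGH `n`, a lift
  `b i ∈ B_n` of `c` modulo `rad (π V i)` with `b i ≡ 1` modulo `n B_n` (equal gluing constants).
* `ld55_datum_at_common` : the same with a common value `λ` instead of `1`.
* `ld55_datum_at_one` : the one-branch case (no condition on the value of the lift).
-/

set_option autoImplicit false

namespace Fermat.Agent.S36

open Fermat.Agent.S34

/-! ## 0. Abstract Nakayama root lemma -/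

theorem ld55_binom {S : Type*} [CommRing S] (t : S) (m : ℕ) :
    ∃ g : S, (1 + t) ^ m = 1 + (m : S) * t + t ^ 2 * g := by
  induction m with
  | zero => exact ⟨0, by simp⟩
  | succ m ih =>
    obtain ⟨g, hg⟩ := ih
    refine ⟨(m : S) + g + t * g, ?_⟩
    rw [pow_succ, hg]
    push_cast
    ring

/-- **Nakayama root lemma.**  `A` a ring, `𝔪` an ideal in the Jacobson radical, `m` invertible in
`A`; `c` in an `A`-algebra `Q` with `c ^ m = a`, `a ≡ 1` modulo `𝔪`, and
`∏ (c - b i) ^ k i = 0` with `b i ≡ 1` modulo `𝔪`.  Then `c` lies in the image of `A`. -/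
theorem ld55_root_mem {A Q : Type*} [CommRing A] [CommRing Q] [Algebra A Q]
    (𝔪 : Ideal A) (h𝔪 : 𝔪 ≤ Ideal.jacobson ⊥) (c : Q) (m : ℕ) (hm0 : 0 < m)
    (hm : IsUnit ((m : ℕ) : A)) (a : A) (ha : a - 1 ∈ 𝔪) (hc : c ^ m = algebraMap A Q a)
    {ι : Type*} (s : Finset ι) (b : ι → A) (k : ι → ℕ) (hb : ∀ i ∈ s, b i - 1 ∈ 𝔪)
    (hprod : ∏ i ∈ s, (c - algebraMap A Q (b i)) ^ k i = 0) :
    ∃ r : A, algebraMap A Q r = c := by
  classical
  set S : Subalgebra A Q := Algebra.adjoin A {c} with hS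
  have hcS : c ∈ S := Algebra.subset_adjoin (Set.mem_singleton c)
  have hint : IsIntegral A c :=
    ⟨Polynomial.X ^ m - Polynomial.C a, Polynomial.monic_X_pow_sub_C a hm0.ne', by simp [hc]⟩
  have hfg : S.toSubmodule.FG := hint.fg_adjoin_singleton
  set I : Ideal S := 𝔪.map (algebraMap A S) with hI
  set c' : S := ⟨c, hcS⟩ with hc'
  set t : S := c' - 1 with ht
  -- (2) a power of `t` lies in `I`
  have h2 : t ^ (∑ i ∈ s, k i) ∈ I := by
    have hprod' : ∏ i ∈ s, (c' - algebraMap A S (b i)) ^ k i = 0 := by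
      apply Subtype.ext
      simpa using hprod
    have h0 : Ideal.Quotient.mk I (t ^ (∑ i ∈ s, k i)) = 0 := by
      rw [map_pow, ← Finset.prod_pow_eq_pow_sum, ← map_zero (Ideal.Quotient.mk I), ← hprod',
        map_prod]
      apply Finset.prod_congr rfl
      intro i hi
      rw [map_pow]
      congr 1
      rw [Ideal.Quotient.eq]
      have e : t - (c' - algebraMap A S (b i)) = algebraMap A S (b i - 1) := by
        rw [ht, map_sub, map_one]
        ring
      rw [e]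
      exact Ideal.mem_map_of_mem _ (hb i hi)
    exact Ideal.Quotient.eq_zero_iff_mem.mp h0
  -- (1) `t * (m + t g) = a - 1`
  obtain ⟨g, hg⟩ := ld55_binom t m
  have h1 : t * ((m : S) + t * g) = algebraMap A S (a - 1) := by
    have hcm : c' ^ m = algebraMap A S a := Subtype.ext (by simpa using hc)
    have e : (1 + t) ^ m = algebraMap A S a := by
      rw [← hcm, ht]
      congr 1
      ring
    rw [hg] at e
    rw [map_sub, map_one, ← e]
    ring
  obtain ⟨v, hv⟩ := hm.exists_left_inv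
  have hvm : algebraMap A S v * (m : S) = 1 := by
    rw [← map_natCast (algebraMap A S), ← map_mul, hv, map_one]
  have hstep : ∀ j : ℕ, t ^ (j + 2) ∈ I → t ^ (j + 1) ∈ I := by
    intro j hj
    have e : (m : S) * t ^ (j + 1) = t ^ j * algebraMap A S (a - 1) - t ^ (j + 2) * g := by
      rw [← h1]
      ring
    have hmem : (m : S) * t ^ (j + 1) ∈ I := by
      rw [e]
      exact I.sub_mem (I.mul_mem_left _ (Ideal.mem_map_of_mem _ ha)) (I.mul_mem_right _ hj)
    have e2 : t ^ (j + 1) = algebraMap A S v * ((m : S) * t ^ (j + 1)) := by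
      rw [← mul_assoc, hvm, one_mul]
    rw [e2]
    exact I.mul_mem_left _ hmem
  have hdown : ∀ K : ℕ, t ^ (K + 1) ∈ I → t ∈ I := by
    intro K
    induction K with
    | zero => intro h; simpa using h
    | succ K ih => intro h; exact ih (hstep K h)
  have htI : t ∈ I := by
    rcases Nat.eq_zero_or_pos (∑ i ∈ s, k i) with h0 | hpos
    · rw [h0, pow_zero] at h2
      rw [(Ideal.eq_top_iff_one I).mpr h2]
      exact Submodule.mem_top
    · obtain ⟨K, hK⟩ := Nat.exists_eq_succ_of_ne_zero hpos.ne'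
      rw [hK] at h2
      exact hdown K h2
  -- every element of `S` is congruent to an element of `A` modulo `I`
  have hall : ∀ x : Q, ∀ hx : x ∈ S, ∃ r : A, (⟨x, hx⟩ : S) - algebraMap A S r ∈ I := by
    intro x hx
    refine Algebra.adjoin_induction
      (p := fun x hx => ∃ r : A, (⟨x, hx⟩ : S) - algebraMap A S r ∈ I) ?_ ?_ ?_ ?_ hx
    · intro y hy
      have hyc : y = c := Set.mem_singleton_iff.mp hy
      subst hyc
      refine ⟨1, ?_⟩
      rw [map_one]
      exact htI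
    · intro r
      refine ⟨r, ?_⟩
      have e : (⟨algebraMap A Q r, S.algebraMap_mem r⟩ : S) - algebraMap A S r = 0 := by
        apply Subtype.ext
        simp
      rw [e]
      exact I.zero_mem
    · intro y z hy hz ⟨r, hr⟩ ⟨r', hr'⟩
      refine ⟨r + r', ?_⟩
      have e : (⟨y + z, S.add_mem hy hz⟩ : S) - algebraMap A S (r + r') =
          ((⟨y, hy⟩ : S) - algebraMap A S r) + ((⟨z, hz⟩ : S) - algebraMap A S r') := by
        apply Subtype.ext
        simp
        ring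
      rw [e]
      exact I.add_mem hr hr'
    · intro y z hy hz ⟨r, hr⟩ ⟨r', hr'⟩
      refine ⟨r * r', ?_⟩
      have e : (⟨y * z, S.mul_mem hy hz⟩ : S) - algebraMap A S (r * r') =
          ((⟨y, hy⟩ : S) - algebraMap A S r) * (⟨z, hz⟩ : S) +
            algebraMap A S r * ((⟨z, hz⟩ : S) - algebraMap A S r') := by
        apply Subtype.ext
        simp
        ring
      rw [e]
      exact I.add_mem (I.mul_mem_right _ hr) (I.mul_mem_left _ hr')
  have hfin : (⊤ : Submodule A S).FG := by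
    have : Module.Finite A S.toSubmodule := Module.Finite.iff_fg.mpr hfg
    exact (Module.finite_def (R := A) (M := S.toSubmodule)).mp inferInstance
  have htop : (⊤ : Submodule A S) ≤ LinearMap.range (Algebra.linearMap A S) := by
    apply Submodule.le_of_le_smul_of_le_jacobson_bot hfin h𝔪
    intro x _
    obtain ⟨r, hr⟩ := hall x.1 x.2
    rw [Ideal.smul_top_eq_map]
    have e : x = algebraMap A S r + (x - algebraMap A S r) := by ring
    rw [e]
    exact Submodule.add_mem_sup ⟨r, rfl⟩ hr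
  obtain ⟨r, hr⟩ := htop (Submodule.mem_top : c' ∈ ⊤)
  exact ⟨r, congrArg Subtype.val hr⟩

/-! ## 1. Valuation-ring helpers -/

section Val

variable {F : Type*} [Field F]

theorem ld55_val_lt (V : ValuationSubring F) (p x : F) (hpV : p ∈ V) (hp : p⁻¹ ∉ V)
    (hx : p⁻¹ * x ∈ V) : V.valuation x < 1 := by
  have hp0 : p ≠ 0 := by
    intro h0
    apply hp
    rw [h0, inv_zero]
    exact V.zero_mem
  have hvp : V.valuation p < 1 := by
    refine lt_of_le_of_ne ((V.valuation_le_one_iff p).mpr hpV) ?_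
    intro h
    apply hp
    rw [← V.valuation_le_one_iff, map_inv₀, h, inv_one]
  have e : x = p * (p⁻¹ * x) := by field_simp
  rw [e, map_mul]
  exact lt_of_le_of_lt (mul_le_of_le_one_right' ((V.valuation_le_one_iff _).mpr hx)) hvp

theorem ld55_mem_of_val_lt (V : ValuationSubring F) (x : F) (hx : V.valuation x < 1) : x ∈ V :=
  (V.valuation_le_one_iff x).mp hx.le

theorem ld55_unit_one_add (V : ValuationSubring F) (z : F) (hz : V.valuation z < 1) :
    1 + z ∈ V ∧ (1 + z)⁻¹ ∈ V := by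
  have h1 : V.valuation (1 + z) = 1 := V.valuation.map_one_add_of_lt hz
  refine ⟨(V.valuation_le_one_iff _).mp h1.le, ?_⟩
  rw [← V.valuation_le_one_iff, map_inv₀, h1, inv_one]

theorem ld55_root (V : ValuationSubring F) (x : F) (m : ℕ) (hm0 : 0 < m) (h : x ^ m ∈ V) :
    x ∈ V := by
  rcases V.mem_or_inv_mem x with h1 | h1
  · exact h1
  · by_cases hx : x = 0
    · rw [hx]
      exact V.zero_mem
    · obtain ⟨m', rfl⟩ := Nat.exists_eq_succ_of_ne_zero hm0.ne'
      have e : x = x ^ (m' + 1) * x⁻¹ ^ m' := by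
        rw [pow_succ, inv_pow]
        field_simp
      rw [e]
      exact mul_mem h (pow_mem h1 m')

theorem ld55_val_lt_of_pow (V : ValuationSubring F) (x : F) (k : ℕ)
    (h : V.valuation (x ^ k) < 1) : V.valuation x < 1 := by
  by_contra hcon
  rw [not_lt] at hcon
  rw [map_pow] at h
  exact absurd (one_le_pow₀ hcon) (not_le.mpr h)

/-- `rad (p V) = 𝔪 (V)` in the valuation form. -/
theorem ld55_rad_val (V : ValuationSubring F) (p : F)
    (hrad : ∀ x ∈ V, x⁻¹ ∉ V → ∃ k : ℕ, p⁻¹ * x ^ k ∈ V) (x : F)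
    (hx : V.valuation x < 1) : ∃ k : ℕ, p⁻¹ * x ^ k ∈ V := by
  by_cases hx0 : x = 0
  · refine ⟨1, ?_⟩
    rw [hx0, pow_one, mul_zero]
    exact V.zero_mem
  · apply hrad x (ld55_mem_of_val_lt V x hx)
    intro hinv
    have h1 : V.valuation x * V.valuation x⁻¹ = 1 := by
      rw [← map_mul, mul_inv_cancel₀ hx0, map_one]
    have h2 : V.valuation x * V.valuation x⁻¹ < 1 :=
      lt_of_le_of_lt (mul_le_of_le_one_right' ((V.valuation_le_one_iff _).mpr hinv)) hx
    rw [h1] at h2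
    exact lt_irrefl _ h2

end Val

/-! ## 2. The field form of the root lemma -/

section Glue

variable {F : Type*} [Field F]

/-- **Nakayama gluing, field form.**  `Bn` a subring of `F` with an ideal `𝔪` in its Jacobson
radical, contained in finitely many valuation rings `V i` (`i ∈ T`).  If `c ^ m ≡ a` modulo
`p V i` with `a ∈ Bn`, `a ≡ 1` modulo `𝔪`, and `c ≡ b i` modulo `rad (p V i)` with `b i ∈ Bn`,
`b i ≡ 1` modulo `𝔪`, then `c ≡ e` modulo `p V i` for ONE `e ∈ Bn` and all `i ∈ T`. -/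
theorem ld55_glue (Bn : Subring F) (𝔪 : Ideal Bn) (h𝔪 : 𝔪 ≤ Ideal.jacobson ⊥) (p : F)
    {ι : Type*} (T : Finset ι) (V : ι → ValuationSubring F)
    (hBV : ∀ i ∈ T, ∀ x ∈ Bn, x ∈ V i) (m : ℕ) (hm0 : 0 < m)
    (hm : ∃ μ ∈ Bn, (m : F) * μ = 1) (c : F) (hcV : ∀ i ∈ T, c ∈ V i)
    (a : Bn) (ha1 : a - 1 ∈ 𝔪) (hcm : ∀ i ∈ T, p⁻¹ * (c ^ m - (a : F)) ∈ V i)
    (b : ι → Bn) (hb1 : ∀ i ∈ T, b i - 1 ∈ 𝔪)
    (hcb : ∀ i ∈ T, ∃ k : ℕ, p⁻¹ * (c - (b i : F)) ^ k ∈ V i) :
    ∃ e ∈ Bn, ∀ i ∈ T, p⁻¹ * (c - e) ∈ V i := by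
  classical
  let W : Subring F :=
    { carrier := {x | ∀ i ∈ T, x ∈ V i}
      mul_mem' := fun hx hy i hi => mul_mem (hx i hi) (hy i hi)
      one_mem' := fun i _ => (V i).one_mem
      add_mem' := fun hx hy i hi => add_mem (hx i hi) (hy i hi)
      zero_mem' := fun i _ => (V i).zero_mem
      neg_mem' := fun hx i hi => neg_mem (hx i hi) }
  have hWmem : ∀ x : F, x ∈ W ↔ ∀ i ∈ T, x ∈ V i := fun x => Iff.rfl
  let J : Ideal W :=
    { carrier := {x | ∀ i ∈ T, p⁻¹ * (x : F) ∈ V i}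
      add_mem' := by
        intro x y hx hy i hi
        have h := add_mem (hx i hi) (hy i hi)
        have e : p⁻¹ * ((x + y : W) : F) = p⁻¹ * (x : F) + p⁻¹ * (y : F) := by
          push_cast
          ring
        rw [e]
        exact h
      zero_mem' := by
        intro i _
        have e : p⁻¹ * ((0 : W) : F) = 0 := by simp
        rw [e]
        exact (V i).zero_mem
      smul_mem' := by
        intro w x hx i hi
        have h := mul_mem (w.2 i hi) (hx i hi)
        have e : p⁻¹ * ((w • x : W) : F) = (w : F) * (p⁻¹ * (x : F)) := by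
          rw [smul_eq_mul]
          push_cast
          ring
        rw [e]
        exact h }
  have hJmem : ∀ x : W, x ∈ J ↔ ∀ i ∈ T, p⁻¹ * (x : F) ∈ V i := fun x => Iff.rfl
  have hBW : Bn ≤ W := fun x hx i hi => hBV i hi x hx
  let f : Bn →+* W ⧸ J := (Ideal.Quotient.mk J).comp (Subring.inclusion hBW)
  let _ : Algebra Bn (W ⧸ J) := f.toAlgebra
  have halg : ∀ x : Bn, algebraMap Bn (W ⧸ J) x = Ideal.Quotient.mk J ⟨(x : F), hBW x.2⟩ :=
    fun x => rfl
  choose! k hk using hcb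
  have hcW : c ∈ W := hcV
  have hunit : IsUnit ((m : ℕ) : Bn) := by
    obtain ⟨μ, hμ, hmμ⟩ := hm
    refine isUnit_iff_exists_inv.mpr ⟨⟨μ, hμ⟩, Subtype.ext ?_⟩
    push_cast
    exact hmμ
  have hc : (Ideal.Quotient.mk J ⟨c, hcW⟩) ^ m = algebraMap Bn (W ⧸ J) a := by
    rw [halg, ← map_pow, Ideal.Quotient.eq, hJmem]
    intro i hi
    have e : (((⟨c, hcW⟩ : W) ^ m - ⟨(a : F), hBW a.2⟩ : W) : F) = c ^ m - (a : F) := by
      push_cast
      rfl
    rw [e]
    exact hcm i hi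
  have hprod : ∏ i ∈ T, (Ideal.Quotient.mk J ⟨c, hcW⟩ - algebraMap Bn (W ⧸ J) (b i)) ^ k i
      = 0 := by
    have e1 : ∏ i ∈ T, (Ideal.Quotient.mk J ⟨c, hcW⟩ - algebraMap Bn (W ⧸ J) (b i)) ^ k i
        = Ideal.Quotient.mk J
          (∏ i ∈ T, ((⟨c, hcW⟩ : W) - ⟨((b i : Bn) : F), hBW (b i).2⟩) ^ k i) := by
      rw [map_prod]
      apply Finset.prod_congr rfl
      intro i _
      rw [halg, map_pow, map_sub]
    rw [e1, Ideal.Quotient.eq_zero_iff_mem, hJmem]
    intro j hj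
    obtain ⟨w, hw⟩ := Finset.dvd_prod_of_mem
      (fun i => ((⟨c, hcW⟩ : W) - ⟨((b i : Bn) : F), hBW (b i).2⟩) ^ k i) hj
    rw [hw]
    have e : p⁻¹ * (((((⟨c, hcW⟩ : W) - ⟨((b j : Bn) : F), hBW (b j).2⟩) ^ k j * w : W)) : F)
        = (p⁻¹ * (c - (b j : F)) ^ k j) * (w : F) := by
      push_cast
      ring
    rw [e]
    exact mul_mem (hk j hj) (w.2 j hj)
  obtain ⟨r, hr⟩ := ld55_root_mem 𝔪 h𝔪 (Ideal.Quotient.mk J ⟨c, hcW⟩) m hm0 hunit a ha1 hc
    T b k hb1 hprod
  refine ⟨(r : F), r.2, ?_⟩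
  rw [halg, Ideal.Quotient.eq, hJmem] at hr
  intro i hi
  have h2 := neg_mem (hr i hi)
  have e : p⁻¹ * (c - (r : F)) =
      -(p⁻¹ * (((⟨(r : F), hBW r.2⟩ : W) - ⟨c, hcW⟩ : W) : F)) := by
    push_cast
    ring
  rw [e]
  exact h2

end Glue

/-! ## 3. Simultaneous density -/

section Dense

variable {R F : Type*} [CommRing R] [Field F] [Algebra R F]

/-- Archimedean property: every element of `F` is multiplied into `V` by all high powers of
`π`. -/
theorem ld55_arch (π : R) (B : Subalgebra R F) (V : ValuationSubring F)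
    (hBV : ∀ x ∈ B, x ∈ V)
    (harch : ∀ x ∈ B, x ≠ 0 → ∃ k : ℕ, (algebraMap R F π ^ k)⁻¹ * x ∉ V)
    (hFrac : ∀ x : F, ∃ a ∈ B, ∃ b ∈ B, b ≠ 0 ∧ x * b = a) (y : F) :
    ∃ N₀ : ℕ, ∀ N : ℕ, N₀ ≤ N → algebraMap R F π ^ N * y ∈ V := by
  have hpV : algebraMap R F π ∈ V := hBV _ (B.algebraMap_mem π)
  obtain ⟨a, ha, b, hb, hb0, hab⟩ := hFrac y
  obtain ⟨k, hk⟩ := harch b hb hb0
  have hinv : algebraMap R F π ^ k * b⁻¹ ∈ V := by
    rcases V.mem_or_inv_mem ((algebraMap R F π ^ k)⁻¹ * b) with h | h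
    · exact absurd h hk
    · have e : ((algebraMap R F π ^ k)⁻¹ * b)⁻¹ = algebraMap R F π ^ k * b⁻¹ := by
        rw [mul_inv, inv_inv]
      rwa [e] at h
  refine ⟨k, fun N hN => ?_⟩
  obtain ⟨j, rfl⟩ := Nat.exists_eq_add_of_le hN
  have e : algebraMap R F π ^ (k + j) * y =
      algebraMap R F π ^ j * (a * (algebraMap R F π ^ k * b⁻¹)) := by
    rw [← hab, pow_add]
    field_simp
  rw [e]
  exact mul_mem (pow_mem hpV j) (mul_mem (hBV a ha) hinv)

/-- **Simultaneous density** of `B_n` for finitely many valuation rings `V j` whose branches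
`B ∩ π V j` are not contained in the prime `n`: every element of `F` is approximated by an
element of `B_n` to any precision, for all `V j` at once. -/
theorem ld55_dense (π : R) (B : Subalgebra R F) {ι : Type*} (T : Finset ι)
    (V : ι → ValuationSubring F)
    (hBV : ∀ j ∈ T, ∀ x ∈ B, x ∈ V j) (hπ : ∀ j ∈ T, (algebraMap R F π)⁻¹ ∉ V j)
    (harch : ∀ j ∈ T, ∀ x ∈ B, x ≠ 0 → ∃ k : ℕ, (algebraMap R F π ^ k)⁻¹ * x ∉ V j)
    (hFrac : ∀ x : F, ∃ a ∈ B, ∃ b ∈ B, b ≠ 0 ∧ x * b = a)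
    (n : Ideal B) [hn : n.IsPrime]
    (hoff : ∀ j ∈ T, ∃ e : B, e ∉ n ∧ (algebraMap R F π)⁻¹ * (e : F) ∈ V j)
    (x d : F) :
    ∃ δ : F, δ ∈ sf79_loc B n ∧ ∀ j ∈ T, d⁻¹ * (δ - x) ∈ V j := by
  classical
  obtain ⟨a, ha, b, hb, hb0, hab⟩ := hFrac x
  have hx : x = a * b⁻¹ := by
    rw [← hab]
    field_simp
  by_cases hbn : (⟨b, hb⟩ : B) ∈ n
  swap
  · refine ⟨x, ⟨⟨b, hb⟩, hbn, ?_⟩, fun j _ => ?_⟩
    · show b * x ∈ B
      rw [mul_comm, hab]
      exact ha
    · rw [sub_self, mul_zero]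
      exact zero_mem _
  choose! e he using hoff
  obtain ⟨E, hE⟩ : ∃ E : B, E = ∏ j ∈ T, e j := ⟨_, rfl⟩
  have hEn : E ∉ n := by
    intro h
    rw [hE] at h
    obtain ⟨j, hj, hjn⟩ := (Ideal.IsPrime.prod_mem_iff).mp h
    exact (he j hj).1 hjn
  have hEV : ∀ j ∈ T, (algebraMap R F π)⁻¹ * (E : F) ∈ V j := by
    intro j hj
    obtain ⟨w, hw⟩ := Finset.dvd_prod_of_mem e hj
    rw [hE, hw]
    have e1 : (algebraMap R F π)⁻¹ * ((e j * w : B) : F) =
        ((algebraMap R F π)⁻¹ * (e j : F)) * (w : F) := by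
      push_cast
      ring
    rw [e1]
    exact mul_mem (he j hj).2 (hBV j hj _ w.2)
  have hN : ∀ j ∈ T, ∃ N₀ : ℕ, ∀ N, N₀ ≤ N →
      algebraMap R F π ^ N * b⁻¹ ∈ V j ∧
        algebraMap R F π ^ N * (d⁻¹ * a * b⁻¹ ^ 2) ∈ V j := by
    intro j hj
    obtain ⟨N₁, h₁⟩ := ld55_arch π B (V j) (hBV j hj) (harch j hj) hFrac b⁻¹
    obtain ⟨N₂, h₂⟩ := ld55_arch π B (V j) (hBV j hj) (harch j hj) hFrac (d⁻¹ * a * b⁻¹ ^ 2)
    exact ⟨max N₁ N₂, fun N hN => ⟨h₁ N (le_trans (le_max_left _ _) hN),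
      h₂ N (le_trans (le_max_right _ _) hN)⟩⟩
  choose! N₀ hN₀ using hN
  obtain ⟨N', hN'⟩ : ∃ N' : ℕ, N' = T.sup N₀ := ⟨_, rfl⟩
  have hNle : ∀ j ∈ T, N₀ j ≤ N' := fun j hj => by
    rw [hN']
    exact Finset.le_sup hj
  have hden : (⟨b, hb⟩ : B) + E ^ (N' + 1) ∉ n := by
    intro h
    have h2 : E ^ (N' + 1) ∈ n := by
      have h3 := n.sub_mem h hbn
      rwa [add_sub_cancel_left] at h3
    exact hEn (hn.mem_of_pow_mem _ h2)
  have hden0 : b + (E : F) ^ (N' + 1) ≠ 0 := by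
    intro h0
    apply hden
    have h1 : (⟨b, hb⟩ : B) + E ^ (N' + 1) = 0 := by
      apply Subtype.ext
      push_cast
      exact h0
    rw [h1]
    exact n.zero_mem
  refine ⟨a * (b + (E : F) ^ (N' + 1))⁻¹, ⟨⟨b, hb⟩ + E ^ (N' + 1), hden, ?_⟩, ?_⟩
  · have e1 : (((⟨b, hb⟩ : B) + E ^ (N' + 1) : B) : F) * (a * (b + (E : F) ^ (N' + 1))⁻¹) = a := by
      push_cast
      field_simp
    rw [e1]
    exact ha
  · intro j hj
    have hpV : algebraMap R F π ∈ V j := hBV j hj _ (B.algebraMap_mem π)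
    have hp0 : algebraMap R F π ≠ 0 := by
      intro h0
      apply hπ j hj
      rw [h0, inv_zero]
      exact zero_mem _
    obtain ⟨z, hz⟩ : ∃ z : F, z = (E : F) ^ (N' + 1) * b⁻¹ := ⟨_, rfl⟩
    have hz1 : (algebraMap R F π)⁻¹ * z ∈ V j := by
      have e1 : (algebraMap R F π)⁻¹ * z =
          ((algebraMap R F π)⁻¹ * (E : F)) ^ (N' + 1) * (algebraMap R F π ^ N' * b⁻¹) := by
        rw [hz, mul_pow, inv_pow]
        field_simp
        ring
      rw [e1]
      exact mul_mem (pow_mem (hEV j hj) _) (hN₀ j hj N' (hNle j hj)).1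
    have hzv : (V j).valuation z < 1 := ld55_val_lt (V j) _ z hpV (hπ j hj) hz1
    obtain ⟨-, hu⟩ := ld55_unit_one_add (V j) z hzv
    have h1z : b + (E : F) ^ (N' + 1) = b * (1 + z) := by
      rw [hz]
      field_simp
    have h1z0 : 1 + z ≠ 0 := by
      intro h0
      apply hden0
      rw [h1z, h0, mul_zero]
    have key : (b * (1 + z))⁻¹ - b⁻¹ = -(b⁻¹ * z * (1 + z)⁻¹) := by
      field_simp
      ring
    have hpE : ((algebraMap R F π)⁻¹ * (E : F)) ^ (N' + 1) * algebraMap R F π ^ (N' + 1) =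
        (E : F) ^ (N' + 1) := by
      rw [mul_pow, inv_pow]
      field_simp
    have e2 : d⁻¹ * (a * (b + (E : F) ^ (N' + 1))⁻¹ - x) =
        -(((algebraMap R F π)⁻¹ * (E : F)) ^ (N' + 1) *
          (algebraMap R F π ^ (N' + 1) * (d⁻¹ * a * b⁻¹ ^ 2)) * (1 + z)⁻¹) := by
      have e3 : ((algebraMap R F π)⁻¹ * (E : F)) ^ (N' + 1) *
          (algebraMap R F π ^ (N' + 1) * (d⁻¹ * a * b⁻¹ ^ 2)) * (1 + z)⁻¹ =
          (((algebraMap R F π)⁻¹ * (E : F)) ^ (N' + 1) * algebraMap R F π ^ (N' + 1)) *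
            (d⁻¹ * a * b⁻¹ ^ 2) * (1 + z)⁻¹ := by ring
      rw [e3, hpE, hx, h1z]
      have e4 : d⁻¹ * (a * (b * (1 + z))⁻¹ - a * b⁻¹) =
          d⁻¹ * a * ((b * (1 + z))⁻¹ - b⁻¹) := by ring
      rw [e4, key, hz]
      ring
    rw [e2]
    exact neg_mem (mul_mem (mul_mem (pow_mem (hEV j hj) _)
      (hN₀ j hj (N' + 1) ((hNle j hj).trans (Nat.le_succ _))).2) hu)

end Dense

/-! ## 4. The local ring `B_n` -/

section Loc

variable {R F : Type*} [CommRing R] [Field F] [Algebra R F]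

theorem ld55_B_le_loc (B : Subalgebra R F) (n : Ideal B) [hn : n.IsPrime] (x : F) (hx : x ∈ B) :
    x ∈ sf79_loc B n := by
  refine ⟨1, (Ideal.ne_top_iff_one n).mp hn.ne_top, ?_⟩
  have e : ((1 : B) : F) * x = x := by
    push_cast
    ring
  rw [e]
  exact hx

/-- The maximal ideal `n B_n` of `B_n = sf79_loc B n`. -/
def ld55_max (B : Subalgebra R F) (n : Ideal B) [hn : n.IsPrime] : Ideal ↥(sf79_loc B n) where
  carrier := {x | ∃ s : B, s ∉ n ∧ ∃ y : B, y ∈ n ∧ (s : F) * (x : F) = (y : F)}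
  add_mem' := by
    rintro x x' ⟨s, hs, y, hy, e⟩ ⟨s', hs', y', hy', e'⟩
    refine ⟨s * s', fun h => (hn.mem_or_mem h).elim hs hs', s' * y + s * y',
      n.add_mem (n.mul_mem_left _ hy) (n.mul_mem_left _ hy'), ?_⟩
    push_cast
    rw [← e, ← e']
    ring
  zero_mem' := ⟨1, (Ideal.ne_top_iff_one n).mp hn.ne_top, 0, n.zero_mem, by simp⟩
  smul_mem' := by
    rintro c x ⟨s, hs, y, hy, e⟩
    obtain ⟨t, ht, hct⟩ := c.2
    refine ⟨t * s, fun h => (hn.mem_or_mem h).elim ht hs, ⟨_, hct⟩ * y, n.mul_mem_left _ hy, ?_⟩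
    rw [smul_eq_mul]
    push_cast
    rw [← e]
    ring

theorem ld55_mem_max (B : Subalgebra R F) (n : Ideal B) [hn : n.IsPrime] (x : ↥(sf79_loc B n)) :
    x ∈ ld55_max B n ↔ ∃ s : B, s ∉ n ∧ ∃ y : B, y ∈ n ∧ (s : F) * (x : F) = (y : F) :=
  Iff.rfl

theorem ld55_one_not_mem_max (B : Subalgebra R F) (n : Ideal B) [hn : n.IsPrime] :
    (1 : ↥(sf79_loc B n)) ∉ ld55_max B n := by
  rintro ⟨s, hs, y, hy, e⟩
  apply hs
  have e2 : s = y := by
    apply Subtype.ext
    rw [← e]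
    push_cast
    ring
  rw [e2]
  exact hy

theorem ld55_max_le_jacobson (B : Subalgebra R F) (n : Ideal B) [hn : n.IsPrime] :
    ld55_max B n ≤ Ideal.jacobson ⊥ := by
  intro x hx
  rw [Ideal.mem_jacobson_bot]
  intro y
  have hxy : x * y ∈ ld55_max B n := (ld55_max B n).mul_mem_right y hx
  obtain ⟨s, hs, z, hz, e⟩ := hxy
  have hzs : z + s ∉ n := by
    intro h
    apply hs
    have h3 := n.sub_mem h hz
    rwa [add_sub_cancel_left] at h3
  have h1 : ((z + s : B) : F) = (s : F) * ((x * y + 1 : ↥(sf79_loc B n)) : F) := by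
    push_cast
    push_cast at e
    rw [← e]
    ring
  have hne : ((x * y + 1 : ↥(sf79_loc B n)) : F) ≠ 0 := by
    intro h0
    apply hzs
    have h2 : z + s = 0 := by
      apply Subtype.ext
      rw [h1, h0, mul_zero]
      rfl
    rw [h2]
    exact n.zero_mem
  have hinv : (((x * y + 1 : ↥(sf79_loc B n)) : F))⁻¹ ∈ sf79_loc B n := by
    refine ⟨z + s, hzs, ?_⟩
    rw [h1, mul_assoc, mul_inv_cancel₀ hne, mul_one]
    exact s.2
  refine isUnit_iff_exists_inv.mpr ⟨⟨_, hinv⟩, Subtype.ext ?_⟩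
  push_cast
  exact mul_inv_cancel₀ (by simpa using hne)

/-- `B_n ⊆ V` for a branch through `n`. -/
theorem ld55_loc_le (π : R) (B : Subalgebra R F) (V : ValuationSubring F)
    (hBV : ∀ x ∈ B, x ∈ V)
    (hrad : ∀ x ∈ V, x⁻¹ ∉ V → ∃ k : ℕ, (algebraMap R F π)⁻¹ * x ^ k ∈ V)
    (n : Ideal B) [hn : n.IsPrime] (hOn : sf79_OnBr π B V.toSubring n)
    (x : F) (hx : x ∈ sf79_loc B n) : x ∈ V := by
  obtain ⟨s, hs, hsx⟩ := hx
  have hsV : (s : F) ∈ V := hBV _ s.2
  have hsinv : (s : F)⁻¹ ∈ V := by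
    by_contra hcon
    obtain ⟨k, hk⟩ := hrad _ hsV hcon
    have h1 : s ^ k ∈ n := by
      apply hOn (s ^ k)
      show (algebraMap R F π)⁻¹ * ((s ^ k : B) : F) ∈ V
      push_cast
      exact hk
    exact hs (hn.mem_of_pow_mem k h1)
  have hs0 : (s : F) ≠ 0 := by
    intro h0
    apply hs
    have h1 : s = 0 := Subtype.ext h0
    rw [h1]
    exact n.zero_mem
  have e : x = (s : F)⁻¹ * ((s : F) * x) := by field_simp
  rw [e]
  exact mul_mem hsinv (hBV _ hsx)

/-- An element of `B_n` which is a nonunit of a branch through `n` lies in `n B_n`. -/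
theorem ld55_mem_max_of_val (π : R) (B : Subalgebra R F) (V : ValuationSubring F)
    (hBV : ∀ x ∈ B, x ∈ V)
    (hrad : ∀ x ∈ V, x⁻¹ ∉ V → ∃ k : ℕ, (algebraMap R F π)⁻¹ * x ^ k ∈ V)
    (n : Ideal B) [hn : n.IsPrime] (hOn : sf79_OnBr π B V.toSubring n)
    (x : ↥(sf79_loc B n)) (hx : V.valuation (x : F) < 1) : x ∈ ld55_max B n := by
  obtain ⟨s, hs, hsx⟩ := x.2
  refine ⟨s, hs, ⟨_, hsx⟩, ?_, rfl⟩
  have hv : V.valuation ((s : F) * (x : F)) < 1 := by
    rw [map_mul]
    exact lt_of_le_of_lt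
      (mul_le_of_le_one_left' ((V.valuation_le_one_iff _).mpr (hBV _ s.2))) hx
  obtain ⟨k, hk⟩ := ld55_rad_val V _ hrad _ hv
  have h1 : (⟨_, hsx⟩ : B) ^ k ∈ n := by
    apply hOn
    show (algebraMap R F π)⁻¹ * (((⟨_, hsx⟩ : B) ^ k : B) : F) ∈ V
    push_cast
    exact hk
  exact hn.mem_of_pow_mem k h1

end Loc

/-! ## 5. The local datum at a closed point -/

section Datum

variable {R F : Type*} [CommRing R] [Field F] [Algebra R F]

/-- **Row 603 (B3-glue): the local datum at `n`, finitely many branches, thick ones allowed.**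
`u ≡ 1` modulo `π V i` for all `i`; `u = ε c ^ m` with `ε` a unit of `B_n`; for every branch
`V i` THROUGH `n` a lift `b i ∈ B_n` of `c` modulo `rad (π V i)` with `b i ≡ 1` modulo `n B_n`.
Then the clause of `s34i47_LocalDatum` at `n` holds for `W = ⨅ V i`. -/
theorem ld55_datum_at (π : R) (m : ℕ) (hm0 : 0 < m) (B : Subalgebra R F)
    (hmB : ∃ μ ∈ B, (m : F) * μ = 1)
    {ι : Type*} [Finite ι] (V : ι → ValuationSubring F)
    (hBV : ∀ i, ∀ x ∈ B, x ∈ V i) (hπ : ∀ i, (algebraMap R F π)⁻¹ ∉ V i)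
    (hrad : ∀ i, ∀ x ∈ V i, x⁻¹ ∉ V i → ∃ k : ℕ, (algebraMap R F π)⁻¹ * x ^ k ∈ V i)
    (harch : ∀ i, ∀ x ∈ B, x ≠ 0 → ∃ k : ℕ, (algebraMap R F π ^ k)⁻¹ * x ∉ V i)
    (hFrac : ∀ x : F, ∃ a ∈ B, ∃ b ∈ B, b ≠ 0 ∧ x * b = a)
    (n : Ideal B) [hn : n.IsPrime]
    (u : F) (hu : ∀ i, (algebraMap R F π)⁻¹ * (u - 1) ∈ V i)
    (c : F) (hc : c ≠ 0)
    (hε : u / c ^ m ∈ sf79_loc B n) (hε' : c ^ m / u ∈ sf79_loc B n)
    (b : ι → F)
    (hb : ∀ i, sf79_OnBr π B (V i).toSubring n →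
      (∃ s : B, s ∉ n ∧ ∃ y : B, y ∈ n ∧ (s : F) * (b i - 1) = (y : F)) ∧
        ∃ k : ℕ, (algebraMap R F π)⁻¹ * (c - b i) ^ k ∈ V i) :
    ∃ φ : F, (∀ i, (algebraMap R F π)⁻¹ * (φ - 1) ∈ V i) ∧
      ∃ s : B, s ∉ n ∧ (s : F) * (φ ^ m * u) ∈ B := by
  classical
  cases nonempty_fintype ι
  have hpB : algebraMap R F π ∈ B := B.algebraMap_mem π
  have hp0 : ∀ i : ι, algebraMap R F π ≠ 0 := by
    intro i h0
    apply hπ i
    rw [h0, inv_zero]
    exact zero_mem _
  obtain ⟨T, hT⟩ : ∃ T : Finset ι, T = Finset.univ.filter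
      (fun i => sf79_OnBr π B (V i).toSubring n) := ⟨_, rfl⟩
  obtain ⟨T', hT'⟩ : ∃ T' : Finset ι, T' = Finset.univ.filter
      (fun i => ¬ sf79_OnBr π B (V i).toSubring n) := ⟨_, rfl⟩
  have hTon : ∀ i ∈ T, sf79_OnBr π B (V i).toSubring n := by
    intro i hi
    rw [hT] at hi
    exact (Finset.mem_filter.mp hi).2
  have hloc : ∀ i ∈ T, ∀ x ∈ sf79_loc B n, x ∈ V i := fun i hi x hx =>
    ld55_loc_le π B (V i) (hBV i) (hrad i) n (hTon i hi) x hx
  have huV : ∀ i, u ∈ V i ∧ u⁻¹ ∈ V i := by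
    intro i
    have h := ld55_unit_one_add (V i) (u - 1)
      (ld55_val_lt (V i) _ (u - 1) (hBV i _ hpB) (hπ i) (hu i))
    have e : 1 + (u - 1) = u := by ring
    rwa [e] at h
  have hu0 : ∀ i : ι, u ≠ 0 := by
    intro i h0
    apply hπ i
    have h := neg_mem (hu i)
    have e : -((algebraMap R F π)⁻¹ * (u - 1)) = (algebraMap R F π)⁻¹ := by
      rw [h0]
      ring
    rwa [e] at h
  have hcV : ∀ i ∈ T, c ∈ V i ∧ c⁻¹ ∈ V i := by
    intro i hi
    have hu0' := hu0 i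
    have h1 : c ^ m ∈ V i := by
      have e : c ^ m = (c ^ m / u) * u := by field_simp
      rw [e]
      exact mul_mem (hloc i hi _ hε') (huV i).1
    have h2 : c⁻¹ ^ m ∈ V i := by
      have e : c⁻¹ ^ m = (u / c ^ m) * u⁻¹ := by
        rw [inv_pow]
        field_simp
      rw [e]
      exact mul_mem (hloc i hi _ hε) (huV i).2
    exact ⟨ld55_root (V i) c m hm0 h1, ld55_root (V i) c⁻¹ m hm0 h2⟩
  -- the glued element
  have hglue : ∃ e ∈ sf79_loc B n, ∀ i ∈ T, (algebraMap R F π)⁻¹ * (c - e) ∈ V i := by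
    rcases T.eq_empty_or_nonempty with hTe | ⟨i₀, hi₀⟩
    · refine ⟨0, zero_mem _, fun i hi => ?_⟩
      rw [hTe] at hi
      exact absurd hi (Finset.notMem_empty i)
    · have hbmem : ∀ i ∈ T, b i ∈ sf79_loc B n := by
        intro i hi
        obtain ⟨⟨s, hs, y, hy, e⟩, -⟩ := hb i (hTon i hi)
        refine ⟨s, hs, ?_⟩
        have e2 : (s : F) * b i = ((y + s : B) : F) := by
          push_cast
          rw [← e]
          ring
        rw [e2]
        exact (y + s).2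
      obtain ⟨b', hb'⟩ : ∃ b' : ι → ↥(sf79_loc B n), ∀ i ∈ T, ((b' i : ↥(sf79_loc B n)) : F) = b i :=
        ⟨fun i => if h : i ∈ T then ⟨b i, hbmem i h⟩ else 1, fun i hi => by simp only [dif_pos hi]⟩
      have hb'1 : ∀ i ∈ T, b' i - 1 ∈ ld55_max B n := by
        intro i hi
        obtain ⟨⟨s, hs, y, hy, e⟩, -⟩ := hb i (hTon i hi)
        refine ⟨s, hs, y, hy, ?_⟩
        rw [← e]
        push_cast
        rw [hb' i hi]
      obtain ⟨a, ha⟩ : ∃ a : ↥(sf79_loc B n), (a : F) = c ^ m / u := ⟨⟨c ^ m / u, hε'⟩, rfl⟩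
      have hcm : ∀ i ∈ T, (algebraMap R F π)⁻¹ * (c ^ m - (a : F)) ∈ V i := by
        intro i hi
        have hu0' := hu0 i
        have hp0' := hp0 i
        have e : (algebraMap R F π)⁻¹ * (c ^ m - c ^ m / u) =
            c ^ m * u⁻¹ * ((algebraMap R F π)⁻¹ * (u - 1)) := by
          field_simp
        rw [ha, e]
        exact mul_mem (mul_mem (pow_mem (hcV i hi).1 m) (huV i).2) (hu i)
      have hcb : ∀ i ∈ T, ∃ k : ℕ,
          (algebraMap R F π)⁻¹ * (c - ((b' i : ↥(sf79_loc B n)) : F)) ^ k ∈ V i := by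
        intro i hi
        rw [hb' i hi]
        exact (hb i (hTon i hi)).2
      have ha1 : a - 1 ∈ ld55_max B n := by
        have h1 : (b' i₀) ^ m - 1 ∈ ld55_max B n := by
          have h3 := Ideal.Quotient.eq.mpr (hb'1 i₀ hi₀)
          apply Ideal.Quotient.eq.mp
          rw [map_pow, h3, map_one, one_pow]
        have h2 : a - (b' i₀) ^ m ∈ ld55_max B n := by
          apply ld55_mem_max_of_val π B (V i₀) (hBV i₀) (hrad i₀) n (hTon i₀ hi₀)
          have e : ((a - (b' i₀) ^ m : ↥(sf79_loc B n)) : F) =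
              -(c ^ m - (a : F)) + (c ^ m - (b i₀) ^ m) := by
            push_cast
            rw [hb' i₀ hi₀]
            ring
          rw [e]
          apply lt_of_le_of_lt (Valuation.map_add _ _ _)
          apply max_lt
          · rw [Valuation.map_neg]
            exact ld55_val_lt (V i₀) _ _ (hBV i₀ _ hpB) (hπ i₀) (hcm i₀ hi₀)
          · obtain ⟨k, hk⟩ := (hb i₀ (hTon i₀ hi₀)).2
            have hcb_lt : (V i₀).valuation (c - b i₀) < 1 :=
              ld55_val_lt_of_pow (V i₀) _ k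
                (ld55_val_lt (V i₀) _ _ (hBV i₀ _ hpB) (hπ i₀) hk)
            have hbV : b i₀ ∈ V i₀ := hloc i₀ hi₀ _ (hbmem i₀ hi₀)
            have e2 : c ^ m - b i₀ ^ m =
                (∑ j ∈ Finset.range m, c ^ j * b i₀ ^ (m - 1 - j)) * (c - b i₀) :=
              (geom_sum₂_mul c (b i₀) m).symm
            have hg : (∑ j ∈ Finset.range m, c ^ j * b i₀ ^ (m - 1 - j)) ∈ V i₀ :=
              sum_mem (fun j _ => mul_mem (pow_mem (hcV i₀ hi₀).1 j) (pow_mem hbV _))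
            rw [e2, map_mul]
            exact lt_of_le_of_lt
              (mul_le_of_le_one_left' (((V i₀).valuation_le_one_iff _).mpr hg)) hcb_lt
        have e : a - 1 = (a - (b' i₀) ^ m) + ((b' i₀) ^ m - 1) := by ring
        rw [e]
        exact (ld55_max B n).add_mem h2 h1
      obtain ⟨μ, hμ, hmμ⟩ := hmB
      exact ld55_glue (sf79_loc B n) (ld55_max B n) (ld55_max_le_jacobson B n) _ T V hloc m hm0
        ⟨μ, ld55_B_le_loc B n μ hμ, hmμ⟩ c (fun i hi => (hcV i hi).1) a ha1 hcm b' hb'1 hcb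
  obtain ⟨e, heB, he⟩ := hglue
  -- the branches which do not pass through `n`
  have hoff : ∀ j ∈ T', ∃ e' : B, e' ∉ n ∧ (algebraMap R F π)⁻¹ * (e' : F) ∈ V j := by
    intro j hj
    rw [hT'] at hj
    have hnot := (Finset.mem_filter.mp hj).2
    unfold sf79_OnBr at hnot
    push Not at hnot
    obtain ⟨x, hx, hxn⟩ := hnot
    exact ⟨x, hxn, hx⟩
  obtain ⟨δ, hδB, hδ⟩ := ld55_dense π B T' V (fun j _ => hBV j) (fun j _ => hπ j)
    (fun j _ => harch j) hFrac n hoff ((algebraMap R F π)⁻¹ * (c - e)) c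
  refine ⟨(e + algebraMap R F π * δ) / c, ?_, ?_⟩
  · intro i
    have hp0' := hp0 i
    by_cases hi : sf79_OnBr π B (V i).toSubring n
    · have hiT : i ∈ T := by
        rw [hT]
        exact Finset.mem_filter.mpr ⟨Finset.mem_univ i, hi⟩
      have e1 : (algebraMap R F π)⁻¹ * ((e + algebraMap R F π * δ) / c - 1) =
          (δ - (algebraMap R F π)⁻¹ * (c - e)) * c⁻¹ := by
        field_simp
        ring
      rw [e1]
      exact mul_mem (sub_mem (hloc i hiT δ hδB) (he i hiT)) (hcV i hiT).2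
    · have hiT' : i ∈ T' := by
        rw [hT']
        exact Finset.mem_filter.mpr ⟨Finset.mem_univ i, hi⟩
      have e1 : (algebraMap R F π)⁻¹ * ((e + algebraMap R F π * δ) / c - 1) =
          c⁻¹ * (δ - (algebraMap R F π)⁻¹ * (c - e)) := by
        field_simp
        ring
      rw [e1]
      exact hδ i hiT'
  · have hη : e + algebraMap R F π * δ ∈ sf79_loc B n :=
      add_mem heB (mul_mem (ld55_B_le_loc B n _ hpB) hδB)
    have hmem : (e + algebraMap R F π * δ) ^ m * (u / c ^ m) ∈ sf79_loc B n :=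
      mul_mem (pow_mem hη m) hε
    obtain ⟨s, hs, hsm⟩ := hmem
    refine ⟨s, hs, ?_⟩
    have e1 : ((e + algebraMap R F π * δ) / c) ^ m * u =
        (e + algebraMap R F π * δ) ^ m * (u / c ^ m) := by
      rw [div_pow]
      field_simp
    rw [e1]
    exact hsm

end Datum

end Fermat.Agent.S36
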