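import Mathlib
import Fermat.Agent.S36.LocalDatum55

/-!
# S36 lab, row 603 (B3-glue, twin by helper55), part B: the local datum at ONE-BRANCH points,
thick branches included

Continuation of `LocalDatum55` (same vocabulary).  `ld55_mV V` is the maximal ideal of the
valuation ring `V`, as an additive subgroup of `F` (`x ∈ ld55_mV V ↔ V.valuation x < 1`).

* `ld55_datum_at_lift` : `ld55_datum_at` with ONE common lift `b₀ ∈ B_n` of `c` modulo `𝔪 (V i)`
  for all branches through `n`, and NO condition on its value at `n`.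
* `ld55_unif_pow` : the discrete valuation property of a branch with a local coordinate `z` at
  `n` (the port of `sf79_unif_pow` to an arbitrary, possibly thick, branch).
* `ld55_frac` : `V = B_(p_V)` near `n`, from a generator `ξ` of the branch at `n`.
* `ld55_lift` : an element `x ∈ V` whose `m`-th power is a unit of `B_n` modulo `𝔪 (V)` is
  congruent modulo `𝔪 (V)` to an element of `B_n`.
* `ld55_datum_at_one` : the clause of `s34i47_LocalDatum` at a closed point `n` which lies on at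
  most ONE branch `V i₀` (reduced or thick), from `u = ε c ^ m`, a local coordinate `z` of the
  branch at `n` and a generator `ξ` of the branch at `n`.
-/

set_option autoImplicit false

namespace Fermat.Agent.S36

open Fermat.Agent.S34

/-! ## 1. The maximal ideal of a valuation ring, as a subgroup of the field -/

section MV

variable {F : Type*} [Field F]

/-- The maximal ideal of `V`, as an additive subgroup of `F`. -/
def ld55_mV (V : ValuationSubring F) : AddSubgroup F where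
  carrier := {x | V.valuation x < 1}
  add_mem' := by
    intro a b ha hb
    have ha' : V.valuation a < 1 := ha
    have hb' : V.valuation b < 1 := hb
    show V.valuation (a + b) < 1
    exact lt_of_le_of_lt (Valuation.map_add _ _ _) (max_lt ha' hb')
  zero_mem' := by
    show V.valuation 0 < 1
    rw [map_zero]
    exact zero_lt_one
  neg_mem' := by
    intro a ha
    show V.valuation (-a) < 1
    rw [Valuation.map_neg]
    exact ha

theorem ld55_mem_mV (V : ValuationSubring F) (x : F) :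
    x ∈ ld55_mV V ↔ V.valuation x < 1 := Iff.rfl

/-- `x ∈ p V` with `p` a nonunit of `V` implies `x ∈ 𝔪 (V)` (for `sf79_Unif`-type hypotheses
`π⁻¹ * (…) ∈ V` and for `s⁻¹ * (…) ∈ V`, `s` a uniformiser). -/
theorem ld55_mV_of_div (V : ValuationSubring F) (p x : F) (hpV : p ∈ V) (hp : p⁻¹ ∉ V)
    (hx : p⁻¹ * x ∈ V) : x ∈ ld55_mV V :=
  ld55_val_lt V p x hpV hp hx

theorem ld55_mV_mul (V : ValuationSubring F) {a x : F} (ha : a ∈ V) (hx : x ∈ ld55_mV V) :
    a * x ∈ ld55_mV V := by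
  show V.valuation (a * x) < 1
  rw [map_mul]
  exact lt_of_le_of_lt (mul_le_of_le_one_left' ((V.valuation_le_one_iff _).mpr ha)) hx

theorem ld55_mV_mul' (V : ValuationSubring F) {a x : F} (hx : x ∈ ld55_mV V) (ha : a ∈ V) :
    x * a ∈ ld55_mV V := by
  rw [mul_comm]
  exact ld55_mV_mul V ha hx

theorem ld55_mV_le (V : ValuationSubring F) {x : F} (hx : x ∈ ld55_mV V) : x ∈ V :=
  (V.valuation_le_one_iff x).mp (le_of_lt hx)

theorem ld55_val_eq_one (V : ValuationSubring F) {x : F} (hx : x ∈ V) (h : x ∉ ld55_mV V) :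
    V.valuation x = 1 :=
  le_antisymm ((V.valuation_le_one_iff x).mpr hx) (not_lt.mp h)

theorem ld55_inv_mem (V : ValuationSubring F) {x : F} (hx : x ∈ V) (h : x ∉ ld55_mV V) :
    x⁻¹ ∈ V := by
  rw [← V.valuation_le_one_iff, map_inv₀, ld55_val_eq_one V hx h, inv_one]

theorem ld55_mV_mul_mem (V : ValuationSubring F) {a b : F} (ha : a ∈ V) (hb : b ∈ V)
    (h : a * b ∈ ld55_mV V) : a ∈ ld55_mV V ∨ b ∈ ld55_mV V := by
  by_contra hcon
  rw [not_or] at hcon
  have h' : V.valuation (a * b) < 1 := h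
  rw [map_mul, ld55_val_eq_one V ha hcon.1, ld55_val_eq_one V hb hcon.2, one_mul] at h'
  exact lt_irrefl _ h'

theorem ld55_one_not_mV (V : ValuationSubring F) : (1 : F) ∉ ld55_mV V := by
  intro h
  have h' : V.valuation (1 : F) < 1 := h
  rw [map_one] at h'
  exact lt_irrefl _ h'

end MV

/-! ## 2. One common lift -/

section Lift

variable {R F : Type*} [CommRing R] [Field F] [Algebra R F]

/-- On a branch through `n`, the elements of `B` of positive valuation lie in `n`. -/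
theorem ld55_br_le (π : R) (B : Subalgebra R F) (V : ValuationSubring F)
    (hrad : ∀ x ∈ V, x⁻¹ ∉ V → ∃ k : ℕ, (algebraMap R F π)⁻¹ * x ^ k ∈ V)
    (n : Ideal B) [hn : n.IsPrime] (hOn : sf79_OnBr π B V.toSubring n)
    (x : B) (hx : (x : F) ∈ ld55_mV V) : x ∈ n := by
  obtain ⟨k, hk⟩ := ld55_rad_val V _ hrad _ hx
  have h1 : x ^ k ∈ n := by
    apply hOn
    show (algebraMap R F π)⁻¹ * ((x ^ k : B) : F) ∈ V
    push_cast
    exact hk
  exact hn.mem_of_pow_mem k h1

/-- **The local datum from one common lift.**  As `ld55_datum_at`, but with ONE `b₀ ∈ B_n`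
congruent to `c` modulo `𝔪 (V i)` for every branch `V i` through `n`; no condition on the value
of `b₀` at `n` (it is automatically a unit of `B_n`). -/
theorem ld55_datum_at_lift (π : R) (m : ℕ) (hm0 : 0 < m) (B : Subalgebra R F)
    (hmB : ∃ μ ∈ B, (m : F) * μ = 1)
    {ι : Type*} [Finite ι] (V : ι → ValuationSubring F)
    (hBV : ∀ i, ∀ x ∈ B, x ∈ V i) (hπ : ∀ i, (algebraMap R F π)⁻¹ ∉ V i)
    (hrad : ∀ i, ∀ x ∈ V i, x⁻¹ ∉ V i → ∃ k : ℕ, (algebraMap R F π)⁻¹ * x ^ k ∈ V i)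
    (harch : ∀ i, ∀ x ∈ B, x ≠ 0 → ∃ k : ℕ, (algebraMap R F π ^ k)⁻¹ * x ∉ V i)
    (hFrac : ∀ x : F, ∃ a ∈ B, ∃ b ∈ B, b ≠ 0 ∧ x * b = a)
    (n : Ideal B) [hn : n.IsPrime]
    (u : F) (hu : ∀ i, (algebraMap R F π)⁻¹ * (u - 1) ∈ V i)
    (c : F) (hc : c ≠ 0)
    (hε : u / c ^ m ∈ sf79_loc B n) (hε' : c ^ m / u ∈ sf79_loc B n)
    (b₀ : F) (hb₀ : b₀ ∈ sf79_loc B n)
    (hcb : ∀ i, sf79_OnBr π B (V i).toSubring n → c - b₀ ∈ ld55_mV (V i)) :
    ∃ φ : F, (∀ i, (algebraMap R F π)⁻¹ * (φ - 1) ∈ V i) ∧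
      ∃ s : B, s ∉ n ∧ (s : F) * (φ ^ m * u) ∈ B := by
  have h1n : (1 : B) ∉ n := (Ideal.ne_top_iff_one n).mp hn.ne_top
  have htriv : ∃ s : B, s ∉ n ∧ ∃ y : B, y ∈ n ∧ (s : F) * ((1 : F) - 1) = (y : F) :=
    ⟨1, h1n, 0, n.zero_mem, by simp⟩
  by_cases hex : ∃ i₀, sf79_OnBr π B (V i₀).toSubring n
  swap
  · -- no branch through `n`: nothing to glue
    exact ld55_datum_at π m hm0 B hmB V hBV hπ hrad harch hFrac n u hu c hc hε hε'
      (fun _ => 1) (fun i hi => absurd ⟨i, hi⟩ hex)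
  obtain ⟨i₀, hi₀⟩ := hex
  have hpB : algebraMap R F π ∈ B := B.algebraMap_mem π
  have hloc : ∀ i, sf79_OnBr π B (V i).toSubring n → ∀ x ∈ sf79_loc B n, x ∈ V i :=
    fun i hi x hx => ld55_loc_le π B (V i) (hBV i) (hrad i) n hi x hx
  have hu0 : u ≠ 0 := by
    intro h0
    apply hπ i₀
    have h := neg_mem (hu i₀)
    have e : -((algebraMap R F π)⁻¹ * (u - 1)) = (algebraMap R F π)⁻¹ := by
      rw [h0]
      ring
    rwa [e] at h
  have huV : ∀ i, u ∈ V i ∧ u⁻¹ ∈ V i := by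
    intro i
    have h := ld55_unit_one_add (V i) (u - 1)
      (ld55_val_lt (V i) _ (u - 1) (hBV i _ hpB) (hπ i) (hu i))
    have e : 1 + (u - 1) = u := by ring
    rwa [e] at h
  have hcV : c ∈ V i₀ := by
    have h1 : c ^ m ∈ V i₀ := by
      have e : c ^ m = (c ^ m / u) * u := by field_simp
      rw [e]
      exact mul_mem (hloc i₀ hi₀ _ hε') (huV i₀).1
    exact ld55_root (V i₀) c m hm0 h1
  have hbV : b₀ ∈ V i₀ := hloc i₀ hi₀ _ hb₀
  -- `b₀` is a unit of `B_n`
  obtain ⟨s, hs, hsb⟩ := hb₀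
  have hyn : (⟨_, hsb⟩ : B) ∉ n := by
    intro hy
    have hbmax : (⟨b₀, ⟨s, hs, hsb⟩⟩ : ↥(sf79_loc B n)) ∈ ld55_max B n :=
      ⟨s, hs, ⟨_, hsb⟩, hy, rfl⟩
    have hbm : (⟨b₀, ⟨s, hs, hsb⟩⟩ : ↥(sf79_loc B n)) ^ m ∈ ld55_max B n :=
      Ideal.pow_mem_of_mem _ hbmax m hm0
    have ha : (⟨c ^ m / u, hε'⟩ : ↥(sf79_loc B n)) -
        (⟨b₀, ⟨s, hs, hsb⟩⟩ : ↥(sf79_loc B n)) ^ m ∈ ld55_max B n := by
      apply ld55_mem_max_of_val π B (V i₀) (hBV i₀) (hrad i₀) n hi₀
      have e : (((⟨c ^ m / u, hε'⟩ : ↥(sf79_loc B n)) -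
          (⟨b₀, ⟨s, hs, hsb⟩⟩ : ↥(sf79_loc B n)) ^ m : ↥(sf79_loc B n)) : F) =
          -(c ^ m * u⁻¹ * (u - 1)) +
            (∑ j ∈ Finset.range m, c ^ j * b₀ ^ (m - 1 - j)) * (c - b₀) := by
        rw [geom_sum₂_mul]
        push_cast
        field_simp
        ring
      rw [e]
      have h1 : c ^ m * u⁻¹ * (u - 1) ∈ ld55_mV (V i₀) :=
        ld55_mV_mul (V i₀) (mul_mem (pow_mem hcV m) (huV i₀).2)
          (ld55_val_lt (V i₀) _ (u - 1) (hBV i₀ _ hpB) (hπ i₀) (hu i₀))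
      have h2 : (∑ j ∈ Finset.range m, c ^ j * b₀ ^ (m - 1 - j)) * (c - b₀) ∈ ld55_mV (V i₀) :=
        ld55_mV_mul (V i₀)
          (sum_mem (fun j _ => mul_mem (pow_mem hcV j) (pow_mem hbV _))) (hcb i₀ hi₀)
      exact add_mem (neg_mem h1) h2
    have ha2 : (⟨c ^ m / u, hε'⟩ : ↥(sf79_loc B n)) ∈ ld55_max B n := by
      have h3 := (ld55_max B n).add_mem ha hbm
      rwa [sub_add_cancel] at h3
    have h1 : (1 : ↥(sf79_loc B n)) ∈ ld55_max B n := by
      have h4 := (ld55_max B n).mul_mem_left (⟨u / c ^ m, hε⟩ : ↥(sf79_loc B n)) ha2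
      have e : (⟨u / c ^ m, hε⟩ : ↥(sf79_loc B n)) * ⟨c ^ m / u, hε'⟩ = 1 := by
        apply Subtype.ext
        push_cast
        field_simp
      rwa [e] at h4
    exact ld55_one_not_mem_max B n h1
  have hy0 : s * b₀ ≠ 0 := by
    intro h0
    apply hyn
    have e : (⟨_, hsb⟩ : B) = 0 := Subtype.ext h0
    rw [e]
    exact n.zero_mem
  have hb0 : b₀ ≠ 0 := right_ne_zero_of_mul hy0
  have hs0 : (s : F) ≠ 0 := left_ne_zero_of_mul hy0
  have hbinv : b₀⁻¹ ∈ sf79_loc B n := by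
    refine ⟨⟨_, hsb⟩, hyn, ?_⟩
    have e : ((⟨_, hsb⟩ : B) : F) * b₀⁻¹ = (s : F) := by
      show (s : F) * b₀ * b₀⁻¹ = (s : F)
      field_simp
    rw [e]
    exact s.2
  have hb₀' : b₀ ∈ sf79_loc B n := ⟨s, hs, hsb⟩
  -- apply the main theorem to `c / b₀`
  refine ld55_datum_at π m hm0 B hmB V hBV hπ hrad harch hFrac n u hu (c / b₀)
    (div_ne_zero hc hb0) ?_ ?_ (fun _ => 1) ?_
  · have e : u / (c / b₀) ^ m = (u / c ^ m) * b₀ ^ m := by
      rw [div_pow]
      field_simp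
    rw [e]
    exact mul_mem hε (pow_mem hb₀' m)
  · have e : (c / b₀) ^ m / u = (c ^ m / u) * b₀⁻¹ ^ m := by
      rw [div_pow, inv_pow]
      field_simp
    rw [e]
    exact mul_mem hε' (pow_mem hbinv m)
  · intro i hi
    refine ⟨htriv, ?_⟩
    have h1 : c / b₀ - 1 ∈ ld55_mV (V i) := by
      have e : c / b₀ - 1 = (c - b₀) * b₀⁻¹ := by field_simp
      rw [e]
      exact ld55_mV_mul' (V i) (hcb i hi) (hloc i hi _ hbinv)
    exact ld55_rad_val (V i) _ (hrad i) _ h1

end Lift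

/-! ## 3. A branch with a local coordinate -/

section Branch

variable {R F : Type*} [CommRing R] [Field F] [Algebra R F]

/-- The branch of `V` as an ideal of `B` (`p_V = B ∩ 𝔪 (V)`). -/
def ld55_br (B : Subalgebra R F) (V : ValuationSubring F) (hBV : ∀ x ∈ B, x ∈ V) : Ideal B where
  carrier := {x | (x : F) ∈ ld55_mV V}
  add_mem' := by
    intro a b ha hb
    show ((a + b : B) : F) ∈ ld55_mV V
    push_cast
    exact add_mem ha hb
  zero_mem' := by
    show ((0 : B) : F) ∈ ld55_mV V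
    push_cast
    exact zero_mem _
  smul_mem' := by
    intro c x hx
    show ((c • x : B) : F) ∈ ld55_mV V
    rw [smul_eq_mul]
    push_cast
    exact ld55_mV_mul V (hBV _ c.2) hx

theorem ld55_mem_br (B : Subalgebra R F) (V : ValuationSubring F) (hBV : ∀ x ∈ B, x ∈ V) (x : B) :
    x ∈ ld55_br B V hBV ↔ (x : F) ∈ ld55_mV V := Iff.rfl

theorem ld55_br_isPrime (B : Subalgebra R F) (V : ValuationSubring F) (hBV : ∀ x ∈ B, x ∈ V) :
    (ld55_br B V hBV).IsPrime := by
  refine ⟨?_, ?_⟩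
  · rw [Ideal.ne_top_iff_one, ld55_mem_br]
    push_cast
    exact ld55_one_not_mV V
  · intro x y hxy
    rw [ld55_mem_br] at hxy
    push_cast at hxy
    exact ld55_mV_mul_mem V (hBV _ x.2) (hBV _ y.2) hxy

/-- Elements of `n ^ μ` are, locally at `n` and modulo the branch, multiples of `z ^ μ`. -/
theorem ld55_pow_unif (B : Subalgebra R F) (V : ValuationSubring F) (hBV : ∀ x ∈ B, x ∈ V)
    (n : Ideal B) [hn : n.IsPrime] (z : B)
    (hz : ∀ x ∈ n, ∃ s : B, s ∉ n ∧ ∃ a : B,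
      (s : F) * (x : F) - (a : F) * (z : F) ∈ ld55_mV V) (μ : ℕ) :
    ∀ x ∈ n ^ μ, ∃ s : B, s ∉ n ∧ ∃ a : B,
      (s : F) * (x : F) - (a : F) * (z : F) ^ μ ∈ ld55_mV V := by
  induction μ with
  | zero =>
    intro x _
    refine ⟨1, (Ideal.ne_top_iff_one n).mp hn.ne_top, x, ?_⟩
    have e : ((1 : B) : F) * (x : F) - (x : F) * (z : F) ^ 0 = 0 := by
      push_cast
      ring
    rw [e]
    exact zero_mem _
  | succ μ ih =>
    intro x hx
    rw [pow_succ] at hx
    refine Submodule.mul_induction_on hx ?_ ?_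
    · intro m hm m' hm'
      obtain ⟨s, hs, a, ha⟩ := ih m hm
      obtain ⟨s', hs', a', ha'⟩ := hz m' hm'
      refine ⟨s * s', fun h => (hn.mem_or_mem h).elim hs hs', a * a', ?_⟩
      have e : ((s * s' : B) : F) * ((m * m' : B) : F) - ((a * a' : B) : F) * (z : F) ^ (μ + 1) =
          ((s : F) * (m : F) - (a : F) * (z : F) ^ μ) * ((s' : F) * (m' : F)) +
            ((a : F) * (z : F) ^ μ) * ((s' : F) * (m' : F) - (a' : F) * (z : F)) := by
        push_cast
        ring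
      rw [e]
      exact add_mem (ld55_mV_mul' V ha (hBV _ (B.mul_mem s'.2 m'.2)))
        (ld55_mV_mul V (hBV _ (B.mul_mem a.2 (B.pow_mem z.2 μ))) ha')
    · rintro x y ⟨s, hs, a, ha⟩ ⟨s', hs', a', ha'⟩
      refine ⟨s * s', fun h => (hn.mem_or_mem h).elim hs hs', s' * a + s * a', ?_⟩
      have e : ((s * s' : B) : F) * ((x + y : B) : F) -
            ((s' * a + s * a' : B) : F) * (z : F) ^ (μ + 1) =
          (s' : F) * ((s : F) * (x : F) - (a : F) * (z : F) ^ (μ + 1)) +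
            (s : F) * ((s' : F) * (y : F) - (a' : F) * (z : F) ^ (μ + 1)) := by
        push_cast
        ring
      rw [e]
      exact add_mem (ld55_mV_mul V (hBV _ s'.2) ha) (ld55_mV_mul V (hBV _ s.2) ha')

/-- **The discrete valuation property of a branch with a local coordinate at `n`** (thick
branches allowed): an element `u` of `B` which is a unit along `V` is, modulo the branch, a unit
of `B_n` times a power of the local coordinate `z`. -/
theorem ld55_unif_pow (B : Subalgebra R F) [IsNoetherianRing B] (V : ValuationSubring F)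
    (hBV : ∀ x ∈ B, x ∈ V) (n : Ideal B) [hn : n.IsMaximal]
    (hPn : ∀ x : B, (x : F) ∈ ld55_mV V → x ∈ n)
    (z : B) (hzn : z ∈ n)
    (hz : ∀ x ∈ n, ∃ s : B, s ∉ n ∧ ∃ a : B,
      (s : F) * (x : F) - (a : F) * (z : F) ∈ ld55_mV V)
    (u : B) (hu : (u : F) ∉ ld55_mV V) :
    ∃ (μ : ℕ) (s a : B), s ∉ n ∧ a ∉ n ∧
      (s : F) * (u : F) - (a : F) * (z : F) ^ μ ∈ ld55_mV V := by
  classical
  have hnp : n.IsPrime := hn.isPrime
  set P : Ideal B := ld55_br B V hBV with hP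
  have hPp : P.IsPrime := ld55_br_isPrime B V hBV
  have hPn' : P ≤ n := fun x hx => hPn x hx
  set mk := Ideal.Quotient.mk P with hmk
  have hsurj : Function.Surjective mk := Ideal.Quotient.mk_surjective
  set I : Ideal (B ⧸ P) := n.map mk with hI
  have hItop : I ≠ ⊤ := by
    intro htop
    have h1 : (1 : B ⧸ P) ∈ I := by rw [htop]; trivial
    obtain ⟨x, hx, hx1⟩ := (Ideal.mem_map_iff_of_surjective mk hsurj).mp h1
    have h2 : x - 1 ∈ P := by
      rw [← Ideal.Quotient.eq_zero_iff_mem, map_sub, ← hmk, hx1, map_one, sub_self]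
    have h3 : (1 : B) ∈ n := by
      have := n.sub_mem hx (hPn' h2)
      simpa using this
    exact hnp.ne_top ((Ideal.eq_top_iff_one n).mpr h3)
  have hkrull := Ideal.iInf_pow_eq_bot_of_isDomain I hItop
  have hu0 : mk u ≠ 0 := by
    intro h0
    rw [hmk, Ideal.Quotient.eq_zero_iff_mem] at h0
    exact hu h0
  have hex : ∃ k : ℕ, mk u ∉ I ^ k := by
    by_contra hall
    apply hu0
    have : mk u ∈ ⨅ i : ℕ, I ^ i := by
      rw [Ideal.mem_iInf]
      intro i
      by_contra hi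
      exact hall ⟨i, hi⟩
    rw [hkrull] at this
    exact this
  have hk0 : Nat.find hex ≠ 0 := by
    intro h0
    have h1 := Nat.find_spec hex
    apply h1
    rw [h0]
    simp
  obtain ⟨μ, hμ⟩ := Nat.exists_eq_succ_of_ne_zero hk0
  have hμ1 : mk u ∉ I ^ (μ + 1) := by
    have := Nat.find_spec hex
    rwa [hμ] at this
  have hμ0 : mk u ∈ I ^ μ := by
    by_contra h
    have := Nat.find_min' hex h
    omega
  rw [hI, ← Ideal.map_pow] at hμ0
  obtain ⟨x, hx, hxu⟩ := (Ideal.mem_map_iff_of_surjective mk hsurj).mp hμ0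
  have hxuP : x - u ∈ P := by
    rw [← Ideal.Quotient.eq_zero_iff_mem, map_sub, ← hmk, hxu, sub_self]
  obtain ⟨s, hs, a, ha⟩ := ld55_pow_unif B V hBV n z hz μ x hx
  have hsu : (s : F) * (u : F) - (a : F) * (z : F) ^ μ ∈ ld55_mV V := by
    have e : (s : F) * (u : F) - (a : F) * (z : F) ^ μ =
        ((s : F) * (x : F) - (a : F) * (z : F) ^ μ) - (s : F) * ((x - u : B) : F) := by
      push_cast
      ring
    rw [e]
    exact sub_mem ha (ld55_mV_mul V (hBV _ s.2) hxuP)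
  refine ⟨μ, s, a, hs, ?_, hsu⟩
  intro han
  apply hμ1
  have h1 : a * z ^ μ ∈ n ^ (μ + 1) := by
    rw [pow_succ']
    exact Ideal.mul_mem_mul han (Ideal.pow_mem_pow hzn μ)
  have h2 : s * u - a * z ^ μ ∈ P := by
    rw [hP, ld55_mem_br]
    push_cast
    exact hsu
  have h3 : mk (s * u) = mk (a * z ^ μ) := by
    have := (Ideal.Quotient.eq_zero_iff_mem (I := P)).mpr h2
    rw [map_sub, sub_eq_zero] at this
    exact this
  obtain ⟨y, i, hi, hyi⟩ := Ideal.IsMaximal.exists_inv_pow n hs (μ + 1)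
  have h4 : mk u = mk y * mk (a * z ^ μ) + mk (i * u) := by
    rw [← h3, ← map_mul, ← map_add]
    congr 1
    calc u = (y * s + i) * u := by rw [hyi, one_mul]
      _ = y * (s * u) + i * u := by ring
  rw [h4, hI, ← Ideal.map_pow]
  refine Ideal.add_mem _ (Ideal.mul_mem_left _ _ (Ideal.mem_map_of_mem mk h1))
    (Ideal.mem_map_of_mem mk (Ideal.mul_mem_right _ _ hi))

end Branch

/-! ## 4. `V = B_(p_V)` near `n`, the lift, and the one-branch datum -/

section One

variable {R F : Type*} [CommRing R] [Field F] [Algebra R F]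

/-- **`V` is the localisation of `B` at its branch, near `n`**: if the branch `p_V` is generated
at `n` by `ξ`, every `x ∈ V` is a quotient `b / b'` of elements of `B` with `b'` a unit of `V`. -/
theorem ld55_frac (π : R) (B : Subalgebra R F) (V : ValuationSubring F) (hBV : ∀ x ∈ B, x ∈ V)
    (hπV : (algebraMap R F π)⁻¹ ∉ V)
    (hrad : ∀ x ∈ V, x⁻¹ ∉ V → ∃ k : ℕ, (algebraMap R F π)⁻¹ * x ^ k ∈ V)
    (harch : ∀ x ∈ B, x ≠ 0 → ∃ k : ℕ, (algebraMap R F π ^ k)⁻¹ * x ∉ V)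
    (hFrac : ∀ x : F, ∃ a ∈ B, ∃ b ∈ B, b ≠ 0 ∧ x * b = a)
    (n : Ideal B) [n.IsPrime] (hPn : ∀ x : B, (x : F) ∈ ld55_mV V → x ∈ n)
    (ξ : B) (hξ : (ξ : F) ∈ ld55_mV V)
    (hgen : ∀ x : B, (x : F) ∈ ld55_mV V → ∃ t : B, t ∉ n ∧ ∃ b : B, t * x = b * ξ)
    (x : F) (hx : x ∈ V) :
    ∃ b b' : B, (b' : F) ∉ ld55_mV V ∧ (b' : F) * x = (b : F) := by
  have hunit : ∀ y : B, y ∉ n → V.valuation (y : F) = 1 := fun y hy =>
    ld55_val_eq_one V (hBV _ y.2) (fun h => hy (hPn y h))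
  have hne : ∀ y : B, y ∉ n → (y : F) ≠ 0 := by
    intro y hy h0
    apply hy
    have e : y = 0 := Subtype.ext h0
    rw [e]
    exact n.zero_mem
  have key : ∀ j : ℕ, ∀ a d : B, (d : F) ≠ 0 → x * (d : F) = (a : F) →
      ¬ (V.valuation (d : F) ≤ V.valuation (ξ : F) ^ j) →
      ∃ b b' : B, (b' : F) ∉ ld55_mV V ∧ (b' : F) * x = (b : F) := by
    intro j
    induction j with
    | zero =>
      intro a d _ _ h
      exact absurd (by rw [pow_zero]; exact (V.valuation_le_one_iff _).mpr (hBV _ d.2)) h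
    | succ j ih =>
      intro a d hd0 hxd hj
      by_cases hd : (d : F) ∈ ld55_mV V
      · obtain ⟨t, ht, d₁, hd₁⟩ := hgen d hd
        have ha : (a : F) ∈ ld55_mV V := by
          rw [← hxd]
          exact ld55_mV_mul V hx hd
        obtain ⟨t', ht', a₁, ha₁⟩ := hgen a ha
        have h1 : (t : F) * (d : F) = (d₁ : F) * (ξ : F) := by
          have := congrArg (fun w : B => (w : F)) hd₁
          simpa using this
        have h2 : (t' : F) * (a : F) = (a₁ : F) * (ξ : F) := by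
          have := congrArg (fun w : B => (w : F)) ha₁
          simpa using this
        have htd0 : (t : F) * (d : F) ≠ 0 := mul_ne_zero (hne t ht) hd0
        have hξ0 : (ξ : F) ≠ 0 := by
          intro h0
          apply htd0
          rw [h1, h0, mul_zero]
        have hd₁0 : (d₁ : F) ≠ 0 := by
          intro h0
          apply htd0
          rw [h1, h0, zero_mul]
        apply ih (t * a₁) (t' * d₁)
        · push_cast
          exact mul_ne_zero (hne t' ht') hd₁0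
        · push_cast
          apply mul_right_cancel₀ hξ0
          linear_combination (-(x * (t' : F))) * h1 + ((t' : F) * (t : F)) * hxd + (t : F) * h2
        · intro hle
          apply hj
          have hv : V.valuation (d : F) = V.valuation (d₁ : F) * V.valuation (ξ : F) := by
            rw [← map_mul, ← h1, map_mul, hunit t ht, one_mul]
          have hle' : V.valuation (d₁ : F) ≤ V.valuation (ξ : F) ^ j := by
            have e : V.valuation (((t' * d₁ : B)) : F) = V.valuation (d₁ : F) := by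
              push_cast
              rw [map_mul, hunit t' ht', one_mul]
            rwa [e] at hle
          rw [hv, pow_succ]
          exact mul_le_mul' hle' le_rfl
      · exact ⟨a, d, hd, by rw [mul_comm]; exact hxd⟩
  obtain ⟨a, ha, d, hd, hd0, hxd⟩ := hFrac x
  obtain ⟨k, hk⟩ := harch d hd hd0
  obtain ⟨e, he⟩ := ld55_rad_val V _ hrad _ hξ
  have hp0 : algebraMap R F π ≠ 0 := by
    intro h0
    apply hπV
    rw [h0, inv_zero]
    exact zero_mem _
  have hvp : 0 < V.valuation (algebraMap R F π) := by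
    rw [zero_lt_iff]
    exact (map_ne_zero _).mpr hp0
  have hξe : V.valuation (ξ : F) ^ e ≤ V.valuation (algebraMap R F π) := by
    have h1 := (V.valuation_le_one_iff _).mpr he
    rw [map_mul, map_inv₀, map_pow] at h1
    have h2 := (inv_mul_le_iff₀ hvp).mp h1
    rwa [mul_one] at h2
  refine key (e * k) ⟨a, ha⟩ ⟨d, hd⟩ hd0 hxd ?_
  intro hle
  apply hk
  rw [← V.valuation_le_one_iff, map_mul, map_inv₀, map_pow]
  rw [inv_mul_le_iff₀ (pow_pos hvp k), mul_one]
  calc V.valuation d ≤ V.valuation (ξ : F) ^ (e * k) := hle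
    _ = (V.valuation (ξ : F) ^ e) ^ k := by rw [pow_mul]
    _ ≤ V.valuation (algebraMap R F π) ^ k := pow_le_pow_left' hξe k

/-- **The lift.**  On a branch `V` through the closed point `n` with a local coordinate `z` at
`n` and with `V = B_(p_V)` near `n`: an element `x ∈ V` whose `m`-th power is congruent modulo
`𝔪 (V)` to a unit `t' / t` of `B_n` is congruent modulo `𝔪 (V)` to an element `c' / d` of
`B_n`. -/
theorem ld55_lift (B : Subalgebra R F) [IsNoetherianRing B] (V : ValuationSubring F)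
    (hBV : ∀ x ∈ B, x ∈ V) (n : Ideal B) [hn : n.IsMaximal]
    (hPn : ∀ x : B, (x : F) ∈ ld55_mV V → x ∈ n)
    (z : B) (hzn : z ∈ n)
    (hz : ∀ x ∈ n, ∃ s : B, s ∉ n ∧ ∃ a : B,
      (s : F) * (x : F) - (a : F) * (z : F) ∈ ld55_mV V)
    (hfrac : ∀ x ∈ V, ∃ b b' : B, (b' : F) ∉ ld55_mV V ∧ (b' : F) * x = (b : F))
    (x : F) (hx : x ∈ V) (m : ℕ) (hm0 : 0 < m) (t t' : B) (ht : t ∉ n) (ht' : t' ∉ n)
    (hroot : (t : F) * x ^ m - (t' : F) ∈ ld55_mV V) :
    ∃ d c' : B, d ∉ n ∧ (d : F) * x - (c' : F) ∈ ld55_mV V := by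
  have hnp : n.IsPrime := hn.isPrime
  obtain ⟨b, b', hb', hbx⟩ := hfrac x hx
  have hunit : ∀ y : B, y ∉ n → (y : F) ∉ ld55_mV V := fun y hy h => hy (hPn y h)
  have hxu : x ∉ ld55_mV V := by
    intro hxm
    have h1 : (t : F) * x ^ m ∈ ld55_mV V := by
      obtain ⟨m', rfl⟩ := Nat.exists_eq_succ_of_ne_zero hm0.ne'
      rw [pow_succ, ← mul_assoc]
      exact ld55_mV_mul V (mul_mem (hBV _ t.2) (pow_mem hx m')) hxm
    have h2 : (t' : F) ∈ ld55_mV V := by
      have h3 := sub_mem h1 hroot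
      rwa [sub_sub_cancel] at h3
    exact hunit t' ht' h2
  have hb : (b : F) ∉ ld55_mV V := by
    rw [← hbx]
    intro h
    rcases ld55_mV_mul_mem V (hBV _ b'.2) hx h with h4 | h4
    · exact hb' h4
    · exact hxu h4
  obtain ⟨μ, s, a, hs, ha, hsa⟩ := ld55_unif_pow B V hBV n hPn z hzn hz b hb
  obtain ⟨μ', s', a', hs', ha', hsa'⟩ := ld55_unif_pow B V hBV n hPn z hzn hz b' hb'
  have hzμ : ∀ (ν : ℕ) (t u c : B), (t : F) ∉ ld55_mV V → (u : F) ∉ ld55_mV V →
      (t : F) * (u : F) - (c : F) * (z : F) ^ ν ∈ ld55_mV V → (z : F) ^ ν ∉ ld55_mV V := by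
    intro ν t u c ht hu h hz
    have h3 : (t : F) * (u : F) ∈ ld55_mV V := by
      have e : (t : F) * (u : F) =
          ((t : F) * (u : F) - (c : F) * (z : F) ^ ν) + (c : F) * (z : F) ^ ν := by ring
      rw [e]
      exact add_mem h (ld55_mV_mul V (hBV _ c.2) hz)
    rcases ld55_mV_mul_mem V (hBV _ t.2) (hBV _ u.2) h3 with h4 | h4
    · exact ht h4
    · exact hu h4
  have hz1 : (z : F) ^ μ ∉ ld55_mV V := hzμ μ s b a (hunit s hs) hb hsa
  have hz2 : (z : F) ^ μ' ∉ ld55_mV V := hzμ μ' s' b' a' (hunit s' hs') hb' hsa'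
  have hz1inv : ((z : F) ^ μ)⁻¹ ∈ V := ld55_inv_mem V (pow_mem (hBV _ z.2) μ) hz1
  have hz2inv : ((z : F) ^ μ')⁻¹ ∈ V := ld55_inv_mem V (pow_mem (hBV _ z.2) μ') hz2
  have hz0 : (z : F) ^ μ ≠ 0 := by
    intro h0
    apply hz1
    rw [h0]
    exact zero_mem _
  have hz0' : (z : F) ^ μ' ≠ 0 := by
    intro h0
    apply hz2
    rw [h0]
    exact zero_mem _
  have hcong : (a' : F) * (z : F) ^ μ' * (s : F) * x - (s' : F) * (a : F) * (z : F) ^ μ ∈
      ld55_mV V := by
    have e : (a' : F) * (z : F) ^ μ' * (s : F) * x - (s' : F) * (a : F) * (z : F) ^ μ =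
        -(((s' : F) * (b' : F) - (a' : F) * (z : F) ^ μ') * ((s : F) * x)) +
          (s' : F) * ((s : F) * (b : F) - (a : F) * (z : F) ^ μ) := by
      rw [← hbx]
      ring
    rw [e]
    exact add_mem (neg_mem (ld55_mV_mul' V hsa' (mul_mem (hBV _ s.2) hx)))
      (ld55_mV_mul V (hBV _ s'.2) hsa)
  rcases le_or_gt μ' μ with hle | hlt
  · obtain ⟨ν, rfl⟩ := Nat.exists_eq_add_of_le hle
    refine ⟨s * a', s' * a * z ^ ν, fun h => (hnp.mem_or_mem h).elim hs ha', ?_⟩
    have e : ((s * a' : B) : F) * x - ((s' * a * z ^ ν : B) : F) =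
        ((z : F) ^ μ')⁻¹ * ((a' : F) * (z : F) ^ μ' * (s : F) * x -
          (s' : F) * (a : F) * (z : F) ^ (μ' + ν)) := by
      push_cast
      rw [pow_add]
      field_simp
    rw [e]
    exact ld55_mV_mul V hz2inv hcong
  · exfalso
    obtain ⟨ν, hν⟩ := Nat.exists_eq_add_of_lt hlt
    subst hν
    have hXY : (a' : F) * (s : F) * (z : F) ^ (ν + 1) * x - (s' : F) * (a : F) ∈ ld55_mV V := by
      have e : (a' : F) * (s : F) * (z : F) ^ (ν + 1) * x - (s' : F) * (a : F) =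
          ((z : F) ^ μ)⁻¹ * ((a' : F) * (z : F) ^ (μ + ν + 1) * (s : F) * x -
            (s' : F) * (a : F) * (z : F) ^ μ) := by
        have hpw : (z : F) ^ (μ + ν + 1) = (z : F) ^ μ * (z : F) ^ (ν + 1) := by
          rw [← pow_add, Nat.add_assoc]
        rw [hpw]
        field_simp
      rw [e]
      exact ld55_mV_mul V hz1inv hcong
    have hXV : (a' : F) * (s : F) * (z : F) ^ (ν + 1) * x ∈ V :=
      mul_mem (mul_mem (mul_mem (hBV _ a'.2) (hBV _ s.2)) (pow_mem (hBV _ z.2) _)) hx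
    have hYV : (s' : F) * (a : F) ∈ V := mul_mem (hBV _ s'.2) (hBV _ a.2)
    have hpow : ((a' : F) * (s : F) * (z : F) ^ (ν + 1) * x) ^ m - ((s' : F) * (a : F)) ^ m ∈
        ld55_mV V := by
      rw [← geom_sum₂_mul]
      exact ld55_mV_mul V (sum_mem (fun j _ => mul_mem (pow_mem hXV j) (pow_mem hYV _))) hXY
    have hw : ((t * (s' * a) ^ m - (a' * s) ^ m * z ^ ((ν + 1) * m) * t' : B) : F) ∈
        ld55_mV V := by
      have e : ((t * (s' * a) ^ m - (a' * s) ^ m * z ^ ((ν + 1) * m) * t' : B) : F) =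
          -((t : F) * (((a' : F) * (s : F) * (z : F) ^ (ν + 1) * x) ^ m -
              ((s' : F) * (a : F)) ^ m)) +
            ((a' : F) * (s : F) * (z : F) ^ (ν + 1)) ^ m * ((t : F) * x ^ m - (t' : F)) := by
        push_cast
        ring
      rw [e]
      exact add_mem (neg_mem (ld55_mV_mul V (hBV _ t.2) hpow))
        (ld55_mV_mul V (pow_mem (mul_mem (mul_mem (hBV _ a'.2) (hBV _ s.2))
          (pow_mem (hBV _ z.2) _)) m) hroot)
    have hwn := hPn _ hw
    have hzn' : (a' * s) ^ m * z ^ ((ν + 1) * m) * t' ∈ n :=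
      n.mul_mem_right _ (n.mul_mem_left _
        (Ideal.pow_mem_of_mem n hzn _ (Nat.mul_pos (Nat.succ_pos ν) hm0)))
    have h5 : t * (s' * a) ^ m ∈ n := by
      have h6 := n.add_mem hwn hzn'
      rwa [sub_add_cancel] at h6
    rcases hnp.mem_or_mem h5 with h | h
    · exact ht h
    · rcases hnp.mem_or_mem (hnp.mem_of_pow_mem m h) with h | h
      · exact hs' h
      · exact ha h

end One

/-! ## 5. The one-branch datum -/

section OneDatum

variable {R F : Type*} [CommRing R] [Field F] [Algebra R F]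

/-- **Row 603, one-branch points (thick branches included).**  At a closed point `n` which lies
on at most ONE branch `V i₀` of the family, with a local coordinate `z` of that branch at `n`
(`n B_n = z B_n + p B_n`, `p = B ∩ 𝔪 (V i₀)`) and a generator `ξ` of the branch at `n`
(`p B_n = ξ B_n`): for every `u ≡ 1` modulo `π V i` (all `i`) with `u = ε c ^ m`, `ε` a unit of
`B_n`, the clause of `s34i47_LocalDatum` at `n` holds.  For `C_1`-only / `C_3`-only points take
`ξ = π`; for `C_2`-only points take `ξ = s` (the uniformiser of `V₂`). -/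
theorem ld55_datum_at_one (π : R) (m : ℕ) (hm0 : 0 < m) (B : Subalgebra R F)
    [IsNoetherianRing B] (hmB : ∃ μ ∈ B, (m : F) * μ = 1)
    {ι : Type*} [Finite ι] (V : ι → ValuationSubring F)
    (hBV : ∀ i, ∀ x ∈ B, x ∈ V i) (hπ : ∀ i, (algebraMap R F π)⁻¹ ∉ V i)
    (hrad : ∀ i, ∀ x ∈ V i, x⁻¹ ∉ V i → ∃ k : ℕ, (algebraMap R F π)⁻¹ * x ^ k ∈ V i)
    (harch : ∀ i, ∀ x ∈ B, x ≠ 0 → ∃ k : ℕ, (algebraMap R F π ^ k)⁻¹ * x ∉ V i)
    (hFrac : ∀ x : F, ∃ a ∈ B, ∃ b ∈ B, b ≠ 0 ∧ x * b = a)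
    (n : Ideal B) [hn : n.IsMaximal]
    (u : F) (hu : ∀ i, (algebraMap R F π)⁻¹ * (u - 1) ∈ V i)
    (c : F) (hc : c ≠ 0)
    (hε : u / c ^ m ∈ sf79_loc B n) (hε' : c ^ m / u ∈ sf79_loc B n)
    (i₀ : ι) (hone : ∀ i, sf79_OnBr π B (V i).toSubring n → i = i₀)
    (z : B) (hzn : z ∈ n)
    (hz : ∀ x ∈ n, ∃ s : B, s ∉ n ∧ ∃ a : B,
      (s : F) * (x : F) - (a : F) * (z : F) ∈ ld55_mV (V i₀))
    (ξ : B) (hξ : (ξ : F) ∈ ld55_mV (V i₀))
    (hgen : ∀ x : B, (x : F) ∈ ld55_mV (V i₀) → ∃ t : B, t ∉ n ∧ ∃ b : B, t * x = b * ξ) :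
    ∃ φ : F, (∀ i, (algebraMap R F π)⁻¹ * (φ - 1) ∈ V i) ∧
      ∃ s : B, s ∉ n ∧ (s : F) * (φ ^ m * u) ∈ B := by
  have hnp : n.IsPrime := hn.isPrime
  by_cases hOn : sf79_OnBr π B (V i₀).toSubring n
  swap
  · -- no branch through `n`
    exact ld55_datum_at_lift π m hm0 B hmB V hBV hπ hrad harch hFrac n u hu c hc hε hε' 1
      (one_mem _) (fun i hi => absurd (hone i hi ▸ hi) hOn)
  have hpB : algebraMap R F π ∈ B := B.algebraMap_mem π
  have hPn : ∀ x : B, (x : F) ∈ ld55_mV (V i₀) → x ∈ n :=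
    fun x hx => ld55_br_le π B (V i₀) (hrad i₀) n hOn x hx
  have hloc : ∀ x ∈ sf79_loc B n, x ∈ V i₀ :=
    fun x hx => ld55_loc_le π B (V i₀) (hBV i₀) (hrad i₀) n hOn x hx
  have hu0 : u ≠ 0 := by
    intro h0
    apply hπ i₀
    have h := neg_mem (hu i₀)
    have e : -((algebraMap R F π)⁻¹ * (u - 1)) = (algebraMap R F π)⁻¹ := by
      rw [h0]
      ring
    rwa [e] at h
  have hu1 : u - 1 ∈ ld55_mV (V i₀) :=
    ld55_val_lt (V i₀) _ (u - 1) (hBV i₀ _ hpB) (hπ i₀) (hu i₀)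
  have huV : u ∈ V i₀ ∧ u⁻¹ ∈ V i₀ := by
    have h := ld55_unit_one_add (V i₀) (u - 1) hu1
    have e : 1 + (u - 1) = u := by ring
    rwa [e] at h
  have hcV : c ∈ V i₀ := by
    have h1 : c ^ m ∈ V i₀ := by
      have e : c ^ m = (c ^ m / u) * u := by field_simp
      rw [e]
      exact mul_mem (hloc _ hε') huV.1
    exact ld55_root (V i₀) c m hm0 h1
  -- the root relation `t c ^ m ≡ t'` with `t, t' ∉ n`
  obtain ⟨t, ht, htm⟩ := hε'
  obtain ⟨r, hr, hrm⟩ := hε
  have ht' : (⟨_, htm⟩ : B) ∉ n := by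
    intro h
    have h2 : (⟨_, htm⟩ : B) * ⟨_, hrm⟩ ∈ n := n.mul_mem_right _ h
    have e : (⟨_, htm⟩ : B) * ⟨_, hrm⟩ = t * r := by
      apply Subtype.ext
      push_cast
      field_simp
    rw [e] at h2
    exact (hnp.mem_or_mem h2).elim ht hr
  have hroot : (t : F) * c ^ m - ((⟨_, htm⟩ : B) : F) ∈ ld55_mV (V i₀) := by
    have e : (t : F) * c ^ m - ((⟨_, htm⟩ : B) : F) = (t : F) * c ^ m * u⁻¹ * (u - 1) := by
      show (t : F) * c ^ m - (t : F) * (c ^ m / u) = _
      field_simp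
    rw [e]
    exact ld55_mV_mul (V i₀) (mul_mem (mul_mem (hBV i₀ _ t.2) (pow_mem hcV m)) huV.2) hu1
  have hfrac : ∀ x ∈ V i₀, ∃ b b' : B, (b' : F) ∉ ld55_mV (V i₀) ∧ (b' : F) * x = (b : F) :=
    fun x hx => ld55_frac π B (V i₀) (hBV i₀) (hπ i₀) (hrad i₀) (harch i₀) hFrac n hPn ξ hξ
      hgen x hx
  obtain ⟨d, c', hd, hdc⟩ := ld55_lift B (V i₀) (hBV i₀) n hPn z hzn hz hfrac c hcV m hm0
    t ⟨_, htm⟩ ht ht' hroot
  have hd0 : (d : F) ≠ 0 := by
    intro h0
    apply hd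
    have e : d = 0 := Subtype.ext h0
    rw [e]
    exact n.zero_mem
  have hdinv : (d : F)⁻¹ ∈ V i₀ :=
    ld55_inv_mem (V i₀) (hBV i₀ _ d.2) (fun h => hd (hPn d h))
  refine ld55_datum_at_lift π m hm0 B hmB V hBV hπ hrad harch hFrac n u hu c hc
    ⟨r, hr, hrm⟩ ⟨t, ht, htm⟩ ((d : F)⁻¹ * (c' : F)) ⟨d, hd, ?_⟩ ?_
  · rw [← mul_assoc, mul_inv_cancel₀ hd0, one_mul]
    exact c'.2
  · intro i hi
    have hi0 : i = i₀ := hone i hi
    subst hi0
    have e : c - (d : F)⁻¹ * (c' : F) = (d : F)⁻¹ * ((d : F) * c - (c' : F)) := by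
      field_simp
    rw [e]
    exact ld55_mV_mul (V i) hdinv hdc

end OneDatum

end Fermat.Agent.S36
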