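import Mathlib
import Fermat.Agent.S36.CorePoints57
import Fermat.Agent.S36.LocalDatumB55
import Fermat.Agent.S36.LocPrinStrongThree9
import Fermat.Agent.S36.LocalDatum84

/-!
# S36 lab, row 605 (HP-1), helper84: the local datum at the closed points on at most one branch

`hp84_HP1` : the package `cp57_HP1` of `CorePoints57` (helper57) for a chart `B` with the three
vertical valuation rings `V₁`, `V₃` (reduced, uniformiser `π`) and `V₂` (uniformiser `σ`,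
`σ ^ e ∈ π V₂`), from the frame facts in the literal shapes of `tl71_twoGen` /
`lps9_strong_three` (helper71 / helper9) and of `ld55_datum_at_one` (helper55):

* chart: `B ⊆ V i`, saturation, `F = Frac B`, noetherian, Krull, `m` invertible in `B`;
* valuations: `π⁻¹ ∉ V i`, `hrad`, `harch`, and the uniformiser property in valuation form
  (`hunif₁`, `hunif₃` : `v x < 1 → π⁻¹ x ∈ V`; `hunif₂` : `v x < 1 → x σ⁻¹ ∈ V₂`);
* (3a): `sf79_Smooth` for `V₁`, `V₃`, `tl71_MidSmooth` for `V₂`;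
* divisors: the literal `hD₁`, `hD₃`, `hD₂` of `tl71_twoGen`.

Proof at a closed point `n` on at most one branch: `lps9_strong_three` gives `u = ε c ^ m` at
`n`; `c₂ := (c ^ ((q-1+2)(q-1)) θ) ^ q` is a local root of `u₂ = cp57_u2 q m u θ` with
`u₂ / c₂ ^ m = ((u / c ^ m) ^ ((q-1+2)(q-1))) ^ q ∈ B_n`; the branch through `n` (if any) has a
local coordinate ((3a)) and a generator at `n` (`π`, by saturation off the two other branches;
resp. `g` of `tl71_MidDivAt`, by `tl71_mid_principal`), and `ld55_datum_at_one` concludes.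

* `hp84_BrData`, `hp84_brData_red`, `hp84_brData_mid`: coordinate + generator of the branch at a
  one-branch point.
* `hp84_HP1`: the package.
-/

set_option autoImplicit false

namespace Fermat.Agent.S36

open Fermat.Agent.S18 Fermat.Agent.S34 Fermat.Agent.S35 Fermat.Agent.S36.TripleLoc71

section Branch

variable {R F : Type*} [CommRing R] [Field F] [Algebra R F]

/-- A local coordinate `z` and a generator `ξ` of the branch of `V` at the closed point `n`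
(the inputs `z hzn hz ξ hξ hgen` of `ld55_datum_at_one`). -/
def hp84_BrData (B : Subalgebra R F) (V : ValuationSubring F) (n : Ideal B) : Prop :=
  ∃ z ξ : B, z ∈ n ∧
    (∀ x ∈ n, ∃ s : B, s ∉ n ∧ ∃ a : B,
      (s : F) * (x : F) - (a : F) * (z : F) ∈ ld55_mV V) ∧
    (ξ : F) ∈ ld55_mV V ∧
    ∀ x : B, (x : F) ∈ ld55_mV V → ∃ t : B, t ∉ n ∧ ∃ b : B, t * x = b * ξ

/-- A reduced branch at a point off the two other branches: coordinate from (3a), generator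
`π` by saturation. -/
theorem hp84_brData_red (π : R) (hπ0 : algebraMap R F π ≠ 0) (B : Subalgebra R F)
    (V V' V'' : ValuationSubring F)
    (hB : ∀ x ∈ B, x ∈ V) (hB' : ∀ x ∈ B, x ∈ V') (hB'' : ∀ x ∈ B, x ∈ V'')
    (hsat : ∀ x ∈ B, (algebraMap R F π)⁻¹ * x ∈ V → (algebraMap R F π)⁻¹ * x ∈ V' →
      (algebraMap R F π)⁻¹ * x ∈ V'' → (algebraMap R F π)⁻¹ * x ∈ B)
    (hπV : (algebraMap R F π)⁻¹ ∉ V)
    (hunif : ∀ x : F, V.valuation x < 1 → (algebraMap R F π)⁻¹ * x ∈ V)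
    (hS : sf79_Smooth π B V.toSubring)
    (n : Ideal B) (hn : n.IsMaximal) (hπn : algebraMap R B π ∈ n)
    (hOn : sf79_OnBr π B V.toSubring n)
    (hOff' : ¬ sf79_OnBr π B V'.toSubring n) (hOff'' : ¬ sf79_OnBr π B V''.toSubring n) :
    hp84_BrData B V n := by
  have hnp : n.IsPrime := hn.isPrime
  obtain ⟨z, hzn, hz⟩ := hS n hn hπn hOn
  obtain ⟨t', ht'⟩ := not_forall.mp hOff'
  obtain ⟨ht'V, ht'n⟩ := Classical.not_imp.mp ht'
  obtain ⟨t'', ht''⟩ := not_forall.mp hOff''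
  obtain ⟨ht''V, ht''n⟩ := Classical.not_imp.mp ht''
  have hpV : algebraMap R F π ∈ V := hB _ (B.algebraMap_mem π)
  refine ⟨z, algebraMap R B π, hzn, ?_, ?_, ?_⟩
  · intro x hx
    obtain ⟨s, hs, a, ha⟩ := hz x hx
    exact ⟨s, hs, a, ld55_mV_of_div V _ _ hpV hπV ha⟩
  · show V.valuation (algebraMap R F π) < 1
    exact ld84_val_unif V _ hπV
  · intro x hx
    have hxV : (algebraMap R F π)⁻¹ * (x : F) ∈ V := hunif _ hx
    refine ⟨t' * t'', fun h => (hnp.mem_or_mem h).elim ht'n ht''n, ?_⟩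
    have hmem : (t' : F) * (t'' : F) * (x : F) ∈ B := B.mul_mem (B.mul_mem t'.2 t''.2) x.2
    have h1 : (algebraMap R F π)⁻¹ * ((t' : F) * (t'' : F) * (x : F)) ∈ V := by
      have e : (algebraMap R F π)⁻¹ * ((t' : F) * (t'' : F) * (x : F))
          = (t' : F) * (t'' : F) * ((algebraMap R F π)⁻¹ * (x : F)) := by ring
      rw [e]
      exact mul_mem (mul_mem (hB _ t'.2) (hB _ t''.2)) hxV
    have h2 : (algebraMap R F π)⁻¹ * ((t' : F) * (t'' : F) * (x : F)) ∈ V' := by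
      have e : (algebraMap R F π)⁻¹ * ((t' : F) * (t'' : F) * (x : F))
          = ((algebraMap R F π)⁻¹ * (t' : F)) * ((t'' : F) * (x : F)) := by ring
      rw [e]
      exact mul_mem ht'V (mul_mem (hB' _ t''.2) (hB' _ x.2))
    have h3 : (algebraMap R F π)⁻¹ * ((t' : F) * (t'' : F) * (x : F)) ∈ V'' := by
      have e : (algebraMap R F π)⁻¹ * ((t' : F) * (t'' : F) * (x : F))
          = ((algebraMap R F π)⁻¹ * (t'' : F)) * ((t' : F) * (x : F)) := by ring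
      rw [e]
      exact mul_mem ht''V (mul_mem (hB'' _ t'.2) (hB'' _ x.2))
    refine ⟨⟨_, hsat _ hmem h1 h2 h3⟩, Subtype.ext ?_⟩
    show (t' : F) * (t'' : F) * (x : F)
      = (algebraMap R F π)⁻¹ * ((t' : F) * (t'' : F) * (x : F)) * algebraMap R F π
    field_simp

/-- The middle (possibly non-reduced) branch at a point off the two other branches: coordinate
from `tl71_MidSmooth`, generator `g` of `tl71_MidDivAt` by `tl71_mid_principal`. -/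
theorem hp84_brData_mid (π : R) (σ : F) (e : ℕ) (hπ0 : algebraMap R F π ≠ 0) (hσ0 : σ ≠ 0)
    (B : Subalgebra R F) (V₁ V₂ V₃ : ValuationSubring F)
    (hB₁ : ∀ x ∈ B, x ∈ V₁) (hB₂ : ∀ x ∈ B, x ∈ V₂) (hB₃ : ∀ x ∈ B, x ∈ V₃)
    (hsat : ∀ x ∈ B, (algebraMap R F π)⁻¹ * x ∈ V₁ → (algebraMap R F π)⁻¹ * x ∈ V₂ →
      (algebraMap R F π)⁻¹ * x ∈ V₃ → (algebraMap R F π)⁻¹ * x ∈ B)
    (hπ₂ : (algebraMap R F π)⁻¹ ∉ V₂)
    (hσe : (algebraMap R F π)⁻¹ * σ ^ e ∈ V₂)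
    (hunif₂ : ∀ x : F, V₂.valuation x < 1 → x * σ⁻¹ ∈ V₂)
    (hS₂ : tl71_MidSmooth π σ B V₂.toSubring)
    (n : Ideal B) (hn : n.IsMaximal) (hπn : algebraMap R B π ∈ n)
    (hD₂ : tl71_OnMid σ B V₂.toSubring n → ¬ sf79_OnBr π B V₁.toSubring n →
      ¬ sf79_OnBr π B V₃.toSubring n →
      tl71_MidDivAt π σ B V₁.toSubring V₂.toSubring V₃.toSubring n)
    (hOn : sf79_OnBr π B V₂.toSubring n)
    (hOff₁ : ¬ sf79_OnBr π B V₁.toSubring n) (hOff₃ : ¬ sf79_OnBr π B V₃.toSubring n) :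
    hp84_BrData B V₂ n := by
  have hnp : n.IsPrime := hn.isPrime
  have hσv : V₂.valuation σ < 1 :=
    ld55_val_lt_of_pow V₂ σ e (ld84_val_lt V₂ _ _ hπ₂ hσe)
  have hmid : tl71_OnMid σ B V₂.toSubring n :=
    lps9_onMid_of_onBr π σ e B V₂.toSubring hσ0 hσe n hOn
  obtain ⟨z, hzn, hz⟩ := hS₂ n hn hπn hmid
  obtain ⟨g, c, t, k, ht, hgc, hgσ, hσg, hg₁, hg₃⟩ := hD₂ hmid hOff₁ hOff₃
  have hdiv : ∀ y : F, y * σ⁻¹ ∈ V₂ → V₂.valuation y < 1 := by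
    intro y hy
    have e1 : y = (y * σ⁻¹) * σ := by field_simp
    rw [e1]
    exact gc26_mul V₂ hy hσv
  refine ⟨z, g, hzn, ?_, hdiv _ hgσ, ?_⟩
  · intro x hx
    obtain ⟨s, hs, a, ha⟩ := hz x hx
    exact ⟨s, hs, a, hdiv _ ha⟩
  · intro x hx
    have hxg : (x : F) * (g : F)⁻¹ ∈ V₂ := by
      have hg0 : (g : F) ≠ 0 := by
        intro h0
        have h1 : (t : F) * algebraMap R F π = 0 := by
          have := congrArg (fun y : B => (y : F)) hgc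
          simp only [Subalgebra.coe_mul, Subalgebra.coe_pow, Subalgebra.coe_algebraMap] at this
          rw [← this, h0, zero_pow (Nat.succ_ne_zero k), zero_mul]
        rcases mul_eq_zero.mp h1 with h | h
        · exact sf79_ne_zero B n t ht h
        · exact hπ0 h
      have e1 : (x : F) * (g : F)⁻¹ = (x : F) * σ⁻¹ * (σ * (g : F)⁻¹) := by field_simp
      rw [e1]
      exact mul_mem (hunif₂ _ hx) hσg
    obtain ⟨b, hb⟩ := tl71_mid_principal π B V₁.toSubring V₂.toSubring V₃.toSubring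
      hB₁ hB₂ hB₃ hsat hπ0 g c t k hgc hg₁ hg₃ x hxg
    exact ⟨t, ht, b, hb⟩

end Branch

section HP1

variable {R K F1 F2 : Type*} [CommRing R] [Field K] [Field F1] [Field F2] [Algebra R K]
  [Algebra K F1] [Algebra R F2] [Algebra K F2]

omit [Algebra K F2] in
/-- **(HP-1)**: the package `cp57_HP1` from the frame facts of the three-branch chart. -/
theorem hp84_HP1 (π : R) (σ : F2) (e : ℕ) (q m : ℕ) (hm : 0 < m)
    (B : Subalgebra R F2) [IsNoetherianRing B]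
    (al be : F1 →+* F2) (Nal Nbe : F2 →* F1)
    (V₁ V₂ V₃ : ValuationSubring F2) (Vinf V0 : ValuationSubring F1)
    (hB₁ : ∀ x ∈ B, x ∈ V₁) (hB₂ : ∀ x ∈ B, x ∈ V₂) (hB₃ : ∀ x ∈ B, x ∈ V₃)
    (hsat : ∀ x ∈ B, (algebraMap R F2 π)⁻¹ * x ∈ V₁ → (algebraMap R F2 π)⁻¹ * x ∈ V₂ →
      (algebraMap R F2 π)⁻¹ * x ∈ V₃ → (algebraMap R F2 π)⁻¹ * x ∈ B)
    (hπ0 : algebraMap R F2 π ≠ 0) (hσ0 : σ ≠ 0)
    (hσe : (algebraMap R F2 π)⁻¹ * σ ^ e ∈ V₂)
    (hπ₁ : (algebraMap R F2 π)⁻¹ ∉ V₁) (hπ₂ : (algebraMap R F2 π)⁻¹ ∉ V₂)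
    (hπ₃ : (algebraMap R F2 π)⁻¹ ∉ V₃)
    (hrad₁ : ∀ x ∈ V₁, x⁻¹ ∉ V₁ → ∃ k : ℕ, (algebraMap R F2 π)⁻¹ * x ^ k ∈ V₁)
    (hrad₂ : ∀ x ∈ V₂, x⁻¹ ∉ V₂ → ∃ k : ℕ, (algebraMap R F2 π)⁻¹ * x ^ k ∈ V₂)
    (hrad₃ : ∀ x ∈ V₃, x⁻¹ ∉ V₃ → ∃ k : ℕ, (algebraMap R F2 π)⁻¹ * x ^ k ∈ V₃)
    (harch₁ : ∀ x ∈ B, x ≠ 0 → ∃ k : ℕ, (algebraMap R F2 π ^ k)⁻¹ * x ∉ V₁)
    (harch₂ : ∀ x ∈ B, x ≠ 0 → ∃ k : ℕ, (algebraMap R F2 π ^ k)⁻¹ * x ∉ V₂)
    (harch₃ : ∀ x ∈ B, x ≠ 0 → ∃ k : ℕ, (algebraMap R F2 π ^ k)⁻¹ * x ∉ V₃)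
    (hfrac : ∀ t : F2, ∃ a ∈ B, ∃ b ∈ B, b ≠ 0 ∧ t * b = a)
    (hmB : ∃ μ ∈ B, (m : F2) * μ = 1)
    (hunif₁ : ∀ x : F2, V₁.valuation x < 1 → (algebraMap R F2 π)⁻¹ * x ∈ V₁)
    (hunif₂ : ∀ x : F2, V₂.valuation x < 1 → x * σ⁻¹ ∈ V₂)
    (hunif₃ : ∀ x : F2, V₃.valuation x < 1 → (algebraMap R F2 π)⁻¹ * x ∈ V₃)
    (hKr : s34i47_Krull π B)
    (hS₁ : sf79_Smooth π B V₁.toSubring) (hS₃ : sf79_Smooth π B V₃.toSubring)
    (hS₂ : tl71_MidSmooth π σ B V₂.toSubring)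
    (hD₁ : ∀ n : Ideal B, n.IsMaximal → sf79_OnBr π B V₁.toSubring n →
      (tl71_OnMid σ B V₂.toSubring n ∨ sf79_OnBr π B V₃.toSubring n) →
      tl71_DivAt π B V₁.toSubring V₂.toSubring V₃.toSubring n)
    (hD₃ : ∀ n : Ideal B, n.IsMaximal → sf79_OnBr π B V₃.toSubring n →
      (tl71_OnMid σ B V₂.toSubring n ∨ sf79_OnBr π B V₁.toSubring n) →
      tl71_DivAt π B V₃.toSubring V₂.toSubring V₁.toSubring n)
    (hD₂ : ∀ n : Ideal B, n.IsMaximal → algebraMap R B π ∈ n → tl71_OnMid σ B V₂.toSubring n →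
      ¬ sf79_OnBr π B V₁.toSubring n → ¬ sf79_OnBr π B V₃.toSubring n →
      tl71_MidDivAt π σ B V₁.toSubring V₂.toSubring V₃.toSubring n) :
    cp57_HP1 (K := K) π q m B al be Nal Nbe V₁ V₂ V₃ Vinf V0 := by
  classical
  intro u cu Au tinf t0 du Bu sinf s0 θ hu0 hOrd hFin hdata hθ n hn hπn hone
  have hnp : n.IsPrime := hn.isPrime
  obtain ⟨hθ0, -, -, -, -, hu21, hu22, hu23⟩ := hθ
  obtain ⟨hv1, hv2, hv3, -⟩ := hdata
  -- `u` is a unit of each `V i`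
  have hunit : ∀ V : ValuationSubring F2, V.valuation (u - 1) < 1 → u ∈ V ∧ u⁻¹ ∈ V := by
    intro V hV
    have e1 : u = 1 + (u - 1) := by ring
    constructor
    · rw [e1]; exact add_mem (one_mem _) (gc26_mem V hV)
    · rw [e1]; exact ld84_one_add_inv V _ hV
  -- two generators, then the strong (LP)
  have h2 : tl71_TwoGen π B :=
    tl71_twoGen π σ e B V₁.toSubring V₂.toSubring V₃.toSubring hB₁ hB₂ hB₃ hsat hπ0 hσ0 hσe
      hS₁ hS₃ hS₂ hD₁ hD₃ hD₂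
  obtain ⟨c, hc0, -, -, -, -, hε, hε'⟩ := lps9_strong_three π σ e B V₁ V₂ V₃ hB₁ hB₂ hB₃ hsat
    hπ0 hσ0 hσe hπ₁ hπ₂ hπ₃ hrad₁ hrad₂ hrad₃ hfrac h2 hKr hD₁ hD₃ m hm u hu0
    (hunit V₁ hv1) (hunit V₂ hv2) (hunit V₃ hv3) hOrd hFin n hn hπn
  -- the local root of `u₂`
  have hcm0 : c ^ m ≠ 0 := pow_ne_zero _ hc0
  have hu20 : cp57_u2 q m u θ ≠ 0 := by
    unfold cp57_u2
    exact pow_ne_zero _ (mul_ne_zero (pow_ne_zero _ hu0) (pow_ne_zero _ hθ0))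
  have hc20 : (c ^ ((q - 1 + 2) * (q - 1)) * θ) ^ q ≠ 0 :=
    pow_ne_zero _ (mul_ne_zero (pow_ne_zero _ hc0) hθ0)
  have hε₂ : cp57_u2 q m u θ / ((c ^ ((q - 1 + 2) * (q - 1)) * θ) ^ q) ^ m ∈ sf79_loc B n := by
    have e1 : cp57_u2 q m u θ / ((c ^ ((q - 1 + 2) * (q - 1)) * θ) ^ q) ^ m
        = ((u / c ^ m) ^ ((q - 1 + 2) * (q - 1))) ^ q := by
      rw [div_eq_iff (pow_ne_zero _ hc20)]
      have hu_eq : u = (u / c ^ m) * c ^ m := by field_simp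
      unfold cp57_u2
      conv_lhs => rw [hu_eq]
      ring
    rw [e1]
    exact pow_mem (pow_mem hε _) _
  have hε₂' : ((c ^ ((q - 1 + 2) * (q - 1)) * θ) ^ q) ^ m / cp57_u2 q m u θ ∈ sf79_loc B n := by
    have e1 : ((c ^ ((q - 1 + 2) * (q - 1)) * θ) ^ q) ^ m / cp57_u2 q m u θ
        = ((c ^ m / u) ^ ((q - 1 + 2) * (q - 1))) ^ q := by
      rw [div_eq_iff hu20]
      have hc_eq : c ^ m = (c ^ m / u) * u := by field_simp
      unfold cp57_u2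
      calc ((c ^ ((q - 1 + 2) * (q - 1)) * θ) ^ q) ^ m
          = ((c ^ m) ^ ((q - 1 + 2) * (q - 1))) ^ q * (θ ^ m) ^ q := by ring
        _ = (((c ^ m / u) * u) ^ ((q - 1 + 2) * (q - 1))) ^ q * (θ ^ m) ^ q := by rw [← hc_eq]
        _ = ((c ^ m / u) ^ ((q - 1 + 2) * (q - 1))) ^ q
            * (u ^ ((q - 1 + 2) * (q - 1)) * θ ^ m) ^ q := by ring
    rw [e1]
    exact pow_mem (pow_mem hε' _) _
  -- the family `![V₁, V₂, V₃]`
  have hBV : ∀ i : Fin 3, ∀ x ∈ B, x ∈ (![V₁, V₂, V₃] : Fin 3 → ValuationSubring F2) i := by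
    intro i; fin_cases i <;> assumption
  have hπV : ∀ i : Fin 3,
      (algebraMap R F2 π)⁻¹ ∉ (![V₁, V₂, V₃] : Fin 3 → ValuationSubring F2) i := by
    intro i; fin_cases i <;> assumption
  have hrad : ∀ i : Fin 3, ∀ x ∈ (![V₁, V₂, V₃] : Fin 3 → ValuationSubring F2) i,
      x⁻¹ ∉ (![V₁, V₂, V₃] : Fin 3 → ValuationSubring F2) i →
      ∃ k : ℕ, (algebraMap R F2 π)⁻¹ * x ^ k ∈ (![V₁, V₂, V₃] : Fin 3 → ValuationSubring F2) i := by
    intro i; fin_cases i <;> assumption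
  have harch : ∀ i : Fin 3, ∀ x ∈ B, x ≠ 0 → ∃ k : ℕ,
      (algebraMap R F2 π ^ k)⁻¹ * x ∉ (![V₁, V₂, V₃] : Fin 3 → ValuationSubring F2) i := by
    intro i; fin_cases i <;> assumption
  have hu2V : ∀ i : Fin 3, (algebraMap R F2 π)⁻¹ * (cp57_u2 q m u θ - 1)
      ∈ (![V₁, V₂, V₃] : Fin 3 → ValuationSubring F2) i := by
    intro i; fin_cases i <;> assumption
  have key : ∃ φ : F2,
      (∀ i : Fin 3, (algebraMap R F2 π)⁻¹ * (φ - 1)
        ∈ (![V₁, V₂, V₃] : Fin 3 → ValuationSubring F2) i) ∧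
      ∃ s : B, s ∉ n ∧ (s : F2) * (φ ^ m * cp57_u2 q m u θ) ∈ B := by
    by_cases h1 : sf79_OnBr π B V₁.toSubring n
    · have h2' : ¬ sf79_OnBr π B V₂.toSubring n := fun h => hone.1 ⟨h1, h⟩
      have h3' : ¬ sf79_OnBr π B V₃.toSubring n := fun h => hone.2.1 ⟨h1, h⟩
      obtain ⟨z, ξ, hzn, hz, hξ, hgen⟩ := hp84_brData_red π hπ0 B V₁ V₂ V₃ hB₁ hB₂ hB₃ hsat
        hπ₁ hunif₁ hS₁ n hn hπn h1 h2' h3'
      refine ld55_datum_at_one π m hm B hmB (![V₁, V₂, V₃] : Fin 3 → ValuationSubring F2)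
        hBV hπV hrad harch hfrac n (hn := hn) (cp57_u2 q m u θ) hu2V _ hc20 hε₂ hε₂' 0 ?_
        z hzn hz ξ hξ hgen
      intro i hi
      fin_cases i
      · rfl
      · exact absurd hi h2'
      · exact absurd hi h3'
    · by_cases h3 : sf79_OnBr π B V₃.toSubring n
      · have h2' : ¬ sf79_OnBr π B V₂.toSubring n := fun h => hone.2.2 ⟨h, h3⟩
        obtain ⟨z, ξ, hzn, hz, hξ, hgen⟩ := hp84_brData_red π hπ0 B V₃ V₂ V₁ hB₃ hB₂ hB₁
          (fun x hx h3x h2x h1x => hsat x hx h1x h2x h3x) hπ₃ hunif₃ hS₃ n hn hπn h3 h2' h1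
        refine ld55_datum_at_one π m hm B hmB (![V₁, V₂, V₃] : Fin 3 → ValuationSubring F2)
          hBV hπV hrad harch hfrac n (hn := hn) (cp57_u2 q m u θ) hu2V _ hc20 hε₂ hε₂' 2 ?_
          z hzn hz ξ hξ hgen
        intro i hi
        fin_cases i
        · exact absurd hi h1
        · exact absurd hi h2'
        · rfl
      · by_cases h2' : sf79_OnBr π B V₂.toSubring n
        · obtain ⟨z, ξ, hzn, hz, hξ, hgen⟩ := hp84_brData_mid π σ e hπ0 hσ0 B V₁ V₂ V₃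
            hB₁ hB₂ hB₃ hsat hπ₂ hσe hunif₂ hS₂ n hn hπn (hD₂ n hn hπn) h2' h1 h3
          refine ld55_datum_at_one π m hm B hmB (![V₁, V₂, V₃] : Fin 3 → ValuationSubring F2)
            hBV hπV hrad harch hfrac n (hn := hn) (cp57_u2 q m u θ) hu2V _ hc20 hε₂ hε₂' 1 ?_
            z hzn hz ξ hξ hgen
          intro i hi
          fin_cases i
          · exact absurd hi h1
          · rfl
          · exact absurd hi h3
        · -- no branch through `n`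
          refine ld55_datum_at_lift π m hm B hmB (![V₁, V₂, V₃] : Fin 3 → ValuationSubring F2)
            hBV hπV hrad harch hfrac n (hn := hnp) (cp57_u2 q m u θ) hu2V _ hc20 hε₂ hε₂' 1
            (one_mem _) ?_
          intro i hi
          exfalso
          fin_cases i
          · exact h1 hi
          · exact h2' hi
          · exact h3 hi
  obtain ⟨φ, hφ, s, hs, hsφ⟩ := key
  exact ⟨φ, Subring.mem_inf.mpr ⟨Subring.mem_inf.mpr ⟨hφ 0, hφ 1⟩, hφ 2⟩, s, hs, hsφ⟩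

end HP1

end Fermat.Agent.S36
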