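import Mathlib
import Fermat.Agent.S36.CorePoints57
import Fermat.Agent.S36.LocalDatumB55

/-!
# S36 lab, row 605 (HP-1), twin by the `ld55_datum_at_one` route (helper90, seat 90)

`cp57_HP1` (CorePoints57, helper57) = the clause of `s34i47_LocalDatum` for the twisted unit
`u₂ = cp57_u2 q m u θ` at the closed points of a chart lying on AT MOST ONE branch.

`hp1x90_HP1` proves it ABSTRACTLY from

* the frame clauses of `ci57_Datum` for the family `V : Fin 3 → ValuationSubring F2`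
  (`hBV`, `hπ`, `hrad`, `harch` in the literal `fd85_frame_level2/3` shapes, `hFrac`),
* `hLP` : local roots (the conclusion of `lps9_strong_three` / `ud57_decomp_at`): for every unit
  `u` of the three `V i` with `s34i47_Ord`, `s34i47_Fin`, at every closed point `n` there is
  `c ≠ 0` with `u / c ^ m`, `c ^ m / u ∈ B_n`,
* `hpt` : at every closed point `n` on at most one branch: the branch `V i₀` (the only one that
  can pass through `n`), a local coordinate `z` of that branch at `n` ((3a), modulo `𝔪 (V i₀)`)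
  and a generator `ξ` of the branch prime at `n` (`ξ = π` on the reduced branches
  [`ob58_branch_principal`], `ξ = s` on the thick one [`tl71_mid_principal` / `mc25`]).

No root-lift (`hres`), no gluing constants, no normalisation of `c` is needed:
`ld55_datum_at_one` (helper55) does the lift inside.  The local root of `u₂` is
`(c ^ ((q-1+2)(q-1)) θ) ^ q`.

All names are prefixed `hp1x90_`.
-/

set_option autoImplicit false
set_option linter.style.longLine false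
set_option linter.unusedVariables false
set_option linter.unusedSectionVars false
set_option linter.style.haveILetI false

namespace Fermat.Agent.S36

open Fermat.Agent.S18 Fermat.Agent.S34 Fermat.Agent.S35

section

variable {R K F1 F2 : Type*} [CommRing R] [Field K] [Field F1] [Field F2] [Algebra R K]
  [Algebra K F1] [Algebra R F2] [Algebra K F2]

/-- `u ≡ 1` modulo the maximal ideal of a valuation subring makes `u` a unit of it. -/
theorem hp1x90_unit_of_val (W : ValuationSubring F2) (u : F2) (h : W.valuation (u - 1) < 1) :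
    u ∈ W ∧ u⁻¹ ∈ W := by
  have h1 : W.valuation u = 1 := by
    have := Valuation.map_one_add_of_lt (v := W.valuation) h
    rwa [add_sub_cancel] at this
  constructor
  · rw [← ValuationSubring.valuation_le_one_iff, h1]
  · rw [← ValuationSubring.valuation_le_one_iff, map_inv₀, h1, inv_one]

/-- Field identity behind the local root of `u₂` (generic exponent `e`). -/
theorem hp1x90_alg (e q m : ℕ) (u c θ : F2) (hc : c ≠ 0) (hθ : θ ≠ 0) :
    (u ^ e * θ ^ m) ^ q / ((c ^ e * θ) ^ q) ^ m = ((u / c ^ m) ^ e) ^ q := by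
  have h1 : ((c ^ e * θ) ^ q) ^ m = (c ^ m) ^ (e * q) * θ ^ (m * q) := by
    rw [← pow_mul, mul_pow, ← pow_mul, ← pow_mul]
    congr 1
    · congr 1; ring
    · congr 1; ring
  have h2 : (u ^ e * θ ^ m) ^ q = u ^ (e * q) * θ ^ (m * q) := by
    rw [mul_pow, ← pow_mul, ← pow_mul]
  have h3 : ((u / c ^ m) ^ e) ^ q = u ^ (e * q) / (c ^ m) ^ (e * q) := by
    rw [← pow_mul, div_pow]
  rw [h1, h2, h3]
  have hθ' : θ ^ (m * q) ≠ 0 := pow_ne_zero _ hθ
  have hc' : (c ^ m) ^ (e * q) ≠ 0 := pow_ne_zero _ (pow_ne_zero _ hc)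
  field_simp

/-- The inverse identity. -/
theorem hp1x90_alg' (e q m : ℕ) (u c θ : F2) (hu : u ≠ 0) (hθ : θ ≠ 0) :
    ((c ^ e * θ) ^ q) ^ m / (u ^ e * θ ^ m) ^ q = ((c ^ m / u) ^ e) ^ q := by
  have h1 : ((c ^ e * θ) ^ q) ^ m = (c ^ m) ^ (e * q) * θ ^ (m * q) := by
    rw [← pow_mul, mul_pow, ← pow_mul, ← pow_mul]
    congr 1
    · congr 1; ring
    · congr 1; ring
  have h2 : (u ^ e * θ ^ m) ^ q = u ^ (e * q) * θ ^ (m * q) := by
    rw [mul_pow, ← pow_mul, ← pow_mul]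
  have h3 : ((c ^ m / u) ^ e) ^ q = (c ^ m) ^ (e * q) / u ^ (e * q) := by
    rw [← pow_mul, div_pow]
  rw [h1, h2, h3]
  have hθ' : θ ^ (m * q) ≠ 0 := pow_ne_zero _ hθ
  have hu' : u ^ (e * q) ≠ 0 := pow_ne_zero _ hu
  field_simp

/-- The local root of `u₂`: if `u / c ^ m ∈ A` then `u₂ / c₂ ^ m ∈ A`, `c₂ = (c ^ e θ) ^ q`. -/
theorem hp1x90_root (A : Subring F2) (q m : ℕ) (u c θ : F2) (hc : c ≠ 0) (hθ : θ ≠ 0)
    (h : u / c ^ m ∈ A) :
    cp57_u2 q m u θ / ((c ^ ((q - 1 + 2) * (q - 1)) * θ) ^ q) ^ m ∈ A := by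
  unfold cp57_u2
  rw [hp1x90_alg _ q m u c θ hc hθ]
  exact pow_mem (pow_mem h _) _

/-- The inverse statement. -/
theorem hp1x90_root' (A : Subring F2) (q m : ℕ) (u c θ : F2) (hu : u ≠ 0) (hθ : θ ≠ 0)
    (h : c ^ m / u ∈ A) :
    ((c ^ ((q - 1 + 2) * (q - 1)) * θ) ^ q) ^ m / cp57_u2 q m u θ ∈ A := by
  unfold cp57_u2
  rw [hp1x90_alg' _ q m u c θ hu hθ]
  exact pow_mem (pow_mem h _) _

/-- **(HP-1)**, abstract: the local datum of `u₂` at the closed points on at most one branch,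
from local roots (`hLP`) and, per point, a branch coordinate and a branch generator (`hpt`). -/
theorem hp1x90_HP1 (π : R) (q m : ℕ) (hm0 : 0 < m) (B : Subalgebra R F2) [IsNoetherianRing B]
    (hmB : ∃ μ ∈ B, (m : F2) * μ = 1)
    (al be : F1 →+* F2) (Nal Nbe : F2 →* F1)
    (V : Fin 3 → ValuationSubring F2) (Vinf V0 : ValuationSubring F1)
    (hBV : ∀ i, ∀ x ∈ B, x ∈ V i) (hπ : ∀ i, (algebraMap R F2 π)⁻¹ ∉ V i)
    (hrad : ∀ i, ∀ x ∈ V i, x⁻¹ ∉ V i → ∃ k : ℕ, (algebraMap R F2 π)⁻¹ * x ^ k ∈ V i)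
    (harch : ∀ i, ∀ x : F2, x ≠ 0 → ∃ k : ℕ, (algebraMap R F2 π ^ k)⁻¹ * x ∉ V i)
    (hFrac : ∀ x : F2, ∃ a ∈ B, ∃ b ∈ B, b ≠ 0 ∧ x * b = a)
    (hLP : ∀ u : F2, u ≠ 0 → (∀ i, u ∈ V i ∧ u⁻¹ ∈ V i) → s34i47_Ord π m u → s34i47_Fin π u →
      ∀ n : Ideal B, n.IsMaximal → algebraMap R B π ∈ n →
        ∃ c : F2, c ≠ 0 ∧ (∃ s : B, s ∉ n ∧ (s : F2) * (u / c ^ m) ∈ B) ∧
          ∃ s : B, s ∉ n ∧ (s : F2) * (c ^ m / u) ∈ B)
    (hpt : ∀ n : Ideal B, n.IsMaximal → algebraMap R B π ∈ n →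
      cp57_OneBr π B (V 0) (V 1) (V 2) n →
      ∃ i₀ : Fin 3, (∀ i, sf79_OnBr π B (V i).toSubring n → i = i₀) ∧
        ∃ z : B, z ∈ n ∧
          (∀ x ∈ n, ∃ s : B, s ∉ n ∧ ∃ a : B,
            (s : F2) * (x : F2) - (a : F2) * (z : F2) ∈ ld55_mV (V i₀)) ∧
          ∃ ξ : B, (ξ : F2) ∈ ld55_mV (V i₀) ∧
            ∀ x : B, (x : F2) ∈ ld55_mV (V i₀) → ∃ t : B, t ∉ n ∧ ∃ b : B, t * x = b * ξ) :
    cp57_HP1 (K := K) π q m B al be Nal Nbe (V 0) (V 1) (V 2) Vinf V0 := by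
  intro u cu Au tinf t0 du Bu sinf s0 θ hu0 hOrd hFin hdata htw n hn hπn hone
  have hnp : n.IsPrime := hn.isPrime
  obtain ⟨hθ0, -, -, -, -, hu1, hu2, hu3⟩ := htw
  obtain ⟨hv1, hv2, hv3, -⟩ := hdata
  have hunit : ∀ i, u ∈ V i ∧ u⁻¹ ∈ V i := by
    intro i
    fin_cases i
    · exact hp1x90_unit_of_val (V 0) u hv1
    · exact hp1x90_unit_of_val (V 1) u hv2
    · exact hp1x90_unit_of_val (V 2) u hv3
  obtain ⟨c, hc0, hsc, hsc'⟩ := hLP u hu0 hunit hOrd hFin n hn hπn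
  obtain ⟨i₀, honly, z, hzn, hz, ξ, hξ, hgen⟩ := hpt n hn hπn hone
  have hc2 : (c ^ ((q - 1 + 2) * (q - 1)) * θ) ^ q ≠ 0 :=
    pow_ne_zero _ (mul_ne_zero (pow_ne_zero _ hc0) hθ0)
  have hε := hp1x90_root (sf79_loc B n) q m u c θ hc0 hθ0 hsc
  have hε' := hp1x90_root' (sf79_loc B n) q m u c θ hu0 hθ0 hsc'
  have hu2all : ∀ i, (algebraMap R F2 π)⁻¹ * (cp57_u2 q m u θ - 1) ∈ V i := by
    intro i
    fin_cases i
    · exact hu1
    · exact hu2
    · exact hu3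
  obtain ⟨φ, hφ, t, ht, htφ⟩ := ld55_datum_at_one π m hm0 B hmB V hBV hπ hrad
    (fun i x _ hx0 => harch i x hx0) hFrac n (cp57_u2 q m u θ) hu2all _ hc2 hε hε' i₀ honly
    z hzn hz ξ hξ hgen
  exact ⟨φ, ⟨⟨hφ 0, hφ 1⟩, hφ 2⟩, t, ht, htφ⟩

end

end Fermat.Agent.S36
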