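import Mathlib

/-!
S36 lab (helper8): the middle component `C₂` at its cusps, purely algebraic form.

`a = J`, `b = J_q`, `a₃ = J_{q²}`; `y = 1/a`, `ρ = a^q/b`, `lam = a/a₃`.
From the two Kronecker relations `Φ(b; a) = 0 = Φ(b; a₃)` (shape of `mps78_modEq`) in a
normal local domain in which `1/a` is a non-unit and `b/a^q ≡ 1`:
`lam - 1` divides `q` (`mc8_local`).
-/

set_option autoImplicit false

namespace Fermat.Agent.S36

open Finset Polynomial

/-- `1 + x + ⋯ + x^(k-1) = k + (x - 1) h`. -/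
theorem mc8_geom_sub {A : Type*} [CommRing A] (x : A) (k : ℕ) :
    ∃ h : A, (∑ j ∈ range k, x ^ j) = k + (x - 1) * h := by
  induction k with
  | zero => exact ⟨0, by simp⟩
  | succ k ih =>
    obtain ⟨h, hh⟩ := ih
    refine ⟨h + ∑ j ∈ range k, x ^ j, ?_⟩
    rw [sum_range_succ]
    have := mul_geom_sum x k
    push_cast
    linear_combination hh - this

/-- **Core identity.**  Subtracting the two Kronecker relations (for `lam' = 1` and `lam' = lam`)
and cancelling `lam - 1`: `q * E = (lam - 1) * T` with `E ≡ 1` modulo `y`. -/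
theorem mc8_core {A : Type*} [CommRing A] [IsDomain A] (q : ℕ) (ρ y lam ω : A)
    (S : Finset (ℕ × ℕ)) (ψ : ℕ × ℕ → A) (e i k : ℕ × ℕ → ℕ)
    (hlam : lam ≠ 1) (hω : ∃ r, ω = y * r)
    (h1 : (1 - ω) * (1 - ρ) + q * ∑ s ∈ S, ψ s * ρ ^ (i s) * y ^ (e s) = 0)
    (h3 : (lam - ω) * (lam ^ q - ρ)
      + q * ∑ s ∈ S, ψ s * ρ ^ (i s) * y ^ (e s) * lam ^ (k s) = 0)
    (he : ∀ s ∈ S, e s = 0 → k s = 1) :
    ∃ E T r : A, (q : A) * E = (lam - 1) * T ∧ E = 1 + y * r := by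
  obtain ⟨rω, hrω⟩ := hω
  -- geometric sums
  set G : ℕ → A := fun n => ∑ j ∈ range n, lam ^ j with hG
  have hGmul : ∀ n, (lam - 1) * G n = lam ^ n - 1 := fun n => mul_geom_sum lam n
  obtain ⟨hq1, hhq1⟩ := mc8_geom_sub lam (q + 1)
  obtain ⟨hq0, hhq0⟩ := mc8_geom_sub lam q
  set Ψ1 : A := ∑ s ∈ S, ψ s * ρ ^ (i s) * y ^ (e s) with hΨ1
  set ΨΔ : A := ∑ s ∈ S, ψ s * ρ ^ (i s) * y ^ (e s) * G (k s) with hΨΔ
  have hdiff : (∑ s ∈ S, ψ s * ρ ^ (i s) * y ^ (e s) * lam ^ (k s)) - Ψ1 = (lam - 1) * ΨΔ := by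
    rw [hΨ1, hΨΔ, ← sum_sub_distrib, mul_sum]
    refine sum_congr rfl fun s _ => ?_
    linear_combination (-(ψ s * ρ ^ (i s) * y ^ (e s))) * hGmul (k s)
  -- the cancelled relation
  have hcanc : G (q + 1) - ρ - ω * G q + q * ΨΔ = 0 := by
    have hne : lam - 1 ≠ 0 := sub_ne_zero.mpr hlam
    apply mul_left_cancel₀ hne
    rw [mul_zero]
    linear_combination h3 - h1 + hGmul (q + 1) - ω * hGmul q - (q : A) * hdiff
  -- ΨΔ - Ψ1 is divisible by y
  have hdivy : ∃ r1 : A, ΨΔ - Ψ1 = y * r1 := by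
    refine ⟨∑ s ∈ S, if e s = 0 then 0 else ψ s * ρ ^ (i s) * y ^ (e s - 1) * (G (k s) - 1), ?_⟩
    rw [hΨ1, hΨΔ, ← sum_sub_distrib, mul_sum]
    refine sum_congr rfl fun s hs => ?_
    by_cases h0 : e s = 0
    · rw [if_pos h0, he s hs h0, hG]
      simp
    · rw [if_neg h0]
      obtain ⟨m, hm⟩ : ∃ m, e s = m + 1 := ⟨e s - 1, by omega⟩
      rw [hm, Nat.add_sub_cancel, pow_succ]
      ring
  obtain ⟨r1, hr1⟩ := hdivy
  refine ⟨(1 - ω) * (1 - ω + ΨΔ) - Ψ1, -((1 - ω) * (hq1 - ω * hq0)),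
    -2 * rω + y * rω ^ 2 - rω * ΨΔ + r1, ?_, ?_⟩
  · have e1 : G (q + 1) = ((q + 1 : ℕ) : A) + (lam - 1) * hq1 := hhq1
    have e0 : G q = (q : A) + (lam - 1) * hq0 := hhq0
    push_cast at e1
    linear_combination (1 - ω) * hcanc - h1 - (1 - ω) * e1 + (1 - ω) * ω * e0
  · rw [hrω]
    linear_combination hr1

section Local

variable {F : Type*} [Field F]

/-- One monomial of the `Ψ`-sum in the coordinates `(ρ, y, lam)`. -/
theorem mc8_term (q : ℕ) (a b a' ρ lam y : F) (hbρ : b * ρ = a ^ q) (hal : a' * lam = a)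
    (hay : a * y = 1) (α β : ℕ) (hα : α ≤ q + 1) (hβ : β ≤ q + 1)
    (he : q * α + β ≤ q * q + q) :
    b ^ α * a' ^ β * (ρ ^ (q + 1) * lam ^ (q + 1) * y ^ (q * q + q))
      = ρ ^ (q + 1 - α) * y ^ (q * q + q - (q * α + β)) * lam ^ (q + 1 - β) := by
  obtain ⟨i, hi⟩ := Nat.exists_eq_add_of_le hα
  obtain ⟨k, hk⟩ := Nat.exists_eq_add_of_le hβ
  obtain ⟨e, he'⟩ := Nat.exists_eq_add_of_le he
  have h1 : b ^ α * ρ ^ α = a ^ (q * α) := by rw [← mul_pow, hbρ, ← pow_mul]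
  have h2 : a' ^ β * lam ^ β = a ^ β := by rw [← mul_pow, hal]
  have h3 : a ^ (q * α) * a ^ β * y ^ (q * α + β) = 1 := by
    rw [← pow_add, ← mul_pow, hay, one_pow]
  have hρ : ρ ^ (q + 1) = ρ ^ α * ρ ^ i := by rw [hi, pow_add]
  have hl : lam ^ (q + 1) = lam ^ β * lam ^ k := by rw [hk, pow_add]
  have hy : y ^ (q * q + q) = y ^ (q * α + β) * y ^ e := by rw [he', pow_add]
  rw [hρ, hl, hy, show q + 1 - α = i by omega, show q * q + q - (q * α + β) = e by omega,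
    show q + 1 - β = k by omega]
  linear_combination (ρ ^ i * lam ^ k * y ^ e) * ((a' ^ β * lam ^ β * y ^ (q * α + β)) * h1
    + (a ^ (q * α) * y ^ (q * α + β)) * h2 + h3)

/-- The Kronecker product in the coordinates `(ρ, y, lam)`. -/
theorem mc8_kron (q : ℕ) (hq : 1 ≤ q) (a b a' ρ lam y : F) (hbρ : b * ρ = a ^ q)
    (hal : a' * lam = a) (hay : a * y = 1) :
    (b - a' ^ q) * (b ^ q - a') * (ρ ^ (q + 1) * lam ^ (q + 1) * y ^ (q * q + q))
      = (lam - ρ ^ q * y ^ (q * q - 1)) * (lam ^ q - ρ) := by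
  have e1 : (b - a' ^ q) * (ρ * lam ^ q) = a ^ q * (lam ^ q - ρ) := by
    have : a' ^ q * lam ^ q = a ^ q := by rw [← mul_pow, hal]
    linear_combination (lam ^ q) * hbρ - ρ * this
  have e2 : (b ^ q - a') * (ρ ^ q * lam) * y ^ (q * q) = lam - ρ ^ q * y ^ (q * q - 1) := by
    have h1 : b ^ q * ρ ^ q = a ^ (q * q) := by rw [← mul_pow, hbρ, ← pow_mul]
    have h2 : a ^ (q * q) * y ^ (q * q) = 1 := by rw [← mul_pow, hay, one_pow]
    have h3 : a * y ^ (q * q) = y ^ (q * q - 1) := by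
      obtain ⟨m, hm⟩ : ∃ m, q * q = m + 1 := ⟨q * q - 1, by have hqq : 0 < q * q := Nat.mul_pos hq hq; omega⟩
      rw [hm, Nat.add_sub_cancel, pow_succ]
      linear_combination y ^ m * hay
    linear_combination (lam * y ^ (q * q)) * h1 + lam * h2 - (ρ ^ q * y ^ (q * q)) * hal
      - ρ ^ q * h3
  have e3 : a ^ q * y ^ q = 1 := by rw [← mul_pow, hay, one_pow]
  rw [pow_succ ρ, pow_succ lam, pow_add y]
  linear_combination ((b ^ q - a') * (ρ ^ q * lam) * y ^ (q * q) * y ^ q) * e1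
    + (a ^ q * (lam ^ q - ρ) * y ^ q) * e2
    + ((lam ^ q - ρ) * (lam - ρ ^ q * y ^ (q * q - 1))) * e3

/-- The Kronecker relation `Φ(b; a') = 0` in the coordinates `(ρ, y, lam)`:
`b ρ = a^q`, `a' lam = a`, `a y = 1`. -/
theorem mc8_rel (q : ℕ) (hq : 1 ≤ q) (S : Finset (ℕ × ℕ)) (ψ : ℕ × ℕ → ℤ)
    (hS : ∀ s ∈ S, s.1 ≤ q + 1 ∧ s.2 ≤ q + 1 ∧ q * s.1 + s.2 ≤ q * q + q)
    (a b a' ρ lam y : F) (hbρ : b * ρ = a ^ q) (hal : a' * lam = a) (hay : a * y = 1)
    (hrel : (b - a' ^ q) * (b ^ q - a') + q * ∑ s ∈ S, (ψ s : F) * b ^ s.1 * a' ^ s.2 = 0) :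
    (lam - ρ ^ q * y ^ (q * q - 1)) * (lam ^ q - ρ)
      + q * ∑ s ∈ S, (ψ s : F) * ρ ^ (q + 1 - s.1) * y ^ (q * q + q - (q * s.1 + s.2))
          * lam ^ (q + 1 - s.2) = 0 := by
  have hsum : (∑ s ∈ S, (ψ s : F) * b ^ s.1 * a' ^ s.2)
        * (ρ ^ (q + 1) * lam ^ (q + 1) * y ^ (q * q + q))
      = ∑ s ∈ S, (ψ s : F) * ρ ^ (q + 1 - s.1) * y ^ (q * q + q - (q * s.1 + s.2))
          * lam ^ (q + 1 - s.2) := by
    rw [sum_mul]
    refine sum_congr rfl fun s hs => ?_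
    obtain ⟨h1, h2, h3⟩ := hS s hs
    have := mc8_term q a b a' ρ lam y hbρ hal hay s.1 s.2 h1 h2 h3
    linear_combination (ψ s : F) * this
  have hk := mc8_kron q hq a b a' ρ lam y hbρ hal hay
  linear_combination (ρ ^ (q + 1) * lam ^ (q + 1) * y ^ (q * q + q)) * hrel - hk
    - (q : F) * hsum

/-- The Kronecker relation `Φ(b; a) = 0` in the coordinates `(τ, y)`: `τ a^q = b`, `a y = 1`. -/
theorem mc8_rel_tau (q : ℕ) (hq : 1 ≤ q) (S : Finset (ℕ × ℕ)) (ψ : ℕ × ℕ → ℤ)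
    (hS : ∀ s ∈ S, q * s.1 + s.2 ≤ q * q + q)
    (a b τ y : F) (hτ : τ * a ^ q = b) (hay : a * y = 1)
    (hrel : (b - a ^ q) * (b ^ q - a) + q * ∑ s ∈ S, (ψ s : F) * b ^ s.1 * a ^ s.2 = 0) :
    (τ - 1) * (τ ^ q - y ^ (q * q - 1))
      + ∑ s ∈ S, ((q : F) * (ψ s : F) * y ^ (q * q + q - (q * s.1 + s.2))) * τ ^ s.1 = 0 := by
  have e3 : a ^ q * y ^ q = 1 := by rw [← mul_pow, hay, one_pow]
  have h2 : a ^ (q * q) * y ^ (q * q) = 1 := by rw [← mul_pow, hay, one_pow]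
  have h3 : a * y ^ (q * q) = y ^ (q * q - 1) := by
    obtain ⟨m, hm⟩ : ∃ m, q * q = m + 1 := ⟨q * q - 1, by have hqq : 0 < q * q := Nat.mul_pos hq hq; omega⟩
    rw [hm, Nat.add_sub_cancel, pow_succ]
    linear_combination y ^ m * hay
  have hbq : b ^ q = τ ^ q * a ^ (q * q) := by rw [← hτ, mul_pow, ← pow_mul]
  have e1 : (b - a ^ q) * y ^ q = τ - 1 := by
    rw [← hτ]; linear_combination (τ - 1) * e3
  have e2 : (b ^ q - a) * y ^ (q * q) = τ ^ q - y ^ (q * q - 1) := by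
    rw [hbq]; linear_combination τ ^ q * h2 - h3
  have hsum : (∑ s ∈ S, (ψ s : F) * b ^ s.1 * a ^ s.2) * (y ^ q * y ^ (q * q))
      = ∑ s ∈ S, ((ψ s : F) * y ^ (q * q + q - (q * s.1 + s.2))) * τ ^ s.1 := by
    rw [sum_mul]
    refine sum_congr rfl fun s hs => ?_
    obtain ⟨e, he⟩ := Nat.exists_eq_add_of_le (hS s hs)
    have hb : b ^ s.1 = τ ^ s.1 * a ^ (q * s.1) := by rw [← hτ, mul_pow, ← pow_mul]
    have hy : y ^ q * y ^ (q * q) = y ^ (q * s.1 + s.2) * y ^ e := by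
      rw [← pow_add, ← pow_add]; congr 1; omega
    have h4 : a ^ (q * s.1) * a ^ s.2 * y ^ (q * s.1 + s.2) = 1 := by
      rw [← pow_add, ← mul_pow, hay, one_pow]
    rw [hb, hy, show q * q + q - (q * s.1 + s.2) = e by omega]
    linear_combination ((ψ s : F) * τ ^ s.1 * y ^ e) * h4
  have hsum' : ∑ s ∈ S, ((q : F) * (ψ s : F) * y ^ (q * q + q - (q * s.1 + s.2))) * τ ^ s.1
      = (q : F) * ∑ s ∈ S, ((ψ s : F) * y ^ (q * q + q - (q * s.1 + s.2))) * τ ^ s.1 := by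
    rw [mul_sum]
    exact sum_congr rfl fun s _ => by ring
  rw [hsum', ← hsum, ← e1, ← e2]
  linear_combination (y ^ q * y ^ (q * q)) * hrel

/-- Integrality from a relation with a unit leading coefficient. -/
theorem mc8_integral (Bn : Subring F) (x : F) (d : ℕ) (v : Bn) (hv : IsUnit v)
    (p : Polynomial Bn) (hp : p.degree < d)
    (h : (v : F) * x ^ d + p.eval₂ (algebraMap Bn F) x = 0) : IsIntegral Bn x := by
  obtain ⟨w, hw⟩ := hv.exists_left_inv
  refine ⟨X ^ d + w • p, monic_X_pow_add ((degree_smul_le w p).trans_lt hp), ?_⟩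
  rw [eval₂_add, eval₂_pow, eval₂_X, eval₂_smul]
  have hwv : (w : F) * (v : F) = 1 := by exact_mod_cast congrArg Subtype.val hw
  have : algebraMap Bn F w = (w : F) := rfl
  rw [this]
  linear_combination (w : F) * h - x ^ d * hwv

/-- **The middle cusp, local form.**  `Bn` a local subring of the field `F`, integrally closed
in `F`; `a = J`, `b = J_q`, `a₃ = J_{q²}` with the two Kronecker relations; `y = 1/a` a non-unit
of `Bn` (a cusp) and `b / a^q ≡ 1` (the branch `V_inf'` along `α`).  Then `lam = a / a₃` lies in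
`Bn` and `lam - 1` divides `q` in `Bn`. -/
theorem mc8_local (Bn : Subring F) [IsLocalRing Bn]
    (hic : ∀ x : F, IsIntegral Bn x → x ∈ Bn)
    (q : ℕ) (hq : 2 ≤ q)
    (S : Finset (ℕ × ℕ)) (ψ : ℕ × ℕ → ℤ)
    (hS : ∀ s ∈ S, s.1 ≤ q ∧ s.2 ≤ q + 1 ∧ q * s.1 + s.2 ≤ q * q + q ∧
      (q * s.1 + s.2 = q * q + q → s.2 = q))
    (a b a₃ : F) (ha₃ : a₃ ≠ 0) (hne : a₃ ≠ a)
    (y : Bn) (hy : a * (y : F) = 1) (hym : y ∈ IsLocalRing.maximalIdeal Bn)
    (hrel₁ : (b - a ^ q) * (b ^ q - a) + q * ∑ s ∈ S, (ψ s : F) * b ^ s.1 * a ^ s.2 = 0)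
    (hrel₃ : (b - a₃ ^ q) * (b ^ q - a₃) + q * ∑ s ∈ S, (ψ s : F) * b ^ s.1 * a₃ ^ s.2 = 0)
    (hτ₁ : ∀ t : Bn, (t : F) * a ^ q = b → t - 1 ∈ IsLocalRing.maximalIdeal Bn) :
    ∃ lam c : Bn, (lam : F) * a₃ = a ∧ (lam - 1) * c = (q : Bn) := by
  classical
  have hq1 : 1 ≤ q := by omega
  have hcoe : ∀ z : Bn, algebraMap Bn F z = (z : F) := fun _ => rfl
  set e : ℕ × ℕ → ℕ := fun s => q * q + q - (q * s.1 + s.2) with he
  have hunit_of : ∀ x : Bn, x - 1 ∈ IsLocalRing.maximalIdeal Bn → IsUnit x := by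
    intro x hx
    rw [← IsLocalRing.notMem_maximalIdeal]
    intro hxm
    have h1 : (1 : Bn) ∈ IsLocalRing.maximalIdeal Bn := by
      have h := (IsLocalRing.maximalIdeal Bn).sub_mem hxm hx
      rwa [sub_sub_cancel] at h
    exact (Ideal.ne_top_iff_one _).mp (IsLocalRing.maximalIdeal.isMaximal Bn).ne_top h1
  have hlt : ((q : ℕ) : WithBot ℕ) < ((q + 1 : ℕ) : WithBot ℕ) := by
    exact_mod_cast Nat.lt_succ_self q
  -- Step 1: τ = b * y^q ∈ Bn
  have hayq : a ^ q * (y : F) ^ q = 1 := by rw [← mul_pow, hy, one_pow]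
  have hτF : (b * (y : F) ^ q) * a ^ q = b := by linear_combination b * hayq
  have hrelτ := mc8_rel_tau q hq1 S ψ (fun s hs => (hS s hs).2.2.1) a b (b * (y : F) ^ q)
    (y : F) hτF hy hrel₁
  have hτint : IsIntegral Bn (b * (y : F) ^ q) := by
    refine mc8_integral Bn _ (q + 1) 1 isUnit_one
      (C (-1) * X ^ q + C (-(y ^ (q * q - 1))) * X + C (y ^ (q * q - 1))
        + ∑ s ∈ S, C ((q : Bn) * (ψ s : Bn) * y ^ (e s)) * X ^ s.1) ?_ ?_
    · refine lt_of_le_of_lt (degree_add_le _ _) (max_lt (lt_of_le_of_lt (degree_add_le _ _)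
        (max_lt (lt_of_le_of_lt (degree_add_le _ _) (max_lt ?_ ?_)) ?_)) ?_)
      · exact lt_of_le_of_lt (degree_C_mul_X_pow_le q _) hlt
      · exact lt_of_le_of_lt (degree_C_mul_X_le _) (by exact_mod_cast (by omega : 1 < q + 1))
      · exact lt_of_le_of_lt degree_C_le (by exact_mod_cast Nat.succ_pos q)
      · refine lt_of_le_of_lt (degree_sum_le _ _) ?_
        rw [Finset.sup_lt_iff (by exact_mod_cast WithBot.bot_lt_coe (q + 1))]
        intro s hs
        exact lt_of_le_of_lt (degree_C_mul_X_pow_le _ _)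
          (by exact_mod_cast Nat.lt_succ_of_le (hS s hs).1)
    · simp only [eval₂_add, eval₂_mul, eval₂_pow, eval₂_X, eval₂_C, eval₂_finsetSum, hcoe,
        Subring.coe_mul, Subring.coe_pow, Subring.coe_natCast, Subring.coe_intCast,
        Subring.coe_one, Subring.coe_neg]
      linear_combination hrelτ
  set t : Bn := ⟨b * (y : F) ^ q, hic _ hτint⟩ with ht
  obtain ⟨ρ, hρ⟩ := (hunit_of t (hτ₁ t hτF)).exists_left_inv
  have hρF : (ρ : F) * (b * (y : F) ^ q) = 1 := by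
    have h := congrArg Bn.subtype hρ
    rw [map_mul, map_one] at h
    exact h
  have hbρ : b * (ρ : F) = a ^ q := by
    linear_combination (-(b * (ρ : F))) * hayq + a ^ q * hρF
  -- Step 2: the two relations in the coordinates (ρ, y, lam)
  have hS' : ∀ s ∈ S, s.1 ≤ q + 1 ∧ s.2 ≤ q + 1 ∧ q * s.1 + s.2 ≤ q * q + q := fun s hs =>
    ⟨(hS s hs).1.trans (Nat.le_succ q), (hS s hs).2.1, (hS s hs).2.2.1⟩
  have E1 := mc8_rel q hq1 S ψ hS' a b a (ρ : F) 1 (y : F) hbρ (mul_one a) hy hrel₁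
  have hal : a₃ * (a / a₃) = a := by field_simp
  have E3 := mc8_rel q hq1 S ψ hS' a b a₃ (ρ : F) (a / a₃) (y : F) hbρ hal hy hrel₃
  simp only [one_pow, mul_one] at E1
  -- Step 3: lam = a / a₃ ∈ Bn
  set ω : Bn := ρ ^ q * y ^ (q * q - 1) with hω
  set d₃ : ℕ × ℕ → Bn := fun s => (q : Bn) * (ψ s : Bn) * ρ ^ (q + 1 - s.1) * y ^ (e s) with hd₃
  have hd₃m : ∀ s ∈ S, s.2 = 0 → d₃ s ∈ IsLocalRing.maximalIdeal Bn := by
    intro s hs h0
    have hpos : e s ≠ 0 := by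
      have := (hS s hs).1
      have h2 : q * s.1 ≤ q * q := Nat.mul_le_mul_left q this
      simp only [he]
      omega
    exact Ideal.mul_mem_left _ _ (Ideal.pow_mem_of_mem _ hym _ (Nat.pos_of_ne_zero hpos))
  have hv : IsUnit (1 + ∑ s ∈ S.filter (fun s => s.2 = 0), d₃ s) := by
    apply hunit_of
    have : (1 + ∑ s ∈ S.filter (fun s => s.2 = 0), d₃ s) - 1
        = ∑ s ∈ S.filter (fun s => s.2 = 0), d₃ s := by ring
    rw [this]
    exact Ideal.sum_mem _ fun s hs => hd₃m s (Finset.mem_filter.mp hs).1 (Finset.mem_filter.mp hs).2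
  have hsplit : (q : F) * ∑ s ∈ S, (ψ s : F) * (ρ : F) ^ (q + 1 - s.1)
        * (y : F) ^ (q * q + q - (q * s.1 + s.2)) * (a / a₃) ^ (q + 1 - s.2)
      = (∑ s ∈ S.filter (fun s => s.2 = 0), (d₃ s : F)) * (a / a₃) ^ (q + 1)
        + ∑ s ∈ S.filter (fun s => ¬ s.2 = 0), (d₃ s : F) * (a / a₃) ^ (q + 1 - s.2) := by
    rw [mul_sum, ← Finset.sum_filter_add_sum_filter_not S (fun s => s.2 = 0), sum_mul]
    congr 1
    · refine sum_congr rfl fun s hs => ?_
      have h0 : s.2 = 0 := (Finset.mem_filter.mp hs).2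
      simp only [hd₃, he, Subring.coe_mul, Subring.coe_pow, Subring.coe_natCast,
        Subring.coe_intCast, h0, Nat.sub_zero, Nat.add_zero]
      ring
    · refine sum_congr rfl fun s _ => ?_
      simp only [hd₃, he, Subring.coe_mul, Subring.coe_pow, Subring.coe_natCast,
        Subring.coe_intCast]
      ring
  have hlint : IsIntegral Bn (a / a₃) := by
    refine mc8_integral Bn _ (q + 1) _ hv
      (C (-ω) * X ^ q + C (-ρ) * X + C (ω * ρ)
        + ∑ s ∈ S.filter (fun s => ¬ s.2 = 0), C (d₃ s) * X ^ (q + 1 - s.2)) ?_ ?_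
    · refine lt_of_le_of_lt (degree_add_le _ _) (max_lt (lt_of_le_of_lt (degree_add_le _ _)
        (max_lt (lt_of_le_of_lt (degree_add_le _ _) (max_lt ?_ ?_)) ?_)) ?_)
      · exact lt_of_le_of_lt (degree_C_mul_X_pow_le q _) hlt
      · exact lt_of_le_of_lt (degree_C_mul_X_le _) (by exact_mod_cast (by omega : 1 < q + 1))
      · exact lt_of_le_of_lt degree_C_le (by exact_mod_cast Nat.succ_pos q)
      · refine lt_of_le_of_lt (degree_sum_le _ _) ?_
        rw [Finset.sup_lt_iff (by exact_mod_cast WithBot.bot_lt_coe (q + 1))]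
        intro s hs
        have h0 : ¬ s.2 = 0 := (Finset.mem_filter.mp hs).2
        exact lt_of_le_of_lt (degree_C_mul_X_pow_le _ _) (by exact_mod_cast (by omega : q + 1 - s.2 < q + 1))
    · simp only [eval₂_add, eval₂_mul, eval₂_pow, eval₂_X, eval₂_C, eval₂_finsetSum, hcoe,
        Subring.coe_mul, Subring.coe_pow, Subring.coe_one, Subring.coe_neg, Subring.coe_add,
        AddSubmonoidClass.coe_finsetSum, hω]
      rw [hsplit] at E3
      linear_combination E3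
  set lam : Bn := ⟨a / a₃, hic _ hlint⟩ with hlam
  have hlam1 : lam ≠ 1 := by
    intro h
    have h' : a / a₃ = 1 := congrArg Subtype.val h
    exact hne ((div_eq_one_iff_eq ha₃).mp h').symm
  -- Step 4: the core identity in `Bn`
  obtain ⟨m, hm⟩ : ∃ m, q * q - 1 = m + 1 := ⟨q * q - 2, by have : 4 ≤ q * q := Nat.mul_le_mul hq hq; omega⟩
  obtain ⟨E, T, r, hET, hE⟩ := mc8_core (A := Bn) q ρ y lam ω S (fun s => (ψ s : Bn)) e
    (fun s => q + 1 - s.1) (fun s => q + 1 - s.2) hlam1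
    ⟨ρ ^ q * y ^ m, by rw [hω, hm, pow_succ]; ring⟩
    (by
      apply Subtype.ext
      simp only [Subring.coe_add, Subring.coe_mul, AddSubgroupClass.coe_sub, Subring.coe_pow,
        Subring.coe_one, Subring.coe_zero, Subring.coe_natCast, Subring.coe_intCast,
        AddSubmonoidClass.coe_finsetSum, hω, he]
      exact E1)
    (by
      apply Subtype.ext
      simp only [Subring.coe_add, Subring.coe_mul, AddSubgroupClass.coe_sub, Subring.coe_pow,
        Subring.coe_zero, Subring.coe_natCast, Subring.coe_intCast,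
        AddSubmonoidClass.coe_finsetSum, hω, he, hlam]
      exact E3)
    (by
      intro s hs h0
      obtain ⟨-, h2, h3, h4⟩ := hS s hs
      simp only [he] at h0
      have : s.2 = q := h4 (by omega)
      omega)
  have hEu : IsUnit E := by
    apply hunit_of
    rw [hE, add_sub_cancel_left]
    exact Ideal.mul_mem_right _ _ hym
  obtain ⟨E', hE'⟩ := hEu.exists_left_inv
  refine ⟨lam, T * E', by rw [hlam]; exact div_mul_cancel₀ a ha₃, ?_⟩
  linear_combination (-E') * hET + (q : Bn) * hE'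

end Local

section Chart

variable {R F : Type*} [CommRing R] [Field F] [Algebra R F]

/-- The local ring of the chart `B` at the prime `n`, as a subring of `F`. -/
def mc8_loc (B : Subalgebra R F) (n : Ideal B) [hn : n.IsPrime] : Subring F where
  carrier := {x | ∃ s b : B, s ∉ n ∧ (s : F) * x = (b : F)}
  mul_mem' := by
    rintro x₁ x₂ ⟨s₁, b₁, hs₁, h₁⟩ ⟨s₂, b₂, hs₂, h₂⟩
    refine ⟨s₁ * s₂, b₁ * b₂, fun h => (hn.mem_or_mem h).elim hs₁ hs₂, ?_⟩
    push_cast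
    rw [← h₁, ← h₂]; ring
  one_mem' := ⟨1, 1, fun h => hn.ne_top ((Ideal.eq_top_iff_one n).mpr h), by simp⟩
  add_mem' := by
    rintro x₁ x₂ ⟨s₁, b₁, hs₁, h₁⟩ ⟨s₂, b₂, hs₂, h₂⟩
    refine ⟨s₁ * s₂, s₂ * b₁ + s₁ * b₂, fun h => (hn.mem_or_mem h).elim hs₁ hs₂, ?_⟩
    push_cast
    rw [← h₁, ← h₂]; ring
  zero_mem' := ⟨1, 0, fun h => hn.ne_top ((Ideal.eq_top_iff_one n).mpr h), by simp⟩
  neg_mem' := by
    rintro x ⟨s, b, hs, h⟩
    refine ⟨s, -b, hs, ?_⟩
    push_cast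
    rw [← h]; ring

theorem mc8_mem_loc (B : Subalgebra R F) (n : Ideal B) [hn : n.IsPrime] (x : F) :
    x ∈ mc8_loc B n ↔ ∃ s b : B, s ∉ n ∧ (s : F) * x = (b : F) := Iff.rfl

theorem mc8_coe_ne_zero (B : Subalgebra R F) (n : Ideal B) (s : B) (hs : s ∉ n) :
    (s : F) ≠ 0 := by
  intro h
  apply hs
  have : s = 0 := Subtype.ext h
  rw [this]; exact n.zero_mem

/-- Units of the local ring: the numerator is not in `n`. -/
theorem mc8_loc_unit (B : Subalgebra R F) (n : Ideal B) [hn : n.IsPrime] (x : mc8_loc B n)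
    (s b : B) (hs : s ∉ n) (hsb : (s : F) * (x : F) = (b : F)) : IsUnit x ↔ b ∉ n := by
  constructor
  · intro hu hb
    obtain ⟨x', hx'⟩ := hu.exists_right_inv
    obtain ⟨s', b', hs', h'⟩ := x'.2
    have hF : (x : F) * (x' : F) = 1 := by
      have := congrArg Subtype.val hx'
      exact this
    have : s * s' = b * b' := by
      apply Subtype.ext
      push_cast
      rw [← hsb, ← h']
      linear_combination (-((s : F) * (s' : F))) * hF
    have hmem : s * s' ∈ n := by rw [this]; exact n.mul_mem_right _ hb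
    exact (hn.mem_or_mem hmem).elim hs hs'
  · intro hb
    have hb0 : (b : F) ≠ 0 := mc8_coe_ne_zero B n b hb
    have hx0 : (x : F) ≠ 0 := by
      intro h0
      rw [h0, mul_zero] at hsb
      exact hb0 hsb.symm
    have hinv : (x : F)⁻¹ ∈ mc8_loc B n := by
      refine ⟨b, s, hb, ?_⟩
      rw [← hsb]
      field_simp
    refine isUnit_iff_exists_inv.mpr ⟨⟨(x : F)⁻¹, hinv⟩, Subtype.ext ?_⟩
    show (x : F) * (x : F)⁻¹ = 1
    exact mul_inv_cancel₀ hx0

instance mc8_loc_isLocalRing (B : Subalgebra R F) (n : Ideal B) [hn : n.IsPrime] :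
    IsLocalRing (mc8_loc B n) := by
  refine IsLocalRing.of_nonunits_add ?_
  intro x₁ x₂ h₁ h₂
  obtain ⟨s₁, b₁, hs₁, e₁⟩ := x₁.2
  obtain ⟨s₂, b₂, hs₂, e₂⟩ := x₂.2
  have hb₁ : b₁ ∈ n := by
    by_contra h
    exact h₁ ((mc8_loc_unit B n x₁ s₁ b₁ hs₁ e₁).mpr h)
  have hb₂ : b₂ ∈ n := by
    by_contra h
    exact h₂ ((mc8_loc_unit B n x₂ s₂ b₂ hs₂ e₂).mpr h)
  intro hu
  have hrep : ((s₁ * s₂ : B) : F) * ((x₁ + x₂ : mc8_loc B n) : F)
      = ((s₂ * b₁ + s₁ * b₂ : B) : F) := by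
    push_cast
    rw [← e₁, ← e₂]; ring
  exact (mc8_loc_unit B n (x₁ + x₂) (s₁ * s₂) (s₂ * b₁ + s₁ * b₂)
    (fun h => (hn.mem_or_mem h).elim hs₁ hs₂) hrep).mp hu
    (n.add_mem (n.mul_mem_left _ hb₁) (n.mul_mem_left _ hb₂))

theorem mc8_loc_mem_max (B : Subalgebra R F) (n : Ideal B) [hn : n.IsPrime] (x : mc8_loc B n)
    (s b : B) (hs : s ∉ n) (hsb : (s : F) * (x : F) = (b : F)) :
    x ∈ IsLocalRing.maximalIdeal (mc8_loc B n) ↔ b ∈ n := by
  rw [IsLocalRing.mem_maximalIdeal, mem_nonunits_iff, mc8_loc_unit B n x s b hs hsb, not_not]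

/-- The local ring of an integrally closed chart is integrally closed in `F`. -/
theorem mc8_loc_closed (B : Subalgebra R F) (hBcl : ∀ x : F, IsIntegral B x → x ∈ B)
    (n : Ideal B) [hn : n.IsPrime] (x : F) (hx : IsIntegral (mc8_loc B n) x) :
    x ∈ mc8_loc B n := by
  classical
  obtain ⟨p, hp, hpx⟩ := hx
  set d := p.natDegree with hd
  choose sden bnum hs hsb using fun i : ℕ => (p.coeff i).2
  set s : B := ∏ i ∈ range d, sden i with hsdef
  have hsn : s ∉ n := by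
    have : s ∈ n.primeCompl := Submonoid.prod_mem n.primeCompl fun i _ => hs i
    exact this
  -- s * coeff i ∈ B for i < d
  have hnum : ∀ i ∈ range d, ∃ e : B, (e : F) = (s : F) * ((p.coeff i : mc8_loc B n) : F) := by
    intro i hi
    refine ⟨(∏ j ∈ (range d).erase i, sden j) * bnum i, ?_⟩
    have h1 : sden i * ∏ j ∈ (range d).erase i, sden j = s := Finset.mul_prod_erase _ _ hi
    rw [← h1]
    push_cast
    rw [← hsb i]; ring
  choose! e he using hnum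
  -- the relation for x
  have hrel : x ^ d + ∑ i ∈ range d, ((p.coeff i : mc8_loc B n) : F) * x ^ i = 0 := by
    have h := hpx
    rw [hp.as_sum, eval₂_add, eval₂_pow, eval₂_X, eval₂_finsetSum] at h
    rw [← h]
    congr 1
    refine sum_congr rfl fun i _ => ?_
    rw [eval₂_mul, eval₂_C, eval₂_pow, eval₂_X]
    rfl
  have hint : IsIntegral B ((s : F) * x) := by
    refine ⟨X ^ d + ∑ i ∈ range d, C (s ^ (d - 1 - i) * e i) * X ^ i, ?_, ?_⟩
    · refine monic_X_pow_add (lt_of_le_of_lt (degree_sum_le _ _) ?_)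
      rw [Finset.sup_lt_iff (by exact_mod_cast WithBot.bot_lt_coe d)]
      intro i hi
      exact lt_of_le_of_lt (degree_C_mul_X_pow_le _ _) (by exact_mod_cast Finset.mem_range.mp hi)
    · rw [eval₂_add, eval₂_pow, eval₂_X, eval₂_finsetSum]
      have hsum : ∑ i ∈ range d, eval₂ (algebraMap B F) ((s : F) * x) (C (s ^ (d - 1 - i) * e i) * X ^ i)
          = (s : F) ^ d * ∑ i ∈ range d, ((p.coeff i : mc8_loc B n) : F) * x ^ i := by
        rw [mul_sum]
        refine sum_congr rfl fun i hi => ?_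
        rw [eval₂_mul, eval₂_C, eval₂_pow, eval₂_X]
        have hi' : i < d := Finset.mem_range.mp hi
        have hsplit : (s : F) ^ d = (s : F) ^ (d - 1 - i) * (s : F) * (s : F) ^ i := by
          rw [← pow_succ, ← pow_add]; congr 1; omega
        have : algebraMap B F (s ^ (d - 1 - i) * e i) = (s : F) ^ (d - 1 - i) * (e i : F) := by
          show ((s ^ (d - 1 - i) * e i : B) : F) = _
          push_cast; rfl
        rw [this, he i hi, hsplit]; ring
      rw [hsum, mul_pow]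
      linear_combination (s : F) ^ d * hrel
  exact ⟨s, ⟨(s : F) * x, hBcl _ hint⟩, hsn, rfl⟩

/-- **The middle cusp, chart form.**  `B` an integrally closed chart, `n` a prime of `B` which is
cuspidal (`a * a₀ = c₀`, `a₀ ∈ n`, `c₀ ∉ n`; `a = J`) and contains the centre of a valuation ring
`V₂ ⊇ B` on which `J` is a unit and `J_q ≡ J^q`.  Then `z = t_s (J / J_{q²} - 1)` (a chart
element) divides `q` at `n`: `z * c = t * q`, `t ∉ n`. -/
theorem mc8_chart (B : Subalgebra R F) (hBcl : ∀ x : F, IsIntegral B x → x ∈ B)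
    (n : Ideal B) [hn : n.IsPrime] (q : ℕ) (hq : 2 ≤ q)
    (S : Finset (ℕ × ℕ)) (ψ : ℕ × ℕ → ℤ)
    (hS : ∀ s ∈ S, s.1 ≤ q ∧ s.2 ≤ q + 1 ∧ q * s.1 + s.2 ≤ q * q + q ∧
      (q * s.1 + s.2 = q * q + q → s.2 = q))
    (a b a₃ : F) (ha₃ : a₃ ≠ 0) (hne : a₃ ≠ a)
    (a₀ c₀ : B) (ha₀ : a₀ ∈ n) (hc₀ : c₀ ∉ n) (hcusp : a * (a₀ : F) = (c₀ : F))
    (hrel₁ : (b - a ^ q) * (b ^ q - a) + q * ∑ s ∈ S, (ψ s : F) * b ^ s.1 * a ^ s.2 = 0)
    (hrel₃ : (b - a₃ ^ q) * (b ^ q - a₃) + q * ∑ s ∈ S, (ψ s : F) * b ^ s.1 * a₃ ^ s.2 = 0)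
    (V₂ : ValuationSubring F) (hBV₂ : ∀ x ∈ B, x ∈ V₂)
    (hc₂ : ∀ x : B, V₂.valuation (x : F) < 1 → x ∈ n)
    (ha₂ : V₂.valuation a = 1) (hkron : V₂.valuation (b - a ^ q) < 1) :
    ∃ z c t ts : B, t ∉ n ∧ ts ∉ n ∧ (z : F) * a₃ = (ts : F) * (a - a₃) ∧
      z * c = t * (q : B) := by
  have hc₀F : (c₀ : F) ≠ 0 := mc8_coe_ne_zero B n c₀ hc₀
  have ha : a ≠ 0 := by
    intro h0
    rw [h0, zero_mul] at hcusp
    exact hc₀F hcusp.symm
  have hyrep : (c₀ : F) * a⁻¹ = (a₀ : F) := by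
    rw [← hcusp]; field_simp
  have hymem : a⁻¹ ∈ mc8_loc B n := ⟨c₀, a₀, hc₀, hyrep⟩
  have hval_unit : ∀ x : B, x ∉ n → V₂.valuation (x : F) = 1 := by
    intro x hx
    have h1 : V₂.valuation (x : F) ≤ 1 := (V₂.valuation_le_one_iff _).mpr (hBV₂ _ x.2)
    exact le_antisymm h1 (not_lt.mp fun h => hx (hc₂ x h))
  obtain ⟨lam, c, hlam, hc⟩ := mc8_local (mc8_loc B n) (mc8_loc_closed B hBcl n) q hq S ψ hS
    a b a₃ ha₃ hne ⟨a⁻¹, hymem⟩ (mul_inv_cancel₀ ha)
    ((mc8_loc_mem_max B n ⟨a⁻¹, hymem⟩ c₀ a₀ hc₀ hyrep).mpr ha₀) hrel₁ hrel₃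
    (by
      intro t ht
      obtain ⟨s, x', hs, hsx⟩ := (t - 1).2
      rw [mc8_loc_mem_max B n (t - 1) s x' hs hsx]
      by_contra hx'
      have h1 : V₂.valuation (x' : F) = 1 := hval_unit x' hx'
      have h2 : V₂.valuation (s : F) = 1 := hval_unit s hs
      have h3 : ((t - 1 : mc8_loc B n) : F) * a ^ q = b - a ^ q := by
        push_cast
        rw [← ht]; ring
      have h4 : V₂.valuation ((t - 1 : mc8_loc B n) : F) < 1 := by
        have := congrArg V₂.valuation h3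
        rw [map_mul, map_pow, ha₂, one_pow, mul_one] at this
        rw [this]; exact hkron
      have h5 := congrArg V₂.valuation hsx
      rw [map_mul, h2, one_mul, h1] at h5
      rw [h5] at h4
      exact lt_irrefl _ h4)
  obtain ⟨ts, z, hts, hz⟩ := (lam - 1).2
  obtain ⟨tc, c', htc, hc'⟩ := c.2
  refine ⟨z, c', ts * tc, ts, fun h => (hn.mem_or_mem h).elim hts htc, hts, ?_, ?_⟩
  · rw [← hz]
    push_cast
    linear_combination (ts : F) * hlam
  · apply Subtype.ext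
    have hcF : (((lam - 1) * c : mc8_loc B n) : F) = (q : F) := by
      rw [hc]; push_cast; rfl
    push_cast at hcF ⊢
    rw [← hz, ← hc']
    push_cast
    linear_combination ((ts : F) * (tc : F)) * hcF

end Chart

end Fermat.Agent.S36
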