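import Mathlib
import Fermat.Agent.S36.LocStrThree71
import Fermat.Agent.S36.MidCusp8

/-!
# S36 lab (helper25), row C-midcusp: from the local divisor at a cusp of `C₂` to two generators

`mc8_chart` (helper8, `MidCusp8`) produces at a cuspidal point `n` of the middle component a
chart element `z = t_s (J / J_{q²} - 1)` with `z * c = t * q`, `t ∉ n`, WITHOUT any control of
`z` along the two other components.  The assembly `tl71_twoGen` asks for `tl71_MidDivAt`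
(a generator which is a unit of `V₁`, `V₃`).  This file removes that requirement:

* `mc25_MidPrinAt σ B V₂ n` : the middle branch `p₂ = {x ∈ B | x σ⁻¹ ∈ V₂}` is principal at `n`:
  `∃ g t, t ∉ n ∧ g ∈ n ∧ ∀ y ∈ p₂, ∃ b, t y = b g`;
* `mc25_prinAt_of_midDiv` : `tl71_MidDivAt` implies `mc25_MidPrinAt` (points of row C-C2);
* `mc25_prin0` : localised saturation with ONE separator (`a ∉ n`, `π⁻¹ a ∈ V₁, V₃`):
  `z * c = t * q` and `σ / z ∈ V₂` give `(a u t) * p₂ ⊆ z B`;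
* `mc25_prinAt_of_dvd` : hence `mc25_MidPrinAt` at a point of `C₂` only;
* `mc25_prinAt_cusp` : `mc25_MidPrinAt` at a cuspidal point of `C₂` only, from the hypotheses
  of `mc8_chart` (two Kronecker relations, `1/J ∈ n B_n`, `V₂`-data);
* `mc25_twoGen` : the assembly `tl71_twoGen` with `hD₂` in the weaker form `mc25_MidPrinAt`.
-/

set_option autoImplicit false

namespace Fermat.Agent.S36

open Fermat.Agent.S34 TripleLoc71

section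

variable {R F : Type*} [CommRing R] [Field F] [Algebra R F]

/-- The middle branch `p₂ = {x ∈ B | x σ⁻¹ ∈ V₂}` is principal at `n`. -/
def mc25_MidPrinAt (σ : F) (B : Subalgebra R F) (V₂ : Subring F) (n : Ideal B) : Prop :=
  ∃ g t : B, t ∉ n ∧ g ∈ n ∧ ∀ y : B, (y : F) * σ⁻¹ ∈ V₂ → ∃ b : B, t * y = b * g

/-- `tl71_MidDivAt` implies `mc25_MidPrinAt`. -/
theorem mc25_prinAt_of_midDiv (π : R) (σ : F) (B : Subalgebra R F) (V₁ V₂ V₃ : Subring F)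
    (hB₁ : ∀ x ∈ B, x ∈ V₁) (hB₂ : ∀ x ∈ B, x ∈ V₂) (hB₃ : ∀ x ∈ B, x ∈ V₃)
    (hsat : ∀ x ∈ B, (algebraMap R F π)⁻¹ * x ∈ V₁ → (algebraMap R F π)⁻¹ * x ∈ V₂ →
      (algebraMap R F π)⁻¹ * x ∈ V₃ → (algebraMap R F π)⁻¹ * x ∈ B)
    (hπ0 : algebraMap R F π ≠ 0) (hσ0 : σ ≠ 0)
    (n : Ideal B) (hon : tl71_OnMid σ B V₂ n)
    (h : tl71_MidDivAt π σ B V₁ V₂ V₃ n) : mc25_MidPrinAt σ B V₂ n := by
  obtain ⟨g, c, t, k, ht, hgc, hgσ, hσg, hg₁, hg₃⟩ := h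
  refine ⟨g, t, ht, hon g hgσ, fun y hy => ?_⟩
  refine tl71_mid_principal π B V₁ V₂ V₃ hB₁ hB₂ hB₃ hsat hπ0 g c t k hgc hg₁ hg₃ y ?_
  have : (y : F) * (g : F)⁻¹ = (y : F) * σ⁻¹ * (σ * (g : F)⁻¹) := by
    field_simp
  rw [this]
  exact V₂.mul_mem hy hσg

/-- **Localised saturation with one separator.**  `z * c = t * q` in `B`, `σ / z ∈ V₂`, and a
separator `a` (`π⁻¹ a ∈ V₁`, `π⁻¹ a ∈ V₃`): every `y ∈ B` with `y / σ ∈ V₂` satisfies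
`(a u t) * y ∈ z B`. -/
theorem mc25_prin0 (π u : R) (q : ℕ) (hqπ : (q : R) = u * π)
    (B : Subalgebra R F) (V₁ V₂ V₃ : Subring F)
    (hB₁ : ∀ x ∈ B, x ∈ V₁) (hB₂ : ∀ x ∈ B, x ∈ V₂) (hB₃ : ∀ x ∈ B, x ∈ V₃)
    (hsat : ∀ x ∈ B, (algebraMap R F π)⁻¹ * x ∈ V₁ → (algebraMap R F π)⁻¹ * x ∈ V₂ →
      (algebraMap R F π)⁻¹ * x ∈ V₃ → (algebraMap R F π)⁻¹ * x ∈ B)
    (hπ0 : algebraMap R F π ≠ 0)
    (σ : F) (hσ0 : σ ≠ 0)
    (a : B) (ha₁ : (algebraMap R F π)⁻¹ * (a : F) ∈ V₁)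
    (ha₃ : (algebraMap R F π)⁻¹ * (a : F) ∈ V₃)
    (z c t : B) (hz0 : (z : F) ≠ 0) (hσz : σ * (z : F)⁻¹ ∈ V₂) (hzc : z * c = t * (q : B))
    (y : B) (hy : (y : F) * σ⁻¹ ∈ V₂) :
    ∃ b : B, (a * algebraMap R B u * t) * y = b * z := by
  have hqF : (q : F) = algebraMap R F u * algebraMap R F π := by
    have := congrArg (algebraMap R F) hqπ
    simpa using this
  have hzcF : (z : F) * (c : F) = (t : F) * (algebraMap R F u * algebraMap R F π) := by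
    have := congrArg (fun x : B => (x : F)) hzc
    rw [← hqF]
    simpa using this
  have hwB : (a : F) * (y : F) * (c : F) ∈ B := B.mul_mem (B.mul_mem a.2 y.2) c.2
  have hc : (c : F) = (t : F) * (algebraMap R F u * algebraMap R F π) * (z : F)⁻¹ := by
    rw [← hzcF]; field_simp
  have hval : (algebraMap R F π)⁻¹ * ((a : F) * (y : F) * (c : F))
      = (a : F) * algebraMap R F u * (t : F) * ((y : F) * σ⁻¹) * (σ * (z : F)⁻¹) := by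
    rw [hc]; field_simp
  have hV₁ : (algebraMap R F π)⁻¹ * ((a : F) * (y : F) * (c : F)) ∈ V₁ := by
    have : (algebraMap R F π)⁻¹ * ((a : F) * (y : F) * (c : F))
        = ((algebraMap R F π)⁻¹ * (a : F)) * ((y : F) * (c : F)) := by ring
    rw [this]
    exact V₁.mul_mem ha₁ (V₁.mul_mem (hB₁ _ y.2) (hB₁ _ c.2))
  have hV₃ : (algebraMap R F π)⁻¹ * ((a : F) * (y : F) * (c : F)) ∈ V₃ := by
    have : (algebraMap R F π)⁻¹ * ((a : F) * (y : F) * (c : F))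
        = ((algebraMap R F π)⁻¹ * (a : F)) * ((y : F) * (c : F)) := by ring
    rw [this]
    exact V₃.mul_mem ha₃ (V₃.mul_mem (hB₃ _ y.2) (hB₃ _ c.2))
  have hV₂ : (algebraMap R F π)⁻¹ * ((a : F) * (y : F) * (c : F)) ∈ V₂ := by
    rw [hval]
    exact V₂.mul_mem (V₂.mul_mem (V₂.mul_mem (V₂.mul_mem (hB₂ _ a.2)
      (hB₂ _ (B.algebraMap_mem u))) (hB₂ _ t.2)) hy) hσz
  refine ⟨⟨_, hsat _ hwB hV₁ hV₂ hV₃⟩, Subtype.ext ?_⟩
  show ((a * algebraMap R B u * t * y : B) : F)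
    = (algebraMap R F π)⁻¹ * ((a : F) * (y : F) * (c : F)) * (z : F)
  rw [hc]
  push_cast
  field_simp

/-- **The middle branch is principal at a point of `C₂` only where some `z ∼ σ` divides `q`.** -/
theorem mc25_prinAt_of_dvd (π u u' : R) (huu' : u * u' = 1) (q : ℕ) (hqπ : (q : R) = u * π)
    (B : Subalgebra R F) (V₁ V₂ V₃ : Subring F)
    (hB₁ : ∀ x ∈ B, x ∈ V₁) (hB₂ : ∀ x ∈ B, x ∈ V₂) (hB₃ : ∀ x ∈ B, x ∈ V₃)
    (hsat : ∀ x ∈ B, (algebraMap R F π)⁻¹ * x ∈ V₁ → (algebraMap R F π)⁻¹ * x ∈ V₂ →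
      (algebraMap R F π)⁻¹ * x ∈ V₃ → (algebraMap R F π)⁻¹ * x ∈ B)
    (hπ0 : algebraMap R F π ≠ 0)
    (σ : F) (hσ0 : σ ≠ 0)
    (n : Ideal B) [hn : n.IsPrime]
    (h1 : ¬ sf79_OnBr π B V₁ n) (h3 : ¬ sf79_OnBr π B V₃ n)
    (z c t : B) (ht : t ∉ n) (hzn : z ∈ n) (hz0 : (z : F) ≠ 0) (hσz : σ * (z : F)⁻¹ ∈ V₂)
    (hzc : z * c = t * (q : B)) :
    mc25_MidPrinAt σ B V₂ n := by
  have hbrw : ∀ V : Subring F, ¬ sf79_OnBr π B V n →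
      ∃ y : B, y ∉ n ∧ (algebraMap R F π)⁻¹ * (y : F) ∈ V := by
    intro V h
    by_contra hcon
    exact h fun x hx => by
      by_contra hxn
      exact hcon ⟨x, hxn, hx⟩
  obtain ⟨y₁, hy₁n, hy₁⟩ := hbrw V₁ h1
  obtain ⟨y₃, hy₃n, hy₃⟩ := hbrw V₃ h3
  have ha₁ : (algebraMap R F π)⁻¹ * ((y₁ * y₃ : B) : F) ∈ V₁ := by
    have : (algebraMap R F π)⁻¹ * ((y₁ * y₃ : B) : F)
        = (algebraMap R F π)⁻¹ * (y₁ : F) * (y₃ : F) := by push_cast; ring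
    rw [this]; exact V₁.mul_mem hy₁ (hB₁ _ y₃.2)
  have ha₃ : (algebraMap R F π)⁻¹ * ((y₁ * y₃ : B) : F) ∈ V₃ := by
    have : (algebraMap R F π)⁻¹ * ((y₁ * y₃ : B) : F)
        = (y₁ : F) * ((algebraMap R F π)⁻¹ * (y₃ : F)) := by push_cast; ring
    rw [this]; exact V₃.mul_mem (hB₃ _ y₁.2) hy₃
  have hun : algebraMap R B u ∉ n := by
    intro h
    have h1 : algebraMap R B u * algebraMap R B u' = 1 := by rw [← map_mul, huu', map_one]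
    exact (Ideal.ne_top_iff_one n).mp hn.ne_top (h1 ▸ n.mul_mem_right _ h)
  refine ⟨z, (y₁ * y₃) * algebraMap R B u * t, ?_, hzn, fun y hy => ?_⟩
  · intro h
    rcases hn.mem_or_mem h with h | h
    · rcases hn.mem_or_mem h with h | h
      · exact (hn.mem_or_mem h).elim hy₁n hy₃n
      · exact hun h
    · exact ht h
  · exact mc25_prin0 π u q hqπ B V₁ V₂ V₃ hB₁ hB₂ hB₃ hsat hπ0 σ hσ0 (y₁ * y₃) ha₁ ha₃
      z c t hz0 hσz hzc y hy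

/-- **The middle branch is principal at a cuspidal point of `C₂` only.**  Hypotheses of
`mc8_chart` (`a = J`, `b = J_q`, `a₃ = J_{q²}`, the two Kronecker relations, `1/J ∈ n B_n`,
`J` a unit of `V₂`, `J_q ≡ J^q` and `J_{q²} ≡ J` along `V₂`), `σ` a uniformiser of `V₂` dividing
`a₃ - a` up to a unit, and `n` on no other component. -/
theorem mc25_prinAt_cusp (π u u' : R) (huu' : u * u' = 1) (q : ℕ) (hq2 : 2 ≤ q)
    (hqπ : (q : R) = u * π)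
    (B : Subalgebra R F) (hBcl : ∀ x : F, IsIntegral B x → x ∈ B)
    (V₁ V₃ : Subring F) (V₂ : ValuationSubring F)
    (hB₁ : ∀ x ∈ B, x ∈ V₁) (hB₂ : ∀ x ∈ B, x ∈ V₂) (hB₃ : ∀ x ∈ B, x ∈ V₃)
    (hsat : ∀ x ∈ B, (algebraMap R F π)⁻¹ * x ∈ V₁ → (algebraMap R F π)⁻¹ * x ∈ V₂.toSubring →
      (algebraMap R F π)⁻¹ * x ∈ V₃ → (algebraMap R F π)⁻¹ * x ∈ B)
    (hπ0 : algebraMap R F π ≠ 0)
    (σ : F) (hσ0 : σ ≠ 0) (hV₂σ : ∀ x : F, V₂.valuation x < 1 → x * σ⁻¹ ∈ V₂)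
    (n : Ideal B) [hn : n.IsPrime]
    (h2 : tl71_OnMid σ B V₂.toSubring n)
    (h1 : ¬ sf79_OnBr π B V₁ n) (h3 : ¬ sf79_OnBr π B V₃ n)
    (S : Finset (ℕ × ℕ)) (ψ : ℕ × ℕ → ℤ)
    (hS : ∀ s ∈ S, s.1 ≤ q ∧ s.2 ≤ q + 1 ∧ q * s.1 + s.2 ≤ q * q + q ∧
      (q * s.1 + s.2 = q * q + q → s.2 = q))
    (a b a₃ : F) (ha₃ : a₃ ≠ 0) (hne : a₃ ≠ a)
    (a₀ c₀ : B) (ha₀ : a₀ ∈ n) (hc₀ : c₀ ∉ n) (hcusp : a * (a₀ : F) = (c₀ : F))
    (hrel₁ : (b - a ^ q) * (b ^ q - a) + q * ∑ s ∈ S, (ψ s : F) * b ^ s.1 * a ^ s.2 = 0)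
    (hrel₃ : (b - a₃ ^ q) * (b ^ q - a₃) + q * ∑ s ∈ S, (ψ s : F) * b ^ s.1 * a₃ ^ s.2 = 0)
    (ha₂ : V₂.valuation a = 1) (hkron : V₂.valuation (b - a ^ q) < 1)
    (hσ₂ : V₂.valuation (a₃ - a) < 1) (hσa : σ * (a₃ - a)⁻¹ ∈ V₂) :
    mc25_MidPrinAt σ B V₂.toSubring n := by
  have hc₂ : ∀ x : B, V₂.valuation (x : F) < 1 → x ∈ n := fun x hx => h2 x (hV₂σ _ hx)
  obtain ⟨z, c, t, ts, ht, hts, hz, hzc⟩ := mc8_chart B hBcl n q hq2 S ψ hS a b a₃ ha₃ hne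
    a₀ c₀ ha₀ hc₀ hcusp hrel₁ hrel₃ V₂ hB₂ hc₂ ha₂ hkron
  have hts0 : (ts : F) ≠ 0 := mc8_coe_ne_zero B n ts hts
  have hsub : a₃ - a ≠ 0 := sub_ne_zero.mpr hne
  have hva₃ : V₂.valuation a₃ = 1 := by
    have h := Valuation.map_add_eq_of_lt_left (v := V₂.valuation) (x := a) (y := a₃ - a)
      (by rw [ha₂]; exact hσ₂)
    rw [add_sub_cancel, ha₂] at h
    exact h
  have hvts : V₂.valuation (ts : F) = 1 := by
    have h1 : V₂.valuation (ts : F) ≤ 1 := (V₂.valuation_le_one_iff _).mpr (hB₂ _ ts.2)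
    exact le_antisymm h1 (not_lt.mp fun h => hts (hc₂ ts h))
  have ha₃V : a₃ ∈ V₂ := (V₂.valuation_le_one_iff _).mp hva₃.le
  have ha₃iV : a₃⁻¹ ∈ V₂ := by
    rw [← V₂.valuation_le_one_iff, map_inv₀, hva₃, inv_one]
  have htsiV : (ts : F)⁻¹ ∈ V₂ := by
    rw [← V₂.valuation_le_one_iff, map_inv₀, hvts, inv_one]
  have hzF : (z : F) = -((ts : F) * (a₃ - a) * a₃⁻¹) := by
    field_simp
    linear_combination hz
  have hz0 : (z : F) ≠ 0 := by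
    rw [hzF]
    exact neg_ne_zero.mpr (mul_ne_zero (mul_ne_zero hts0 hsub) (inv_ne_zero ha₃))
  have hσz : σ * (z : F)⁻¹ ∈ V₂.toSubring := by
    have : σ * (z : F)⁻¹ = -((σ * (a₃ - a)⁻¹) * a₃ * (ts : F)⁻¹) := by
      rw [hzF]
      field_simp
    rw [this]
    exact V₂.neg_mem _ (V₂.mul_mem _ _ (V₂.mul_mem _ _ hσa ha₃V) htsiV)
  have hzn : z ∈ n := by
    apply h2
    have : (z : F) * σ⁻¹ = -((ts : F) * ((a₃ - a) * σ⁻¹) * a₃⁻¹) := by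
      rw [hzF]; ring
    rw [this]
    exact V₂.neg_mem _ (V₂.mul_mem _ _ (V₂.mul_mem _ _ (hB₂ _ ts.2) (hV₂σ _ hσ₂)) ha₃iV)
  exact mc25_prinAt_of_dvd π u u' huu' q hqπ B V₁ V₂.toSubring V₃ hB₁ hB₂ hB₃ hsat hπ0 σ hσ0 n
    h1 h3 z c t ht hzn hz0 hσz hzc

/-- **Assembly: two generators at every closed point** of a saturated chart with the three
vertical components `V₁`, `V₂` (uniformiser `σ`, `σ ^ e ∣ π` along `V₂`), `V₃`: the statement of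
`tl71_twoGen` with the hypothesis at the points of `C₂` only in the principal form
`mc25_MidPrinAt` (no unit condition along `V₁`, `V₃`). -/
theorem mc25_twoGen (π : R) (σ : F) (e : ℕ) (B : Subalgebra R F) (V₁ V₂ V₃ : Subring F)
    (hB₁ : ∀ x ∈ B, x ∈ V₁) (hB₂ : ∀ x ∈ B, x ∈ V₂) (hB₃ : ∀ x ∈ B, x ∈ V₃)
    (hsat : ∀ x ∈ B, (algebraMap R F π)⁻¹ * x ∈ V₁ → (algebraMap R F π)⁻¹ * x ∈ V₂ →
      (algebraMap R F π)⁻¹ * x ∈ V₃ → (algebraMap R F π)⁻¹ * x ∈ B)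
    (hπ0 : algebraMap R F π ≠ 0) (hσ0 : σ ≠ 0)
    (hσe : (algebraMap R F π)⁻¹ * σ ^ e ∈ V₂)
    (hS₁ : sf79_Smooth π B V₁) (hS₃ : sf79_Smooth π B V₃) (hS₂ : tl71_MidSmooth π σ B V₂)
    (hD₁ : ∀ n : Ideal B, n.IsMaximal → sf79_OnBr π B V₁ n →
      (tl71_OnMid σ B V₂ n ∨ sf79_OnBr π B V₃ n) → tl71_DivAt π B V₁ V₂ V₃ n)
    (hD₃ : ∀ n : Ideal B, n.IsMaximal → sf79_OnBr π B V₃ n →
      (tl71_OnMid σ B V₂ n ∨ sf79_OnBr π B V₁ n) → tl71_DivAt π B V₃ V₂ V₁ n)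
    (hD₂ : ∀ n : Ideal B, n.IsMaximal → algebraMap R B π ∈ n → tl71_OnMid σ B V₂ n →
      ¬ sf79_OnBr π B V₁ n → ¬ sf79_OnBr π B V₃ n → mc25_MidPrinAt σ B V₂ n) :
    tl71_TwoGen π B := by
  classical
  intro n hnmax hπn
  have hnp : n.IsPrime := hnmax.isPrime
  -- a witness off the middle branch gives `t ∉ n` with `π⁻¹ t ∈ V₂`
  have hmidw : ¬ tl71_OnMid σ B V₂ n →
      ∃ y : B, y ∉ n ∧ (algebraMap R F π)⁻¹ * (y : F) ∈ V₂ := by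
    intro h
    have hex : ∃ y : B, (y : F) * σ⁻¹ ∈ V₂ ∧ y ∉ n := by
      by_contra hcon
      exact h fun x hx => by
        by_contra hxn
        exact hcon ⟨x, hx, hxn⟩
    obtain ⟨y, hy, hyn⟩ := hex
    have hσe0 : σ ^ e ≠ 0 := pow_ne_zero e hσ0
    refine ⟨y ^ e, fun hh => hyn (hnp.mem_of_pow_mem e hh), ?_⟩
    have : (algebraMap R F π)⁻¹ * ((y ^ e : B) : F)
        = ((y : F) * σ⁻¹) ^ e * ((algebraMap R F π)⁻¹ * σ ^ e) := by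
      push_cast
      rw [mul_pow, inv_pow]
      field_simp
    rw [this]
    exact V₂.mul_mem (V₂.pow_mem hy e) hσe
  have hbrw : ∀ V : Subring F, ¬ sf79_OnBr π B V n →
      ∃ y : B, y ∉ n ∧ (algebraMap R F π)⁻¹ * (y : F) ∈ V := by
    intro V h
    by_contra hcon
    exact h fun x hx => by
      by_contra hxn
      exact hcon ⟨x, hxn, hx⟩
  -- the symmetric form of saturation
  have hsat' : ∀ x ∈ B, (algebraMap R F π)⁻¹ * x ∈ V₃ → (algebraMap R F π)⁻¹ * x ∈ V₂ →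
      (algebraMap R F π)⁻¹ * x ∈ V₁ → (algebraMap R F π)⁻¹ * x ∈ B :=
    fun x hx h3 h2 h1 => hsat x hx h1 h2 h3
  by_cases h1 : sf79_OnBr π B V₁ n
  · -- on the first branch
    obtain ⟨z₀, hz₀⟩ := hS₁ n hnmax hπn h1
    by_cases h23 : tl71_OnMid σ B V₂ n ∨ sf79_OnBr π B V₃ n
    · exact tl71_two_of_div π B V₁ V₂ V₃ hB₁ hB₂ hB₃ hsat hπ0 n h1 z₀ hz₀ (hD₁ n hnmax h1 h23)
    · obtain ⟨y₂, hy₂n, hy₂⟩ := hmidw (not_or.mp h23).1
      obtain ⟨y₃, hy₃n, hy₃⟩ := hbrw V₃ (not_or.mp h23).2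
      refine tl71_two_of_smooth π B V₁ V₂ V₃ hB₁ hB₂ hB₃ hsat hπ0 n hπn z₀ hz₀ (y₂ * y₃)
        (fun hh => (hnp.mem_or_mem hh).elim hy₂n hy₃n) ?_ ?_
      · have : (algebraMap R F π)⁻¹ * ((y₂ * y₃ : B) : F)
            = (algebraMap R F π)⁻¹ * (y₂ : F) * (y₃ : F) := by push_cast; ring
        rw [this]; exact V₂.mul_mem hy₂ (hB₂ _ y₃.2)
      · have : (algebraMap R F π)⁻¹ * ((y₂ * y₃ : B) : F)
            = (y₂ : F) * ((algebraMap R F π)⁻¹ * (y₃ : F)) := by push_cast; ring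
        rw [this]; exact V₃.mul_mem (hB₃ _ y₂.2) hy₃
  · by_cases h3 : sf79_OnBr π B V₃ n
    · -- on the third branch, not on the first
      obtain ⟨z₀, hz₀⟩ := hS₃ n hnmax hπn h3
      by_cases h2 : tl71_OnMid σ B V₂ n
      · exact tl71_two_of_div π B V₃ V₂ V₁ hB₃ hB₂ hB₁ hsat' hπ0 n h3 z₀ hz₀
          (hD₃ n hnmax h3 (Or.inl h2))
      · obtain ⟨y₂, hy₂n, hy₂⟩ := hmidw h2
        obtain ⟨y₁, hy₁n, hy₁⟩ := hbrw V₁ h1
        refine tl71_two_of_smooth π B V₃ V₂ V₁ hB₃ hB₂ hB₁ hsat' hπ0 n hπn z₀ hz₀ (y₂ * y₁)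
          (fun hh => (hnp.mem_or_mem hh).elim hy₂n hy₁n) ?_ ?_
        · have : (algebraMap R F π)⁻¹ * ((y₂ * y₁ : B) : F)
              = (algebraMap R F π)⁻¹ * (y₂ : F) * (y₁ : F) := by push_cast; ring
          rw [this]; exact V₂.mul_mem hy₂ (hB₂ _ y₁.2)
        · have : (algebraMap R F π)⁻¹ * ((y₂ * y₁ : B) : F)
              = (y₂ : F) * ((algebraMap R F π)⁻¹ * (y₁ : F)) := by push_cast; ring
          rw [this]; exact V₁.mul_mem (hB₁ _ y₂.2) hy₁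
    · by_cases h2 : tl71_OnMid σ B V₂ n
      · -- on the middle branch only
        obtain ⟨z₀, hz₀n, hz₀⟩ := hS₂ n hnmax hπn h2
        obtain ⟨g, t, ht, hgn, hprin⟩ := hD₂ n hnmax hπn h2 h1 h3
        refine ⟨z₀, g, hz₀n, hgn, ?_⟩
        refine tl71_max_two n (fun y : B => (y : F) * σ⁻¹ ∈ V₂) z₀ g t ht ?_ hprin
        intro x hx
        obtain ⟨s, hs, a, ha⟩ := hz₀ x hx
        exact ⟨s, hs, a, by simpa using ha⟩
      · -- on no branch: impossible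
        exfalso
        obtain ⟨y₁, hy₁n, hy₁⟩ := hbrw V₁ h1
        obtain ⟨y₂, hy₂n, hy₂⟩ := hmidw h2
        obtain ⟨y₃, hy₃n, hy₃⟩ := hbrw V₃ h3
        have hmem : (y₁ : F) * (y₂ : F) * (y₃ : F) ∈ B := B.mul_mem (B.mul_mem y₁.2 y₂.2) y₃.2
        have e1 : (algebraMap R F π)⁻¹ * ((y₁ : F) * (y₂ : F) * (y₃ : F)) ∈ V₁ := by
          have : (algebraMap R F π)⁻¹ * ((y₁ : F) * (y₂ : F) * (y₃ : F))
              = (algebraMap R F π)⁻¹ * (y₁ : F) * ((y₂ : F) * (y₃ : F)) := by ring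
          rw [this]; exact V₁.mul_mem hy₁ (V₁.mul_mem (hB₁ _ y₂.2) (hB₁ _ y₃.2))
        have e2 : (algebraMap R F π)⁻¹ * ((y₁ : F) * (y₂ : F) * (y₃ : F)) ∈ V₂ := by
          have : (algebraMap R F π)⁻¹ * ((y₁ : F) * (y₂ : F) * (y₃ : F))
              = (algebraMap R F π)⁻¹ * (y₂ : F) * ((y₁ : F) * (y₃ : F)) := by ring
          rw [this]; exact V₂.mul_mem hy₂ (V₂.mul_mem (hB₂ _ y₁.2) (hB₂ _ y₃.2))
        have e3 : (algebraMap R F π)⁻¹ * ((y₁ : F) * (y₂ : F) * (y₃ : F)) ∈ V₃ := by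
          have : (algebraMap R F π)⁻¹ * ((y₁ : F) * (y₂ : F) * (y₃ : F))
              = (algebraMap R F π)⁻¹ * (y₃ : F) * ((y₁ : F) * (y₂ : F)) := by ring
          rw [this]; exact V₃.mul_mem hy₃ (V₃.mul_mem (hB₃ _ y₁.2) (hB₃ _ y₂.2))
        have hb := hsat _ hmem e1 e2 e3
        have hprod : y₁ * y₂ * y₃ ∈ n := by
          have : y₁ * y₂ * y₃ = algebraMap R B π * ⟨_, hb⟩ := by
            apply Subtype.ext
            show (y₁ : F) * (y₂ : F) * (y₃ : F)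
              = algebraMap R F π * ((algebraMap R F π)⁻¹ * ((y₁ : F) * (y₂ : F) * (y₃ : F)))
            field_simp
          rw [this]; exact n.mul_mem_right _ hπn
        rcases hnp.mem_or_mem hprod with h | h
        · rcases hnp.mem_or_mem h with h | h
          · exact hy₁n h
          · exact hy₂n h
        · exact hy₃n h

end

end Fermat.Agent.S36
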