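import Mathlib
import Fermat.Agent.S36.CoreHP1_84
import Fermat.Agent.S36.HPOne90
import Fermat.Agent.S36.MidCuspGen25

/-!
# S36 lab, row 631 HP1-CANON (helper87, seat 87): `cp57_HP1` from the WEAK middle-branch
hypothesis only (abstract half)

`cp57_HP1` (CorePoints57) = the clause of `s34i47_LocalDatum` for the twisted unit `u₂` at the
closed points of a chart lying on at most one branch.

* `hp1w87_midGen` : `mc25_MidPrinAt σ B V₂ n` (the middle branch is principal at `n`, generator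
  only known to lie in `n`) gives a generator lying ON the branch (Cayley–Hamilton on the branch
  ideal: a generator which is a unit of `V₂` would force `t ^ d ∈ n`).
* `hp1w87_brData_mid` : the coordinate + generator of the middle branch at a closed point, from
  `tl71_MidSmooth` and `mc25_MidPrinAt` (no unit condition along `V₁`, `V₃`: cusps included).
* `hp1w87_twoGen_of_brData` : two local generators of `n` from the coordinate and the generator of
  the only branch through `n`.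
* `hp1w87_HP1` : **`cp57_HP1`** from the frame facts of a three-branch chart and `mc25_MidPrinAt`
  at the closed points lying on the middle branch only.  NO hypothesis at the points on two
  branches, NO two-generator hypothesis, NO `tl71_MidDivAt`.

The chart / canonical-frame instances are in `HPOneCanon87.lean`.
All names are prefixed `hp1w87_`.
-/

set_option autoImplicit false
set_option linter.style.longLine false
set_option linter.unusedVariables false
set_option linter.unusedSectionVars false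
set_option linter.style.haveILetI false

namespace Fermat.Agent.S36

open Fermat.Agent.S18 Fermat.Agent.S34 Fermat.Agent.S35 Fermat.Agent.S36.TripleLoc71

section Abs

variable {R F : Type*} [CommRing R] [Field F] [Algebra R F]

/-- A principal middle branch has a generator lying ON the branch. -/
theorem hp1w87_midGen (π : R) (hπ0 : algebraMap R F π ≠ 0) (σ : F)
    (B : Subalgebra R F) [IsNoetherianRing B]
    (V₂ : ValuationSubring F) (hB₂ : ∀ x ∈ B, x ∈ V₂)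
    (hπ₂ : (algebraMap R F π)⁻¹ ∉ V₂)
    (hunif₂ : ∀ x : F, V₂.valuation x < 1 → x * σ⁻¹ ∈ V₂)
    (n : Ideal B) [hn : n.IsPrime]
    (h : mc25_MidPrinAt σ B V₂.toSubring n) :
    ∃ g t : B, t ∉ n ∧ V₂.valuation (g : F) < 1 ∧
      ∀ y : B, V₂.valuation (y : F) < 1 → ∃ b : B, t * y = b * g := by
  classical
  obtain ⟨g, t, ht, hgn, hgen⟩ := h
  by_cases hg : V₂.valuation (g : F) < 1
  · exact ⟨g, t, ht, hg, fun y hy => hgen y (hunif₂ _ hy)⟩
  exfalso
  have hg1 : V₂.valuation (g : F) = 1 :=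
    le_antisymm ((V₂.valuation_le_one_iff _).mpr (hB₂ _ g.2)) (not_lt.mp hg)
  have hg0 : (g : F) ≠ 0 := by
    intro h0
    rw [h0, map_zero] at hg1
    exact zero_ne_one hg1
  -- the branch ideal `P` and the endomorphism `t • ·`
  have hrange : LinearMap.range (algebraMap B (Module.End B (ld55_br B V₂ hB₂)) t) ≤
      (Ideal.span {g} : Ideal B) • (⊤ : Submodule B (ld55_br B V₂ hB₂)) := by
    rintro _ ⟨y, rfl⟩
    have hy : V₂.valuation ((y : B) : F) < 1 := y.2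
    obtain ⟨b, hb⟩ := hgen y (hunif₂ _ hy)
    have hbF : (t : F) * ((y : B) : F) = (b : F) * (g : F) := by
      have := congrArg (fun z : B => (z : F)) hb
      simpa using this
    have hbP : b ∈ ld55_br B V₂ hB₂ := by
      show V₂.valuation (b : F) < 1
      have e1 : (b : F) = (t : F) * ((y : B) : F) * (g : F)⁻¹ := by
        rw [hbF]
        field_simp
      rw [e1, map_mul, map_inv₀, hg1, inv_one, mul_one]
      exact gc26_mul V₂ (hB₂ _ t.2) hy
    have e2 : algebraMap B (Module.End B (ld55_br B V₂ hB₂)) t y =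
        g • (⟨b, hbP⟩ : ld55_br B V₂ hB₂) := by
      apply Subtype.ext
      rw [Module.algebraMap_end_apply]
      show t * (y : B) = g * b
      rw [hb, mul_comm]
    show algebraMap B (Module.End B (ld55_br B V₂ hB₂)) t y ∈ _
    rw [e2]
    exact Submodule.smul_mem_smul (Ideal.mem_span_singleton_self g) Submodule.mem_top
  obtain ⟨p, hmonic, -, hcoeff, hp⟩ :=
    LinearMap.exists_monic_and_natDegree_eq_and_coeff_mem_pow_and_aeval_eq_zero B
      (algebraMap B (Module.End B (ld55_br B V₂ hB₂)) t) (Ideal.span {g}) hrange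
  -- evaluate at `π ∈ P`
  have hπP : algebraMap R B π ∈ ld55_br B V₂ hB₂ := by
    show V₂.valuation ((algebraMap R B π : B) : F) < 1
    exact ld84_val_unif V₂ _ hπ₂
  have h1 : Polynomial.aeval (algebraMap B (Module.End B (ld55_br B V₂ hB₂)) t) p =
      algebraMap B (Module.End B (ld55_br B V₂ hB₂)) (Polynomial.aeval t p) :=
    Polynomial.aeval_algebraMap_apply _ t p
  have h2 : (Polynomial.aeval t p) • (⟨algebraMap R B π, hπP⟩ : ld55_br B V₂ hB₂) = 0 := by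
    have := congrArg (fun f : Module.End B (ld55_br B V₂ hB₂) => f ⟨algebraMap R B π, hπP⟩) hp
    simp only [h1, Module.algebraMap_end_apply, LinearMap.zero_apply] at this
    exact this
  have h3 : Polynomial.aeval t p * algebraMap R B π = 0 := by
    have := congrArg (fun z : ld55_br B V₂ hB₂ => (z : B)) h2
    simpa using this
  have hπB0 : algebraMap R B π ≠ 0 := by
    intro h0
    apply hπ0
    have := congrArg (fun z : B => (z : F)) h0
    simpa using this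
  have h4 : Polynomial.aeval t p = 0 := (mul_eq_zero.mp h3).resolve_right hπB0
  -- hence `t ^ natDegree p ∈ n`
  have h5 : t ^ p.natDegree ∈ n := by
    have hsum : Polynomial.aeval t p =
        ∑ i ∈ Finset.range (p.natDegree + 1), p.coeff i * t ^ i := by
      rw [Polynomial.aeval_eq_sum_range]
      simp only [smul_eq_mul]
    rw [hsum, Finset.sum_range_succ, hmonic.coeff_natDegree, one_mul] at h4
    have h6 : ∑ i ∈ Finset.range p.natDegree, p.coeff i * t ^ i ∈ n := by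
      refine Ideal.sum_mem _ fun i hi => ?_
      refine n.mul_mem_right _ ?_
      have hi' : i < p.natDegree := Finset.mem_range.mp hi
      have h7 : p.coeff i ∈ Ideal.span {g} ^ (p.natDegree - i) := hcoeff i
      have h8 : (Ideal.span {g} : Ideal B) ^ (p.natDegree - i) ≤ Ideal.span {g} :=
        Ideal.pow_le_self (by omega)
      have h9 : (Ideal.span {g} : Ideal B) ≤ n := (Ideal.span_singleton_le_iff_mem _).mpr hgn
      exact h9 (h8 h7)
    have h10 : t ^ p.natDegree = -∑ i ∈ Finset.range p.natDegree, p.coeff i * t ^ i :=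
      eq_neg_of_add_eq_zero_right h4
    rw [h10]
    exact n.neg_mem h6
  exact ht (hn.mem_of_pow_mem _ h5)

/-- The middle (possibly non-reduced) branch at a closed point: coordinate from
`tl71_MidSmooth`, generator from `mc25_MidPrinAt`. -/
theorem hp1w87_brData_mid (π : R) (σ : F) (e : ℕ) (hπ0 : algebraMap R F π ≠ 0) (hσ0 : σ ≠ 0)
    (B : Subalgebra R F) [IsNoetherianRing B] (V₂ : ValuationSubring F)
    (hB₂ : ∀ x ∈ B, x ∈ V₂)
    (hπ₂ : (algebraMap R F π)⁻¹ ∉ V₂)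
    (hσe : (algebraMap R F π)⁻¹ * σ ^ e ∈ V₂)
    (hunif₂ : ∀ x : F, V₂.valuation x < 1 → x * σ⁻¹ ∈ V₂)
    (hS₂ : tl71_MidSmooth π σ B V₂.toSubring)
    (n : Ideal B) (hn : n.IsMaximal) (hπn : algebraMap R B π ∈ n)
    (hMid : mc25_MidPrinAt σ B V₂.toSubring n)
    (hOn : sf79_OnBr π B V₂.toSubring n) :
    hp84_BrData B V₂ n := by
  have hnp : n.IsPrime := hn.isPrime
  have hσv : V₂.valuation σ < 1 :=
    ld55_val_lt_of_pow V₂ σ e (ld84_val_lt V₂ _ _ hπ₂ hσe)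
  have hmid : tl71_OnMid σ B V₂.toSubring n :=
    lps9_onMid_of_onBr π σ e B V₂.toSubring hσ0 hσe n hOn
  obtain ⟨z, hzn, hz⟩ := hS₂ n hn hπn hmid
  obtain ⟨g, t, ht, hg, hgen⟩ := hp1w87_midGen π hπ0 σ B V₂ hB₂ hπ₂ hunif₂ n hMid
  have hdiv : ∀ y : F, y * σ⁻¹ ∈ V₂ → V₂.valuation y < 1 := by
    intro y hy
    have e1 : y = (y * σ⁻¹) * σ := by field_simp
    rw [e1]
    exact gc26_mul V₂ hy hσv
  refine ⟨z, g, hzn, ?_, hg, ?_⟩
  · intro x hx
    obtain ⟨s, hs, a, ha⟩ := hz x hx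
    exact ⟨s, hs, a, hdiv _ ha⟩
  · intro x hx
    obtain ⟨b, hb⟩ := hgen x hx
    exact ⟨t, ht, b, hb⟩

/-- Two local generators of `n` from the coordinate and the generator of a branch through
`n`. -/
theorem hp1w87_twoGen_of_brData (π : R) (B : Subalgebra R F) (V : ValuationSubring F)
    (hrad : ∀ x ∈ V, x⁻¹ ∉ V → ∃ k : ℕ, (algebraMap R F π)⁻¹ * x ^ k ∈ V)
    (n : Ideal B) [hn : n.IsPrime] (hOn : sf79_OnBr π B V.toSubring n)
    (h : hp84_BrData B V n) :
    ∃ x y : B, x ∈ n ∧ y ∈ n ∧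
      ∀ v ∈ n, ∃ s : B, s ∉ n ∧ ∃ a b : B, s * v = a * x + b * y := by
  obtain ⟨z, ξ, hzn, hz, hξ, hgen⟩ := h
  refine ⟨z, ξ, hzn, ld55_br_le π B V hrad n hOn ξ hξ, fun v hv => ?_⟩
  obtain ⟨s, hs, a, ha⟩ := hz v hv
  obtain ⟨t, ht, b, hb⟩ := hgen (s * v - a * z) (by
    show ((s * v - a * z : B) : F) ∈ ld55_mV V
    push_cast
    exact ha)
  refine ⟨t * s, fun h => (hn.mem_or_mem h).elim ht hs, t * a, b, ?_⟩
  linear_combination hb

end Abs

section HP1

variable {R K F1 F2 : Type*} [CommRing R] [Field K] [Field F1] [Field F2] [Algebra R K]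
  [Algebra K F1] [Algebra R F2] [Algebra K F2]

omit [Algebra K F2] in
/-- **(HP-1) from the weak middle-branch hypothesis**: the package `cp57_HP1` from the frame
facts of the three-branch chart and `mc25_MidPrinAt` at the closed points of the middle branch
which lie on no other branch.  Nothing is assumed at the points lying on two branches, and the
two local generators at the one-branch points are produced inside. -/
theorem hp1w87_HP1 (π : R) (σ : F2) (e : ℕ) (q m : ℕ) (hm : 0 < m)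
    (B : Subalgebra R F2) [IsNoetherianRing B]
    (al be : F1 →+* F2) (Nal Nbe : F2 →* F1)
    (V₁ V₂ V₃ : ValuationSubring F2) (Vinf V0 : ValuationSubring F1)
    (hB₁ : ∀ x ∈ B, x ∈ V₁) (hB₂ : ∀ x ∈ B, x ∈ V₂) (hB₃ : ∀ x ∈ B, x ∈ V₃)
    (hsat : ∀ x ∈ B, (algebraMap R F2 π)⁻¹ * x ∈ V₁ → (algebraMap R F2 π)⁻¹ * x ∈ V₂ →
      (algebraMap R F2 π)⁻¹ * x ∈ V₃ → (algebraMap R F2 π)⁻¹ * x ∈ B)
    (hπ0 : algebraMap R F2 π ≠ 0) (hσ0 : σ ≠ 0)
    (hσe : (algebraMap R F2 π)⁻¹ * σ ^ e ∈ V₂)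
    (hπ₁ : (algebraMap R F2 π)⁻¹ ∉ V₁) (hπ₂ : (algebraMap R F2 π)⁻¹ ∉ V₂)
    (hπ₃ : (algebraMap R F2 π)⁻¹ ∉ V₃)
    (hrad₁ : ∀ x ∈ V₁, x⁻¹ ∉ V₁ → ∃ k : ℕ, (algebraMap R F2 π)⁻¹ * x ^ k ∈ V₁)
    (hrad₂ : ∀ x ∈ V₂, x⁻¹ ∉ V₂ → ∃ k : ℕ, (algebraMap R F2 π)⁻¹ * x ^ k ∈ V₂)
    (hrad₃ : ∀ x ∈ V₃, x⁻¹ ∉ V₃ → ∃ k : ℕ, (algebraMap R F2 π)⁻¹ * x ^ k ∈ V₃)
    (harch₁ : ∀ x ∈ B, x ≠ 0 → ∃ k : ℕ, (algebraMap R F2 π ^ k)⁻¹ * x ∉ V₁)
    (harch₂ : ∀ x ∈ B, x ≠ 0 → ∃ k : ℕ, (algebraMap R F2 π ^ k)⁻¹ * x ∉ V₂)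
    (harch₃ : ∀ x ∈ B, x ≠ 0 → ∃ k : ℕ, (algebraMap R F2 π ^ k)⁻¹ * x ∉ V₃)
    (hfrac : ∀ t : F2, ∃ a ∈ B, ∃ b ∈ B, b ≠ 0 ∧ t * b = a)
    (hmB : ∃ μ ∈ B, (m : F2) * μ = 1)
    (hunif₁ : ∀ x : F2, V₁.valuation x < 1 → (algebraMap R F2 π)⁻¹ * x ∈ V₁)
    (hunif₂ : ∀ x : F2, V₂.valuation x < 1 → x * σ⁻¹ ∈ V₂)
    (hunif₃ : ∀ x : F2, V₃.valuation x < 1 → (algebraMap R F2 π)⁻¹ * x ∈ V₃)
    (hKr : s34i47_Krull π B)
    (hS₁ : sf79_Smooth π B V₁.toSubring) (hS₃ : sf79_Smooth π B V₃.toSubring)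
    (hS₂ : tl71_MidSmooth π σ B V₂.toSubring)
    (hMid : ∀ n : Ideal B, n.IsMaximal → algebraMap R B π ∈ n → tl71_OnMid σ B V₂.toSubring n →
      ¬ sf79_OnBr π B V₁.toSubring n → ¬ sf79_OnBr π B V₃.toSubring n →
      mc25_MidPrinAt σ B V₂.toSubring n) :
    cp57_HP1 (K := K) π q m B al be Nal Nbe V₁ V₂ V₃ Vinf V0 := by
  classical
  intro u cu Au tinf t0 du Bu sinf s0 θ hu0 hOrd hFin hdata hθ n hn hπn hone
  have hnp : n.IsPrime := hn.isPrime
  obtain ⟨hθ0, -, -, -, -, hu21, hu22, hu23⟩ := hθ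
  obtain ⟨hv1, hv2, hv3, -⟩ := hdata
  have hπσ : algebraMap R F2 π * σ⁻¹ ∈ V₂ := hunif₂ _ (ld84_val_unif V₂ _ hπ₂)
  have hmidbr : tl71_OnMid σ B V₂.toSubring n → sf79_OnBr π B V₂.toSubring n :=
    fun h => lps9_onBr_of_onMid π σ B V₂.toSubring hπ0 hπσ n h
  -- the family `![V₁, V₂, V₃]`
  have hBV : ∀ i : Fin 3, ∀ x ∈ B, x ∈ (![V₁, V₂, V₃] : Fin 3 → ValuationSubring F2) i := by
    intro i; fin_cases i <;> assumption
  have hπV : ∀ i : Fin 3,
      (algebraMap R F2 π)⁻¹ ∉ (![V₁, V₂, V₃] : Fin 3 → ValuationSubring F2) i := by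
    intro i; fin_cases i <;> assumption
  have hrad : ∀ i : Fin 3, ∀ x ∈ (![V₁, V₂, V₃] : Fin 3 → ValuationSubring F2) i,
      x⁻¹ ∉ (![V₁, V₂, V₃] : Fin 3 → ValuationSubring F2) i →
      ∃ k : ℕ, (algebraMap R F2 π)⁻¹ * x ^ k ∈ (![V₁, V₂, V₃] : Fin 3 → ValuationSubring F2) i := by
    intro i; fin_cases i <;> assumption
  have harch : ∀ i : Fin 3, ∀ x ∈ B, x ≠ 0 → ∃ k : ℕ,
      (algebraMap R F2 π ^ k)⁻¹ * x ∉ (![V₁, V₂, V₃] : Fin 3 → ValuationSubring F2) i := by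
    intro i; fin_cases i <;> assumption
  have hu2V : ∀ i : Fin 3, (algebraMap R F2 π)⁻¹ * (cp57_u2 q m u θ - 1)
      ∈ (![V₁, V₂, V₃] : Fin 3 → ValuationSubring F2) i := by
    intro i; fin_cases i <;> assumption
  -- exactly one branch passes through `n`; its coordinate and generator
  have hbr : ∃ i₀ : Fin 3,
      (∀ i, sf79_OnBr π B ((![V₁, V₂, V₃] : Fin 3 → ValuationSubring F2) i).toSubring n →
        i = i₀) ∧
      sf79_OnBr π B ((![V₁, V₂, V₃] : Fin 3 → ValuationSubring F2) i₀).toSubring n ∧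
      hp84_BrData B ((![V₁, V₂, V₃] : Fin 3 → ValuationSubring F2) i₀) n := by
    by_cases h1 : sf79_OnBr π B V₁.toSubring n
    · have h2' : ¬ sf79_OnBr π B V₂.toSubring n := fun h => hone.1 ⟨h1, h⟩
      have h3' : ¬ sf79_OnBr π B V₃.toSubring n := fun h => hone.2.1 ⟨h1, h⟩
      refine ⟨0, ?_, h1, hp84_brData_red π hπ0 B V₁ V₂ V₃ hB₁ hB₂ hB₃ hsat
        hπ₁ hunif₁ hS₁ n hn hπn h1 h2' h3'⟩
      intro i hi
      fin_cases i
      · rfl
      · exact absurd hi h2'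
      · exact absurd hi h3'
    · by_cases h3 : sf79_OnBr π B V₃.toSubring n
      · have h2' : ¬ sf79_OnBr π B V₂.toSubring n := fun h => hone.2.2 ⟨h, h3⟩
        refine ⟨2, ?_, h3, hp84_brData_red π hπ0 B V₃ V₂ V₁ hB₃ hB₂ hB₁
          (fun x hx h3x h2x h1x => hsat x hx h1x h2x h3x) hπ₃ hunif₃ hS₃ n hn hπn h3 h2' h1⟩
        intro i hi
        fin_cases i
        · exact absurd hi h1
        · exact absurd hi h2'
        · rfl
      · by_cases h2' : sf79_OnBr π B V₂.toSubring n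
        · refine ⟨1, ?_, h2', hp1w87_brData_mid π σ e hπ0 hσ0 B V₂ hB₂ hπ₂ hσe hunif₂ hS₂
            n hn hπn (hMid n hn hπn (lps9_onMid_of_onBr π σ e B V₂.toSubring hσ0 hσe n h2')
              h1 h3) h2'⟩
          intro i hi
          fin_cases i
          · exact absurd hi h1
          · rfl
          · exact absurd hi h3
        · -- no branch through `n`: impossible by saturation
          exfalso
          obtain ⟨y₁, hy₁⟩ := not_forall.mp h1
          obtain ⟨hy₁V, hy₁n⟩ := Classical.not_imp.mp hy₁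
          obtain ⟨y₂, hy₂⟩ := not_forall.mp h2'
          obtain ⟨hy₂V, hy₂n⟩ := Classical.not_imp.mp hy₂
          obtain ⟨y₃, hy₃⟩ := not_forall.mp h3
          obtain ⟨hy₃V, hy₃n⟩ := Classical.not_imp.mp hy₃
          have hmem : (y₁ : F2) * (y₂ : F2) * (y₃ : F2) ∈ B :=
            B.mul_mem (B.mul_mem y₁.2 y₂.2) y₃.2
          have e1 : (algebraMap R F2 π)⁻¹ * ((y₁ : F2) * (y₂ : F2) * (y₃ : F2)) ∈ V₁ := by
            have : (algebraMap R F2 π)⁻¹ * ((y₁ : F2) * (y₂ : F2) * (y₃ : F2))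
                = (algebraMap R F2 π)⁻¹ * (y₁ : F2) * ((y₂ : F2) * (y₃ : F2)) := by ring
            rw [this]; exact V₁.mul_mem _ _ hy₁V (V₁.mul_mem _ _ (hB₁ _ y₂.2) (hB₁ _ y₃.2))
          have e2 : (algebraMap R F2 π)⁻¹ * ((y₁ : F2) * (y₂ : F2) * (y₃ : F2)) ∈ V₂ := by
            have : (algebraMap R F2 π)⁻¹ * ((y₁ : F2) * (y₂ : F2) * (y₃ : F2))
                = (algebraMap R F2 π)⁻¹ * (y₂ : F2) * ((y₁ : F2) * (y₃ : F2)) := by ring
            rw [this]; exact V₂.mul_mem _ _ hy₂V (V₂.mul_mem _ _ (hB₂ _ y₁.2) (hB₂ _ y₃.2))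
          have e3 : (algebraMap R F2 π)⁻¹ * ((y₁ : F2) * (y₂ : F2) * (y₃ : F2)) ∈ V₃ := by
            have : (algebraMap R F2 π)⁻¹ * ((y₁ : F2) * (y₂ : F2) * (y₃ : F2))
                = (algebraMap R F2 π)⁻¹ * (y₃ : F2) * ((y₁ : F2) * (y₂ : F2)) := by ring
            rw [this]; exact V₃.mul_mem _ _ hy₃V (V₃.mul_mem _ _ (hB₃ _ y₁.2) (hB₃ _ y₂.2))
          have hb := hsat _ hmem e1 e2 e3
          have hprod : y₁ * y₂ * y₃ ∈ n := by
            have : y₁ * y₂ * y₃ = algebraMap R B π * ⟨_, hb⟩ := by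
              apply Subtype.ext
              show (y₁ : F2) * (y₂ : F2) * (y₃ : F2)
                = algebraMap R F2 π * ((algebraMap R F2 π)⁻¹ * ((y₁ : F2) * (y₂ : F2) * (y₃ : F2)))
              field_simp
            rw [this]; exact n.mul_mem_right _ hπn
          rcases hnp.mem_or_mem hprod with h | h
          · rcases hnp.mem_or_mem h with h | h
            · exact hy₁n h
            · exact hy₂n h
          · exact hy₃n h
  obtain ⟨i₀, honly, hOn₀, hbd⟩ := hbr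
  -- two generators at `n`, then the strong (LP) at `n`
  have h2n := hp1w87_twoGen_of_brData π B _ (hrad i₀) n hOn₀ hbd
  obtain ⟨c, hc0, -, -, -, -, hε, hε'⟩ := lps9_strong_three_at π σ e B V₁ V₂ V₃ hB₁ hB₂ hB₃
    hsat hπ0 hσ0 hσe hπ₁ hπ₂ hπ₃ hrad₁ hrad₂ hrad₃ hfrac n hn hπn h2n
    (hKr n hn hπn)
    (fun h1 h23 => h23.elim (fun h => absurd ⟨h1, hmidbr h⟩ hone.1)
      (fun h => absurd ⟨h1, h⟩ hone.2.1))
    (fun h3 h21 => h21.elim (fun h => absurd ⟨hmidbr h, h3⟩ hone.2.2)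
      (fun h => absurd ⟨h, h3⟩ hone.2.1))
    m hm u hu0 (hp1x90_unit_of_val V₁ u hv1) (hp1x90_unit_of_val V₂ u hv2)
    (hp1x90_unit_of_val V₃ u hv3) (fun O hO _ => hOrd O hO)
    (hFin.subset fun _ hO => ⟨hO.1, hO.2.2⟩)
  -- the local root of `u₂`
  have hc20 : (c ^ ((q - 1 + 2) * (q - 1)) * θ) ^ q ≠ 0 :=
    pow_ne_zero _ (mul_ne_zero (pow_ne_zero _ hc0) hθ0)
  have hε₂ := hp1x90_root (sf79_loc B n) q m u c θ hc0 hθ0 hε
  have hε₂' := hp1x90_root' (sf79_loc B n) q m u c θ hu0 hθ0 hε'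
  obtain ⟨z, ξ, hzn, hz, hξ, hgen⟩ := hbd
  obtain ⟨φ, hφ, s, hs, hsφ⟩ := ld55_datum_at_one π m hm B hmB
    (![V₁, V₂, V₃] : Fin 3 → ValuationSubring F2) hBV hπV hrad harch hfrac n (hn := hn)
    (cp57_u2 q m u θ) hu2V _ hc20 hε₂ hε₂' i₀ honly z hzn hz ξ hξ hgen
  exact ⟨φ, ⟨⟨hφ 0, hφ 1⟩, hφ 2⟩, s, hs, hsφ⟩

end HP1

end Fermat.Agent.S36
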