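import Fermat.Agent.S35.PkgNew32

/-!
# S36 scouting (helper32): (2a)-α at EVERY level pair `N q → N` (no hypothesis `q ∤ N`)

The `α`-chain of the S35 lab (`nm49_hecke_hnorm`, `pa22_push_alpha`, `te22_adm_alpha`,
`taf22_compat_alpha`, `taf22_compat_alpha_push`) used `q` prime, `q ∤ N` only through the two
numbers `[F(N q) : F(N)] = q + 1 = [Γ₀(N) : Γ₀(N q)]`.  In general both numbers are
`ψ(N q) / ψ(N)` (`gi41_relfinrank`, `gi41_index`), which is all the norm formula needs.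

* `pa32_finrank_alpha` : `[F_L(N ℓ) : F_L(N)] = [Γ₀(N) : Γ₀(N ℓ)]` for all `N`, `ℓ`;
* `pa32_hecke_hnorm` : the norm along `α` is the product over `Γ₀(N) ⧸ Γ₀(N ℓ)`;
* `pa32_push_alpha`, `pa32_adm_alpha`, `pa32_compat_alpha`, `pa32_compat_alpha_push`,
  `pa32_alphaCompat` : the ports, with no hypothesis on `q`.

All names are prefixed `pa32_`.
-/

set_option autoImplicit false
set_option linter.unusedSectionVars false
set_option linter.unusedVariables false
set_option linter.style.longLine false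
set_option linter.style.haveILetI false
set_option synthInstance.maxHeartbeats 400000

open CongruenceSubgroup ModularCurve ModularCurve.Period AlgebraicCurve UpperHalfPlane
open IntermediateField
open scoped MatrixGroups

namespace Fermat.Agent.S36

open Fermat.Agent.S35
open Fermat.Agent.S16 Fermat.Agent.S24 Fermat.Agent.S42 Fermat.Agent.S41 Fermat.Agent.S37
open Fermat.Agent.S18 Fermat.Agent.S28

local notation "Qb" => AlgebraicClosure ℚ

/-- `[Γ₀(N) : Γ₀(N ℓ)] * ψ(N) = ψ(N ℓ)`. -/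
theorem pa32_relindex_mul (N ℓ : ℕ) [NeZero N] [NeZero ℓ] :
    (Gamma0 (N * ℓ)).relIndex (Gamma0 N) * dedekindPsi N = dedekindPsi (N * ℓ) := by
  have h1 := Subgroup.relIndex_mul_index (nm49_gamma0_le N ℓ)
  rw [gi41_index, gi41_index] at h1
  exact h1

/-- `[F_K(N ℓ) : F_K(N)] = [Γ₀(N) : Γ₀(N ℓ)]` (relative degree inside `K((q))`). -/
theorem pa32_relfinrank (K : Type) [Field K] (N ℓ : ℕ) [NeZero N] [NeZero ℓ]
    (hK : ((N * ℓ : ℕ) : K) ≠ 0) :
    (modularFunctionFieldFullC K N).relfinrank (modularFunctionFieldFullC K (N * ℓ))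
      = (Gamma0 (N * ℓ)).relIndex (Gamma0 N) := by
  have h1 := gi41_relfinrank K (N := N) (N' := N * ℓ) (dvd_mul_right N ℓ) hK
  have h2 := pa32_relindex_mul N ℓ
  rw [← h2, mul_comm] at h1
  exact Nat.eq_of_mul_eq_mul_right (gi41_psi_pos N) h1

/-- The degree of `F_L(N ℓ)` over `F_L(N)` along the inclusion `α`, for all `N`, `ℓ`. -/
theorem pa32_finrank_alpha (L : Type) [Field L] [Algebra ℚ L] (N ℓ : ℕ) [NeZero N] [NeZero ℓ] :
    @Module.finrank (laurentBaseChange L (modularFunctionFieldFull N))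
      (laurentBaseChange L (modularFunctionFieldFull (N * ℓ))) _ _
      (algebraAlong (heckeAlphaBar L N ℓ)).toModule = (Gamma0 (N * ℓ)).relIndex (Gamma0 N) := by
  have hle : laurentBaseChange L (modularFunctionFieldFull N) ≤
      laurentBaseChange L (modularFunctionFieldFull (N * ℓ)) :=
    nd38_baseChange_le L (dvd_mul_right N ℓ)
  have hchar : CharZero L := charZero_of_injective_algebraMap (algebraMap ℚ L).injective
  have hK : ((N * ℓ : ℕ) : L) ≠ 0 := Nat.cast_ne_zero.mpr (NeZero.ne (N * ℓ))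
  have hrel : (laurentBaseChange L (modularFunctionFieldFull N)).relfinrank
      (laurentBaseChange L (modularFunctionFieldFull (N * ℓ)))
        = (Gamma0 (N * ℓ)).relIndex (Gamma0 N) := by
    rw [gi41_baseChange_eq, gi41_baseChange_eq]
    exact pa32_relfinrank L N ℓ hK
  rw [← hrel, IntermediateField.relfinrank_eq_finrank_of_le hle]
  let _ := algebraAlong (heckeAlphaBar L N ℓ)
  let j : ↥(laurentBaseChange L (modularFunctionFieldFull (N * ℓ))) ≃+*
      ↥(IntermediateField.extendScalars hle) :=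
    { toFun := fun x => ⟨x.1, (IntermediateField.mem_extendScalars hle).mpr x.2⟩
      invFun := fun x => ⟨x.1, (IntermediateField.mem_extendScalars hle).mp x.2⟩
      left_inv := fun _ => rfl
      right_inv := fun _ => rfl
      map_mul' := fun _ _ => rfl
      map_add' := fun _ _ => rfl }
  exact Algebra.finrank_eq_of_equiv_equiv (RingEquiv.refl _) j (RingHom.ext fun x => rfl)

section Modular

variable {G : Type*} [Group G] {M : Type*} [Field M] [MulSemiringAction G M]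

/-- **The norm along `α` as a product over `Γ₀(N) ⧸ Γ₀(N ℓ)`**, for all `N`, `ℓ`. -/
theorem pa32_hecke_hnorm (N ℓ : ℕ) [NeZero N] [NeZero ℓ]
    (ι : ↥(Gamma0 N) →* G)
    (e : ↥(modularFunctionFieldBar N) →+* M) (e' : ↥(modularFunctionFieldBar (N * ℓ)) →+* M)
    (hcomp : ∀ x : ↥(modularFunctionFieldBar N), e' (heckeAlphaBar Qb N ℓ x) = e x)
    (hinv : ∀ (γ : ↥(Gamma0 N)) (x : ↥(modularFunctionFieldBar N)), ι γ • e x = e x)
    (hstab : ∀ γ : ↥(Gamma0 N), (∀ y : ↥(modularFunctionFieldBar (N * ℓ)), ι γ • e' y = e' y) →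
      (γ : SL(2, ℤ)) ∈ Gamma0 (N * ℓ))
    [Fintype (↥(Gamma0 N) ⧸ (Gamma0 (N * ℓ)).subgroupOf (Gamma0 N))]
    (y : ↥(modularFunctionFieldBar (N * ℓ))) :
    e (ht45_normAlong (heckeAlphaBar Qb N ℓ) y)
      = ∏ q : ↥(Gamma0 N) ⧸ (Gamma0 (N * ℓ)).subgroupOf (Gamma0 N), ι q.out • e' y := by
  letI := algebraAlong (heckeAlphaBar Qb N ℓ)
  have hfr : Module.finrank ↥(modularFunctionFieldBar N) ↥(modularFunctionFieldBar (N * ℓ))
      = (Gamma0 (N * ℓ)).relIndex (Gamma0 N) := pa32_finrank_alpha Qb N ℓ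
  have hpos : 0 < (Gamma0 (N * ℓ)).relIndex (Gamma0 N) := by
    have h2 := pa32_relindex_mul N ℓ
    rcases Nat.eq_zero_or_pos ((Gamma0 (N * ℓ)).relIndex (Gamma0 N)) with h0 | h0
    · rw [h0, zero_mul] at h2
      exact absurd h2.symm (gi41_psi_pos (N * ℓ)).ne'
    · exact h0
  haveI : FiniteDimensional ↥(modularFunctionFieldBar N) ↥(modularFunctionFieldBar (N * ℓ)) :=
    Module.finite_of_finrank_pos (by rw [hfr]; exact hpos)
  haveI : CharZero ↥(modularFunctionFieldBar N) :=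
    charZero_of_injective_algebraMap (algebraMap Qb ↥(modularFunctionFieldBar N)).injective
  have hcard : Fintype.card (↥(Gamma0 N) ⧸ (Gamma0 (N * ℓ)).subgroupOf (Gamma0 N))
      = Module.finrank ↥(modularFunctionFieldBar N) ↥(modularFunctionFieldBar (N * ℓ)) := by
    rw [hfr, ← Nat.card_eq_fintype_card, ← Subgroup.index_eq_card]
    rfl
  exact nm49_norm_eq_prod_quot ι ((Gamma0 (N * ℓ)).subgroupOf (Gamma0 N)) e e'
    (fun x => hcomp x) hinv (fun γ hγ => Subgroup.mem_subgroupOf.mpr (hstab γ hγ)) hcard y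

end Modular

section pa32_modular

variable (φ : Qb →+* ℂ) (N q : ℕ) [NeZero N] [NeZero q]

/-- **The root of the norm along `α` and its character**, for all `N`, `q`. -/
theorem pa32_push_alpha (m : ℕ)
    (χ : Additive (Gamma0 (N * q)) →+ ℤ) (h : mer95_MER) (f : ↥(modularFunctionFieldBar (N * q)))
    (h0 : h ≠ 0) (hchar : thz31_IsCharZ (th70_zeta m) χ h)
    (hpow : h ^ m = ff79_ev0 φ (N * q) f) :
    ∃ H : mer95_MER, H ≠ 0 ∧
      thz31_IsCharZ (th70_zeta m) (cor22 (Gamma0 N) (Gamma0 (N * q)) χ) H ∧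
      H ^ m = ff79_ev0 φ N (ht45_normAlong (heckeAlphaBar Qb N q) f) := by
  classical
  letI : Fintype (↥(Gamma0 N) ⧸ (Gamma0 (N * q)).subgroupOf (Gamma0 N)) := Fintype.ofFinite _
  have hnorm := pa32_hecke_hnorm N q (Gamma0 N).subtype
    (ff79_ev0 φ N) (ff79_ev0 φ (N * q)) (ff79_ev0_alpha φ N q)
    (fun γ x => ff79_ev0_fix φ N γ x)
    (fun γ hγ => hk10_stab φ (N * q) (γ : SL(2, ℤ)) hγ) f
  refine ⟨∏ c : ↥(Gamma0 N) ⧸ (Gamma0 (N * q)).subgroupOf (Gamma0 N),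
    ((c.out : Gamma0 N) : SL(2, ℤ)) • h, ht45_prod_ne_zero _ h0, ?_, ?_⟩
  · intro γ
    exact cor22_char (Gamma0 N) (Gamma0 (N * q)) (th70_zeta m) (pa22_zeta_ne_zero m)
      (fun g => mer95_smul_C_SL g _) χ h (fun k => hchar k) γ
  · rw [hnorm, ← Finset.prod_pow]
    refine Finset.prod_congr rfl fun c _ => ?_
    rw [← smul_pow', hpow]
    rfl

end pa32_modular

section pa32_alpha

variable (N q : ℕ) [NeZero N] [NeZero q]

/-- **Pushforward of an admissible pair along `α`**, for all `N`, `q`. -/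
theorem pa32_adm_alpha (m : ℕ) (hm : m ≠ 0)
    (χ : Additive (Gamma0 (N * q)) →+ ℤ) (h : mer95_MER) (f : ↥(modularFunctionFieldBar (N * q)))
    (H : thz31_AdmZ Qb (ff79_ev0 phi (N * q)) m (th70_zeta m) χ h f) :
    (∃ H' : mer95_MER, thz31_AdmZ Qb (ff79_ev0 phi N) m (th70_zeta m)
      (cor22 (Gamma0 N) (Gamma0 (N * q)) χ) H' (ht45_normAlong (heckeAlphaBar Qb N q) f)) ∧
    ∀ D : Divisor Qb ↥(modularFunctionFieldBar (N * q)), th70_IsDivOf m f D →
      th70_IsDivOf m (ht45_normAlong (heckeAlphaBar Qb N q) f)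
        (Divisor.pushforwardAlong (heckeAlphaBar Qb N q) (hx63_heckeAlphaBarIntegral N q) D) := by
  obtain ⟨h0, f0, hchar, hpow, hdvd⟩ := H
  haveI := hi63_hasPrincipalDivisors_bar (N * q)
  have hα := hx63_heckeAlphaBarIntegral N q
  obtain ⟨-, hfin, hNF⟩ := hx63_inputs_gen (φ := heckeAlphaBar Qb N q) hα
  have hdiv : ∀ D : Divisor Qb ↥(modularFunctionFieldBar (N * q)), th70_IsDivOf m f D →
      th70_IsDivOf m (ht45_normAlong (heckeAlphaBar Qb N q) f)
        (Divisor.pushforwardAlong (heckeAlphaBar Qb N q) hα D) := fun D hD v =>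
    hd63_pushforwardAlong_div (heckeAlphaBar Qb N q) hα hfin hNF D (m : ℤ) f f0 hD v
  refine ⟨?_, hdiv⟩
  obtain ⟨H', H'0, H'char, H'pow⟩ := pa32_push_alpha phi N q m χ h f h0 hchar hpow
  obtain ⟨D, hD, -⟩ := th70_exists_div (K := Qb) hm f0 hdvd
  exact ⟨H', H'0, ht45_normAlong_ne_zero _ hfin f0, H'char, H'pow,
    fun v => ⟨_, (hdiv D hD v).symm⟩⟩

/-- **`α_* ∘ Θ_n = Θ'_n ∘ cor`, divisor form**, for all `N`, `q`. -/
theorem pa32_compat_alpha (p : ℕ) (hp : p ≠ 0)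
    (Θ : ℕ → (↥(parabolicHoms ℤ (Gamma0 (N * q)) ℤ) →+ JZero (N * q)))
    (hex : ∀ (n : ℕ) (χ : ↥(parabolicHoms ℤ (Gamma0 (N * q)) ℤ)),
      ∃ (h : mer95_MER) (f : ↥(modularFunctionFieldBar (N * q))),
        thz31_AdmZ Qb (ff79_ev0 phi (N * q)) (p ^ n) (th70_zeta (p ^ n))
          (χ : Additive (Gamma0 (N * q)) →+ ℤ) h f)
    (heval : ∀ (n : ℕ) (χ : ↥(parabolicHoms ℤ (Gamma0 (N * q)) ℤ)) (h : mer95_MER)
      (f : ↥(modularFunctionFieldBar (N * q))),
      thz31_AdmZ Qb (ff79_ev0 phi (N * q)) (p ^ n) (th70_zeta (p ^ n))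
        (χ : Additive (Gamma0 (N * q)) →+ ℤ) h f →
      ∀ D : Divisor.degZero (K := Qb) (F := ↥(modularFunctionFieldBar (N * q))),
        th70_IsDivOf (p ^ n) f (D : Divisor Qb ↥(modularFunctionFieldBar (N * q))) →
          Θ n χ = Pic0.mk D)
    (Θ' : ℕ → (↥(parabolicHoms ℤ (Gamma0 N) ℤ) →+ JZero N))
    (heval' : ∀ (n : ℕ) (χ : ↥(parabolicHoms ℤ (Gamma0 N) ℤ)) (h : mer95_MER)
      (f : ↥(modularFunctionFieldBar N)),
      thz31_AdmZ Qb (ff79_ev0 phi N) (p ^ n) (th70_zeta (p ^ n))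
        (χ : Additive (Gamma0 N) →+ ℤ) h f →
      ∀ D : Divisor.degZero (K := Qb) (F := ↥(modularFunctionFieldBar N)),
        th70_IsDivOf (p ^ n) f (D : Divisor Qb ↥(modularFunctionFieldBar N)) →
          Θ' n χ = Pic0.mk D)
    (n : ℕ) (χ : ↥(parabolicHoms ℤ (Gamma0 (N * q)) ℤ)) :
    ∃ D : Divisor.degZero (K := Qb) (F := ↥(modularFunctionFieldBar (N * q))),
      Θ n χ = Pic0.mk D ∧
      Θ' n ⟨cor22 (Gamma0 N) (Gamma0 (N * q)) (χ : Additive (Gamma0 (N * q)) →+ ℤ),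
          cor22_mem_parabolicHoms ℤ (Gamma0 N) (Gamma0 (N * q)) χ.2⟩
        = Pic0.mk ⟨Divisor.pushforwardAlong (heckeAlphaBar Qb N q)
            (hx63_heckeAlphaBarIntegral N q)
            (D : Divisor Qb ↥(modularFunctionFieldBar (N * q))),
          Divisor.pushforwardAlong_mem_degZero _ _ D.2⟩ := by
  haveI := hi63_hasPrincipalDivisors_bar (N * q)
  have hm : p ^ n ≠ 0 := pow_ne_zero n hp
  obtain ⟨h, f, H⟩ := hex n χ
  obtain ⟨h0, f0, hchar, hpow, hdvd⟩ := id H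
  obtain ⟨D, hD, hdeg⟩ := th70_exists_div (K := Qb) hm f0 hdvd
  obtain ⟨⟨H', hadm⟩, hdiv⟩ := pa32_adm_alpha N q (p ^ n) hm
    (χ : Additive (Gamma0 (N * q)) →+ ℤ) h f H
  refine ⟨⟨D, Divisor.mem_degZero.mpr hdeg⟩, heval n χ h f H _ hD, ?_⟩
  exact heval' n ⟨_, cor22_mem_parabolicHoms ℤ (Gamma0 N) (Gamma0 (N * q)) χ.2⟩ H' _ hadm
    ⟨_, Divisor.pushforwardAlong_mem_degZero _ _ (Divisor.mem_degZero.mpr hdeg)⟩ (hdiv D hD)

/-- **(2a)-α at every level pair**: `α_* (Θ n c) = Θ' n (cor c)` for all evaluated families,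
with `cor = taf22_corPar N q`, and NO hypothesis on `q`. -/
theorem pa32_alphaCompat (p : ℕ) (hp : p ≠ 0)
    (Θ : ℕ → (↥(parabolicHoms ℤ (Gamma0 (N * q)) ℤ) →+ JZero (N * q)))
    (Θ' : ℕ → (↥(parabolicHoms ℤ (Gamma0 N) ℤ) →+ JZero N))
    (hΘ : pn32_Eval (N * q) p Θ) (hΘ' : pn32_Eval N p Θ')
    (n : ℕ) (c : ↥(parabolicHoms ℤ (Gamma0 (N * q)) ℤ)) :
    pj40_alphaPush N q (Θ n c) = Θ' n (taf22_corPar N q c) := by
  obtain ⟨D, hD, hD'⟩ := pa32_compat_alpha N q p hp Θ hΘ.1 hΘ.2 Θ' hΘ'.2 n c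
  rw [hD]
  exact hD'.symm

end pa32_alpha

end Fermat.Agent.S36
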