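import Fermat.Agent.S36.BetaDeg87
import Fermat.Agent.S35.NewBeta87

/-!
# S36 lab (helper87): the `β`-half of (2a) at levels `N q → N` with `q ∣ N`

The `q ∣ N` twin of `PushBeta87` / `NewBeta87` (which treat `q ∤ N`).  Everything that does not
depend on the index `[Γ₀(N) : Γ₀(N) ∩ Γ⁰(q)]` is reused from `PushBeta87`: the subgroup
`tb87_K N q = δ Γ₀(N q) δ⁻¹`, `tb87_back`, the `β`-corestriction `tb87_corB`, `tb87_char_diag`,
`tb87_corBpar`.

* `tbq87_card` : `[Γ₀(N) : Γ₀(N) ∩ Γ⁰(q)] = q` for a prime `q ∣ N` (representatives `T^b`, `b < q`);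
* `tbq87_beta_hnorm` : the analytic norm formula along `β` for `q ∣ N`:
  `ev0_N (Nm_β y) = ∏ i, r i • (diag(q,1) • ev0_{N q} y)` for `q` pairwise inequivalent `r i ∈ Γ₀(N)`
  (degree from `bd87_finrank_beta_dvd`; no Atkin–Lehner involution);
* `tbq87_push_beta`, `tbq87_norm_beta_pow`, `tbq87_adm_beta` : the Kummer root of `Nm_β f`, its
  character `tb87_corB N q ℤ χ`, admissible pairs;
* `tbq87_compat_beta`, `tbq87_compat_beta_push`, `tbq87_compat_beta_pj40` :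
  `pj40_betaPush N q (Θ n c) = Θ' n (tb87_corBpar N q c)` for `q ∣ N`;
* `tbq87_compat_beta_pj40_all` : the same for EVERY prime `q` (no hypothesis on `N`).
-/

set_option autoImplicit false
set_option linter.unusedSectionVars false
set_option linter.unusedVariables false
set_option linter.style.longLine false
set_option linter.style.haveILetI false
set_option synthInstance.maxHeartbeats 400000

open CongruenceSubgroup ModularCurve ModularCurve.Period AlgebraicCurve UpperHalfPlane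
open scoped MatrixGroups

namespace Fermat.Agent.S36

open Fermat.Agent.S16 Fermat.Agent.S24 Fermat.Agent.S42 Fermat.Agent.S41 Fermat.Agent.S37
open Fermat.Agent.S35

local notation "Qb" => AlgebraicClosure ℚ

/-! ### Representatives `T^b` of `Γ₀(N) ⧸ (Γ₀(N) ∩ Γ⁰(q))` for `q ∣ N` -/

section tbq87_reps

variable (N q : ℕ)

/-- The representatives `T^b`, `b < q`. -/
def tbq87_rep (b : Fin q) : ↥(Gamma0 N) :=
  lbMk N 1 ((b : ℕ) : ℤ) 0 1 (by ring) (dvd_zero _)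

theorem tbq87_rep_01 (b : Fin q) :
    ((tbq87_rep N q b : ↥(Gamma0 N)) : SL(2, ℤ)) 0 1 = ((b : ℕ) : ℤ) := rfl

theorem tbq87_rep_11 (b : Fin q) :
    ((tbq87_rep N q b : ↥(Gamma0 N)) : SL(2, ℤ)) 1 1 = 1 := rfl

variable {N q}

/-- For `q ∣ N` prime, the lower right entry of an element of `Γ₀(N)` is prime to `q`. -/
theorem tbq87_not_dvd_11 (hq : q.Prime) (hqN : q ∣ N) (γ : ↥(Gamma0 N)) :
    ¬ (q : ℤ) ∣ (γ : SL(2, ℤ)) 1 1 := by
  intro hd
  have hdet := lb_sl_det (γ : SL(2, ℤ))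
  have h10 : (q : ℤ) ∣ (γ : SL(2, ℤ)) 1 0 :=
    dvd_trans (by exact_mod_cast hqN) (lb_Gamma0_dvd γ)
  have h1 : (q : ℤ) ∣ 1 := by
    rw [← hdet]
    exact dvd_sub (Dvd.dvd.mul_left hd _) (Dvd.dvd.mul_left h10 _)
  have h2 : (q : ℤ) = 1 := Int.eq_one_of_dvd_one (by positivity) h1
  have h3 : q = 1 := by exact_mod_cast h2
  exact hq.one_lt.ne' h3

/-- The representatives are pairwise inequivalent modulo `Γ₀(N) ∩ Γ⁰(q)`. -/
theorem tbq87_rep_spec (i j : Fin q)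
    (hd : (q : ℤ) ∣ (((tbq87_rep N q j)⁻¹ * tbq87_rep N q i : ↥(Gamma0 N)) : SL(2, ℤ)) 0 1) :
    i = j := by
  have hd' : (q : ℤ) ∣ ((tbq87_rep N q j : ↥(Gamma0 N)) : SL(2, ℤ)) 1 1
        * ((tbq87_rep N q i : ↥(Gamma0 N)) : SL(2, ℤ)) 0 1
      - ((tbq87_rep N q j : ↥(Gamma0 N)) : SL(2, ℤ)) 0 1
        * ((tbq87_rep N q i : ↥(Gamma0 N)) : SL(2, ℤ)) 1 1 := by
    rw [← nb75_inv_mul_01]
    exact hd
  rw [tbq87_rep_11, tbq87_rep_01, tbq87_rep_01, tbq87_rep_11] at hd'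
  have h0 : (1 : ℤ) * ((i : ℕ) : ℤ) - ((j : ℕ) : ℤ) * 1 = 0 := by
    apply Int.eq_zero_of_abs_lt_dvd hd'
    have hb : ((i : ℕ) : ℤ) < q := by exact_mod_cast i.2
    have hb' : ((j : ℕ) : ℤ) < q := by exact_mod_cast j.2
    have hb0' : (0 : ℤ) ≤ ((i : ℕ) : ℤ) := Int.natCast_nonneg _
    have hb'0 : (0 : ℤ) ≤ ((j : ℕ) : ℤ) := Int.natCast_nonneg _
    rw [abs_lt]
    constructor <;> linarith
  have h1 : ((i : ℕ) : ℤ) = ((j : ℕ) : ℤ) := by linarith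
  have h2 : (i : ℕ) = (j : ℕ) := by exact_mod_cast h1
  exact Fin.ext h2

/-- The representatives are complete when `q ∣ N`. -/
theorem tbq87_rep_complete (hq : q.Prime) (hqN : q ∣ N) (γ : ↥(Gamma0 N)) :
    ∃ i : Fin q, (q : ℤ) ∣ (((tbq87_rep N q i)⁻¹ * γ : ↥(Gamma0 N)) : SL(2, ℤ)) 0 1 := by
  obtain ⟨j, hj⟩ := lb_exists_fin hq ((γ : SL(2, ℤ)) 1 1) ((γ : SL(2, ℤ)) 0 1)
    (tbq87_not_dvd_11 hq hqN γ)
  refine ⟨j, ?_⟩
  have key : (((tbq87_rep N q j)⁻¹ * γ : ↥(Gamma0 N)) : SL(2, ℤ)) 0 1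
      = ((tbq87_rep N q j : ↥(Gamma0 N)) : SL(2, ℤ)) 1 1 * (γ : SL(2, ℤ)) 0 1
        - ((tbq87_rep N q j : ↥(Gamma0 N)) : SL(2, ℤ)) 0 1 * (γ : SL(2, ℤ)) 1 1 :=
    nb75_inv_mul_01 _ _
  rw [key, tbq87_rep_11, tbq87_rep_01, one_mul]
  exact hj

end tbq87_reps

section tbq87_quot

variable (N q : ℕ) [NeZero N] [NeZero q]

/-- `[Γ₀(N) : Γ₀(N) ∩ Γ⁰(q)] = q` for a prime `q ∣ N`. -/
theorem tbq87_card (hq : q.Prime) (hqN : q ∣ N) :
    Nat.card (↥(Gamma0 N) ⧸ (tb87_K N q).subgroupOf (Gamma0 N)) = q := by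
  let f : Fin q → ↥(Gamma0 N) ⧸ (tb87_K N q).subgroupOf (Gamma0 N) :=
    fun i => ((tbq87_rep N q i : ↥(Gamma0 N)) :
      ↥(Gamma0 N) ⧸ (tb87_K N q).subgroupOf (Gamma0 N))
  have hf : Function.Bijective f := by
    constructor
    · intro i j hij
      have h1 : (tbq87_rep N q i)⁻¹ * tbq87_rep N q j
          ∈ (tb87_K N q).subgroupOf (Gamma0 N) := QuotientGroup.eq.mp hij
      exact (tbq87_rep_spec j i
        (tb87_dvd_of_mem_K N q (Subgroup.mem_subgroupOf.mp h1))).symm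
    · intro c
      obtain ⟨i, hi⟩ := tbq87_rep_complete hq hqN c.out
      refine ⟨i, ?_⟩
      have h1 : (tbq87_rep N q i)⁻¹ * c.out ∈ (tb87_K N q).subgroupOf (Gamma0 N) :=
        Subgroup.mem_subgroupOf.mpr (tb87_mem_K_of_dvd N q _ hi)
      have h2 : ((tbq87_rep N q i : ↥(Gamma0 N)) :
          ↥(Gamma0 N) ⧸ (tb87_K N q).subgroupOf (Gamma0 N))
          = ((c.out : ↥(Gamma0 N)) : ↥(Gamma0 N) ⧸ (tb87_K N q).subgroupOf (Gamma0 N)) :=
        QuotientGroup.eq.mpr h1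
      rw [QuotientGroup.out_eq'] at h2
      exact h2
  rw [← Nat.card_congr (Equiv.ofBijective f hf), Nat.card_eq_fintype_card, Fintype.card_fin]

end tbq87_quot

/-! ### The analytic norm formula along `β` for `q ∣ N` -/

section tbq87_norm

variable (φ : Qb →+* ℂ) (N q : ℕ) [NeZero N] [NeZero q]

/-- **The analytic norm formula along `β`** (`q` prime, `q ∣ N`): for `q` elements of `Γ₀(N)`,
pairwise inequivalent modulo `Γ₀(N) ∩ Γ⁰(q)`,
`ev0_N (Nm_β y) = ∏ i, r i • (diag(q,1) • ev0_{Nq} y)`. -/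
theorem tbq87_beta_hnorm (hq : q.Prime) (hqN : q ∣ N) {κ : Type*} [Fintype κ]
    (r : κ → ↥(Gamma0 N))
    (hr : ∀ i j, (q : ℤ) ∣ (((r j)⁻¹ * r i : ↥(Gamma0 N)) : SL(2, ℤ)) 0 1 → i = j)
    (hκ : Fintype.card κ = q) (y : ↥(modularFunctionFieldBar (N * q))) :
    ff79_ev0 φ N (ht45_normAlong (heckeBetaBar Qb N q) y)
      = ∏ i, ((r i : ↥(Gamma0 N)) : SL(2, ℤ)) • (ff79_diag q • ff79_ev0 φ (N * q) y) := by
  letI := algebraAlong (heckeBetaBar Qb N q)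
  have hfr : Module.finrank ↥(modularFunctionFieldBar N) ↥(modularFunctionFieldBar (N * q))
      = q := bd87_finrank_beta_dvd N q hq hqN
  haveI : FiniteDimensional ↥(modularFunctionFieldBar N) ↥(modularFunctionFieldBar (N * q)) :=
    Module.finite_of_finrank_pos (by rw [hfr]; exact hq.pos)
  haveI : CharZero ↥(modularFunctionFieldBar N) :=
    charZero_of_injective_algebraMap (algebraMap Qb ↥(modularFunctionFieldBar N)).injective
  have key := nm49_norm_eq_prod (G := SL(2, ℤ)) (ff79_ev0 φ N) (nb75_e' φ N q)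
    (fun x => nb75_e'_beta φ N q x) (fun i => ((r i : ↥(Gamma0 N)) : SL(2, ℤ)))
    (fun i x => ff79_ev0_fix φ N (r i) x) ?_ (by rw [hκ, hfr]) y
  · exact key
  · intro i j hij
    apply hr i j
    apply nb75_stab q
    intro τ
    obtain ⟨Fi, hFi, hFi'⟩ := nb75_e'_J φ N q ((r i : ↥(Gamma0 N)) : SL(2, ℤ)) τ
    obtain ⟨Fj, hFj, hFj'⟩ := nb75_e'_J φ N q ((r j : ↥(Gamma0 N)) : SL(2, ℤ)) τ
    have hF : Fi = Fj := by
      apply mer95_algebraMap_injective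
      rw [← hFi, ← hFj]
      exact hij _
    have h1 := hFi' (((r j : ↥(Gamma0 N)) : SL(2, ℤ)) • τ)
    have h2 := hFj' (((r j : ↥(Gamma0 N)) : SL(2, ℤ)) • τ)
    rw [hF] at h1
    rw [h1, inv_smul_smul] at h2
    rw [← h2]
    congr 2
    rw [← mul_smul]
    congr 1
    simp [mul_inv_rev]

/-- **The root of the norm along `β` and its character**, `q ∣ N`. -/
theorem tbq87_push_beta (hq : q.Prime) (hqN : q ∣ N) (m : ℕ)
    (χ : Additive ↥(Gamma0 (N * q)) →+ ℤ) (h : mer95_MER)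
    (f : ↥(modularFunctionFieldBar (N * q)))
    (h0 : h ≠ 0) (hchar : thz31_IsCharZ (th70_zeta m) χ h)
    (hpow : h ^ m = ff79_ev0 φ (N * q) f) :
    ∃ H : mer95_MER, H ≠ 0 ∧
      thz31_IsCharZ (th70_zeta m) (tb87_corB N q ℤ χ) H ∧
      H ^ m = ff79_ev0 φ N (ht45_normAlong (heckeBetaBar Qb N q) f) := by
  classical
  letI : Fintype (↥(Gamma0 N) ⧸ (tb87_K N q).subgroupOf (Gamma0 N)) := Fintype.ofFinite _
  have hκ : Fintype.card (↥(Gamma0 N) ⧸ (tb87_K N q).subgroupOf (Gamma0 N)) = q := by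
    rw [← Nat.card_eq_fintype_card]
    exact tbq87_card N q hq hqN
  have hnorm := tbq87_beta_hnorm φ N q hq hqN
    (fun c : ↥(Gamma0 N) ⧸ (tb87_K N q).subgroupOf (Gamma0 N) => c.out)
    (fun c c' hcc => tb87_out_inj N q c c' hcc) hκ f
  have hd0 : ff79_diag q • h ≠ 0 := by
    intro hz
    apply h0
    have := congrArg (fun x => (ff79_diag q)⁻¹ • x) hz
    simpa using this
  refine ⟨∏ c : ↥(Gamma0 N) ⧸ (tb87_K N q).subgroupOf (Gamma0 N),
    ((c.out : ↥(Gamma0 N)) : SL(2, ℤ)) • (ff79_diag q • h), ht45_prod_ne_zero _ hd0, ?_, ?_⟩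
  · intro γ
    exact cor22_char (Gamma0 N) (tb87_K N q) (th70_zeta m) (pa22_zeta_ne_zero m)
      (fun g => mer95_smul_C_SL g _)
      (χ.comp (MonoidHom.toAdditive (tb87_back N q).toMonoidHom)) (ff79_diag q • h)
      (fun k => tb87_char_diag N q m χ h hchar k) γ
  · rw [hnorm, ← Finset.prod_pow]
    refine Finset.prod_congr rfl fun c _ => ?_
    rw [← smul_pow', ← smul_pow', hpow]

/-- If the `β`-corestriction of `χ` vanishes, the norm along `β` of a Kummer function of `χ` is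
a constant times an `m`-th power (`q ∣ N`). -/
theorem tbq87_norm_beta_pow (hq : q.Prime) (hqN : q ∣ N) (m : ℕ) (hm : 0 < m)
    (χ : Additive ↥(Gamma0 (N * q)) →+ ℤ) (h : mer95_MER)
    (f : ↥(modularFunctionFieldBar (N * q)))
    (h0 : h ≠ 0) (hchar : thz31_IsCharZ (th70_zeta m) χ h)
    (hpow : h ^ m = ff79_ev0 φ (N * q) f)
    (hcor : tb87_corB N q ℤ χ = 0) :
    ∃ (g : ↥(modularFunctionFieldBar N)) (a : Qb),
      ht45_normAlong (heckeBetaBar Qb N q) f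
        = algebraMap Qb ↥(modularFunctionFieldBar N) a * g ^ m := by
  obtain ⟨H, H0, Hchar, Hpow⟩ := tbq87_push_beta φ N q hq hqN m χ h f h0 hchar hpow
  refine gi41_hK2 φ N hm H H0 (fun γ => ?_) _ Hpow
  have h1 := Hchar γ
  rw [hcor] at h1
  simpa using h1

end tbq87_norm

/-! ### Admissible pairs and the compatibility `β_* ∘ Θ = Θ' ∘ cor_β` for `q ∣ N` -/

section tbq87_adm

variable (N q : ℕ) [NeZero N] [NeZero q]

/-- **Pushforward of an admissible pair along `β`**, `q ∣ N`. -/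
theorem tbq87_adm_beta (hq : q.Prime) (hqN : q ∣ N) (m : ℕ) (hm : m ≠ 0)
    (χ : Additive ↥(Gamma0 (N * q)) →+ ℤ) (h : mer95_MER)
    (f : ↥(modularFunctionFieldBar (N * q)))
    (H : thz31_AdmZ Qb (ff79_ev0 phi (N * q)) m (th70_zeta m) χ h f) :
    (∃ H' : mer95_MER, thz31_AdmZ Qb (ff79_ev0 phi N) m (th70_zeta m)
      (tb87_corB N q ℤ χ) H' (ht45_normAlong (heckeBetaBar Qb N q) f)) ∧
    ∀ D : Divisor Qb ↥(modularFunctionFieldBar (N * q)), th70_IsDivOf m f D →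
      th70_IsDivOf m (ht45_normAlong (heckeBetaBar Qb N q) f)
        (Divisor.pushforwardAlong (heckeBetaBar Qb N q) (hx63_heckeBetaBarIntegral N q) D) := by
  obtain ⟨h0, f0, hchar, hpow, hdvd⟩ := H
  haveI := hi63_hasPrincipalDivisors_bar (N * q)
  have hβ := hx63_heckeBetaBarIntegral N q
  obtain ⟨-, hfin, hNF⟩ := hx63_inputs_gen (φ := heckeBetaBar Qb N q) hβ
  have hdiv : ∀ D : Divisor Qb ↥(modularFunctionFieldBar (N * q)), th70_IsDivOf m f D →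
      th70_IsDivOf m (ht45_normAlong (heckeBetaBar Qb N q) f)
        (Divisor.pushforwardAlong (heckeBetaBar Qb N q) hβ D) := fun D hD v =>
    hd63_pushforwardAlong_div (heckeBetaBar Qb N q) hβ hfin hNF D (m : ℤ) f f0 hD v
  refine ⟨?_, hdiv⟩
  obtain ⟨H', H'0, H'char, H'pow⟩ := tbq87_push_beta phi N q hq hqN m χ h f h0 hchar hpow
  obtain ⟨D, hD, -⟩ := th70_exists_div (K := Qb) hm f0 hdvd
  exact ⟨H', H'0, ht45_normAlong_ne_zero _ hfin f0, H'char, H'pow,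
    fun v => ⟨_, (hdiv D hD v).symm⟩⟩

/-- **`β_* ∘ Θ_n = Θ'_n ∘ cor_β`, divisor form**, `q ∣ N`. -/
theorem tbq87_compat_beta (hq : q.Prime) (hqN : q ∣ N) (p : ℕ) (hp : p ≠ 0)
    (Θ : ℕ → (↥(parabolicHoms ℤ (Gamma0 (N * q)) ℤ) →+ JZero (N * q)))
    (hex : ∀ (n : ℕ) (χ : ↥(parabolicHoms ℤ (Gamma0 (N * q)) ℤ)),
      ∃ (h : mer95_MER) (f : ↥(modularFunctionFieldBar (N * q))),
        thz31_AdmZ Qb (ff79_ev0 phi (N * q)) (p ^ n) (th70_zeta (p ^ n))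
          (χ : Additive (Gamma0 (N * q)) →+ ℤ) h f)
    (heval : ∀ (n : ℕ) (χ : ↥(parabolicHoms ℤ (Gamma0 (N * q)) ℤ)) (h : mer95_MER)
      (f : ↥(modularFunctionFieldBar (N * q))),
      thz31_AdmZ Qb (ff79_ev0 phi (N * q)) (p ^ n) (th70_zeta (p ^ n))
        (χ : Additive (Gamma0 (N * q)) →+ ℤ) h f →
      ∀ D : Divisor.degZero (K := Qb) (F := ↥(modularFunctionFieldBar (N * q))),
        th70_IsDivOf (p ^ n) f (D : Divisor Qb ↥(modularFunctionFieldBar (N * q))) →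
          Θ n χ = Pic0.mk D)
    (Θ' : ℕ → (↥(parabolicHoms ℤ (Gamma0 N) ℤ) →+ JZero N))
    (heval' : ∀ (n : ℕ) (χ : ↥(parabolicHoms ℤ (Gamma0 N) ℤ)) (h : mer95_MER)
      (f : ↥(modularFunctionFieldBar N)),
      thz31_AdmZ Qb (ff79_ev0 phi N) (p ^ n) (th70_zeta (p ^ n))
        (χ : Additive (Gamma0 N) →+ ℤ) h f →
      ∀ D : Divisor.degZero (K := Qb) (F := ↥(modularFunctionFieldBar N)),
        th70_IsDivOf (p ^ n) f (D : Divisor Qb ↥(modularFunctionFieldBar N)) →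
          Θ' n χ = Pic0.mk D)
    (n : ℕ) (χ : ↥(parabolicHoms ℤ (Gamma0 (N * q)) ℤ)) :
    ∃ D : Divisor.degZero (K := Qb) (F := ↥(modularFunctionFieldBar (N * q))),
      Θ n χ = Pic0.mk D ∧
      Θ' n (tb87_corBpar N q χ)
        = Pic0.mk ⟨Divisor.pushforwardAlong (heckeBetaBar Qb N q)
            (hx63_heckeBetaBarIntegral N q)
            (D : Divisor Qb ↥(modularFunctionFieldBar (N * q))),
          Divisor.pushforwardAlong_mem_degZero _ _ D.2⟩ := by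
  haveI := hi63_hasPrincipalDivisors_bar (N * q)
  have hm : p ^ n ≠ 0 := pow_ne_zero n hp
  obtain ⟨h, f, H⟩ := hex n χ
  obtain ⟨h0, f0, hchar, hpow, hdvd⟩ := id H
  obtain ⟨D, hD, hdeg⟩ := th70_exists_div (K := Qb) hm f0 hdvd
  obtain ⟨⟨H', hadm⟩, hdiv⟩ := tbq87_adm_beta N q hq hqN (p ^ n) hm
    (χ : Additive (Gamma0 (N * q)) →+ ℤ) h f H
  refine ⟨⟨D, Divisor.mem_degZero.mpr hdeg⟩, heval n χ h f H _ hD, ?_⟩
  exact heval' n (tb87_corBpar N q χ) H' _ hadm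
    ⟨_, Divisor.pushforwardAlong_mem_degZero _ _ (Divisor.mem_degZero.mpr hdeg)⟩ (hdiv D hD)

/-- **`π ∘ Θ_n = Θ'_n ∘ cor_β`** for every additive `π` inducing the pushforward along `β` on
classes of degree-zero divisors, `q ∣ N`. -/
theorem tbq87_compat_beta_push (hq : q.Prime) (hqN : q ∣ N) (p : ℕ) (hp : p ≠ 0)
    (Θ : ℕ → (↥(parabolicHoms ℤ (Gamma0 (N * q)) ℤ) →+ JZero (N * q)))
    (hex : ∀ (n : ℕ) (χ : ↥(parabolicHoms ℤ (Gamma0 (N * q)) ℤ)),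
      ∃ (h : mer95_MER) (f : ↥(modularFunctionFieldBar (N * q))),
        thz31_AdmZ Qb (ff79_ev0 phi (N * q)) (p ^ n) (th70_zeta (p ^ n))
          (χ : Additive (Gamma0 (N * q)) →+ ℤ) h f)
    (heval : ∀ (n : ℕ) (χ : ↥(parabolicHoms ℤ (Gamma0 (N * q)) ℤ)) (h : mer95_MER)
      (f : ↥(modularFunctionFieldBar (N * q))),
      thz31_AdmZ Qb (ff79_ev0 phi (N * q)) (p ^ n) (th70_zeta (p ^ n))
        (χ : Additive (Gamma0 (N * q)) →+ ℤ) h f →
      ∀ D : Divisor.degZero (K := Qb) (F := ↥(modularFunctionFieldBar (N * q))),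
        th70_IsDivOf (p ^ n) f (D : Divisor Qb ↥(modularFunctionFieldBar (N * q))) →
          Θ n χ = Pic0.mk D)
    (Θ' : ℕ → (↥(parabolicHoms ℤ (Gamma0 N) ℤ) →+ JZero N))
    (heval' : ∀ (n : ℕ) (χ : ↥(parabolicHoms ℤ (Gamma0 N) ℤ)) (h : mer95_MER)
      (f : ↥(modularFunctionFieldBar N)),
      thz31_AdmZ Qb (ff79_ev0 phi N) (p ^ n) (th70_zeta (p ^ n))
        (χ : Additive (Gamma0 N) →+ ℤ) h f →
      ∀ D : Divisor.degZero (K := Qb) (F := ↥(modularFunctionFieldBar N)),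
        th70_IsDivOf (p ^ n) f (D : Divisor Qb ↥(modularFunctionFieldBar N)) →
          Θ' n χ = Pic0.mk D)
    (π : JZero (N * q) →+ JZero N)
    (hπ : ∀ D : Divisor.degZero (K := Qb) (F := ↥(modularFunctionFieldBar (N * q))),
      π (Pic0.mk D) = Pic0.mk ⟨Divisor.pushforwardAlong (heckeBetaBar Qb N q)
        (hx63_heckeBetaBarIntegral N q) (D : Divisor Qb ↥(modularFunctionFieldBar (N * q))),
        Divisor.pushforwardAlong_mem_degZero _ _ D.2⟩)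
    (n : ℕ) (c : ↥(parabolicHoms ℤ (Gamma0 (N * q)) ℤ)) :
    π (Θ n c) = Θ' n (tb87_corBpar N q c) := by
  obtain ⟨D, hD, hD'⟩ := tbq87_compat_beta N q hq hqN p hp Θ hex heval Θ' heval' n c
  rw [hD, hπ D]
  exact hD'.symm

/-- **(2a)-β for helper40's `β_*`, `q ∣ N`**: `pj40_betaPush N q (Θ n c) = Θ' n (cor_β c)`. -/
theorem tbq87_compat_beta_pj40 (hq : q.Prime) (hqN : q ∣ N) (p : ℕ) (hp : p ≠ 0)
    (Θ : ℕ → (↥(parabolicHoms ℤ (Gamma0 (N * q)) ℤ) →+ JZero (N * q)))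
    (hex : ∀ (n : ℕ) (χ : ↥(parabolicHoms ℤ (Gamma0 (N * q)) ℤ)),
      ∃ (h : mer95_MER) (f : ↥(modularFunctionFieldBar (N * q))),
        thz31_AdmZ Qb (ff79_ev0 phi (N * q)) (p ^ n) (th70_zeta (p ^ n))
          (χ : Additive (Gamma0 (N * q)) →+ ℤ) h f)
    (heval : ∀ (n : ℕ) (χ : ↥(parabolicHoms ℤ (Gamma0 (N * q)) ℤ)) (h : mer95_MER)
      (f : ↥(modularFunctionFieldBar (N * q))),
      thz31_AdmZ Qb (ff79_ev0 phi (N * q)) (p ^ n) (th70_zeta (p ^ n))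
        (χ : Additive (Gamma0 (N * q)) →+ ℤ) h f →
      ∀ D : Divisor.degZero (K := Qb) (F := ↥(modularFunctionFieldBar (N * q))),
        th70_IsDivOf (p ^ n) f (D : Divisor Qb ↥(modularFunctionFieldBar (N * q))) →
          Θ n χ = Pic0.mk D)
    (Θ' : ℕ → (↥(parabolicHoms ℤ (Gamma0 N) ℤ) →+ JZero N))
    (heval' : ∀ (n : ℕ) (χ : ↥(parabolicHoms ℤ (Gamma0 N) ℤ)) (h : mer95_MER)
      (f : ↥(modularFunctionFieldBar N)),
      thz31_AdmZ Qb (ff79_ev0 phi N) (p ^ n) (th70_zeta (p ^ n))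
        (χ : Additive (Gamma0 N) →+ ℤ) h f →
      ∀ D : Divisor.degZero (K := Qb) (F := ↥(modularFunctionFieldBar N)),
        th70_IsDivOf (p ^ n) f (D : Divisor Qb ↥(modularFunctionFieldBar N)) →
          Θ' n χ = Pic0.mk D)
    (n : ℕ) (c : ↥(parabolicHoms ℤ (Gamma0 (N * q)) ℤ)) :
    pj40_betaPush N q (Θ n c) = Θ' n (tb87_corBpar N q c) :=
  tbq87_compat_beta_push N q hq hqN p hp Θ hex heval Θ' heval' (pj40_betaPush N q)
    (fun D => pj40_betaPush_mk N q (hx63_heckeBetaBarIntegral N q) D _) n c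

/-- **(2a)-β for helper40's `β_*`, EVERY prime `q`** (no hypothesis on `N`):
`pj40_betaPush N q (Θ n c) = Θ' n (tb87_corBpar N q c)`. -/
theorem tbq87_compat_beta_pj40_all (hq : q.Prime) (p : ℕ) (hp : p ≠ 0)
    (Θ : ℕ → (↥(parabolicHoms ℤ (Gamma0 (N * q)) ℤ) →+ JZero (N * q)))
    (hex : ∀ (n : ℕ) (χ : ↥(parabolicHoms ℤ (Gamma0 (N * q)) ℤ)),
      ∃ (h : mer95_MER) (f : ↥(modularFunctionFieldBar (N * q))),
        thz31_AdmZ Qb (ff79_ev0 phi (N * q)) (p ^ n) (th70_zeta (p ^ n))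
          (χ : Additive (Gamma0 (N * q)) →+ ℤ) h f)
    (heval : ∀ (n : ℕ) (χ : ↥(parabolicHoms ℤ (Gamma0 (N * q)) ℤ)) (h : mer95_MER)
      (f : ↥(modularFunctionFieldBar (N * q))),
      thz31_AdmZ Qb (ff79_ev0 phi (N * q)) (p ^ n) (th70_zeta (p ^ n))
        (χ : Additive (Gamma0 (N * q)) →+ ℤ) h f →
      ∀ D : Divisor.degZero (K := Qb) (F := ↥(modularFunctionFieldBar (N * q))),
        th70_IsDivOf (p ^ n) f (D : Divisor Qb ↥(modularFunctionFieldBar (N * q))) →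
          Θ n χ = Pic0.mk D)
    (Θ' : ℕ → (↥(parabolicHoms ℤ (Gamma0 N) ℤ) →+ JZero N))
    (heval' : ∀ (n : ℕ) (χ : ↥(parabolicHoms ℤ (Gamma0 N) ℤ)) (h : mer95_MER)
      (f : ↥(modularFunctionFieldBar N)),
      thz31_AdmZ Qb (ff79_ev0 phi N) (p ^ n) (th70_zeta (p ^ n))
        (χ : Additive (Gamma0 N) →+ ℤ) h f →
      ∀ D : Divisor.degZero (K := Qb) (F := ↥(modularFunctionFieldBar N)),
        th70_IsDivOf (p ^ n) f (D : Divisor Qb ↥(modularFunctionFieldBar N)) →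
          Θ' n χ = Pic0.mk D)
    (n : ℕ) (c : ↥(parabolicHoms ℤ (Gamma0 (N * q)) ℤ)) :
    pj40_betaPush N q (Θ n c) = Θ' n (tb87_corBpar N q c) := by
  by_cases hqN : q ∣ N
  · exact tbq87_compat_beta_pj40 N q hq hqN p hp Θ hex heval Θ' heval' n c
  · exact tb87_compat_beta_pj40 N q hq hqN p hp Θ hex heval Θ' heval' n c

end tbq87_adm

end Fermat.Agent.S36
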