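import Fermat.Agent.S36.PkgNewAll32
import Fermat.Agent.S36.AlphaAll32
import Fermat.Agent.S36.PushBetaQ87

/-!
# S36 lab, NEW36 (helper87): the closure `pna32_Compat` and `pna32_Pkg_New`

* `ca87_compat : pna32_Compat` — `corA := taf22_corPar N q` (`pa32_alphaCompat`, helper32),
  `corB := tb87_corBpar N q` (`tbq87_compat_beta_pj40_all`, helper87), at EVERY prime `q`.
* `ca87_pkg_new : pna32_Pkg_New` — newness of the Kummer classes at every prime `q ∣ M`,
  `q ≠ lam`, unconditionally.

All names are prefixed `ca87_`.
-/

set_option autoImplicit false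
set_option linter.unusedSectionVars false
set_option linter.unusedVariables false
set_option linter.style.longLine false

open CongruenceSubgroup ModularCurve ModularCurve.Period AlgebraicCurve UpperHalfPlane
open scoped MatrixGroups TensorProduct

namespace Fermat.Agent.S36

open Fermat.Agent.S35
open Fermat.Agent.S16 Fermat.Agent.S24 Fermat.Agent.S42 Fermat.Agent.S41 Fermat.Agent.S37
open Fermat.Agent.S30 Fermat.Agent.S31

/-- **(2a) at every prime `q`**: both push-forwards are compatible with the evaluated THETA-Z
families. -/
theorem ca87_compat : pna32_Compat := by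
  intro N q _ _ hq
  refine ⟨taf22_corPar N q, tb87_corBpar N q, ?_⟩
  intro p hp Θ Θ' hΘ hE hΘ' hE' n c
  exact ⟨pa32_alphaCompat N q p hp.ne_zero Θ Θ' hE hE' n c,
    tbq87_compat_beta_pj40_all N q hq p hp.ne_zero Θ hE.1 hE.2 Θ' hE'.2 n c⟩

/-- **P-NEW at every prime of the level**, unconditionally. -/
theorem ca87_pkg_new : pna32_Pkg_New := pna32_pkg_new ca87_compat

end Fermat.Agent.S36
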