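import Mathlib

/-!
# S36 (helper67): quadratic unipotence of a group gives a fixed vector

`s36u67_exists_fixed` : a group `H` acting on a module without `2`-torsion such that
`(ρ g − 1)² = 0` for all `g ∈ H` fixes a nonzero vector as soon as the module is nonzero.
Mathlib only.
-/

set_option autoImplicit false

namespace Fermat.Agent.S36

section Ring

variable {R : Type*} [Ring R]

/-- `a b a = 0` from `a² = b² = 0`, `(a + b + a b)² = 0` and right invertibility of `1 + b`. -/
theorem s36u67_aba (a b v : R) (ha : a * a = 0) (hb : b * b = 0)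
    (hE : (a + b + a * b) * (a + b + a * b) = 0) (hv : (1 + b) * v = 1) : a * b * a = 0 := by
  have ha' : ∀ x : R, a * (a * x) = 0 := fun x => by rw [← mul_assoc, ha, zero_mul]
  have hb' : ∀ x : R, b * (b * x) = 0 := fun x => by rw [← mul_assoc, hb, zero_mul]
  have h1 : a * ((a + b + a * b) * (a + b + a * b)) = a * b * a * (1 + b) := by
    simp only [mul_add, add_mul, mul_assoc, ha, hb, ha', mul_zero, add_zero,
      zero_add, mul_one]
  rw [hE, mul_zero] at h1
  calc a * b * a = a * b * a * ((1 + b) * v) := by rw [hv, mul_one]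
    _ = a * b * a * (1 + b) * v := by rw [mul_assoc (a * b * a)]
    _ = 0 := by rw [← h1, zero_mul]

/-- anticommutation from `a² = b² = 0`, `(a + b + a b)² = 0`, `a b a = 0 = b a b`. -/
theorem s36u67_anti (a b : R) (ha : a * a = 0) (hb : b * b = 0)
    (hE : (a + b + a * b) * (a + b + a * b) = 0) (h1 : a * b * a = 0) (h2 : b * a * b = 0) :
    a * b + b * a = 0 := by
  have ha' : ∀ x : R, a * (a * x) = 0 := fun x => by rw [← mul_assoc, ha, zero_mul]
  have hb' : ∀ x : R, b * (b * x) = 0 := fun x => by rw [← mul_assoc, hb, zero_mul]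
  have h1'' : a * (b * a) = 0 := by rw [← mul_assoc, h1]
  have h2'' : b * (a * b) = 0 := by rw [← mul_assoc, h2]
  have h3 : (a + b + a * b) * (a + b + a * b) = a * b + b * a := by
    simp only [mul_add, add_mul, mul_assoc, ha, hb, ha', h1'', h2'', mul_zero,
      add_zero, zero_add]
    abel
  rw [← h3, hE]

/-- `2 c a b = 0` from the anticommutation of `c` with `a`, `b` and `a + b + a b`. -/
theorem s36u67_triple (a b c : R) (hca : c * a + a * c = 0) (hcb : c * b + b * c = 0)
    (hcab : c * (a + b + a * b) + (a + b + a * b) * c = 0) : c * a * b + c * a * b = 0 := by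
  have e1 : a * c = -(c * a) := by rw [eq_neg_iff_add_eq_zero, add_comm]; exact hca
  have e2 : b * c = -(c * b) := by rw [eq_neg_iff_add_eq_zero, add_comm]; exact hcb
  have e3 : a * b * c = c * a * b := by
    rw [mul_assoc, e2, mul_neg, ← mul_assoc, e1, neg_mul, neg_neg, mul_assoc]
  have h : c * (a + b + a * b) + (a + b + a * b) * c
      = (c * a + a * c) + (c * b + b * c) + (c * a * b + a * b * c) := by
    simp only [mul_add, add_mul, mul_assoc]
    abel
  rw [h, hca, hcb, zero_add, zero_add, e3] at hcab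
  exact hcab

end Ring

/-- **Fixed vector.**  Let `ρ` be a representation of a group `G` on an `O`-module `M` without
`2`-torsion and `H` a subgroup such that `(ρ g − 1)² = 0` for every `g ∈ H`.  Then for every
nonzero `w₀` there is a nonzero vector fixed by `H`. -/
theorem s36u67_exists_fixed {G O M : Type*} [Group G] [CommRing O] [AddCommGroup M] [Module O M]
    (ρ : G →* Module.End O M) (H : Subgroup G)
    (h2 : ∀ w : M, w + w = 0 → w = 0)
    (hU : ∀ g ∈ H, ∀ w : M, ρ g (ρ g w) - (2 : O) • ρ g w + w = 0)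
    (w₀ : M) (hw₀ : w₀ ≠ 0) : ∃ y : M, y ≠ 0 ∧ ∀ g ∈ H, ρ g y = y := by
  classical
  set S : G → Module.End O M := fun g => ρ g - 1 with hS
  have hSS : ∀ g ∈ H, S g * S g = 0 := by
    intro g hg
    ext w
    have := hU g hg w
    simp only [hS, Module.End.mul_apply, LinearMap.sub_apply, Module.End.one_apply, map_sub,
      LinearMap.zero_apply]
    rw [← this, two_smul]
    abel
  have hmul : ∀ g h : G, S (g * h) = S g + S h + S g * S h := by
    intro g h
    simp only [hS, map_mul]
    noncomm_ring
  have hinv : ∀ h : G, (1 + S h) * ρ h⁻¹ = 1 := by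
    intro h
    have : (1 : Module.End O M) + S h = ρ h := by simp only [hS]; abel
    rw [this, ← map_mul, mul_inv_cancel, map_one]
  have haba : ∀ g ∈ H, ∀ h ∈ H, S g * S h * S g = 0 := by
    intro g hg h hh
    refine s36u67_aba (S g) (S h) (ρ h⁻¹) (hSS g hg) (hSS h hh) ?_ (hinv h)
    rw [← hmul]
    exact hSS _ (H.mul_mem hg hh)
  have hanti : ∀ g ∈ H, ∀ h ∈ H, S g * S h + S h * S g = 0 := by
    intro g hg h hh
    refine s36u67_anti (S g) (S h) (hSS g hg) (hSS h hh) ?_ (haba g hg h hh) (haba h hh g hg)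
    rw [← hmul]
    exact hSS _ (H.mul_mem hg hh)
  have htriple : ∀ f ∈ H, ∀ g ∈ H, ∀ h ∈ H, S f * S g * S h = 0 := by
    intro f hf g hg h hh
    have h0 := s36u67_triple (S g) (S h) (S f) (hanti f hf g hg) (hanti f hf h hh)
      (by rw [← hmul]; exact hanti f hf (g * h) (H.mul_mem hg hh))
    ext w
    have h1 := congrArg (fun T : Module.End O M => T w) h0
    simp only [LinearMap.add_apply, LinearMap.zero_apply] at h1
    exact h2 _ h1
  have hfix : ∀ (g : G) (y : M), S g y = 0 → ρ g y = y := by
    intro g y hy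
    have : ρ g y - y = 0 := by simpa only [hS, LinearMap.sub_apply, Module.End.one_apply] using hy
    exact sub_eq_zero.mp this
  by_cases h1 : ∀ g ∈ H, S g w₀ = 0
  · exact ⟨w₀, hw₀, fun g hg => hfix g w₀ (h1 g hg)⟩
  · push Not at h1
    obtain ⟨g, hg, hg1⟩ := h1
    by_cases h3 : ∀ h ∈ H, S h (S g w₀) = 0
    · exact ⟨S g w₀, hg1, fun h hh => hfix h _ (h3 h hh)⟩
    · push Not at h3
      obtain ⟨h, hh, hh1⟩ := h3
      refine ⟨S h (S g w₀), hh1, fun f hf => hfix f _ ?_⟩
      have := congrArg (fun T : Module.End O M => T w₀) (htriple f hf h hh g hg)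
      simpa only [Module.End.mul_apply, LinearMap.zero_apply] using this

end Fermat.Agent.S36
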