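import Mathlib
import Fermat.Agent.S35.FlatKerFam56
import Fermat.Agent.S36.UnipAlg67

/-!
# S36 (helper67): fixed vectors in a stable submodule, and the flat kernel of a fixed tensor

* `s36f67_exists_fixed_in` : `s36u67_exists_fixed` inside a submodule stable under the subgroup.
* `s36f67_fixed_kill` : let `O` be flat over `ℤ`, `T i` a family of endomorphisms of an abelian
  group `J`, and `P` a property of elements of `J` stable under `0` and `+`.  If every `x` with
  `P x`, `m • x = 0` fixed by all `T i` is killed by `c`, then every element of the `O`-span of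
  the `1 ⊗ y` (`P y`, `m • y = 0`) in `O ⊗ J` fixed by all `O ⊗ T i` is killed by `c`.

Mathlib + `S35/FlatKerFam56` only.  All names are prefixed `s36f67_`.
-/

set_option autoImplicit false
set_option linter.unusedSectionVars false
set_option linter.unusedVariables false
set_option linter.style.longLine false

open TensorProduct

namespace Fermat.Agent.S36

open Fermat.Agent.S35

/-- **Fixed vector in a stable submodule.** -/
theorem s36f67_exists_fixed_in {G O M : Type*} [Group G] [CommRing O] [AddCommGroup M]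
    [Module O M] (ρ : G →* Module.End O M) (H : Subgroup G)
    (h2 : ∀ w : M, w + w = 0 → w = 0)
    (hU : ∀ g ∈ H, ∀ w : M, ρ g (ρ g w) - (2 : O) • ρ g w + w = 0)
    (W : Submodule O M) (hW : ∀ g ∈ H, ∀ w ∈ W, ρ g w ∈ W)
    (w₀ : M) (hw₀W : w₀ ∈ W) (hw₀ : w₀ ≠ 0) : ∃ y ∈ W, y ≠ 0 ∧ ∀ g ∈ H, ρ g y = y := by
  let ρW : ↥H →* Module.End O ↥W :=
    { toFun := fun g => (ρ g.1).restrict (fun w hw => hW g.1 g.2 w hw)
      map_one' := by
        refine LinearMap.ext fun w => Subtype.ext ?_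
        show ρ ((1 : ↥H) : G) (w : M) = w
        rw [Subgroup.coe_one, map_one]
        rfl
      map_mul' := fun g h => by
        refine LinearMap.ext fun w => Subtype.ext ?_
        show ρ ((g * h : ↥H) : G) (w : M) = ρ g.1 (ρ h.1 (w : M))
        rw [Subgroup.coe_mul, map_mul]
        rfl }
  obtain ⟨y, hy, hyfix⟩ := s36u67_exists_fixed ρW (⊤ : Subgroup ↥H)
    (fun w hw => Subtype.ext (h2 w.1 (congrArg Subtype.val hw)))
    (fun g _ w => Subtype.ext (hU g.1 g.2 w.1)) ⟨w₀, hw₀W⟩
    (fun h => hw₀ (congrArg Subtype.val h))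
  exact ⟨y.1, y.2, fun h => hy (Subtype.ext h),
    fun g hg => congrArg Subtype.val (hyfix ⟨g, hg⟩ trivial)⟩

/-- A property stable under `0` and `+` is stable under multiples. -/
theorem s36f67_nsmul_P {J : Type*} [AddCommGroup J] (P : J → Prop) (hP0 : P 0)
    (hPadd : ∀ x y, P x → P y → P (x + y)) (k : ℕ) (y : J) (hy : P y) : P (k • y) := by
  induction k with
  | zero => rw [zero_nsmul]; exact hP0
  | succ k ih => rw [succ_nsmul]; exact hPadd _ _ ih hy

/-- **Finite model**: an element of the `O`-span of the `1 ⊗ y` (`P y`, `m • y = 0`) comes from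
`O ⊗ Q` for a FINITE abelian group `Q` mapping into the elements with `P` and `m`-torsion. -/
theorem s36f67_exists_model {O : Type*} [CommRing O] {J : Type*} [AddCommGroup J]
    (m : ℕ) [NeZero m] (P : J → Prop) (hP0 : P 0) (hPadd : ∀ x y, P x → P y → P (x + y))
    (z : O ⊗[ℤ] J)
    (hz : z ∈ Submodule.span O ((fun y : J => (1 : O) ⊗ₜ[ℤ] y) '' {y | P y ∧ m • y = 0})) :
    ∃ (Q : Type) (_ : AddCommGroup Q) (_ : Finite Q) (φ : Q →ₗ[ℤ] J) (x : O ⊗[ℤ] Q),
      (∀ v, P (φ v) ∧ m • φ v = 0) ∧ φ.baseChange O x = z := by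
  induction hz using Submodule.span_induction with
  | mem t ht =>
    obtain ⟨y, ⟨hyP, hym⟩, rfl⟩ := ht
    have h0 : (zmultiplesHom J y) (m : ℤ) = 0 := by
      rw [zmultiplesHom_apply, natCast_zsmul]
      exact hym
    let f : ZMod m →+ J := ZMod.lift m ⟨zmultiplesHom J y, h0⟩
    have hf1 : f 1 = y := by
      have h := ZMod.lift_coe m (⟨zmultiplesHom J y, h0⟩ : {f : ℤ →+ J // f m = 0}) 1
      rw [Int.cast_one] at h
      show ZMod.lift m ⟨zmultiplesHom J y, h0⟩ 1 = y
      rw [h]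
      show (zmultiplesHom J y) 1 = y
      rw [zmultiplesHom_apply, one_zsmul]
    refine ⟨ZMod m, inferInstance, inferInstance, f.toIntLinearMap,
      (1 : O) ⊗ₜ[ℤ] (1 : ZMod m), ?_, ?_⟩
    · intro v
      show P (f v) ∧ m • f v = 0
      obtain ⟨k, rfl⟩ := ZMod.natCast_zmod_surjective v
      have hk : f (k : ZMod m) = k • y := by
        rw [← nsmul_one k, map_nsmul, hf1]
      refine ⟨?_, ?_⟩
      · rw [hk]
        exact s36f67_nsmul_P P hP0 hPadd k y hyP
      · rw [hk, smul_comm, hym, smul_zero]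
    · rw [LinearMap.baseChange_tmul]
      show (1 : O) ⊗ₜ[ℤ] f 1 = (1 : O) ⊗ₜ[ℤ] y
      rw [hf1]
  | zero =>
    refine ⟨PUnit, inferInstance, inferInstance, 0, 0, fun v => ⟨?_, ?_⟩, ?_⟩
    · rw [LinearMap.zero_apply]; exact hP0
    · rw [LinearMap.zero_apply, smul_zero]
    · rw [map_zero]
  | add a b _ _ ha hb =>
    obtain ⟨Q₁, i₁, j₁, φ₁, x₁, h₁, e₁⟩ := ha
    obtain ⟨Q₂, i₂, j₂, φ₂, x₂, h₂, e₂⟩ := hb
    refine ⟨Q₁ × Q₂, inferInstance, inferInstance, φ₁.coprod φ₂,
      (LinearMap.inl ℤ Q₁ Q₂).baseChange O x₁ + (LinearMap.inr ℤ Q₁ Q₂).baseChange O x₂, ?_, ?_⟩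
    · intro v
      rw [LinearMap.coprod_apply]
      exact ⟨hPadd _ _ (h₁ v.1).1 (h₂ v.2).1, by rw [smul_add, (h₁ v.1).2, (h₂ v.2).2, add_zero]⟩
    · rw [map_add, ← LinearMap.comp_apply, ← LinearMap.comp_apply, ← LinearMap.baseChange_comp,
        ← LinearMap.baseChange_comp, LinearMap.coprod_inl, LinearMap.coprod_inr, e₁, e₂]
  | smul r a _ ha =>
    obtain ⟨Q, i, j, φ, x, h, e⟩ := ha
    exact ⟨Q, i, j, φ, r • x, h, by rw [map_smul, e]⟩

/-- **Flat kernel of a fixed tensor.** -/
theorem s36f67_fixed_kill {O : Type*} [CommRing O] [Module.Flat ℤ O]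
    {ι J : Type*} [AddCommGroup J] (T : ι → J →ₗ[ℤ] J)
    (m : ℕ) [NeZero m] (c : ℕ) (P : J → Prop) (hP0 : P 0)
    (hPadd : ∀ x y, P x → P y → P (x + y))
    (hinv : ∀ x : J, P x → m • x = 0 → (∀ i, T i x = x) → c • x = 0)
    (z : O ⊗[ℤ] J)
    (hz : z ∈ Submodule.span O ((fun y : J => (1 : O) ⊗ₜ[ℤ] y) '' {y | P y ∧ m • y = 0}))
    (hfix : ∀ i, (T i).baseChange O z = z) : (c : O) • z = 0 := by
  classical
  obtain ⟨Q, iQ, jQ, φ, x, hφ, rfl⟩ := s36f67_exists_model m P hP0 hPadd z hz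
  let f : ι → Q →ₗ[ℤ] J := fun i => (T i - LinearMap.id) ∘ₗ φ
  have hf : ∀ i, (f i).baseChange O x = 0 := by
    intro i
    show ((T i - LinearMap.id) ∘ₗ φ).baseChange O x = 0
    rw [LinearMap.baseChange_comp, LinearMap.comp_apply, LinearMap.baseChange_sub,
      LinearMap.sub_apply, hfix i, LinearMap.baseChange_id, LinearMap.id_apply, sub_self]
  let g : Q → Q →ₗ[ℤ] J := fun v => if h : ∃ i, f i v ≠ 0 then f h.choose else 0
  have hg : ∀ v, (g v).baseChange O x = 0 := by
    intro v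
    by_cases h : ∃ i, f i v ≠ 0
    · have e : g v = f h.choose := dif_pos h
      rw [e]
      exact hf _
    · have e : g v = 0 := dif_neg h
      rw [e, LinearMap.baseChange_zero, LinearMap.zero_apply]
  have hmem := fkf56_mem_span_ker_family (O := O) g x hg
  have hψ : ∀ t ∈ Submodule.span O ((fun k : Q => (1 : O) ⊗ₜ[ℤ] k) '' {k | ∀ v, g v k = 0}),
      (c : O) • φ.baseChange O t = 0 := by
    intro t ht
    induction ht using Submodule.span_induction with
    | mem s hs =>
      obtain ⟨k, hk, rfl⟩ := hs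
      have hk' : ∀ i, f i k = 0 := by
        by_contra hne
        push Not at hne
        have h := hk k
        have e : g k = f hne.choose := dif_pos hne
        rw [e] at h
        exact hne.choose_spec h
      have hfixk : ∀ i, T i (φ k) = φ k := fun i => sub_eq_zero.mp (hk' i)
      have hc := hinv (φ k) (hφ k).1 (hφ k).2 hfixk
      rw [LinearMap.baseChange_tmul]
      have e1 : (c : O) = (((c : ℤ)) : O) := by push_cast; rfl
      have e2 : (((c : ℤ)) : O) • ((1 : O) ⊗ₜ[ℤ] φ k) = (1 : O) ⊗ₜ[ℤ] ((c : ℤ) • φ k) := by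
        rw [TensorProduct.smul_tmul', smul_eq_mul, mul_one, TensorProduct.tmul_smul,
          TensorProduct.smul_tmul', zsmul_eq_mul, mul_one]
      rw [e1, e2, natCast_zsmul, hc, TensorProduct.tmul_zero]
    | zero => rw [map_zero, smul_zero]
    | add a b _ _ ha hb => rw [map_add, smul_add, ha, hb, add_zero]
    | smul r a _ ha => rw [map_smul, smul_comm, ha, smul_zero]
  exact hψ x hmem

end Fermat.Agent.S36
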