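import Mathlib
import Fermat.Agent.S35.Endgame60
import Fermat.Agent.S30.CoreIface73
import Fermat.Agent.S36.UnipAlg67
import Fermat.Prelude.Def_CuspForm_Newforms
import Fermat.Prelude.Def_GaloisRep_LocalConditions

/-!
# S36 (helper67): the endgame gate

* `s36g67_M9`, `s36g67_ET` : the row (ET) of S35 (`s35e60_ET`) with (M8) replaced by **(M9)**: at
  a prime `q ≠ p` with `q² ∥ N`, for SOME place over `q` the inertia group does not act
  quadratically unipotently on the eigen-Tate module.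
* `s36g67_of_matrix`, `s36g67_endgame` : (CORE of S30) + `s36g67_ET` imply the conclusion of the
  frozen statement S36 (coefficients `O'' := O'`).
* `s36g67_M9_of_fixed`, `s36g67_ETfix`, `s36g67_ET_of_fix` : (M9) follows from **(FIX)**: at some
  place over `q` the inertia group fixes no nonzero vector of the module (`UnipAlg67`).
* `s36g67_Pkg_ET9`, `s36g67_result_of_pkg` : the one package consumed by the gate, and the gate:
  the package implies the frozen statement S36 (`lam ≠ 2` and `hres` are not used).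

All names are prefixed `s36g67_`.
-/

set_option autoImplicit false
set_option linter.unusedSectionVars false
set_option linter.unusedVariables false
set_option linter.style.longLine false

open CongruenceSubgroup ModularCurve ModularCurve.Period Polynomial
open scoped TensorProduct

namespace Fermat.Agent.S36

open Fermat.Agent.S30 Fermat.Agent.S16 Fermat.Agent.S35

local notation "Qb" => AlgebraicClosure ℚ
local notation "GQ" => AlgebraicClosure ℚ ≃ₐ[ℚ] AlgebraicClosure ℚ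

/-- **(M9)** at one prime `q`: at SOME place over `q` the inertia group does not act
quadratically unipotently on the module. -/
def s36g67_M9 (q : ℕ) (O : Type) [CommRing O] (M : Type) [AddCommGroup M] [Module O M]
    (ρ : GQ →* Module.End O M) : Prop :=
  ∃ A : ValuationSubring Qb, A.LiesOverPrime q ∧
    ¬ (∀ σ ∈ A.inertiaSubgroupIn ℚ, ∀ w : M, ρ σ (ρ σ w) - (2 : O) • ρ σ w + w = 0)

/-- **Conclusion of the row (ET) for S36**: the eigen-Tate module of S30 (without (M5)) with the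
new clause (M9) at the primes `q ≠ p` with `q² ∥ N`. -/
def s36g67_ET (p : ℕ) [Fact p.Prime] (N : ℕ) [NeZero N] (S : Finset ℕ)
    (O : Type) [CommRing O] [IsDomain O] [IsDiscreteValuationRing O]
    [IsAdicComplete (IsLocalRing.maximalIdeal O) O]
    (hp : (p : O) ∈ IsLocalRing.maximalIdeal O) (a : ℕ → O) : Prop :=
  ∃ (M : Type) (_ : AddCommGroup M) (_ : Module O M) (ρ : GQ →* Module.End O M),
    (∀ (b : O) (w : M), b • w = 0 → b = 0 ∨ w = 0) ∧
    (∀ w : M, (∀ n : ℕ, w ∈ (IsLocalRing.maximalIdeal O ^ n) • (⊤ : Submodule O M)) → w = 0) ∧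
    (∃ w : M, w ≠ 0) ∧
    (∀ (g : GQ) (w : M) (n : ℕ), ∃ b : O,
      ρ g w + ((ca15_eps p (IsLocalRing.maximalIdeal O) hp g : Oˣ) : O) • ρ g⁻¹ w - b • w ∈
        (IsLocalRing.maximalIdeal O ^ n) • (⊤ : Submodule O M)) ∧
    (∀ (w : M) (n : ℕ), ∃ E : IntermediateField ℚ Qb, FiniteDimensional ℚ E ∧
      ∀ σ : GQ, (∀ x ∈ E, σ x = x) →
        ρ σ w - w ∈ (IsLocalRing.maximalIdeal O ^ n) • (⊤ : Submodule O M)) ∧
    (∀ ℓ : ℕ, ℓ.Prime → ¬ ℓ ∣ N → ℓ ∉ S →
      ∀ A : ValuationSubring Qb, A.LiesOverPrime ℓ →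
        ∀ τ : GQ, A.IsFrobeniusAt τ ℓ →
          ∀ w : M, ρ τ (ρ τ w) - a ℓ • ρ τ w + (ℓ : O) • w = 0) ∧
    (∀ q : ℕ, q.Prime → q ≠ p → N.factorization q = 2 → s36g67_M9 q O M ρ)

/-- A monic quadratic `X² − t X + d` equal to `(X − 1)²` has `t = 2`, `d = 1`. -/
theorem s36g67_coeffs {R : Type*} [CommRing R] (t d : R)
    (h : (X ^ 2 - C t * X + C d : R[X]) = (X - 1) ^ 2) : t = 2 ∧ d = 1 := by
  have h0 := congrArg (fun f : R[X] => f.coeff 0) h
  have h1 := congrArg (fun f : R[X] => f.coeff 1) h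
  have e : ((X - 1) ^ 2 : R[X]) = X ^ 2 - C 2 * X + C 1 := by
    simp only [map_one, map_ofNat]; ring
  rw [e] at h0 h1
  simp only [coeff_add, coeff_sub, coeff_X_pow, coeff_C_mul, coeff_X_zero,
    coeff_X_one, coeff_C] at h0 h1
  norm_num at h0 h1
  exact ⟨h1, h0⟩

/-- **Conclusion of the frozen S36 from a matrix-valued representation** (coefficients
`O'' := O'`). -/
theorem s36g67_of_matrix {M : ℕ} [NeZero M] (lam : ℕ) (S : Finset ℕ)
    (O' : Type) [CommRing O'] [IsDomain O'] [IsDiscreteValuationRing O']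
    [IsAdicComplete (IsLocalRing.maximalIdeal O') O'] [Finite (IsLocalRing.ResidueField O')]
    [CharZero O']
    (χ : CuspForm.heckeAlgebra M 2 (↑S : Set ℕ) →+* O')
    (ρ' : GQ →* Matrix (Fin 2) (Fin 2) O')
    (htr : ∀ (ℓ : ℕ) (hℓ : ℓ.Prime) (hℓM : ¬ ℓ ∣ M) (hℓS : ℓ ∉ (↑S : Set ℕ)),
      ∀ A : ValuationSubring Qb, A.LiesOverPrime ℓ →
        ∀ σ : GQ, A.IsFrobeniusAt σ ℓ →
          (ρ' σ).trace = χ (CuspForm.heckeAlgebra.T hℓ hℓM hℓS) ∧ (ρ' σ).det = (ℓ : O'))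
    (hcont : ∀ n : ℕ, ∃ L : IntermediateField ℚ Qb, FiniteDimensional ℚ L ∧
      ∀ σ : GQ, (∀ x ∈ L, σ x = x) →
        ∀ i j, ρ' σ i j - (1 : Matrix (Fin 2) (Fin 2) O') i j ∈ IsLocalRing.maximalIdeal O' ^ n)
    (hbad : ∀ q : ℕ, q.Prime → q ≠ lam → M.factorization q = 2 →
      ∃ A : ValuationSubring Qb, A.LiesOverPrime q ∧
        ∃ σ ∈ A.inertiaSubgroupIn ℚ, ¬ ((ρ' σ).trace = 2 ∧ (ρ' σ).det = 1)) :
    ∃ (O'' : Type) (_ : CommRing O'') (_ : IsDomain O'') (_ : IsDiscreteValuationRing O'')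
      (_ : IsAdicComplete (IsLocalRing.maximalIdeal O'') O'') (_ : Finite (IsLocalRing.ResidueField O''))
      (_ : CharZero O'') (_ : Algebra O' O'') (_ : Module.Finite O' O'') (_ : IsLocalHom (algebraMap O' O'')),
      Function.Injective (algebraMap O' O'') ∧
      ∃ ρ : GaloisRepAdic O'',
        (∀ (ℓ : ℕ) (hℓ : ℓ.Prime) (hℓM : ¬ ℓ ∣ M) (hℓS : ℓ ∉ (↑S : Set ℕ)),
          ∀ A : ValuationSubring (AlgebraicClosure ℚ), A.LiesOverPrime ℓ →
            ∀ σ : AlgebraicClosure ℚ ≃ₐ[ℚ] AlgebraicClosure ℚ, A.IsFrobeniusAt σ ℓ →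
              LinearMap.charpoly (ρ.ρ σ) =
                X ^ 2 - C (algebraMap O' O'' (χ (CuspForm.heckeAlgebra.T hℓ hℓM hℓS))) * X
                  + C ((ℓ : O''))) ∧
        (∀ q : ℕ, q.Prime → q ≠ lam → M.factorization q = 2 → ¬ ρ.IsUnipotentOnInertiaAt q) := by
  refine ⟨O', inferInstance, inferInstance, inferInstance, inferInstance, inferInstance,
    inferInstance, Algebra.id O', inferInstance, ⟨fun a ha => ha⟩, fun a b h => h,
    w13_rep ρ' hcont, ?_, ?_⟩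
  · intro ℓ hℓ hℓM hℓS A hA σ hσ
    obtain ⟨h1, h2⟩ := htr ℓ hℓ hℓM hℓS A hA σ hσ
    rw [w13_rep_charpoly, h1, h2]
    rfl
  · intro q hq hqlam hq2 hunip
    obtain ⟨A, hA, σ, hσ, hnot⟩ := hbad q hq hqlam hq2
    have h := hunip A hA σ hσ
    rw [w13_rep_charpoly] at h
    exact hnot (s36g67_coeffs _ _ h)

/-- **S36 from its rows**: (CORE of S30) + `s36g67_ET` for the eigenvalues of `χ` imply the
conclusion of the frozen statement S36 for `(lam, M, S, O', χ)`. -/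
theorem s36g67_endgame (lam : ℕ) [Fact lam.Prime] (M : ℕ) [NeZero M] (S : Finset ℕ)
    (hlamS : lam ∈ S) (hMS : ∀ q : ℕ, q.Prime → q ∣ M → q ∈ S)
    (O' : Type) [CommRing O'] [IsDomain O'] [IsDiscreteValuationRing O']
    [IsAdicComplete (IsLocalRing.maximalIdeal O') O'] [Finite (IsLocalRing.ResidueField O')]
    [CharZero O'] (hlamO' : (lam : O') ∈ IsLocalRing.maximalIdeal O')
    (χ : CuspForm.heckeAlgebra M 2 (↑S : Set ℕ) →+* O')
    (hcore : s30i37_Core O')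
    (het : s36g67_ET lam M S O' hlamO' (fun ℓ =>
      if h : ℓ.Prime ∧ ¬ ℓ ∣ M ∧ ℓ ∉ (↑S : Set ℕ) then
        χ (CuspForm.heckeAlgebra.T h.1 h.2.1 h.2.2) else 0)) :
    ∃ (O'' : Type) (_ : CommRing O'') (_ : IsDomain O'') (_ : IsDiscreteValuationRing O'')
      (_ : IsAdicComplete (IsLocalRing.maximalIdeal O'') O'') (_ : Finite (IsLocalRing.ResidueField O''))
      (_ : CharZero O'') (_ : Algebra O' O'') (_ : Module.Finite O' O'') (_ : IsLocalHom (algebraMap O' O'')),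
      Function.Injective (algebraMap O' O'') ∧
      ∃ ρ : GaloisRepAdic O'',
        (∀ (ℓ : ℕ) (hℓ : ℓ.Prime) (hℓM : ¬ ℓ ∣ M) (hℓS : ℓ ∉ (↑S : Set ℕ)),
          ∀ A : ValuationSubring (AlgebraicClosure ℚ), A.LiesOverPrime ℓ →
            ∀ σ : AlgebraicClosure ℚ ≃ₐ[ℚ] AlgebraicClosure ℚ, A.IsFrobeniusAt σ ℓ →
              LinearMap.charpoly (ρ.ρ σ) =
                X ^ 2 - C (algebraMap O' O'' (χ (CuspForm.heckeAlgebra.T hℓ hℓM hℓS))) * X
                  + C ((ℓ : O''))) ∧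
        (∀ q : ℕ, q.Prime → q ≠ lam → M.factorization q = 2 → ¬ ρ.IsUnipotentOnInertiaAt q) := by
  classical
  obtain ⟨Mod, instM1, instM2, ρ, hM1, hM2, hM3, hM4, hM6, hM7, hM9⟩ := het
  obtain ⟨t, ρ', hC1, hC2, hC3, hC4⟩ :=
    hcore GQ Mod ρ (ca15_eps lam (IsLocalRing.maximalIdeal O') hlamO') complexConjugation
      hM1 hM2 hM3 hM4 complexConjugation_mul_self
      (ca15_eps_conj' lam (IsLocalRing.maximalIdeal O') hlamO')
  have hquad : ∀ (ℓ : ℕ), ℓ.Prime → ℓ ≠ lam → ∀ A : ValuationSubring Qb, A.LiesOverPrime ℓ →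
      ∀ σ : GQ, A.IsFrobeniusAt σ ℓ →
        ∀ w : Mod, ρ σ (ρ σ w) - t σ • ρ σ w + (ℓ : O') • w = 0 := by
    intro ℓ hℓ hℓlam A hA σ hσ w
    have hε : ((ca15_eps lam (IsLocalRing.maximalIdeal O') hlamO' σ : O'ˣ) : O') = (ℓ : O') :=
      ca15_eps_frob lam (IsLocalRing.maximalIdeal O') hlamO' hℓ hℓlam A hA σ hσ
    have hinv : ρ σ⁻¹ (ρ σ w) = w := by
      have : ρ σ⁻¹ * ρ σ = 1 := by rw [← map_mul, inv_mul_cancel, map_one]
      exact congrArg (fun f : Module.End O' Mod => f w) this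
    have h1 := congrArg (fun f : Module.End O' Mod => f (ρ σ w)) (hC1 σ)
    simp only [LinearMap.add_apply, LinearMap.smul_apply, Module.End.one_apply] at h1
    rw [hinv, hε] at h1
    rw [← h1]
    abel
  refine s36g67_of_matrix lam S O' χ ρ' ?_ ?_ ?_
  · intro ℓ hℓ hℓM hℓS A hA σ hσ
    have hℓS' : ℓ ∉ S := fun hm => hℓS (Finset.mem_coe.mpr hm)
    have hℓlam : ℓ ≠ lam := fun h => hℓS' (h ▸ hlamS)
    have hε : ((ca15_eps lam (IsLocalRing.maximalIdeal O') hlamO' σ : O'ˣ) : O') = (ℓ : O') :=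
      ca15_eps_frob lam (IsLocalRing.maximalIdeal O') hlamO' hℓ hℓlam A hA σ hσ
    obtain ⟨htr, hdet⟩ := hC2 σ
    refine ⟨?_, by rw [hdet, hε]⟩
    rw [htr]
    obtain ⟨w, hw⟩ := hM3
    have hinv : ρ σ⁻¹ (ρ σ w) = w := by
      have : ρ σ⁻¹ * ρ σ = 1 := by rw [← map_mul, inv_mul_cancel, map_one]
      exact congrArg (fun f : Module.End O' Mod => f w) this
    have h1 := hquad ℓ hℓ hℓlam A hA σ hσ w
    have h2 : ρ σ (ρ σ w) - χ (CuspForm.heckeAlgebra.T hℓ hℓM hℓS) • ρ σ w + (ℓ : O') • w = 0 := by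
      have h0 := hM7 ℓ hℓ hℓM hℓS' A hA σ hσ w
      simpa only [dif_pos (show ℓ.Prime ∧ ¬ ℓ ∣ M ∧ ℓ ∉ (↑S : Set ℕ) from ⟨hℓ, hℓM, hℓS⟩)]
        using h0
    have h3 : (t σ - χ (CuspForm.heckeAlgebra.T hℓ hℓM hℓS)) • ρ σ w = 0 := by
      rw [sub_smul]
      have h5 : t σ • ρ σ w - χ (CuspForm.heckeAlgebra.T hℓ hℓM hℓS) • ρ σ w
          = (ρ σ (ρ σ w) - χ (CuspForm.heckeAlgebra.T hℓ hℓM hℓS) • ρ σ w + (ℓ : O') • w)
            - (ρ σ (ρ σ w) - t σ • ρ σ w + (ℓ : O') • w) := by abel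
      rw [h5, h1, h2, sub_zero]
    rcases hM1 _ _ h3 with h4 | h4
    · exact sub_eq_zero.mp h4
    · exact absurd (by rw [← hinv, h4, map_zero]) hw
  · intro n
    obtain ⟨s, k, hsk⟩ := hC4 n
    have hfield : ∃ E : IntermediateField ℚ Qb, FiniteDimensional ℚ E ∧
        ∀ σ : GQ, (∀ x ∈ E, σ x = x) →
          (∀ w ∈ s, ρ σ w - w ∈
            (IsLocalRing.maximalIdeal O' ^ k) • (⊤ : Submodule O' Mod)) := by
      exact s30e37_fields_finset s
        (fun w σ => ρ σ w - w ∈ (IsLocalRing.maximalIdeal O' ^ k) • (⊤ : Submodule O' Mod))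
        (fun w _ => hM6 w k)
    obtain ⟨E₁, hE₁, h₁⟩ := s30e37_conj hfield
    obtain ⟨E₂, hE₂, h₂⟩ := ca15_eps_cont lam (IsLocalRing.maximalIdeal O') hlamO' k
    haveI := hE₁
    haveI := hE₂
    refine ⟨E₁ ⊔ E₂, IntermediateField.finiteDimensional_sup E₁ E₂, fun σ hσ i j => ?_⟩
    refine hsk σ (fun h w hw => ?_) ?_ i j
    · exact h₁ σ (fun x hx => hσ x ((le_sup_left : E₁ ≤ E₁ ⊔ E₂) hx)) h w hw
    · exact h₂ σ fun x hx => hσ x ((le_sup_right : E₂ ≤ E₁ ⊔ E₂) hx)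
  · -- the inertia at `q² ∥ M`, `q ≠ lam`
    intro q hq hqlam hq2
    obtain ⟨A, hA, hnot⟩ := hM9 q hq hqlam hq2
    refine ⟨A, hA, ?_⟩
    by_contra hall
    refine hnot (fun σ hσ w => ?_)
    obtain ⟨htr2, hdet1⟩ : (ρ' σ).trace = 2 ∧ (ρ' σ).det = 1 := by
      by_contra hc
      exact hall ⟨σ, hσ, hc⟩
    obtain ⟨htr, hdet⟩ := hC2 σ
    have ht : t σ = 2 := by rw [← htr, htr2]
    have hε : ((ca15_eps lam (IsLocalRing.maximalIdeal O') hlamO' σ : O'ˣ) : O') = 1 := by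
      rw [← hdet, hdet1]
    have hinv : ρ σ⁻¹ (ρ σ w) = w := by
      have : ρ σ⁻¹ * ρ σ = 1 := by rw [← map_mul, inv_mul_cancel, map_one]
      exact congrArg (fun f : Module.End O' Mod => f w) this
    have h1 := congrArg (fun f : Module.End O' Mod => f (ρ σ w)) (hC1 σ)
    simp only [LinearMap.add_apply, LinearMap.smul_apply, Module.End.one_apply] at h1
    rw [hinv, hε, ht, one_smul] at h1
    rw [← h1]
    abel

/-! ### (M9) from "no nonzero inertia-fixed vector" -/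

/-- **(M9) from (FIX)**: if at some place over `q` the only vector of the (torsion-free, nonzero)
module fixed by the inertia group is `0`, then the inertia group does not act quadratically
unipotently. -/
theorem s36g67_M9_of_fixed (q : ℕ) (O : Type) [CommRing O] [CharZero O]
    (Mod : Type) [AddCommGroup Mod] [Module O Mod] (ρ : GQ →* Module.End O Mod)
    (hM1 : ∀ (b : O) (w : Mod), b • w = 0 → b = 0 ∨ w = 0) (hM3 : ∃ w : Mod, w ≠ 0)
    (A : ValuationSubring Qb) (hA : A.LiesOverPrime q)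
    (hfix : ∀ w : Mod, (∀ σ ∈ A.inertiaSubgroupIn ℚ, ρ σ w = w) → w = 0) :
    s36g67_M9 q O Mod ρ := by
  refine ⟨A, hA, fun hU => ?_⟩
  obtain ⟨w₀, hw₀⟩ := hM3
  have h2 : ∀ w : Mod, w + w = 0 → w = 0 := by
    intro w hw
    have h : (2 : O) • w = 0 := by rw [two_smul]; exact hw
    rcases hM1 _ _ h with h | h
    · exact absurd h two_ne_zero
    · exact h
  obtain ⟨y, hy, hyfix⟩ := s36u67_exists_fixed ρ (A.inertiaSubgroupIn ℚ) h2 hU w₀ hw₀
  exact hy (hfix y hyfix)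

/-- **Row (ET) for S36, fixed-vector form**: the eigen-Tate module of S30 (without (M5)) with the
clause **(FIX)**: at every prime `q ≠ p` with `q² ∥ N` there is a place over `q` whose inertia
group fixes no nonzero vector of the module. -/
def s36g67_ETfix (p : ℕ) [Fact p.Prime] (N : ℕ) [NeZero N] (S : Finset ℕ)
    (O : Type) [CommRing O] [IsDomain O] [IsDiscreteValuationRing O]
    [IsAdicComplete (IsLocalRing.maximalIdeal O) O]
    (hp : (p : O) ∈ IsLocalRing.maximalIdeal O) (a : ℕ → O) : Prop :=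
  ∃ (M : Type) (_ : AddCommGroup M) (_ : Module O M) (ρ : GQ →* Module.End O M),
    (∀ (b : O) (w : M), b • w = 0 → b = 0 ∨ w = 0) ∧
    (∀ w : M, (∀ n : ℕ, w ∈ (IsLocalRing.maximalIdeal O ^ n) • (⊤ : Submodule O M)) → w = 0) ∧
    (∃ w : M, w ≠ 0) ∧
    (∀ (g : GQ) (w : M) (n : ℕ), ∃ b : O,
      ρ g w + ((ca15_eps p (IsLocalRing.maximalIdeal O) hp g : Oˣ) : O) • ρ g⁻¹ w - b • w ∈
        (IsLocalRing.maximalIdeal O ^ n) • (⊤ : Submodule O M)) ∧
    (∀ (w : M) (n : ℕ), ∃ E : IntermediateField ℚ Qb, FiniteDimensional ℚ E ∧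
      ∀ σ : GQ, (∀ x ∈ E, σ x = x) →
        ρ σ w - w ∈ (IsLocalRing.maximalIdeal O ^ n) • (⊤ : Submodule O M)) ∧
    (∀ ℓ : ℕ, ℓ.Prime → ¬ ℓ ∣ N → ℓ ∉ S →
      ∀ A : ValuationSubring Qb, A.LiesOverPrime ℓ →
        ∀ τ : GQ, A.IsFrobeniusAt τ ℓ →
          ∀ w : M, ρ τ (ρ τ w) - a ℓ • ρ τ w + (ℓ : O) • w = 0) ∧
    (∀ q : ℕ, q.Prime → q ≠ p → N.factorization q = 2 →
      ∃ A : ValuationSubring Qb, A.LiesOverPrime q ∧
        ∀ w : M, (∀ σ ∈ A.inertiaSubgroupIn ℚ, ρ σ w = w) → w = 0)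

/-- The fixed-vector form of the row implies the form consumed by the endgame. -/
theorem s36g67_ET_of_fix (p : ℕ) [Fact p.Prime] (N : ℕ) [NeZero N] (S : Finset ℕ)
    (O : Type) [CommRing O] [IsDomain O] [IsDiscreteValuationRing O]
    [IsAdicComplete (IsLocalRing.maximalIdeal O) O] [CharZero O]
    (hp : (p : O) ∈ IsLocalRing.maximalIdeal O) (a : ℕ → O)
    (h : s36g67_ETfix p N S O hp a) : s36g67_ET p N S O hp a := by
  obtain ⟨Mod, i1, i2, ρ, hM1, hM2, hM3, hM4, hM6, hM7, hfix⟩ := h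
  refine ⟨Mod, i1, i2, ρ, hM1, hM2, hM3, hM4, hM6, hM7, fun q hq hqp hq2 => ?_⟩
  obtain ⟨A, hA, hA'⟩ := hfix q hq hqp hq2
  exact s36g67_M9_of_fixed q O Mod ρ hM1 hM3 A hA hA'

/-- **P-ET9** (the one package consumed by the gate): for a newform `g` of level `M` and a
character `iota ∘ chig` of the Hecke algebra with the eigenvalues of `g`, the eigen-Tate module
with the clause (M9) at the primes `q ≠ lam`, `q² ∥ M`. -/
def s36g67_Pkg_ET9 : Prop :=
  ∀ (M : ℕ) [NeZero M] (g : CuspForm (CongruenceSubgroup.Gamma0 M) 2), g.IsNewform →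
    ∀ (lam : ℕ) [Fact lam.Prime] (S : Finset ℕ)
      (O' : Type) [CommRing O'] [IsDomain O'] [IsDiscreteValuationRing O']
      [IsAdicComplete (IsLocalRing.maximalIdeal O') O'] [Finite (IsLocalRing.ResidueField O')]
      [CharZero O'] (hlamO' : (lam : O') ∈ IsLocalRing.maximalIdeal O')
      (chig : CuspForm.heckeAlgebra M 2 (↑S : Set ℕ) →+* ℂ),
      (∀ (ℓ : ℕ) (hℓ : ℓ.Prime) (hℓM : ¬ ℓ ∣ M) (hℓS : ℓ ∉ (↑S : Set ℕ)),
        chig (CuspForm.heckeAlgebra.T hℓ hℓM hℓS) = ModularFormClass.qCoeff g ℓ) →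
      ∀ (iota : chig.range →+* O'), lam ∈ S → (∀ q : ℕ, q.Prime → q ∣ M → q ∈ S) →
        s36g67_ET lam M S O' hlamO' (fun ℓ =>
          if h : ℓ.Prime ∧ ¬ ℓ ∣ M ∧ ℓ ∉ (↑S : Set ℕ) then
            (iota.comp chig.rangeRestrict) (CuspForm.heckeAlgebra.T h.1 h.2.1 h.2.2) else 0)

/-- **GATE**: the package P-ET9 implies the frozen statement S36 (the hypotheses `lam ≠ 2` and
`hres` of the frozen statement are not used). -/
theorem s36g67_result_of_pkg (hET : s36g67_Pkg_ET9)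
    {M : ℕ} [NeZero M] {g : CuspForm (CongruenceSubgroup.Gamma0 M) 2} (hg : g.IsNewform)
    (lam : ℕ) [Fact lam.Prime]
    (S : Finset ℕ)
    (O' : Type) [CommRing O'] [IsDomain O'] [IsDiscreteValuationRing O']
    [IsAdicComplete (IsLocalRing.maximalIdeal O') O'] [Finite (IsLocalRing.ResidueField O')]
    [CharZero O'] (hlamO' : (lam : O') ∈ IsLocalRing.maximalIdeal O')
    (chig : CuspForm.heckeAlgebra M 2 (↑S : Set ℕ) →+* ℂ)
    (hchig : ∀ (ℓ : ℕ) (hℓ : ℓ.Prime) (hℓM : ¬ ℓ ∣ M) (hℓS : ℓ ∉ (↑S : Set ℕ)),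
      chig (CuspForm.heckeAlgebra.T hℓ hℓM hℓS) = ModularFormClass.qCoeff g ℓ)
    (iota : chig.range →+* O')
    (hlamS : lam ∈ S) (hMS : ∀ q : ℕ, q.Prime → q ∣ M → q ∈ S) :
    ∃ (O'' : Type) (_ : CommRing O'') (_ : IsDomain O'') (_ : IsDiscreteValuationRing O'')
      (_ : IsAdicComplete (IsLocalRing.maximalIdeal O'') O'') (_ : Finite (IsLocalRing.ResidueField O''))
      (_ : CharZero O'') (_ : Algebra O' O'') (_ : Module.Finite O' O'') (_ : IsLocalHom (algebraMap O' O'')),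
      Function.Injective (algebraMap O' O'') ∧
      ∃ ρ : GaloisRepAdic O'',
        (∀ (ℓ : ℕ) (hℓ : ℓ.Prime) (hℓM : ¬ ℓ ∣ M) (hℓS : ℓ ∉ (↑S : Set ℕ)),
          ∀ A : ValuationSubring (AlgebraicClosure ℚ), A.LiesOverPrime ℓ →
            ∀ σ : AlgebraicClosure ℚ ≃ₐ[ℚ] AlgebraicClosure ℚ, A.IsFrobeniusAt σ ℓ →
              LinearMap.charpoly (ρ.ρ σ) =
                X ^ 2 - C (algebraMap O' O'' ((iota.comp chig.rangeRestrict) (CuspForm.heckeAlgebra.T hℓ hℓM hℓS))) * X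
                  + C ((ℓ : O''))) ∧
        (∀ q : ℕ, q.Prime → q ≠ lam → M.factorization q = 2 → ¬ ρ.IsUnipotentOnInertiaAt q) :=
  s36g67_endgame lam M S hlamS hMS O' hlamO' (iota.comp chig.rangeRestrict)
    (ex73_s30i37_core_charZero O')
    (hET M g hg lam S O' hlamO' chig hchig iota hlamS hMS)

end Fermat.Agent.S36
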