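import Mathlib
import Fermat.Agent.S35.PkgET60
import Fermat.Agent.S35.PushJacC40
import Fermat.Agent.S36.FixAlg67
import Fermat.Agent.S36.Gate67

/-!
# S36 (helper67): the gate against (NEW) and (INV)

The frozen statement S36 from two closed `Prop`s:

* `s36g67_Pkg_New` : (NEW) at the primes `q ≠ lam` with `q² ∥ M` — the literal
  `s35i62_Pkg_New` of `S35/Iface62` with `q ∣ M → ¬ q ^ 2 ∣ M` replaced by
  `M.factorization q = 2`;
* `s36g67_Pkg_Inv` : **(INV)** — for `q² ∥ N`, `p ≠ q` there are a constant `c > 0` and a place `A`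
  over `q` such that every `q`-new `x ∈ J₀(N)[pⁿ]` fixed by the inertia group of `A` is killed by
  `c` (`c` does not depend on `n`).

Route (`s36g67_M9_ea21`): if the inertia group of `A` acted quadratically unipotently on the
eigen-Tate module `ea21_M` of S30, some nonzero vector `y` of the Galois-stable submodule `W` of
sequences with components in `O ⊗ {q-new, pⁿ-torsion}` (it contains the marked vector of
`S35/Marked60`) would be fixed by it (`s36f67_exists_fixed_in`); each component of `y` is a fixed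
tensor, hence killed by `c` (`s36f67_fixed_kill`, flatness of `O` over `ℤ`); so `c • y = 0`,
contradicting (M1).

All names are prefixed `s36g67_`.
-/

set_option autoImplicit false
set_option linter.unusedSectionVars false
set_option linter.unusedVariables false
set_option linter.style.longLine false
set_option linter.style.haveILetI false

open CongruenceSubgroup ModularCurve ModularCurve.Period AlgebraicCurve Polynomial
open scoped TensorProduct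

namespace Fermat.Agent.S36

open Fermat.Agent.S30 Fermat.Agent.S16 Fermat.Agent.S35 Fermat.Agent.S42

local notation "Qb" => AlgebraicClosure ℚ
local notation "GQ" => AlgebraicClosure ℚ ≃ₐ[ℚ] AlgebraicClosure ℚ

/-- **(INV)** at level `N`, prime `q`, coefficient prime `p`: a constant `c > 0` and a place `A`
over `q` such that every `q`-new point of `J₀(N)[pⁿ]` fixed by the inertia group of `A` is killed
by `c`. -/
def s36g67_InvAt (N q p : ℕ) : Prop :=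
  ∃ c : ℕ, 0 < c ∧ ∃ A : ValuationSubring Qb, A.LiesOverPrime q ∧
    ∀ (n : ℕ) (x : JZero N), (p ^ n) • x = 0 → s35i62_IsNewAt N q x →
      (∀ σ ∈ A.inertiaSubgroupIn ℚ, σ • x = x) → c • x = 0

theorem s36g67_isNewAt_zero (N q : ℕ) : s35i62_IsNewAt N q (0 : JZero N) := by
  intro M' _ _ h
  subst h
  exact pj40_isNew_zero M' q

theorem s36g67_isNewAt_add (N q : ℕ) (x y : JZero N) (hx : s35i62_IsNewAt N q x)
    (hy : s35i62_IsNewAt N q y) : s35i62_IsNewAt N q (x + y) := by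
  intro M' _ _ h
  subst h
  exact pj40_isNew_add M' q (hx M' rfl) (hy M' rfl)

theorem s36g67_isNewAt_smul (N q : ℕ) (σ : GQ) (x : JZero N) (hx : s35i62_IsNewAt N q x) :
    s35i62_IsNewAt N q (σ • x) := by
  intro M' _ _ h
  subst h
  exact pj40_isNew_smul M' q σ (hx M' rfl)

section s36g67_main

variable (p : ℕ) [Fact p.Prime] (N : ℕ) [NeZero N] (S : Finset ℕ)
  (O : Type) [CommRing O] [IsDomain O] [IsDiscreteValuationRing O]
  [IsAdicComplete (IsLocalRing.maximalIdeal O) O] [CharZero O] (a : ℕ → O)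

/-- The `O`-span in `O ⊗ J₀(N)` of the `q`-new points of order dividing `pⁿ`. -/
noncomputable def s36g67_Z (q n : ℕ) : Submodule O (tt21_B O N) :=
  Submodule.span O ((fun y : JZero N => (1 : O) ⊗ₜ[ℤ] y) ''
    {y | s35i62_IsNewAt N q y ∧ (p ^ n) • y = 0})

/-- The span is stable under the Galois action. -/
theorem s36g67_Z_gal (q n : ℕ) (g : GQ) (z : tt21_B O N) (hz : z ∈ s36g67_Z p N O q n) :
    tt21_gal O N g z ∈ s36g67_Z p N O q n := by
  have hle : s36g67_Z p N O q n ≤ (s36g67_Z p N O q n).comap (tt21_gal O N g) := by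
    refine Submodule.span_le.mpr ?_
    rintro _ ⟨y, ⟨hy1, hy2⟩, rfl⟩
    show tt21_gal O N g ((1 : O) ⊗ₜ[ℤ] y) ∈ s36g67_Z p N O q n
    rw [tt21_gal_tmul]
    refine Submodule.subset_span ⟨g • y, ⟨s36g67_isNewAt_smul N q g y hy1, ?_⟩, rfl⟩
    rw [smul_comm, hy2]
    exact smul_zero (A := JZero N) g
  exact hle hz

/-- The sequences with components in the spans `s36g67_Z`. -/
noncomputable def s36g67_W (q : ℕ) : Submodule O (ea21_M p N S O a) where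
  carrier := {w | ∀ n, ea21_comp p N S O a w n ∈ s36g67_Z p N O q n}
  add_mem' := by
    intro w w' hw hw' n
    rw [ea21_comp_add]
    exact Submodule.add_mem _ (hw n) (hw' n)
  zero_mem' := by
    intro n
    show (0 : tt21_B O N) ∈ s36g67_Z p N O q n
    exact Submodule.zero_mem _
  smul_mem' := by
    intro c w hw n
    rw [ea21_comp_smul]
    exact Submodule.smul_mem _ c (hw n)

theorem s36g67_mem_W (q : ℕ) (w : ea21_M p N S O a) :
    w ∈ s36g67_W p N S O a q ↔ ∀ n, ea21_comp p N S O a w n ∈ s36g67_Z p N O q n := Iff.rfl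

set_option maxHeartbeats 1600000 in
/-- **(M9) for the eigen-Tate module of S30** at a prime `q` from the marked vector, the newness of
the Kummer images of the lattice `K` and (INV). -/
theorem s36g67_M9_ea21 (hp : (p : O) ∈ IsLocalRing.maximalIdeal O)
    (hpS : p ∈ S) (hNS : ∀ q : ℕ, q.Prime → q ∣ N → q ∈ S)
    (TL : ℕ → Module.End ℤ ↥(parabolicHoms ℤ (Gamma0 N) ℤ))
    (x0 : O ⊗[ℤ] ↥(parabolicHoms ℤ (Gamma0 N) ℤ))
    (Θ : ℕ → (↥(parabolicHoms ℤ (Gamma0 N) ℤ) →+ JZero N))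
    (hTL : ∀ ℓ : ℕ, ℓ.Prime → ℓ ∉ S → ∀ x : ↥(parabolicHoms ℤ (Gamma0 N) ℤ),
      ((TL ℓ x : ↥(parabolicHoms ℤ (Gamma0 N) ℤ)) : Additive ↥(Gamma0 N) →+ ℤ) =
        heckeHom N ℓ ℤ (x : Additive ↥(Gamma0 N) →+ ℤ))
    (hx0 : x0 ∉ IsLocalRing.maximalIdeal O •
      (⊤ : Submodule O (O ⊗[ℤ] ↥(parabolicHoms ℤ (Gamma0 N) ℤ))))
    (hx0a : ∀ ℓ : ℕ, ℓ.Prime → ℓ ∉ S → (TL ℓ).baseChange O x0 = a ℓ • x0)
    (hΘ : s30i37_ThetaFamily N p Θ)
    (K : AddSubgroup ↥(parabolicHoms ℤ (Gamma0 N) ℤ))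
    (hK : x0 ∈ Submodule.span O ((fun k : ↥(parabolicHoms ℤ (Gamma0 N) ℤ) => (1 : O) ⊗ₜ[ℤ] k) ''
      (K : Set ↥(parabolicHoms ℤ (Gamma0 N) ℤ))))
    (q : ℕ) (hKnew : ∀ k ∈ K, ∀ n : ℕ, s35i62_IsNewAt N q (Θ n k))
    (hInv : s36g67_InvAt N q p) :
    s36g67_M9 q O ↥(ea21_M p N S O a) (ea21_rho p N S O a) := by
  classical
  obtain ⟨c, hc0, A, hA, hinv⟩ := hInv
  refine ⟨A, hA, fun hU => ?_⟩
  have hpp : p.Prime := Fact.out
  have h1 : ∀ x, (p : ℤ) • Θ 1 x = 0 := by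
    intro x
    have := hΘ.1 1 x
    rwa [pow_one] at this
  have hc : ∀ n, 1 ≤ n → ∀ x, (p : ℤ) • Θ (n + 1) x = Θ n x := fun n _ x => hΘ.2.2.2 n x
  have hmem := s35v60_theta_mem p N S O a hpS hNS TL x0 Θ hTL hx0a hΘ h1 hc
  have hne := s35v60_theta_ne p N O hp x0 Θ hx0 hΘ h1 hc
  have hM1 := ea21_M1 p N S O a hp
  have h2 : ∀ w : ea21_M p N S O a, w + w = 0 → w = 0 := by
    intro w hw
    have h : (2 : O) • w = 0 := by rw [two_smul]; exact hw
    rcases hM1 _ _ h with h | h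
    · exact absurd h two_ne_zero
    · exact h
  -- the marked vector
  obtain ⟨w₀, hw₀ne, hw₀c⟩ : ∃ w₀ : ea21_M p N S O a, w₀ ≠ 0 ∧
      ∀ n, ea21_comp p N S O a w₀ (n + 1) = (Θ (n + 1)).toIntLinearMap.baseChange O x0 :=
    ⟨⟨ts35_theta O p Θ h1 hc x0, hmem⟩, fun h0 => hne (congrArg Subtype.val h0),
      fun n => ts35_theta_apply_succ O p Θ h1 hc x0 n⟩
  -- the marked vector lies in `W`
  have hw₀W : w₀ ∈ s36g67_W p N S O a q := by
    refine (s36g67_mem_W p N S O a q w₀).mpr fun n => ?_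
    cases n with
    | zero =>
      rw [ea21_comp_zero]
      exact Submodule.zero_mem _
    | succ n =>
      rw [hw₀c n]
      have hle : Submodule.span O
          ((fun k : ↥(parabolicHoms ℤ (Gamma0 N) ℤ) => (1 : O) ⊗ₜ[ℤ] k) ''
            (K : Set ↥(parabolicHoms ℤ (Gamma0 N) ℤ))) ≤
          (s36g67_Z p N O q (n + 1)).comap ((Θ (n + 1)).toIntLinearMap.baseChange O) := by
        refine Submodule.span_le.mpr ?_
        rintro _ ⟨k, hk, rfl⟩
        show (Θ (n + 1)).toIntLinearMap.baseChange O ((1 : O) ⊗ₜ[ℤ] k) ∈ s36g67_Z p N O q (n + 1)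
        rw [LinearMap.baseChange_tmul]
        refine Submodule.subset_span ⟨Θ (n + 1) k, ⟨hKnew k hk (n + 1), ?_⟩, rfl⟩
        have h := hΘ.1 (n + 1) k
        rwa [natCast_zsmul] at h
      exact hle hK
  -- `W` is stable
  have hW : ∀ g ∈ A.inertiaSubgroupIn ℚ, ∀ w ∈ s36g67_W p N S O a q,
      ea21_rho p N S O a g w ∈ s36g67_W p N S O a q := by
    intro g _ w hw
    refine (s36g67_mem_W p N S O a q _).mpr fun n => ?_
    rw [ea21_comp_rho]
    exact s36g67_Z_gal p N O q n g _ ((s36g67_mem_W p N S O a q w).mp hw n)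
  obtain ⟨y, hyW, hy0, hyfix⟩ := s36f67_exists_fixed_in (ea21_rho p N S O a)
    (A.inertiaSubgroupIn ℚ) h2 hU (s36g67_W p N S O a q) hW w₀ hw₀W hw₀ne
  -- every component of `y` is killed by `c`
  haveI : Module.Flat ℤ O := fk56_flat_int O
  have hkill : ∀ n, (c : O) • ea21_comp p N S O a y n = 0 := by
    intro n
    haveI : NeZero (p ^ n) := ⟨pow_ne_zero n hpp.ne_zero⟩
    refine s36f67_fixed_kill (O := O) (ι := ↥(A.inertiaSubgroupIn ℚ))
      (fun σ => tt21_galZ N σ.1) (p ^ n) c (fun x => s35i62_IsNewAt N q x)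
      (s36g67_isNewAt_zero N q) (s36g67_isNewAt_add N q) ?_ _
      ((s36g67_mem_W p N S O a q y).mp hyW n) ?_
    · intro x hx1 hx2 hx3
      exact hinv n x hx2 hx1 (fun σ hσ => hx3 ⟨σ, hσ⟩)
    · intro σ
      have h := congrArg (fun w => ea21_comp p N S O a w n) (hyfix σ.1 σ.2)
      exact h
  have hcy : (c : O) • y = 0 := by
    refine ea21_ext p N S O a _ _ fun n => ?_
    rw [ea21_comp_smul, hkill n]
    rfl
  rcases hM1 _ _ hcy with h | h
  · exact absurd (Nat.cast_eq_zero.mp h) (Nat.pos_iff_ne_zero.mp hc0)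
  · exact hy0 h

end s36g67_main

/-- **NEW for S36**: `s35i62_NewClaim` of `S35/Iface62` with the newness clause at the primes
`q ≠ lam` with `q² ∥ M`. -/
def s36g67_NewClaim (M : ℕ) [NeZero M] (lam : ℕ) (S : Finset ℕ)
    (O' : Type) [CommRing O'] [IsDomain O'] [IsDiscreteValuationRing O']
    (χ : CuspForm.heckeAlgebra M 2 (↑S : Set ℕ) →+* O') : Prop :=
  ∃ Θ : ℕ → (↥(parabolicHoms ℤ (Gamma0 M) ℤ) →+ JZero M), s30i37_ThetaFamily M lam Θ ∧
    ∃ Φ : CuspForm.heckeAlgebra M 2 (↑S : Set ℕ) →+*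
        Module.End ℤ ↥(parabolicHoms ℤ (Gamma0 M) ℤ),
      (∀ (ℓ : ℕ) (hℓ : ℓ.Prime) (hℓN : ¬ ℓ ∣ M) (hℓS : ℓ ∉ (↑S : Set ℕ))
          (x : ↥(parabolicHoms ℤ (Gamma0 M) ℤ)),
        ((Φ (CuspForm.heckeAlgebra.T hℓ hℓN hℓS) x : ↥(parabolicHoms ℤ (Gamma0 M) ℤ)) :
          Additive ↥(Gamma0 M) →+ ℤ) = heckeHom M ℓ ℤ (x : Additive ↥(Gamma0 M) →+ ℤ)) ∧
      ∃ (x0 : O' ⊗[ℤ] ↥(parabolicHoms ℤ (Gamma0 M) ℤ))
        (K : AddSubgroup ↥(parabolicHoms ℤ (Gamma0 M) ℤ)),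
        x0 ∉ IsLocalRing.maximalIdeal O' •
          (⊤ : Submodule O' (O' ⊗[ℤ] ↥(parabolicHoms ℤ (Gamma0 M) ℤ))) ∧
        (∀ t : CuspForm.heckeAlgebra M 2 (↑S : Set ℕ), (Φ t).baseChange O' x0 = χ t • x0) ∧
        x0 ∈ Submodule.span O' ((fun k : ↥(parabolicHoms ℤ (Gamma0 M) ℤ) => (1 : O') ⊗ₜ[ℤ] k) ''
          (K : Set ↥(parabolicHoms ℤ (Gamma0 M) ℤ))) ∧
        ∀ k ∈ K, ∀ (n q : ℕ), q.Prime → q ≠ lam → M.factorization q = 2 →
          s35i62_IsNewAt M q (Θ n k)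

/-- **The row (ET) of S36 from (NEW) and (INV)**: the eigen-Tate module `ea21_M` of S30 with the
clause (M9). -/
theorem s36g67_ET_of_inv (lam : ℕ) [Fact lam.Prime] (M : ℕ) [NeZero M] (S : Finset ℕ)
    (hlamS : lam ∈ S) (hMS : ∀ q : ℕ, q.Prime → q ∣ M → q ∈ S)
    (O' : Type) [CommRing O'] [IsDomain O'] [IsDiscreteValuationRing O']
    [IsAdicComplete (IsLocalRing.maximalIdeal O') O'] [CharZero O']
    (hlamO' : (lam : O') ∈ IsLocalRing.maximalIdeal O')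
    (χ : CuspForm.heckeAlgebra M 2 (↑S : Set ℕ) →+* O')
    (hNew : s36g67_NewClaim M lam S O' χ)
    (hInv : ∀ q : ℕ, q.Prime → q ≠ lam → M.factorization q = 2 → s36g67_InvAt M q lam) :
    s36g67_ET lam M S O' hlamO' (fun ℓ =>
      if h : ℓ.Prime ∧ ¬ ℓ ∣ M ∧ ℓ ∉ (↑S : Set ℕ) then
        χ (CuspForm.heckeAlgebra.T h.1 h.2.1 h.2.2) else 0) := by
  classical
  obtain ⟨Θ, hΘ, Φ, hΦ, x0, K, hx0, hx0e, hx0K, hKnew⟩ := hNew
  have hgood : ∀ ℓ : ℕ, ℓ.Prime → ℓ ∉ S → ℓ.Prime ∧ ¬ ℓ ∣ M ∧ ℓ ∉ (↑S : Set ℕ) :=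
    fun ℓ hℓ hℓS => ⟨hℓ, fun hd => hℓS (hMS ℓ hℓ hd), fun hm => hℓS (Finset.mem_coe.mp hm)⟩
  let TL : ℕ → Module.End ℤ ↥(parabolicHoms ℤ (Gamma0 M) ℤ) := fun ℓ =>
    if h : ℓ.Prime ∧ ¬ ℓ ∣ M ∧ ℓ ∉ (↑S : Set ℕ) then
      Φ (CuspForm.heckeAlgebra.T h.1 h.2.1 h.2.2) else 0
  let a : ℕ → O' := fun ℓ =>
    if h : ℓ.Prime ∧ ¬ ℓ ∣ M ∧ ℓ ∉ (↑S : Set ℕ) then
      χ (CuspForm.heckeAlgebra.T h.1 h.2.1 h.2.2) else 0
  have hTL : ∀ ℓ : ℕ, ℓ.Prime → ℓ ∉ S → ∀ x : ↥(parabolicHoms ℤ (Gamma0 M) ℤ),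
      ((TL ℓ x : ↥(parabolicHoms ℤ (Gamma0 M) ℤ)) : Additive ↥(Gamma0 M) →+ ℤ) =
        heckeHom M ℓ ℤ (x : Additive ↥(Gamma0 M) →+ ℤ) := by
    intro ℓ hℓ hℓS x
    have hg := hgood ℓ hℓ hℓS
    show (((if h : ℓ.Prime ∧ ¬ ℓ ∣ M ∧ ℓ ∉ (↑S : Set ℕ) then
      Φ (CuspForm.heckeAlgebra.T h.1 h.2.1 h.2.2) else 0) x :
        ↥(parabolicHoms ℤ (Gamma0 M) ℤ)) : Additive ↥(Gamma0 M) →+ ℤ) = _
    rw [dif_pos hg]
    exact hΦ ℓ hg.1 hg.2.1 hg.2.2 x
  have hx0a : ∀ ℓ : ℕ, ℓ.Prime → ℓ ∉ S → (TL ℓ).baseChange O' x0 = a ℓ • x0 := by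
    intro ℓ hℓ hℓS
    have hg := hgood ℓ hℓ hℓS
    show ((if h : ℓ.Prime ∧ ¬ ℓ ∣ M ∧ ℓ ∉ (↑S : Set ℕ) then
      Φ (CuspForm.heckeAlgebra.T h.1 h.2.1 h.2.2) else 0)).baseChange O' x0 =
      (if h : ℓ.Prime ∧ ¬ ℓ ∣ M ∧ ℓ ∉ (↑S : Set ℕ) then
        χ (CuspForm.heckeAlgebra.T h.1 h.2.1 h.2.2) else 0) • x0
    rw [dif_pos hg, dif_pos hg]
    exact hx0e _
  refine ⟨↥(ea21_M lam M S O' a), inferInstance, inferInstance, ea21_rho lam M S O' a,
    ea21_M1 lam M S O' a hlamO', ea21_M2 lam M S O' a,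
    ea21_M3 lam M S O' a hlamO' hlamS hMS TL x0 Θ hTL hx0 hx0a hΘ,
    ea21_M4 lam M S O' a hlamO' hlamS hMS,
    ea21_M6 lam M S O' a hlamO',
    fun ℓ hℓ hℓN hℓS A hA τ hτ w => ea21_M7 lam M S O' a hlamS ℓ hℓ hℓN hℓS A hA τ hτ w,
    fun q hq hqlam hq2 => ?_⟩
  exact s36g67_M9_ea21 lam M S O' a hlamO' hlamS hMS TL x0 Θ hTL hx0 hx0a hΘ K hx0K q
    (fun k hk n => hKnew k hk n q hq hqlam hq2) (hInv q hq hqlam hq2)

/-- **P-NEW for S36** (for the data of the frozen statement S36). -/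
def s36g67_Pkg_New : Prop :=
  ∀ (M : ℕ) [NeZero M] (g : CuspForm (Gamma0 M) 2), g.IsNewform →
    ∀ (lam : ℕ) [Fact lam.Prime] (S : Finset ℕ)
      (O' : Type) [CommRing O'] [IsDomain O'] [IsDiscreteValuationRing O']
      [IsAdicComplete (IsLocalRing.maximalIdeal O') O'] [Finite (IsLocalRing.ResidueField O')]
      [CharZero O'], (lam : O') ∈ IsLocalRing.maximalIdeal O' →
      ∀ (chig : CuspForm.heckeAlgebra M 2 (↑S : Set ℕ) →+* ℂ),
        (∀ (ℓ : ℕ) (hℓ : ℓ.Prime) (hℓM : ¬ ℓ ∣ M) (hℓS : ℓ ∉ (↑S : Set ℕ)),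
          chig (CuspForm.heckeAlgebra.T hℓ hℓM hℓS) = ModularFormClass.qCoeff g ℓ) →
        ∀ iota : chig.range →+* O', lam ∈ S → (∀ q : ℕ, q.Prime → q ∣ M → q ∈ S) →
          s36g67_NewClaim M lam S O' (iota.comp chig.rangeRestrict)

/-- **P-INV**: (INV) at every level `N`, every prime `q` with `q² ∥ N` and every prime
`p ≠ q`. -/
def s36g67_Pkg_Inv : Prop :=
  ∀ (N q p : ℕ) [NeZero N], q.Prime → p.Prime → q ≠ p → N.factorization q = 2 →
    s36g67_InvAt N q p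

/-- The two packages give the package P-ET9 of `Gate67`. -/
theorem s36g67_pkg_ET9_of (hNew : s36g67_Pkg_New) (hInv : s36g67_Pkg_Inv) : s36g67_Pkg_ET9 := by
  intro M _ g hg lam _ S O' _ _ _ _ _ _ hlamO' chig hchig iota hlamS hMS
  exact s36g67_ET_of_inv lam M S hlamS hMS O' hlamO' (iota.comp chig.rangeRestrict)
    (hNew M g hg lam S O' hlamO' chig hchig iota hlamS hMS)
    (fun q hq hqlam hq2 => hInv M q lam hq (Fact.out : lam.Prime) hqlam hq2)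

/-- **GATE**: (NEW) and (INV) imply the frozen statement S36 (the hypotheses `lam ≠ 2` and
`hres` of the frozen statement are not used). -/
theorem s36g67_result_of_new_inv (hNew : s36g67_Pkg_New) (hInv : s36g67_Pkg_Inv)
    {M : ℕ} [NeZero M] {g : CuspForm (CongruenceSubgroup.Gamma0 M) 2} (hg : g.IsNewform)
    (lam : ℕ) [Fact lam.Prime]
    (S : Finset ℕ)
    (O' : Type) [CommRing O'] [IsDomain O'] [IsDiscreteValuationRing O']
    [IsAdicComplete (IsLocalRing.maximalIdeal O') O'] [Finite (IsLocalRing.ResidueField O')]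
    [CharZero O'] (hlamO' : (lam : O') ∈ IsLocalRing.maximalIdeal O')
    (chig : CuspForm.heckeAlgebra M 2 (↑S : Set ℕ) →+* ℂ)
    (hchig : ∀ (ℓ : ℕ) (hℓ : ℓ.Prime) (hℓM : ¬ ℓ ∣ M) (hℓS : ℓ ∉ (↑S : Set ℕ)),
      chig (CuspForm.heckeAlgebra.T hℓ hℓM hℓS) = ModularFormClass.qCoeff g ℓ)
    (iota : chig.range →+* O')
    (hlamS : lam ∈ S) (hMS : ∀ q : ℕ, q.Prime → q ∣ M → q ∈ S) :
    ∃ (O'' : Type) (_ : CommRing O'') (_ : IsDomain O'') (_ : IsDiscreteValuationRing O'')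
      (_ : IsAdicComplete (IsLocalRing.maximalIdeal O'') O'') (_ : Finite (IsLocalRing.ResidueField O''))
      (_ : CharZero O'') (_ : Algebra O' O'') (_ : Module.Finite O' O'') (_ : IsLocalHom (algebraMap O' O'')),
      Function.Injective (algebraMap O' O'') ∧
      ∃ ρ : GaloisRepAdic O'',
        (∀ (ℓ : ℕ) (hℓ : ℓ.Prime) (hℓM : ¬ ℓ ∣ M) (hℓS : ℓ ∉ (↑S : Set ℕ)),
          ∀ A : ValuationSubring (AlgebraicClosure ℚ), A.LiesOverPrime ℓ →
            ∀ σ : AlgebraicClosure ℚ ≃ₐ[ℚ] AlgebraicClosure ℚ, A.IsFrobeniusAt σ ℓ →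
              LinearMap.charpoly (ρ.ρ σ) =
                X ^ 2 - C (algebraMap O' O'' ((iota.comp chig.rangeRestrict) (CuspForm.heckeAlgebra.T hℓ hℓM hℓS))) * X
                  + C ((ℓ : O''))) ∧
        (∀ q : ℕ, q.Prime → q ≠ lam → M.factorization q = 2 → ¬ ρ.IsUnipotentOnInertiaAt q) :=
  s36g67_result_of_pkg (s36g67_pkg_ET9_of hNew hInv) hg lam S O' hlamO' chig hchig iota hlamS hMS

end Fermat.Agent.S36
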