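import Mathlib
import Fermat.Agent.S36.GateInv67
import Fermat.Agent.S36.Iface62
import Fermat.Agent.S36.CompatAll87
import Fermat.Agent.S54.Helper96Frob

/-!
# S36 (helper67): the gate bound to the interface `S36/Iface62`

* `s36g67_pkg_new` : the package (NEW) of `GateInv67` holds (`ca87_pkg_new`, helper87/helper32).
* `s36g67_invAt_of_iface` : `s36i62_InvAt N q p` (the top `Prop` of `Iface62`) gives the form
  `s36g67_InvAt N q p` consumed by `GateInv67` (a place over `q` exists).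
* `s36g67_result_of_invAt` : **the frozen statement S36 from `s36i62_InvAt`** at the levels `N`
  with `q² ∥ N` and the primes `p ≠ q`.
* `s36g67_result_of_iface`, `s36g67_result_of_iface_jac` : **the frozen statement S36 from the
  three packages of `Iface62`** (P-CORE36, P-FD36 and P-LEVEL36 in the function-field form, resp.
  in the class form).  The assembly file is modus ponens on one of these.

All names are prefixed `s36g67_`.
-/

set_option autoImplicit false
set_option linter.unusedSectionVars false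
set_option linter.unusedVariables false
set_option linter.style.longLine false

open CongruenceSubgroup ModularCurve ModularCurve.Period AlgebraicCurve Polynomial
open scoped TensorProduct

namespace Fermat.Agent.S36

open Fermat.Agent.S30 Fermat.Agent.S16 Fermat.Agent.S35 Fermat.Agent.S42

local notation "Qb" => AlgebraicClosure ℚ
local notation "GQ" => AlgebraicClosure ℚ ≃ₐ[ℚ] AlgebraicClosure ℚ

/-- The claim (NEW) of `GateInv67` from the claim at every prime of the level. -/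
theorem s36g67_newClaim_of_pna (M : ℕ) [NeZero M] (lam : ℕ) (S : Finset ℕ)
    (O' : Type) [CommRing O'] [IsDomain O'] [IsDiscreteValuationRing O']
    (χ : CuspForm.heckeAlgebra M 2 (↑S : Set ℕ) →+* O')
    (h : pna32_NewClaim M lam S O' χ) : s36g67_NewClaim M lam S O' χ := by
  obtain ⟨Θ, hΘ, -, Φ, hΦ, x0, K, hx0, hx0e, hx0K, hKnew⟩ := h
  refine ⟨Θ, hΘ, Φ, hΦ, x0, K, hx0, hx0e, hx0K, fun k hk n q hq hqlam hq2 => ?_⟩
  refine hKnew k hk n q hq hqlam ?_
  have hpos : 0 < M.factorization q := by rw [hq2]; norm_num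
  exact Nat.dvd_of_factorization_pos hpos.ne'

/-- **P-NEW of `GateInv67` holds.** -/
theorem s36g67_pkg_new : s36g67_Pkg_New := by
  intro M _ g hg lam _ S O' _ _ _ _ _ _ hlamO' chig hchig iota hlamS hMS
  exact s36g67_newClaim_of_pna M lam S O' _
    (ca87_pkg_new M g hg lam S O' hlamO' chig hchig iota hlamS hMS)

/-- The top `Prop` of `Iface62` gives the form of (INV) consumed by `GateInv67`. -/
theorem s36g67_invAt_of_iface (N q p : ℕ) (hq : q.Prime) (h : s36i62_InvAt N q p) :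
    s36g67_InvAt N q p := by
  obtain ⟨c, hc, h⟩ := h
  obtain ⟨A, -, hA, -⟩ := Fermat.Agent.S54.exists_isFrobeniusAt q hq
  exact ⟨c, Nat.pos_of_ne_zero hc, A, hA, fun n x hx hnew hfix => h A hA n x hx hnew hfix⟩

/-- **GATE**: the frozen statement S36 from `s36i62_InvAt` (the top `Prop` of `Iface62`) at the
levels `N` with `q² ∥ N` and the primes `p ≠ q`. -/
theorem s36g67_result_of_invAt
    (hInv : ∀ N q p : ℕ, q.Prime → p.Prime → p ≠ q → N.factorization q = 2 →
      s36i62_InvAt N q p)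
    {M : ℕ} [NeZero M] {g : CuspForm (CongruenceSubgroup.Gamma0 M) 2} (hg : g.IsNewform)
    (lam : ℕ) [Fact lam.Prime]
    (S : Finset ℕ)
    (O' : Type) [CommRing O'] [IsDomain O'] [IsDiscreteValuationRing O']
    [IsAdicComplete (IsLocalRing.maximalIdeal O') O'] [Finite (IsLocalRing.ResidueField O')]
    [CharZero O'] (hlamO' : (lam : O') ∈ IsLocalRing.maximalIdeal O')
    (chig : CuspForm.heckeAlgebra M 2 (↑S : Set ℕ) →+* ℂ)
    (hchig : ∀ (ℓ : ℕ) (hℓ : ℓ.Prime) (hℓM : ¬ ℓ ∣ M) (hℓS : ℓ ∉ (↑S : Set ℕ)),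
      chig (CuspForm.heckeAlgebra.T hℓ hℓM hℓS) = ModularFormClass.qCoeff g ℓ)
    (iota : chig.range →+* O')
    (hlamS : lam ∈ S) (hMS : ∀ q : ℕ, q.Prime → q ∣ M → q ∈ S) :
    ∃ (O'' : Type) (_ : CommRing O'') (_ : IsDomain O'') (_ : IsDiscreteValuationRing O'')
      (_ : IsAdicComplete (IsLocalRing.maximalIdeal O'') O'') (_ : Finite (IsLocalRing.ResidueField O''))
      (_ : CharZero O'') (_ : Algebra O' O'') (_ : Module.Finite O' O'') (_ : IsLocalHom (algebraMap O' O'')),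
      Function.Injective (algebraMap O' O'') ∧
      ∃ ρ : GaloisRepAdic O'',
        (∀ (ℓ : ℕ) (hℓ : ℓ.Prime) (hℓM : ¬ ℓ ∣ M) (hℓS : ℓ ∉ (↑S : Set ℕ)),
          ∀ A : ValuationSubring (AlgebraicClosure ℚ), A.LiesOverPrime ℓ →
            ∀ σ : AlgebraicClosure ℚ ≃ₐ[ℚ] AlgebraicClosure ℚ, A.IsFrobeniusAt σ ℓ →
              LinearMap.charpoly (ρ.ρ σ) =
                X ^ 2 - C (algebraMap O' O'' ((iota.comp chig.rangeRestrict) (CuspForm.heckeAlgebra.T hℓ hℓM hℓS))) * X
                  + C ((ℓ : O''))) ∧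
        (∀ q : ℕ, q.Prime → q ≠ lam → M.factorization q = 2 → ¬ ρ.IsUnipotentOnInertiaAt q) :=
  s36g67_result_of_new_inv s36g67_pkg_new
    (fun N q p _ hq hp hqp hN2 =>
      s36g67_invAt_of_iface N q p hq (hInv N q p hq hp (fun h => hqp h.symm) hN2))
    hg lam S O' hlamO' chig hchig iota hlamS hMS

/-- **GATE, function-field level change**: P-CORE36 + P-FD36 + P-LEVEL36 (function-field form)
of `Iface62` imply the frozen statement S36. -/
theorem s36g67_result_of_iface (hCore : s36i62_Pkg_Core) (hFD : s36i62_Pkg_FieldDef)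
    (hLevel : s36i62_Pkg_LevelFF)
    {M : ℕ} [NeZero M] {g : CuspForm (CongruenceSubgroup.Gamma0 M) 2} (hg : g.IsNewform)
    (lam : ℕ) [Fact lam.Prime]
    (S : Finset ℕ)
    (O' : Type) [CommRing O'] [IsDomain O'] [IsDiscreteValuationRing O']
    [IsAdicComplete (IsLocalRing.maximalIdeal O') O'] [Finite (IsLocalRing.ResidueField O')]
    [CharZero O'] (hlamO' : (lam : O') ∈ IsLocalRing.maximalIdeal O')
    (chig : CuspForm.heckeAlgebra M 2 (↑S : Set ℕ) →+* ℂ)
    (hchig : ∀ (ℓ : ℕ) (hℓ : ℓ.Prime) (hℓM : ¬ ℓ ∣ M) (hℓS : ℓ ∉ (↑S : Set ℕ)),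
      chig (CuspForm.heckeAlgebra.T hℓ hℓM hℓS) = ModularFormClass.qCoeff g ℓ)
    (iota : chig.range →+* O')
    (hlamS : lam ∈ S) (hMS : ∀ q : ℕ, q.Prime → q ∣ M → q ∈ S) :
    ∃ (O'' : Type) (_ : CommRing O'') (_ : IsDomain O'') (_ : IsDiscreteValuationRing O'')
      (_ : IsAdicComplete (IsLocalRing.maximalIdeal O'') O'') (_ : Finite (IsLocalRing.ResidueField O''))
      (_ : CharZero O'') (_ : Algebra O' O'') (_ : Module.Finite O' O'') (_ : IsLocalHom (algebraMap O' O'')),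
      Function.Injective (algebraMap O' O'') ∧
      ∃ ρ : GaloisRepAdic O'',
        (∀ (ℓ : ℕ) (hℓ : ℓ.Prime) (hℓM : ¬ ℓ ∣ M) (hℓS : ℓ ∉ (↑S : Set ℕ)),
          ∀ A : ValuationSubring (AlgebraicClosure ℚ), A.LiesOverPrime ℓ →
            ∀ σ : AlgebraicClosure ℚ ≃ₐ[ℚ] AlgebraicClosure ℚ, A.IsFrobeniusAt σ ℓ →
              LinearMap.charpoly (ρ.ρ σ) =
                X ^ 2 - C (algebraMap O' O'' ((iota.comp chig.rangeRestrict) (CuspForm.heckeAlgebra.T hℓ hℓM hℓS))) * X
                  + C ((ℓ : O''))) ∧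
        (∀ q : ℕ, q.Prime → q ≠ lam → M.factorization q = 2 → ¬ ρ.IsUnipotentOnInertiaAt q) :=
  s36g67_result_of_invAt
    (fun N q p hq hp hpq hN2 => s36i62_assembly hCore hFD hLevel N q p hq hp hpq hN2)
    hg lam S O' hlamO' chig hchig iota hlamS hMS

/-- **GATE, class-level level change**: P-CORE36 + P-FD36 + P-LEVEL36 (class form) of `Iface62`
imply the frozen statement S36. -/
theorem s36g67_result_of_iface_jac (hCore : s36i62_Pkg_Core) (hFD : s36i62_Pkg_FieldDef)
    (hLevel : s36i62_Pkg_LevelJac)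
    {M : ℕ} [NeZero M] {g : CuspForm (CongruenceSubgroup.Gamma0 M) 2} (hg : g.IsNewform)
    (lam : ℕ) [Fact lam.Prime]
    (S : Finset ℕ)
    (O' : Type) [CommRing O'] [IsDomain O'] [IsDiscreteValuationRing O']
    [IsAdicComplete (IsLocalRing.maximalIdeal O') O'] [Finite (IsLocalRing.ResidueField O')]
    [CharZero O'] (hlamO' : (lam : O') ∈ IsLocalRing.maximalIdeal O')
    (chig : CuspForm.heckeAlgebra M 2 (↑S : Set ℕ) →+* ℂ)
    (hchig : ∀ (ℓ : ℕ) (hℓ : ℓ.Prime) (hℓM : ¬ ℓ ∣ M) (hℓS : ℓ ∉ (↑S : Set ℕ)),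
      chig (CuspForm.heckeAlgebra.T hℓ hℓM hℓS) = ModularFormClass.qCoeff g ℓ)
    (iota : chig.range →+* O')
    (hlamS : lam ∈ S) (hMS : ∀ q : ℕ, q.Prime → q ∣ M → q ∈ S) :
    ∃ (O'' : Type) (_ : CommRing O'') (_ : IsDomain O'') (_ : IsDiscreteValuationRing O'')
      (_ : IsAdicComplete (IsLocalRing.maximalIdeal O'') O'') (_ : Finite (IsLocalRing.ResidueField O''))
      (_ : CharZero O'') (_ : Algebra O' O'') (_ : Module.Finite O' O'') (_ : IsLocalHom (algebraMap O' O'')),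
      Function.Injective (algebraMap O' O'') ∧
      ∃ ρ : GaloisRepAdic O'',
        (∀ (ℓ : ℕ) (hℓ : ℓ.Prime) (hℓM : ¬ ℓ ∣ M) (hℓS : ℓ ∉ (↑S : Set ℕ)),
          ∀ A : ValuationSubring (AlgebraicClosure ℚ), A.LiesOverPrime ℓ →
            ∀ σ : AlgebraicClosure ℚ ≃ₐ[ℚ] AlgebraicClosure ℚ, A.IsFrobeniusAt σ ℓ →
              LinearMap.charpoly (ρ.ρ σ) =
                X ^ 2 - C (algebraMap O' O'' ((iota.comp chig.rangeRestrict) (CuspForm.heckeAlgebra.T hℓ hℓM hℓS))) * X
                  + C ((ℓ : O''))) ∧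
        (∀ q : ℕ, q.Prime → q ≠ lam → M.factorization q = 2 → ¬ ρ.IsUnipotentOnInertiaAt q) :=
  s36g67_result_of_invAt
    (fun N q p hq hp hpq hN2 => s36i62_assembly_jac hCore hFD hLevel N q p hq hp hpq hN2)
    hg lam S O' hlamO' chig hchig iota hlamS hMS

end Fermat.Agent.S36
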