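import Fermat.Agent.S37.KroneckerNorm97
import Fermat.Agent.S37.NormConj73
import Fermat.Agent.S34.AtkinLehnerL97
import Fermat.Agent.S34.BranchInf46
import Fermat.Agent.S18.FieldDef27
import Fermat.Agent.S37.LevelUpConc1
import Fermat.Agent.S35.NormBC92

/-!
# S36 pre-lab (helper33): level change at level `q²` — the norms along `α` and `β` commute with
raising the prime-to-`q` part of the level

`q` a prime, `q ∤ M`, `F(N) = modularFunctionFieldBar N`, and the two degeneracy maps of level
`M q² → M q`:  `α, β : F(M q) → F(M q q)` (`heckeAlphaBar ℚ̄ (M q) q`, `heckeBetaBar ℚ̄ (M q) q`).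

* `lq33_psi`            : `ψ(M q q) / ψ(M q) = q`;
* `lq33_finrank_alpha`  : `[F(M q q) : α F(M q)] = q`;
* `lq33_finrank_beta`   : `[F(M q q) : β F(M q)] = q`;
* `lq33_not_mem`        : `j(Q^(q²)) ∉ F(M q)`;
* `lq33_adjoin_alpha`   : `F(M q q) = α F(M q) [j(Q^(q²))]`;
* `lq33_adjoin_beta`    : `F(M q q) = β F(M q) [j(Q)]`;
* `lq33_norm_alpha`     : for `M ∣ M₁`, `q ∤ M₁`, `f ∈ F(M q q)`:
                          `Nm_{α₁} (ι f) = ι' (Nm_α f)`  (`ι, ι' = tv1_iota`);
* `lq33_norm_beta`      : the same along `β`.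

No Atkin–Lehner involution of level `q²`, no modular data: only `bi46_adjoin_top`
(`F(M q) = F(M)[j(Q^q)]`), the index formula `nd38_relfinrank` and the abstract base change
`nbc92_norm`.
-/

set_option autoImplicit false
set_option linter.style.haveILetI false

open ModularCurve AlgebraicCurve IntermediateField
open Fermat.Agent.S24 Fermat.Agent.S28 Fermat.Agent.S18 Fermat.Agent.S37 Fermat.Agent.S34
open Fermat.Agent.S35

namespace Fermat.Agent.S36

/-! ### Index computations -/

theorem lq33_psi (M q : ℕ) [NeZero M] (hq : q.Prime) (hqM : ¬ q ∣ M) :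
    dedekindPsi (M * q * q) / dedekindPsi (M * q) = q := by
  have hcop : Nat.Coprime M q := ((Nat.Prime.coprime_iff_not_dvd hq).mpr hqM).symm
  have hcop2 : Nat.Coprime M (q ^ 2) := Nat.Coprime.pow_right 2 hcop
  have h1 : dedekindPsi q = q + 1 := by
    have h := Fermat.Agent.Lib.G0C.dedekindPsi_prime_pow hq (e := 1) Nat.one_pos
    simpa using h
  have h2 : dedekindPsi (q ^ 2) = q ^ 2 + q := by
    have h := Fermat.Agent.Lib.G0C.dedekindPsi_prime_pow hq (e := 2) (by norm_num)
    simpa using h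
  have e1 : M * q * q = M * q ^ 2 := by ring
  rw [e1, Fermat.Agent.Lib.G0C.dedekindPsi_mul hcop2, Fermat.Agent.Lib.G0C.dedekindPsi_mul hcop,
    h1, h2]
  have hpos : 0 < dedekindPsi M * (q + 1) := Nat.mul_pos (nd38_psi_pos M) (Nat.succ_pos q)
  have e2 : dedekindPsi M * (q ^ 2 + q) = q * (dedekindPsi M * (q + 1)) := by ring
  rw [e2, Nat.mul_div_cancel _ hpos]


/-! ### `F(M q q)` is generated over `F(M q)` by `j(Q^(q²))` -/

section Gen

variable (M q : ℕ) [NeZero M] [NeZero q]

/-- `j(Q^q)` in the two notations. -/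
theorem lq33_y_coe : qExpand Kbar q (jqModC Kbar) = JJ (1 * q) := by
  rw [← al97_JJ_mul 1 q one_ne_zero]
  congr 1
  rw [asmAb_JJ_one, coeffEmb, ← jqModC_rat, coeffMap_jqModC]

/-- If an intermediate field `T` contains `f(Q^q)` for `f ∈ F(M)` and `j(Q^(q²))`, it contains
`f(Q^q)` for every `f` in `F(M)[j(Q^q)]`. -/
theorem lq33_V_mem_aux (hq : q.Prime)
    (T : IntermediateField Kbar (LaurentSeries Kbar))
    (hT1 : ∀ a ∈ modularFunctionFieldFullC Kbar M, qExpand Kbar q a ∈ T)
    (hT2 : JJ (q * q) ∈ T) :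
    letI := ni22_algebra (bi46_le Kbar M q)
    ∀ z : ↥(modularFunctionFieldFullC Kbar (M * q)),
      z ∈ Algebra.adjoin ↥(modularFunctionFieldFullC Kbar M) {bi46_y Kbar M q} →
        qExpand Kbar q (z : LaurentSeries Kbar) ∈ T := by
  letI := ni22_algebra (bi46_le Kbar M q)
  intro z hz
  refine Algebra.adjoin_induction
    (p := fun (z : ↥(modularFunctionFieldFullC Kbar (M * q))) _ =>
      qExpand Kbar q (z : LaurentSeries Kbar) ∈ T) ?_ ?_ ?_ ?_ hz
  · intro z hz
    rw [Set.mem_singleton_iff] at hz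
    subst hz
    have h1 : ((bi46_y Kbar M q : ↥(modularFunctionFieldFullC Kbar (M * q))) :
        LaurentSeries Kbar) = JJ (1 * q) := lq33_y_coe q
    rw [h1, al97_JJ_mul (1 * q) q (by rw [one_mul]; exact hq.ne_zero), one_mul]
    exact hT2
  · intro a
    have e : ((algebraMap ↥(modularFunctionFieldFullC Kbar M)
        ↥(modularFunctionFieldFullC Kbar (M * q)) a : ↥(modularFunctionFieldFullC Kbar (M * q))) :
          LaurentSeries Kbar) = (a : LaurentSeries Kbar) :=
      ni22_algebraMap_coe (bi46_le Kbar M q) a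
    rw [e]
    exact hT1 _ a.2
  · intro z w _ _ hz hw
    have e : ((z + w : ↥(modularFunctionFieldFullC Kbar (M * q))) : LaurentSeries Kbar) =
        (z : LaurentSeries Kbar) + (w : LaurentSeries Kbar) := rfl
    rw [e, map_add]
    exact T.add_mem hz hw
  · intro z w _ _ hz hw
    have e : ((z * w : ↥(modularFunctionFieldFullC Kbar (M * q))) : LaurentSeries Kbar) =
        (z : LaurentSeries Kbar) * (w : LaurentSeries Kbar) := rfl
    rw [e, map_mul]
    exact T.mul_mem hz hw

/-- If an intermediate field `T` contains `f(Q^q)` for `f ∈ F(M)` and `j(Q^(q²))`, it contains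
`f(Q^q)` for every `f ∈ F(M q)`. -/
theorem lq33_V_mem (hq : q.Prime) (hqM : ¬ q ∣ M)
    (T : IntermediateField Kbar (LaurentSeries Kbar))
    (hT1 : ∀ a ∈ modularFunctionFieldBar M, qExpand Kbar q a ∈ T)
    (hT2 : JJ (q * q) ∈ T) :
    ∀ x ∈ modularFunctionFieldBar (M * q), qExpand Kbar q x ∈ T := by
  intro x hx
  rw [fd27_bar_eq (M * q)] at hx
  letI := ni22_algebra (bi46_le Kbar M q)
  have htop := bi46_adjoin_top Kbar M q hq hqM
  have hmem : (⟨x, hx⟩ : ↥(modularFunctionFieldFullC Kbar (M * q))) ∈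
      Algebra.adjoin ↥(modularFunctionFieldFullC Kbar M) {bi46_y Kbar M q} := by
    rw [htop]; exact Algebra.mem_top
  have hT1' : ∀ a ∈ modularFunctionFieldFullC Kbar M, qExpand Kbar q a ∈ T := by
    intro a ha
    rw [← fd27_bar_eq M] at ha
    exact hT1 a ha
  exact lq33_V_mem_aux M q hq T hT1' hT2 ⟨x, hx⟩ hmem

/-- `f(Q^q) ∈ F(N q)` for `f ∈ F(N)`. -/
theorem lq33_V_mem_level (N : ℕ) [NeZero N] (a : LaurentSeries Kbar)
    (ha : a ∈ modularFunctionFieldBar N) : qExpand Kbar q a ∈ modularFunctionFieldBar (N * q) := by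
  have h := (heckeBetaBar Kbar N q ⟨a, ha⟩).2
  rwa [coe_heckeBetaBar] at h

/-- An intermediate field containing `F(M q)` and `f(Q^q)` for all `f ∈ F(M q)` contains
`F(M q q)`. -/
theorem lq33_le_of_V (hq : q.Prime) (T : IntermediateField Kbar (LaurentSeries Kbar))
    (hT0 : modularFunctionFieldBar (M * q) ≤ T)
    (hT1 : ∀ x ∈ modularFunctionFieldBar (M * q), qExpand Kbar q x ∈ T) :
    modularFunctionFieldBar (M * q * q) ≤ T := by
  haveI : NeZero (M * q) := ⟨Nat.mul_ne_zero (NeZero.ne M) (NeZero.ne q)⟩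
  haveI : NeZero (M * q * q) := ⟨Nat.mul_ne_zero (NeZero.ne (M * q)) (NeZero.ne q)⟩
  rw [asmAb_eq_adjoin (M * q * q), IntermediateField.adjoin_le_iff]
  rintro _ ⟨d, rfl⟩
  have hd : d.1 ∣ M * q * q := Nat.dvd_of_mem_divisors d.2
  by_cases hqd : q ∣ d.1
  · obtain ⟨e, he⟩ := hqd
    have he' : e ∣ M * q := by
      have h1 : q * e ∣ q * (M * q) := by rw [← he, mul_comm q (M * q)]; exact hd
      exact (Nat.mul_dvd_mul_iff_left hq.pos).mp h1
    have he0 : e ≠ 0 := fun h => by
      have : d.1 = 0 := by rw [he, h, mul_zero]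
      exact (Nat.pos_of_mem_divisors d.2).ne' this
    have h2 : JJ d.1 = qExpand Kbar q (JJ e) := by
      rw [al97_JJ_mul e q he0, he, mul_comm]
    show JJ d.1 ∈ T
    rw [h2]
    exact hT1 _ (asmAb_JJ_mem (M * q) e he')
  · have hcop : Nat.Coprime d.1 q := ((Nat.Prime.coprime_iff_not_dvd hq).mpr hqd).symm
    have hd' : d.1 ∣ M * q := hcop.dvd_of_dvd_mul_right hd
    exact hT0 (asmAb_JJ_mem (M * q) d.1 hd')

/-- `j(Q^(q²)) ∉ F(M q)` for `q ∤ M`. -/
theorem lq33_not_mem (hq : q.Prime) (hqM : ¬ q ∣ M) :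
    JJ (q * q) ∉ modularFunctionFieldBar (M * q) := by
  haveI : NeZero (M * q) := ⟨Nat.mul_ne_zero (NeZero.ne M) (NeZero.ne q)⟩
  haveI : NeZero (M * q * q) := ⟨Nat.mul_ne_zero (NeZero.ne (M * q)) (NeZero.ne q)⟩
  intro hmem
  have h1 : ∀ x ∈ modularFunctionFieldBar (M * q),
      qExpand Kbar q x ∈ modularFunctionFieldBar (M * q) :=
    lq33_V_mem M q hq hqM (modularFunctionFieldBar (M * q))
      (fun a ha => lq33_V_mem_level q M a ha) hmem
  have h2 : modularFunctionFieldBar (M * q * q) ≤ modularFunctionFieldBar (M * q) :=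
    lq33_le_of_V M q hq _ le_rfl h1
  have h3 := nd38_relfinrank_eq (N := M * q) (N' := M * q * q) (dvd_mul_right (M * q) q)
  rw [lq33_psi M q hq hqM, IntermediateField.relfinrank_eq_one_iff.mpr h2] at h3
  exact hq.one_lt.ne h3

end Gen

/-! ### The norm along `α` -/

section Alpha

variable (M q : ℕ) [NeZero M] [NeZero q]

/-- `j(Q^(q²))` as an element of `F(M q q)`. -/
noncomputable def lq33_y2 : ↥(modularFunctionFieldBar (M * q * q)) :=
  ⟨JJ (q * q), asmAb_JJ_mem (M * q * q) (q * q) ⟨M, by ring⟩⟩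

theorem lq33_y2_coe : ((lq33_y2 M q : ↥(modularFunctionFieldBar (M * q * q))) :
    LaurentSeries Kbar) = JJ (q * q) := rfl

/-- **`[F(M q q) : F(M q)] = q`** along the inclusion `α`. -/
theorem lq33_finrank_alpha (hq : q.Prime) (hqM : ¬ q ∣ M) :
    letI := algebraAlong (heckeAlphaBar Kbar (M * q) q)
    Module.finrank ↥(modularFunctionFieldBar (M * q)) ↥(modularFunctionFieldBar (M * q * q)) =
      q := by
  letI := algebraAlong (heckeAlphaBar Kbar (M * q) q)
  have hle : modularFunctionFieldBar (M * q) ≤ modularFunctionFieldBar (M * q * q) :=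
    nd38_bar_le (dvd_mul_right (M * q) q)
  have h1 : (modularFunctionFieldBar (M * q)).relfinrank (modularFunctionFieldBar (M * q * q)) =
      q := by
    rw [nd38_relfinrank_eq (dvd_mul_right (M * q) q), lq33_psi M q hq hqM]
  rw [IntermediateField.relfinrank_eq_finrank_of_le hle] at h1
  let e : ↥(modularFunctionFieldBar (M * q * q)) ≃ₗ[↥(modularFunctionFieldBar (M * q))]
      ↥(IntermediateField.extendScalars hle) :=
    { toFun := fun x => ⟨x.1, x.2⟩
      invFun := fun x => ⟨x.1, x.2⟩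
      map_add' := fun _ _ => rfl
      map_smul' := fun _ _ => rfl
      left_inv := fun _ => rfl
      right_inv := fun _ => rfl }
  exact e.finrank_eq.trans h1

/-- **`F(M q q) = F(M q)[j(Q^(q²))]`** (along `α`). -/
theorem lq33_adjoin_alpha (hq : q.Prime) (hqM : ¬ q ∣ M) :
    letI := algebraAlong (heckeAlphaBar Kbar (M * q) q)
    Algebra.adjoin ↥(modularFunctionFieldBar (M * q)) {lq33_y2 M q} = ⊤ := by
  letI := algebraAlong (heckeAlphaBar Kbar (M * q) q)
  have hfr := lq33_finrank_alpha M q hq hqM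
  haveI : FiniteDimensional ↥(modularFunctionFieldBar (M * q))
      ↥(modularFunctionFieldBar (M * q * q)) :=
    Module.finite_of_finrank_pos (by rw [hfr]; exact hq.pos)
  haveI : IsSimpleOrder (IntermediateField ↥(modularFunctionFieldBar (M * q))
      ↥(modularFunctionFieldBar (M * q * q))) :=
    IntermediateField.isSimpleOrder_of_finrank_prime _ _ (by rw [hfr]; exact hq)
  have htop : IntermediateField.adjoin ↥(modularFunctionFieldBar (M * q)) {lq33_y2 M q} = ⊤ := by
    rcases eq_bot_or_eq_top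
      (IntermediateField.adjoin ↥(modularFunctionFieldBar (M * q)) {lq33_y2 M q}) with h | h
    · exfalso
      have hy : lq33_y2 M q ∈ (⊥ : IntermediateField ↥(modularFunctionFieldBar (M * q))
          ↥(modularFunctionFieldBar (M * q * q))) := by
        rw [← h]
        exact IntermediateField.mem_adjoin_simple_self _ _
      rw [IntermediateField.mem_bot] at hy
      obtain ⟨a, ha⟩ := hy
      apply lq33_not_mem M q hq hqM
      have h3 : (a : LaurentSeries Kbar) = JJ (q * q) := by
        have h4 := congrArg (fun z : ↥(modularFunctionFieldBar (M * q * q)) =>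
          (z : LaurentSeries Kbar)) ha
        simp only [lq33_y2_coe] at h4
        rw [← h4]
        exact (coe_heckeAlphaBar (L := Kbar) (N := M * q) (ℓ := q) a).symm
      rw [← h3]
      exact a.2
    · exact h
  have h2 := IntermediateField.adjoin_simple_toSubalgebra_of_isAlgebraic
    (Algebra.IsAlgebraic.isAlgebraic (R := ↥(modularFunctionFieldBar (M * q))) (lq33_y2 M q))
  rw [← h2, htop]
  rfl

end Alpha

section AlphaNorm

variable {M M₁ q : ℕ} [NeZero M] [NeZero M₁] [NeZero q]

/-- **Base change of the norm along `α` at level `q²`**: for `M ∣ M₁`, `q ∤ M₁` and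
`f ∈ F(M q q)`, the norm of `f` from `F(M₁ q q)` to `F(M₁ q)` is the norm of `f` from `F(M q q)`
to `F(M q)`. -/
theorem lq33_norm_alpha (hMM : M ∣ M₁) (hq : q.Prime) (hqM₁ : ¬ q ∣ M₁)
    (f : ↥(modularFunctionFieldBar (M * q * q))) :
    letI := algebraAlong (heckeAlphaBar Kbar (M * q) q)
    letI := algebraAlong (heckeAlphaBar Kbar (M₁ * q) q)
    Algebra.norm ↥(modularFunctionFieldBar (M₁ * q))
        (tv1_iota (Nat.mul_dvd_mul_right (Nat.mul_dvd_mul_right hMM q) q) f) =
      tv1_iota (Nat.mul_dvd_mul_right hMM q)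
        (Algebra.norm ↥(modularFunctionFieldBar (M * q)) f) := by
  letI := algebraAlong (heckeAlphaBar Kbar (M * q) q)
  letI := algebraAlong (heckeAlphaBar Kbar (M₁ * q) q)
  have hqM : ¬ q ∣ M := fun h => hqM₁ (h.trans hMM)
  have hfr := lq33_finrank_alpha M q hq hqM
  have hfr₁ := lq33_finrank_alpha M₁ q hq hqM₁
  haveI : FiniteDimensional ↥(modularFunctionFieldBar (M * q))
      ↥(modularFunctionFieldBar (M * q * q)) :=
    Module.finite_of_finrank_pos (by rw [hfr]; exact hq.pos)
  have hspan : Algebra.adjoin ↥(modularFunctionFieldBar (M₁ * q))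
      (Set.range (tv1_iota (Nat.mul_dvd_mul_right (Nat.mul_dvd_mul_right hMM q) q)).toRingHom) =
        ⊤ := by
    rw [eq_top_iff, ← lq33_adjoin_alpha M₁ q hq hqM₁]
    apply Algebra.adjoin_mono
    rw [Set.singleton_subset_iff]
    exact ⟨lq33_y2 M q, Subtype.ext (tv1_coe_iota _ _)⟩
  have hcomm : ∀ k : ↥(modularFunctionFieldBar (M * q)),
      (tv1_iota (Nat.mul_dvd_mul_right (Nat.mul_dvd_mul_right hMM q) q)).toRingHom
        (algebraMap ↥(modularFunctionFieldBar (M * q)) ↥(modularFunctionFieldBar (M * q * q)) k) =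
      algebraMap ↥(modularFunctionFieldBar (M₁ * q)) ↥(modularFunctionFieldBar (M₁ * q * q))
        ((tv1_iota (Nat.mul_dvd_mul_right hMM q)).toRingHom k) := by
    intro k
    apply Subtype.ext
    show ((tv1_iota (Nat.mul_dvd_mul_right (Nat.mul_dvd_mul_right hMM q) q)
        (heckeAlphaBar Kbar (M * q) q k) : ↥(modularFunctionFieldBar (M₁ * q * q))) :
          LaurentSeries Kbar) =
      ((heckeAlphaBar Kbar (M₁ * q) q (tv1_iota (Nat.mul_dvd_mul_right hMM q) k) :
        ↥(modularFunctionFieldBar (M₁ * q * q))) : LaurentSeries Kbar)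
    rw [tv1_coe_iota, coe_heckeAlphaBar, coe_heckeAlphaBar, tv1_coe_iota]
  exact (nbc92_norm (tv1_iota (Nat.mul_dvd_mul_right hMM q)).toRingHom
    (tv1_iota (Nat.mul_dvd_mul_right (Nat.mul_dvd_mul_right hMM q) q)).toRingHom hcomm
    (by rw [hfr₁, hfr]) hspan f).symm

end AlphaNorm

/-! ### The degree along `β` -/

section Tower

/-- Multiplicativity of the degree along a composite of field embeddings. -/
theorem lq33_finrank_comp {A B C : Type*} [Field A] [Field B] [Field C] (f : A →+* B)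
    (g : B →+* C) :
    @Module.finrank A C _ _ (g.comp f).toAlgebra.toModule =
      @Module.finrank A B _ _ f.toAlgebra.toModule *
        @Module.finrank B C _ _ g.toAlgebra.toModule := by
  letI := f.toAlgebra
  letI := g.toAlgebra
  letI := (g.comp f).toAlgebra
  haveI : IsScalarTower A B C := IsScalarTower.of_algebraMap_eq (fun _ => rfl)
  exact (Module.finrank_mul_finrank A B C).symm

/-- The degree of `F(N')` over `F(N)` along the inclusion, `N ∣ N'`. -/
theorem lq33_finrank_incl {N N' : ℕ} [NeZero N] [NeZero N'] (h : N ∣ N') :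
    @Module.finrank ↥(modularFunctionFieldBar N) ↥(modularFunctionFieldBar N') _ _
      (tv1_iota h).toRingHom.toAlgebra.toModule = dedekindPsi N' / dedekindPsi N := by
  letI := (tv1_iota h).toRingHom.toAlgebra
  have hle : modularFunctionFieldBar N ≤ modularFunctionFieldBar N' := nd38_bar_le h
  have h1 := nd38_relfinrank_eq h
  rw [IntermediateField.relfinrank_eq_finrank_of_le hle] at h1
  let e : ↥(modularFunctionFieldBar N') ≃ₗ[↥(modularFunctionFieldBar N)]
      ↥(IntermediateField.extendScalars hle) :=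
    { toFun := fun x => ⟨x.1, x.2⟩
      invFun := fun x => ⟨x.1, x.2⟩
      map_add' := fun _ _ => rfl
      map_smul' := fun _ _ => rfl
      left_inv := fun _ => rfl
      right_inv := fun _ => rfl }
  exact e.finrank_eq.trans h1

end Tower

section Beta

variable (M q : ℕ) [NeZero M] [NeZero q]

omit [NeZero M] [NeZero q] in
theorem lq33_psi_a (hq : q.Prime) (hqM : ¬ q ∣ M) :
    dedekindPsi (M * q) / dedekindPsi 1 = dedekindPsi M * (q + 1) := by
  have hcop : Nat.Coprime M q := ((Nat.Prime.coprime_iff_not_dvd hq).mpr hqM).symm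
  have h1 : dedekindPsi q = q + 1 := by
    have h := Fermat.Agent.Lib.G0C.dedekindPsi_prime_pow hq (e := 1) Nat.one_pos
    simpa using h
  rw [dedekindPsi_one, Nat.div_one, Fermat.Agent.Lib.G0C.dedekindPsi_mul hcop, h1]

omit [NeZero M] [NeZero q] in
theorem lq33_psi_b (hq : q.Prime) (hqM : ¬ q ∣ M) :
    dedekindPsi (M * q * q) / dedekindPsi (1 * q) = dedekindPsi M * q := by
  have hcop : Nat.Coprime M q := ((Nat.Prime.coprime_iff_not_dvd hq).mpr hqM).symm
  have hcop2 : Nat.Coprime M (q ^ 2) := Nat.Coprime.pow_right 2 hcop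
  have h1 : dedekindPsi q = q + 1 := by
    have h := Fermat.Agent.Lib.G0C.dedekindPsi_prime_pow hq (e := 1) Nat.one_pos
    simpa using h
  have h2 : dedekindPsi (q ^ 2) = q ^ 2 + q := by
    have h := Fermat.Agent.Lib.G0C.dedekindPsi_prime_pow hq (e := 2) (by norm_num)
    simpa using h
  have e1 : M * q * q = M * q ^ 2 := by ring
  rw [e1, one_mul, Fermat.Agent.Lib.G0C.dedekindPsi_mul hcop2, h1, h2]
  have e2 : dedekindPsi M * (q ^ 2 + q) = dedekindPsi M * q * (q + 1) := by ring
  rw [e2, Nat.mul_div_cancel _ (Nat.succ_pos q)]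

/-- **`[F(M q q) : β F(M q)] = q`** along `β : f(Q) ↦ f(Q^q)`. -/
theorem lq33_finrank_beta (hq : q.Prime) (hqM : ¬ q ∣ M) :
    @Module.finrank ↥(modularFunctionFieldBar (M * q)) ↥(modularFunctionFieldBar (M * q * q)) _ _
      (algebraAlong (heckeBetaBar Kbar (M * q) q)).toModule = q := by
  have h1 : ¬ q ∣ 1 := fun h => hq.one_lt.ne' (Nat.dvd_one.mp h)
  have hd1 : 1 ∣ M * q := one_dvd _
  have hd2 : 1 * q ∣ M * q * q := by rw [one_mul]; exact dvd_mul_left q (M * q)
  -- the Atkin-Lehner involution of level `q`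
  have hww : (al97L_wBar 1 q hq h1).comp (al97L_wBar 1 q hq h1) =
      AlgHom.id Kbar ↥(modularFunctionFieldBar (1 * q)) :=
    AlgHom.ext fun x => al97L_wBar_wBar 1 q hq h1 x
  let w : ↥(modularFunctionFieldBar (1 * q)) ≃ₐ[Kbar] ↥(modularFunctionFieldBar (1 * q)) :=
    AlgEquiv.ofAlgHom (al97L_wBar 1 q hq h1) (al97L_wBar 1 q hq h1) hww hww
  have hw : ∀ x, w (heckeAlphaBar Kbar 1 q x) = heckeBetaBar Kbar 1 q x := fun x =>
    DFunLike.congr_fun (al97L_wBar_alpha 1 q hq h1) x
  have hb1 := nc73_finrank_beta 1 q hq h1 w hw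
  -- the commutative square
  have hsq : (heckeBetaBar Kbar (M * q) q).toRingHom.comp (tv1_iota hd1).toRingHom =
      (tv1_iota hd2).toRingHom.comp (heckeBetaBar Kbar 1 q).toRingHom := by
    refine RingHom.ext fun k => Subtype.ext ?_
    show ((heckeBetaBar Kbar (M * q) q (tv1_iota hd1 k) : ↥(modularFunctionFieldBar (M * q * q))) :
        LaurentSeries Kbar) =
      ((tv1_iota hd2 (heckeBetaBar Kbar 1 q k) : ↥(modularFunctionFieldBar (M * q * q))) :
        LaurentSeries Kbar)
    rw [coe_heckeBetaBar, tv1_coe_iota, tv1_coe_iota, coe_heckeBetaBar]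
  have t1 := lq33_finrank_comp (tv1_iota hd1).toRingHom (heckeBetaBar Kbar (M * q) q).toRingHom
  have t2 := lq33_finrank_comp (heckeBetaBar Kbar 1 q).toRingHom (tv1_iota hd2).toRingHom
  rw [hsq, t2, lq33_finrank_incl hd1, lq33_finrank_incl hd2, lq33_psi_a M q hq hqM,
    lq33_psi_b M q hq hqM] at t1
  have hb1' : @Module.finrank ↥(modularFunctionFieldBar 1) ↥(modularFunctionFieldBar (1 * q)) _ _
      (heckeBetaBar Kbar 1 q).toRingHom.toAlgebra.toModule = q + 1 := hb1
  rw [hb1'] at t1
  have hpos : 0 < dedekindPsi M * (q + 1) := Nat.mul_pos (nd38_psi_pos M) (Nat.succ_pos q)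
  have t3 : dedekindPsi M * (q + 1) * q = dedekindPsi M * (q + 1) *
      @Module.finrank ↥(modularFunctionFieldBar (M * q)) ↥(modularFunctionFieldBar (M * q * q)) _ _
        (heckeBetaBar Kbar (M * q) q).toRingHom.toAlgebra.toModule := by
    rw [← t1]; ring
  exact (Nat.eq_of_mul_eq_mul_left hpos t3).symm

/-- `j(Q)` as an element of `F(M q q)`. -/
noncomputable def lq33_j2 : ↥(modularFunctionFieldBar (M * q * q)) :=
  ⟨JJ 1, asmAb_JJ_mem (M * q * q) 1 (one_dvd _)⟩

theorem lq33_j2_coe : ((lq33_j2 M q : ↥(modularFunctionFieldBar (M * q * q))) :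
    LaurentSeries Kbar) = JJ 1 := rfl

/-- **`F(M q q) = β F(M q)[j]`** (along `β`). -/
theorem lq33_adjoin_beta (hq : q.Prime) (hqM : ¬ q ∣ M) :
    @Algebra.adjoin ↥(modularFunctionFieldBar (M * q)) ↥(modularFunctionFieldBar (M * q * q)) _ _
      (algebraAlong (heckeBetaBar Kbar (M * q) q)) {lq33_j2 M q} = ⊤ := by
  letI := algebraAlong (heckeBetaBar Kbar (M * q) q)
  have hfr : Module.finrank ↥(modularFunctionFieldBar (M * q))
      ↥(modularFunctionFieldBar (M * q * q)) = q := lq33_finrank_beta M q hq hqM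
  haveI : FiniteDimensional ↥(modularFunctionFieldBar (M * q))
      ↥(modularFunctionFieldBar (M * q * q)) :=
    Module.finite_of_finrank_pos (by rw [hfr]; exact hq.pos)
  haveI : IsSimpleOrder (IntermediateField ↥(modularFunctionFieldBar (M * q))
      ↥(modularFunctionFieldBar (M * q * q))) :=
    IntermediateField.isSimpleOrder_of_finrank_prime _ _ (by rw [hfr]; exact hq)
  have htop : IntermediateField.adjoin ↥(modularFunctionFieldBar (M * q)) {lq33_j2 M q} = ⊤ := by
    rcases eq_bot_or_eq_top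
      (IntermediateField.adjoin ↥(modularFunctionFieldBar (M * q)) {lq33_j2 M q}) with h | h
    · exfalso
      have hy : lq33_j2 M q ∈ (⊥ : IntermediateField ↥(modularFunctionFieldBar (M * q))
          ↥(modularFunctionFieldBar (M * q * q))) := by
        rw [← h]
        exact IntermediateField.mem_adjoin_simple_self _ _
      rw [IntermediateField.mem_bot] at hy
      obtain ⟨a, ha⟩ := hy
      have h3 : qExpand Kbar q (a : LaurentSeries Kbar) = JJ 1 := by
        have h4 := congrArg (fun z : ↥(modularFunctionFieldBar (M * q * q)) =>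
          (z : LaurentSeries Kbar)) ha
        simp only [lq33_j2_coe] at h4
        rw [← h4]
        exact (coe_heckeBetaBar (L := Kbar) (N := M * q) (ℓ := q) a).symm
      have h5 := congrArg (fun z : LaurentSeries Kbar => z.coeff (-1)) h3
      simp only [kn97_JJ_one_coeff] at h5
      have hnd : ¬ ((q : ℤ) ∣ (-1 : ℤ)) := by
        intro hd
        have h6 : (q : ℤ) ∣ ((1 : ℕ) : ℤ) := by
          rw [Nat.cast_one]; exact (dvd_neg).mp hd
        exact hq.one_lt.ne' (Nat.dvd_one.mp (Int.natCast_dvd_natCast.mp h6))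
      rw [qExpand_coeff_of_not_dvd q _ hnd] at h5
      exact zero_ne_one h5
    · exact h
  have h2 := IntermediateField.adjoin_simple_toSubalgebra_of_isAlgebraic
    (Algebra.IsAlgebraic.isAlgebraic (R := ↥(modularFunctionFieldBar (M * q))) (lq33_j2 M q))
  rw [← h2, htop]
  rfl

end Beta

section BetaNorm

variable {M M₁ q : ℕ} [NeZero M] [NeZero M₁] [NeZero q]

/-- **Base change of the norm along `β` at level `q²`**: for `M ∣ M₁`, `q ∤ M₁` and
`f ∈ F(M q q)`, the norm of `f` from `F(M₁ q q)` to `β F(M₁ q)` is the norm of `f` from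
`F(M q q)` to `β F(M q)`. -/
theorem lq33_norm_beta (hMM : M ∣ M₁) (hq : q.Prime) (hqM₁ : ¬ q ∣ M₁)
    (f : ↥(modularFunctionFieldBar (M * q * q))) :
    @Algebra.norm ↥(modularFunctionFieldBar (M₁ * q)) ↥(modularFunctionFieldBar (M₁ * q * q)) _ _
        (algebraAlong (heckeBetaBar Kbar (M₁ * q) q))
        (tv1_iota (Nat.mul_dvd_mul_right (Nat.mul_dvd_mul_right hMM q) q) f) =
      tv1_iota (Nat.mul_dvd_mul_right hMM q)
        (@Algebra.norm ↥(modularFunctionFieldBar (M * q)) ↥(modularFunctionFieldBar (M * q * q))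
          _ _ (algebraAlong (heckeBetaBar Kbar (M * q) q)) f) := by
  letI := algebraAlong (heckeBetaBar Kbar (M * q) q)
  letI := algebraAlong (heckeBetaBar Kbar (M₁ * q) q)
  have hqM : ¬ q ∣ M := fun h => hqM₁ (h.trans hMM)
  have hfr : Module.finrank ↥(modularFunctionFieldBar (M * q))
      ↥(modularFunctionFieldBar (M * q * q)) = q := lq33_finrank_beta M q hq hqM
  have hfr₁ : Module.finrank ↥(modularFunctionFieldBar (M₁ * q))
      ↥(modularFunctionFieldBar (M₁ * q * q)) = q := lq33_finrank_beta M₁ q hq hqM₁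
  haveI : FiniteDimensional ↥(modularFunctionFieldBar (M * q))
      ↥(modularFunctionFieldBar (M * q * q)) :=
    Module.finite_of_finrank_pos (by rw [hfr]; exact hq.pos)
  have hspan : Algebra.adjoin ↥(modularFunctionFieldBar (M₁ * q))
      (Set.range (tv1_iota (Nat.mul_dvd_mul_right (Nat.mul_dvd_mul_right hMM q) q)).toRingHom) =
        ⊤ := by
    rw [eq_top_iff, ← lq33_adjoin_beta M₁ q hq hqM₁]
    apply Algebra.adjoin_mono
    rw [Set.singleton_subset_iff]
    exact ⟨lq33_j2 M q, Subtype.ext (tv1_coe_iota _ _)⟩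
  have hcomm : ∀ k : ↥(modularFunctionFieldBar (M * q)),
      (tv1_iota (Nat.mul_dvd_mul_right (Nat.mul_dvd_mul_right hMM q) q)).toRingHom
        (algebraMap ↥(modularFunctionFieldBar (M * q)) ↥(modularFunctionFieldBar (M * q * q)) k) =
      algebraMap ↥(modularFunctionFieldBar (M₁ * q)) ↥(modularFunctionFieldBar (M₁ * q * q))
        ((tv1_iota (Nat.mul_dvd_mul_right hMM q)).toRingHom k) := by
    intro k
    apply Subtype.ext
    show ((tv1_iota (Nat.mul_dvd_mul_right (Nat.mul_dvd_mul_right hMM q) q)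
        (heckeBetaBar Kbar (M * q) q k) : ↥(modularFunctionFieldBar (M₁ * q * q))) :
          LaurentSeries Kbar) =
      ((heckeBetaBar Kbar (M₁ * q) q (tv1_iota (Nat.mul_dvd_mul_right hMM q) k) :
        ↥(modularFunctionFieldBar (M₁ * q * q))) : LaurentSeries Kbar)
    rw [tv1_coe_iota, coe_heckeBetaBar, coe_heckeBetaBar, tv1_coe_iota]
  exact (nbc92_norm (tv1_iota (Nat.mul_dvd_mul_right hMM q)).toRingHom
    (tv1_iota (Nat.mul_dvd_mul_right (Nat.mul_dvd_mul_right hMM q) q)).toRingHom hcomm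
    (by rw [hfr₁, hfr]) hspan f).symm

end BetaNorm

end Fermat.Agent.S36
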