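import Fermat.Agent.S36.Iface62
import Fermat.Agent.S36.LevelNormSq33
import Fermat.Agent.S34.LevelChange52c

/-!
# S36 lab (helper33), row LVL-rigid: the package `s36i62_Pkg_LevelFF`

`plf33_pkg_levelFF : s36i62_Pkg_LevelFF` — the literal interface package of `S36/Iface62`:
(FF-INV) (`ji17_FFInv`, one constant for all `p`-power exponents) at the RIGID levels implies
(FF-INV) at every level `N` with `q ∥ N`.

* `plf33_ffInv_of_dvd` : ONE-STEP norm descent.  For `M ∣ M₁`, `q ∤ M₁`: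
  `ji17_FFInv (M₁ q) q m c → ji17_FFInv (M q) q m (c · d)`, `d = ψ(M₁ q q) / ψ(M q q)` the degree
  of `F(M₁ q q)` over `F(M q q)`.  The hypotheses of (FF-INV) for `f ∈ F(M q q)` go up to
  `ι f ∈ F(M₁ q q)` (orders: `Place.ord_restrictAlong`; the two norms: `lq33_norm_alpha`,
  `lq33_norm_beta`; the inertia condition: `lc52_iota_arith`), and the conclusion comes down by
  the norm: `g ^ m = (ι f) ^ c` gives `N(g) ^ m = f ^ (c d)`.  No coprimality is needed.
* `plf33_pkg_levelFF` : the package, with the rigid level `N'' = M (p₀ r) q`, `p₀ ∈ {2, 3}`,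
  `r ∈ {11, 23}`, both different from `q`.
-/

set_option autoImplicit false
set_option linter.style.haveILetI false

namespace Fermat.Agent.S36

open ModularCurve AlgebraicCurve Fermat.Agent.S37 Fermat.Agent.S34 Fermat.Agent.S35
open Fermat.Agent.S18

local notation "Qb" => AlgebraicClosure ℚ

/-- **One-step norm descent of (FF-INV)** from level `M₁ q q` to level `M q q`, `M ∣ M₁`,
`q ∤ M₁`; the constant is multiplied by the degree `ψ(M₁ q q) / ψ(M q q)`. -/
theorem plf33_ffInv_of_dvd {M M₁ q m c : ℕ} [NeZero M] [NeZero M₁] [NeZero q] (hMM : M ∣ M₁)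
    (hq : q.Prime) (hqM₁ : ¬ q ∣ M₁) (h : ji17_FFInv (M₁ * q) q m c) :
    ji17_FFInv (M * q) q m (c * (dedekindPsi (M₁ * q * q) / dedekindPsi (M * q * q))) := by
  intro A hA f hf hord hα hβ hσ
  obtain ⟨a, ha⟩ := hα
  obtain ⟨b, hb⟩ := hβ
  have hd1 : M * q ∣ M₁ * q := Nat.mul_dvd_mul_right hMM q
  have hd : M * q * q ∣ M₁ * q * q := Nat.mul_dvd_mul_right hd1 q
  haveI := hi63_hasPrincipalDivisors_bar (M₁ * q * q)
  letI := algebraAlong (tv1_iota hd)
  haveI := isScalarTower_along (tv1_iota hd)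
  haveI := isIntegral_along (tv1_iota hd) (tv1_iota_integral hd)
  haveI : Module.Finite ↥(modularFunctionFieldBar (M * q * q))
      ↥(modularFunctionFieldBar (M₁ * q * q)) := tv1_iota_finite hd
  have hιf : tv1_iota hd f ≠ 0 := (map_ne_zero (tv1_iota hd)).mpr hf
  have hordM : ∀ w : Place Qb ↥(modularFunctionFieldBar (M₁ * q * q)),
      (m : ℤ) ∣ w.ord (tv1_iota hd f) := by
    intro w
    rw [Place.ord_restrictAlong (tv1_iota hd) (tv1_iota_integral hd) w f]
    exact Dvd.dvd.mul_left (hord _) _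
  have hα' : ∃ a' : ↥(modularFunctionFieldBar (M₁ * q)),
      s35i62_normABar (M₁ * q) q (tv1_iota hd f) = a' ^ m := by
    refine ⟨tv1_iota hd1 a, ?_⟩
    have h1 := lq33_norm_alpha hMM hq hqM₁ f
    have h2 : s35i62_normABar (M₁ * q) q (tv1_iota hd f) =
        tv1_iota hd1 (s35i62_normABar (M * q) q f) := h1
    rw [h2, ha, map_pow]
  have hβ' : ∃ b' : ↥(modularFunctionFieldBar (M₁ * q)),
      s35i62_normBBar (M₁ * q) q (tv1_iota hd f) = b' ^ m := by
    refine ⟨tv1_iota hd1 b, ?_⟩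
    have h1 := lq33_norm_beta hMM hq hqM₁ f
    have h2 : s35i62_normBBar (M₁ * q) q (tv1_iota hd f) =
        tv1_iota hd1 (s35i62_normBBar (M * q) q f) := h1
    rw [h2, hb, map_pow]
  have hσ' : ∀ σ ∈ A.inertiaSubgroupIn ℚ, ∃ h' : ↥(modularFunctionFieldBar (M₁ * q * q)),
      arithmeticRingAut (modularFunctionFieldFull (M₁ * q * q)) σ (tv1_iota hd f) =
        tv1_iota hd f * h' ^ m := by
    intro σ hσm
    obtain ⟨h0, hh0⟩ := hσ σ hσm
    refine ⟨tv1_iota hd h0, ?_⟩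
    rw [lc52_iota_arith hd σ f, hh0, map_mul, map_pow]
  obtain ⟨g, hg⟩ := h A hA (tv1_iota hd f) hιf hordM hα' hβ' hσ'
  have hfr : Module.finrank ↥(modularFunctionFieldBar (M * q * q))
      ↥(modularFunctionFieldBar (M₁ * q * q)) =
        dedekindPsi (M₁ * q * q) / dedekindPsi (M * q * q) := tv1_finrank hd
  haveI : Module.Free ↥(modularFunctionFieldBar (M * q * q))
      ↥(modularFunctionFieldBar (M₁ * q * q)) := Module.Free.of_divisionRing _ _
  refine ⟨Algebra.norm ↥(modularFunctionFieldBar (M * q * q)) g, ?_⟩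
  have e1 : tv1_iota hd f ^ c = algebraMap ↥(modularFunctionFieldBar (M * q * q))
      ↥(modularFunctionFieldBar (M₁ * q * q)) (f ^ c) := (map_pow (tv1_iota hd) f c).symm
  calc Algebra.norm ↥(modularFunctionFieldBar (M * q * q)) g ^ m
      = Algebra.norm ↥(modularFunctionFieldBar (M * q * q)) (g ^ m) := (map_pow _ _ _).symm
    _ = Algebra.norm ↥(modularFunctionFieldBar (M * q * q))
          (algebraMap ↥(modularFunctionFieldBar (M * q * q))
            ↥(modularFunctionFieldBar (M₁ * q * q)) (f ^ c)) := by rw [hg, e1]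
    _ = (f ^ c) ^ Module.finrank ↥(modularFunctionFieldBar (M * q * q))
          ↥(modularFunctionFieldBar (M₁ * q * q)) := Algebra.norm_algebraMap (f ^ c)
    _ = f ^ (c * (dedekindPsi (M₁ * q * q) / dedekindPsi (M * q * q))) := by
        rw [hfr, ← pow_mul]

/-- **P-LEVEL36, function-field form**: the literal package `s36i62_Pkg_LevelFF` of the
interface `S36/Iface62`. -/
theorem plf33_pkg_levelFF : s36i62_Pkg_LevelFF := by
  intro N q p hN hq0 hq hqN hq2N hp hpq hrig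
  obtain ⟨M, hM⟩ : ∃ M, N = M * q := by
    obtain ⟨M, hM⟩ := hqN
    exact ⟨M, by rw [hM, mul_comm]⟩
  subst hM
  have hM0 : M ≠ 0 := fun h0 => NeZero.ne (M * q) (by rw [h0, zero_mul])
  haveI : NeZero M := ⟨hM0⟩
  have hqM : ¬ q ∣ M := fun hd => hq2N (by rw [pow_two]; exact Nat.mul_dvd_mul_right hd q)
  obtain ⟨p0, hp0, hp0q⟩ : ∃ p0 : ℕ, (p0 = 2 ∨ p0 = 3) ∧ p0 ≠ q := by
    by_cases h2 : q = 2
    · exact ⟨3, Or.inr rfl, by omega⟩
    · exact ⟨2, Or.inl rfl, fun h => h2 h.symm⟩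
  obtain ⟨r, hr, hr12, hrq⟩ : ∃ r : ℕ, r.Prime ∧ r % 12 = 11 ∧ r ≠ q := by
    by_cases h11 : q = 11
    · exact ⟨23, by norm_num, by norm_num, by omega⟩
    · exact ⟨11, by norm_num, by norm_num, fun h => h11 h.symm⟩
  have hp0prime : p0.Prime := by
    rcases hp0 with rfl | rfl
    · exact Nat.prime_two
    · exact Nat.prime_three
  have hM₁0 : M * (p0 * r) ≠ 0 :=
    Nat.mul_ne_zero hM0 (Nat.mul_ne_zero hp0prime.ne_zero hr.ne_zero)
  haveI : NeZero (M * (p0 * r)) := ⟨hM₁0⟩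
  have hqM₁ : ¬ q ∣ M * (p0 * r) := by
    intro hd
    rcases (Nat.Prime.dvd_mul hq).mp hd with h | h
    · exact hqM h
    · rcases (Nat.Prime.dvd_mul hq).mp h with h | h
      · exact hp0q ((Nat.prime_dvd_prime_iff_eq hq hp0prime).mp h).symm
      · exact hrq ((Nat.prime_dvd_prime_iff_eq hq hr).mp h).symm
  have hq2M₁ : ¬ q ^ 2 ∣ M * (p0 * r) * q := by
    intro hd
    rw [pow_two] at hd
    exact hqM₁ ((Nat.mul_dvd_mul_iff_right hq.pos).mp hd)
  have hrigid : s36i62_Rigid (M * (p0 * r) * q) q p0 r :=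
    ⟨hp0, hp0q, ⟨M * r * q, by ring⟩, hr, hr12, hrq, ⟨M * p0 * q, by ring⟩⟩
  obtain ⟨c, hc, hff⟩ := hrig (M * (p0 * r) * q) p0 r (dvd_mul_left q _) hq2M₁ hrigid
  have hdpos : dedekindPsi (M * (p0 * r) * q * q) / dedekindPsi (M * q * q) ≠ 0 := by
    have hd : M * q * q ∣ M * (p0 * r) * q * q :=
      Nat.mul_dvd_mul_right (Nat.mul_dvd_mul_right (dvd_mul_right M (p0 * r)) q) q
    have h1 := nd38_relfinrank_pos hd
    rw [nd38_relfinrank_eq hd] at h1
    exact h1.ne'
  exact ⟨c * (dedekindPsi (M * (p0 * r) * q * q) / dedekindPsi (M * q * q)),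
    Nat.mul_ne_zero hc hdpos,
    fun n => plf33_ffInv_of_dvd (dvd_mul_right M (p0 * r)) hq hqM₁ (hff n)⟩

end Fermat.Agent.S36
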