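import Mathlib
import Fermat.Agent.S36.GateIface67
import Fermat.Agent.S36.PkgLevelFF33

/-!
# S36 (helper67): the gate with a FREE choice of the auxiliary level

The frozen statement S36 needs (FF-INV) only at SOME multiple of every level:

* `s36c67_Pkg_Cofinal` : for every `M` prime to `q` and every prime `p ≠ q` there is a multiple
  `M₁` of `M`, prime to `q`, with (FF-INV) at level `M₁ q` (curve level `M₁ q²`), one constant
  for all `p`-power exponents.
* `s36c67_result` : `s36c67_Pkg_Cofinal` implies the frozen statement S36 (norm descent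
  `plf33_ffInv_of_dvd` of helper33 + `GateIface67`).

So the geometric packages may assume ANY divisibility of the auxiliary level.  Instance:

* `s36c67_Rigid6 N q r` : EVERY prime `p₀ ∈ {2, 3}` different from `q` divides `N`, and a prime
  `r ≡ 11 mod 12`, `r ≠ q`, divides `N` (for `q ≥ 5`: `6 r ∣ N`, so BOTH Hauptmoduln `h₂`, `h₃`
  are available — at a non-cuspidal point at least one of `h₂ + 64`, `h₃ + 27` is a unit).
* `s36c67_Pkg_Core6` : CORE36 (`s36i62_CoreAll`) at the levels with `s36c67_Rigid6`;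
  `s36c67_core6_of_core` : it follows from `s36i62_Pkg_Core` (so it is the WEAKER target).
* `s36c67_result_of_core6` : `s36c67_Pkg_Core6` + `s36i62_Pkg_FieldDef` imply the frozen S36.

All names are prefixed `s36c67_`.
-/

set_option autoImplicit false
set_option linter.unusedSectionVars false
set_option linter.unusedVariables false
set_option linter.style.longLine false
set_option linter.style.haveILetI false

open CongruenceSubgroup ModularCurve ModularCurve.Period AlgebraicCurve Polynomial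
open scoped TensorProduct

namespace Fermat.Agent.S36

open Fermat.Agent.S30 Fermat.Agent.S16 Fermat.Agent.S35 Fermat.Agent.S42 Fermat.Agent.S18

local notation "Qb" => AlgebraicClosure ℚ
local notation "GQ" => AlgebraicClosure ℚ ≃ₐ[ℚ] AlgebraicClosure ℚ

/-- (FF-INV) for all `p`-power exponents descends from level `M₁ q` to level `M q`, `M ∣ M₁`,
`q ∤ M₁`. -/
theorem s36c67_ffInvAll_of_dvd {M M₁ q p : ℕ} [NeZero M] [NeZero M₁] [NeZero q] (hMM : M ∣ M₁)
    (hq : q.Prime) (hqM₁ : ¬ q ∣ M₁) (h : s36i62_FFInvAll (M₁ * q) q p) :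
    s36i62_FFInvAll (M * q) q p := by
  obtain ⟨c, hc, hff⟩ := h
  have hdpos : dedekindPsi (M₁ * q * q) / dedekindPsi (M * q * q) ≠ 0 := by
    have hd : M * q * q ∣ M₁ * q * q :=
      Nat.mul_dvd_mul_right (Nat.mul_dvd_mul_right hMM q) q
    have h1 := nd38_relfinrank_pos hd
    rw [nd38_relfinrank_eq hd] at h1
    exact h1.ne'
  exact ⟨c * (dedekindPsi (M₁ * q * q) / dedekindPsi (M * q * q)), Nat.mul_ne_zero hc hdpos,
    fun n => plf33_ffInv_of_dvd hMM hq hqM₁ (hff n)⟩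

/-- **P-COFINAL**: for every `M` prime to `q` and every prime `p ≠ q`, (FF-INV) holds at level
`M₁ q` for SOME multiple `M₁` of `M` prime to `q`. -/
def s36c67_Pkg_Cofinal : Prop :=
  ∀ (M q p : ℕ) [NeZero M] [NeZero q], q.Prime → ¬ q ∣ M → p.Prime → p ≠ q →
    ∃ (M₁ : ℕ) (_ : NeZero M₁), M ∣ M₁ ∧ ¬ q ∣ M₁ ∧ s36i62_FFInvAll (M₁ * q) q p

/-- P-COFINAL gives (INV) at every level `N` with `q² ∥ N` (the top `Prop` of `Iface62`). -/
theorem s36c67_invAt (h : s36c67_Pkg_Cofinal) (N q p : ℕ) (hq : q.Prime) (hp : p.Prime)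
    (hpq : p ≠ q) (hN2 : N.factorization q = 2) : s36i62_InvAt N q p := by
  refine s36i62_invAt_of N q p hq hN2 ?_
  intro N₁ _ _ hqN₁ hq2N₁
  refine s36i62_invAll_of_ffInvAll N₁ q p hp ?_
  obtain ⟨M, hM⟩ : ∃ M, N₁ = M * q := by
    obtain ⟨M, hM⟩ := hqN₁
    exact ⟨M, by rw [hM, mul_comm]⟩
  subst hM
  have hM0 : M ≠ 0 := fun h0 => NeZero.ne (M * q) (by rw [h0, zero_mul])
  haveI : NeZero M := ⟨hM0⟩
  have hqM : ¬ q ∣ M := fun hd => hq2N₁ (by rw [pow_two]; exact Nat.mul_dvd_mul_right hd q)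
  obtain ⟨M₁, hM₁, hMM, hqM₁, hff⟩ := h M q p hq hqM hp hpq
  exact s36c67_ffInvAll_of_dvd hMM hq hqM₁ hff

/-- **GATE (free auxiliary level)**: P-COFINAL implies the frozen statement S36. -/
theorem s36c67_result (h : s36c67_Pkg_Cofinal)
    {M : ℕ} [NeZero M] {g : CuspForm (CongruenceSubgroup.Gamma0 M) 2} (hg : g.IsNewform)
    (lam : ℕ) [Fact lam.Prime]
    (S : Finset ℕ)
    (O' : Type) [CommRing O'] [IsDomain O'] [IsDiscreteValuationRing O']
    [IsAdicComplete (IsLocalRing.maximalIdeal O') O'] [Finite (IsLocalRing.ResidueField O')]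
    [CharZero O'] (hlamO' : (lam : O') ∈ IsLocalRing.maximalIdeal O')
    (chig : CuspForm.heckeAlgebra M 2 (↑S : Set ℕ) →+* ℂ)
    (hchig : ∀ (ℓ : ℕ) (hℓ : ℓ.Prime) (hℓM : ¬ ℓ ∣ M) (hℓS : ℓ ∉ (↑S : Set ℕ)),
      chig (CuspForm.heckeAlgebra.T hℓ hℓM hℓS) = ModularFormClass.qCoeff g ℓ)
    (iota : chig.range →+* O')
    (hlamS : lam ∈ S) (hMS : ∀ q : ℕ, q.Prime → q ∣ M → q ∈ S) :
    ∃ (O'' : Type) (_ : CommRing O'') (_ : IsDomain O'') (_ : IsDiscreteValuationRing O'')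
      (_ : IsAdicComplete (IsLocalRing.maximalIdeal O'') O'') (_ : Finite (IsLocalRing.ResidueField O''))
      (_ : CharZero O'') (_ : Algebra O' O'') (_ : Module.Finite O' O'') (_ : IsLocalHom (algebraMap O' O'')),
      Function.Injective (algebraMap O' O'') ∧
      ∃ ρ : GaloisRepAdic O'',
        (∀ (ℓ : ℕ) (hℓ : ℓ.Prime) (hℓM : ¬ ℓ ∣ M) (hℓS : ℓ ∉ (↑S : Set ℕ)),
          ∀ A : ValuationSubring (AlgebraicClosure ℚ), A.LiesOverPrime ℓ →
            ∀ σ : AlgebraicClosure ℚ ≃ₐ[ℚ] AlgebraicClosure ℚ, A.IsFrobeniusAt σ ℓ →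
              LinearMap.charpoly (ρ.ρ σ) =
                X ^ 2 - C (algebraMap O' O'' ((iota.comp chig.rangeRestrict) (CuspForm.heckeAlgebra.T hℓ hℓM hℓS))) * X
                  + C ((ℓ : O''))) ∧
        (∀ q : ℕ, q.Prime → q ≠ lam → M.factorization q = 2 → ¬ ρ.IsUnipotentOnInertiaAt q) :=
  s36g67_result_of_invAt (fun N q p hq hp hpq hN2 => s36c67_invAt h N q p hq hp hpq hN2)
    hg lam S O' hlamO' chig hchig iota hlamS hMS

/-! ### The instance: both Hauptmodul primes in the level -/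

/-- The level `N` is STRONGLY RIGID for `q`: every prime `p₀ ∈ {2, 3}` different from `q` divides
`N`, and so does a prime `r ≡ 11 mod 12`, `r ≠ q`. -/
def s36c67_Rigid6 (N q r : ℕ) : Prop :=
  (q ≠ 2 → 2 ∣ N) ∧ (q ≠ 3 → 3 ∣ N) ∧ r.Prime ∧ r % 12 = 11 ∧ r ≠ q ∧ r ∣ N

/-- A strongly rigid level is rigid in the sense of `Iface62`. -/
theorem s36c67_rigid_of_rigid6 (N q r : ℕ) (h : s36c67_Rigid6 N q r) :
    ∃ p₀ : ℕ, s36i62_Rigid N q p₀ r := by
  obtain ⟨h2, h3, hr, hr12, hrq, hrN⟩ := h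
  by_cases hq2 : q = 2
  · exact ⟨3, Or.inr rfl, by omega, h3 (by omega), hr, hr12, hrq, hrN⟩
  · exact ⟨2, Or.inl rfl, fun h => hq2 h.symm, h2 hq2, hr, hr12, hrq, hrN⟩

/-- **P-CORE36 at the strongly rigid levels** (the weaker target for the geometric packages). -/
def s36c67_Pkg_Core6 : Prop :=
  ∀ (N q p r : ℕ) [NeZero N] [NeZero q], q.Prime → q ∣ N → ¬ q ^ 2 ∣ N →
    s36c67_Rigid6 N q r → p.Prime → p ≠ q → s36i62_CoreAll N q p

/-- The package of `Iface62` implies the package at the strongly rigid levels. -/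
theorem s36c67_core6_of_core (h : s36i62_Pkg_Core) : s36c67_Pkg_Core6 := by
  intro N q p r _ _ hq hqN hq2N hrig hp hpq
  obtain ⟨p₀, hp₀⟩ := s36c67_rigid_of_rigid6 N q r hrig
  exact h N q p p₀ r hq hqN hq2N hp₀ hp hpq

/-- CORE36 at the strongly rigid levels + P-FD36 give P-COFINAL. -/
theorem s36c67_cofinal_of_core6 (hCore : s36c67_Pkg_Core6) (hFD : s36i62_Pkg_FieldDef) :
    s36c67_Pkg_Cofinal := by
  intro M q p _ _ hq hqM hp hpq
  have hM0 : M ≠ 0 := NeZero.ne M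
  -- the auxiliary factor: the primes of `{2, 3}` different from `q`, and `r ∈ {11, 23}`
  obtain ⟨L, hL0, hqL, hL2, hL3⟩ : ∃ L : ℕ, L ≠ 0 ∧ ¬ q ∣ L ∧ (q ≠ 2 → 2 ∣ L) ∧ (q ≠ 3 → 3 ∣ L) := by
    by_cases h2 : q = 2
    · subst h2
      exact ⟨3, by norm_num, by norm_num, fun h => absurd rfl h, fun _ => dvd_rfl⟩
    · by_cases h3 : q = 3
      · subst h3
        exact ⟨2, by norm_num, by norm_num, fun _ => dvd_rfl, fun h => absurd rfl h⟩
      · refine ⟨6, by norm_num, ?_, fun _ => ⟨3, rfl⟩, fun _ => ⟨2, rfl⟩⟩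
        intro hd
        have h6 : (6 : ℕ) = 2 * 3 := rfl
        rw [h6] at hd
        rcases (Nat.Prime.dvd_mul hq).mp hd with h | h
        · exact h2 ((Nat.prime_dvd_prime_iff_eq hq Nat.prime_two).mp h)
        · exact h3 ((Nat.prime_dvd_prime_iff_eq hq Nat.prime_three).mp h)
  obtain ⟨r, hr, hr12, hrq⟩ : ∃ r : ℕ, r.Prime ∧ r % 12 = 11 ∧ r ≠ q := by
    by_cases h11 : q = 11
    · exact ⟨23, by norm_num, by norm_num, by omega⟩
    · exact ⟨11, by norm_num, by norm_num, fun h => h11 h.symm⟩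
  have hM₁0 : M * (L * r) ≠ 0 := Nat.mul_ne_zero hM0 (Nat.mul_ne_zero hL0 hr.ne_zero)
  haveI : NeZero (M * (L * r)) := ⟨hM₁0⟩
  have hqM₁ : ¬ q ∣ M * (L * r) := by
    intro hd
    rcases (Nat.Prime.dvd_mul hq).mp hd with h | h
    · exact hqM h
    · rcases (Nat.Prime.dvd_mul hq).mp h with h | h
      · exact hqL h
      · exact hrq ((Nat.prime_dvd_prime_iff_eq hq hr).mp h).symm
  have hq2M₁ : ¬ q ^ 2 ∣ M * (L * r) * q := by
    intro hd
    rw [pow_two] at hd
    exact hqM₁ ((Nat.mul_dvd_mul_iff_right hq.pos).mp hd)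
  have hrigid : s36c67_Rigid6 (M * (L * r) * q) q r := by
    refine ⟨fun h => ?_, fun h => ?_, hr, hr12, hrq, ⟨M * L * q, by ring⟩⟩
    · exact Dvd.dvd.mul_right (Dvd.dvd.mul_left (Dvd.dvd.mul_right (hL2 h) r) M) q
    · exact Dvd.dvd.mul_right (Dvd.dvd.mul_left (Dvd.dvd.mul_right (hL3 h) r) M) q
  refine ⟨M * (L * r), inferInstance, dvd_mul_right M (L * r), hqM₁, ?_⟩
  exact hFD (M * (L * r) * q) q p hq (dvd_mul_left q _) hq2M₁ hp hpq
    (hCore (M * (L * r) * q) q p r hq (dvd_mul_left q _) hq2M₁ hrigid hp hpq)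

/-- **GATE (strongly rigid levels)**: CORE36 at the strongly rigid levels + P-FD36 imply the
frozen statement S36. -/
theorem s36c67_result_of_core6 (hCore : s36c67_Pkg_Core6) (hFD : s36i62_Pkg_FieldDef)
    {M : ℕ} [NeZero M] {g : CuspForm (CongruenceSubgroup.Gamma0 M) 2} (hg : g.IsNewform)
    (lam : ℕ) [Fact lam.Prime]
    (S : Finset ℕ)
    (O' : Type) [CommRing O'] [IsDomain O'] [IsDiscreteValuationRing O']
    [IsAdicComplete (IsLocalRing.maximalIdeal O') O'] [Finite (IsLocalRing.ResidueField O')]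
    [CharZero O'] (hlamO' : (lam : O') ∈ IsLocalRing.maximalIdeal O')
    (chig : CuspForm.heckeAlgebra M 2 (↑S : Set ℕ) →+* ℂ)
    (hchig : ∀ (ℓ : ℕ) (hℓ : ℓ.Prime) (hℓM : ¬ ℓ ∣ M) (hℓS : ℓ ∉ (↑S : Set ℕ)),
      chig (CuspForm.heckeAlgebra.T hℓ hℓM hℓS) = ModularFormClass.qCoeff g ℓ)
    (iota : chig.range →+* O')
    (hlamS : lam ∈ S) (hMS : ∀ q : ℕ, q.Prime → q ∣ M → q ∈ S) :
    ∃ (O'' : Type) (_ : CommRing O'') (_ : IsDomain O'') (_ : IsDiscreteValuationRing O'')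
      (_ : IsAdicComplete (IsLocalRing.maximalIdeal O'') O'') (_ : Finite (IsLocalRing.ResidueField O''))
      (_ : CharZero O'') (_ : Algebra O' O'') (_ : Module.Finite O' O'') (_ : IsLocalHom (algebraMap O' O'')),
      Function.Injective (algebraMap O' O'') ∧
      ∃ ρ : GaloisRepAdic O'',
        (∀ (ℓ : ℕ) (hℓ : ℓ.Prime) (hℓM : ¬ ℓ ∣ M) (hℓS : ℓ ∉ (↑S : Set ℕ)),
          ∀ A : ValuationSubring (AlgebraicClosure ℚ), A.LiesOverPrime ℓ →
            ∀ σ : AlgebraicClosure ℚ ≃ₐ[ℚ] AlgebraicClosure ℚ, A.IsFrobeniusAt σ ℓ →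
              LinearMap.charpoly (ρ.ρ σ) =
                X ^ 2 - C (algebraMap O' O'' ((iota.comp chig.rangeRestrict) (CuspForm.heckeAlgebra.T hℓ hℓM hℓS))) * X
                  + C ((ℓ : O''))) ∧
        (∀ q : ℕ, q.Prime → q ≠ lam → M.factorization q = 2 → ¬ ρ.IsUnipotentOnInertiaAt q) :=
  s36c67_result (s36c67_cofinal_of_core6 hCore hFD) hg lam S O' hlamO' chig hchig iota hlamS hMS

end Fermat.Agent.S36
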