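import Mathlib
import Fermat.Agent.S34.InertiaField8
import Fermat.Agent.S13.GlobalDec
import Fermat.Agent.S42.OpenStab25

/-!
# S36 (pre-GO, helper77): descent of inertia-invariant classes to an UNRAMIFIED number field

`A` a valuation subring of `ℚ̄` above the prime `q`.

* `du77_inertia_field` : for a finite Galois `L ⊆ ℚ̄` the inertia field `K0 ≤ L` of `A ∩ L`:
  (a) inertia fixes `K0`; (b) `q` is a uniformizer of `A ∩ K0` (UNRAMIFIED base);
  (c) `A ∩ L` and `A ∩ K0` have the same residue field; (d) every `σ ∈ Gal(ℚ̄/ℚ)` fixing `K0`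
  pointwise is `h⁻¹ * τ` with `h ∈ Gal(ℚ̄/L)` and `τ` in the inertia group of `A`.
* `du77_descent` : finitely many classes of `J₀(N)(ℚ̄)` fixed by the inertia group of `A` are
  fixed by `Gal(ℚ̄/K0)` for a number field `K0 ⊆ ℚ̄` in which `q` is a uniformizer of `A ∩ K0`
  (and which is fixed pointwise by inertia).
-/

set_option autoImplicit false
set_option linter.unusedSectionVars false
set_option linter.style.longLine false
set_option linter.style.haveILetI false

open NumberField IsDedekindDomain ModularCurve AlgebraicCurve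

namespace Fermat.Agent.S36

open Fermat.Agent.S34 Fermat.Agent.S13 Fermat.Agent.S42

local notation "Qb" => AlgebraicClosure ℚ
local notation "GQ" => AlgebraicClosure ℚ ≃ₐ[ℚ] AlgebraicClosure ℚ

/-- **The inertia field with the lifting clause (d).** -/
theorem du77_inertia_field (A : ValuationSubring Qb) {q : ℕ} (hq : q.Prime)
    (hA : A.LiesOverPrime q)
    (L : IntermediateField ℚ Qb) [FiniteDimensional ℚ L] [IsGalois ℚ L] :
    ∃ K0 : IntermediateField ℚ Qb, K0 ≤ L ∧
      (∀ σ ∈ A.inertiaSubgroupIn ℚ, ∀ x ∈ K0, σ x = x) ∧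
      (∀ x ∈ K0, x ∈ A.nonunits → ∃ y ∈ K0, y ∈ A ∧ x = q * y) ∧
      (∀ x ∈ L, x ∈ A → ∃ y ∈ K0, y ∈ A ∧ x - y ∈ A.nonunits) ∧
      (∀ σ : GQ, (∀ x ∈ K0, σ x = x) →
        ∃ h : GQ, (∀ x ∈ L, h x = x) ∧ h * σ ∈ A.inertiaSubgroupIn ℚ) := by
  haveI : NumberField L := { to_charZero := inferInstance, to_finiteDimensional := inferInstance }
  obtain ⟨v, hv, hvmem⟩ := if8_exists_v A hq hA L
  refine ⟨IntermediateField.lift (if8_E L v.asIdeal), IntermediateField.lift_le _, ?_, ?_, ?_, ?_⟩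
  · rintro σ hσ _ ⟨x, hx, rfl⟩
    exact if8_fix A L v hv hvmem hσ ⟨x, hx⟩
  · rintro _ ⟨x, hx, rfl⟩ hxA
    obtain ⟨y, hyA, hxy⟩ := if8_unif A L v hv hvmem hq hA ⟨x, hx⟩ hxA
    refine ⟨algebraMap L Qb (y : L), ⟨(y : L), y.2, rfl⟩, hyA, ?_⟩
    have h := congrArg (fun z : if8_E L v.asIdeal => algebraMap L Qb (z : L)) hxy
    simpa using h
  · intro x hx hxA
    obtain ⟨y, hyA, hxy⟩ := if8_res A L v hv ⟨x, hx⟩ hxA
    exact ⟨algebraMap L Qb (y : L), ⟨(y : L), y.2, rfl⟩, hyA, hxy⟩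
  · intro σ hσ
    -- the restriction of `σ` to `L` lies in the inertia group of `v`
    have hτ : σ.restrictNormal L ∈ if8_H L v.asIdeal := by
      have h1 : σ.restrictNormal L ∈ (if8_E L v.asIdeal).fixingSubgroup := by
        rw [IntermediateField.mem_fixingSubgroup_iff]
        intro x hx
        have h2 : σ (algebraMap L Qb x) = algebraMap L Qb x :=
          hσ _ ⟨x, hx, rfl⟩
        apply (algebraMap L Qb).injective
        rw [AlgEquiv.restrictNormal_commutes]
        exact h2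
      have h3 : (if8_E L v.asIdeal).fixingSubgroup = if8_H L v.asIdeal :=
        IntermediateField.fixingSubgroup_fixedField (if8_H L v.asIdeal)
      rw [h3] at h1
      exact h1
    have hσL : ∀ x : Qb, σ x ∈ L ↔ x ∈ L := by
      intro x
      constructor
      · intro hx
        have h1 := if8_map_mem_of_normal L σ⁻¹ (σ x) hx
        have h2 : σ⁻¹ (σ x) = x := σ.symm_apply_apply x
        rwa [h2] at h1
      · exact if8_map_mem_of_normal L σ x
    have hint : ∀ x : Qb, x ∈ L → IsIntegral ℤ x → σ x - x ∈ A.nonunits := by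
      intro x hx hxint
      have hxint' : IsIntegral ℤ (⟨x, hx⟩ : L) := by
        have : IsIntegral ℤ (algebraMap L Qb ⟨x, hx⟩) := hxint
        exact (isIntegral_algebraMap_iff (algebraMap L Qb).injective).mp this
      obtain ⟨d, hd⟩ : ∃ d : 𝓞 L, algebraMap (𝓞 L) L d = ⟨x, hx⟩ :=
        ⟨⟨⟨x, hx⟩, hxint'⟩, rfl⟩
      have h1 : σ.restrictNormal L • d - d ∈ v.asIdeal := hτ d
      rw [hvmem, Fermat.Agent.S18.nf23_mem_nonunits_comap] at h1
      have h2 : algebraMap L Qb (algebraMap (𝓞 L) L (σ.restrictNormal L • d - d)) =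
          σ (algebraMap L Qb (algebraMap (𝓞 L) L d)) - algebraMap L Qb (algebraMap (𝓞 L) L d) := by
        rw [map_sub, map_sub, ← AlgEquiv.restrictNormal_commutes]
        rfl
      rw [h2, hd] at h1
      exact h1
    obtain ⟨h, hh, hin⟩ := glob_exists_inertia_lift_field L A q hq hA σ hσL hint
    refine ⟨h, ?_, hin⟩
    intro x hx
    exact (IntermediateField.mem_fixingSubgroup_iff L h).mp hh x hx

/-- **Descent to the unramified base**: finitely many classes of `J₀(N)(ℚ̄)` fixed by the inertia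
group of `A` are fixed by `Gal(ℚ̄/K0)`, `K0 ⊆ ℚ̄` a number field with `q` a uniformizer of
`A ∩ K0`. -/
theorem du77_descent (N : ℕ) [NeZero N] (A : ValuationSubring Qb) {q : ℕ} (hq : q.Prime)
    (hA : A.LiesOverPrime q) (t : Finset (JZero N))
    (ht : ∀ x ∈ t, ∀ σ ∈ A.inertiaSubgroupIn ℚ, σ • x = x) :
    ∃ K0 : IntermediateField ℚ Qb, FiniteDimensional ℚ K0 ∧
      (∀ σ ∈ A.inertiaSubgroupIn ℚ, ∀ y ∈ K0, σ y = y) ∧
      (∀ y ∈ K0, y ∈ A.nonunits → ∃ z ∈ K0, z ∈ A ∧ y = q * z) ∧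
      ∀ σ : GQ, (∀ y ∈ K0, σ y = y) → ∀ x ∈ t, σ • x = x := by
  obtain ⟨L, hLfin, hLgal, hL⟩ := os25_open_stab_galois N t
  haveI := hLfin
  haveI := hLgal
  obtain ⟨K0, hK0L, ha, hb, -, hd⟩ := du77_inertia_field A hq hA L
  haveI : FiniteDimensional ℚ K0 := by
    have : FiniteDimensional ℚ (K0 : IntermediateField ℚ Qb) :=
      FiniteDimensional.of_injective (IntermediateField.inclusion hK0L).toLinearMap
        (IntermediateField.inclusion hK0L).injective
    exact this
  refine ⟨K0, inferInstance, ha, hb, ?_⟩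
  intro σ hσ x hx
  obtain ⟨h, hh, hin⟩ := hd σ hσ
  have h1 : (h * σ) • x = x := ht x hx _ hin
  have h2 : h⁻¹ • x = x := by
    refine hL h⁻¹ ?_ x hx
    intro a ha'
    have h3 : h a = a := hh a ha'
    calc h⁻¹ a = h⁻¹ (h a) := by rw [h3]
      _ = a := h.symm_apply_apply a
  calc σ • x = h⁻¹ • ((h * σ) • x) := by rw [← mul_smul, inv_mul_cancel_left]
    _ = x := by rw [h1, h2]

end Fermat.Agent.S36
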