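/-
S36 lab, row 587 LVL-descent support (helper17, seat 17).

Abstract Kummer descent on Laurent series, with NO Riemann-Roch and NO divisors.

`L` a field of characteristic zero, `G` a group acting on `L` through ring
homomorphisms `φ g`, hence coefficientwise on `LaurentSeries L` through
`ModularCurve.coeffMap (φ g)`; `F` an intermediate field of `LaurentSeries L / L`.

* `kd17_Monic x`: `x` is a power series with constant coefficient `1`.
* `kd17_monic_pow_inj`: monic `m`-th roots are unique (characteristic zero).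
* `kd17_exists_normal`, `kd17_normal_unique`: the normal form
  `x = single n a * w`, `w` monic.
* `kd17_descent`: if `g • f = f * h_g ^ m` with `h_g ∈ F` for every `g`, and the orbit of `f`
  is finite, then there are a constant `a ≠ 0` and `k ∈ F`, `k ≠ 0`, with
  `C a * f * k ^ m` fixed by every `g`  (the Kummer cocycle is made strict by the unique monic
  roots, and Hilbert 90 is the plain sum of the finitely many roots, whose constant term is
  a positive integer).
* `kd17_root_descent`: a `G`-fixed `y = C ca * A ^ m` with `A ∈ F` is `C a * A1 ^ m` with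
  `a` and `A1 ∈ F` both `G`-fixed.
-/
import Mathlib
import Fermat.Prelude.Def_ModularCurve_LaurentCoeff

set_option autoImplicit false

noncomputable section

namespace Fermat.Agent.S36

open ModularCurve

variable {L : Type*} [Field L]

/-- A Laurent series is *monic* if it is a power series with constant coefficient `1`. -/
def kd17_Monic (x : LaurentSeries L) : Prop :=
  x.coeff 0 = 1 ∧ ∀ k : ℤ, k < 0 → x.coeff k = 0

theorem kd17_monic_iff (x : LaurentSeries L) :
    kd17_Monic x ↔ ∃ p : PowerSeries L, PowerSeries.constantCoeff p = 1 ∧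
      (HahnSeries.ofPowerSeries ℤ L p) = x := by
  constructor
  · rintro ⟨h0, hneg⟩
    refine ⟨PowerSeries.mk fun n => x.coeff n, ?_, ?_⟩
    · rw [PowerSeries.constantCoeff_mk]
      exact_mod_cast h0
    · ext i
      rw [PowerSeries.coeff_coe]
      split_ifs with hi
      · exact (hneg i hi).symm
      · rw [PowerSeries.coeff_mk]
        congr 1
        omega
  · rintro ⟨p, hp, rfl⟩
    refine ⟨?_, ?_⟩
    · rw [PowerSeries.coeff_coe]
      simpa using hp
    · intro k hk
      rw [PowerSeries.coeff_coe, if_pos hk]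

theorem kd17_monic_one : kd17_Monic (1 : LaurentSeries L) :=
  (kd17_monic_iff 1).2 ⟨1, by simp, by simp⟩

theorem kd17_monic_mul {x y : LaurentSeries L} (hx : kd17_Monic x) (hy : kd17_Monic y) :
    kd17_Monic (x * y) := by
  obtain ⟨p, hp, rfl⟩ := (kd17_monic_iff x).1 hx
  obtain ⟨q, hq, rfl⟩ := (kd17_monic_iff y).1 hy
  exact (kd17_monic_iff _).2 ⟨p * q, by rw [map_mul, hp, hq, mul_one], map_mul _ _ _⟩

theorem kd17_monic_pow {x : LaurentSeries L} (hx : kd17_Monic x) (m : ℕ) :
    kd17_Monic (x ^ m) := by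
  induction m with
  | zero => simpa using kd17_monic_one (L := L)
  | succ m ih => rw [pow_succ]; exact kd17_monic_mul ih hx

theorem kd17_monic_ne_zero {x : LaurentSeries L} (hx : kd17_Monic x) : x ≠ 0 := by
  rintro rfl
  have h := hx.1
  simp at h

theorem kd17_monic_inv {x : LaurentSeries L} (hx : kd17_Monic x) : kd17_Monic x⁻¹ := by
  obtain ⟨p, hp, rfl⟩ := (kd17_monic_iff x).1 hx
  have hp0 : PowerSeries.constantCoeff p ≠ 0 := by rw [hp]; exact one_ne_zero
  have h1 : (HahnSeries.ofPowerSeries ℤ L p) * (HahnSeries.ofPowerSeries ℤ L p⁻¹) = 1 := by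
    rw [← map_mul, PowerSeries.mul_inv_cancel p hp0, map_one]
  rw [← eq_inv_of_mul_eq_one_right h1]
  exact (kd17_monic_iff _).2 ⟨p⁻¹, by rw [PowerSeries.constantCoeff_inv, hp, inv_one], rfl⟩

theorem kd17_monic_coeffMap {L' : Type*} [Field L'] (φ : L →+* L') {x : LaurentSeries L}
    (hx : kd17_Monic x) : kd17_Monic (coeffMap φ x) :=
  ⟨by rw [coeffMap_coeff, hx.1, map_one], fun k hk => by rw [coeffMap_coeff, hx.2 k hk, map_zero]⟩

/-- Monic `m`-th roots are unique in characteristic zero. -/
theorem kd17_monic_pow_inj [CharZero L] {m : ℕ} (hm : 0 < m) {x y : LaurentSeries L}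
    (hx : kd17_Monic x) (hy : kd17_Monic y) (h : x ^ m = y ^ m) : x = y := by
  obtain ⟨p, hp, rfl⟩ := (kd17_monic_iff x).1 hx
  obtain ⟨q, hq, rfl⟩ := (kd17_monic_iff y).1 hy
  have hpq : p ^ m = q ^ m := by
    apply HahnSeries.ofPowerSeries_injective (Γ := ℤ) (R := L)
    rw [map_pow, map_pow]
    exact h
  have hsum : (∑ i ∈ Finset.range m, p ^ i * q ^ (m - 1 - i)) * (p - q) = 0 := by
    rw [(Commute.all p q).geom_sum₂_mul, hpq, sub_self]
  have hs : (∑ i ∈ Finset.range m, p ^ i * q ^ (m - 1 - i)) ≠ 0 := by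
    intro h0
    have h1 := congrArg PowerSeries.constantCoeff h0
    rw [map_sum] at h1
    simp only [map_mul, map_pow, hp, hq, one_pow, mul_one, Finset.sum_const, Finset.card_range,
      nsmul_eq_mul, map_zero] at h1
    exact hm.ne' (by exact_mod_cast h1)
  rcases mul_eq_zero.1 hsum with h0 | h0
  · exact absurd h0 hs
  · rw [sub_eq_zero.1 h0]

theorem kd17_coeff_single_mul (n : ℤ) (a : L) (u : LaurentSeries L) (j : ℤ) :
    (HahnSeries.single n a * u).coeff j = a * u.coeff (j - n) := by
  have h := HahnSeries.coeff_single_mul_add (r := a) (x := u) (a := j - n) (b := n)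
  rwa [sub_add_cancel] at h

/-- Existence of the normal form `x = single n a * w`, `w` monic. -/
theorem kd17_exists_normal {x : LaurentSeries L} (hx : x ≠ 0) :
    ∃ w : LaurentSeries L, kd17_Monic w ∧
      x = HahnSeries.single x.order (x.coeff x.order) * w := by
  set c := x.coeff x.order with hc
  have hc0 : c ≠ 0 := fun h => hx (HahnSeries.coeff_order_eq_zero.1 h)
  refine ⟨HahnSeries.single (-x.order) c⁻¹ * x, ⟨?_, ?_⟩, ?_⟩
  · rw [kd17_coeff_single_mul, sub_neg_eq_add, zero_add, ← hc, inv_mul_cancel₀ hc0]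
  · intro k hk
    rw [kd17_coeff_single_mul, sub_neg_eq_add]
    rw [HahnSeries.coeff_eq_zero_of_lt_order (by omega), mul_zero]
  · rw [← mul_assoc, HahnSeries.single_mul_single, add_neg_cancel, mul_inv_cancel₀ hc0,
      HahnSeries.single_zero_one, one_mul]

/-- Uniqueness of the normal form. -/
theorem kd17_normal_unique {a b : L} {n k : ℤ} {u v : LaurentSeries L} (ha : a ≠ 0) (hb : b ≠ 0)
    (hu : kd17_Monic u) (hv : kd17_Monic v)
    (h : HahnSeries.single n a * u = HahnSeries.single k b * v) : n = k ∧ a = b ∧ u = v := by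
  have hnk : n = k := by
    rcases lt_trichotomy n k with hlt | heq | hgt
    · exfalso
      have h1 := congrArg (fun z : LaurentSeries L => z.coeff n) h
      simp only [kd17_coeff_single_mul, sub_self, hu.1, mul_one] at h1
      rw [hv.2 (n - k) (by omega), mul_zero] at h1
      exact ha h1
    · exact heq
    · exfalso
      have h1 := congrArg (fun z : LaurentSeries L => z.coeff k) h
      simp only [kd17_coeff_single_mul, sub_self, hv.1, mul_one] at h1
      rw [hu.2 (k - n) (by omega), mul_zero] at h1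
      exact hb h1.symm
  subst hnk
  have hab : a = b := by
    have h1 := congrArg (fun z : LaurentSeries L => z.coeff n) h
    simpa only [kd17_coeff_single_mul, sub_self, hu.1, hv.1, mul_one] using h1
  subst hab
  exact ⟨rfl, rfl, mul_left_cancel₀ (HahnSeries.single_ne_zero ha) h⟩

theorem kd17_coeffMap_normal {L' : Type*} [Field L'] (φ : L →+* L') (n : ℤ) (a : L)
    (w : LaurentSeries L) :
    coeffMap φ (HahnSeries.single n a * w) = HahnSeries.single n (φ a) * coeffMap φ w := by
  rw [map_mul, coeffMap_single]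

/-- **Kummer descent.**  If `g • f = f * h_g ^ m` with `h_g ∈ F` for every `g : G` and the orbit
of `f` is finite, then a constant multiple of `f` times an `m`-th power of an element of `F`
is `G`-invariant. -/
theorem kd17_descent [CharZero L] {G : Type*} [Group G] (φ : G → L →+* L)
    (hφ : ∀ g h : G, φ (g * h) = (φ g).comp (φ h))
    (F : IntermediateField L (LaurentSeries L)) {m : ℕ} (hm : 0 < m)
    {f : LaurentSeries L} (hf : f ≠ 0)
    (hK : ∀ g : G, ∃ h ∈ F, coeffMap (φ g) f = f * h ^ m)
    (hfin : (Set.range fun g : G => coeffMap (φ g) f).Finite) :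
    ∃ a : L, a ≠ 0 ∧ ∃ k ∈ F, k ≠ 0 ∧
      ∀ g : G, coeffMap (φ g) (HahnSeries.C a * f * k ^ m) = HahnSeries.C a * f * k ^ m := by
  classical
  obtain ⟨w, hw, hfw⟩ := kd17_exists_normal hf
  have hw0 : w ≠ 0 := kd17_monic_ne_zero hw
  set n := f.order with hn
  set c := f.coeff f.order with hc
  have hc0 : c ≠ 0 := fun h => hf (HahnSeries.coeff_order_eq_zero.1 h)
  have hgf : ∀ g : G, coeffMap (φ g) f = HahnSeries.single n (φ g c) * coeffMap (φ g) w :=
    fun g => by
      conv_lhs => rw [hfw]
      exact kd17_coeffMap_normal _ _ _ _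
  have hgc0 : ∀ g : G, φ g c ≠ 0 := fun g => (map_ne_zero (φ g)).2 hc0
  -- the monic roots
  have hroot : ∀ g : G, ∃ u : LaurentSeries L, kd17_Monic u ∧ u ∈ F ∧
      coeffMap (φ g) w = w * u ^ m := by
    intro g
    obtain ⟨h, hhF, hh⟩ := hK g
    have hh0 : h ≠ 0 := by
      rintro rfl
      rw [zero_pow hm.ne', mul_zero] at hh
      exact hf ((map_eq_zero (coeffMap (φ g))).1 hh)
    obtain ⟨h1, hh1, hh1'⟩ := kd17_exists_normal hh0
    set b := h.coeff h.order with hb
    have hb0 : b ≠ 0 := fun h' => hh0 (HahnSeries.coeff_order_eq_zero.1 h')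
    have key : HahnSeries.single n (φ g c) * coeffMap (φ g) w
        = HahnSeries.single (n + m • h.order) (c * b ^ m) * (w * h1 ^ m) := by
      rw [← hgf g, hh]
      conv_lhs => rw [hfw, hh1']
      rw [mul_pow, HahnSeries.single_pow, ← HahnSeries.single_mul_single]
      ring
    obtain ⟨hord, -, hwu⟩ := kd17_normal_unique (hgc0 g)
      (mul_ne_zero hc0 (pow_ne_zero m hb0)) (kd17_monic_coeffMap _ hw)
      (kd17_monic_mul hw (kd17_monic_pow hh1 m)) key
    have hk0 : h.order = 0 := by
      have h2 : m • h.order = 0 := by linarith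
      rcases smul_eq_zero.1 h2 with h3 | h3
      · exact absurd h3 hm.ne'
      · exact h3
    refine ⟨h1, hh1, ?_, hwu⟩
    have hh1F : h1 = algebraMap L (LaurentSeries L) b⁻¹ * h := by
      rw [algebraMap_laurentSeries_eq_single]
      conv_rhs => rw [hh1', hk0, ← mul_assoc, HahnSeries.single_mul_single]
      rw [add_zero, inv_mul_cancel₀ hb0, HahnSeries.single_zero_one, one_mul]
    rw [hh1F]
    exact F.mul_mem (F.algebraMap_mem _) hhF
  choose u hu_monic hu_mem hu_pow using hroot
  -- strict cocycle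
  have hcoc : ∀ g h : G, u (g * h) = u g * coeffMap (φ g) (u h) := by
    intro g h
    apply kd17_monic_pow_inj hm (hu_monic _)
      (kd17_monic_mul (hu_monic g) (kd17_monic_coeffMap _ (hu_monic h)))
    apply mul_left_cancel₀ hw0
    rw [← hu_pow (g * h), mul_pow, ← mul_assoc, ← hu_pow g, ← map_pow, ← map_mul, ← hu_pow h,
      hφ, ← coeffMap_coeffMap]
  -- finiteness of the set of roots
  have hfact : ∀ g g' : G, coeffMap (φ g) f = coeffMap (φ g') f → u g = u g' := by
    intro g g' hgg
    rw [hgf g, hgf g'] at hgg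
    obtain ⟨-, -, hww⟩ := kd17_normal_unique (hgc0 g) (hgc0 g') (kd17_monic_coeffMap _ hw)
      (kd17_monic_coeffMap _ hw) hgg
    apply kd17_monic_pow_inj hm (hu_monic g) (hu_monic g')
    apply mul_left_cancel₀ hw0
    rw [← hu_pow g, ← hu_pow g', hww]
  have hUfin : (Set.range u).Finite := by
    have hFT : Function.FactorsThrough u (fun g : G => coeffMap (φ g) f) :=
      fun g g' h => hfact g g' h
    have hrange : Set.range u = (Function.extend (fun g : G => coeffMap (φ g) f) u
        (fun _ => 0)) '' (Set.range fun g : G => coeffMap (φ g) f) := by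
      rw [← Set.range_comp]
      congr 1
      funext g
      exact (hFT.extend_apply _ g).symm
    rw [hrange]
    exact hfin.image _
  set U : Finset (LaurentSeries L) := hUfin.toFinset with hU
  have hUmem : ∀ x, x ∈ U ↔ ∃ g, u g = x := fun x => by
    rw [hU, Set.Finite.mem_toFinset, Set.mem_range]
  set k : LaurentSeries L := ∑ x ∈ U, x with hk
  have hkF : k ∈ F := sum_mem fun x hx => by
    obtain ⟨g, rfl⟩ := (hUmem x).1 hx
    exact hu_mem g
  have hk0 : k.coeff 0 = (U.card : L) := by
    rw [hk, HahnSeries.coeff_sum]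
    have h1 : ∀ x ∈ U, x.coeff 0 = (1 : L) := fun x hx => by
      obtain ⟨g, rfl⟩ := (hUmem x).1 hx
      exact (hu_monic g).1
    rw [Finset.sum_congr rfl h1, Finset.sum_const, nsmul_eq_mul, mul_one]
  have hkne : k ≠ 0 := by
    intro h0
    rw [h0] at hk0
    have hcard : U.card ≠ 0 := Finset.card_ne_zero.2 ⟨u 1, (hUmem _).2 ⟨1, rfl⟩⟩
    rw [HahnSeries.coeff_zero] at hk0
    exact hcard (by exact_mod_cast hk0.symm)
  have hact : ∀ τ : G, coeffMap (φ τ) k * u τ = k := by
    intro τ
    have himg : U.image (fun x => coeffMap (φ τ) x * u τ) = U := by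
      ext y
      rw [Finset.mem_image, hUmem]
      constructor
      · rintro ⟨x, hx, rfl⟩
        obtain ⟨h, rfl⟩ := (hUmem x).1 hx
        exact ⟨τ * h, by rw [hcoc, mul_comm]⟩
      · rintro ⟨g, rfl⟩
        refine ⟨u (τ⁻¹ * g), (hUmem _).2 ⟨_, rfl⟩, ?_⟩
        rw [mul_comm, ← hcoc, mul_inv_cancel_left]
    have hinj : ∀ x ∈ U, ∀ y ∈ U,
        coeffMap (φ τ) x * u τ = coeffMap (φ τ) y * u τ → x = y := by
      intro x _ y _ hxy
      exact (coeffMap (φ τ)).injective (mul_right_cancel₀ (kd17_monic_ne_zero (hu_monic τ)) hxy)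
    calc coeffMap (φ τ) k * u τ = ∑ x ∈ U, coeffMap (φ τ) x * u τ := by
          rw [hk, map_sum, Finset.sum_mul]
      _ = ∑ y ∈ U.image (fun x => coeffMap (φ τ) x * u τ), y := (Finset.sum_image (f := fun y => y) hinj).symm
      _ = k := by rw [himg]
  refine ⟨c⁻¹, inv_ne_zero hc0, k, hkF, hkne, fun τ => ?_⟩
  have hnorm : HahnSeries.C c⁻¹ * f = HahnSeries.single n 1 * w := by
    conv_lhs => rw [hfw]
    rw [← mul_assoc, HahnSeries.C_apply, HahnSeries.single_mul_single, zero_add,
      inv_mul_cancel₀ hc0]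
  rw [hnorm, map_mul, map_mul, coeffMap_single, map_one, map_pow, hu_pow τ]
  calc HahnSeries.single n 1 * (w * u τ ^ m) * coeffMap (φ τ) k ^ m
      = HahnSeries.single n 1 * w * (coeffMap (φ τ) k * u τ) ^ m := by ring
    _ = HahnSeries.single n 1 * w * k ^ m := by rw [hact τ]

/-- **Root descent.**  A `G`-invariant `y = C ca * A ^ m` with `A ∈ F` is `C a * A1 ^ m` with
`a` and `A1 ∈ F` both `G`-invariant. -/
theorem kd17_root_descent [CharZero L] {G : Type*} (φ : G → L →+* L)
    (F : IntermediateField L (LaurentSeries L)) {m : ℕ} (hm : 0 < m)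
    {y A : LaurentSeries L} {ca : L} (hy : y ≠ 0) (hA : A ∈ F)
    (hyA : y = HahnSeries.C ca * A ^ m)
    (hinv : ∀ g : G, coeffMap (φ g) y = y) :
    ∃ (a : L) (A1 : LaurentSeries L), a ≠ 0 ∧ A1 ∈ F ∧ A1 ≠ 0 ∧ (∀ g : G, φ g a = a) ∧
      (∀ g : G, coeffMap (φ g) A1 = A1) ∧ y = HahnSeries.C a * A1 ^ m := by
  have hA0 : A ≠ 0 := by
    rintro rfl
    rw [zero_pow hm.ne', mul_zero] at hyA
    exact hy hyA
  have hca0 : ca ≠ 0 := by
    rintro rfl
    rw [map_zero, zero_mul] at hyA
    exact hy hyA
  obtain ⟨w, hw, hAw⟩ := kd17_exists_normal hA0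
  set k := A.order with hk
  set b := A.coeff A.order with hb
  have hb0 : b ≠ 0 := fun h' => hA0 (HahnSeries.coeff_order_eq_zero.1 h')
  have ha0 : ca * b ^ m ≠ 0 := mul_ne_zero hca0 (pow_ne_zero m hb0)
  have hy' : y = HahnSeries.single (m • k) (ca * b ^ m) * w ^ m := by
    rw [hyA]
    conv_lhs => rw [hAw]
    rw [mul_pow, HahnSeries.single_pow, HahnSeries.C_apply, ← mul_assoc,
      HahnSeries.single_mul_single, zero_add]
  have hfix : ∀ g : G, φ g (ca * b ^ m) = ca * b ^ m ∧ coeffMap (φ g) w = w := by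
    intro g
    have h1 := hinv g
    conv_lhs at h1 => rw [hy']
    rw [kd17_coeffMap_normal, map_pow] at h1
    conv_rhs at h1 => rw [hy']
    obtain ⟨-, h2, h3⟩ := kd17_normal_unique ((map_ne_zero (φ g)).2 ha0) ha0
      (kd17_monic_pow (kd17_monic_coeffMap _ hw) m) (kd17_monic_pow hw m) h1
    exact ⟨h2, kd17_monic_pow_inj hm (kd17_monic_coeffMap _ hw) hw h3⟩
  refine ⟨ca * b ^ m, HahnSeries.single k 1 * w, ha0, ?_,
    mul_ne_zero (HahnSeries.single_ne_zero one_ne_zero) (kd17_monic_ne_zero hw),
    fun g => (hfix g).1, fun g => ?_, ?_⟩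
  · have hA1 : HahnSeries.single k 1 * w = algebraMap L (LaurentSeries L) b⁻¹ * A := by
      rw [algebraMap_laurentSeries_eq_single]
      conv_rhs => rw [hAw, ← mul_assoc, HahnSeries.single_mul_single]
      rw [zero_add, inv_mul_cancel₀ hb0]
    rw [hA1]
    exact F.mul_mem (F.algebraMap_mem _) hA
  · rw [kd17_coeffMap_normal, map_one, (hfix g).2]
  · rw [hy', mul_pow, HahnSeries.single_pow, one_pow, HahnSeries.C_apply, ← mul_assoc,
      HahnSeries.single_mul_single, zero_add, mul_one]

end Fermat.Agent.S36
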