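import Fermat.Agent.S37.NormConj73
import Fermat.Agent.S37.AtkinLehner47

/-!
# S36 lab (helper87): the degree of `β : F(N) → F(N q)` for EVERY prime `q` and every level `N`

`bd87_finrank_beta_mul` : `[F(N q) : β F(N)] * ψ(N) = ψ(N q)` (`ψ` = Dedekind psi), `q` prime, no
hypothesis on `N`.  Proof: the commutative square of field embeddings

`F(1) ⊆ F(N) --β--> F(N q)`  =  `F(1) --β--> F(q) ⊆ F(N q)`

and multiplicativity of degrees; `[F(N) : F(1)] = ψ(N)`, `[F(N q) : F(q)] = ψ(N q) / ψ(q)`
(`nd38_relfinrank`), `[F(q) : β F(1)] = q + 1 = ψ(q)` (`nc73_finrank_beta` at level `1`, where the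
Atkin–Lehner involution exists).

`bd87_finrank_beta_dvd` : `[F(N q) : β F(N)] = q` when `q ∣ N`.
-/

set_option autoImplicit false
set_option linter.unusedSectionVars false
set_option linter.unusedVariables false
set_option linter.style.longLine false
set_option linter.style.haveILetI false

open ModularCurve AlgebraicCurve IntermediateField

namespace Fermat.Agent.S36

open Fermat.Agent.S24 Fermat.Agent.S18 Fermat.Agent.S37

/-- Degrees multiply along a tower of fields given by ring homomorphisms. -/
theorem bd87_tower {A X D : Type*} [Field A] [Field X] [Field D] (u : A →+* X) (v : X →+* D) :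
    @Module.finrank A X _ _ u.toAlgebra.toModule * @Module.finrank X D _ _ v.toAlgebra.toModule
      = @Module.finrank A D _ _ (v.comp u).toAlgebra.toModule := by
  letI := u.toAlgebra
  letI := v.toAlgebra
  letI := (v.comp u).toAlgebra
  haveI : IsScalarTower A X D := IsScalarTower.of_algebraMap_eq (fun x => rfl)
  exact Module.finrank_mul_finrank A X D

/-- Degrees around a commutative square of field embeddings. -/
theorem bd87_square {A B C D : Type*} [Field A] [Field B] [Field C] [Field D]
    (f : A →+* B) (g : B →+* D) (f' : A →+* C) (g' : C →+* D) (h : g.comp f = g'.comp f') :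
    @Module.finrank A B _ _ f.toAlgebra.toModule * @Module.finrank B D _ _ g.toAlgebra.toModule
      = @Module.finrank A C _ _ f'.toAlgebra.toModule
        * @Module.finrank C D _ _ g'.toAlgebra.toModule := by
  rw [bd87_tower f g, bd87_tower f' g', h]

/-- The degree along an inclusion of intermediate fields is the relative degree. -/
theorem bd87_finrank_incl {L E : Type*} [Field L] [Field E] [Algebra L E]
    {S T : IntermediateField L E} (hle : S ≤ T) :
    @Module.finrank S T _ _ (IntermediateField.inclusion hle).toRingHom.toAlgebra.toModule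
      = S.relfinrank T := by
  rw [IntermediateField.relfinrank_eq_finrank_of_le hle]
  letI := (IntermediateField.inclusion hle).toRingHom.toAlgebra
  let j : ↥T ≃+* ↥(IntermediateField.extendScalars hle) :=
    { toFun := fun x => ⟨x.1, (IntermediateField.mem_extendScalars hle).mpr x.2⟩
      invFun := fun x => ⟨x.1, (IntermediateField.mem_extendScalars hle).mp x.2⟩
      left_inv := fun _ => rfl
      right_inv := fun _ => rfl
      map_mul' := fun _ _ => rfl
      map_add' := fun _ _ => rfl }
  exact Algebra.finrank_eq_of_equiv_equiv (RingEquiv.refl _) j (RingHom.ext fun x => rfl)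

theorem bd87_bar_congr {a b : ℕ} [NeZero a] [NeZero b] (h : a = b) :
    modularFunctionFieldBar a = modularFunctionFieldBar b := by
  subst h
  rfl

section deg

variable (N q : ℕ) [NeZero N] [NeZero q]

/-- The identification `F(1 * q) = F(q)`. -/
noncomputable def bd87_e : ↥(modularFunctionFieldBar (1 * q)) ≃+* ↥(modularFunctionFieldBar q) :=
  (IntermediateField.equivOfEq (bd87_bar_congr (one_mul q))).toRingEquiv

/-- `β` from level `1` to level `q` (the level `1 * q` of `heckeBetaBar` rewritten). -/
noncomputable def bd87_beta1 : ↥(modularFunctionFieldBar 1) →+* ↥(modularFunctionFieldBar q) :=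
  (bd87_e q).toRingHom.comp (heckeBetaBar Kbar 1 q).toRingHom

theorem bd87_beta1_apply (x : ↥(modularFunctionFieldBar 1)) :
    bd87_beta1 q x = bd87_e q (heckeBetaBar Kbar 1 q x) := by
  unfold bd87_beta1
  rw [RingHom.comp_apply]
  rfl

theorem bd87_beta1_coe (x : ↥(modularFunctionFieldBar 1)) :
    ((bd87_beta1 q x : ↥(modularFunctionFieldBar q)) : LaurentSeries Kbar)
      = qExpand Kbar q (x : LaurentSeries Kbar) := by
  rw [bd87_beta1_apply]
  rfl

theorem bd87_hc :
    (bd87_beta1 q).comp (RingEquiv.refl ↥(modularFunctionFieldBar 1)).toRingHom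
      = (bd87_e q).toRingHom.comp (heckeBetaBar Kbar 1 q).toRingHom := by
  refine RingHom.ext fun x => ?_
  rw [RingHom.comp_apply, RingHom.comp_apply, bd87_beta1_apply]
  rfl

/-- `[F(q) : β F(1)] = q + 1`. -/
theorem bd87_finrank_beta1 (hq : q.Prime) :
    @Module.finrank ↥(modularFunctionFieldBar 1) ↥(modularFunctionFieldBar q) _ _
      (bd87_beta1 q).toAlgebra.toModule = q + 1 := by
  have hq1 : ¬ q ∣ 1 := fun h => hq.one_lt.ne' (Nat.dvd_one.mp h)
  obtain ⟨w, hwα, -, -⟩ := al47_exists 1 q (Nat.coprime_one_right q)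
  rw [← nc73_finrank_beta 1 q hq hq1 w hwα]
  symm
  letI a1 := algebraAlong (heckeBetaBar Kbar 1 q)
  letI a2 := (bd87_beta1 q).toAlgebra
  exact Algebra.finrank_eq_of_equiv_equiv (RingEquiv.refl _) (bd87_e q) (bd87_hc q)

/-- The square `F(1) ⊆ F(N) --β--> F(N q)` = `F(1) --β--> F(q) ⊆ F(N q)` commutes. -/
theorem bd87_comm (h1N : modularFunctionFieldBar 1 ≤ modularFunctionFieldBar N)
    (hqNq : modularFunctionFieldBar q ≤ modularFunctionFieldBar (N * q)) :
    (heckeBetaBar Kbar N q).toRingHom.comp (IntermediateField.inclusion h1N).toRingHom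
      = (IntermediateField.inclusion hqNq).toRingHom.comp (bd87_beta1 q) := by
  refine RingHom.ext fun x => Subtype.ext ?_
  rw [RingHom.comp_apply, RingHom.comp_apply]
  have e1 : (((heckeBetaBar Kbar N q).toRingHom ((IntermediateField.inclusion h1N).toRingHom x) :
      ↥(modularFunctionFieldBar (N * q))) : LaurentSeries Kbar)
      = qExpand Kbar q (((IntermediateField.inclusion h1N) x : ↥(modularFunctionFieldBar N)) :
          LaurentSeries Kbar) := coe_heckeBetaBar N q _
  have e2 : (((IntermediateField.inclusion hqNq).toRingHom (bd87_beta1 q x) :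
      ↥(modularFunctionFieldBar (N * q))) : LaurentSeries Kbar)
      = ((bd87_beta1 q x : ↥(modularFunctionFieldBar q)) : LaurentSeries Kbar) :=
    IntermediateField.coe_inclusion hqNq _
  rw [e1, e2, IntermediateField.coe_inclusion, bd87_beta1_coe]

/-- **The degree of `β`**: `[F(N q) : β F(N)] * ψ(N) = ψ(N q)` for every prime `q`. -/
theorem bd87_finrank_beta_mul (hq : q.Prime) :
    @Module.finrank ↥(modularFunctionFieldBar N) ↥(modularFunctionFieldBar (N * q)) _ _
      (algebraAlong (heckeBetaBar Kbar N q)).toModule * dedekindPsi N = dedekindPsi (N * q) := by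
  have h1N : modularFunctionFieldBar 1 ≤ modularFunctionFieldBar N := nd38_bar_le (one_dvd N)
  have hqNq : modularFunctionFieldBar q ≤ modularFunctionFieldBar (N * q) :=
    nd38_bar_le (Dvd.intro_left N rfl)
  have hsq := bd87_square (IntermediateField.inclusion h1N).toRingHom
    (heckeBetaBar Kbar N q).toRingHom (bd87_beta1 q)
    (IntermediateField.inclusion hqNq).toRingHom (bd87_comm N q h1N hqNq)
  have hA := nd38_relfinrank (N := 1) (N' := N) (one_dvd N)
  rw [dedekindPsi_one, one_mul] at hA
  have hB := nd38_relfinrank (N := q) (N' := N * q) (Dvd.intro_left N rfl)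
  have hψq : dedekindPsi q = q + 1 := by
    have h2 := Fermat.Agent.Lib.G0C.dedekindPsi_prime_pow hq (e := 1) one_pos
    simpa using h2
  rw [hψq] at hB
  have i1 := bd87_finrank_incl h1N
  have i2 := bd87_finrank_incl hqNq
  have i3 := bd87_finrank_beta1 q hq
  rw [i1, i2, i3, hA, hB] at hsq
  rw [mul_comm]
  exact hsq

/-- `ψ(N q) = q ψ(N)` for a prime `q ∣ N`. -/
theorem bd87_psi_mul_dvd {N q : ℕ} (hq : q.Prime) (hN : N ≠ 0) (hqN : q ∣ N) :
    dedekindPsi (N * q) = q * dedekindPsi N := by
  obtain ⟨e, m, hm, rfl⟩ := Nat.exists_eq_pow_mul_and_not_dvd hN q hq.ne_one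
  have he : 0 < e := by
    rcases Nat.eq_zero_or_pos e with h | h
    · subst h
      rw [pow_zero, one_mul] at hqN
      exact absurd hqN hm
    · exact h
  have hcop : Nat.Coprime (q ^ e) m :=
    Nat.Coprime.pow_left e ((Nat.Prime.coprime_iff_not_dvd hq).mpr hm)
  have hcop' : Nat.Coprime (q ^ (e + 1)) m :=
    Nat.Coprime.pow_left (e + 1) ((Nat.Prime.coprime_iff_not_dvd hq).mpr hm)
  have h1 : q ^ e * m * q = q ^ (e + 1) * m := by ring
  rw [h1, Fermat.Agent.Lib.G0C.dedekindPsi_mul hcop', Fermat.Agent.Lib.G0C.dedekindPsi_mul hcop,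
    Fermat.Agent.Lib.G0C.dedekindPsi_prime_pow hq (e := e + 1) (Nat.succ_pos e),
    Fermat.Agent.Lib.G0C.dedekindPsi_prime_pow hq he]
  obtain ⟨k, rfl⟩ : ∃ k, e = k + 1 := ⟨e - 1, by omega⟩
  rw [show k + 1 + 1 - 1 = k + 1 from rfl, show k + 1 - 1 = k from rfl]
  ring

/-- **`[F(N q) : β F(N)] = q` for a prime `q ∣ N`.** -/
theorem bd87_finrank_beta_dvd (hq : q.Prime) (hqN : q ∣ N) :
    @Module.finrank ↥(modularFunctionFieldBar N) ↥(modularFunctionFieldBar (N * q)) _ _
      (algebraAlong (heckeBetaBar Kbar N q)).toModule = q := by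
  have h1 := bd87_finrank_beta_mul N q hq
  rw [bd87_psi_mul_dvd hq (NeZero.ne N) hqN] at h1
  exact Nat.eq_of_mul_eq_mul_right (nd38_psi_pos N) h1

end deg

end Fermat.Agent.S36
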