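import Mathlib
import Fermat.Agent.S35.NormBCInst92
import Fermat.Agent.S35.Iface62
import Fermat.Agent.S36.BetaDeg87
import Fermat.Agent.S36.DegRoot39

/-!
# S36 lab (helper92, registry row 614): the norms along `α` and `β` at `q ∣ N` commute with the
constant field base change `F_L → F_{ℚ̄}`

`L` a field with `φ : L →+* ℚ̄`, `q` a prime, `N` ANY level (the `q ∣ N` twins of
`nbc92_alpha` / `nbc92_beta` of `S35/NormBCInst92`, which need `q ∤ N`).

* `nbs92_finrank_beta_mul` : `[F_L(N q) : β F_L(N)] * ψ(N) = ψ(N q)` (the `L`-side twin of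
  `bd87_finrank_beta_mul`);
* `nbs92_finrank_alpha_dvd`, `nbs92_finrank_beta_dvd` : both degrees over `L` are `q` for `q ∣ N`;
* `nbs92_adjoin_bar` : `F_{ℚ̄}(N q)` is generated over `ψ F_{ℚ̄}(N)` by `ι F_L(N q)` for every
  finite `ℚ̄`-embedding `ψ`;
* `nbs92_alpha` : `ι (N_α x) = N_α (ι x)` for `q ∣ N`;
* `nbs92_beta` : `ι (N_β x) = N_β (ι x)` for `q ∣ N`;
* `nbs92_normA`, `nbs92_normB` : the same in the `s35i62_normA / s35i62_normABar` form.
-/

set_option autoImplicit false
set_option linter.style.haveILetI false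
set_option linter.unusedSectionVars false
set_option linter.unusedVariables false
set_option linter.style.longLine false

open ModularCurve AlgebraicCurve IntermediateField

namespace Fermat.Agent.S36

open Fermat.Agent.S18 Fermat.Agent.S24 Fermat.Agent.S34 Fermat.Agent.S35 Fermat.Agent.S37
  Fermat.Agent.S42

local notation "Q̄" => AlgebraicClosure ℚ

section Lside

variable {L : Type} [Field L] (N q : ℕ) [NeZero N] [NeZero q]

theorem nbs92_fullC_congr {a b : ℕ} [NeZero a] [NeZero b] (h : a = b) :
    modularFunctionFieldFullC L a = modularFunctionFieldFullC L b := by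
  subst h
  rfl

/-- The identification `F_L(1 * q) = F_L(q)`. -/
noncomputable def nbs92_e :
    ↥(modularFunctionFieldFullC L (1 * q)) ≃+* ↥(modularFunctionFieldFullC L q) :=
  (IntermediateField.equivOfEq (nbs92_fullC_congr (L := L) (one_mul q))).toRingEquiv

/-- `β` from level `1` to level `q` over `L`. -/
noncomputable def nbs92_beta1 :
    ↥(modularFunctionFieldFullC L 1) →+* ↥(modularFunctionFieldFullC L q) :=
  (nbs92_e (L := L) q).toRingHom.comp (al97L_beta L 1 q).toRingHom

theorem nbs92_beta1_apply (x : ↥(modularFunctionFieldFullC L 1)) :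
    nbs92_beta1 (L := L) q x = nbs92_e (L := L) q (al97L_beta L 1 q x) := by
  unfold nbs92_beta1
  rw [RingHom.comp_apply]
  rfl

theorem nbs92_beta1_coe (x : ↥(modularFunctionFieldFullC L 1)) :
    ((nbs92_beta1 (L := L) q x : ↥(modularFunctionFieldFullC L q)) : LaurentSeries L)
      = qExpand L q (x : LaurentSeries L) := by
  rw [nbs92_beta1_apply]
  rfl

theorem nbs92_hc :
    (nbs92_beta1 (L := L) q).comp (RingEquiv.refl ↥(modularFunctionFieldFullC L 1)).toRingHom
      = (nbs92_e (L := L) q).toRingHom.comp (al97L_beta L 1 q).toRingHom := by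
  refine RingHom.ext fun x => ?_
  rw [RingHom.comp_apply, RingHom.comp_apply, nbs92_beta1_apply]
  rfl

/-- `[F_L(1 q) : β F_L(1)] = [F_L(1 q) : α F_L(1)]` by the Atkin–Lehner involution. -/
theorem nbs92_finrank_beta_one (φ : L →+* Q̄) (hq : q.Prime) :
    @Module.finrank ↥(modularFunctionFieldFullC L 1) ↥(modularFunctionFieldFullC L (1 * q)) _ _
      (algebraAlong (al97L_beta L 1 q)).toModule = q + 1 := by
  haveI : CharZero L := RingHom.charZero φ
  have hq1 : ¬ q ∣ 1 := fun h => hq.one_lt.ne' (Nat.dvd_one.mp h)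
  have hα : @Module.finrank ↥(modularFunctionFieldFullC L 1)
      ↥(modularFunctionFieldFullC L (1 * q)) _ _
      (algebraAlong (al97L_alpha L 1 q)).toModule = q + 1 := bi46_finrank L 1 q hq hq1
  rw [← hα]
  symm
  exact @Algebra.finrank_eq_of_equiv_equiv _ _ _ _
    (algebraAlong (al97L_alpha L 1 q)) _ _ _ _ (algebraAlong (al97L_beta L 1 q)) (RingEquiv.refl _)
    (al97L_w φ 1 q hq hq1).toRingEquiv
    (RingHom.ext fun x => (al97L_w_alpha_apply φ 1 q hq hq1 x).symm)

/-- `[F_L(q) : β F_L(1)] = q + 1`. -/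
theorem nbs92_finrank_beta1 (φ : L →+* Q̄) (hq : q.Prime) :
    @Module.finrank ↥(modularFunctionFieldFullC L 1) ↥(modularFunctionFieldFullC L q) _ _
      (nbs92_beta1 (L := L) q).toAlgebra.toModule = q + 1 := by
  rw [← nbs92_finrank_beta_one q φ hq]
  symm
  letI a1 := algebraAlong (al97L_beta L 1 q)
  letI a2 := (nbs92_beta1 (L := L) q).toAlgebra
  exact Algebra.finrank_eq_of_equiv_equiv (RingEquiv.refl _) (nbs92_e (L := L) q)
    (nbs92_hc (L := L) q)

/-- The square `F_L(1) ⊆ F_L(N) --β--> F_L(N q)` = `F_L(1) --β--> F_L(q) ⊆ F_L(N q)`. -/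
theorem nbs92_comm (h1N : modularFunctionFieldFullC L 1 ≤ modularFunctionFieldFullC L N)
    (hqNq : modularFunctionFieldFullC L q ≤ modularFunctionFieldFullC L (N * q)) :
    (al97L_beta L N q).toRingHom.comp (IntermediateField.inclusion h1N).toRingHom
      = (IntermediateField.inclusion hqNq).toRingHom.comp (nbs92_beta1 (L := L) q) := by
  refine RingHom.ext fun x => Subtype.ext ?_
  rw [RingHom.comp_apply, RingHom.comp_apply]
  have e1 : (((al97L_beta L N q).toRingHom ((IntermediateField.inclusion h1N).toRingHom x) :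
      ↥(modularFunctionFieldFullC L (N * q))) : LaurentSeries L)
      = qExpand L q (((IntermediateField.inclusion h1N) x : ↥(modularFunctionFieldFullC L N)) :
          LaurentSeries L) := al97L_beta_coe L N q _
  have e2 : (((IntermediateField.inclusion hqNq).toRingHom (nbs92_beta1 (L := L) q x) :
      ↥(modularFunctionFieldFullC L (N * q))) : LaurentSeries L)
      = ((nbs92_beta1 (L := L) q x : ↥(modularFunctionFieldFullC L q)) : LaurentSeries L) :=
    IntermediateField.coe_inclusion hqNq _
  rw [e1, e2, IntermediateField.coe_inclusion, nbs92_beta1_coe]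

/-- **The degree of `β` over `L`**: `[F_L(N q) : β F_L(N)] * ψ(N) = ψ(N q)`. -/
theorem nbs92_finrank_beta_mul (φ : L →+* Q̄) (hq : q.Prime) :
    @Module.finrank ↥(modularFunctionFieldFullC L N) ↥(modularFunctionFieldFullC L (N * q)) _ _
      (algebraAlong (al97L_beta L N q)).toModule * dedekindPsi N = dedekindPsi (N * q) := by
  haveI : CharZero L := RingHom.charZero φ
  haveI : NeZero (N * q) := ⟨Nat.mul_ne_zero (NeZero.ne N) (NeZero.ne q)⟩
  have hNq : ((N * q : ℕ) : L) ≠ 0 := Nat.cast_ne_zero.mpr (NeZero.ne (N * q))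
  have hN : ((N : ℕ) : L) ≠ 0 := Nat.cast_ne_zero.mpr (NeZero.ne N)
  have h1N : modularFunctionFieldFullC L 1 ≤ modularFunctionFieldFullC L N :=
    full_degeneracyC_le L (one_dvd N)
  have hqNq : modularFunctionFieldFullC L q ≤ modularFunctionFieldFullC L (N * q) :=
    full_degeneracyC_le L (Dvd.intro_left N rfl)
  have hsq := bd87_square (IntermediateField.inclusion h1N).toRingHom
    (al97L_beta L N q).toRingHom (nbs92_beta1 (L := L) q)
    (IntermediateField.inclusion hqNq).toRingHom (nbs92_comm N q h1N hqNq)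
  have hA := ni22_relfinrank L (N := 1) (N' := N) (one_dvd N) hN
  rw [dedekindPsi_one, one_mul] at hA
  have hB := ni22_relfinrank L (N := q) (N' := N * q) (Dvd.intro_left N rfl) hNq
  have hψq : dedekindPsi q = q + 1 := by
    have h2 := Fermat.Agent.Lib.G0C.dedekindPsi_prime_pow hq (e := 1) one_pos
    simpa using h2
  rw [hψq] at hB
  have i1 := bd87_finrank_incl h1N
  have i2 := bd87_finrank_incl hqNq
  have i3 := nbs92_finrank_beta1 q φ hq
  rw [i1, i2, i3, hA] at hsq
  -- hsq : ψ(N) * d = (q + 1) * relfinrank ; hB : (q + 1) * relfinrank = ψ(N q)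
  rw [mul_comm]
  exact hsq.trans hB

/-- **`[F_L(N q) : β F_L(N)] = q` for a prime `q ∣ N`.** -/
theorem nbs92_finrank_beta_dvd (φ : L →+* Q̄) (hq : q.Prime) (hqN : q ∣ N) :
    @Module.finrank ↥(modularFunctionFieldFullC L N) ↥(modularFunctionFieldFullC L (N * q)) _ _
      (algebraAlong (al97L_beta L N q)).toModule = q := by
  have h1 := nbs92_finrank_beta_mul N q φ hq
  rw [bd87_psi_mul_dvd hq (NeZero.ne N) hqN] at h1
  exact Nat.eq_of_mul_eq_mul_right (ni22_psi_pos N) h1

/-- **`[F_L(N q) : α F_L(N)] = q` for a prime `q ∣ N`.** -/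
theorem nbs92_finrank_alpha_dvd (φ : L →+* Q̄) (hq : q.Prime) (hqN : q ∣ N) :
    @Module.finrank ↥(modularFunctionFieldFullC L N) ↥(modularFunctionFieldFullC L (N * q)) _ _
      (algebraAlong (al97L_alpha L N q)).toModule = q := by
  haveI : CharZero L := RingHom.charZero φ
  have hNq : ((N * q : ℕ) : L) ≠ 0 :=
    Nat.cast_ne_zero.mpr (Nat.mul_ne_zero (NeZero.ne N) (NeZero.ne q))
  have h := bd87_finrank_incl (full_degeneracyC_le L (dvd_mul_right N q))
  rw [dr39_relfinrank L N q hq hqN hNq] at h
  exact h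

end Lside

section Bar

variable {L : Type} [Field L] (φ : L →+* Q̄) (N q : ℕ) [NeZero N] [NeZero q]

/-- `F_{ℚ̄}(N q)` is generated, as an algebra over `ψ F_{ℚ̄}(N)`, by the image of `F_L(N q)`, for
every `ℚ̄`-embedding `ψ` along which `F_{ℚ̄}(N q)` is finite. -/
theorem nbs92_adjoin_bar
    (ψ : ↥(modularFunctionFieldBar N) →ₐ[Q̄] ↥(modularFunctionFieldBar (N * q)))
    (hfin : @Module.Finite ↥(modularFunctionFieldBar N) ↥(modularFunctionFieldBar (N * q)) _ _
      (algebraAlong ψ).toModule) :
    letI := algebraAlong ψ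
    Algebra.adjoin ↥(modularFunctionFieldBar N) (Set.range (fd27_iota φ (N * q))) = ⊤ := by
  letI := algebraAlong ψ
  haveI := isScalarTower_along ψ
  haveI : FiniteDimensional ↥(modularFunctionFieldBar N) ↥(modularFunctionFieldBar (N * q)) :=
    hfin
  have halg : ∀ x ∈ Set.range (fd27_iota φ (N * q)),
      IsAlgebraic ↥(modularFunctionFieldBar N) x :=
    fun x _ => Algebra.IsAlgebraic.isAlgebraic x
  rw [← IntermediateField.adjoin_toSubalgebra_of_isAlgebraic halg]
  have htop : IntermediateField.adjoin ↥(modularFunctionFieldBar N)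
      (Set.range (fd27_iota φ (N * q))) = ⊤ := by
    rw [eq_top_iff]
    intro x _
    have h1 : x ∈ IntermediateField.adjoin Q̄ (Set.range (fd27_iota φ (N * q))) := by
      rw [fd27_iota_adjoin]; trivial
    have h2 : IntermediateField.adjoin Q̄ (Set.range (fd27_iota φ (N * q))) ≤
        (IntermediateField.adjoin ↥(modularFunctionFieldBar N)
          (Set.range (fd27_iota φ (N * q)))).restrictScalars Q̄ := by
      rw [IntermediateField.adjoin_le_iff]
      exact fun y hy => IntermediateField.subset_adjoin ↥(modularFunctionFieldBar N) _ hy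
    exact h2 h1
  rw [htop]
  rfl

/-- **The norm along `α` commutes with the base change `F_L → F_{ℚ̄}`, `q ∣ N`.** -/
theorem nbs92_alpha (hq : q.Prime) (hqN : q ∣ N)
    (x : ↥(modularFunctionFieldFullC L (N * q))) :
    fd27_iota φ N (ht45_normAlong (al97L_alpha L N q) x) =
      ht45_normAlong (heckeAlphaBar Q̄ N q) (fd27_iota φ (N * q) x) := by
  letI a1 : Algebra ↥(modularFunctionFieldFullC L N) ↥(modularFunctionFieldFullC L (N * q)) :=
    algebraAlong (al97L_alpha L N q)
  letI a2 : Algebra ↥(modularFunctionFieldBar N) ↥(modularFunctionFieldBar (N * q)) :=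
    algebraAlong (heckeAlphaBar Q̄ N q)
  have hr1 : Module.finrank ↥(modularFunctionFieldFullC L N)
      ↥(modularFunctionFieldFullC L (N * q)) = q := nbs92_finrank_alpha_dvd N q φ hq hqN
  have hr2 : Module.finrank ↥(modularFunctionFieldBar N) ↥(modularFunctionFieldBar (N * q)) =
      q := dr39_finrank_alpha Q̄ N q hq hqN
  haveI hfd : FiniteDimensional ↥(modularFunctionFieldFullC L N)
      ↥(modularFunctionFieldFullC L (N * q)) :=
    Module.finite_of_finrank_pos (by rw [hr1]; exact hq.pos)
  have hfd2 : Module.Finite ↥(modularFunctionFieldBar N) ↥(modularFunctionFieldBar (N * q)) :=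
    Module.finite_of_finrank_pos (by rw [hr2]; exact hq.pos)
  exact nbc92_norm (fd27_iota φ N) (fd27_iota φ (N * q)) (nbc92_iota_alpha φ N q)
    (hr2.trans hr1.symm) (nbs92_adjoin_bar φ N q (heckeAlphaBar Q̄ N q) hfd2) x

/-- **The norm along `β` commutes with the base change `F_L → F_{ℚ̄}`, `q ∣ N`.** -/
theorem nbs92_beta (hq : q.Prime) (hqN : q ∣ N)
    (x : ↥(modularFunctionFieldFullC L (N * q))) :
    fd27_iota φ N (ht45_normAlong (al97L_beta L N q) x) =
      ht45_normAlong (heckeBetaBar Q̄ N q) (fd27_iota φ (N * q) x) := by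
  letI a1 : Algebra ↥(modularFunctionFieldFullC L N) ↥(modularFunctionFieldFullC L (N * q)) :=
    algebraAlong (al97L_beta L N q)
  letI a2 : Algebra ↥(modularFunctionFieldBar N) ↥(modularFunctionFieldBar (N * q)) :=
    algebraAlong (heckeBetaBar Q̄ N q)
  have hr1 : Module.finrank ↥(modularFunctionFieldFullC L N)
      ↥(modularFunctionFieldFullC L (N * q)) = q := nbs92_finrank_beta_dvd N q φ hq hqN
  have hr2 : Module.finrank ↥(modularFunctionFieldBar N) ↥(modularFunctionFieldBar (N * q)) =
      q := bd87_finrank_beta_dvd N q hq hqN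
  haveI hfd : FiniteDimensional ↥(modularFunctionFieldFullC L N)
      ↥(modularFunctionFieldFullC L (N * q)) :=
    Module.finite_of_finrank_pos (by rw [hr1]; exact hq.pos)
  have hfd2 : Module.Finite ↥(modularFunctionFieldBar N) ↥(modularFunctionFieldBar (N * q)) :=
    Module.finite_of_finrank_pos (by rw [hr2]; exact hq.pos)
  exact nbc92_norm (fd27_iota φ N) (fd27_iota φ (N * q)) (nbc92_iota_beta φ N q)
    (hr2.trans hr1.symm) (nbs92_adjoin_bar φ N q (heckeBetaBar Q̄ N q) hfd2) x

/-- `nbs92_alpha` in the `s35i62_normA / s35i62_normABar` form. -/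
theorem nbs92_normA (hq : q.Prime) (hqN : q ∣ N)
    (x : ↥(modularFunctionFieldFullC L (N * q))) :
    fd27_iota φ N (s35i62_normA L N q x) = s35i62_normABar N q (fd27_iota φ (N * q) x) :=
  nbs92_alpha φ N q hq hqN x

/-- `nbs92_beta` in the `s35i62_normB / s35i62_normBBar` form. -/
theorem nbs92_normB (hq : q.Prime) (hqN : q ∣ N)
    (x : ↥(modularFunctionFieldFullC L (N * q))) :
    fd27_iota φ N (s35i62_normB L N q x) = s35i62_normBBar N q (fd27_iota φ (N * q) x) :=
  nbs92_beta φ N q hq hqN x

end Bar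

end Fermat.Agent.S36
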