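import Fermat.Agent.S36.Iface62
import Fermat.Agent.S36.DescentUnr77
import Fermat.Agent.S36.KummerDescent17
import Fermat.Agent.S36.NormBCSq92
import Fermat.Agent.S35.FieldDef77
import Fermat.Agent.S42.LaurentInter56

/-!
# S36 lab (helper77, registry row 587 LVL-descent): the package `s36i62_Pkg_FieldDef`

`CORE36 N q m c ⟹ (FF-INV) N q m c` (`ji17_FFInv`), literally the package P-FD36 of `Iface62`.

Given `f ∈ F_{ℚ̄}(N q)` with `σ̂ f = f · h_σ ^ m` for all `σ` in the inertia group of a place `A`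
over `q`:

* `L` a finite Galois field of definition of `f` (`rs88_main`), `K0 ≤ L` its inertia field
  (`du77_inertia_field`): `q` is a uniformizer of `A ∩ K0`, and every `σ` fixing `K0` is
  `h⁻¹ τ` with `h` fixing `L` and `τ` inertial, so `σ̂ f / f` is an `m`-th power for all
  `σ ∈ Gal(ℚ̄ / K0)`;
* Kummer descent on `q`-expansions (`kd17_descent`, helper17): `λ · f · κ ^ m` is fixed by
  `Gal(ℚ̄ / K0)`, hence (`pfd77_fixed_descend`: infinite Galois theory + `li56_inter`) it is the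
  base change of some `f0 ∈ F_{K0}(N q)`;
* the norms of `f0` along `α`, `β` are constants times `m`-th powers over `K0`
  (`nbs92_normA/B` of helper92 + `kd17_root_descent`): `pfd77_norm_root`;
* CORE36 over `(A ∩ K0, K0)` and `ℚ̄` algebraically closed give `f ^ c = g ^ m`.

All names are prefixed `pfd77_`.
-/

set_option autoImplicit false
set_option linter.style.haveILetI false
set_option linter.style.longLine false
set_option linter.unusedVariables false

open ModularCurve AlgebraicCurve IntermediateField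

namespace Fermat.Agent.S36

open Fermat.Agent.S18 Fermat.Agent.S34 Fermat.Agent.S35 Fermat.Agent.S37 Fermat.Agent.S42

local notation "Q̄" => AlgebraicClosure ℚ
local notation "GQ" => AlgebraicClosure ℚ ≃ₐ[ℚ] AlgebraicClosure ℚ

/-- An element of `ℚ̄` fixed by every automorphism fixing `K0` pointwise lies in `K0`. -/
theorem pfd77_mem_of_fixed (K0 : IntermediateField ℚ Q̄) (x : Q̄)
    (hx : ∀ σ : GQ, (∀ y ∈ K0, σ y = y) → σ x = x) : x ∈ K0 := by
  haveI : IsAlgClosure ℚ Q̄ := ⟨inferInstance, AlgebraicClosure.isAlgebraic ℚ⟩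
  haveI : IsGalois ℚ Q̄ := IsAlgClosure.isGalois ℚ Q̄
  have hfix : IntermediateField.fixedField K0.fixingSubgroup = K0 :=
    InfiniteGalois.fixedField_fixingSubgroup K0
  rw [← hfix, IntermediateField.mem_fixedField_iff]
  intro σ hσ
  exact hx σ (fun y hy => (IntermediateField.mem_fixingSubgroup_iff K0 σ).mp hσ y hy)

/-- An element of `F_{ℚ̄}(M)` whose `q`-expansion is fixed coefficientwise by `Gal(ℚ̄ / K0)` is
the base change of an element of `F_{K0}(M)`. -/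
theorem pfd77_fixed_descend (M : ℕ) (K0 : IntermediateField ℚ Q̄)
    (x : ↥(modularFunctionFieldBar M))
    (hx : ∀ σ : GQ, (∀ y ∈ K0, σ y = y) →
      coeffMap (σ : Q̄ →+* Q̄) (x : LaurentSeries Q̄) = (x : LaurentSeries Q̄)) :
    ∃ x0 : ↥(modularFunctionFieldFullC ↥K0 M), fd27_iota (algebraMap ↥K0 Q̄) M x0 = x := by
  have hcoef : ∀ n : ℤ, (x : LaurentSeries Q̄).coeff n ∈ K0 := by
    intro n
    apply pfd77_mem_of_fixed
    intro σ hσ
    have h1 := congrArg (fun s : LaurentSeries Q̄ => s.coeff n) (hx σ hσ)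
    exact h1
  have hs : Function.support (fun n : ℤ => (⟨(x : LaurentSeries Q̄).coeff n, hcoef n⟩ : ↥K0))
      = (x : LaurentSeries Q̄).support := by
    ext n
    simp only [Function.mem_support, HahnSeries.mem_support, ne_eq]
    refine not_congr ?_
    constructor
    · intro h
      exact congrArg Subtype.val h
    · intro h
      exact Subtype.ext h
  let x0 : LaurentSeries ↥K0 :=
    ⟨fun n => ⟨(x : LaurentSeries Q̄).coeff n, hcoef n⟩, by
      rw [hs]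
      exact (x : LaurentSeries Q̄).isPWO_support⟩
  have hx0 : coeffMap (algebraMap ↥K0 Q̄) x0 = (x : LaurentSeries Q̄) := by
    ext n
    rw [coeffMap_coeff]
    rfl
  have hmem : x0 ∈ modularFunctionFieldFullC ↥K0 M := by
    apply li56_inter (algebraMap ↥K0 Q̄) M x0
    rw [hx0, ← fd27_bar_eq]
    exact x.2
  exact ⟨⟨x0, hmem⟩, Subtype.ext (by rw [fd27_iota_coe]; exact hx0)⟩

/-- `C a` is the constant `a` of `ℚ̄((q))`. -/
theorem pfd77_C_eq (a : Q̄) :
    (HahnSeries.C a : LaurentSeries Q̄) = algebraMap Q̄ (LaurentSeries Q̄) a := by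
  rw [algebraMap_laurentSeries_eq_single, HahnSeries.C_apply]

/-- **Root descent over `K0`**: if the base change of `y0 ∈ F_{K0}(N)` is a constant times an
`m`-th power in `F_{ℚ̄}(N)`, then `y0` is a constant times an `m`-th power in `F_{K0}(N)`. -/
theorem pfd77_norm_root (N : ℕ) (K0 : IntermediateField ℚ Q̄) {m : ℕ} (hm : 0 < m)
    (y0 : ↥(modularFunctionFieldFullC ↥K0 N)) (hy0 : y0 ≠ 0) (c : Q̄)
    (B : ↥(modularFunctionFieldBar N))
    (h : fd27_iota (algebraMap ↥K0 Q̄) N y0 =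
      algebraMap Q̄ ↥(modularFunctionFieldBar N) c * B ^ m) :
    ∃ (a0 : ↥(modularFunctionFieldFullC ↥K0 N)) (ca : ↥K0), a0 ≠ 0 ∧ ca ≠ 0 ∧
      y0 = algebraMap ↥K0 ↥(modularFunctionFieldFullC ↥K0 N) ca * a0 ^ m := by
  let φ : ↥(K0.fixingSubgroup) → Q̄ →+* Q̄ := fun g => ((g : GQ) : Q̄ →+* Q̄)
  have hgfix : ∀ (g : ↥(K0.fixingSubgroup)), ∀ z ∈ K0, (g : GQ) z = z := fun g z hz =>
    (IntermediateField.mem_fixingSubgroup_iff K0 (g : GQ)).mp g.2 z hz
  have hmemG : ∀ σ : GQ, (∀ z ∈ K0, σ z = z) → σ ∈ K0.fixingSubgroup := fun σ hσ =>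
    (IntermediateField.mem_fixingSubgroup_iff K0 σ).mpr hσ
  set Y : LaurentSeries Q̄ := coeffMap (algebraMap ↥K0 Q̄) (y0 : LaurentSeries ↥K0) with hY
  have hYcoe : ((fd27_iota (algebraMap ↥K0 Q̄) N y0 : ↥(modularFunctionFieldBar N)) :
      LaurentSeries Q̄) = Y := fd27_iota_coe _ _ y0
  have hY0 : Y ≠ 0 := by
    intro h0
    apply hy0
    apply fd27_iota_injective (algebraMap ↥K0 Q̄) N
    rw [map_zero]
    exact Subtype.ext (by rw [hYcoe, h0]; rfl)
  have hYB : Y = HahnSeries.C c * (B : LaurentSeries Q̄) ^ m := by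
    rw [← hYcoe, h, pfd77_C_eq]
    rfl
  have hinv : ∀ g : ↥(K0.fixingSubgroup), coeffMap (φ g) Y = Y := by
    intro g
    rw [hY, coeffMap_coeffMap]
    exact coeffMap_congr (RingHom.ext fun z => hgfix g _ z.2) _
  obtain ⟨a1, A1, ha1, hA1F, hA10, ha1fix, hA1fix, hYA⟩ :=
    kd17_root_descent φ (modularFunctionFieldBar N) hm hY0 B.2 hYB hinv
  have ha1K : a1 ∈ K0 := pfd77_mem_of_fixed K0 a1 (fun σ hσ => ha1fix ⟨σ, hmemG σ hσ⟩)
  obtain ⟨a0, ha0⟩ := pfd77_fixed_descend N K0 ⟨A1, hA1F⟩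
    (fun σ hσ => hA1fix ⟨σ, hmemG σ hσ⟩)
  refine ⟨a0, ⟨a1, ha1K⟩, ?_, ?_, ?_⟩
  · rintro rfl
    rw [map_zero] at ha0
    exact hA10 (congrArg Subtype.val ha0).symm
  · intro h0
    exact ha1 (congrArg Subtype.val h0)
  · apply fd27_iota_injective (algebraMap ↥K0 Q̄) N
    rw [map_mul, map_pow, fd27_iota_algebraMap, ha0]
    apply Subtype.ext
    rw [hYcoe, hYA, pfd77_C_eq]
    rfl

/-- The norm along `α` of a constant is a constant. -/
theorem pfd77_normABar_const (N q : ℕ) [NeZero N] [NeZero q] (a : Q̄) :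
    ∃ c : Q̄, s35i62_normABar N q (algebraMap Q̄ ↥(modularFunctionFieldBar (N * q)) a) =
      algebraMap Q̄ ↥(modularFunctionFieldBar N) c := by
  letI := algebraAlong (heckeAlphaBar Q̄ N q)
  refine ⟨a ^ Module.finrank ↥(modularFunctionFieldBar N) ↥(modularFunctionFieldBar (N * q)), ?_⟩
  have h1 : algebraMap Q̄ ↥(modularFunctionFieldBar (N * q)) a =
      algebraMap ↥(modularFunctionFieldBar N) ↥(modularFunctionFieldBar (N * q))
        (algebraMap Q̄ ↥(modularFunctionFieldBar N) a) :=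
    ((heckeAlphaBar Q̄ N q).commutes a).symm
  show Algebra.norm ↥(modularFunctionFieldBar N)
    (algebraMap Q̄ ↥(modularFunctionFieldBar (N * q)) a) = _
  rw [h1, Algebra.norm_algebraMap, map_pow]

/-- The norm along `β` of a constant is a constant. -/
theorem pfd77_normBBar_const (N q : ℕ) [NeZero N] [NeZero q] (a : Q̄) :
    ∃ c : Q̄, s35i62_normBBar N q (algebraMap Q̄ ↥(modularFunctionFieldBar (N * q)) a) =
      algebraMap Q̄ ↥(modularFunctionFieldBar N) c := by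
  letI := algebraAlong (heckeBetaBar Q̄ N q)
  refine ⟨a ^ Module.finrank ↥(modularFunctionFieldBar N) ↥(modularFunctionFieldBar (N * q)), ?_⟩
  have h1 : algebraMap Q̄ ↥(modularFunctionFieldBar (N * q)) a =
      algebraMap ↥(modularFunctionFieldBar N) ↥(modularFunctionFieldBar (N * q))
        (algebraMap Q̄ ↥(modularFunctionFieldBar N) a) :=
    ((heckeBetaBar Q̄ N q).commutes a).symm
  show Algebra.norm ↥(modularFunctionFieldBar N)
    (algebraMap Q̄ ↥(modularFunctionFieldBar (N * q)) a) = _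
  rw [h1, Algebra.norm_algebraMap, map_pow]

/-- **Descent to the unramified base**: the Kummer function `f`, up to a constant and an `m`-th
power, is defined over a number field `K0 ⊆ ℚ̄` in which `q` is a uniformizer of `A ∩ K0`, and
its norms along `α` and `β` are constants times `m`-th powers over `K0`. -/
theorem pfd77_descend (N q m : ℕ) [NeZero N] [NeZero q] (hq : q.Prime) (hqN : q ∣ N)
    (hm : 0 < m) (A : ValuationSubring Q̄) (hA : A.LiesOverPrime q)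
    (f : ↥(modularFunctionFieldBar (N * q))) (hf : f ≠ 0)
    (hNa : ∃ a : ↥(modularFunctionFieldBar N), s35i62_normABar N q f = a ^ m)
    (hNb : ∃ b : ↥(modularFunctionFieldBar N), s35i62_normBBar N q f = b ^ m)
    (hI : ∀ σ ∈ A.inertiaSubgroupIn ℚ, ∃ h : ↥(modularFunctionFieldBar (N * q)),
      arithmeticRingAut (modularFunctionFieldFull (N * q)) σ f = f * h ^ m) :
    ∃ K0 : IntermediateField ℚ Q̄, FiniteDimensional ℚ ↥K0 ∧
      (∀ σ ∈ A.inertiaSubgroupIn ℚ, ∀ x ∈ K0, σ x = x) ∧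
      (∀ x ∈ K0, x ∈ A.nonunits → ∃ y ∈ K0, y ∈ A ∧ x = q * y) ∧
      ∃ (f0 : ↥(modularFunctionFieldFullC ↥K0 (N * q)))
        (a0 b0 : ↥(modularFunctionFieldFullC ↥K0 N)) (ca cb : ↥K0) (lam : Q̄)
        (κ : ↥(modularFunctionFieldBar (N * q))),
        lam ≠ 0 ∧ κ ≠ 0 ∧ a0 ≠ 0 ∧ b0 ≠ 0 ∧ ca ≠ 0 ∧ cb ≠ 0 ∧
        fd27_iota (algebraMap ↥K0 Q̄) (N * q) f0 =
          algebraMap Q̄ ↥(modularFunctionFieldBar (N * q)) lam * f * κ ^ m ∧
        s35i62_normA ↥K0 N q f0 =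
          algebraMap ↥K0 ↥(modularFunctionFieldFullC ↥K0 N) ca * a0 ^ m ∧
        s35i62_normB ↥K0 N q f0 =
          algebraMap ↥K0 ↥(modularFunctionFieldFullC ↥K0 N) cb * b0 ^ m := by
  classical
  haveI : NeZero (N * q) := ⟨Nat.mul_ne_zero (NeZero.ne N) (NeZero.ne q)⟩
  obtain ⟨L, hfd, hgal, -, ⟨fL, hfL⟩, -⟩ := rs88_main (N * q) f hf ∅
  haveI := hfd
  haveI := hgal
  obtain ⟨K0, hK0L, hfixK0, hunif, -, hlift⟩ := du77_inertia_field A hq hA L
  have hK0fd : FiniteDimensional ℚ ↥K0 :=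
    FiniteDimensional.of_injective (IntermediateField.inclusion hK0L).toLinearMap
      (IntermediateField.inclusion hK0L).injective
  refine ⟨K0, hK0fd, hfixK0, hunif, ?_⟩
  set fS : LaurentSeries Q̄ := (f : LaurentSeries Q̄) with hfS
  have hfS0 : fS ≠ 0 := fun h => hf (Subtype.ext h)
  have hfLS : coeffMap (algebraMap ↥L Q̄) (fL : LaurentSeries ↥L) = fS := by
    rw [← fd27_iota_coe, hfL]
  let φ : ↥(K0.fixingSubgroup) → Q̄ →+* Q̄ := fun g => ((g : GQ) : Q̄ →+* Q̄)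
  have hφ : ∀ g h : ↥(K0.fixingSubgroup), φ (g * h) = (φ g).comp (φ h) :=
    fun g h => RingHom.ext fun x => rfl
  have hgfix : ∀ (g : ↥(K0.fixingSubgroup)), ∀ z ∈ K0, (g : GQ) z = z := fun g z hz =>
    (IntermediateField.mem_fixingSubgroup_iff K0 (g : GQ)).mp g.2 z hz
  have hmemG : ∀ σ : GQ, (∀ z ∈ K0, σ z = z) → σ ∈ K0.fixingSubgroup := fun σ hσ =>
    (IntermediateField.mem_fixingSubgroup_iff K0 σ).mpr hσ
  -- automorphisms fixing `L` fix `f`
  have hfixL : ∀ h : GQ, (∀ x ∈ L, h x = x) → coeffMap (h : Q̄ →+* Q̄) fS = fS := by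
    intro h hh
    rw [← hfLS, coeffMap_coeffMap]
    exact coeffMap_congr (RingHom.ext fun x => hh _ x.2) _
  -- the Kummer condition for all of `Gal(ℚ̄ / K0)`
  have hK : ∀ g : ↥(K0.fixingSubgroup), ∃ h ∈ modularFunctionFieldBar (N * q),
      coeffMap (φ g) fS = fS * h ^ m := by
    intro g
    obtain ⟨h0, hh0, hin⟩ := hlift (g : GQ) (hgfix g)
    obtain ⟨h, hh⟩ := hI _ hin
    have e1 : coeffMap ((h0 * (g : GQ) : GQ) : Q̄ →+* Q̄) fS = fS * (h : LaurentSeries Q̄) ^ m := by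
      have := congrArg (fun z : ↥(modularFunctionFieldBar (N * q)) => (z : LaurentSeries Q̄)) hh
      exact this
    have e2 : coeffMap ((h0 * (g : GQ) : GQ) : Q̄ →+* Q̄) fS
        = coeffMap (h0 : Q̄ →+* Q̄) (coeffMap (φ g) fS) := by
      rw [coeffMap_coeffMap]
      exact coeffMap_congr (RingHom.ext fun _ => rfl) _
    have e3 : coeffMap ((h0⁻¹ : GQ) : Q̄ →+* Q̄) (coeffMap (h0 : Q̄ →+* Q̄) (coeffMap (φ g) fS))
        = coeffMap (φ g) fS := by
      rw [coeffMap_coeffMap]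
      have hid : ((h0⁻¹ : GQ) : Q̄ →+* Q̄).comp (h0 : Q̄ →+* Q̄) = RingHom.id Q̄ :=
        RingHom.ext fun x => h0.symm_apply_apply x
      rw [coeffMap_congr hid, coeffMap_id]
    have hinvL : ∀ x ∈ L, (h0⁻¹ : GQ) x = x := by
      intro x hx
      have h1 : (h0⁻¹ : GQ) (h0 x) = x := h0.symm_apply_apply x
      rw [hh0 x hx] at h1
      exact h1
    refine ⟨coeffMap ((h0⁻¹ : GQ) : Q̄ →+* Q̄) (h : LaurentSeries Q̄),
      (arithmeticRingAut (modularFunctionFieldFull (N * q)) h0⁻¹ h).2, ?_⟩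
    rw [← e3, ← e2, e1, map_mul, map_pow, hfixL _ hinvL]
  -- the orbit of `f` is finite
  have hfin : (Set.range fun g : ↥(K0.fixingSubgroup) => coeffMap (φ g) fS).Finite := by
    refine Set.Finite.subset (Set.finite_range
      (fun γ : ↥L ≃ₐ[ℚ] ↥L => coeffMap (algebraMap ↥L Q̄)
        (coeffMap ((γ : ↥L ≃ₐ[ℚ] ↥L) : ↥L →+* ↥L) (fL : LaurentSeries ↥L)))) ?_
    rintro _ ⟨g, rfl⟩
    refine ⟨(g : GQ).restrictNormal L, ?_⟩
    show coeffMap _ (coeffMap _ _) = coeffMap (φ g) fS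
    rw [← hfLS, coeffMap_coeffMap, coeffMap_coeffMap]
    exact coeffMap_congr
      (RingHom.ext fun a => AlgEquiv.restrictNormal_commutes (g : GQ) L a) _
  obtain ⟨lam, hlam, k, hkF, hk0, hinv⟩ :=
    kd17_descent φ hφ (modularFunctionFieldBar (N * q)) hm hfS0 hK hfin
  let κ : ↥(modularFunctionFieldBar (N * q)) := ⟨k, hkF⟩
  have hκ0 : κ ≠ 0 := fun h => hk0 (congrArg Subtype.val h)
  let y : ↥(modularFunctionFieldBar (N * q)) :=
    algebraMap Q̄ ↥(modularFunctionFieldBar (N * q)) lam * f * κ ^ m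
  have hycoe : (y : LaurentSeries Q̄) = HahnSeries.C lam * fS * k ^ m := by
    rw [pfd77_C_eq]
    rfl
  have hyfix : ∀ σ : GQ, (∀ z ∈ K0, σ z = z) →
      coeffMap (σ : Q̄ →+* Q̄) (y : LaurentSeries Q̄) = (y : LaurentSeries Q̄) := by
    intro σ hσ
    rw [hycoe]
    exact hinv ⟨σ, hmemG σ hσ⟩
  obtain ⟨f0, hf0⟩ := pfd77_fixed_descend (N * q) K0 y hyfix
  have hy0 : y ≠ 0 :=
    mul_ne_zero (mul_ne_zero ((map_ne_zero _).mpr hlam) hf) (pow_ne_zero m hκ0)
  have hf00 : f0 ≠ 0 := by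
    rintro rfl
    rw [map_zero] at hf0
    exact hy0 hf0.symm
  -- the norms
  obtain ⟨a, ha⟩ := hNa
  obtain ⟨b, hb⟩ := hNb
  obtain ⟨cA, hcA⟩ := pfd77_normABar_const N q lam
  obtain ⟨cB, hcB⟩ := pfd77_normBBar_const N q lam
  have hNA0 : s35i62_normA ↥K0 N q f0 ≠ 0 :=
    (IsUnit.map (s35i62_normA ↥K0 N q) (isUnit_iff_ne_zero.mpr hf00)).ne_zero
  have hNB0 : s35i62_normB ↥K0 N q f0 ≠ 0 :=
    (IsUnit.map (s35i62_normB ↥K0 N q) (isUnit_iff_ne_zero.mpr hf00)).ne_zero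
  have hA1 : fd27_iota (algebraMap ↥K0 Q̄) N (s35i62_normA ↥K0 N q f0) =
      algebraMap Q̄ ↥(modularFunctionFieldBar N) cA * (a * s35i62_normABar N q κ) ^ m := by
    rw [nbs92_normA (algebraMap ↥K0 Q̄) N q hq hqN f0, hf0]
    show s35i62_normABar N q
      (algebraMap Q̄ ↥(modularFunctionFieldBar (N * q)) lam * f * κ ^ m) = _
    rw [map_mul, map_mul, map_pow, hcA, ha, mul_pow, mul_assoc]
  have hB1 : fd27_iota (algebraMap ↥K0 Q̄) N (s35i62_normB ↥K0 N q f0) =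
      algebraMap Q̄ ↥(modularFunctionFieldBar N) cB * (b * s35i62_normBBar N q κ) ^ m := by
    rw [nbs92_normB (algebraMap ↥K0 Q̄) N q hq hqN f0, hf0]
    show s35i62_normBBar N q
      (algebraMap Q̄ ↥(modularFunctionFieldBar (N * q)) lam * f * κ ^ m) = _
    rw [map_mul, map_mul, map_pow, hcB, hb, mul_pow, mul_assoc]
  obtain ⟨a0, ca, ha0, hca, hNA⟩ := pfd77_norm_root N K0 hm _ hNA0 cA _ hA1
  obtain ⟨b0, cb, hb0, hcb, hNB⟩ := pfd77_norm_root N K0 hm _ hNB0 cB _ hB1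
  exact ⟨f0, a0, b0, ca, cb, lam, κ, hlam, hκ0, ha0, hb0, hca, hcb, hf0, hNA, hNB⟩

section Main

set_option synthInstance.maxHeartbeats 200000

set_option maxHeartbeats 4000000 in
/-- **CORE36 ⟹ (FF-INV)** at the same level, exponent and constant. -/
theorem pfd77_ffInv_of_core (N q m c : ℕ) [NeZero N] [NeZero q] (hq : q.Prime) (hqN : q ∣ N)
    (hm : 0 < m) (hcore : s36i62_Core N q m c) : ji17_FFInv N q m c := by
  intro A hA f hf hdiv hNa hNb hI
  obtain ⟨K0, hfd, -, hunif, f0, a0, b0, ca, cb, lam, κ, hlam, hκ, ha0, hb0, hca, hcb, hf0,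
    hNA, hNB⟩ := pfd77_descend N q m hq hqN hm A hA f hf hNa hNb hI
  haveI := hfd
  haveI hNF : NumberField ↥K0 := fd27_numberField K0 hfd
  haveI : NeZero (N * q) := ⟨Nat.mul_ne_zero (NeZero.ne N) (NeZero.ne q)⟩
  have hιcoe : ∀ x : ↥(modularFunctionFieldFullC ↥K0 (N * q)),
      ((fd27_iota (algebraMap ↥K0 Q̄) (N * q) x : ↥(modularFunctionFieldBar (N * q))) :
        LaurentSeries Q̄) = coeffMap (algebraMap ↥K0 Q̄) (x : LaurentSeries ↥K0) :=
    fun x => fd27_iota_coe _ _ x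
  have hΛ0 : algebraMap Q̄ ↥(modularFunctionFieldBar (N * q)) lam ≠ 0 :=
    (map_ne_zero _).mpr hlam
  have hf00 : f0 ≠ 0 := by
    rintro rfl
    rw [map_zero] at hf0
    exact (mul_ne_zero (mul_ne_zero hΛ0 hf) (pow_ne_zero m hκ)) hf0.symm
  -- the discrete valuation ring `A ∩ K0`, with uniformizer `q`
  haveI hdvr : IsDiscreteValuationRing ↥(A.comap (algebraMap ↥K0 Q̄)) :=
    nf23_comap_isDVR_of_liesOverPrime (algebraMap ↥K0 Q̄) A hq.ne_zero hA
  letI alg : Algebra ↥(A.comap (algebraMap ↥K0 Q̄)) ↥(modularFunctionFieldFullC ↥K0 (N * q)) :=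
    ((algebraMap ↥K0 ↥(modularFunctionFieldFullC ↥K0 (N * q))).comp
      (algebraMap ↥(A.comap (algebraMap ↥K0 Q̄)) ↥K0)).toAlgebra
  haveI htower : IsScalarTower ↥(A.comap (algebraMap ↥K0 Q̄)) ↥K0
      ↥(modularFunctionFieldFullC ↥K0 (N * q)) := IsScalarTower.of_algebraMap_eq (fun _ => rfl)
  have hunit : ∀ n : ℕ, Nat.Coprime n q →
      IsUnit ((n : ℕ) : ↥(A.comap (algebraMap ↥K0 Q̄))) := by
    intro n hn
    obtain ⟨μ, hμ⟩ := nf23_exists_natCast_mul_eq_one (algebraMap ↥K0 Q̄) A hA hn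
    exact IsUnit.of_mul_eq_one _ hμ
  have hqmem : ((q : ℕ) : ↥(A.comap (algebraMap ↥K0 Q̄))) ∈
      IsLocalRing.maximalIdeal ↥(A.comap (algebraMap ↥K0 Q̄)) := by
    have h1 : ((q : ↥K0)) ∈ (A.comap (algebraMap ↥K0 Q̄)).nonunits := by
      rw [nf23_mem_nonunits_comap, map_natCast]
      exact hA
    rw [← ValuationSubring.coe_mem_nonunits_iff]
    exact h1
  have hirr : Irreducible ((q : ℕ) : ↥(A.comap (algebraMap ↥K0 Q̄))) := by
    rw [IsDiscreteValuationRing.irreducible_iff_uniformizer]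
    apply le_antisymm
    · intro x hx
      have hx1 : ((x : ↥(A.comap (algebraMap ↥K0 Q̄))) : ↥K0) ∈
          (A.comap (algebraMap ↥K0 Q̄)).nonunits :=
        ValuationSubring.coe_mem_nonunits_iff.mpr hx
      rw [nf23_mem_nonunits_comap] at hx1
      obtain ⟨y, hyK, hyA, hxy⟩ := hunif _ (x : ↥K0).2 hx1
      rw [Ideal.mem_span_singleton]
      refine ⟨⟨⟨y, hyK⟩, hyA⟩, ?_⟩
      apply Subtype.ext
      apply Subtype.ext
      exact hxy
    · rw [Ideal.span_singleton_le_iff_mem]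
      exact hqmem
  -- the hypotheses of CORE36
  have hP1 : ∀ P : Place ↥K0 ↥(modularFunctionFieldFullC ↥K0 (N * q)), (m : ℤ) ∣ P.ord f0 := by
    intro P
    refine cx_modular_place_dvd (K0 := ↥K0) (fd27_iota (algebraMap ↥K0 Q̄) (N * q)) hιcoe
      (m : ℤ) f0 ?_ P
    intro P'
    rw [hf0, P'.ord_mul (mul_ne_zero hΛ0 hf) (pow_ne_zero m hκ), P'.ord_mul hΛ0 hf,
      pp72_ord_algebraMap, zero_add, ← zpow_natCast, P'.ord_zpow]
    exact dvd_add (hdiv P') (dvd_mul_right _ _)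
  obtain ⟨f₀, c', hf₀, hc', hmain⟩ := hcore ↥(A.comap (algebraMap ↥K0 Q̄)) ↥K0 hirr hunit
    f0 a0 b0 ca cb hf00 ha0 hb0 hca hcb hP1 hNA hNB
  -- transport to `ℚ̄`
  have hι := congrArg (fd27_iota (algebraMap ↥K0 Q̄) (N * q)) hmain
  rw [map_pow, map_mul, map_pow, fd27_iota_algebraMap, hf0] at hι
  have hκc : κ ^ c ≠ 0 := pow_ne_zero c hκ
  have hΛc : algebraMap Q̄ ↥(modularFunctionFieldBar (N * q)) lam ^ c ≠ 0 := pow_ne_zero c hΛ0
  obtain ⟨γ, hγ⟩ := IsAlgClosed.exists_pow_nat_eq (algebraMap ↥K0 Q̄ c' / lam ^ c) hm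
  refine ⟨algebraMap Q̄ ↥(modularFunctionFieldBar (N * q)) γ *
    fd27_iota (algebraMap ↥K0 Q̄) (N * q) f₀ * (κ ^ c)⁻¹, ?_⟩
  have e : algebraMap Q̄ ↥(modularFunctionFieldBar (N * q)) (algebraMap ↥K0 Q̄ c') *
      fd27_iota (algebraMap ↥K0 Q̄) (N * q) f₀ ^ m =
      algebraMap Q̄ ↥(modularFunctionFieldBar (N * q)) lam ^ c * f ^ c * (κ ^ c) ^ m := by
    rw [← hι]
    ring
  rw [mul_pow, mul_pow, ← map_pow, hγ, map_div₀, map_pow, inv_pow]
  calc algebraMap Q̄ ↥(modularFunctionFieldBar (N * q)) (algebraMap ↥K0 Q̄ c') /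
        algebraMap Q̄ ↥(modularFunctionFieldBar (N * q)) lam ^ c *
        fd27_iota (algebraMap ↥K0 Q̄) (N * q) f₀ ^ m * ((κ ^ c) ^ m)⁻¹
      = (algebraMap Q̄ ↥(modularFunctionFieldBar (N * q)) (algebraMap ↥K0 Q̄ c') *
        fd27_iota (algebraMap ↥K0 Q̄) (N * q) f₀ ^ m) *
        (algebraMap Q̄ ↥(modularFunctionFieldBar (N * q)) lam ^ c)⁻¹ * ((κ ^ c) ^ m)⁻¹ := by
        ring
    _ = f ^ c := by
        rw [e]
        field_simp

/-- **P-FD36** (`s36i62_Pkg_FieldDef` of `Iface62`): CORE36 ⟹ (FF-INV) at the same level, with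
the same constant. -/
theorem pfd77_pkg_fieldDef : s36i62_Pkg_FieldDef := by
  intro N q p _ _ hq hqN hq2 hp hpq hcore
  obtain ⟨c, hc, hcore⟩ := hcore
  exact ⟨c, hc, fun n => pfd77_ffInv_of_core N q (p ^ n) c hq hqN (pow_pos hp.pos n) (hcore n)⟩

end Main

end Fermat.Agent.S36
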