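import Mathlib
import Fermat.Agent.S36.CoreIface57
import Fermat.Agent.S36.GateCofinal67
import Fermat.Agent.S36.PkgFieldDef77

/-!
# S36 lab (helper62, architect): the STRONGLY RIGID form of the last open package

Answer to the blocker #3015 (row 600): with ONE Hauptmodul prime `p₀` the C-rows cannot reach
the `C₂`-only points over the elliptic point of `X₀(p₀)` when `q ≡ 1 mod 12`.  Nothing in the
chain above (HF) + (HB) + (HP) uses the shape of the rigid level (`ci57x_core` is level-free), and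
helper67's gate `s36c67_result_of_core6` consumes CORE36 only at the levels with
`s36c67_Rigid6 N q r := (q ≠ 2 → 2 ∣ N) ∧ (q ≠ 3 → 3 ∣ N) ∧ r.Prime ∧ r % 12 = 11 ∧ r ≠ q ∧ r ∣ N`.

* `s36i62c_pkg_core6` : (HF) + (HB) + (HP) of `CoreIface57` at every STRONGLY rigid level
  ⟹ `s36c67_Pkg_Core6`;
* `s36i62c_top6` : **the frozen statement S36 from that ONE hypothesis** (everything else —
  gate, transfer, newness, descent `pfd77_pkg_fieldDef`, level change — is on main).

So `Fermat/Agent/S36.lean` is `s36i62c_top6 hX hg lam S O' hlamO' chig hchig iota hlamS hMS`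
as soon as `hX` is a theorem.  All names are prefixed `s36i62c_`.
-/

set_option autoImplicit false
set_option linter.style.longLine false
set_option linter.unusedVariables false
set_option linter.unusedSectionVars false

open ModularCurve AlgebraicCurve CongruenceSubgroup Polynomial

namespace Fermat.Agent.S36

open Fermat.Agent.S18 Fermat.Agent.S34 Fermat.Agent.S35

local notation "Q̄" => AlgebraicClosure ℚ

/-- **The one open hypothesis of S36**, strongly rigid form: at every level `N * q` with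
`q ∥ N`, `2 ∣ N` (if `q ≠ 2`), `3 ∣ N` (if `q ≠ 3`) and `r ∣ N` (`r ≡ 11 mod 12` prime, `r ≠ q`),
for every `p`-power exponent and every unramified base `(R, K)`: a frame
`(h, V₁, V₂, V₃, V_∞', V_0')` with (HF), (HB), (HP) of `CoreIface57`. -/
def s36i62c_HX : Prop :=
  ∀ (N q p r : ℕ) [NeZero N] [NeZero q], q.Prime → q ∣ N → ¬ q ^ 2 ∣ N →
    s36c67_Rigid6 N q r → p.Prime → p ≠ q → ∀ n : ℕ,
    ∀ (R K : Type) [CommRing R] [IsDomain R] [IsDiscreteValuationRing R] [Field K]
      [NumberField K] [Algebra K Q̄] [Algebra R K] [IsFractionRing R K]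
      [Algebra R ↥(modularFunctionFieldFullC K (N * q))]
      [IsScalarTower R K ↥(modularFunctionFieldFullC K (N * q))],
      Irreducible ((q : ℕ) : R) → (∀ k : ℕ, Nat.Coprime k q → IsUnit (k : R)) →
      ∃ (h : ↥(modularFunctionFieldFullC K (N * q)))
        (V₁ V₂ V₃ : ValuationSubring ↥(modularFunctionFieldFullC K (N * q)))
        (Vinf V0 : ValuationSubring ↥(modularFunctionFieldFullC K N)),
        ci57x_HF K ((q : ℕ) : R) h V₁ V₂ V₃ ∧
        ci57x_HB N q (p ^ n) R K V₁ V₂ V₃ Vinf V0 ∧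
        ci57x_HP (K := K) ((q : ℕ) : R) q (p ^ n) h (s35i62_normA K N q)
          (s35i62_normB K N q) V₁ V₂ V₃ Vinf V0

/-- (HF) + (HB) + (HP) at every strongly rigid level give CORE36 there (`ci57x_core`). -/
theorem s36i62c_pkg_core6 (hX : s36i62c_HX) : s36c67_Pkg_Core6 := by
  intro N q p r _ _ hq hqN hq2 hrig hp hpq
  have hq2' : 2 ≤ q := hq.two_le
  refine ⟨(q + 1) * (q - 1) * (q ^ 2 - 1) * ((q - 1 + 2) * (q - 1)) * q, ?_, fun n => ?_⟩
  · have h1 : 0 < q - 1 := by omega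
    have h2 : 0 < q ^ 2 - 1 := by
      have : 4 ≤ q ^ 2 := by nlinarith
      omega
    positivity
  · intro R K _ _ _ _ _ _ _ _ _ _ hπ hunit f a b ca cb hf ha hb hca hcb hord hNa hNb
    obtain ⟨h, V₁, V₂, V₃, Vinf, V0, hF, hB, hP⟩ :=
      hX N q p r hq hqN hq2 hrig hp hpq n R K hπ hunit
    exact ci57x_core N q (p ^ n) (pow_pos hp.pos n) hπ
      (hunit (p ^ n) (Nat.Coprime.pow_left n ((Nat.coprime_primes hp hq).mpr hpq)))
      h V₁ V₂ V₃ Vinf V0 hF hB hP f a b ca cb hf ha hb hca hcb hord hNa hNb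

/-- **TOP-LEVEL ASSEMBLY, strongly rigid form**: the frozen statement S36 from the ONE open
hypothesis `s36i62c_HX`. -/
theorem s36i62c_top6 (hX : s36i62c_HX)
    {M : ℕ} [NeZero M] {g : CuspForm (CongruenceSubgroup.Gamma0 M) 2} (hg : g.IsNewform)
    (lam : ℕ) [Fact lam.Prime]
    (S : Finset ℕ)
    (O' : Type) [CommRing O'] [IsDomain O'] [IsDiscreteValuationRing O']
    [IsAdicComplete (IsLocalRing.maximalIdeal O') O'] [Finite (IsLocalRing.ResidueField O')]
    [CharZero O'] (hlamO' : (lam : O') ∈ IsLocalRing.maximalIdeal O')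
    (chig : CuspForm.heckeAlgebra M 2 (↑S : Set ℕ) →+* ℂ)
    (hchig : ∀ (ℓ : ℕ) (hℓ : ℓ.Prime) (hℓM : ¬ ℓ ∣ M) (hℓS : ℓ ∉ (↑S : Set ℕ)),
      chig (CuspForm.heckeAlgebra.T hℓ hℓM hℓS) = ModularFormClass.qCoeff g ℓ)
    (iota : chig.range →+* O')
    (hlamS : lam ∈ S) (hMS : ∀ q : ℕ, q.Prime → q ∣ M → q ∈ S) :
    ∃ (O'' : Type) (_ : CommRing O'') (_ : IsDomain O'') (_ : IsDiscreteValuationRing O'')
      (_ : IsAdicComplete (IsLocalRing.maximalIdeal O'') O'') (_ : Finite (IsLocalRing.ResidueField O''))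
      (_ : CharZero O'') (_ : Algebra O' O'') (_ : Module.Finite O' O'') (_ : IsLocalHom (algebraMap O' O'')),
      Function.Injective (algebraMap O' O'') ∧
      ∃ ρ : GaloisRepAdic O'',
        (∀ (ℓ : ℕ) (hℓ : ℓ.Prime) (hℓM : ¬ ℓ ∣ M) (hℓS : ℓ ∉ (↑S : Set ℕ)),
          ∀ A : ValuationSubring (AlgebraicClosure ℚ), A.LiesOverPrime ℓ →
            ∀ σ : AlgebraicClosure ℚ ≃ₐ[ℚ] AlgebraicClosure ℚ, A.IsFrobeniusAt σ ℓ →
              LinearMap.charpoly (ρ.ρ σ) =
                X ^ 2 - C (algebraMap O' O'' ((iota.comp chig.rangeRestrict) (CuspForm.heckeAlgebra.T hℓ hℓM hℓS))) * X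
                  + C ((ℓ : O''))) ∧
        (∀ q : ℕ, q.Prime → q ≠ lam → M.factorization q = 2 → ¬ ρ.IsUnipotentOnInertiaAt q) :=
  s36c67_result_of_core6 (s36i62c_pkg_core6 hX) pfd77_pkg_fieldDef
    hg lam S O' hlamO' chig hchig iota hlamS hMS

end Fermat.Agent.S36
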