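import Mathlib

/-!
# S36 lab, row B1-V2 (helper64): the cyclotomic discrete valuation datum

`R` a discrete valuation ring with fraction field `K` of characteristic zero, `π` a uniformizer,
`q` a prime associated to `π` (`R` unramified over `q`).  Then there is a finite extension
`K' = K(ζ_q)`, a discrete valuation subring `A'` of `K'` over `R` (uniformizer `ϖ`), and a unit
`ζ` of `A'` with `ζ^q = 1 ≠ ζ` and `(ζ - 1)^(q-1) = π · unit` (`cyc64_exists`).

This is exactly the datum `v2g64_Datum` of `V2Gauss64` (stated here unfolded, Mathlib only).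
All names are prefixed `cyc64_`.
-/

set_option autoImplicit false
set_option linter.style.haveILetI false

namespace Fermat.Agent.S36

open Polynomial WithZero

section cyc64_discrete

variable {K' : Type*} [Field K'] (val : Valuation K' ℤᵐ⁰)

theorem cyc64_lt_one_iff (x : ℤᵐ⁰) : x < 1 ↔ x ≤ exp (-1 : ℤ) := by
  have h1 : (1 : ℤᵐ⁰) = exp (0 : ℤ) := rfl
  by_cases hx : x = 0
  · subst hx
    simp
  · obtain ⟨n, rfl⟩ : ∃ n : ℤ, x = exp n := ⟨log x, (exp_log hx).symm⟩
    rw [h1, exp_lt_exp, exp_le_exp]
    omega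

/-- The valuation subring of a `ℤᵐ⁰`-valued valuation with a uniformizer is discrete. -/
theorem cyc64_discrete (p : K') (hp : val p = exp (-1 : ℤ)) :
    ∃ ϖ : val.valuationSubring, ϖ ≠ 0 ∧
      (∀ r : val.valuationSubring, IsLocalRing.residue val.valuationSubring r = 0 ↔ ϖ ∣ r) ∧
      (∀ r : val.valuationSubring, r ≠ 0 → ∃ n : ℕ, ¬ ϖ ^ (n + 1) ∣ r) ∧
      (∀ r : val.valuationSubring,
        IsLocalRing.residue val.valuationSubring r = 0 ↔ val (r : K') < 1) := by
  have hp0 : p ≠ 0 := (Valuation.ne_zero_iff val).mp (by rw [hp]; exact exp_ne_zero)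
  have hp1 : val p ≤ 1 := by
    rw [hp]
    exact ((cyc64_lt_one_iff _).mpr le_rfl).le
  let ϖ : val.valuationSubring := ⟨p, (Valuation.mem_valuationSubring_iff val p).mpr hp1⟩
  have hdvd : ∀ (r : val.valuationSubring) (n : ℕ),
      ϖ ^ n ∣ r ↔ val (r : K') ≤ exp (-(n : ℤ)) := by
    intro r n
    have hpn : val (p ^ n) = exp (-(n : ℤ)) := by
      rw [map_pow, hp, ← exp_nsmul]
      simp
    constructor
    · rintro ⟨c, rfl⟩
      have hc : val (c : K') ≤ 1 := (Valuation.mem_valuationSubring_iff val _).mp c.2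
      have h2 : ((ϖ ^ n * c : val.valuationSubring) : K') = p ^ n * (c : K') := rfl
      rw [h2, map_mul, hpn]
      exact mul_le_of_le_one_right' hc
    · intro h
      have hpn0 : p ^ n ≠ 0 := pow_ne_zero _ hp0
      refine ⟨⟨(r : K') / p ^ n, ?_⟩, ?_⟩
      · rw [Valuation.mem_valuationSubring_iff, map_div₀, hpn]
        exact div_le_one_of_le₀ h zero_le
      · apply Subtype.ext
        show (r : K') = p ^ n * ((r : K') / p ^ n)
        field_simp
  have hres : ∀ r : val.valuationSubring,
      IsLocalRing.residue val.valuationSubring r = 0 ↔ val (r : K') < 1 := by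
    intro r
    rw [IsLocalRing.residue_eq_zero_iff, ValuationSubring.valuation_lt_one_iff]
    exact ((Valuation.isEquiv_valuation_valuationSubring val).lt_one_iff_lt_one).symm
  refine ⟨ϖ, ?_, ?_, ?_, hres⟩
  · intro h
    exact hp0 (congrArg Subtype.val h)
  · intro r
    rw [hres, cyc64_lt_one_iff]
    have h1 := hdvd r 1
    rw [pow_one] at h1
    exact h1.symm
  · intro r hr
    have hr0 : val (r : K') ≠ 0 :=
      (Valuation.ne_zero_iff val).mpr (fun h => hr (Subtype.ext h))
    obtain ⟨m, hm⟩ : ∃ m : ℤ, val (r : K') = exp m := ⟨log _, (exp_log hr0).symm⟩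
    refine ⟨(-m).toNat, fun hd => ?_⟩
    have h1 := (hdvd r _).mp hd
    rw [hm, exp_le_exp] at h1
    have h2 := Int.self_le_toNat (-m)
    push_cast at h1
    omega

end cyc64_discrete

section cyc64_assoc

variable {A : Type*} [CommRing A] [IsDomain A]

/-- In a domain with a primitive `q`-th root of unity `ζ`, `q` prime: `q ~ (ζ - 1)^(q-1)`. -/
theorem cyc64_assoc_prime (q : ℕ) (hq : q.Prime) (ζ : A) (hζ : IsPrimitiveRoot ζ q) :
    Associated ((q : ℕ) : A) ((ζ - 1) ^ (q - 1)) := by
  haveI : Fact q.Prime := ⟨hq⟩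
  haveI : NeZero q := ⟨hq.ne_zero⟩
  have h1 : ((q : ℕ) : A) = ∏ μ ∈ primitiveRoots q A, (1 - μ) := by
    have h2 := eval_one_cyclotomic_prime (R := A) (p := q)
    rw [cyclotomic_eq_prod_X_sub_primitiveRoots hζ, eval_prod] at h2
    rw [← h2]
    refine Finset.prod_congr rfl fun μ _ => ?_
    simp
  have h3 : Associated (∏ μ ∈ primitiveRoots q A, (1 - μ))
      (∏ _μ ∈ primitiveRoots q A, (ζ - 1)) := by
    refine Associated.prod _ _ _ fun μ hμ => ?_
    have hμ' : IsPrimitiveRoot μ q := (mem_primitiveRoots hq.pos).mp hμ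
    obtain ⟨i, -, hi, rfl⟩ := hζ.isPrimitiveRoot_iff.mp hμ'
    have h4 := (hζ.associated_sub_one_pow_sub_one_of_coprime hi).symm
    have h5 : (1 : A) - ζ ^ i = -(ζ ^ i - 1) := by ring
    rw [h5]
    exact h4.neg_left
  rw [Finset.prod_const, hζ.card_primitiveRoots, Nat.totient_prime hq] at h3
  rw [h1]
  exact h3

end cyc64_assoc

section cyc64_main

/-- **The cyclotomic discrete valuation datum exists.** -/
theorem cyc64_exists {R K : Type} [CommRing R] [IsDomain R] [IsDiscreteValuationRing R] [Field K]
    [CharZero K] [Algebra R K] [IsFractionRing R K] (q : ℕ) (hq : q.Prime) {π : R}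
    (hπ : Irreducible π) (hqπ : Associated ((q : ℕ) : R) π) :
    ∃ (K' : Type) (_ : Field K') (_ : Algebra K K') (A' : ValuationSubring K') (ϖ : A')
      (ρ : R →+* A') (ζ : A'ˣ),
      ϖ ≠ 0 ∧ (∀ r : A', IsLocalRing.residue A' r = 0 ↔ ϖ ∣ r) ∧
      (∀ r : A', r ≠ 0 → ∃ n : ℕ, ¬ ϖ ^ (n + 1) ∣ r) ∧
      (∀ r : R, algebraMap A' K' (ρ r) = algebraMap K K' (algebraMap R K r)) ∧
      IsLocalRing.residue A' (ρ π) = 0 ∧
      ζ ^ q = 1 ∧ ζ ≠ 1 ∧
      ∃ u : A'ˣ, ((ζ : A') - 1) ^ (q - 1) = ρ π * u := by
  haveI : Fact q.Prime := ⟨hq⟩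
  haveI : NeZero ((q : ℕ) : K) := ⟨Nat.cast_ne_zero.mpr hq.ne_zero⟩
  haveI : FiniteDimensional K (CyclotomicField q K) :=
    IsCyclotomicExtension.finiteDimensional {q} K (CyclotomicField q K)
  haveI : IsDedekindDomain (integralClosure R (CyclotomicField q K)) :=
    integralClosure.isDedekindDomain R K (CyclotomicField q K)
  haveI : IsFractionRing (integralClosure R (CyclotomicField q K)) (CyclotomicField q K) :=
    integralClosure.isFractionRing_of_finite_extension K (CyclotomicField q K)
  have hRK' : ∀ r : R, algebraMap K (CyclotomicField q K) (algebraMap R K r) =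
      algebraMap R (CyclotomicField q K) r :=
    fun r => (IsScalarTower.algebraMap_apply R K (CyclotomicField q K) r).symm
  have hinjRK' : Function.Injective (algebraMap R (CyclotomicField q K)) := by
    intro a b h
    apply IsFractionRing.injective R K
    apply (algebraMap K (CyclotomicField q K)).injective
    rw [hRK', hRK', h]
  have hinjRO : Function.Injective
      (algebraMap R (integralClosure R (CyclotomicField q K))) := by
    intro a b h
    apply hinjRK'
    have := congrArg (algebraMap (integralClosure R (CyclotomicField q K)) (CyclotomicField q K)) h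
    exact this
  obtain ⟨Q, -, hQp, hQ⟩ := Ideal.exists_ideal_over_prime_of_isIntegral
    (IsLocalRing.maximalIdeal R) (⊥ : Ideal (integralClosure R (CyclotomicField q K)))
    (by rw [Ideal.comap_bot_of_injective _ hinjRO]; exact bot_le)
  have hπQ : algebraMap R (integralClosure R (CyclotomicField q K)) π ∈ Q := by
    have h1 : π ∈ Q.comap (algebraMap R (integralClosure R (CyclotomicField q K))) := by
      rw [hQ]
      exact (IsLocalRing.mem_maximalIdeal _).mpr hπ.not_isUnit
    exact h1
  have hQ0 : Q ≠ ⊥ := by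
    intro h
    rw [h, Ideal.mem_bot] at hπQ
    exact hπ.ne_zero (hinjRO (by rw [hπQ, map_zero]))
  let v : IsDedekindDomain.HeightOneSpectrum (integralClosure R (CyclotomicField q K)) :=
    ⟨Q, hQp, hQ0⟩
  obtain ⟨p, hp⟩ := v.valuation_exists_uniformizer (CyclotomicField q K)
  obtain ⟨ϖ, hϖ0, hres, hfin, hres'⟩ := cyc64_discrete (v.valuation (CyclotomicField q K)) p hp
  have hval : ∀ r : R, v.valuation (CyclotomicField q K)
      (algebraMap K (CyclotomicField q K) (algebraMap R K r)) =
      v.valuation (CyclotomicField q K) (algebraMap (integralClosure R (CyclotomicField q K))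
        (CyclotomicField q K) (algebraMap R (integralClosure R (CyclotomicField q K)) r)) := by
    intro r
    rw [hRK']
    rfl
  have hR : ∀ r : R, ((algebraMap K (CyclotomicField q K)).comp (algebraMap R K)) r ∈
      (v.valuation (CyclotomicField q K)).valuationSubring := by
    intro r
    rw [Valuation.mem_valuationSubring_iff, RingHom.comp_apply, hval]
    exact v.valuation_le_one _
  let ρ : R →+* (v.valuation (CyclotomicField q K)).valuationSubring :=
    ((algebraMap K (CyclotomicField q K)).comp (algebraMap R K)).codRestrict _ hR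
  -- the root of unity
  have hζ0 : IsPrimitiveRoot (IsCyclotomicExtension.zeta q K (CyclotomicField q K)) q :=
    IsCyclotomicExtension.zeta_spec q K (CyclotomicField q K)
  have hζmem : IsCyclotomicExtension.zeta q K (CyclotomicField q K) ∈
      (v.valuation (CyclotomicField q K)).valuationSubring := by
    rw [Valuation.mem_valuationSubring_iff]
    have h1 : v.valuation (CyclotomicField q K)
        (IsCyclotomicExtension.zeta q K (CyclotomicField q K)) ^ q = 1 := by
      rw [← map_pow, hζ0.pow_eq_one, map_one]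
    exact ((pow_eq_one_iff_of_nonneg zero_le hq.ne_zero).mp h1).le
  let ζA : (v.valuation (CyclotomicField q K)).valuationSubring :=
    ⟨IsCyclotomicExtension.zeta q K (CyclotomicField q K), hζmem⟩
  have hζA : IsPrimitiveRoot ζA q := by
    refine IsPrimitiveRoot.of_map_of_injective
      (f := (v.valuation (CyclotomicField q K)).valuationSubring.subtype) ?_
      Subtype.val_injective
    exact hζ0
  have hζAu : IsUnit ζA := IsUnit.of_pow_eq_one hζA.pow_eq_one hq.ne_zero
  refine ⟨CyclotomicField q K, inferInstance, inferInstance,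
    (v.valuation (CyclotomicField q K)).valuationSubring, ϖ, ρ, hζAu.unit, hϖ0, hres, hfin,
    fun _ => rfl, ?_, ?_, ?_, ?_⟩
  · rw [hres']
    show v.valuation (CyclotomicField q K)
      (algebraMap K (CyclotomicField q K) (algebraMap R K π)) < 1
    rw [hval]
    exact (v.valuation_lt_one_iff_mem _).mpr hπQ
  · apply Units.ext
    rw [Units.val_pow_eq_pow_val, IsUnit.unit_spec, hζA.pow_eq_one, Units.val_one]
  · intro h
    have h1 : ζA = 1 := by
      have := congrArg Units.val h
      rwa [IsUnit.unit_spec, Units.val_one] at this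
    exact hζA.ne_one hq.one_lt h1
  · have h1 := cyc64_assoc_prime q hq ζA hζA
    have h2 : Associated (ρ ((q : ℕ) : R)) (ρ π) := hqπ.map ρ
    rw [map_natCast] at h2
    obtain ⟨u, hu⟩ := h2.symm.trans h1
    exact ⟨u, by rw [IsUnit.unit_spec]; exact hu.symm⟩

end cyc64_main

end Fermat.Agent.S36
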