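import Fermat.Agent.S36.V2Gauss64
import Fermat.Agent.S36.CycDVR64

/-!
# S36 lab, row B1-V2 (helper64): the third valuation `V₂` of `F(N q²)`, unconditionally

`R` a discrete valuation ring with fraction field `K` (characteristic zero), `π` a uniformizer,
`q` a prime with `q ~ π` (unramified), `q ∤ N`, `φ : K →+* ℚ̄` (for the Atkin–Lehner involution).

* `v2g64_exists` : there is a valuation subring `V₂` of `F(N q²)_K` with LITERALLY the four facts
  used by `ob72_ram` (helper72, `OnlyBind72`, with `M = N * q`): `α₂ V_∞' ⊆ V₂`, `π⁻¹ ∉ V₂`,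
  `V₁ ≠ V₂`, and `v₂(s)^(q-1) = v₂(π)` for `s = v2g64_s K N q = j(Q^(q²)) - j(Q)`.
* `v2g64_V2` : a choice of such a `V₂`, with the facts `v2g64_V2_alpha`, `v2g64_V2_pi`,
  `v2g64_V2_ne`, `v2g64_V2_val`.

(`V₂` is the pull-back of the Gauss valuation ring of `K(ζ_q)((Q))` along the conjugate embedding
`Θ` of `ce97_exists_hom`: `V2Gauss64` + `CycDVR64`.)
-/

set_option autoImplicit false
set_option linter.unusedSectionVars false

open ModularCurve IntermediateField

namespace Fermat.Agent.S36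

open Fermat.Agent.S18 Fermat.Agent.S24 Fermat.Agent.S28 Fermat.Agent.S37 Fermat.Agent.S34
open Fermat.Agent.S35

section v2g64_final

variable {R K : Type} [CommRing R] [IsDomain R] [IsDiscreteValuationRing R] [Field K] [CharZero K]
  [Algebra R K] [IsFractionRing R K]
variable (φ : K →+* Kbar) (N q : ℕ) [NeZero N] [NeZero q] (hq : q.Prime) (hN : ¬ q ∣ N)

include φ hq hN in
/-- **B1-V2.**  The third valuation `V₂` of `F(N q²)_K` exists, with literally the four facts
used by `ob72_ram`. -/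
theorem v2g64_exists {π : R} (hπ : Irreducible π) (hqπ : Associated ((q : ℕ) : R) π) :
    ∃ V₂ : ValuationSubring ↥(modularFunctionFieldFullC K (N * q * q)),
      (∀ c ∈ cm85_Vinf (K := K) (N * q) hπ, al97L_alpha K (N * q) q c ∈ V₂) ∧
      (algebraMap K ↥(modularFunctionFieldFullC K (N * q * q)) (algebraMap R K π))⁻¹ ∉ V₂ ∧
      cm85_Vinf (K := K) (N * q * q) hπ ≠ V₂ ∧
      V₂.valuation (v2g64_s K N q) ^ (q - 1) =
        V₂.valuation (algebraMap K ↥(modularFunctionFieldFullC K (N * q * q))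
          (algebraMap R K π)) := by
  obtain ⟨K', hK', hA, A', ϖ, ρ, ζ, hD⟩ := cyc64_exists (K := K) q hq hπ hqπ
  exact v2g64_exists_of_datum A' φ N q hq hN hπ ϖ ρ ζ hD

/-- **The third valuation `V₂`** of `F(N q²)_K` (a choice of `v2g64_exists`). -/
noncomputable def v2g64_V2 {π : R} (hπ : Irreducible π) (hqπ : Associated ((q : ℕ) : R) π) :
    ValuationSubring ↥(modularFunctionFieldFullC K (N * q * q)) :=
  Classical.choose (v2g64_exists φ N q hq hN hπ hqπ)

/-- `α₂ V_∞' ⊆ V₂`. -/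
theorem v2g64_V2_alpha {π : R} (hπ : Irreducible π) (hqπ : Associated ((q : ℕ) : R) π)
    (c : ↥(modularFunctionFieldFullC K (N * q))) (hc : c ∈ cm85_Vinf (K := K) (N * q) hπ) :
    al97L_alpha K (N * q) q c ∈ v2g64_V2 φ N q hq hN hπ hqπ :=
  (Classical.choose_spec (v2g64_exists φ N q hq hN hπ hqπ)).1 c hc

/-- `π⁻¹ ∉ V₂`. -/
theorem v2g64_V2_pi {π : R} (hπ : Irreducible π) (hqπ : Associated ((q : ℕ) : R) π) :
    (algebraMap K ↥(modularFunctionFieldFullC K (N * q * q)) (algebraMap R K π))⁻¹ ∉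
      v2g64_V2 φ N q hq hN hπ hqπ :=
  (Classical.choose_spec (v2g64_exists φ N q hq hN hπ hqπ)).2.1

/-- `V₁ ≠ V₂`. -/
theorem v2g64_V2_ne {π : R} (hπ : Irreducible π) (hqπ : Associated ((q : ℕ) : R) π) :
    cm85_Vinf (K := K) (N * q * q) hπ ≠ v2g64_V2 φ N q hq hN hπ hqπ :=
  (Classical.choose_spec (v2g64_exists φ N q hq hN hπ hqπ)).2.2.1

/-- `v₂(s)^(q-1) = v₂(π)` for `s = j(Q^(q²)) - j(Q)`. -/
theorem v2g64_V2_val {π : R} (hπ : Irreducible π) (hqπ : Associated ((q : ℕ) : R) π) :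
    (v2g64_V2 φ N q hq hN hπ hqπ).valuation (v2g64_s K N q) ^ (q - 1) =
      (v2g64_V2 φ N q hq hN hπ hqπ).valuation
        (algebraMap K ↥(modularFunctionFieldFullC K (N * q * q)) (algebraMap R K π)) :=
  (Classical.choose_spec (v2g64_exists φ N q hq hN hπ hqπ)).2.2.2

end v2g64_final

end Fermat.Agent.S36
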