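import Mathlib
import Fermat.Agent.S36.CoreSix62
import Fermat.Agent.S36.FrameBind85
import Fermat.Agent.S36.V2Final64

/-!
# S36 lab (helper62, architect): the FINAL BINDER — `s36i62c_HX` from the canonical (HB), (HP)

The canonical frame at level `M' * q * q` (`q ∤ M'`) over an unramified base `(R, K)`, `π = q`:

* `V₁ = cm85_Vinf (M' * q * q) hπ`,
* `V₂ = v2g64_V2 (algebraMap K ℚ̄) M' q hq hM' hπ (Associated.refl _)`   (helper64, `V2Final64`),
* `V₃ = nsb86_V3 M' q hq hM' hπ`                                        (helper86),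
* `V_∞' = cm85_Vinf (M' * q) hπ`, `V_0' = s34i47c_V0 M' q hq hM' hπ`,
* `h = pk85_h2 K (M' * q * q) _` if `q ≠ 2` (then `2 ∣ M'`), `h = pk85_h3 K (M' * q * q) _` if
  `q = 2` (then `3 ∣ M'`).

(HF) for this frame is `fb85_frameV3_level2/3` (helper85) + the facts of `v2g64_V2`: proved here.
So the ONE open hypothesis `s36i62c_HX` of `CoreSix62` follows from THREE closed canonical
statements:

* `s36i62d_HBc`  : (HB) of `CoreIface57` for the canonical frame;
* `s36i62d_HPc2` : (HP) of `CoreIface57` for the canonical frame and `h = pk85_h2` (`q ≠ 2`);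
* `s36i62d_HPc3` : (HP) of `CoreIface57` for the canonical frame and `h = pk85_h3` (`q = 2`).

`s36i62d_hx : s36i62d_HBc → s36i62d_HPc2 → s36i62d_HPc3 → s36i62c_HX`, and
`s36i62d_top : s36i62d_HBc → s36i62d_HPc2 → s36i62d_HPc3 → (frozen S36)`.
All names are prefixed `s36i62d_`.
-/

set_option autoImplicit false
set_option linter.style.longLine false
set_option linter.unusedVariables false
set_option linter.unusedSectionVars false
set_option linter.style.haveILetI false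

open ModularCurve AlgebraicCurve CongruenceSubgroup Polynomial

namespace Fermat.Agent.S36

open Fermat.Agent.S18 Fermat.Agent.S34 Fermat.Agent.S35

local notation "Q̄" => AlgebraicClosure ℚ

/-- **(HB), canonical**: the unit step for the canonical frame at a strongly rigid level. -/
def s36i62d_HBc : Prop :=
  ∀ (M' q p r : ℕ) [NeZero M'] [NeZero q] (hq : q.Prime) (hM' : ¬ q ∣ M'),
    s36c67_Rigid6 (M' * q) q r → p.Prime → p ≠ q → ∀ n : ℕ,
    ∀ (R K : Type) [CommRing R] [IsDomain R] [IsDiscreteValuationRing R] [Field K]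
      [NumberField K] [Algebra K Q̄] [Algebra R K] [IsFractionRing R K]
      [Algebra R ↥(modularFunctionFieldFullC K (M' * q * q))]
      [IsScalarTower R K ↥(modularFunctionFieldFullC K (M' * q * q))]
      (hπ : Irreducible ((q : ℕ) : R)), (∀ k : ℕ, Nat.Coprime k q → IsUnit (k : R)) →
      ci57x_HB (M' * q) q (p ^ n) R K (cm85_Vinf (K := K) (M' * q * q) hπ)
        (v2g64_V2 (algebraMap K Q̄) M' q hq hM' hπ (Associated.refl _))
        (nsb86_V3 (K := K) M' q hq hM' hπ)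
        (cm85_Vinf (K := K) (M' * q) hπ) (s34i47c_V0 M' q hq hM' hπ)

/-- **(HP), canonical, Hauptmodul of level 2** (`2 ∣ M'`, hence `q ≠ 2`). -/
def s36i62d_HPc2 : Prop :=
  ∀ (M' q p r : ℕ) [NeZero M'] [NeZero q] (hq : q.Prime) (hM' : ¬ q ∣ M'),
    s36c67_Rigid6 (M' * q) q r → p.Prime → p ≠ q → ∀ (h2 : 2 ∣ M') (n : ℕ),
    ∀ (R K : Type) [CommRing R] [IsDomain R] [IsDiscreteValuationRing R] [Field K]
      [NumberField K] [Algebra K Q̄] [Algebra R K] [IsFractionRing R K]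
      [Algebra R ↥(modularFunctionFieldFullC K (M' * q * q))]
      [IsScalarTower R K ↥(modularFunctionFieldFullC K (M' * q * q))]
      (hπ : Irreducible ((q : ℕ) : R)), (∀ k : ℕ, Nat.Coprime k q → IsUnit (k : R)) →
      ci57x_HP (K := K) ((q : ℕ) : R) q (p ^ n)
        (pk85_h2 K (M' * q * q)
          (h2.trans ((dvd_mul_right M' q).trans (dvd_mul_right (M' * q) q))))
        (s35i62_normA K (M' * q) q) (s35i62_normB K (M' * q) q)
        (cm85_Vinf (K := K) (M' * q * q) hπ)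
        (v2g64_V2 (algebraMap K Q̄) M' q hq hM' hπ (Associated.refl _))
        (nsb86_V3 (K := K) M' q hq hM' hπ)
        (cm85_Vinf (K := K) (M' * q) hπ) (s34i47c_V0 M' q hq hM' hπ)

/-- **(HP), canonical, Hauptmodul of level 3**, needed only for `q = 2` (then `3 ∣ M'`). -/
def s36i62d_HPc3 : Prop :=
  ∀ (M' q p r : ℕ) [NeZero M'] [NeZero q] (hq : q.Prime) (hM' : ¬ q ∣ M'),
    s36c67_Rigid6 (M' * q) q r → p.Prime → p ≠ q → q = 2 → ∀ (h3 : 3 ∣ M') (n : ℕ),
    ∀ (R K : Type) [CommRing R] [IsDomain R] [IsDiscreteValuationRing R] [Field K]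
      [NumberField K] [Algebra K Q̄] [Algebra R K] [IsFractionRing R K]
      [Algebra R ↥(modularFunctionFieldFullC K (M' * q * q))]
      [IsScalarTower R K ↥(modularFunctionFieldFullC K (M' * q * q))]
      (hπ : Irreducible ((q : ℕ) : R)), (∀ k : ℕ, Nat.Coprime k q → IsUnit (k : R)) →
      ci57x_HP (K := K) ((q : ℕ) : R) q (p ^ n)
        (pk85_h3 K (M' * q * q)
          (h3.trans ((dvd_mul_right M' q).trans (dvd_mul_right (M' * q) q))))
        (s35i62_normA K (M' * q) q) (s35i62_normB K (M' * q) q)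
        (cm85_Vinf (K := K) (M' * q * q) hπ)
        (v2g64_V2 (algebraMap K Q̄) M' q hq hM' hπ (Associated.refl _))
        (nsb86_V3 (K := K) M' q hq hM' hπ)
        (cm85_Vinf (K := K) (M' * q) hπ) (s34i47c_V0 M' q hq hM' hπ)

/-- **FINAL BINDER**: the canonical (HB), (HP) give the one open hypothesis of S36
((HF) is `fb85_frameV3_level2/3` for the canonical `V₂`). -/
theorem s36i62d_hx (hB : s36i62d_HBc) (hP2 : s36i62d_HPc2) (hP3 : s36i62d_HPc3) :
    s36i62c_HX := by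
  intro N q p r _ _ hq hqN hq2 hrig hp hpq n R K _ _ _ _ _ _ _ _ _ _ hπ hunit
  obtain ⟨M', rfl⟩ : ∃ M' : ℕ, N = M' * q := ⟨N / q, (Nat.div_mul_cancel hqN).symm⟩
  have hM'0 : M' ≠ 0 := by
    rintro rfl
    exact NeZero.ne (0 * q) (zero_mul q)
  haveI : NeZero M' := ⟨hM'0⟩
  have hM' : ¬ q ∣ M' := by
    rintro ⟨c, rfl⟩
    exact hq2 ⟨c, by ring⟩
  haveI : Algebra.IsAlgebraic K Q̄ := fs85_isAlgebraic K
  have hqR : ¬ IsUnit ((q : ℕ) : R) := hπ.not_isUnit
  have hMu : IsUnit ((M' : ℕ) : R) :=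
    hunit M' (Nat.Coprime.symm ((Nat.Prime.coprime_iff_not_dvd hq).mpr hM'))
  have hV₂ := v2g64_V2_alpha (algebraMap K Q̄) M' q hq hM' hπ (Associated.refl _)
  have hπ₂ := v2g64_V2_pi (algebraMap K Q̄) M' q hq hM' hπ (Associated.refl _)
  have hs := v2g64_V2_val (algebraMap K Q̄) M' q hq hM' hπ (Associated.refl _)
  obtain ⟨hr2, hr3, hr4⟩ := hrig
  by_cases hq2' : q = 2
  · -- `q = 2`: the Hauptmodul of level 3
    have hq3 : q ≠ 3 := by omega
    have h3 : 3 ∣ M' := by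
      have h := hr3 hq3
      rcases (Nat.Prime.dvd_mul Nat.prime_three).mp h with h' | h'
      · exact h'
      · exfalso
        rw [hq2'] at h'
        omega
    obtain ⟨hW, hC, -⟩ := fb85_frameV3_level3 M' q hq hM' hπ hqR hMu h3 _ hV₂ hπ₂ hs
    exact ⟨_, _, _, _, _, _, ⟨hW, hC⟩,
      hB M' q p r hq hM' ⟨hr2, hr3, hr4⟩ hp hpq n R K hπ hunit,
      hP3 M' q p r hq hM' ⟨hr2, hr3, hr4⟩ hp hpq hq2' h3 n R K hπ hunit⟩
  · -- `q ≠ 2`: the Hauptmodul of level 2
    have h2 : 2 ∣ M' := by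
      have h := hr2 hq2'
      rcases (Nat.Prime.dvd_mul Nat.prime_two).mp h with h' | h'
      · exact h'
      · exact absurd ((Nat.prime_dvd_prime_iff_eq Nat.prime_two hq).mp h').symm hq2'
    obtain ⟨hW, hC, -⟩ := fb85_frameV3_level2 M' q hq hM' hπ hqR hMu h2 _ hV₂ hπ₂ hs
    exact ⟨_, _, _, _, _, _, ⟨hW, hC⟩,
      hB M' q p r hq hM' ⟨hr2, hr3, hr4⟩ hp hpq n R K hπ hunit,
      hP2 M' q p r hq hM' ⟨hr2, hr3, hr4⟩ hp hpq h2 n R K hπ hunit⟩

/-- **TOP-LEVEL ASSEMBLY from the canonical statements**: the frozen statement S36 from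
`s36i62d_HBc`, `s36i62d_HPc2`, `s36i62d_HPc3`. -/
theorem s36i62d_top (hB : s36i62d_HBc) (hP2 : s36i62d_HPc2) (hP3 : s36i62d_HPc3)
    {M : ℕ} [NeZero M] {g : CuspForm (CongruenceSubgroup.Gamma0 M) 2} (hg : g.IsNewform)
    (lam : ℕ) [Fact lam.Prime]
    (S : Finset ℕ)
    (O' : Type) [CommRing O'] [IsDomain O'] [IsDiscreteValuationRing O']
    [IsAdicComplete (IsLocalRing.maximalIdeal O') O'] [Finite (IsLocalRing.ResidueField O')]
    [CharZero O'] (hlamO' : (lam : O') ∈ IsLocalRing.maximalIdeal O')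
    (chig : CuspForm.heckeAlgebra M 2 (↑S : Set ℕ) →+* ℂ)
    (hchig : ∀ (ℓ : ℕ) (hℓ : ℓ.Prime) (hℓM : ¬ ℓ ∣ M) (hℓS : ℓ ∉ (↑S : Set ℕ)),
      chig (CuspForm.heckeAlgebra.T hℓ hℓM hℓS) = ModularFormClass.qCoeff g ℓ)
    (iota : chig.range →+* O')
    (hlamS : lam ∈ S) (hMS : ∀ q : ℕ, q.Prime → q ∣ M → q ∈ S) :
    ∃ (O'' : Type) (_ : CommRing O'') (_ : IsDomain O'') (_ : IsDiscreteValuationRing O'')
      (_ : IsAdicComplete (IsLocalRing.maximalIdeal O'') O'') (_ : Finite (IsLocalRing.ResidueField O''))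
      (_ : CharZero O'') (_ : Algebra O' O'') (_ : Module.Finite O' O'') (_ : IsLocalHom (algebraMap O' O'')),
      Function.Injective (algebraMap O' O'') ∧
      ∃ ρ : GaloisRepAdic O'',
        (∀ (ℓ : ℕ) (hℓ : ℓ.Prime) (hℓM : ¬ ℓ ∣ M) (hℓS : ℓ ∉ (↑S : Set ℕ)),
          ∀ A : ValuationSubring (AlgebraicClosure ℚ), A.LiesOverPrime ℓ →
            ∀ σ : AlgebraicClosure ℚ ≃ₐ[ℚ] AlgebraicClosure ℚ, A.IsFrobeniusAt σ ℓ →
              LinearMap.charpoly (ρ.ρ σ) =
                X ^ 2 - C (algebraMap O' O'' ((iota.comp chig.rangeRestrict) (CuspForm.heckeAlgebra.T hℓ hℓM hℓS))) * X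
                  + C ((ℓ : O''))) ∧
        (∀ q : ℕ, q.Prime → q ≠ lam → M.factorization q = 2 → ¬ ρ.IsUnipotentOnInertiaAt q) :=
  s36i62c_top6 (s36i62d_hx hB hP2 hP3) hg lam S O' hlamO' chig hchig iota hlamS hMS

end Fermat.Agent.S36
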