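import Mathlib

/-!
# S36 lab (helper94, row 595 "B2-abelian"): B1 + B2 in INTRINSIC CONGRUENCE FORM

Mathlib only.  No reduction maps and no identification of residue fields has to be supplied:

* `abv94_core` / `abv94_main` : `ab94_core` / `ab94_main` (file `Abelian94`) with two possibly
  different twists `VA` (`α`-side) and `VB` (`β`-side);
* `abv94_het` : the same with five different target groups `L1 L2 L3 Li Lz` and the natural maps
  `a1 a2 a3 b1 b2 b3` between them (`a1 a2 b2 b3` bijective = residue degree one, `a3 b1`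
  injective), norm formulas (N1), (N4) in lift form;
* `abv94_intrinsic` : the valuation-subring form (see its docstring).
-/

set_option linter.unusedVariables false
set_option linter.unusedSectionVars false
set_option linter.style.longLine false

namespace Fermat.Agent.S36

/-- **B1 + B2, additive core with two twists**: `ab94_core` with the substitution `V` on the
`α`-side (`h3al`, `N2`) and on the `β`-side (`h1be`, `N3`) allowed to be different maps. -/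
theorem abv94_core {U U' L : Type*} [AddCommGroup U] [AddCommGroup U'] [AddCommGroup L]
    (r1 r2 r3 : U →+ L) (ri rz : U' →+ L) (al be : U' →+ U) (Na Nb : U →+ U') (VA VB : L →+ L)
    (C : AddSubgroup L) (Cu : AddSubgroup U) (Cu' : AddSubgroup U')
    (q m s t : ℤ) (hst : s * q + t * m = 1)
    (h2al : ∀ h, r2 (al h) = ri h) (h3al : ∀ h, r3 (al h) = VA (rz h))
    (h1be : ∀ h, r1 (be h) = VB (ri h))
    (N1 : ∀ y, ri (Na y) = r1 y + (q - 1) • r2 y)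
    (N2 : ∀ y, VA (rz (Na y)) = q • r3 y)
    (N3 : ∀ y, VB (ri (Nb y)) = q • r1 y)
    (N4 : ∀ y, rz (Nb y) = r3 y + (q - 1) • r2 y)
    (hVAinj : Function.Injective VA) (hVAC : ∀ c ∈ C, VA c = c)
    (hVBinj : Function.Injective VB) (hVBC : ∀ c ∈ C, VB c = c)
    (hK : ∀ x : L, m • x ∈ C → x ∈ C)
    (hCu2 : ∀ d ∈ Cu, r2 d = r1 d) (hCu3 : ∀ d ∈ Cu, r3 d = r1 d)
    (hCi : ∀ d ∈ Cu', ri d ∈ C) (hCz : ∀ d ∈ Cu', rz d = ri d)
    (hNaC : ∀ d ∈ Cu, Na d ∈ Cu') (hNbC : ∀ d ∈ Cu, Nb d ∈ Cu')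
    (hlift : ∀ c ∈ C, ∃ d ∈ Cu, r1 d = c)
    (hglue : ∀ g1 g2 g3 : U, ∃ G : U, r1 G = r1 g1 ∧ r2 G = r2 g2 ∧ r3 G = r3 g3)
    (f : U) (cA cB A B : U') (hcA : cA ∈ Cu') (hcB : cB ∈ Cu')
    (hA : Na f = cA + m • A) (hB : Nb f = cB + m • B) :
    ∃ (u0 D G : U), D ∈ Cu ∧ ((q - 1) * (q ^ 2 - 1)) • f = D + m • G + u0 ∧
      r1 u0 = 0 ∧ r2 u0 = 0 ∧ r3 u0 = 0 ∧
      (∃ cu ∈ Cu', ∃ Au : U', Na u0 = cu + m • Au ∧ ri Au ∈ C ∧ rz Au ∈ C) ∧
      (∃ du ∈ Cu', ∃ Bu : U', Nb u0 = du + m • Bu ∧ ri Bu ∈ C ∧ rz Bu ∈ C) := by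
  -- auxiliary forms of LEMMA K
  have hK' : ∀ (x c : L), c ∈ C → m • x = c → x ∈ C := fun x c hc h => hK x (h ▸ hc)
  have hKVA : ∀ (x c : L), c ∈ C → m • VA x = c → x ∈ C := by
    intro x c hc h
    apply hK
    have h1 : VA (m • x) = VA c := by rw [map_zsmul, h, hVAC c hc]
    rw [hVAinj h1]; exact hc
  have hKVB : ∀ (x c : L), c ∈ C → m • VB x = c → x ∈ C := by
    intro x c hc h
    apply hK
    have h1 : VB (m • x) = VB c := by rw [map_zsmul, h, hVBC c hc]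
    rw [hVBinj h1]; exact hc
  -- the constants of the two norms
  have hκA : ri cA ∈ C := hCi cA hcA
  have hκB : ri cB ∈ C := hCi cB hcB
  have hzA : rz cA = ri cA := hCz cA hcA
  have hzB : rz cB = ri cB := hCz cB hcB
  -- Step 1: `r3 f`
  have E1 : q • r3 f = ri cA + m • r3 (al A) := by
    have h := N2 f
    rw [hA, map_add, map_zsmul, map_add, map_zsmul, hzA, hVAC _ hκA] at h
    rw [h3al]; exact h.symm
  have R3 : r3 f = s • ri cA + m • r3 (s • al A + t • f) := by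
    have h1 : (s * q + t * m) • r3 f = r3 f := by rw [hst, one_smul]
    rw [map_add, map_zsmul, map_zsmul]
    linear_combination (norm := module) s • E1 - h1
  -- Step 2: `r1 f`
  have E2 : q • r1 f = ri cB + m • r1 (be B) := by
    have h := N3 f
    rw [hB, map_add, map_zsmul, map_add, map_zsmul, hVBC _ hκB] at h
    rw [h1be]; exact h.symm
  have R1 : r1 f = s • ri cB + m • r1 (s • be B + t • f) := by
    have h1 : (s * q + t * m) • r1 f = r1 f := by rw [hst, one_smul]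
    rw [map_add, map_zsmul, map_zsmul]
    linear_combination (norm := module) s • E2 - h1
  set G1 : U := s • be B + t • f with hG1
  set G3 : U := s • al A + t • f with hG3
  -- Step 3: `(q - 1) • r2 f`
  obtain ⟨H, hH1, hH2, -⟩ := hglue G1 0 0
  rw [map_zero] at hH2
  have hrG2 : r2 (al A - al (Na H)) = ri A - r1 G1 := by
    rw [map_sub, h2al, h2al, N1 H, hH2, smul_zero, add_zero, hH1]
  set G2 : U := al A - al (Na H) with hG2
  have R2 : (q - 1) • r2 f = (ri cA - s • ri cB) + m • r2 G2 := by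
    have h := N1 f
    rw [hA, map_add, map_zsmul] at h
    rw [hrG2]
    linear_combination (norm := module) -h - R1
  -- Step 4: `f3` with constant reductions
  obtain ⟨G, hGr1, hGr2, hGr3⟩ := hglue ((q - 1) • G1) G2 ((q - 1) • G3)
  rw [map_zsmul] at hGr1 hGr3
  have g1 : r1 ((q - 1) • f - m • G) = ((q - 1) * s) • ri cB := by
    rw [map_sub, map_zsmul, map_zsmul, hGr1]
    linear_combination (norm := module) (q - 1) • R1
  have g2 : r2 ((q - 1) • f - m • G) = ri cA - s • ri cB := by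
    rw [map_sub, map_zsmul, map_zsmul, hGr2]
    linear_combination (norm := module) R2
  have g3 : r3 ((q - 1) • f - m • G) = ((q - 1) * s) • ri cA := by
    rw [map_sub, map_zsmul, map_zsmul, hGr3]
    linear_combination (norm := module) (q - 1) • R3
  set f3 : U := (q - 1) • f - m • G with hf3
  -- Step 5: the norms of `f3` and the relations between the constants
  have hc3 : (q - 1) • cA ∈ Cu' := Cu'.zsmul_mem hcA _
  have hd3 : (q - 1) • cB ∈ Cu' := Cu'.zsmul_mem hcB _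
  have hNa3 : Na f3 = (q - 1) • cA + m • ((q - 1) • A - Na G) := by
    rw [hf3, map_sub, map_zsmul, map_zsmul, hA]; module
  have hNb3 : Nb f3 = (q - 1) • cB + m • ((q - 1) • B - Nb G) := by
    rw [hf3, map_sub, map_zsmul, map_zsmul, hB]; module
  set A3 : U' := (q - 1) • A - Na G with hA3
  set B3 : U' := (q - 1) • B - Nb G with hB3
  have e1 : m • ri A3 = 0 := by
    have h := N1 f3
    rw [hNa3] at h
    simp only [map_add, map_zsmul] at h
    rw [g1, g2] at h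
    linear_combination (norm := module) h
  have e2 : m • VA (rz A3) = (q * ((q - 1) * s) - (q - 1)) • ri cA := by
    have h := N2 f3
    rw [hNa3] at h
    simp only [map_add, map_zsmul] at h
    rw [hzA, hVAC _ hκA, g3] at h
    linear_combination (norm := module) h
  have e3 : m • VB (ri B3) = (q * ((q - 1) * s) - (q - 1)) • ri cB := by
    have h := N3 f3
    rw [hNb3] at h
    simp only [map_add, map_zsmul] at h
    rw [hVBC _ hκB, g1] at h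
    linear_combination (norm := module) h
  have e4 : m • rz B3 = ((q - 1) * s) • ri cA + (q - 1) • (ri cA - s • ri cB) -
      (q - 1) • ri cB := by
    have h := N4 f3
    rw [hNb3] at h
    simp only [map_add, map_zsmul] at h
    rw [hzB, g3, g2] at h
    linear_combination (norm := module) h
  have hAi : ri A3 ∈ C := hK' _ 0 C.zero_mem e1
  have hAz : rz A3 ∈ C := hKVA _ _ (C.zsmul_mem hκA _) e2
  have hBi : ri B3 ∈ C := hKVB _ _ (C.zsmul_mem hκB _) e3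
  have hBz : rz B3 ∈ C := hK' _ _ (C.sub_mem (C.add_mem (C.zsmul_mem hκA _)
    (C.zsmul_mem (C.sub_mem hκA (C.zsmul_mem hκB _)) _)) (C.zsmul_mem hκB _)) e4
  have e2' : m • rz A3 = (q * ((q - 1) * s) - (q - 1)) • ri cA := by
    apply hVAinj
    rw [map_zsmul, e2, hVAC _ (C.zsmul_mem hκA _)]
  have e3' : m • ri B3 = (q * ((q - 1) * s) - (q - 1)) • ri cB := by
    apply hVBinj
    rw [map_zsmul, e3, hVBC _ (C.zsmul_mem hκB _)]
  -- `ρ`, `ρ2`
  set X : L := ri A3 - rz A3 with hX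
  set Y : L := rz B3 - ri B3 with hY
  have hXC : X ∈ C := C.sub_mem hAi hAz
  have hYC : Y ∈ C := C.sub_mem hBz hBi
  have hρ : (q ^ 2 - 1) • (((q - 1) * s) • ri cB - ((q - 1) * s) • ri cA) =
      m • ((q - 1) • (X - Y)) := by
    rw [hX, hY]
    linear_combination (norm := module) -(q - 1) • e1 + (q - 1) • e2' + (q - 1) • e4 -
      (q - 1) • e3'
  have hρ2 : (q ^ 2 - 1) • ((ri cA - s • ri cB) - ((q - 1) * s) • ri cA) =
      m • (q • X + Y) := by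
    rw [hX, hY]
    linear_combination (norm := module) -q • e1 + q • e2' - e4 + e3'
  -- Step 6: the lifts and `u0`
  obtain ⟨d1, hd1, hd1r⟩ := hlift ((q - 1) • (X - Y)) (C.zsmul_mem (C.sub_mem hXC hYC) _)
  obtain ⟨d2, hd2, hd2r⟩ := hlift (q • X + Y) (C.add_mem (C.zsmul_mem hXC _) hYC)
  obtain ⟨θ, hθ1, hθ2, hθ3⟩ := hglue d1 d2 0
  rw [map_zero] at hθ3
  rw [hd1r] at hθ1
  rw [hCu2 d2 hd2, hd2r] at hθ2
  obtain ⟨c, hc, hcr⟩ := hlift ((q ^ 2 - 1) • (((q - 1) * s) • ri cA))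
    (C.zsmul_mem (C.zsmul_mem hκA _) _)
  have u1 : r1 ((q ^ 2 - 1) • f3 - c - m • θ) = 0 := by
    rw [map_sub, map_sub, map_zsmul, map_zsmul, g1, hcr, hθ1]
    linear_combination (norm := module) hρ
  have u2 : r2 ((q ^ 2 - 1) • f3 - c - m • θ) = 0 := by
    rw [map_sub, map_sub, map_zsmul, map_zsmul, g2, hCu2 c hc, hcr, hθ2]
    linear_combination (norm := module) hρ2
  have u3 : r3 ((q ^ 2 - 1) • f3 - c - m • θ) = 0 := by
    rw [map_sub, map_sub, map_zsmul, map_zsmul, g3, hCu3 c hc, hcr, hθ3]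
    module
  have hNau : Na ((q ^ 2 - 1) • f3 - c - m • θ) =
      ((q ^ 2 - 1) • ((q - 1) • cA) - Na c) + m • ((q ^ 2 - 1) • A3 - Na θ) := by
    rw [map_sub, map_sub, map_zsmul, map_zsmul, hNa3]; module
  have hNbu : Nb ((q ^ 2 - 1) • f3 - c - m • θ) =
      ((q ^ 2 - 1) • ((q - 1) • cB) - Nb c) + m • ((q ^ 2 - 1) • B3 - Nb θ) := by
    rw [map_sub, map_sub, map_zsmul, map_zsmul, hNb3]; module
  have htot : ((q - 1) * (q ^ 2 - 1)) • f =
      c + m • (θ + (q ^ 2 - 1) • G) + ((q ^ 2 - 1) • f3 - c - m • θ) := by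
    rw [hf3]; module
  set u0 : U := (q ^ 2 - 1) • f3 - c - m • θ with hu0
  have hcu : (q ^ 2 - 1) • ((q - 1) • cA) - Na c ∈ Cu' :=
    Cu'.sub_mem (Cu'.zsmul_mem hc3 _) (hNaC c hc)
  have hdu : (q ^ 2 - 1) • ((q - 1) • cB) - Nb c ∈ Cu' :=
    Cu'.sub_mem (Cu'.zsmul_mem hd3 _) (hNbC c hc)
  set cu : U' := (q ^ 2 - 1) • ((q - 1) • cA) - Na c with hcu'
  set du : U' := (q ^ 2 - 1) • ((q - 1) • cB) - Nb c with hdu'
  set Au : U' := (q ^ 2 - 1) • A3 - Na θ with hAu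
  set Bu : U' := (q ^ 2 - 1) • B3 - Nb θ with hBu
  refine ⟨u0, c, θ + (q ^ 2 - 1) • G, hc, htot, u1, u2, u3,
    ⟨cu, hcu, Au, hNau, ?_, ?_⟩, ⟨du, hdu, Bu, hNbu, ?_, ?_⟩⟩
  · -- `ri Au`
    have h := N1 u0
    rw [hNau] at h
    simp only [map_add, map_zsmul] at h
    rw [u1, u2] at h
    refine hK' _ (-ri cu) (C.neg_mem (hCi cu hcu)) ?_
    linear_combination (norm := module) h
  · -- `rz Au`
    have h := N2 u0
    rw [hNau] at h
    simp only [map_add, map_zsmul] at h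
    rw [hCz cu hcu, hVAC _ (hCi cu hcu), u3] at h
    refine hKVA _ (-ri cu) (C.neg_mem (hCi cu hcu)) ?_
    linear_combination (norm := module) h
  · -- `ri Bu`
    have h := N3 u0
    rw [hNbu] at h
    simp only [map_add, map_zsmul] at h
    rw [hVBC _ (hCi du hdu), u1] at h
    refine hKVB _ (-ri du) (C.neg_mem (hCi du hdu)) ?_
    linear_combination (norm := module) h
  · -- `rz Bu`
    have h := N4 u0
    rw [hNbu] at h
    simp only [map_add, map_zsmul] at h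
    rw [hCz du hdu, u3, u2] at h
    refine hK' _ (-ri du) (C.neg_mem (hCi du hdu)) ?_
    linear_combination (norm := module) h

/-- **B1 + B2, multiplicative form with two twists** `VA`, `VB`. -/
theorem abv94_main {U U' Λ : Type*} [CommGroup U] [CommGroup U'] [CommGroup Λ]
    (r1 r2 r3 : U →* Λ) (ri rz : U' →* Λ) (al be : U' →* U) (Na Nb : U →* U') (VA VB : Λ →* Λ)
    (C : Subgroup Λ) (Cu : Subgroup U) (Cu' : Subgroup U')
    (q m : ℕ) (hq : 1 ≤ q) (hqm : Nat.Coprime q m)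
    (h2al : ∀ h, r2 (al h) = ri h) (h3al : ∀ h, r3 (al h) = VA (rz h))
    (h1be : ∀ h, r1 (be h) = VB (ri h))
    (N1 : ∀ y, ri (Na y) = r1 y * r2 y ^ (q - 1))
    (N2 : ∀ y, VA (rz (Na y)) = r3 y ^ q)
    (N3 : ∀ y, VB (ri (Nb y)) = r1 y ^ q)
    (N4 : ∀ y, rz (Nb y) = r3 y * r2 y ^ (q - 1))
    (hVAinj : Function.Injective VA) (hVAC : ∀ c ∈ C, VA c = c)
    (hVBinj : Function.Injective VB) (hVBC : ∀ c ∈ C, VB c = c)
    (hK : ∀ x : Λ, x ^ m ∈ C → x ∈ C)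
    (hCu2 : ∀ d ∈ Cu, r2 d = r1 d) (hCu3 : ∀ d ∈ Cu, r3 d = r1 d)
    (hCi : ∀ d ∈ Cu', ri d ∈ C) (hCz : ∀ d ∈ Cu', rz d = ri d)
    (hNaC : ∀ d ∈ Cu, Na d ∈ Cu') (hNbC : ∀ d ∈ Cu, Nb d ∈ Cu')
    (hlift : ∀ c ∈ C, ∃ d ∈ Cu, r1 d = c)
    (hglue : ∀ g1 g2 g3 : U, ∃ G : U, r1 G = r1 g1 ∧ r2 G = r2 g2 ∧ r3 G = r3 g3)
    (f : U) (cA cB A B : U') (hcA : cA ∈ Cu') (hcB : cB ∈ Cu')
    (hA : Na f = cA * A ^ m) (hB : Nb f = cB * B ^ m) :
    ∃ (u0 D G : U), D ∈ Cu ∧ f ^ ((q - 1) * (q ^ 2 - 1)) = D * G ^ m * u0 ∧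
      r1 u0 = 1 ∧ r2 u0 = 1 ∧ r3 u0 = 1 ∧
      (∃ cu ∈ Cu', ∃ Au : U', Na u0 = cu * Au ^ m ∧ ri Au ∈ C ∧ rz Au ∈ C) ∧
      (∃ du ∈ Cu', ∃ Bu : U', Nb u0 = du * Bu ^ m ∧ ri Bu ∈ C ∧ rz Bu ∈ C) := by
  obtain ⟨s, t, hst⟩ : ∃ s t : ℤ, s * q + t * m = 1 := by
    refine ⟨Nat.gcdA q m, Nat.gcdB q m, ?_⟩
    have h := Nat.gcd_eq_gcd_ab q m
    rw [Nat.Coprime.gcd_eq_one hqm] at h
    push_cast at h
    linarith
  have hq1 : ((q : ℤ) - 1) = ((q - 1 : ℕ) : ℤ) := by rw [Nat.cast_sub hq]; simp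
  have hE : (((q - 1) * (q ^ 2 - 1) : ℕ) : ℤ) = ((q : ℤ) - 1) * ((q : ℤ) ^ 2 - 1) := by
    rw [Nat.cast_mul, Nat.cast_sub hq, Nat.cast_sub (Nat.one_le_pow _ _ hq)]
    push_cast; ring
  have key := abv94_core (U := Additive U) (U' := Additive U') (L := Additive Λ)
    (MonoidHom.toAdditive r1) (MonoidHom.toAdditive r2) (MonoidHom.toAdditive r3)
    (MonoidHom.toAdditive ri) (MonoidHom.toAdditive rz) (MonoidHom.toAdditive al)
    (MonoidHom.toAdditive be) (MonoidHom.toAdditive Na) (MonoidHom.toAdditive Nb)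
    (MonoidHom.toAdditive VA) (MonoidHom.toAdditive VB) (Subgroup.toAddSubgroup C) (Subgroup.toAddSubgroup Cu)
    (Subgroup.toAddSubgroup Cu') (q : ℤ) (m : ℤ) s t hst
    (fun h => congrArg Additive.ofMul (h2al h.toMul))
    (fun h => congrArg Additive.ofMul (h3al h.toMul))
    (fun h => congrArg Additive.ofMul (h1be h.toMul))
    (fun y => by
      show Additive.ofMul (ri (Na y.toMul)) =
        Additive.ofMul (r1 y.toMul * r2 y.toMul ^ ((q : ℤ) - 1))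
      rw [hq1, zpow_natCast, N1])
    (fun y => by
      show Additive.ofMul (VA (rz (Na y.toMul))) = Additive.ofMul (r3 y.toMul ^ (q : ℤ))
      rw [zpow_natCast, N2])
    (fun y => by
      show Additive.ofMul (VB (ri (Nb y.toMul))) = Additive.ofMul (r1 y.toMul ^ (q : ℤ))
      rw [zpow_natCast, N3])
    (fun y => by
      show Additive.ofMul (rz (Nb y.toMul)) =
        Additive.ofMul (r3 y.toMul * r2 y.toMul ^ ((q : ℤ) - 1))
      rw [hq1, zpow_natCast, N4])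
    (fun a b h => hVAinj h)
    (fun c hc => congrArg Additive.ofMul (hVAC c.toMul hc))
    (fun a b h => hVBinj h)
    (fun c hc => congrArg Additive.ofMul (hVBC c.toMul hc))
    (fun x hx => hK x.toMul (by
      have h : x.toMul ^ (m : ℤ) ∈ C := hx
      rwa [zpow_natCast] at h))
    (fun d hd => congrArg Additive.ofMul (hCu2 d.toMul hd))
    (fun d hd => congrArg Additive.ofMul (hCu3 d.toMul hd))
    (fun d hd => hCi d.toMul hd)
    (fun d hd => congrArg Additive.ofMul (hCz d.toMul hd))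
    (fun d hd => hNaC d.toMul hd)
    (fun d hd => hNbC d.toMul hd)
    (fun c hc => by
      obtain ⟨d, hd, h⟩ := hlift c.toMul hc
      exact ⟨Additive.ofMul d, hd, congrArg Additive.ofMul h⟩)
    (fun g1 g2 g3 => by
      obtain ⟨G, h1, h2, h3⟩ := hglue g1.toMul g2.toMul g3.toMul
      exact ⟨Additive.ofMul G, congrArg Additive.ofMul h1, congrArg Additive.ofMul h2,
        congrArg Additive.ofMul h3⟩)
    (Additive.ofMul f) (Additive.ofMul cA) (Additive.ofMul cB) (Additive.ofMul A)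
    (Additive.ofMul B) hcA hcB
    (by
      show Additive.ofMul (Na f) = Additive.ofMul (cA * A ^ (m : ℤ))
      rw [zpow_natCast, hA])
    (by
      show Additive.ofMul (Nb f) = Additive.ofMul (cB * B ^ (m : ℤ))
      rw [zpow_natCast, hB])
  obtain ⟨u0, D, G, hD, htot, hu1, hu2, hu3, ⟨cu, hcu, Au, hNau, hAi, hAz⟩,
    ⟨du, hdu, Bu, hNbu, hBi, hBz⟩⟩ := key
  refine ⟨u0.toMul, D.toMul, G.toMul, hD, ?_, hu1, hu2, hu3,
    ⟨cu.toMul, hcu, Au.toMul, ?_, hAi, hAz⟩, ⟨du.toMul, hdu, Bu.toMul, ?_, hBi, hBz⟩⟩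
  · have h : f ^ (((q : ℤ) - 1) * ((q : ℤ) ^ 2 - 1)) =
        D.toMul * G.toMul ^ (m : ℤ) * u0.toMul := htot
    rw [← hE, zpow_natCast, zpow_natCast] at h
    exact h
  · have h : Na u0.toMul = cu.toMul * Au.toMul ^ (m : ℤ) := hNau
    rwa [zpow_natCast] at h
  · have h : Nb u0.toMul = du.toMul * Bu.toMul ^ (m : ℤ) := hNbu
    rwa [zpow_natCast] at h

/-- **B1 + B2 with five target groups** (`L1 L2 L3` for the three branches of level `q² M''`,
`Li Lz` for the two branches of level `q M''`; `a_j`, `b_j` the maps induced by `α`, `β`;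
`Kx` the constant units).  Pure group theory. -/
theorem abv94_het {U U' L1 L2 L3 Li Lz Kx : Type*} [CommGroup U] [CommGroup U'] [CommGroup L1]
    [CommGroup L2] [CommGroup L3] [CommGroup Li] [CommGroup Lz] [CommGroup Kx]
    (r1 : U →* L1) (r2 : U →* L2) (r3 : U →* L3) (ri : U' →* Li) (rz : U' →* Lz)
    (al be : U' →* U) (Na Nb : U →* U')
    (a1 : Li →* L1) (a2 : Li →* L2) (a3 : Lz →* L3)
    (b1 : Li →* L1) (b2 : Lz →* L2) (b3 : Lz →* L3)
    (ha1 : Function.Bijective a1) (ha2 : Function.Bijective a2)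
    (hb2 : Function.Bijective b2) (hb3 : Function.Bijective b3)
    (ha3 : Function.Injective a3) (hb1 : Function.Injective b1)
    (cU : Kx →* U) (cU' : Kx →* U') (κi : Kx →* Li) (κz : Kx →* Lz)
    (q m : ℕ) (hq : 1 ≤ q) (hqm : Nat.Coprime q m)
    (hr1al : ∀ h, r1 (al h) = a1 (ri h)) (hr2al : ∀ h, r2 (al h) = a2 (ri h))
    (hr3al : ∀ h, r3 (al h) = a3 (rz h))
    (hr1be : ∀ h, r1 (be h) = b1 (ri h)) (hr2be : ∀ h, r2 (be h) = b2 (rz h))
    (hr3be : ∀ h, r3 (be h) = b3 (rz h))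
    (hκi : ∀ c, ri (cU' c) = κi c) (hκz : ∀ c, rz (cU' c) = κz c)
    (hal_c : ∀ c, al (cU' c) = cU c) (hbe_c : ∀ c, be (cU' c) = cU c)
    (hNa_c : ∀ c, Na (cU c) = cU' (c ^ q)) (hNb_c : ∀ c, Nb (cU c) = cU' (c ^ q))
    (N1 : ∀ y l1 l2, r1 y = a1 l1 → r2 y = a2 l2 → ri (Na y) = l1 * l2 ^ (q - 1))
    (N2 : ∀ y, a3 (rz (Na y)) = r3 y ^ q)
    (N3 : ∀ y, b1 (ri (Nb y)) = r1 y ^ q)
    (N4 : ∀ y l3 l2, r3 y = b3 l3 → r2 y = b2 l2 → rz (Nb y) = l3 * l2 ^ (q - 1))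
    (hK : ∀ x : Li, (∃ c, x ^ m = κi c) → ∃ c, x = κi c)
    (hglue : ∀ g1 g2 g3 : U, ∃ G : U, r1 G = r1 g1 ∧ r2 G = r2 g2 ∧ r3 G = r3 g3)
    (f : U) (cA cB : Kx) (A B : U')
    (hA : Na f = cU' cA * A ^ m) (hB : Nb f = cU' cB * B ^ m) :
    ∃ (u0 G : U) (D : Kx), f ^ ((q - 1) * (q ^ 2 - 1)) = cU D * G ^ m * u0 ∧
      r1 u0 = 1 ∧ r2 u0 = 1 ∧ r3 u0 = 1 ∧
      (∃ (cu : Kx) (Au : U'), Na u0 = cU' cu * Au ^ m ∧ (∃ c, ri Au = κi c) ∧
        ∃ c, rz Au = κz c) ∧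
      (∃ (du : Kx) (Bu : U'), Nb u0 = cU' du * Bu ^ m ∧ (∃ c, ri Bu = κi c) ∧
        ∃ c, rz Bu = κz c) := by
  classical
  let e1 : Li ≃* L1 := MulEquiv.ofBijective a1 ha1
  let e2 : Li ≃* L2 := MulEquiv.ofBijective a2 ha2
  let f2 : Lz ≃* L2 := MulEquiv.ofBijective b2 hb2
  let f3 : Lz ≃* L3 := MulEquiv.ofBijective b3 hb3
  let τ : Lz ≃* Li := f2.trans e2.symm
  have he1 : ∀ x, e1.symm (a1 x) = x := fun x => e1.symm_apply_apply x
  have he2 : ∀ x, e2.symm (a2 x) = x := fun x => e2.symm_apply_apply x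
  have hf3 : ∀ x, f3.symm (b3 x) = x := fun x => f3.symm_apply_apply x
  have hτ : ∀ x, τ x = e2.symm (b2 x) := fun x => rfl
  have hc1 : ∀ c, a1 (κi c) = b1 (κi c) := fun c => by
    rw [← hκi, ← hr1al, ← hr1be, hal_c, hbe_c]
  have hc2 : ∀ c, a2 (κi c) = b2 (κz c) := fun c => by
    rw [← hκi, ← hκz, ← hr2al, ← hr2be, hal_c, hbe_c]
  have hc3 : ∀ c, a3 (κz c) = b3 (κz c) := fun c => by
    rw [← hκz, ← hr3al, ← hr3be, hal_c, hbe_c]
  have hτκ : ∀ c, τ (κz c) = κi c := fun c => by rw [hτ, ← hc2, he2]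
  have hτsκ : ∀ c, τ.symm (κi c) = κz c := fun c => by
    rw [MulEquiv.symm_apply_eq, hτκ]
  have hr1c : ∀ c, r1 (cU c) = a1 (κi c) := fun c => by rw [← hal_c, hr1al, hκi]
  have hr2c : ∀ c, r2 (cU c) = a2 (κi c) := fun c => by rw [← hal_c, hr2al, hκi]
  have hr3c : ∀ c, r3 (cU c) = b3 (κz c) := fun c => by rw [← hbe_c, hr3be, hκz]
  have key := abv94_main (U := U) (U' := U') (Λ := Li)
    (e1.symm.toMonoidHom.comp r1) (e2.symm.toMonoidHom.comp r2)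
    ((τ.toMonoidHom.comp f3.symm.toMonoidHom).comp r3) ri (τ.toMonoidHom.comp rz) al be Na Nb
    ((τ.toMonoidHom.comp f3.symm.toMonoidHom).comp (a3.comp τ.symm.toMonoidHom))
    (e1.symm.toMonoidHom.comp b1)
    κi.range cU.range cU'.range q m hq hqm
    (fun h => by
      show e2.symm (r2 (al h)) = ri h
      rw [hr2al, he2])
    (fun h => by
      show τ (f3.symm (r3 (al h))) = τ (f3.symm (a3 (τ.symm (τ (rz h)))))
      rw [MulEquiv.symm_apply_apply, hr3al])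
    (fun h => by
      show e1.symm (r1 (be h)) = e1.symm (b1 (ri h))
      rw [hr1be])
    (fun y => N1 y (e1.symm (r1 y)) (e2.symm (r2 y)) (e1.apply_symm_apply _).symm
      (e2.apply_symm_apply _).symm)
    (fun y => by
      show τ (f3.symm (a3 (τ.symm (τ (rz (Na y)))))) = (τ (f3.symm (r3 y))) ^ q
      rw [MulEquiv.symm_apply_apply, N2, map_pow, map_pow])
    (fun y => by
      show e1.symm (b1 (ri (Nb y))) = (e1.symm (r1 y)) ^ q
      rw [N3, map_pow])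
    (fun y => by
      show τ (rz (Nb y)) = τ (f3.symm (r3 y)) * (e2.symm (r2 y)) ^ (q - 1)
      rw [N4 y (f3.symm (r3 y)) (f2.symm (r2 y)) (f3.apply_symm_apply _).symm
        (f2.apply_symm_apply _).symm, map_mul, map_pow]
      congr 2
      show e2.symm (f2 (f2.symm (r2 y))) = e2.symm (r2 y)
      rw [MulEquiv.apply_symm_apply])
    ((τ.injective.comp f3.symm.injective).comp (ha3.comp τ.symm.injective))
    (by
      rintro _ ⟨c, rfl⟩
      show τ (f3.symm (a3 (τ.symm (κi c)))) = κi c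
      rw [hτsκ, hc3, hf3, hτκ])
    (e1.symm.injective.comp hb1)
    (by
      rintro _ ⟨c, rfl⟩
      show e1.symm (b1 (κi c)) = κi c
      rw [← hc1, he1])
    (by
      rintro x ⟨c, hc⟩
      obtain ⟨c', hc'⟩ := hK x ⟨c, hc.symm⟩
      exact ⟨c', hc'.symm⟩)
    (by
      rintro _ ⟨c, rfl⟩
      show e2.symm (r2 (cU c)) = e1.symm (r1 (cU c))
      rw [hr1c, hr2c, he1, he2])
    (by
      rintro _ ⟨c, rfl⟩
      show τ (f3.symm (r3 (cU c))) = e1.symm (r1 (cU c))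
      rw [hr1c, hr3c, he1, hf3, hτκ])
    (by
      rintro _ ⟨c, rfl⟩
      exact ⟨c, (hκi c).symm⟩)
    (by
      rintro _ ⟨c, rfl⟩
      show τ (rz (cU' c)) = ri (cU' c)
      rw [hκz, hκi, hτκ])
    (by
      rintro _ ⟨c, rfl⟩
      exact ⟨c ^ q, (hNa_c c).symm⟩)
    (by
      rintro _ ⟨c, rfl⟩
      exact ⟨c ^ q, (hNb_c c).symm⟩)
    (by
      rintro _ ⟨c, rfl⟩
      refine ⟨cU c, ⟨c, rfl⟩, ?_⟩
      show e1.symm (r1 (cU c)) = κi c
      rw [hr1c, he1])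
    (fun g1 g2 g3 => by
      obtain ⟨G, h1, h2, h3⟩ := hglue g1 g2 g3
      exact ⟨G, congrArg e1.symm h1, congrArg e2.symm h2,
        congrArg (fun x => τ (f3.symm x)) h3⟩)
    f (cU' cA) (cU' cB) A B ⟨cA, rfl⟩ ⟨cB, rfl⟩ hA hB
  obtain ⟨u0, D, G, ⟨D0, rfl⟩, htot, hu1, hu2, hu3, ⟨cu, ⟨cu0, rfl⟩, Au, hNau, ⟨ci, hci⟩,
    ⟨cz, hcz⟩⟩, ⟨du, ⟨du0, rfl⟩, Bu, hNbu, ⟨di, hdi⟩, ⟨dz, hdz⟩⟩⟩ := key
  refine ⟨u0, G, D0, htot, ?_, ?_, ?_, ⟨cu0, Au, hNau, ⟨ci, hci.symm⟩, ⟨cz, ?_⟩⟩,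
    ⟨du0, Bu, hNbu, ⟨di, hdi.symm⟩, ⟨dz, ?_⟩⟩⟩
  · exact (MulEquiv.map_eq_one_iff e1.symm).mp hu1
  · exact (MulEquiv.map_eq_one_iff e2.symm).mp hu2
  · have h1 : f3.symm (r3 u0) = 1 := (MulEquiv.map_eq_one_iff τ).mp hu3
    exact (MulEquiv.map_eq_one_iff f3.symm).mp h1
  · apply τ.injective
    rw [hτκ]; exact hcz.symm
  · apply τ.injective
    rw [hτκ]; exact hdz.symm

section Intrinsic

variable {F F' : Type*} [Field F] [Field F']

/-- `Λ(V)`: the units of the valuation ring `V` modulo the principal units (`= κ(V)ˣ`). -/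
abbrev abv94_Lam (V : ValuationSubring F) : Type _ :=
  V.unitGroup ⧸ (V.principalUnitGroup.subgroupOf V.unitGroup)

/-- The reduction `Vˣ → Λ(V)`. -/
noncomputable def abv94_res (V : ValuationSubring F) : V.unitGroup →* abv94_Lam V :=
  QuotientGroup.mk' _

theorem abv94_res_surjective (V : ValuationSubring F) : Function.Surjective (abv94_res V) :=
  QuotientGroup.mk'_surjective _

theorem abv94_val_unit (V : ValuationSubring F) (x : V.unitGroup) :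
    V.valuation ((x : Fˣ) : F) = 1 := (V.mem_unitGroup_iff x).mp x.2

theorem abv94_res_eq_iff (V : ValuationSubring F) (x y : V.unitGroup) :
    abv94_res V x = abv94_res V y ↔ V.valuation (((x : Fˣ) : F) - ((y : Fˣ) : F)) < 1 := by
  have hx : V.valuation ((x : Fˣ) : F) = 1 := abv94_val_unit V x
  have hx0 : ((x : Fˣ) : F) ≠ 0 := (x : Fˣ).ne_zero
  unfold abv94_res
  rw [QuotientGroup.mk'_apply, QuotientGroup.mk'_apply, QuotientGroup.eq, Subgroup.mem_subgroupOf,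
    ValuationSubring.mem_principalUnitGroup_iff]
  have h : ((((x⁻¹ * y : V.unitGroup) : Fˣ) : F) - 1) =
      ((x : Fˣ) : F)⁻¹ * (((y : Fˣ) : F) - ((x : Fˣ) : F)) := by
    push_cast
    field_simp
  rw [h, map_mul, map_inv₀, hx, inv_one, one_mul, Valuation.map_sub_swap]

/-- `v z < 1 ↔ z⁻¹ ∉ V` for `z ≠ 0`. -/
theorem abv94_lt_one_iff_inv (V : ValuationSubring F) (z : F) (hz : z ≠ 0) :
    V.valuation z < 1 ↔ z⁻¹ ∉ V := by
  rw [← V.valuation_le_one_iff, map_inv₀, not_le,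
    one_lt_inv₀ (zero_lt_iff.mpr ((map_ne_zero _).mpr hz))]

/-- lying over: non-units. -/
theorem abv94_lt_one_iff (φ : F' →+* F) (V' : ValuationSubring F') (V : ValuationSubring F)
    (hφ : ∀ x, φ x ∈ V ↔ x ∈ V') (x : F') : V.valuation (φ x) < 1 ↔ V'.valuation x < 1 := by
  by_cases hx : x = 0
  · subst hx; simp
  · have hφx : φ x ≠ 0 := (map_ne_zero φ).mpr hx
    rw [abv94_lt_one_iff_inv V _ hφx, abv94_lt_one_iff_inv V' _ hx, ← map_inv₀, hφ]

/-- lying over: units. -/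
theorem abv94_eq_one_iff (φ : F' →+* F) (V' : ValuationSubring F') (V : ValuationSubring F)
    (hφ : ∀ x, φ x ∈ V ↔ x ∈ V') (x : F') : V.valuation (φ x) = 1 ↔ V'.valuation x = 1 := by
  rw [eq_iff_le_not_lt, eq_iff_le_not_lt, V.valuation_le_one_iff, V'.valuation_le_one_iff, hφ,
    abv94_lt_one_iff φ V' V hφ]

/-- `v (a - b) < 1`, `v a = 1` ⟹ `v b = 1`. -/
theorem abv94_val_eq_one_of_sub (V : ValuationSubring F) (a b : F) (ha : V.valuation a = 1)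
    (hab : V.valuation (a - b) < 1) : V.valuation b = 1 := by
  have h : b = a - (a - b) := by ring
  rw [h, Valuation.map_sub_eq_of_lt_left _ (by rw [ha]; exact hab), ha]

theorem abv94_val_eq_one_of_mem (V : ValuationSubring F) (x : F) (h1 : x ∈ V) (h2 : x⁻¹ ∈ V)
    (h0 : x ≠ 0) : V.valuation x = 1 := by
  have a1 := (V.valuation_le_one_iff x).mpr h1
  have a2 := (V.valuation_le_one_iff x⁻¹).mpr h2
  rw [map_inv₀, inv_le_one₀ (zero_lt_iff.mpr ((map_ne_zero _).mpr h0))] at a2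
  exact le_antisymm a1 a2

theorem abv94_mem_of_val_eq_one (V : ValuationSubring F) (x : F) (h : V.valuation x = 1) :
    x ∈ V ∧ x⁻¹ ∈ V := by
  refine ⟨(V.valuation_le_one_iff x).mp h.le, (V.valuation_le_one_iff x⁻¹).mp ?_⟩
  rw [map_inv₀, h, inv_one]

/-- The unit-level map induced by `φ` for `V` lying over `V'`. -/
noncomputable def abv94_umap (φ : F' →+* F) (V' : ValuationSubring F') (V : ValuationSubring F)
    (hφ : ∀ x, φ x ∈ V ↔ x ∈ V') : V'.unitGroup →* V.unitGroup :=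
  MonoidHom.codRestrict ((Units.map (φ : F' →* F)).comp V'.unitGroup.subtype) V.unitGroup
    (fun x => (V.mem_unitGroup_iff _).mpr
      ((abv94_eq_one_iff φ V' V hφ _).mpr (abv94_val_unit V' x)))

theorem abv94_umap_coe (φ : F' →+* F) (V' : ValuationSubring F') (V : ValuationSubring F)
    (hφ : ∀ x, φ x ∈ V ↔ x ∈ V') (x : V'.unitGroup) :
    (((abv94_umap φ V' V hφ x : V.unitGroup) : Fˣ) : F) = φ ((x : F'ˣ) : F') := rfl

/-- The map `Λ(V') → Λ(V)` induced by `φ` for `V` lying over `V'`. -/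
noncomputable def abv94_rmap (φ : F' →+* F) (V' : ValuationSubring F') (V : ValuationSubring F)
    (hφ : ∀ x, φ x ∈ V ↔ x ∈ V') : abv94_Lam V' →* abv94_Lam V :=
  QuotientGroup.map _ _ (abv94_umap φ V' V hφ) (by
    intro x hx
    rw [Subgroup.mem_comap, Subgroup.mem_subgroupOf, ValuationSubring.mem_principalUnitGroup_iff]
    have h := (ValuationSubring.mem_principalUnitGroup_iff _ _).mp (Subgroup.mem_subgroupOf.mp hx)
    rw [abv94_umap_coe, ← map_one φ, ← map_sub]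
    exact (abv94_lt_one_iff φ V' V hφ _).mpr h)

theorem abv94_rmap_res (φ : F' →+* F) (V' : ValuationSubring F') (V : ValuationSubring F)
    (hφ : ∀ x, φ x ∈ V ↔ x ∈ V') (x : V'.unitGroup) :
    abv94_rmap φ V' V hφ (abv94_res V' x) = abv94_res V (abv94_umap φ V' V hφ x) := rfl

theorem abv94_rmap_injective (φ : F' →+* F) (V' : ValuationSubring F') (V : ValuationSubring F)
    (hφ : ∀ x, φ x ∈ V ↔ x ∈ V') : Function.Injective (abv94_rmap φ V' V hφ) := by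
  intro a b hab
  obtain ⟨x, rfl⟩ := abv94_res_surjective V' a
  obtain ⟨y, rfl⟩ := abv94_res_surjective V' b
  rw [abv94_rmap_res, abv94_rmap_res, abv94_res_eq_iff, abv94_umap_coe, abv94_umap_coe,
    ← map_sub, abv94_lt_one_iff φ V' V hφ] at hab
  exact (abv94_res_eq_iff V' x y).mpr hab

theorem abv94_rmap_surjective (φ : F' →+* F) (V' : ValuationSubring F') (V : ValuationSubring F)
    (hφ : ∀ x, φ x ∈ V ↔ x ∈ V')
    (hres : ∀ y ∈ V, ∃ v ∈ V', V.valuation (y - φ v) < 1) :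
    Function.Surjective (abv94_rmap φ V' V hφ) := by
  intro b
  obtain ⟨y, rfl⟩ := abv94_res_surjective V b
  have hy1 := abv94_val_unit V y
  obtain ⟨v, hv, hyv⟩ := hres _ (abv94_mem_of_val_eq_one V _ hy1).1
  have hφv : V.valuation (φ v) = 1 := abv94_val_eq_one_of_sub V _ _ hy1 hyv
  have hv1 : V'.valuation v = 1 := (abv94_eq_one_iff φ V' V hφ v).mp hφv
  have hv0 : v ≠ 0 := by
    rintro rfl
    rw [map_zero] at hv1
    exact zero_ne_one hv1
  refine ⟨abv94_res V' ⟨Units.mk0 v hv0, (V'.mem_unitGroup_iff _).mpr hv1⟩, ?_⟩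
  rw [abv94_rmap_res, abv94_res_eq_iff, abv94_umap_coe, Valuation.map_sub_swap]
  exact hyv


theorem abv94_map_inv (N : F →* F') (y : F) (hy : y ≠ 0) : N y⁻¹ = (N y)⁻¹ := by
  have h : N y * N y⁻¹ = 1 := by rw [← map_mul, mul_inv_cancel₀ hy, map_one]
  exact eq_inv_of_mul_eq_one_right h

theorem abv94_map_ne_zero (N : F →* F') (y : F) (hy : y ≠ 0) : N y ≠ 0 := by
  intro h0
  have h : N y * N y⁻¹ = 1 := by rw [← map_mul, mul_inv_cancel₀ hy, map_one]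
  rw [h0, zero_mul] at h
  exact zero_ne_one h

theorem abv94_res_eq_of (V : ValuationSubring F) (x y : V.unitGroup) (a b : F)
    (ha : ((x : Fˣ) : F) = a) (hb : ((y : Fˣ) : F) = b) (h : V.valuation (a - b) < 1) :
    abv94_res V x = abv94_res V y :=
  (abv94_res_eq_iff V x y).mpr (by rw [ha, hb]; exact h)

theorem abv94_of_res_eq (V : ValuationSubring F) (x y : V.unitGroup) (a b : F)
    (ha : ((x : Fˣ) : F) = a) (hb : ((y : Fˣ) : F) = b) (h : abv94_res V x = abv94_res V y) :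
    V.valuation (a - b) < 1 := by
  rw [← ha, ← hb]; exact (abv94_res_eq_iff V x y).mp h

/-- **B1 + B2 in intrinsic congruence form** (valuation subrings; no reduction maps). -/
theorem abv94_intrinsic
    (al be : F' →+* F) (Na Nb : F →* F')
    (V1 V2 V3 : ValuationSubring F) (Vi Vz : ValuationSubring F')
    (q m : ℕ) (hq : 1 ≤ q) (hqm : Nat.Coprime q m)
    (hal1 : ∀ x, al x ∈ V1 ↔ x ∈ Vi) (hal2 : ∀ x, al x ∈ V2 ↔ x ∈ Vi)
    (hal3 : ∀ x, al x ∈ V3 ↔ x ∈ Vz)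
    (hbe1 : ∀ x, be x ∈ V1 ↔ x ∈ Vi) (hbe2 : ∀ x, be x ∈ V2 ↔ x ∈ Vz)
    (hbe3 : ∀ x, be x ∈ V3 ↔ x ∈ Vz)
    (hres1 : ∀ x ∈ V1, ∃ v ∈ Vi, V1.valuation (x - al v) < 1)
    (hres2 : ∀ x ∈ V2, ∃ v ∈ Vi, V2.valuation (x - al v) < 1)
    (hres2' : ∀ x ∈ V2, ∃ v ∈ Vz, V2.valuation (x - be v) < 1)
    (hres3' : ∀ x ∈ V3, ∃ v ∈ Vz, V3.valuation (x - be v) < 1)
    (hres3q : ∀ x ∈ V3, ∃ v ∈ Vz, V3.valuation (x ^ q - al v) < 1)
    (hres1q : ∀ x ∈ V1, ∃ v ∈ Vi, V1.valuation (x ^ q - be v) < 1)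
    (hNaVi : ∀ y, y ∈ V1 → y ∈ V2 → Na y ∈ Vi) (hNaVz : ∀ y ∈ V3, Na y ∈ Vz)
    (hNbVi : ∀ y ∈ V1, Nb y ∈ Vi) (hNbVz : ∀ y, y ∈ V3 → y ∈ V2 → Nb y ∈ Vz)
    (hN1 : ∀ y, y ∈ V1 → y ∈ V2 → ∀ v1 ∈ Vi, ∀ v2 ∈ Vi, V1.valuation (y - al v1) < 1 →
      V2.valuation (y - al v2) < 1 → Vi.valuation (Na y - v1 * v2 ^ (q - 1)) < 1)
    (hN2 : ∀ x ∈ V3, ∀ v ∈ Vz, V3.valuation (x ^ q - al v) < 1 → Vz.valuation (Na x - v) < 1)
    (hN3 : ∀ x ∈ V1, ∀ v ∈ Vi, V1.valuation (x ^ q - be v) < 1 → Vi.valuation (Nb x - v) < 1)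
    (hN4 : ∀ y, y ∈ V3 → y ∈ V2 → ∀ v3 ∈ Vz, ∀ v2 ∈ Vz, V3.valuation (y - be v3) < 1 →
      V2.valuation (y - be v2) < 1 → Vz.valuation (Nb y - v3 * v2 ^ (q - 1)) < 1)
    (hglue : ∀ y1 y2 y3 : F,
      (V1.valuation y1 = 1 ∧ V2.valuation y1 = 1 ∧ V3.valuation y1 = 1) →
      (V1.valuation y2 = 1 ∧ V2.valuation y2 = 1 ∧ V3.valuation y2 = 1) →
      (V1.valuation y3 = 1 ∧ V2.valuation y3 = 1 ∧ V3.valuation y3 = 1) →
      ∃ G : F, (V1.valuation G = 1 ∧ V2.valuation G = 1 ∧ V3.valuation G = 1) ∧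
        V1.valuation (G - y1) < 1 ∧ V2.valuation (G - y2) < 1 ∧ V3.valuation (G - y3) < 1)
    {Kx : Type*} [CommGroup Kx] (c' : Kx →* F'ˣ)
    (hcVi : ∀ c, Vi.valuation ((c' c : F'ˣ) : F') = 1)
    (hcVz : ∀ c, Vz.valuation ((c' c : F'ˣ) : F') = 1)
    (hc_albe : ∀ c, be ((c' c : F'ˣ) : F') = al ((c' c : F'ˣ) : F'))
    (hNac : ∀ c, Na (al ((c' c : F'ˣ) : F')) = ((c' (c ^ q) : F'ˣ) : F'))
    (hNbc : ∀ c, Nb (al ((c' c : F'ˣ) : F')) = ((c' (c ^ q) : F'ˣ) : F'))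
    (hK : ∀ x : F', Vi.valuation x = 1 → ∀ c, Vi.valuation (x ^ m - ((c' c : F'ˣ) : F')) < 1 →
      ∃ a, Vi.valuation (x - ((c' a : F'ˣ) : F')) < 1)
    (f : F) (hf : V1.valuation f = 1 ∧ V2.valuation f = 1 ∧ V3.valuation f = 1)
    (cA cB : Kx) (A B : F') (hAu : Vi.valuation A = 1 ∧ Vz.valuation A = 1)
    (hBu : Vi.valuation B = 1 ∧ Vz.valuation B = 1)
    (hA : Na f = ((c' cA : F'ˣ) : F') * A ^ m) (hB : Nb f = ((c' cB : F'ˣ) : F') * B ^ m) :
    ∃ (u0 G : F) (D : Kx),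
      (V1.valuation u0 = 1 ∧ V2.valuation u0 = 1 ∧ V3.valuation u0 = 1) ∧
      (V1.valuation G = 1 ∧ V2.valuation G = 1 ∧ V3.valuation G = 1) ∧
      f ^ ((q - 1) * (q ^ 2 - 1)) = al ((c' D : F'ˣ) : F') * G ^ m * u0 ∧
      V1.valuation (u0 - 1) < 1 ∧ V2.valuation (u0 - 1) < 1 ∧ V3.valuation (u0 - 1) < 1 ∧
      (∃ (cu : Kx) (Au : F'), (Vi.valuation Au = 1 ∧ Vz.valuation Au = 1) ∧
        Na u0 = ((c' cu : F'ˣ) : F') * Au ^ m ∧
        (∃ a, Vi.valuation (Au - ((c' a : F'ˣ) : F')) < 1) ∧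
        ∃ a, Vz.valuation (Au - ((c' a : F'ˣ) : F')) < 1) ∧
      (∃ (du : Kx) (Bu : F'), (Vi.valuation Bu = 1 ∧ Vz.valuation Bu = 1) ∧
        Nb u0 = ((c' du : F'ˣ) : F') * Bu ^ m ∧
        (∃ a, Vi.valuation (Bu - ((c' a : F'ˣ) : F')) < 1) ∧
        ∃ a, Vz.valuation (Bu - ((c' a : F'ˣ) : F')) < 1) := by
  classical
  -- the groups of units of `W` and `W'`
  let SU : Subgroup Fˣ := V1.unitGroup ⊓ V2.unitGroup ⊓ V3.unitGroup
  let SU' : Subgroup F'ˣ := Vi.unitGroup ⊓ Vz.unitGroup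
  have hSU1 : SU ≤ V1.unitGroup := inf_le_left.trans inf_le_left
  have hSU2 : SU ≤ V2.unitGroup := inf_le_left.trans inf_le_right
  have hSU3 : SU ≤ V3.unitGroup := inf_le_right
  have hSUi : SU' ≤ Vi.unitGroup := inf_le_left
  have hSUz : SU' ≤ Vz.unitGroup := inf_le_right
  have v1 : ∀ y : SU, V1.valuation ((y : Fˣ) : F) = 1 := fun y => hSU1 y.2
  have v2 : ∀ y : SU, V2.valuation ((y : Fˣ) : F) = 1 := fun y => hSU2 y.2
  have v3 : ∀ y : SU, V3.valuation ((y : Fˣ) : F) = 1 := fun y => hSU3 y.2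
  have vi : ∀ y : SU', Vi.valuation ((y : F'ˣ) : F') = 1 := fun y => hSUi y.2
  have vz : ∀ y : SU', Vz.valuation ((y : F'ˣ) : F') = 1 := fun y => hSUz y.2
  have m1 : ∀ y : SU, ((y : Fˣ) : F) ∈ V1 := fun y => (abv94_mem_of_val_eq_one V1 _ (v1 y)).1
  have m2 : ∀ y : SU, ((y : Fˣ) : F) ∈ V2 := fun y => (abv94_mem_of_val_eq_one V2 _ (v2 y)).1
  have m3 : ∀ y : SU, ((y : Fˣ) : F) ∈ V3 := fun y => (abv94_mem_of_val_eq_one V3 _ (v3 y)).1
  have mi : ∀ y : SU', ((y : F'ˣ) : F') ∈ Vi := fun y => (abv94_mem_of_val_eq_one Vi _ (vi y)).1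
  have mz : ∀ y : SU', ((y : F'ˣ) : F') ∈ Vz := fun y => (abv94_mem_of_val_eq_one Vz _ (vz y)).1
  have mkU : ∀ y : F, (V1.valuation y = 1 ∧ V2.valuation y = 1 ∧ V3.valuation y = 1) →
      ∃ u : SU, ((u : Fˣ) : F) = y := by
    intro y hy
    have hy0 : y ≠ 0 := by
      rintro rfl
      rw [map_zero] at hy
      exact zero_ne_one hy.1
    exact ⟨⟨Units.mk0 y hy0, Subgroup.mem_inf.mpr ⟨Subgroup.mem_inf.mpr ⟨hy.1, hy.2.1⟩, hy.2.2⟩⟩,
      rfl⟩
  have mkU' : ∀ y : F', (Vi.valuation y = 1 ∧ Vz.valuation y = 1) →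
      ∃ u : SU', ((u : F'ˣ) : F') = y := by
    intro y hy
    have hy0 : y ≠ 0 := by
      rintro rfl
      rw [map_zero] at hy
      exact zero_ne_one hy.1
    exact ⟨⟨Units.mk0 y hy0, Subgroup.mem_inf.mpr ⟨hy.1, hy.2⟩⟩, rfl⟩
  -- reductions
  let r1 : SU →* abv94_Lam V1 := (abv94_res V1).comp (Subgroup.inclusion hSU1)
  let r2 : SU →* abv94_Lam V2 := (abv94_res V2).comp (Subgroup.inclusion hSU2)
  let r3 : SU →* abv94_Lam V3 := (abv94_res V3).comp (Subgroup.inclusion hSU3)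
  let ri : SU' →* abv94_Lam Vi := (abv94_res Vi).comp (Subgroup.inclusion hSUi)
  let rz : SU' →* abv94_Lam Vz := (abv94_res Vz).comp (Subgroup.inclusion hSUz)
  -- pull-backs
  let alU : SU' →* SU := MonoidHom.codRestrict ((Units.map (al : F' →* F)).comp SU'.subtype) SU
    (fun x => Subgroup.mem_inf.mpr ⟨Subgroup.mem_inf.mpr
      ⟨(abv94_eq_one_iff al Vi V1 hal1 _).mpr (vi x), (abv94_eq_one_iff al Vi V2 hal2 _).mpr (vi x)⟩,
      (abv94_eq_one_iff al Vz V3 hal3 _).mpr (vz x)⟩)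
  let beU : SU' →* SU := MonoidHom.codRestrict ((Units.map (be : F' →* F)).comp SU'.subtype) SU
    (fun x => Subgroup.mem_inf.mpr ⟨Subgroup.mem_inf.mpr
      ⟨(abv94_eq_one_iff be Vi V1 hbe1 _).mpr (vi x), (abv94_eq_one_iff be Vz V2 hbe2 _).mpr (vz x)⟩,
      (abv94_eq_one_iff be Vz V3 hbe3 _).mpr (vz x)⟩)
  -- inverses of units
  have i1 : ∀ y : SU, (((y : Fˣ) : F))⁻¹ ∈ V1 := fun y => (abv94_mem_of_val_eq_one V1 _ (v1 y)).2
  have i2 : ∀ y : SU, (((y : Fˣ) : F))⁻¹ ∈ V2 := fun y => (abv94_mem_of_val_eq_one V2 _ (v2 y)).2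
  have i3 : ∀ y : SU, (((y : Fˣ) : F))⁻¹ ∈ V3 := fun y => (abv94_mem_of_val_eq_one V3 _ (v3 y)).2
  have n0 : ∀ y : SU, ((y : Fˣ) : F) ≠ 0 := fun y => (y : Fˣ).ne_zero
  -- norms
  have hNa_i : ∀ y : SU, Vi.valuation (Na ((y : Fˣ) : F)) = 1 := fun y =>
    abv94_val_eq_one_of_mem Vi _ (hNaVi _ (m1 y) (m2 y))
      (by rw [← abv94_map_inv Na _ (n0 y)]; exact hNaVi _ (i1 y) (i2 y))
      (abv94_map_ne_zero Na _ (n0 y))
  have hNa_z : ∀ y : SU, Vz.valuation (Na ((y : Fˣ) : F)) = 1 := fun y =>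
    abv94_val_eq_one_of_mem Vz _ (hNaVz _ (m3 y))
      (by rw [← abv94_map_inv Na _ (n0 y)]; exact hNaVz _ (i3 y))
      (abv94_map_ne_zero Na _ (n0 y))
  have hNb_i : ∀ y : SU, Vi.valuation (Nb ((y : Fˣ) : F)) = 1 := fun y =>
    abv94_val_eq_one_of_mem Vi _ (hNbVi _ (m1 y))
      (by rw [← abv94_map_inv Nb _ (n0 y)]; exact hNbVi _ (i1 y))
      (abv94_map_ne_zero Nb _ (n0 y))
  have hNb_z : ∀ y : SU, Vz.valuation (Nb ((y : Fˣ) : F)) = 1 := fun y =>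
    abv94_val_eq_one_of_mem Vz _ (hNbVz _ (m3 y) (m2 y))
      (by rw [← abv94_map_inv Nb _ (n0 y)]; exact hNbVz _ (i3 y) (i2 y))
      (abv94_map_ne_zero Nb _ (n0 y))
  let NaU : SU →* SU' := MonoidHom.codRestrict ((Units.map Na).comp SU.subtype) SU'
    (fun y => Subgroup.mem_inf.mpr ⟨hNa_i y, hNa_z y⟩)
  let NbU : SU →* SU' := MonoidHom.codRestrict ((Units.map Nb).comp SU.subtype) SU'
    (fun y => Subgroup.mem_inf.mpr ⟨hNb_i y, hNb_z y⟩)
  -- constants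
  let cU' : Kx →* SU' := MonoidHom.codRestrict c' SU'
    (fun c => Subgroup.mem_inf.mpr ⟨hcVi c, hcVz c⟩)
  let cU : Kx →* SU := alU.comp cU'
  -- the maps between the residue groups
  let a1 := abv94_rmap al Vi V1 hal1
  let a2 := abv94_rmap al Vi V2 hal2
  let a3 := abv94_rmap al Vz V3 hal3
  let b1 := abv94_rmap be Vi V1 hbe1
  let b2 := abv94_rmap be Vz V2 hbe2
  let b3 := abv94_rmap be Vz V3 hbe3
  obtain ⟨f', hf'⟩ := mkU f hf
  obtain ⟨A', hA'⟩ := mkU' A hAu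
  obtain ⟨B', hB'⟩ := mkU' B hBu
  have hAU : NaU f' = cU' cA * A' ^ m := by
    apply Subtype.ext
    apply Units.ext
    show Na ((f' : Fˣ) : F) = (((cU' cA * A' ^ m : SU') : F'ˣ) : F')
    rw [hf', hA]
    push_cast
    rw [hA']
    rfl
  have hBU : NbU f' = cU' cB * B' ^ m := by
    apply Subtype.ext
    apply Units.ext
    show Nb ((f' : Fˣ) : F) = (((cU' cB * B' ^ m : SU') : F'ˣ) : F')
    rw [hf', hB]
    push_cast
    rw [hB']
    rfl
  have hr1al : ∀ h, r1 (alU h) = a1 (ri h) := fun h => rfl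
  have hr2al : ∀ h, r2 (alU h) = a2 (ri h) := fun h => rfl
  have hr3al : ∀ h, r3 (alU h) = a3 (rz h) := fun h => rfl
  have hr1be : ∀ h, r1 (beU h) = b1 (ri h) := fun h => rfl
  have hr2be : ∀ h, r2 (beU h) = b2 (rz h) := fun h => rfl
  have hr3be : ∀ h, r3 (beU h) = b3 (rz h) := fun h => rfl
  have hκi : ∀ c, ri (cU' c) = (ri.comp cU') c := fun c => rfl
  have hκz : ∀ c, rz (cU' c) = (rz.comp cU') c := fun c => rfl
  have hal_c : ∀ c, alU (cU' c) = cU c := fun c => rfl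
  have hbe_c : ∀ c, beU (cU' c) = cU c := fun c => Subtype.ext (Units.ext (hc_albe c))
  have hNa_c : ∀ c, NaU (cU c) = cU' (c ^ q) := fun c => Subtype.ext (Units.ext (hNac c))
  have hNb_c : ∀ c, NbU (cU c) = cU' (c ^ q) := fun c => Subtype.ext (Units.ext (hNbc c))
  have key := abv94_het (U := SU) (U' := SU') (L1 := abv94_Lam V1) (L2 := abv94_Lam V2)
    (L3 := abv94_Lam V3) (Li := abv94_Lam Vi) (Lz := abv94_Lam Vz) (Kx := Kx)
    r1 r2 r3 ri rz alU beU NaU NbU a1 a2 a3 b1 b2 b3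
    ⟨abv94_rmap_injective al Vi V1 hal1, abv94_rmap_surjective al Vi V1 hal1 hres1⟩
    ⟨abv94_rmap_injective al Vi V2 hal2, abv94_rmap_surjective al Vi V2 hal2 hres2⟩
    ⟨abv94_rmap_injective be Vz V2 hbe2, abv94_rmap_surjective be Vz V2 hbe2 hres2'⟩
    ⟨abv94_rmap_injective be Vz V3 hbe3, abv94_rmap_surjective be Vz V3 hbe3 hres3'⟩
    (abv94_rmap_injective al Vz V3 hal3) (abv94_rmap_injective be Vi V1 hbe1)
    cU cU' (ri.comp cU') (rz.comp cU') q m hq hqm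
    hr1al hr2al hr3al hr1be hr2be hr3be hκi hκz hal_c hbe_c hNa_c hNb_c
    ?N1 ?N2 ?N3 ?N4 ?hK ?hglue f' cA cB A' B' hAU hBU
  case N1 =>
    intro y l1 l2 h1 h2
    obtain ⟨w1, rfl⟩ := abv94_res_surjective Vi l1
    obtain ⟨w2, rfl⟩ := abv94_res_surjective Vi l2
    have h1' : V1.valuation (((y : Fˣ) : F) - al ((w1 : F'ˣ) : F')) < 1 :=
      abv94_of_res_eq V1 _ _ _ _ rfl rfl h1
    have h2' : V2.valuation (((y : Fˣ) : F) - al ((w2 : F'ˣ) : F')) < 1 :=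
      abv94_of_res_eq V2 _ _ _ _ rfl rfl h2
    have h := hN1 _ (m1 y) (m2 y) _ (abv94_mem_of_val_eq_one Vi _ (abv94_val_unit Vi w1)).1
      _ (abv94_mem_of_val_eq_one Vi _ (abv94_val_unit Vi w2)).1 h1' h2'
    rw [← map_pow, ← map_mul]
    refine abv94_res_eq_of Vi _ _ _ _ rfl ?_ h
    push_cast
    rfl
  case N2 =>
    intro y
    obtain ⟨v, hv, h⟩ := hres3q _ (m3 y)
    have hyq : V3.valuation (((y : Fˣ) : F) ^ q) = 1 := by rw [map_pow, v3 y, one_pow]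
    have hv3 : V3.valuation (al v) = 1 := abv94_val_eq_one_of_sub V3 _ _ hyq h
    have hvz : Vz.valuation v = 1 := (abv94_eq_one_iff al Vz V3 hal3 v).mp hv3
    have hv0 : v ≠ 0 := by
      rintro rfl
      rw [map_zero] at hvz
      exact zero_ne_one hvz
    have hn := hN2 _ (m3 y) v hv h
    have e1 : rz (NaU y) = abv94_res Vz ⟨Units.mk0 v hv0, hvz⟩ :=
      abv94_res_eq_of Vz _ _ _ _ rfl rfl hn
    rw [e1, ← map_pow]
    refine abv94_res_eq_of V3 _ _ (al v) (((y : Fˣ) : F) ^ q) rfl ?_ ?_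
    · rfl
    · rw [Valuation.map_sub_swap]; exact h
  case N3 =>
    intro y
    obtain ⟨v, hv, h⟩ := hres1q _ (m1 y)
    have hyq : V1.valuation (((y : Fˣ) : F) ^ q) = 1 := by rw [map_pow, v1 y, one_pow]
    have hv1 : V1.valuation (be v) = 1 := abv94_val_eq_one_of_sub V1 _ _ hyq h
    have hvi : Vi.valuation v = 1 := (abv94_eq_one_iff be Vi V1 hbe1 v).mp hv1
    have hv0 : v ≠ 0 := by
      rintro rfl
      rw [map_zero] at hvi
      exact zero_ne_one hvi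
    have hn := hN3 _ (m1 y) v hv h
    have e1 : ri (NbU y) = abv94_res Vi ⟨Units.mk0 v hv0, hvi⟩ :=
      abv94_res_eq_of Vi _ _ _ _ rfl rfl hn
    rw [e1, ← map_pow]
    refine abv94_res_eq_of V1 _ _ (be v) (((y : Fˣ) : F) ^ q) rfl ?_ ?_
    · rfl
    · rw [Valuation.map_sub_swap]; exact h
  case N4 =>
    intro y l3 l2 h3 h2
    obtain ⟨w3, rfl⟩ := abv94_res_surjective Vz l3
    obtain ⟨w2, rfl⟩ := abv94_res_surjective Vz l2
    have h3' : V3.valuation (((y : Fˣ) : F) - be ((w3 : F'ˣ) : F')) < 1 :=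
      abv94_of_res_eq V3 _ _ _ _ rfl rfl h3
    have h2' : V2.valuation (((y : Fˣ) : F) - be ((w2 : F'ˣ) : F')) < 1 :=
      abv94_of_res_eq V2 _ _ _ _ rfl rfl h2
    have h := hN4 _ (m3 y) (m2 y) _ (abv94_mem_of_val_eq_one Vz _ (abv94_val_unit Vz w3)).1
      _ (abv94_mem_of_val_eq_one Vz _ (abv94_val_unit Vz w2)).1 h3' h2'
    rw [← map_pow, ← map_mul]
    refine abv94_res_eq_of Vz _ _ _ _ rfl ?_ h
    push_cast
    rfl
  case hK =>
    rintro x ⟨c, hc⟩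
    obtain ⟨w, rfl⟩ := abv94_res_surjective Vi x
    rw [← map_pow] at hc
    have h : Vi.valuation (((w : F'ˣ) : F') ^ m - ((c' c : F'ˣ) : F')) < 1 := by
      refine abv94_of_res_eq Vi _ _ _ _ ?_ rfl hc
      push_cast
      rfl
    obtain ⟨a, ha⟩ := hK _ (abv94_val_unit Vi w) c h
    exact ⟨a, abv94_res_eq_of Vi _ _ _ _ rfl rfl ha⟩
  case hglue =>
    intro g1 g2 g3
    obtain ⟨G, hG, c1, c2, c3⟩ := hglue _ _ _ ⟨v1 g1, v2 g1, v3 g1⟩ ⟨v1 g2, v2 g2, v3 g2⟩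
      ⟨v1 g3, v2 g3, v3 g3⟩
    obtain ⟨G', hG'⟩ := mkU G hG
    exact ⟨G', abv94_res_eq_of V1 _ _ _ _ hG' rfl c1, abv94_res_eq_of V2 _ _ _ _ hG' rfl c2,
      abv94_res_eq_of V3 _ _ _ _ hG' rfl c3⟩
  obtain ⟨u0, G, D, htot, hu1, hu2, hu3, ⟨cu, Au, hNau, ⟨ai, hai⟩, ⟨az, haz⟩⟩,
    ⟨du, Bu, hNbu, ⟨bi, hbi⟩, ⟨bz, hbz⟩⟩⟩ := key
  refine ⟨((u0 : Fˣ) : F), ((G : Fˣ) : F), D, ⟨v1 u0, v2 u0, v3 u0⟩, ⟨v1 G, v2 G, v3 G⟩, ?_,
    ?_, ?_, ?_, ⟨cu, ((Au : F'ˣ) : F'), ⟨vi Au, vz Au⟩, ?_, ⟨ai, ?_⟩, ⟨az, ?_⟩⟩,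
    ⟨du, ((Bu : F'ˣ) : F'), ⟨vi Bu, vz Bu⟩, ?_, ⟨bi, ?_⟩, ⟨bz, ?_⟩⟩⟩
  · have h := congrArg (fun x : SU => ((x : Fˣ) : F)) htot
    beta_reduce at h
    push_cast at h
    rw [hf'] at h
    exact h
  · have h := abv94_of_res_eq V1 _ _ _ _ rfl rfl (hu1.trans (map_one r1).symm)
    simpa using h
  · have h := abv94_of_res_eq V2 _ _ _ _ rfl rfl (hu2.trans (map_one r2).symm)
    simpa using h
  · have h := abv94_of_res_eq V3 _ _ _ _ rfl rfl (hu3.trans (map_one r3).symm)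
    simpa using h
  · have h := congrArg (fun x : SU' => ((x : F'ˣ) : F')) hNau
    beta_reduce at h
    push_cast at h
    exact h
  · exact abv94_of_res_eq Vi _ _ _ _ rfl rfl hai
  · exact abv94_of_res_eq Vz _ _ _ _ rfl rfl haz
  · have h := congrArg (fun x : SU' => ((x : F'ˣ) : F')) hNbu
    beta_reduce at h
    push_cast at h
    exact h
  · exact abv94_of_res_eq Vi _ _ _ _ rfl rfl hbi
  · exact abv94_of_res_eq Vz _ _ _ _ rfl rfl hbz

end Intrinsic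

end Fermat.Agent.S36
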