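import Mathlib
import Fermat.Agent.S36.Split3Full66

/-!
# S36 lab (helper66): restriction iffs and `hglue` of `abv94_intrinsic` on the level-`M' q²` frame

Level `M' q q` (`q` prime, `q ∤ M'`, residue characteristic `q`), `F₁ = F(M' q)_K`,
`F₂ = F(M' q q)_K`, `α₂ = al97L_alpha K (M' * q) q`, `β₂ = al97L_beta K (M' * q) q`,
`ϖ = algebraMap K F₂ (algebraMap R K π)`.
`V₁ = cm85_Vinf (M' * q * q) hπ`; `V₂` ANY valuation subring with the facts `hV₂`, `hπ₂`, `hne` of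
`ob72_ram` / `o3x72_only_three`; `V₃` ANY valuation subring with `hV₃mem : x ∈ V₃ ↔ w₂ x ∈ V₁`
(e.g. `nsb86_V3`, `hV₃mem = nsb86_mem_V3`).  `V_∞' = cm85_Vinf (M' * q) hπ`,
`V_0' = s34i47c_V0 M' q hq hM' hπ`.

The six "lies over" hypotheses of `abv94_intrinsic` (helper94), literal iff shapes:
* `hal1` = `ab66_hal1`, `hal2` = `ab66_hal2`, `hal3` = `ab66_hal3`,
* `hbe1` = `ab66_hbe1`, `hbe2` = `bv66_beta_mem_V2` (BetaV2_66), `hbe3` = `ab66_hbe3`;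

and the separator/CRT hypothesis, literal shape:
* `ab66_hglue` : for `y₁ y₂ y₃` units of `V₁`, `V₂`, `V₃` there is `G`, a unit of all three, with
  `Vᵢ.valuation (G - yᵢ) < 1`.

Also `ab66_val_lt_one_of_pi`, `ab66_val_pi_lt_one` (Mathlib only).
-/

set_option autoImplicit false
set_option linter.unusedSectionVars false
set_option linter.style.haveILetI false

open ModularCurve IntermediateField Polynomial

namespace Fermat.Agent.S36

open Fermat.Agent.S18 Fermat.Agent.S24 Fermat.Agent.S37 Fermat.Agent.S34 Fermat.Agent.S35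

local notation "Q̄" => AlgebraicClosure ℚ

/-- A non-unit `ϖ` of a valuation subring has valuation `< 1`. -/
theorem ab66_val_pi_lt_one {F : Type*} [Field F] (V : ValuationSubring F) (ϖ : F)
    (hϖ : ϖ⁻¹ ∉ V) : V.valuation ϖ < 1 := by
  by_contra h
  rw [not_lt] at h
  apply hϖ
  rw [← V.valuation_le_one_iff, map_inv₀]
  exact inv_le_one_of_one_le₀ h

/-- `ϖ⁻¹ x ∈ V` for a non-unit `ϖ` implies `x ∈ 𝔪(V)`. -/
theorem ab66_val_lt_one_of_pi {F : Type*} [Field F] (V : ValuationSubring F) (ϖ : F)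
    (hϖ : ϖ⁻¹ ∉ V) {x : F} (h : ϖ⁻¹ * x ∈ V) : V.valuation x < 1 := by
  have hϖ0 : ϖ ≠ 0 := by
    rintro rfl
    exact hϖ (by rw [inv_zero]; exact zero_mem V)
  have h1 : x = ϖ * (ϖ⁻¹ * x) := by field_simp
  rw [h1, map_mul]
  exact mul_lt_one_of_lt_of_le (ab66_val_pi_lt_one V ϖ hϖ) ((V.valuation_le_one_iff _).mpr h)

/-- `G ≡ y` modulo `𝔪(V)` and `y` a unit of `V` imply `G` is a unit of `V`. -/
theorem ab66_val_eq_one_of_cong {F : Type*} [Field F] (V : ValuationSubring F) {G y : F}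
    (hy : V.valuation y = 1) (h : V.valuation (G - y) < 1) : V.valuation G = 1 := by
  have h1 : G = (G - y) + y := by ring
  rw [h1, Valuation.map_add_eq_of_lt_right _ (by rw [hy]; exact h), hy]

section ab66

variable {R K : Type} [CommRing R] [IsDomain R] [IsDiscreteValuationRing R] [Field K] [CharZero K]
  [Algebra R K] [IsFractionRing R K] [Algebra K Q̄] (M' q : ℕ) [NeZero M'] [NeZero q]

/-- `hal1` of `abv94_intrinsic`: `α₂ x ∈ V₁ ↔ x ∈ V_∞'`. -/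
theorem ab66_hal1 {π : R} (hπ : Irreducible π) (x : ↥(modularFunctionFieldFullC K (M' * q))) :
    al97L_alpha K (M' * q) q x ∈ cm85_Vinf (K := K) (M' * q * q) hπ ↔
      x ∈ cm85_Vinf (K := K) (M' * q) hπ :=
  al97V_alpha_mem_Vinf (M' * q) q hπ x

/-- `hbe1` of `abv94_intrinsic`: `β₂ x ∈ V₁ ↔ x ∈ V_∞'`. -/
theorem ab66_hbe1 {π : R} (hπ : Irreducible π) (x : ↥(modularFunctionFieldFullC K (M' * q))) :
    al97L_beta K (M' * q) q x ∈ cm85_Vinf (K := K) (M' * q * q) hπ ↔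
      x ∈ cm85_Vinf (K := K) (M' * q) hπ :=
  al97V_beta_mem_Vinf (M' * q) q hπ x

/-- `hal2` of `abv94_intrinsic`: `α₂ x ∈ V₂ ↔ x ∈ V_∞'`. -/
theorem ab66_hal2 {π : R} (hπ : Irreducible π)
    (V₂ : ValuationSubring ↥(modularFunctionFieldFullC K (M' * q * q)))
    (hV₂ : ∀ c ∈ cm85_Vinf (K := K) (M' * q) hπ, al97L_alpha K (M' * q) q c ∈ V₂)
    (hπ₂ : (algebraMap K ↥(modularFunctionFieldFullC K (M' * q * q)) (algebraMap R K π))⁻¹ ∉ V₂)
    (x : ↥(modularFunctionFieldFullC K (M' * q))) :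
    al97L_alpha K (M' * q) q x ∈ V₂ ↔ x ∈ cm85_Vinf (K := K) (M' * q) hπ := by
  let U : ValuationSubring ↥(modularFunctionFieldFullC K (M' * q)) :=
    V₂.comap ((al97L_alpha K (M' * q) q : ↥(modularFunctionFieldFullC K (M' * q)) →ₐ[K] _) :
      ↥(modularFunctionFieldFullC K (M' * q)) →+* ↥(modularFunctionFieldFullC K (M' * q * q)))
  have hU : ∀ y, y ∈ U ↔ al97L_alpha K (M' * q) q y ∈ V₂ := fun y => Iff.rfl
  have hle : cm85_Vinf (K := K) (M' * q) hπ ≤ U := fun y hy => (hU y).mpr (hV₂ y hy)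
  have hUπ : (alv73_pi K (M' * q) π)⁻¹ ∉ U := by
    rw [hU, map_inv₀]
    have h1 : al97L_alpha K (M' * q) q (alv73_pi K (M' * q) π) =
        algebraMap K ↥(modularFunctionFieldFullC K (M' * q * q)) (algebraMap R K π) :=
      (al97L_alpha K (M' * q) q).commutes _
    rw [h1]
    exact hπ₂
  have hge : U ≤ cm85_Vinf (K := K) (M' * q) hπ :=
    alv73_le_of_le _ _ (alv73_pi K (M' * q) π) hle hUπ (alv73_hmax_Vinf (M' * q) hπ)
  exact ⟨fun h => hge ((hU x).mpr h), fun h => hV₂ x h⟩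

/-- `hal3` of `abv94_intrinsic`: `α₂ x ∈ V₃ ↔ x ∈ V_0'`. -/
theorem ab66_hal3 (hq : q.Prime) (hM' : ¬ q ∣ M') {π : R} (hπ : Irreducible π)
    (hL : ((M' * q * q : ℕ) : K) ≠ 0)
    (V₃ : ValuationSubring ↥(modularFunctionFieldFullC K (M' * q * q)))
    (hV₃mem : ∀ x, x ∈ V₃ ↔
      als86_w2 (algebraMap K Q̄) M' q hq hM' hL x ∈ cm85_Vinf (K := K) (M' * q * q) hπ)
    (x : ↥(modularFunctionFieldFullC K (M' * q))) :
    al97L_alpha K (M' * q) q x ∈ V₃ ↔ x ∈ s34i47c_V0 (K := K) M' q hq hM' hπ := by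
  rw [hV₃mem, als86_w2_alpha]
  exact Iff.trans (al97V_beta_mem_Vinf (M' * q) q hπ _) (s34i47c_mem_V0 M' q hq hM' hπ x).symm

/-- `hbe3` of `abv94_intrinsic`: `β₂ x ∈ V₃ ↔ x ∈ V_0'`. -/
theorem ab66_hbe3 (hq : q.Prime) (hM' : ¬ q ∣ M') {π : R} (hπ : Irreducible π)
    (hL : ((M' * q * q : ℕ) : K) ≠ 0)
    (V₃ : ValuationSubring ↥(modularFunctionFieldFullC K (M' * q * q)))
    (hV₃mem : ∀ x, x ∈ V₃ ↔
      als86_w2 (algebraMap K Q̄) M' q hq hM' hL x ∈ cm85_Vinf (K := K) (M' * q * q) hπ)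
    (x : ↥(modularFunctionFieldFullC K (M' * q))) :
    al97L_beta K (M' * q) q x ∈ V₃ ↔ x ∈ s34i47c_V0 (K := K) M' q hq hM' hπ := by
  rw [hV₃mem, als86_w2_beta]
  exact Iff.trans (al97V_alpha_mem_Vinf (M' * q) q hπ _) (s34i47c_mem_V0 M' q hq hM' hπ x).symm

/-- `π⁻¹ ∉ V₁` in the `algebraMap K F (algebraMap R K π)` form. -/
theorem ab66_pi_V1 {π : R} (hπ : Irreducible π) :
    (algebraMap K ↥(modularFunctionFieldFullC K (M' * q * q)) (algebraMap R K π))⁻¹ ∉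
      cm85_Vinf (K := K) (M' * q * q) hπ :=
  alv73_pi_inv_not_mem_Vinf (M' * q * q) hπ

/-- **`hglue` of `abv94_intrinsic`** on the level-`M' q²` frame, literal shape. -/
theorem ab66_hglue (hq : q.Prime) (hM' : ¬ q ∣ M') {π : R} (hπ : Irreducible π)
    (hqR : ¬ IsUnit (q : R)) (hL : ((M' * q * q : ℕ) : K) ≠ 0)
    (V₂ V₃ : ValuationSubring ↥(modularFunctionFieldFullC K (M' * q * q)))
    (hV₂ : ∀ c ∈ cm85_Vinf (K := K) (M' * q) hπ, al97L_alpha K (M' * q) q c ∈ V₂)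
    (hπ₂ : (algebraMap K ↥(modularFunctionFieldFullC K (M' * q * q)) (algebraMap R K π))⁻¹ ∉ V₂)
    (hne : cm85_Vinf (K := K) (M' * q * q) hπ ≠ V₂)
    (hV₃mem : ∀ x, x ∈ V₃ ↔
      als86_w2 (algebraMap K Q̄) M' q hq hM' hL x ∈ cm85_Vinf (K := K) (M' * q * q) hπ) :
    ∀ y1 y2 y3 : ↥(modularFunctionFieldFullC K (M' * q * q)),
      ((cm85_Vinf (K := K) (M' * q * q) hπ).valuation y1 = 1 ∧ V₂.valuation y1 = 1 ∧
        V₃.valuation y1 = 1) →
      ((cm85_Vinf (K := K) (M' * q * q) hπ).valuation y2 = 1 ∧ V₂.valuation y2 = 1 ∧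
        V₃.valuation y2 = 1) →
      ((cm85_Vinf (K := K) (M' * q * q) hπ).valuation y3 = 1 ∧ V₂.valuation y3 = 1 ∧
        V₃.valuation y3 = 1) →
      ∃ G : ↥(modularFunctionFieldFullC K (M' * q * q)),
        ((cm85_Vinf (K := K) (M' * q * q) hπ).valuation G = 1 ∧ V₂.valuation G = 1 ∧
          V₃.valuation G = 1) ∧
        (cm85_Vinf (K := K) (M' * q * q) hπ).valuation (G - y1) < 1 ∧
        V₂.valuation (G - y2) < 1 ∧ V₃.valuation (G - y3) < 1 := by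
  intro y1 y2 y3 h1 h2 h3
  have mem : ∀ (V : ValuationSubring ↥(modularFunctionFieldFullC K (M' * q * q)))
      (y : ↥(modularFunctionFieldFullC K (M' * q * q))), V.valuation y = 1 → y ∈ V :=
    fun V y hy => (V.valuation_le_one_iff y).mp (le_of_eq hy)
  obtain ⟨G, -, c1, c2, c3⟩ := s3f66_crt (K := K) M' q hq hM' hπ hqR hL V₂ V₃ hV₂ hπ₂ hne hV₃mem
    y1 y2 y3 ⟨mem _ _ h1.1, mem _ _ h1.2.1, mem _ _ h1.2.2⟩
    ⟨mem _ _ h2.1, mem _ _ h2.2.1, mem _ _ h2.2.2⟩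
    ⟨mem _ _ h3.1, mem _ _ h3.2.1, mem _ _ h3.2.2⟩
  have d1 := ab66_val_lt_one_of_pi _ _ (ab66_pi_V1 (K := K) M' q hπ) c1
  have d2 := ab66_val_lt_one_of_pi _ _ hπ₂ c2
  have d3 := ab66_val_lt_one_of_pi _ _ (o3x72_V3_pi (K := K) M' q hq hM' hπ hL V₃ hV₃mem) c3
  exact ⟨G, ⟨ab66_val_eq_one_of_cong _ h1.1 d1, ab66_val_eq_one_of_cong _ h2.2.1 d2,
    ab66_val_eq_one_of_cong _ h3.2.2 d3⟩, d1, d2, d3⟩

end ab66

end Fermat.Agent.S36
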