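import Fermat.Agent.S36.OnlyBind72

/-!
# S36 lab, row B1-only3 (helper72): the inert half over `V_0` along `α`

Level `M' q` (`q` prime, `q ∤ M'`) inside level `M' q q` along `α = al97L_alpha K (M' q) q`
(degree `q`, `ob72_finrank`).  `V_0 = s34i47c_V0 M' q` (the `w`-transform of the Gauss ring).

* `obi72_V0_dvr` : `V_0` is a discrete valuation subring with uniformizer `π` (elementary
  shape `oe10_DVR`), by transport along `w`;
* `obi72_hnp`    : `β J = j(Q^q)` is not a `q`-th power modulo `π` in `V_0`;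
* `obi72_inert`  : for ANY valuation subring `V₃` of `F(M' q q)` over `V_0` with a Frobenius
  witness `y ∈ V₃`, `y ^ q ≡ α (β J)` modulo `π V₃` (in the frame: `y = j(Q^(q²))`): `V₃` is the
  ONLY valuation subring over `V_0`, it is integral over `V_0`, `π` is a uniformizer of `V₃`,
  and the residue field of `V₃` is generated by `y` over that of `V_0`;
* `obi72_inert_basis` : `V₃` is a free `V_0`-module of rank `q`.

All names are prefixed `obi72_`.
-/

set_option autoImplicit false
set_option linter.unusedSectionVars false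
set_option linter.style.haveILetI false

open ModularCurve IntermediateField Polynomial

namespace Fermat.Agent.S36

open Fermat.Agent.S18 Fermat.Agent.S24 Fermat.Agent.S37 Fermat.Agent.S34

local notation "Q̄" => AlgebraicClosure ℚ

section obi72

variable {R K : Type} [CommRing R] [IsDomain R] [IsDiscreteValuationRing R] [Field K] [CharZero K]
  [Algebra R K] [IsFractionRing R K] [Algebra K Q̄] (M' q : ℕ) [NeZero M'] [NeZero q]

/-- `V_0` is a discrete valuation subring of `F(M' q)` with uniformizer `π`. -/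
theorem obi72_V0_dvr (hq : q.Prime) (hM' : ¬ q ∣ M') {π : R} (hπ : Irreducible π) :
    oe10_DVR (s34i47c_V0 (K := K) M' q hq hM' hπ)
      (algebraMap K ↥(modularFunctionFieldFullC K (M' * q)) (algebraMap R K π)) := by
  refine ⟨?_, ?_, ?_, ?_⟩
  · rw [s34i47c_mem_V0, AlgEquiv.commutes]
    exact gv85_mem_V_of_integral _ _ _ _ (HahnSeries.C π)
      (by rw [gv85_coe_algebraMap, gv85_coeffMap_C])
  · rw [s34i47c_mem_V0, map_inv₀, AlgEquiv.commutes]
    exact gv85_pi_inv_not_mem (IsLocalRing.residue R) π (pk85_res_iff hπ) hπ.ne_zero _ _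
  · intro x hx hx'
    rw [s34i47c_mem_V0] at hx hx' ⊢
    rw [map_mul, map_inv₀, AlgEquiv.commutes]
    rw [map_inv₀] at hx'
    exact gv85_hmax (IsLocalRing.residue R) π (pk85_res_iff hπ) hπ.ne_zero _ _ _ hx hx'
  · intro x hx
    have hwx : al97L_w (algebraMap K Q̄) M' q hq hM' x ≠ 0 := by
      intro h0
      apply hx
      have := (al97L_w (algebraMap K Q̄) M' q hq hM').injective (h0.trans (map_zero _).symm)
      exact this
    obtain ⟨n, hn⟩ := fs85_harch (K := K) (M' * q) hπ _ hwx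
    refine ⟨n, ?_⟩
    rw [s34i47c_mem_V0, map_mul, map_inv₀, map_pow, AlgEquiv.commutes]
    exact hn

/-- `β J = j(Q^q)` is not a `q`-th power modulo `π` in `V_0`. -/
theorem obi72_hnp (hq : q.Prime) (hM' : ¬ q ∣ M') {π : R} (hπ : Irreducible π)
    (b : ↥(modularFunctionFieldFullC K (M' * q)))
    (hb : b ∈ s34i47c_V0 (K := K) M' q hq hM' hπ) :
    (algebraMap K ↥(modularFunctionFieldFullC K (M' * q)) (algebraMap R K π))⁻¹ *
      (b ^ q - al97L_beta K M' q (relimc_J K M')) ∉ s34i47c_V0 (K := K) M' q hq hM' hπ := by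
  rw [s34i47c_mem_V0, map_mul, map_inv₀, AlgEquiv.commutes, map_sub, map_pow, al97L_w_beta_apply]
  have hJ : al97L_alpha K M' q (relimc_J K M') = relimc_J K (M' * q) := Subtype.ext rfl
  rw [hJ]
  exact fs85_hpow (M' * q) hπ q hq.two_le _ hb

/-- **B1-only3, inert half over `V_0` along `α`.** -/
theorem obi72_inert (hq : q.Prime) (hM' : ¬ q ∣ M') {π : R} (hπ : Irreducible π)
    (V₃ : ValuationSubring ↥(modularFunctionFieldFullC K (M' * q * q)))
    (hV₃ : ∀ c ∈ s34i47c_V0 (K := K) M' q hq hM' hπ, al97L_alpha K (M' * q) q c ∈ V₃)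
    (hπ₃ : (algebraMap K ↥(modularFunctionFieldFullC K (M' * q * q)) (algebraMap R K π))⁻¹ ∉ V₃)
    (y : ↥(modularFunctionFieldFullC K (M' * q * q))) (hy : y ∈ V₃)
    (hya : (algebraMap K ↥(modularFunctionFieldFullC K (M' * q * q)) (algebraMap R K π))⁻¹ *
      (y ^ q - al97L_alpha K (M' * q) q (al97L_beta K M' q (relimc_J K M'))) ∈ V₃) :
    (∀ V : ValuationSubring ↥(modularFunctionFieldFullC K (M' * q * q)),
      (∀ c ∈ s34i47c_V0 (K := K) M' q hq hM' hπ, al97L_alpha K (M' * q) q c ∈ V) →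
      (algebraMap K ↥(modularFunctionFieldFullC K (M' * q * q)) (algebraMap R K π))⁻¹ ∉ V →
      V = V₃) ∧
    (∀ x ∈ V₃, ((al97L_alpha K (M' * q) q).toRingHom.comp
        (s34i47c_V0 (K := K) M' q hq hM' hπ).subtype).IsIntegralElem x) ∧
    (∀ x ∈ V₃, x⁻¹ ∉ V₃ →
      (algebraMap K ↥(modularFunctionFieldFullC K (M' * q * q)) (algebraMap R K π))⁻¹ * x ∈ V₃) ∧
    (∀ x ∈ V₃, ∃ c : Fin q → ↥(modularFunctionFieldFullC K (M' * q)),
      (∀ i, c i ∈ s34i47c_V0 (K := K) M' q hq hM' hπ) ∧
      (algebraMap K ↥(modularFunctionFieldFullC K (M' * q * q)) (algebraMap R K π))⁻¹ *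
        (x - ∑ i, al97L_alpha K (M' * q) q (c i) * y ^ (i : ℕ)) ∈ V₃) := by
  letI alg : Algebra ↥(modularFunctionFieldFullC K (M' * q))
      ↥(modularFunctionFieldFullC K (M' * q * q)) :=
    (al97L_alpha K (M' * q) q).toRingHom.toAlgebra
  have hfr := ob72_finrank K (M' * q) q hq (dvd_mul_left q M')
  haveI : FiniteDimensional ↥(modularFunctionFieldFullC K (M' * q))
      ↥(modularFunctionFieldFullC K (M' * q * q)) :=
    Module.finite_of_finrank_pos (by rw [hfr]; exact hq.pos)
  have hπEF : algebraMap ↥(modularFunctionFieldFullC K (M' * q))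
      ↥(modularFunctionFieldFullC K (M' * q * q))
      (algebraMap K ↥(modularFunctionFieldFullC K (M' * q)) (algebraMap R K π)) =
      algebraMap K ↥(modularFunctionFieldFullC K (M' * q * q)) (algebraMap R K π) :=
    (al97L_alpha K (M' * q) q).commutes _
  obtain ⟨d1, d2, d3, d4⟩ := obi72_V0_dvr (K := K) M' q hq hM' hπ
  have hV₃b := fun b hb => obi72_hnp (K := K) M' q hq hM' hπ b hb
  obtain ⟨h1, h2, h3, h4, -⟩ := oe72_inert_main q hq hfr.le
    (s34i47c_V0 (K := K) M' q hq hM' hπ)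
    (algebraMap K ↥(modularFunctionFieldFullC K (M' * q)) (algebraMap R K π)) d1 d2 d3 d4
    V₃ hV₃ (by rw [hπEF]; exact hπ₃) y hy (al97L_beta K M' q (relimc_J K M'))
    (by
      rw [s34i47c_mem_V0, al97L_w_beta_apply]
      have hJ : al97L_alpha K M' q (relimc_J K M') = relimc_J K (M' * q) := Subtype.ext rfl
      rw [hJ]
      exact gv85_mem_V_of_integral _ _ _ _ (jqModC R) (by rw [relimc_J_coe, coeffMap_jqModC]))
    (by rw [hπEF]; exact hya) hV₃b
  refine ⟨fun V hV hV' => h1 V hV (by rw [hπEF]; exact hV'), h2, ?_, ?_⟩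
  · intro x hx hx'
    have := h3 x hx hx'
    rwa [hπEF] at this
  · intro x hx
    obtain ⟨c, hc, hc'⟩ := h4 x hx
    rw [hπEF] at hc'
    exact ⟨c, hc, hc'⟩

/-- **B1-only3, inert half, freeness.**  `V₃` is a free module of rank `q` over `V_0` (along
`α`), with basis `1, y, …, y ^ (q - 1)` up to the change of basis of `oe72_single_basis`. -/
theorem obi72_inert_basis (hq : q.Prime) (hM' : ¬ q ∣ M') {π : R} (hπ : Irreducible π)
    (V₃ : ValuationSubring ↥(modularFunctionFieldFullC K (M' * q * q)))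
    (hV₃ : ∀ c ∈ s34i47c_V0 (K := K) M' q hq hM' hπ, al97L_alpha K (M' * q) q c ∈ V₃)
    (hπ₃ : (algebraMap K ↥(modularFunctionFieldFullC K (M' * q * q)) (algebraMap R K π))⁻¹ ∉ V₃)
    (y : ↥(modularFunctionFieldFullC K (M' * q * q))) (hy : y ∈ V₃)
    (hya : (algebraMap K ↥(modularFunctionFieldFullC K (M' * q * q)) (algebraMap R K π))⁻¹ *
      (y ^ q - al97L_alpha K (M' * q) q (al97L_beta K M' q (relimc_J K M'))) ∈ V₃) :
    letI : Algebra ↥(modularFunctionFieldFullC K (M' * q))
        ↥(modularFunctionFieldFullC K (M' * q * q)) :=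
      (al97L_alpha K (M' * q) q).toRingHom.toAlgebra
    ∃ b : Module.Basis (Fin q) ↥(modularFunctionFieldFullC K (M' * q))
        ↥(modularFunctionFieldFullC K (M' * q * q)),
      (∀ i, b i ∈ V₃) ∧ ∀ x : ↥(modularFunctionFieldFullC K (M' * q * q)), x ∈ V₃ →
        ∀ i, b.repr x i ∈ s34i47c_V0 (K := K) M' q hq hM' hπ := by
  letI alg : Algebra ↥(modularFunctionFieldFullC K (M' * q))
      ↥(modularFunctionFieldFullC K (M' * q * q)) :=
    (al97L_alpha K (M' * q) q).toRingHom.toAlgebra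
  have hfr := ob72_finrank K (M' * q) q hq (dvd_mul_left q M')
  haveI : FiniteDimensional ↥(modularFunctionFieldFullC K (M' * q))
      ↥(modularFunctionFieldFullC K (M' * q * q)) :=
    Module.finite_of_finrank_pos (by rw [hfr]; exact hq.pos)
  have hπEF : algebraMap ↥(modularFunctionFieldFullC K (M' * q))
      ↥(modularFunctionFieldFullC K (M' * q * q))
      (algebraMap K ↥(modularFunctionFieldFullC K (M' * q)) (algebraMap R K π)) =
      algebraMap K ↥(modularFunctionFieldFullC K (M' * q * q)) (algebraMap R K π) :=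
    (al97L_alpha K (M' * q) q).commutes _
  have hD := obi72_V0_dvr (K := K) M' q hq hM' hπ
  have hO : oe10_Over (s34i47c_V0 (K := K) M' q hq hM' hπ)
      (algebraMap K ↥(modularFunctionFieldFullC K (M' * q)) (algebraMap R K π)) V₃ :=
    ⟨hV₃, by rw [hπEF]; exact hπ₃⟩
  have ha : al97L_beta K M' q (relimc_J K M') ∈ s34i47c_V0 (K := K) M' q hq hM' hπ := by
    rw [s34i47c_mem_V0, al97L_w_beta_apply]
    have hJ : al97L_alpha K M' q (relimc_J K M') = relimc_J K (M' * q) := Subtype.ext rfl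
    rw [hJ]
    exact gv85_mem_V_of_integral _ _ _ _ (jqModC R) (by rw [relimc_J_coe, coeffMap_jqModC])
  haveI : Nonempty (Fin q) := ⟨⟨0, hq.pos⟩⟩
  exact oe72_single_basis hD hO _
    (oe10_ind_of_sind hD hO (oe10_sind_pow hD hO hq hy ha (by rw [hπEF]; exact hya)
      (fun b hb => obi72_hnp (K := K) M' q hq hM' hπ b hb)))
    (by rw [hfr, Fintype.card_fin])

end obi72

end Fermat.Agent.S36
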