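import Fermat.Agent.S36.NormRamInst78
import Fermat.Agent.S36.OnlyBindInert72
import Fermat.Agent.S35.Iface62

/-!
# S36 lab, row 594 B2-norm (helper78): the FOUR norm congruences on the canonical level-`q²`
frame, in the literal "nonunits" shapes of `fov50_Data` (`ramα`, `inα`, `ramβ`, `inβ`,
`insα`, `insβ`)

Canonical frame (`R` a DVR with fraction field `K ⊆ ℚ̄`, `q` prime, `q ∤ M'`):
`Vi = cm85_Vinf (M' * q) hπ`, `V0 = s34i47c_V0 M' q hq hM' hπ` (level `M' q`),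
`V1 = cm85_Vinf (M' * q * q) hπ`, `V3 = nsb86_V3 M' q hq hM' hπ` (level `M' q²`),
`α = al97L_alpha K (M' * q) q`, `β = al97L_beta K (M' * q) q`,
`Nα = s35i62_normA K (M' * q) q`, `Nβ = s35i62_normB K (M' * q) q`.
The middle valuation `V₂` is a PARAMETER with the facts of `ob72_ram` (`hV₂ hπ₂ hne s hs`) and,
for the `β`-side, stability under `w₂ = als86_w2` (`hw2`).

* `nfv78_ram_alpha` : `y ∈ V1 ⊓ V₂`, `v1 v2 ∈ Vi`, `y - α v1 ∈ 𝔪(V1)`, `y - α v2 ∈ 𝔪(V₂)`
  `⟹ Nα y - v1 * v2 ^ (q - 1) ∈ 𝔪(Vi)`;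
* `nfv78_ram_beta`  : `y ∈ V3 ⊓ V₂`, `v3 v2 ∈ V0`, `y - β v3 ∈ 𝔪(V3)`, `y - β v2 ∈ 𝔪(V₂)`
  `⟹ Nβ y - v3 * v2 ^ (q - 1) ∈ 𝔪(V0)`;
* `nfv78_in_alpha`  : `y ∈ V3`, `v ∈ V0`, `y ^ q - α v ∈ 𝔪(V3) ⟹ Nα y - v ∈ 𝔪(V0)`;
* `nfv78_in_beta`   : `y ∈ V1`, `v ∈ Vi`, `y ^ q - β v ∈ 𝔪(V1) ⟹ Nβ y - v ∈ 𝔪(Vi)`;
* `nfv78_ins_alpha` : `y ∈ V3 ⟹ ∃ v ∈ V0, y ^ q - α v ∈ 𝔪(V3)` (`v = Nα y`);
* `nfv78_ins_beta`  : `y ∈ V1 ⟹ ∃ v ∈ Vi, y ^ q - β v ∈ 𝔪(V1)` (`v = Nβ y`);
* `nfv78_alpha_mem_V3_iff` : `α x ∈ V3 ↔ x ∈ V0`.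

Sources: `nri78_ram_alpha`, `nri78_ram_beta` (thick), `nsb86_alpha_cong_nonunits`,
`nsb86_beta_cong_nonunits` (helper86, inert).  All names are prefixed `nfv78_`.
-/

set_option autoImplicit false
set_option linter.style.haveILetI false
set_option linter.unusedSectionVars false

open ModularCurve AlgebraicCurve IntermediateField
open Fermat.Agent.S24 Fermat.Agent.S28 Fermat.Agent.S18 Fermat.Agent.S37 Fermat.Agent.S34
open Fermat.Agent.S42 Fermat.Agent.S35

namespace Fermat.Agent.S36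

section nfv78_abs

/-- A field embedding which reflects membership reflects the maximal ideals. -/
theorem nfv78_nonunits_iff {F' F : Type*} [Field F'] [Field F] (g : F' →+* F)
    (V' : ValuationSubring F') (V : ValuationSubring F) (h : ∀ x, g x ∈ V ↔ x ∈ V') (x : F') :
    g x ∈ V.nonunits ↔ x ∈ V'.nonunits := by
  rw [ValuationSubring.mem_nonunits_iff_or, ValuationSubring.mem_nonunits_iff_or, map_eq_zero,
    ← map_inv₀, h]

/-- `p⁻¹ * x ∈ V` with `p` a non-unit of `V` puts `x` in the maximal ideal. -/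
theorem nfv78_nonunits_of_dvd {F : Type*} [Field F] (V : ValuationSubring F) (p x : F)
    (hp' : p⁻¹ ∉ V) (hx : p⁻¹ * x ∈ V) : x ∈ V.nonunits := by
  rw [ValuationSubring.mem_nonunits_iff_or]
  by_cases hx0 : x = 0
  · exact Or.inl hx0
  · right
    intro hinv
    apply hp'
    have h1 : p⁻¹ = p⁻¹ * x * x⁻¹ := by field_simp
    rw [h1]
    exact V.mul_mem _ _ hx hinv

/-- Elements of the maximal ideal lie in the valuation subring. -/
theorem nfv78_mem_of_nonunits {F : Type*} [Field F] (V : ValuationSubring F) (x : F)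
    (hx : x ∈ V.nonunits) : x ∈ V :=
  (V.valuation_le_one_iff x).mp (le_of_lt ((ValuationSubring.mem_nonunits_iff V).mp hx))

/-- The maximal ideal is closed under addition. -/
theorem nfv78_nonunits_add {F : Type*} [Field F] (V : ValuationSubring F) (x y : F)
    (hx : x ∈ V.nonunits) (hy : y ∈ V.nonunits) : x + y ∈ V.nonunits := by
  rw [ValuationSubring.mem_nonunits_iff] at hx hy ⊢
  exact Valuation.map_add_lt _ hx hy

/-- The maximal ideal is closed under negation. -/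
theorem nfv78_nonunits_neg {F : Type*} [Field F] (V : ValuationSubring F) (x : F)
    (hx : x ∈ V.nonunits) : -x ∈ V.nonunits := by
  rw [ValuationSubring.mem_nonunits_iff] at hx ⊢
  rwa [Valuation.map_neg]

/-- With a uniformizer `s` (`x ∈ V`, `x⁻¹ ∉ V ⟹ s⁻¹ x ∈ V`): the maximal ideal is `s V`. -/
theorem nfv78_unif_mul_mem {F : Type*} [Field F] (V : ValuationSubring F) (s : F)
    (h3 : ∀ x ∈ V, x⁻¹ ∉ V → s⁻¹ * x ∈ V) (x : F) (hx : x ∈ V.nonunits) : s⁻¹ * x ∈ V := by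
  rcases (ValuationSubring.mem_nonunits_iff_or V).mp hx with h0 | h1
  · rw [h0, mul_zero]
    exact V.zero_mem
  · exact h3 x (nfv78_mem_of_nonunits V x hx) h1

end nfv78_abs

section nfv78_frame

variable {R K : Type} [CommRing R] [IsDomain R] [IsDiscreteValuationRing R] [Field K]
  [Algebra R K] [IsFractionRing R K] [Algebra K Kbar]
  (M' q : ℕ) [NeZero M'] [NeZero q] (hq : q.Prime) (hM' : ¬ q ∣ M')

/-- `V3 ∩ α(F(M' q)) = α(V0)`. -/
theorem nfv78_alpha_mem_V3_iff {π : R} (hπ : Irreducible π)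
    (x : ↥(modularFunctionFieldFullC K (M' * q))) :
    al97L_alpha K (M' * q) q x ∈ nsb86_V3 M' q hq hM' hπ ↔
      x ∈ s34i47c_V0 (K := K) M' q hq hM' hπ := by
  rw [nsb86_mem_V3, als86_w2_alpha, s34i47c_mem_V0]
  exact al97V_beta_mem_Vinf (M' * q) q hπ _

include hq in
/-- **`ramα`**: the thick norm congruence along `α` in nonunits form. -/
theorem nfv78_ram_alpha {π : R} (hπ : Irreducible π)
    (V₂ : ValuationSubring ↥(modularFunctionFieldFullC K (M' * q * q)))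
    (hV₂ : ∀ c ∈ cm85_Vinf (K := K) (M' * q) hπ, al97L_alpha K (M' * q) q c ∈ V₂)
    (hπ₂ : (algebraMap K ↥(modularFunctionFieldFullC K (M' * q * q)) (algebraMap R K π))⁻¹ ∉ V₂)
    (hne : cm85_Vinf (K := K) (M' * q * q) hπ ≠ V₂)
    (s : ↥(modularFunctionFieldFullC K (M' * q * q)))
    (hs : V₂.valuation s ^ (q - 1) =
      V₂.valuation (algebraMap K ↥(modularFunctionFieldFullC K (M' * q * q)) (algebraMap R K π))) :
    ∀ y ∈ cm85_Vinf (K := K) (M' * q * q) hπ, y ∈ V₂ →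
      ∀ v1 ∈ cm85_Vinf (K := K) (M' * q) hπ, ∀ v2 ∈ cm85_Vinf (K := K) (M' * q) hπ,
        y - al97L_alpha K (M' * q) q v1 ∈ (cm85_Vinf (K := K) (M' * q * q) hπ).nonunits →
        y - al97L_alpha K (M' * q) q v2 ∈ V₂.nonunits →
        s35i62_normA K (M' * q) q y - v1 * v2 ^ (q - 1) ∈
          (cm85_Vinf (K := K) (M' * q) hπ).nonunits := by
  intro y hy1 hy2 v1 hv1 v2 hv2 h1 h2
  haveI : CharZero K := RingHom.charZero (algebraMap K Kbar)
  have hqM : q ∣ M' * q := dvd_mul_left q M'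
  obtain ⟨-, -, h3, -, -⟩ := ob72_ram (M' * q) q hq hqM hπ V₂ hV₂ hπ₂ hne s hs
  have hyv1 := fi66_pi_inv_mul_mem (IsLocalRing.residue R) π (pk85_res_iff hπ) hπ.ne_zero _
    (pk85_HF K (M' * q * q) hπ) _ h1
  have hyv2 : s⁻¹ * (y - al97L_alpha K (M' * q) q v2) ∈ V₂ := nfv78_unif_mul_mem V₂ s h3 _ h2
  obtain ⟨-, hN⟩ := nri78_ram_alpha (M' * q) q hq hqM hπ V₂ hV₂ hπ₂ hne s hs y hy1 hy2 v1 v2
    hv1 hv2 hyv1 hyv2
  exact nfv78_nonunits_of_dvd _ _ _
    (gv85_pi_inv_not_mem (IsLocalRing.residue R) π (pk85_res_iff hπ) hπ.ne_zero _ _) hN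

/-- **`ramβ`**: the thick norm congruence along `β` in nonunits form (`V₂` stable under `w₂`). -/
theorem nfv78_ram_beta {π : R} (hπ : Irreducible π)
    (V₂ : ValuationSubring ↥(modularFunctionFieldFullC K (M' * q * q)))
    (hV₂ : ∀ c ∈ cm85_Vinf (K := K) (M' * q) hπ, al97L_alpha K (M' * q) q c ∈ V₂)
    (hπ₂ : (algebraMap K ↥(modularFunctionFieldFullC K (M' * q * q)) (algebraMap R K π))⁻¹ ∉ V₂)
    (hne : cm85_Vinf (K := K) (M' * q * q) hπ ≠ V₂)
    (s : ↥(modularFunctionFieldFullC K (M' * q * q)))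
    (hs : V₂.valuation s ^ (q - 1) =
      V₂.valuation (algebraMap K ↥(modularFunctionFieldFullC K (M' * q * q)) (algebraMap R K π)))
    (hw2 : ∀ x ∈ V₂, als86_w2 (algebraMap K Kbar) M' q hq hM' (nsb86_hL K (M' * q * q)) x ∈ V₂) :
    ∀ y ∈ nsb86_V3 M' q hq hM' hπ, y ∈ V₂ →
      ∀ v3 ∈ s34i47c_V0 (K := K) M' q hq hM' hπ, ∀ v2 ∈ s34i47c_V0 (K := K) M' q hq hM' hπ,
        y - al97L_beta K (M' * q) q v3 ∈ (nsb86_V3 M' q hq hM' hπ).nonunits →
        y - al97L_beta K (M' * q) q v2 ∈ V₂.nonunits →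
        s35i62_normB K (M' * q) q y - v3 * v2 ^ (q - 1) ∈
          (s34i47c_V0 (K := K) M' q hq hM' hπ).nonunits := by
  intro y hy3 hy2 v3 hv3 v2 hv2 h1 h2
  haveI : CharZero K := RingHom.charZero (algebraMap K Kbar)
  have hqM : q ∣ M' * q := dvd_mul_left q M'
  obtain ⟨-, -, h3, -, -⟩ := ob72_ram (M' * q) q hq hqM hπ V₂ hV₂ hπ₂ hne s hs
  -- `π⁻¹ (y - β v3) ∈ V3`
  have hyv1 : (algebraMap K ↥(modularFunctionFieldFullC K (M' * q * q)) (algebraMap R K π))⁻¹ *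
      (y - al97L_beta K (M' * q) q v3) ∈ nsb86_V3 M' q hq hM' hπ := by
    have h := (nsb86_mem_V3_nonunits M' q hq hM' hπ _).mp h1
    have h' := fi66_pi_inv_mul_mem (IsLocalRing.residue R) π (pk85_res_iff hπ) hπ.ne_zero _
      (pk85_HF K (M' * q * q) hπ) _ h
    rw [nsb86_mem_V3, map_mul, map_inv₀, AlgEquiv.commutes]
    exact h'
  -- `(w₂ s)⁻¹ (y - β v2) ∈ V₂`
  have hyv2 : (als86_w2 (algebraMap K Kbar) M' q hq hM' (nsb86_hL K (M' * q * q)) s)⁻¹ *
      (y - al97L_beta K (M' * q) q v2) ∈ V₂ := by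
    set w2 := als86_w2 (algebraMap K Kbar) M' q hq hM' (nsb86_hL K (M' * q * q)) with hw2def
    set x := y - al97L_beta K (M' * q) q v2 with hx
    have hxw : w2 x ∈ V₂.nonunits := by
      rcases (ValuationSubring.mem_nonunits_iff_or V₂).mp h2 with h0 | h1'
      · rw [h0, map_zero, ValuationSubring.mem_nonunits_iff_or]
        exact Or.inl rfl
      · rw [ValuationSubring.mem_nonunits_iff_or]
        right
        intro hinv
        apply h1'
        have h4 := hw2 _ hinv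
        rw [map_inv₀, als86_w2_w2] at h4
        exact h4
    have h5 := hw2 _ (nfv78_unif_mul_mem V₂ s h3 _ hxw)
    rw [map_mul, map_inv₀, als86_w2_w2] at h5
    exact h5
  obtain ⟨-, hN⟩ := nri78_ram_beta M' q hq hM' hπ V₂ hV₂ hπ₂ hne s hs hw2 y hy3 hy2 v3 v2
    hv3 hv2 hyv1 hyv2
  obtain ⟨-, d2, -, -⟩ := obi72_V0_dvr (K := K) M' q hq hM' hπ
  exact nfv78_nonunits_of_dvd _ _ _ d2 hN

/-- **`inα`**: the inert norm congruence along `α` in nonunits form. -/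
theorem nfv78_in_alpha {π : R} (hπ : Irreducible π) (hqR : ¬ IsUnit (q : R)) :
    ∀ y ∈ nsb86_V3 M' q hq hM' hπ, ∀ v ∈ s34i47c_V0 (K := K) M' q hq hM' hπ,
      y ^ q - al97L_alpha K (M' * q) q v ∈ (nsb86_V3 M' q hq hM' hπ).nonunits →
      s35i62_normA K (M' * q) q y - v ∈ (s34i47c_V0 (K := K) M' q hq hM' hπ).nonunits := by
  intro y hy v _ h
  have h1 : al97L_alpha K (M' * q) q (s35i62_normA K (M' * q) q y) - y ^ q ∈
      (nsb86_V3 M' q hq hM' hπ).nonunits := nsb86_alpha_cong_nonunits M' q hq hM' hπ hqR y hy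
  have h2 : al97L_alpha K (M' * q) q (s35i62_normA K (M' * q) q y - v) ∈
      (nsb86_V3 M' q hq hM' hπ).nonunits := by
    have e : al97L_alpha K (M' * q) q (s35i62_normA K (M' * q) q y - v) =
        (al97L_alpha K (M' * q) q (s35i62_normA K (M' * q) q y) - y ^ q) +
          (y ^ q - al97L_alpha K (M' * q) q v) := by
      rw [map_sub]; ring
    rw [e]
    exact nfv78_nonunits_add _ _ _ h1 h
  exact (nfv78_nonunits_iff (al97L_alpha K (M' * q) q).toRingHom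
    (s34i47c_V0 (K := K) M' q hq hM' hπ) (nsb86_V3 M' q hq hM' hπ)
    (fun x => nfv78_alpha_mem_V3_iff M' q hq hM' hπ x) _).mp h2

include hq hM' in
/-- **`inβ`**: the inert norm congruence along `β` in nonunits form. -/
theorem nfv78_in_beta {π : R} (hπ : Irreducible π) (hqR : ¬ IsUnit (q : R)) :
    ∀ y ∈ cm85_Vinf (K := K) (M' * q * q) hπ, ∀ v ∈ cm85_Vinf (K := K) (M' * q) hπ,
      y ^ q - al97L_beta K (M' * q) q v ∈ (cm85_Vinf (K := K) (M' * q * q) hπ).nonunits →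
      s35i62_normB K (M' * q) q y - v ∈ (cm85_Vinf (K := K) (M' * q) hπ).nonunits := by
  intro y hy v _ h
  have h1 : al97L_beta K (M' * q) q (s35i62_normB K (M' * q) q y) - y ^ q ∈
      (cm85_Vinf (K := K) (M' * q * q) hπ).nonunits :=
    nsb86_beta_cong_nonunits M' q hq hM' hπ hqR y hy
  have h2 : al97L_beta K (M' * q) q (s35i62_normB K (M' * q) q y - v) ∈
      (cm85_Vinf (K := K) (M' * q * q) hπ).nonunits := by
    have e : al97L_beta K (M' * q) q (s35i62_normB K (M' * q) q y - v) =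
        (al97L_beta K (M' * q) q (s35i62_normB K (M' * q) q y) - y ^ q) +
          (y ^ q - al97L_beta K (M' * q) q v) := by
      rw [map_sub]; ring
    rw [e]
    exact nfv78_nonunits_add _ _ _ h1 h
  exact (nfv78_nonunits_iff (al97L_beta K (M' * q) q).toRingHom
    (cm85_Vinf (K := K) (M' * q) hπ) (cm85_Vinf (K := K) (M' * q * q) hπ)
    (fun x => al97V_beta_mem_Vinf (M' * q) q hπ x) _).mp h2

/-- **`insα`**: `V3` is purely inseparable over `V0` along `α` modulo the maximal ideals. -/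
theorem nfv78_ins_alpha {π : R} (hπ : Irreducible π) (hqR : ¬ IsUnit (q : R)) :
    ∀ y ∈ nsb86_V3 M' q hq hM' hπ, ∃ v ∈ s34i47c_V0 (K := K) M' q hq hM' hπ,
      y ^ q - al97L_alpha K (M' * q) q v ∈ (nsb86_V3 M' q hq hM' hπ).nonunits := by
  intro y hy
  have h1 : al97L_alpha K (M' * q) q (s35i62_normA K (M' * q) q y) - y ^ q ∈
      (nsb86_V3 M' q hq hM' hπ).nonunits := nsb86_alpha_cong_nonunits M' q hq hM' hπ hqR y hy
  refine ⟨s35i62_normA K (M' * q) q y, ?_, ?_⟩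
  · rw [← nfv78_alpha_mem_V3_iff M' q hq hM' hπ]
    have e : al97L_alpha K (M' * q) q (s35i62_normA K (M' * q) q y) =
        (al97L_alpha K (M' * q) q (s35i62_normA K (M' * q) q y) - y ^ q) + y ^ q := by ring
    rw [e]
    exact (nsb86_V3 M' q hq hM' hπ).add_mem _ _ (nfv78_mem_of_nonunits _ _ h1)
      (pow_mem hy q)
  · have e : y ^ q - al97L_alpha K (M' * q) q (s35i62_normA K (M' * q) q y) =
        -(al97L_alpha K (M' * q) q (s35i62_normA K (M' * q) q y) - y ^ q) := by ring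
    rw [e]
    exact nfv78_nonunits_neg _ _ h1

include hq hM' in
/-- **`insβ`**: `V1` is purely inseparable over `Vi` along `β` modulo the maximal ideals. -/
theorem nfv78_ins_beta {π : R} (hπ : Irreducible π) (hqR : ¬ IsUnit (q : R)) :
    ∀ y ∈ cm85_Vinf (K := K) (M' * q * q) hπ, ∃ v ∈ cm85_Vinf (K := K) (M' * q) hπ,
      y ^ q - al97L_beta K (M' * q) q v ∈ (cm85_Vinf (K := K) (M' * q * q) hπ).nonunits := by
  intro y hy
  have h1 : al97L_beta K (M' * q) q (s35i62_normB K (M' * q) q y) - y ^ q ∈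
      (cm85_Vinf (K := K) (M' * q * q) hπ).nonunits :=
    nsb86_beta_cong_nonunits M' q hq hM' hπ hqR y hy
  refine ⟨s35i62_normB K (M' * q) q y, ?_, ?_⟩
  · refine (al97V_beta_mem_Vinf (M' * q) q hπ _).mp ?_
    have e : al97L_beta K (M' * q) q (s35i62_normB K (M' * q) q y) =
        (al97L_beta K (M' * q) q (s35i62_normB K (M' * q) q y) - y ^ q) + y ^ q := by ring
    rw [e]
    exact (cm85_Vinf (K := K) (M' * q * q) hπ).add_mem _ _ (nfv78_mem_of_nonunits _ _ h1)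
      (pow_mem hy q)
  · have e : y ^ q - al97L_beta K (M' * q) q (s35i62_normB K (M' * q) q y) =
        -(al97L_beta K (M' * q) q (s35i62_normB K (M' * q) q y) - y ^ q) := by ring
    rw [e]
    exact nfv78_nonunits_neg _ _ h1

end nfv78_frame

end Fermat.Agent.S36
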