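import Fermat.Agent.S36.OnlyThree72

/-!
# S36 lab, row B1-only3 (helper72): the β-side instances of `OnlyExt72` at level `M' q q`

`F₁ = F(M' q)_K → F₂ = F(M' q q)_K` along `β₂ = al97L_beta K (M' q) q` (degree `q`,
`als86_finrank_beta`).  `V_∞ = cm85_Vinf (M' q)`, `V_0 = s34i47c_V0 M' q`,
`V₁ = cm85_Vinf (M' q q)`; `V₃` any valuation subring with `x ∈ V₃ ↔ w₂ x ∈ V₁`; `V₂` a
parameter with the four facts of row B1-V2 and `hE2 : β₂ β₁ V' ⊆ V₂`.

* `obb72_inert`, `obb72_inert_basis` : over `β₂ V_∞` only `V₁`; `V₁` is integral over `V_∞`,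
  free of rank `q`, with residue field generated by `j(Q)` (Frobenius witness `j ^ q ≡ β₂ j`).
* `obb72_V3_ne_V2` : `V₃ ≠ V₂`.
* `obb72_ram`, `obb72_ram_basis` : over `β₂ V_0` only `V₃` and `V₂`; `V₃ ⊓ V₂` is integral over
  `V_0`, free of rank `q`; the residue fields of `V₃` and of `V₂` are that of `V_0`.

All names are prefixed `obb72_`.
-/

set_option autoImplicit false
set_option linter.unusedSectionVars false
set_option linter.style.haveILetI false

open ModularCurve AlgebraicCurve IntermediateField Polynomial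

namespace Fermat.Agent.S36

open Fermat.Agent.S18 Fermat.Agent.S24 Fermat.Agent.S37 Fermat.Agent.S34

local notation "Q̄" => AlgebraicClosure ℚ

section obb72

variable {R K : Type} [CommRing R] [IsDomain R] [IsDiscreteValuationRing R] [Field K] [CharZero K]
  [Algebra R K] [IsFractionRing R K] [Algebra K Q̄] (M' q : ℕ) [NeZero M'] [NeZero q]

/-- **β-side, inert half**: over `β₂ V_∞` there is only `V₁`; it is integral over `V_∞` and its
residue field is generated by `j(Q)`. -/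
theorem obb72_inert (hq : q.Prime) (hM' : ¬ q ∣ M') {π : R} (hπ : Irreducible π)
    (hqR : ¬ IsUnit (q : R)) (hL : ((M' * q * q : ℕ) : K) ≠ 0) :
    (∀ V : ValuationSubring ↥(modularFunctionFieldFullC K (M' * q * q)),
      (∀ c ∈ cm85_Vinf (K := K) (M' * q) hπ, al97L_beta K (M' * q) q c ∈ V) →
      (algebraMap K ↥(modularFunctionFieldFullC K (M' * q * q)) (algebraMap R K π))⁻¹ ∉ V →
      V = cm85_Vinf (K := K) (M' * q * q) hπ) ∧
    (∀ x ∈ cm85_Vinf (K := K) (M' * q * q) hπ, ((al97L_beta K (M' * q) q).toRingHom.comp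
        (cm85_Vinf (K := K) (M' * q) hπ).subtype).IsIntegralElem x) ∧
    (∀ x ∈ cm85_Vinf (K := K) (M' * q * q) hπ,
      ∃ c : Fin q → ↥(modularFunctionFieldFullC K (M' * q)),
      (∀ i, c i ∈ cm85_Vinf (K := K) (M' * q) hπ) ∧
      (algebraMap K ↥(modularFunctionFieldFullC K (M' * q * q)) (algebraMap R K π))⁻¹ *
        (x - ∑ i, al97L_beta K (M' * q) q (c i) * relimc_J K (M' * q * q) ^ (i : ℕ)) ∈
          cm85_Vinf (K := K) (M' * q * q) hπ) := by
  letI alg : Algebra ↥(modularFunctionFieldFullC K (M' * q))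
      ↥(modularFunctionFieldFullC K (M' * q * q)) :=
    (al97L_beta K (M' * q) q).toRingHom.toAlgebra
  have hfr := als86_finrank_beta (algebraMap K Q̄) M' q hq hM' hL
  haveI : FiniteDimensional ↥(modularFunctionFieldFullC K (M' * q))
      ↥(modularFunctionFieldFullC K (M' * q * q)) :=
    Module.finite_of_finrank_pos (by rw [hfr]; exact hq.pos)
  have hπEF : algebraMap ↥(modularFunctionFieldFullC K (M' * q))
      ↥(modularFunctionFieldFullC K (M' * q * q))
      (algebraMap K ↥(modularFunctionFieldFullC K (M' * q)) (algebraMap R K π)) =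
      algebraMap K ↥(modularFunctionFieldFullC K (M' * q * q)) (algebraMap R K π) :=
    (al97L_beta K (M' * q) q).commutes _
  have hJV1 : relimc_J K (M' * q) ∈ cm85_Vinf (K := K) (M' * q) hπ :=
    gv85_mem_V_of_integral _ _ _ _ (jqModC R) (by rw [relimc_J_coe, coeffMap_jqModC])
  have hJ2 : al97L_alpha K (M' * q) q (relimc_J K (M' * q)) = relimc_J K (M' * q * q) :=
    Subtype.ext rfl
  have hya : (algebraMap ↥(modularFunctionFieldFullC K (M' * q))
      ↥(modularFunctionFieldFullC K (M' * q * q))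
      (algebraMap K ↥(modularFunctionFieldFullC K (M' * q)) (algebraMap R K π)))⁻¹ *
      (relimc_J K (M' * q * q) ^ q - algebraMap ↥(modularFunctionFieldFullC K (M' * q))
        ↥(modularFunctionFieldFullC K (M' * q * q)) (relimc_J K (M' * q))) ∈
        cm85_Vinf (K := K) (M' * q * q) hπ := by
    rw [hπEF, ← hJ2]
    have h2 := (cm85_Vinf (K := K) (M' * q * q) hπ).neg_mem _
      (fs85_frob (K := K) (M' * q) q hq hπ hqR)
    have h3 : (algebraMap K ↥(modularFunctionFieldFullC K (M' * q * q)) (algebraMap R K π))⁻¹ *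
        (al97L_alpha K (M' * q) q (relimc_J K (M' * q)) ^ q -
          algebraMap ↥(modularFunctionFieldFullC K (M' * q))
            ↥(modularFunctionFieldFullC K (M' * q * q)) (relimc_J K (M' * q))) =
        -((algebraMap K ↥(modularFunctionFieldFullC K (M' * q * q)) (algebraMap R K π))⁻¹ *
          (al97L_beta K (M' * q) q (relimc_J K (M' * q)) -
            al97L_alpha K (M' * q) q (relimc_J K (M' * q) ^ q))) := by
      rw [map_pow]
      show _ * (_ - al97L_beta K (M' * q) q (relimc_J K (M' * q))) = _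
      ring
    rw [h3]
    exact h2
  obtain ⟨h1, h2, -, h4, -⟩ := oe72_inert_main q hq hfr.le
    (cm85_Vinf (K := K) (M' * q) hπ)
    (algebraMap K ↥(modularFunctionFieldFullC K (M' * q)) (algebraMap R K π))
    (gv85_mem_V_of_integral _ _ _ _ (HahnSeries.C π) (by rw [gv85_coe_algebraMap, gv85_coeffMap_C]))
    (gv85_pi_inv_not_mem (IsLocalRing.residue R) π (pk85_res_iff hπ) hπ.ne_zero _ _)
    (fun x hx hx' =>
      gv85_hmax (IsLocalRing.residue R) π (pk85_res_iff hπ) hπ.ne_zero _ _ x hx hx')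
    (fs85_harch (K := K) (M' * q) hπ)
    (cm85_Vinf (K := K) (M' * q * q) hπ)
    (fun c hc => (al97V_beta_mem_Vinf (M' * q) q hπ c).mpr hc)
    (by
      rw [hπEF]
      exact gv85_pi_inv_not_mem (IsLocalRing.residue R) π (pk85_res_iff hπ) hπ.ne_zero _ _)
    (relimc_J K (M' * q * q))
    (gv85_mem_V_of_integral _ _ _ _ (jqModC R) (by rw [relimc_J_coe, coeffMap_jqModC]))
    (relimc_J K (M' * q)) hJV1 hya
    (fun b hb => fs85_hpow (K := K) (M' * q) hπ q hq.two_le b hb)
  refine ⟨fun V hV hV' => h1 V hV (by rw [hπEF]; exact hV'), h2, ?_⟩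
  intro x hx
  obtain ⟨c, hc, hc'⟩ := h4 x hx
  rw [hπEF] at hc'
  exact ⟨c, hc, hc'⟩

/-- **β-side, inert half, freeness**: `V₁` is a free module of rank `q` over `V_∞` along
`β₂`. -/
theorem obb72_inert_basis (hq : q.Prime) (hM' : ¬ q ∣ M') {π : R} (hπ : Irreducible π)
    (hqR : ¬ IsUnit (q : R)) (hL : ((M' * q * q : ℕ) : K) ≠ 0) :
    letI : Algebra ↥(modularFunctionFieldFullC K (M' * q))
        ↥(modularFunctionFieldFullC K (M' * q * q)) :=
      (al97L_beta K (M' * q) q).toRingHom.toAlgebra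
    ∃ b : Module.Basis (Fin q) ↥(modularFunctionFieldFullC K (M' * q))
        ↥(modularFunctionFieldFullC K (M' * q * q)),
      (∀ i, b i ∈ cm85_Vinf (K := K) (M' * q * q) hπ) ∧
      ∀ x : ↥(modularFunctionFieldFullC K (M' * q * q)), x ∈ cm85_Vinf (K := K) (M' * q * q) hπ →
        ∀ i, b.repr x i ∈ cm85_Vinf (K := K) (M' * q) hπ := by
  letI alg : Algebra ↥(modularFunctionFieldFullC K (M' * q))
      ↥(modularFunctionFieldFullC K (M' * q * q)) :=
    (al97L_beta K (M' * q) q).toRingHom.toAlgebra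
  have hfr := als86_finrank_beta (algebraMap K Q̄) M' q hq hM' hL
  haveI : FiniteDimensional ↥(modularFunctionFieldFullC K (M' * q))
      ↥(modularFunctionFieldFullC K (M' * q * q)) :=
    Module.finite_of_finrank_pos (by rw [hfr]; exact hq.pos)
  have hπEF : algebraMap ↥(modularFunctionFieldFullC K (M' * q))
      ↥(modularFunctionFieldFullC K (M' * q * q))
      (algebraMap K ↥(modularFunctionFieldFullC K (M' * q)) (algebraMap R K π)) =
      algebraMap K ↥(modularFunctionFieldFullC K (M' * q * q)) (algebraMap R K π) :=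
    (al97L_beta K (M' * q) q).commutes _
  have hJV1 : relimc_J K (M' * q) ∈ cm85_Vinf (K := K) (M' * q) hπ :=
    gv85_mem_V_of_integral _ _ _ _ (jqModC R) (by rw [relimc_J_coe, coeffMap_jqModC])
  have hJ2 : al97L_alpha K (M' * q) q (relimc_J K (M' * q)) = relimc_J K (M' * q * q) :=
    Subtype.ext rfl
  have hD : oe10_DVR (cm85_Vinf (K := K) (M' * q) hπ)
      (algebraMap K ↥(modularFunctionFieldFullC K (M' * q)) (algebraMap R K π)) :=
    ⟨gv85_mem_V_of_integral _ _ _ _ (HahnSeries.C π)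
        (by rw [gv85_coe_algebraMap, gv85_coeffMap_C]),
      gv85_pi_inv_not_mem (IsLocalRing.residue R) π (pk85_res_iff hπ) hπ.ne_zero _ _,
      fun x hx hx' =>
        gv85_hmax (IsLocalRing.residue R) π (pk85_res_iff hπ) hπ.ne_zero _ _ x hx hx',
      fs85_harch (K := K) (M' * q) hπ⟩
  have hO : oe10_Over (cm85_Vinf (K := K) (M' * q) hπ)
      (algebraMap K ↥(modularFunctionFieldFullC K (M' * q)) (algebraMap R K π))
      (cm85_Vinf (K := K) (M' * q * q) hπ) :=
    ⟨fun c hc => (al97V_beta_mem_Vinf (M' * q) q hπ c).mpr hc, by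
      rw [hπEF]
      exact gv85_pi_inv_not_mem (IsLocalRing.residue R) π (pk85_res_iff hπ) hπ.ne_zero _ _⟩
  have hya : (algebraMap ↥(modularFunctionFieldFullC K (M' * q))
      ↥(modularFunctionFieldFullC K (M' * q * q))
      (algebraMap K ↥(modularFunctionFieldFullC K (M' * q)) (algebraMap R K π)))⁻¹ *
      (relimc_J K (M' * q * q) ^ q - algebraMap ↥(modularFunctionFieldFullC K (M' * q))
        ↥(modularFunctionFieldFullC K (M' * q * q)) (relimc_J K (M' * q))) ∈
        cm85_Vinf (K := K) (M' * q * q) hπ := by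
    rw [hπEF, ← hJ2]
    have h2 := (cm85_Vinf (K := K) (M' * q * q) hπ).neg_mem _
      (fs85_frob (K := K) (M' * q) q hq hπ hqR)
    have h3 : (algebraMap K ↥(modularFunctionFieldFullC K (M' * q * q)) (algebraMap R K π))⁻¹ *
        (al97L_alpha K (M' * q) q (relimc_J K (M' * q)) ^ q -
          algebraMap ↥(modularFunctionFieldFullC K (M' * q))
            ↥(modularFunctionFieldFullC K (M' * q * q)) (relimc_J K (M' * q))) =
        -((algebraMap K ↥(modularFunctionFieldFullC K (M' * q * q)) (algebraMap R K π))⁻¹ *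
          (al97L_beta K (M' * q) q (relimc_J K (M' * q)) -
            al97L_alpha K (M' * q) q (relimc_J K (M' * q) ^ q))) := by
      rw [map_pow]
      show _ * (_ - al97L_beta K (M' * q) q (relimc_J K (M' * q))) = _
      ring
    rw [h3]
    exact h2
  haveI : Nonempty (Fin q) := ⟨⟨0, hq.pos⟩⟩
  exact oe72_single_basis hD hO _
    (oe10_ind_of_sind hD hO (oe10_sind_pow hD hO hq
      (gv85_mem_V_of_integral _ _ _ _ (jqModC R) (by rw [relimc_J_coe, coeffMap_jqModC]))
      hJV1 hya (fun b hb => fs85_hpow (K := K) (M' * q) hπ q hq.two_le b hb)))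
    (by rw [hfr, Fintype.card_fin])

/-- `V₃ ≠ V₂` (`V₂` lies over `V_∞` and `V₃` over `V_0` along `α₂`). -/
theorem obb72_V3_ne_V2 (hq : q.Prime) (hM' : ¬ q ∣ M') {π : R} (hπ : Irreducible π)
    (hqR : ¬ IsUnit (q : R)) (hL : ((M' * q * q : ℕ) : K) ≠ 0)
    (V₂ V₃ : ValuationSubring ↥(modularFunctionFieldFullC K (M' * q * q)))
    (hV₂ : ∀ c ∈ cm85_Vinf (K := K) (M' * q) hπ, al97L_alpha K (M' * q) q c ∈ V₂)
    (hπ₂ : (algebraMap K ↥(modularFunctionFieldFullC K (M' * q * q)) (algebraMap R K π))⁻¹ ∉ V₂)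
    (hV₃mem : ∀ x, x ∈ V₃ ↔
      als86_w2 (algebraMap K Q̄) M' q hq hM' hL x ∈ cm85_Vinf (K := K) (M' * q * q) hπ) :
    V₃ ≠ V₂ := by
  intro h23
  letI a0 : Algebra R ↥(modularFunctionFieldFullC K M') :=
    ((algebraMap K ↥(modularFunctionFieldFullC K M')).comp (algebraMap R K)).toAlgebra
  haveI t0 : IsScalarTower R K ↥(modularFunctionFieldFullC K M') :=
    IsScalarTower.of_algebraMap_eq (fun _ => rfl)
  letI a1 : Algebra R ↥(modularFunctionFieldFullC K (M' * q)) :=
    ((algebraMap K ↥(modularFunctionFieldFullC K (M' * q))).comp (algebraMap R K)).toAlgebra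
  haveI t1 : IsScalarTower R K ↥(modularFunctionFieldFullC K (M' * q)) :=
    IsScalarTower.of_algebraMap_eq (fun _ => rfl)
  let U : ValuationSubring ↥(modularFunctionFieldFullC K (M' * q)) :=
    V₂.comap (al97L_alpha K (M' * q) q : ↥(modularFunctionFieldFullC K (M' * q)) →+*
      ↥(modularFunctionFieldFullC K (M' * q * q)))
  have hUmem : ∀ c, c ∈ U ↔ al97L_alpha K (M' * q) q c ∈ V₂ := fun c => Iff.rfl
  have hU1 : cm85_Vinf (K := K) (M' * q) hπ ≤ U := fun c hc => (hUmem c).2 (hV₂ c hc)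
  have hU0 : s34i47c_V0 (K := K) M' q hq hM' hπ ≤ U := fun c hc =>
    (hUmem c).2 (h23 ▸ o3x72_V3_over M' q hq hM' hπ hL V₃ hV₃mem c hc)
  have hπU : (algebraMap K ↥(modularFunctionFieldFullC K (M' * q)) (algebraMap R K π))⁻¹ ∉
      U := by
    rw [hUmem, map_inv₀, AlgHom.commutes]
    exact hπ₂
  have hD0 := obi72_V0_dvr (K := K) M' q hq hM' hπ
  have e1 : U ≤ cm85_Vinf (K := K) (M' * q) hπ :=
    o3x72_le_of_le _ _ _ hU1 (fun x hx hx' =>
      gv85_hmax (IsLocalRing.residue R) π (pk85_res_iff hπ) hπ.ne_zero _ _ x hx hx') hπU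
  have e0 : U ≤ s34i47c_V0 (K := K) M' q hq hM' hπ :=
    o3x72_le_of_le _ _ _ hU0 hD0.hmax hπU
  exact rd90_ne (K := K) M' q hq hM' hπ hqR
    ((le_antisymm e1 hU1).symm.trans (le_antisymm e0 hU0))

/-- **β-side, ramified pair**: over `β₂ V_0` there are only `V₃` and `V₂`; `V₃ ⊓ V₂` is integral
over `V_0`; the residue fields of `V₃` and of `V₂` are that of `V_0`. -/
theorem obb72_ram (hq : q.Prime) (hM' : ¬ q ∣ M') {π : R} (hπ : Irreducible π)
    (hqR : ¬ IsUnit (q : R)) (hL : ((M' * q * q : ℕ) : K) ≠ 0)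
    (V₂ V₃ : ValuationSubring ↥(modularFunctionFieldFullC K (M' * q * q)))
    (hV₂ : ∀ c ∈ cm85_Vinf (K := K) (M' * q) hπ, al97L_alpha K (M' * q) q c ∈ V₂)
    (hπ₂ : (algebraMap K ↥(modularFunctionFieldFullC K (M' * q * q)) (algebraMap R K π))⁻¹ ∉ V₂)
    (hne : cm85_Vinf (K := K) (M' * q * q) hπ ≠ V₂)
    (s : ↥(modularFunctionFieldFullC K (M' * q * q)))
    (hs : V₂.valuation s ^ (q - 1) =
      V₂.valuation (algebraMap K ↥(modularFunctionFieldFullC K (M' * q * q)) (algebraMap R K π)))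
    (hE2 : ∀ a ∈ cm85_Vinf (K := K) M' hπ,
      al97L_beta K (M' * q) q (al97L_beta K M' q a) ∈ V₂)
    (hV₃mem : ∀ x, x ∈ V₃ ↔
      als86_w2 (algebraMap K Q̄) M' q hq hM' hL x ∈ cm85_Vinf (K := K) (M' * q * q) hπ) :
    (∀ V : ValuationSubring ↥(modularFunctionFieldFullC K (M' * q * q)),
      (∀ c ∈ s34i47c_V0 (K := K) M' q hq hM' hπ, al97L_beta K (M' * q) q c ∈ V) →
      (algebraMap K ↥(modularFunctionFieldFullC K (M' * q * q)) (algebraMap R K π))⁻¹ ∉ V →
      V = V₃ ∨ V = V₂) ∧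
    (∀ x : ↥(modularFunctionFieldFullC K (M' * q * q)), x ∈ V₃ → x ∈ V₂ →
      ((al97L_beta K (M' * q) q).toRingHom.comp
        (s34i47c_V0 (K := K) M' q hq hM' hπ).subtype).IsIntegralElem x) ∧
    (∀ x ∈ V₃, ∃ b ∈ s34i47c_V0 (K := K) M' q hq hM' hπ,
      (algebraMap K ↥(modularFunctionFieldFullC K (M' * q * q)) (algebraMap R K π))⁻¹ *
        (x - al97L_beta K (M' * q) q b) ∈ V₃) ∧
    (∀ x ∈ V₂, ∃ b ∈ s34i47c_V0 (K := K) M' q hq hM' hπ,
      s⁻¹ * (x - al97L_beta K (M' * q) q b) ∈ V₂) := by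
  letI alg : Algebra ↥(modularFunctionFieldFullC K (M' * q))
      ↥(modularFunctionFieldFullC K (M' * q * q)) :=
    (al97L_beta K (M' * q) q).toRingHom.toAlgebra
  have hfr := als86_finrank_beta (algebraMap K Q̄) M' q hq hM' hL
  haveI : FiniteDimensional ↥(modularFunctionFieldFullC K (M' * q))
      ↥(modularFunctionFieldFullC K (M' * q * q)) :=
    Module.finite_of_finrank_pos (by rw [hfr]; exact hq.pos)
  have hπEF : algebraMap ↥(modularFunctionFieldFullC K (M' * q))
      ↥(modularFunctionFieldFullC K (M' * q * q))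
      (algebraMap K ↥(modularFunctionFieldFullC K (M' * q)) (algebraMap R K π)) =
      algebraMap K ↥(modularFunctionFieldFullC K (M' * q * q)) (algebraMap R K π) :=
    (al97L_beta K (M' * q) q).commutes _
  obtain ⟨d1, d2, d3, d4⟩ := obi72_V0_dvr (K := K) M' q hq hM' hπ
  have hq2 := hq.two_le
  have h3over : ∀ c ∈ s34i47c_V0 (K := K) M' q hq hM' hπ,
      algebraMap ↥(modularFunctionFieldFullC K (M' * q))
        ↥(modularFunctionFieldFullC K (M' * q * q)) c ∈ V₃ := by
    intro c hc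
    show al97L_beta K (M' * q) q c ∈ V₃
    rw [hV₃mem, als86_w2_beta]
    exact (al97V_alpha_mem_Vinf (M' * q) q hπ _).mpr ((s34i47c_mem_V0 M' q hq hM' hπ c).1 hc)
  have h2over : ∀ c ∈ s34i47c_V0 (K := K) M' q hq hM' hπ,
      algebraMap ↥(modularFunctionFieldFullC K (M' * q))
        ↥(modularFunctionFieldFullC K (M' * q * q)) c ∈ V₂ := by
    intro c hc
    show al97L_beta K (M' * q) q c ∈ V₂
    rw [o3x72_V2_stable (K := K) M' q hq hM' hπ hqR hL V₂ hV₂ hπ₂ hne s hs hE2, als86_w2_beta]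
    exact hV₂ _ ((s34i47c_mem_V0 M' q hq hM' hπ c).1 hc)
  obtain ⟨h1, h2, -, -, h5, h6, -⟩ := oe72_ram_main (q - 1) (by omega) (by rw [hfr]; omega)
    (s34i47c_V0 (K := K) M' q hq hM' hπ)
    (algebraMap K ↥(modularFunctionFieldFullC K (M' * q)) (algebraMap R K π)) d1 d2 d3 d4
    V₃ V₂ (obb72_V3_ne_V2 (K := K) M' q hq hM' hπ hqR hL V₂ V₃ hV₂ hπ₂ hV₃mem)
    h3over (by rw [hπEF]; exact o3x72_V3_pi M' q hq hM' hπ hL V₃ hV₃mem)
    h2over (by rw [hπEF]; exact hπ₂) s (by rw [hπEF]; exact hs)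
  refine ⟨fun V hV hV' => h1 V hV (by rw [hπEF]; exact hV'), h2, ?_, h6⟩
  intro x hx
  obtain ⟨b, hb, hb'⟩ := h5 x hx
  rw [hπEF] at hb'
  exact ⟨b, hb, hb'⟩

/-- **β-side, ramified pair, freeness**: `V₃ ⊓ V₂` is a free module of rank `q` over `V_0`
along `β₂`. -/
theorem obb72_ram_basis (hq : q.Prime) (hM' : ¬ q ∣ M') {π : R} (hπ : Irreducible π)
    (hqR : ¬ IsUnit (q : R)) (hL : ((M' * q * q : ℕ) : K) ≠ 0)
    (V₂ V₃ : ValuationSubring ↥(modularFunctionFieldFullC K (M' * q * q)))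
    (hV₂ : ∀ c ∈ cm85_Vinf (K := K) (M' * q) hπ, al97L_alpha K (M' * q) q c ∈ V₂)
    (hπ₂ : (algebraMap K ↥(modularFunctionFieldFullC K (M' * q * q)) (algebraMap R K π))⁻¹ ∉ V₂)
    (hne : cm85_Vinf (K := K) (M' * q * q) hπ ≠ V₂)
    (s : ↥(modularFunctionFieldFullC K (M' * q * q)))
    (hs : V₂.valuation s ^ (q - 1) =
      V₂.valuation (algebraMap K ↥(modularFunctionFieldFullC K (M' * q * q)) (algebraMap R K π)))
    (hE2 : ∀ a ∈ cm85_Vinf (K := K) M' hπ,
      al97L_beta K (M' * q) q (al97L_beta K M' q a) ∈ V₂)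
    (hV₃mem : ∀ x, x ∈ V₃ ↔
      als86_w2 (algebraMap K Q̄) M' q hq hM' hL x ∈ cm85_Vinf (K := K) (M' * q * q) hπ) :
    letI : Algebra ↥(modularFunctionFieldFullC K (M' * q))
        ↥(modularFunctionFieldFullC K (M' * q * q)) :=
      (al97L_beta K (M' * q) q).toRingHom.toAlgebra
    ∃ b : Module.Basis (Unit ⊕ Fin (q - 1)) ↥(modularFunctionFieldFullC K (M' * q))
        ↥(modularFunctionFieldFullC K (M' * q * q)),
      (∀ i, b i ∈ V₃ ∧ b i ∈ V₂) ∧
      ∀ x : ↥(modularFunctionFieldFullC K (M' * q * q)), x ∈ V₃ → x ∈ V₂ →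
        ∀ i, b.repr x i ∈ s34i47c_V0 (K := K) M' q hq hM' hπ := by
  letI alg : Algebra ↥(modularFunctionFieldFullC K (M' * q))
      ↥(modularFunctionFieldFullC K (M' * q * q)) :=
    (al97L_beta K (M' * q) q).toRingHom.toAlgebra
  have hfr := als86_finrank_beta (algebraMap K Q̄) M' q hq hM' hL
  haveI : FiniteDimensional ↥(modularFunctionFieldFullC K (M' * q))
      ↥(modularFunctionFieldFullC K (M' * q * q)) :=
    Module.finite_of_finrank_pos (by rw [hfr]; exact hq.pos)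
  have hπEF : algebraMap ↥(modularFunctionFieldFullC K (M' * q))
      ↥(modularFunctionFieldFullC K (M' * q * q))
      (algebraMap K ↥(modularFunctionFieldFullC K (M' * q)) (algebraMap R K π)) =
      algebraMap K ↥(modularFunctionFieldFullC K (M' * q * q)) (algebraMap R K π) :=
    (al97L_beta K (M' * q) q).commutes _
  have hD := obi72_V0_dvr (K := K) M' q hq hM' hπ
  have hq2 := hq.two_le
  have hO3 : oe10_Over (s34i47c_V0 (K := K) M' q hq hM' hπ)
      (algebraMap K ↥(modularFunctionFieldFullC K (M' * q)) (algebraMap R K π)) V₃ := by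
    refine ⟨?_, by rw [hπEF]; exact o3x72_V3_pi M' q hq hM' hπ hL V₃ hV₃mem⟩
    intro c hc
    show al97L_beta K (M' * q) q c ∈ V₃
    rw [hV₃mem, als86_w2_beta]
    exact (al97V_alpha_mem_Vinf (M' * q) q hπ _).mpr ((s34i47c_mem_V0 M' q hq hM' hπ c).1 hc)
  have hO2 : oe10_Over (s34i47c_V0 (K := K) M' q hq hM' hπ)
      (algebraMap K ↥(modularFunctionFieldFullC K (M' * q)) (algebraMap R K π)) V₂ := by
    refine ⟨?_, by rw [hπEF]; exact hπ₂⟩
    intro c hc
    show al97L_beta K (M' * q) q c ∈ V₂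
    rw [o3x72_V2_stable (K := K) M' q hq hM' hπ hqR hL V₂ hV₂ hπ₂ hne s hs hE2, als86_w2_beta]
    exact hV₂ _ ((s34i47c_mem_V0 M' q hq hM' hπ c).1 hc)
  exact oe72_pair_basis hD hO3 hO2
    (obb72_V3_ne_V2 (K := K) M' q hq hM' hπ hqR hL V₂ V₃ hV₂ hπ₂ hV₃mem) _ _
    (oe10_ind_of_sind hD hO3 (oe10_sind_one hD hO3))
    (oe72_ind_pow hD hO2 (by rw [hπEF]; exact hs))
    (by rw [hfr, Fintype.card_unit, Fintype.card_fin]; omega)

end obb72

end Fermat.Agent.S36
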