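import Mathlib

/-!
# S36 lab (helper30): a root of a constant is a constant (Laurent series)

Mathlib only.  `k` a field, `m` invertible in `k`.

* `cr30_powerSeries_const` : `p ∈ k⟦X⟧`, `p ^ m = C c`, `c ≠ 0` ⟹ `p = C (p 0)`.
* `cr30_laurent_const`     : the same in `k⸨X⸩`.
* `cr30_laurent_quot`      : `t ^ m = C c * s ^ m`, `s ≠ 0`, `c ≠ 0` ⟹ `t = C a * s` with
  `a ^ m = c` (the form in which it is used for reductions of Gauss-integral functions).
* `cr30_laurent_unit_quot` : `t ^ m * C c' = C c * s ^ m` with `c, c' ≠ 0`.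

This is the step "an element `x` of `k((Q))` with `x ^ m ∈ k*` lies in `k`" of the gluing
argument (constancy of the reductions of the norm roots).
-/

set_option autoImplicit false

namespace Fermat.Agent.S36

theorem cr30_powerSeries_const {k : Type*} [Field k] (m : ℕ) (hm : (m : k) ≠ 0)
    (p : PowerSeries k) (c : k) (hc : c ≠ 0) (h : p ^ m = PowerSeries.C c) :
    p = PowerSeries.C (PowerSeries.constantCoeff p) := by
  set a := PowerSeries.constantCoeff p with ha
  have hm0 : m ≠ 0 := by
    rintro rfl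
    simp at hm
  have hac : a ^ m = c := by
    have h1 := congrArg PowerSeries.constantCoeff h
    simpa using h1
  have ha0 : a ≠ 0 := by
    intro h0
    rw [h0, zero_pow hm0] at hac
    exact hc hac.symm
  obtain ⟨r, hr⟩ : PowerSeries.X ∣ p - PowerSeries.C a := by
    rw [PowerSeries.X_dvd_iff]
    simp [ha]
  have hgeom := geom_sum₂_mul p (PowerSeries.C a) m
  have hzero : p ^ m - PowerSeries.C a ^ m = 0 := by
    rw [h, ← map_pow, hac, sub_self]
  rw [hzero, hr] at hgeom
  have hS : (∑ i ∈ Finset.range m, p ^ i * PowerSeries.C a ^ (m - 1 - i)) ≠ 0 := by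
    intro hS0
    have h1 := congrArg PowerSeries.constantCoeff hS0
    rw [map_sum] at h1
    simp only [map_mul, map_pow, PowerSeries.constantCoeff_C, map_zero] at h1
    rw [← ha, geom_sum₂_self] at h1
    exact (mul_ne_zero hm (pow_ne_zero _ ha0)) h1
  have hr0 : r = 0 := by
    rcases mul_eq_zero.mp hgeom with h1 | h1
    · exact absurd h1 hS
    · rcases mul_eq_zero.mp h1 with h2 | h2
      · exact absurd h2 PowerSeries.X_ne_zero
      · exact h2
  rw [hr0, mul_zero, sub_eq_zero] at hr
  exact hr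

theorem cr30_laurent_const {k : Type*} [Field k] (m : ℕ) (hm : (m : k) ≠ 0)
    (x : LaurentSeries k) (c : k) (hc : c ≠ 0) (h : x ^ m = HahnSeries.C c) :
    x = HahnSeries.C (x.coeff 0) := by
  have hm0 : m ≠ 0 := by
    rintro rfl
    simp at hm
  have hord : x.order = 0 := by
    have h1 := congrArg HahnSeries.order h
    rw [HahnSeries.order_pow, HahnSeries.order_C] at h1
    rcases smul_eq_zero.mp h1 with h2 | h2
    · exact absurd h2 hm0
    · exact h2
  have hx : x = HahnSeries.ofPowerSeries ℤ k x.powerSeriesPart := by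
    have h1 := x.single_order_mul_powerSeriesPart
    rw [hord] at h1
    have h2 : (HahnSeries.single (0 : ℤ) (1 : k) : LaurentSeries k) = 1 := rfl
    rw [h2, one_mul] at h1
    exact h1.symm
  have hp : x.powerSeriesPart ^ m = PowerSeries.C c := by
    apply HahnSeries.ofPowerSeries_injective (Γ := ℤ)
    rw [map_pow, ← hx, h, HahnSeries.ofPowerSeries_C]
  have hp' := cr30_powerSeries_const m hm x.powerSeriesPart c hc hp
  have hxa : x = HahnSeries.C (PowerSeries.constantCoeff x.powerSeriesPart) := by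
    rw [← HahnSeries.ofPowerSeries_C, ← hp', ← hx]
  have hcoeff : x.coeff 0 = PowerSeries.constantCoeff x.powerSeriesPart := by
    conv_lhs => rw [hxa]
    rw [HahnSeries.C_apply, HahnSeries.coeff_single_same]
  rw [hcoeff]
  exact hxa

theorem cr30_laurent_quot {k : Type*} [Field k] (m : ℕ) (hm : (m : k) ≠ 0)
    (s t : LaurentSeries k) (hs : s ≠ 0) (c : k) (hc : c ≠ 0)
    (h : t ^ m = HahnSeries.C c * s ^ m) :
    ∃ a : k, a ^ m = c ∧ t = HahnSeries.C a * s := by
  have h1 : (t / s) ^ m = HahnSeries.C c := by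
    rw [div_pow, h, mul_div_assoc, div_self (pow_ne_zero _ hs), mul_one]
  have h2 := cr30_laurent_const m hm (t / s) c hc h1
  refine ⟨(t / s).coeff 0, ?_, ?_⟩
  · have h3 : (HahnSeries.C ((t / s).coeff 0 ^ m) : LaurentSeries k) = HahnSeries.C c := by
      rw [map_pow, ← h2, h1]
    exact HahnSeries.C_injective h3
  · rw [← h2, div_mul_cancel₀ _ hs]

theorem cr30_laurent_unit_quot {k : Type*} [Field k] (m : ℕ) (hm : (m : k) ≠ 0)
    (s t : LaurentSeries k) (hs : s ≠ 0) (c c' : k) (hc : c ≠ 0) (hc' : c' ≠ 0)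
    (h : HahnSeries.C c' * t ^ m = HahnSeries.C c * s ^ m) :
    ∃ a : k, c' * a ^ m = c ∧ t = HahnSeries.C a * s := by
  have hC' : (HahnSeries.C c' : LaurentSeries k) ≠ 0 := HahnSeries.C_ne_zero hc'
  have h1 : t ^ m = HahnSeries.C (c / c') * s ^ m := by
    rw [div_eq_mul_inv, mul_comm c, map_mul, mul_assoc, ← h, ← mul_assoc, ← map_mul,
      inv_mul_cancel₀ hc', map_one, one_mul]
  obtain ⟨a, ha, hta⟩ := cr30_laurent_quot m hm s t hs (c / c') (div_ne_zero hc hc') h1
  exact ⟨a, by rw [ha, mul_div_cancel₀ _ hc'], hta⟩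

end Fermat.Agent.S36
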