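import Fermat.Agent.S18.GaussVal85
import Fermat.Agent.S36.ConstRoot30

/-!
# S36 lab (helper30): LEMMA K for the Gauss valuation ring

`V = gv85_V res F hF` the Gauss valuation subring (S18/GaussVal85) of an intermediate field `F` of
`K((q))/K`, `res : R →+* κ` surjective with kernel `(π)`, `m` invertible in `κ`.

* `gc30_gauss_const` : `x ∈ V`, `c ∈ R` with `res c ≠ 0`, `π⁻¹ (x ^ m - c) ∈ V`
  ⟹ `∃ a : R, res a ^ m = res c ∧ π⁻¹ (x - a) ∈ V`
  ("a function whose `m`-th power has constant non-zero reduction has constant reduction").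
* `gc30_gauss_const_unit` : the same with `π⁻¹ (c' x ^ m - c) ∈ V`, `res c' ≠ 0`.
* `gc30_gauss_const_mul` : `x ∈ V`, `π⁻¹ (x ^ m * y - c) ∈ V` with `y ∈ V` of constant reduction
  (`π⁻¹ (y - c') ∈ V`).

Imports: S18/GaussVal85 (on main) + S36/ConstRoot30 (Mathlib only).
-/

set_option autoImplicit false

open ModularCurve

namespace Fermat.Agent.S36

open Fermat.Agent.S18

section gc30

variable {R K κ : Type*} [CommRing R] [IsDomain R] [Field K] [Algebra R K] [IsFractionRing R K]
  [Field κ] [ValuationRing R]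
variable (res : R →+* κ) (π : R)

/-- General form: `c' x ^ m ≡ c mod π V` with `c, c'` constants of non-zero reduction. -/
theorem gc30_gauss_const_unit (hres : ∀ r, res r = 0 ↔ π ∣ r) (hπ0 : π ≠ 0)
    (hsurj : Function.Surjective res)
    (F : IntermediateField K (LaurentSeries K)) (hF : gv85_HF res F)
    (m : ℕ) (hm : (m : κ) ≠ 0) (x : F) (hx : x ∈ gv85_V res F hF) (c c' : R)
    (hc : res c ≠ 0) (hc' : res c' ≠ 0)
    (h : (algebraMap K F (algebraMap R K π))⁻¹ *
      (algebraMap K F (algebraMap R K c') * x ^ m - algebraMap K F (algebraMap R K c)) ∈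
        gv85_V res F hF) :
    ∃ a : R, res c' * res a ^ m = res c ∧
      (algebraMap K F (algebraMap R K π))⁻¹ * (x - algebraMap K F (algebraMap R K a)) ∈
        gv85_V res F hF := by
  obtain ⟨s, t, hs, hst⟩ := hx
  obtain ⟨s', t', hs', hst'⟩ := h
  have hπK : algebraMap R K π ≠ 0 := fun h0 =>
    hπ0 (IsFractionRing.injective R K (by rw [h0, map_zero]))
  have hC0 : (HahnSeries.C (algebraMap R K π) : LaurentSeries K) ≠ 0 := HahnSeries.C_ne_zero hπK
  -- the identity in `R((q))`
  have hcoe : (((algebraMap K F (algebraMap R K π))⁻¹ *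
      (algebraMap K F (algebraMap R K c') * x ^ m - algebraMap K F (algebraMap R K c)) : F) :
        LaurentSeries K) =
      (HahnSeries.C (algebraMap R K π))⁻¹ *
        (HahnSeries.C (algebraMap R K c') * (x : LaurentSeries K) ^ m -
          HahnSeries.C (algebraMap R K c)) := by
    rw [gv85_coe_inv_mul]
    push_cast
    simp only [algebraMap_laurentSeries_eq_single, ← HahnSeries.C_apply]
  rw [hcoe] at hst'
  have hkey : coeffMap (algebraMap R K) (s' * (HahnSeries.C c' * t ^ m - HahnSeries.C c * s ^ m)) =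
      coeffMap (algebraMap R K) (HahnSeries.C π * (t' * s ^ m)) := by
    simp only [map_mul, map_sub, map_pow, gv85_coeffMap_C]
    rw [← hst', ← hst]
    field_simp
    ring
  have hkey' := gv85_emb_injective hkey
  have hred : coeffMap res s' * (HahnSeries.C (res c') * coeffMap res t ^ m -
      HahnSeries.C (res c) * coeffMap res s ^ m) = 0 := by
    have h1 := congrArg (coeffMap res) hkey'
    rw [gv85_red_C_mul res π hres] at h1
    simpa only [map_mul, map_sub, map_pow, gv85_coeffMap_C] using h1
  have hred' : HahnSeries.C (res c') * coeffMap res t ^ m =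
      HahnSeries.C (res c) * coeffMap res s ^ m :=
    sub_eq_zero.mp ((mul_eq_zero.mp hred).resolve_left hs')
  obtain ⟨abar, habar, ht⟩ :=
    cr30_laurent_unit_quot m hm (coeffMap res s) (coeffMap res t) hs (res c) (res c') hc hc' hred'
  obtain ⟨a, rfl⟩ := hsurj abar
  refine ⟨a, habar, ?_⟩
  have hzero : coeffMap res (t - HahnSeries.C a * s) = 0 := by
    rw [map_sub, map_mul, gv85_coeffMap_C, ht, sub_self]
  obtain ⟨y', hy'⟩ := gv85_red_eq_zero res π hres hπ0 _ hzero
  refine ⟨s, y', hs, ?_⟩
  have hcoe2 : (((algebraMap K F (algebraMap R K π))⁻¹ *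
      (x - algebraMap K F (algebraMap R K a)) : F) : LaurentSeries K) =
      (HahnSeries.C (algebraMap R K π))⁻¹ *
        ((x : LaurentSeries K) - HahnSeries.C (algebraMap R K a)) := by
    rw [gv85_coe_inv_mul]
    push_cast
    simp only [algebraMap_laurentSeries_eq_single, ← HahnSeries.C_apply]
  rw [hcoe2]
  have h2 : coeffMap (algebraMap R K) (t - HahnSeries.C a * s) =
      coeffMap (algebraMap R K) (HahnSeries.C π * y') := by rw [hy']
  simp only [map_mul, map_sub, gv85_coeffMap_C] at h2
  have h3 : coeffMap (algebraMap R K) y' =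
      (HahnSeries.C (algebraMap R K π))⁻¹ *
        (coeffMap (algebraMap R K) t -
          HahnSeries.C (algebraMap R K a) * coeffMap (algebraMap R K) s) := by
    rw [h2, ← mul_assoc, inv_mul_cancel₀ hC0, one_mul]
  rw [h3, ← hst]
  ring

/-- **LEMMA K for the Gauss ring**: `x ^ m ≡ c mod π V`, `c` a constant of non-zero reduction
⟹ `x ≡ a mod π V` for a constant `a` (with `ā ^ m = c̄`). -/
theorem gc30_gauss_const (hres : ∀ r, res r = 0 ↔ π ∣ r) (hπ0 : π ≠ 0)
    (hsurj : Function.Surjective res)
    (F : IntermediateField K (LaurentSeries K)) (hF : gv85_HF res F)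
    (m : ℕ) (hm : (m : κ) ≠ 0) (x : F) (hx : x ∈ gv85_V res F hF) (c : R) (hc : res c ≠ 0)
    (h : (algebraMap K F (algebraMap R K π))⁻¹ *
      (x ^ m - algebraMap K F (algebraMap R K c)) ∈ gv85_V res F hF) :
    ∃ a : R, res a ^ m = res c ∧
      (algebraMap K F (algebraMap R K π))⁻¹ * (x - algebraMap K F (algebraMap R K a)) ∈
        gv85_V res F hF := by
  have h1 : (algebraMap K F (algebraMap R K π))⁻¹ *
      (algebraMap K F (algebraMap R K 1) * x ^ m - algebraMap K F (algebraMap R K c)) ∈
        gv85_V res F hF := by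
    rw [map_one, map_one, one_mul]
    exact h
  obtain ⟨a, ha, hxa⟩ := gc30_gauss_const_unit res π hres hπ0 hsurj F hF m hm x hx c 1 hc
    (by rw [map_one]; exact one_ne_zero) h1
  rw [map_one, one_mul] at ha
  exact ⟨a, ha, hxa⟩

end gc30

end Fermat.Agent.S36
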