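import Fermat.Agent.S34.ChartM85
import Fermat.Agent.S36.GaussConst30

/-!
# S36 lab (helper30): LEMMA K for the Gauss ring `cm85_Vinf` in the literal frame notation

`R` a discrete valuation ring with uniformiser `π`, fraction field `K`, `F = F_K(M)` (any level),
`V = cm85_Vinf M hπ` the Gauss valuation ring of the `q`-expansion, `m` a unit of `R`.

* `vc30_Vinf_const` : `x ∈ V`, `c ∈ Rˣ`, `π⁻¹ (x ^ m - c) ∈ V` ⟹
  `∃ a ∈ Rˣ, π⁻¹ (a ^ m - c) ∈ R ∧ π⁻¹ (x - a) ∈ V`.
* `vc30_Vinf_const_unit` : the same for `π⁻¹ (c' x ^ m - c) ∈ V`, `c, c' ∈ Rˣ`.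

Everything is written with `algebraMap R F` (the notation of `s34i47_WProps` etc.).
-/

set_option autoImplicit false
set_option linter.unusedSectionVars false

open ModularCurve

namespace Fermat.Agent.S36

open Fermat.Agent.S18 Fermat.Agent.S34

section vc30

variable {R K : Type} [CommRing R] [IsDomain R] [IsDiscreteValuationRing R] [Field K]
  [Algebra R K] [IsFractionRing R K] (M : ℕ) [NeZero M]
  [Algebra R ↥(modularFunctionFieldFullC K M)]
  [IsScalarTower R K ↥(modularFunctionFieldFullC K M)]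

theorem vc30_Vinf_const_unit {π : R} (hπ : Irreducible π) (m : ℕ) (hm : IsUnit (m : R))
    (x : ↥(modularFunctionFieldFullC K M)) (hx : x ∈ cm85_Vinf (K := K) M hπ) (c c' : R)
    (hc : IsUnit c) (hc' : IsUnit c')
    (h : (algebraMap R ↥(modularFunctionFieldFullC K M) π)⁻¹ *
      (algebraMap R ↥(modularFunctionFieldFullC K M) c' * x ^ m -
        algebraMap R ↥(modularFunctionFieldFullC K M) c) ∈ cm85_Vinf (K := K) M hπ) :
    ∃ a : R, IsUnit a ∧ π ∣ c' * a ^ m - c ∧
      (algebraMap R ↥(modularFunctionFieldFullC K M) π)⁻¹ *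
        (x - algebraMap R ↥(modularFunctionFieldFullC K M) a) ∈ cm85_Vinf (K := K) M hπ := by
  have hconv : ∀ r : R, algebraMap R ↥(modularFunctionFieldFullC K M) r =
      algebraMap K ↥(modularFunctionFieldFullC K M) (algebraMap R K r) :=
    fun r => IsScalarTower.algebraMap_apply R K ↥(modularFunctionFieldFullC K M) r
  have hresunit : ∀ r : R, IsUnit r → IsLocalRing.residue R r ≠ 0 := by
    intro r hr h0
    rw [IsLocalRing.residue_eq_zero_iff] at h0
    exact (IsLocalRing.mem_maximalIdeal r).mp h0 hr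
  have hmκ : ((m : ℕ) : IsLocalRing.ResidueField R) ≠ 0 := by
    have h1 := hresunit (m : R) hm
    rwa [map_natCast] at h1
  rw [hconv π, hconv c, hconv c'] at h
  obtain ⟨a, ha, hxa⟩ := gc30_gauss_const_unit (IsLocalRing.residue R) π (pk85_res_iff hπ)
    hπ.ne_zero IsLocalRing.residue_surjective (modularFunctionFieldFullC K M) (pk85_HF K M hπ)
    m hmκ x hx c c' (hresunit c hc) (hresunit c' hc') h
  have hm0 : m ≠ 0 := by
    rintro rfl
    simp at hmκ
  refine ⟨a, ?_, ?_, ?_⟩
  · by_contra hau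
    have h0 : IsLocalRing.residue R a = 0 := by
      rw [IsLocalRing.residue_eq_zero_iff]
      exact (IsLocalRing.mem_maximalIdeal a).mpr hau
    rw [h0, zero_pow hm0, mul_zero] at ha
    exact hresunit c hc ha.symm
  · rw [← pk85_res_iff hπ, map_sub, map_mul, map_pow, ha, sub_self]
  · rw [hconv π, hconv a]
    exact hxa

theorem vc30_Vinf_const {π : R} (hπ : Irreducible π) (m : ℕ) (hm : IsUnit (m : R))
    (x : ↥(modularFunctionFieldFullC K M)) (hx : x ∈ cm85_Vinf (K := K) M hπ) (c : R)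
    (hc : IsUnit c)
    (h : (algebraMap R ↥(modularFunctionFieldFullC K M) π)⁻¹ *
      (x ^ m - algebraMap R ↥(modularFunctionFieldFullC K M) c) ∈ cm85_Vinf (K := K) M hπ) :
    ∃ a : R, IsUnit a ∧ π ∣ a ^ m - c ∧
      (algebraMap R ↥(modularFunctionFieldFullC K M) π)⁻¹ *
        (x - algebraMap R ↥(modularFunctionFieldFullC K M) a) ∈ cm85_Vinf (K := K) M hπ := by
  have h1 : (algebraMap R ↥(modularFunctionFieldFullC K M) π)⁻¹ *
      (algebraMap R ↥(modularFunctionFieldFullC K M) 1 * x ^ m -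
        algebraMap R ↥(modularFunctionFieldFullC K M) c) ∈ cm85_Vinf (K := K) M hπ := by
    rw [map_one, one_mul]
    exact h
  obtain ⟨a, hau, ha, hxa⟩ := vc30_Vinf_const_unit M hπ m hm x hx c 1 hc isUnit_one h1
  rw [one_mul] at ha
  exact ⟨a, hau, ha, hxa⟩

end vc30

end Fermat.Agent.S36
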