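import Fermat.Agent.S36.ValUnitCanon1
import Fermat.Agent.S36.AbelianVal94
import Fermat.Agent.S36.AbvBind66
import Fermat.Agent.S36.BetaV2_66
import Fermat.Agent.S36.NormFov78
import Fermat.Agent.S36.OnlyBindBeta72
import Fermat.Agent.S36.OnlyThree72
import Fermat.Agent.S36.VinfConst30
import Fermat.Agent.S36.CoreIface57

/-!
# S36 lab, row 605 (HB) (helper1): the unit step `ci57x_HB` on the canonical level-`M' q²` frame

`hb1_main` : for `V₁ = cm85_Vinf (M' * q * q) hπ`, `V₃ = nsb86_V3 M' q hq hM' hπ`,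
`V_∞' = cm85_Vinf (M' * q) hπ`, `V_0' = s34i47c_V0 M' q hq hM' hπ` and ANY `V₂` with the three
facts of `ob72_ram` (`α₂ V_∞' ⊆ V₂`, `π⁻¹ ∉ V₂`, `v₂(s)^(q-1) = v₂(π)`, `s = v2g64_s K M' q`),
for every `m > 0` prime to `q` and invertible in `R`:

`ci57x_HB (M' * q) q m R K V₁ V₂ V₃ V_∞' V_0'`.

Proof: (B0) `vuc1_main` (the vertical part is killed: `f₂ = f^(q+1) c₀ y^m` is a unit of
`V₁, V₂, V₃`), then (B1+B2) `abv94_intrinsic` (helper94) for `f₂`, with the hypotheses bound
by helper66 (`ab66_*`, `bv66_*`), helper78 (`nfv78_*`), helper72 (`ob72_ram`, `obb72_*`,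
`o3x72_*`), helper41 (`nv41_norm_mem`), helper30 (`vc30_Vinf_const_unit` = LEMMA K).
-/

set_option autoImplicit false
set_option linter.unusedSectionVars false
set_option linter.style.haveILetI false
set_option linter.unusedVariables false
set_option linter.style.longLine false

open ModularCurve AlgebraicCurve IntermediateField

namespace Fermat.Agent.S36

open Fermat.Agent.S18 Fermat.Agent.S24 Fermat.Agent.S28 Fermat.Agent.S37 Fermat.Agent.S34
open Fermat.Agent.S42 Fermat.Agent.S35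

local notation "Q̄" => AlgebraicClosure ℚ

section hb1

variable {R K : Type} [CommRing R] [IsDomain R] [IsDiscreteValuationRing R] [Field K] [CharZero K]
  [Algebra R K] [IsFractionRing R K]

/-- Constants of `R` lie in the Gauss ring. -/
theorem hb1_const_mem (M : ℕ) [NeZero M] {π : R} (hπ : Irreducible π) (r : R) :
    algebraMap K ↥(modularFunctionFieldFullC K M) (algebraMap R K r) ∈
      cm85_Vinf (K := K) M hπ :=
  gv85_mem_V_of_integral _ _ _ _ (HahnSeries.C r) (by rw [gv85_coe_algebraMap, gv85_coeffMap_C])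

/-- A constant of `K` which is a unit of the Gauss ring is a unit of `R`. -/
theorem hb1_const_unit (M : ℕ) [NeZero M] {π : R} (hπ : Irreducible π) (c : K)
    (h1 : algebraMap K ↥(modularFunctionFieldFullC K M) c ∈ cm85_Vinf (K := K) M hπ)
    (h2 : (algebraMap K ↥(modularFunctionFieldFullC K M) c)⁻¹ ∈ cm85_Vinf (K := K) M hπ)
    (hc : c ≠ 0) : ∃ r : Rˣ, c = algebraMap R K r := by
  have hπinv : (algebraMap K ↥(modularFunctionFieldFullC K M) (algebraMap R K π))⁻¹ ∉
      cm85_Vinf (K := K) M hπ :=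
    gv85_pi_inv_not_mem (IsLocalRing.residue R) π (pk85_res_iff hπ) hπ.ne_zero _ _
  have hπK : algebraMap R K π ≠ 0 := fun h =>
    hπ.ne_zero (IsFractionRing.injective R K (by rw [h, map_zero]))
  -- a non-unit of `R` is divisible by `π`
  have hdiv : ∀ r : R, ¬ IsUnit r → ∃ r' : R, r = π * r' := by
    intro r hr
    have h := (IsLocalRing.mem_maximalIdeal r).mpr hr
    rw [hπ.maximalIdeal_eq, Ideal.mem_span_singleton] at h
    exact h
  -- key: `x = algebraMap r` with `r` a non-unit and `x⁻¹` integral is impossible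
  have key : ∀ (x : K) (r : R), x = algebraMap R K r → x ≠ 0 → ¬ IsUnit r →
      (algebraMap K ↥(modularFunctionFieldFullC K M) x)⁻¹ ∉ cm85_Vinf (K := K) M hπ := by
    intro x r hx hx0 hr hmem
    obtain ⟨r', hr'⟩ := hdiv r hr
    apply hπinv
    have hx' : algebraMap K ↥(modularFunctionFieldFullC K M) x ≠ 0 :=
      (map_ne_zero _).mpr hx0
    have hxe : algebraMap K ↥(modularFunctionFieldFullC K M) x =
        algebraMap K ↥(modularFunctionFieldFullC K M) (algebraMap R K π) *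
          algebraMap K ↥(modularFunctionFieldFullC K M) (algebraMap R K r') := by
      rw [hx, hr', map_mul, map_mul]
    have hr'0 : algebraMap K ↥(modularFunctionFieldFullC K M) (algebraMap R K r') ≠ 0 :=
      fun h => hx' (by rw [hxe, h, mul_zero])
    have e : (algebraMap K ↥(modularFunctionFieldFullC K M) (algebraMap R K π))⁻¹ =
        algebraMap K ↥(modularFunctionFieldFullC K M) (algebraMap R K r') *
          (algebraMap K ↥(modularFunctionFieldFullC K M) x)⁻¹ := by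
      rw [hxe, mul_inv, mul_comm (algebraMap K ↥(modularFunctionFieldFullC K M)
        (algebraMap R K π))⁻¹, ← mul_assoc, mul_inv_cancel₀ hr'0, one_mul]
    rw [e]
    exact (cm85_Vinf (K := K) M hπ).mul_mem _ _ (hb1_const_mem M hπ r') hmem
  rcases ValuationRing.isInteger_or_isInteger R c with ⟨r, hr⟩ | ⟨r, hr⟩
  · by_cases hu : IsUnit r
    · exact ⟨hu.unit, hr.symm⟩
    · exact absurd h2 (key c r hr.symm hc hu)
  · by_cases hu : IsUnit r
    · refine ⟨hu.unit⁻¹, ?_⟩
      have h3 : algebraMap R K ((hu.unit⁻¹ : Rˣ) : R) * algebraMap R K r = 1 := by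
        rw [← map_mul]
        have : ((hu.unit⁻¹ : Rˣ) : R) * r = 1 := by
          have h4 := hu.unit.inv_mul
          simpa using h4
        rw [this, map_one]
      rw [hr] at h3
      field_simp at h3
      exact h3.symm
    · exfalso
      have h3 := key c⁻¹ r hr.symm (inv_ne_zero hc) hu
      rw [map_inv₀, inv_inv] at h3
      exact h3 h1

end hb1

section hb1b

variable {R K : Type} [CommRing R] [IsDomain R] [IsDiscreteValuationRing R] [Field K] [CharZero K]
  [Algebra R K] [IsFractionRing R K] [Algebra K Q̄] (M' q : ℕ) [NeZero M'] [NeZero q]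

/-- The norm along `α₂` of a constant is its `q`-th power. -/
theorem hb1_normA_const (hq : q.Prime) (c : K) :
    s35i62_normA K (M' * q) q (algebraMap K ↥(modularFunctionFieldFullC K (M' * q * q)) c) =
      algebraMap K ↥(modularFunctionFieldFullC K (M' * q)) (c ^ q) := by
  letI alg : Algebra ↥(modularFunctionFieldFullC K (M' * q))
      ↥(modularFunctionFieldFullC K (M' * q * q)) :=
    (al97L_alpha K (M' * q) q).toRingHom.toAlgebra
  have hfr := ob72_finrank K (M' * q) q hq (dvd_mul_left q M')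
  have e : algebraMap K ↥(modularFunctionFieldFullC K (M' * q * q)) c =
      algebraMap ↥(modularFunctionFieldFullC K (M' * q))
        ↥(modularFunctionFieldFullC K (M' * q * q))
        (algebraMap K ↥(modularFunctionFieldFullC K (M' * q)) c) :=
    ((al97L_alpha K (M' * q) q).commutes c).symm
  rw [e, map_pow]
  have := Algebra.norm_algebraMap (R := ↥(modularFunctionFieldFullC K (M' * q)))
    (S := ↥(modularFunctionFieldFullC K (M' * q * q)))
    (algebraMap K ↥(modularFunctionFieldFullC K (M' * q)) c)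
  rw [hfr] at this
  exact this

/-- The norm along `β₂` of a constant is its `q`-th power. -/
theorem hb1_normB_const (hq : q.Prime) (hM' : ¬ q ∣ M') (c : K) :
    s35i62_normB K (M' * q) q (algebraMap K ↥(modularFunctionFieldFullC K (M' * q * q)) c) =
      algebraMap K ↥(modularFunctionFieldFullC K (M' * q)) (c ^ q) := by
  letI alg : Algebra ↥(modularFunctionFieldFullC K (M' * q))
      ↥(modularFunctionFieldFullC K (M' * q * q)) :=
    (al97L_beta K (M' * q) q).toRingHom.toAlgebra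
  have hL : ((M' * q * q : ℕ) : K) ≠ 0 := Nat.cast_ne_zero.mpr (NeZero.ne _)
  have hfr : Module.finrank ↥(modularFunctionFieldFullC K (M' * q))
      ↥(modularFunctionFieldFullC K (M' * q * q)) = q :=
    als86_finrank_beta (algebraMap K Q̄) M' q hq hM' hL
  have e : algebraMap K ↥(modularFunctionFieldFullC K (M' * q * q)) c =
      algebraMap ↥(modularFunctionFieldFullC K (M' * q))
        ↥(modularFunctionFieldFullC K (M' * q * q))
        (algebraMap K ↥(modularFunctionFieldFullC K (M' * q)) c) :=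
    ((al97L_beta K (M' * q) q).commutes c).symm
  rw [e, map_pow]
  have := Algebra.norm_algebraMap (R := ↥(modularFunctionFieldFullC K (M' * q)))
    (S := ↥(modularFunctionFieldFullC K (M' * q * q)))
    (algebraMap K ↥(modularFunctionFieldFullC K (M' * q)) c)
  rw [hfr] at this
  exact this

/-- The four norm-integrality facts on the canonical frame. -/
theorem hb1_norm_mem (hq : q.Prime) (hM' : ¬ q ∣ M') {π : R} (hπ : Irreducible π)
    (hqR : ¬ IsUnit (q : R))
    (V₂ : ValuationSubring ↥(modularFunctionFieldFullC K (M' * q * q)))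
    (hV₂ : ∀ x ∈ cm85_Vinf (K := K) (M' * q) hπ, al97L_alpha K (M' * q) q x ∈ V₂)
    (hπ₂ : (algebraMap K ↥(modularFunctionFieldFullC K (M' * q * q)) (algebraMap R K π))⁻¹ ∉ V₂)
    (hne : cm85_Vinf (K := K) (M' * q * q) hπ ≠ V₂)
    (hs : V₂.valuation (v2g64_s K M' q) ^ (q - 1) =
      V₂.valuation (algebraMap K ↥(modularFunctionFieldFullC K (M' * q * q))
        (algebraMap R K π))) :
    (∀ y, y ∈ cm85_Vinf (K := K) (M' * q * q) hπ → y ∈ V₂ →
      s35i62_normA K (M' * q) q y ∈ cm85_Vinf (K := K) (M' * q) hπ) ∧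
    (∀ y ∈ nsb86_V3 M' q hq hM' hπ,
      s35i62_normA K (M' * q) q y ∈ s34i47c_V0 (K := K) M' q hq hM' hπ) ∧
    (∀ y ∈ cm85_Vinf (K := K) (M' * q * q) hπ,
      s35i62_normB K (M' * q) q y ∈ cm85_Vinf (K := K) (M' * q) hπ) ∧
    (∀ y, y ∈ nsb86_V3 M' q hq hM' hπ → y ∈ V₂ →
      s35i62_normB K (M' * q) q y ∈ s34i47c_V0 (K := K) M' q hq hM' hπ) := by
  have hL : ((M' * q * q : ℕ) : K) ≠ 0 := Nat.cast_ne_zero.mpr (NeZero.ne _)
  have hV₃mem : ∀ x, x ∈ nsb86_V3 M' q hq hM' hπ ↔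
      als86_w2 (algebraMap K Q̄) M' q hq hM' hL x ∈ cm85_Vinf (K := K) (M' * q * q) hπ :=
    fun x => nsb86_mem_V3 M' q hq hM' hπ x
  have hE2 := bv66_E2 (K := K) M' q hq hM' hπ hqR hL V₂ hV₂ hπ₂ hne
  obtain ⟨-, hintA, -, -, -⟩ := ob72_ram (K := K) (M' * q) q hq (dvd_mul_left q M') hπ V₂ hV₂
    hπ₂ hne _ hs
  obtain ⟨hw1, hw2'⟩ := vuc1_V3_wit (K := K) M' q hq hM' hπ hqR
  obtain ⟨-, hintA3, -, -⟩ := obi72_inert (K := K) M' q hq hM' hπ (nsb86_V3 M' q hq hM' hπ)
    (vuc1_V3_alpha M' q hq hM' hπ) (vuc1_V3_pi M' q hq hM' hπ) _ hw1 hw2'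
  obtain ⟨-, hintB1, -⟩ := obb72_inert (K := K) M' q hq hM' hπ hqR hL
  obtain ⟨-, hintB, -, -⟩ := obb72_ram (K := K) M' q hq hM' hπ hqR hL V₂
    (nsb86_V3 M' q hq hM' hπ) hV₂ hπ₂ hne _ hs hE2 hV₃mem
  refine ⟨?_, ?_, ?_, ?_⟩
  · intro y h1 h2
    letI alg : Algebra ↥(modularFunctionFieldFullC K (M' * q))
        ↥(modularFunctionFieldFullC K (M' * q * q)) :=
      (al97L_alpha K (M' * q) q).toRingHom.toAlgebra
    have hfr := ob72_finrank K (M' * q) q hq (dvd_mul_left q M')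
    haveI : FiniteDimensional ↥(modularFunctionFieldFullC K (M' * q))
        ↥(modularFunctionFieldFullC K (M' * q * q)) :=
      Module.finite_of_finrank_pos (by rw [hfr]; exact hq.pos)
    exact nv41_norm_mem (cm85_Vinf (K := K) (M' * q) hπ) y (hintA y h1 h2)
  · intro y h3
    letI alg : Algebra ↥(modularFunctionFieldFullC K (M' * q))
        ↥(modularFunctionFieldFullC K (M' * q * q)) :=
      (al97L_alpha K (M' * q) q).toRingHom.toAlgebra
    have hfr := ob72_finrank K (M' * q) q hq (dvd_mul_left q M')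
    haveI : FiniteDimensional ↥(modularFunctionFieldFullC K (M' * q))
        ↥(modularFunctionFieldFullC K (M' * q * q)) :=
      Module.finite_of_finrank_pos (by rw [hfr]; exact hq.pos)
    exact nv41_norm_mem (s34i47c_V0 (K := K) M' q hq hM' hπ) y (hintA3 y h3)
  · intro y h1
    letI alg : Algebra ↥(modularFunctionFieldFullC K (M' * q))
        ↥(modularFunctionFieldFullC K (M' * q * q)) :=
      (al97L_beta K (M' * q) q).toRingHom.toAlgebra
    have hfr : Module.finrank ↥(modularFunctionFieldFullC K (M' * q))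
        ↥(modularFunctionFieldFullC K (M' * q * q)) = q :=
      als86_finrank_beta (algebraMap K Q̄) M' q hq hM' hL
    haveI : FiniteDimensional ↥(modularFunctionFieldFullC K (M' * q))
        ↥(modularFunctionFieldFullC K (M' * q * q)) :=
      Module.finite_of_finrank_pos (by rw [hfr]; exact hq.pos)
    exact nv41_norm_mem (cm85_Vinf (K := K) (M' * q) hπ) y (hintB1 y h1)
  · intro y h3 h2
    letI alg : Algebra ↥(modularFunctionFieldFullC K (M' * q))
        ↥(modularFunctionFieldFullC K (M' * q * q)) :=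
      (al97L_beta K (M' * q) q).toRingHom.toAlgebra
    have hfr : Module.finrank ↥(modularFunctionFieldFullC K (M' * q))
        ↥(modularFunctionFieldFullC K (M' * q * q)) = q :=
      als86_finrank_beta (algebraMap K Q̄) M' q hq hM' hL
    haveI : FiniteDimensional ↥(modularFunctionFieldFullC K (M' * q))
        ↥(modularFunctionFieldFullC K (M' * q * q)) :=
      Module.finite_of_finrank_pos (by rw [hfr]; exact hq.pos)
    exact nv41_norm_mem (s34i47c_V0 (K := K) M' q hq hM' hπ) y (hintB y h3 h2)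

/-- **(HB) on the canonical frame.** -/
theorem hb1_main (hq : q.Prime) (hM' : ¬ q ∣ M') {π : R} (hπ : Irreducible π)
    (hqR : ¬ IsUnit (q : R))
    (V₂ : ValuationSubring ↥(modularFunctionFieldFullC K (M' * q * q)))
    (hV₂ : ∀ x ∈ cm85_Vinf (K := K) (M' * q) hπ, al97L_alpha K (M' * q) q x ∈ V₂)
    (hπ₂ : (algebraMap K ↥(modularFunctionFieldFullC K (M' * q * q)) (algebraMap R K π))⁻¹ ∉ V₂)
    (hs : V₂.valuation (v2g64_s K M' q) ^ (q - 1) =
      V₂.valuation (algebraMap K ↥(modularFunctionFieldFullC K (M' * q * q)) (algebraMap R K π)))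
    (m : ℕ) (hm : 0 < m) (hqm : Nat.Coprime q m) (hmR : IsUnit (m : R)) :
    ci57x_HB (M' * q) q m R K (cm85_Vinf (K := K) (M' * q * q) hπ) V₂
      (nsb86_V3 M' q hq hM' hπ) (cm85_Vinf (K := K) (M' * q) hπ)
      (s34i47c_V0 (K := K) M' q hq hM' hπ) := by
  classical
  intro f a b ca cb hf ha hb hca hcb _ hNa hNb
  have hL : ((M' * q * q : ℕ) : K) ≠ 0 := Nat.cast_ne_zero.mpr (NeZero.ne _)
  have hs1 := vuc1_s_unit (K := K) M' q hq hπ
  have hπ2lt : V₂.valuation
      (algebraMap K ↥(modularFunctionFieldFullC K (M' * q * q)) (algebraMap R K π)) < 1 :=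
    ab66_val_pi_lt_one V₂ _ hπ₂
  have hne : cm85_Vinf (K := K) (M' * q * q) hπ ≠ V₂ := by
    intro h
    have h1 : V₂.valuation (v2g64_s K M' q) = 1 := h ▸ hs1
    rw [h1, one_pow] at hs
    exact hπ2lt.ne hs.symm
  have hV₃mem : ∀ x, x ∈ nsb86_V3 M' q hq hM' hπ ↔
      als86_w2 (algebraMap K Q̄) M' q hq hM' hL x ∈ cm85_Vinf (K := K) (M' * q * q) hπ :=
    fun x => nsb86_mem_V3 M' q hq hM' hπ x
  have hE2 := bv66_E2 (K := K) M' q hq hM' hπ hqR hL V₂ hV₂ hπ₂ hne
  have hw2 : ∀ x ∈ V₂,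
      als86_w2 (algebraMap K Q̄) M' q hq hM' (nsb86_hL K (M' * q * q)) x ∈ V₂ := fun x hx =>
    (o3x72_V2_stable (K := K) M' q hq hM' hπ hqR hL V₂ hV₂ hπ₂ hne _ hs hE2 x).mp hx
  obtain ⟨hd2, -⟩ := vuf1_alpha_ram (K := K) (M' * q) q hq (dvd_mul_left q M') hπ V₂ hV₂ hπ₂
    _ hs hs1
  have hsinv : (v2g64_s K M' q)⁻¹ ∉ V₂ := by
    intro h
    have h1 := (V₂.valuation_le_one_iff _).mpr h
    rw [map_inv₀, inv_le_one₀ (vs1_val_pos hd2)] at h1
    exact absurd hd2.2.1 (not_lt.mpr h1)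
  have hπ3 := vuc1_V3_pi (K := K) M' q hq hM' hπ
  have hπ1 : (algebraMap K ↥(modularFunctionFieldFullC K (M' * q * q)) (algebraMap R K π))⁻¹ ∉
      cm85_Vinf (K := K) (M' * q * q) hπ := ab66_pi_V1 (K := K) M' q hπ
  have hπi : (algebraMap K ↥(modularFunctionFieldFullC K (M' * q)) (algebraMap R K π))⁻¹ ∉
      cm85_Vinf (K := K) (M' * q) hπ :=
    gv85_pi_inv_not_mem (IsLocalRing.residue R) π (pk85_res_iff hπ) hπ.ne_zero _ _
  obtain ⟨-, -, -, hresA1, hresA2⟩ := ob72_ram (K := K) (M' * q) q hq (dvd_mul_left q M') hπ V₂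
    hV₂ hπ₂ hne _ hs
  obtain ⟨-, -, hresB3, hresB2⟩ := obb72_ram (K := K) M' q hq hM' hπ hqR hL V₂
    (nsb86_V3 M' q hq hM' hπ) hV₂ hπ₂ hne _ hs hE2 hV₃mem
  obtain ⟨hNaVi, hNaVz, hNbVi, hNbVz⟩ := hb1_norm_mem (K := K) M' q hq hM' hπ hqR V₂ hV₂ hπ₂
    hne hs
  -- (B0)
  obtain ⟨c0, y, f2, hc0, hy, hf2, hf2def, hf2V1, hf2V2, hf2V3,
      ⟨cA, A2, hcA, hA2, hcAi, hcAz, hA2i, hA2z, hNA⟩,
      ⟨cB, B2, hcB, hB2, hcBi, hcBz, hB2i, hB2z, hNB⟩⟩ :=
    vuc1_main (K := K) M' q hq hM' hπ hqR V₂ hV₂ hπ₂ hs m hm f hf ca cb hca hcb a b ha hb hNa hNb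
  obtain ⟨rA, hrA⟩ := hb1_const_unit (K := K) (M' * q) hπ cA hcAi.1 hcAi.2 hcA
  obtain ⟨rB, hrB⟩ := hb1_const_unit (K := K) (M' * q) hπ cB hcBi.1 hcBi.2 hcB
  -- the constants
  let c' : Rˣ →* (↥(modularFunctionFieldFullC K (M' * q)))ˣ :=
    Units.map (((algebraMap K ↥(modularFunctionFieldFullC K (M' * q))).comp
      (algebraMap R K) : R →+* ↥(modularFunctionFieldFullC K (M' * q))) : R →* _)
  have hc'v : ∀ c : Rˣ, ((c' c : (↥(modularFunctionFieldFullC K (M' * q)))ˣ) :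
      ↥(modularFunctionFieldFullC K (M' * q))) =
      algebraMap K ↥(modularFunctionFieldFullC K (M' * q)) (algebraMap R K (c : R)) :=
    fun c => rfl
  have hcne : ∀ c : Rˣ,
      algebraMap K ↥(modularFunctionFieldFullC K (M' * q)) (algebraMap R K (c : R)) ≠ 0 := by
    intro c
    rw [← hc'v]
    exact (c' c).ne_zero
  have hcVi : ∀ c : Rˣ, (cm85_Vinf (K := K) (M' * q) hπ).valuation
      ((c' c : (↥(modularFunctionFieldFullC K (M' * q)))ˣ) :
        ↥(modularFunctionFieldFullC K (M' * q))) = 1 := by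
    intro c
    rw [hc'v]
    refine (vs1_val_eq_one_iff (hcne c)).mpr ⟨hb1_const_mem (M' * q) hπ _, ?_⟩
    have e : (algebraMap K ↥(modularFunctionFieldFullC K (M' * q)) (algebraMap R K (c : R)))⁻¹ =
        algebraMap K ↥(modularFunctionFieldFullC K (M' * q))
          (algebraMap R K ((c⁻¹ : Rˣ) : R)) := by
      have h1 : algebraMap R K (c : R) * algebraMap R K ((c⁻¹ : Rˣ) : R) = 1 := by
        rw [← map_mul, Units.mul_inv, map_one]
      rw [← map_inv₀, inv_eq_of_mul_eq_one_right h1]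
    rw [e]
    exact hb1_const_mem (M' * q) hπ _
  have hcVz : ∀ c : Rˣ, (s34i47c_V0 (K := K) M' q hq hM' hπ).valuation
      ((c' c : (↥(modularFunctionFieldFullC K (M' * q)))ˣ) :
        ↥(modularFunctionFieldFullC K (M' * q))) = 1 := by
    intro c
    have h1 := (vs1_val_eq_one_iff (hcne c)).mp (by rw [← hc'v]; exact hcVi c)
    rw [hc'v]
    refine (vs1_val_eq_one_iff (hcne c)).mpr ⟨?_, ?_⟩
    · rw [s34i47c_mem_V0, AlgEquiv.commutes]; exact h1.1
    · rw [s34i47c_mem_V0, map_inv₀, AlgEquiv.commutes]; exact h1.2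
  -- conversions
  have nu : ∀ {E : Type} [Field E] (V : ValuationSubring E) (x : E),
      x ∈ V.nonunits ↔ V.valuation x < 1 := fun V x => ValuationSubring.mem_nonunits_iff V
  -- LEMMA K
  have hK : ∀ x : ↥(modularFunctionFieldFullC K (M' * q)),
      (cm85_Vinf (K := K) (M' * q) hπ).valuation x = 1 → ∀ c : Rˣ,
      (cm85_Vinf (K := K) (M' * q) hπ).valuation
        (x ^ m - ((c' c : (↥(modularFunctionFieldFullC K (M' * q)))ˣ) :
          ↥(modularFunctionFieldFullC K (M' * q)))) < 1 →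
      ∃ a : Rˣ, (cm85_Vinf (K := K) (M' * q) hπ).valuation
        (x - ((c' a : (↥(modularFunctionFieldFullC K (M' * q)))ˣ) :
          ↥(modularFunctionFieldFullC K (M' * q)))) < 1 := by
    intro x hx c hc
    letI i1 : Algebra R ↥(modularFunctionFieldFullC K (M' * q)) :=
      ((algebraMap K ↥(modularFunctionFieldFullC K (M' * q))).comp (algebraMap R K)).toAlgebra
    haveI t1 : IsScalarTower R K ↥(modularFunctionFieldFullC K (M' * q)) :=
      IsScalarTower.of_algebraMap_eq (fun _ => rfl)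
    have hxV : x ∈ cm85_Vinf (K := K) (M' * q) hπ :=
      ((cm85_Vinf (K := K) (M' * q) hπ).valuation_le_one_iff x).mp hx.le
    have h := fi66_pi_inv_mul_mem (IsLocalRing.residue R) π (pk85_res_iff hπ) hπ.ne_zero _
      (pk85_HF K (M' * q) hπ) _ ((nu (cm85_Vinf (K := K) (M' * q) hπ) _).mpr hc)
    obtain ⟨a, ha, -, hxa⟩ := vc30_Vinf_const_unit (K := K) (M' * q) hπ m hmR x hxV (c : R) 1
      c.isUnit isUnit_one (by
        have e : algebraMap R ↥(modularFunctionFieldFullC K (M' * q)) 1 * x ^ m -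
            algebraMap R ↥(modularFunctionFieldFullC K (M' * q)) (c : R) =
            x ^ m - ((c' c : (↥(modularFunctionFieldFullC K (M' * q)))ˣ) :
              ↥(modularFunctionFieldFullC K (M' * q))) := by
          rw [map_one, one_mul]; rfl
        rw [e]
        exact h)
    refine ⟨ha.unit, ?_⟩
    exact ab66_val_lt_one_of_pi _ _ hπi hxa
  -- (B1 + B2)
  obtain ⟨u0, G, D, hu0, hG, hfe, hu1, hu2, hu3,
      ⟨cu, Au, hAuu, hNau, ⟨ai, hai⟩, ⟨az, haz⟩⟩,
      ⟨du, Bu, hBuu, hNbu, ⟨bi, hbi⟩, ⟨bz, hbz⟩⟩⟩ :=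
    abv94_intrinsic (al97L_alpha K (M' * q) q).toRingHom (al97L_beta K (M' * q) q).toRingHom
      (s35i62_normA K (M' * q) q) (s35i62_normB K (M' * q) q)
      (cm85_Vinf (K := K) (M' * q * q) hπ) V₂ (nsb86_V3 M' q hq hM' hπ)
      (cm85_Vinf (K := K) (M' * q) hπ) (s34i47c_V0 (K := K) M' q hq hM' hπ)
      q m hq.one_lt.le hqm
      (fun x => ab66_hal1 (K := K) M' q hπ x)
      (fun x => ab66_hal2 (K := K) M' q hπ V₂ hV₂ hπ₂ x)
      (fun x => ab66_hal3 (K := K) M' q hq hM' hπ hL _ hV₃mem x)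
      (fun x => ab66_hbe1 (K := K) M' q hπ x)
      (fun x => bv66_beta_mem_V2 (K := K) M' q hq hM' hπ hqR hL V₂ hV₂ hπ₂ hne x)
      (fun x => ab66_hbe3 (K := K) M' q hq hM' hπ hL _ hV₃mem x)
      (fun x hx => by
        obtain ⟨v, hv, h⟩ := hresA1 x hx
        exact ⟨v, hv, ab66_val_lt_one_of_pi _ _ hπ1 h⟩)
      (fun x hx => by
        obtain ⟨v, hv, h⟩ := hresA2 x hx
        exact ⟨v, hv, ab66_val_lt_one_of_pi _ _ hsinv h⟩)
      (fun x hx => by
        obtain ⟨v, hv, h⟩ := hresB2 x hx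
        exact ⟨v, hv, ab66_val_lt_one_of_pi _ _ hsinv h⟩)
      (fun x hx => by
        obtain ⟨v, hv, h⟩ := hresB3 x hx
        exact ⟨v, hv, ab66_val_lt_one_of_pi _ _ hπ3 h⟩)
      (fun x hx => by
        obtain ⟨v, hv, h⟩ := nfv78_ins_alpha (K := K) M' q hq hM' hπ hqR x hx
        exact ⟨v, hv, (nu _ _).mp h⟩)
      (fun x hx => by
        obtain ⟨v, hv, h⟩ := nfv78_ins_beta (K := K) M' q hq hM' hπ hqR x hx
        exact ⟨v, hv, (nu _ _).mp h⟩)
      hNaVi hNaVz hNbVi hNbVz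
      (fun y h1 h2 v1 hv1 v2 hv2 e1 e2 => (nu _ _).mp
        (nfv78_ram_alpha (K := K) M' q hq hπ V₂ hV₂ hπ₂ hne _ hs y h1 h2 v1 hv1 v2 hv2
          ((nu _ _).mpr e1) ((nu _ _).mpr e2)))
      (fun x hx v hv e => (nu _ _).mp
        (nfv78_in_alpha (K := K) M' q hq hM' hπ hqR x hx v hv ((nu _ _).mpr e)))
      (fun x hx v hv e => (nu _ _).mp
        (nfv78_in_beta (K := K) M' q hq hM' hπ hqR x hx v hv ((nu _ _).mpr e)))
      (fun y h3 h2 v3 hv3 v2 hv2 e1 e2 => (nu _ _).mp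
        (nfv78_ram_beta (K := K) M' q hq hM' hπ V₂ hV₂ hπ₂ hne _ hs hw2 y h3 h2 v3 hv3 v2 hv2
          ((nu _ _).mpr e1) ((nu _ _).mpr e2)))
      (ab66_hglue (K := K) M' q hq hM' hπ hqR hL V₂ _ hV₂ hπ₂ hne hV₃mem)
      c' hcVi hcVz
      (fun c => by
        show al97L_beta K (M' * q) q _ = al97L_alpha K (M' * q) q _
        rw [hc'v, AlgHom.commutes, AlgHom.commutes])
      (fun c => by
        show s35i62_normA K (M' * q) q (al97L_alpha K (M' * q) q _) = _
        rw [hc'v, hc'v, AlgHom.commutes, hb1_normA_const M' q hq, Units.val_pow_eq_pow_val,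
          map_pow (algebraMap R K)])
      (fun c => by
        show s35i62_normB K (M' * q) q (al97L_alpha K (M' * q) q _) = _
        rw [hc'v, hc'v, AlgHom.commutes, hb1_normB_const M' q hq hM', Units.val_pow_eq_pow_val,
          map_pow (algebraMap R K)])
      hK f2
      ⟨(vs1_val_eq_one_iff hf2).mpr hf2V1, (vs1_val_eq_one_iff hf2).mpr hf2V2,
        (vs1_val_eq_one_iff hf2).mpr hf2V3⟩
      rA rB A2 B2
      ⟨(vs1_val_eq_one_iff hA2).mpr hA2i, (vs1_val_eq_one_iff hA2).mpr hA2z⟩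
      ⟨(vs1_val_eq_one_iff hB2).mpr hB2i, (vs1_val_eq_one_iff hB2).mpr hB2z⟩
      (by rw [hc'v, ← hrA]; exact hNA) (by rw [hc'v, ← hrB]; exact hNB)
  -- assemble
  have hG0 : G ≠ 0 := by
    intro h
    have := hG.1
    rw [h, map_zero] at this
    exact zero_ne_one this
  have hAu0 : Au ≠ 0 := by
    intro h
    have := hAuu.1
    rw [h, map_zero] at this
    exact zero_ne_one this
  have hBu0 : Bu ≠ 0 := by
    intro h
    have := hBuu.1
    rw [h, map_zero] at this
    exact zero_ne_one this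
  have hDK : algebraMap R K (D : R) ≠ 0 := fun h => hcne D (by rw [h, map_zero])
  have hfe' : f2 ^ ((q - 1) * (q ^ 2 - 1)) =
      algebraMap K ↥(modularFunctionFieldFullC K (M' * q * q)) (algebraMap R K (D : R)) *
        G ^ m * u0 := by
    rw [hfe]
    show al97L_alpha K (M' * q) q _ * G ^ m * u0 = _
    rw [hc'v, AlgHom.commutes]
  refine ⟨u0, G / y ^ ((q - 1) * (q ^ 2 - 1)),
    algebraMap R K (D : R) * (c0 ^ ((q - 1) * (q ^ 2 - 1)))⁻¹,
    ((c' cu : (↥(modularFunctionFieldFullC K (M' * q)))ˣ) : ↥(modularFunctionFieldFullC K (M' * q))),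
    Au,
    ((c' ai : (↥(modularFunctionFieldFullC K (M' * q)))ˣ) : ↥(modularFunctionFieldFullC K (M' * q))),
    ((c' az : (↥(modularFunctionFieldFullC K (M' * q)))ˣ) : ↥(modularFunctionFieldFullC K (M' * q))),
    ((c' du : (↥(modularFunctionFieldFullC K (M' * q)))ˣ) : ↥(modularFunctionFieldFullC K (M' * q))),
    Bu,
    ((c' bi : (↥(modularFunctionFieldFullC K (M' * q)))ˣ) : ↥(modularFunctionFieldFullC K (M' * q))),
    ((c' bz : (↥(modularFunctionFieldFullC K (M' * q)))ˣ) : ↥(modularFunctionFieldFullC K (M' * q))),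
    div_ne_zero hG0 (pow_ne_zero _ hy),
    mul_ne_zero hDK (inv_ne_zero (pow_ne_zero _ hc0)), ?_, ?_⟩
  · have hι0 : algebraMap K ↥(modularFunctionFieldFullC K (M' * q * q)) c0 ≠ 0 :=
      (map_ne_zero _).mpr hc0
    have h1 : f ^ ((q + 1) * (q - 1) * (q ^ 2 - 1)) =
        (f ^ (q + 1)) ^ ((q - 1) * (q ^ 2 - 1)) := by
      rw [show (q + 1) * (q - 1) * (q ^ 2 - 1) = (q + 1) * ((q - 1) * (q ^ 2 - 1)) from
        Nat.mul_assoc _ _ _, pow_mul]
    have h2 : (f ^ (q + 1)) ^ ((q - 1) * (q ^ 2 - 1)) *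
        (algebraMap K ↥(modularFunctionFieldFullC K (M' * q * q)) c0) ^ ((q - 1) * (q ^ 2 - 1)) *
        (y ^ ((q - 1) * (q ^ 2 - 1))) ^ m =
        algebraMap K ↥(modularFunctionFieldFullC K (M' * q * q)) (algebraMap R K (D : R)) *
          G ^ m * u0 := by
      rw [← hfe', hf2def]; ring
    rw [h1, map_mul, map_inv₀, map_pow, div_pow]
    have hy' : (y ^ ((q - 1) * (q ^ 2 - 1))) ^ m ≠ 0 := pow_ne_zero _ (pow_ne_zero _ hy)
    have hc' : (algebraMap K ↥(modularFunctionFieldFullC K (M' * q * q)) c0) ^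
        ((q - 1) * (q ^ 2 - 1)) ≠ 0 := pow_ne_zero _ hι0
    field_simp
    linear_combination h2
  · exact ⟨hu1, hu2, hu3, hNau, hAu0, hNbu, hBu0, ⟨cu, rfl⟩, ⟨ai, rfl⟩, ⟨az, rfl⟩, ⟨du, rfl⟩,
      ⟨bi, rfl⟩, ⟨bz, rfl⟩, hai, haz, hbi, hbz⟩

end hb1b

end Fermat.Agent.S36
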