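import Mathlib
import Fermat.Agent.S36.FinalBind62
import Fermat.Agent.S36.HBBind1

/-!
# S36 lab (helper62, architect): the canonical (HB) is CLOSED — `s36i62f_HBc : s36i62d_HBc`

`s36i62d_HBc` (first of the three hypotheses of the final binder `s36i62d_top` of
`FinalBind62`) is `hb1_main` (helper1, `HBBind1`) at the canonical middle valuation
`v2g64_V2` (helper64) with its three facts `v2g64_V2_alpha`, `v2g64_V2_pi`, `v2g64_V2_val`.

Consequently `s36i62f_top : s36i62d_HPc2 → s36i62d_HPc3 → (frozen S36)`.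
All names are prefixed `s36i62f_`.
-/

set_option autoImplicit false
set_option linter.style.longLine false
set_option linter.unusedVariables false
set_option linter.unusedSectionVars false
set_option linter.style.haveILetI false

open ModularCurve AlgebraicCurve CongruenceSubgroup Polynomial

namespace Fermat.Agent.S36

open Fermat.Agent.S18 Fermat.Agent.S34 Fermat.Agent.S35

local notation "Q̄" => AlgebraicClosure ℚ

/-- **(HB), canonical, PROVED**: `hb1_main` at `V₂ = v2g64_V2`. -/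
theorem s36i62f_HBc : s36i62d_HBc := by
  intro M' q p r _ _ hq hM' hrig hp hpq n R K _ _ _ _ _ _ _ _ _ _ hπ hunit
  have hqR : ¬ IsUnit ((q : ℕ) : R) := hπ.not_isUnit
  have hcop : Nat.Coprime q (p ^ n) :=
    Nat.Coprime.pow_right n ((Nat.coprime_primes hq hp).mpr (Ne.symm hpq))
  exact hb1_main (K := K) M' q hq hM' hπ hqR
    (v2g64_V2 (algebraMap K Q̄) M' q hq hM' hπ (Associated.refl _))
    (v2g64_V2_alpha (algebraMap K Q̄) M' q hq hM' hπ (Associated.refl _))
    (v2g64_V2_pi (algebraMap K Q̄) M' q hq hM' hπ (Associated.refl _))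
    (v2g64_V2_val (algebraMap K Q̄) M' q hq hM' hπ (Associated.refl _))
    (p ^ n) (pow_pos hp.pos n) hcop (hunit (p ^ n) hcop.symm)

/-- **The frozen S36 from the two canonical (HP) statements alone.** -/
theorem s36i62f_top (hP2 : s36i62d_HPc2) (hP3 : s36i62d_HPc3)
    {M : ℕ} [NeZero M] {g : CuspForm (CongruenceSubgroup.Gamma0 M) 2} (hg : g.IsNewform)
    (lam : ℕ) [Fact lam.Prime]
    (S : Finset ℕ)
    (O' : Type) [CommRing O'] [IsDomain O'] [IsDiscreteValuationRing O']
    [IsAdicComplete (IsLocalRing.maximalIdeal O') O'] [Finite (IsLocalRing.ResidueField O')]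
    [CharZero O'] (hlamO' : (lam : O') ∈ IsLocalRing.maximalIdeal O')
    (chig : CuspForm.heckeAlgebra M 2 (↑S : Set ℕ) →+* ℂ)
    (hchig : ∀ (ℓ : ℕ) (hℓ : ℓ.Prime) (hℓM : ¬ ℓ ∣ M) (hℓS : ℓ ∉ (↑S : Set ℕ)),
      chig (CuspForm.heckeAlgebra.T hℓ hℓM hℓS) = ModularFormClass.qCoeff g ℓ)
    (iota : chig.range →+* O')
    (hlamS : lam ∈ S) (hMS : ∀ q : ℕ, q.Prime → q ∣ M → q ∈ S) :
    ∃ (O'' : Type) (_ : CommRing O'') (_ : IsDomain O'') (_ : IsDiscreteValuationRing O'')
      (_ : IsAdicComplete (IsLocalRing.maximalIdeal O'') O'') (_ : Finite (IsLocalRing.ResidueField O''))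
      (_ : CharZero O'') (_ : Algebra O' O'') (_ : Module.Finite O' O'') (_ : IsLocalHom (algebraMap O' O'')),
      Function.Injective (algebraMap O' O'') ∧
      ∃ ρ : GaloisRepAdic O'',
        (∀ (ℓ : ℕ) (hℓ : ℓ.Prime) (hℓM : ¬ ℓ ∣ M) (hℓS : ℓ ∉ (↑S : Set ℕ)),
          ∀ A : ValuationSubring (AlgebraicClosure ℚ), A.LiesOverPrime ℓ →
            ∀ σ : AlgebraicClosure ℚ ≃ₐ[ℚ] AlgebraicClosure ℚ, A.IsFrobeniusAt σ ℓ →
              LinearMap.charpoly (ρ.ρ σ) =
                X ^ 2 - C (algebraMap O' O'' ((iota.comp chig.rangeRestrict) (CuspForm.heckeAlgebra.T hℓ hℓM hℓS))) * X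
                  + C ((ℓ : O''))) ∧
        (∀ q : ℕ, q.Prime → q ≠ lam → M.factorization q = 2 → ¬ ρ.IsUnipotentOnInertiaAt q) :=
  s36i62d_top s36i62f_HBc hP2 hP3 hg lam S O' hlamO' chig hchig iota hlamS hMS

end Fermat.Agent.S36
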