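import Mathlib

/-!
# S36 lab (helper36), row 605 (INV-core), support for (HP): the `q`-th power upgrade

`V` a valuation subring of a field `F`, `π ∈ F`, `q` a prime with `q ∈ π V`.

* `hpu36_val_mul`, `hpu36_val_pow`, `hpu36_val_pow_mul` : `1 + 𝔪_V` is closed under products.
* `hpu36_pow` : if `π⁻¹ y ^ q ∈ V` for all `y ∈ 𝔪_V`, then `x ≡ 1` modulo `𝔪_V` implies
  `x ^ q ≡ 1` modulo `π V`.
* `hpu36_hk_of_unif` : the hypothesis of `hpu36_pow` on a reduced branch (`𝔪_V = π V`).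
* `hpu36_hk_of_ram` : the hypothesis of `hpu36_pow` on a ramified branch (`𝔪_V = s V`,
  `v(s) ^ (q - 1) = v(π)`), in the shapes of `ob72_ram`.
* `hpu36_conj`, `hpu36_conj_unif`, `hpu36_conj_ram` : the literal conjunct
  `π⁻¹ * ((u ^ e * θ ^ m) ^ q - 1) ∈ V` of `ci57x_HP` from `u ≡ 1`, `θ ^ m ≡ 1` modulo `𝔪_V`.

Mathlib only.  All names are prefixed `hpu36_`.
-/

set_option autoImplicit false

namespace Fermat.Agent.S36

variable {F : Type*} [Field F]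

/-- `x ≡ 1` modulo `𝔪_V` implies `x ∈ V`. -/
theorem hpu36_val_le_one (V : ValuationSubring F) (x : F) (hx : V.valuation (x - 1) < 1) :
    V.valuation x ≤ 1 := by
  have h : x = (x - 1) + 1 := by ring
  rw [h]
  refine le_trans (Valuation.map_add _ _ _) (max_le hx.le ?_)
  rw [map_one]

/-- `1 + 𝔪_V` is closed under multiplication. -/
theorem hpu36_val_mul (V : ValuationSubring F) (x t : F) (hx : V.valuation (x - 1) < 1)
    (ht : V.valuation (t - 1) < 1) : V.valuation (x * t - 1) < 1 := by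
  have h : x * t - 1 = (x - 1) * t + (t - 1) := by ring
  rw [h]
  refine Valuation.map_add_lt _ ?_ ht
  rw [map_mul]
  exact lt_of_le_of_lt (mul_le_of_le_one_right zero_le (hpu36_val_le_one V t ht)) hx

/-- `1 + 𝔪_V` is closed under powers. -/
theorem hpu36_val_pow (V : ValuationSubring F) (x : F) (hx : V.valuation (x - 1) < 1) (e : ℕ) :
    V.valuation (x ^ e - 1) < 1 := by
  induction e with
  | zero => simp
  | succ n ih =>
    rw [pow_succ]
    exact hpu36_val_mul V _ _ ih hx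

/-- `u ≡ 1`, `t ≡ 1` modulo `𝔪_V` ⟹ `u ^ e * t ≡ 1`. -/
theorem hpu36_val_pow_mul (V : ValuationSubring F) (u t : F) (e : ℕ)
    (hu : V.valuation (u - 1) < 1) (ht : V.valuation (t - 1) < 1) :
    V.valuation (u ^ e * t - 1) < 1 :=
  hpu36_val_mul V _ _ (hpu36_val_pow V u hu e) ht

/-- **The `q`-th power upgrade**: `x ≡ 1` modulo `𝔪_V` ⟹ `x ^ q ≡ 1` modulo `π V`, if
`q ∈ π V` and `y ^ q ∈ π V` for every `y ∈ 𝔪_V`. -/
theorem hpu36_pow (V : ValuationSubring F) (π : F) (q : ℕ) (hq : q.Prime)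
    (hqπ : π⁻¹ * (q : F) ∈ V) (hk : ∀ y : F, V.valuation y < 1 → π⁻¹ * y ^ q ∈ V)
    (x : F) (hx : V.valuation (x - 1) < 1) : π⁻¹ * (x ^ q - 1) ∈ V := by
  have hyV : x - 1 ∈ V := (V.valuation_le_one_iff _).mp hx.le
  obtain ⟨r, hr⟩ := exists_add_pow_prime_eq hq (⟨x - 1, hyV⟩ : V) 1
  have hr' := congrArg V.subtype hr
  simp only [map_add, map_mul, map_pow, map_one, map_natCast, mul_one, one_pow] at hr'
  have hsub : V.subtype ⟨x - 1, hyV⟩ = x - 1 := rfl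
  have hrV : V.subtype r ∈ V := r.2
  rw [hsub, sub_add_cancel] at hr'
  have e1 : π⁻¹ * (x ^ q - 1) =
      π⁻¹ * (x - 1) ^ q + π⁻¹ * (q : F) * ((x - 1) * V.subtype r) := by
    rw [hr']
    ring
  rw [e1]
  exact V.add_mem _ _ (hk _ hx) (V.mul_mem _ _ hqπ (V.mul_mem _ _ hyV hrV))

/-- The hypothesis `hk` of `hpu36_pow` on a reduced branch. -/
theorem hpu36_hk_of_unif (V : ValuationSubring F) (π : F) (q : ℕ) (hq : q.Prime)
    (hmax : ∀ y ∈ V, y⁻¹ ∉ V → π⁻¹ * y ∈ V) (y : F) (hy : V.valuation y < 1) :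
    π⁻¹ * y ^ q ∈ V := by
  have hyV : y ∈ V := (V.valuation_le_one_iff _).mp hy.le
  by_cases hy0 : y = 0
  · subst hy0
    rw [zero_pow hq.ne_zero, mul_zero]
    exact V.zero_mem
  have hinv : y⁻¹ ∉ V := by
    intro h
    have h1 : V.valuation y⁻¹ ≤ 1 := (V.valuation_le_one_iff _).mpr h
    have h2 : V.valuation y * V.valuation y⁻¹ = 1 := by
      rw [← map_mul, mul_inv_cancel₀ hy0, map_one]
    have h3 : V.valuation y * V.valuation y⁻¹ < 1 :=
      lt_of_le_of_lt (mul_le_of_le_one_right zero_le h1) hy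
    exact absurd h2 h3.ne
  have e : π⁻¹ * y ^ q = π⁻¹ * y * y ^ (q - 1) := by
    rw [mul_assoc, ← pow_succ', Nat.sub_add_cancel hq.one_le]
  rw [e]
  exact V.mul_mem _ _ (hmax y hyV hinv) (V.pow_mem hyV _)

/-- The hypothesis `hk` of `hpu36_pow` on a ramified branch: `𝔪_V = s V`,
`v(s) ^ (q - 1) = v(π)`. -/
theorem hpu36_hk_of_ram (V : ValuationSubring F) (π s : F) (q : ℕ) (hq : q.Prime)
    (hmax : ∀ y ∈ V, y⁻¹ ∉ V → s⁻¹ * y ∈ V)
    (hs : V.valuation s ^ (q - 1) = V.valuation π) (y : F) (hy : V.valuation y < 1) :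
    π⁻¹ * y ^ q ∈ V := by
  have hyV : y ∈ V := (V.valuation_le_one_iff _).mp hy.le
  by_cases hπ0 : π = 0
  · subst hπ0
    rw [inv_zero, zero_mul]
    exact V.zero_mem
  by_cases hy0 : y = 0
  · subst hy0
    rw [zero_pow hq.ne_zero, mul_zero]
    exact V.zero_mem
  have hs0 : s ≠ 0 := by
    rintro rfl
    have h1 : 1 ≤ q - 1 := by have := hq.two_le; omega
    rw [map_zero, zero_pow (by omega)] at hs
    exact hπ0 ((map_eq_zero _).mp hs.symm)
  have hinv : y⁻¹ ∉ V := by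
    intro h
    have h1 : V.valuation y⁻¹ ≤ 1 := (V.valuation_le_one_iff _).mpr h
    have h2 : V.valuation y * V.valuation y⁻¹ = 1 := by
      rw [← map_mul, mul_inv_cancel₀ hy0, map_one]
    have h3 : V.valuation y * V.valuation y⁻¹ < 1 :=
      lt_of_le_of_lt (mul_le_of_le_one_right zero_le h1) hy
    exact absurd h2 h3.ne
  have h4 : V.valuation (s⁻¹ * y) ≤ 1 := (V.valuation_le_one_iff _).mpr (hmax y hyV hinv)
  have hvs0 : V.valuation s ≠ 0 := (map_ne_zero _).mpr hs0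
  have h5 : V.valuation y ≤ V.valuation s := by
    rw [map_mul, map_inv₀, inv_mul_le_iff₀ (zero_lt_iff.mpr hvs0), mul_one] at h4
    exact h4
  rw [← V.valuation_le_one_iff, map_mul, map_inv₀, map_pow,
    inv_mul_le_iff₀ (zero_lt_iff.mpr ((map_ne_zero _).mpr hπ0)), mul_one, ← hs]
  calc V.valuation y ^ q ≤ V.valuation y ^ (q - 1) :=
        pow_le_pow_of_le_one zero_le hy.le (Nat.sub_le q 1)
    _ ≤ V.valuation s ^ (q - 1) := pow_le_pow_left₀ zero_le h5 _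

/-- The literal conjunct of `ci57x_HP`: `π⁻¹ * ((u ^ e * θ ^ m) ^ q - 1) ∈ V`. -/
theorem hpu36_conj (V : ValuationSubring F) (π : F) (q : ℕ) (hq : q.Prime)
    (hqπ : π⁻¹ * (q : F) ∈ V) (hk : ∀ y : F, V.valuation y < 1 → π⁻¹ * y ^ q ∈ V)
    (u θ : F) (e m : ℕ) (hu : V.valuation (u - 1) < 1) (hθ : V.valuation (θ ^ m - 1) < 1) :
    π⁻¹ * ((u ^ e * θ ^ m) ^ q - 1) ∈ V :=
  hpu36_pow V π q hq hqπ hk _ (hpu36_val_pow_mul V u (θ ^ m) e hu hθ)

/-- `hpu36_conj` on a reduced branch (`V₁`, `V₃`). -/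
theorem hpu36_conj_unif (V : ValuationSubring F) (π : F) (q : ℕ) (hq : q.Prime)
    (hqπ : π⁻¹ * (q : F) ∈ V) (hmax : ∀ y ∈ V, y⁻¹ ∉ V → π⁻¹ * y ∈ V)
    (u θ : F) (e m : ℕ) (hu : V.valuation (u - 1) < 1) (hθ : V.valuation (θ ^ m - 1) < 1) :
    π⁻¹ * ((u ^ e * θ ^ m) ^ q - 1) ∈ V :=
  hpu36_conj V π q hq hqπ (hpu36_hk_of_unif V π q hq hmax) u θ e m hu hθ

/-- `hpu36_conj` on the ramified branch (`V₂`, `s` with `v(s) ^ (q - 1) = v(π)`). -/
theorem hpu36_conj_ram (V : ValuationSubring F) (π s : F) (q : ℕ) (hq : q.Prime)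
    (hqπ : π⁻¹ * (q : F) ∈ V) (hmax : ∀ y ∈ V, y⁻¹ ∉ V → s⁻¹ * y ∈ V)
    (hs : V.valuation s ^ (q - 1) = V.valuation π)
    (u θ : F) (e m : ℕ) (hu : V.valuation (u - 1) < 1) (hθ : V.valuation (θ ^ m - 1) < 1) :
    π⁻¹ * ((u ^ e * θ ^ m) ^ q - 1) ∈ V :=
  hpu36_conj V π q hq hqπ (hpu36_hk_of_ram V π s q hq hmax hs) u θ e m hu hθ

/-- `θ ≡ w` modulo `𝔪_V` with `w ^ m = 1` ⟹ `θ ^ m ≡ 1` modulo `𝔪_V`. -/
theorem hpu36_pow_of_cong (V : ValuationSubring F) (θ w : F) (m : ℕ) (hw : w ^ m = 1)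
    (hwV : w ∈ V) (hθ : V.valuation (θ - w) < 1) : V.valuation (θ ^ m - 1) < 1 := by
  by_cases hm : m = 0
  · subst hm
    simp
  have hw0 : w ≠ 0 := by
    rintro rfl
    rw [zero_pow hm] at hw
    exact zero_ne_one hw
  have hwinv : w⁻¹ ∈ V := by
    have e : w⁻¹ = w ^ (m - 1) := by
      have h1 : w * w ^ (m - 1) = 1 := by
        rw [← pow_succ', Nat.sub_add_cancel (Nat.pos_of_ne_zero hm), hw]
      exact (eq_inv_of_mul_eq_one_right h1).symm
    rw [e]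
    exact V.pow_mem hwV _
  have h1 : V.valuation (θ * w⁻¹ - 1) < 1 := by
    have e : θ * w⁻¹ - 1 = (θ - w) * w⁻¹ := by
      field_simp
    rw [e, map_mul]
    exact lt_of_le_of_lt (mul_le_of_le_one_right zero_le
      ((V.valuation_le_one_iff _).mpr hwinv)) hθ
  have h2 := hpu36_val_pow V _ h1 m
  have e2 : (θ * w⁻¹) ^ m = θ ^ m := by
    rw [mul_pow, inv_pow, hw, inv_one, mul_one]
  rwa [e2] at h2

end Fermat.Agent.S36
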