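import Mathlib

/-!
# S36 lab (helper88): abstract norm formulas modulo `p` for a THICK branch and for a purely
inseparable branch (Mathlib only)

`V` a local ring with maximal ideal `p`, `W` a finite free `V`-algebra.

* `nt88_norm_thick` : rank `d`, two reductions `r₁ : W →+* L₁`, `r₂ : W →+* L₂` killing `p`,
  `r₁ W = r₁ V` (residue degree one along the first branch) and
  `ker r₁ · (ker r₂)^(d-1) ⊆ p W` in the elementwise form `y * z ^ (d - 1) ∈ p W`
  (first branch reduced, second branch of multiplicity `d - 1` and residue degree one).  Then for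
  `x : W`, `v₁ v₂ : V` with `r₁ x = r₁ v₁`, `r₂ x = r₂ v₂`:

    `Algebra.norm V x ≡ v₁ * v₂ ^ (d - 1)  (mod p)`.

  In the lab: `V = V_∞'` (level `q M'`), `W = V_1 ⊓ V_2` (level `q² M'`, free of rank `q`),
  `r₁ = red_1`, `r₂ = red_2` (residue map of `V_2`; `v_2(π) = q - 1`), so
  `red'(N y) = red_1(y) · red_2(y)^(q-1)`.

* `nt88_norm_insep` : rank `q` (a prime, zero in the residue field), ONE reduction `r` killing
  `p` with `ker r ⊆ p W`; for `x : W`, `v : V` with `(r x) ^ q = r v`:
  `Algebra.norm V x ≡ v (mod p)`.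
  In the lab: `V = V_0'`, `W = V_3` (unramified, purely inseparable residue extension of
  degree `q`).

`π`-forms: `nt88_norm_thick_dvd`, `nt88_norm_insep_dvd`.
All names are prefixed `nt88_`.
-/

set_option autoImplicit false

namespace Fermat.Agent.S36

open IsLocalRing Module

section NormQuot

variable {V W : Type*} [CommRing V] [IsLocalRing V] [CommRing W] [Algebra V W]
  [Module.Free V W] [Module.Finite V W]

attribute [local instance] Ideal.Quotient.field

/-- The norm commutes with reduction modulo the maximal ideal. -/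
theorem nt88_norm_quotient_mk (x : W) :
    Algebra.norm (V ⧸ maximalIdeal V)
        (Ideal.Quotient.mk (Ideal.map (algebraMap V W) (maximalIdeal V)) x) =
      Ideal.Quotient.mk (maximalIdeal V) (Algebra.norm V x) := by
  classical
  let ι := Module.Free.ChooseBasisIndex V W
  let b : Module.Basis ι V W := Module.Free.chooseBasis V W
  rw [Algebra.norm_eq_matrix_det b, Algebra.norm_eq_matrix_det (basisQuotient b),
    RingHom.map_det]
  congr 1
  ext i j
  simp only [Algebra.leftMulMatrix_apply, Algebra.coe_lmul_eq_mul, LinearMap.toMatrix_apply,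
    basisQuotient_apply, LinearMap.mul_apply', RingHom.mapMatrix_apply, Matrix.map_apply,
    ← map_mul, basisQuotient_repr]

end NormQuot

section Thick

variable {V W L₁ L₂ : Type*} [CommRing V] [IsLocalRing V] [CommRing W] [Algebra V W]
  [Module.Free V W] [Module.Finite V W] [CommRing L₁] [Nontrivial L₁] [CommRing L₂]

attribute [local instance] Ideal.Quotient.field

/-- **Thick two-branch norm formula.**  See the file header. -/
theorem nt88_norm_thick (d : ℕ) (hrank : Module.finrank V W = d)
    (r₁ : W →+* L₁) (r₂ : W →+* L₂)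
    (h₁p : ∀ a ∈ maximalIdeal V, r₁ (algebraMap V W a) = 0)
    (hker : ∀ y z : W, r₁ y = 0 → r₂ z = 0 →
      y * z ^ (d - 1) ∈ Ideal.map (algebraMap V W) (maximalIdeal V))
    (hsurj : ∀ y : W, ∃ v : V, r₁ y = r₁ (algebraMap V W v))
    (x : W) (v₁ v₂ : V) (hx₁ : r₁ x = r₁ (algebraMap V W v₁))
    (hx₂ : r₂ x = r₂ (algebraMap V W v₂)) :
    Algebra.norm V x - v₁ * v₂ ^ (d - 1) ∈ maximalIdeal V := by
  classical
  set pW : Ideal W := Ideal.map (algebraMap V W) (maximalIdeal V) with hpW
  let k := V ⧸ maximalIdeal V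
  let C := W ⧸ pW
  have hle₁ : pW ≤ RingHom.ker r₁ := by
    rw [hpW, Ideal.map_le_iff_le_comap]
    intro a ha
    exact h₁p a ha
  let ρ₁ : C →+* L₁ := Ideal.Quotient.lift pW r₁ fun a ha => hle₁ ha
  have hρ₁ : ∀ y : W, ρ₁ (Ideal.Quotient.mk pW y) = r₁ y := fun y => Ideal.Quotient.lift_mk _ _ _
  have hmk : Function.Surjective (Ideal.Quotient.mk pW) := Ideal.Quotient.mk_surjective
  have halg : ∀ v : V, algebraMap k C (Ideal.Quotient.mk (maximalIdeal V) v) =
      Ideal.Quotient.mk pW (algebraMap V W v) := fun v => rfl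
  let C₀ : Submodule k C := (RingHom.ker ρ₁).restrictScalars k
  have hC₀ : ∀ z : C, z ∈ C₀ ↔ ρ₁ z = 0 := fun z => Iff.rfl
  let xb : C := Ideal.Quotient.mk pW x
  let f : C →ₗ[k] C := LinearMap.mul k C xb
  have hf : ∀ z : C, f z = xb * z := fun z => rfl
  have he : C₀ ≤ C₀.comap f := by
    intro z hz
    rw [Submodule.mem_comap, hf, hC₀, map_mul, (hC₀ z).mp hz, mul_zero]
  have hfin : Module.Finite k C := Module.Finite.of_restrictScalars_finite V _ _
  have hrankC : Module.finrank k C = d := by
    rw [← hrank]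
    exact finrank_quotient_map
  have hone : (C₀.mkQ (1 : C)) ≠ 0 := by
    intro h0
    have h1 : (1 : C) ∈ C₀ := (Submodule.Quotient.mk_eq_zero C₀).mp h0
    rw [hC₀, map_one] at h1
    exact one_ne_zero h1
  have hline : Module.finrank k (C ⧸ C₀) = 1 := by
    rw [finrank_eq_one_iff_of_nonzero' _ hone]
    intro w
    obtain ⟨z, rfl⟩ := C₀.mkQ_surjective w
    obtain ⟨y, rfl⟩ := hmk z
    obtain ⟨v, hv⟩ := hsurj y
    refine ⟨Ideal.Quotient.mk (maximalIdeal V) v, ?_⟩
    rw [← map_smul, Submodule.mkQ_apply, Submodule.mkQ_apply, Submodule.Quotient.eq, hC₀,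
      Algebra.smul_def, mul_one, halg, map_sub, hρ₁, hρ₁, hv, sub_self]
  have hdim₀ : Module.finrank k C₀ = d - 1 := by
    have := C₀.finrank_quotient_add_finrank
    omega
  -- multiplication by `x` is the scalar `v₁` on `C / C₀`
  have hQ : C₀.mapQ C₀ f he =
      (Ideal.Quotient.mk (maximalIdeal V) v₁) • (LinearMap.id : (C ⧸ C₀) →ₗ[k] (C ⧸ C₀)) := by
    apply LinearMap.ext
    intro w
    obtain ⟨z, rfl⟩ := C₀.mkQ_surjective w
    rw [Submodule.mkQ_apply, Submodule.mapQ_apply, LinearMap.smul_apply, LinearMap.id_apply,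
      ← Submodule.Quotient.mk_smul, Submodule.Quotient.eq, hC₀, hf, Algebra.smul_def, ← sub_mul,
      map_mul, map_sub, halg, hρ₁, hρ₁, hx₁, sub_self, zero_mul]
  have hdetQ : LinearMap.det (C₀.mapQ C₀ f he) = Ideal.Quotient.mk (maximalIdeal V) v₁ := by
    rw [hQ, LinearMap.det_smul, hline, pow_one, LinearMap.det_id, mul_one]
  -- on `C₀`, `b - x` is nilpotent (`b` the class of `v₂`)
  set b : k := Ideal.Quotient.mk (maximalIdeal V) v₂ with hb
  let N : Module.End k C₀ := algebraMap k (Module.End k C₀) b - f.restrict he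
  have hNpow : ∀ (n : ℕ) (z : C₀), (((N ^ n) z : C₀) : C) = (algebraMap k C b - xb) ^ n * (z : C) := by
    intro n
    induction n with
    | zero => intro z; simp
    | succ n ih =>
      intro z
      rw [pow_succ', Module.End.mul_apply, pow_succ', mul_assoc, ← ih z]
      show ((N ((N ^ n) z) : C₀) : C) = _
      simp only [N, LinearMap.sub_apply, Module.algebraMap_end_apply, Submodule.coe_sub,
        Submodule.coe_smul, LinearMap.coe_restrict_apply, hf, Algebra.smul_def]
      ring
  have hNnil : IsNilpotent N := by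
    refine ⟨d - 1, ?_⟩
    apply LinearMap.ext
    intro z
    apply Subtype.ext
    rw [hNpow, LinearMap.zero_apply, Submodule.coe_zero]
    obtain ⟨y, hy⟩ := hmk (z : C)
    have hy1 : r₁ y = 0 := by
      rw [← hρ₁, hy]
      exact (hC₀ _).mp z.2
    have hz2 : r₂ (algebraMap V W v₂ - x) = 0 := by
      rw [map_sub, hx₂, sub_self]
    have := hker y (algebraMap V W v₂ - x) hy1 hz2
    have h0 : Ideal.Quotient.mk pW (y * (algebraMap V W v₂ - x) ^ (d - 1)) = 0 :=
      Ideal.Quotient.eq_zero_iff_mem.mpr this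
    rw [map_mul, map_pow, map_sub, hy] at h0
    rw [hb, halg, mul_comm]
    exact h0
  have hdetR : LinearMap.det (f.restrict he) = b ^ (d - 1) := by
    have h1 := LinearMap.eval_charpoly N b
    rw [hNnil.charpoly_eq_X_pow_finrank, Polynomial.eval_pow, Polynomial.eval_X, hdim₀] at h1
    rw [h1]
    congr 1
    show f.restrict he = algebraMap k (Module.End k C₀) b - (algebraMap k (Module.End k C₀) b - f.restrict he)
    abel
  have hdet : LinearMap.det f = LinearMap.det (f.restrict he) * LinearMap.det (C₀.mapQ C₀ f he) :=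
    LinearMap.det_eq_det_mul_det C₀ f he
  have hnorm : Algebra.norm k xb = LinearMap.det f := rfl
  have key : Ideal.Quotient.mk (maximalIdeal V) (Algebra.norm V x) =
      Ideal.Quotient.mk (maximalIdeal V) (v₁ * v₂ ^ (d - 1)) := by
    rw [← nt88_norm_quotient_mk x]
    show Algebra.norm k xb = _
    rw [hnorm, hdet, hdetR, hdetQ, map_mul, map_pow, mul_comm]
  exact Ideal.Quotient.eq.mp key

/-- **Thick two-branch norm formula, `π`-form.** -/
theorem nt88_norm_thick_dvd (π : V) (hπ : maximalIdeal V = Ideal.span {π})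
    (d : ℕ) (hrank : Module.finrank V W = d) (r₁ : W →+* L₁) (r₂ : W →+* L₂)
    (h₁π : r₁ (algebraMap V W π) = 0)
    (hker : ∀ y z : W, r₁ y = 0 → r₂ z = 0 → ∃ w : W, y * z ^ (d - 1) = algebraMap V W π * w)
    (hsurj : ∀ y : W, ∃ v : V, r₁ y = r₁ (algebraMap V W v))
    (x : W) (v₁ v₂ : V) (hx₁ : r₁ x = r₁ (algebraMap V W v₁))
    (hx₂ : r₂ x = r₂ (algebraMap V W v₂)) :
    π ∣ Algebra.norm V x - v₁ * v₂ ^ (d - 1) := by
  have hmem : ∀ a : V, a ∈ maximalIdeal V ↔ π ∣ a := fun a => by
    rw [hπ, Ideal.mem_span_singleton]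
  rw [← hmem]
  refine nt88_norm_thick d hrank r₁ r₂ ?_ ?_ hsurj x v₁ v₂ hx₁ hx₂
  · intro a ha
    obtain ⟨c, rfl⟩ := (hmem a).mp ha
    rw [map_mul, map_mul, h₁π, zero_mul]
  · intro y z h1 h2
    obtain ⟨w, hw⟩ := hker y z h1 h2
    rw [hw]
    exact Ideal.mul_mem_right _ _ (Ideal.mem_map_of_mem _ ((hmem π).mpr dvd_rfl))

end Thick

section Insep

variable {V W L : Type*} [CommRing V] [IsLocalRing V] [CommRing W] [Algebra V W]
  [Module.Free V W] [Module.Finite V W] [CommRing L]

attribute [local instance] Ideal.Quotient.field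

/-- **Purely inseparable one-branch norm formula.**  See the file header. -/
theorem nt88_norm_insep (q : ℕ) (hq : q.Prime) (hqV : (q : V) ∈ maximalIdeal V)
    (hrank : Module.finrank V W = q) (r : W →+* L)
    (hp : ∀ a ∈ maximalIdeal V, r (algebraMap V W a) = 0)
    (hker : ∀ y : W, r y = 0 → y ∈ Ideal.map (algebraMap V W) (maximalIdeal V))
    (x : W) (v : V) (hx : r x ^ q = r (algebraMap V W v)) :
    Algebra.norm V x - v ∈ maximalIdeal V := by
  classical
  set pW : Ideal W := Ideal.map (algebraMap V W) (maximalIdeal V) with hpW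
  let k := V ⧸ maximalIdeal V
  let C := W ⧸ pW
  have hle : pW ≤ RingHom.ker r := by
    rw [hpW, Ideal.map_le_iff_le_comap]
    intro a ha
    exact hp a ha
  let ρ : C →+* L := Ideal.Quotient.lift pW r fun a ha => hle ha
  have hρ : ∀ y : W, ρ (Ideal.Quotient.mk pW y) = r y := fun y => Ideal.Quotient.lift_mk _ _ _
  have hmk : Function.Surjective (Ideal.Quotient.mk pW) := Ideal.Quotient.mk_surjective
  have halg : ∀ v : V, algebraMap k C (Ideal.Quotient.mk (maximalIdeal V) v) =
      Ideal.Quotient.mk pW (algebraMap V W v) := fun v => rfl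
  have hinj : ∀ z : C, ρ z = 0 → z = 0 := by
    intro z h1
    obtain ⟨y, rfl⟩ := hmk z
    rw [hρ] at h1
    exact Ideal.Quotient.eq_zero_iff_mem.mpr (hker y h1)
  let xb : C := Ideal.Quotient.mk pW x
  let f : C →ₗ[k] C := LinearMap.mul k C xb
  have hf : ∀ z : C, f z = xb * z := fun z => rfl
  have hfin : Module.Finite k C := Module.Finite.of_restrictScalars_finite V _ _
  have hrankC : Module.finrank k C = q := by
    rw [← hrank]
    exact finrank_quotient_map
  have hR : f ^ q = (Ideal.Quotient.mk (maximalIdeal V) v) • (LinearMap.id : C →ₗ[k] C) := by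
    apply LinearMap.ext
    intro z
    have hpow : ∀ n : ℕ, (f ^ n) z = xb ^ n * z := by
      intro n
      induction n with
      | zero => simp
      | succ n ih =>
        rw [pow_succ', Module.End.mul_apply, hf, ih, pow_succ']
        ring
    rw [hpow, LinearMap.smul_apply, LinearMap.id_apply, Algebra.smul_def, ← sub_eq_zero,
      ← sub_mul]
    apply hinj
    rw [map_mul, map_sub, map_pow, halg, hρ, hρ, hx, sub_self, zero_mul]
  have hq0 : ((q : ℕ) : k) = 0 := by
    have : ((q : ℕ) : k) = Ideal.Quotient.mk (maximalIdeal V) (q : V) := (map_natCast _ q).symm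
    rw [this]
    exact Ideal.Quotient.eq_zero_iff_mem.mpr hqV
  have : Fact q.Prime := ⟨hq⟩
  have : CharP k q := (CharP.charP_iff_prime_eq_zero hq).mpr hq0
  have hdet : LinearMap.det f = Ideal.Quotient.mk (maximalIdeal V) v := by
    apply frobenius_inj k q
    show LinearMap.det f ^ q = (Ideal.Quotient.mk (maximalIdeal V) v) ^ q
    rw [← map_pow, hR, LinearMap.det_smul, hrankC, LinearMap.det_id, mul_one]
  have hnorm : Algebra.norm k xb = LinearMap.det f := rfl
  have key : Ideal.Quotient.mk (maximalIdeal V) (Algebra.norm V x) =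
      Ideal.Quotient.mk (maximalIdeal V) v := by
    rw [← nt88_norm_quotient_mk x]
    show Algebra.norm k xb = _
    rw [hnorm, hdet]
  exact Ideal.Quotient.eq.mp key

/-- **Purely inseparable one-branch norm formula, `π`-form.** -/
theorem nt88_norm_insep_dvd (π : V) (hπ : maximalIdeal V = Ideal.span {π})
    (q : ℕ) (hq : q.Prime) (hqV : π ∣ (q : V))
    (hrank : Module.finrank V W = q) (r : W →+* L)
    (hrπ : r (algebraMap V W π) = 0)
    (hker : ∀ y : W, r y = 0 → ∃ w : W, y = algebraMap V W π * w)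
    (x : W) (v : V) (hx : r x ^ q = r (algebraMap V W v)) :
    π ∣ Algebra.norm V x - v := by
  have hmem : ∀ a : V, a ∈ maximalIdeal V ↔ π ∣ a := fun a => by
    rw [hπ, Ideal.mem_span_singleton]
  rw [← hmem]
  refine nt88_norm_insep q hq ((hmem _).mpr hqV) hrank r ?_ ?_ x v hx
  · intro a ha
    obtain ⟨c, rfl⟩ := (hmem a).mp ha
    rw [map_mul, map_mul, hrπ, zero_mul]
  · intro y h1
    obtain ⟨w, rfl⟩ := hker y h1
    exact Ideal.mul_mem_right _ _ (Ideal.mem_map_of_mem _ ((hmem π).mpr dvd_rfl))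

end Insep

end Fermat.Agent.S36
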