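import Fermat.Agent.S34.OnlyExt10

/-!
# S36 (pre-GO, helper72): the only extensions of a discrete valuation in degree `n + 1`

Abstract, Mathlib-only (reuses the elementary toolkit `oe10_*` of `S34/OnlyExt10.lean`).

* **Ramified pair** (`oe72_ram_main`).  `L / K` finite of degree `≤ n + 1`, `V'` a discrete
  valuation subring of `K` with uniformizer `π`, `V1 ≠ V2` valuation subrings of `L` over `V'`,
  and `s : L` with `v₂(s) ^ n = v₂(π)`.  Then `V1`, `V2` are the only valuation subrings over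
  `V'`, `V1 ⊓ V2` is integral over `V'`, `π` is a uniformizer of `V1`, `s` is a uniformizer of
  `V2`, both residue fields are that of `V'`, and the degree is exactly `n + 1`.
  (Level `q²`: `K = F(M'q)`, `L = F(M'q²)` along `α`, `V' = V_∞'`, `n = q - 1`,
  `s = j(q²τ) - j(τ)`.)

* **Single inert extension** (`oe72_inert_main`).  `L / K` finite of degree `≤ q`, `V` over
  `V'` with a Kummer-shape residue witness `y ^ q ≡ a`, `a` not a `q`-th power modulo `π`.  Then
  `V` is the only valuation subring over `V'`, it is integral over `V'`, `π` is a uniformizer,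
  the residue field is generated by `y`, and the degree is exactly `q`.
  (Level `q²`: `V' = V_0'`, `V = V_3`.)
-/

set_option autoImplicit false

namespace Fermat.Agent.S36

open Fermat.Agent.S34

/-- In a finite sum whose nonzero terms have pairwise distinct valuations, every term is
dominated by the sum. -/
theorem oe72_le_sum {L Γ : Type*} [Field L] [LinearOrderedCommGroupWithZero Γ]
    (v : Valuation L Γ) {ι : Type*} [DecidableEq ι] (s : Finset ι) (f : ι → L)
    (hdis : ∀ i ∈ s, ∀ j ∈ s, i ≠ j → f i ≠ 0 → v (f i) ≠ v (f j)) :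
    ∀ j ∈ s, v (f j) ≤ v (∑ i ∈ s, f i) := by
  intro j hj
  obtain ⟨i, hi, hmax⟩ := Finset.exists_max_image s (fun i => v (f i)) ⟨j, hj⟩
  by_cases hfi : v (f i) = 0
  · have h1 := hmax j hj
    rw [hfi] at h1
    exact le_trans h1 zero_le
  · have hlt : ∀ k ∈ s.erase i, v (f k) < v (f i) := by
      intro k hk
      rw [Finset.mem_erase] at hk
      exact lt_of_le_of_ne (hmax k hk.2)
        (fun h => hdis i hi k hk.2 (Ne.symm hk.1) ((Valuation.ne_zero_iff v).1 hfi) h.symm)
    have h1 := Valuation.map_sum_lt v hfi hlt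
    rw [← Finset.add_sum_erase s f hi, Valuation.map_add_eq_of_lt_left v h1]
    exact hmax j hj

section one

variable {K L : Type*} [Field K] [Field L] [Algebra K L]
variable {V' : ValuationSubring K} {π : K} {V : ValuationSubring L}

/-- A family of elements of `V`, none divisible by `π`, whose valuations are pairwise distinct
modulo the values of `K`, is independent modulo `π`. -/
theorem oe72_ind_of_distinct (hD : oe10_DVR V' π) (hV : oe10_Over V' π V) {ι : Type*}
    [Fintype ι] (z : ι → L) (hz : ∀ i, z i ∈ V)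
    (hbig : ∀ i, V.valuation (algebraMap K L π) < V.valuation (z i))
    (hdis : ∀ i j, i ≠ j → ∀ a b : K, a ≠ 0 → b ≠ 0 →
      V.valuation (algebraMap K L a * z i) ≠ V.valuation (algebraMap K L b * z j)) :
    oe10_Ind V' π V z := by
  classical
  refine ⟨hz, ?_⟩
  intro c hc hmem i
  rw [oe10_pi_inv_mul_mem_iff hD] at hmem
  by_cases hc0 : c i = 0
  · rw [hc0, mul_zero]; exact V'.zero_mem
  apply hD.hmax _ (hc i)
  intro hinv
  have hle := oe72_le_sum V.valuation Finset.univ (fun k => algebraMap K L (c k) * z k) ?_ i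
    (Finset.mem_univ _)
  · rw [map_mul, oe10_val_unit hV (hc i) hinv hc0, one_mul] at hle
    exact absurd (lt_of_lt_of_le (hbig i) hle) (not_lt.2 hmem)
  · intro k _ j _ hkj hfk
    have hck : c k ≠ 0 := by
      intro h
      apply hfk
      simp only [h, map_zero, zero_mul]
    by_cases hcj : c j = 0
    · simp only [hcj, map_zero, zero_mul]
      exact (Valuation.ne_zero_iff _).2 hfk
    · exact hdis k j hkj (c k) (c j) hck hcj

/-- Adding to an independent family an element whose residue is not in the span. -/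
theorem oe72_ind_extend_res (hD : oe10_DVR V' π) (hV : oe10_Over V' π V) {ι : Type*}
    [Fintype ι] (z : ι → L) (hz : oe10_Ind V' π V z) (x : L) (hx : x ∈ V)
    (hB : ∀ c : ι → K, (∀ i, c i ∈ V') →
      V.valuation (algebraMap K L π) < V.valuation (x - ∑ i, algebraMap K L (c i) * z i)) :
    oe10_Ind V' π V (Sum.elim z (fun _ : Unit => x)) := by
  refine ⟨?_, ?_⟩
  · rintro (i | u)
    · exact hz.1 i
    · exact hx
  intro c hc hmem
  rw [Fintype.sum_sum_type] at hmem
  simp only [Sum.elim_inl, Sum.elim_inr, Finset.univ_unique, Finset.sum_singleton] at hmem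
  have hc'm : c (Sum.inr default) ∈ V' := hc _
  have key : π⁻¹ * c (Sum.inr default) ∈ V' := by
    by_cases hc0 : c (Sum.inr default) = 0
    · rw [hc0, mul_zero]; exact V'.zero_mem
    apply hD.hmax _ hc'm
    intro hu
    exfalso
    have hv1 : V.valuation (algebraMap K L (c (Sum.inr default))) = 1 :=
      oe10_val_unit hV hc'm hu hc0
    have hB' := hB (fun i => - ((c (Sum.inr default))⁻¹ * c (Sum.inl i)))
      (fun i => V'.neg_mem _ (V'.mul_mem _ _ hu (hc _)))
    rw [oe10_pi_inv_mul_mem_iff hD] at hmem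
    have hc0' : algebraMap K L (c (Sum.inr default)) ≠ 0 := (_root_.map_ne_zero _).2 hc0
    have e : x - ∑ i, algebraMap K L (- ((c (Sum.inr default))⁻¹ * c (Sum.inl i))) * z i
        = (algebraMap K L (c (Sum.inr default)))⁻¹ *
          (∑ i, algebraMap K L (c (Sum.inl i)) * z i
            + algebraMap K L (c (Sum.inr default)) * x) := by
      rw [mul_add, inv_mul_cancel_left₀ hc0', Finset.mul_sum, sub_eq_add_neg, add_comm,
        ← Finset.sum_neg_distrib]
      congr 1
      apply Finset.sum_congr rfl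
      intro i _
      rw [map_neg, map_mul, map_inv₀]
      ring
    rw [e, map_mul, map_inv₀, hv1, inv_one, one_mul] at hB'
    exact absurd hB' (not_lt.2 hmem)
  have h2 : (algebraMap K L π)⁻¹ * ∑ i, algebraMap K L (c (Sum.inl i)) * z i ∈ V := by
    have e : (algebraMap K L π)⁻¹ * ∑ i, algebraMap K L (c (Sum.inl i)) * z i
        = (algebraMap K L π)⁻¹ * (∑ i, algebraMap K L (c (Sum.inl i)) * z i
            + algebraMap K L (c (Sum.inr default)) * x)
          - algebraMap K L (π⁻¹ * c (Sum.inr default)) * x := by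
      rw [map_mul, map_inv₀]
      ring
    rw [e]
    exact V.sub_mem hmem (V.mul_mem _ _ (hV.le _ key) hx)
  have h3 := hz.2 (fun i => c (Sum.inl i)) (fun i => hc _) h2
  rintro (i | u)
  · exact h3 i
  · exact key

end one

section pow

variable {K L : Type*} [Field K] [Field L] [Algebra K L]
variable {V' : ValuationSubring K} {π : K} {V : ValuationSubring L} {n : ℕ} {s : L}

theorem oe72_val_s_pos (hD : oe10_DVR V' π) (hV : oe10_Over V' π V)
    (hs : V.valuation s ^ n = V.valuation (algebraMap K L π)) : 0 < V.valuation s := by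
  rw [zero_lt_iff]
  intro h
  rcases Nat.eq_zero_or_pos n with h0 | h0
  · subst h0
    have h2 := oe10_val_pi_lt_one hD hV
    rw [← hs, pow_zero] at h2
    exact lt_irrefl _ h2
  · have h1 := oe10_val_pi_pos (V := V) hD
    rw [← hs, h, zero_pow (by omega)] at h1
    exact lt_irrefl _ h1

theorem oe72_val_s_lt_one (hD : oe10_DVR V' π) (hV : oe10_Over V' π V)
    (hs : V.valuation s ^ n = V.valuation (algebraMap K L π)) : V.valuation s < 1 := by
  by_contra h
  have h1 : 1 ≤ V.valuation s ^ n := one_le_pow₀ (not_lt.1 h)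
  rw [hs] at h1
  exact absurd (oe10_val_pi_lt_one hD hV) (not_lt.2 h1)

theorem oe72_pow_inj (hD : oe10_DVR V' π) (hV : oe10_Over V' π V)
    (hs : V.valuation s ^ n = V.valuation (algebraMap K L π)) {a b : ℕ}
    (h : V.valuation s ^ a = V.valuation s ^ b) : a = b :=
  (pow_right_strictAnti₀ (oe72_val_s_pos hD hV hs) (oe72_val_s_lt_one hD hV hs)).injective h

theorem oe72_pow_lt (hD : oe10_DVR V' π) (hV : oe10_Over V' π V)
    (hs : V.valuation s ^ n = V.valuation (algebraMap K L π)) {a b : ℕ}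
    (h : V.valuation s ^ a < V.valuation s ^ b) : b < a :=
  (pow_right_strictAnti₀ (oe72_val_s_pos hD hV hs) (oe72_val_s_lt_one hD hV hs)).lt_iff_gt.1 h

/-- Values of `K` are powers of `v(s) ^ n`. -/
theorem oe72_val_K (hD : oe10_DVR V' π) (hV : oe10_Over V' π V)
    (hs : V.valuation s ^ n = V.valuation (algebraMap K L π)) {a : K} (ha : a ≠ 0) :
    ∃ k l : ℕ, V.valuation (algebraMap K L a) * V.valuation s ^ (n * k)
      = V.valuation s ^ (n * l) := by
  obtain ⟨k, l, h⟩ := oe10_val_of_ne_zero hD hV ha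
  refine ⟨k, l, ?_⟩
  rw [pow_mul, pow_mul, hs]
  exact h

theorem oe72_s_mem (hD : oe10_DVR V' π) (hV : oe10_Over V' π V)
    (hs : V.valuation s ^ n = V.valuation (algebraMap K L π)) : s ∈ V :=
  (V.valuation_le_one_iff _).1 (oe72_val_s_lt_one hD hV hs).le

/-- The powers `1, s, …, s ^ (n - 1)` are independent modulo `π`, and stay so after adding an
element `x` with `v(s) < v(x) < 1`. -/
theorem oe72_pow_distinct (hD : oe10_DVR V' π) (hV : oe10_Over V' π V)
    (hs : V.valuation s ^ n = V.valuation (algebraMap K L π)) (i j : Fin n) (hij : i ≠ j)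
    (a b : K) (ha : a ≠ 0) (hb : b ≠ 0) :
    V.valuation (algebraMap K L a * s ^ (i : ℕ)) ≠ V.valuation (algebraMap K L b * s ^ (j : ℕ)) := by
  intro h
  obtain ⟨k, l, hkl⟩ := oe72_val_K hD hV hs ha
  obtain ⟨k', l', hkl'⟩ := oe72_val_K hD hV hs hb
  rw [map_mul, map_mul, map_pow, map_pow] at h
  have h2 : V.valuation s ^ (n * l + n * k' + (i : ℕ)) = V.valuation s ^ (n * l' + n * k + (j : ℕ)) := by
    calc V.valuation s ^ (n * l + n * k' + (i : ℕ))
        = (V.valuation (algebraMap K L a) * V.valuation s ^ (i : ℕ)) *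
            (V.valuation s ^ (n * k) * V.valuation s ^ (n * k')) := by
          rw [pow_add, pow_add, ← hkl]; ac_rfl
      _ = (V.valuation (algebraMap K L b) * V.valuation s ^ (j : ℕ)) *
            (V.valuation s ^ (n * k) * V.valuation s ^ (n * k')) := by rw [h]
      _ = V.valuation s ^ (n * l' + n * k + (j : ℕ)) := by
          rw [pow_add, pow_add, ← hkl']; ac_rfl
  have h3 := oe72_pow_inj hD hV hs h2
  apply hij
  apply Fin.ext
  have hi := i.2
  have hj := j.2
  have e1 : (n * l + n * k' + (i : ℕ)) % n = (i : ℕ) := by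
    rw [← Nat.mul_add, Nat.add_comm, Nat.add_mul_mod_self_left, Nat.mod_eq_of_lt hi]
  have e2 : (n * l' + n * k + (j : ℕ)) % n = (j : ℕ) := by
    rw [← Nat.mul_add, Nat.add_comm, Nat.add_mul_mod_self_left, Nat.mod_eq_of_lt hj]
  rw [← e1, ← e2, h3]

theorem oe72_pow_big (hD : oe10_DVR V' π) (hV : oe10_Over V' π V)
    (hs : V.valuation s ^ n = V.valuation (algebraMap K L π)) (i : Fin n) :
    V.valuation (algebraMap K L π) < V.valuation (s ^ (i : ℕ)) := by
  rw [map_pow, ← hs]
  exact pow_lt_pow_right_of_lt_one₀ (oe72_val_s_pos hD hV hs) (oe72_val_s_lt_one hD hV hs) i.2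

theorem oe72_ind_pow (hD : oe10_DVR V' π) (hV : oe10_Over V' π V)
    (hs : V.valuation s ^ n = V.valuation (algebraMap K L π)) :
    oe10_Ind V' π V (fun i : Fin n => s ^ (i : ℕ)) :=
  oe72_ind_of_distinct hD hV _ (fun _ => V.pow_mem (oe72_s_mem hD hV hs) _)
    (oe72_pow_big hD hV hs) (oe72_pow_distinct hD hV hs)

/-- An element strictly between `s` and the units would give one more independent element. -/
theorem oe72_ind_pow_extend (hD : oe10_DVR V' π) (hV : oe10_Over V' π V) (hn : 1 ≤ n)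
    (hs : V.valuation s ^ n = V.valuation (algebraMap K L π)) (x : L)
    (hx1 : V.valuation x < 1) (hx2 : V.valuation s < V.valuation x) :
    oe10_Ind V' π V (Sum.elim (fun i : Fin n => s ^ (i : ℕ)) (fun _ : Unit => x)) := by
  have hs0 := oe72_val_s_pos hD hV hs
  have hs1 := oe72_val_s_lt_one hD hV hs
  have hπs : V.valuation (algebraMap K L π) ≤ V.valuation s := by
    rw [← hs]
    calc V.valuation s ^ n ≤ V.valuation s ^ 1 := pow_le_pow_of_le_one hs0.le hs1.le hn
      _ = V.valuation s := pow_one _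
  -- the key impossibility: `v(x) * v(s)^B = v(s)^A`
  have key : ∀ A B : ℕ, V.valuation x * V.valuation s ^ B ≠ V.valuation s ^ A := by
    intro A B h
    have hB0 : 0 < V.valuation s ^ B := pow_pos hs0 _
    have h1 : V.valuation s ^ A < V.valuation s ^ B := by
      rw [← h]
      calc V.valuation x * V.valuation s ^ B < 1 * V.valuation s ^ B :=
            mul_lt_mul_of_pos_right hx1 hB0
        _ = V.valuation s ^ B := one_mul _
    have h2 : V.valuation s ^ (B + 1) < V.valuation s ^ A := by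
      rw [← h, pow_succ, mul_comm (V.valuation s ^ B)]
      exact mul_lt_mul_of_pos_right hx2 hB0
    have h3 := oe72_pow_lt hD hV hs h1
    have h4 := oe72_pow_lt hD hV hs h2
    omega
  apply oe72_ind_of_distinct hD hV
  · rintro (i | u)
    · exact V.pow_mem (oe72_s_mem hD hV hs) _
    · exact (V.valuation_le_one_iff _).1 hx1.le
  · rintro (i | u)
    · exact oe72_pow_big hD hV hs i
    · exact lt_of_le_of_lt hπs hx2
  · rintro (i | u) (j | u') hij a b ha hb
    · exact oe72_pow_distinct hD hV hs i j (fun h => hij (by rw [h])) a b ha hb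
    · -- power against `x`
      intro h
      simp only [Sum.elim_inl, Sum.elim_inr] at h
      obtain ⟨k, l, hkl⟩ := oe72_val_K hD hV hs ha
      obtain ⟨k', l', hkl'⟩ := oe72_val_K hD hV hs hb
      rw [map_mul, map_mul, map_pow] at h
      apply key (n * l + n * k' + (i : ℕ)) (n * l' + n * k)
      calc V.valuation x * V.valuation s ^ (n * l' + n * k)
          = (V.valuation (algebraMap K L b) * V.valuation x) *
              (V.valuation s ^ (n * k) * V.valuation s ^ (n * k')) := by
            rw [pow_add, ← hkl']; ac_rfl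
        _ = (V.valuation (algebraMap K L a) * V.valuation s ^ (i : ℕ)) *
              (V.valuation s ^ (n * k) * V.valuation s ^ (n * k')) := by rw [h]
        _ = V.valuation s ^ (n * l + n * k' + (i : ℕ)) := by
            rw [pow_add, pow_add, ← hkl]; ac_rfl
    · intro h
      simp only [Sum.elim_inl, Sum.elim_inr] at h
      obtain ⟨k, l, hkl⟩ := oe72_val_K hD hV hs ha
      obtain ⟨k', l', hkl'⟩ := oe72_val_K hD hV hs hb
      rw [map_mul, map_mul, map_pow] at h
      apply key (n * l' + n * k + (j : ℕ)) (n * l + n * k')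
      calc V.valuation x * V.valuation s ^ (n * l + n * k')
          = (V.valuation (algebraMap K L a) * V.valuation x) *
              (V.valuation s ^ (n * k) * V.valuation s ^ (n * k')) := by
            rw [pow_add, ← hkl]; ac_rfl
        _ = (V.valuation (algebraMap K L b) * V.valuation s ^ (j : ℕ)) *
              (V.valuation s ^ (n * k) * V.valuation s ^ (n * k')) := by rw [h]
        _ = V.valuation s ^ (n * l' + n * k + (j : ℕ)) := by
            rw [pow_add, pow_add, ← hkl']; ac_rfl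
    · exact absurd rfl hij

end pow


section pair

variable {K L : Type*} [Field K] [Field L] [Algebra K L] [FiniteDimensional K L]
variable {V' : ValuationSubring K} {π : K} {V1 V2 : ValuationSubring L}

/-- Two independent families (at `V1` and at `V2`) whose total size reaches the degree give a
`K`-basis of `L` inside `V1 ⊓ V2` in which `V1 ⊓ V2` has coordinates in `V'`. -/
theorem oe72_pair_basis (hD : oe10_DVR V' π) (hV1 : oe10_Over V' π V1) (hV2 : oe10_Over V' π V2)
    (hne : V1 ≠ V2) {ι₁ ι₂ : Type*} [Fintype ι₁] [Fintype ι₂] [Nonempty ι₁]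
    (z1 : ι₁ → L) (z2 : ι₂ → L) (h1 : oe10_Ind V' π V1 z1) (h2 : oe10_Ind V' π V2 z2)
    (hdeg : Module.finrank K L ≤ Fintype.card ι₁ + Fintype.card ι₂) :
    ∃ b : Module.Basis (ι₁ ⊕ ι₂) K L, (∀ i, b i ∈ V1 ∧ b i ∈ V2) ∧
      ∀ x : L, x ∈ V1 → x ∈ V2 → ∀ i, b.repr x i ∈ V' := by
  obtain ⟨e, hmem, he⟩ := oe10_combine hD hV1 hV2 hne z1 z2 h1 h2
  have hli : LinearIndependent K e := by
    apply oe10_linInd hD e
    intro c hc hsum
    apply he c hc
    · rw [hsum, mul_zero]; exact V1.zero_mem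
    · rw [hsum, mul_zero]; exact V2.zero_mem
  have hcard : Fintype.card (ι₁ ⊕ ι₂) = Module.finrank K L := by
    have h3 := hli.fintype_card_le_finrank
    rw [Fintype.card_sum] at h3 ⊢
    omega
  refine ⟨basisOfLinearIndependentOfCardEqFinrank hli hcard, ?_, ?_⟩
  · intro i
    rw [coe_basisOfLinearIndependentOfCardEqFinrank]
    exact hmem i
  · intro x hx1 hx2 i
    apply oe10_repr_mem hD hV1 hV2 _ _ hx1 hx2
    intro c hc h1 h2
    simp only [coe_basisOfLinearIndependentOfCardEqFinrank] at h1 h2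
    exact he c hc h1 h2

/-- In the situation of `oe72_pair_basis`, every element of `V1 ⊓ V2` is integral over `V'`. -/
theorem oe72_pair_integral (hD : oe10_DVR V' π) (hV1 : oe10_Over V' π V1)
    (hV2 : oe10_Over V' π V2) (hne : V1 ≠ V2) {ι₁ ι₂ : Type*} [Fintype ι₁] [Fintype ι₂]
    [Nonempty ι₁] (z1 : ι₁ → L) (z2 : ι₂ → L) (h1 : oe10_Ind V' π V1 z1)
    (h2 : oe10_Ind V' π V2 z2)
    (hdeg : Module.finrank K L ≤ Fintype.card ι₁ + Fintype.card ι₂) {x : L} (hx1 : x ∈ V1)
    (hx2 : x ∈ V2) : ((algebraMap K L).comp V'.subtype).IsIntegralElem x := by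
  classical
  obtain ⟨b, hb, hrepr⟩ := oe72_pair_basis hD hV1 hV2 hne z1 z2 h1 h2 hdeg
  have hM : ∀ i j, Algebra.leftMulMatrix b x i j ∈ V' := by
    intro i j
    rw [Algebra.leftMulMatrix_eq_repr_mul]
    exact hrepr _ (V1.mul_mem _ _ hx1 (hb j).1) (V2.mul_mem _ _ hx2 (hb j).2) i
  let N : Matrix (ι₁ ⊕ ι₂) (ι₁ ⊕ ι₂) ↥V' :=
    fun i j => ⟨Algebra.leftMulMatrix b x i j, hM i j⟩
  have hN : N.map V'.subtype = Algebra.leftMulMatrix b x := by
    ext i j
    rfl
  refine ⟨N.charpoly, Matrix.charpoly_monic N, ?_⟩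
  rw [← Polynomial.eval₂_map, ← Matrix.charpoly_map, hN]
  apply Algebra.leftMulMatrix_injective b
  rw [map_zero, ← Polynomial.aeval_def, ← Polynomial.aeval_algHom_apply]
  exact Matrix.aeval_self_charpoly _

/-- If `V1 ⊓ V2` is contained in a third valuation subring over `V'`, the third one is `V1` or
`V2` (approximation argument of `oe10_only`, with the integrality input abstracted). -/
theorem oe72_only_of_inter_le (hD : oe10_DVR V' π) (hV1 : oe10_Over V' π V1)
    (hV2 : oe10_Over V' π V2) (hne : V1 ≠ V2) (V3 : ValuationSubring L)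
    (hV3 : oe10_Over V' π V3) (hle : ∀ x : L, x ∈ V1 → x ∈ V2 → x ∈ V3) :
    V3 = V1 ∨ V3 = V2 := by
  classical
  by_contra hcon
  push Not at hcon
  obtain ⟨h31, h32⟩ := hcon
  have n13 : ¬ V1 ≤ V3 := fun hle' => h31 (oe10_eq_of_le hD hV1 hV3 hle').symm
  have n23 : ¬ V2 ≤ V3 := fun hle' => h32 (oe10_eq_of_le hD hV2 hV3 hle').symm
  obtain ⟨a₁, ha₁, ha₁'⟩ := SetLike.not_le_iff_exists.1 n13
  obtain ⟨a₂, ha₂, ha₂'⟩ := SetLike.not_le_iff_exists.1 n23
  obtain ⟨d₁, hd₁, hd₁'⟩ := oe10_approx hD hV1 hV2 hne {1, a₁}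
  obtain ⟨d₂, hd₂, hd₂'⟩ := oe10_approx hD hV2 hV1 hne.symm {1, a₂}
  have hγ1 := oe10_val_pi_lt_one hD hV1
  have hγ2 := oe10_val_pi_lt_one hD hV2
  have e11 : V1.valuation d₁ = 1 := by
    have e : d₁ = 1 + (d₁ - 1) := by ring
    rw [e]
    exact Valuation.map_one_add_of_lt _ (lt_of_le_of_lt hd₁ hγ1)
  have e12 : V2.valuation d₁ < 1 := by
    have h1 := hd₁' 1 (by simp)
    rw [mul_one] at h1
    exact lt_of_le_of_lt h1 hγ2
  have e12a : V2.valuation (d₁ * a₁) < 1 := lt_of_le_of_lt (hd₁' a₁ (by simp)) hγ2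
  have e22 : V2.valuation d₂ = 1 := by
    have e : d₂ = 1 + (d₂ - 1) := by ring
    rw [e]
    exact Valuation.map_one_add_of_lt _ (lt_of_le_of_lt hd₂ hγ2)
  have e21 : V1.valuation d₂ < 1 := by
    have h1 := hd₂' 1 (by simp)
    rw [mul_one] at h1
    exact lt_of_le_of_lt h1 hγ1
  have e21a : V1.valuation (d₂ * a₂) < 1 := lt_of_le_of_lt (hd₂' a₂ (by simp)) hγ1
  have m1 : d₁ ∈ V3 := hle _ ((V1.valuation_le_one_iff _).1 e11.le)
    ((V2.valuation_le_one_iff _).1 e12.le)
  have m1a : d₁ * a₁ ∈ V3 := hle _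
    (V1.mul_mem _ _ ((V1.valuation_le_one_iff _).1 e11.le) ha₁)
    ((V2.valuation_le_one_iff _).1 e12a.le)
  have m2 : d₂ ∈ V3 := hle _ ((V1.valuation_le_one_iff _).1 e21.le)
    ((V2.valuation_le_one_iff _).1 e22.le)
  have m2a : d₂ * a₂ ∈ V3 := hle _
    ((V1.valuation_le_one_iff _).1 e21a.le)
    (V2.mul_mem _ _ ((V2.valuation_le_one_iff _).1 e22.le) ha₂)
  have f1 : V3.valuation d₁ < 1 := by
    by_contra hge
    have h1 : V3.valuation d₁ = 1 :=
      le_antisymm ((V3.valuation_le_one_iff _).2 m1) (not_lt.1 hge)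
    apply ha₁'
    rw [← V3.valuation_le_one_iff]
    have h2 := (V3.valuation_le_one_iff _).2 m1a
    rwa [map_mul, h1, one_mul] at h2
  have f2 : V3.valuation d₂ < 1 := by
    by_contra hge
    have h1 : V3.valuation d₂ = 1 :=
      le_antisymm ((V3.valuation_le_one_iff _).2 m2) (not_lt.1 hge)
    apply ha₂'
    rw [← V3.valuation_le_one_iff]
    have h2 := (V3.valuation_le_one_iff _).2 m2a
    rwa [map_mul, h1, one_mul] at h2
  have f3 : V3.valuation (d₁ + d₂) < 1 := Valuation.map_add_lt _ f1 f2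
  have g1 : V1.valuation (d₁ + d₂) = 1 := by
    rw [Valuation.map_add_eq_of_lt_left _ (by rw [e11]; exact e21), e11]
  have g2 : V2.valuation (d₁ + d₂) = 1 := by
    rw [Valuation.map_add_eq_of_lt_right _ (by rw [e22]; exact e12), e22]
  have m3 : (d₁ + d₂)⁻¹ ∈ V3 := hle _
    ((V1.valuation_le_one_iff _).1 (by rw [map_inv₀, g1, inv_one]))
    ((V2.valuation_le_one_iff _).1 (by rw [map_inv₀, g2, inv_one]))
  have g3 := (V3.valuation_le_one_iff _).2 m3
  rw [map_inv₀] at g3
  have hd0 : d₁ + d₂ ≠ 0 := by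
    intro h0
    rw [h0, map_zero] at g1
    exact zero_ne_one g1
  have hpos : 0 < V3.valuation (d₁ + d₂) := zero_lt_iff.2 ((Valuation.ne_zero_iff _).2 hd0)
  exact absurd f3 (not_lt.2 ((inv_le_one₀ hpos).1 g3))

end pair

section single

variable {K L : Type*} [Field K] [Field L] [Algebra K L] [FiniteDimensional K L]
variable {V' : ValuationSubring K} {π : K} {V : ValuationSubring L}

omit [FiniteDimensional K L] in
/-- A family independent modulo `π` at one valuation subring is linearly independent. -/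
theorem oe72_single_linInd (hD : oe10_DVR V' π) {ι : Type*} [Fintype ι] (z : ι → L)
    (hz : oe10_Ind V' π V z) : LinearIndependent K z := by
  apply oe10_linInd hD z
  intro c hc hsum
  apply hz.2 c hc
  rw [hsum, mul_zero]; exact V.zero_mem

/-- One independent family whose size reaches the degree is a `K`-basis of `L` inside `V` in
which `V` has coordinates in `V'`. -/
theorem oe72_single_basis (hD : oe10_DVR V' π) (hV : oe10_Over V' π V) {ι : Type*} [Fintype ι]
    [Nonempty ι] (z : ι → L) (hz : oe10_Ind V' π V z)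
    (hdeg : Module.finrank K L ≤ Fintype.card ι) :
    ∃ b : Module.Basis ι K L, (∀ i, b i ∈ V) ∧ ∀ x : L, x ∈ V → ∀ i, b.repr x i ∈ V' := by
  have hli := oe72_single_linInd hD z hz
  have hcard : Fintype.card ι = Module.finrank K L :=
    le_antisymm hli.fintype_card_le_finrank hdeg
  refine ⟨basisOfLinearIndependentOfCardEqFinrank hli hcard, ?_, ?_⟩
  · intro i
    rw [coe_basisOfLinearIndependentOfCardEqFinrank]
    exact hz.1 i
  · intro x hx i
    apply oe10_repr_mem hD hV hV _ _ hx hx
    intro c hc h1 _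
    simp only [coe_basisOfLinearIndependentOfCardEqFinrank] at h1
    exact hz.2 c hc h1

/-- In the situation of `oe72_single_basis`, `V` is integral over `V'`. -/
theorem oe72_single_integral (hD : oe10_DVR V' π) (hV : oe10_Over V' π V) {ι : Type*}
    [Fintype ι] [Nonempty ι] (z : ι → L) (hz : oe10_Ind V' π V z)
    (hdeg : Module.finrank K L ≤ Fintype.card ι) {x : L} (hx : x ∈ V) :
    ((algebraMap K L).comp V'.subtype).IsIntegralElem x := by
  classical
  obtain ⟨b, hb, hrepr⟩ := oe72_single_basis hD hV z hz hdeg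
  have hM : ∀ i j, Algebra.leftMulMatrix b x i j ∈ V' := by
    intro i j
    rw [Algebra.leftMulMatrix_eq_repr_mul]
    exact hrepr _ (V.mul_mem _ _ hx (hb j)) i
  let N : Matrix ι ι ↥V' := fun i j => ⟨Algebra.leftMulMatrix b x i j, hM i j⟩
  have hN : N.map V'.subtype = Algebra.leftMulMatrix b x := by
    ext i j
    rfl
  refine ⟨N.charpoly, Matrix.charpoly_monic N, ?_⟩
  rw [← Polynomial.eval₂_map, ← Matrix.charpoly_map, hN]
  apply Algebra.leftMulMatrix_injective b
  rw [map_zero, ← Polynomial.aeval_def, ← Polynomial.aeval_algHom_apply]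
  exact Matrix.aeval_self_charpoly _

/-- In the situation of `oe72_single_basis`, `V` is the only valuation subring over `V'`. -/
theorem oe72_single_only (hD : oe10_DVR V' π) (hV : oe10_Over V' π V) {ι : Type*}
    [Fintype ι] [Nonempty ι] (z : ι → L) (hz : oe10_Ind V' π V z)
    (hdeg : Module.finrank K L ≤ Fintype.card ι) (V3 : ValuationSubring L)
    (hV3 : oe10_Over V' π V3) : V3 = V :=
  (oe10_eq_of_le hD hV hV3 (fun _ hx =>
    oe10_mem_of_isIntegralElem hV3.le (oe72_single_integral hD hV z hz hdeg hx))).symm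

end single

/-- **Ramified pair.**  `L / K` finite of degree `≤ n + 1` (`n ≥ 1`), `V'` a discrete valuation
subring of `K` with uniformizer `π` (elementary shape), `V1 ≠ V2` valuation subrings of `L` over
`V'`, and `s : L` with `v₂(s) ^ n = v₂(π)`.  Then:
(1) `V1`, `V2` are the only valuation subrings of `L` over `V'`;
(2) every element of `V1 ⊓ V2` is integral over `V'`;
(3) `π` is a uniformizer of `V1`, and `s` is a uniformizer of `V2`;
(4) the residue fields of `V1` and of `V2` are that of `V'`;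
(5) the degree is exactly `n + 1`. -/
theorem oe72_ram_main {K L : Type*} [Field K] [Field L] [Algebra K L] [FiniteDimensional K L]
    (n : ℕ) (hn : 1 ≤ n) (hdeg : Module.finrank K L ≤ n + 1)
    (V' : ValuationSubring K) (π : K) (hπ : π ∈ V') (hπ' : π⁻¹ ∉ V')
    (hmax : ∀ x ∈ V', x⁻¹ ∉ V' → π⁻¹ * x ∈ V')
    (harch : ∀ x : K, x ≠ 0 → ∃ n : ℕ, (π ^ n)⁻¹ * x ∉ V')
    (V1 V2 : ValuationSubring L) (h12 : V1 ≠ V2)
    (h1 : ∀ x ∈ V', algebraMap K L x ∈ V1) (h1' : (algebraMap K L π)⁻¹ ∉ V1)
    (h2 : ∀ x ∈ V', algebraMap K L x ∈ V2) (h2' : (algebraMap K L π)⁻¹ ∉ V2)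
    (s : L) (hs : V2.valuation s ^ n = V2.valuation (algebraMap K L π)) :
    (∀ V : ValuationSubring L, (∀ x ∈ V', algebraMap K L x ∈ V) →
      (algebraMap K L π)⁻¹ ∉ V → V = V1 ∨ V = V2) ∧
    (∀ x : L, x ∈ V1 → x ∈ V2 → ((algebraMap K L).comp V'.subtype).IsIntegralElem x) ∧
    (∀ x ∈ V1, x⁻¹ ∉ V1 → (algebraMap K L π)⁻¹ * x ∈ V1) ∧
    (∀ x ∈ V2, x⁻¹ ∉ V2 → s⁻¹ * x ∈ V2) ∧
    (∀ x ∈ V1, ∃ b ∈ V', (algebraMap K L π)⁻¹ * (x - algebraMap K L b) ∈ V1) ∧
    (∀ x ∈ V2, ∃ b ∈ V', s⁻¹ * (x - algebraMap K L b) ∈ V2) ∧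
    Module.finrank K L = n + 1 := by
  classical
  have hD : oe10_DVR V' π := ⟨hπ, hπ', hmax, harch⟩
  have hV1 : oe10_Over V' π V1 := ⟨h1, h1'⟩
  have hV2 : oe10_Over V' π V2 := ⟨h2, h2'⟩
  have I1 : oe10_Ind V' π V1 (fun _ : Unit => (1 : L)) :=
    oe10_ind_of_sind hD hV1 (oe10_sind_one hD hV1)
  have I2 : oe10_Ind V' π V2 (fun i : Fin n => s ^ (i : ℕ)) := oe72_ind_pow hD hV2 hs
  have hdeg' : Module.finrank K L ≤ Fintype.card Unit + Fintype.card (Fin n) := by
    rw [Fintype.card_unit, Fintype.card_fin]; omega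
  have hs0 := oe72_val_s_pos hD hV2 hs
  have hs1 := oe72_val_s_lt_one hD hV2 hs
  have hint : ∀ x : L, x ∈ V1 → x ∈ V2 → ((algebraMap K L).comp V'.subtype).IsIntegralElem x :=
    fun x hx1 hx2 => oe72_pair_integral hD hV1 hV2 h12 _ _ I1 I2 hdeg' hx1 hx2
  -- `s` is a uniformizer of `V2`
  have hmax2 : ∀ x ∈ V2, x⁻¹ ∉ V2 → s⁻¹ * x ∈ V2 := by
    intro x hx hxi
    by_contra hcon
    have hx2 : V2.valuation s < V2.valuation x := by
      rw [← V2.valuation_le_one_iff, map_mul, map_inv₀, inv_mul_le_iff₀ hs0, mul_one] at hcon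
      exact not_le.1 hcon
    have hI := oe72_ind_pow_extend hD hV2 hn hs x (oe10_val_lt_one_of hx hxi) hx2
    have h3 := oe10_card_le hD hV1 hV2 h12 _ _ I1 hI
    rw [Fintype.card_sum, Fintype.card_unit, Fintype.card_fin] at h3
    omega
  refine ⟨fun V hV hV' => oe72_only_of_inter_le hD hV1 hV2 h12 V ⟨hV, hV'⟩
      (fun x hx1 hx2 => oe10_mem_of_isIntegralElem hV (hint x hx1 hx2)), hint, ?_, hmax2, ?_, ?_, ?_⟩
  · -- `π` is a uniformizer of `V1`
    intro x hx hxi
    by_contra hcon
    have hA2 : V1.valuation (algebraMap K L π) < V1.valuation x := by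
      rw [oe10_pi_inv_mul_mem_iff hD] at hcon
      exact not_le.1 hcon
    have hI := oe10_ind_extend hD hV1 _ (oe10_sind_one hD hV1) x hx
      (Or.inl ⟨oe10_val_lt_one_of hx hxi, hA2⟩)
    have h3 := oe10_card_le hD hV1 hV2 h12 _ _ hI I2
    rw [Fintype.card_sum, Fintype.card_unit, Fintype.card_fin] at h3
    omega
  · -- residue field of `V1`
    intro x hx
    by_contra hcon
    push Not at hcon
    have hB : ∀ c : Unit → K, (∀ i, c i ∈ V') → V1.valuation (algebraMap K L π)
        < V1.valuation (x - ∑ i, algebraMap K L (c i) * (1 : L)) := by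
      intro c hc
      rw [Finset.univ_unique, Finset.sum_singleton, mul_one]
      have h3 := hcon (c default) (hc _)
      rw [oe10_pi_inv_mul_mem_iff hD] at h3
      exact not_le.1 h3
    have hI := oe10_ind_extend hD hV1 _ (oe10_sind_one hD hV1) x hx (Or.inr hB)
    have h3 := oe10_card_le hD hV1 hV2 h12 _ _ hI I2
    rw [Fintype.card_sum, Fintype.card_unit, Fintype.card_fin] at h3
    omega
  · -- residue field of `V2`
    intro x hx
    by_contra hcon
    push Not at hcon
    have hunit : ∀ b ∈ V', V2.valuation (x - algebraMap K L b) = 1 := by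
      intro b hb
      have hmem : x - algebraMap K L b ∈ V2 := V2.sub_mem hx (h2 b hb)
      have hne0 : x - algebraMap K L b ≠ 0 := by
        intro h0
        apply hcon b hb
        rw [h0, mul_zero]; exact V2.zero_mem
      have hinv : (x - algebraMap K L b)⁻¹ ∈ V2 := by
        by_contra hni
        exact hcon b hb (hmax2 _ hmem hni)
      have a1 := (V2.valuation_le_one_iff _).2 hmem
      have a2 := (V2.valuation_le_one_iff _).2 hinv
      rw [map_inv₀] at a2
      have hpos : 0 < V2.valuation (x - algebraMap K L b) :=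
        zero_lt_iff.2 ((Valuation.ne_zero_iff _).2 hne0)
      exact le_antisymm a1 ((inv_le_one₀ hpos).1 a2)
    have hB : ∀ c : Fin n → K, (∀ i, c i ∈ V') → V2.valuation (algebraMap K L π)
        < V2.valuation (x - ∑ i, algebraMap K L (c i) * s ^ (i : ℕ)) := by
      intro c hc
      have hsum : V2.valuation (∑ i ∈ (Finset.univ : Finset (Fin n)).erase ⟨0, hn⟩,
          algebraMap K L (c i) * s ^ (i : ℕ)) < 1 := by
        apply Valuation.map_sum_lt _ one_ne_zero
        intro i hi
        rw [Finset.mem_erase] at hi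
        have hi0 : (i : ℕ) ≠ 0 := fun h => hi.1 (Fin.ext h)
        rw [map_mul, map_pow]
        calc V2.valuation (algebraMap K L (c i)) * V2.valuation s ^ (i : ℕ)
            ≤ 1 * V2.valuation s ^ (i : ℕ) :=
              mul_le_mul_left ((V2.valuation_le_one_iff _).2 (h2 _ (hc i))) _
          _ = V2.valuation s ^ (i : ℕ) := one_mul _
          _ ≤ V2.valuation s ^ 1 := pow_le_pow_of_le_one hs0.le hs1.le (by omega)
          _ = V2.valuation s := pow_one _
          _ < 1 := hs1
      have e : x - ∑ i, algebraMap K L (c i) * s ^ (i : ℕ)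
          = (x - algebraMap K L (c ⟨0, hn⟩))
            + - ∑ i ∈ (Finset.univ : Finset (Fin n)).erase ⟨0, hn⟩,
                algebraMap K L (c i) * s ^ (i : ℕ) := by
        rw [← Finset.add_sum_erase Finset.univ _ (Finset.mem_univ (⟨0, hn⟩ : Fin n))]
        simp only [pow_zero, mul_one]
        ring
      rw [e, Valuation.map_add_eq_of_lt_left _ (by rw [Valuation.map_neg, hunit _ (hc _)]; exact hsum),
        hunit _ (hc _)]
      exact oe10_val_pi_lt_one hD hV2
    have hI := oe72_ind_extend_res hD hV2 _ I2 x hx hB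
    have h3 := oe10_card_le hD hV1 hV2 h12 _ _ I1 hI
    rw [Fintype.card_sum, Fintype.card_unit, Fintype.card_fin] at h3
    omega
  · have h3 := oe10_card_le hD hV1 hV2 h12 _ _ I1 I2
    rw [Fintype.card_unit, Fintype.card_fin] at h3
    omega

/-- Conversion of the hypothesis of `oe72_ram_main`: `s ^ n = π * (unit of V2)`, `s ≠ 0`. -/
theorem oe72_val_pow_eq {K L : Type*} [Field K] [Field L] [Algebra K L]
    (V2 : ValuationSubring L) (π : K) (hπ0 : π ≠ 0) (n : ℕ) (s : L) (hs0 : s ≠ 0)
    (hu : (algebraMap K L π)⁻¹ * s ^ n ∈ V2) (hu' : ((algebraMap K L π)⁻¹ * s ^ n)⁻¹ ∈ V2) :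
    V2.valuation s ^ n = V2.valuation (algebraMap K L π) := by
  have hπ : V2.valuation (algebraMap K L π) ≠ 0 :=
    (Valuation.ne_zero_iff _).2 ((_root_.map_ne_zero _).2 hπ0)
  have hsn : V2.valuation s ^ n ≠ 0 := pow_ne_zero _ ((Valuation.ne_zero_iff _).2 hs0)
  have a1 := (V2.valuation_le_one_iff _).2 hu
  have a2 := (V2.valuation_le_one_iff _).2 hu'
  rw [map_mul, map_inv₀, map_pow, inv_mul_le_iff₀ (zero_lt_iff.2 hπ), mul_one] at a1
  rw [mul_inv, inv_inv, map_mul, map_inv₀, map_pow, mul_inv_le_iff₀ (zero_lt_iff.2 hsn),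
    one_mul] at a2
  exact le_antisymm a1 a2

/-- **Single inert extension.**  `L / K` finite of degree `≤ q` (`q` prime), `V'` a discrete
valuation subring of `K` with uniformizer `π`, `V` a valuation subring of `L` over `V'` with a
Kummer-shape residue witness (`y ^ q ≡ a` modulo `π`, `a` not a `q`-th power modulo `π`).  Then:
(1) `V` is the only valuation subring of `L` over `V'`;
(2) `V` is integral over `V'`;
(3) `π` is a uniformizer of `V`;
(4) the residue field of `V` is generated by the residue of `y`;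
(5) the degree is exactly `q`. -/
theorem oe72_inert_main {K L : Type*} [Field K] [Field L] [Algebra K L] [FiniteDimensional K L]
    (q : ℕ) (hq : q.Prime) (hdeg : Module.finrank K L ≤ q)
    (V' : ValuationSubring K) (π : K) (hπ : π ∈ V') (hπ' : π⁻¹ ∉ V')
    (hmax : ∀ x ∈ V', x⁻¹ ∉ V' → π⁻¹ * x ∈ V')
    (harch : ∀ x : K, x ≠ 0 → ∃ n : ℕ, (π ^ n)⁻¹ * x ∉ V')
    (V : ValuationSubring L)
    (h1 : ∀ x ∈ V', algebraMap K L x ∈ V) (h1' : (algebraMap K L π)⁻¹ ∉ V)
    (y : L) (hy : y ∈ V) (a : K) (ha : a ∈ V')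
    (hya : (algebraMap K L π)⁻¹ * (y ^ q - algebraMap K L a) ∈ V)
    (hnp : ∀ b ∈ V', π⁻¹ * (b ^ q - a) ∉ V') :
    (∀ W : ValuationSubring L, (∀ x ∈ V', algebraMap K L x ∈ W) →
      (algebraMap K L π)⁻¹ ∉ W → W = V) ∧
    (∀ x ∈ V, ((algebraMap K L).comp V'.subtype).IsIntegralElem x) ∧
    (∀ x ∈ V, x⁻¹ ∉ V → (algebraMap K L π)⁻¹ * x ∈ V) ∧
    (∀ x ∈ V, ∃ c : Fin q → K, (∀ i, c i ∈ V') ∧
      (algebraMap K L π)⁻¹ * (x - ∑ i, algebraMap K L (c i) * y ^ (i : ℕ)) ∈ V) ∧
    Module.finrank K L = q := by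
  classical
  have hD : oe10_DVR V' π := ⟨hπ, hπ', hmax, harch⟩
  have hV : oe10_Over V' π V := ⟨h1, h1'⟩
  have : Nonempty (Fin q) := ⟨⟨0, hq.pos⟩⟩
  have S : oe10_SInd V' π V (fun i : Fin q => y ^ (i : ℕ)) :=
    oe10_sind_pow hD hV hq hy ha hya hnp
  have I : oe10_Ind V' π V (fun i : Fin q => y ^ (i : ℕ)) := oe10_ind_of_sind hD hV S
  have hdeg' : Module.finrank K L ≤ Fintype.card (Fin q) := by
    rw [Fintype.card_fin]; exact hdeg
  refine ⟨fun W hW hW' => oe72_single_only hD hV _ I hdeg' W ⟨hW, hW'⟩,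
    fun x hx => oe72_single_integral hD hV _ I hdeg' hx, ?_, ?_, ?_⟩
  · intro x hx hxi
    by_contra hcon
    have hA2 : V.valuation (algebraMap K L π) < V.valuation x := by
      rw [oe10_pi_inv_mul_mem_iff hD] at hcon
      exact not_le.1 hcon
    have hI := oe10_ind_extend hD hV _ S x hx (Or.inl ⟨oe10_val_lt_one_of hx hxi, hA2⟩)
    have h3 := (oe72_single_linInd hD _ hI).fintype_card_le_finrank
    rw [Fintype.card_sum, Fintype.card_unit, Fintype.card_fin] at h3
    omega
  · intro x hx
    by_contra hcon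
    push Not at hcon
    have hB : ∀ c : Fin q → K, (∀ i, c i ∈ V') → V.valuation (algebraMap K L π)
        < V.valuation (x - ∑ i, algebraMap K L (c i) * y ^ (i : ℕ)) := by
      intro c hc
      have h3 := hcon c hc
      rw [oe10_pi_inv_mul_mem_iff hD] at h3
      exact not_le.1 h3
    have hI := oe10_ind_extend hD hV _ S x hx (Or.inr hB)
    have h3 := (oe72_single_linInd hD _ hI).fintype_card_le_finrank
    rw [Fintype.card_sum, Fintype.card_unit, Fintype.card_fin] at h3
    omega
  · have h3 := (oe72_single_linInd hD _ I).fintype_card_le_finrank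
    rw [Fintype.card_fin] at h3
    omega

end Fermat.Agent.S36
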