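import Mathlib
import Fermat.Agent.S34.OnlyExt18
import Fermat.Agent.S36.OnlyExt72
import Fermat.Agent.S36.NormThick88

/-!
# S36 lab, row B2-norm (helper88): the norm-reduction formulas in INTRINSIC VALUATION FORM

`L / K` finite separable, `V'` a discrete valuation subring of `K` with uniformizer `π`
(elementary "S18 shape", literally the hypotheses of `oe72_ram_main` / `oe72_inert_main`).

* `nv88_ram_norm` (ramified pair: `V1`, `V2` the valuation subrings of `L` over `V'`,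
  `v₂(s)^n = v₂(π)`, degree `≤ n + 1`): for `y ∈ V1 ⊓ V2` and `v1 v2 ∈ V'` with
  `π⁻¹ (y - v1) ∈ V1`, `s⁻¹ (y - v2) ∈ V2`:

    `N_{L/K}(y) ∈ V'`  and  `π⁻¹ (N_{L/K}(y) - v1 * v2 ^ n) ∈ V'`.

  Lab use (`n = q - 1`): along `α`, `V' = V_∞'`, `(V1, V2) = (V_1, V_2)`:
  `red_∞'(N_α y) = red_1(y) red_2(y)^(q-1)`; along `β`, `V' = V_0'`, `(V1, V2) = (V_3, V_2)`:
  `red_0'(N_β y) = red_3(y) red_2(y)^(q-1)`.

* `nv88_inert_norm` (single inert extension, degree `≤ q`, residue characteristic `q`): for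
  `x ∈ V` and `v ∈ V'` with `π⁻¹ (x ^ q - v) ∈ V`:

    `N_{L/K}(x) ∈ V'`  and  `π⁻¹ (N_{L/K}(x) - v) ∈ V'`.

  Lab use: along `α`, `V' = V_0'`, `V = V_3`: `V(red_0'(N_α y)) = red_3(y)^q`; along `β`,
  `V' = V_∞'`, `V = V_1`: `V(red_∞'(N_β y)) = red_1(y)^q`.

The cores `nv88_ram_core` / `nv88_inert_core` are stated for a discrete valuation ring `A` with
fraction field `F'` (the shape of `oe18_core`).  Proof: `nt88_norm_thick` / `nt88_norm_insep` on
the integral closure of `A` (finite free of rank `[F : F']`), and `Algebra.norm_localization`.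
All names are prefixed `nv88_`.
-/

set_option autoImplicit false
set_option linter.unusedSectionVars false
set_option linter.unusedVariables false
set_option linter.style.longLine false

namespace Fermat.Agent.S36

open IsLocalRing Fermat.Agent.S34

section core

variable {A F : Type*} [CommRing A] [IsDomain A] [IsDiscreteValuationRing A] [Field F]
  [Algebra A F]

/-- `V.valuation x < 1` is membership of the class of `x` in the maximal ideal. -/
theorem nv88_residue_eq_zero (V : ValuationSubring F) (x : F) (hx : x ∈ V) :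
    IsLocalRing.residue V ⟨x, hx⟩ = 0 ↔ V.valuation x < 1 := by
  rw [IsLocalRing.residue_eq_zero_iff, ValuationSubring.valuation_lt_one_iff]

/-- **Ramified pair, core form.**  `A` a discrete valuation ring with fraction field `F'`,
`F / F'` finite separable of degree `n + 1`, `V₁`, `V₂` valuation subrings of `F` over `A` with
`V₁ ⊓ V₂` integral over `A`, `𝔪(V₁) = ϖ V₁`, `𝔪(V₂)^n ⊆ ϖ V₂`, residue degree one at `V₁`.
Then `N(y) = v₁ v₂^n + ϖ c` whenever `y ≡ v₁ mod 𝔪(V₁)` and `y ≡ v₂ mod 𝔪(V₂)`. -/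
theorem nv88_ram_core (F' : Type*) [Field F'] [Algebra A F'] [IsFractionRing A F'] [Algebra F' F]
    [IsScalarTower A F' F] [FiniteDimensional F' F] [Algebra.IsSeparable F' F]
    (V₁ V₂ : ValuationSubring F)
    (h₁ : ∀ a : A, algebraMap A F a ∈ V₁) (h₂ : ∀ a : A, algebraMap A F a ∈ V₂)
    (ϖ : A) (hϖ : Irreducible ϖ) (h₁ϖ : (algebraMap A F ϖ)⁻¹ ∉ V₁)
    (n : ℕ) (hdeg : Module.finrank F' F = n + 1)
    (hint : ∀ x : F, x ∈ V₁ → x ∈ V₂ → IsIntegral A x)
    (hmax₁ : ∀ x : F, V₁.valuation x < 1 → (algebraMap A F ϖ)⁻¹ * x ∈ V₁)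
    (hmax₂ : ∀ x : F, V₂.valuation x < 1 → (algebraMap A F ϖ)⁻¹ * x ^ n ∈ V₂)
    (hres₁ : ∀ x ∈ V₁, ∃ b : A, V₁.valuation (x - algebraMap A F b) < 1)
    (y : F) (hy₁ : y ∈ V₁) (hy₂ : y ∈ V₂) (v₁ v₂ : A)
    (hv₁ : V₁.valuation (y - algebraMap A F v₁) < 1)
    (hv₂ : V₂.valuation (y - algebraMap A F v₂) < 1) :
    ∃ c : A, Algebra.norm F' y = algebraMap A F' (v₁ * v₂ ^ n + ϖ * c) := by
  classical
  have hinj : Function.Injective (algebraMap A F) := by
    rw [IsScalarTower.algebraMap_eq A F' F]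
    exact (algebraMap F' F).injective.comp (IsFractionRing.injective A F')
  have : FaithfulSMul A F := (faithfulSMul_iff_algebraMap_injective A F).mpr hinj
  have : Module.IsTorsionFree A F := .trans_faithfulSMul A F' F
  let W := integralClosure A F
  have : Module.Finite A W := IsIntegralClosure.finite A F' F _
  have : Module.Free A W := IsIntegralClosure.module_free A F' F W
  have hrank : Module.finrank A W = n + 1 := by
    rw [IsIntegralClosure.rank A F' F W]; exact hdeg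
  have : IsLocalization (Algebra.algebraMapSubmonoid W (nonZeroDivisors A)) F :=
    IsIntegralClosure.isLocalization A F' F W
  have hϖF : algebraMap A F ϖ ≠ 0 := fun h => hϖ.ne_zero (hinj (by rw [h, map_zero]))
  have hW₁ : ∀ x : F, x ∈ W → x ∈ V₁ := fun x hx => oe18_int_mem V₁ h₁ x hx
  have hW₂ : ∀ x : F, x ∈ W → x ∈ V₂ := fun x hx => oe18_int_mem V₂ h₂ x hx
  let i₁ : W →+* V₁ :=
    { toFun := fun w => ⟨w.1, hW₁ w.1 w.2⟩
      map_one' := rfl
      map_mul' := fun _ _ => rfl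
      map_zero' := rfl
      map_add' := fun _ _ => rfl }
  let i₂ : W →+* V₂ :=
    { toFun := fun w => ⟨w.1, hW₂ w.1 w.2⟩
      map_one' := rfl
      map_mul' := fun _ _ => rfl
      map_zero' := rfl
      map_add' := fun _ _ => rfl }
  let r₁ : W →+* IsLocalRing.ResidueField V₁ := (IsLocalRing.residue V₁).comp i₁
  let r₂ : W →+* IsLocalRing.ResidueField V₂ := (IsLocalRing.residue V₂).comp i₂
  have hr₁ : ∀ w : W, r₁ w = 0 ↔ V₁.valuation (w : F) < 1 := fun w =>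
    nv88_residue_eq_zero V₁ w.1 (hW₁ w.1 w.2)
  have hr₂ : ∀ w : W, r₂ w = 0 ↔ V₂.valuation (w : F) < 1 := fun w =>
    nv88_residue_eq_zero V₂ w.1 (hW₂ w.1 w.2)
  have hϖ₁ : V₁.valuation (algebraMap A F ϖ) < 1 := by
    rw [← ValuationSubring.mem_nonunits_iff, ValuationSubring.mem_nonunits_iff_or]
    exact Or.inr h₁ϖ
  have hcoe : ∀ a : A, ((algebraMap A W a : W) : F) = algebraMap A F a := fun a => rfl
  let yW : W := ⟨y, hint y hy₁ hy₂⟩
  have key := nt88_norm_thick (V := A) (W := W) (n + 1) hrank r₁ r₂ ?_ ?_ ?_ yW v₁ v₂ ?_ ?_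
  · rw [Nat.add_sub_cancel, hϖ.maximalIdeal_eq, Ideal.mem_span_singleton] at key
    obtain ⟨c, hc⟩ := key
    refine ⟨c, ?_⟩
    have hloc := Algebra.norm_localization (R := A) (S := W) (Rₘ := F') (Sₘ := F)
      (nonZeroDivisors A) yW
    have hyW : algebraMap W F yW = y := rfl
    rw [hyW] at hloc
    rw [hloc]
    congr 1
    rw [← hc]; ring
  · -- `r₁` kills the maximal ideal
    intro a ha
    rw [hϖ.maximalIdeal_eq, Ideal.mem_span_singleton] at ha
    obtain ⟨c, rfl⟩ := ha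
    rw [hr₁, hcoe, map_mul, map_mul]
    exact mul_lt_one_of_lt_of_le hϖ₁ ((V₁.valuation_le_one_iff _).mpr (h₁ c))
  · -- the kernel condition
    intro a z ha hz
    rw [hr₁] at ha
    rw [hr₂] at hz
    rw [Nat.add_sub_cancel]
    have ht₁ : (algebraMap A F ϖ)⁻¹ * ((a : F) * (z : F) ^ n) ∈ V₁ := by
      rw [← mul_assoc]
      exact V₁.mul_mem _ _ (hmax₁ _ ha) (V₁.pow_mem (hW₁ z.1 z.2) n)
    have ht₂ : (algebraMap A F ϖ)⁻¹ * ((a : F) * (z : F) ^ n) ∈ V₂ := by
      rw [mul_left_comm]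
      exact V₂.mul_mem _ _ (hW₂ a.1 a.2) (hmax₂ _ hz)
    let t : W := ⟨_, hint _ ht₁ ht₂⟩
    have heq : a * z ^ n = algebraMap A W ϖ * t := by
      apply Subtype.ext
      show (a : F) * (z : F) ^ n = algebraMap A F ϖ * ((algebraMap A F ϖ)⁻¹ * ((a : F) * (z : F) ^ n))
      rw [← mul_assoc, mul_inv_cancel₀ hϖF, one_mul]
    rw [heq]
    exact Ideal.mul_mem_right _ _ (Ideal.mem_map_of_mem _ (hϖ.maximalIdeal_eq ▸
      Ideal.mem_span_singleton_self ϖ))
  · -- residue degree one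
    intro w
    obtain ⟨b, hb⟩ := hres₁ w.1 (hW₁ w.1 w.2)
    refine ⟨b, ?_⟩
    rw [← sub_eq_zero, ← map_sub, hr₁]
    exact hb
  · rw [← sub_eq_zero, ← map_sub, hr₁]
    exact hv₁
  · rw [← sub_eq_zero, ← map_sub, hr₂]
    exact hv₂

/-- **Single inert extension, core form.**  `A` a discrete valuation ring of residue
characteristic `q` with fraction field `F'`, `F / F'` finite separable of degree `q`, `V` a
valuation subring of `F` over `A`, integral over `A`, with `𝔪(V) = ϖ V`.  Then `N(y) = v + ϖ c`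
whenever `y ^ q ≡ v mod 𝔪(V)`. -/
theorem nv88_inert_core (F' : Type*) [Field F'] [Algebra A F'] [IsFractionRing A F']
    [Algebra F' F] [IsScalarTower A F' F] [FiniteDimensional F' F] [Algebra.IsSeparable F' F]
    (V : ValuationSubring F) (h : ∀ a : A, algebraMap A F a ∈ V)
    (ϖ : A) (hϖ : Irreducible ϖ) (hVϖ : (algebraMap A F ϖ)⁻¹ ∉ V)
    (q : ℕ) (hq : q.Prime) (hqA : (q : A) ∈ maximalIdeal A)
    (hdeg : Module.finrank F' F = q)
    (hint : ∀ x : F, x ∈ V → IsIntegral A x)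
    (hmax : ∀ x : F, V.valuation x < 1 → (algebraMap A F ϖ)⁻¹ * x ∈ V)
    (y : F) (hy : y ∈ V) (v : A)
    (hv : V.valuation (y ^ q - algebraMap A F v) < 1) :
    ∃ c : A, Algebra.norm F' y = algebraMap A F' (v + ϖ * c) := by
  classical
  have hinj : Function.Injective (algebraMap A F) := by
    rw [IsScalarTower.algebraMap_eq A F' F]
    exact (algebraMap F' F).injective.comp (IsFractionRing.injective A F')
  have : FaithfulSMul A F := (faithfulSMul_iff_algebraMap_injective A F).mpr hinj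
  have : Module.IsTorsionFree A F := .trans_faithfulSMul A F' F
  let W := integralClosure A F
  have : Module.Finite A W := IsIntegralClosure.finite A F' F _
  have : Module.Free A W := IsIntegralClosure.module_free A F' F W
  have hrank : Module.finrank A W = q := by
    rw [IsIntegralClosure.rank A F' F W]; exact hdeg
  have : IsLocalization (Algebra.algebraMapSubmonoid W (nonZeroDivisors A)) F :=
    IsIntegralClosure.isLocalization A F' F W
  have hϖF : algebraMap A F ϖ ≠ 0 := fun h => hϖ.ne_zero (hinj (by rw [h, map_zero]))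
  have hW : ∀ x : F, x ∈ W → x ∈ V := fun x hx => oe18_int_mem V h x hx
  let i : W →+* V :=
    { toFun := fun w => ⟨w.1, hW w.1 w.2⟩
      map_one' := rfl
      map_mul' := fun _ _ => rfl
      map_zero' := rfl
      map_add' := fun _ _ => rfl }
  let r : W →+* IsLocalRing.ResidueField V := (IsLocalRing.residue V).comp i
  have hr : ∀ w : W, r w = 0 ↔ V.valuation (w : F) < 1 := fun w =>
    nv88_residue_eq_zero V w.1 (hW w.1 w.2)
  have hϖV : V.valuation (algebraMap A F ϖ) < 1 := by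
    rw [← ValuationSubring.mem_nonunits_iff, ValuationSubring.mem_nonunits_iff_or]
    exact Or.inr hVϖ
  have hcoe : ∀ a : A, ((algebraMap A W a : W) : F) = algebraMap A F a := fun a => rfl
  let yW : W := ⟨y, hint y hy⟩
  have key := nt88_norm_insep (V := A) (W := W) q hq hqA hrank r ?_ ?_ yW v ?_
  · rw [hϖ.maximalIdeal_eq, Ideal.mem_span_singleton] at key
    obtain ⟨c, hc⟩ := key
    refine ⟨c, ?_⟩
    have hloc := Algebra.norm_localization (R := A) (S := W) (Rₘ := F') (Sₘ := F)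
      (nonZeroDivisors A) yW
    have hyW : algebraMap W F yW = y := rfl
    rw [hyW] at hloc
    rw [hloc]
    congr 1
    rw [← hc]; ring
  · intro a ha
    rw [hϖ.maximalIdeal_eq, Ideal.mem_span_singleton] at ha
    obtain ⟨c, rfl⟩ := ha
    rw [hr, hcoe, map_mul, map_mul]
    exact mul_lt_one_of_lt_of_le hϖV ((V.valuation_le_one_iff _).mpr (h c))
  · intro a ha
    rw [hr] at ha
    have ht : (algebraMap A F ϖ)⁻¹ * (a : F) ∈ V := hmax _ ha
    let t : W := ⟨_, hint _ ht⟩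
    have heq : a = algebraMap A W ϖ * t := by
      apply Subtype.ext
      show (a : F) = algebraMap A F ϖ * ((algebraMap A F ϖ)⁻¹ * (a : F))
      rw [← mul_assoc, mul_inv_cancel₀ hϖF, one_mul]
    rw [heq]
    exact Ideal.mul_mem_right _ _ (Ideal.mem_map_of_mem _ (hϖ.maximalIdeal_eq ▸
      Ideal.mem_span_singleton_self ϖ))
  · rw [← sub_eq_zero, ← map_pow, ← map_sub, hr]
    exact hv

end core

section wrapper

variable {K L : Type*} [Field K] [Field L] [Algebra K L] [FiniteDimensional K L]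
  [Algebra.IsSeparable K L]

/-- In a valuation subring, `x ∈ V`, `x⁻¹ ∉ V` means `v(x) < 1`, and conversely. -/
theorem nv88_lt_one_iff (V : ValuationSubring L) (x : L) (hx0 : x ≠ 0) :
    V.valuation x < 1 ↔ x ∈ V ∧ x⁻¹ ∉ V := by
  constructor
  · intro h
    refine ⟨(V.valuation_le_one_iff x).mp h.le, fun hinv => ?_⟩
    have h1 : V.valuation x⁻¹ ≤ 1 := (V.valuation_le_one_iff _).mpr hinv
    have h2 : V.valuation x * V.valuation x⁻¹ = 1 := by
      rw [← map_mul, mul_inv_cancel₀ hx0, map_one]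
    have h3 : V.valuation x * V.valuation x⁻¹ < 1 := mul_lt_one_of_lt_of_le h h1
    exact absurd h2 (ne_of_lt h3)
  · rintro ⟨-, h2⟩
    rw [← ValuationSubring.mem_nonunits_iff, ValuationSubring.mem_nonunits_iff_or]
    exact Or.inr h2

/-- `ϖ⁻¹ z ∈ V` with `ϖ` a non-unit of `V` gives `v(z) < 1`. -/
theorem nv88_lt_one_of_dvd (V : ValuationSubring L) (p z : L) (hp0 : p ≠ 0)
    (hp : V.valuation p < 1) (hz : p⁻¹ * z ∈ V) : V.valuation z < 1 := by
  have h2 : z = p * (p⁻¹ * z) := by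
    rw [← mul_assoc, mul_inv_cancel₀ hp0, one_mul]
  rw [h2, map_mul]
  exact mul_lt_one_of_lt_of_le hp ((V.valuation_le_one_iff _).mpr hz)

/-- **B2-norm, ramified pair** (the hypotheses are literally those of `oe72_ram_main`, plus
separability).  For `y ∈ V1 ⊓ V2`, `v1 v2 ∈ V'` with `π⁻¹ (y - v1) ∈ V1`, `s⁻¹ (y - v2) ∈ V2`:
`N(y) ∈ V'` and `π⁻¹ (N(y) - v1 * v2 ^ n) ∈ V'`. -/
theorem nv88_ram_norm (n : ℕ) (hn : 1 ≤ n) (hdeg : Module.finrank K L ≤ n + 1)
    (V' : ValuationSubring K) (π : K) (hπ : π ∈ V') (hπ' : π⁻¹ ∉ V')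
    (hmax : ∀ x ∈ V', x⁻¹ ∉ V' → π⁻¹ * x ∈ V')
    (harch : ∀ x : K, x ≠ 0 → ∃ n : ℕ, (π ^ n)⁻¹ * x ∉ V')
    (V1 V2 : ValuationSubring L) (h12 : V1 ≠ V2)
    (h1 : ∀ x ∈ V', algebraMap K L x ∈ V1) (h1' : (algebraMap K L π)⁻¹ ∉ V1)
    (h2 : ∀ x ∈ V', algebraMap K L x ∈ V2) (h2' : (algebraMap K L π)⁻¹ ∉ V2)
    (s : L) (hs : V2.valuation s ^ n = V2.valuation (algebraMap K L π))
    (y : L) (hy1 : y ∈ V1) (hy2 : y ∈ V2) (v1 v2 : K) (hv1 : v1 ∈ V') (hv2 : v2 ∈ V')
    (hyv1 : (algebraMap K L π)⁻¹ * (y - algebraMap K L v1) ∈ V1)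
    (hyv2 : s⁻¹ * (y - algebraMap K L v2) ∈ V2) :
    Algebra.norm K y ∈ V' ∧ π⁻¹ * (Algebra.norm K y - v1 * v2 ^ n) ∈ V' := by
  classical
  obtain ⟨-, hint, hmax1, hmax2, hres1, -, hdeg'⟩ :=
    oe72_ram_main n hn hdeg V' π hπ hπ' hmax harch V1 V2 h12 h1 h1' h2 h2' s hs
  obtain ⟨hDVR, hirr⟩ := oe18_isDVR V' π hπ hπ' hmax harch
  have hπ0 : π ≠ 0 := by
    intro h
    apply hπ'
    rw [h, inv_zero]; exact V'.zero_mem
  have hπL0 : algebraMap K L π ≠ 0 := fun h =>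
    hπ0 ((algebraMap K L).injective (by rw [h, map_zero]))
  have hπ1 : V1.valuation (algebraMap K L π) < 1 :=
    (nv88_lt_one_iff V1 _ hπL0).mpr ⟨h1 π hπ, h1'⟩
  have hπ2 : V2.valuation (algebraMap K L π) < 1 :=
    (nv88_lt_one_iff V2 _ hπL0).mpr ⟨h2 π hπ, h2'⟩
  have hπ2pos : 0 < V2.valuation (algebraMap K L π) :=
    zero_lt_iff.mpr ((map_ne_zero _).mpr hπL0)
  have hs0 : s ≠ 0 := by
    intro h
    rw [h, map_zero, zero_pow (by omega)] at hs
    exact absurd hs.symm (ne_of_gt hπ2pos)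
  have hs1 : V2.valuation s < 1 := by
    by_contra hcon
    push Not at hcon
    have h3 : 1 ≤ V2.valuation s ^ n := one_le_pow₀ hcon
    rw [hs] at h3
    exact absurd hπ2 (not_lt.mpr h3)
  have hunit : (algebraMap K L π)⁻¹ * s ^ n ∈ V2 := by
    rw [← V2.valuation_le_one_iff, map_mul, map_inv₀, map_pow, hs,
      inv_mul_cancel₀ (ne_of_gt hπ2pos)]
  obtain ⟨c, hc⟩ := nv88_ram_core (A := V') K V1 V2 (fun a => h1 a a.2) (fun a => h2 a a.2)
    ⟨π, hπ⟩ hirr h1' n hdeg'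
    (fun x hx1 hx2 => hint x hx1 hx2)
    (fun x hx => by
      by_cases hx0 : x = 0
      · rw [hx0, mul_zero]; exact V1.zero_mem
      · obtain ⟨ha, hb⟩ := (nv88_lt_one_iff V1 x hx0).mp hx
        exact hmax1 x ha hb)
    (fun x hx => by
      by_cases hx0 : x = 0
      · rw [hx0, zero_pow (by omega), mul_zero]; exact V2.zero_mem
      · obtain ⟨ha, hb⟩ := (nv88_lt_one_iff V2 x hx0).mp hx
        have h3 := hmax2 x ha hb
        have h4 : (algebraMap K L π)⁻¹ * x ^ n =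
            ((algebraMap K L π)⁻¹ * s ^ n) * (s⁻¹ * x) ^ n := by
          rw [mul_pow, inv_pow]
          field_simp
        show (algebraMap K L π)⁻¹ * x ^ n ∈ V2
        rw [h4]
        exact V2.mul_mem _ _ hunit (V2.pow_mem h3 n))
    (fun x hx => by
      obtain ⟨b, hb, hxb⟩ := hres1 x hx
      exact ⟨⟨b, hb⟩, nv88_lt_one_of_dvd V1 _ _ hπL0 hπ1 hxb⟩)
    y hy1 hy2 ⟨v1, hv1⟩ ⟨v2, hv2⟩
    (nv88_lt_one_of_dvd V1 _ _ hπL0 hπ1 hyv1)
    (nv88_lt_one_of_dvd V2 _ _ hs0 hs1 hyv2)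
  have hc' : Algebra.norm K y = v1 * v2 ^ n + π * (c : K) := hc
  refine ⟨?_, ?_⟩
  · rw [hc']
    exact V'.add_mem _ _ (V'.mul_mem _ _ hv1 (V'.pow_mem hv2 n)) (V'.mul_mem _ _ hπ c.2)
  · have h5 : π⁻¹ * (Algebra.norm K y - v1 * v2 ^ n) = (c : K) := by
      rw [hc', add_sub_cancel_left, ← mul_assoc, inv_mul_cancel₀ hπ0, one_mul]
    rw [h5]
    exact c.2

/-- **B2-norm, single inert extension** (the hypotheses are literally those of
`oe72_inert_main`, plus separability and residue characteristic `q`).  For `x ∈ V`, `v ∈ V'`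
with `π⁻¹ (x ^ q - v) ∈ V`: `N(x) ∈ V'` and `π⁻¹ (N(x) - v) ∈ V'`. -/
theorem nv88_inert_norm (q : ℕ) (hq : q.Prime) (hdeg : Module.finrank K L ≤ q)
    (V' : ValuationSubring K) (π : K) (hπ : π ∈ V') (hπ' : π⁻¹ ∉ V')
    (hmax : ∀ x ∈ V', x⁻¹ ∉ V' → π⁻¹ * x ∈ V')
    (harch : ∀ x : K, x ≠ 0 → ∃ n : ℕ, (π ^ n)⁻¹ * x ∉ V')
    (hqπ : π⁻¹ * (q : K) ∈ V')
    (V : ValuationSubring L)
    (h1 : ∀ x ∈ V', algebraMap K L x ∈ V) (h1' : (algebraMap K L π)⁻¹ ∉ V)
    (y : L) (hy : y ∈ V) (a : K) (ha : a ∈ V')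
    (hya : (algebraMap K L π)⁻¹ * (y ^ q - algebraMap K L a) ∈ V)
    (hnp : ∀ b ∈ V', π⁻¹ * (b ^ q - a) ∉ V')
    (x : L) (hx : x ∈ V) (v : K) (hv : v ∈ V')
    (hxv : (algebraMap K L π)⁻¹ * (x ^ q - algebraMap K L v) ∈ V) :
    Algebra.norm K x ∈ V' ∧ π⁻¹ * (Algebra.norm K x - v) ∈ V' := by
  classical
  obtain ⟨-, hint, hmaxV, -, hdeg'⟩ :=
    oe72_inert_main q hq hdeg V' π hπ hπ' hmax harch V h1 h1' y hy a ha hya hnp
  obtain ⟨hDVR, hirr⟩ := oe18_isDVR V' π hπ hπ' hmax harch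
  have hπ0 : π ≠ 0 := by
    intro h
    apply hπ'
    rw [h, inv_zero]; exact V'.zero_mem
  have hπL0 : algebraMap K L π ≠ 0 := fun h =>
    hπ0 ((algebraMap K L).injective (by rw [h, map_zero]))
  have hπV : V.valuation (algebraMap K L π) < 1 :=
    (nv88_lt_one_iff V _ hπL0).mpr ⟨h1 π hπ, h1'⟩
  have hqA : ((q : ℕ) : V') ∈ maximalIdeal V' := by
    rw [hirr.maximalIdeal_eq, Ideal.mem_span_singleton]
    refine ⟨⟨π⁻¹ * (q : K), hqπ⟩, ?_⟩
    apply Subtype.ext
    show ((q : ℕ) : K) = π * (π⁻¹ * (q : K))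
    rw [← mul_assoc, mul_inv_cancel₀ hπ0, one_mul]
  obtain ⟨c, hc⟩ := nv88_inert_core (A := V') K V (fun a => h1 a a.2) ⟨π, hπ⟩ hirr h1' q hq hqA
    hdeg' (fun z hz => hint z hz)
    (fun z hz => by
      by_cases hz0 : z = 0
      · rw [hz0, mul_zero]; exact V.zero_mem
      · obtain ⟨ha', hb'⟩ := (nv88_lt_one_iff V z hz0).mp hz
        exact hmaxV z ha' hb')
    x hx ⟨v, hv⟩ (nv88_lt_one_of_dvd V _ _ hπL0 hπV hxv)
  have hc' : Algebra.norm K x = v + π * (c : K) := hc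
  refine ⟨?_, ?_⟩
  · rw [hc']
    exact V'.add_mem _ _ hv (V'.mul_mem _ _ hπ c.2)
  · have h5 : π⁻¹ * (Algebra.norm K x - v) = (c : K) := by
      rw [hc', add_sub_cancel_left, ← mul_assoc, inv_mul_cancel₀ hπ0, one_mul]
    rw [h5]
    exact c.2

end wrapper

end Fermat.Agent.S36
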