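import Mathlib
import Fermat.Agent.S36.NormVal88

/-!
# S36 lab, row B2-norm (helper88): the four norm formulas (N1)-(N4) in REDUCTION form

Abstract, in "hom form": `φ : K →+* L` a finite separable field extension (the norm is
`Algebra.norm K` for `φ.toAlgebra`; for `φ = (al97L_alpha K N q).toRingHom` this is
`s35i62_normA K N q`, for `al97L_beta` it is `s35i62_normB K N q`, by `rfl`).

* `nr88_inert_lift` (valuation level): in the situation of `oe72_inert_main` with residue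
  characteristic `q` (`π⁻¹ q ∈ V'`), every `x ∈ V` has a Frobenius lift:
  `∃ v ∈ V', π⁻¹ (x ^ q - v) ∈ V`.

* `nr88_ram` = (N1) / (N4): hypotheses of `oe72_ram_main` for `φ`, and maps `ri : K → Λ`,
  `r1 r2 : L → Λ` which are constant on congruence classes (mod `π V'`, `π V1`, `s V2`), `ri`
  multiplicative on `V'`, `r1 ∘ φ = ri = r2 ∘ φ` on `V'`.  Then for `y ∈ V1 ⊓ V2`:
  `N y ∈ V'` and `ri (N y) = r1 y * r2 y ^ n`.
  [(N1): `φ = α`, `V' = V_∞'`, `(V1, V2) = (V_1, V_2)`; (N4): `φ = β`, `V' = V_0'`,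
  `(V1, V2) = (V_3, V_2)`, `ri := rz`; `n = q - 1`.]

* `nr88_inert` = (N2) / (N3): hypotheses of `oe72_inert_main` for `φ` + `π⁻¹ q ∈ V'`, and maps
  `ρ : K → Λ`, `r : L → Λ` constant on congruence classes mod `π`, `r` multiplicative on `V`,
  `r ∘ φ = ρ` on `V'`.  Then for `x ∈ V`: `N x ∈ V'` and `ρ (N x) = r x ^ q`.
  [(N2): `φ = α`, `V' = V_0'`, `V = V_3`, `ρ := V ∘ rz`, `r := r3`; (N3): `φ = β`,
  `V' = V_∞'`, `V = V_1`, `ρ := V ∘ ri`, `r := r1`.]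

* `nr88_unit_ram`, `nr88_unit_inert`: the norm of a unit of `V1 ⊓ V2` (of `V`) is a unit of `V'`.

* `nr88_sep_of_charZero`: separability is automatic in characteristic zero.

All names are prefixed `nr88_`.
-/

set_option autoImplicit false
set_option linter.unusedSectionVars false
set_option linter.unusedVariables false
set_option linter.style.longLine false
set_option linter.style.haveILetI false

open IsLocalRing

namespace Fermat.Agent.S36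

section lift

variable {K L : Type*} [Field K] [Field L] [Algebra K L] [FiniteDimensional K L]

/-- **Frobenius lift.**  In the situation of `oe72_inert_main` with residue characteristic `q`:
every `x ∈ V` satisfies `x ^ q ≡ v mod π V` for some `v ∈ V'`. -/
theorem nr88_inert_lift (q : ℕ) (hq : q.Prime) (hdeg : Module.finrank K L ≤ q)
    (V' : ValuationSubring K) (π : K) (hπ : π ∈ V') (hπ' : π⁻¹ ∉ V')
    (hmax : ∀ x ∈ V', x⁻¹ ∉ V' → π⁻¹ * x ∈ V')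
    (harch : ∀ x : K, x ≠ 0 → ∃ n : ℕ, (π ^ n)⁻¹ * x ∉ V')
    (hqπ : π⁻¹ * (q : K) ∈ V')
    (V : ValuationSubring L)
    (h1 : ∀ x ∈ V', algebraMap K L x ∈ V) (h1' : (algebraMap K L π)⁻¹ ∉ V)
    (y : L) (hy : y ∈ V) (a : K) (ha : a ∈ V')
    (hya : (algebraMap K L π)⁻¹ * (y ^ q - algebraMap K L a) ∈ V)
    (hnp : ∀ b ∈ V', π⁻¹ * (b ^ q - a) ∉ V')
    (x : L) (hx : x ∈ V) :
    ∃ v ∈ V', (algebraMap K L π)⁻¹ * (x ^ q - algebraMap K L v) ∈ V := by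
  classical
  obtain ⟨-, -, -, hgen, -⟩ :=
    oe72_inert_main q hq hdeg V' π hπ hπ' hmax harch V h1 h1' y hy a ha hya hnp
  obtain ⟨c, hc, hxc⟩ := hgen x hx
  have hπ0 : π ≠ 0 := by
    intro h
    apply hπ'
    rw [h, inv_zero]; exact V'.zero_mem
  have hπL0 : algebraMap K L π ≠ 0 := fun h =>
    hπ0 ((algebraMap K L).injective (by rw [h, map_zero]))
  let P : V := ⟨algebraMap K L π, h1 π hπ⟩
  let I : Ideal V := Ideal.span {P}
  have hmem : ∀ z : V, z ∈ I ↔ (algebraMap K L π)⁻¹ * (z : L) ∈ V := by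
    intro z
    rw [Ideal.mem_span_singleton]
    constructor
    · rintro ⟨t, rfl⟩
      have h3 : (algebraMap K L π)⁻¹ * ((P * t : V) : L) = (t : L) := by
        show (algebraMap K L π)⁻¹ * (algebraMap K L π * (t : L)) = t
        rw [← mul_assoc, inv_mul_cancel₀ hπL0, one_mul]
      rw [h3]; exact t.2
    · intro h
      refine ⟨⟨_, h⟩, ?_⟩
      apply Subtype.ext
      show (z : L) = algebraMap K L π * ((algebraMap K L π)⁻¹ * (z : L))
      rw [← mul_assoc, mul_inv_cancel₀ hπL0, one_mul]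
  have hI : I ≠ ⊤ := by
    intro h
    have h1I : (1 : V) ∈ I := by rw [h]; trivial
    rw [hmem] at h1I
    apply h1'
    have h3 : (algebraMap K L π)⁻¹ * ((1 : V) : L) = (algebraMap K L π)⁻¹ := by
      show (algebraMap K L π)⁻¹ * (1 : L) = _
      rw [mul_one]
    rw [h3] at h1I
    exact h1I
  haveI : Nontrivial (V ⧸ I) := Ideal.Quotient.nontrivial_iff.mpr hI
  have hq0 : ((q : ℕ) : V ⧸ I) = 0 := by
    have h3 : ((q : ℕ) : V) ∈ I := by
      rw [hmem]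
      have h4 : (algebraMap K L π)⁻¹ * (((q : ℕ) : V) : L) = algebraMap K L (π⁻¹ * (q : K)) := by
        rw [map_mul, map_inv₀, map_natCast]
        rfl
      rw [h4]; exact h1 _ hqπ
    rw [← map_natCast (Ideal.Quotient.mk I)]
    exact Ideal.Quotient.eq_zero_iff_mem.mpr h3
  haveI : Fact q.Prime := ⟨hq⟩
  haveI : CharP (V ⧸ I) q := ringChar.of_eq (CharP.ringChar_of_prime_eq_zero hq hq0)
  let mk : V →+* V ⧸ I := Ideal.Quotient.mk I
  let xV : V := ⟨x, hx⟩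
  let yV : V := ⟨y, hy⟩
  let aV : V := ⟨algebraMap K L a, h1 a ha⟩
  let cV : Fin q → V := fun i => ⟨algebraMap K L (c i), h1 _ (hc i)⟩
  have hcoe_sum : ∀ f : Fin q → V, ((∑ i, f i : V) : L) = ∑ i, (f i : L) := fun f =>
    map_sum V.subtype f Finset.univ
  have e1 : mk xV = ∑ i, mk (cV i) * mk yV ^ (i : ℕ) := by
    rw [← sub_eq_zero]
    simp only [← map_pow, ← map_mul, ← map_sum, ← map_sub]
    rw [Ideal.Quotient.eq_zero_iff_mem, hmem]
    have h3 : ((xV - ∑ i, cV i * yV ^ (i : ℕ) : V) : L) =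
        x - ∑ i, algebraMap K L (c i) * y ^ (i : ℕ) := by
      show (xV : L) - ((∑ i, cV i * yV ^ (i : ℕ) : V) : L) = _
      rw [hcoe_sum]
      rfl
    rw [h3]
    exact hxc
  have e2 : mk yV ^ q = mk aV := by
    rw [← map_pow, ← sub_eq_zero, ← map_sub, Ideal.Quotient.eq_zero_iff_mem, hmem]
    exact hya
  have e3 : mk xV ^ q = mk (∑ i, cV i ^ q * aV ^ (i : ℕ)) := by
    rw [e1, sum_pow_char, map_sum]
    refine Finset.sum_congr rfl fun i _ => ?_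
    rw [mul_pow, ← pow_mul, mul_comm (i : ℕ) q, pow_mul, e2, map_mul, map_pow, map_pow]
  refine ⟨∑ i, c i ^ q * a ^ (i : ℕ), ?_, ?_⟩
  · exact V'.toSubring.sum_mem fun i _ => V'.mul_mem _ _ (V'.pow_mem (hc i) q) (V'.pow_mem ha _)
  · have h3 := e3
    rw [← map_pow, ← sub_eq_zero, ← map_sub, Ideal.Quotient.eq_zero_iff_mem, hmem] at h3
    have h4 : ((xV ^ q - ∑ i, cV i ^ q * aV ^ (i : ℕ) : V) : L) =
        x ^ q - algebraMap K L (∑ i, c i ^ q * a ^ (i : ℕ)) := by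
      show (xV : L) ^ q - ((∑ i, cV i ^ q * aV ^ (i : ℕ) : V) : L) = _
      rw [hcoe_sum, map_sum]
      congr 1
      refine Finset.sum_congr rfl fun i _ => ?_
      rw [map_mul, map_pow, map_pow]
      rfl
    rw [h4] at h3
    exact h3

end lift

section hom

variable {K L Λ : Type*} [Field K] [Field L] [Monoid Λ]

/-- Separability is automatic in characteristic zero. -/
theorem nr88_sep_of_charZero [CharZero K] (φ : K →+* L)
    (hfin : letI := φ.toAlgebra; FiniteDimensional K L) :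
    letI := φ.toAlgebra; Algebra.IsSeparable K L := by
  letI := φ.toAlgebra
  haveI : FiniteDimensional K L := hfin
  infer_instance

/-- **(N1) / (N4), abstract.**  Ramified pair `V1`, `V2` over `V'` along `φ` (hypotheses of
`oe72_ram_main`), maps `ri`, `r1`, `r2` constant on congruence classes, `ri` multiplicative on
`V'`, `r1 ∘ φ = ri = r2 ∘ φ` on `V'`: for `y ∈ V1 ⊓ V2`, `ri (N y) = r1 y * r2 y ^ n`. -/
theorem nr88_ram (φ : K →+* L)
    (hfin : letI := φ.toAlgebra; FiniteDimensional K L)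
    (hsep : letI := φ.toAlgebra; Algebra.IsSeparable K L)
    (n : ℕ) (hn : 1 ≤ n) (hdeg : letI := φ.toAlgebra; Module.finrank K L ≤ n + 1)
    (V' : ValuationSubring K) (π : K) (hπ : π ∈ V') (hπ' : π⁻¹ ∉ V')
    (hmax : ∀ x ∈ V', x⁻¹ ∉ V' → π⁻¹ * x ∈ V')
    (harch : ∀ x : K, x ≠ 0 → ∃ n : ℕ, (π ^ n)⁻¹ * x ∉ V')
    (V1 V2 : ValuationSubring L) (h12 : V1 ≠ V2)
    (h1 : ∀ x ∈ V', φ x ∈ V1) (h1' : (φ π)⁻¹ ∉ V1)
    (h2 : ∀ x ∈ V', φ x ∈ V2) (h2' : (φ π)⁻¹ ∉ V2)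
    (s : L) (hs : V2.valuation s ^ n = V2.valuation (φ π))
    (ri : K → Λ) (r1 r2 : L → Λ)
    (hric : ∀ x ∈ V', ∀ z ∈ V', π⁻¹ * (x - z) ∈ V' → ri x = ri z)
    (hrim : ∀ x ∈ V', ∀ z ∈ V', ri (x * z) = ri x * ri z)
    (hr1c : ∀ x ∈ V1, ∀ z ∈ V1, (φ π)⁻¹ * (x - z) ∈ V1 → r1 x = r1 z)
    (hr2c : ∀ x ∈ V2, ∀ z ∈ V2, s⁻¹ * (x - z) ∈ V2 → r2 x = r2 z)
    (h1φ : ∀ h ∈ V', r1 (φ h) = ri h) (h2φ : ∀ h ∈ V', r2 (φ h) = ri h)
    (y : L) (hy1 : y ∈ V1) (hy2 : y ∈ V2) :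
    (letI := φ.toAlgebra; Algebra.norm K y) ∈ V' ∧
      ri (letI := φ.toAlgebra; Algebra.norm K y) = r1 y * r2 y ^ n := by
  letI := φ.toAlgebra
  haveI : FiniteDimensional K L := hfin
  haveI : Algebra.IsSeparable K L := hsep
  obtain ⟨-, -, -, -, hres1, hres2, -⟩ :=
    oe72_ram_main n hn hdeg V' π hπ hπ' hmax harch V1 V2 h12 h1 h1' h2 h2' s hs
  obtain ⟨v1, hv1, hyv1⟩ := hres1 y hy1
  obtain ⟨v2, hv2, hyv2⟩ := hres2 y hy2
  obtain ⟨hN, hNc⟩ := nv88_ram_norm n hn hdeg V' π hπ hπ' hmax harch V1 V2 h12 h1 h1' h2 h2' s hs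
    y hy1 hy2 v1 v2 hv1 hv2 hyv1 hyv2
  refine ⟨hN, ?_⟩
  have e1 : r1 y = ri v1 := by
    rw [← h1φ v1 hv1]; exact hr1c y hy1 _ (h1 v1 hv1) hyv1
  have e2 : r2 y = ri v2 := by
    rw [← h2φ v2 hv2]; exact hr2c y hy2 _ (h2 v2 hv2) hyv2
  have e4 : ∀ k : ℕ, ri (v1 * v2 ^ k) = ri v1 * ri v2 ^ k := by
    intro k
    induction k with
    | zero => rw [pow_zero, pow_zero, mul_one, mul_one]
    | succ k ih =>
      rw [pow_succ, ← mul_assoc, hrim _ (V'.mul_mem _ _ hv1 (V'.pow_mem hv2 k)) _ hv2, ih,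
        pow_succ, mul_assoc]
  have e3 : ri (Algebra.norm K y) = ri (v1 * v2 ^ n) :=
    hric _ hN _ (V'.mul_mem _ _ hv1 (V'.pow_mem hv2 n)) hNc
  rw [e3, e4, e1, e2]

/-- **(N2) / (N3), abstract.**  Inert extension `V` of `V'` along `φ` (hypotheses of
`oe72_inert_main`), residue characteristic `q`, maps `ρ`, `r` constant on congruence classes
mod `π`, `r` multiplicative on `V`, `r ∘ φ = ρ` on `V'`: for `x ∈ V`, `ρ (N x) = r x ^ q`. -/
theorem nr88_inert (φ : K →+* L)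
    (hfin : letI := φ.toAlgebra; FiniteDimensional K L)
    (hsep : letI := φ.toAlgebra; Algebra.IsSeparable K L)
    (q : ℕ) (hq : q.Prime) (hdeg : letI := φ.toAlgebra; Module.finrank K L ≤ q)
    (V' : ValuationSubring K) (π : K) (hπ : π ∈ V') (hπ' : π⁻¹ ∉ V')
    (hmax : ∀ x ∈ V', x⁻¹ ∉ V' → π⁻¹ * x ∈ V')
    (harch : ∀ x : K, x ≠ 0 → ∃ n : ℕ, (π ^ n)⁻¹ * x ∉ V')
    (hqπ : π⁻¹ * (q : K) ∈ V')
    (V : ValuationSubring L)
    (h1 : ∀ x ∈ V', φ x ∈ V) (h1' : (φ π)⁻¹ ∉ V)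
    (y : L) (hy : y ∈ V) (a : K) (ha : a ∈ V')
    (hya : (φ π)⁻¹ * (y ^ q - φ a) ∈ V)
    (hnp : ∀ b ∈ V', π⁻¹ * (b ^ q - a) ∉ V')
    (ρ : K → Λ) (r : L → Λ)
    (hρc : ∀ x ∈ V', ∀ z ∈ V', π⁻¹ * (x - z) ∈ V' → ρ x = ρ z)
    (hrc : ∀ x ∈ V, ∀ z ∈ V, (φ π)⁻¹ * (x - z) ∈ V → r x = r z)
    (hrm : ∀ x ∈ V, ∀ z ∈ V, r (x * z) = r x * r z)
    (hrφ : ∀ h ∈ V', r (φ h) = ρ h)
    (x : L) (hx : x ∈ V) :
    (letI := φ.toAlgebra; Algebra.norm K x) ∈ V' ∧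
      ρ (letI := φ.toAlgebra; Algebra.norm K x) = r x ^ q := by
  letI := φ.toAlgebra
  haveI : FiniteDimensional K L := hfin
  haveI : Algebra.IsSeparable K L := hsep
  obtain ⟨v, hv, hxv⟩ := nr88_inert_lift q hq hdeg V' π hπ hπ' hmax harch hqπ V h1 h1' y hy a ha
    hya hnp x hx
  obtain ⟨hN, hNc⟩ := nv88_inert_norm q hq hdeg V' π hπ hπ' hmax harch hqπ V h1 h1' y hy a ha
    hya hnp x hx v hv hxv
  refine ⟨hN, ?_⟩
  have e1 : ∀ k : ℕ, r (x ^ (k + 1)) = r x ^ (k + 1) := by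
    intro k
    induction k with
    | zero => rw [zero_add, pow_one, pow_one]
    | succ k ih => rw [pow_succ, hrm _ (V.pow_mem hx (k + 1)) _ hx, ih, ← pow_succ]
  have e2 : r (x ^ q) = r x ^ q := by
    obtain ⟨k, rfl⟩ : ∃ k, q = k + 1 := ⟨q - 1, (Nat.succ_pred_eq_of_pos hq.pos).symm⟩
    exact e1 k
  have e3 : r (x ^ q) = ρ v := by
    rw [← hrφ v hv]; exact hrc _ (V.pow_mem hx q) _ (h1 v hv) hxv
  have e4 : ρ (Algebra.norm K x) = ρ v := hρc _ hN _ hv hNc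
  rw [e4, ← e3, e2]

/-- The norm of a unit of `V1 ⊓ V2` is a unit of `V'` (ramified pair, hypotheses of
`oe72_ram_main`). -/
theorem nr88_unit_ram (φ : K →+* L)
    (hfin : letI := φ.toAlgebra; FiniteDimensional K L)
    (hsep : letI := φ.toAlgebra; Algebra.IsSeparable K L)
    (n : ℕ) (hn : 1 ≤ n) (hdeg : letI := φ.toAlgebra; Module.finrank K L ≤ n + 1)
    (V' : ValuationSubring K) (π : K) (hπ : π ∈ V') (hπ' : π⁻¹ ∉ V')
    (hmax : ∀ x ∈ V', x⁻¹ ∉ V' → π⁻¹ * x ∈ V')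
    (harch : ∀ x : K, x ≠ 0 → ∃ n : ℕ, (π ^ n)⁻¹ * x ∉ V')
    (V1 V2 : ValuationSubring L) (h12 : V1 ≠ V2)
    (h1 : ∀ x ∈ V', φ x ∈ V1) (h1' : (φ π)⁻¹ ∉ V1)
    (h2 : ∀ x ∈ V', φ x ∈ V2) (h2' : (φ π)⁻¹ ∉ V2)
    (s : L) (hs : V2.valuation s ^ n = V2.valuation (φ π))
    (y : L) (hy1 : y ∈ V1) (hy2 : y ∈ V2) (hy1' : y⁻¹ ∈ V1) (hy2' : y⁻¹ ∈ V2) :
    (letI := φ.toAlgebra; Algebra.norm K y) ∈ V' ∧
      (letI := φ.toAlgebra; Algebra.norm K y)⁻¹ ∈ V' := by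
  have key : ∀ z : L, z ∈ V1 → z ∈ V2 → (letI := φ.toAlgebra; Algebra.norm K z) ∈ V' :=
    fun z hz1 hz2 =>
      (nr88_ram (Λ := Unit) φ hfin hsep n hn hdeg V' π hπ hπ' hmax harch V1 V2 h12 h1 h1' h2 h2'
        s hs (fun _ => ()) (fun _ => ()) (fun _ => ()) (fun _ _ _ _ _ => rfl)
        (fun _ _ _ _ => rfl) (fun _ _ _ _ _ => rfl) (fun _ _ _ _ _ => rfl) (fun _ _ => rfl)
        (fun _ _ => rfl) z hz1 hz2).1
  refine ⟨key y hy1 hy2, ?_⟩
  have h3 := key y⁻¹ hy1' hy2'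
  letI := φ.toAlgebra
  haveI : FiniteDimensional K L := hfin
  have hinv : Algebra.norm K y⁻¹ = (Algebra.norm K y)⁻¹ := by
    by_cases hy0 : y = 0
    · rw [hy0, inv_zero, Algebra.norm_zero, inv_zero]
    · refine eq_inv_of_mul_eq_one_left ?_
      rw [← map_mul, inv_mul_cancel₀ hy0, map_one]
  rw [← hinv]
  exact h3

/-- The norm of a unit of `V` is a unit of `V'` (inert extension, hypotheses of
`oe72_inert_main`, residue characteristic `q`). -/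
theorem nr88_unit_inert (φ : K →+* L)
    (hfin : letI := φ.toAlgebra; FiniteDimensional K L)
    (hsep : letI := φ.toAlgebra; Algebra.IsSeparable K L)
    (q : ℕ) (hq : q.Prime) (hdeg : letI := φ.toAlgebra; Module.finrank K L ≤ q)
    (V' : ValuationSubring K) (π : K) (hπ : π ∈ V') (hπ' : π⁻¹ ∉ V')
    (hmax : ∀ x ∈ V', x⁻¹ ∉ V' → π⁻¹ * x ∈ V')
    (harch : ∀ x : K, x ≠ 0 → ∃ n : ℕ, (π ^ n)⁻¹ * x ∉ V')
    (hqπ : π⁻¹ * (q : K) ∈ V')
    (V : ValuationSubring L)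
    (h1 : ∀ x ∈ V', φ x ∈ V) (h1' : (φ π)⁻¹ ∉ V)
    (y : L) (hy : y ∈ V) (a : K) (ha : a ∈ V')
    (hya : (φ π)⁻¹ * (y ^ q - φ a) ∈ V)
    (hnp : ∀ b ∈ V', π⁻¹ * (b ^ q - a) ∉ V')
    (x : L) (hx : x ∈ V) (hx' : x⁻¹ ∈ V) :
    (letI := φ.toAlgebra; Algebra.norm K x) ∈ V' ∧
      (letI := φ.toAlgebra; Algebra.norm K x)⁻¹ ∈ V' := by
  have key : ∀ z : L, z ∈ V → (letI := φ.toAlgebra; Algebra.norm K z) ∈ V' :=
    fun z hz =>
      (nr88_inert (Λ := Unit) φ hfin hsep q hq hdeg V' π hπ hπ' hmax harch hqπ V h1 h1' y hy a ha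
        hya hnp (fun _ => ()) (fun _ => ()) (fun _ _ _ _ _ => rfl) (fun _ _ _ _ _ => rfl)
        (fun _ _ _ _ => rfl) (fun _ _ => rfl) z hz).1
  refine ⟨key x hx, ?_⟩
  have h3 := key x⁻¹ hx'
  letI := φ.toAlgebra
  haveI : FiniteDimensional K L := hfin
  have hinv : Algebra.norm K x⁻¹ = (Algebra.norm K x)⁻¹ := by
    by_cases hx0 : x = 0
    · rw [hx0, inv_zero, Algebra.norm_zero, inv_zero]
    · refine eq_inv_of_mul_eq_one_left ?_
      rw [← map_mul, inv_mul_cancel₀ hx0, map_one]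
  rw [← hinv]
  exact h3

end hom

end Fermat.Agent.S36
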