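import Fermat.Agent.S35.Iface62
import Fermat.Agent.S36.OnlyBindBeta72
import Fermat.Agent.S36.NormRed88

/-!
# S36 lab, row B2-norm (helper88): the norm congruences on the LITERAL level `M' q q` frame

`F₁ = F(M' q)_K`, `F₂ = F(M' q q)_K`, `α₂ = al97L_alpha K (M' q) q`, `β₂ = al97L_beta K (M' q) q`,
`N_α = s35i62_normA K (M' q) q`, `N_β = s35i62_normB K (M' q) q`;
`V_∞ = cm85_Vinf (M' q)`, `V_0 = s34i47c_V0 M' q`, `V₁ = cm85_Vinf (M' q q)`;
`V₃` any valuation subring with `x ∈ V₃ ↔ w₂ x ∈ V₁` (helper72's `hV₃mem`);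
`V₂` a PARAMETER with the four facts of row B1-V2 (and `hE2` on the `β` side), literally the
hypotheses of `ob72_ram` / `obb72_ram`.

The six norm fields of `fov50_Data` (helper50, `FrameOfVal50`), in the literal `nonunits` shape:

* `ni88_ramα` : `y ∈ V₁ ⊓ V₂`, `y ≡ α₂ v1 (𝔪 V₁)`, `y ≡ α₂ v2 (𝔪 V₂)` ⟹
  `N_α y ≡ v1 * v2 ^ (q - 1) (𝔪 V_∞)`;
* `ni88_inα` : `y ∈ V₃`, `y ^ q ≡ α₂ v (𝔪 V₃)` ⟹ `N_α y ≡ v (𝔪 V_0)`;
* `ni88_ramβ` : `y ∈ V₃ ⊓ V₂`, `y ≡ β₂ v3 (𝔪 V₃)`, `y ≡ β₂ v2 (𝔪 V₂)` ⟹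
  `N_β y ≡ v3 * v2 ^ (q - 1) (𝔪 V_0)`;
* `ni88_inβ` : `y ∈ V₁`, `y ^ q ≡ β₂ v (𝔪 V₁)` ⟹ `N_β y ≡ v (𝔪 V_∞)`;
* `ni88_insα` : `∀ y ∈ V₃, ∃ v ∈ V_0, y ^ q ≡ α₂ v (𝔪 V₃)`;
* `ni88_insβ` : `∀ y ∈ V₁, ∃ v ∈ V_∞, y ^ q ≡ β₂ v (𝔪 V₁)`.

Proofs: `nv88_ram_norm`, `nv88_inert_norm`, `nr88_inert_lift` with the instance hypotheses of
helper72's `OnlyBind72` / `OnlyBindBeta72` / `OnlyThree72`.  All names are prefixed `ni88_`.
-/

set_option autoImplicit false
set_option linter.unusedSectionVars false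
set_option linter.unusedVariables false
set_option linter.style.longLine false
set_option linter.style.haveILetI false

open ModularCurve AlgebraicCurve IntermediateField Polynomial

namespace Fermat.Agent.S36

open Fermat.Agent.S18 Fermat.Agent.S24 Fermat.Agent.S37 Fermat.Agent.S34 Fermat.Agent.S35

local notation "Q̄" => AlgebraicClosure ℚ

section gen

variable {F : Type*} [Field F]

/-- A nonunit is divisible by a uniformizer. -/
theorem ni88_unif_of_nu (V : ValuationSubring F) (p : F)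
    (hmax : ∀ x ∈ V, x⁻¹ ∉ V → p⁻¹ * x ∈ V) {x : F} (hx : x ∈ V.nonunits) : p⁻¹ * x ∈ V := by
  by_cases hx0 : x = 0
  · rw [hx0, mul_zero]; exact V.zero_mem
  · rw [ValuationSubring.mem_nonunits_iff] at hx
    obtain ⟨ha, hb⟩ := (nv88_lt_one_iff V x hx0).mp hx
    exact hmax x ha hb

/-- A multiple of a nonunit is a nonunit. -/
theorem ni88_nu_of_unif (V : ValuationSubring F) (p : F) (hp : p ∈ V) (hp' : p⁻¹ ∉ V) {x : F}
    (hx : p⁻¹ * x ∈ V) : x ∈ V.nonunits := by
  have hp0 : p ≠ 0 := by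
    intro h
    apply hp'
    rw [h, inv_zero]; exact V.zero_mem
  rw [ValuationSubring.mem_nonunits_iff]
  exact nv88_lt_one_of_dvd V p x hp0 ((nv88_lt_one_iff V p hp0).mpr ⟨hp, hp'⟩) hx

end gen

section ni88

variable {R K : Type} [CommRing R] [IsDomain R] [IsDiscreteValuationRing R] [Field K] [CharZero K]
  [Algebra R K] [IsFractionRing R K] [Algebra K Q̄] (M' q : ℕ) [NeZero M'] [NeZero q]

/-- **(ramα)** on the literal frame. -/
theorem ni88_ramα (hq : q.Prime) (hM' : ¬ q ∣ M') {π : R} (hπ : Irreducible π)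
    (V₂ : ValuationSubring ↥(modularFunctionFieldFullC K (M' * q * q)))
    (hV₂ : ∀ c ∈ cm85_Vinf (K := K) (M' * q) hπ, al97L_alpha K (M' * q) q c ∈ V₂)
    (hπ₂ : (algebraMap K ↥(modularFunctionFieldFullC K (M' * q * q)) (algebraMap R K π))⁻¹ ∉ V₂)
    (hne : cm85_Vinf (K := K) (M' * q * q) hπ ≠ V₂)
    (s : ↥(modularFunctionFieldFullC K (M' * q * q)))
    (hs : V₂.valuation s ^ (q - 1) =
      V₂.valuation (algebraMap K ↥(modularFunctionFieldFullC K (M' * q * q)) (algebraMap R K π)))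
    (y : ↥(modularFunctionFieldFullC K (M' * q * q)))
    (hy1 : y ∈ cm85_Vinf (K := K) (M' * q * q) hπ) (hy2 : y ∈ V₂)
    (v1 : ↥(modularFunctionFieldFullC K (M' * q))) (hv1 : v1 ∈ cm85_Vinf (K := K) (M' * q) hπ)
    (v2 : ↥(modularFunctionFieldFullC K (M' * q))) (hv2 : v2 ∈ cm85_Vinf (K := K) (M' * q) hπ)
    (h1 : y - al97L_alpha K (M' * q) q v1 ∈ (cm85_Vinf (K := K) (M' * q * q) hπ).nonunits)
    (h2 : y - al97L_alpha K (M' * q) q v2 ∈ V₂.nonunits) :
    s35i62_normA K (M' * q) q y - v1 * v2 ^ (q - 1) ∈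
      (cm85_Vinf (K := K) (M' * q) hπ).nonunits := by
  letI alg : Algebra ↥(modularFunctionFieldFullC K (M' * q))
      ↥(modularFunctionFieldFullC K (M' * q * q)) :=
    (al97L_alpha K (M' * q) q).toRingHom.toAlgebra
  have hfr := ob72_finrank K (M' * q) q hq (dvd_mul_left q M')
  haveI : FiniteDimensional ↥(modularFunctionFieldFullC K (M' * q))
      ↥(modularFunctionFieldFullC K (M' * q * q)) :=
    Module.finite_of_finrank_pos (by rw [hfr]; exact hq.pos)
  haveI : CharZero ↥(modularFunctionFieldFullC K (M' * q)) :=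
    charZero_of_injective_algebraMap
      (algebraMap K ↥(modularFunctionFieldFullC K (M' * q))).injective
  haveI : Algebra.IsSeparable ↥(modularFunctionFieldFullC K (M' * q))
      ↥(modularFunctionFieldFullC K (M' * q * q)) := inferInstance
  have hπEF : algebraMap ↥(modularFunctionFieldFullC K (M' * q))
      ↥(modularFunctionFieldFullC K (M' * q * q))
      (algebraMap K ↥(modularFunctionFieldFullC K (M' * q)) (algebraMap R K π)) =
      algebraMap K ↥(modularFunctionFieldFullC K (M' * q * q)) (algebraMap R K π) :=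
    (al97L_alpha K (M' * q) q).commutes _
  have hπV' : algebraMap K ↥(modularFunctionFieldFullC K (M' * q)) (algebraMap R K π) ∈
      cm85_Vinf (K := K) (M' * q) hπ :=
    gv85_mem_V_of_integral _ _ _ _ (HahnSeries.C π) (by rw [gv85_coe_algebraMap, gv85_coeffMap_C])
  have hπV'' : (algebraMap K ↥(modularFunctionFieldFullC K (M' * q)) (algebraMap R K π))⁻¹ ∉
      cm85_Vinf (K := K) (M' * q) hπ :=
    gv85_pi_inv_not_mem (IsLocalRing.residue R) π (pk85_res_iff hπ) hπ.ne_zero _ _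
  have hmax : ∀ x ∈ cm85_Vinf (K := K) (M' * q) hπ, x⁻¹ ∉ cm85_Vinf (K := K) (M' * q) hπ →
      (algebraMap K ↥(modularFunctionFieldFullC K (M' * q)) (algebraMap R K π))⁻¹ * x ∈
        cm85_Vinf (K := K) (M' * q) hπ := fun x hx hx' =>
    gv85_hmax (IsLocalRing.residue R) π (pk85_res_iff hπ) hπ.ne_zero _ _ x hx hx'
  have harch := fs85_harch (K := K) (M' * q) hπ
  have hV₁ : ∀ c ∈ cm85_Vinf (K := K) (M' * q) hπ,
      algebraMap ↥(modularFunctionFieldFullC K (M' * q))
        ↥(modularFunctionFieldFullC K (M' * q * q)) c ∈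
        cm85_Vinf (K := K) (M' * q * q) hπ := fun c hc =>
    (al97V_alpha_mem_Vinf (M' * q) q hπ c).mpr hc
  have hπ₁0 : (algebraMap K ↥(modularFunctionFieldFullC K (M' * q * q)) (algebraMap R K π))⁻¹ ∉
      cm85_Vinf (K := K) (M' * q * q) hπ :=
    gv85_pi_inv_not_mem (IsLocalRing.residue R) π (pk85_res_iff hπ) hπ.ne_zero _ _
  have hmax1 : ∀ x ∈ cm85_Vinf (K := K) (M' * q * q) hπ,
      x⁻¹ ∉ cm85_Vinf (K := K) (M' * q * q) hπ →
      (algebraMap K ↥(modularFunctionFieldFullC K (M' * q * q)) (algebraMap R K π))⁻¹ * x ∈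
        cm85_Vinf (K := K) (M' * q * q) hπ := fun x hx hx' =>
    gv85_hmax (IsLocalRing.residue R) π (pk85_res_iff hπ) hπ.ne_zero _ _ x hx hx'
  have hmax2 := (ob72_ram (K := K) (M' * q) q hq (dvd_mul_left q M') hπ V₂ hV₂ hπ₂ hne s hs).2.2.1
  have hq2 := hq.two_le
  have key := nv88_ram_norm (q - 1) (by omega) (by rw [hfr]; omega)
    (cm85_Vinf (K := K) (M' * q) hπ)
    (algebraMap K ↥(modularFunctionFieldFullC K (M' * q)) (algebraMap R K π))
    hπV' hπV'' hmax harch (cm85_Vinf (K := K) (M' * q * q) hπ) V₂ hne hV₁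
    (by rw [hπEF]; exact hπ₁0) hV₂ (by rw [hπEF]; exact hπ₂) s (by rw [hπEF]; exact hs)
    y hy1 hy2 v1 v2 hv1 hv2
    (by rw [hπEF]; exact ni88_unif_of_nu _ _ hmax1 h1)
    (ni88_unif_of_nu _ _ hmax2 h2)
  exact ni88_nu_of_unif _ _ hπV' hπV'' key.2

/-- `π⁻¹ q` is a constant from `R` (residue characteristic `q`). -/
theorem ni88_q_div (hqR : ¬ IsUnit (q : R)) {π : R} (hπ : Irreducible π) (N : ℕ) :
    ∃ r : R, (algebraMap K ↥(modularFunctionFieldFullC K N) (algebraMap R K π))⁻¹ *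
      ((q : ℕ) : ↥(modularFunctionFieldFullC K N)) =
      algebraMap K ↥(modularFunctionFieldFullC K N) (algebraMap R K r) := by
  have h1 : (q : R) ∈ IsLocalRing.maximalIdeal R := (IsLocalRing.mem_maximalIdeal _).mpr hqR
  rw [hπ.maximalIdeal_eq, Ideal.mem_span_singleton] at h1
  obtain ⟨r, hr⟩ := h1
  refine ⟨r, ?_⟩
  have hπ0 : algebraMap K ↥(modularFunctionFieldFullC K N) (algebraMap R K π) ≠ 0 :=
    (_root_.map_ne_zero _).mpr
      ((_root_.map_ne_zero_iff _ (IsFractionRing.injective R K)).mpr hπ.ne_zero)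
  have h2 : ((q : ℕ) : ↥(modularFunctionFieldFullC K N)) =
      algebraMap K ↥(modularFunctionFieldFullC K N) (algebraMap R K π) *
        algebraMap K ↥(modularFunctionFieldFullC K N) (algebraMap R K r) := by
    rw [← map_mul, ← map_mul, ← hr, map_natCast, map_natCast]
  rw [h2, ← mul_assoc, inv_mul_cancel₀ hπ0, one_mul]

/-- **(inα)** on the literal frame. -/
theorem ni88_inα (hq : q.Prime) (hM' : ¬ q ∣ M') {π : R} (hπ : Irreducible π)
    (hqR : ¬ IsUnit (q : R)) (hL : ((M' * q * q : ℕ) : K) ≠ 0)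
    (V₃ : ValuationSubring ↥(modularFunctionFieldFullC K (M' * q * q)))
    (hV₃mem : ∀ x, x ∈ V₃ ↔
      als86_w2 (algebraMap K Q̄) M' q hq hM' hL x ∈ cm85_Vinf (K := K) (M' * q * q) hπ)
    (y : ↥(modularFunctionFieldFullC K (M' * q * q))) (hy : y ∈ V₃)
    (v : ↥(modularFunctionFieldFullC K (M' * q)))
    (hv : v ∈ s34i47c_V0 (K := K) M' q hq hM' hπ)
    (h : y ^ q - al97L_alpha K (M' * q) q v ∈ V₃.nonunits) :
    s35i62_normA K (M' * q) q y - v ∈ (s34i47c_V0 (K := K) M' q hq hM' hπ).nonunits := by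
  letI alg : Algebra ↥(modularFunctionFieldFullC K (M' * q))
      ↥(modularFunctionFieldFullC K (M' * q * q)) :=
    (al97L_alpha K (M' * q) q).toRingHom.toAlgebra
  have hfr := ob72_finrank K (M' * q) q hq (dvd_mul_left q M')
  haveI : FiniteDimensional ↥(modularFunctionFieldFullC K (M' * q))
      ↥(modularFunctionFieldFullC K (M' * q * q)) :=
    Module.finite_of_finrank_pos (by rw [hfr]; exact hq.pos)
  haveI : CharZero ↥(modularFunctionFieldFullC K (M' * q)) :=
    charZero_of_injective_algebraMap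
      (algebraMap K ↥(modularFunctionFieldFullC K (M' * q))).injective
  haveI : Algebra.IsSeparable ↥(modularFunctionFieldFullC K (M' * q))
      ↥(modularFunctionFieldFullC K (M' * q * q)) := inferInstance
  have hπEF : algebraMap ↥(modularFunctionFieldFullC K (M' * q))
      ↥(modularFunctionFieldFullC K (M' * q * q))
      (algebraMap K ↥(modularFunctionFieldFullC K (M' * q)) (algebraMap R K π)) =
      algebraMap K ↥(modularFunctionFieldFullC K (M' * q * q)) (algebraMap R K π) :=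
    (al97L_alpha K (M' * q) q).commutes _
  obtain ⟨d1, d2, d3, d4⟩ := obi72_V0_dvr (K := K) M' q hq hM' hπ
  obtain ⟨r, hr⟩ := ni88_q_div (K := K) q hqR hπ (M' * q)
  have hqπ : (algebraMap K ↥(modularFunctionFieldFullC K (M' * q)) (algebraMap R K π))⁻¹ *
      ((q : ℕ) : ↥(modularFunctionFieldFullC K (M' * q))) ∈
      s34i47c_V0 (K := K) M' q hq hM' hπ := by
    rw [hr, s34i47c_mem_V0, AlgEquiv.commutes]
    exact gv85_mem_V_of_integral _ _ _ _ (HahnSeries.C r)
      (by rw [gv85_coe_algebraMap, gv85_coeffMap_C])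
  have hmax3 := (o3x72_inert (K := K) M' q hq hM' hπ hqR hL V₃ hV₃mem).2.2.1
  have key := nv88_inert_norm q hq hfr.le
    (s34i47c_V0 (K := K) M' q hq hM' hπ)
    (algebraMap K ↥(modularFunctionFieldFullC K (M' * q)) (algebraMap R K π)) d1 d2 d3 d4 hqπ
    V₃ (o3x72_V3_over M' q hq hM' hπ hL V₃ hV₃mem)
    (by rw [hπEF]; exact o3x72_V3_pi M' q hq hM' hπ hL V₃ hV₃mem)
    (al97L_beta K (M' * q) q (al97L_beta K M' q (relimc_J K M')))
    (o3x72_V3_y M' q hq hM' hπ hL V₃ hV₃mem)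
    (al97L_beta K M' q (relimc_J K M'))
    (by
      rw [s34i47c_mem_V0, al97L_w_beta_apply]
      have hJ : al97L_alpha K M' q (relimc_J K M') = relimc_J K (M' * q) := Subtype.ext rfl
      rw [hJ]
      exact gv85_mem_V_of_integral _ _ _ _ (jqModC R) (by rw [relimc_J_coe, coeffMap_jqModC]))
    (by rw [hπEF]; exact o3x72_V3_frob M' q hq hM' hπ hqR hL V₃ hV₃mem)
    (fun b hb => obi72_hnp (K := K) M' q hq hM' hπ b hb)
    y hy v hv (by rw [hπEF]; exact ni88_unif_of_nu _ _ hmax3 h)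
  exact ni88_nu_of_unif _ _ d1 d2 key.2

/-- **(insα)** on the literal frame: pure inseparability of `V₃` over `V_0` along `α₂`. -/
theorem ni88_insα (hq : q.Prime) (hM' : ¬ q ∣ M') {π : R} (hπ : Irreducible π)
    (hqR : ¬ IsUnit (q : R)) (hL : ((M' * q * q : ℕ) : K) ≠ 0)
    (V₃ : ValuationSubring ↥(modularFunctionFieldFullC K (M' * q * q)))
    (hV₃mem : ∀ x, x ∈ V₃ ↔
      als86_w2 (algebraMap K Q̄) M' q hq hM' hL x ∈ cm85_Vinf (K := K) (M' * q * q) hπ)
    (y : ↥(modularFunctionFieldFullC K (M' * q * q))) (hy : y ∈ V₃) :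
    ∃ v ∈ s34i47c_V0 (K := K) M' q hq hM' hπ,
      y ^ q - al97L_alpha K (M' * q) q v ∈ V₃.nonunits := by
  letI alg : Algebra ↥(modularFunctionFieldFullC K (M' * q))
      ↥(modularFunctionFieldFullC K (M' * q * q)) :=
    (al97L_alpha K (M' * q) q).toRingHom.toAlgebra
  have hfr := ob72_finrank K (M' * q) q hq (dvd_mul_left q M')
  haveI : FiniteDimensional ↥(modularFunctionFieldFullC K (M' * q))
      ↥(modularFunctionFieldFullC K (M' * q * q)) :=
    Module.finite_of_finrank_pos (by rw [hfr]; exact hq.pos)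
  have hπEF : algebraMap ↥(modularFunctionFieldFullC K (M' * q))
      ↥(modularFunctionFieldFullC K (M' * q * q))
      (algebraMap K ↥(modularFunctionFieldFullC K (M' * q)) (algebraMap R K π)) =
      algebraMap K ↥(modularFunctionFieldFullC K (M' * q * q)) (algebraMap R K π) :=
    (al97L_alpha K (M' * q) q).commutes _
  obtain ⟨d1, d2, d3, d4⟩ := obi72_V0_dvr (K := K) M' q hq hM' hπ
  obtain ⟨r, hr⟩ := ni88_q_div (K := K) q hqR hπ (M' * q)
  have hqπ : (algebraMap K ↥(modularFunctionFieldFullC K (M' * q)) (algebraMap R K π))⁻¹ *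
      ((q : ℕ) : ↥(modularFunctionFieldFullC K (M' * q))) ∈
      s34i47c_V0 (K := K) M' q hq hM' hπ := by
    rw [hr, s34i47c_mem_V0, AlgEquiv.commutes]
    exact gv85_mem_V_of_integral _ _ _ _ (HahnSeries.C r)
      (by rw [gv85_coe_algebraMap, gv85_coeffMap_C])
  have hover := o3x72_V3_over M' q hq hM' hπ hL V₃ hV₃mem
  have hpi3 := o3x72_V3_pi M' q hq hM' hπ hL V₃ hV₃mem
  obtain ⟨v, hv, hxv⟩ := nr88_inert_lift q hq hfr.le
    (s34i47c_V0 (K := K) M' q hq hM' hπ)
    (algebraMap K ↥(modularFunctionFieldFullC K (M' * q)) (algebraMap R K π)) d1 d2 d3 d4 hqπ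
    V₃ hover (by rw [hπEF]; exact hpi3)
    (al97L_beta K (M' * q) q (al97L_beta K M' q (relimc_J K M')))
    (o3x72_V3_y M' q hq hM' hπ hL V₃ hV₃mem)
    (al97L_beta K M' q (relimc_J K M'))
    (by
      rw [s34i47c_mem_V0, al97L_w_beta_apply]
      have hJ : al97L_alpha K M' q (relimc_J K M') = relimc_J K (M' * q) := Subtype.ext rfl
      rw [hJ]
      exact gv85_mem_V_of_integral _ _ _ _ (jqModC R) (by rw [relimc_J_coe, coeffMap_jqModC]))
    (by rw [hπEF]; exact o3x72_V3_frob M' q hq hM' hπ hqR hL V₃ hV₃mem)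
    (fun b hb => obi72_hnp (K := K) M' q hq hM' hπ b hb)
    y hy
  refine ⟨v, hv, ?_⟩
  rw [hπEF] at hxv
  have hπ3 : algebraMap K ↥(modularFunctionFieldFullC K (M' * q * q)) (algebraMap R K π) ∈ V₃ := by
    rw [← hπEF]; exact hover _ d1
  exact ni88_nu_of_unif V₃ _ hπ3 hpi3 hxv

set_option maxHeartbeats 1600000 in
/-- **(inβ)** on the literal frame. -/
theorem ni88_inβ (hq : q.Prime) (hM' : ¬ q ∣ M') {π : R} (hπ : Irreducible π)
    (hqR : ¬ IsUnit (q : R)) (hL : ((M' * q * q : ℕ) : K) ≠ 0)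
    (y : ↥(modularFunctionFieldFullC K (M' * q * q)))
    (hy : y ∈ cm85_Vinf (K := K) (M' * q * q) hπ)
    (v : ↥(modularFunctionFieldFullC K (M' * q))) (hv : v ∈ cm85_Vinf (K := K) (M' * q) hπ)
    (h : y ^ q - al97L_beta K (M' * q) q v ∈ (cm85_Vinf (K := K) (M' * q * q) hπ).nonunits) :
    s35i62_normB K (M' * q) q y - v ∈ (cm85_Vinf (K := K) (M' * q) hπ).nonunits := by
  letI alg : Algebra ↥(modularFunctionFieldFullC K (M' * q))
      ↥(modularFunctionFieldFullC K (M' * q * q)) :=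
    (al97L_beta K (M' * q) q).toRingHom.toAlgebra
  have hfr := als86_finrank_beta (algebraMap K Q̄) M' q hq hM' hL
  haveI : FiniteDimensional ↥(modularFunctionFieldFullC K (M' * q))
      ↥(modularFunctionFieldFullC K (M' * q * q)) :=
    Module.finite_of_finrank_pos (by rw [hfr]; exact hq.pos)
  haveI : CharZero ↥(modularFunctionFieldFullC K (M' * q)) :=
    charZero_of_injective_algebraMap
      (algebraMap K ↥(modularFunctionFieldFullC K (M' * q))).injective
  haveI : Algebra.IsSeparable ↥(modularFunctionFieldFullC K (M' * q))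
      ↥(modularFunctionFieldFullC K (M' * q * q)) := inferInstance
  have hπEF : algebraMap ↥(modularFunctionFieldFullC K (M' * q))
      ↥(modularFunctionFieldFullC K (M' * q * q))
      (algebraMap K ↥(modularFunctionFieldFullC K (M' * q)) (algebraMap R K π)) =
      algebraMap K ↥(modularFunctionFieldFullC K (M' * q * q)) (algebraMap R K π) :=
    (al97L_beta K (M' * q) q).commutes _
  have hJV1 : relimc_J K (M' * q) ∈ cm85_Vinf (K := K) (M' * q) hπ :=
    gv85_mem_V_of_integral _ _ _ _ (jqModC R) (by rw [relimc_J_coe, coeffMap_jqModC])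
  have hJ2 : al97L_alpha K (M' * q) q (relimc_J K (M' * q)) = relimc_J K (M' * q * q) :=
    Subtype.ext rfl
  have hya : (algebraMap ↥(modularFunctionFieldFullC K (M' * q))
      ↥(modularFunctionFieldFullC K (M' * q * q))
      (algebraMap K ↥(modularFunctionFieldFullC K (M' * q)) (algebraMap R K π)))⁻¹ *
      (relimc_J K (M' * q * q) ^ q - algebraMap ↥(modularFunctionFieldFullC K (M' * q))
        ↥(modularFunctionFieldFullC K (M' * q * q)) (relimc_J K (M' * q))) ∈
        cm85_Vinf (K := K) (M' * q * q) hπ := by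
    rw [hπEF, ← hJ2]
    have h2 := (cm85_Vinf (K := K) (M' * q * q) hπ).neg_mem _
      (fs85_frob (K := K) (M' * q) q hq hπ hqR)
    have h3 : (algebraMap K ↥(modularFunctionFieldFullC K (M' * q * q)) (algebraMap R K π))⁻¹ *
        (al97L_alpha K (M' * q) q (relimc_J K (M' * q)) ^ q -
          algebraMap ↥(modularFunctionFieldFullC K (M' * q))
            ↥(modularFunctionFieldFullC K (M' * q * q)) (relimc_J K (M' * q))) =
        -((algebraMap K ↥(modularFunctionFieldFullC K (M' * q * q)) (algebraMap R K π))⁻¹ *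
          (al97L_beta K (M' * q) q (relimc_J K (M' * q)) -
            al97L_alpha K (M' * q) q (relimc_J K (M' * q) ^ q))) := by
      rw [map_pow]
      show _ * (_ - al97L_beta K (M' * q) q (relimc_J K (M' * q))) = _
      ring
    rw [h3]
    exact h2
  have hπV' : algebraMap K ↥(modularFunctionFieldFullC K (M' * q)) (algebraMap R K π) ∈
      cm85_Vinf (K := K) (M' * q) hπ :=
    gv85_mem_V_of_integral _ _ _ _ (HahnSeries.C π) (by rw [gv85_coe_algebraMap, gv85_coeffMap_C])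
  have hπV'' : (algebraMap K ↥(modularFunctionFieldFullC K (M' * q)) (algebraMap R K π))⁻¹ ∉
      cm85_Vinf (K := K) (M' * q) hπ :=
    gv85_pi_inv_not_mem (IsLocalRing.residue R) π (pk85_res_iff hπ) hπ.ne_zero _ _
  have hmax : ∀ x ∈ cm85_Vinf (K := K) (M' * q) hπ, x⁻¹ ∉ cm85_Vinf (K := K) (M' * q) hπ →
      (algebraMap K ↥(modularFunctionFieldFullC K (M' * q)) (algebraMap R K π))⁻¹ * x ∈
        cm85_Vinf (K := K) (M' * q) hπ := fun x hx hx' =>
    gv85_hmax (IsLocalRing.residue R) π (pk85_res_iff hπ) hπ.ne_zero _ _ x hx hx'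
  have harch := fs85_harch (K := K) (M' * q) hπ
  have hπ₁0 : (algebraMap K ↥(modularFunctionFieldFullC K (M' * q * q)) (algebraMap R K π))⁻¹ ∉
      cm85_Vinf (K := K) (M' * q * q) hπ :=
    gv85_pi_inv_not_mem (IsLocalRing.residue R) π (pk85_res_iff hπ) hπ.ne_zero _ _
  have hπ₁1 : algebraMap K ↥(modularFunctionFieldFullC K (M' * q * q)) (algebraMap R K π) ∈
      cm85_Vinf (K := K) (M' * q * q) hπ :=
    gv85_mem_V_of_integral _ _ _ _ (HahnSeries.C π) (by rw [gv85_coe_algebraMap, gv85_coeffMap_C])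
  have hmax1 : ∀ x ∈ cm85_Vinf (K := K) (M' * q * q) hπ,
      x⁻¹ ∉ cm85_Vinf (K := K) (M' * q * q) hπ →
      (algebraMap K ↥(modularFunctionFieldFullC K (M' * q * q)) (algebraMap R K π))⁻¹ * x ∈
        cm85_Vinf (K := K) (M' * q * q) hπ := fun x hx hx' =>
    gv85_hmax (IsLocalRing.residue R) π (pk85_res_iff hπ) hπ.ne_zero _ _ x hx hx'
  obtain ⟨r, hr⟩ := ni88_q_div (K := K) q hqR hπ (M' * q)
  have hqπ : (algebraMap K ↥(modularFunctionFieldFullC K (M' * q)) (algebraMap R K π))⁻¹ *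
      ((q : ℕ) : ↥(modularFunctionFieldFullC K (M' * q))) ∈ cm85_Vinf (K := K) (M' * q) hπ := by
    rw [hr]
    exact gv85_mem_V_of_integral _ _ _ _ (HahnSeries.C r)
      (by rw [gv85_coe_algebraMap, gv85_coeffMap_C])
  have hover : ∀ c ∈ cm85_Vinf (K := K) (M' * q) hπ,
      algebraMap ↥(modularFunctionFieldFullC K (M' * q))
        ↥(modularFunctionFieldFullC K (M' * q * q)) c ∈ cm85_Vinf (K := K) (M' * q * q) hπ :=
    fun c hc => (al97V_beta_mem_Vinf (M' * q) q hπ c).mpr hc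
  have hJV2 : relimc_J K (M' * q * q) ∈ cm85_Vinf (K := K) (M' * q * q) hπ :=
    gv85_mem_V_of_integral _ _ _ _ (jqModC R) (by rw [relimc_J_coe, coeffMap_jqModC])
  have hnp : ∀ b ∈ cm85_Vinf (K := K) (M' * q) hπ,
      (algebraMap K ↥(modularFunctionFieldFullC K (M' * q)) (algebraMap R K π))⁻¹ *
        (b ^ q - relimc_J K (M' * q)) ∉ cm85_Vinf (K := K) (M' * q) hπ :=
    fun b hb => fs85_hpow (K := K) (M' * q) hπ q hq.two_le b hb
  have key := nv88_inert_norm q hq hfr.le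
    (cm85_Vinf (K := K) (M' * q) hπ)
    (algebraMap K ↥(modularFunctionFieldFullC K (M' * q)) (algebraMap R K π))
    hπV' hπV'' hmax harch hqπ (cm85_Vinf (K := K) (M' * q * q) hπ) hover
    (by rw [hπEF]; exact hπ₁0) (relimc_J K (M' * q * q)) hJV2 (relimc_J K (M' * q)) hJV1 hya hnp
    y hy v hv (by rw [hπEF]; exact ni88_unif_of_nu _ _ hmax1 h)
  exact ni88_nu_of_unif _ _ hπV' hπV'' key.2

set_option maxHeartbeats 1600000 in
/-- **(insβ)** on the literal frame: pure inseparability of `V₁` over `V_∞` along `β₂`. -/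
theorem ni88_insβ (hq : q.Prime) (hM' : ¬ q ∣ M') {π : R} (hπ : Irreducible π)
    (hqR : ¬ IsUnit (q : R)) (hL : ((M' * q * q : ℕ) : K) ≠ 0)
    (y : ↥(modularFunctionFieldFullC K (M' * q * q)))
    (hy : y ∈ cm85_Vinf (K := K) (M' * q * q) hπ) :
    ∃ v ∈ cm85_Vinf (K := K) (M' * q) hπ,
      y ^ q - al97L_beta K (M' * q) q v ∈ (cm85_Vinf (K := K) (M' * q * q) hπ).nonunits := by
  letI alg : Algebra ↥(modularFunctionFieldFullC K (M' * q))
      ↥(modularFunctionFieldFullC K (M' * q * q)) :=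
    (al97L_beta K (M' * q) q).toRingHom.toAlgebra
  have hfr := als86_finrank_beta (algebraMap K Q̄) M' q hq hM' hL
  haveI : FiniteDimensional ↥(modularFunctionFieldFullC K (M' * q))
      ↥(modularFunctionFieldFullC K (M' * q * q)) :=
    Module.finite_of_finrank_pos (by rw [hfr]; exact hq.pos)
  haveI : CharZero ↥(modularFunctionFieldFullC K (M' * q)) :=
    charZero_of_injective_algebraMap
      (algebraMap K ↥(modularFunctionFieldFullC K (M' * q))).injective
  haveI : Algebra.IsSeparable ↥(modularFunctionFieldFullC K (M' * q))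
      ↥(modularFunctionFieldFullC K (M' * q * q)) := inferInstance
  have hπEF : algebraMap ↥(modularFunctionFieldFullC K (M' * q))
      ↥(modularFunctionFieldFullC K (M' * q * q))
      (algebraMap K ↥(modularFunctionFieldFullC K (M' * q)) (algebraMap R K π)) =
      algebraMap K ↥(modularFunctionFieldFullC K (M' * q * q)) (algebraMap R K π) :=
    (al97L_beta K (M' * q) q).commutes _
  have hJV1 : relimc_J K (M' * q) ∈ cm85_Vinf (K := K) (M' * q) hπ :=
    gv85_mem_V_of_integral _ _ _ _ (jqModC R) (by rw [relimc_J_coe, coeffMap_jqModC])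
  have hJ2 : al97L_alpha K (M' * q) q (relimc_J K (M' * q)) = relimc_J K (M' * q * q) :=
    Subtype.ext rfl
  have hya : (algebraMap ↥(modularFunctionFieldFullC K (M' * q))
      ↥(modularFunctionFieldFullC K (M' * q * q))
      (algebraMap K ↥(modularFunctionFieldFullC K (M' * q)) (algebraMap R K π)))⁻¹ *
      (relimc_J K (M' * q * q) ^ q - algebraMap ↥(modularFunctionFieldFullC K (M' * q))
        ↥(modularFunctionFieldFullC K (M' * q * q)) (relimc_J K (M' * q))) ∈
        cm85_Vinf (K := K) (M' * q * q) hπ := by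
    rw [hπEF, ← hJ2]
    have h2 := (cm85_Vinf (K := K) (M' * q * q) hπ).neg_mem _
      (fs85_frob (K := K) (M' * q) q hq hπ hqR)
    have h3 : (algebraMap K ↥(modularFunctionFieldFullC K (M' * q * q)) (algebraMap R K π))⁻¹ *
        (al97L_alpha K (M' * q) q (relimc_J K (M' * q)) ^ q -
          algebraMap ↥(modularFunctionFieldFullC K (M' * q))
            ↥(modularFunctionFieldFullC K (M' * q * q)) (relimc_J K (M' * q))) =
        -((algebraMap K ↥(modularFunctionFieldFullC K (M' * q * q)) (algebraMap R K π))⁻¹ *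
          (al97L_beta K (M' * q) q (relimc_J K (M' * q)) -
            al97L_alpha K (M' * q) q (relimc_J K (M' * q) ^ q))) := by
      rw [map_pow]
      show _ * (_ - al97L_beta K (M' * q) q (relimc_J K (M' * q))) = _
      ring
    rw [h3]
    exact h2
  have hπV' : algebraMap K ↥(modularFunctionFieldFullC K (M' * q)) (algebraMap R K π) ∈
      cm85_Vinf (K := K) (M' * q) hπ :=
    gv85_mem_V_of_integral _ _ _ _ (HahnSeries.C π) (by rw [gv85_coe_algebraMap, gv85_coeffMap_C])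
  have hπV'' : (algebraMap K ↥(modularFunctionFieldFullC K (M' * q)) (algebraMap R K π))⁻¹ ∉
      cm85_Vinf (K := K) (M' * q) hπ :=
    gv85_pi_inv_not_mem (IsLocalRing.residue R) π (pk85_res_iff hπ) hπ.ne_zero _ _
  have hmax : ∀ x ∈ cm85_Vinf (K := K) (M' * q) hπ, x⁻¹ ∉ cm85_Vinf (K := K) (M' * q) hπ →
      (algebraMap K ↥(modularFunctionFieldFullC K (M' * q)) (algebraMap R K π))⁻¹ * x ∈
        cm85_Vinf (K := K) (M' * q) hπ := fun x hx hx' =>
    gv85_hmax (IsLocalRing.residue R) π (pk85_res_iff hπ) hπ.ne_zero _ _ x hx hx'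
  have harch := fs85_harch (K := K) (M' * q) hπ
  have hπ₁0 : (algebraMap K ↥(modularFunctionFieldFullC K (M' * q * q)) (algebraMap R K π))⁻¹ ∉
      cm85_Vinf (K := K) (M' * q * q) hπ :=
    gv85_pi_inv_not_mem (IsLocalRing.residue R) π (pk85_res_iff hπ) hπ.ne_zero _ _
  have hπ₁1 : algebraMap K ↥(modularFunctionFieldFullC K (M' * q * q)) (algebraMap R K π) ∈
      cm85_Vinf (K := K) (M' * q * q) hπ :=
    gv85_mem_V_of_integral _ _ _ _ (HahnSeries.C π) (by rw [gv85_coe_algebraMap, gv85_coeffMap_C])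
  have hmax1 : ∀ x ∈ cm85_Vinf (K := K) (M' * q * q) hπ,
      x⁻¹ ∉ cm85_Vinf (K := K) (M' * q * q) hπ →
      (algebraMap K ↥(modularFunctionFieldFullC K (M' * q * q)) (algebraMap R K π))⁻¹ * x ∈
        cm85_Vinf (K := K) (M' * q * q) hπ := fun x hx hx' =>
    gv85_hmax (IsLocalRing.residue R) π (pk85_res_iff hπ) hπ.ne_zero _ _ x hx hx'
  obtain ⟨r, hr⟩ := ni88_q_div (K := K) q hqR hπ (M' * q)
  have hqπ : (algebraMap K ↥(modularFunctionFieldFullC K (M' * q)) (algebraMap R K π))⁻¹ *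
      ((q : ℕ) : ↥(modularFunctionFieldFullC K (M' * q))) ∈ cm85_Vinf (K := K) (M' * q) hπ := by
    rw [hr]
    exact gv85_mem_V_of_integral _ _ _ _ (HahnSeries.C r)
      (by rw [gv85_coe_algebraMap, gv85_coeffMap_C])
  have hover : ∀ c ∈ cm85_Vinf (K := K) (M' * q) hπ,
      algebraMap ↥(modularFunctionFieldFullC K (M' * q))
        ↥(modularFunctionFieldFullC K (M' * q * q)) c ∈ cm85_Vinf (K := K) (M' * q * q) hπ :=
    fun c hc => (al97V_beta_mem_Vinf (M' * q) q hπ c).mpr hc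
  have hJV2 : relimc_J K (M' * q * q) ∈ cm85_Vinf (K := K) (M' * q * q) hπ :=
    gv85_mem_V_of_integral _ _ _ _ (jqModC R) (by rw [relimc_J_coe, coeffMap_jqModC])
  have hnp : ∀ b ∈ cm85_Vinf (K := K) (M' * q) hπ,
      (algebraMap K ↥(modularFunctionFieldFullC K (M' * q)) (algebraMap R K π))⁻¹ *
        (b ^ q - relimc_J K (M' * q)) ∉ cm85_Vinf (K := K) (M' * q) hπ :=
    fun b hb => fs85_hpow (K := K) (M' * q) hπ q hq.two_le b hb
  obtain ⟨v, hv, hxv⟩ := nr88_inert_lift q hq hfr.le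
    (cm85_Vinf (K := K) (M' * q) hπ)
    (algebraMap K ↥(modularFunctionFieldFullC K (M' * q)) (algebraMap R K π))
    hπV' hπV'' hmax harch hqπ (cm85_Vinf (K := K) (M' * q * q) hπ) hover
    (by rw [hπEF]; exact hπ₁0) (relimc_J K (M' * q * q)) hJV2 (relimc_J K (M' * q)) hJV1 hya hnp
    y hy
  refine ⟨v, hv, ?_⟩
  rw [hπEF] at hxv
  exact ni88_nu_of_unif _ _ hπ₁1 hπ₁0 hxv

/-- **(ramβ)** on the literal frame. -/
theorem ni88_ramβ (hq : q.Prime) (hM' : ¬ q ∣ M') {π : R} (hπ : Irreducible π)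
    (hqR : ¬ IsUnit (q : R)) (hL : ((M' * q * q : ℕ) : K) ≠ 0)
    (V₂ V₃ : ValuationSubring ↥(modularFunctionFieldFullC K (M' * q * q)))
    (hV₂ : ∀ c ∈ cm85_Vinf (K := K) (M' * q) hπ, al97L_alpha K (M' * q) q c ∈ V₂)
    (hπ₂ : (algebraMap K ↥(modularFunctionFieldFullC K (M' * q * q)) (algebraMap R K π))⁻¹ ∉ V₂)
    (hne : cm85_Vinf (K := K) (M' * q * q) hπ ≠ V₂)
    (s : ↥(modularFunctionFieldFullC K (M' * q * q)))
    (hs : V₂.valuation s ^ (q - 1) =
      V₂.valuation (algebraMap K ↥(modularFunctionFieldFullC K (M' * q * q)) (algebraMap R K π)))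
    (hE2 : ∀ a ∈ cm85_Vinf (K := K) M' hπ,
      al97L_beta K (M' * q) q (al97L_beta K M' q a) ∈ V₂)
    (hV₃mem : ∀ x, x ∈ V₃ ↔
      als86_w2 (algebraMap K Q̄) M' q hq hM' hL x ∈ cm85_Vinf (K := K) (M' * q * q) hπ)
    (y : ↥(modularFunctionFieldFullC K (M' * q * q))) (hy3 : y ∈ V₃) (hy2 : y ∈ V₂)
    (v3 : ↥(modularFunctionFieldFullC K (M' * q)))
    (hv3 : v3 ∈ s34i47c_V0 (K := K) M' q hq hM' hπ)
    (v2 : ↥(modularFunctionFieldFullC K (M' * q)))
    (hv2 : v2 ∈ s34i47c_V0 (K := K) M' q hq hM' hπ)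
    (h3 : y - al97L_beta K (M' * q) q v3 ∈ V₃.nonunits)
    (h2 : y - al97L_beta K (M' * q) q v2 ∈ V₂.nonunits) :
    s35i62_normB K (M' * q) q y - v3 * v2 ^ (q - 1) ∈
      (s34i47c_V0 (K := K) M' q hq hM' hπ).nonunits := by
  letI alg : Algebra ↥(modularFunctionFieldFullC K (M' * q))
      ↥(modularFunctionFieldFullC K (M' * q * q)) :=
    (al97L_beta K (M' * q) q).toRingHom.toAlgebra
  have hfr := als86_finrank_beta (algebraMap K Q̄) M' q hq hM' hL
  haveI : FiniteDimensional ↥(modularFunctionFieldFullC K (M' * q))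
      ↥(modularFunctionFieldFullC K (M' * q * q)) :=
    Module.finite_of_finrank_pos (by rw [hfr]; exact hq.pos)
  haveI : CharZero ↥(modularFunctionFieldFullC K (M' * q)) :=
    charZero_of_injective_algebraMap
      (algebraMap K ↥(modularFunctionFieldFullC K (M' * q))).injective
  haveI : Algebra.IsSeparable ↥(modularFunctionFieldFullC K (M' * q))
      ↥(modularFunctionFieldFullC K (M' * q * q)) := inferInstance
  have hπEF : algebraMap ↥(modularFunctionFieldFullC K (M' * q))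
      ↥(modularFunctionFieldFullC K (M' * q * q))
      (algebraMap K ↥(modularFunctionFieldFullC K (M' * q)) (algebraMap R K π)) =
      algebraMap K ↥(modularFunctionFieldFullC K (M' * q * q)) (algebraMap R K π) :=
    (al97L_beta K (M' * q) q).commutes _
  obtain ⟨d1, d2, d3, d4⟩ := obi72_V0_dvr (K := K) M' q hq hM' hπ
  have hq2 := hq.two_le
  have h3over : ∀ c ∈ s34i47c_V0 (K := K) M' q hq hM' hπ,
      algebraMap ↥(modularFunctionFieldFullC K (M' * q))
        ↥(modularFunctionFieldFullC K (M' * q * q)) c ∈ V₃ := by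
    intro c hc
    show al97L_beta K (M' * q) q c ∈ V₃
    rw [hV₃mem, als86_w2_beta]
    exact (al97V_alpha_mem_Vinf (M' * q) q hπ _).mpr ((s34i47c_mem_V0 M' q hq hM' hπ c).1 hc)
  have h2over : ∀ c ∈ s34i47c_V0 (K := K) M' q hq hM' hπ,
      algebraMap ↥(modularFunctionFieldFullC K (M' * q))
        ↥(modularFunctionFieldFullC K (M' * q * q)) c ∈ V₂ := by
    intro c hc
    show al97L_beta K (M' * q) q c ∈ V₂
    rw [o3x72_V2_stable (K := K) M' q hq hM' hπ hqR hL V₂ hV₂ hπ₂ hne s hs hE2, als86_w2_beta]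
    exact hV₂ _ ((s34i47c_mem_V0 M' q hq hM' hπ c).1 hc)
  have hmax3 := (o3x72_inert (K := K) M' q hq hM' hπ hqR hL V₃ hV₃mem).2.2.1
  have hmax2 := (ob72_ram (K := K) (M' * q) q hq (dvd_mul_left q M') hπ V₂ hV₂ hπ₂ hne s hs).2.2.1
  have key := nv88_ram_norm (q - 1) (by omega) (by rw [hfr]; omega)
    (s34i47c_V0 (K := K) M' q hq hM' hπ)
    (algebraMap K ↥(modularFunctionFieldFullC K (M' * q)) (algebraMap R K π)) d1 d2 d3 d4
    V₃ V₂ (obb72_V3_ne_V2 (K := K) M' q hq hM' hπ hqR hL V₂ V₃ hV₂ hπ₂ hV₃mem)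
    h3over (by rw [hπEF]; exact o3x72_V3_pi M' q hq hM' hπ hL V₃ hV₃mem)
    h2over (by rw [hπEF]; exact hπ₂) s (by rw [hπEF]; exact hs)
    y hy3 hy2 v3 v2 hv3 hv2
    (by rw [hπEF]; exact ni88_unif_of_nu _ _ hmax3 h3)
    (ni88_unif_of_nu _ _ hmax2 h2)
  exact ni88_nu_of_unif _ _ d1 d2 key.2

end ni88

end Fermat.Agent.S36
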