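import Mathlib
import Fermat.Agent.S36.AbvBind66

/-!
# S36 lab (helper66): the unit `θ` with prescribed CONSTANT reductions on the level-`M' q²` frame

Level `M' q q` (`q` prime, `q ∤ M'`, residue characteristic `q`), `F₂ = F(M' q q)_K`,
`c r = algebraMap K F₂ (algebraMap R K r)` for `r : R`.
`V₁ = cm85_Vinf (M' * q * q) hπ`; `V₂` ANY valuation subring with `hV₂`, `hπ₂`, `hne` (the facts
of `ob72_ram`); `V₃` ANY valuation subring with `hV₃mem` (e.g. `nsb86_V3`, `nsb86_mem_V3`).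

* `th66_const_val` : a unit `r` of `R` is a unit of `V₁`, `V₂`, `V₃` (valuation `1`);
* `th66_theta` : for units `w₁ w₂ w₃` of `R` there is `θ`, a unit of `V₁`, `V₂`, `V₃`, with
  `θ ≡ c w₁` modulo `𝔪(V₁)`, `θ ≡ c w₂` modulo `𝔪(V₂)`, `θ ≡ c w₃` modulo `𝔪(V₃)`
  (the elements `θ`, `θ'` of (B2)/(B3): literal `hθ1 hθ2 hθ3` of `gcd26_datum_triple` with
  `w₃ = 1`, see `th66_theta_one`).
-/

set_option autoImplicit false
set_option linter.unusedSectionVars false
set_option linter.style.haveILetI false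

open ModularCurve IntermediateField Polynomial

namespace Fermat.Agent.S36

open Fermat.Agent.S18 Fermat.Agent.S24 Fermat.Agent.S37 Fermat.Agent.S34 Fermat.Agent.S35

local notation "Q̄" => AlgebraicClosure ℚ

/-- An element with an inverse in `V`, both in `V`, has valuation `1`. -/
theorem th66_val_eq_one {F : Type*} [Field F] (V : ValuationSubring F) {x y : F}
    (hx : x ∈ V) (hy : y ∈ V) (hxy : x * y = 1) : V.valuation x = 1 := by
  have h1 : V.valuation x ≤ 1 := (V.valuation_le_one_iff x).mpr hx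
  have h2 : V.valuation y ≤ 1 := (V.valuation_le_one_iff y).mpr hy
  have h3 : V.valuation x * V.valuation y = 1 := by rw [← map_mul, hxy, map_one]
  by_contra hne
  have hlt : V.valuation x < 1 := lt_of_le_of_ne h1 hne
  have h4 : V.valuation x * V.valuation y < 1 := mul_lt_one_of_lt_of_le hlt h2
  rw [h3] at h4
  exact lt_irrefl _ h4

section th66

variable {R K : Type} [CommRing R] [IsDomain R] [IsDiscreteValuationRing R] [Field K] [CharZero K]
  [Algebra R K] [IsFractionRing R K] [Algebra K Q̄] (M' q : ℕ) [NeZero M'] [NeZero q]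

/-- Constants of `R` lie in the Gauss ring of any level. -/
theorem th66_const_mem_Vinf (M : ℕ) [NeZero M] {π : R} (hπ : Irreducible π) (r : R) :
    algebraMap K ↥(modularFunctionFieldFullC K M) (algebraMap R K r) ∈
      cm85_Vinf (K := K) M hπ :=
  gv85_mem_V_of_integral _ _ _ _ (HahnSeries.C r) (by rw [gv85_coe_algebraMap, gv85_coeffMap_C])

/-- Constants of `R` lie in `V₁`, `V₂`, `V₃`. -/
theorem th66_const_mem (hq : q.Prime) (hM' : ¬ q ∣ M') {π : R} (hπ : Irreducible π)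
    (hL : ((M' * q * q : ℕ) : K) ≠ 0)
    (V₂ V₃ : ValuationSubring ↥(modularFunctionFieldFullC K (M' * q * q)))
    (hV₂ : ∀ c ∈ cm85_Vinf (K := K) (M' * q) hπ, al97L_alpha K (M' * q) q c ∈ V₂)
    (hV₃mem : ∀ x, x ∈ V₃ ↔
      als86_w2 (algebraMap K Q̄) M' q hq hM' hL x ∈ cm85_Vinf (K := K) (M' * q * q) hπ)
    (r : R) :
    algebraMap K ↥(modularFunctionFieldFullC K (M' * q * q)) (algebraMap R K r) ∈
        cm85_Vinf (K := K) (M' * q * q) hπ ∧
      algebraMap K ↥(modularFunctionFieldFullC K (M' * q * q)) (algebraMap R K r) ∈ V₂ ∧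
      algebraMap K ↥(modularFunctionFieldFullC K (M' * q * q)) (algebraMap R K r) ∈ V₃ := by
  refine ⟨th66_const_mem_Vinf (M' * q * q) hπ r, ?_, ?_⟩
  · have h1 : al97L_alpha K (M' * q) q
        (algebraMap K ↥(modularFunctionFieldFullC K (M' * q)) (algebraMap R K r)) =
        algebraMap K ↥(modularFunctionFieldFullC K (M' * q * q)) (algebraMap R K r) :=
      (al97L_alpha K (M' * q) q).commutes _
    rw [← h1]
    exact hV₂ _ (th66_const_mem_Vinf (M' * q) hπ r)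
  · rw [hV₃mem, AlgEquiv.commutes]
    exact th66_const_mem_Vinf (M' * q * q) hπ r

/-- A unit of `R` is a unit of `V₁`, `V₂`, `V₃`. -/
theorem th66_const_val (hq : q.Prime) (hM' : ¬ q ∣ M') {π : R} (hπ : Irreducible π)
    (hL : ((M' * q * q : ℕ) : K) ≠ 0)
    (V₂ V₃ : ValuationSubring ↥(modularFunctionFieldFullC K (M' * q * q)))
    (hV₂ : ∀ c ∈ cm85_Vinf (K := K) (M' * q) hπ, al97L_alpha K (M' * q) q c ∈ V₂)
    (hV₃mem : ∀ x, x ∈ V₃ ↔
      als86_w2 (algebraMap K Q̄) M' q hq hM' hL x ∈ cm85_Vinf (K := K) (M' * q * q) hπ)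
    (r : R) (hr : IsUnit r) :
    (cm85_Vinf (K := K) (M' * q * q) hπ).valuation
        (algebraMap K ↥(modularFunctionFieldFullC K (M' * q * q)) (algebraMap R K r)) = 1 ∧
      V₂.valuation
        (algebraMap K ↥(modularFunctionFieldFullC K (M' * q * q)) (algebraMap R K r)) = 1 ∧
      V₃.valuation
        (algebraMap K ↥(modularFunctionFieldFullC K (M' * q * q)) (algebraMap R K r)) = 1 := by
  obtain ⟨r', hr'⟩ := hr.exists_right_inv
  have hmul : algebraMap K ↥(modularFunctionFieldFullC K (M' * q * q)) (algebraMap R K r) *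
      algebraMap K ↥(modularFunctionFieldFullC K (M' * q * q)) (algebraMap R K r') = 1 := by
    rw [← map_mul, ← map_mul, hr', map_one, map_one]
  obtain ⟨a1, a2, a3⟩ := th66_const_mem (K := K) M' q hq hM' hπ hL V₂ V₃ hV₂ hV₃mem r
  obtain ⟨b1, b2, b3⟩ := th66_const_mem (K := K) M' q hq hM' hπ hL V₂ V₃ hV₂ hV₃mem r'
  exact ⟨th66_val_eq_one _ a1 b1 hmul, th66_val_eq_one _ a2 b2 hmul,
    th66_val_eq_one _ a3 b3 hmul⟩

/-- **The unit `θ` with constant reductions `(w₁, w₂, w₃)`** along `(V₁, V₂, V₃)`. -/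
theorem th66_theta (hq : q.Prime) (hM' : ¬ q ∣ M') {π : R} (hπ : Irreducible π)
    (hqR : ¬ IsUnit (q : R)) (hL : ((M' * q * q : ℕ) : K) ≠ 0)
    (V₂ V₃ : ValuationSubring ↥(modularFunctionFieldFullC K (M' * q * q)))
    (hV₂ : ∀ c ∈ cm85_Vinf (K := K) (M' * q) hπ, al97L_alpha K (M' * q) q c ∈ V₂)
    (hπ₂ : (algebraMap K ↥(modularFunctionFieldFullC K (M' * q * q)) (algebraMap R K π))⁻¹ ∉ V₂)
    (hne : cm85_Vinf (K := K) (M' * q * q) hπ ≠ V₂)
    (hV₃mem : ∀ x, x ∈ V₃ ↔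
      als86_w2 (algebraMap K Q̄) M' q hq hM' hL x ∈ cm85_Vinf (K := K) (M' * q * q) hπ)
    (w1 w2 w3 : R) (h1 : IsUnit w1) (h2 : IsUnit w2) (h3 : IsUnit w3) :
    ∃ θ : ↥(modularFunctionFieldFullC K (M' * q * q)),
      ((cm85_Vinf (K := K) (M' * q * q) hπ).valuation θ = 1 ∧ V₂.valuation θ = 1 ∧
        V₃.valuation θ = 1) ∧
      (cm85_Vinf (K := K) (M' * q * q) hπ).valuation
        (θ - algebraMap K ↥(modularFunctionFieldFullC K (M' * q * q)) (algebraMap R K w1)) < 1 ∧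
      V₂.valuation
        (θ - algebraMap K ↥(modularFunctionFieldFullC K (M' * q * q)) (algebraMap R K w2)) < 1 ∧
      V₃.valuation
        (θ - algebraMap K ↥(modularFunctionFieldFullC K (M' * q * q)) (algebraMap R K w3)) < 1 :=
  ab66_hglue (K := K) M' q hq hM' hπ hqR hL V₂ V₃ hV₂ hπ₂ hne hV₃mem _ _ _
    (th66_const_val (K := K) M' q hq hM' hπ hL V₂ V₃ hV₂ hV₃mem w1 h1)
    (th66_const_val (K := K) M' q hq hM' hπ hL V₂ V₃ hV₂ hV₃mem w2 h2)
    (th66_const_val (K := K) M' q hq hM' hπ hL V₂ V₃ hV₂ hV₃mem w3 h3)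

/-- `th66_theta` with `w₃ = 1`: the literal `hθ1 hθ2 hθ3` of `gcd26_datum_triple`. -/
theorem th66_theta_one (hq : q.Prime) (hM' : ¬ q ∣ M') {π : R} (hπ : Irreducible π)
    (hqR : ¬ IsUnit (q : R)) (hL : ((M' * q * q : ℕ) : K) ≠ 0)
    (V₂ V₃ : ValuationSubring ↥(modularFunctionFieldFullC K (M' * q * q)))
    (hV₂ : ∀ c ∈ cm85_Vinf (K := K) (M' * q) hπ, al97L_alpha K (M' * q) q c ∈ V₂)
    (hπ₂ : (algebraMap K ↥(modularFunctionFieldFullC K (M' * q * q)) (algebraMap R K π))⁻¹ ∉ V₂)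
    (hne : cm85_Vinf (K := K) (M' * q * q) hπ ≠ V₂)
    (hV₃mem : ∀ x, x ∈ V₃ ↔
      als86_w2 (algebraMap K Q̄) M' q hq hM' hL x ∈ cm85_Vinf (K := K) (M' * q * q) hπ)
    (w1 w2 : R) (h1 : IsUnit w1) (h2 : IsUnit w2) :
    ∃ θ : ↥(modularFunctionFieldFullC K (M' * q * q)),
      ((cm85_Vinf (K := K) (M' * q * q) hπ).valuation θ = 1 ∧ V₂.valuation θ = 1 ∧
        V₃.valuation θ = 1) ∧
      (cm85_Vinf (K := K) (M' * q * q) hπ).valuation
        (θ - algebraMap K ↥(modularFunctionFieldFullC K (M' * q * q)) (algebraMap R K w1)) < 1 ∧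
      V₂.valuation
        (θ - algebraMap K ↥(modularFunctionFieldFullC K (M' * q * q)) (algebraMap R K w2)) < 1 ∧
      V₃.valuation (θ - 1) < 1 := by
  obtain ⟨θ, hu, c1, c2, c3⟩ := th66_theta (K := K) M' q hq hM' hπ hqR hL V₂ V₃ hV₂ hπ₂ hne
    hV₃mem w1 w2 1 h1 h2 isUnit_one
  refine ⟨θ, hu, c1, c2, ?_⟩
  rwa [map_one, map_one] at c3

end th66

end Fermat.Agent.S36
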