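import Mathlib
import Fermat.Agent.S36.CorePoints57

/-!
# S36 lab (helper33), row 605 (INV-core), twin of the package (HP-T): existence of the twist

`ta33_hpt` : `cp57_HPT π q m al be Na Nb V₁ V₂ V₃ Vinf V0` (literal definition of
`CorePoints57`) from frame facts in the shapes of `abv94_intrinsic` (helper94):

* the four norm congruences `hN1 … hN4` (used only at the value `1`),
* the CRT / unit gluing `hglue` on `V₁ ⊓ V₂ ⊓ V₃`,
* constants: `al`, `be` fix the constants of `R`; a constant of `R` which is a non-unit of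
  `Vinf` (or `V0`) is divisible by `π`; `R ⊆ V_i, Vinf, V0`;
* `π` is a uniformizer of `V₁` and `V₃`, and `x ^ q ∈ π V₂` for every non-unit `x` of `V₂`
  (ramification index `≤ q`); `π ∣ q` in `R`.

Proof.  `u ≡ 1` on the three branches gives `Na u ≡ 1`, `Nb u ≡ 1` on both level-`q` branches,
hence `cu · tinf ^ m ≡ 1 ≡ cu · t0 ^ m` and `du · sinf ^ m ≡ 1 ≡ du · s0 ^ m` modulo `π` in `R`.
So `w₁ = ((t0 s0) / (tinf sinf)) ^ (q-1)` and `w₂ = t0 ^ q sinf / (tinf ^ q s0)` are units of `R`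
with `w_i ^ m ≡ 1` modulo `π`, the two gluing relations hold exactly, `θ := CRT (w₁, w₂, 1)`,
and `u₂ = (u ^ ((d+2) d) θ ^ m) ^ q ≡ 1` modulo `π V_i` (on `V₂`: `(1 + x) ^ q = 1 + x ^ q + q x r`).

All names are prefixed `ta33_`.
-/

set_option autoImplicit false
set_option linter.style.longLine false
set_option linter.unusedVariables false
set_option linter.unusedSectionVars false

namespace Fermat.Agent.S36

section Val

variable {F : Type*} [Field F] (V : ValuationSubring F)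

theorem ta33_add {x y : F} (hx : V.valuation x < 1) (hy : V.valuation y < 1) :
    V.valuation (x + y) < 1 :=
  lt_of_le_of_lt (V.valuation.map_add x y) (max_lt hx hy)

theorem ta33_sub {x y : F} (hx : V.valuation x < 1) (hy : V.valuation y < 1) :
    V.valuation (x - y) < 1 := by
  rw [sub_eq_add_neg]
  exact ta33_add V hx (by rwa [Valuation.map_neg])

theorem ta33_mul {x y : F} (hx : V.valuation x < 1) (hy : V.valuation y ≤ 1) :
    V.valuation (x * y) < 1 := by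
  rw [map_mul]
  exact mul_lt_one_of_lt_of_le hx hy

theorem ta33_mul' {x y : F} (hx : V.valuation x ≤ 1) (hy : V.valuation y < 1) :
    V.valuation (x * y) < 1 := by
  rw [mul_comm]
  exact ta33_mul V hy hx

theorem ta33_le_of_sub {x a : F} (hx : V.valuation (x - a) < 1) (ha : V.valuation a ≤ 1) :
    V.valuation x ≤ 1 := by
  have h : x = (x - a) + a := by ring
  rw [h]
  exact le_trans (V.valuation.map_add _ _) (max_le hx.le ha)

/-- Congruences multiply. -/
theorem ta33_cong_mul {x y a b : F} (hx : V.valuation (x - a) < 1) (hy : V.valuation (y - b) < 1)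
    (ha : V.valuation a ≤ 1) (hb : V.valuation b ≤ 1) : V.valuation (x * y - a * b) < 1 := by
  have h : x * y - a * b = (x - a) * y + a * (y - b) := by ring
  rw [h]
  exact ta33_add V (ta33_mul V hx (ta33_le_of_sub V hy hb)) (ta33_mul' V ha hy)

/-- Congruences pass to powers. -/
theorem ta33_cong_pow {x a : F} (hx : V.valuation (x - a) < 1) (ha : V.valuation a ≤ 1)
    (k : ℕ) : V.valuation (x ^ k - a ^ k) < 1 := by
  induction k with
  | zero => simp
  | succ k ih =>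
    rw [pow_succ, pow_succ]
    exact ta33_cong_mul V ih hx (by rw [map_pow]; exact pow_le_one' ha k) ha

/-- `x ≡ 1` implies `x ^ k ≡ 1`. -/
theorem ta33_one_pow {x : F} (hx : V.valuation (x - 1) < 1) (k : ℕ) :
    V.valuation (x ^ k - 1) < 1 := by
  have h := ta33_cong_pow V hx (by rw [map_one]) k
  rwa [one_pow] at h

/-- `x ≡ 1` and `y ≡ 1` imply `x y ≡ 1`. -/
theorem ta33_one_mul {x y : F} (hx : V.valuation (x - 1) < 1) (hy : V.valuation (y - 1) < 1) :
    V.valuation (x * y - 1) < 1 := by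
  have h := ta33_cong_mul V hx hy (by rw [map_one]) (by rw [map_one])
  rwa [one_mul] at h

/-- Transitivity of congruence. -/
theorem ta33_cong_trans {x y z : F} (h1 : V.valuation (x - y) < 1) (h2 : V.valuation (y - z) < 1) :
    V.valuation (x - z) < 1 := by
  have h : x - z = (x - y) + (y - z) := by ring
  rw [h]
  exact ta33_add V h1 h2

theorem ta33_cong_symm {x y : F} (h1 : V.valuation (x - y) < 1) : V.valuation (y - x) < 1 := by
  rwa [← Valuation.map_neg, neg_sub]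

/-- An element congruent to `1` is a unit. -/
theorem ta33_mem_of_one {x : F} (hx : V.valuation (x - 1) < 1) : x ∈ V := by
  rw [← ValuationSubring.valuation_le_one_iff]
  exact ta33_le_of_sub V hx (by rw [map_one])

/-- Two elements of valuation `≤ 1` with product `1` have valuation `1`. -/
theorem ta33_val_eq_one {a b : F} (ha : V.valuation a ≤ 1) (hb : V.valuation b ≤ 1)
    (hab : a * b = 1) : V.valuation a = 1 := by
  rcases lt_or_eq_of_le ha with h | h
  · exfalso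
    have h1 : V.valuation (a * b) < 1 := ta33_mul V h hb
    rw [hab, map_one] at h1
    exact lt_irrefl _ h1
  · exact h

theorem ta33_unit_of_val {x : F} (hx : V.valuation x = 1) : x ≠ 0 ∧ x ∈ V ∧ x⁻¹ ∈ V := by
  refine ⟨?_, ?_, ?_⟩
  · rintro rfl
    rw [map_zero] at hx
    exact zero_ne_one hx
  · rw [← ValuationSubring.valuation_le_one_iff, hx]
  · rw [← ValuationSubring.valuation_le_one_iff, map_inv₀, hx, inv_one]

end Val

section Units

/-- The arithmetic of the four congruences in a commutative group. -/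
theorem ta33_group {G : Type*} [CommGroup G] (m d : ℕ) (a e ti t0 si s0 : G)
    (h1 : a * ti ^ m = 1) (h2 : a * t0 ^ m = 1) (h3 : e * si ^ m = 1) (h4 : e * s0 ^ m = 1) :
    (((t0 * s0) * (ti * si)⁻¹) ^ d) ^ m = 1 ∧
      ((t0 ^ (d + 1) * si) * (ti ^ (d + 1) * s0)⁻¹) ^ m = 1 := by
  have ht : t0 ^ m = ti ^ m := by
    have : a * t0 ^ m = a * ti ^ m := by rw [h1, h2]
    exact mul_left_cancel this
  have hs : s0 ^ m = si ^ m := by
    have : e * s0 ^ m = e * si ^ m := by rw [h3, h4]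
    exact mul_left_cancel this
  constructor
  · have h : ((t0 * s0) * (ti * si)⁻¹) ^ m = 1 := by
      rw [mul_pow, inv_pow, mul_pow, mul_pow, ht, hs, mul_inv_cancel]
    rw [← pow_mul, mul_comm d m, pow_mul, h, one_pow]
  · rw [mul_pow, inv_pow, mul_pow, mul_pow, ← pow_mul, ← pow_mul, mul_comm (d + 1) m, pow_mul,
      pow_mul, ht, hs, mul_inv_cancel]

end Units

section Main

variable {R K F1 F2 : Type*} [CommRing R] [Field K] [Field F1] [Field F2] [Algebra R K]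
  [Algebra K F1] [Algebra R F2] [Algebra K F2]

/-- A congruence `c · t ^ m ≡ 1` between constants from the norm congruence. -/
theorem ta33_const (π : R) (Vi : ValuationSubring F1) (m : ℕ)
    (hRi : ∀ r : R, Vi.valuation (algebraMap K F1 (algebraMap R K r)) ≤ 1)
    (hGi : ∀ r : R, Vi.valuation (algebraMap K F1 (algebraMap R K r)) < 1 → π ∣ r)
    (N A : F1) (rc rt : R)
    (hN : N = algebraMap K F1 (algebraMap R K rc) * A ^ m)
    (hN1 : Vi.valuation (N - 1) < 1)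
    (hA : Vi.valuation (A - algebraMap K F1 (algebraMap R K rt)) < 1) :
    π ∣ rc * rt ^ m - 1 := by
  apply hGi
  have h1 : Vi.valuation (A ^ m - algebraMap K F1 (algebraMap R K rt) ^ m) < 1 :=
    ta33_cong_pow Vi hA (hRi rt) m
  have h2 : Vi.valuation (algebraMap K F1 (algebraMap R K rc) * A ^ m -
      algebraMap K F1 (algebraMap R K rc) * algebraMap K F1 (algebraMap R K rt) ^ m) < 1 := by
    rw [← mul_sub]
    exact ta33_mul' Vi (hRi rc) h1
  rw [← hN] at h2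
  have h3 := ta33_cong_trans Vi (ta33_cong_symm Vi h2) hN1
  have e : algebraMap K F1 (algebraMap R K (rc * rt ^ m - 1)) =
      algebraMap K F1 (algebraMap R K rc) * algebraMap K F1 (algebraMap R K rt) ^ m - 1 := by
    simp only [map_sub, map_mul, map_pow, map_one]
  rw [e]
  exact h3

/-- **(HP-T), abstract**: existence of the twist. -/
theorem ta33_hpt (π : R) (q m : ℕ) (hq : q.Prime) (al be : F1 →+* F2) (Na Nb : F2 →* F1)
    (V₁ V₂ V₃ : ValuationSubring F2) (Vinf V0 : ValuationSubring F1)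
    (hπ0 : algebraMap R F2 π ≠ 0) (hqπ : π ∣ ((q : ℕ) : R))
    (hal : ∀ r : R, al (algebraMap K F1 (algebraMap R K r)) = algebraMap R F2 r)
    (hbe : ∀ r : R, be (algebraMap K F1 (algebraMap R K r)) = algebraMap R F2 r)
    (hRi : ∀ r : R, Vinf.valuation (algebraMap K F1 (algebraMap R K r)) ≤ 1)
    (hRz : ∀ r : R, V0.valuation (algebraMap K F1 (algebraMap R K r)) ≤ 1)
    (hGi : ∀ r : R, Vinf.valuation (algebraMap K F1 (algebraMap R K r)) < 1 → π ∣ r)
    (hGz : ∀ r : R, V0.valuation (algebraMap K F1 (algebraMap R K r)) < 1 → π ∣ r)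
    (hR1 : ∀ r : R, V₁.valuation (algebraMap R F2 r) ≤ 1)
    (hR2 : ∀ r : R, V₂.valuation (algebraMap R F2 r) ≤ 1)
    (hR3 : ∀ r : R, V₃.valuation (algebraMap R F2 r) ≤ 1)
    (hπ1 : V₁.valuation (algebraMap R F2 π) < 1) (hπ2 : V₂.valuation (algebraMap R F2 π) < 1)
    (hπ3 : V₃.valuation (algebraMap R F2 π) < 1)
    (hu1 : ∀ x : F2, V₁.valuation x < 1 → (algebraMap R F2 π)⁻¹ * x ∈ V₁)
    (hu3 : ∀ x : F2, V₃.valuation x < 1 → (algebraMap R F2 π)⁻¹ * x ∈ V₃)
    (hu2 : ∀ x : F2, V₂.valuation x < 1 → (algebraMap R F2 π)⁻¹ * x ^ q ∈ V₂)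
    (hN1 : ∀ y, y ∈ V₁ → y ∈ V₂ → ∀ v1 ∈ Vinf, ∀ v2 ∈ Vinf, V₁.valuation (y - al v1) < 1 →
      V₂.valuation (y - al v2) < 1 → Vinf.valuation (Na y - v1 * v2 ^ (q - 1)) < 1)
    (hN2 : ∀ x ∈ V₃, ∀ v ∈ V0, V₃.valuation (x ^ q - al v) < 1 → V0.valuation (Na x - v) < 1)
    (hN3 : ∀ x ∈ V₁, ∀ v ∈ Vinf, V₁.valuation (x ^ q - be v) < 1 →
      Vinf.valuation (Nb x - v) < 1)
    (hN4 : ∀ y, y ∈ V₃ → y ∈ V₂ → ∀ v3 ∈ V0, ∀ v2 ∈ V0, V₃.valuation (y - be v3) < 1 →
      V₂.valuation (y - be v2) < 1 → V0.valuation (Nb y - v3 * v2 ^ (q - 1)) < 1)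
    (hglue : ∀ y1 y2 y3 : F2,
      (V₁.valuation y1 = 1 ∧ V₂.valuation y1 = 1 ∧ V₃.valuation y1 = 1) →
      (V₁.valuation y2 = 1 ∧ V₂.valuation y2 = 1 ∧ V₃.valuation y2 = 1) →
      (V₁.valuation y3 = 1 ∧ V₂.valuation y3 = 1 ∧ V₃.valuation y3 = 1) →
      ∃ G : F2, (V₁.valuation G = 1 ∧ V₂.valuation G = 1 ∧ V₃.valuation G = 1) ∧
        V₁.valuation (G - y1) < 1 ∧ V₂.valuation (G - y2) < 1 ∧ V₃.valuation (G - y3) < 1) :
    cp57_HPT (K := K) π q m al be Na Nb V₁ V₂ V₃ Vinf V0 := by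
  intro u cu Au tinf t0 du Bu sinf s0 hu0 hdata
  obtain ⟨hu1', hu2', hu3', hNa, hAu0, hNb, hBu0, ⟨rc, rfl⟩, ⟨rti, rfl⟩, ⟨rt0, rfl⟩, ⟨rd, rfl⟩,
    ⟨rsi, rfl⟩, ⟨rs0, rfl⟩, hAi, hA0, hBi, hB0⟩ := hdata
  have hd : q - 1 + 1 = q := Nat.sub_add_cancel hq.one_le
  -- `u` lies in the three rings
  have huV1 : u ∈ V₁ := ta33_mem_of_one V₁ hu1'
  have huV2 : u ∈ V₂ := ta33_mem_of_one V₂ hu2'
  have huV3 : u ∈ V₃ := ta33_mem_of_one V₃ hu3'
  -- the four norm congruences at `1`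
  have n1 : Vinf.valuation (Na u - 1) < 1 := by
    have h := hN1 u huV1 huV2 1 (one_mem _) 1 (one_mem _) (by rwa [map_one]) (by rwa [map_one])
    rwa [one_pow, mul_one] at h
  have n2 : V0.valuation (Na u - 1) < 1 := by
    have h := hN2 u huV3 1 (one_mem _) (by rw [map_one]; exact ta33_one_pow V₃ hu3' q)
    exact h
  have n3 : Vinf.valuation (Nb u - 1) < 1 := by
    have h := hN3 u huV1 1 (one_mem _) (by rw [map_one]; exact ta33_one_pow V₁ hu1' q)
    exact h
  have n4 : V0.valuation (Nb u - 1) < 1 := by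
    have h := hN4 u huV3 huV2 1 (one_mem _) 1 (one_mem _) (by rwa [map_one]) (by rwa [map_one])
    rwa [one_pow, mul_one] at h
  -- the four congruences between constants
  have c1 : π ∣ (rc : R) * (rti : R) ^ m - 1 :=
    ta33_const (K := K) π Vinf m hRi hGi (Na u) Au rc rti hNa n1 hAi
  have c2 : π ∣ (rc : R) * (rt0 : R) ^ m - 1 :=
    ta33_const (K := K) π V0 m hRz hGz (Na u) Au rc rt0 hNa n2 hA0
  have c3 : π ∣ (rd : R) * (rsi : R) ^ m - 1 :=
    ta33_const (K := K) π Vinf m hRi hGi (Nb u) Bu rd rsi hNb n3 hBi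
  have c4 : π ∣ (rd : R) * (rs0 : R) ^ m - 1 :=
    ta33_const (K := K) π V0 m hRz hGz (Nb u) Bu rd rs0 hNb n4 hB0
  -- pass to the units of `R / π`
  let φ : R →+* R ⧸ Ideal.span ({π} : Set R) := Ideal.Quotient.mk _
  have hφ : ∀ x : R, π ∣ x → φ x = 0 := fun x hx =>
    Ideal.Quotient.eq_zero_iff_mem.mpr (Ideal.mem_span_singleton.mpr hx)
  have hφ' : ∀ x : R, φ x = 0 → π ∣ x := fun x hx =>
    Ideal.mem_span_singleton.mp (Ideal.Quotient.eq_zero_iff_mem.mp hx)
  let ψ : R →* R ⧸ Ideal.span ({π} : Set R) := φ.toMonoidHom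
  have key : ∀ a t : Rˣ, π ∣ (a : R) * (t : R) ^ m - 1 →
      Units.map ψ a * Units.map ψ t ^ m = 1 := by
    intro a t h
    apply Units.ext
    have h1 := hφ _ h
    rw [map_sub, map_mul, map_pow, map_one, sub_eq_zero] at h1
    simp only [Units.val_mul, Units.val_pow_eq_pow_val, Units.coe_map, Units.val_one]
    exact h1
  obtain ⟨g1, g2⟩ := ta33_group m (q - 1) (Units.map ψ rc) (Units.map ψ rd)
    (Units.map ψ rti) (Units.map ψ rt0) (Units.map ψ rsi)
    (Units.map ψ rs0) (key rc rti c1) (key rc rt0 c2) (key rd rsi c3) (key rd rs0 c4)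
  -- the two constants
  set w₁ : Rˣ := ((rt0 * rs0) * (rti * rsi)⁻¹) ^ (q - 1) with hw₁
  set w₂ : Rˣ := (rt0 ^ (q - 1 + 1) * rsi) * (rti ^ (q - 1 + 1) * rs0)⁻¹ with hw₂
  have back : ∀ w : Rˣ, Units.map ψ w ^ m = 1 → π ∣ (w : R) ^ m - 1 := by
    intro w h
    apply hφ'
    have h1 := congrArg (fun z : (R ⧸ Ideal.span ({π} : Set R))ˣ => (z : R ⧸ Ideal.span ({π} : Set R))) h
    rw [map_sub, map_pow, map_one, sub_eq_zero]
    simp only [Units.val_pow_eq_pow_val, Units.coe_map, Units.val_one] at h1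
    exact h1
  have d1 : π ∣ (w₁ : R) ^ m - 1 := by
    apply back
    rw [hw₁]
    simpa only [map_pow, map_mul, map_inv] using g1
  have d2 : π ∣ (w₂ : R) ^ m - 1 := by
    apply back
    rw [hw₂]
    simpa only [map_pow, map_mul, map_inv] using g2
  -- exact relations in `R`
  have e1 : (w₁ : R) * ((rti : R) * (rsi : R)) ^ (q - 1) = ((rt0 : R) * (rs0 : R)) ^ (q - 1) := by
    have h : w₁ * (rti * rsi) ^ (q - 1) = (rt0 * rs0) ^ (q - 1) := by
      rw [hw₁, ← mul_pow, inv_mul_cancel_right]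
    have h1 := congrArg (fun z : Rˣ => (z : R)) h
    simpa using h1
  have e2 : (w₂ : R) * ((rti : R) ^ (q - 1 + 1) * (rs0 : R)) = (rt0 : R) ^ (q - 1 + 1) * (rsi : R) := by
    have h : w₂ * (rti ^ (q - 1 + 1) * rs0) = rt0 ^ (q - 1 + 1) * rsi := by
      rw [hw₂, inv_mul_cancel_right]
    have h1 := congrArg (fun z : Rˣ => (z : R)) h
    simpa using h1
  -- constants of `R` which are units
  have unit1 : ∀ w : Rˣ, V₁.valuation (algebraMap R F2 (w : R)) = 1 ∧
      V₂.valuation (algebraMap R F2 (w : R)) = 1 ∧ V₃.valuation (algebraMap R F2 (w : R)) = 1 := by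
    intro w
    have hww : algebraMap R F2 (w : R) * algebraMap R F2 ((w⁻¹ : Rˣ) : R) = 1 := by
      rw [← map_mul, Units.mul_inv, map_one]
    exact ⟨ta33_val_eq_one V₁ (hR1 _) (hR1 _) hww, ta33_val_eq_one V₂ (hR2 _) (hR2 _) hww,
      ta33_val_eq_one V₃ (hR3 _) (hR3 _) hww⟩
  have one1 : V₁.valuation (1 : F2) = 1 ∧ V₂.valuation (1 : F2) = 1 ∧ V₃.valuation (1 : F2) = 1 :=
    ⟨map_one _, map_one _, map_one _⟩
  obtain ⟨θ, ⟨hθ1, hθ2, hθ3⟩, hθw1, hθw2, hθw3⟩ :=
    hglue (algebraMap R F2 (w₁ : R)) (algebraMap R F2 (w₂ : R)) 1 (unit1 w₁) (unit1 w₂) one1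
  obtain ⟨hθ0, hθV1, hθV1'⟩ := ta33_unit_of_val V₁ hθ1
  obtain ⟨-, hθV2, hθV2'⟩ := ta33_unit_of_val V₂ hθ2
  obtain ⟨-, hθV3, hθV3'⟩ := ta33_unit_of_val V₃ hθ3
  -- `θ ^ m ≡ 1`
  have pw : ∀ (V : ValuationSubring F2), (∀ r : R, V.valuation (algebraMap R F2 r) ≤ 1) →
      V.valuation (algebraMap R F2 π) < 1 → ∀ w : R, π ∣ w ^ m - 1 →
      V.valuation (θ - algebraMap R F2 w) < 1 → V.valuation (θ ^ m - 1) < 1 := by
    intro V hRV hπV w hw hθw
    have h1 : V.valuation (θ ^ m - algebraMap R F2 w ^ m) < 1 := ta33_cong_pow V hθw (hRV w) m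
    obtain ⟨e, he⟩ := hw
    have h2 : V.valuation (algebraMap R F2 w ^ m - 1) < 1 := by
      have : algebraMap R F2 w ^ m - 1 = algebraMap R F2 π * algebraMap R F2 e := by
        rw [← map_mul, ← he, map_sub, map_pow, map_one]
      rw [this]
      exact ta33_mul V hπV (hRV e)
    exact ta33_cong_trans V h1 h2
  have t1 : V₁.valuation (θ ^ m - 1) < 1 := pw V₁ hR1 hπ1 _ d1 hθw1
  have t2 : V₂.valuation (θ ^ m - 1) < 1 := pw V₂ hR2 hπ2 _ d2 hθw2
  have t3 : V₃.valuation (θ ^ m - 1) < 1 := ta33_one_pow V₃ hθw3 m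
  -- `v = u ^ k θ ^ m ≡ 1`
  have v1 : V₁.valuation (u ^ ((q - 1 + 2) * (q - 1)) * θ ^ m - 1) < 1 :=
    ta33_one_mul V₁ (ta33_one_pow V₁ hu1' _) t1
  have v2 : V₂.valuation (u ^ ((q - 1 + 2) * (q - 1)) * θ ^ m - 1) < 1 :=
    ta33_one_mul V₂ (ta33_one_pow V₂ hu2' _) t2
  have v3 : V₃.valuation (u ^ ((q - 1 + 2) * (q - 1)) * θ ^ m - 1) < 1 :=
    ta33_one_mul V₃ (ta33_one_pow V₃ hu3' _) t3
  refine ⟨θ, hθ0, ⟨hθV1, hθV1'⟩, ⟨hθV2, hθV2'⟩, ⟨hθV3, hθV3'⟩,
    ⟨(w₁ : R), (w₂ : R), hθw1, hθw2, hθw3, ?_, ?_⟩, ?_, ?_, ?_⟩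
  · rw [hal, hal, hbe, hbe, ← map_mul, ← map_mul, ← map_pow, ← map_pow, ← map_mul, e1]
  · rw [hal, hal, hbe, hbe, ← map_pow, ← map_pow, ← map_mul, ← map_mul, ← map_mul, e2]
  · exact hu1 _ (ta33_one_pow V₁ v1 q)
  · -- the ramified branch
    set x : F2 := u ^ ((q - 1 + 2) * (q - 1)) * θ ^ m - 1 with hx
    have hxV : x ∈ V₂ := by
      rw [← ValuationSubring.valuation_le_one_iff]
      exact v2.le
    obtain ⟨r, hr⟩ := exists_add_pow_prime_eq hq (⟨x, hxV⟩ : V₂) 1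
    have hr' : (x + 1) ^ q = x ^ q + 1 + (q : F2) * x * (r : F2) := by
      have h := congrArg (fun z : V₂ => (z : F2)) hr
      simpa using h
    obtain ⟨e, he⟩ := hqπ
    have hqF : (q : F2) = algebraMap R F2 π * algebraMap R F2 e := by
      rw [← map_mul, ← he, map_natCast]
    have hval : cp57_u2 q m u θ - 1 = x ^ q + algebraMap R F2 π * algebraMap R F2 e * x * (r : F2) := by
      have h1 : cp57_u2 q m u θ = (x + 1) ^ q := by
        unfold cp57_u2
        rw [hx, sub_add_cancel]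
      rw [h1, hr', hqF]
      ring
    rw [hval, mul_add]
    refine V₂.add_mem _ _ (hu2 x v2) ?_
    have h2 : (algebraMap R F2 π)⁻¹ * (algebraMap R F2 π * algebraMap R F2 e * x * (r : F2)) =
        algebraMap R F2 e * x * (r : F2) := by
      field_simp
    rw [h2]
    exact V₂.mul_mem _ _ (V₂.mul_mem _ _
      ((ValuationSubring.valuation_le_one_iff V₂ _).mp (hR2 e)) hxV) r.2
  · exact hu3 _ (ta33_one_pow V₃ v3 q)

end Main

end Fermat.Agent.S36
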