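import Mathlib
import Fermat.Agent.S36.TwistAbs33
import Fermat.Agent.S36.ThetaBind66
import Fermat.Agent.S36.NormInst88
import Fermat.Agent.S36.BetaV2_66
import Fermat.Agent.S36.HPUpgrade36
import Fermat.Agent.S36.NormSqBeta86
import Fermat.Agent.S36.V2Gauss64

/-!
# S36 lab (helper33), row 605 (INV-core): the package (HP-T) on the CANONICAL frame

`tc33_hpt` : `cp57_HPT` (CorePoints57) for the canonical five rings of level `M' * q * q`

* `V₁ = cm85_Vinf (M' * q * q) hπ`, `V₃ = nsb86_V3 M' q hq hM' hπ`,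
  `Vinf = cm85_Vinf (M' * q) hπ`, `V0 = s34i47c_V0 M' q hq hM' hπ`, `π = (q : R)`,
* `V₂` a PARAMETER with the four facts `hV₂`, `hπ₂`, `hne`, `hs` of `ob72_ram`
  (`s = v2g64_s K M' q`),

for `al = al97L_alpha K (M' * q) q`, `be = al97L_beta K (M' * q) q`,
`Nal = s35i62_normA K (M' * q) q`, `Nbe = s35i62_normB K (M' * q) q`.

Proof: `ta33_hpt` (TwistAbs33) with the norm congruences `ni88_*` (helper88), the CRT
`ab66_hglue` and the constants `th66_const_mem` (helper66), `bv66_E2`, the uniformizer of `V₂`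
from `ob72_ram` (helper72) and `hpu36_hk_of_ram` (helper36).

All names are prefixed `tc33_`.
-/

set_option autoImplicit false
set_option linter.style.longLine false
set_option linter.unusedVariables false
set_option linter.unusedSectionVars false
set_option linter.style.haveILetI false

open ModularCurve AlgebraicCurve

namespace Fermat.Agent.S36

open Fermat.Agent.S18 Fermat.Agent.S24 Fermat.Agent.S37 Fermat.Agent.S34 Fermat.Agent.S35

local notation "Q̄" => AlgebraicClosure ℚ

section tc33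

variable {R K : Type} [CommRing R] [IsDomain R] [IsDiscreteValuationRing R] [Field K] [CharZero K]
  [Algebra R K] [IsFractionRing R K] [Algebra K Q̄] (M' q : ℕ) [NeZero M'] [NeZero q]

/-- A constant of `R` which is a non-unit of the Gauss ring is divisible by `π`. -/
theorem tc33_gauss_const (M : ℕ) [NeZero M] {π : R} (hπ : Irreducible π) (r : R)
    (h : (cm85_Vinf (K := K) M hπ).valuation
      (algebraMap K ↥(modularFunctionFieldFullC K M) (algebraMap R K r)) < 1) : π ∣ r := by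
  by_contra hdvd
  have hu : IsUnit r := by
    by_contra hnu
    have h1 : r ∈ IsLocalRing.maximalIdeal R := (IsLocalRing.mem_maximalIdeal _).mpr hnu
    rw [hπ.maximalIdeal_eq, Ideal.mem_span_singleton] at h1
    exact hdvd h1
  obtain ⟨r', hr'⟩ := hu.exists_right_inv
  have hmul : algebraMap K ↥(modularFunctionFieldFullC K M) (algebraMap R K r) *
      algebraMap K ↥(modularFunctionFieldFullC K M) (algebraMap R K r') = 1 := by
    rw [← map_mul, ← map_mul, hr', map_one, map_one]
  have h1 := ta33_val_eq_one (cm85_Vinf (K := K) M hπ)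
    ((ValuationSubring.valuation_le_one_iff _ _).mpr (th66_const_mem_Vinf (K := K) M hπ r))
    ((ValuationSubring.valuation_le_one_iff _ _).mpr (th66_const_mem_Vinf (K := K) M hπ r'))
    hmul
  rw [h1] at h
  exact lt_irrefl _ h

/-- Constants of `R` lie in `V_0'`. -/
theorem tc33_const_mem_V0 (hq : q.Prime) (hM' : ¬ q ∣ M') {π : R} (hπ : Irreducible π) (r : R) :
    algebraMap K ↥(modularFunctionFieldFullC K (M' * q)) (algebraMap R K r) ∈
      s34i47c_V0 (K := K) M' q hq hM' hπ := by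
  rw [s34i47c_mem_V0, AlgEquiv.commutes]
  exact th66_const_mem_Vinf (K := K) (M' * q) hπ r

/-- A constant of `R` which is a non-unit of `V_0'` is divisible by `π`. -/
theorem tc33_V0_const (hq : q.Prime) (hM' : ¬ q ∣ M') {π : R} (hπ : Irreducible π) (r : R)
    (h : (s34i47c_V0 (K := K) M' q hq hM' hπ).valuation
      (algebraMap K ↥(modularFunctionFieldFullC K (M' * q)) (algebraMap R K r)) < 1) : π ∣ r := by
  by_contra hdvd
  have hu : IsUnit r := by
    by_contra hnu
    have h1 : r ∈ IsLocalRing.maximalIdeal R := (IsLocalRing.mem_maximalIdeal _).mpr hnu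
    rw [hπ.maximalIdeal_eq, Ideal.mem_span_singleton] at h1
    exact hdvd h1
  obtain ⟨r', hr'⟩ := hu.exists_right_inv
  have hmul : algebraMap K ↥(modularFunctionFieldFullC K (M' * q)) (algebraMap R K r) *
      algebraMap K ↥(modularFunctionFieldFullC K (M' * q)) (algebraMap R K r') = 1 := by
    rw [← map_mul, ← map_mul, hr', map_one, map_one]
  have h1 := ta33_val_eq_one (s34i47c_V0 (K := K) M' q hq hM' hπ)
    ((ValuationSubring.valuation_le_one_iff _ _).mpr (tc33_const_mem_V0 (K := K) M' q hq hM' hπ r))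
    ((ValuationSubring.valuation_le_one_iff _ _).mpr (tc33_const_mem_V0 (K := K) M' q hq hM' hπ r'))
    hmul
  rw [h1] at h
  exact lt_irrefl _ h

/-- `π` is a uniformizer of `V₃ = nsb86_V3`. -/
theorem tc33_V3_unif (hq : q.Prime) (hM' : ¬ q ∣ M') {π : R} (hπ : Irreducible π)
    (x : ↥(modularFunctionFieldFullC K (M' * q * q)))
    (hx : (nsb86_V3 (K := K) M' q hq hM' hπ).valuation x < 1) :
    (algebraMap K ↥(modularFunctionFieldFullC K (M' * q * q)) (algebraMap R K π))⁻¹ * x ∈
      nsb86_V3 (K := K) M' q hq hM' hπ := by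
  have h1 : x ∈ (nsb86_V3 (K := K) M' q hq hM' hπ).nonunits :=
    (ValuationSubring.mem_nonunits_iff _).mpr hx
  rw [nsb86_mem_V3_nonunits] at h1
  have h2 := ni88_unif_of_nu (cm85_Vinf (K := K) (M' * q * q) hπ)
    (algebraMap K ↥(modularFunctionFieldFullC K (M' * q * q)) (algebraMap R K π))
    (alv73_hmax_Vinf (K := K) (M' * q * q) hπ) h1
  rw [nsb86_mem_V3, map_mul, map_inv₀, AlgEquiv.commutes]
  exact h2

end tc33

section Main

variable (M' q m : ℕ) [NeZero M'] [NeZero q] (hq : q.Prime) (hM' : ¬ q ∣ M')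
  (R K : Type) [CommRing R] [IsDomain R] [IsDiscreteValuationRing R] [Field K]
  [NumberField K] [Algebra K Q̄] [Algebra R K] [IsFractionRing R K]
  [Algebra R ↥(modularFunctionFieldFullC K (M' * q * q))]
  [IsScalarTower R K ↥(modularFunctionFieldFullC K (M' * q * q))]

/-- **(HP-T) on the canonical frame.** -/
theorem tc33_hpt (hπ : Irreducible ((q : ℕ) : R))
    (V₂ : ValuationSubring ↥(modularFunctionFieldFullC K (M' * q * q)))
    (hV₂ : ∀ c ∈ cm85_Vinf (K := K) (M' * q) hπ, al97L_alpha K (M' * q) q c ∈ V₂)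
    (hπ₂ : (algebraMap K ↥(modularFunctionFieldFullC K (M' * q * q))
      (algebraMap R K ((q : ℕ) : R)))⁻¹ ∉ V₂)
    (hne : cm85_Vinf (K := K) (M' * q * q) hπ ≠ V₂)
    (hs : V₂.valuation (v2g64_s K M' q) ^ (q - 1) =
      V₂.valuation (algebraMap K ↥(modularFunctionFieldFullC K (M' * q * q))
        (algebraMap R K ((q : ℕ) : R)))) :
    cp57_HPT (K := K) ((q : ℕ) : R) q m (al97L_alpha K (M' * q) q).toRingHom
      (al97L_beta K (M' * q) q).toRingHom (s35i62_normA K (M' * q) q)
      (s35i62_normB K (M' * q) q) (cm85_Vinf (K := K) (M' * q * q) hπ) V₂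
      (nsb86_V3 (K := K) M' q hq hM' hπ) (cm85_Vinf (K := K) (M' * q) hπ)
      (s34i47c_V0 (K := K) M' q hq hM' hπ) := by
  have hqR : ¬ IsUnit ((q : ℕ) : R) := hπ.not_isUnit
  have hL : ((M' * q * q : ℕ) : K) ≠ 0 := nsb86_hL K (M' * q * q)
  have hV₃mem := nsb86_mem_V3 (K := K) M' q hq hM' hπ
  have htow : ∀ r : R, algebraMap R ↥(modularFunctionFieldFullC K (M' * q * q)) r =
      algebraMap K ↥(modularFunctionFieldFullC K (M' * q * q)) (algebraMap R K r) := fun r =>
    IsScalarTower.algebraMap_apply R K ↥(modularFunctionFieldFullC K (M' * q * q)) r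
  have hπ3 := o3x72_V3_pi (K := K) M' q hq hM' hπ hL (nsb86_V3 (K := K) M' q hq hM' hπ) hV₃mem
  have hπ1 := ab66_pi_V1 (K := K) M' q hπ
  obtain ⟨-, -, hmax2, -, -⟩ := ob72_ram (K := K) (M' * q) q hq (dvd_mul_left q M') hπ V₂ hV₂ hπ₂
    hne (v2g64_s K M' q) hs
  have hE2 := bv66_E2 (K := K) M' q hq hM' hπ hqR hL V₂ hV₂ hπ₂ hne
  have hcm := fun r : R => th66_const_mem (K := K) M' q hq hM' hπ hL V₂
    (nsb86_V3 (K := K) M' q hq hM' hπ) hV₂ hV₃mem r
  refine ta33_hpt (K := K) ((q : ℕ) : R) q m hq _ _ _ _ _ _ _ _ _ ?_ (dvd_refl _) ?_ ?_ ?_ ?_ ?_ ?_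
    ?_ ?_ ?_ ?_ ?_ ?_ ?_ ?_ ?_ ?_ ?_ ?_ ?_ ?_
  · -- hπ0
    rw [htow]
    exact (_root_.map_ne_zero _).mpr
      ((_root_.map_ne_zero_iff _ (IsFractionRing.injective R K)).mpr hπ.ne_zero)
  · -- hal
    intro r
    rw [htow]
    exact (al97L_alpha K (M' * q) q).commutes _
  · -- hbe
    intro r
    rw [htow]
    exact (al97L_beta K (M' * q) q).commutes _
  · -- hRi
    intro r
    exact (ValuationSubring.valuation_le_one_iff _ _).mpr
      (th66_const_mem_Vinf (K := K) (M' * q) hπ r)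
  · -- hRz
    intro r
    exact (ValuationSubring.valuation_le_one_iff _ _).mpr
      (tc33_const_mem_V0 (K := K) M' q hq hM' hπ r)
  · -- hGi
    exact fun r h => tc33_gauss_const (K := K) (M' * q) hπ r h
  · -- hGz
    exact fun r h => tc33_V0_const (K := K) M' q hq hM' hπ r h
  · -- hR1
    intro r
    rw [htow]
    exact (ValuationSubring.valuation_le_one_iff _ _).mpr (hcm r).1
  · -- hR2
    intro r
    rw [htow]
    exact (ValuationSubring.valuation_le_one_iff _ _).mpr (hcm r).2.1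
  · -- hR3
    intro r
    rw [htow]
    exact (ValuationSubring.valuation_le_one_iff _ _).mpr (hcm r).2.2
  · -- hπ1
    rw [htow]
    exact ab66_val_pi_lt_one _ _ hπ1
  · -- hπ2
    rw [htow]
    exact ab66_val_pi_lt_one _ _ hπ₂
  · -- hπ3
    rw [htow]
    exact ab66_val_pi_lt_one _ _ hπ3
  · -- hu1
    intro x hx
    rw [htow]
    exact ni88_unif_of_nu (cm85_Vinf (K := K) (M' * q * q) hπ) _
      (alv73_hmax_Vinf (K := K) (M' * q * q) hπ) ((ValuationSubring.mem_nonunits_iff _).mpr hx)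
  · -- hu3
    intro x hx
    rw [htow]
    exact tc33_V3_unif (K := K) M' q hq hM' hπ x hx
  · -- hu2
    intro x hx
    rw [htow]
    exact hpu36_hk_of_ram V₂ _ (v2g64_s K M' q) q hq hmax2 hs x hx
  · -- hN1
    intro y hy1 hy2 v1 hv1 v2 hv2 h1 h2
    exact (ValuationSubring.mem_nonunits_iff _).mp
      (ni88_ramα (K := K) M' q hq hM' hπ V₂ hV₂ hπ₂ hne (v2g64_s K M' q) hs y hy1 hy2 v1 hv1 v2 hv2
        ((ValuationSubring.mem_nonunits_iff _).mpr h1) ((ValuationSubring.mem_nonunits_iff _).mpr h2))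
  · -- hN2
    intro x hx v hv h
    exact (ValuationSubring.mem_nonunits_iff _).mp
      (ni88_inα (K := K) M' q hq hM' hπ hqR hL (nsb86_V3 (K := K) M' q hq hM' hπ) hV₃mem x hx v hv
        ((ValuationSubring.mem_nonunits_iff _).mpr h))
  · -- hN3
    intro x hx v hv h
    exact (ValuationSubring.mem_nonunits_iff _).mp
      (ni88_inβ (K := K) M' q hq hM' hπ hqR hL x hx v hv ((ValuationSubring.mem_nonunits_iff _).mpr h))
  · -- hN4
    intro y hy3 hy2 v3 hv3 v2 hv2 h3 h2
    exact (ValuationSubring.mem_nonunits_iff _).mp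
      (ni88_ramβ (K := K) M' q hq hM' hπ hqR hL V₂ (nsb86_V3 (K := K) M' q hq hM' hπ) hV₂ hπ₂ hne
        (v2g64_s K M' q) hs hE2 hV₃mem y hy3 hy2 v3 hv3 v2 hv2
        ((ValuationSubring.mem_nonunits_iff _).mpr h3) ((ValuationSubring.mem_nonunits_iff _).mpr h2))
  · -- hglue
    exact ab66_hglue (K := K) M' q hq hM' hπ hqR hL V₂ (nsb86_V3 (K := K) M' q hq hM' hπ) hV₂ hπ₂
      hne hV₃mem

end Main

end Fermat.Agent.S36
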