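import Mathlib
import Fermat.Agent.S36.HBFinal62
import Fermat.Agent.S36.CorePoints57
import Fermat.Agent.S36.TwistCanon33

/-!
# S36 lab (helper62, architect): the canonical (HP) split per point — (HP-T) is CLOSED

`s36i62d_HPc2`, `s36i62d_HPc3` (the two open hypotheses of `s36i62f_top`, `HBFinal62`) are
`cp57_HP_of` (helper57, `CorePoints57`) applied to the canonical frame with
`V₂ = v2g64_V2 (algebraMap K ℚ̄) M' q hq hM' hπ (Associated.refl _)`; (HP-T) on that frame is
`tc33_hpt` (helper33, `TwistCanon33`).  What is left is FOUR closed statements: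

* `s36i62g_HP1c2` / `s36i62g_HP1c3` : `cp57_HP1` on the two charts `{h}`, `{h⁻¹}`,
  `h = pk85_h2 K (M'*q*q) _` (`2 ∣ M'`) resp. `h = pk85_h3 K (M'*q*q) _` (`q = 2`, `3 ∣ M'`);
* `s36i62g_HP3c2` / `s36i62g_HP3c3` : `cp57_HP3` on the same charts;

with `al, be = (al97L_alpha K (M'*q) q).toRingHom, (al97L_beta K (M'*q) q).toRingHom` and
`Nal, Nbe = s35i62_normA K (M'*q) q, s35i62_normB K (M'*q) q`.

`s36i62g_HPc2 : s36i62g_HP1c2 → s36i62g_HP3c2 → s36i62d_HPc2`, `s36i62g_HPc3` likewise, and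
`s36i62g_top : s36i62g_HP1c2 → s36i62g_HP3c2 → s36i62g_HP1c3 → s36i62g_HP3c3 → (frozen S36)`.
All names are prefixed `s36i62g_`.
-/

set_option autoImplicit false
set_option linter.style.longLine false
set_option linter.unusedVariables false
set_option linter.unusedSectionVars false
set_option linter.style.haveILetI false

open ModularCurve AlgebraicCurve CongruenceSubgroup Polynomial

namespace Fermat.Agent.S36

open Fermat.Agent.S18 Fermat.Agent.S34 Fermat.Agent.S35

local notation "Q̄" => AlgebraicClosure ℚ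

/-- **(HP-1), canonical, Hauptmodul of level 2**: both charts. -/
def s36i62g_HP1c2 : Prop :=
  ∀ (M' q p r : ℕ) [NeZero M'] [NeZero q] (hq : q.Prime) (hM' : ¬ q ∣ M'),
    s36c67_Rigid6 (M' * q) q r → p.Prime → p ≠ q → ∀ (h2 : 2 ∣ M') (n : ℕ),
    ∀ (R K : Type) [CommRing R] [IsDomain R] [IsDiscreteValuationRing R] [Field K]
      [NumberField K] [Algebra K Q̄] [Algebra R K] [IsFractionRing R K]
      [Algebra R ↥(modularFunctionFieldFullC K (M' * q * q))]
      [IsScalarTower R K ↥(modularFunctionFieldFullC K (M' * q * q))]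
      (hπ : Irreducible ((q : ℕ) : R)), (∀ k : ℕ, Nat.Coprime k q → IsUnit (k : R)) →
      cp57_HP1 (K := K) ((q : ℕ) : R) q (p ^ n)
        (pk15_chart R ({pk85_h2 K (M' * q * q)
          (h2.trans ((dvd_mul_right M' q).trans (dvd_mul_right (M' * q) q)))} :
            Set ↥(modularFunctionFieldFullC K (M' * q * q))))
        (al97L_alpha K (M' * q) q).toRingHom (al97L_beta K (M' * q) q).toRingHom
        (s35i62_normA K (M' * q) q) (s35i62_normB K (M' * q) q)
        (cm85_Vinf (K := K) (M' * q * q) hπ)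
        (v2g64_V2 (algebraMap K Q̄) M' q hq hM' hπ (Associated.refl _))
        (nsb86_V3 (K := K) M' q hq hM' hπ)
        (cm85_Vinf (K := K) (M' * q) hπ) (s34i47c_V0 M' q hq hM' hπ) ∧
      cp57_HP1 (K := K) ((q : ℕ) : R) q (p ^ n)
        (pk15_chart R ({(pk85_h2 K (M' * q * q)
          (h2.trans ((dvd_mul_right M' q).trans (dvd_mul_right (M' * q) q))))⁻¹} :
            Set ↥(modularFunctionFieldFullC K (M' * q * q))))
        (al97L_alpha K (M' * q) q).toRingHom (al97L_beta K (M' * q) q).toRingHom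
        (s35i62_normA K (M' * q) q) (s35i62_normB K (M' * q) q)
        (cm85_Vinf (K := K) (M' * q * q) hπ)
        (v2g64_V2 (algebraMap K Q̄) M' q hq hM' hπ (Associated.refl _))
        (nsb86_V3 (K := K) M' q hq hM' hπ)
        (cm85_Vinf (K := K) (M' * q) hπ) (s34i47c_V0 M' q hq hM' hπ)

/-- **(HP-3), canonical, Hauptmodul of level 2**: both charts. -/
def s36i62g_HP3c2 : Prop :=
  ∀ (M' q p r : ℕ) [NeZero M'] [NeZero q] (hq : q.Prime) (hM' : ¬ q ∣ M'),
    s36c67_Rigid6 (M' * q) q r → p.Prime → p ≠ q → ∀ (h2 : 2 ∣ M') (n : ℕ),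
    ∀ (R K : Type) [CommRing R] [IsDomain R] [IsDiscreteValuationRing R] [Field K]
      [NumberField K] [Algebra K Q̄] [Algebra R K] [IsFractionRing R K]
      [Algebra R ↥(modularFunctionFieldFullC K (M' * q * q))]
      [IsScalarTower R K ↥(modularFunctionFieldFullC K (M' * q * q))]
      (hπ : Irreducible ((q : ℕ) : R)), (∀ k : ℕ, Nat.Coprime k q → IsUnit (k : R)) →
      cp57_HP3 (K := K) ((q : ℕ) : R) q (p ^ n)
        (pk15_chart R ({pk85_h2 K (M' * q * q)
          (h2.trans ((dvd_mul_right M' q).trans (dvd_mul_right (M' * q) q)))} :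
            Set ↥(modularFunctionFieldFullC K (M' * q * q))))
        (al97L_alpha K (M' * q) q).toRingHom (al97L_beta K (M' * q) q).toRingHom
        (s35i62_normA K (M' * q) q) (s35i62_normB K (M' * q) q)
        (cm85_Vinf (K := K) (M' * q * q) hπ)
        (v2g64_V2 (algebraMap K Q̄) M' q hq hM' hπ (Associated.refl _))
        (nsb86_V3 (K := K) M' q hq hM' hπ)
        (cm85_Vinf (K := K) (M' * q) hπ) (s34i47c_V0 M' q hq hM' hπ) ∧
      cp57_HP3 (K := K) ((q : ℕ) : R) q (p ^ n)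
        (pk15_chart R ({(pk85_h2 K (M' * q * q)
          (h2.trans ((dvd_mul_right M' q).trans (dvd_mul_right (M' * q) q))))⁻¹} :
            Set ↥(modularFunctionFieldFullC K (M' * q * q))))
        (al97L_alpha K (M' * q) q).toRingHom (al97L_beta K (M' * q) q).toRingHom
        (s35i62_normA K (M' * q) q) (s35i62_normB K (M' * q) q)
        (cm85_Vinf (K := K) (M' * q * q) hπ)
        (v2g64_V2 (algebraMap K Q̄) M' q hq hM' hπ (Associated.refl _))
        (nsb86_V3 (K := K) M' q hq hM' hπ)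
        (cm85_Vinf (K := K) (M' * q) hπ) (s34i47c_V0 M' q hq hM' hπ)

/-- **(HP-1), canonical, Hauptmodul of level 3** (`q = 2`): both charts. -/
def s36i62g_HP1c3 : Prop :=
  ∀ (M' q p r : ℕ) [NeZero M'] [NeZero q] (hq : q.Prime) (hM' : ¬ q ∣ M'),
    s36c67_Rigid6 (M' * q) q r → p.Prime → p ≠ q → q = 2 → ∀ (h3 : 3 ∣ M') (n : ℕ),
    ∀ (R K : Type) [CommRing R] [IsDomain R] [IsDiscreteValuationRing R] [Field K]
      [NumberField K] [Algebra K Q̄] [Algebra R K] [IsFractionRing R K]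
      [Algebra R ↥(modularFunctionFieldFullC K (M' * q * q))]
      [IsScalarTower R K ↥(modularFunctionFieldFullC K (M' * q * q))]
      (hπ : Irreducible ((q : ℕ) : R)), (∀ k : ℕ, Nat.Coprime k q → IsUnit (k : R)) →
      cp57_HP1 (K := K) ((q : ℕ) : R) q (p ^ n)
        (pk15_chart R ({pk85_h3 K (M' * q * q)
          (h3.trans ((dvd_mul_right M' q).trans (dvd_mul_right (M' * q) q)))} :
            Set ↥(modularFunctionFieldFullC K (M' * q * q))))
        (al97L_alpha K (M' * q) q).toRingHom (al97L_beta K (M' * q) q).toRingHom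
        (s35i62_normA K (M' * q) q) (s35i62_normB K (M' * q) q)
        (cm85_Vinf (K := K) (M' * q * q) hπ)
        (v2g64_V2 (algebraMap K Q̄) M' q hq hM' hπ (Associated.refl _))
        (nsb86_V3 (K := K) M' q hq hM' hπ)
        (cm85_Vinf (K := K) (M' * q) hπ) (s34i47c_V0 M' q hq hM' hπ) ∧
      cp57_HP1 (K := K) ((q : ℕ) : R) q (p ^ n)
        (pk15_chart R ({(pk85_h3 K (M' * q * q)
          (h3.trans ((dvd_mul_right M' q).trans (dvd_mul_right (M' * q) q))))⁻¹} :
            Set ↥(modularFunctionFieldFullC K (M' * q * q))))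
        (al97L_alpha K (M' * q) q).toRingHom (al97L_beta K (M' * q) q).toRingHom
        (s35i62_normA K (M' * q) q) (s35i62_normB K (M' * q) q)
        (cm85_Vinf (K := K) (M' * q * q) hπ)
        (v2g64_V2 (algebraMap K Q̄) M' q hq hM' hπ (Associated.refl _))
        (nsb86_V3 (K := K) M' q hq hM' hπ)
        (cm85_Vinf (K := K) (M' * q) hπ) (s34i47c_V0 M' q hq hM' hπ)

/-- **(HP-3), canonical, Hauptmodul of level 3** (`q = 2`): both charts. -/
def s36i62g_HP3c3 : Prop :=
  ∀ (M' q p r : ℕ) [NeZero M'] [NeZero q] (hq : q.Prime) (hM' : ¬ q ∣ M'),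
    s36c67_Rigid6 (M' * q) q r → p.Prime → p ≠ q → q = 2 → ∀ (h3 : 3 ∣ M') (n : ℕ),
    ∀ (R K : Type) [CommRing R] [IsDomain R] [IsDiscreteValuationRing R] [Field K]
      [NumberField K] [Algebra K Q̄] [Algebra R K] [IsFractionRing R K]
      [Algebra R ↥(modularFunctionFieldFullC K (M' * q * q))]
      [IsScalarTower R K ↥(modularFunctionFieldFullC K (M' * q * q))]
      (hπ : Irreducible ((q : ℕ) : R)), (∀ k : ℕ, Nat.Coprime k q → IsUnit (k : R)) →
      cp57_HP3 (K := K) ((q : ℕ) : R) q (p ^ n)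
        (pk15_chart R ({pk85_h3 K (M' * q * q)
          (h3.trans ((dvd_mul_right M' q).trans (dvd_mul_right (M' * q) q)))} :
            Set ↥(modularFunctionFieldFullC K (M' * q * q))))
        (al97L_alpha K (M' * q) q).toRingHom (al97L_beta K (M' * q) q).toRingHom
        (s35i62_normA K (M' * q) q) (s35i62_normB K (M' * q) q)
        (cm85_Vinf (K := K) (M' * q * q) hπ)
        (v2g64_V2 (algebraMap K Q̄) M' q hq hM' hπ (Associated.refl _))
        (nsb86_V3 (K := K) M' q hq hM' hπ)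
        (cm85_Vinf (K := K) (M' * q) hπ) (s34i47c_V0 M' q hq hM' hπ) ∧
      cp57_HP3 (K := K) ((q : ℕ) : R) q (p ^ n)
        (pk15_chart R ({(pk85_h3 K (M' * q * q)
          (h3.trans ((dvd_mul_right M' q).trans (dvd_mul_right (M' * q) q))))⁻¹} :
            Set ↥(modularFunctionFieldFullC K (M' * q * q))))
        (al97L_alpha K (M' * q) q).toRingHom (al97L_beta K (M' * q) q).toRingHom
        (s35i62_normA K (M' * q) q) (s35i62_normB K (M' * q) q)
        (cm85_Vinf (K := K) (M' * q * q) hπ)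
        (v2g64_V2 (algebraMap K Q̄) M' q hq hM' hπ (Associated.refl _))
        (nsb86_V3 (K := K) M' q hq hM' hπ)
        (cm85_Vinf (K := K) (M' * q) hπ) (s34i47c_V0 M' q hq hM' hπ)

/-- **(HP), canonical, level 2, from the per-point packages** ((HP-T) = `tc33_hpt`). -/
theorem s36i62g_HPc2 (h1 : s36i62g_HP1c2) (h3 : s36i62g_HP3c2) : s36i62d_HPc2 := by
  intro M' q p r _ _ hq hM' hrig hp hpq h2 n R K _ _ _ _ _ _ _ _ _ _ hπ hunit
  obtain ⟨ha, hb⟩ := h1 M' q p r hq hM' hrig hp hpq h2 n R K hπ hunit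
  obtain ⟨hc, hd⟩ := h3 M' q p r hq hM' hrig hp hpq h2 n R K hπ hunit
  exact cp57_HP_of (K := K) ((q : ℕ) : R) q (p ^ n) _ _ _ _ _ _ _ _ _ _
    (tc33_hpt M' q (p ^ n) hq hM' R K hπ
      (v2g64_V2 (algebraMap K Q̄) M' q hq hM' hπ (Associated.refl _))
      (v2g64_V2_alpha (algebraMap K Q̄) M' q hq hM' hπ (Associated.refl _))
      (v2g64_V2_pi (algebraMap K Q̄) M' q hq hM' hπ (Associated.refl _))
      (v2g64_V2_ne (algebraMap K Q̄) M' q hq hM' hπ (Associated.refl _))
      (v2g64_V2_val (algebraMap K Q̄) M' q hq hM' hπ (Associated.refl _)))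
    ha hb hc hd

/-- **(HP), canonical, level 3, from the per-point packages** ((HP-T) = `tc33_hpt`). -/
theorem s36i62g_HPc3 (h1 : s36i62g_HP1c3) (h3 : s36i62g_HP3c3) : s36i62d_HPc3 := by
  intro M' q p r _ _ hq hM' hrig hp hpq hq2 h3' n R K _ _ _ _ _ _ _ _ _ _ hπ hunit
  obtain ⟨ha, hb⟩ := h1 M' q p r hq hM' hrig hp hpq hq2 h3' n R K hπ hunit
  obtain ⟨hc, hd⟩ := h3 M' q p r hq hM' hrig hp hpq hq2 h3' n R K hπ hunit
  exact cp57_HP_of (K := K) ((q : ℕ) : R) q (p ^ n) _ _ _ _ _ _ _ _ _ _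
    (tc33_hpt M' q (p ^ n) hq hM' R K hπ
      (v2g64_V2 (algebraMap K Q̄) M' q hq hM' hπ (Associated.refl _))
      (v2g64_V2_alpha (algebraMap K Q̄) M' q hq hM' hπ (Associated.refl _))
      (v2g64_V2_pi (algebraMap K Q̄) M' q hq hM' hπ (Associated.refl _))
      (v2g64_V2_ne (algebraMap K Q̄) M' q hq hM' hπ (Associated.refl _))
      (v2g64_V2_val (algebraMap K Q̄) M' q hq hM' hπ (Associated.refl _)))
    ha hb hc hd

/-- **The frozen S36 from the four canonical per-point statements.** -/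
theorem s36i62g_top (h12 : s36i62g_HP1c2) (h32 : s36i62g_HP3c2) (h13 : s36i62g_HP1c3)
    (h33 : s36i62g_HP3c3)
    {M : ℕ} [NeZero M] {g : CuspForm (CongruenceSubgroup.Gamma0 M) 2} (hg : g.IsNewform)
    (lam : ℕ) [Fact lam.Prime]
    (S : Finset ℕ)
    (O' : Type) [CommRing O'] [IsDomain O'] [IsDiscreteValuationRing O']
    [IsAdicComplete (IsLocalRing.maximalIdeal O') O'] [Finite (IsLocalRing.ResidueField O')]
    [CharZero O'] (hlamO' : (lam : O') ∈ IsLocalRing.maximalIdeal O')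
    (chig : CuspForm.heckeAlgebra M 2 (↑S : Set ℕ) →+* ℂ)
    (hchig : ∀ (ℓ : ℕ) (hℓ : ℓ.Prime) (hℓM : ¬ ℓ ∣ M) (hℓS : ℓ ∉ (↑S : Set ℕ)),
      chig (CuspForm.heckeAlgebra.T hℓ hℓM hℓS) = ModularFormClass.qCoeff g ℓ)
    (iota : chig.range →+* O')
    (hlamS : lam ∈ S) (hMS : ∀ q : ℕ, q.Prime → q ∣ M → q ∈ S) :
    ∃ (O'' : Type) (_ : CommRing O'') (_ : IsDomain O'') (_ : IsDiscreteValuationRing O'')
      (_ : IsAdicComplete (IsLocalRing.maximalIdeal O'') O'') (_ : Finite (IsLocalRing.ResidueField O''))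
      (_ : CharZero O'') (_ : Algebra O' O'') (_ : Module.Finite O' O'') (_ : IsLocalHom (algebraMap O' O'')),
      Function.Injective (algebraMap O' O'') ∧
      ∃ ρ : GaloisRepAdic O'',
        (∀ (ℓ : ℕ) (hℓ : ℓ.Prime) (hℓM : ¬ ℓ ∣ M) (hℓS : ℓ ∉ (↑S : Set ℕ)),
          ∀ A : ValuationSubring (AlgebraicClosure ℚ), A.LiesOverPrime ℓ →
            ∀ σ : AlgebraicClosure ℚ ≃ₐ[ℚ] AlgebraicClosure ℚ, A.IsFrobeniusAt σ ℓ →
              LinearMap.charpoly (ρ.ρ σ) =
                X ^ 2 - C (algebraMap O' O'' ((iota.comp chig.rangeRestrict) (CuspForm.heckeAlgebra.T hℓ hℓM hℓS))) * X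
                  + C ((ℓ : O''))) ∧
        (∀ q : ℕ, q.Prime → q ≠ lam → M.factorization q = 2 → ¬ ρ.IsUnipotentOnInertiaAt q) :=
  s36i62f_top (s36i62g_HPc2 h12 h32) (s36i62g_HPc3 h13 h33) hg lam S O' hlamO' chig hchig iota
    hlamS hMS

end Fermat.Agent.S36
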