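import Fermat.Agent.S34.ModPolyShape78
import Fermat.Agent.S34.ModPolyDeg90
import Fermat.Agent.S36.MidCusp8

/-!
S36 lab (helper8): the Kronecker data `(S, ψ)` of `mc8_chart` from the modular equation on main
(`mps78_modEq`), and the separator form of principality at a one-branch point of `C₂`.
-/

set_option autoImplicit false

open ModularCurve Polynomial

namespace Fermat.Agent.S36

open Fermat.Agent.S28 Fermat.Agent.S37 Fermat.Agent.S34

universe u

theorem mci8_mono (a b α β : ℕ) :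
    ((monomial a (monomial b (1 : ℤ)) : Polynomial (Polynomial ℤ)).coeff α).coeff β
      = if a = α ∧ b = β then 1 else 0 := by
  rw [coeff_monomial]
  by_cases h1 : a = α
  · rw [if_pos h1, coeff_monomial]
    by_cases h2 : b = β <;> simp [h1, h2]
  · rw [if_neg h1, coeff_zero]
    simp [h1]

/-- The coefficients of the Kronecker product `(X - Y^q)(X^q - Y)`. -/
theorem mci8_kron_coeff (q α β : ℕ) :
    ((((X : Polynomial (Polynomial ℤ)) - C (X ^ q)) * (X ^ q - C X)).coeff α).coeff β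
      = (if q + 1 = α ∧ 0 = β then 1 else 0) - (if 1 = α ∧ 1 = β then 1 else 0)
        - (if q = α ∧ q = β then 1 else 0) + (if 0 = α ∧ q + 1 = β then 1 else 0) := by
  have h : (((X : Polynomial (Polynomial ℤ)) - C (X ^ q)) * (X ^ q - C X)) =
      monomial (q + 1) (monomial 0 1) - monomial 1 (monomial 1 1)
        - monomial q (monomial q 1) + monomial 0 (monomial (q + 1) 1) := by
    rw [monomial_zero_one, ← X_pow_eq_monomial, monomial_one_one_eq_X, ← C_mul_X_eq_monomial,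
      ← X_pow_eq_monomial, ← C_mul_X_pow_eq_monomial, monomial_zero_left, ← X_pow_eq_monomial,
      pow_succ (X : Polynomial ℤ) q, C_mul]
    ring
  rw [h]
  simp only [coeff_add, coeff_sub, mci8_mono]

/-- **The Kronecker data of the modular equation of level `q`** in the shape of `mc8_chart`. -/
theorem mci8_kron_data (q : ℕ) (hq : q.Prime) :
    ∃ (Φ : Polynomial (Polynomial ℤ)) (S : Finset (ℕ × ℕ)) (ψ : ℕ × ℕ → ℤ),
      Φ.eval₂ (evJ ℤ) (JdC ℤ q) = 0 ∧ Φ.eval₂ (evJd ℤ q) (jqModC ℤ) = 0 ∧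
      (∀ s ∈ S, s.1 ≤ q ∧ s.2 ≤ q + 1 ∧ q * s.1 + s.2 ≤ q * q + q ∧
        (q * s.1 + s.2 = q * q + q → s.2 = q)) ∧
      ∀ (A : Type u) [CommRing A] (j y : A),
        Φ.eval₂ (Polynomial.eval₂RingHom (Int.castRingHom A) j) y =
          (y - j ^ q) * (y ^ q - j) + q * ∑ s ∈ S, (ψ s : A) * y ^ s.1 * j ^ s.2 := by
  classical
  obtain ⟨Φ, Ψ, hm, hd, h1, h2, hΨ, -, hshape, htot, htoteq, -⟩ := mps78_modEq q hq
  have hq2 : 2 ≤ q := hq.two_le
  have hqq : 2 * q ≤ q * q := Nat.mul_le_mul_right q hq2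
  have hq0 : (q : ℤ) ≠ 0 := by exact_mod_cast hq.ne_zero
  set ψ : ℕ × ℕ → ℤ := fun s => (Ψ.coeff s.1).coeff s.2 with hψ
  -- coefficient comparison
  have hcoef : ∀ α β : ℕ, (Φ.coeff α).coeff β
      = ((if q + 1 = α ∧ 0 = β then 1 else 0) - (if 1 = α ∧ 1 = β then 1 else 0)
        - (if q = α ∧ q = β then 1 else 0) + (if 0 = α ∧ q + 1 = β then 1 else 0))
        + (q : ℤ) * ψ (α, β) := by
    intro α β
    conv_lhs => rw [hΨ]
    rw [coeff_add, coeff_add, mci8_kron_coeff, coeff_C_mul, coeff_C_mul]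
  have hF2 : ψ (q + 1, 0) = 0 := by
    have h := hcoef (q + 1) 0
    have hc : (Φ.coeff (q + 1)).coeff 0 = 1 := by
      have : Φ.coeff (q + 1) = 1 := by rw [← hd]; exact hm.coeff_natDegree
      rw [this, coeff_one_zero]
    rw [hc] at h
    have e1 : ¬ (1 = q + 1 ∧ 1 = 0) := by omega
    have e2 : ¬ (q = q + 1 ∧ q = 0) := by omega
    have e3 : ¬ (0 = q + 1 ∧ q + 1 = 0) := by omega
    rw [if_pos ⟨rfl, rfl⟩, if_neg e1, if_neg e2, if_neg e3] at h
    have : (q : ℤ) * ψ (q + 1, 0) = 0 := by linarith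
    exact (mul_eq_zero.mp this).resolve_left hq0
  have hF1 : ∀ α β : ℕ, ψ (α, β) ≠ 0 → (Φ.coeff α).coeff β ≠ 0 ∨
      (α = q + 1 ∧ β = 0) ∨ (α = 1 ∧ β = 1) ∨ (α = q ∧ β = q) ∨ (α = 0 ∧ β = q + 1) := by
    intro α β hne
    by_contra hcon
    simp only [not_or, not_not] at hcon
    obtain ⟨hc, n1, n2, n3, n4⟩ := hcon
    have h := hcoef α β
    rw [hc, if_neg (fun h => n1 ⟨h.1.symm, h.2.symm⟩), if_neg (fun h => n2 ⟨h.1.symm, h.2.symm⟩),
      if_neg (fun h => n3 ⟨h.1.symm, h.2.symm⟩), if_neg (fun h => n4 ⟨h.1.symm, h.2.symm⟩)] at h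
    have : (q : ℤ) * ψ (α, β) = 0 := by linarith
    exact hne ((mul_eq_zero.mp this).resolve_left hq0)
  set n := Ψ.natDegree + 1 with hn
  set m := (Finset.range n).sup (fun a => (Ψ.coeff a).natDegree) + 1 with hmdef
  refine ⟨Φ, (Finset.range n ×ˢ Finset.range m).filter (fun s => ψ s ≠ 0), ψ, h1, h2, ?_, ?_⟩
  · rintro ⟨α, β⟩ hs
    have hne : ψ (α, β) ≠ 0 := (Finset.mem_filter.mp hs).2
    have hα1 : α ≠ q + 1 ∨ β ≠ 0 := by
      by_contra hcon
      simp only [not_or, not_not] at hcon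
      rw [hcon.1, hcon.2] at hne
      exact hne hF2
    show α ≤ q ∧ β ≤ q + 1 ∧ q * α + β ≤ q * q + q ∧ (q * α + β = q * q + q → β = q)
    rcases hF1 α β hne with hc | ⟨rfl, rfl⟩ | ⟨rfl, rfl⟩ | ⟨rfl, rfl⟩ | ⟨rfl, rfl⟩
    · obtain ⟨s1, s2, s3, s4⟩ := hshape α β hc
      have s5 := htot α β hc
      have s6 := htoteq α β hc
      have hαq : α ≤ q := by
        by_contra hgt
        have : α = q + 1 := by omega
        rcases hα1 with h | h
        · exact h this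
        · exact h (s3 this)
      rcases Nat.lt_or_ge α q with hlt | hge
      · have h3 : q * α ≤ q * (q - 1) := Nat.mul_le_mul_left q (by omega)
        have h4 : q * (q - 1) + q = q * q := by
          have : q - 1 + 1 = q := by omega
          calc q * (q - 1) + q = q * (q - 1 + 1) := by ring
            _ = q * q := by rw [this]
        refine ⟨hαq, s2, by omega, fun h => by omega⟩
      · have : α = q := le_antisymm hαq hge
        subst this
        refine ⟨le_rfl, s2, by omega, fun h => by omega⟩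
    · exact absurd rfl (hα1.resolve_right (fun h => h rfl))
    · refine ⟨by omega, by omega, by omega, fun h => by omega⟩
    · refine ⟨le_rfl, by omega, by omega, fun _ => rfl⟩
    · refine ⟨by omega, le_rfl, by omega, fun h => by omega⟩
  · intro A _ j y
    have hev : Ψ.eval₂ (Polynomial.eval₂RingHom (Int.castRingHom A) j) y
        = ∑ s ∈ (Finset.range n ×ˢ Finset.range m).filter (fun s => ψ s ≠ 0),
            (ψ s : A) * y ^ s.1 * j ^ s.2 := by
      rw [mpd90_eval₂_double Ψ j y n m (Nat.lt_succ_self _) ?_]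
      · symm
        apply Finset.sum_filter_of_ne
        intro s _ hs hzero
        apply hs
        rw [hzero]; simp
      · intro a
        by_cases ha : a ∈ Finset.range n
        · exact Nat.lt_succ_of_le (Finset.le_sup (f := fun a => (Ψ.coeff a).natDegree) ha)
        · have : Ψ.coeff a = 0 := by
            apply coeff_eq_zero_of_natDegree_lt
            have := Finset.mem_range.not.mp ha
            omega
          rw [this, natDegree_zero]
          exact Nat.succ_pos _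
    conv_lhs => rw [hΨ]
    rw [eval₂_add, eval₂_mul, eval₂_mul, eval₂_sub, eval₂_sub, eval₂_X, eval₂_pow, eval₂_X,
      eval₂_C, eval₂_C, eval₂_C, hev]
    simp only [coe_eval₂RingHom, eval₂_X, eval₂_pow, eval₂_natCast, eq_intCast,
      Int.cast_natCast]

section Principal

variable {R F : Type*} [CommRing R] [Field F] [Algebra R F]

/-- From `z * c = t * q` to `z * c = t' * π` when `q = u π` with `u` a unit of `R`. -/
theorem mci8_q_to_pi (π u u' : R) (huu' : u * u' = 1) (q : ℕ) (hqπ : (q : R) = u * π)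
    (B : Subalgebra R F) (n : Ideal B) (z c t : B) (ht : t ∉ n) (h : z * c = t * (q : B)) :
    ∃ t' : B, t' ∉ n ∧ z * c = t' * algebraMap R B π := by
  refine ⟨t * algebraMap R B u, ?_, ?_⟩
  · intro hmem
    apply ht
    have h1 : t * algebraMap R B u * algebraMap R B u' = t := by
      rw [mul_assoc, ← map_mul, huu', map_one, mul_one]
    rw [← h1]
    exact n.mul_mem_right _ hmem
  · rw [h]
    have : (q : B) = algebraMap R B u * algebraMap R B π := by
      rw [← map_mul, ← hqπ, map_natCast]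
    rw [this]; ring

/-- **Principality with a separator** (the `k = 0` form of `tl71_dvd_of_sat` at a one-branch
point of `C₂`): `B ⊆ V₁ ⊓ V₂ ⊓ V₃` saturated, `n` a prime not on `C₁`, `C₃` (separator `sep ∉ n`,
`π⁻¹ sep ∈ V₁ ⊓ V₃`), `z` dividing `π` at `n` (`z c = t π`, `t ∉ n`).  Then every `x ∈ B` with
`x / z ∈ V₂` is a multiple of `z` at `n`. -/
theorem mci8_principal (π : R) (B : Subalgebra R F) (V₁ V₂ V₃ : Subring F)
    (hB₁ : ∀ x ∈ B, x ∈ V₁) (hB₃ : ∀ x ∈ B, x ∈ V₃)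
    (hsat : ∀ x ∈ B, (algebraMap R F π)⁻¹ * x ∈ V₁ → (algebraMap R F π)⁻¹ * x ∈ V₂ →
      (algebraMap R F π)⁻¹ * x ∈ V₃ → (algebraMap R F π)⁻¹ * x ∈ B)
    (hπ0 : algebraMap R F π ≠ 0) (n : Ideal B) [hn : n.IsPrime]
    (z c t : B) (ht : t ∉ n) (hzc : z * c = t * algebraMap R B π)
    (sep : B) (hsep : sep ∉ n) (hsep₁ : (algebraMap R F π)⁻¹ * (sep : F) ∈ V₁)
    (hsep₃ : (algebraMap R F π)⁻¹ * (sep : F) ∈ V₃) (ht₂ : (t : F) ∈ V₂) (hsep₂ : (sep : F) ∈ V₂)
    (x : B) (hx : (x : F) * (z : F)⁻¹ ∈ V₂) :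
    ∃ t' b : B, t' ∉ n ∧ t' * x = b * z := by
  have hzcF : (z : F) * (c : F) = (t : F) * algebraMap R F π := by
    have := congrArg (fun y : B => (y : F)) hzc
    simpa using this
  have ht0 : (t : F) ≠ 0 := mc8_coe_ne_zero B n t ht
  have hz0 : (z : F) ≠ 0 := by
    intro h
    rw [h, zero_mul] at hzcF
    exact (mul_ne_zero ht0 hπ0) hzcF.symm
  have hc : (c : F) = (t : F) * algebraMap R F π * (z : F)⁻¹ := by
    field_simp
    linear_combination hzcF
  have hy0B : (sep : F) * (x : F) * (c : F) ∈ B := B.mul_mem (B.mul_mem sep.2 x.2) c.2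
  have h1 : (algebraMap R F π)⁻¹ * ((sep : F) * (x : F) * (c : F)) ∈ V₁ := by
    have : (algebraMap R F π)⁻¹ * ((sep : F) * (x : F) * (c : F))
        = ((algebraMap R F π)⁻¹ * (sep : F)) * ((x : F) * (c : F)) := by ring
    rw [this]
    exact V₁.mul_mem hsep₁ (V₁.mul_mem (hB₁ _ x.2) (hB₁ _ c.2))
  have h3 : (algebraMap R F π)⁻¹ * ((sep : F) * (x : F) * (c : F)) ∈ V₃ := by
    have : (algebraMap R F π)⁻¹ * ((sep : F) * (x : F) * (c : F))
        = ((algebraMap R F π)⁻¹ * (sep : F)) * ((x : F) * (c : F)) := by ring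
    rw [this]
    exact V₃.mul_mem hsep₃ (V₃.mul_mem (hB₃ _ x.2) (hB₃ _ c.2))
  have h2 : (algebraMap R F π)⁻¹ * ((sep : F) * (x : F) * (c : F)) ∈ V₂ := by
    have : (algebraMap R F π)⁻¹ * ((sep : F) * (x : F) * (c : F))
        = (sep : F) * (t : F) * ((x : F) * (z : F)⁻¹) := by
      rw [hc]; field_simp
    rw [this]
    exact V₂.mul_mem (V₂.mul_mem hsep₂ ht₂) hx
  refine ⟨sep * t, ⟨_, hsat _ hy0B h1 h2 h3⟩, fun h => (hn.mem_or_mem h).elim hsep ht,
    Subtype.ext ?_⟩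
  show (sep : F) * (t : F) * (x : F)
    = (algebraMap R F π)⁻¹ * ((sep : F) * (x : F) * (c : F)) * (z : F)
  rw [hc]; field_simp

end Principal

section FunField

variable (K : Type) [Field K] (M q : ℕ)

/-- **The two Kronecker relations in `F(M)_K`** (`a = J`, `b = J_q`, `a₃ = J_{q²}`), in the sum
shape of `mc8_chart`, with one pair `(S, ψ)` for both. -/
theorem mci8_rels (hq : q.Prime) :
    ∃ (S : Finset (ℕ × ℕ)) (ψ : ℕ × ℕ → ℤ),
      (∀ s ∈ S, s.1 ≤ q ∧ s.2 ≤ q + 1 ∧ q * s.1 + s.2 ≤ q * q + q ∧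
        (q * s.1 + s.2 = q * q + q → s.2 = q)) ∧
      ∀ (a b a₃ : ↥(modularFunctionFieldFullC K M)), (a : LaurentSeries K) = JdC K 1 → (b : LaurentSeries K) = JdC K q →
        (a₃ : LaurentSeries K) = JdC K (q * q) →
        ((b - a ^ q) * (b ^ q - a) + q * ∑ s ∈ S, (ψ s : ↥(modularFunctionFieldFullC K M)) * b ^ s.1 * a ^ s.2 = 0) ∧
        ((b - a₃ ^ q) * (b ^ q - a₃) + q * ∑ s ∈ S, (ψ s : ↥(modularFunctionFieldFullC K M)) * b ^ s.1 * a₃ ^ s.2 = 0) := by
  obtain ⟨Φ, S, ψ, h1, h2, hS, hev⟩ := mci8_kron_data.{0} q hq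
  refine ⟨S, ψ, hS, ?_⟩
  intro a b a₃ ha hb ha₃
  have haev : ∀ x : ↥(modularFunctionFieldFullC K M), ((Polynomial.aeval x : Polynomial ℤ →ₐ[ℤ] ↥(modularFunctionFieldFullC K M)) : Polynomial ℤ →+* ↥(modularFunctionFieldFullC K M))
      = Polynomial.eval₂RingHom (Int.castRingHom ↥(modularFunctionFieldFullC K M)) x := fun x =>
    Polynomial.ringHom_ext' (RingHom.ext_int _ _) (by simp)
  constructor
  · have r := mps78_rel_fullC q hq.ne_zero Φ h1 K M 1 one_ne_zero a b ha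
      (by rw [one_mul]; exact hb)
    rw [haev, hev] at r
    exact r
  · have r := mps78_rel_fullC_swap q hq.ne_zero Φ h2 K M q hq.ne_zero b a₃ hb ha₃
    rw [haev, hev] at r
    exact r

/-- **The middle cusp in `F(M)_K`, `q² ∣ M`**: at a cuspidal prime `n` of an integrally closed
chart `B` containing the centre of `V₂` (`J` a unit of `V₂`, `J_q ≡ J^q` on `V₂`), the chart
element `z = t_s (J / J_{q²} - 1)` divides `q`. -/
theorem mci8_midcusp {R : Type*} [CommRing R] [Algebra R ↥(modularFunctionFieldFullC K M)] (hq : q.Prime)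
    (a b a₃ : ↥(modularFunctionFieldFullC K M)) (ha : (a : LaurentSeries K) = JdC K 1) (hb : (b : LaurentSeries K) = JdC K q)
    (ha₃ : (a₃ : LaurentSeries K) = JdC K (q * q)) (ha₃0 : a₃ ≠ 0) (hne : a₃ ≠ a)
    (B : Subalgebra R ↥(modularFunctionFieldFullC K M)) (hBcl : ∀ x : ↥(modularFunctionFieldFullC K M), IsIntegral B x → x ∈ B)
    (n : Ideal B) [hn : n.IsPrime] (a₀ c₀ : B) (ha₀ : a₀ ∈ n) (hc₀ : c₀ ∉ n)
    (hcusp : a * (a₀ : ↥(modularFunctionFieldFullC K M)) = (c₀ : ↥(modularFunctionFieldFullC K M)))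
    (V₂ : ValuationSubring ↥(modularFunctionFieldFullC K M)) (hBV₂ : ∀ x ∈ B, x ∈ V₂)
    (hc₂ : ∀ x : B, V₂.valuation (x : ↥(modularFunctionFieldFullC K M)) < 1 → x ∈ n)
    (ha₂ : V₂.valuation a = 1) (hkron : V₂.valuation (b - a ^ q) < 1) :
    ∃ z c t ts : B, t ∉ n ∧ ts ∉ n ∧ (z : ↥(modularFunctionFieldFullC K M)) * a₃ = (ts : ↥(modularFunctionFieldFullC K M)) * (a - a₃) ∧
      z * c = t * (q : B) := by
  obtain ⟨S, ψ, hS, hrel⟩ := mci8_rels K M q hq
  obtain ⟨r1, r3⟩ := hrel a b a₃ ha hb ha₃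
  exact mc8_chart B hBcl n q hq.two_le S ψ hS a b a₃ ha₃0 hne a₀ c₀ ha₀ hc₀ hcusp r1 r3 V₂ hBV₂
    hc₂ ha₂ hkron

/-- **Local structure at a cusp of `C₂`**: with the saturation of the chart in `V₁ ⊓ V₂ ⊓ V₃`, a
separator for `C₁`, `C₃`, and `J_{q²} - J` a uniformiser of `V₂`: there is `z ∈ n` such that every
`x ∈ B` in the centre of `V₂` is a multiple of `z` at `n` (`p₂ B_n = z B_n`). -/
theorem mci8_midcusp_principal {R : Type*} [CommRing R] [Algebra R ↥(modularFunctionFieldFullC K M)] (hq : q.Prime)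
    (π u u' : R) (huu' : u * u' = 1) (hqπ : (q : R) = u * π)
    (hπ0 : algebraMap R ↥(modularFunctionFieldFullC K M) π ≠ 0)
    (a b a₃ : ↥(modularFunctionFieldFullC K M)) (ha : (a : LaurentSeries K) = JdC K 1) (hb : (b : LaurentSeries K) = JdC K q)
    (ha₃ : (a₃ : LaurentSeries K) = JdC K (q * q)) (ha₃0 : a₃ ≠ 0) (hne : a₃ ≠ a)
    (B : Subalgebra R ↥(modularFunctionFieldFullC K M)) (hBcl : ∀ x : ↥(modularFunctionFieldFullC K M), IsIntegral B x → x ∈ B)
    (n : Ideal B) [hn : n.IsPrime] (a₀ c₀ : B) (ha₀ : a₀ ∈ n) (hc₀ : c₀ ∉ n)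
    (hcusp : a * (a₀ : ↥(modularFunctionFieldFullC K M)) = (c₀ : ↥(modularFunctionFieldFullC K M)))
    (V₁ V₃ : Subring ↥(modularFunctionFieldFullC K M)) (V₂ : ValuationSubring ↥(modularFunctionFieldFullC K M))
    (hB₁ : ∀ x ∈ B, x ∈ V₁) (hBV₂ : ∀ x ∈ B, x ∈ V₂) (hB₃ : ∀ x ∈ B, x ∈ V₃)
    (hsat : ∀ x ∈ B, (algebraMap R ↥(modularFunctionFieldFullC K M) π)⁻¹ * x ∈ V₁ → (algebraMap R ↥(modularFunctionFieldFullC K M) π)⁻¹ * x ∈ V₂ →
      (algebraMap R ↥(modularFunctionFieldFullC K M) π)⁻¹ * x ∈ V₃ → (algebraMap R ↥(modularFunctionFieldFullC K M) π)⁻¹ * x ∈ B)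
    (hc₂ : ∀ x : B, V₂.valuation (x : ↥(modularFunctionFieldFullC K M)) < 1 → x ∈ n)
    (ha₂ : V₂.valuation a = 1) (ha₃₂ : V₂.valuation a₃ = 1)
    (hkron : V₂.valuation (b - a ^ q) < 1)
    (hred : V₂.valuation (a₃ - a) < 1)
    (huni : ∀ x : ↥(modularFunctionFieldFullC K M), V₂.valuation x < 1 → x * (a₃ - a)⁻¹ ∈ V₂)
    (sep : B) (hsep : sep ∉ n) (hsep₁ : (algebraMap R ↥(modularFunctionFieldFullC K M) π)⁻¹ * (sep : ↥(modularFunctionFieldFullC K M)) ∈ V₁)
    (hsep₃ : (algebraMap R ↥(modularFunctionFieldFullC K M) π)⁻¹ * (sep : ↥(modularFunctionFieldFullC K M)) ∈ V₃) :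
    ∃ z : B, z ∈ n ∧ ∀ x : B, V₂.valuation (x : ↥(modularFunctionFieldFullC K M)) < 1 →
      ∃ t' b' : B, t' ∉ n ∧ t' * x = b' * z := by
  obtain ⟨z, c, t, ts, ht, hts, hz, hzc⟩ := mci8_midcusp K M q hq a b a₃ ha hb ha₃ ha₃0 hne B
    hBcl n a₀ c₀ ha₀ hc₀ hcusp V₂ hBV₂ hc₂ ha₂ hkron
  obtain ⟨t', ht', hzc'⟩ := mci8_q_to_pi π u u' huu' q hqπ B n z c t ht hzc
  have hval_unit : ∀ y : B, y ∉ n → V₂.valuation (y : ↥(modularFunctionFieldFullC K M)) = 1 := by
    intro y hy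
    have h1 : V₂.valuation (y : ↥(modularFunctionFieldFullC K M)) ≤ 1 := (V₂.valuation_le_one_iff _).mpr (hBV₂ _ y.2)
    exact le_antisymm h1 (not_lt.mp fun h => hy (hc₂ y h))
  have hts1 : V₂.valuation (ts : ↥(modularFunctionFieldFullC K M)) = 1 := hval_unit ts hts
  have hsub : V₂.valuation (a - a₃) = V₂.valuation (a₃ - a) := by
    rw [← neg_sub, Valuation.map_neg]
  have hzval : V₂.valuation (z : ↥(modularFunctionFieldFullC K M)) = V₂.valuation (a₃ - a) := by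
    have := congrArg V₂.valuation hz
    rw [map_mul, map_mul, ha₃₂, mul_one, hts1, one_mul, hsub] at this
    exact this
  refine ⟨z, hc₂ z (by rw [hzval]; exact hred), ?_⟩
  intro x hx
  have hne' : a₃ - a ≠ 0 := sub_ne_zero.mpr hne
  have hts0 : (ts : ↥(modularFunctionFieldFullC K M)) ≠ 0 := mc8_coe_ne_zero B n ts hts
  have hxz : (x : ↥(modularFunctionFieldFullC K M)) * (z : ↥(modularFunctionFieldFullC K M))⁻¹ ∈ V₂ := by
    have hzeq : (z : ↥(modularFunctionFieldFullC K M)) = (ts : ↥(modularFunctionFieldFullC K M)) * (a - a₃) * a₃⁻¹ := by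
      field_simp
      linear_combination hz
    have : (x : ↥(modularFunctionFieldFullC K M)) * (z : ↥(modularFunctionFieldFullC K M))⁻¹ = -(((x : ↥(modularFunctionFieldFullC K M)) * (a₃ - a)⁻¹) * a₃ * (ts : ↥(modularFunctionFieldFullC K M))⁻¹) := by
      rw [hzeq]
      have h1 : a - a₃ ≠ 0 := sub_ne_zero.mpr (Ne.symm hne)
      field_simp
      ring
    rw [this]
    refine V₂.neg_mem _ (V₂.mul_mem _ _ (V₂.mul_mem _ _ (huni _ hx) ?_) ?_)
    · exact (V₂.valuation_le_one_iff _).mp (le_of_eq ha₃₂)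
    · refine (V₂.valuation_le_one_iff _).mp (le_of_eq ?_)
      rw [map_inv₀, hts1, inv_one]
  exact mci8_principal π B V₁ V₂.toSubring V₃ hB₁ hB₃ hsat hπ0 n z c t' ht' hzc' sep hsep hsep₁
    hsep₃ (hBV₂ _ t'.2) (hBV₂ _ sep.2) x hxz

end FunField

end Fermat.Agent.S36
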