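import Fermat.Agent.S34.CuspInst22
import Fermat.Agent.S36.SmoothThree7
import Fermat.Agent.S36.MidCuspInst8
import Fermat.Agent.S36.MidCuspGen25

/-!
# S36 lab (helper25), row C-midcusp: the cusps of `C₂` in the frame of level `M' q²`

Conventions of `SmoothThree7` (helper7): level `M' * q * q`, `V₁ = cm85_Vinf (M' * q * q) hπ`,
and the middle valuation `V₂` a PARAMETER with the four facts of row B1-V2
(`hV₂`, `hπ₂`, `hne`, `hs`), `s = j(Q^(q²)) - j(Q)` (`hsc`; `v2g64_s` satisfies it by `rfl`).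

* `mc25_prinAt_cusp_sq` : at a prime `n` of an integrally closed saturated chart `B` which is
  cuspidal (`j * a₀ = c₀`, `a₀ ∈ n`, `c₀ ∉ n`: the second alternative of `ci22_dich_level2/3(_inv)`)
  and lies on `C₂` only, the middle branch is principal: `mc25_MidPrinAt s B V₂ n`.
* `mc25_hD2_sq` : hence the hypothesis `hD₂` of `mc25_twoGen` at ALL points of `C₂` only, from the
  chart dichotomy and the same statement at the points where `j` is regular (row C-C2).
-/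

set_option autoImplicit false
set_option linter.unusedSectionVars false
set_option linter.style.haveILetI false

open ModularCurve AlgebraicCurve

namespace Fermat.Agent.S36

open Fermat.Agent.S18 Fermat.Agent.S24 Fermat.Agent.S28 Fermat.Agent.S34
open Fermat.Agent.S36.TripleLoc71

section mc25_frame

variable {R K : Type} [CommRing R] [IsDomain R] [IsDiscreteValuationRing R] [Field K]
  [CharZero K] [Algebra R K] [IsFractionRing R K] [Algebra K Kbar] [Algebra.IsAlgebraic K Kbar]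
  (M' q : ℕ) [NeZero M'] [NeZero q] (hq : q.Prime) (hM' : ¬ q ∣ M')
  [Algebra R ↥(modularFunctionFieldFullC K M')]
  [IsScalarTower R K ↥(modularFunctionFieldFullC K M')]
  [Algebra R ↥(modularFunctionFieldFullC K (M' * q))]
  [IsScalarTower R K ↥(modularFunctionFieldFullC K (M' * q))]
  [Algebra R ↥(modularFunctionFieldFullC K (M' * q * q))]
  [IsScalarTower R K ↥(modularFunctionFieldFullC K (M' * q * q))]

include hq hM' in
/-- **The middle branch is principal at every cuspidal point of `C₂` only** (level `M' q²`). -/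
theorem mc25_prinAt_cusp_sq {π : R} (hπ : Irreducible π) (hqR : ¬ IsUnit (q : R))
    (u u' : R) (huu' : u * u' = 1) (hqπ : (q : R) = u * π)
    (V₂ : ValuationSubring ↥(modularFunctionFieldFullC K (M' * q * q)))
    (hV₂ : ∀ c ∈ cm85_Vinf (K := K) (M' * q) hπ,
      cm15_incl K (M' * q) (M' * q * q) (dvd_mul_right (M' * q) q) c ∈ V₂)
    (hπ₂ : (algebraMap R ↥(modularFunctionFieldFullC K (M' * q * q)) π)⁻¹ ∉ V₂)
    (hne : cm85_Vinf (K := K) (M' * q * q) hπ ≠ V₂)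
    (s : ↥(modularFunctionFieldFullC K (M' * q * q)))
    (hs : V₂.valuation s ^ (q - 1) =
      V₂.valuation (algebraMap R ↥(modularFunctionFieldFullC K (M' * q * q)) π))
    (hsc : (s : LaurentSeries K) = qExpand K q (qExpand K q (jqModC K)) - jqModC K)
    (V₁ V₃ : Subring ↥(modularFunctionFieldFullC K (M' * q * q)))
    (B : Subalgebra R ↥(modularFunctionFieldFullC K (M' * q * q)))
    (hBcl : ∀ x : ↥(modularFunctionFieldFullC K (M' * q * q)), IsIntegral B x → x ∈ B)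
    (hB₁ : ∀ x ∈ B, x ∈ V₁) (hB₂ : ∀ x ∈ B, x ∈ V₂) (hB₃ : ∀ x ∈ B, x ∈ V₃)
    (hsat : ∀ x ∈ B,
      (algebraMap R ↥(modularFunctionFieldFullC K (M' * q * q)) π)⁻¹ * x ∈ V₁ →
      (algebraMap R ↥(modularFunctionFieldFullC K (M' * q * q)) π)⁻¹ * x ∈ V₂.toSubring →
      (algebraMap R ↥(modularFunctionFieldFullC K (M' * q * q)) π)⁻¹ * x ∈ V₃ →
      (algebraMap R ↥(modularFunctionFieldFullC K (M' * q * q)) π)⁻¹ * x ∈ B)
    (n : Ideal B) [hn : n.IsPrime]
    (h2 : tl71_OnMid s B V₂.toSubring n)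
    (h1 : ¬ sf79_OnBr π B V₁ n) (h3 : ¬ sf79_OnBr π B V₃ n)
    (a₀ c₀ : B) (ha₀ : a₀ ∈ n) (hc₀ : c₀ ∉ n)
    (hcusp : rm90_j K (M' * q * q) * (a₀ : ↥(modularFunctionFieldFullC K (M' * q * q))) =
      (c₀ : ↥(modularFunctionFieldFullC K (M' * q * q)))) :
    mc25_MidPrinAt s B V₂.toSubring n := by
  haveI : NeZero (q * q) := ⟨mul_ne_zero hq.ne_zero hq.ne_zero⟩
  obtain ⟨f1, f2, f3, f4, f5⟩ := sm7_mid_facts (R := R) (K := K) M' q hq hM' hπ hqR V₂ hV₂ hπ₂
    hne s hs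
  have hπ0 : algebraMap R ↥(modularFunctionFieldFullC K (M' * q * q)) π ≠ 0 := by
    intro h0
    apply hπ₂
    rw [h0, inv_zero]
    exact V₂.zero_mem
  have hs0 : s ≠ 0 := by
    rintro rfl
    apply f2
    rw [inv_zero]
    exact V₂.zero_mem
  have hsV : s ∈ V₂ := (V₂.mem_or_inv_mem s).resolve_right f2
  have hsval : V₂.valuation s < 1 :=
    ci22_val_lt_one V₂ s s hsV f2 (by rw [inv_mul_cancel₀ hs0]; exact V₂.one_mem)
  -- the three `j`-functions
  set a : ↥(modularFunctionFieldFullC K (M' * q * q)) := rm90_j K (M' * q * q) with ha_def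
  set b : ↥(modularFunctionFieldFullC K (M' * q * q)) :=
    ci22_y K (M' * q * q) q (dvd_mul_left q (M' * q)) with hb_def
  have ha : (a : LaurentSeries K) = JdC K 1 := by rw [JdC_one]; rfl
  have hb : (b : LaurentSeries K) = JdC K q := by rw [JdC_of_neZero]; rfl
  have ha₃ : ((s + a : ↥(modularFunctionFieldFullC K (M' * q * q))) : LaurentSeries K)
      = JdC K (q * q) := by
    rw [JdC_of_neZero, ← qExpand_qExpand]
    have : ((s + a : ↥(modularFunctionFieldFullC K (M' * q * q))) : LaurentSeries K)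
        = (s : LaurentSeries K) + (a : LaurentSeries K) := rfl
    rw [this, hsc]
    show qExpand K q (qExpand K q (jqModC K)) - jqModC K + jqModC K = _
    ring
  obtain ⟨S, ψ, hS, hrel⟩ := mci8_rels K (M' * q * q) q hq
  obtain ⟨r1, r3⟩ := hrel a b (s + a) ha hb ha₃
  -- `V₂`-facts
  have hV₂σ : ∀ x : ↥(modularFunctionFieldFullC K (M' * q * q)), V₂.valuation x < 1 →
      x * s⁻¹ ∈ V₂ := by
    intro x hx
    by_cases hx0 : x = 0
    · rw [hx0, zero_mul]; exact V₂.zero_mem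
    have hxV : x ∈ V₂ := (V₂.valuation_le_one_iff x).mp hx.le
    have hxi : x⁻¹ ∉ V₂ := by
      intro hinv
      have := ci22_val_eq_one V₂ x hx0 hxV hinv
      rw [this] at hx
      exact lt_irrefl _ hx
    have e : x * s⁻¹ = s⁻¹ * x := mul_comm _ _
    rw [e]
    exact f3 x hxV hxi
  -- `j` is a unit of `V₂`
  have hincl_a : cm15_incl K (M' * q) (M' * q * q) (dvd_mul_right (M' * q) q)
      (rm90_j K (M' * q)) = a := Subtype.ext (by rw [cm15_incl_coe]; rfl)
  have haV : a ∈ V₂ := by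
    rw [← hincl_a]
    exact hV₂ _ (ci22_Vinf_j (K := K) (M' * q) hπ).1
  have haiV : a⁻¹ ∈ V₂ := by
    rw [← hincl_a, ← map_inv₀]
    exact hV₂ _ (ci22_Vinf_j (K := K) (M' * q) hπ).2
  have ha0 : a ≠ 0 := ci22_j_ne_zero K (M' * q * q)
  have ha₂ : V₂.valuation a = 1 := ci22_val_eq_one V₂ a ha0 haV haiV
  -- Kronecker along `V₂`
  have hincl_b : cm15_incl K (M' * q) (M' * q * q) (dvd_mul_right (M' * q) q)
      (ci22_y K (M' * q) q (dvd_mul_left q M')) = b := Subtype.ext (by rw [cm15_incl_coe]; rfl)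
  have hkron0 := hV₂ _ (ci22_Vinf_kron (K := K) (M' * q) q hπ hq hqR (dvd_mul_left q M'))
  have hkron1 : (algebraMap R ↥(modularFunctionFieldFullC K (M' * q * q)) π)⁻¹ * (a ^ q - b)
      ∈ V₂ := by
    have e : cm15_incl K (M' * q) (M' * q * q) (dvd_mul_right (M' * q) q)
        ((algebraMap R ↥(modularFunctionFieldFullC K (M' * q)) π)⁻¹ *
          (rm90_j K (M' * q) ^ q - ci22_y K (M' * q) q (dvd_mul_left q M')))
        = (algebraMap R ↥(modularFunctionFieldFullC K (M' * q * q)) π)⁻¹ * (a ^ q - b) := by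
      rw [map_mul, map_inv₀, map_sub, map_pow, hincl_a, hincl_b]
      congr 2
      rw [IsScalarTower.algebraMap_apply R K ↥(modularFunctionFieldFullC K (M' * q)),
        IsScalarTower.algebraMap_apply R K ↥(modularFunctionFieldFullC K (M' * q * q)),
        AlgHom.commutes]
    rw [← e]
    exact hkron0
  have hπV : algebraMap R ↥(modularFunctionFieldFullC K (M' * q * q)) π ∈ V₂ :=
    (V₂.mem_or_inv_mem _).resolve_right hπ₂
  have hkron : V₂.valuation (b - a ^ q) < 1 := by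
    rw [← neg_sub, Valuation.map_neg]
    exact ci22_val_lt_one V₂ _ _ hπV hπ₂ hkron1
  -- `a₃ = s + a`
  have hsub : s + a - a = s := by ring
  have hσ₂ : V₂.valuation (s + a - a) < 1 := by rw [hsub]; exact hsval
  have hσa : s * (s + a - a)⁻¹ ∈ V₂ := by
    rw [hsub, mul_inv_cancel₀ hs0]; exact V₂.one_mem
  have hva₃ : V₂.valuation (s + a) = 1 := by
    have h := Valuation.map_add_eq_of_lt_left (v := V₂.valuation) (x := a) (y := s)
      (by rw [ha₂]; exact hsval)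
    rw [ha₂, add_comm] at h
    exact h
  have ha₃0 : s + a ≠ 0 := by
    intro h0
    rw [h0, map_zero] at hva₃
    exact zero_ne_one hva₃
  have hne' : s + a ≠ a := by
    intro h
    apply hs0
    have : s = s + a - a := by ring
    rw [this, h, sub_self]
  exact mc25_prinAt_cusp π u u' huu' q hq.two_le hqπ B hBcl V₁ V₃ V₂ hB₁ hB₂ hB₃ hsat hπ0 s hs0
    hV₂σ n h2 h1 h3 S ψ hS a b (s + a) ha₃0 hne' a₀ c₀ ha₀ hc₀ hcusp r1 r3 ha₂ hkron hσ₂ hσa

include hq hM' in
/-- **`hD₂` of `mc25_twoGen` at all points of `C₂` only**, from the chart dichotomy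
(`j` regular at `n`, or `1/j ∈ n B_n`) and the statement at the points where `j` is regular
(row C-C2). -/
theorem mc25_hD2_sq {π : R} (hπ : Irreducible π) (hqR : ¬ IsUnit (q : R))
    (u u' : R) (huu' : u * u' = 1) (hqπ : (q : R) = u * π)
    (V₂ : ValuationSubring ↥(modularFunctionFieldFullC K (M' * q * q)))
    (hV₂ : ∀ c ∈ cm85_Vinf (K := K) (M' * q) hπ,
      cm15_incl K (M' * q) (M' * q * q) (dvd_mul_right (M' * q) q) c ∈ V₂)
    (hπ₂ : (algebraMap R ↥(modularFunctionFieldFullC K (M' * q * q)) π)⁻¹ ∉ V₂)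
    (hne : cm85_Vinf (K := K) (M' * q * q) hπ ≠ V₂)
    (s : ↥(modularFunctionFieldFullC K (M' * q * q)))
    (hs : V₂.valuation s ^ (q - 1) =
      V₂.valuation (algebraMap R ↥(modularFunctionFieldFullC K (M' * q * q)) π))
    (hsc : (s : LaurentSeries K) = qExpand K q (qExpand K q (jqModC K)) - jqModC K)
    (V₁ V₃ : Subring ↥(modularFunctionFieldFullC K (M' * q * q)))
    (B : Subalgebra R ↥(modularFunctionFieldFullC K (M' * q * q)))
    (hBcl : ∀ x : ↥(modularFunctionFieldFullC K (M' * q * q)), IsIntegral B x → x ∈ B)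
    (hdich : ∀ n : Ideal B, n.IsPrime →
      (∃ s' b : B, s' ∉ n ∧ (s' : ↥(modularFunctionFieldFullC K (M' * q * q))) * rm90_j K (M' * q * q) = (b : ↥(modularFunctionFieldFullC K (M' * q * q)))) ∨
      (∃ a₀ c₀ : B, a₀ ∈ n ∧ c₀ ∉ n ∧
        rm90_j K (M' * q * q) * (a₀ : ↥(modularFunctionFieldFullC K (M' * q * q))) = (c₀ : ↥(modularFunctionFieldFullC K (M' * q * q)))))
    (hB₁ : ∀ x ∈ B, x ∈ V₁) (hB₂ : ∀ x ∈ B, x ∈ V₂) (hB₃ : ∀ x ∈ B, x ∈ V₃)
    (hsat : ∀ x ∈ B,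
      (algebraMap R ↥(modularFunctionFieldFullC K (M' * q * q)) π)⁻¹ * x ∈ V₁ →
      (algebraMap R ↥(modularFunctionFieldFullC K (M' * q * q)) π)⁻¹ * x ∈ V₂.toSubring →
      (algebraMap R ↥(modularFunctionFieldFullC K (M' * q * q)) π)⁻¹ * x ∈ V₃ →
      (algebraMap R ↥(modularFunctionFieldFullC K (M' * q * q)) π)⁻¹ * x ∈ B)
    (hreg : ∀ n : Ideal ↥(B), n.IsMaximal → algebraMap R ↥(B) π ∈ n →
      tl71_OnMid s (B) V₂.toSubring n → ¬ sf79_OnBr π (B) V₁ n → ¬ sf79_OnBr π (B) V₃ n →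
      (∃ s' b : ↥(B), s' ∉ n ∧ (s' : ↥(modularFunctionFieldFullC K (M' * q * q))) * rm90_j K (M' * q * q) = (b : ↥(modularFunctionFieldFullC K (M' * q * q)))) →
      mc25_MidPrinAt s (B) V₂.toSubring n) :
    ∀ n : Ideal ↥(B), n.IsMaximal → algebraMap R ↥(B) π ∈ n →
      tl71_OnMid s (B) V₂.toSubring n → ¬ sf79_OnBr π (B) V₁ n → ¬ sf79_OnBr π (B) V₃ n →
      mc25_MidPrinAt s (B) V₂.toSubring n := by
  intro n hn hπn h2 h1 h3
  haveI : n.IsPrime := hn.isPrime
  rcases hdich n hn.isPrime with hr | ⟨a₀, c₀, ha₀, hc₀, hcusp⟩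
  · exact hreg n hn hπn h2 h1 h3 hr
  · exact mc25_prinAt_cusp_sq (R := R) (K := K) M' q hq hM' hπ hqR u u' huu' hqπ V₂ hV₂ hπ₂ hne s
      hs hsc V₁ V₃ B hBcl hB₁ hB₂ hB₃ hsat n h2 h1 h3 a₀ c₀ ha₀ hc₀ hcusp

include hq hM' in
/-- **Level 2, chart `{h}`.** -/
theorem mc25_hD2_level2 {π : R} (hπ : Irreducible π) (hqR : ¬ IsUnit (q : R))
    (h2 : 2 ∣ M') (h2u : IsUnit (2 : R))
    (u u' : R) (huu' : u * u' = 1) (hqπ : (q : R) = u * π)
    (V₂ : ValuationSubring ↥(modularFunctionFieldFullC K (M' * q * q)))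
    (hV₂ : ∀ c ∈ cm85_Vinf (K := K) (M' * q) hπ,
      cm15_incl K (M' * q) (M' * q * q) (dvd_mul_right (M' * q) q) c ∈ V₂)
    (hπ₂ : (algebraMap R ↥(modularFunctionFieldFullC K (M' * q * q)) π)⁻¹ ∉ V₂)
    (hne : cm85_Vinf (K := K) (M' * q * q) hπ ≠ V₂)
    (s : ↥(modularFunctionFieldFullC K (M' * q * q)))
    (hs : V₂.valuation s ^ (q - 1) =
      V₂.valuation (algebraMap R ↥(modularFunctionFieldFullC K (M' * q * q)) π))
    (hsc : (s : LaurentSeries K) = qExpand K q (qExpand K q (jqModC K)) - jqModC K)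
    (V₁ V₃ : Subring ↥(modularFunctionFieldFullC K (M' * q * q)))
    (hB₁ : ∀ x ∈ pk15_chart R ({pk85_h2 K (M' * q * q) (h2.trans ((dvd_mul_right M' q).trans (dvd_mul_right (M' * q) q)))} : Set ↥(modularFunctionFieldFullC K (M' * q * q))), x ∈ V₁) (hB₂ : ∀ x ∈ pk15_chart R ({pk85_h2 K (M' * q * q) (h2.trans ((dvd_mul_right M' q).trans (dvd_mul_right (M' * q) q)))} : Set ↥(modularFunctionFieldFullC K (M' * q * q))), x ∈ V₂) (hB₃ : ∀ x ∈ pk15_chart R ({pk85_h2 K (M' * q * q) (h2.trans ((dvd_mul_right M' q).trans (dvd_mul_right (M' * q) q)))} : Set ↥(modularFunctionFieldFullC K (M' * q * q))), x ∈ V₃)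
    (hsat : ∀ x ∈ pk15_chart R ({pk85_h2 K (M' * q * q) (h2.trans ((dvd_mul_right M' q).trans (dvd_mul_right (M' * q) q)))} : Set ↥(modularFunctionFieldFullC K (M' * q * q))),
      (algebraMap R ↥(modularFunctionFieldFullC K (M' * q * q)) π)⁻¹ * x ∈ V₁ →
      (algebraMap R ↥(modularFunctionFieldFullC K (M' * q * q)) π)⁻¹ * x ∈ V₂.toSubring →
      (algebraMap R ↥(modularFunctionFieldFullC K (M' * q * q)) π)⁻¹ * x ∈ V₃ →
      (algebraMap R ↥(modularFunctionFieldFullC K (M' * q * q)) π)⁻¹ * x ∈ pk15_chart R ({pk85_h2 K (M' * q * q) (h2.trans ((dvd_mul_right M' q).trans (dvd_mul_right (M' * q) q)))} : Set ↥(modularFunctionFieldFullC K (M' * q * q))))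
    (hreg : ∀ n : Ideal ↥(pk15_chart R ({pk85_h2 K (M' * q * q) (h2.trans ((dvd_mul_right M' q).trans (dvd_mul_right (M' * q) q)))} : Set ↥(modularFunctionFieldFullC K (M' * q * q)))), n.IsMaximal → algebraMap R ↥(pk15_chart R ({pk85_h2 K (M' * q * q) (h2.trans ((dvd_mul_right M' q).trans (dvd_mul_right (M' * q) q)))} : Set ↥(modularFunctionFieldFullC K (M' * q * q)))) π ∈ n →
      tl71_OnMid s (pk15_chart R ({pk85_h2 K (M' * q * q) (h2.trans ((dvd_mul_right M' q).trans (dvd_mul_right (M' * q) q)))} : Set ↥(modularFunctionFieldFullC K (M' * q * q)))) V₂.toSubring n → ¬ sf79_OnBr π (pk15_chart R ({pk85_h2 K (M' * q * q) (h2.trans ((dvd_mul_right M' q).trans (dvd_mul_right (M' * q) q)))} : Set ↥(modularFunctionFieldFullC K (M' * q * q)))) V₁ n → ¬ sf79_OnBr π (pk15_chart R ({pk85_h2 K (M' * q * q) (h2.trans ((dvd_mul_right M' q).trans (dvd_mul_right (M' * q) q)))} : Set ↥(modularFunctionFieldFullC K (M' * q * q)))) V₃ n →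
      (∃ s' b : ↥(pk15_chart R ({pk85_h2 K (M' * q * q) (h2.trans ((dvd_mul_right M' q).trans (dvd_mul_right (M' * q) q)))} : Set ↥(modularFunctionFieldFullC K (M' * q * q)))), s' ∉ n ∧ (s' : ↥(modularFunctionFieldFullC K (M' * q * q))) * rm90_j K (M' * q * q) = (b : ↥(modularFunctionFieldFullC K (M' * q * q)))) →
      mc25_MidPrinAt s (pk15_chart R ({pk85_h2 K (M' * q * q) (h2.trans ((dvd_mul_right M' q).trans (dvd_mul_right (M' * q) q)))} : Set ↥(modularFunctionFieldFullC K (M' * q * q)))) V₂.toSubring n) :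
    ∀ n : Ideal ↥(pk15_chart R ({pk85_h2 K (M' * q * q) (h2.trans ((dvd_mul_right M' q).trans (dvd_mul_right (M' * q) q)))} : Set ↥(modularFunctionFieldFullC K (M' * q * q)))), n.IsMaximal → algebraMap R ↥(pk15_chart R ({pk85_h2 K (M' * q * q) (h2.trans ((dvd_mul_right M' q).trans (dvd_mul_right (M' * q) q)))} : Set ↥(modularFunctionFieldFullC K (M' * q * q)))) π ∈ n →
      tl71_OnMid s (pk15_chart R ({pk85_h2 K (M' * q * q) (h2.trans ((dvd_mul_right M' q).trans (dvd_mul_right (M' * q) q)))} : Set ↥(modularFunctionFieldFullC K (M' * q * q)))) V₂.toSubring n → ¬ sf79_OnBr π (pk15_chart R ({pk85_h2 K (M' * q * q) (h2.trans ((dvd_mul_right M' q).trans (dvd_mul_right (M' * q) q)))} : Set ↥(modularFunctionFieldFullC K (M' * q * q)))) V₁ n → ¬ sf79_OnBr π (pk15_chart R ({pk85_h2 K (M' * q * q) (h2.trans ((dvd_mul_right M' q).trans (dvd_mul_right (M' * q) q)))} : Set ↥(modularFunctionFieldFullC K (M' * q * q)))) V₃ n →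
      mc25_MidPrinAt s (pk15_chart R ({pk85_h2 K (M' * q * q) (h2.trans ((dvd_mul_right M' q).trans (dvd_mul_right (M' * q) q)))} : Set ↥(modularFunctionFieldFullC K (M' * q * q)))) V₂.toSubring n :=
  mc25_hD2_sq (R := R) (K := K) M' q hq hM' hπ hqR u u' huu' hqπ V₂ hV₂ hπ₂ hne s hs hsc V₁ V₃ _
    (fun x hx => ci22_chart_closed _ x hx)
    (fun n hn => by
      haveI := hn
      exact ci22_dich_level2 (R := R) (K := K) (M' * q * q) (h2.trans ((dvd_mul_right M' q).trans (dvd_mul_right (M' * q) q))) h2u n)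
    hB₁ hB₂ hB₃ hsat hreg

include hq hM' in
/-- **Level 2, chart `{h⁻¹}`.** -/
theorem mc25_hD2_level2_inv {π : R} (hπ : Irreducible π) (hqR : ¬ IsUnit (q : R))
    (h2 : 2 ∣ M')
    (u u' : R) (huu' : u * u' = 1) (hqπ : (q : R) = u * π)
    (V₂ : ValuationSubring ↥(modularFunctionFieldFullC K (M' * q * q)))
    (hV₂ : ∀ c ∈ cm85_Vinf (K := K) (M' * q) hπ,
      cm15_incl K (M' * q) (M' * q * q) (dvd_mul_right (M' * q) q) c ∈ V₂)
    (hπ₂ : (algebraMap R ↥(modularFunctionFieldFullC K (M' * q * q)) π)⁻¹ ∉ V₂)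
    (hne : cm85_Vinf (K := K) (M' * q * q) hπ ≠ V₂)
    (s : ↥(modularFunctionFieldFullC K (M' * q * q)))
    (hs : V₂.valuation s ^ (q - 1) =
      V₂.valuation (algebraMap R ↥(modularFunctionFieldFullC K (M' * q * q)) π))
    (hsc : (s : LaurentSeries K) = qExpand K q (qExpand K q (jqModC K)) - jqModC K)
    (V₁ V₃ : Subring ↥(modularFunctionFieldFullC K (M' * q * q)))
    (hB₁ : ∀ x ∈ pk15_chart R ({(pk85_h2 K (M' * q * q) (h2.trans ((dvd_mul_right M' q).trans (dvd_mul_right (M' * q) q))))⁻¹} : Set ↥(modularFunctionFieldFullC K (M' * q * q))), x ∈ V₁) (hB₂ : ∀ x ∈ pk15_chart R ({(pk85_h2 K (M' * q * q) (h2.trans ((dvd_mul_right M' q).trans (dvd_mul_right (M' * q) q))))⁻¹} : Set ↥(modularFunctionFieldFullC K (M' * q * q))), x ∈ V₂) (hB₃ : ∀ x ∈ pk15_chart R ({(pk85_h2 K (M' * q * q) (h2.trans ((dvd_mul_right M' q).trans (dvd_mul_right (M' * q) q))))⁻¹} : Set ↥(modularFunctionFieldFullC K (M' * q * q))), x ∈ V₃)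
    (hsat : ∀ x ∈ pk15_chart R ({(pk85_h2 K (M' * q * q) (h2.trans ((dvd_mul_right M' q).trans (dvd_mul_right (M' * q) q))))⁻¹} : Set ↥(modularFunctionFieldFullC K (M' * q * q))),
      (algebraMap R ↥(modularFunctionFieldFullC K (M' * q * q)) π)⁻¹ * x ∈ V₁ →
      (algebraMap R ↥(modularFunctionFieldFullC K (M' * q * q)) π)⁻¹ * x ∈ V₂.toSubring →
      (algebraMap R ↥(modularFunctionFieldFullC K (M' * q * q)) π)⁻¹ * x ∈ V₃ →
      (algebraMap R ↥(modularFunctionFieldFullC K (M' * q * q)) π)⁻¹ * x ∈ pk15_chart R ({(pk85_h2 K (M' * q * q) (h2.trans ((dvd_mul_right M' q).trans (dvd_mul_right (M' * q) q))))⁻¹} : Set ↥(modularFunctionFieldFullC K (M' * q * q))))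
    (hreg : ∀ n : Ideal ↥(pk15_chart R ({(pk85_h2 K (M' * q * q) (h2.trans ((dvd_mul_right M' q).trans (dvd_mul_right (M' * q) q))))⁻¹} : Set ↥(modularFunctionFieldFullC K (M' * q * q)))), n.IsMaximal → algebraMap R ↥(pk15_chart R ({(pk85_h2 K (M' * q * q) (h2.trans ((dvd_mul_right M' q).trans (dvd_mul_right (M' * q) q))))⁻¹} : Set ↥(modularFunctionFieldFullC K (M' * q * q)))) π ∈ n →
      tl71_OnMid s (pk15_chart R ({(pk85_h2 K (M' * q * q) (h2.trans ((dvd_mul_right M' q).trans (dvd_mul_right (M' * q) q))))⁻¹} : Set ↥(modularFunctionFieldFullC K (M' * q * q)))) V₂.toSubring n → ¬ sf79_OnBr π (pk15_chart R ({(pk85_h2 K (M' * q * q) (h2.trans ((dvd_mul_right M' q).trans (dvd_mul_right (M' * q) q))))⁻¹} : Set ↥(modularFunctionFieldFullC K (M' * q * q)))) V₁ n → ¬ sf79_OnBr π (pk15_chart R ({(pk85_h2 K (M' * q * q) (h2.trans ((dvd_mul_right M' q).trans (dvd_mul_right (M' * q) q))))⁻¹} : Set ↥(modularFunctionFieldFullC K (M' *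 q * q)))) V₃ n →
      (∃ s' b : ↥(pk15_chart R ({(pk85_h2 K (M' * q * q) (h2.trans ((dvd_mul_right M' q).trans (dvd_mul_right (M' * q) q))))⁻¹} : Set ↥(modularFunctionFieldFullC K (M' * q * q)))), s' ∉ n ∧ (s' : ↥(modularFunctionFieldFullC K (M' * q * q))) * rm90_j K (M' * q * q) = (b : ↥(modularFunctionFieldFullC K (M' * q * q)))) →
      mc25_MidPrinAt s (pk15_chart R ({(pk85_h2 K (M' * q * q) (h2.trans ((dvd_mul_right M' q).trans (dvd_mul_right (M' * q) q))))⁻¹} : Set ↥(modularFunctionFieldFullC K (M' * q * q)))) V₂.toSubring n) :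
    ∀ n : Ideal ↥(pk15_chart R ({(pk85_h2 K (M' * q * q) (h2.trans ((dvd_mul_right M' q).trans (dvd_mul_right (M' * q) q))))⁻¹} : Set ↥(modularFunctionFieldFullC K (M' * q * q)))), n.IsMaximal → algebraMap R ↥(pk15_chart R ({(pk85_h2 K (M' * q * q) (h2.trans ((dvd_mul_right M' q).trans (dvd_mul_right (M' * q) q))))⁻¹} : Set ↥(modularFunctionFieldFullC K (M' * q * q)))) π ∈ n →
      tl71_OnMid s (pk15_chart R ({(pk85_h2 K (M' * q * q) (h2.trans ((dvd_mul_right M' q).trans (dvd_mul_right (M' * q) q))))⁻¹} : Set ↥(modularFunctionFieldFullC K (M' * q * q)))) V₂.toSubring n → ¬ sf79_OnBr π (pk15_chart R ({(pk85_h2 K (M' * q * q) (h2.trans ((dvd_mul_right M' q).trans (dvd_mul_right (M' * q) q))))⁻¹} : Set ↥(modularFunctionFieldFullC K (M' * q * q)))) V₁ n → ¬ sf79_OnBr π (pk15_chart R ({(pk85_h2 K (M' * q * q) (h2.trans ((dvd_mul_right M' q).trans (dvd_mul_right (M' * q) q))))⁻¹} : Set ↥(modularFunctionFieldFullC K (M' * q * q))))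 V₃ n →
      mc25_MidPrinAt s (pk15_chart R ({(pk85_h2 K (M' * q * q) (h2.trans ((dvd_mul_right M' q).trans (dvd_mul_right (M' * q) q))))⁻¹} : Set ↥(modularFunctionFieldFullC K (M' * q * q)))) V₂.toSubring n :=
  mc25_hD2_sq (R := R) (K := K) M' q hq hM' hπ hqR u u' huu' hqπ V₂ hV₂ hπ₂ hne s hs hsc V₁ V₃ _
    (fun x hx => ci22_chart_closed _ x hx)
    (fun n hn => by
      haveI := hn
      exact ci22_dich_level2_inv (R := R) (K := K) (M' * q * q) (h2.trans ((dvd_mul_right M' q).trans (dvd_mul_right (M' * q) q))) n)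
    hB₁ hB₂ hB₃ hsat hreg

include hq hM' in
/-- **Level 3, chart `{h}`.** -/
theorem mc25_hD2_level3 {π : R} (hπ : Irreducible π) (hqR : ¬ IsUnit (q : R))
    (h3 : 3 ∣ M') (h3u : IsUnit (3 : R))
    (u u' : R) (huu' : u * u' = 1) (hqπ : (q : R) = u * π)
    (V₂ : ValuationSubring ↥(modularFunctionFieldFullC K (M' * q * q)))
    (hV₂ : ∀ c ∈ cm85_Vinf (K := K) (M' * q) hπ,
      cm15_incl K (M' * q) (M' * q * q) (dvd_mul_right (M' * q) q) c ∈ V₂)
    (hπ₂ : (algebraMap R ↥(modularFunctionFieldFullC K (M' * q * q)) π)⁻¹ ∉ V₂)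
    (hne : cm85_Vinf (K := K) (M' * q * q) hπ ≠ V₂)
    (s : ↥(modularFunctionFieldFullC K (M' * q * q)))
    (hs : V₂.valuation s ^ (q - 1) =
      V₂.valuation (algebraMap R ↥(modularFunctionFieldFullC K (M' * q * q)) π))
    (hsc : (s : LaurentSeries K) = qExpand K q (qExpand K q (jqModC K)) - jqModC K)
    (V₁ V₃ : Subring ↥(modularFunctionFieldFullC K (M' * q * q)))
    (hB₁ : ∀ x ∈ pk15_chart R ({pk85_h3 K (M' * q * q) (h3.trans ((dvd_mul_right M' q).trans (dvd_mul_right (M' * q) q)))} : Set ↥(modularFunctionFieldFullC K (M' * q * q))), x ∈ V₁) (hB₂ : ∀ x ∈ pk15_chart R ({pk85_h3 K (M' * q * q) (h3.trans ((dvd_mul_right M' q).trans (dvd_mul_right (M' * q) q)))} : Set ↥(modularFunctionFieldFullC K (M' * q * q))), x ∈ V₂) (hB₃ : ∀ x ∈ pk15_chart R ({pk85_h3 K (M' * q * q) (h3.trans ((dvd_mul_right M' q).trans (dvd_mul_right (M' * q) q)))} : Set ↥(modularFunctionFieldFullC K (M' * q * q))), x ∈ V₃)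
    (hsat : ∀ x ∈ pk15_chart R ({pk85_h3 K (M' * q * q) (h3.trans ((dvd_mul_right M' q).trans (dvd_mul_right (M' * q) q)))} : Set ↥(modularFunctionFieldFullC K (M' * q * q))),
      (algebraMap R ↥(modularFunctionFieldFullC K (M' * q * q)) π)⁻¹ * x ∈ V₁ →
      (algebraMap R ↥(modularFunctionFieldFullC K (M' * q * q)) π)⁻¹ * x ∈ V₂.toSubring →
      (algebraMap R ↥(modularFunctionFieldFullC K (M' * q * q)) π)⁻¹ * x ∈ V₃ →
      (algebraMap R ↥(modularFunctionFieldFullC K (M' * q * q)) π)⁻¹ * x ∈ pk15_chart R ({pk85_h3 K (M' * q * q) (h3.trans ((dvd_mul_right M' q).trans (dvd_mul_right (M' * q) q)))} : Set ↥(modularFunctionFieldFullC K (M' * q * q))))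
    (hreg : ∀ n : Ideal ↥(pk15_chart R ({pk85_h3 K (M' * q * q) (h3.trans ((dvd_mul_right M' q).trans (dvd_mul_right (M' * q) q)))} : Set ↥(modularFunctionFieldFullC K (M' * q * q)))), n.IsMaximal → algebraMap R ↥(pk15_chart R ({pk85_h3 K (M' * q * q) (h3.trans ((dvd_mul_right M' q).trans (dvd_mul_right (M' * q) q)))} : Set ↥(modularFunctionFieldFullC K (M' * q * q)))) π ∈ n →
      tl71_OnMid s (pk15_chart R ({pk85_h3 K (M' * q * q) (h3.trans ((dvd_mul_right M' q).trans (dvd_mul_right (M' * q) q)))} : Set ↥(modularFunctionFieldFullC K (M' * q * q)))) V₂.toSubring n → ¬ sf79_OnBr π (pk15_chart R ({pk85_h3 K (M' * q * q) (h3.trans ((dvd_mul_right M' q).trans (dvd_mul_right (M' * q) q)))} : Set ↥(modularFunctionFieldFullC K (M' * q * q)))) V₁ n → ¬ sf79_OnBr π (pk15_chart R ({pk85_h3 K (M' * q * q) (h3.trans ((dvd_mul_right M' q).trans (dvd_mul_right (M' * q) q)))} : Set ↥(modularFunctionFieldFullC K (M' * q * q)))) V₃ n →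
      (∃ s' b : ↥(pk15_chart R ({pk85_h3 K (M' * q * q) (h3.trans ((dvd_mul_right M' q).trans (dvd_mul_right (M' * q) q)))} : Set ↥(modularFunctionFieldFullC K (M' * q * q)))), s' ∉ n ∧ (s' : ↥(modularFunctionFieldFullC K (M' * q * q))) * rm90_j K (M' * q * q) = (b : ↥(modularFunctionFieldFullC K (M' * q * q)))) →
      mc25_MidPrinAt s (pk15_chart R ({pk85_h3 K (M' * q * q) (h3.trans ((dvd_mul_right M' q).trans (dvd_mul_right (M' * q) q)))} : Set ↥(modularFunctionFieldFullC K (M' * q * q)))) V₂.toSubring n) :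
    ∀ n : Ideal ↥(pk15_chart R ({pk85_h3 K (M' * q * q) (h3.trans ((dvd_mul_right M' q).trans (dvd_mul_right (M' * q) q)))} : Set ↥(modularFunctionFieldFullC K (M' * q * q)))), n.IsMaximal → algebraMap R ↥(pk15_chart R ({pk85_h3 K (M' * q * q) (h3.trans ((dvd_mul_right M' q).trans (dvd_mul_right (M' * q) q)))} : Set ↥(modularFunctionFieldFullC K (M' * q * q)))) π ∈ n →
      tl71_OnMid s (pk15_chart R ({pk85_h3 K (M' * q * q) (h3.trans ((dvd_mul_right M' q).trans (dvd_mul_right (M' * q) q)))} : Set ↥(modularFunctionFieldFullC K (M' * q * q)))) V₂.toSubring n → ¬ sf79_OnBr π (pk15_chart R ({pk85_h3 K (M' * q * q) (h3.trans ((dvd_mul_right M' q).trans (dvd_mul_right (M' * q) q)))} : Set ↥(modularFunctionFieldFullC K (M' * q * q)))) V₁ n → ¬ sf79_OnBr π (pk15_chart R ({pk85_h3 K (M' * q * q) (h3.trans ((dvd_mul_right M' q).trans (dvd_mul_right (M' * q) q)))} : Set ↥(modularFunctionFieldFullC K (M' * q * q)))) V₃ n →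
      mc25_MidPrinAt s (pk15_chart R ({pk85_h3 K (M' * q * q) (h3.trans ((dvd_mul_right M' q).trans (dvd_mul_right (M' * q) q)))} : Set ↥(modularFunctionFieldFullC K (M' * q * q)))) V₂.toSubring n :=
  mc25_hD2_sq (R := R) (K := K) M' q hq hM' hπ hqR u u' huu' hqπ V₂ hV₂ hπ₂ hne s hs hsc V₁ V₃ _
    (fun x hx => ci22_chart_closed _ x hx)
    (fun n hn => by
      haveI := hn
      exact ci22_dich_level3 (R := R) (K := K) (M' * q * q) (h3.trans ((dvd_mul_right M' q).trans (dvd_mul_right (M' * q) q))) h3u n)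
    hB₁ hB₂ hB₃ hsat hreg

include hq hM' in
/-- **Level 3, chart `{h⁻¹}`.** -/
theorem mc25_hD2_level3_inv {π : R} (hπ : Irreducible π) (hqR : ¬ IsUnit (q : R))
    (h3 : 3 ∣ M')
    (u u' : R) (huu' : u * u' = 1) (hqπ : (q : R) = u * π)
    (V₂ : ValuationSubring ↥(modularFunctionFieldFullC K (M' * q * q)))
    (hV₂ : ∀ c ∈ cm85_Vinf (K := K) (M' * q) hπ,
      cm15_incl K (M' * q) (M' * q * q) (dvd_mul_right (M' * q) q) c ∈ V₂)
    (hπ₂ : (algebraMap R ↥(modularFunctionFieldFullC K (M' * q * q)) π)⁻¹ ∉ V₂)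
    (hne : cm85_Vinf (K := K) (M' * q * q) hπ ≠ V₂)
    (s : ↥(modularFunctionFieldFullC K (M' * q * q)))
    (hs : V₂.valuation s ^ (q - 1) =
      V₂.valuation (algebraMap R ↥(modularFunctionFieldFullC K (M' * q * q)) π))
    (hsc : (s : LaurentSeries K) = qExpand K q (qExpand K q (jqModC K)) - jqModC K)
    (V₁ V₃ : Subring ↥(modularFunctionFieldFullC K (M' * q * q)))
    (hB₁ : ∀ x ∈ pk15_chart R ({(pk85_h3 K (M' * q * q) (h3.trans ((dvd_mul_right M' q).trans (dvd_mul_right (M' * q) q))))⁻¹} : Set ↥(modularFunctionFieldFullC K (M' * q * q))), x ∈ V₁) (hB₂ : ∀ x ∈ pk15_chart R ({(pk85_h3 K (M' * q * q) (h3.trans ((dvd_mul_right M' q).trans (dvd_mul_right (M' * q) q))))⁻¹} : Set ↥(modularFunctionFieldFullC K (M' * q * q))), x ∈ V₂) (hB₃ : ∀ x ∈ pk15_chart R ({(pk85_h3 K (M' * q * q) (h3.trans ((dvd_mul_right M' q).trans (dvd_mul_right (M' * q) q))))⁻¹} : Set ↥(modularFunctionFieldFullC K (M' * q * q))), x ∈ V₃)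
    (hsat : ∀ x ∈ pk15_chart R ({(pk85_h3 K (M' * q * q) (h3.trans ((dvd_mul_right M' q).trans (dvd_mul_right (M' * q) q))))⁻¹} : Set ↥(modularFunctionFieldFullC K (M' * q * q))),
      (algebraMap R ↥(modularFunctionFieldFullC K (M' * q * q)) π)⁻¹ * x ∈ V₁ →
      (algebraMap R ↥(modularFunctionFieldFullC K (M' * q * q)) π)⁻¹ * x ∈ V₂.toSubring →
      (algebraMap R ↥(modularFunctionFieldFullC K (M' * q * q)) π)⁻¹ * x ∈ V₃ →
      (algebraMap R ↥(modularFunctionFieldFullC K (M' * q * q)) π)⁻¹ * x ∈ pk15_chart R ({(pk85_h3 K (M' * q * q) (h3.trans ((dvd_mul_right M' q).trans (dvd_mul_right (M' * q) q))))⁻¹} : Set ↥(modularFunctionFieldFullC K (M' * q * q))))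
    (hreg : ∀ n : Ideal ↥(pk15_chart R ({(pk85_h3 K (M' * q * q) (h3.trans ((dvd_mul_right M' q).trans (dvd_mul_right (M' * q) q))))⁻¹} : Set ↥(modularFunctionFieldFullC K (M' * q * q)))), n.IsMaximal → algebraMap R ↥(pk15_chart R ({(pk85_h3 K (M' * q * q) (h3.trans ((dvd_mul_right M' q).trans (dvd_mul_right (M' * q) q))))⁻¹} : Set ↥(modularFunctionFieldFullC K (M' * q * q)))) π ∈ n →
      tl71_OnMid s (pk15_chart R ({(pk85_h3 K (M' * q * q) (h3.trans ((dvd_mul_right M' q).trans (dvd_mul_right (M' * q) q))))⁻¹} : Set ↥(modularFunctionFieldFullC K (M' * q * q)))) V₂.toSubring n → ¬ sf79_OnBr π (pk15_chart R ({(pk85_h3 K (M' * q * q) (h3.trans ((dvd_mul_right M' q).trans (dvd_mul_right (M' * q) q))))⁻¹} : Set ↥(modularFunctionFieldFullC K (M' * q * q)))) V₁ n → ¬ sf79_OnBr π (pk15_chart R ({(pk85_h3 K (M' * q * q) (h3.trans ((dvd_mul_right M' q).trans (dvd_mul_right (M' * q) q))))⁻¹} : Set ↥(modularFunctionFieldFullC K (M' *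 q * q)))) V₃ n →
      (∃ s' b : ↥(pk15_chart R ({(pk85_h3 K (M' * q * q) (h3.trans ((dvd_mul_right M' q).trans (dvd_mul_right (M' * q) q))))⁻¹} : Set ↥(modularFunctionFieldFullC K (M' * q * q)))), s' ∉ n ∧ (s' : ↥(modularFunctionFieldFullC K (M' * q * q))) * rm90_j K (M' * q * q) = (b : ↥(modularFunctionFieldFullC K (M' * q * q)))) →
      mc25_MidPrinAt s (pk15_chart R ({(pk85_h3 K (M' * q * q) (h3.trans ((dvd_mul_right M' q).trans (dvd_mul_right (M' * q) q))))⁻¹} : Set ↥(modularFunctionFieldFullC K (M' * q * q)))) V₂.toSubring n) :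
    ∀ n : Ideal ↥(pk15_chart R ({(pk85_h3 K (M' * q * q) (h3.trans ((dvd_mul_right M' q).trans (dvd_mul_right (M' * q) q))))⁻¹} : Set ↥(modularFunctionFieldFullC K (M' * q * q)))), n.IsMaximal → algebraMap R ↥(pk15_chart R ({(pk85_h3 K (M' * q * q) (h3.trans ((dvd_mul_right M' q).trans (dvd_mul_right (M' * q) q))))⁻¹} : Set ↥(modularFunctionFieldFullC K (M' * q * q)))) π ∈ n →
      tl71_OnMid s (pk15_chart R ({(pk85_h3 K (M' * q * q) (h3.trans ((dvd_mul_right M' q).trans (dvd_mul_right (M' * q) q))))⁻¹} : Set ↥(modularFunctionFieldFullC K (M' * q * q)))) V₂.toSubring n → ¬ sf79_OnBr π (pk15_chart R ({(pk85_h3 K (M' * q * q) (h3.trans ((dvd_mul_right M' q).trans (dvd_mul_right (M' * q) q))))⁻¹} : Set ↥(modularFunctionFieldFullC K (M' * q * q)))) V₁ n → ¬ sf79_OnBr π (pk15_chart R ({(pk85_h3 K (M' * q * q) (h3.trans ((dvd_mul_right M' q).trans (dvd_mul_right (M' * q) q))))⁻¹} : Set ↥(modularFunctionFieldFullC K (M' * q * q))))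 V₃ n →
      mc25_MidPrinAt s (pk15_chart R ({(pk85_h3 K (M' * q * q) (h3.trans ((dvd_mul_right M' q).trans (dvd_mul_right (M' * q) q))))⁻¹} : Set ↥(modularFunctionFieldFullC K (M' * q * q)))) V₂.toSubring n :=
  mc25_hD2_sq (R := R) (K := K) M' q hq hM' hπ hqR u u' huu' hqπ V₂ hV₂ hπ₂ hne s hs hsc V₁ V₃ _
    (fun x hx => ci22_chart_closed _ x hx)
    (fun n hn => by
      haveI := hn
      exact ci22_dich_level3_inv (R := R) (K := K) (M' * q * q) (h3.trans ((dvd_mul_right M' q).trans (dvd_mul_right (M' * q) q))) n)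
    hB₁ hB₂ hB₃ hsat hreg

end mc25_frame

end Fermat.Agent.S36
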