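/-
helper71: S36 lab, rows 598/601/605 (HP-1): the hypothesis `h2` (two local generators) of
`ud57_locPrin_at` / `lps9_strong_three` at the closed points lying on AT MOST ONE branch
(`cp57_OneBr`) of the canonical charts of level `M' q q`, with the `C₂`-only input in the
PRINCIPAL form `mc25_MidPrinAt` of helper25 (cusps: `mc25_hD2_level2/3(_inv)`, on main), so that
the ONLY open hypothesis is row C-C2: the middle branch is principal at the `C₂`-only points
where `j` is regular.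

* `tl71_twoGen_at_prin` : `mc25_twoGen` at ONE closed point (divisor hypotheses at `n` only).
* `tg71_one_core` : on a chart with the frame facts, `hD₂` of `mc25_twoGen` gives `h2` at every
  closed point with `cp57_OneBr`.
* `tg71_one_level2`, `tg71_one_level3` : both canonical charts, from `hreg` (row C-C2) only.
-/
import Fermat.Agent.S36.TwoGenInputs71
import Fermat.Agent.S36.MidCuspFrame25

set_option autoImplicit false
set_option linter.unusedSectionVars false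
set_option linter.unusedVariables false
set_option linter.style.haveILetI false
set_option linter.style.longLine false

open ModularCurve

namespace Fermat.Agent.S36.TripleLoc71

open Fermat.Agent.S34 Fermat.Agent.S18 Fermat.Agent.S24 Fermat.Agent.S36

local notation "Q̄" => AlgebraicClosure ℚ

section abstract71b

variable {R F : Type*} [CommRing R] [Field F] [Algebra R F]

/-- **Two generators at ONE closed point `n`**, with the hypothesis at a `C₂`-only point in the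
principal form `mc25_MidPrinAt` (`mc25_twoGen` with the divisor hypotheses at `n` only). -/
theorem tl71_twoGen_at_prin (π : R) (σ : F) (e : ℕ) (B : Subalgebra R F) (V₁ V₂ V₃ : Subring F)
    (hB₁ : ∀ x ∈ B, x ∈ V₁) (hB₂ : ∀ x ∈ B, x ∈ V₂) (hB₃ : ∀ x ∈ B, x ∈ V₃)
    (hsat : ∀ x ∈ B, (algebraMap R F π)⁻¹ * x ∈ V₁ → (algebraMap R F π)⁻¹ * x ∈ V₂ →
      (algebraMap R F π)⁻¹ * x ∈ V₃ → (algebraMap R F π)⁻¹ * x ∈ B)
    (hπ0 : algebraMap R F π ≠ 0) (hσ0 : σ ≠ 0)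
    (hσe : (algebraMap R F π)⁻¹ * σ ^ e ∈ V₂)
    (hS₁ : sf79_Smooth π B V₁) (hS₃ : sf79_Smooth π B V₃) (hS₂ : tl71_MidSmooth π σ B V₂)
    (n : Ideal B) (hnmax : n.IsMaximal) (hπn : algebraMap R B π ∈ n)
    (hD₁ : sf79_OnBr π B V₁ n → (tl71_OnMid σ B V₂ n ∨ sf79_OnBr π B V₃ n) →
      tl71_DivAt π B V₁ V₂ V₃ n)
    (hD₃ : sf79_OnBr π B V₃ n → (tl71_OnMid σ B V₂ n ∨ sf79_OnBr π B V₁ n) →
      tl71_DivAt π B V₃ V₂ V₁ n)
    (hD₂ : tl71_OnMid σ B V₂ n → ¬ sf79_OnBr π B V₁ n → ¬ sf79_OnBr π B V₃ n →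
      mc25_MidPrinAt σ B V₂ n) :
    ∃ x y : B, x ∈ n ∧ y ∈ n ∧
      ∀ v ∈ n, ∃ s : B, s ∉ n ∧ ∃ a b : B, s * v = a * x + b * y := by
  classical
  have hnp : n.IsPrime := hnmax.isPrime
  -- a witness off the middle branch gives `t ∉ n` with `π⁻¹ t ∈ V₂`
  have hmidw : ¬ tl71_OnMid σ B V₂ n →
      ∃ y : B, y ∉ n ∧ (algebraMap R F π)⁻¹ * (y : F) ∈ V₂ := by
    intro h
    have hex : ∃ y : B, (y : F) * σ⁻¹ ∈ V₂ ∧ y ∉ n := by
      by_contra hcon
      exact h fun x hx => by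
        by_contra hxn
        exact hcon ⟨x, hx, hxn⟩
    obtain ⟨y, hy, hyn⟩ := hex
    have hσe0 : σ ^ e ≠ 0 := pow_ne_zero e hσ0
    refine ⟨y ^ e, fun hh => hyn (hnp.mem_of_pow_mem e hh), ?_⟩
    have : (algebraMap R F π)⁻¹ * ((y ^ e : B) : F)
        = ((y : F) * σ⁻¹) ^ e * ((algebraMap R F π)⁻¹ * σ ^ e) := by
      push_cast
      rw [mul_pow, inv_pow]
      field_simp
    rw [this]
    exact V₂.mul_mem (V₂.pow_mem hy e) hσe
  have hbrw : ∀ V : Subring F, ¬ sf79_OnBr π B V n →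
      ∃ y : B, y ∉ n ∧ (algebraMap R F π)⁻¹ * (y : F) ∈ V := by
    intro V h
    by_contra hcon
    exact h fun x hx => by
      by_contra hxn
      exact hcon ⟨x, hxn, hx⟩
  -- the symmetric form of saturation
  have hsat' : ∀ x ∈ B, (algebraMap R F π)⁻¹ * x ∈ V₃ → (algebraMap R F π)⁻¹ * x ∈ V₂ →
      (algebraMap R F π)⁻¹ * x ∈ V₁ → (algebraMap R F π)⁻¹ * x ∈ B :=
    fun x hx h3 h2 h1 => hsat x hx h1 h2 h3
  by_cases h1 : sf79_OnBr π B V₁ n
  · -- on the first branch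
    obtain ⟨z₀, hz₀⟩ := hS₁ n hnmax hπn h1
    by_cases h23 : tl71_OnMid σ B V₂ n ∨ sf79_OnBr π B V₃ n
    · exact tl71_two_of_div π B V₁ V₂ V₃ hB₁ hB₂ hB₃ hsat hπ0 n h1 z₀ hz₀ (hD₁ h1 h23)
    · obtain ⟨y₂, hy₂n, hy₂⟩ := hmidw (not_or.mp h23).1
      obtain ⟨y₃, hy₃n, hy₃⟩ := hbrw V₃ (not_or.mp h23).2
      refine tl71_two_of_smooth π B V₁ V₂ V₃ hB₁ hB₂ hB₃ hsat hπ0 n hπn z₀ hz₀ (y₂ * y₃)
        (fun hh => (hnp.mem_or_mem hh).elim hy₂n hy₃n) ?_ ?_
      · have : (algebraMap R F π)⁻¹ * ((y₂ * y₃ : B) : F)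
            = (algebraMap R F π)⁻¹ * (y₂ : F) * (y₃ : F) := by push_cast; ring
        rw [this]; exact V₂.mul_mem hy₂ (hB₂ _ y₃.2)
      · have : (algebraMap R F π)⁻¹ * ((y₂ * y₃ : B) : F)
            = (y₂ : F) * ((algebraMap R F π)⁻¹ * (y₃ : F)) := by push_cast; ring
        rw [this]; exact V₃.mul_mem (hB₃ _ y₂.2) hy₃
  · by_cases h3 : sf79_OnBr π B V₃ n
    · -- on the third branch, not on the first
      obtain ⟨z₀, hz₀⟩ := hS₃ n hnmax hπn h3
      by_cases h2 : tl71_OnMid σ B V₂ n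
      · exact tl71_two_of_div π B V₃ V₂ V₁ hB₃ hB₂ hB₁ hsat' hπ0 n h3 z₀ hz₀
          (hD₃ h3 (Or.inl h2))
      · obtain ⟨y₂, hy₂n, hy₂⟩ := hmidw h2
        obtain ⟨y₁, hy₁n, hy₁⟩ := hbrw V₁ h1
        refine tl71_two_of_smooth π B V₃ V₂ V₁ hB₃ hB₂ hB₁ hsat' hπ0 n hπn z₀ hz₀ (y₂ * y₁)
          (fun hh => (hnp.mem_or_mem hh).elim hy₂n hy₁n) ?_ ?_
        · have : (algebraMap R F π)⁻¹ * ((y₂ * y₁ : B) : F)
              = (algebraMap R F π)⁻¹ * (y₂ : F) * (y₁ : F) := by push_cast; ring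
          rw [this]; exact V₂.mul_mem hy₂ (hB₂ _ y₁.2)
        · have : (algebraMap R F π)⁻¹ * ((y₂ * y₁ : B) : F)
              = (y₂ : F) * ((algebraMap R F π)⁻¹ * (y₁ : F)) := by push_cast; ring
          rw [this]; exact V₁.mul_mem (hB₁ _ y₂.2) hy₁
    · by_cases h2 : tl71_OnMid σ B V₂ n
      · -- on the middle branch only
        obtain ⟨z₀, hz₀n, hz₀⟩ := hS₂ n hnmax hπn h2
        obtain ⟨g, t, ht, hgn, hprin⟩ := hD₂ h2 h1 h3
        refine ⟨z₀, g, hz₀n, hgn, ?_⟩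
        refine tl71_max_two n (fun y : B => (y : F) * σ⁻¹ ∈ V₂) z₀ g t ht ?_ hprin
        intro x hx
        obtain ⟨s, hs, a, ha⟩ := hz₀ x hx
        exact ⟨s, hs, a, by simpa using ha⟩
      · -- on no branch: impossible
        exfalso
        obtain ⟨y₁, hy₁n, hy₁⟩ := hbrw V₁ h1
        obtain ⟨y₂, hy₂n, hy₂⟩ := hmidw h2
        obtain ⟨y₃, hy₃n, hy₃⟩ := hbrw V₃ h3
        have hmem : (y₁ : F) * (y₂ : F) * (y₃ : F) ∈ B := B.mul_mem (B.mul_mem y₁.2 y₂.2) y₃.2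
        have e1 : (algebraMap R F π)⁻¹ * ((y₁ : F) * (y₂ : F) * (y₃ : F)) ∈ V₁ := by
          have : (algebraMap R F π)⁻¹ * ((y₁ : F) * (y₂ : F) * (y₃ : F))
              = (algebraMap R F π)⁻¹ * (y₁ : F) * ((y₂ : F) * (y₃ : F)) := by ring
          rw [this]; exact V₁.mul_mem hy₁ (V₁.mul_mem (hB₁ _ y₂.2) (hB₁ _ y₃.2))
        have e2 : (algebraMap R F π)⁻¹ * ((y₁ : F) * (y₂ : F) * (y₃ : F)) ∈ V₂ := by
          have : (algebraMap R F π)⁻¹ * ((y₁ : F) * (y₂ : F) * (y₃ : F))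
              = (algebraMap R F π)⁻¹ * (y₂ : F) * ((y₁ : F) * (y₃ : F)) := by ring
          rw [this]; exact V₂.mul_mem hy₂ (V₂.mul_mem (hB₂ _ y₁.2) (hB₂ _ y₃.2))
        have e3 : (algebraMap R F π)⁻¹ * ((y₁ : F) * (y₂ : F) * (y₃ : F)) ∈ V₃ := by
          have : (algebraMap R F π)⁻¹ * ((y₁ : F) * (y₂ : F) * (y₃ : F))
              = (algebraMap R F π)⁻¹ * (y₃ : F) * ((y₁ : F) * (y₂ : F)) := by ring
          rw [this]; exact V₃.mul_mem hy₃ (V₃.mul_mem (hB₃ _ y₁.2) (hB₃ _ y₂.2))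
        have hb := hsat _ hmem e1 e2 e3
        have hprod : y₁ * y₂ * y₃ ∈ n := by
          have : y₁ * y₂ * y₃ = algebraMap R B π * ⟨_, hb⟩ := by
            apply Subtype.ext
            show (y₁ : F) * (y₂ : F) * (y₃ : F)
              = algebraMap R F π * ((algebraMap R F π)⁻¹ * ((y₁ : F) * (y₂ : F) * (y₃ : F)))
            field_simp
          rw [this]; exact n.mul_mem_right _ hπn
        rcases hnp.mem_or_mem hprod with h | h
        · rcases hnp.mem_or_mem h with h | h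
          · exact hy₁n h
          · exact hy₂n h
        · exact hy₃n h

end abstract71b

section TGB71

variable {R K : Type} [CommRing R] [IsDomain R] [IsDiscreteValuationRing R] [Field K]
  [NumberField K] [Algebra R K] [IsFractionRing R K] [Algebra K Q̄] [Algebra.IsAlgebraic K Q̄]
  (M' q : ℕ) [NeZero M'] [NeZero q] (hq : q.Prime) (hM' : ¬ q ∣ M')
  {π : R} (hπ : Irreducible π)
  [Algebra R ↥(modularFunctionFieldFullC K M')]
  [IsScalarTower R K ↥(modularFunctionFieldFullC K M')]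
  [Algebra R ↥(modularFunctionFieldFullC K (M' * q))]
  [IsScalarTower R K ↥(modularFunctionFieldFullC K (M' * q))]
  [Algebra R ↥(modularFunctionFieldFullC K (M' * q * q))]
  [IsScalarTower R K ↥(modularFunctionFieldFullC K (M' * q * q))]

include hq hM' in
/-- **`h2` at the closed points on at most one branch** of a chart `B` of level `M' q q` with the
frame facts, from `hD₂` of `mc25_twoGen`. -/
theorem tg71_one_core (hqR : ¬ IsUnit (q : R))
    (V₂ : ValuationSubring ↥(modularFunctionFieldFullC K (M' * q * q)))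
    (hV₂ : ∀ c ∈ cm85_Vinf (K := K) (M' * q) hπ, al97L_alpha K (M' * q) q c ∈ V₂)
    (hπ₂ : (algebraMap K ↥(modularFunctionFieldFullC K (M' * q * q)) (algebraMap R K π))⁻¹ ∉ V₂)
    (hne : cm85_Vinf (K := K) (M' * q * q) hπ ≠ V₂)
    (hs : V₂.valuation (v2g64_s K M' q) ^ (q - 1) =
      V₂.valuation (algebraMap K ↥(modularFunctionFieldFullC K (M' * q * q)) (algebraMap R K π)))
    (B : Subalgebra R ↥(modularFunctionFieldFullC K (M' * q * q)))
    (hBW : ∀ x ∈ B, x ∈ (cm85_Vinf (K := K) (M' * q * q) hπ).toSubring ⊓ V₂.toSubring ⊓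
      (nsb86_V3 (K := K) M' q hq hM' hπ).toSubring)
    (hsatW : ∀ x ∈ B, (algebraMap R ↥(modularFunctionFieldFullC K (M' * q * q)) π)⁻¹ * x ∈
        (cm85_Vinf (K := K) (M' * q * q) hπ).toSubring ⊓ V₂.toSubring ⊓ (nsb86_V3 (K := K) M' q hq hM' hπ).toSubring →
      (algebraMap R ↥(modularFunctionFieldFullC K (M' * q * q)) π)⁻¹ * x ∈ B)
    (hS₁ : sf79_Smooth π B (cm85_Vinf (K := K) (M' * q * q) hπ).toSubring)
    (hS₂ : tl71_MidSmooth π (v2g64_s K M' q) B V₂.toSubring)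
    (hS₃ : sf79_Smooth π B (nsb86_V3 (K := K) M' q hq hM' hπ).toSubring)
    (hD₂ : ∀ n : Ideal B, n.IsMaximal → algebraMap R B π ∈ n →
      tl71_OnMid (v2g64_s K M' q) B V₂.toSubring n →
      ¬ sf79_OnBr π B (cm85_Vinf (K := K) (M' * q * q) hπ).toSubring n →
      ¬ sf79_OnBr π B (nsb86_V3 (K := K) M' q hq hM' hπ).toSubring n →
      mc25_MidPrinAt (v2g64_s K M' q) B V₂.toSubring n) :
    ∀ n : Ideal B, n.IsMaximal → algebraMap R B π ∈ n →
      cp57_OneBr π B (cm85_Vinf (K := K) (M' * q * q) hπ) V₂ (nsb86_V3 (K := K) M' q hq hM' hπ) n →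
      ∃ x y : B, x ∈ n ∧ y ∈ n ∧
        ∀ v ∈ n, ∃ s : B, s ∉ n ∧ ∃ a b : B, s * v = a * x + b * y := by
  obtain ⟨hπ0, hσ0, hπσ, hσe, -, -, -⟩ := tg71_inputs (K := K) M' q hq hM' hπ hqR V₂ hV₂ hπ₂ hne hs
  have hB₁ : ∀ x ∈ B, x ∈ (cm85_Vinf (K := K) (M' * q * q) hπ).toSubring := fun x hx =>
    (Subring.mem_inf.mp (Subring.mem_inf.mp (hBW x hx)).1).1
  have hB₂ : ∀ x ∈ B, x ∈ V₂.toSubring := fun x hx =>
    (Subring.mem_inf.mp (Subring.mem_inf.mp (hBW x hx)).1).2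
  have hB₃ : ∀ x ∈ B, x ∈ (nsb86_V3 (K := K) M' q hq hM' hπ).toSubring := fun x hx =>
    (Subring.mem_inf.mp (hBW x hx)).2
  have hsat : ∀ x ∈ B,
      (algebraMap R ↥(modularFunctionFieldFullC K (M' * q * q)) π)⁻¹ * x ∈ (cm85_Vinf (K := K) (M' * q * q) hπ).toSubring →
      (algebraMap R ↥(modularFunctionFieldFullC K (M' * q * q)) π)⁻¹ * x ∈ V₂.toSubring →
      (algebraMap R ↥(modularFunctionFieldFullC K (M' * q * q)) π)⁻¹ * x ∈ (nsb86_V3 (K := K) M' q hq hM' hπ).toSubring →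
      (algebraMap R ↥(modularFunctionFieldFullC K (M' * q * q)) π)⁻¹ * x ∈ B := fun x hx h1 h2 h3 =>
    hsatW x hx (Subring.mem_inf.mpr ⟨Subring.mem_inf.mpr ⟨h1, h2⟩, h3⟩)
  intro n hn hπn hone
  have hmid : tl71_OnMid (v2g64_s K M' q) B V₂.toSubring n → sf79_OnBr π B V₂.toSubring n :=
    lps9_onBr_of_onMid π (v2g64_s K M' q) B V₂.toSubring hπ0 hπσ n
  exact tl71_twoGen_at_prin π (v2g64_s K M' q) (q - 1) B _ _ _ hB₁ hB₂ hB₃ hsat hπ0 hσ0 hσe hS₁ hS₃ hS₂
    n hn hπn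
    (fun h1 h23 => h23.elim (fun h => absurd ⟨h1, hmid h⟩ hone.1)
      (fun h => absurd ⟨h1, h⟩ hone.2.1))
    (fun h3 h21 => h21.elim (fun h => absurd ⟨hmid h, h3⟩ hone.2.2)
      (fun h => absurd ⟨h, h3⟩ hone.2.1))
    (fun h2 h1 h3 => hD₂ n hn hπn h2 h1 h3)

include hq hM' in
/-- **Two generators at the closed points on at most one branch, canonical frame, Hauptmodul of
level 2**, for the chart of `h` and the chart of `h⁻¹`: the only hypothesis is row C-C2 (`hreg`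
of `mc25_hD2_level2` / `_inv`: the middle branch is principal at the `C₂`-only points where `j`
is regular); the cusps are `mc25_hD2_level2` / `_inv`. -/
theorem tg71_one_level2 (hunit : ∀ n : ℕ, Nat.Coprime n q → IsUnit (n : R))
    (hqR : ¬ IsUnit (q : R)) (hMu : IsUnit (M' : R)) (h2 : 2 ∣ M')
    (u u' : R) (huu' : u * u' = 1) (hqπ : (q : R) = u * π)
    (V₂ : ValuationSubring ↥(modularFunctionFieldFullC K (M' * q * q)))
    (hV₂ : ∀ c ∈ cm85_Vinf (K := K) (M' * q) hπ, al97L_alpha K (M' * q) q c ∈ V₂)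
    (hπ₂ : (algebraMap K ↥(modularFunctionFieldFullC K (M' * q * q)) (algebraMap R K π))⁻¹ ∉ V₂)
    (hne : cm85_Vinf (K := K) (M' * q * q) hπ ≠ V₂)
    (hs : V₂.valuation (v2g64_s K M' q) ^ (q - 1) =
      V₂.valuation (algebraMap K ↥(modularFunctionFieldFullC K (M' * q * q)) (algebraMap R K π))) :
    ((∀ n : Ideal ↥(pk15_chart R ({pk85_h2 K (M' * q * q) (h2.trans ((dvd_mul_right M' q).trans (dvd_mul_right (M' * q) q)))} : Set ↥(modularFunctionFieldFullC K (M' * q * q)))), n.IsMaximal → algebraMap R ↥(pk15_chart R ({pk85_h2 K (M' * q * q) (h2.trans ((dvd_mul_right M' q).trans (dvd_mul_right (M' * q) q)))} : Set ↥(modularFunctionFieldFullC K (M' * q * q)))) π ∈ n →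
        tl71_OnMid (v2g64_s K M' q) (pk15_chart R ({pk85_h2 K (M' * q * q) (h2.trans ((dvd_mul_right M' q).trans (dvd_mul_right (M' * q) q)))} : Set ↥(modularFunctionFieldFullC K (M' * q * q)))) V₂.toSubring n →
        ¬ sf79_OnBr π (pk15_chart R ({pk85_h2 K (M' * q * q) (h2.trans ((dvd_mul_right M' q).trans (dvd_mul_right (M' * q) q)))} : Set ↥(modularFunctionFieldFullC K (M' * q * q)))) (cm85_Vinf (K := K) (M' * q * q) hπ).toSubring n →
        ¬ sf79_OnBr π (pk15_chart R ({pk85_h2 K (M' * q * q) (h2.trans ((dvd_mul_right M' q).trans (dvd_mul_right (M' * q) q)))} : Set ↥(modularFunctionFieldFullC K (M' * q * q)))) (nsb86_V3 (K := K) M' q hq hM' hπ).toSubring n →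
        (∃ s' b : ↥(pk15_chart R ({pk85_h2 K (M' * q * q) (h2.trans ((dvd_mul_right M' q).trans (dvd_mul_right (M' * q) q)))} : Set ↥(modularFunctionFieldFullC K (M' * q * q)))), s' ∉ n ∧
          (s' : ↥(modularFunctionFieldFullC K (M' * q * q))) * rm90_j K (M' * q * q) = (b : ↥(modularFunctionFieldFullC K (M' * q * q)))) →
        mc25_MidPrinAt (v2g64_s K M' q) (pk15_chart R ({pk85_h2 K (M' * q * q) (h2.trans ((dvd_mul_right M' q).trans (dvd_mul_right (M' * q) q)))} : Set ↥(modularFunctionFieldFullC K (M' * q * q)))) V₂.toSubring n) →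
      (∀ n : Ideal ↥(pk15_chart R ({pk85_h2 K (M' * q * q) (h2.trans ((dvd_mul_right M' q).trans (dvd_mul_right (M' * q) q)))} : Set ↥(modularFunctionFieldFullC K (M' * q * q)))), n.IsMaximal → algebraMap R ↥(pk15_chart R ({pk85_h2 K (M' * q * q) (h2.trans ((dvd_mul_right M' q).trans (dvd_mul_right (M' * q) q)))} : Set ↥(modularFunctionFieldFullC K (M' * q * q)))) π ∈ n →
        cp57_OneBr π (pk15_chart R ({pk85_h2 K (M' * q * q) (h2.trans ((dvd_mul_right M' q).trans (dvd_mul_right (M' * q) q)))} : Set ↥(modularFunctionFieldFullC K (M' * q * q)))) (cm85_Vinf (K := K) (M' * q * q) hπ) V₂ (nsb86_V3 (K := K) M' q hq hM' hπ) n →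
        ∃ x y : ↥(pk15_chart R ({pk85_h2 K (M' * q * q) (h2.trans ((dvd_mul_right M' q).trans (dvd_mul_right (M' * q) q)))} : Set ↥(modularFunctionFieldFullC K (M' * q * q)))), x ∈ n ∧ y ∈ n ∧
          ∀ v ∈ n, ∃ s : ↥(pk15_chart R ({pk85_h2 K (M' * q * q) (h2.trans ((dvd_mul_right M' q).trans (dvd_mul_right (M' * q) q)))} : Set ↥(modularFunctionFieldFullC K (M' * q * q)))), s ∉ n ∧ ∃ a b : ↥(pk15_chart R ({pk85_h2 K (M' * q * q) (h2.trans ((dvd_mul_right M' q).trans (dvd_mul_right (M' * q) q)))} : Set ↥(modularFunctionFieldFullC K (M' * q * q)))), s * v = a * x + b * y)) ∧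
    ((∀ n : Ideal ↥(pk15_chart R ({(pk85_h2 K (M' * q * q) (h2.trans ((dvd_mul_right M' q).trans (dvd_mul_right (M' * q) q))))⁻¹} : Set ↥(modularFunctionFieldFullC K (M' * q * q)))), n.IsMaximal → algebraMap R ↥(pk15_chart R ({(pk85_h2 K (M' * q * q) (h2.trans ((dvd_mul_right M' q).trans (dvd_mul_right (M' * q) q))))⁻¹} : Set ↥(modularFunctionFieldFullC K (M' * q * q)))) π ∈ n →
        tl71_OnMid (v2g64_s K M' q) (pk15_chart R ({(pk85_h2 K (M' * q * q) (h2.trans ((dvd_mul_right M' q).trans (dvd_mul_right (M' * q) q))))⁻¹} : Set ↥(modularFunctionFieldFullC K (M' * q * q)))) V₂.toSubring n →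
        ¬ sf79_OnBr π (pk15_chart R ({(pk85_h2 K (M' * q * q) (h2.trans ((dvd_mul_right M' q).trans (dvd_mul_right (M' * q) q))))⁻¹} : Set ↥(modularFunctionFieldFullC K (M' * q * q)))) (cm85_Vinf (K := K) (M' * q * q) hπ).toSubring n →
        ¬ sf79_OnBr π (pk15_chart R ({(pk85_h2 K (M' * q * q) (h2.trans ((dvd_mul_right M' q).trans (dvd_mul_right (M' * q) q))))⁻¹} : Set ↥(modularFunctionFieldFullC K (M' * q * q)))) (nsb86_V3 (K := K) M' q hq hM' hπ).toSubring n →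
        (∃ s' b : ↥(pk15_chart R ({(pk85_h2 K (M' * q * q) (h2.trans ((dvd_mul_right M' q).trans (dvd_mul_right (M' * q) q))))⁻¹} : Set ↥(modularFunctionFieldFullC K (M' * q * q)))), s' ∉ n ∧
          (s' : ↥(modularFunctionFieldFullC K (M' * q * q))) * rm90_j K (M' * q * q) = (b : ↥(modularFunctionFieldFullC K (M' * q * q)))) →
        mc25_MidPrinAt (v2g64_s K M' q) (pk15_chart R ({(pk85_h2 K (M' * q * q) (h2.trans ((dvd_mul_right M' q).trans (dvd_mul_right (M' * q) q))))⁻¹} : Set ↥(modularFunctionFieldFullC K (M' * q * q)))) V₂.toSubring n) →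
      (∀ n : Ideal ↥(pk15_chart R ({(pk85_h2 K (M' * q * q) (h2.trans ((dvd_mul_right M' q).trans (dvd_mul_right (M' * q) q))))⁻¹} : Set ↥(modularFunctionFieldFullC K (M' * q * q)))), n.IsMaximal → algebraMap R ↥(pk15_chart R ({(pk85_h2 K (M' * q * q) (h2.trans ((dvd_mul_right M' q).trans (dvd_mul_right (M' * q) q))))⁻¹} : Set ↥(modularFunctionFieldFullC K (M' * q * q)))) π ∈ n →
        cp57_OneBr π (pk15_chart R ({(pk85_h2 K (M' * q * q) (h2.trans ((dvd_mul_right M' q).trans (dvd_mul_right (M' * q) q))))⁻¹} : Set ↥(modularFunctionFieldFullC K (M' * q * q)))) (cm85_Vinf (K := K) (M' * q * q) hπ) V₂ (nsb86_V3 (K := K) M' q hq hM' hπ) n →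
        ∃ x y : ↥(pk15_chart R ({(pk85_h2 K (M' * q * q) (h2.trans ((dvd_mul_right M' q).trans (dvd_mul_right (M' * q) q))))⁻¹} : Set ↥(modularFunctionFieldFullC K (M' * q * q)))), x ∈ n ∧ y ∈ n ∧
          ∀ v ∈ n, ∃ s : ↥(pk15_chart R ({(pk85_h2 K (M' * q * q) (h2.trans ((dvd_mul_right M' q).trans (dvd_mul_right (M' * q) q))))⁻¹} : Set ↥(modularFunctionFieldFullC K (M' * q * q)))), s ∉ n ∧ ∃ a b : ↥(pk15_chart R ({(pk85_h2 K (M' * q * q) (h2.trans ((dvd_mul_right M' q).trans (dvd_mul_right (M' * q) q))))⁻¹} : Set ↥(modularFunctionFieldFullC K (M' * q * q)))), s * v = a * x + b * y)) := by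
  have hqp : q ≠ 2 := by
    intro h
    apply hM'
    rw [h]
    exact h2
  have hpu : IsUnit ((2 : ℕ) : R) :=
    hunit 2 ((Nat.coprime_primes Nat.prime_two hq).mpr (Ne.symm hqp))
  have hpu' : IsUnit (2 : R) := by
    simpa using hpu
  obtain ⟨-, hC, -⟩ := fb85_frameV3_level2 M' q hq hM' hπ hqR hMu h2 V₂ hV₂ hπ₂ hs
  obtain ⟨-, h12W, hsat1, hsat2, -⟩ := hC
  have e : algebraMap R ↥(modularFunctionFieldFullC K (M' * q * q)) π = (algebraMap K ↥(modularFunctionFieldFullC K (M' * q * q)) (algebraMap R K π)) :=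
    IsScalarTower.algebraMap_apply R K _ π
  have hπ₂' : (algebraMap R ↥(modularFunctionFieldFullC K (M' * q * q)) π)⁻¹ ∉ V₂ := by
    rw [e]
    exact hπ₂
  have hs' : V₂.valuation (v2g64_s K M' q) ^ (q - 1) =
      V₂.valuation (algebraMap R ↥(modularFunctionFieldFullC K (M' * q * q)) π) := by
    rw [e]
    exact hs
  obtain ⟨⟨a1, a2, a3⟩, ⟨b1, b2, b3⟩⟩ := sm7_three_smooth_sq_level2 (R := R) (K := K) M' q hq hM'
    hπ hqR h2 hMu V₂ hV₂ hπ₂' hne (v2g64_s K M' q) hs'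
  have hsub1 : ({pk85_h2 K (M' * q * q) (h2.trans ((dvd_mul_right M' q).trans (dvd_mul_right (M' * q) q)))} : Set ↥(modularFunctionFieldFullC K (M' * q * q))) ⊆
      {pk85_h2 K (M' * q * q) (h2.trans ((dvd_mul_right M' q).trans (dvd_mul_right (M' * q) q))), (pk85_h2 K (M' * q * q) (h2.trans ((dvd_mul_right M' q).trans (dvd_mul_right (M' * q) q))))⁻¹} := by
    intro x hx
    rw [Set.mem_singleton_iff.mp hx]
    exact Set.mem_insert _ _
  have hsub2 : ({(pk85_h2 K (M' * q * q) (h2.trans ((dvd_mul_right M' q).trans (dvd_mul_right (M' * q) q))))⁻¹} : Set ↥(modularFunctionFieldFullC K (M' * q * q))) ⊆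
      {pk85_h2 K (M' * q * q) (h2.trans ((dvd_mul_right M' q).trans (dvd_mul_right (M' * q) q))), (pk85_h2 K (M' * q * q) (h2.trans ((dvd_mul_right M' q).trans (dvd_mul_right (M' * q) q))))⁻¹} := by
    intro x hx
    rw [Set.mem_singleton_iff.mp hx]
    exact Set.mem_insert_of_mem _ rfl
  have hBW1 : ∀ x ∈ (pk15_chart R ({pk85_h2 K (M' * q * q) (h2.trans ((dvd_mul_right M' q).trans (dvd_mul_right (M' * q) q)))} : Set ↥(modularFunctionFieldFullC K (M' * q * q)))), x ∈ (cm85_Vinf (K := K) (M' * q * q) hπ).toSubring ⊓ V₂.toSubring ⊓ (nsb86_V3 (K := K) M' q hq hM' hπ).toSubring :=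
    fun x hx => h12W x (pk15_chart_mono hsub1 hx)
  have hBW2 : ∀ x ∈ (pk15_chart R ({(pk85_h2 K (M' * q * q) (h2.trans ((dvd_mul_right M' q).trans (dvd_mul_right (M' * q) q))))⁻¹} : Set ↥(modularFunctionFieldFullC K (M' * q * q)))), x ∈ (cm85_Vinf (K := K) (M' * q * q) hπ).toSubring ⊓ V₂.toSubring ⊓ (nsb86_V3 (K := K) M' q hq hM' hπ).toSubring :=
    fun x hx => h12W x (pk15_chart_mono hsub2 hx)
  refine ⟨fun hreg => ?_, fun hreg => ?_⟩
  · refine tg71_one_core (K := K) M' q hq hM' hπ hqR V₂ hV₂ hπ₂ hne hs _ hBW1 hsat1 a1 a2 a3 ?_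
    exact mc25_hD2_level2 (R := R) (K := K) M' q hq hM' hπ hqR h2 hpu' u u' huu' hqπ V₂ hV₂
      hπ₂' hne (v2g64_s K M' q) hs' rfl (cm85_Vinf (K := K) (M' * q * q) hπ).toSubring (nsb86_V3 (K := K) M' q hq hM' hπ).toSubring
      (fun x hx => (Subring.mem_inf.mp (Subring.mem_inf.mp (hBW1 x hx)).1).1)
      (fun x hx => (Subring.mem_inf.mp (Subring.mem_inf.mp (hBW1 x hx)).1).2)
      (fun x hx => (Subring.mem_inf.mp (hBW1 x hx)).2)
      (fun x hx h1 h2 h3 => hsat1 x hx (Subring.mem_inf.mpr ⟨Subring.mem_inf.mpr ⟨h1, h2⟩, h3⟩))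
      hreg
  · refine tg71_one_core (K := K) M' q hq hM' hπ hqR V₂ hV₂ hπ₂ hne hs _ hBW2 hsat2 b1 b2 b3 ?_
    exact mc25_hD2_level2_inv (R := R) (K := K) M' q hq hM' hπ hqR h2 u u' huu' hqπ V₂ hV₂
      hπ₂' hne (v2g64_s K M' q) hs' rfl (cm85_Vinf (K := K) (M' * q * q) hπ).toSubring (nsb86_V3 (K := K) M' q hq hM' hπ).toSubring
      (fun x hx => (Subring.mem_inf.mp (Subring.mem_inf.mp (hBW2 x hx)).1).1)
      (fun x hx => (Subring.mem_inf.mp (Subring.mem_inf.mp (hBW2 x hx)).1).2)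
      (fun x hx => (Subring.mem_inf.mp (hBW2 x hx)).2)
      (fun x hx h1 h2 h3 => hsat2 x hx (Subring.mem_inf.mpr ⟨Subring.mem_inf.mpr ⟨h1, h2⟩, h3⟩))
      hreg

include hq hM' in
/-- **Two generators at the closed points on at most one branch, canonical frame, Hauptmodul of
level 3**, for the chart of `h` and the chart of `h⁻¹`: the only hypothesis is row C-C2 (`hreg`
of `mc25_hD2_level3` / `_inv`: the middle branch is principal at the `C₂`-only points where `j`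
is regular); the cusps are `mc25_hD2_level3` / `_inv`. -/
theorem tg71_one_level3 (hunit : ∀ n : ℕ, Nat.Coprime n q → IsUnit (n : R))
    (hqR : ¬ IsUnit (q : R)) (hMu : IsUnit (M' : R)) (h3 : 3 ∣ M')
    (u u' : R) (huu' : u * u' = 1) (hqπ : (q : R) = u * π)
    (V₂ : ValuationSubring ↥(modularFunctionFieldFullC K (M' * q * q)))
    (hV₂ : ∀ c ∈ cm85_Vinf (K := K) (M' * q) hπ, al97L_alpha K (M' * q) q c ∈ V₂)
    (hπ₂ : (algebraMap K ↥(modularFunctionFieldFullC K (M' * q * q)) (algebraMap R K π))⁻¹ ∉ V₂)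
    (hne : cm85_Vinf (K := K) (M' * q * q) hπ ≠ V₂)
    (hs : V₂.valuation (v2g64_s K M' q) ^ (q - 1) =
      V₂.valuation (algebraMap K ↥(modularFunctionFieldFullC K (M' * q * q)) (algebraMap R K π))) :
    ((∀ n : Ideal ↥(pk15_chart R ({pk85_h3 K (M' * q * q) (h3.trans ((dvd_mul_right M' q).trans (dvd_mul_right (M' * q) q)))} : Set ↥(modularFunctionFieldFullC K (M' * q * q)))), n.IsMaximal → algebraMap R ↥(pk15_chart R ({pk85_h3 K (M' * q * q) (h3.trans ((dvd_mul_right M' q).trans (dvd_mul_right (M' * q) q)))} : Set ↥(modularFunctionFieldFullC K (M' * q * q)))) π ∈ n →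
        tl71_OnMid (v2g64_s K M' q) (pk15_chart R ({pk85_h3 K (M' * q * q) (h3.trans ((dvd_mul_right M' q).trans (dvd_mul_right (M' * q) q)))} : Set ↥(modularFunctionFieldFullC K (M' * q * q)))) V₂.toSubring n →
        ¬ sf79_OnBr π (pk15_chart R ({pk85_h3 K (M' * q * q) (h3.trans ((dvd_mul_right M' q).trans (dvd_mul_right (M' * q) q)))} : Set ↥(modularFunctionFieldFullC K (M' * q * q)))) (cm85_Vinf (K := K) (M' * q * q) hπ).toSubring n →
        ¬ sf79_OnBr π (pk15_chart R ({pk85_h3 K (M' * q * q) (h3.trans ((dvd_mul_right M' q).trans (dvd_mul_right (M' * q) q)))} : Set ↥(modularFunctionFieldFullC K (M' * q * q)))) (nsb86_V3 (K := K) M' q hq hM' hπ).toSubring n →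
        (∃ s' b : ↥(pk15_chart R ({pk85_h3 K (M' * q * q) (h3.trans ((dvd_mul_right M' q).trans (dvd_mul_right (M' * q) q)))} : Set ↥(modularFunctionFieldFullC K (M' * q * q)))), s' ∉ n ∧
          (s' : ↥(modularFunctionFieldFullC K (M' * q * q))) * rm90_j K (M' * q * q) = (b : ↥(modularFunctionFieldFullC K (M' * q * q)))) →
        mc25_MidPrinAt (v2g64_s K M' q) (pk15_chart R ({pk85_h3 K (M' * q * q) (h3.trans ((dvd_mul_right M' q).trans (dvd_mul_right (M' * q) q)))} : Set ↥(modularFunctionFieldFullC K (M' * q * q)))) V₂.toSubring n) →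
      (∀ n : Ideal ↥(pk15_chart R ({pk85_h3 K (M' * q * q) (h3.trans ((dvd_mul_right M' q).trans (dvd_mul_right (M' * q) q)))} : Set ↥(modularFunctionFieldFullC K (M' * q * q)))), n.IsMaximal → algebraMap R ↥(pk15_chart R ({pk85_h3 K (M' * q * q) (h3.trans ((dvd_mul_right M' q).trans (dvd_mul_right (M' * q) q)))} : Set ↥(modularFunctionFieldFullC K (M' * q * q)))) π ∈ n →
        cp57_OneBr π (pk15_chart R ({pk85_h3 K (M' * q * q) (h3.trans ((dvd_mul_right M' q).trans (dvd_mul_right (M' * q) q)))} : Set ↥(modularFunctionFieldFullC K (M' * q * q)))) (cm85_Vinf (K := K) (M' * q * q) hπ) V₂ (nsb86_V3 (K := K) M' q hq hM' hπ) n →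
        ∃ x y : ↥(pk15_chart R ({pk85_h3 K (M' * q * q) (h3.trans ((dvd_mul_right M' q).trans (dvd_mul_right (M' * q) q)))} : Set ↥(modularFunctionFieldFullC K (M' * q * q)))), x ∈ n ∧ y ∈ n ∧
          ∀ v ∈ n, ∃ s : ↥(pk15_chart R ({pk85_h3 K (M' * q * q) (h3.trans ((dvd_mul_right M' q).trans (dvd_mul_right (M' * q) q)))} : Set ↥(modularFunctionFieldFullC K (M' * q * q)))), s ∉ n ∧ ∃ a b : ↥(pk15_chart R ({pk85_h3 K (M' * q * q) (h3.trans ((dvd_mul_right M' q).trans (dvd_mul_right (M' * q) q)))} : Set ↥(modularFunctionFieldFullC K (M' * q * q)))), s * v = a * x + b * y)) ∧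
    ((∀ n : Ideal ↥(pk15_chart R ({(pk85_h3 K (M' * q * q) (h3.trans ((dvd_mul_right M' q).trans (dvd_mul_right (M' * q) q))))⁻¹} : Set ↥(modularFunctionFieldFullC K (M' * q * q)))), n.IsMaximal → algebraMap R ↥(pk15_chart R ({(pk85_h3 K (M' * q * q) (h3.trans ((dvd_mul_right M' q).trans (dvd_mul_right (M' * q) q))))⁻¹} : Set ↥(modularFunctionFieldFullC K (M' * q * q)))) π ∈ n →
        tl71_OnMid (v2g64_s K M' q) (pk15_chart R ({(pk85_h3 K (M' * q * q) (h3.trans ((dvd_mul_right M' q).trans (dvd_mul_right (M' * q) q))))⁻¹} : Set ↥(modularFunctionFieldFullC K (M' * q * q)))) V₂.toSubring n →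
        ¬ sf79_OnBr π (pk15_chart R ({(pk85_h3 K (M' * q * q) (h3.trans ((dvd_mul_right M' q).trans (dvd_mul_right (M' * q) q))))⁻¹} : Set ↥(modularFunctionFieldFullC K (M' * q * q)))) (cm85_Vinf (K := K) (M' * q * q) hπ).toSubring n →
        ¬ sf79_OnBr π (pk15_chart R ({(pk85_h3 K (M' * q * q) (h3.trans ((dvd_mul_right M' q).trans (dvd_mul_right (M' * q) q))))⁻¹} : Set ↥(modularFunctionFieldFullC K (M' * q * q)))) (nsb86_V3 (K := K) M' q hq hM' hπ).toSubring n →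
        (∃ s' b : ↥(pk15_chart R ({(pk85_h3 K (M' * q * q) (h3.trans ((dvd_mul_right M' q).trans (dvd_mul_right (M' * q) q))))⁻¹} : Set ↥(modularFunctionFieldFullC K (M' * q * q)))), s' ∉ n ∧
          (s' : ↥(modularFunctionFieldFullC K (M' * q * q))) * rm90_j K (M' * q * q) = (b : ↥(modularFunctionFieldFullC K (M' * q * q)))) →
        mc25_MidPrinAt (v2g64_s K M' q) (pk15_chart R ({(pk85_h3 K (M' * q * q) (h3.trans ((dvd_mul_right M' q).trans (dvd_mul_right (M' * q) q))))⁻¹} : Set ↥(modularFunctionFieldFullC K (M' * q * q)))) V₂.toSubring n) →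
      (∀ n : Ideal ↥(pk15_chart R ({(pk85_h3 K (M' * q * q) (h3.trans ((dvd_mul_right M' q).trans (dvd_mul_right (M' * q) q))))⁻¹} : Set ↥(modularFunctionFieldFullC K (M' * q * q)))), n.IsMaximal → algebraMap R ↥(pk15_chart R ({(pk85_h3 K (M' * q * q) (h3.trans ((dvd_mul_right M' q).trans (dvd_mul_right (M' * q) q))))⁻¹} : Set ↥(modularFunctionFieldFullC K (M' * q * q)))) π ∈ n →
        cp57_OneBr π (pk15_chart R ({(pk85_h3 K (M' * q * q) (h3.trans ((dvd_mul_right M' q).trans (dvd_mul_right (M' * q) q))))⁻¹} : Set ↥(modularFunctionFieldFullC K (M' * q * q)))) (cm85_Vinf (K := K) (M' * q * q) hπ) V₂ (nsb86_V3 (K := K) M' q hq hM' hπ) n →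
        ∃ x y : ↥(pk15_chart R ({(pk85_h3 K (M' * q * q) (h3.trans ((dvd_mul_right M' q).trans (dvd_mul_right (M' * q) q))))⁻¹} : Set ↥(modularFunctionFieldFullC K (M' * q * q)))), x ∈ n ∧ y ∈ n ∧
          ∀ v ∈ n, ∃ s : ↥(pk15_chart R ({(pk85_h3 K (M' * q * q) (h3.trans ((dvd_mul_right M' q).trans (dvd_mul_right (M' * q) q))))⁻¹} : Set ↥(modularFunctionFieldFullC K (M' * q * q)))), s ∉ n ∧ ∃ a b : ↥(pk15_chart R ({(pk85_h3 K (M' * q * q) (h3.trans ((dvd_mul_right M' q).trans (dvd_mul_right (M' * q) q))))⁻¹} : Set ↥(modularFunctionFieldFullC K (M' * q * q)))), s * v = a * x + b * y)) := by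
  have hqp : q ≠ 3 := by
    intro h
    apply hM'
    rw [h]
    exact h3
  have hpu : IsUnit ((3 : ℕ) : R) :=
    hunit 3 ((Nat.coprime_primes Nat.prime_three hq).mpr (Ne.symm hqp))
  have hpu' : IsUnit (3 : R) := by
    simpa using hpu
  obtain ⟨-, hC, -⟩ := fb85_frameV3_level3 M' q hq hM' hπ hqR hMu h3 V₂ hV₂ hπ₂ hs
  obtain ⟨-, h12W, hsat1, hsat2, -⟩ := hC
  have e : algebraMap R ↥(modularFunctionFieldFullC K (M' * q * q)) π = (algebraMap K ↥(modularFunctionFieldFullC K (M' * q * q)) (algebraMap R K π)) :=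
    IsScalarTower.algebraMap_apply R K _ π
  have hπ₂' : (algebraMap R ↥(modularFunctionFieldFullC K (M' * q * q)) π)⁻¹ ∉ V₂ := by
    rw [e]
    exact hπ₂
  have hs' : V₂.valuation (v2g64_s K M' q) ^ (q - 1) =
      V₂.valuation (algebraMap R ↥(modularFunctionFieldFullC K (M' * q * q)) π) := by
    rw [e]
    exact hs
  obtain ⟨⟨a1, a2, a3⟩, ⟨b1, b2, b3⟩⟩ := sm7_three_smooth_sq_level3 (R := R) (K := K) M' q hq hM'
    hπ hqR h3 hMu V₂ hV₂ hπ₂' hne (v2g64_s K M' q) hs'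
  have hsub1 : ({pk85_h3 K (M' * q * q) (h3.trans ((dvd_mul_right M' q).trans (dvd_mul_right (M' * q) q)))} : Set ↥(modularFunctionFieldFullC K (M' * q * q))) ⊆
      {pk85_h3 K (M' * q * q) (h3.trans ((dvd_mul_right M' q).trans (dvd_mul_right (M' * q) q))), (pk85_h3 K (M' * q * q) (h3.trans ((dvd_mul_right M' q).trans (dvd_mul_right (M' * q) q))))⁻¹} := by
    intro x hx
    rw [Set.mem_singleton_iff.mp hx]
    exact Set.mem_insert _ _
  have hsub2 : ({(pk85_h3 K (M' * q * q) (h3.trans ((dvd_mul_right M' q).trans (dvd_mul_right (M' * q) q))))⁻¹} : Set ↥(modularFunctionFieldFullC K (M' * q * q))) ⊆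
      {pk85_h3 K (M' * q * q) (h3.trans ((dvd_mul_right M' q).trans (dvd_mul_right (M' * q) q))), (pk85_h3 K (M' * q * q) (h3.trans ((dvd_mul_right M' q).trans (dvd_mul_right (M' * q) q))))⁻¹} := by
    intro x hx
    rw [Set.mem_singleton_iff.mp hx]
    exact Set.mem_insert_of_mem _ rfl
  have hBW1 : ∀ x ∈ (pk15_chart R ({pk85_h3 K (M' * q * q) (h3.trans ((dvd_mul_right M' q).trans (dvd_mul_right (M' * q) q)))} : Set ↥(modularFunctionFieldFullC K (M' * q * q)))), x ∈ (cm85_Vinf (K := K) (M' * q * q) hπ).toSubring ⊓ V₂.toSubring ⊓ (nsb86_V3 (K := K) M' q hq hM' hπ).toSubring :=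
    fun x hx => h12W x (pk15_chart_mono hsub1 hx)
  have hBW2 : ∀ x ∈ (pk15_chart R ({(pk85_h3 K (M' * q * q) (h3.trans ((dvd_mul_right M' q).trans (dvd_mul_right (M' * q) q))))⁻¹} : Set ↥(modularFunctionFieldFullC K (M' * q * q)))), x ∈ (cm85_Vinf (K := K) (M' * q * q) hπ).toSubring ⊓ V₂.toSubring ⊓ (nsb86_V3 (K := K) M' q hq hM' hπ).toSubring :=
    fun x hx => h12W x (pk15_chart_mono hsub2 hx)
  refine ⟨fun hreg => ?_, fun hreg => ?_⟩
  · refine tg71_one_core (K := K) M' q hq hM' hπ hqR V₂ hV₂ hπ₂ hne hs _ hBW1 hsat1 a1 a2 a3 ?_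
    exact mc25_hD2_level3 (R := R) (K := K) M' q hq hM' hπ hqR h3 hpu' u u' huu' hqπ V₂ hV₂
      hπ₂' hne (v2g64_s K M' q) hs' rfl (cm85_Vinf (K := K) (M' * q * q) hπ).toSubring (nsb86_V3 (K := K) M' q hq hM' hπ).toSubring
      (fun x hx => (Subring.mem_inf.mp (Subring.mem_inf.mp (hBW1 x hx)).1).1)
      (fun x hx => (Subring.mem_inf.mp (Subring.mem_inf.mp (hBW1 x hx)).1).2)
      (fun x hx => (Subring.mem_inf.mp (hBW1 x hx)).2)
      (fun x hx h1 h2 h3 => hsat1 x hx (Subring.mem_inf.mpr ⟨Subring.mem_inf.mpr ⟨h1, h2⟩, h3⟩))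
      hreg
  · refine tg71_one_core (K := K) M' q hq hM' hπ hqR V₂ hV₂ hπ₂ hne hs _ hBW2 hsat2 b1 b2 b3 ?_
    exact mc25_hD2_level3_inv (R := R) (K := K) M' q hq hM' hπ hqR h3 u u' huu' hqπ V₂ hV₂
      hπ₂' hne (v2g64_s K M' q) hs' rfl (cm85_Vinf (K := K) (M' * q * q) hπ).toSubring (nsb86_V3 (K := K) M' q hq hM' hπ).toSubring
      (fun x hx => (Subring.mem_inf.mp (Subring.mem_inf.mp (hBW2 x hx)).1).1)
      (fun x hx => (Subring.mem_inf.mp (Subring.mem_inf.mp (hBW2 x hx)).1).2)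
      (fun x hx => (Subring.mem_inf.mp (hBW2 x hx)).2)
      (fun x hx h1 h2 h3 => hsat2 x hx (Subring.mem_inf.mpr ⟨Subring.mem_inf.mpr ⟨h1, h2⟩, h3⟩))
      hreg

end TGB71

end Fermat.Agent.S36.TripleLoc71
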