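import Fermat.Agent.S24.AsmBridgeB
import Fermat.Agent.S24.AsmDegree
import Fermat.Agent.S24.AsmCounts
import Fermat.Agent.S24.GenusArith
import Fermat.Agent.S24.ModData
import Fermat.Prelude.Def_ModularCurve_HeckeOperator

/-!
# S36 lab, row 588 (LVL-rigidity), seat 20

A level `N` is *rigid* when `nuTwo N = 0 = nuThree N` (no elliptic points); this holds as soon as
a prime `r` with `r % 12 = 11` divides `N`.  From the S24 package (the place counts above
`j = 0, 1728` as orbit numbers on `SL(2,ℤ)/Γ₀(N)` and the sum formula `∑ ord = degree`):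

* `rg20_nuTwo_eq_zero`, `rg20_nuThree_eq_zero`  : `r ∣ N`, `r` prime, `r % 12 = 11`;
* `rg20_nuTwo_of_dvd`, `rg20_nuThree_of_dvd`    : rigidity goes up along `N ∣ N'`;
* `rg20_ord_dvd`      : abstract: every zero of `y` has order dividing `e₀` (S24 `wp3` setting);
* `rg20_ord_generic`  : every zero of `j - a` (`a ≠ 0, 1728`) is simple (any level);
* `rg20_ord_zero`     : `nuThree N = 0`: every zero of `j` has order exactly `3`;
* `rg20_ord_1728`     : `nuTwo N = 0`: every zero of `j - 1728` has order exactly `2`;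
* `rg20_unram_of_map_j` : a `ℚ̄`-embedding of function fields of two rigid levels which fixes
  `j` is unramified at every place which is not a pole of `j`;
* `rg20_alpha_unram`  : `heckeAlphaBar` (level `N ℓ` over level `N`) is unramified at every
  non-cuspidal place, for rigid `N`.
-/

set_option autoImplicit false
set_option linter.style.haveILetI false

open ModularCurve AlgebraicCurve MatrixGroups IntermediateField

namespace Fermat.Agent.S36

open Fermat.Agent.S24

/-! ### Arithmetic: no elliptic points when a prime `r = 11 mod 12` divides the level -/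

theorem rg20_no_root_two {N r : ℕ} (hr : r.Prime) (hr4 : r % 4 = 3) (hrN : r ∣ N)
    (x : ZMod N) : x ^ 2 + 1 ≠ 0 := by
  intro hx
  haveI : Fact r.Prime := ⟨hr⟩
  have h1 : (ZMod.castHom hrN (ZMod r) x) ^ 2 + 1 = 0 := by
    have := congrArg (ZMod.castHom hrN (ZMod r)) hx
    rw [map_add, map_pow, map_one, map_zero] at this
    exact this
  have h2 : IsSquare (-1 : ZMod r) := by
    refine ⟨ZMod.castHom hrN (ZMod r) x, ?_⟩
    linear_combination -h1
  exact (ZMod.exists_sq_eq_neg_one_iff.mp h2) hr4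

theorem rg20_no_root_three {N r : ℕ} (hr : r.Prime) (hr3 : r % 3 = 2) (hrN : r ∣ N)
    (x : ZMod N) : x ^ 2 + x + 1 ≠ 0 := by
  intro hx
  haveI : Fact r.Prime := ⟨hr⟩
  set y : ZMod r := ZMod.castHom hrN (ZMod r) x with hy
  have h1 : y ^ 2 + y + 1 = 0 := by
    have := congrArg (ZMod.castHom hrN (ZMod r)) hx
    rw [map_add, map_add, map_pow, map_one, map_zero] at this
    exact this
  have h3 : y ^ 3 = 1 := by linear_combination (y - 1) * h1
  have hy1 : y ≠ 1 := by
    intro h
    rw [h] at h1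
    have h3' : ((3 : ℕ) : ZMod r) = 0 := by
      push_cast
      linear_combination h1
    rw [ZMod.natCast_eq_zero_iff] at h3'
    have := (Nat.prime_dvd_prime_iff_eq hr Nat.prime_three).mp h3'
    omega
  have hy0 : y ≠ 0 := by
    intro h
    rw [h] at h3
    simp at h3
  haveI : Fact (Nat.Prime 3) := ⟨Nat.prime_three⟩
  have hord : orderOf y = 3 := orderOf_eq_prime h3 hy1
  have hdvd : orderOf y ∣ r - 1 := ZMod.orderOf_dvd_card_sub_one hy0
  rw [hord] at hdvd
  have hr2 := hr.two_le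
  omega

theorem rg20_nuTwo_eq_zero {N r : ℕ} (hr : r.Prime) (hr12 : r % 12 = 11) (hrN : r ∣ N) :
    nuTwo N = 0 := by
  haveI : IsEmpty {x : ZMod N // x ^ 2 + 1 = 0} :=
    ⟨fun x => rg20_no_root_two hr (by omega) hrN x.1 x.2⟩
  exact Nat.card_of_isEmpty

theorem rg20_nuThree_eq_zero {N r : ℕ} (hr : r.Prime) (hr12 : r % 12 = 11) (hrN : r ∣ N) :
    nuThree N = 0 := by
  haveI : IsEmpty {x : ZMod N // x ^ 2 + x + 1 = 0} :=
    ⟨fun x => rg20_no_root_three hr (by omega) hrN x.1 x.2⟩
  exact Nat.card_of_isEmpty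

theorem rg20_nuTwo_of_dvd {N N' : ℕ} [NeZero N] (h : N ∣ N') (h0 : nuTwo N = 0) :
    nuTwo N' = 0 := by
  have hemp : IsEmpty {x : ZMod N // x ^ 2 + 1 = 0} := by
    have := (Nat.card_eq_zero (α := {x : ZMod N // x ^ 2 + 1 = 0})).mp h0
    rcases this with h1 | h1
    · exact h1
    · exact absurd (inferInstance : Finite {x : ZMod N // x ^ 2 + 1 = 0}) (not_finite_iff_infinite.mpr h1)
  haveI : IsEmpty {x : ZMod N' // x ^ 2 + 1 = 0} :=
    ⟨fun x => hemp.false ⟨ZMod.castHom h (ZMod N) x.1, by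
      have := congrArg (ZMod.castHom h (ZMod N)) x.2
      rw [map_add, map_pow, map_one, map_zero] at this
      exact this⟩⟩
  exact Nat.card_of_isEmpty

theorem rg20_nuThree_of_dvd {N N' : ℕ} [NeZero N] (h : N ∣ N') (h0 : nuThree N = 0) :
    nuThree N' = 0 := by
  have hemp : IsEmpty {x : ZMod N // x ^ 2 + x + 1 = 0} := by
    have := (Nat.card_eq_zero (α := {x : ZMod N // x ^ 2 + x + 1 = 0})).mp h0
    rcases this with h1 | h1
    · exact h1
    · exact absurd (inferInstance : Finite {x : ZMod N // x ^ 2 + x + 1 = 0})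
        (not_finite_iff_infinite.mpr h1)
  haveI : IsEmpty {x : ZMod N' // x ^ 2 + x + 1 = 0} :=
    ⟨fun x => hemp.false ⟨ZMod.castHom h (ZMod N) x.1, by
      have := congrArg (ZMod.castHom h (ZMod N)) x.2
      rw [map_add, map_add, map_pow, map_one, map_zero] at this
      exact this⟩⟩
  exact Nat.card_of_isEmpty

/-! ### Abstract: orders of the zeros of `y` divide the order `e₀` upstairs -/

section Abstract

variable {K F : Type*} [Field K] [IsAlgClosed K] [CharZero K] [Field F] [Algebra K F]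
variable {M X : Type*} [Field M] [Algebra K M] [Fintype X]

/-- In the setting of `wp3_card_zeros_eq_numOrbits'` (S24): every zero `v` of `y` has
`m * ord_v y = e₀` for some positive integer `m`. -/
theorem rg20_ord_dvd (σ : X → (F →ₐ[K] M)) (y : F) (hy : Transcendental K y)
    [FiniteDimensional K⟮y⟯ F] (a₀ : X)
    (hnorm : ∀ f : F, ∃ r : F, r ∈ K⟮y⟯ ∧ ∀ a : X, σ a r = ∏ b : X, σ b f)
    (hσy : ∀ a b : X, σ a y = σ b y)
    (w : OrdFn K M) (e₀ : ℕ) (he₀ : 0 < e₀) (hw : ∀ a : X, w.ord (σ a y) = e₀)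
    (v : Place K F) (hv : 0 < v.ord y) :
    ∃ m : ℤ, 0 < m ∧ m * v.ord y = e₀ := by
  classical
  have hy0 : y ≠ 0 := by
    rintro rfl
    exact hy isAlgebraic_zero
  have he₀' : (0 : ℤ) < (e₀ : ℤ) := by exact_mod_cast he₀
  have hnt : ∀ a, ∃ y₀ : F, y₀ ≠ 0 ∧ 0 < (wp3_comap w (σ a)).ord y₀ := fun a =>
    ⟨y, hy0, by rw [wp3_comap_ord, hw]; exact he₀'⟩
  choose m ϖ hm hϖ0 hϖm hmul using fun a => wp3_ord_eq_mul (wp3_comap w (σ a)) (hnt a)
  have hΦy : ∀ a, m a * (wp3_place (wp3_comap w (σ a)) (hnt a)).ord y = e₀ := fun a => by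
    rw [← hmul a y hy0]
    exact hw a
  have hΦypos : ∀ a, 0 < (wp3_place (wp3_comap w (σ a)) (hnt a)).ord y := by
    intro a
    by_contra hle
    have := mul_nonpos_of_nonneg_of_nonpos (hm a).le (not_lt.mp hle)
    rw [hΦy a] at this
    linarith
  have hsurj : ∀ v : Place K F, 0 < v.ord y →
      ∃ a, wp3_place (wp3_comap w (σ a)) (hnt a) = v :=
    wp3_surj σ y hy hnorm hσy w (fun a => by rw [hw]; exact he₀')
      (fun a => wp3_place (wp3_comap w (σ a)) (hnt a))
      (fun a f hf h0 => by rw [← wp3_comap_ord, hmul a f hf, h0, mul_zero]) hΦypos a₀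
  obtain ⟨a, rfl⟩ := hsurj v hv
  exact ⟨m a, hm a, hΦy a⟩

end Abstract

/-! ### The `Γ₀(N)`-setting of S24 -/

attribute [local instance] ModularData.fieldM ModularData.algM ModularData.actM

section Core

variable {N : ℕ} {D : ModularData N} {F : Type*} [Field F] [Algebra Kbar F]
  {ι : F →ₐ[Kbar] D.M}

theorem rg20_core_dvd [Fintype (Cosets N)]
    (hΓ : ∀ g ∈ CongruenceSubgroup.Gamma0 N, ∀ f : F, g • ι f = ι f) (x : F)
    (hιx : ι x = D.jd 1)
    (y : F) (hy : Transcendental Kbar y) [FiniteDimensional Kbar⟮y⟯ F] (hyx : Kbar⟮y⟯ = Kbar⟮x⟯)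
    (hσy : ∀ g : SL(2, ℤ), g • ι y = ι y)
    (w : OrdFn Kbar D.M) (e₀ : ℕ) (he₀ : 0 < e₀) (hw : w.ord (ι y) = e₀)
    (v : Place Kbar F) (hv : 0 < v.ord y) :
    ∃ m : ℤ, 0 < m ∧ m * v.ord y = e₀ := by
  refine rg20_ord_dvd (asmB_sigma D ι) y hy (QuotientGroup.mk 1) ?hnorm ?hσy w e₀ he₀ ?hw v hv
  case hnorm =>
    intro f
    have hfix : ∀ g : SL(2, ℤ), g • (∏ b : Cosets N, asmB_sigma D ι b f) =
        ∏ b, asmB_sigma D ι b f := fun g => asmB_smul_prod hΓ g f
    have hmem := D.fixed _ hfix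
    have hmap : (Kbar⟮x⟯).map ι = IntermediateField.adjoin Kbar {D.jd 1} := by
      rw [IntermediateField.adjoin_map, Set.image_singleton, hιx]
    rw [← hmap] at hmem
    obtain ⟨r, hr, hrP⟩ := hmem
    refine ⟨r, by rw [hyx]; exact hr, fun a => ?_⟩
    show a.out • ι r = _
    have hrP' : ι r = ∏ b : Cosets N, asmB_sigma D ι b f := hrP
    rw [hrP']
    exact hfix _
  case hσy =>
    intro a b
    show a.out • ι y = b.out • ι y
    rw [hσy, hσy]
  case hw =>
    intro a
    show w.ord (a.out • ι y) = e₀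
    rw [hσy]
    exact hw

end Core

/-! ### Orders of `j`, `j - 1728`, `j - a` at a rigid level -/

/-- The function `j` in the function field of level `N` over `ℚ̄`. -/
noncomputable def rg20_j (N : ℕ) [NeZero N] : ↥(modularFunctionFieldBar N) :=
  ⟨JJ 1, asmAb_JJ_mem N 1 (one_dvd N)⟩

theorem rg20_coe_j (N : ℕ) [NeZero N] : ((rg20_j N : ↥(modularFunctionFieldBar N)) :
    LaurentSeries Kbar) = JJ 1 := rfl

theorem rg20_transcendental_j (N : ℕ) [NeZero N] : Transcendental Kbar (rg20_j N) :=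
  asmAb_transcendental N

/-- General counting step: if every zero of `y` has order dividing the prime-like bound `e` and
the number of zeros times `e` equals the degree, then every zero has order exactly `e`. -/
theorem rg20_ord_eq_of_count {F : Type*} [Field F] [Algebra Kbar F] (y : F)
    (hy : Transcendental Kbar y) [FiniteDimensional Kbar⟮y⟯ F] (e : ℕ)
    (hle : ∀ v : Place Kbar F, 0 < v.ord y → v.ord y ≤ e)
    (hcount : e * Nat.card {v : Place Kbar F // 0 < v.ord y} = Module.finrank Kbar⟮y⟯ F)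
    (v : Place Kbar F) (hv : 0 < v.ord y) : v.ord y = e := by
  classical
  have hsum := wp1_sum_ord_zeros y hy
  have hcard : Nat.card {v : Place Kbar F // 0 < v.ord y} =
      (wp1_finite_zeros y hy).toFinset.card := by
    have h1 : Nat.card {v : Place Kbar F // 0 < v.ord y} =
        Nat.card ↥{v : Place Kbar F | 0 < v.ord y} := rfl
    rw [h1, Nat.card_coe_set_eq, Set.ncard_eq_toFinset_card _ (wp1_finite_zeros y hy)]
  have hzero : ∑ u ∈ (wp1_finite_zeros y hy).toFinset, ((e : ℤ) - u.ord y) = 0 := by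
    rw [Finset.sum_sub_distrib, hsum, Finset.sum_const, ← hcard, ← hcount]
    push_cast
    simp only [nsmul_eq_mul]
    ring
  have hnn : ∀ u ∈ (wp1_finite_zeros y hy).toFinset, 0 ≤ (e : ℤ) - u.ord y := by
    intro u hu
    have hu' : 0 < u.ord y := by simpa using hu
    have := hle u hu'
    linarith
  have hv' : v ∈ (wp1_finite_zeros y hy).toFinset := by simpa using hv
  have := (Finset.sum_eq_zero_iff_of_nonneg hnn).mp hzero v hv'
  linarith

section Level

variable (N : ℕ) [NeZero N]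

/-- Every zero of `j - a`, `a ≠ 0, 1728`, is simple (any level). -/
theorem rg20_ord_generic (a : Kbar) (ha0 : a ≠ 0) (ha1 : a ≠ 1728)
    (v : Place Kbar ↥(modularFunctionFieldBar N))
    (hv : 0 < v.ord (rg20_j N - algebraMap Kbar ↥(modularFunctionFieldBar N) a)) :
    v.ord (rg20_j N - algebraMap Kbar ↥(modularFunctionFieldBar N) a) = 1 := by
  classical
  obtain ⟨D⟩ := wpA_nonempty_modularData N
  obtain ⟨ι, hι, hΓ⟩ := asmAb_exists_iota N D
  have hx : Transcendental Kbar (rg20_j N) := rg20_transcendental_j N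
  have hιx : ι (rg20_j N) = D.jd 1 := hι 1 (one_dvd N)
  obtain ⟨hfin, hdeg⟩ := asmA_finrank N D ι (rg20_j N) ⟨JJ N, asmAb_JJ_mem N N dvd_rfl⟩ hιx
    (hι N dvd_rfl) hΓ
  haveI := hfin
  have hfinC : Fintype (Cosets N) := Fintype.ofFinite _
  obtain ⟨w, hw⟩ := D.ordGeneric a ha0 ha1
  have hyx := asmB_adjoin_sub (K := Kbar) (rg20_j N) a
  haveI hfd : FiniteDimensional
      Kbar⟮rg20_j N - algebraMap Kbar ↥(modularFunctionFieldBar N) a⟯
      ↥(modularFunctionFieldBar N) := by
    rw [hyx]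
    infer_instance
  obtain ⟨m, hm, hmv⟩ := rg20_core_dvd (D := D) (ι := ι) hΓ (rg20_j N) hιx
    (rg20_j N - algebraMap Kbar ↥(modularFunctionFieldBar N) a)
    (asmB_transcendental_sub hx a) hyx (asmB_smul_sub D ι (rg20_j N) hιx a) w 1 one_pos
    (by rw [map_sub, hιx, AlgHom.commutes, hw]; rfl) v hv
  have h1 : v.ord (rg20_j N - algebraMap Kbar ↥(modularFunctionFieldBar N) a) ∣ (1 : ℤ) :=
    ⟨m, by rw [mul_comm]; exact_mod_cast hmv.symm⟩
  exact Int.eq_one_of_dvd_one hv.le h1

/-- At a level without elliptic points of order `3`, every zero of `j` has order exactly `3`. -/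
theorem rg20_ord_zero (h3 : nuThree N = 0)
    (v : Place Kbar ↥(modularFunctionFieldBar N)) (hv : 0 < v.ord (rg20_j N)) :
    v.ord (rg20_j N) = 3 := by
  classical
  obtain ⟨D⟩ := wpA_nonempty_modularData N
  obtain ⟨ι, hι, hΓ⟩ := asmAb_exists_iota N D
  have hx : Transcendental Kbar (rg20_j N) := rg20_transcendental_j N
  have hιx : ι (rg20_j N) = D.jd 1 := hι 1 (one_dvd N)
  obtain ⟨hfin, hdeg⟩ := asmA_finrank N D ι (rg20_j N) ⟨JJ N, asmAb_JJ_mem N N dvd_rfl⟩ hιx
    (hι N dvd_rfl) hΓ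
  haveI := hfin
  have hfinC : Fintype (Cosets N) := Fintype.ofFinite _
  obtain ⟨-, h0, -, -⟩ := asmB_counts N D ι (rg20_j N) hx hιx hdeg hΓ
  obtain ⟨w, hw, hw1, hw2⟩ := D.ordZero
  have hle : ∀ u : Place Kbar ↥(modularFunctionFieldBar N), 0 < u.ord (rg20_j N) →
      u.ord (rg20_j N) ≤ ((3 : ℕ) : ℤ) := by
    intro u hu
    obtain ⟨m, hm, hmu⟩ := rg20_core_dvd (D := D) (ι := ι) hΓ (rg20_j N) hιx (rg20_j N) hx rfl
      (fun g => by rw [hιx, D.smul_jd_one]) w 3 (by norm_num) (by rw [hιx, hw]; rfl) u hu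
    nlinarith
  have hcount : 3 * Nat.card {u : Place Kbar ↥(modularFunctionFieldBar N) //
      0 < u.ord (rg20_j N)} = Module.finrank Kbar⟮rg20_j N⟯ ↥(modularFunctionFieldBar N) := by
    rw [h0, wp8_three_mul_numOrbits_ST N, h3, hdeg]
    have := Fermat.Agent.Lib.card_quotient_Gamma0 N
    simpa using this.symm
  have := rg20_ord_eq_of_count (rg20_j N) hx 3 hle hcount v hv
  exact_mod_cast this

/-- At a level without elliptic points of order `2`, every zero of `j - 1728` has order
exactly `2`. -/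
theorem rg20_ord_1728 (h2 : nuTwo N = 0)
    (v : Place Kbar ↥(modularFunctionFieldBar N))
    (hv : 0 < v.ord (rg20_j N - algebraMap Kbar ↥(modularFunctionFieldBar N) 1728)) :
    v.ord (rg20_j N - algebraMap Kbar ↥(modularFunctionFieldBar N) 1728) = 2 := by
  classical
  obtain ⟨D⟩ := wpA_nonempty_modularData N
  obtain ⟨ι, hι, hΓ⟩ := asmAb_exists_iota N D
  have hx : Transcendental Kbar (rg20_j N) := rg20_transcendental_j N
  have hιx : ι (rg20_j N) = D.jd 1 := hι 1 (one_dvd N)
  obtain ⟨hfin, hdeg⟩ := asmA_finrank N D ι (rg20_j N) ⟨JJ N, asmAb_JJ_mem N N dvd_rfl⟩ hιx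
    (hι N dvd_rfl) hΓ
  haveI := hfin
  have hfinC : Fintype (Cosets N) := Fintype.ofFinite _
  obtain ⟨-, -, h1728, -⟩ := asmB_counts N D ι (rg20_j N) hx hιx hdeg hΓ
  obtain ⟨w, hw, hw1, hw2⟩ := D.ordI
  have hyx := asmB_adjoin_sub (K := Kbar) (rg20_j N) 1728
  haveI hfd : FiniteDimensional
      Kbar⟮rg20_j N - algebraMap Kbar ↥(modularFunctionFieldBar N) 1728⟯
      ↥(modularFunctionFieldBar N) := by
    rw [hyx]
    infer_instance
  have hy := asmB_transcendental_sub hx (1728 : Kbar)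
  have hle : ∀ u : Place Kbar ↥(modularFunctionFieldBar N),
      0 < u.ord (rg20_j N - algebraMap Kbar ↥(modularFunctionFieldBar N) 1728) →
      u.ord (rg20_j N - algebraMap Kbar ↥(modularFunctionFieldBar N) 1728) ≤ ((2 : ℕ) : ℤ) := by
    intro u hu
    obtain ⟨m, hm, hmu⟩ := rg20_core_dvd (D := D) (ι := ι) hΓ (rg20_j N) hιx
      (rg20_j N - algebraMap Kbar ↥(modularFunctionFieldBar N) 1728) hy hyx
      (asmB_smul_sub D ι (rg20_j N) hιx 1728) w 2 (by norm_num)
      (by rw [map_sub, hιx, AlgHom.commutes, hw]; rfl) u hu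
    nlinarith
  have hcount : 2 * Nat.card {u : Place Kbar ↥(modularFunctionFieldBar N) //
      0 < u.ord (rg20_j N - algebraMap Kbar ↥(modularFunctionFieldBar N) 1728)} =
      Module.finrank Kbar⟮rg20_j N - algebraMap Kbar ↥(modularFunctionFieldBar N) 1728⟯
        ↥(modularFunctionFieldBar N) := by
    have hfr : Module.finrank
        Kbar⟮rg20_j N - algebraMap Kbar ↥(modularFunctionFieldBar N) 1728⟯
        ↥(modularFunctionFieldBar N) =
        Module.finrank Kbar⟮rg20_j N⟯ ↥(modularFunctionFieldBar N) := by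
      rw [hyx]
    rw [hfr, h1728, wp8_two_mul_numOrbits_S N, h2, hdeg]
    have := Fermat.Agent.Lib.card_quotient_Gamma0 N
    simpa using this.symm
  have := rg20_ord_eq_of_count _ hy 2 hle hcount v hv
  exact_mod_cast this

end Level

/-! ### Unramifiedness of level change at non-cuspidal places -/

/-- A `ℚ̄`-embedding of the function field of a rigid level `N` into that of a rigid level `N'`
which maps `j` to `j` is unramified at every place of level `N'` which is not a pole of `j`. -/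
theorem rg20_unram_of_map_j (N N' : ℕ) [NeZero N] [NeZero N']
    (h2 : nuTwo N = 0) (h3 : nuThree N = 0) (h2' : nuTwo N' = 0) (h3' : nuThree N' = 0)
    (φ : ↥(modularFunctionFieldBar N) →ₐ[Kbar] ↥(modularFunctionFieldBar N'))
    (hφ : φ.toRingHom.IsIntegral) (hφj : φ (rg20_j N) = rg20_j N')
    (w : Place Kbar ↥(modularFunctionFieldBar N')) (hw : 0 ≤ w.ord (rg20_j N')) :
    Place.ramificationIndexAlong φ w = 1 := by
  classical
  obtain ⟨D⟩ := wpA_nonempty_modularData N'
  obtain ⟨ι, hι, hΓ⟩ := asmAb_exists_iota N' D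
  have hx' : Transcendental Kbar (rg20_j N') := rg20_transcendental_j N'
  have hιx : ι (rg20_j N') = D.jd 1 := hι 1 (one_dvd N')
  obtain ⟨hfin, -⟩ := asmA_finrank N' D ι (rg20_j N') ⟨JJ N', asmAb_JJ_mem N' N' dvd_rfl⟩ hιx
    (hι N' dvd_rfl) hΓ
  haveI := hfin
  have hmem : rg20_j N' ∈ w.toValuationSubring := (wp1_mem_iff_ord_nonneg w _).mpr hw
  obtain ⟨a, ha⟩ := wp1_exists_const (rg20_j N') hx' w (rg20_j N') hmem
  have hpos : 0 < w.ord (rg20_j N' - algebraMap Kbar ↥(modularFunctionFieldBar N') a) := by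
    rcases ha with ha | ha
    · exact absurd (ha ▸ isAlgebraic_algebraMap a) hx'
    · exact ha
  have hmap : φ (rg20_j N - algebraMap Kbar ↥(modularFunctionFieldBar N) a) =
      rg20_j N' - algebraMap Kbar ↥(modularFunctionFieldBar N') a := by
    rw [map_sub, hφj, AlgHom.commutes]
  have hram := Place.ord_restrictAlong φ hφ w
    (rg20_j N - algebraMap Kbar ↥(modularFunctionFieldBar N) a)
  rw [hmap] at hram
  set e : ℕ := Place.ramificationIndexAlong φ w with he
  set t : ℤ := (w.restrictAlong φ hφ).ord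
    (rg20_j N - algebraMap Kbar ↥(modularFunctionFieldBar N) a) with ht
  have htpos : 0 < t := by
    by_contra hcon
    have h1 : (e : ℤ) * t ≤ 0 :=
      mul_nonpos_of_nonneg_of_nonpos (by exact_mod_cast Nat.zero_le e) (not_lt.mp hcon)
    linarith
  -- the common value of the two orders
  have key : ∀ c : ℤ, w.ord (rg20_j N' - algebraMap Kbar ↥(modularFunctionFieldBar N') a) = c →
      t = c → 0 < c → e = 1 := by
    intro c h1 h2 hc
    rw [h1, h2] at hram
    have h3 : ((e : ℤ) - 1) * c = 0 := by linarith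
    rcases mul_eq_zero.mp h3 with h4 | h4
    · have : (e : ℤ) = 1 := by linarith
      exact_mod_cast this
    · omega
  by_cases ha0 : a = 0
  · subst ha0
    have e1 := rg20_ord_zero N' h3' w (by simpa using hpos)
    have e2 := rg20_ord_zero N h3 (w.restrictAlong φ hφ) (by simpa [ht] using htpos)
    exact key 3 (by simpa using e1) (by simpa [ht] using e2) (by norm_num)
  by_cases ha1 : a = 1728
  · subst ha1
    exact key 2 (rg20_ord_1728 N' h2' w hpos) (rg20_ord_1728 N h2 _ htpos) (by norm_num)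
  · exact key 1 (rg20_ord_generic N' a ha0 ha1 w hpos) (rg20_ord_generic N a ha0 ha1 _ htpos)
      (by norm_num)

/-- `heckeAlphaBar` (the inclusion of the function field of level `N` into that of level
`N * ℓ`) is unramified at every non-cuspidal place, when `N` has no elliptic points. -/
theorem rg20_alpha_unram (N ℓ : ℕ) [NeZero N] [NeZero ℓ]
    (h2 : nuTwo N = 0) (h3 : nuThree N = 0)
    (hα : HeckeAlphaBarIntegral Kbar N ℓ)
    (w : Place Kbar ↥(modularFunctionFieldBar (N * ℓ))) (hw : 0 ≤ w.ord (rg20_j (N * ℓ))) :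
    Place.ramificationIndexAlong (heckeAlphaBar Kbar N ℓ) w = 1 :=
  rg20_unram_of_map_j N (N * ℓ) h2 h3 (rg20_nuTwo_of_dvd (dvd_mul_right N ℓ) h2)
    (rg20_nuThree_of_dvd (dvd_mul_right N ℓ) h3) (heckeAlphaBar Kbar N ℓ) hα
    (Subtype.ext (by rw [coe_heckeAlphaBar]; rfl)) w hw

/-- The same with the rigidity supplied by a prime `r = 11 mod 12` dividing the level. -/
theorem rg20_alpha_unram_prime (N ℓ r : ℕ) [NeZero N] [NeZero ℓ]
    (hr : r.Prime) (hr12 : r % 12 = 11) (hrN : r ∣ N)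
    (hα : HeckeAlphaBarIntegral Kbar N ℓ)
    (w : Place Kbar ↥(modularFunctionFieldBar (N * ℓ))) (hw : 0 ≤ w.ord (rg20_j (N * ℓ))) :
    Place.ramificationIndexAlong (heckeAlphaBar Kbar N ℓ) w = 1 :=
  rg20_alpha_unram N ℓ (rg20_nuTwo_eq_zero hr hr12 hrN) (rg20_nuThree_eq_zero hr hr12 hrN) hα w hw

end Fermat.Agent.S36
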