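import Fermat.Agent.S36.C2Uniform16
import Fermat.Agent.S36.CoordGood27
import Fermat.Agent.S36.MidBind62
import Fermat.Agent.S36.Rigid20

/-!
# S36 lab, row 600 (C-C2), helper16: `s36i62j_Reg2` IS A THEOREM (uniform coordinate route)

`c2f16_Reg2 : s36i62j_Reg2` (`MidBind62`, the architect's closed statement of row 600 for the
Hauptmodul of level 2): on the canonical frame of level `M' q²` (`π = q`,
`V₂ = v2g64_V2 (algebraMap K ℚ̄) M' q hq hM' hπ (Associated.refl _)`), at every closed point of the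
two charts `{h₂}`, `{h₂⁻¹}` lying on the middle branch only at which `j` is regular, the middle
branch is principal (`mc25_MidPrinAt`).  NO open hypothesis.

Proof: `c2u16_hreg_level2` / `c2u16_hreg_level2_inv` (`C2Uniform16`, the route-B composite) with
the coordinate package `cg27_coord_level2` / `cg27_coord_level2_inv` (helper27, `CoordGood27`) at
the good level `M'`, and `nuTwo M' = nuThree M' = 0` from the strongly rigid level
(`rg20_nuTwo_eq_zero`, `rg20_nuThree_eq_zero`: a prime `r ≡ 11 mod 12` divides `M'`).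

All names are prefixed `c2f16_`.
-/

set_option autoImplicit false
set_option linter.unusedSectionVars false
set_option linter.unusedVariables false
set_option linter.style.haveILetI false
set_option linter.style.longLine false

open ModularCurve AlgebraicCurve

namespace Fermat.Agent.S36

open Fermat.Agent.S34 Fermat.Agent.S18 Fermat.Agent.S24 Fermat.Agent.S35
open Fermat.Agent.S36.TripleLoc71

local notation "Q̄" => AlgebraicClosure ℚ

/-- **Row 600, Hauptmodul of level 2: PROVED** (the statement `s36i62j_Reg2` of `MidBind62`). -/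
theorem c2f16_Reg2 : s36i62j_Reg2 := by
  intro M' q r _ _ hq hM' hrig h2 R K _ _ _ _ _ _ _ _ _ _ hπ hunit
  haveI : Algebra.IsAlgebraic K Q̄ := fs85_isAlgebraic K
  letI a0 : Algebra R ↥(modularFunctionFieldFullC K M') :=
    ((algebraMap K ↥(modularFunctionFieldFullC K M')).comp (algebraMap R K)).toAlgebra
  haveI t0 : IsScalarTower R K ↥(modularFunctionFieldFullC K M') :=
    IsScalarTower.of_algebraMap_eq (fun _ => rfl)
  letI a1 : Algebra R ↥(modularFunctionFieldFullC K (M' * q)) :=
    ((algebraMap K ↥(modularFunctionFieldFullC K (M' * q))).comp (algebraMap R K)).toAlgebra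
  haveI t1 : IsScalarTower R K ↥(modularFunctionFieldFullC K (M' * q)) :=
    IsScalarTower.of_algebraMap_eq (fun _ => rfl)
  have hMu : IsUnit ((M' : ℕ) : R) :=
    hunit M' (Nat.Coprime.symm ((Nat.Prime.coprime_iff_not_dvd hq).mpr hM'))
  obtain ⟨-, -, hr, hr12, hrq, hrN⟩ := hrig
  have hrM : r ∣ M' := (Nat.Coprime.dvd_mul_right ((Nat.coprime_primes hr hq).mpr hrq)).mp hrN
  have h2M : nuTwo M' = 0 := rg20_nuTwo_eq_zero hr hr12 hrM
  have h3M : nuThree M' = 0 := rg20_nuThree_eq_zero hr hr12 hrM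
  have hqπ' : ∃ u₀ : R, ((q : ℕ) : R) = ((q : ℕ) : R) * u₀ := ⟨1, (mul_one _).symm⟩
  have hc1 : c2u16_Coord M' ((q : ℕ) : R)
      (pk15_chart R ({pk85_h2 K M' h2} : Set ↥(modularFunctionFieldFullC K M'))) := by
    intro n₀ hn₀ hπn₀
    haveI := hn₀
    obtain ⟨x, -, hθ, -, hD⟩ := cg27_coord_level2 K M' hπ q hq hqπ' hMu h2 n₀ hπn₀
    exact ⟨x, hθ, hD⟩
  have hc2 : c2u16_Coord M' ((q : ℕ) : R)
      (pk15_chart R ({(pk85_h2 K M' h2)⁻¹} : Set ↥(modularFunctionFieldFullC K M'))) := by
    intro n₀ hn₀ hπn₀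
    haveI := hn₀
    obtain ⟨x, -, hθ, -, hD⟩ := cg27_coord_level2_inv K M' hπ q hq hqπ' hMu h2 n₀ hπn₀
    exact ⟨x, hθ, hD⟩
  exact ⟨c2u16_hreg_level2 M' q hq hM' hπ (Associated.refl _) hunit h2 h2M h3M hc1,
    c2u16_hreg_level2_inv M' q hq hM' hπ (Associated.refl _) hunit h2 h2M h3M hc2⟩

end Fermat.Agent.S36
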