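import Mathlib
import Fermat.Agent.S36.MidBind62

/-!
# S36 lab, rows 600/601 (helper55): `q = 2` — the middle branch is REDUCED, so the weak
middle-branch statement is pure saturation

For `q = 2` the middle valuation `V₂` of level `M' q q` has `v₂(s) ^ (q - 1) = v₂(s) = v₂(π)`:
`π` is a uniformiser of `V₂` and the middle component is reduced.  At a closed point `n` of a
saturated chart `B ⊆ V₁ ⊓ V₂ ⊓ V₃` lying on the middle branch only, the branch is therefore cut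
out by `π` itself: with `t₁, t₃ ∉ n`, `π⁻¹ t₁ ∈ V₁`, `π⁻¹ t₃ ∈ V₃`, every `y ∈ p₂` has
`t₁ t₃ y ∈ π B` by saturation.  No Kronecker congruence, no Hauptmodul units, no condition on
`j`, cusps included.

* `mid2x55_prinAt` : abstract: `mc25_MidPrinAt σ B V₂ n` (generator `π`) at a prime `n ∋ π` off
  the branches `V₁`, `V₃`, when `y σ⁻¹ ∈ V₂ → π⁻¹ y ∈ V₂`;
* `mid2x55_Mid3 : s36i62h_Mid3` (HP1Bind62, helper62) — CLOSED, no hypothesis;
* `mid2x55_Reg3 : s36i62j_Reg3` (MidBind62, helper62) — CLOSED, no hypothesis.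

So in `s36i62h_top` / `s36i62j_top` the third argument (the case `q = 2`, Hauptmodul of level 3)
is `mid2x55_Mid3` / `mid2x55_Reg3`.  All names are prefixed `mid2x55_`.
-/

set_option autoImplicit false
set_option linter.unusedSectionVars false
set_option linter.unusedVariables false
set_option linter.style.haveILetI false
set_option linter.style.longLine false

open ModularCurve AlgebraicCurve CongruenceSubgroup Polynomial

namespace Fermat.Agent.S36

open Fermat.Agent.S34 Fermat.Agent.S18 Fermat.Agent.S24 Fermat.Agent.S35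
open Fermat.Agent.S36.TripleLoc71

local notation "Q̄" => AlgebraicClosure ℚ

section Abs

variable {R F : Type*} [CommRing R] [Field F] [Algebra R F]

/-- **A branch with uniformiser `π` is cut out by `π` off the two other branches** (saturated
chart): `mc25_MidPrinAt σ B V₂ n` with generator `π`, whenever `y σ⁻¹ ∈ V₂ → π⁻¹ y ∈ V₂`. -/
theorem mid2x55_prinAt (π : R) (hπ0 : algebraMap R F π ≠ 0) (σ : F) (B : Subalgebra R F)
    (V₁ V₂ V₃ : Subring F)
    (hB₁ : ∀ x ∈ B, x ∈ V₁) (hB₂ : ∀ x ∈ B, x ∈ V₂) (hB₃ : ∀ x ∈ B, x ∈ V₃)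
    (hsat : ∀ x ∈ B, (algebraMap R F π)⁻¹ * x ∈ V₁ → (algebraMap R F π)⁻¹ * x ∈ V₂ →
      (algebraMap R F π)⁻¹ * x ∈ V₃ → (algebraMap R F π)⁻¹ * x ∈ B)
    (hσπ : ∀ y : F, y * σ⁻¹ ∈ V₂ → (algebraMap R F π)⁻¹ * y ∈ V₂)
    (n : Ideal B) [hn : n.IsPrime] (hπn : algebraMap R B π ∈ n)
    (h1 : ¬ sf79_OnBr π B V₁ n) (h3 : ¬ sf79_OnBr π B V₃ n) :
    mc25_MidPrinAt σ B V₂ n := by
  obtain ⟨t₁, ht₁⟩ := not_forall.mp h1
  obtain ⟨ht₁V, ht₁n⟩ := Classical.not_imp.mp ht₁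
  obtain ⟨t₃, ht₃⟩ := not_forall.mp h3
  obtain ⟨ht₃V, ht₃n⟩ := Classical.not_imp.mp ht₃
  refine ⟨algebraMap R B π, t₁ * t₃, fun h => (hn.mem_or_mem h).elim ht₁n ht₃n, hπn, ?_⟩
  intro y hy
  have hyV := hσπ _ hy
  have hmem : (t₁ : F) * (t₃ : F) * (y : F) ∈ B := B.mul_mem (B.mul_mem t₁.2 t₃.2) y.2
  have c1 : (algebraMap R F π)⁻¹ * ((t₁ : F) * (t₃ : F) * (y : F)) ∈ V₁ := by
    have e1 : (algebraMap R F π)⁻¹ * ((t₁ : F) * (t₃ : F) * (y : F))
        = ((algebraMap R F π)⁻¹ * (t₁ : F)) * ((t₃ : F) * (y : F)) := by ring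
    rw [e1]
    exact mul_mem ht₁V (mul_mem (hB₁ _ t₃.2) (hB₁ _ y.2))
  have c2 : (algebraMap R F π)⁻¹ * ((t₁ : F) * (t₃ : F) * (y : F)) ∈ V₂ := by
    have e1 : (algebraMap R F π)⁻¹ * ((t₁ : F) * (t₃ : F) * (y : F))
        = ((t₁ : F) * (t₃ : F)) * ((algebraMap R F π)⁻¹ * (y : F)) := by ring
    rw [e1]
    exact mul_mem (mul_mem (hB₂ _ t₁.2) (hB₂ _ t₃.2)) hyV
  have c3 : (algebraMap R F π)⁻¹ * ((t₁ : F) * (t₃ : F) * (y : F)) ∈ V₃ := by
    have e1 : (algebraMap R F π)⁻¹ * ((t₁ : F) * (t₃ : F) * (y : F))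
        = ((algebraMap R F π)⁻¹ * (t₃ : F)) * ((t₁ : F) * (y : F)) := by ring
    rw [e1]
    exact mul_mem ht₃V (mul_mem (hB₃ _ t₁.2) (hB₃ _ y.2))
  refine ⟨⟨_, hsat _ hmem c1 c2 c3⟩, Subtype.ext ?_⟩
  show (t₁ : F) * (t₃ : F) * (y : F)
    = (algebraMap R F π)⁻¹ * ((t₁ : F) * (t₃ : F) * (y : F)) * algebraMap R F π
  field_simp

end Abs

/-- **`s36i62h_Mid3` (HP1Bind62) is a theorem**: for `q = 2` the middle branch is principal
(generator `π = 2`) at EVERY closed point of the two canonical charts of the Hauptmodul of level 3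
lying on the middle branch only. -/
theorem mid2x55_Mid3 : s36i62h_Mid3 := by
  intro M' q r _ _ hq hM' hrig hq2 h3 R K _ _ _ _ _ _ _ _ _ _ hπ hunit
  haveI : Algebra.IsAlgebraic K Q̄ := fs85_isAlgebraic K
  have hqR : ¬ IsUnit ((q : ℕ) : R) := hπ.not_isUnit
  have hMu : IsUnit ((M' : ℕ) : R) :=
    hunit M' (Nat.Coprime.symm ((Nat.Prime.coprime_iff_not_dvd hq).mpr hM'))
  have hV₂ := v2g64_V2_alpha (algebraMap K Q̄) M' q hq hM' hπ (Associated.refl _)
  have hπ₂ := v2g64_V2_pi (algebraMap K Q̄) M' q hq hM' hπ (Associated.refl _)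
  have hs := v2g64_V2_val (algebraMap K Q̄) M' q hq hM' hπ (Associated.refl _)
  obtain ⟨-, hC, -⟩ := fb85_frameV3_level3 M' q hq hM' hπ hqR hMu h3 _ hV₂ hπ₂ hs
  obtain ⟨-, h12W, hsat1, hsat2, -⟩ := hC
  have e : algebraMap R ↥(modularFunctionFieldFullC K (M' * q * q)) ((q : ℕ) : R) =
      algebraMap K ↥(modularFunctionFieldFullC K (M' * q * q)) (algebraMap R K ((q : ℕ) : R)) :=
    IsScalarTower.algebraMap_apply R K _ _
  have hπ0 : algebraMap R ↥(modularFunctionFieldFullC K (M' * q * q)) ((q : ℕ) : R) ≠ 0 := by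
    intro h0
    apply hπ₂
    rw [← e, h0, inv_zero]
    exact zero_mem _
  have hq1 : q - 1 = 1 := by omega
  rw [hq1, pow_one, ← e] at hs
  have hσπ : ∀ y : ↥(modularFunctionFieldFullC K (M' * q * q)),
      y * (v2g64_s K M' q)⁻¹ ∈ (v2g64_V2 (algebraMap K Q̄) M' q hq hM' hπ (Associated.refl _)).toSubring →
      (algebraMap R ↥(modularFunctionFieldFullC K (M' * q * q)) ((q : ℕ) : R))⁻¹ * y ∈ (v2g64_V2 (algebraMap K Q̄) M' q hq hM' hπ (Associated.refl _)).toSubring := by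
    intro y hy
    have hy' : (v2g64_V2 (algebraMap K Q̄) M' q hq hM' hπ (Associated.refl _)).valuation (y * (v2g64_s K M' q)⁻¹) ≤ 1 :=
      (ValuationSubring.valuation_le_one_iff _ _).mpr hy
    rw [map_mul, map_inv₀, hs] at hy'
    show (algebraMap R ↥(modularFunctionFieldFullC K (M' * q * q)) ((q : ℕ) : R))⁻¹ * y ∈ (v2g64_V2 (algebraMap K Q̄) M' q hq hM' hπ (Associated.refl _))
    rw [← ValuationSubring.valuation_le_one_iff, map_mul, map_inv₀]
    exact le_of_eq_of_le (mul_comm _ _) hy'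
  have hsub1 : ({(pk85_h3 K (M' * q * q) (h3.trans ((dvd_mul_right M' q).trans (dvd_mul_right (M' * q) q))))} : Set ↥(modularFunctionFieldFullC K (M' * q * q))) ⊆ {(pk85_h3 K (M' * q * q) (h3.trans ((dvd_mul_right M' q).trans (dvd_mul_right (M' * q) q)))), (pk85_h3 K (M' * q * q) (h3.trans ((dvd_mul_right M' q).trans (dvd_mul_right (M' * q) q))))⁻¹} := by
    intro x hx
    rw [Set.mem_singleton_iff.mp hx]
    exact Set.mem_insert _ _
  have hsub2 : ({(pk85_h3 K (M' * q * q) (h3.trans ((dvd_mul_right M' q).trans (dvd_mul_right (M' * q) q))))⁻¹} : Set ↥(modularFunctionFieldFullC K (M' * q * q))) ⊆ {(pk85_h3 K (M' * q * q) (h3.trans ((dvd_mul_right M' q).trans (dvd_mul_right (M' * q) q)))), (pk85_h3 K (M' * q * q) (h3.trans ((dvd_mul_right M' q).trans (dvd_mul_right (M' * q) q))))⁻¹} := by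
    intro x hx
    rw [Set.mem_singleton_iff.mp hx]
    exact Set.mem_insert_of_mem _ rfl
  refine ⟨fun n hn hπn hmid hn1 hn3 => ?_, fun n hn hπn hmid hn1 hn3 => ?_⟩
  ·
    haveI := hn.isPrime
    exact mid2x55_prinAt ((q : ℕ) : R) hπ0 (v2g64_s K M' q) _ _ _ _
      (fun x hx => (Subring.mem_inf.mp (Subring.mem_inf.mp (h12W x (pk15_chart_mono hsub1 hx))).1).1)
      (fun x hx => (Subring.mem_inf.mp (Subring.mem_inf.mp (h12W x (pk15_chart_mono hsub1 hx))).1).2)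
      (fun x hx => (Subring.mem_inf.mp (h12W x (pk15_chart_mono hsub1 hx))).2)
      (fun x hx c1 c2 c3 => hsat1 x hx (Subring.mem_inf.mpr ⟨Subring.mem_inf.mpr ⟨c1, c2⟩, c3⟩))
      hσπ n hπn hn1 hn3
  ·
    haveI := hn.isPrime
    exact mid2x55_prinAt ((q : ℕ) : R) hπ0 (v2g64_s K M' q) _ _ _ _
      (fun x hx => (Subring.mem_inf.mp (Subring.mem_inf.mp (h12W x (pk15_chart_mono hsub2 hx))).1).1)
      (fun x hx => (Subring.mem_inf.mp (Subring.mem_inf.mp (h12W x (pk15_chart_mono hsub2 hx))).1).2)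
      (fun x hx => (Subring.mem_inf.mp (h12W x (pk15_chart_mono hsub2 hx))).2)
      (fun x hx c1 c2 c3 => hsat2 x hx (Subring.mem_inf.mpr ⟨Subring.mem_inf.mpr ⟨c1, c2⟩, c3⟩))
      hσπ n hπn hn1 hn3

/-- **`s36i62j_Reg3` (MidBind62) is a theorem** (the `j`-regularity hypothesis is not used). -/
theorem mid2x55_Reg3 : s36i62j_Reg3 := by
  intro M' q r _ _ hq hM' hrig hq2 h3 R K _ _ _ _ _ _ _ _ _ _ hπ hunit
  obtain ⟨hA, hB⟩ := mid2x55_Mid3 M' q r hq hM' hrig hq2 h3 R K hπ hunit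
  exact ⟨fun n hn hπn hmid hn1 hn3 _ => hA n hn hπn hmid hn1 hn3,
    fun n hn hπn hmid hn1 hn3 _ => hB n hn hπn hmid hn1 hn3⟩

end Fermat.Agent.S36
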