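import Fermat.Agent.S36.NormFov78
import Fermat.Agent.S36.AbvBind66
import Fermat.Agent.S36.BetaV2_66
import Fermat.Agent.S36.OnlyThree72

/-!
# S36 lab (helper94): the GLOBAL norm facts of (HP-3) on the canonical level-`q²` frame, in the
literal shapes of `gcd26_datum_triple` / `gc26_triple` (`d = q - 1`)

Canonical frame (`R` a DVR with fraction field `K ⊆ ℚ̄`, `q` prime, `q ∤ M'`):
`Vinf = cm85_Vinf (M' * q) hπ`, `V0 = s34i47c_V0 M' q hq hM' hπ` (level `M' q`),
`V1 = cm85_Vinf (M' * q * q) hπ`, `V3 = nsb86_V3 M' q hq hM' hπ` (level `M' q²`),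
`al = al97L_alpha K (M' * q) q`, `be = al97L_beta K (M' * q) q`,
`Nal = s35i62_normA K (M' * q) q`, `Nbe = s35i62_normB K (M' * q) q`.
The middle valuation `V₂` is a PARAMETER with the facts of `ob72_ram` (`hV₂ hπ₂ hne s hs`).

* `ng94_hal3` : `V0.valuation x < 1 → V3.valuation (al x) < 1`;
* `ng94_hbe1` : `Vinf.valuation x < 1 → V1.valuation (be x) < 1`;
* `ng94_N1` : `c ∈ V1`, `c ∈ V₂` : `∀ y1 y2, V1.valuation (al y1 - c) < 1 →
  V₂.valuation (al y2 - c) < 1 → Vinf.valuation (Nal c - y1 * y2 ^ (q - 1)) < 1`;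
* `ng94_N2` : `c ∈ V3` : `V3.valuation (al (Nal c) - c ^ (q - 1 + 1)) < 1`;
* `ng94_N4` : `c ∈ V3`, `c ∈ V₂` : `∀ y3 y2, V3.valuation (be y3 - c) < 1 →
  V₂.valuation (be y2 - c) < 1 → V0.valuation (Nbe c - y3 * y2 ^ (q - 1)) < 1`;
* `ng94_N3` : `c ∈ V1` : `V1.valuation (be (Nbe c) - c ^ (q - 1 + 1)) < 1`;
* `ng94_w2_stable` : `V₂` is stable under `w₂ = als86_w2` (the hypothesis `hw2` of
  `nfv78_ram_beta`), from the `ob72_ram` facts alone.

Sources: `nfv78_*` (helper78), `nsb86_*_cong_nonunits` (helper86), `ab66_*`, `bv66_*` (helper66),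
`o3x72_V2_stable` (helper72).  All names are prefixed `ng94_`.
-/

set_option autoImplicit false
set_option linter.style.haveILetI false
set_option linter.unusedSectionVars false
set_option linter.unusedVariables false
set_option linter.style.longLine false

open ModularCurve AlgebraicCurve IntermediateField
open Fermat.Agent.S24 Fermat.Agent.S28 Fermat.Agent.S18 Fermat.Agent.S37 Fermat.Agent.S34
open Fermat.Agent.S42 Fermat.Agent.S35

namespace Fermat.Agent.S36

section ng94_frame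

variable {R K : Type} [CommRing R] [IsDomain R] [IsDiscreteValuationRing R] [Field K]
  [Algebra R K] [IsFractionRing R K] [Algebra K Kbar]
  (M' q : ℕ) [NeZero M'] [NeZero q] (hq : q.Prime) (hM' : ¬ q ∣ M')

/-- `hal3` of `gcd26_datum_triple`. -/
theorem ng94_hal3 {π : R} (hπ : Irreducible π)
    (x : ↥(modularFunctionFieldFullC K (M' * q)))
    (hx : (s34i47c_V0 (K := K) M' q hq hM' hπ).valuation x < 1) :
    (nsb86_V3 M' q hq hM' hπ).valuation (al97L_alpha K (M' * q) q x) < 1 := by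
  rw [← ValuationSubring.mem_nonunits_iff] at hx ⊢
  exact (nfv78_nonunits_iff (al97L_alpha K (M' * q) q).toRingHom
    (s34i47c_V0 (K := K) M' q hq hM' hπ) (nsb86_V3 M' q hq hM' hπ)
    (fun x => nfv78_alpha_mem_V3_iff M' q hq hM' hπ x) x).mpr hx

/-- `hbe1` of `gcd26_datum_triple`. -/
theorem ng94_hbe1 {π : R} (hπ : Irreducible π)
    (x : ↥(modularFunctionFieldFullC K (M' * q)))
    (hx : (cm85_Vinf (K := K) (M' * q) hπ).valuation x < 1) :
    (cm85_Vinf (K := K) (M' * q * q) hπ).valuation (al97L_beta K (M' * q) q x) < 1 := by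
  rw [← ValuationSubring.mem_nonunits_iff] at hx ⊢
  exact (nfv78_nonunits_iff (al97L_beta K (M' * q) q).toRingHom
    (cm85_Vinf (K := K) (M' * q) hπ) (cm85_Vinf (K := K) (M' * q * q) hπ)
    (fun x => al97V_beta_mem_Vinf (M' * q) q hπ x) x).mpr hx

/-- `V₂` is stable under `w₂` (hypothesis `hw2` of `nfv78_ram_beta`). -/
theorem ng94_w2_stable {π : R} (hπ : Irreducible π) (hqR : ¬ IsUnit (q : R))
    (V₂ : ValuationSubring ↥(modularFunctionFieldFullC K (M' * q * q)))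
    (hV₂ : ∀ c ∈ cm85_Vinf (K := K) (M' * q) hπ, al97L_alpha K (M' * q) q c ∈ V₂)
    (hπ₂ : (algebraMap K ↥(modularFunctionFieldFullC K (M' * q * q)) (algebraMap R K π))⁻¹ ∉ V₂)
    (hne : cm85_Vinf (K := K) (M' * q * q) hπ ≠ V₂)
    (s : ↥(modularFunctionFieldFullC K (M' * q * q)))
    (hs : V₂.valuation s ^ (q - 1) =
      V₂.valuation (algebraMap K ↥(modularFunctionFieldFullC K (M' * q * q)) (algebraMap R K π))) :
    ∀ x ∈ V₂, als86_w2 (algebraMap K Kbar) M' q hq hM' (nsb86_hL K (M' * q * q)) x ∈ V₂ := by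
  haveI : CharZero K := RingHom.charZero (algebraMap K Kbar)
  intro x hx
  exact (o3x72_V2_stable (K := K) M' q hq hM' hπ hqR (nsb86_hL K (M' * q * q)) V₂ hV₂ hπ₂ hne s hs
    (bv66_E2 (K := K) M' q hq hM' hπ hqR (nsb86_hL K (M' * q * q)) V₂ hV₂ hπ₂ hne) x).mp hx

include hq in
/-- `hN1` of `gcd26_datum_triple` (`d = q - 1`) for every `c ∈ V1 ⊓ V₂`. -/
theorem ng94_N1 {π : R} (hπ : Irreducible π)
    (V₂ : ValuationSubring ↥(modularFunctionFieldFullC K (M' * q * q)))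
    (hV₂ : ∀ c ∈ cm85_Vinf (K := K) (M' * q) hπ, al97L_alpha K (M' * q) q c ∈ V₂)
    (hπ₂ : (algebraMap K ↥(modularFunctionFieldFullC K (M' * q * q)) (algebraMap R K π))⁻¹ ∉ V₂)
    (hne : cm85_Vinf (K := K) (M' * q * q) hπ ≠ V₂)
    (s : ↥(modularFunctionFieldFullC K (M' * q * q)))
    (hs : V₂.valuation s ^ (q - 1) =
      V₂.valuation (algebraMap K ↥(modularFunctionFieldFullC K (M' * q * q)) (algebraMap R K π)))
    (c : ↥(modularFunctionFieldFullC K (M' * q * q)))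
    (hc1 : c ∈ cm85_Vinf (K := K) (M' * q * q) hπ) (hc2 : c ∈ V₂) :
    ∀ y1 y2 : ↥(modularFunctionFieldFullC K (M' * q)),
      (cm85_Vinf (K := K) (M' * q * q) hπ).valuation (al97L_alpha K (M' * q) q y1 - c) < 1 →
      V₂.valuation (al97L_alpha K (M' * q) q y2 - c) < 1 →
      (cm85_Vinf (K := K) (M' * q) hπ).valuation
        (s35i62_normA K (M' * q) q c - y1 * y2 ^ (q - 1)) < 1 := by
  haveI : CharZero K := RingHom.charZero (algebraMap K Kbar)
  intro y1 y2 h1 h2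
  have h1' : al97L_alpha K (M' * q) q y1 - c ∈ (cm85_Vinf (K := K) (M' * q * q) hπ).nonunits :=
    (ValuationSubring.mem_nonunits_iff _).mpr h1
  have h2' : al97L_alpha K (M' * q) q y2 - c ∈ V₂.nonunits :=
    (ValuationSubring.mem_nonunits_iff _).mpr h2
  have hy1 : y1 ∈ cm85_Vinf (K := K) (M' * q) hπ := by
    refine (ab66_hal1 (K := K) M' q hπ y1).mp ?_
    have e : al97L_alpha K (M' * q) q y1 = (al97L_alpha K (M' * q) q y1 - c) + c := by ring
    rw [e]
    exact (cm85_Vinf (K := K) (M' * q * q) hπ).add_mem _ _ (nfv78_mem_of_nonunits _ _ h1') hc1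
  have hy2 : y2 ∈ cm85_Vinf (K := K) (M' * q) hπ := by
    refine (ab66_hal2 (K := K) M' q hπ V₂ hV₂ hπ₂ y2).mp ?_
    have e : al97L_alpha K (M' * q) q y2 = (al97L_alpha K (M' * q) q y2 - c) + c := by ring
    rw [e]
    exact V₂.add_mem _ _ (nfv78_mem_of_nonunits _ _ h2') hc2
  have h1'' : c - al97L_alpha K (M' * q) q y1 ∈
      (cm85_Vinf (K := K) (M' * q * q) hπ).nonunits := by
    have e : c - al97L_alpha K (M' * q) q y1 = -(al97L_alpha K (M' * q) q y1 - c) := by ring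
    rw [e]
    exact nfv78_nonunits_neg _ _ h1'
  have h2'' : c - al97L_alpha K (M' * q) q y2 ∈ V₂.nonunits := by
    have e : c - al97L_alpha K (M' * q) q y2 = -(al97L_alpha K (M' * q) q y2 - c) := by ring
    rw [e]
    exact nfv78_nonunits_neg _ _ h2'
  exact (ValuationSubring.mem_nonunits_iff _).mp
    (nfv78_ram_alpha (K := K) M' q hq hπ V₂ hV₂ hπ₂ hne s hs c hc1 hc2 y1 hy1 y2 hy2 h1'' h2'')

/-- `hN2` of `gcd26_datum_triple` (`d = q - 1`) for every `c ∈ V3`. -/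
theorem ng94_N2 {π : R} (hπ : Irreducible π) (hqR : ¬ IsUnit (q : R))
    (c : ↥(modularFunctionFieldFullC K (M' * q * q)))
    (hc3 : c ∈ nsb86_V3 M' q hq hM' hπ) :
    (nsb86_V3 M' q hq hM' hπ).valuation
      (al97L_alpha K (M' * q) q (s35i62_normA K (M' * q) q c) - c ^ (q - 1 + 1)) < 1 := by
  have h1 : al97L_alpha K (M' * q) q (s35i62_normA K (M' * q) q c) - c ^ q ∈
      (nsb86_V3 M' q hq hM' hπ).nonunits := nsb86_alpha_cong_nonunits M' q hq hM' hπ hqR c hc3
  rw [Nat.sub_add_cancel hq.one_le]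
  exact (ValuationSubring.mem_nonunits_iff _).mp h1

/-- `hN4` of `gcd26_datum_triple` (`d = q - 1`) for every `c ∈ V3 ⊓ V₂`. -/
theorem ng94_N4 {π : R} (hπ : Irreducible π) (hqR : ¬ IsUnit (q : R))
    (V₂ : ValuationSubring ↥(modularFunctionFieldFullC K (M' * q * q)))
    (hV₂ : ∀ c ∈ cm85_Vinf (K := K) (M' * q) hπ, al97L_alpha K (M' * q) q c ∈ V₂)
    (hπ₂ : (algebraMap K ↥(modularFunctionFieldFullC K (M' * q * q)) (algebraMap R K π))⁻¹ ∉ V₂)
    (hne : cm85_Vinf (K := K) (M' * q * q) hπ ≠ V₂)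
    (s : ↥(modularFunctionFieldFullC K (M' * q * q)))
    (hs : V₂.valuation s ^ (q - 1) =
      V₂.valuation (algebraMap K ↥(modularFunctionFieldFullC K (M' * q * q)) (algebraMap R K π)))
    (c : ↥(modularFunctionFieldFullC K (M' * q * q)))
    (hc3 : c ∈ nsb86_V3 M' q hq hM' hπ) (hc2 : c ∈ V₂) :
    ∀ y3 y2 : ↥(modularFunctionFieldFullC K (M' * q)),
      (nsb86_V3 M' q hq hM' hπ).valuation (al97L_beta K (M' * q) q y3 - c) < 1 →
      V₂.valuation (al97L_beta K (M' * q) q y2 - c) < 1 →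
      (s34i47c_V0 (K := K) M' q hq hM' hπ).valuation
        (s35i62_normB K (M' * q) q c - y3 * y2 ^ (q - 1)) < 1 := by
  haveI : CharZero K := RingHom.charZero (algebraMap K Kbar)
  intro y3 y2 h1 h2
  have hw2 := ng94_w2_stable (K := K) M' q hq hM' hπ hqR V₂ hV₂ hπ₂ hne s hs
  have h1' : al97L_beta K (M' * q) q y3 - c ∈ (nsb86_V3 M' q hq hM' hπ).nonunits :=
    (ValuationSubring.mem_nonunits_iff _).mpr h1
  have h2' : al97L_beta K (M' * q) q y2 - c ∈ V₂.nonunits :=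
    (ValuationSubring.mem_nonunits_iff _).mpr h2
  have hy3 : y3 ∈ s34i47c_V0 (K := K) M' q hq hM' hπ := by
    refine (ab66_hbe3 (K := K) M' q hq hM' hπ (nsb86_hL K (M' * q * q))
      (nsb86_V3 M' q hq hM' hπ) (fun x => nsb86_mem_V3 M' q hq hM' hπ x) y3).mp ?_
    have e : al97L_beta K (M' * q) q y3 = (al97L_beta K (M' * q) q y3 - c) + c := by ring
    rw [e]
    exact (nsb86_V3 M' q hq hM' hπ).add_mem _ _ (nfv78_mem_of_nonunits _ _ h1') hc3
  have hy2 : y2 ∈ s34i47c_V0 (K := K) M' q hq hM' hπ := by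
    refine (bv66_beta_mem_V2 (K := K) M' q hq hM' hπ hqR (nsb86_hL K (M' * q * q)) V₂ hV₂ hπ₂
      hne y2).mp ?_
    have e : al97L_beta K (M' * q) q y2 = (al97L_beta K (M' * q) q y2 - c) + c := by ring
    rw [e]
    exact V₂.add_mem _ _ (nfv78_mem_of_nonunits _ _ h2') hc2
  have h1'' : c - al97L_beta K (M' * q) q y3 ∈ (nsb86_V3 M' q hq hM' hπ).nonunits := by
    have e : c - al97L_beta K (M' * q) q y3 = -(al97L_beta K (M' * q) q y3 - c) := by ring
    rw [e]
    exact nfv78_nonunits_neg _ _ h1'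
  have h2'' : c - al97L_beta K (M' * q) q y2 ∈ V₂.nonunits := by
    have e : c - al97L_beta K (M' * q) q y2 = -(al97L_beta K (M' * q) q y2 - c) := by ring
    rw [e]
    exact nfv78_nonunits_neg _ _ h2'
  exact (ValuationSubring.mem_nonunits_iff _).mp
    (nfv78_ram_beta (K := K) M' q hq hM' hπ V₂ hV₂ hπ₂ hne s hs hw2 c hc3 hc2 y3 hy3 y2 hy2
      h1'' h2'')

include hq hM' in
/-- `hN3` of `gcd26_datum_triple` (`d = q - 1`) for every `c ∈ V1`. -/
theorem ng94_N3 {π : R} (hπ : Irreducible π) (hqR : ¬ IsUnit (q : R))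
    (c : ↥(modularFunctionFieldFullC K (M' * q * q)))
    (hc1 : c ∈ cm85_Vinf (K := K) (M' * q * q) hπ) :
    (cm85_Vinf (K := K) (M' * q * q) hπ).valuation
      (al97L_beta K (M' * q) q (s35i62_normB K (M' * q) q c) - c ^ (q - 1 + 1)) < 1 := by
  have h1 : al97L_beta K (M' * q) q (s35i62_normB K (M' * q) q c) - c ^ q ∈
      (cm85_Vinf (K := K) (M' * q * q) hπ).nonunits :=
    nsb86_beta_cong_nonunits M' q hq hM' hπ hqR c hc1
  rw [Nat.sub_add_cancel hq.one_le]
  exact (ValuationSubring.mem_nonunits_iff _).mp h1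

end ng94_frame

end Fermat.Agent.S36
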