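import Fermat.Agent.S36.NormSqBeta86
import Fermat.Agent.S35.NewToricFrame35

/-!
# S36 lab (helper86): the reductions `r₁`, `r₃` at level `M' q²` and the norm formulas
(N2), (N3) + restriction identities (I2) in the `ntf35_red` language

Canonical frame: `R` a DVR, `K = Frac R ⊆ ℚ̄`, residue characteristic `q`, `q ∤ M'`.
`F₁ = F_K(M' q)`, `F₂ = F_K(M' q²)`, `α₂`, `β₂ : F₁ → F₂`, `w` the Atkin–Lehner involution of
`F₁`, `w₂ = als86_w2` that of `F₂`; `κ = R/𝔪`.  Reductions (total functions into `κ((Q))`):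

* `r_∞' = ntf35_red R (M' * q)`, `r_0' = ntf35_red0 R M' q hq hM' = r_∞' ∘ w` (level `M' q`);
* `r₁ = ntf35_red R (M' * q * q)` (on `V₁ = cm85_Vinf (M' * q * q)`),
  `r₃ = nsr86_red3 = r₁ ∘ w₂` (on `V₃ = nsb86_V3`).

Results (`V = qExpand κ q`, i.e. `Q ↦ Q^q`):

* `nsr86_beta_mem`, `nsr86_mem_of_beta_mem` : `β₂ x ∈ V₁ ↔ x ∈ V_∞'` (`V₁` lies over `V_∞'`
  along `β₂`);  `nsr86_alpha_mem_V3_iff` : `α₂ x ∈ V₃ ↔ x ∈ V_0'`;
* (I2) `nsr86_red1_alpha : r₁ (α₂ h) = r_∞' h`, `nsr86_red1_beta : r₁ (β₂ h) = V (r_∞' h)`,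
  `nsr86_red3_alpha : r₃ (α₂ h) = V (r_0' h)`, `nsr86_red3_beta : r₃ (β₂ h) = r_0' h`;
* (N3) `nsr86_N3 : V (r_∞' (Nm_{β₂} y)) = r₁ y ^ q` for `y ∈ V₁`, with
  `nsr86_norm_beta_mem : Nm_{β₂} y ∈ V_∞'`;
* (N2) `nsr86_N2 : V (r_0' (Nm_{α₂} y)) = r₃ y ^ q` for `y ∈ V₃`, with
  `nsr86_norm_alpha_mem : w (Nm_{α₂} y) ∈ V_∞'`.

These are literally `N2`, `N3`, `h3al`, `h1be` of `ab94_main` / `tb50_main` for the two outer
branches.  All names are prefixed `nsr86_`.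
-/

set_option autoImplicit false
set_option linter.style.haveILetI false
set_option linter.unusedSectionVars false

open ModularCurve AlgebraicCurve IntermediateField
open Fermat.Agent.S24 Fermat.Agent.S28 Fermat.Agent.S18 Fermat.Agent.S37 Fermat.Agent.S34
open Fermat.Agent.S42 Fermat.Agent.S35

namespace Fermat.Agent.S36

section nsr86

variable {R K : Type} [CommRing R] [IsDomain R] [IsDiscreteValuationRing R] [Field K]
  [Algebra R K] [IsFractionRing R K] [Algebra K Kbar]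
  (M' q : ℕ) [NeZero M'] [NeZero q] (hq : q.Prime) (hM' : ¬ q ∣ M')

omit [Algebra K Kbar] in
/-- `β₂` maps `V_∞(M' q)` into `V₁ = V_∞(M' q²)`. -/
theorem nsr86_beta_mem {π : R} (hπ : Irreducible π) (x : ↥(modularFunctionFieldFullC K (M' * q)))
    (hx : x ∈ cm85_Vinf (K := K) (M' * q) hπ) :
    al97L_beta K (M' * q) q x ∈ cm85_Vinf (K := K) (M' * q * q) hπ :=
  tv84_qExpand_mem_G (IsLocalRing.residue R) q _ hx

omit [Algebra K Kbar] in
/-- `V₁` lies over `V_∞(M' q)` along `β₂`: `β₂ x ∈ V₁ → x ∈ V_∞(M' q)`. -/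
theorem nsr86_mem_of_beta_mem {π : R} (hπ : Irreducible π)
    (x : ↥(modularFunctionFieldFullC K (M' * q)))
    (hx : al97L_beta K (M' * q) q x ∈ cm85_Vinf (K := K) (M' * q * q) hπ) :
    x ∈ cm85_Vinf (K := K) (M' * q) hπ := by
  by_contra hx'
  have hxi : x⁻¹ ∈ cm85_Vinf (K := K) (M' * q) hπ :=
    ((cm85_Vinf (K := K) (M' * q) hπ).mem_or_inv_mem x).resolve_left hx'
  have h1 := gv85_hmax (IsLocalRing.residue R) π (pk85_res_iff hπ) hπ.ne_zero _
    (pk85_HF K (M' * q) hπ) x⁻¹ hxi (by rw [inv_inv]; exact hx')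
  have h2 := nsr86_beta_mem M' q hπ _ h1
  rw [map_mul, map_inv₀, map_inv₀, AlgHom.commutes] at h2
  have h3 := (cm85_Vinf (K := K) (M' * q * q) hπ).mul_mem _ _ h2 hx
  have hβ0 : al97L_beta K (M' * q) q x ≠ 0 := by
    intro h0
    have hx0 : x = 0 := (map_eq_zero (al97L_beta K (M' * q) q)).mp h0
    exact hx' (hx0 ▸ (cm85_Vinf (K := K) (M' * q) hπ).zero_mem)
  rw [inv_mul_cancel_right₀ hβ0] at h3
  exact gv85_pi_inv_not_mem (IsLocalRing.residue R) π (pk85_res_iff hπ) hπ.ne_zero _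
    (pk85_HF K (M' * q * q) hπ) h3

/-- `V₃` lies over `V_0(M' q)` along `α₂`: `α₂ x ∈ V₃ ↔ w x ∈ V_∞(M' q)`. -/
theorem nsr86_alpha_mem_V3_iff {π : R} (hπ : Irreducible π)
    (x : ↥(modularFunctionFieldFullC K (M' * q))) :
    al97L_alpha K (M' * q) q x ∈ nsb86_V3 M' q hq hM' hπ ↔
      al97L_w (algebraMap K Kbar) M' q hq hM' x ∈ cm85_Vinf (K := K) (M' * q) hπ := by
  rw [nsb86_mem_V3, als86_w2_alpha]
  exact ⟨nsr86_mem_of_beta_mem M' q hπ _, nsr86_beta_mem M' q hπ _⟩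

variable (R) in
/-- The reduction at `V₃`: `r₃ = r₁ ∘ w₂`. -/
noncomputable def nsr86_red3 (x : ↥(modularFunctionFieldFullC K (M' * q * q))) :
    LaurentSeries (IsLocalRing.ResidueField R) :=
  ntf35_red R (M' * q * q)
    (als86_w2 (algebraMap K Kbar) M' q hq hM' (nsb86_hL K (M' * q * q)) x)

omit [Algebra K Kbar] in
/-- (I2) `r₁ (α₂ h) = r_∞' h`. -/
theorem nsr86_red1_alpha (h : ↥(modularFunctionFieldFullC K (M' * q))) :
    ntf35_red R (M' * q * q) (al97L_alpha K (M' * q) q h) = ntf35_red R (M' * q) h :=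
  ntf35_red_congr_level _ _ _ _ (al97L_alpha_coe K (M' * q) q h)

omit [Algebra K Kbar] in
/-- (I2) `r₁ (β₂ h) = V (r_∞' h)` for `h ∈ V_∞'`. -/
theorem nsr86_red1_beta {π : R} (hπ : Irreducible π)
    (h : ↥(modularFunctionFieldFullC K (M' * q)))
    (hh : h ∈ cm85_Vinf (K := K) (M' * q) hπ) :
    ntf35_red R (M' * q * q) (al97L_beta K (M' * q) q h) =
      qExpand (IsLocalRing.ResidueField R) q (ntf35_red R (M' * q) h) :=
  ntf35_redS_qExpand q hh

/-- (I2) `r₃ (α₂ h) = V (r_0' h)` for `h ∈ V_0'`. -/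
theorem nsr86_red3_alpha {π : R} (hπ : Irreducible π)
    (h : ↥(modularFunctionFieldFullC K (M' * q)))
    (hh : al97L_w (algebraMap K Kbar) M' q hq hM' h ∈ cm85_Vinf (K := K) (M' * q) hπ) :
    nsr86_red3 R M' q hq hM' (al97L_alpha K (M' * q) q h) =
      qExpand (IsLocalRing.ResidueField R) q (ntf35_red0 R M' q hq hM' h) := by
  rw [nsr86_red3, als86_w2_alpha]
  exact nsr86_red1_beta M' q hπ _ hh

/-- (I2) `r₃ (β₂ h) = r_0' h`. -/
theorem nsr86_red3_beta (h : ↥(modularFunctionFieldFullC K (M' * q))) :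
    nsr86_red3 R M' q hq hM' (al97L_beta K (M' * q) q h) = ntf35_red0 R M' q hq hM' h := by
  rw [nsr86_red3, als86_w2_beta]
  exact nsr86_red1_alpha M' q _

omit [Algebra K Kbar] in
/-- The reduction is multiplicative on powers. -/
theorem nsr86_red_pow (M : ℕ) [NeZero M] {π : R} (hπ : Irreducible π)
    (x : ↥(modularFunctionFieldFullC K M)) (hx : x ∈ cm85_Vinf (K := K) M hπ) (n : ℕ) :
    ntf35_red R M (x ^ n) = ntf35_red R M x ^ n := by
  induction n with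
  | zero => rw [pow_zero, pow_zero]; exact ntf35_red_one M
  | succ n ih =>
    rw [pow_succ, pow_succ, ntf35_red_mul M hπ _ _ (pow_mem hx n) hx, ih]

include hq hM' in
/-- `Nm_{β₂} y ∈ V_∞(M' q)` for `y ∈ V₁`. -/
theorem nsr86_norm_beta_mem {π : R} (hπ : Irreducible π) (hqR : ¬ IsUnit (q : R))
    (y : ↥(modularFunctionFieldFullC K (M' * q * q)))
    (hy : y ∈ cm85_Vinf (K := K) (M' * q * q) hπ) :
    letI := algebraAlong (al97L_beta K (M' * q) q)
    Algebra.norm ↥(modularFunctionFieldFullC K (M' * q)) y ∈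
      cm85_Vinf (K := K) (M' * q) hπ := by
  letI := algebraAlong (al97L_beta K (M' * q) q)
  have h := nsb86_beta_cong M' q hq hM' hπ hqR y hy
  have h2 := (ntf35_red_cong (M' * q * q) hπ _ _ (pow_mem hy q) h).1
  exact nsr86_mem_of_beta_mem M' q hπ _ h2

include hq hM' in
/-- **(N3)**: `V (r_∞' (Nm_{β₂} y)) = r₁ y ^ q` for `y ∈ V₁`. -/
theorem nsr86_N3 {π : R} (hπ : Irreducible π) (hqR : ¬ IsUnit (q : R))
    (y : ↥(modularFunctionFieldFullC K (M' * q * q)))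
    (hy : y ∈ cm85_Vinf (K := K) (M' * q * q) hπ) :
    letI := algebraAlong (al97L_beta K (M' * q) q)
    qExpand (IsLocalRing.ResidueField R) q
        (ntf35_red R (M' * q) (Algebra.norm ↥(modularFunctionFieldFullC K (M' * q)) y)) =
      ntf35_red R (M' * q * q) y ^ q := by
  letI := algebraAlong (al97L_beta K (M' * q) q)
  have h := nsb86_beta_cong M' q hq hM' hπ hqR y hy
  have h2 := ntf35_red_cong (M' * q * q) hπ _ _ (pow_mem hy q) h
  rw [← nsr86_red1_beta M' q hπ _ (nsr86_norm_beta_mem M' q hq hM' hπ hqR y hy), h2.2,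
    nsr86_red_pow (M' * q * q) hπ y hy q]

/-- `Nm_{α₂} y ∈ V_0(M' q)` for `y ∈ V₃`: `w (Nm_{α₂} y) ∈ V_∞(M' q)`. -/
theorem nsr86_norm_alpha_mem {π : R} (hπ : Irreducible π) (hqR : ¬ IsUnit (q : R))
    (y : ↥(modularFunctionFieldFullC K (M' * q * q)))
    (hy : y ∈ nsb86_V3 M' q hq hM' hπ) :
    letI := algebraAlong (al97L_alpha K (M' * q) q)
    al97L_w (algebraMap K Kbar) M' q hq hM'
        (Algebra.norm ↥(modularFunctionFieldFullC K (M' * q)) y) ∈
      cm85_Vinf (K := K) (M' * q) hπ := by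
  have h1 := als86_norm_beta (algebraMap K Kbar) M' q hq hM' (nsb86_hL K (M' * q * q))
    (als86_w2 (algebraMap K Kbar) M' q hq hM' (nsb86_hL K (M' * q * q)) y)
  rw [als86_w2_w2] at h1
  have h3 := nsr86_norm_beta_mem M' q hq hM' hπ hqR
    (als86_w2 (algebraMap K Kbar) M' q hq hM' (nsb86_hL K (M' * q * q)) y) hy
  rw [h1] at h3
  exact h3

/-- **(N2)**: `V (r_0' (Nm_{α₂} y)) = r₃ y ^ q` for `y ∈ V₃`. -/
theorem nsr86_N2 {π : R} (hπ : Irreducible π) (hqR : ¬ IsUnit (q : R))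
    (y : ↥(modularFunctionFieldFullC K (M' * q * q)))
    (hy : y ∈ nsb86_V3 M' q hq hM' hπ) :
    letI := algebraAlong (al97L_alpha K (M' * q) q)
    qExpand (IsLocalRing.ResidueField R) q
        (ntf35_red0 R M' q hq hM' (Algebra.norm ↥(modularFunctionFieldFullC K (M' * q)) y)) =
      nsr86_red3 R M' q hq hM' y ^ q := by
  have h1 := als86_norm_beta (algebraMap K Kbar) M' q hq hM' (nsb86_hL K (M' * q * q))
    (als86_w2 (algebraMap K Kbar) M' q hq hM' (nsb86_hL K (M' * q * q)) y)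
  rw [als86_w2_w2] at h1
  have h3 := nsr86_N3 M' q hq hM' hπ hqR
    (als86_w2 (algebraMap K Kbar) M' q hq hM' (nsb86_hL K (M' * q * q)) y) hy
  rw [h1] at h3
  exact h3

end nsr86

end Fermat.Agent.S36
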