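import Mathlib
import Fermat.Agent.S34.SpecFibre79

/-!
# S36 lab, row B1-BOOK-ABS (helper63): abstract point bookkeeping for the level-`q²` frame

Abstract setting (one degeneracy map at a time): fields `K` (level `q`) and `L` (level `q²`), a
ring homomorphism `α : K →+* L` (the map `α^*` or `β^*`), charts `B' ≤ K`, `B ≤ L`
(subalgebras over the base `R`), `B'` integrally closed in `K`, `B` integral over `α B'`.

* `bk63_minpoly_scale`  : `minpoly K (c y) = (minpoly K y).scaleRoots c`.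
* `bk63_coeff_int`      : the coefficients of the minimal polynomial of an element integral over
  a subring `A` of `K` are integral over `A`.
* `bk63_going_down`     : **going-down in the chart language.**  `𝒱` a subring of `L` all of whose
  elements are integral over the valuation ring `V'` of `K` (the `IsIntegralElem` shape of
  `oe72_ram_main` / `oe72_inert_main`).  If the contraction of the prime `n` of `B` lies on the
  branch `V'`, then `B ∩ π 𝒱 ⊆ n`.
* `bk63_onBr_single`, `bk63_onBr_pair` : so `n` lies on the unique branch over `V'`, resp. on one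
  of the two branches over `V'`.
* `bk63_contract`       : the contraction of a point of the branch `V` lies on the branch `V'`.
* `bk63_unique`         : two points of a purely inseparable branch with the same contraction
  coincide.
* `bk63_exists_over`    : going-up: over a point of the branch `V'` there is a point of `V`.
* `bk63_over_node`      : a point over a level-`q` node is the only point over it and lies on all
  three branches.
* `bk63_triple`         : (two maps `α`, `β`) a point on two of the three branches lies on all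
  three, and is the only point over its `α`-image and over its `β`-image, which are nodes.
* `bk63_local_unit`     : if `n` is the only prime over its contraction `n'`, every `x ∈ B ∖ n`
  divides the image of some `s' ∈ B' ∖ n'`.
-/

set_option autoImplicit false

namespace Fermat.Agent.S36

open Polynomial Fermat.Agent.S34

section BK63Field

variable {K L : Type*} [Field K] [Field L]

/-- The minimal polynomial of `c y` (`c ≠ 0` in the base field) is the minimal polynomial of `y`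
with roots scaled by `c`. -/
theorem bk63_minpoly_scale [Algebra K L] (c : K) (hc : c ≠ 0) (y : L) (hy : IsIntegral K y) :
    minpoly K (algebraMap K L c * y) = (minpoly K y).scaleRoots c := by
  have hcy : IsIntegral K (algebraMap K L c * y) := (isIntegral_algebraMap).mul hy
  have hP' : ((minpoly K y).scaleRoots c).Monic := (monic_scaleRoots_iff c).2 (minpoly.monic hy)
  have h0 : aeval (algebraMap K L c * y) ((minpoly K y).scaleRoots c) = 0 :=
    scaleRoots_aeval_eq_zero (minpoly.aeval K y)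
  have hdvd : minpoly K (algebraMap K L c * y) ∣ (minpoly K y).scaleRoots c := minpoly.dvd K _ h0
  have h1 : aeval y ((minpoly K (algebraMap K L c * y)).scaleRoots c⁻¹) = 0 := by
    have h := scaleRoots_aeval_eq_zero (r := c⁻¹) (minpoly.aeval K (algebraMap K L c * y))
    have hc' : algebraMap K L c ≠ 0 := by simpa using hc
    have : algebraMap K L c⁻¹ * (algebraMap K L c * y) = y := by
      rw [map_inv₀, ← mul_assoc, inv_mul_cancel₀ hc', one_mul]
    rwa [this] at h
  have hdvd2 : minpoly K y ∣ (minpoly K (algebraMap K L c * y)).scaleRoots c⁻¹ :=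
    minpoly.dvd K _ h1
  have hne : (minpoly K (algebraMap K L c * y)).scaleRoots c⁻¹ ≠ 0 :=
    ((monic_scaleRoots_iff c⁻¹).2 (minpoly.monic hcy)).ne_zero
  have hdeg : ((minpoly K y).scaleRoots c).natDegree ≤
      (minpoly K (algebraMap K L c * y)).natDegree := by
    rw [natDegree_scaleRoots]
    have := natDegree_le_of_dvd hdvd2 hne
    rwa [natDegree_scaleRoots] at this
  exact (eq_of_monic_of_dvd_of_natDegree_le (minpoly.monic hcy) hP' hdvd hdeg).symm

/-- The coefficients of the minimal polynomial (over `K`) of an element of `L` which is integral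
over a ring `A → K` are integral over `A`. -/
theorem bk63_coeff_int [Algebra K L] {A : Type*} [CommRing A] (f : A →+* K) (x : L)
    (hx : ((algebraMap K L).comp f).IsIntegralElem x) (i : ℕ) :
    f.IsIntegralElem ((minpoly K x).coeff i) := by
  obtain ⟨p, hp, hpx⟩ := hx
  let _ : Algebra A K := f.toAlgebra
  have hxK : IsIntegral K x := by
    refine ⟨p.map f, hp.map f, ?_⟩
    rw [eval₂_map]; exact hpx
  have hdvd : minpoly K x ∣ p.map (algebraMap A K) := by
    refine minpoly.dvd K x ?_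
    rw [aeval_def, eval₂_map]; exact hpx
  exact isIntegral_coeff_of_dvd p (minpoly K x) hp (minpoly.monic hxK) hdvd i

end BK63Field

section BK63Chart

variable {R K L : Type*} [CommRing R] [Field K] [Field L] [Algebra R K] [Algebra R L]

/-- The restriction of `α` to the charts. -/
def bk63_res (α : K →+* L) (B' : Subalgebra R K) (B : Subalgebra R L)
    (hαB : ∀ x' ∈ B', α x' ∈ B) : B' →+* B where
  toFun x' := ⟨α x', hαB x' x'.2⟩
  map_one' := Subtype.ext (by simp)
  map_mul' x y := Subtype.ext (by simp)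
  map_zero' := Subtype.ext (by simp)
  map_add' x y := Subtype.ext (by simp)

@[simp] theorem bk63_res_coe (α : K →+* L) (B' : Subalgebra R K) (B : Subalgebra R L)
    (hαB : ∀ x' ∈ B', α x' ∈ B) (x' : B') : ((bk63_res α B' B hαB x' : B) : L) = α x' := rfl

/-- A valuation subring is integrally closed, in the `IsIntegralElem` shape. -/
theorem bk63_val_closed (V' : ValuationSubring K) (t : K)
    (ht : V'.subtype.IsIntegralElem t) : t ∈ V' := by
  have h : IsIntegral V' t := ht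
  obtain ⟨y, rfl⟩ := IsIntegrallyClosed.isIntegral_iff.1 h
  exact y.2

/-- **Going-down in the chart language.**  `B'` is integrally closed in `K`, `B` is integral over
`α B'`, every element of the subring `𝒱` of `L` is integral over `α V'`.  If the contraction of
the prime `n` of `B` lies on the branch `V'` (every `x' ∈ B' ∩ π V'` has `α x' ∈ n`), then
`B ∩ π 𝒱 ⊆ n`. -/
theorem bk63_going_down (α : K →+* L) (π : R)
    (hπα : α (algebraMap R K π) = algebraMap R L π) (hπ0 : algebraMap R K π ≠ 0)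
    (B' : Subalgebra R K) (B : Subalgebra R L) (hαB : ∀ x' ∈ B', α x' ∈ B)
    (hBint : ∀ x ∈ B, (α.comp (algebraMap B' K)).IsIntegralElem x)
    (hB'n : ∀ t : K, (algebraMap B' K).IsIntegralElem t → t ∈ B')
    (V' : ValuationSubring K) (hπV' : algebraMap R K π ∈ V')
    (𝒱 : Subring L) (h𝒱 : ∀ y ∈ 𝒱, (α.comp V'.subtype).IsIntegralElem y)
    (n : Ideal B) [hn : n.IsPrime]
    (hOn : sf79_OnBr π B' V'.toSubring (n.comap (bk63_res α B' B hαB))) :
    sf79_OnBr π B 𝒱 n := by
  intro x hx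
  let _ : Algebra K L := α.toAlgebra
  have hα : algebraMap K L = α := rfl
  set c : K := algebraMap R K π with hc
  set y : L := (algebraMap R L π)⁻¹ * (x : L) with hy
  have hπL : algebraMap R L π ≠ 0 := by
    rw [← hπα]; exact (map_ne_zero α).2 hπ0
  have hxy : (x : L) = algebraMap K L c * y := by
    rw [hα, hπα, hy, ← mul_assoc, mul_inv_cancel₀ hπL, one_mul]
  have hyV : (α.comp V'.subtype).IsIntegralElem y := h𝒱 y hx
  have hyint : IsIntegral K y := by
    obtain ⟨p, hp, hpy⟩ := hyV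
    refine ⟨p.map V'.subtype, hp.map _, ?_⟩
    rw [eval₂_map]; exact hpy
  have hQ : minpoly K (x : L) = (minpoly K y).scaleRoots c := by
    rw [hxy]; exact bk63_minpoly_scale c hπ0 y hyint
  -- coefficients of the minimal polynomial of `y` lie in `V'`
  have hcV : ∀ i, (minpoly K y).coeff i ∈ V' := fun i =>
    bk63_val_closed V' _ (bk63_coeff_int V'.subtype y hyV i)
  -- coefficients of the minimal polynomial of `x` lie in `B'`
  have haB : ∀ i, (minpoly K (x : L)).coeff i ∈ B' := fun i =>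
    hB'n _ (bk63_coeff_int (algebraMap B' K) (x : L) (hBint x x.2) i)
  set d := (minpoly K y).natDegree with hd
  have hdQ : (minpoly K (x : L)).natDegree = d := by rw [hQ, natDegree_scaleRoots]
  have hxint : IsIntegral K (x : L) := by
    rw [hxy]; exact isIntegral_algebraMap.mul hyint
  -- the lower coefficients lie in the contraction of `n`
  have hlow : ∀ i, i < d →
      (⟨α ((minpoly K (x : L)).coeff i), hαB _ (haB i)⟩ : B) ∈ n := by
    intro i hi
    have h1 : (algebraMap R K π)⁻¹ * (minpoly K (x : L)).coeff i ∈ V' := by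
      rw [hQ, coeff_scaleRoots]
      have : d - i = (d - i - 1) + 1 := by omega
      rw [← hd, this, pow_succ, ← hc]
      have h2 : c⁻¹ * ((minpoly K y).coeff i * (c ^ (d - i - 1) * c)) =
          (minpoly K y).coeff i * c ^ (d - i - 1) := by
        field_simp
      rw [h2]
      exact V'.mul_mem _ _ (hcV i) (pow_mem hπV' _)
    exact hOn ⟨_, haB i⟩ h1
  -- the equation of `x`
  have heq : (x : L) ^ d + ∑ i ∈ Finset.range d, α ((minpoly K (x : L)).coeff i) * (x : L) ^ i
      = 0 := by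
    have h := minpoly.aeval K (x : L)
    rw [aeval_eq_sum_range, hdQ, Finset.sum_range_succ] at h
    have hlead : (minpoly K (x : L)).coeff d = 1 := by
      rw [← hdQ]; exact (minpoly.monic hxint).coeff_natDegree
    rw [hlead, one_smul] at h
    rw [add_comm]
    simpa [Algebra.smul_def, hα] using h
  have hpow : x ^ d ∈ n := by
    have hsum : (∑ i ∈ Finset.range d,
        (⟨α ((minpoly K (x : L)).coeff i), hαB _ (haB i)⟩ : B) * x ^ i) ∈ n :=
      n.sum_mem fun i hi => n.mul_mem_right _ (hlow i (Finset.mem_range.1 hi))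
    have : x ^ d = - ∑ i ∈ Finset.range d,
        (⟨α ((minpoly K (x : L)).coeff i), hαB _ (haB i)⟩ : B) * x ^ i := by
      apply Subtype.ext
      have h3 : (x : L) ^ d = - ∑ i ∈ Finset.range d,
          α ((minpoly K (x : L)).coeff i) * (x : L) ^ i := eq_neg_of_add_eq_zero_left heq
      simpa using h3
    rw [this]; exact n.neg_mem hsum
  exact hn.mem_of_pow_mem d hpow

/-- Going-down for a pair of branches over `V'`: a prime whose contraction lies on `V'` lies on
`V₁` or on `V₂`, as soon as every element of `V₁ ⊓ V₂` is integral over `α V'`. -/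
theorem bk63_onBr_pair (α : K →+* L) (π : R)
    (hπα : α (algebraMap R K π) = algebraMap R L π) (hπ0 : algebraMap R K π ≠ 0)
    (B' : Subalgebra R K) (B : Subalgebra R L) (hαB : ∀ x' ∈ B', α x' ∈ B)
    (hBint : ∀ x ∈ B, (α.comp (algebraMap B' K)).IsIntegralElem x)
    (hB'n : ∀ t : K, (algebraMap B' K).IsIntegralElem t → t ∈ B')
    (V' : ValuationSubring K) (hπV' : algebraMap R K π ∈ V')
    (V₁ V₂ : Subring L) (hBV₁ : ∀ x ∈ B, x ∈ V₁) (hBV₂ : ∀ x ∈ B, x ∈ V₂)
    (h𝒱 : ∀ y : L, y ∈ V₁ → y ∈ V₂ → (α.comp V'.subtype).IsIntegralElem y)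
    (n : Ideal B) [hn : n.IsPrime]
    (hOn : sf79_OnBr π B' V'.toSubring (n.comap (bk63_res α B' B hαB))) :
    sf79_OnBr π B V₁ n ∨ sf79_OnBr π B V₂ n := by
  by_contra hcon
  rw [not_or] at hcon
  obtain ⟨h1, h2⟩ := hcon
  simp only [sf79_OnBr, not_forall] at h1 h2
  obtain ⟨x₁, hx₁, hx₁n⟩ := h1
  obtain ⟨x₂, hx₂, hx₂n⟩ := h2
  have hgd := bk63_going_down α π hπα hπ0 B' B hαB hBint hB'n V' hπV' (V₁ ⊓ V₂)
    (fun y hy => h𝒱 y hy.1 hy.2) n hOn
  have hmem : (algebraMap R L π)⁻¹ * ((x₁ * x₂ : B) : L) ∈ V₁ ⊓ V₂ := by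
    refine ⟨?_, ?_⟩
    · have : (algebraMap R L π)⁻¹ * ((x₁ * x₂ : B) : L) =
          ((algebraMap R L π)⁻¹ * (x₁ : L)) * (x₂ : L) := by push_cast; ring
      rw [this]; exact V₁.mul_mem hx₁ (hBV₁ _ x₂.2)
    · have : (algebraMap R L π)⁻¹ * ((x₁ * x₂ : B) : L) =
          (x₁ : L) * ((algebraMap R L π)⁻¹ * (x₂ : L)) := by push_cast; ring
      rw [this]; exact V₂.mul_mem (hBV₂ _ x₁.2) hx₂
  exact (hn.mem_or_mem (hgd _ hmem)).elim hx₁n hx₂n

/-- The contraction of a point of the branch `V` (over `V'`) lies on the branch `V'`. -/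
theorem bk63_contract (α : K →+* L) (π : R)
    (hπα : α (algebraMap R K π) = algebraMap R L π)
    (B' : Subalgebra R K) (B : Subalgebra R L) (hαB : ∀ x' ∈ B', α x' ∈ B)
    (V' : Subring K) (V : Subring L) (hVV' : ∀ t ∈ V', α t ∈ V)
    (n : Ideal B) (hOn : sf79_OnBr π B V n) :
    sf79_OnBr π B' V' (n.comap (bk63_res α B' B hαB)) := by
  intro x' hx'
  rw [Ideal.mem_comap]
  apply hOn
  have := hVV' _ hx'
  rwa [map_mul, map_inv₀, hπα] at this

/-- **Uniqueness on a purely inseparable branch.**  If every `x ∈ B` has `x ^ q ≡ α b` modulo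
`π V` for some `b ∈ B'` (norm formula (N2): `b = N x`), then a point of the branch `V` is
determined by its contraction. -/
theorem bk63_unique_le (α : K →+* L) (π : R)
    (B' : Subalgebra R K) (B : Subalgebra R L) (hαB : ∀ x' ∈ B', α x' ∈ B)
    (V : Subring L) (q : ℕ) (hq0 : 0 < q)
    (hq : ∀ x : B, ∃ b : B', (algebraMap R L π)⁻¹ * ((x : L) ^ q - α b) ∈ V)
    (n₁ n₂ : Ideal B) [hn₂ : n₂.IsPrime]
    (h1 : sf79_OnBr π B V n₁) (h2 : sf79_OnBr π B V n₂)
    (hc : n₁.comap (bk63_res α B' B hαB) ≤ n₂.comap (bk63_res α B' B hαB)) : n₁ ≤ n₂ := by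
  intro x hx
  obtain ⟨b, hb⟩ := hq x
  have hz : (algebraMap R L π)⁻¹ * ((x ^ q - bk63_res α B' B hαB b : B) : L) ∈ V := by
    simpa using hb
  have hz₁ := h1 _ hz
  have hz₂ := h2 _ hz
  have hb₁ : bk63_res α B' B hαB b ∈ n₁ := by
    have : bk63_res α B' B hαB b = x ^ q - (x ^ q - bk63_res α B' B hαB b) := by ring
    rw [this]; exact n₁.sub_mem (n₁.pow_mem_of_mem hx q hq0) hz₁
  have hb₂ : bk63_res α B' B hαB b ∈ n₂ := hc hb₁
  have hxq : x ^ q ∈ n₂ := by
    have : x ^ q = (x ^ q - bk63_res α B' B hαB b) + bk63_res α B' B hαB b := by ring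
    rw [this]; exact n₂.add_mem hz₂ hb₂
  exact hn₂.mem_of_pow_mem q hxq

theorem bk63_unique (α : K →+* L) (π : R)
    (B' : Subalgebra R K) (B : Subalgebra R L) (hαB : ∀ x' ∈ B', α x' ∈ B)
    (V : Subring L) (q : ℕ) (hq0 : 0 < q)
    (hq : ∀ x : B, ∃ b : B', (algebraMap R L π)⁻¹ * ((x : L) ^ q - α b) ∈ V)
    (n₁ n₂ : Ideal B) [n₁.IsPrime] [n₂.IsPrime]
    (h1 : sf79_OnBr π B V n₁) (h2 : sf79_OnBr π B V n₂)
    (hc : n₁.comap (bk63_res α B' B hαB) = n₂.comap (bk63_res α B' B hαB)) : n₁ = n₂ :=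
  le_antisymm (bk63_unique_le α π B' B hαB V q hq0 hq n₁ n₂ h1 h2 hc.le)
    (bk63_unique_le α π B' B hαB V q hq0 hq n₂ n₁ h2 h1 hc.ge)

/-- `B` is integral over `B'` along the restriction of `α`. -/
theorem bk63_isIntegral (α : K →+* L) (B' : Subalgebra R K) (B : Subalgebra R L)
    (hαB : ∀ x' ∈ B', α x' ∈ B)
    (hBint : ∀ x ∈ B, (α.comp (algebraMap B' K)).IsIntegralElem x) :
    @Algebra.IsIntegral B' B _ _ (bk63_res α B' B hαB).toAlgebra := by
  let _ : Algebra B' B := (bk63_res α B' B hαB).toAlgebra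
  refine ⟨fun x => ?_⟩
  obtain ⟨p, hp, hpx⟩ := hBint x x.2
  refine ⟨p, hp, ?_⟩
  apply Subtype.ext
  have h := Polynomial.hom_eval₂ p (bk63_res α B' B hαB) (B.val : B →+* L) x
  have hcomp : (B.val : B →+* L).comp (bk63_res α B' B hαB) = α.comp (algebraMap B' K) := by
    ext x'; rfl
  rw [hcomp] at h
  have h' : ((eval₂ (bk63_res α B' B hαB) x p : B) : L) = eval₂ (α.comp (algebraMap B' K)) (x : L) p :=
    h
  exact h'.trans hpx

/-- **Going-up to a branch.**  Over a prime `n'` of `B'` on the branch `V'` (with uniformiser `π`)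
there is a prime of `B` on the branch `V`, for every valuation ring `V ⊇ B` of `L` over `V'`. -/
theorem bk63_exists_over (α : K →+* L) (π : R)
    (B' : Subalgebra R K) (B : Subalgebra R L) (hαB : ∀ x' ∈ B', α x' ∈ B)
    (hBint : ∀ x ∈ B, (α.comp (algebraMap B' K)).IsIntegralElem x)
    (V' : ValuationSubring K) (hB'V' : ∀ x ∈ B', x ∈ V')
    (hmax : ∀ x ∈ V', x⁻¹ ∉ V' → (algebraMap R K π)⁻¹ * x ∈ V')
    (V : ValuationSubring L) (hBV : ∀ x ∈ B, x ∈ V) (hVV' : ∀ t ∈ V', α t ∈ V)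
    (hπV : (algebraMap R L π)⁻¹ ∉ V)
    (n' : Ideal B') [hn' : n'.IsPrime] (hOn' : sf79_OnBr π B' V'.toSubring n') :
    ∃ Q : Ideal B, Q.IsPrime ∧ Q.comap (bk63_res α B' B hαB) = n' ∧
      sf79_OnBr π B V.toSubring Q := by
  let _ : Algebra B' B := (bk63_res α B' B hαB).toAlgebra
  have _ : Algebra.IsIntegral B' B := bk63_isIntegral α B' B hαB hBint
  -- the branch prime of `V` in `B`
  let incl : B →+* V := (B.val : B →+* L).codRestrict V (fun x => hBV x x.2)
  let P : Ideal B := Ideal.comap incl (IsLocalRing.maximalIdeal V)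
  have hP : ∀ x : B, x ∈ P ↔ V.valuation (x : L) < 1 := fun x =>
    V.valuation_lt_one_iff (incl x)
  have hIP : P.comap (algebraMap B' B) ≤ n' := by
    intro x' hx'
    have hx'' : V.valuation (α x') < 1 := (hP _).1 hx'
    by_cases hx0 : (x' : K) = 0
    · have : x' = 0 := Subtype.ext hx0
      rw [this]; exact n'.zero_mem
    · apply hOn' x'
      refine hmax _ (hB'V' _ x'.2) ?_
      intro hinv
      have h1 : V.valuation (α (x' : K)⁻¹) ≤ 1 := (V.valuation_le_one_iff _).2 (hVV' _ hinv)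
      have hne : α (x' : K) ≠ 0 := (map_ne_zero α).2 hx0
      have h2 : V.valuation (α x') * V.valuation (α (x' : K)⁻¹) = 1 := by
        rw [← map_mul, map_inv₀, mul_inv_cancel₀ hne, map_one]
      have h3 : V.valuation (α x') * V.valuation (α (x' : K)⁻¹) < 1 :=
        mul_lt_one_of_lt_of_le hx'' h1
      exact absurd h2 (ne_of_lt h3)
  obtain ⟨Q, hPQ, hQ, hQc⟩ := Ideal.exists_ideal_over_prime_of_isIntegral n' P hIP
  refine ⟨Q, hQ, hQc, ?_⟩
  intro x hx
  apply hPQ
  rw [hP]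
  have hπlt : V.valuation (algebraMap R L π) < 1 := by
    by_contra h
    rw [not_lt] at h
    apply hπV
    rw [← V.valuation_le_one_iff, map_inv₀]
    exact inv_le_one_of_one_le₀ h
  have hπne : algebraMap R L π ≠ 0 := by
    intro h0
    apply hπV
    rw [h0, inv_zero]; exact V.zero_mem
  have hx1 : V.valuation ((algebraMap R L π)⁻¹ * (x : L)) ≤ 1 := (V.valuation_le_one_iff _).2 hx
  have hxe : (x : L) = algebraMap R L π * ((algebraMap R L π)⁻¹ * (x : L)) := by
    rw [← mul_assoc, mul_inv_cancel₀ hπne, one_mul]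
  rw [hxe, map_mul]
  exact mul_lt_one_of_lt_of_le hπlt hx1

/-- **Local units over a totally ramified/inseparable point.**  If `n` is the only prime of `B`
with contraction `n' = n ∩ B'`, then every `x ∈ B ∖ n` divides the image of some `s' ∈ B' ∖ n'`
(so `B_n` is the localisation of `B` at `B' ∖ n'`, and norms of units of `B_n` are units of
`B'_{n'}`). -/
theorem bk63_local_unit (α : K →+* L) (B' : Subalgebra R K) (B : Subalgebra R L)
    (hαB : ∀ x' ∈ B', α x' ∈ B)
    (hBint : ∀ x ∈ B, (α.comp (algebraMap B' K)).IsIntegralElem x)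
    (n : Ideal B) [hn : n.IsPrime]
    (huniq : ∀ n₂ : Ideal B, n₂.IsPrime →
      n₂.comap (bk63_res α B' B hαB) = n.comap (bk63_res α B' B hαB) → n₂ = n)
    (x : B) (hx : x ∉ n) :
    ∃ (z : B) (s' : B'), bk63_res α B' B hαB s' ∉ n ∧ x * z = bk63_res α B' B hαB s' := by
  let _ : Algebra B' B := (bk63_res α B' B hαB).toAlgebra
  have _ : Algebra.IsIntegral B' B := bk63_isIntegral α B' B hαB hBint
  by_contra hcon
  push Not at hcon
  let n' : Ideal B' := n.comap (bk63_res α B' B hαB)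
  have hn' : n'.IsPrime := Ideal.comap_isPrime _ _
  let S : Submonoid B := n'.primeCompl.map (bk63_res α B' B hαB)
  have hdisj : Disjoint ((Ideal.span {x} : Ideal B) : Set B) (S : Set B) := by
    rw [Set.disjoint_left]
    rintro a ha ⟨s', hs', rfl⟩
    obtain ⟨z, hz⟩ := Ideal.mem_span_singleton'.1 ha
    exact hcon z s' hs' (by rw [mul_comm]; exact hz)
  obtain ⟨P, hP, hxP, hPS⟩ := Ideal.exists_le_prime_disjoint _ S hdisj
  have hIP : P.comap (algebraMap B' B) ≤ n' := by
    intro s' hs'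
    by_contra hs'n
    exact Set.disjoint_left.1 hPS hs' ⟨s', hs'n, rfl⟩
  obtain ⟨Q, hPQ, hQ, hQc⟩ := Ideal.exists_ideal_over_prime_of_isIntegral n' P hIP
  have hQn : Q = n := huniq Q hQ hQc
  exact hx (hQn ▸ hPQ (hxP (Ideal.subset_span (Set.mem_singleton x))))

/-- The data of one degeneracy map `α : K → L` between the level-`q` frame (`B'`, branches
`Va'`, `Vc'`) and the level-`q²` frame (`B`, branches `V₁`, `V₂` over `Va'` and the purely
inseparable branch `V₃`, the only one over `Vc'`). -/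
structure bk63_Data (α : K →+* L) (π : R) (B' : Subalgebra R K) (B : Subalgebra R L)
    (Va' Vc' : ValuationSubring K) (V₁ V₂ V₃ : ValuationSubring L) (q : ℕ) : Prop where
  hπα : α (algebraMap R K π) = algebraMap R L π
  hαB : ∀ x' ∈ B', α x' ∈ B
  hBint : ∀ x ∈ B, (α.comp (algebraMap B' K)).IsIntegralElem x
  hV₁ : ∀ t ∈ Va', α t ∈ V₁
  hV₂ : ∀ t ∈ Va', α t ∈ V₂
  hV₃ : ∀ t ∈ Vc', α t ∈ V₃
  hint : ∀ y ∈ V₃, (α.comp Vc'.subtype).IsIntegralElem y
  hq : ∀ x : B, ∃ b : B', (algebraMap R L π)⁻¹ * ((x : L) ^ q - α b) ∈ V₃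

/-- **A point over a level-`q` node.**  If the contraction of the prime `n` of `B` lies on both
branches `Va'`, `Vc'` of the level-`q` chart, then `n` lies on all three branches and is the only
prime of `B` with this contraction. -/
theorem bk63_over_node (α : K →+* L) (π : R) (hπ0 : algebraMap R K π ≠ 0)
    (B' : Subalgebra R K) (B : Subalgebra R L)
    (hB'n : ∀ t : K, (algebraMap B' K).IsIntegralElem t → t ∈ B')
    (Va' Vc' : ValuationSubring K) (hB'Va' : ∀ x ∈ B', x ∈ Va') (hB'Vc' : ∀ x ∈ B', x ∈ Vc')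
    (hmaxa : ∀ x ∈ Va', x⁻¹ ∉ Va' → (algebraMap R K π)⁻¹ * x ∈ Va')
    (V₁ V₂ V₃ : ValuationSubring L) (hBV₁ : ∀ x ∈ B, x ∈ V₁) (hBV₂ : ∀ x ∈ B, x ∈ V₂)
    (hπV₁ : (algebraMap R L π)⁻¹ ∉ V₁) (hπV₂ : (algebraMap R L π)⁻¹ ∉ V₂)
    (q : ℕ) (hq0 : 0 < q) (D : bk63_Data α π B' B Va' Vc' V₁ V₂ V₃ q)
    (n : Ideal B) [hn : n.IsPrime]
    (hna : sf79_OnBr π B' Va'.toSubring (n.comap (bk63_res α B' B D.hαB)))
    (hnc : sf79_OnBr π B' Vc'.toSubring (n.comap (bk63_res α B' B D.hαB))) :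
    sf79_OnBr π B V₁.toSubring n ∧ sf79_OnBr π B V₂.toSubring n ∧
      sf79_OnBr π B V₃.toSubring n ∧
      ∀ n₂ : Ideal B, n₂.IsPrime →
        n₂.comap (bk63_res α B' B D.hαB) = n.comap (bk63_res α B' B D.hαB) → n₂ = n := by
  have hπVc' : algebraMap R K π ∈ Vc' := hB'Vc' _ (B'.algebraMap_mem π)
  have h3 : sf79_OnBr π B V₃.toSubring n :=
    bk63_going_down α π D.hπα hπ0 B' B D.hαB D.hBint hB'n Vc' hπVc' V₃.toSubring D.hint n hnc
  have huniq : ∀ n₂ : Ideal B, n₂.IsPrime →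
      n₂.comap (bk63_res α B' B D.hαB) = n.comap (bk63_res α B' B D.hαB) → n₂ = n := by
    intro n₂ hn₂ hc
    have h3' : sf79_OnBr π B V₃.toSubring n₂ :=
      bk63_going_down α π D.hπα hπ0 B' B D.hαB D.hBint hB'n Vc' hπVc' V₃.toSubring D.hint n₂
        (hc ▸ hnc)
    exact bk63_unique α π B' B D.hαB V₃.toSubring q hq0 D.hq n₂ n h3' h3 hc
  have hn' : (n.comap (bk63_res α B' B D.hαB)).IsPrime := Ideal.comap_isPrime _ _
  refine ⟨?_, ?_, h3, huniq⟩
  · obtain ⟨Q, hQ, hQc, hQon⟩ := bk63_exists_over α π B' B D.hαB D.hBint Va' hB'Va' hmaxa V₁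
      hBV₁ D.hV₁ hπV₁ (n.comap (bk63_res α B' B D.hαB)) hna
    exact huniq Q hQ hQc ▸ hQon
  · obtain ⟨Q, hQ, hQc, hQon⟩ := bk63_exists_over α π B' B D.hαB D.hBint Va' hB'Va' hmaxa V₂
      hBV₂ D.hV₂ hπV₂ (n.comap (bk63_res α B' B D.hαB)) hna
    exact huniq Q hQ hQc ▸ hQon

/-- **Triple points.**  Two degeneracy maps `α`, `β : K → L`; along `α` the branches `V₁`, `V₂`
lie over `V∞'` and `V₃` is the purely inseparable branch over `V₀'`; along `β` the branches
`V₂`, `V₃` lie over `V₀'` and `V₁` is the purely inseparable branch over `V∞'`.  A prime `n` of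
`B` lying on two of the three branches lies on all three; it is the only prime over its
`α`-contraction and over its `β`-contraction, and both contractions are nodes of the level-`q`
chart. -/
theorem bk63_triple (α β : K →+* L) (π : R) (hπ0 : algebraMap R K π ≠ 0)
    (B' : Subalgebra R K) (B : Subalgebra R L)
    (hB'n : ∀ t : K, (algebraMap B' K).IsIntegralElem t → t ∈ B')
    (Vi' V0' : ValuationSubring K) (hB'Vi' : ∀ x ∈ B', x ∈ Vi') (hB'V0' : ∀ x ∈ B', x ∈ V0')
    (hmaxi : ∀ x ∈ Vi', x⁻¹ ∉ Vi' → (algebraMap R K π)⁻¹ * x ∈ Vi')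
    (hmax0 : ∀ x ∈ V0', x⁻¹ ∉ V0' → (algebraMap R K π)⁻¹ * x ∈ V0')
    (V₁ V₂ V₃ : ValuationSubring L) (hBV₁ : ∀ x ∈ B, x ∈ V₁) (hBV₂ : ∀ x ∈ B, x ∈ V₂)
    (hBV₃ : ∀ x ∈ B, x ∈ V₃)
    (hπV₁ : (algebraMap R L π)⁻¹ ∉ V₁) (hπV₂ : (algebraMap R L π)⁻¹ ∉ V₂)
    (hπV₃ : (algebraMap R L π)⁻¹ ∉ V₃)
    (q : ℕ) (hq0 : 0 < q)
    (Dα : bk63_Data α π B' B Vi' V0' V₁ V₂ V₃ q)
    (Dβ : bk63_Data β π B' B V0' Vi' V₂ V₃ V₁ q)
    (n : Ideal B) [hn : n.IsPrime]
    (htwo : (sf79_OnBr π B V₁.toSubring n ∧ sf79_OnBr π B V₂.toSubring n) ∨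
      (sf79_OnBr π B V₁.toSubring n ∧ sf79_OnBr π B V₃.toSubring n) ∨
      (sf79_OnBr π B V₂.toSubring n ∧ sf79_OnBr π B V₃.toSubring n)) :
    (sf79_OnBr π B V₁.toSubring n ∧ sf79_OnBr π B V₂.toSubring n ∧
      sf79_OnBr π B V₃.toSubring n) ∧
    (sf79_OnBr π B' Vi'.toSubring (n.comap (bk63_res α B' B Dα.hαB)) ∧
      sf79_OnBr π B' V0'.toSubring (n.comap (bk63_res α B' B Dα.hαB))) ∧
    (sf79_OnBr π B' Vi'.toSubring (n.comap (bk63_res β B' B Dβ.hαB)) ∧
      sf79_OnBr π B' V0'.toSubring (n.comap (bk63_res β B' B Dβ.hαB))) ∧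
    (∀ n₂ : Ideal B, n₂.IsPrime →
      n₂.comap (bk63_res α B' B Dα.hαB) = n.comap (bk63_res α B' B Dα.hαB) → n₂ = n) ∧
    (∀ n₂ : Ideal B, n₂.IsPrime →
      n₂.comap (bk63_res β B' B Dβ.hαB) = n.comap (bk63_res β B' B Dβ.hαB) → n₂ = n) := by
  -- first: `n` lies on all three branches
  have hall : sf79_OnBr π B V₁.toSubring n ∧ sf79_OnBr π B V₂.toSubring n ∧
      sf79_OnBr π B V₃.toSubring n := by
    rcases htwo with ⟨h1, h2⟩ | ⟨h1, h3⟩ | ⟨h2, h3⟩
    · -- `β`-node
      have ha := bk63_contract β π Dβ.hπα B' B Dβ.hαB V0'.toSubring V₂.toSubring Dβ.hV₁ n h2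
      have hc := bk63_contract β π Dβ.hπα B' B Dβ.hαB Vi'.toSubring V₁.toSubring Dβ.hV₃ n h1
      obtain ⟨-, h3, -, -⟩ := bk63_over_node β π hπ0 B' B hB'n V0' Vi' hB'V0' hB'Vi' hmax0
        V₂ V₃ V₁ hBV₂ hBV₃ hπV₂ hπV₃ q hq0 Dβ n ha hc
      exact ⟨h1, h2, h3⟩
    · have ha := bk63_contract α π Dα.hπα B' B Dα.hαB Vi'.toSubring V₁.toSubring Dα.hV₁ n h1
      have hc := bk63_contract α π Dα.hπα B' B Dα.hαB V0'.toSubring V₃.toSubring Dα.hV₃ n h3
      obtain ⟨-, h2, -, -⟩ := bk63_over_node α π hπ0 B' B hB'n Vi' V0' hB'Vi' hB'V0' hmaxi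
        V₁ V₂ V₃ hBV₁ hBV₂ hπV₁ hπV₂ q hq0 Dα n ha hc
      exact ⟨h1, h2, h3⟩
    · have ha := bk63_contract α π Dα.hπα B' B Dα.hαB Vi'.toSubring V₂.toSubring Dα.hV₂ n h2
      have hc := bk63_contract α π Dα.hπα B' B Dα.hαB V0'.toSubring V₃.toSubring Dα.hV₃ n h3
      obtain ⟨h1, -, -, -⟩ := bk63_over_node α π hπ0 B' B hB'n Vi' V0' hB'Vi' hB'V0' hmaxi
        V₁ V₂ V₃ hBV₁ hBV₂ hπV₁ hπV₂ q hq0 Dα n ha hc
      exact ⟨h1, h2, h3⟩
  obtain ⟨h1, h2, h3⟩ := hall
  have haα := bk63_contract α π Dα.hπα B' B Dα.hαB Vi'.toSubring V₁.toSubring Dα.hV₁ n h1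
  have hcα := bk63_contract α π Dα.hπα B' B Dα.hαB V0'.toSubring V₃.toSubring Dα.hV₃ n h3
  have haβ := bk63_contract β π Dβ.hπα B' B Dβ.hαB V0'.toSubring V₂.toSubring Dβ.hV₁ n h2
  have hcβ := bk63_contract β π Dβ.hπα B' B Dβ.hαB Vi'.toSubring V₁.toSubring Dβ.hV₃ n h1
  refine ⟨⟨h1, h2, h3⟩, ⟨haα, hcα⟩, ⟨hcβ, haβ⟩, ?_, ?_⟩
  · exact (bk63_over_node α π hπ0 B' B hB'n Vi' V0' hB'Vi' hB'V0' hmaxi
      V₁ V₂ V₃ hBV₁ hBV₂ hπV₁ hπV₂ q hq0 Dα n haα hcα).2.2.2
  · exact (bk63_over_node β π hπ0 B' B hB'n V0' Vi' hB'V0' hB'Vi' hmax0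
      V₂ V₃ V₁ hBV₂ hBV₃ hπV₂ hπV₃ q hq0 Dβ n haβ hcβ).2.2.2

end BK63Chart

end Fermat.Agent.S36
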