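/-
S36 lab, rows 592/617/605 (HP), helper81: the CANONICAL INSTANCE of the point bookkeeping.

Level `M' q q` over level `M' q` (`q` prime, `q ∤ M'`), `α₂ = al97L_alpha K (M' * q) q`,
`β₂ = al97L_beta K (M' * q) q`, `V_∞' = cm85_Vinf (M' * q)`, `V_0' = s34i47c_V0 M' q`,
`V₁ = cm85_Vinf (M' * q * q)`, `V₃ = nsb86_V3` (helper86), `V₂` a PARAMETER.

* `pbi81_chart_fields` : from a chart map `f` compatible with a field embedding `α` and integral
  (literal output of `bc95_alpha` / `bc95_beta_level2/3`): `α B' ⊆ B`, `B` integral over `α B'`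
  (the `IsIntegralElem` shape of `bk63_Data`) and the norm along `α` maps `B` into `B'`;
* `pbi81_data_alpha` : `bk63_Data α₂ π B' B V_∞' V_0' V₁ V₂ V₃ q`;
* `pbi81_data_beta`  : `bk63_Data β₂ π B' B V_0' V_∞' V₂ V₃ V₁ q`;
* `pbi81_triple` : THE POINT CLASSIFICATION: a prime `n` of `B` on two of the three branches is
  on all three, `fα⁻¹ n` and `fβ⁻¹ n` are nodes of the level-`M' q` chart and `n` is the only
  prime of `B` over each of them (`bk63_triple` with all frame hypotheses discharged; the only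
  inputs are the chart maps, `B' ⊆ V_∞' ⊓ V_0'`, `B ⊆ V₁ ⊓ V₂ ⊓ V₃` and three facts on `V₂`);
* `pbi81_unit` : unit transfer at such a point (`x ∉ n` divides some `f a`, `f a ∉ n`).
-/
import Fermat.Agent.S36.PointBook63
import Fermat.Agent.S36.OnlyThree72
import Fermat.Agent.S36.OnlyBindBeta72
import Fermat.Agent.S36.NormSqRed86

set_option autoImplicit false
set_option linter.unusedSectionVars false
set_option linter.style.haveILetI false

open ModularCurve AlgebraicCurve IntermediateField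
open Fermat.Agent.S24 Fermat.Agent.S28 Fermat.Agent.S18 Fermat.Agent.S37 Fermat.Agent.S34
open Fermat.Agent.S42 Fermat.Agent.S35

namespace Fermat.Agent.S36

section abstract

variable {R F' F : Type*} [CommRing R] [Field F'] [Field F] [Algebra R F'] [Algebra R F]

/-- From a chart map `f : B' → B` compatible with the field embedding `α` and integral:
`α B' ⊆ B`, `B` is integral over `α B'`, and the norm along `α` maps `B` into `B'`. -/
theorem pbi81_chart_fields (α : F' →+* F) (s' : Set F') (B : Subalgebra R F)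
    (f : ↥(pk15_chart R s') →+* ↥B) (hf : ∀ x, ((f x : ↥B) : F) = α (x : F'))
    (hfi : f.IsIntegral) :
    (∀ x' ∈ pk15_chart R s', α x' ∈ B) ∧
    (∀ x ∈ B, (α.comp (algebraMap ↥(pk15_chart R s') F')).IsIntegralElem x) ∧
    (∀ x ∈ B, @Algebra.norm F' F _ _ α.toAlgebra x ∈ pk15_chart R s') := by
  have h2 : ∀ x ∈ B, (α.comp (algebraMap ↥(pk15_chart R s') F')).IsIntegralElem x := by
    intro x hx
    obtain ⟨p, hp, hpx⟩ := hfi ⟨x, hx⟩
    refine ⟨p, hp, ?_⟩
    have e : α.comp (algebraMap ↥(pk15_chart R s') F') = (B.val : ↥B →+* F).comp f := by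
      ext y; exact (hf y).symm
    rw [e]
    have := Polynomial.hom_eval₂ p f (B.val : ↥B →+* F) ⟨x, hx⟩
    rw [hpx, map_zero] at this
    exact this.symm
  refine ⟨fun x' hx' => ?_, h2, fun x hx => ?_⟩
  · have := hf ⟨x', hx'⟩
    rw [← this]; exact (f ⟨x', hx'⟩).2
  · letI : Algebra F' F := α.toAlgebra
    letI iAF : Algebra ↥(pk15_chart R s') F :=
      (α.comp (algebraMap ↥(pk15_chart R s') F')).toAlgebra
    haveI : IsScalarTower ↥(pk15_chart R s') F' F := IsScalarTower.of_algebraMap_eq (fun _ => rfl)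
    have hx' : IsIntegral ↥(pk15_chart R s') x := h2 x hx
    have h3 : IsIntegral ↥(pk15_chart R s') (Algebra.norm F' x) :=
      @Algebra.isIntegral_norm ↥(pk15_chart R s') _ F F' _ _ _ iAF _ this x hx'
    rw [pk15_mem_chart]
    have h4 : IsIntegral ↥(integralClosure ↥(Algebra.adjoin R s') F') (Algebra.norm F' x) := h3
    exact isIntegral_trans (A := ↥(integralClosure ↥(Algebra.adjoin R s') F')) _ h4

/-- A chart is integrally closed in its field, `IsIntegralElem` shape (`hB'n` of `bk63_*`). -/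
theorem pbi81_chart_closed (s' : Set F') (t : F')
    (ht : (algebraMap ↥(pk15_chart R s') F').IsIntegralElem t) : t ∈ pk15_chart R s' := by
  rw [pk15_mem_chart]
  have h4 : IsIntegral ↥(integralClosure ↥(Algebra.adjoin R s') F') t := ht
  exact isIntegral_trans (A := ↥(integralClosure ↥(Algebra.adjoin R s') F')) _ h4

end abstract

section canonical

variable {R K : Type} [CommRing R] [IsDomain R] [IsDiscreteValuationRing R] [Field K]
  [CharZero K] [Algebra R K] [IsFractionRing R K] [Algebra K Kbar]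
  (M' q : ℕ) [NeZero M'] [NeZero q] (hq : q.Prime) (hM' : ¬ q ∣ M')
  {π : R} (hπ : Irreducible π)
  [Algebra R ↥(modularFunctionFieldFullC K (M' * q))]
  [IsScalarTower R K ↥(modularFunctionFieldFullC K (M' * q))]
  [Algebra R ↥(modularFunctionFieldFullC K (M' * q * q))]
  [IsScalarTower R K ↥(modularFunctionFieldFullC K (M' * q * q))]

/-- **The `α`-data of the point bookkeeping on the canonical frame.** -/
theorem pbi81_data_alpha (hqR : ¬ IsUnit (q : R))
    (s' : Set ↥(modularFunctionFieldFullC K (M' * q)))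
    (B : Subalgebra R ↥(modularFunctionFieldFullC K (M' * q * q)))
    (f : ↥(pk15_chart R s') →+* ↥B)
    (hf : ∀ x, ((f x : ↥B) : ↥(modularFunctionFieldFullC K (M' * q * q))) =
      al97L_alpha K (M' * q) q (x : ↥(modularFunctionFieldFullC K (M' * q))))
    (hfi : f.IsIntegral)
    (hBV₃ : ∀ x ∈ B, x ∈ nsb86_V3 M' q hq hM' hπ)
    (V₂ : ValuationSubring ↥(modularFunctionFieldFullC K (M' * q * q)))
    (hα₂ : ∀ x ∈ cm85_Vinf (K := K) (M' * q) hπ, al97L_alpha K (M' * q) q x ∈ V₂) :
    bk63_Data (al97L_alpha K (M' * q) q).toRingHom π (pk15_chart R s') B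
      (cm85_Vinf (K := K) (M' * q) hπ) (s34i47c_V0 (K := K) M' q hq hM' hπ)
      (cm85_Vinf (K := K) (M' * q * q) hπ) V₂ (nsb86_V3 M' q hq hM' hπ) q := by
  obtain ⟨c1, c2, c3⟩ := pbi81_chart_fields (al97L_alpha K (M' * q) q).toRingHom s' B f hf hfi
  have hπe : algebraMap R ↥(modularFunctionFieldFullC K (M' * q * q)) π =
      algebraMap K ↥(modularFunctionFieldFullC K (M' * q * q)) (algebraMap R K π) :=
    IsScalarTower.algebraMap_apply R K _ π
  refine ⟨?_, c1, c2, ?_, hα₂, ?_, ?_, ?_⟩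
  · rw [IsScalarTower.algebraMap_apply R K ↥(modularFunctionFieldFullC K (M' * q)), hπe]
    exact (al97L_alpha K (M' * q) q).commutes _
  · exact fun t ht => (al97V_alpha_mem_Vinf (M' * q) q hπ t).mpr ht
  · exact fun t ht => (nsr86_alpha_mem_V3_iff M' q hq hM' hπ t).mpr ht
  · exact (o3x72_inert M' q hq hM' hπ hqR (nsb86_hL K (M' * q * q))
      (nsb86_V3 M' q hq hM' hπ) (fun x => nsb86_mem_V3 M' q hq hM' hπ x)).2.1
  · intro x
    refine ⟨⟨_, c3 (x : ↥(modularFunctionFieldFullC K (M' * q * q))) x.2⟩, ?_⟩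
    have h := nsb86_alpha_cong M' q hq hM' hπ hqR
      (x : ↥(modularFunctionFieldFullC K (M' * q * q))) (hBV₃ _ x.2)
    have h' := (nsb86_V3 M' q hq hM' hπ).neg_mem _ h
    rw [hπe]
    letI := algebraAlong (al97L_alpha K (M' * q) q)
    have key : (algebraMap K ↥(modularFunctionFieldFullC K (M' * q * q)) (algebraMap R K π))⁻¹ *
        ((x : ↥(modularFunctionFieldFullC K (M' * q * q))) ^ q -
          al97L_alpha K (M' * q) q (Algebra.norm ↥(modularFunctionFieldFullC K (M' * q))
            (x : ↥(modularFunctionFieldFullC K (M' * q * q))))) ∈ nsb86_V3 M' q hq hM' hπ := by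
      have e : (algebraMap K ↥(modularFunctionFieldFullC K (M' * q * q)) (algebraMap R K π))⁻¹ *
          ((x : ↥(modularFunctionFieldFullC K (M' * q * q))) ^ q -
            al97L_alpha K (M' * q) q (Algebra.norm ↥(modularFunctionFieldFullC K (M' * q))
              (x : ↥(modularFunctionFieldFullC K (M' * q * q))))) =
          -((algebraMap K ↥(modularFunctionFieldFullC K (M' * q * q)) (algebraMap R K π))⁻¹ *
            (al97L_alpha K (M' * q) q (Algebra.norm ↥(modularFunctionFieldFullC K (M' * q))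
              (x : ↥(modularFunctionFieldFullC K (M' * q * q)))) -
              (x : ↥(modularFunctionFieldFullC K (M' * q * q))) ^ q)) := by ring
      rw [e]; exact h'
    exact key

/-- **The `β`-data of the point bookkeeping on the canonical frame.** -/
theorem pbi81_data_beta (hqR : ¬ IsUnit (q : R))
    (s' : Set ↥(modularFunctionFieldFullC K (M' * q)))
    (B : Subalgebra R ↥(modularFunctionFieldFullC K (M' * q * q)))
    (f : ↥(pk15_chart R s') →+* ↥B)
    (hf : ∀ x, ((f x : ↥B) : ↥(modularFunctionFieldFullC K (M' * q * q))) =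
      al97L_beta K (M' * q) q (x : ↥(modularFunctionFieldFullC K (M' * q))))
    (hfi : f.IsIntegral)
    (hBV₁ : ∀ x ∈ B, x ∈ cm85_Vinf (K := K) (M' * q * q) hπ)
    (V₂ : ValuationSubring ↥(modularFunctionFieldFullC K (M' * q * q)))
    (hβ₂ : ∀ x ∈ s34i47c_V0 (K := K) M' q hq hM' hπ, al97L_beta K (M' * q) q x ∈ V₂) :
    bk63_Data (al97L_beta K (M' * q) q).toRingHom π (pk15_chart R s') B
      (s34i47c_V0 (K := K) M' q hq hM' hπ) (cm85_Vinf (K := K) (M' * q) hπ)
      V₂ (nsb86_V3 M' q hq hM' hπ) (cm85_Vinf (K := K) (M' * q * q) hπ) q := by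
  obtain ⟨c1, c2, c3⟩ := pbi81_chart_fields (al97L_beta K (M' * q) q).toRingHom s' B f hf hfi
  have hπe : algebraMap R ↥(modularFunctionFieldFullC K (M' * q * q)) π =
      algebraMap K ↥(modularFunctionFieldFullC K (M' * q * q)) (algebraMap R K π) :=
    IsScalarTower.algebraMap_apply R K _ π
  refine ⟨?_, c1, c2, hβ₂, ?_, ?_, ?_, ?_⟩
  · rw [IsScalarTower.algebraMap_apply R K ↥(modularFunctionFieldFullC K (M' * q)), hπe]
    exact (al97L_beta K (M' * q) q).commutes _
  · intro t ht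
    show al97L_beta K (M' * q) q t ∈ nsb86_V3 M' q hq hM' hπ
    rw [nsb86_mem_V3, als86_w2_beta]
    exact (al97V_alpha_mem_Vinf (M' * q) q hπ _).mpr ht
  · exact fun t ht => nsr86_beta_mem M' q hπ t ht
  · exact (obb72_inert M' q hq hM' hπ hqR (nsb86_hL K (M' * q * q))).2.1
  · intro x
    refine ⟨⟨_, c3 (x : ↥(modularFunctionFieldFullC K (M' * q * q))) x.2⟩, ?_⟩
    have h := nsb86_beta_cong M' q hq hM' hπ hqR
      (x : ↥(modularFunctionFieldFullC K (M' * q * q))) (hBV₁ _ x.2)
    have h' := (cm85_Vinf (K := K) (M' * q * q) hπ).neg_mem _ h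
    rw [hπe]
    letI := algebraAlong (al97L_beta K (M' * q) q)
    have key : (algebraMap K ↥(modularFunctionFieldFullC K (M' * q * q)) (algebraMap R K π))⁻¹ *
        ((x : ↥(modularFunctionFieldFullC K (M' * q * q))) ^ q -
          al97L_beta K (M' * q) q (Algebra.norm ↥(modularFunctionFieldFullC K (M' * q))
            (x : ↥(modularFunctionFieldFullC K (M' * q * q))))) ∈
        cm85_Vinf (K := K) (M' * q * q) hπ := by
      have e : (algebraMap K ↥(modularFunctionFieldFullC K (M' * q * q)) (algebraMap R K π))⁻¹ *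
          ((x : ↥(modularFunctionFieldFullC K (M' * q * q))) ^ q -
            al97L_beta K (M' * q) q (Algebra.norm ↥(modularFunctionFieldFullC K (M' * q))
              (x : ↥(modularFunctionFieldFullC K (M' * q * q))))) =
          -((algebraMap K ↥(modularFunctionFieldFullC K (M' * q * q)) (algebraMap R K π))⁻¹ *
            (al97L_beta K (M' * q) q (Algebra.norm ↥(modularFunctionFieldFullC K (M' * q))
              (x : ↥(modularFunctionFieldFullC K (M' * q * q)))) -
              (x : ↥(modularFunctionFieldFullC K (M' * q * q))) ^ q)) := by ring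
      rw [e]; exact h'
    exact key

/-- **Point classification on the canonical frame** (charts `B' = pk15_chart R s'` of level
`M' q` and `B` of level `M' q q`, chart maps `fα`, `fβ` as produced by `bc95_alpha` /
`bc95_beta_level2/3`).  A prime `n` of `B` lying on two of the three branches `V₁`, `V₂`, `V₃`
lies on all three; both contractions `fα⁻¹ n`, `fβ⁻¹ n` are nodes of the level-`M' q` chart, and
`n` is the only prime of `B` over each of them. -/
theorem pbi81_triple (hqR : ¬ IsUnit (q : R))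
    (s' : Set ↥(modularFunctionFieldFullC K (M' * q)))
    (B : Subalgebra R ↥(modularFunctionFieldFullC K (M' * q * q)))
    (fα : ↥(pk15_chart R s') →+* ↥B)
    (hfα : ∀ x, ((fα x : ↥B) : ↥(modularFunctionFieldFullC K (M' * q * q))) =
      al97L_alpha K (M' * q) q (x : ↥(modularFunctionFieldFullC K (M' * q))))
    (hfαi : fα.IsIntegral)
    (fβ : ↥(pk15_chart R s') →+* ↥B)
    (hfβ : ∀ x, ((fβ x : ↥B) : ↥(modularFunctionFieldFullC K (M' * q * q))) =
      al97L_beta K (M' * q) q (x : ↥(modularFunctionFieldFullC K (M' * q))))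
    (hfβi : fβ.IsIntegral)
    (hB'Vi : ∀ x ∈ pk15_chart R s', x ∈ cm85_Vinf (K := K) (M' * q) hπ)
    (hB'V0 : ∀ x ∈ pk15_chart R s', x ∈ s34i47c_V0 (K := K) M' q hq hM' hπ)
    (V₂ : ValuationSubring ↥(modularFunctionFieldFullC K (M' * q * q)))
    (hα₂ : ∀ x ∈ cm85_Vinf (K := K) (M' * q) hπ, al97L_alpha K (M' * q) q x ∈ V₂)
    (hβ₂ : ∀ x ∈ s34i47c_V0 (K := K) M' q hq hM' hπ, al97L_beta K (M' * q) q x ∈ V₂)
    (hπ₂ : (algebraMap R ↥(modularFunctionFieldFullC K (M' * q * q)) π)⁻¹ ∉ V₂)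
    (hBV₁ : ∀ x ∈ B, x ∈ cm85_Vinf (K := K) (M' * q * q) hπ) (hBV₂ : ∀ x ∈ B, x ∈ V₂)
    (hBV₃ : ∀ x ∈ B, x ∈ nsb86_V3 M' q hq hM' hπ)
    (n : Ideal B) [hn : n.IsPrime]
    (htwo : (sf79_OnBr π B (cm85_Vinf (K := K) (M' * q * q) hπ).toSubring n ∧
        sf79_OnBr π B V₂.toSubring n) ∨
      (sf79_OnBr π B (cm85_Vinf (K := K) (M' * q * q) hπ).toSubring n ∧
        sf79_OnBr π B (nsb86_V3 M' q hq hM' hπ).toSubring n) ∨
      (sf79_OnBr π B V₂.toSubring n ∧
        sf79_OnBr π B (nsb86_V3 M' q hq hM' hπ).toSubring n)) :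
    (sf79_OnBr π B (cm85_Vinf (K := K) (M' * q * q) hπ).toSubring n ∧
      sf79_OnBr π B V₂.toSubring n ∧
      sf79_OnBr π B (nsb86_V3 M' q hq hM' hπ).toSubring n) ∧
    (sf79_OnBr π (pk15_chart R s') (cm85_Vinf (K := K) (M' * q) hπ).toSubring (n.comap fα) ∧
      sf79_OnBr π (pk15_chart R s') (s34i47c_V0 (K := K) M' q hq hM' hπ).toSubring
        (n.comap fα)) ∧
    (sf79_OnBr π (pk15_chart R s') (cm85_Vinf (K := K) (M' * q) hπ).toSubring (n.comap fβ) ∧
      sf79_OnBr π (pk15_chart R s') (s34i47c_V0 (K := K) M' q hq hM' hπ).toSubring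
        (n.comap fβ)) ∧
    (∀ n₂ : Ideal B, n₂.IsPrime → n₂.comap fα = n.comap fα → n₂ = n) ∧
    (∀ n₂ : Ideal B, n₂.IsPrime → n₂.comap fβ = n.comap fβ → n₂ = n) := by
  have Dα := pbi81_data_alpha M' q hq hM' hπ hqR s' B fα hfα hfαi hBV₃ V₂ hα₂
  have Dβ := pbi81_data_beta M' q hq hM' hπ hqR s' B fβ hfβ hfβi hBV₁ V₂ hβ₂
  have eα : bk63_res (al97L_alpha K (M' * q) q).toRingHom (pk15_chart R s') B Dα.hαB = fα :=
    RingHom.ext fun x => Subtype.ext (by rw [bk63_res_coe]; exact (hfα x).symm)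
  have eβ : bk63_res (al97L_beta K (M' * q) q).toRingHom (pk15_chart R s') B Dβ.hαB = fβ :=
    RingHom.ext fun x => Subtype.ext (by rw [bk63_res_coe]; exact (hfβ x).symm)
  have hπVi : (algebraMap R ↥(modularFunctionFieldFullC K (M' * q)) π)⁻¹ ∉
      cm85_Vinf (K := K) (M' * q) hπ := by
    rw [IsScalarTower.algebraMap_apply R K ↥(modularFunctionFieldFullC K (M' * q))]
    exact gv85_pi_inv_not_mem (IsLocalRing.residue R) π (pk85_res_iff hπ) hπ.ne_zero _ _
  have hπ0 : algebraMap R ↥(modularFunctionFieldFullC K (M' * q)) π ≠ 0 := by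
    intro h0
    apply hπVi
    rw [h0, inv_zero]
    exact (cm85_Vinf (K := K) (M' * q) hπ).zero_mem
  have hB'n : ∀ t : ↥(modularFunctionFieldFullC K (M' * q)),
      (algebraMap ↥(pk15_chart R s') ↥(modularFunctionFieldFullC K (M' * q))).IsIntegralElem t →
        t ∈ pk15_chart R s' := fun t ht => pbi81_chart_closed s' t ht
  have hmaxi : ∀ x ∈ cm85_Vinf (K := K) (M' * q) hπ, x⁻¹ ∉ cm85_Vinf (K := K) (M' * q) hπ →
      (algebraMap R ↥(modularFunctionFieldFullC K (M' * q)) π)⁻¹ * x ∈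
        cm85_Vinf (K := K) (M' * q) hπ := by
    intro x hx hx'
    rw [IsScalarTower.algebraMap_apply R K ↥(modularFunctionFieldFullC K (M' * q))]
    exact gv85_hmax (IsLocalRing.residue R) π (pk85_res_iff hπ) hπ.ne_zero _
      (pk85_HF K (M' * q) hπ) x hx hx'
  have hmax0 : ∀ x ∈ s34i47c_V0 (K := K) M' q hq hM' hπ,
      x⁻¹ ∉ s34i47c_V0 (K := K) M' q hq hM' hπ →
      (algebraMap R ↥(modularFunctionFieldFullC K (M' * q)) π)⁻¹ * x ∈
        s34i47c_V0 (K := K) M' q hq hM' hπ := by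
    intro x hx hx'
    rw [IsScalarTower.algebraMap_apply R K ↥(modularFunctionFieldFullC K (M' * q))]
    exact (obi72_V0_dvr (K := K) M' q hq hM' hπ).hmax x hx hx'
  have hπV₁ : (algebraMap R ↥(modularFunctionFieldFullC K (M' * q * q)) π)⁻¹ ∉
      cm85_Vinf (K := K) (M' * q * q) hπ := by
    rw [IsScalarTower.algebraMap_apply R K ↥(modularFunctionFieldFullC K (M' * q * q))]
    exact gv85_pi_inv_not_mem (IsLocalRing.residue R) π (pk85_res_iff hπ) hπ.ne_zero _ _
  have hπV₃ : (algebraMap R ↥(modularFunctionFieldFullC K (M' * q * q)) π)⁻¹ ∉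
      nsb86_V3 M' q hq hM' hπ := by
    rw [IsScalarTower.algebraMap_apply R K ↥(modularFunctionFieldFullC K (M' * q * q))]
    exact o3x72_V3_pi M' q hq hM' hπ (nsb86_hL K (M' * q * q)) (nsb86_V3 M' q hq hM' hπ)
      (fun x => nsb86_mem_V3 M' q hq hM' hπ x)
  have key := bk63_triple (al97L_alpha K (M' * q) q).toRingHom (al97L_beta K (M' * q) q).toRingHom
    π hπ0 (pk15_chart R s') B hB'n (cm85_Vinf (K := K) (M' * q) hπ)
    (s34i47c_V0 (K := K) M' q hq hM' hπ) hB'Vi hB'V0 hmaxi hmax0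
    (cm85_Vinf (K := K) (M' * q * q) hπ) V₂ (nsb86_V3 M' q hq hM' hπ) hBV₁ hBV₂ hBV₃
    hπV₁ hπ₂ hπV₃ q hq.pos Dα Dβ n htwo
  rw [eα, eβ] at key
  exact key

/-- **Unit transfer at a triple point**: `n` the only prime of `B` over `fα⁻¹ n` (output of
`pbi81_triple`; the same statement holds for `fβ`): every `x ∈ B ∖ n` divides the image of an
element of `B'` outside `fα⁻¹ n`. -/
theorem pbi81_unit {B' B : Type*} [CommRing B'] [CommRing B] (f : B' →+* B) (hfi : f.IsIntegral)
    (n : Ideal B) [n.IsPrime]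
    (huniq : ∀ n₂ : Ideal B, n₂.IsPrime → n₂.comap f = n.comap f → n₂ = n)
    (x : B) (hx : x ∉ n) : ∃ (y : B) (a : B'), f a ∉ n ∧ x * y = f a := by
  by_contra hcon
  have hn' : (n.comap f).IsPrime := Ideal.comap_isPrime f n
  have hle : (Ideal.span {x}).comap f ≤ n.comap f := by
    intro a ha
    by_contra han
    obtain ⟨y, hy⟩ := Ideal.mem_span_singleton'.mp ha
    exact hcon ⟨y, a, han, by rw [mul_comm]; exact hy⟩
  let _ : Algebra B' B := f.toAlgebra
  have : Algebra.IsIntegral B' B := ⟨hfi⟩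
  obtain ⟨Q, hxQ, hQ, hQc⟩ :=
    Ideal.exists_ideal_over_prime_of_isIntegral (n.comap f) (Ideal.span {x}) hle
  have hQn : Q = n := huniq Q hQ hQc
  exact hx (hQn ▸ hxQ (Ideal.mem_span_singleton_self x))

end canonical

end Fermat.Agent.S36
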