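import Fermat.Agent.S36.BranchLift26
import Fermat.Agent.S36.GlueBridge26

/-!
# S36 lab, row 625 (B3-LIFT), helper26: the branch root lift, chart form

`B` a noetherian chart, `V` a vertical valuation ring through the closed point `n`
(thick branches allowed), `z ∈ n` a branch coordinate at `n` (`sf79_Unif` / `tl71_MidSmooth` in
valuation form), `g` a local generator of the branch prime at `n`.  Then every `c ∈ V` whose
`m`-th power is congruent modulo `𝔪(V)` to a unit `e` of `B_n` has a lift `b ∈ B_n`: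
`V.valuation (c - b) < 1`.

This is the input `hres` of `ld84_datum_at`, the lifts `b_i` of `gc26_triple` /
`gcd26_datum_triple`, and (after dividing `c` by the lift) the datum `hb` of `ld55_datum_at`.
-/

set_option autoImplicit false

namespace Fermat.Agent.S36

open Fermat.Agent.S34

section

variable {R F : Type*} [CommRing R] [Field F] [Algebra R F]

/-- The branch prime `{x ∈ B | x ∈ 𝔪(V)}`. -/
def gblc26_P (B : Subalgebra R F) (V : ValuationSubring F) (hBV : ∀ x ∈ B, x ∈ V) : Ideal B where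
  carrier := {x | V.valuation (x : F) < 1}
  add_mem' := by
    intro a b ha hb
    show V.valuation ((a + b : B) : F) < 1
    push_cast
    exact gc26_add V ha hb
  zero_mem' := by
    show V.valuation ((0 : B) : F) < 1
    simp
  smul_mem' := by
    intro c x hx
    show V.valuation ((c * x : B) : F) < 1
    push_cast
    exact gc26_mul V (hBV _ c.2) hx

theorem gblc26_mem_P (B : Subalgebra R F) (V : ValuationSubring F) (hBV : ∀ x ∈ B, x ∈ V)
    (x : B) : x ∈ gblc26_P B V hBV ↔ V.valuation (x : F) < 1 := Iff.rfl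

theorem gblc26_val_eq_one (V : ValuationSubring F) {x : F} (hx : x ∈ V)
    (h : ¬ V.valuation x < 1) : V.valuation x = 1 :=
  le_antisymm ((V.valuation_le_one_iff x).mpr hx) (not_lt.mp h)

theorem gblc26_P_isPrime (B : Subalgebra R F) (V : ValuationSubring F)
    (hBV : ∀ x ∈ B, x ∈ V) : (gblc26_P B V hBV).IsPrime := by
  refine ⟨?_, ?_⟩
  · intro h
    have h1 : (1 : B) ∈ gblc26_P B V hBV := by rw [h]; trivial
    rw [gblc26_mem_P] at h1
    simp at h1
  · intro x y hxy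
    rw [gblc26_mem_P] at hxy
    by_contra hcon
    push Not at hcon
    have hx := gblc26_val_eq_one V (hBV _ x.2) hcon.1
    have hy := gblc26_val_eq_one V (hBV _ y.2) hcon.2
    have : V.valuation ((x * y : B) : F) = 1 := by
      push_cast
      rw [map_mul, hx, hy, one_mul]
    rw [this] at hxy
    exact lt_irrefl _ hxy

/-- **The branch root lift at a closed point, chart form.** -/
theorem gblc26_lift_at (B : Subalgebra R F) [IsNoetherianRing B] (V : ValuationSubring F)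
    (hBV : ∀ x ∈ B, x ∈ V)
    (hFrac : ∀ x : F, ∃ a ∈ B, ∃ b ∈ B, b ≠ 0 ∧ x * b = a)
    (n : Ideal B) [hn : n.IsPrime]
    (hthr : ∀ t : B, t ∉ n → (t : F)⁻¹ ∈ V)
    (z : B) (hz : z ∈ n) (hzP : ¬ V.valuation (z : F) < 1)
    (hunif : ∀ x ∈ n, ∃ s : B, s ∉ n ∧ ∃ a : B,
      V.valuation ((s : F) * (x : F) - (a : F) * (z : F)) < 1)
    (g : F) (hg0 : g ≠ 0) (hgV : V.valuation g < 1)
    (hG : ∀ x ∈ sf79_loc B n, V.valuation x < 1 → x * g⁻¹ ∈ sf79_loc B n)
    (harch : ∀ x ∈ B, x ≠ 0 → ∃ j : ℕ, x * (g ^ j)⁻¹ ∉ V)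
    (m : ℕ) (hm : 0 < m) (c e : F) (hc : c ∈ V) (he0 : e ≠ 0)
    (he : e ∈ sf79_loc B n) (he' : e⁻¹ ∈ sf79_loc B n)
    (hce : V.valuation (c ^ m - e) < 1) :
    ∃ b ∈ sf79_loc B n, V.valuation (c - b) < 1 := by
  classical
  have hPp : (gblc26_P B V hBV).IsPrime := gblc26_P_isPrime B V hBV
  -- units of `B_n` along `V`
  have hsV : ∀ s : B, s ∉ n → V.valuation (s : F) = 1 := by
    intro s hs
    apply gblc26_val_eq_one V (hBV _ s.2)
    intro hlt
    rw [gcb26_val_lt_one_iff] at hlt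
    rcases hlt.2 with h0 | hinv
    · exact sf79_ne_zero B n s hs h0
    · exact hinv (hthr s hs)
  have hlocV : ∀ x ∈ sf79_loc B n, x ∈ V := by
    rintro x ⟨s, hs, hsx⟩
    have e1 : x = (s : F)⁻¹ * ((s : F) * x) := by
      rw [← mul_assoc, inv_mul_cancel₀ (sf79_ne_zero B n s hs), one_mul]
    rw [e1]
    exact mul_mem (hthr s hs) (hBV _ hsx)
  have hPn : gblc26_P B V hBV ≤ n := by
    intro x hx
    by_contra hxn
    rw [gblc26_mem_P, hsV x hxn] at hx
    exact lt_irrefl _ hx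
  have hunif' : ∀ x ∈ n, ∃ s : B, s ∉ n ∧ ∃ a : B, s * x - a * z ∈ gblc26_P B V hBV := by
    intro x hx
    obtain ⟨s, hs, a, ha⟩ := hunif x hx
    refine ⟨s, hs, a, ?_⟩
    rw [gblc26_mem_P]
    push_cast
    exact ha
  -- (Q): `c * t = a` with `a, t ∈ B`, `t` a unit along `V`
  obtain ⟨a0, ha0, b0, hb0, hb00, hcab⟩ := hFrac c
  have hg0' : ∀ k : ℕ, g ^ k ≠ 0 := fun k => pow_ne_zero k hg0
  have hstep : ∀ k : ℕ, b0 * (g ^ k)⁻¹ ∈ sf79_loc B n ∨
      ∃ j : ℕ, b0 * (g ^ j)⁻¹ ∈ sf79_loc B n ∧ ¬ V.valuation (b0 * (g ^ j)⁻¹) < 1 := by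
    intro k
    induction k with
    | zero =>
      left
      rw [pow_zero, inv_one, mul_one]
      exact sf79_le_loc B n b0 hb0
    | succ k ih =>
      rcases ih with h | h
      · by_cases hv : V.valuation (b0 * (g ^ k)⁻¹) < 1
        · left
          have e1 : b0 * (g ^ (k + 1))⁻¹ = b0 * (g ^ k)⁻¹ * g⁻¹ := by
            rw [pow_succ, mul_inv, mul_assoc]
          rw [e1]
          exact hG _ h hv
        · exact Or.inr ⟨k, h, hv⟩
      · exact Or.inr h
  obtain ⟨J, hJ⟩ := harch b0 hb0 hb00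
  obtain ⟨j, hb', hb'v⟩ : ∃ j : ℕ, b0 * (g ^ j)⁻¹ ∈ sf79_loc B n ∧
      ¬ V.valuation (b0 * (g ^ j)⁻¹) < 1 := by
    rcases hstep J with h | h
    · exact absurd (hlocV _ h) hJ
    · exact h
  have hb'1 : V.valuation (b0 * (g ^ j)⁻¹) = 1 := gblc26_val_eq_one V (hlocV _ hb') hb'v
  have ha' : ∀ i : ℕ, i ≤ j → a0 * (g ^ i)⁻¹ ∈ sf79_loc B n := by
    intro i
    induction i with
    | zero =>
      intro _
      rw [pow_zero, inv_one, mul_one]
      exact sf79_le_loc B n a0 ha0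
    | succ i ih =>
      intro hij
      have h1 := ih (by omega)
      have e1 : a0 * (g ^ (i + 1))⁻¹ = a0 * (g ^ i)⁻¹ * g⁻¹ := by
        rw [pow_succ, mul_inv, mul_assoc]
      rw [e1]
      apply hG _ h1
      obtain ⟨d, rfl⟩ : ∃ d, j = i + 1 + d := ⟨j - (i + 1), by omega⟩
      have e2 : a0 * (g ^ i)⁻¹ = (c * (b0 * (g ^ (i + 1 + d))⁻¹) * g ^ d) * g := by
        rw [← hcab]
        have h3 := hg0' i
        have h4 := hg0' (i + 1 + d)
        have h5 : g ^ (i + 1 + d) = g ^ i * g * g ^ d := by ring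
        rw [h5]
        field_simp
      rw [e2]
      exact gc26_mul V (mul_mem (mul_mem hc (hlocV _ hb')) (pow_mem (gc26_mem V hgV) d)) hgV
  have ha'j := ha' j le_rfl
  have hcab' : c * (b0 * (g ^ j)⁻¹) = a0 * (g ^ j)⁻¹ := by
    rw [← hcab]
    ring
  obtain ⟨sb, hsb, hsbB⟩ := hb'
  obtain ⟨sa, hsa, hsaB⟩ := ha'j
  -- `t := (sb * b') * sa`, `a := sb * (sa * a')`
  set t : B := ⟨(sb : F) * (b0 * (g ^ j)⁻¹), hsbB⟩ * sa with ht
  set a : B := sb * ⟨(sa : F) * (a0 * (g ^ j)⁻¹), hsaB⟩ with ha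
  have hcta : c * (t : F) = (a : F) := by
    rw [ht, ha]
    push_cast
    rw [← hcab']
    ring
  have htv : V.valuation (t : F) = 1 := by
    rw [ht]
    push_cast
    rw [map_mul, map_mul, hsV sb hsb, hsV sa hsa, hb'1, one_mul, one_mul]
  have htP : t ∉ gblc26_P B V hBV := by
    rw [gblc26_mem_P, htv]
    exact lt_irrefl _
  -- the unit `e`
  obtain ⟨se, hse, hseB⟩ := he
  obtain ⟨se', hse', hse'B⟩ := he'
  set e1 : B := ⟨(se : F) * e, hseB⟩ with he1
  have he1n : e1 ∉ n := by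
    intro h
    have h2 : e1 * ⟨(se' : F) * e⁻¹, hse'B⟩ = se * se' := by
      apply Subtype.ext
      rw [he1]
      push_cast
      field_simp
    have h3 : se * se' ∈ n := by
      rw [← h2]
      exact n.mul_mem_right _ h
    exact (hn.mem_or_mem h3).elim hse hse'
  have hrel : se * a ^ m - e1 * t ^ m ∈ gblc26_P B V hBV := by
    rw [gblc26_mem_P]
    have e2 : ((se * a ^ m - e1 * t ^ m : B) : F) = ((se : F) * (t : F) ^ m) * (c ^ m - e) := by
      rw [he1]
      push_cast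
      rw [← hcta]
      ring
    rw [e2]
    exact gc26_mul V (mul_mem (hBV _ se.2) (pow_mem (hBV _ t.2) m)) hce
  obtain ⟨b, s₁, hs₁, hb⟩ := gbl26_lift (gblc26_P B V hBV) n hPn z hz
    (by rw [gblc26_mem_P]; exact hzP) hunif' m hm a t se e1 htP hse he1n hrel
  have hs₁0 := sf79_ne_zero B n s₁ hs₁
  refine ⟨(b : F) * (s₁ : F)⁻¹,
    (sf79_loc B n).mul_mem (sf79_le_loc B n _ b.2) (sf79_inv_mem_loc B n s₁ hs₁), ?_⟩
  rw [gblc26_mem_P] at hb
  have ht0 : (t : F) ≠ 0 := by
    intro h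
    rw [h] at htv
    simp at htv
  have e3 : c - (b : F) * (s₁ : F)⁻¹ =
      ((a * s₁ - b * t : B) : F) * ((t : F) * (s₁ : F))⁻¹ := by
    push_cast
    rw [← hcta]
    field_simp
  rw [e3, map_mul, map_inv₀, map_mul, htv, hsV s₁ hs₁, one_mul, inv_one, mul_one]
  exact hb

end

end Fermat.Agent.S36
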