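import Mathlib
import Fermat.Agent.S36.LocPrinTwoGen9
import Fermat.Agent.S36.BranchLiftChart26
import Fermat.Agent.S36.LocStrThree71
import Fermat.Agent.S36.LocPrinStrongThree9
import Fermat.Agent.S36.LocalDatumB55

/-!
# S36 lab, row 605 (HP-3) (helper32): the three branch root lifts at a point on several branches

The per-point datum of (HP-3) (`hp53_TripleData`, `hp34_TripleFrame`, `hp3x77`) contains, for each
of the three vertical valuation rings `V` through a triple point `n`, the lift clause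

  `∀ c e, c ∈ V → e ≠ 0 → e ∈ B_n → e⁻¹ ∈ B_n → V.valuation (c ^ m - e) < 1 →
     ∃ b ∈ B_n, V.valuation (c - b) < 1`        (conclusion of `gblc26_lift_at`, helper26).

`gblc26_lift_at` needs a generator of the branch prime of `V` in `B_n`.  At a 2-generated closed
point every prime of `B_n` other than the maximal ideal is principal (`lpz9_principal`,
helper9/helper40), in particular the branch prime of the THICK middle branch at a triple point.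

* `tl32_branch_gen` : the branch prime of a valuation ring `V` through a 2-generated point `n`
  (with a witness `w ∈ n` which is a unit of `V`) is principal in `B_n = lp7_loc B n`;
* `tl32_lift` : the lift clause for ONE branch `V` at `n`, from two generators at `n`, a (3a)
  coordinate `z` of the branch at `n` and a witness `w ∈ n`, `w` a unit of `V`;
* `tl32_three` : the three lift clauses at a closed point on the three branches, from two
  generators at `n`, `sf79_Smooth` for `V₁`, `V₃`, `tl71_MidSmooth` for `V₂`, and the two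
  `tl71_DivAt` of `tf71b_hD` (their `z` are the witnesses).

All names are prefixed `tl32_`.
-/

set_option autoImplicit false
set_option linter.style.longLine false
set_option linter.unusedVariables false
set_option linter.unusedSectionVars false

namespace Fermat.Agent.S36

open Fermat.Agent.S34 Fermat.Agent.S18 Fermat.Agent.S35 TripleLoc71 IsLocalRing

section Gen

variable {F : Type*} [Field F]

/-- **The branch prime of `V` at a 2-generated point is principal in `B_n`.** -/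
theorem tl32_branch_gen (B : Subring F) [IsNoetherianRing B]
    (n : Ideal B) [hn : n.IsPrime]
    (x y : B) (hx : x ∈ n) (hy : y ∈ n)
    (hgen : ∀ v ∈ n, ∃ s : B, s ∉ n ∧ ∃ a b : B,
      (s : F) * (v : F) = (a : F) * x + (b : F) * y)
    (V : ValuationSubring F) (hBV : ∀ t ∈ B, t ∈ V) (hthr : ∀ t : B, t ∉ n → (t : F)⁻¹ ∈ V)
    (w : B) (hwn : w ∈ n) (hwV : ¬ V.valuation (w : F) < 1) :
    ∃ g : F, g ∈ lp7_loc B n ∧ V.valuation g < 1 ∧
      ∀ t ∈ lp7_loc B n, V.valuation t < 1 → ∃ c ∈ lp7_loc B n, t = g * c := by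
  classical
  have : IsNoetherianRing (lp7_loc B n) := lp7_loc_isNoetherianRing B n
  have h1n : (1 : B) ∉ n := (Ideal.ne_top_iff_one n).mp hn.ne_top
  have hD : ∀ t : lp7_loc B n, (t : F) ∈ V := by
    intro t
    obtain ⟨s, hs, hst⟩ := t.2
    have hs0 := lp7_ne_zero_of_not_mem B n s hs
    have : (t : F) = (s : F)⁻¹ * ((s : F) * t) := by field_simp
    rw [this]; exact V.mul_mem _ _ (hthr s hs) (hBV _ hst)
  let ι : B →+* lp7_loc B n := Subring.inclusion (fun t ht => lp7_le_loc B n t ht)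
  have hι : ∀ b : B, ((ι b : lp7_loc B n) : F) = b := fun _ => rfl
  have hιmax : ∀ b : B, b ∈ n → ι b ∈ maximalIdeal (lp7_loc B n) := by
    intro b hb
    rw [uz37_mem_max_iff]
    exact ⟨1, h1n, b, hb, by simp [hι]⟩
  have hmax : maximalIdeal (lp7_loc B n) = Ideal.span {ι x, ι y} := by
    apply le_antisymm
    · intro t ht
      obtain ⟨s, hs, v, hv, hsv⟩ := (uz37_mem_max_iff B n t).mp ht
      obtain ⟨s₁, hs₁, a, b, hab⟩ := hgen v hv
      have hss : s₁ * s ∉ n := fun h => (hn.mem_or_mem h).elim hs₁ hs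
      have hs0 := lp7_ne_zero_of_not_mem B n s hs
      have hs₁0 := lp7_ne_zero_of_not_mem B n s₁ hs₁
      have ht' : t = (⟨((s₁ * s : B) : F)⁻¹, lp7_inv_mem_loc B n _ hss⟩ : lp7_loc B n) *
          (ι a * ι x + ι b * ι y) := by
        apply Subtype.ext
        show (t : F) = ((s₁ * s : B) : F)⁻¹ * ((a : F) * (x : F) + (b : F) * (y : F))
        rw [← hab, ← hsv]
        push_cast
        field_simp
      rw [ht']
      refine Ideal.mul_mem_left _ _ (Ideal.add_mem _ ?_ ?_)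
      · exact Ideal.mul_mem_left _ _ (Ideal.subset_span (by simp))
      · exact Ideal.mul_mem_left _ _ (Ideal.subset_span (by simp))
    · rw [Ideal.span_le]
      rintro t (rfl | rfl)
      · exact hιmax _ hx
      · exact hιmax _ hy
  let ιV : lp7_loc B n →+* V := Subring.inclusion (fun t ht => hD ⟨t, ht⟩)
  have hq : ((maximalIdeal V).comap ιV).IsPrime := Ideal.comap_isPrime ιV _
  have hmemq : ∀ t : lp7_loc B n,
      t ∈ (maximalIdeal V).comap ιV ↔ V.valuation (t : F) < 1 := by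
    intro t
    rw [Ideal.mem_comap, ValuationSubring.valuation_lt_one_iff]
    rfl
  have hwq : ι w ∉ (maximalIdeal V).comap ιV := by
    rw [hmemq]
    exact hwV
  obtain ⟨g, hg, hgen'⟩ := lpz9_principal (ι x) (ι y) hmax _ hq ⟨ι w, hιmax _ hwn, hwq⟩
  refine ⟨g, g.2, (hmemq g).mp hg, fun t ht htv => ?_⟩
  obtain ⟨c, hc⟩ := hgen' ⟨t, ht⟩ ((hmemq _).mpr htv)
  exact ⟨c, c.2, congrArg Subtype.val hc⟩

end Gen

section Lift

variable {R F : Type*} [CommRing R] [Field F] [Algebra R F]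

/-- **The branch root lift at a 2-generated closed point**, for one vertical valuation ring `V`
through `n` (reduced or thick). -/
theorem tl32_lift (π : R) (B : Subalgebra R F) [hN : IsNoetherianRing B]
    (V : ValuationSubring F) (hBV : ∀ x ∈ B, x ∈ V) (hπV : (algebraMap R F π)⁻¹ ∉ V)
    (hrad : ∀ x ∈ V, x⁻¹ ∉ V → ∃ k : ℕ, (algebraMap R F π)⁻¹ * x ^ k ∈ V)
    (harch : ∀ x ∈ B, x ≠ 0 → ∃ k : ℕ, (algebraMap R F π ^ k)⁻¹ * x ∉ V)
    (hFrac : ∀ x : F, ∃ a ∈ B, ∃ b ∈ B, b ≠ 0 ∧ x * b = a)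
    (n : Ideal B) [hn : n.IsPrime] (hOn : sf79_OnBr π B V.toSubring n)
    (h2 : ∃ x y : B, x ∈ n ∧ y ∈ n ∧
      ∀ v ∈ n, ∃ s : B, s ∉ n ∧ ∃ a b : B, s * v = a * x + b * y)
    (z : B) (hzn : z ∈ n)
    (hunif : ∀ x ∈ n, ∃ s : B, s ∉ n ∧ ∃ a : B,
      V.valuation ((s : F) * (x : F) - (a : F) * (z : F)) < 1)
    (w : B) (hwn : w ∈ n) (hwV : ¬ V.valuation (w : F) < 1)
    (m : ℕ) (hm : 0 < m) (c e : F) (hc : c ∈ V) (he0 : e ≠ 0)
    (he : e ∈ sf79_loc B n) (he' : e⁻¹ ∈ sf79_loc B n)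
    (hce : V.valuation (c ^ m - e) < 1) :
    ∃ b ∈ sf79_loc B n, V.valuation (c - b) < 1 := by
  classical
  have hπ0 : algebraMap R F π ≠ 0 := by
    intro h0
    apply hπV
    rw [h0, inv_zero]
    exact V.zero_mem
  have hπmem : algebraMap R F π ∈ V := hBV _ (B.algebraMap_mem π)
  have hPn : ∀ t : B, (t : F) ∈ ld55_mV V → t ∈ n := fun t ht => ld55_br_le π B V hrad n hOn t ht
  have hthr : ∀ t : B, t ∉ n → (t : F)⁻¹ ∈ V :=
    fun t ht => ld55_inv_mem V (hBV _ t.2) (fun h => ht (hPn t h))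
  -- the coordinate is not in the branch prime
  have hzP : ¬ V.valuation (z : F) < 1 := by
    intro hz
    obtain ⟨s, hs, a, ha⟩ := hunif w hwn
    have h1 : (a : F) * (z : F) ∈ ld55_mV V := ld55_mV_mul V (hBV _ a.2) hz
    have h2' : (s : F) * (w : F) ∈ ld55_mV V := by
      have h3 := (ld55_mV V).add_mem ha h1
      rwa [sub_add_cancel] at h3
    rcases ld55_mV_mul_mem V (hBV _ s.2) (hBV _ w.2) h2' with h | h
    · exact hs (hPn s h)
    · exact hwV h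
  obtain ⟨x, y, hx, hy, hgen⟩ := h2
  have hnp : (show Ideal B.toSubring from n).IsPrime := hn
  have hgen' : ∀ v ∈ n, ∃ s : B, s ∉ n ∧ ∃ a b : B,
      (s : F) * (v : F) = (a : F) * x + (b : F) * y := by
    intro v hv
    obtain ⟨s, hs, a, b, h⟩ := hgen v hv
    exact ⟨s, hs, a, b, congrArg Subtype.val h⟩
  obtain ⟨g, hgloc, hgV, hgdiv⟩ :=
    @tl32_branch_gen F _ B.toSubring hN n hnp x y hx hy hgen' V hBV hthr z hzn hzP
  have hloc_iff : ∀ t : F, t ∈ lp7_loc B.toSubring n ↔ t ∈ sf79_loc B n := by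
    intro t
    constructor
    · rintro ⟨s, hs, hst⟩
      exact ⟨s, hs, hst⟩
    · rintro ⟨s, hs, hst⟩
      exact ⟨s, hs, hst⟩
  have hlocV : ∀ t ∈ sf79_loc B n, t ∈ V := by
    rintro t ⟨s, hs, hst⟩
    have hs0 : (s : F) ≠ 0 := by
      intro h0
      apply hs
      have e1 : s = 0 := Subtype.ext h0
      rw [e1]
      exact n.zero_mem
    have e1 : t = (s : F)⁻¹ * ((s : F) * t) := by
      rw [← mul_assoc, inv_mul_cancel₀ hs0, one_mul]
    rw [e1]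
    exact V.mul_mem _ _ (hthr s hs) (hBV _ hst)
  -- `g ≠ 0`, since `π` lies in the branch prime
  have hπlt : V.valuation (algebraMap R F π) < 1 :=
    ld55_mV_of_div V (algebraMap R F π) _ hπmem hπV (by
      rw [inv_mul_cancel₀ hπ0]
      exact V.one_mem)
  have hg0 : g ≠ 0 := by
    intro h0
    have hπloc : algebraMap R F π ∈ lp7_loc B.toSubring n :=
      (hloc_iff _).mpr ⟨1, (Ideal.ne_top_iff_one n).mp hn.ne_top, by
        simpa using B.algebraMap_mem π⟩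
    obtain ⟨c', -, hc'⟩ := hgdiv _ hπloc hπlt
    rw [h0, zero_mul] at hc'
    exact hπ0 hc'
  have hgVmem : g ∈ V := hlocV g ((hloc_iff g).mp hgloc)
  have hginv : g⁻¹ ∉ V := (uz37_inv_not_mem_iff V g).mpr ⟨hg0, hgV⟩
  have hG : ∀ t ∈ sf79_loc B n, V.valuation t < 1 → t * g⁻¹ ∈ sf79_loc B n := by
    intro t ht htv
    obtain ⟨c', hc'loc, hc'⟩ := hgdiv t ((hloc_iff t).mpr ht) htv
    have e1 : t * g⁻¹ = c' := by
      rw [hc']
      field_simp
    rw [e1]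
    exact (hloc_iff c').mp hc'loc
  have harch' : ∀ t ∈ B, t ≠ 0 → ∃ j : ℕ, t * (g ^ j)⁻¹ ∉ V := by
    intro t ht ht0
    obtain ⟨k', hk'⟩ := hrad g hgVmem hginv
    obtain ⟨k, hk⟩ := harch t ht ht0
    refine ⟨k' * k, fun hmem => hk ?_⟩
    have e1 : (algebraMap R F π ^ k)⁻¹ * t =
        (t * (g ^ (k' * k))⁻¹) * ((algebraMap R F π)⁻¹ * g ^ k') ^ k := by
      rw [mul_pow, ← pow_mul, inv_pow]
      have hgk : g ^ (k' * k) ≠ 0 := pow_ne_zero _ hg0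
      field_simp
    rw [e1]
    exact V.mul_mem _ _ hmem (V.pow_mem hk' k)
  exact gblc26_lift_at B V hBV hFrac n hthr z hzn hzP hunif g hg0 hgV hG harch' m hm c e hc he0
    he he' hce

/-- A `tl71_DivAt` divisor `z` of `π` along `V` is a nonzero element of `n` and not in the
maximal ideal of `V'`, `V''`. -/
theorem tl32_divAt_witness (π : R) (hπ0 : algebraMap R F π ≠ 0) (B : Subalgebra R F)
    (V V' V'' : ValuationSubring F) (n : Ideal B) [hn : n.IsPrime]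
    (hOn : sf79_OnBr π B V.toSubring n)
    (h : tl71_DivAt π B V.toSubring V'.toSubring V''.toSubring n) :
    ∃ w : B, w ∈ n ∧ ¬ V'.valuation (w : F) < 1 ∧ ¬ V''.valuation (w : F) < 1 := by
  obtain ⟨z, c, t, ht, hzc, hzV, -, hzV', hzV''⟩ := h
  have hz0 : (z : F) ≠ 0 := by
    intro h0
    have h1 : ((z * c : B) : F) = ((t * algebraMap R B π : B) : F) := congrArg Subtype.val hzc
    have e2 : ((algebraMap R B π : B) : F) = algebraMap R F π := rfl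
    rw [Subalgebra.coe_mul, Subalgebra.coe_mul, h0, zero_mul, e2] at h1
    rcases mul_eq_zero.mp h1.symm with h2 | h2
    · apply ht
      have e1 : t = 0 := Subtype.ext h2
      rw [e1]
      exact n.zero_mem
    · exact hπ0 h2
  refine ⟨z, hOn z hzV, fun hlt => ?_, fun hlt => ?_⟩
  · exact ((uz37_inv_not_mem_iff V' _).mpr ⟨hz0, hlt⟩) hzV'
  · exact ((uz37_inv_not_mem_iff V'' _).mpr ⟨hz0, hlt⟩) hzV''

/-- **The three branch root lifts at a closed point on the three branches** (the three lift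
clauses of `hp53_TripleData`). -/
theorem tl32_three (π : R) (σ : F) (e : ℕ) (B : Subalgebra R F) [IsNoetherianRing B]
    (V₁ V₂ V₃ : ValuationSubring F)
    (hB₁ : ∀ x ∈ B, x ∈ V₁) (hB₂ : ∀ x ∈ B, x ∈ V₂) (hB₃ : ∀ x ∈ B, x ∈ V₃)
    (hπ₁ : (algebraMap R F π)⁻¹ ∉ V₁) (hπ₂ : (algebraMap R F π)⁻¹ ∉ V₂)
    (hπ₃ : (algebraMap R F π)⁻¹ ∉ V₃)
    (hrad₁ : ∀ x ∈ V₁, x⁻¹ ∉ V₁ → ∃ k : ℕ, (algebraMap R F π)⁻¹ * x ^ k ∈ V₁)
    (hrad₂ : ∀ x ∈ V₂, x⁻¹ ∉ V₂ → ∃ k : ℕ, (algebraMap R F π)⁻¹ * x ^ k ∈ V₂)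
    (hrad₃ : ∀ x ∈ V₃, x⁻¹ ∉ V₃ → ∃ k : ℕ, (algebraMap R F π)⁻¹ * x ^ k ∈ V₃)
    (harch₁ : ∀ x ∈ B, x ≠ 0 → ∃ k : ℕ, (algebraMap R F π ^ k)⁻¹ * x ∉ V₁)
    (harch₂ : ∀ x ∈ B, x ≠ 0 → ∃ k : ℕ, (algebraMap R F π ^ k)⁻¹ * x ∉ V₂)
    (harch₃ : ∀ x ∈ B, x ≠ 0 → ∃ k : ℕ, (algebraMap R F π ^ k)⁻¹ * x ∉ V₃)
    (hFrac : ∀ x : F, ∃ a ∈ B, ∃ b ∈ B, b ≠ 0 ∧ x * b = a)
    (hσ0 : σ ≠ 0) (hσV : σ ∈ V₂) (hσi : σ⁻¹ ∉ V₂)
    (hσe : (algebraMap R F π)⁻¹ * σ ^ e ∈ V₂)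
    (hS₁ : sf79_Smooth π B V₁.toSubring) (hS₃ : sf79_Smooth π B V₃.toSubring)
    (hS₂ : tl71_MidSmooth π σ B V₂.toSubring)
    (n : Ideal B) (hn : n.IsMaximal) (hπn : algebraMap R B π ∈ n)
    (h1 : sf79_OnBr π B V₁.toSubring n) (h2 : sf79_OnBr π B V₂.toSubring n)
    (h3 : sf79_OnBr π B V₃.toSubring n)
    (hgen : ∃ x y : B, x ∈ n ∧ y ∈ n ∧
      ∀ v ∈ n, ∃ s : B, s ∉ n ∧ ∃ a b : B, s * v = a * x + b * y)
    (hD₁ : tl71_DivAt π B V₁.toSubring V₂.toSubring V₃.toSubring n)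
    (hD₃ : tl71_DivAt π B V₃.toSubring V₂.toSubring V₁.toSubring n)
    (m : ℕ) (hm : 0 < m) :
    haveI := hn.isPrime
    (∀ c e : F, c ∈ V₁ → e ≠ 0 → e ∈ sf79_loc B n → e⁻¹ ∈ sf79_loc B n →
      V₁.valuation (c ^ m - e) < 1 → ∃ b ∈ sf79_loc B n, V₁.valuation (c - b) < 1) ∧
    (∀ c e : F, c ∈ V₂ → e ≠ 0 → e ∈ sf79_loc B n → e⁻¹ ∈ sf79_loc B n →
      V₂.valuation (c ^ m - e) < 1 → ∃ b ∈ sf79_loc B n, V₂.valuation (c - b) < 1) ∧
    (∀ c e : F, c ∈ V₃ → e ≠ 0 → e ∈ sf79_loc B n → e⁻¹ ∈ sf79_loc B n →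
      V₃.valuation (c ^ m - e) < 1 → ∃ b ∈ sf79_loc B n, V₃.valuation (c - b) < 1) := by
  haveI hnp : n.IsPrime := hn.isPrime
  have hπ0 : algebraMap R F π ≠ 0 := by
    intro h0
    apply hπ₁
    rw [h0, inv_zero]
    exact V₁.zero_mem
  have hπm₁ : algebraMap R F π ∈ V₁ := hB₁ _ (B.algebraMap_mem π)
  have hπm₃ : algebraMap R F π ∈ V₃ := hB₃ _ (B.algebraMap_mem π)
  -- witnesses
  obtain ⟨w₁, hw₁n, hw₁V₂, hw₁V₃⟩ := tl32_divAt_witness π hπ0 B V₁ V₂ V₃ n h1 hD₁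
  obtain ⟨w₃, hw₃n, hw₃V₂, hw₃V₁⟩ := tl32_divAt_witness π hπ0 B V₃ V₂ V₁ n h3 hD₃
  -- coordinates
  obtain ⟨z₁, hz₁n, hz₁⟩ := hS₁ n hn hπn h1
  obtain ⟨z₃, hz₃n, hz₃⟩ := hS₃ n hn hπn h3
  have hon : tl71_OnMid σ B V₂.toSubring n :=
    lps9_onMid_of_onBr π σ e B V₂.toSubring hσ0 hσe n h2
  obtain ⟨z₂, hz₂n, hz₂⟩ := hS₂ n hn hπn hon
  have hu₁ : ∀ x ∈ n, ∃ s : B, s ∉ n ∧ ∃ a : B,
      V₁.valuation ((s : F) * (x : F) - (a : F) * (z₁ : F)) < 1 := by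
    intro x hx
    obtain ⟨s, hs, a, ha⟩ := hz₁ x hx
    exact ⟨s, hs, a, ld55_mV_of_div V₁ (algebraMap R F π) _ hπm₁ hπ₁ ha⟩
  have hu₃ : ∀ x ∈ n, ∃ s : B, s ∉ n ∧ ∃ a : B,
      V₃.valuation ((s : F) * (x : F) - (a : F) * (z₃ : F)) < 1 := by
    intro x hx
    obtain ⟨s, hs, a, ha⟩ := hz₃ x hx
    exact ⟨s, hs, a, ld55_mV_of_div V₃ (algebraMap R F π) _ hπm₃ hπ₃ ha⟩
  have hu₂ : ∀ x ∈ n, ∃ s : B, s ∉ n ∧ ∃ a : B,
      V₂.valuation ((s : F) * (x : F) - (a : F) * (z₂ : F)) < 1 := by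
    intro x hx
    obtain ⟨s, hs, a, ha⟩ := hz₂ x hx
    refine ⟨s, hs, a, ld55_mV_of_div V₂ σ _ hσV hσi ?_⟩
    rw [mul_comm]
    exact ha
  refine ⟨fun c e hc he0 he he' hce => ?_, fun c e hc he0 he he' hce => ?_,
    fun c e hc he0 he he' hce => ?_⟩
  · exact tl32_lift π B V₁ hB₁ hπ₁ hrad₁ harch₁ hFrac n h1 hgen z₁ hz₁n hu₁ w₃ hw₃n hw₃V₁ m hm
      c e hc he0 he he' hce
  · exact tl32_lift π B V₂ hB₂ hπ₂ hrad₂ harch₂ hFrac n h2 hgen z₂ hz₂n hu₂ w₁ hw₁n hw₁V₂ m hm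
      c e hc he0 he he' hce
  · exact tl32_lift π B V₃ hB₃ hπ₃ hrad₃ harch₃ hFrac n h3 hgen z₃ hz₃n hu₃ w₁ hw₁n hw₁V₃ m hm
      c e hc he0 he he' hce

end Lift

end Fermat.Agent.S36
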