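import Fermat.Agent.S36.HPThree77
import Fermat.Agent.S36.HP1Canon36
import Fermat.Agent.S36.TripleLift32
import Fermat.Agent.S36.NormGcd94
import Fermat.Agent.S36.PointBind81
import Fermat.Agent.S36.LocPrinStrongThree9

/-!
# S36 lab (helper28), row 605 (INV-core): the CANONICAL INSTANCE of (HP-3), top theorem

`cp57_HP3` (CorePoints57) on the canonical frame of level `M' q q`:
`V₁ = cm85_Vinf (M' * q * q) hπ`, `V₃ = nsb86_V3 M' q hq hM' hπ`, `V₂` ANY valuation subring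
with the four facts of row B1-V2 (`hV₂ hπ₂ hne hs`), `Vinf = cm85_Vinf (M' * q) hπ`,
`V0 = s34i47c_V0 M' q hq hM' hπ`, `al / be = (al97L_alpha / al97L_beta K (M' * q) q).toRingHom`,
`Nal / Nbe = s35i62_normA / s35i62_normB K (M' * q) q`.

* `hp3c28_Block` : the `∃ Aal Abe` block of `hp3x77_TripleData` at a closed point `n`
  (local rings of the level-`q` chart at `α(n)`, `β(n)` with the clauses of
  `gcd26_datum_triple`).
* `hp3c28_core` : a pair of charts `(B' = pk15_chart R s', B)` with the frame facts as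
  hypotheses (those of `hp1c36_core` + the two integral chart maps of `pbi81_triple`):
  `tf71_RegNodes B'` and `hp3c28_Block` at every closed point on two branches give `cp57_HP3`.

Proof: `hp3x77_HP3` (helper77) with the global norm facts `ng94_*` (helper94), the point
classification `pbi81_triple` (helper81), two generators at the triple points `tg71_core`
(helper71), `tf71_hD`, the strong local factorisation `lps9_strong_three_at` (helper9) and the
three branch root lifts `tl32_three` (helper32).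

All names are prefixed `hp3c28_`.
-/

set_option autoImplicit false
set_option linter.unusedSectionVars false
set_option linter.unusedVariables false
set_option linter.style.haveILetI false
set_option linter.style.longLine false

open ModularCurve

namespace Fermat.Agent.S36

open Fermat.Agent.S34 Fermat.Agent.S18 Fermat.Agent.S24 Fermat.Agent.S35
  Fermat.Agent.S36.TripleLoc71

local notation "Q̄" => AlgebraicClosure ℚ

section Block

variable {R K F1 F2 : Type*} [CommRing R] [Field K] [Field F1] [Field F2] [Algebra R K]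
  [Algebra K F1] [Algebra R F2] [Algebra K F2]

/-- The `∃ Aal Abe` block of `hp3x77_TripleData` at the closed point `n` of the chart `B`. -/
def hp3c28_Block (K : Type*) [Field K] [Algebra R K] [Algebra K F1] (m : ℕ)
    (B : Subalgebra R F2) (al be : F1 →+* F2) (Nal Nbe : F2 →* F1)
    (V₁ V₂ V₃ : ValuationSubring F2) (Vinf V0 : ValuationSubring F1)
    (n : Ideal B) [n.IsPrime] : Prop :=
  ∃ Aal Abe : Subring F1,
    (∀ x ∈ Aal, al x ∈ sf79_loc B n) ∧ (∀ x ∈ Aal, x ∈ Vinf) ∧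
    (∀ x ∈ Aal, (al x)⁻¹ ∈ sf79_loc B n → x⁻¹ ∈ Aal) ∧
    (∀ b ∈ sf79_loc B n, ∃ a ∈ Aal, V₁.valuation (al a - b) < 1) ∧
    (∀ b ∈ sf79_loc B n, ∃ a ∈ Aal, V₂.valuation (al a - b) < 1) ∧
    (∀ x ∈ Abe, be x ∈ sf79_loc B n) ∧ (∀ x ∈ Abe, x ∈ V0) ∧
    (∀ x ∈ Abe, (be x)⁻¹ ∈ sf79_loc B n → x⁻¹ ∈ Abe) ∧
    (∀ b ∈ sf79_loc B n, ∃ a ∈ Abe, V₃.valuation (be a - b) < 1) ∧
    (∀ b ∈ sf79_loc B n, ∃ a ∈ Abe, V₂.valuation (be a - b) < 1) ∧
    (∀ x : F1, x ^ m ∈ Aal → x ∈ Aal) ∧ (∀ x : F1, x ^ m ∈ Abe → x ∈ Abe) ∧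
    (∀ r : R, algebraMap K F1 (algebraMap R K r) ∈ Aal) ∧
    (∀ r : R, algebraMap K F1 (algebraMap R K r) ∈ Abe) ∧
    (∀ eps : F2, eps ≠ 0 → eps ∈ sf79_loc B n → eps⁻¹ ∈ sf79_loc B n →
      (Nal eps)⁻¹ ∈ Aal ∧ (Nbe eps)⁻¹ ∈ Abe)

end Block

section HP3C

variable {R K : Type} [CommRing R] [IsDomain R] [IsDiscreteValuationRing R] [Field K]
  [NumberField K] [Algebra R K] [IsFractionRing R K] [Algebra K Q̄] [Algebra.IsAlgebraic K Q̄]
  (M' q : ℕ) [NeZero M'] [NeZero q] (hq : q.Prime) (hM' : ¬ q ∣ M')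
  {π : R} (hπ : Irreducible π)
  [Algebra R ↥(modularFunctionFieldFullC K M')]
  [IsScalarTower R K ↥(modularFunctionFieldFullC K M')]
  [Algebra R ↥(modularFunctionFieldFullC K (M' * q))]
  [IsScalarTower R K ↥(modularFunctionFieldFullC K (M' * q))]
  [Algebra R ↥(modularFunctionFieldFullC K (M' * q * q))]
  [IsScalarTower R K ↥(modularFunctionFieldFullC K (M' * q * q))]

include hq hM' in
/-- **(HP-3) for a pair of charts** `(B' = pk15_chart R s', B)` of levels `M' q`, `M' q q` with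
the frame facts as hypotheses: labelled regular nodes on `B'` and the block `hp3c28_Block` at
every closed point of `B` on two branches give `cp57_HP3`. -/
theorem hp3c28_core (hqR : ¬ IsUnit (q : R))
    (V₂ : ValuationSubring ↥(modularFunctionFieldFullC K (M' * q * q)))
    (hV₂ : ∀ c ∈ cm85_Vinf (K := K) (M' * q) hπ, al97L_alpha K (M' * q) q c ∈ V₂)
    (hπ₂ : (algebraMap K ↥(modularFunctionFieldFullC K (M' * q * q)) (algebraMap R K π))⁻¹ ∉ V₂)
    (hne : cm85_Vinf (K := K) (M' * q * q) hπ ≠ V₂)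
    (hs : V₂.valuation (v2g64_s K M' q) ^ (q - 1) =
      V₂.valuation (algebraMap K ↥(modularFunctionFieldFullC K (M' * q * q)) (algebraMap R K π)))
    (s' : Set ↥(modularFunctionFieldFullC K (M' * q)))
    (B : Subalgebra R ↥(modularFunctionFieldFullC K (M' * q * q))) [IsNoetherianRing B]
    (hαB : ∀ x ∈ pk15_chart R s', al97L_alpha K (M' * q) q x ∈ B)
    (hβB : ∀ x ∈ pk15_chart R s', al97L_beta K (M' * q) q x ∈ B)
    (hB'W : ∀ x ∈ pk15_chart R s', x ∈ s34i47c_W (K := K) M' q hq hM' hπ)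
    (hBW : ∀ x ∈ B, x ∈ (cm85_Vinf (K := K) (M' * q * q) hπ).toSubring ⊓ V₂.toSubring ⊓
      (nsb86_V3 (K := K) M' q hq hM' hπ).toSubring)
    (hsatW : ∀ x ∈ B, (algebraMap R ↥(modularFunctionFieldFullC K (M' * q * q)) π)⁻¹ * x ∈
        (cm85_Vinf (K := K) (M' * q * q) hπ).toSubring ⊓ V₂.toSubring ⊓ (nsb86_V3 (K := K) M' q hq hM' hπ).toSubring →
      (algebraMap R ↥(modularFunctionFieldFullC K (M' * q * q)) π)⁻¹ * x ∈ B)
    (hS₁ : sf79_Smooth π B (cm85_Vinf (K := K) (M' * q * q) hπ).toSubring)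
    (hS₂ : tl71_MidSmooth π (v2g64_s K M' q) B V₂.toSubring)
    (hS₃ : sf79_Smooth π B (nsb86_V3 (K := K) M' q hq hM' hπ).toSubring)
    (hfrac : ∀ t : ↥(modularFunctionFieldFullC K (M' * q * q)), ∃ a ∈ B, ∃ b ∈ B, b ≠ 0 ∧ t * b = a)
    (hKr : s34i47_Krull π B)
    (m : ℕ) (hm : 0 < m)
    (hmB : ∃ μ ∈ B, (m : ↥(modularFunctionFieldFullC K (M' * q * q))) * μ = 1)
    (fα : ↥(pk15_chart R s') →+* ↥B)
    (hfα : ∀ x, ((fα x : ↥B) : ↥(modularFunctionFieldFullC K (M' * q * q))) =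
      al97L_alpha K (M' * q) q (x : ↥(modularFunctionFieldFullC K (M' * q))))
    (hfαi : fα.IsIntegral)
    (fβ : ↥(pk15_chart R s') →+* ↥B)
    (hfβ : ∀ x, ((fβ x : ↥B) : ↥(modularFunctionFieldFullC K (M' * q * q))) =
      al97L_beta K (M' * q) q (x : ↥(modularFunctionFieldFullC K (M' * q))))
    (hfβi : fβ.IsIntegral)
    (hreg : tf71_RegNodes (K := K) M' q hq hM' hπ (pk15_chart R s'))
    (hblock : ∀ (n : Ideal B) (hn : n.IsMaximal), algebraMap R B π ∈ n →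
      ¬ cp57_OneBr π B (cm85_Vinf (K := K) (M' * q * q) hπ) V₂
        (nsb86_V3 (K := K) M' q hq hM' hπ) n →
      @hp3c28_Block R _ _ _ _ _ _ K _ _ _ m B (al97L_alpha K (M' * q) q).toRingHom
        (al97L_beta K (M' * q) q).toRingHom (s35i62_normA K (M' * q) q)
        (s35i62_normB K (M' * q) q) (cm85_Vinf (K := K) (M' * q * q) hπ) V₂
        (nsb86_V3 (K := K) M' q hq hM' hπ) (cm85_Vinf (K := K) (M' * q) hπ)
        (s34i47c_V0 (K := K) M' q hq hM' hπ) n hn.isPrime) :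
    cp57_HP3 (K := K) π q m B (al97L_alpha K (M' * q) q).toRingHom
      (al97L_beta K (M' * q) q).toRingHom (s35i62_normA K (M' * q) q)
      (s35i62_normB K (M' * q) q) (cm85_Vinf (K := K) (M' * q * q) hπ) V₂
      (nsb86_V3 (K := K) M' q hq hM' hπ) (cm85_Vinf (K := K) (M' * q) hπ)
      (s34i47c_V0 (K := K) M' q hq hM' hπ) := by
  have e : algebraMap R ↥(modularFunctionFieldFullC K (M' * q * q)) π = (algebraMap K ↥(modularFunctionFieldFullC K (M' * q * q)) (algebraMap R K π)) :=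
    IsScalarTower.algebraMap_apply R K _ π
  have hπ0 : algebraMap R ↥(modularFunctionFieldFullC K (M' * q * q)) π ≠ 0 := by
    intro h0
    apply (ci22_Vinf_pi (K := K) (M' * q * q) hπ).2
    rw [h0, inv_zero]
    exact (cm85_Vinf (K := K) (M' * q * q) hπ).zero_mem
  have hp0 : V₂.valuation (algebraMap R ↥(modularFunctionFieldFullC K (M' * q * q)) π) ≠ 0 :=
    (map_ne_zero V₂.valuation).mpr hπ0
  have hπ₂' : (algebraMap R ↥(modularFunctionFieldFullC K (M' * q * q)) π)⁻¹ ∉ V₂ := by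
    rw [e]
    exact hπ₂
  have hp1 : V₂.valuation (algebraMap R ↥(modularFunctionFieldFullC K (M' * q * q)) π) < 1 := by
    by_contra hcon
    apply hπ₂
    rw [← e, ← ValuationSubring.valuation_le_one_iff, map_inv₀]
    exact inv_le_one_of_one_le₀ (not_lt.mp hcon)
  have hs' : V₂.valuation (v2g64_s K M' q) ^ (q - 1) =
      V₂.valuation (algebraMap R ↥(modularFunctionFieldFullC K (M' * q * q)) π) := by
    rw [e]
    exact hs
  obtain ⟨ha0, ha1, ha2⟩ := sm7_aux_val (V₂.valuation (v2g64_s K M' q))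
    (V₂.valuation (algebraMap R ↥(modularFunctionFieldFullC K (M' * q * q)) π)) q hq.two_le hp0 hp1 hs'
  have hσ0 : (v2g64_s K M' q) ≠ 0 := fun h => ha0 (by rw [h, map_zero])
  have hσV : v2g64_s K M' q ∈ V₂ := by
    rw [← ValuationSubring.valuation_le_one_iff]
    exact ha1.le
  have hσi : (v2g64_s K M' q)⁻¹ ∉ V₂ := by
    rw [← ValuationSubring.valuation_le_one_iff, map_inv₀, not_le]
    exact (one_lt_inv₀ (zero_lt_iff.mpr ha0)).mpr ha1
  have hπσ : algebraMap R ↥(modularFunctionFieldFullC K (M' * q * q)) π * (v2g64_s K M' q)⁻¹ ∈ V₂ := by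
    rw [← ValuationSubring.valuation_le_one_iff, map_mul, map_inv₀]
    exact (mul_comm _ _).le.trans ha2
  have hσe : (algebraMap R ↥(modularFunctionFieldFullC K (M' * q * q)) π)⁻¹ * (v2g64_s K M' q) ^ (q - 1) ∈ V₂ := by
    rw [← ValuationSubring.valuation_le_one_iff, map_mul, map_inv₀, map_pow, hs',
      inv_mul_cancel₀ hp0]
  have hL := nsb86_hL K (M' * q * q)
  have hV₃mem := nsb86_mem_V3 (K := K) M' q hq hM' hπ
  have hα₃ : ∀ x ∈ s34i47c_V0 (K := K) M' q hq hM' hπ,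
      al97L_alpha K (M' * q) q x ∈ (nsb86_V3 (K := K) M' q hq hM' hπ) := fun c hc =>
    o3x72_V3_over (K := K) M' q hq hM' hπ hL _ hV₃mem c hc
  have hβ₂ : ∀ x ∈ s34i47c_V0 (K := K) M' q hq hM' hπ, al97L_beta K (M' * q) q x ∈ V₂ :=
    fun c hc => (bv66_beta_mem_V2 (K := K) M' q hq hM' hπ hqR hL V₂ hV₂ hπ₂ hne c).mpr hc
  have hβ₃ : ∀ x ∈ s34i47c_V0 (K := K) M' q hq hM' hπ,
      al97L_beta K (M' * q) q x ∈ (nsb86_V3 (K := K) M' q hq hM' hπ) := fun c hc =>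
    s3f66_V3_beta (K := K) M' q hq hM' hπ hL _ hV₃mem c hc
  have hB₁ : ∀ x ∈ B, x ∈ cm85_Vinf (K := K) (M' * q * q) hπ := fun x hx =>
    (Subring.mem_inf.mp (Subring.mem_inf.mp (hBW x hx)).1).1
  have hB₂ : ∀ x ∈ B, x ∈ V₂ := fun x hx =>
    (Subring.mem_inf.mp (Subring.mem_inf.mp (hBW x hx)).1).2
  have hB₃ : ∀ x ∈ B, x ∈ nsb86_V3 (K := K) M' q hq hM' hπ := fun x hx =>
    (Subring.mem_inf.mp (hBW x hx)).2
  have hsat : ∀ x ∈ B,
      (algebraMap R ↥(modularFunctionFieldFullC K (M' * q * q)) π)⁻¹ * x ∈ cm85_Vinf (K := K) (M' * q * q) hπ →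
      (algebraMap R ↥(modularFunctionFieldFullC K (M' * q * q)) π)⁻¹ * x ∈ V₂ →
      (algebraMap R ↥(modularFunctionFieldFullC K (M' * q * q)) π)⁻¹ * x ∈ nsb86_V3 (K := K) M' q hq hM' hπ →
      (algebraMap R ↥(modularFunctionFieldFullC K (M' * q * q)) π)⁻¹ * x ∈ B := fun x hx h1 h2 h3 =>
    hsatW x hx (Subring.mem_inf.mpr ⟨Subring.mem_inf.mpr ⟨h1, h2⟩, h3⟩)
  obtain ⟨hD₁, hD₃⟩ := tf71_hD (K := K) M' q hq hM' hπ hqR V₂ (nsb86_V3 (K := K) M' q hq hM' hπ) (v2g64_s K M' q) hV₂ hα₃ hβ₂ hβ₃ hπσ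
    (pk15_chart R s') B hαB hβB hB'W hreg
  obtain ⟨hout1, -⟩ := tg71_core (K := K) M' q hq hM' hπ hqR V₂ hV₂ hπ₂ hne hs (pk15_chart R s') B
    hαB hβB hB'W hBW hsatW hS₁ hS₂ hS₃
  -- `π⁻¹ ∉ V i`, `rad`, archimedean (helper73)
  have hpi := fc73_pi (K := K) M' q hq hM' hπ V₂ hπ₂
  have hrad := fc73_rad (K := K) M' q hq hM' hπ hqR V₂ hV₂ hπ₂ hne hs
  have harch := fc73_arch (K := K) M' q hq hM' hπ V₂ hV₂ hπ₂
  have hB'Vi : ∀ x ∈ pk15_chart R s', x ∈ cm85_Vinf (K := K) (M' * q) hπ := fun x hx =>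
    ((s34i47c_mem_W (K := K) M' q hq hM' hπ x).mp (hB'W x hx)).1
  have hB'V0 : ∀ x ∈ pk15_chart R s', x ∈ s34i47c_V0 (K := K) M' q hq hM' hπ := fun x hx =>
    ((s34i47c_mem_W (K := K) M' q hq hM' hπ x).mp (hB'W x hx)).2
  refine hp3x77_HP3 (K := K) π q m hm B (al97L_alpha K (M' * q) q).toRingHom
    (al97L_beta K (M' * q) q).toRingHom (s35i62_normA K (M' * q) q)
    (s35i62_normB K (M' * q) q) (cm85_Vinf (K := K) (M' * q * q) hπ) V₂
    (nsb86_V3 (K := K) M' q hq hM' hπ) (cm85_Vinf (K := K) (M' * q) hπ)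
    (s34i47c_V0 (K := K) M' q hq hM' hπ) hmB hB₁ hB₂ hB₃ (hpi 0) (hpi 1) (hpi 2)
    (hrad 0) (hrad 1) (hrad 2)
    (fun x _ hx0 => harch 0 x hx0) (fun x _ hx0 => harch 1 x hx0) (fun x _ hx0 => harch 2 x hx0)
    hfrac ?_ ?_ ?_ ?_ ?_ ?_ ?_ ?_ ?_
  · -- `al` on constants
    intro r
    show al97L_alpha K (M' * q) q (algebraMap K _ (algebraMap R K r)) = _
    rw [AlgHom.commutes, ← IsScalarTower.algebraMap_apply]
  · intro r
    show al97L_beta K (M' * q) q (algebraMap K _ (algebraMap R K r)) = _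
    rw [AlgHom.commutes, ← IsScalarTower.algebraMap_apply]
  · exact fun x hx => ng94_hal3 (K := K) M' q hq hM' hπ x hx
  · exact fun x hx => ng94_hbe1 (K := K) M' q hπ x hx
  · exact fun c hc1 hc2 hc3 => ng94_N1 (K := K) M' q hq hπ V₂ hV₂ hπ₂ hne (v2g64_s K M' q) hs
      c hc1.1 hc2.1
  · exact fun c hc1 hc2 hc3 => ng94_N2 (K := K) M' q hq hM' hπ hqR c hc3.1
  · exact fun c hc1 hc2 hc3 => ng94_N4 (K := K) M' q hq hM' hπ hqR V₂ hV₂ hπ₂ hne (v2g64_s K M' q)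
      hs c hc3.1 hc2.1
  · exact fun c hc1 hc2 hc3 => ng94_N3 (K := K) M' q hq hM' hπ hqR c hc1.1
  · -- the per-point data
    intro n hn hπn hnot
    haveI hnp : n.IsPrime := hn.isPrime
    have htwo : (sf79_OnBr π B (cm85_Vinf (K := K) (M' * q * q) hπ).toSubring n ∧
          sf79_OnBr π B V₂.toSubring n) ∨
        (sf79_OnBr π B (cm85_Vinf (K := K) (M' * q * q) hπ).toSubring n ∧
          sf79_OnBr π B (nsb86_V3 M' q hq hM' hπ).toSubring n) ∨
        (sf79_OnBr π B V₂.toSubring n ∧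
          sf79_OnBr π B (nsb86_V3 M' q hq hM' hπ).toSubring n) := by
      by_contra hcon
      exact hnot ⟨fun h => hcon (Or.inl h), fun h => hcon (Or.inr (Or.inl h)),
        fun h => hcon (Or.inr (Or.inr h))⟩
    obtain ⟨⟨h1, h2, h3⟩, -, -, -, -⟩ := pbi81_triple (K := K) M' q hq hM' hπ hqR s' B fα hfα hfαi
      fβ hfβ hfβi hB'Vi hB'V0 V₂ hV₂ hβ₂ hπ₂' hB₁ hB₂ hB₃ n htwo
    have hgen := hout1 hreg n hn hπn hnot
    have hD₁n := hD₁ n hn h1 (Or.inr h3)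
    have hD₃n := hD₃ n hn h3 (Or.inr h1)
    have hl := tl32_three π (v2g64_s K M' q) (q - 1) B (cm85_Vinf (K := K) (M' * q * q) hπ) V₂
      (nsb86_V3 (K := K) M' q hq hM' hπ) hB₁ hB₂ hB₃ (hpi 0) (hpi 1) (hpi 2)
      (hrad 0) (hrad 1) (hrad 2)
      (fun x _ hx0 => harch 0 x hx0) (fun x _ hx0 => harch 1 x hx0)
      (fun x _ hx0 => harch 2 x hx0) hfrac hσ0 hσV hσi hσe hS₁ hS₃ hS₂ n hn hπn h1 h2 h3 hgen
      hD₁n hD₃n m hm
    refine ⟨h1, h2, h3, hblock n hn hπn hnot, ?_, hl.1, hl.2.1, hl.2.2⟩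
    intro u hu0 hOrd hFin hu1 hu2 hu3
    obtain ⟨c, hc0, hc1, hc2, hc3, -, hsu, hsu'⟩ := lps9_strong_three_at π (v2g64_s K M' q) (q - 1)
      B (cm85_Vinf (K := K) (M' * q * q) hπ) V₂ (nsb86_V3 (K := K) M' q hq hM' hπ) hB₁ hB₂ hB₃
      hsat hπ0 hσ0 hσe (hpi 0) (hpi 1) (hpi 2) (hrad 0) (hrad 1) (hrad 2) hfrac n hn hπn hgen
      (hKr n hn hπn) (fun a b => hD₁ n hn a b) (fun a b => hD₃ n hn a b) m hm u hu0 hu1 hu2 hu3
      (fun O hO _ => hOrd O hO) (hFin.subset fun _ hO => ⟨hO.1, hO.2.2⟩)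
    exact ⟨c, hc0, hc1 h1, hc2 h2, hc3 h3, hsu, hsu'⟩

end HP3C

end Fermat.Agent.S36
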