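import Mathlib

/-!
# S36 lab, row 599 (C-REGq), helper13: `κ = 1` at EVERY node by ORDER BOOKKEEPING

Abstract, Mathlib only.  `O` = the discrete valuation ring `B_n / p_∞` of the `∞`-branch at a node
`n` of the level-`q M''` chart (uniformiser `ϖ` = image of the branch coordinate `z₁`),
`U = Δ(Q)/Δ(Q^q)` (`U^κ = unit · z₁^12`, from `U V = q^12` and saturation), `jj = j̄`,
`s = S(j̄)`, `nn = N(j̄) = P'(j̄) S(j̄) - P(j̄) S'(j̄) + j̄^(q-1) S(j̄)^2` for the reduced fraction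
`G = P/S` of `ḡ = ((j(Q^q) - j(Q)^q)/q mod q)`; the reduced modular-unit identity
`Ū · N(j̄)^6 = S(j̄)^12 · j̄^(4(q-1)) · (j̄ - 1728)^(3(q-1))`
(= `T̄ N = - S^2`, `Ū = T̄^6 j̄^(4(q-1)) (j̄-1728)^(3(q-1))` with denominators cleared).

* `ka13_arith`     : the arithmetic (all cases: generic nodes, nodes over `j = 0`, over
  `j = 1728`, `q = 3`, `q = 2`).
* `ka13_kappa_eq_one` : the DVR form.  Inputs at the special nodes: `3 ∣ ord j̄` (rigid level: all
  zeros of `j` in characteristic `0` have order `3`), `2 ∣ ord (j̄ - 1728)`, and for `q = 2`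
  `4 ∣ ord j̄` (from `j h₃³ = (h₃+27)(h₃+243)³`, i.e. `j̄ h̄₃³ = (h̄₃+1)⁴`).

All names are prefixed `ka13_`.
-/

set_option autoImplicit false

namespace Fermat.Agent.S36

/-- **Arithmetic of the node.**  `w = ord Ū`, `es = ord S(j̄)`, `μ = ord N(j̄)`, `o₁ = ord j̄`,
`o₂ = ord (j̄ - 1728)`. -/
theorem ka13_arith (q κ w es μ o₁ o₂ : ℕ) (hq : q.Prime) (hκw : κ * w = 12)
    (heq : w + 6 * μ = 12 * es + 4 * (q - 1) * o₁ + 3 * (q - 1) * o₂)
    (hpole : 1 ≤ es → μ = 0)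
    (hcase : es = 0 → ((o₁ = 0 ∧ o₂ = 0) ∨
      (5 ≤ q ∧ o₂ = 0 ∧ 3 ∣ o₁ ∧ ∃ ν : ℕ, μ = ν * o₁) ∨
      (5 ≤ q ∧ o₁ = 0 ∧ 2 ∣ o₂ ∧ ∃ ν : ℕ, μ = ν * o₂) ∨
      (q = 3 ∧ o₂ = o₁ ∧ 6 ∣ o₁ ∧ ∃ ν : ℕ, μ = ν * o₁) ∨
      (q = 2 ∧ o₂ = o₁ ∧ 12 ∣ o₁ ∧ ∃ ν : ℕ, μ = ν * o₁))) : κ = 1 := by
  have hw12 : w ∣ 12 := ⟨κ, by rw [← hκw]; ring⟩
  have hwle : w ≤ 12 := Nat.le_of_dvd (by norm_num) hw12
  have hwpos : 0 < w := Nat.pos_of_ne_zero (by rintro rfl; simp at hκw)
  have hfin : w = 12 → κ = 1 := by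
    intro h
    rw [h] at hκw
    omega
  rcases Nat.eq_zero_or_pos es with hes | hes
  · -- `S(j̄)` is a unit at the node
    subst hes
    rcases hcase rfl with ⟨h1, h2⟩ | ⟨h5, h2, ⟨o', rfl⟩, ν, hμ⟩ | ⟨h5, h1, ⟨o', rfl⟩, ν, hμ⟩ |
        ⟨rfl, h2, ⟨o', rfl⟩, ν, hμ⟩ | ⟨rfl, h2, ⟨o', rfl⟩, ν, hμ⟩
    · subst h1 h2
      omega
    · -- over `j = 0`, `q ≥ 5`
      subst h2 hμ
      apply hfin
      have e1 : w + 18 * (ν * o') = 12 * ((q - 1) * o') := by
        have : 4 * (q - 1) * (3 * o') = 12 * ((q - 1) * o') := by ring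
        have h2 : 6 * (ν * (3 * o')) = 18 * (ν * o') := by ring
        omega
      have h6 : 6 ∣ w := by omega
      obtain ⟨c, rfl⟩ := h6
      have hc : c = 1 ∨ c = 2 := by omega
      rcases hc with rfl | rfl
      · exfalso
        have e2 : 2 * ((q - 1) * o') = 1 + 3 * (ν * o') := by omega
        have ho' : o' ∣ 1 := by
          have h1 : o' ∣ 2 * ((q - 1) * o') := ⟨2 * (q - 1), by ring⟩
          have h2 : o' ∣ 3 * (ν * o') := ⟨3 * ν, by ring⟩
          rw [e2] at h1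
          exact (Nat.dvd_add_left h2).mp h1
        have ho1 : o' = 1 := Nat.dvd_one.mp ho'
        subst ho1
        have h3 : 3 ∣ q := by omega
        have := (Nat.prime_dvd_prime_iff_eq Nat.prime_three hq).mp h3
        omega
      · rfl
    · -- over `j = 1728`, `q ≥ 5`
      subst h1 hμ
      apply hfin
      have e1 : w + 12 * (ν * o') = 6 * ((q - 1) * o') := by
        have : 3 * (q - 1) * (2 * o') = 6 * ((q - 1) * o') := by ring
        have h2 : 6 * (ν * (2 * o')) = 12 * (ν * o') := by ring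
        omega
      have h6 : 6 ∣ w := by omega
      obtain ⟨c, rfl⟩ := h6
      have hc : c = 1 ∨ c = 2 := by omega
      rcases hc with rfl | rfl
      · exfalso
        have e2 : (q - 1) * o' = 1 + 2 * (ν * o') := by omega
        have ho' : o' ∣ 1 := by
          have h1 : o' ∣ (q - 1) * o' := ⟨q - 1, by ring⟩
          have h2 : o' ∣ 2 * (ν * o') := ⟨2 * ν, by ring⟩
          rw [e2] at h1
          exact (Nat.dvd_add_left h2).mp h1
        have ho1 : o' = 1 := Nat.dvd_one.mp ho'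
        subst ho1
        have h2 : 2 ∣ q := by omega
        have := (Nat.prime_dvd_prime_iff_eq Nat.prime_two hq).mp h2
        omega
      · rfl
    · -- `q = 3`
      subst h2 hμ
      apply hfin
      have e1 : w + 36 * (ν * o') = 84 * o' := by
        have h2 : 6 * (ν * (6 * o')) = 36 * (ν * o') := by ring
        omega
      omega
    · -- `q = 2`
      subst h2 hμ
      apply hfin
      have e1 : w + 72 * (ν * o') = 84 * o' := by
        have h2 : 6 * (ν * (12 * o')) = 72 * (ν * o') := by ring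
        omega
      omega
  · -- `S(j̄)` vanishes at the node: `N(j̄)` is a unit
    have hμ := hpole hes
    subst hμ
    apply hfin
    have : 12 ≤ w := by
      have h1 : 12 * 1 ≤ 12 * es := Nat.mul_le_mul_left 12 hes
      omega
    omega

section DVR

variable {O : Type*} [CommRing O] [IsDomain O] [IsDiscreteValuationRing O]

/-- Orders multiply out: the exponent of `ϖ` in a product of powers. -/
theorem ka13_pow_eq {ϖ : O} (hϖ : Irreducible ϖ) {a b : ℕ} (h : Associated (ϖ ^ a) (ϖ ^ b)) :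
    a = b := by
  obtain ⟨u, hu⟩ := h
  exact IsDiscreteValuationRing.unit_mul_pow_congr_pow hϖ hϖ u 1 a b
    (by rw [Units.val_one, one_mul, ← hu, mul_comm])

/-- **`κ = 1` at a node, DVR form.** -/
theorem ka13_kappa_eq_one (ϖ : O) (hϖ : Irreducible ϖ) (q κ : ℕ) (hq : q.Prime)
    (U jj s nn : O) (hU0 : U ≠ 0) (hs0 : s ≠ 0) (hnn0 : nn ≠ 0) (hj0 : jj ≠ 0)
    (hj10 : jj - 1728 ≠ 0)
    (hκ : Associated (U ^ κ) (ϖ ^ 12))
    (hZ : U * nn ^ 6 = s ^ 12 * jj ^ (4 * (q - 1)) * (jj - 1728) ^ (3 * (q - 1)))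
    (hpole : ¬ IsUnit s → IsUnit nn)
    (h5 : 5 ≤ q → IsUnit jj ∨ IsUnit (jj - 1728))
    (h23 : q < 5 → jj - 1728 = jj)
    (hj3 : ¬ IsUnit jj → ∃ c u : O, IsUnit u ∧ jj = u * c ^ 3)
    (hj2 : ¬ IsUnit (jj - 1728) → ∃ d u : O, IsUnit u ∧ jj - 1728 = u * d ^ 2)
    (hj4 : q = 2 → ¬ IsUnit jj → ∃ d u : O, IsUnit u ∧ jj = u * d ^ 4)
    (hn0 : IsUnit s → ¬ IsUnit jj → ∃ (ν : ℕ) (u : O), IsUnit u ∧ nn = u * jj ^ ν)
    (hn1 : IsUnit s → ¬ IsUnit (jj - 1728) →
      ∃ (ν : ℕ) (u : O), IsUnit u ∧ nn = u * (jj - 1728) ^ ν) : κ = 1 := by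
  classical
  obtain ⟨w, hw⟩ := IsDiscreteValuationRing.associated_pow_irreducible hU0 hϖ
  obtain ⟨es, hes⟩ := IsDiscreteValuationRing.associated_pow_irreducible hs0 hϖ
  obtain ⟨μ, hμ⟩ := IsDiscreteValuationRing.associated_pow_irreducible hnn0 hϖ
  obtain ⟨o₁, ho₁⟩ := IsDiscreteValuationRing.associated_pow_irreducible hj0 hϖ
  obtain ⟨o₂, ho₂⟩ := IsDiscreteValuationRing.associated_pow_irreducible hj10 hϖ
  -- unit ⟺ order zero
  have hunit : ∀ (x : O) (k : ℕ), Associated x (ϖ ^ k) → (IsUnit x ↔ k = 0) := by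
    intro x k hx
    constructor
    · intro hxu
      have h1 : Associated (ϖ ^ k) (ϖ ^ 0) := by
        rw [pow_zero]
        exact (associated_one_iff_isUnit.mpr (hx.isUnit_iff.mp hxu))
      exact ka13_pow_eq hϖ h1
    · rintro rfl
      rw [pow_zero] at hx
      exact associated_one_iff_isUnit.mp hx
  -- order of a power decomposition
  have hpowdecomp : ∀ (x c u : O) (k d : ℕ), Associated x (ϖ ^ k) → IsUnit u → x = u * c ^ d →
      x ≠ 0 → d ∣ k := by
    intro x c u k d hx hu hxc hx0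
    rcases Nat.eq_zero_or_pos d with hd | hd
    · subst hd
      rw [pow_zero, mul_one] at hxc
      have hk : k = 0 := (hunit x k hx).mp (by rw [hxc]; exact hu)
      rw [hk]
    have hc0 : c ≠ 0 := by
      rintro rfl
      apply hx0
      rw [hxc, zero_pow (Nat.pos_iff_ne_zero.mp hd), mul_zero]
    obtain ⟨l, hl⟩ := IsDiscreteValuationRing.associated_pow_irreducible hc0 hϖ
    have h1 : Associated x (ϖ ^ (l * d)) := by
      rw [hxc, pow_mul]
      have := (hl.pow_pow (n := d))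
      exact (associated_unit_mul_left _ u hu).trans this |>.symm.symm
    have := ka13_pow_eq hϖ (hx.symm.trans h1)
    exact ⟨l, by rw [this, mul_comm]⟩
  -- the two order equations
  have hκw : κ * w = 12 := by
    have h1 : Associated (U ^ κ) (ϖ ^ (w * κ)) := by
      rw [pow_mul]
      exact hw.pow_pow
    have := ka13_pow_eq hϖ (h1.symm.trans hκ)
    rw [mul_comm]
    exact this
  have heq : w + 6 * μ = 12 * es + 4 * (q - 1) * o₁ + 3 * (q - 1) * o₂ := by
    have hl : Associated (U * nn ^ 6) (ϖ ^ (w + 6 * μ)) := by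
      rw [pow_add, mul_comm 6 μ, pow_mul]
      exact hw.mul_mul hμ.pow_pow
    have hr : Associated (s ^ 12 * jj ^ (4 * (q - 1)) * (jj - 1728) ^ (3 * (q - 1)))
        (ϖ ^ (12 * es + 4 * (q - 1) * o₁ + 3 * (q - 1) * o₂)) := by
      have hr' : Associated (s ^ 12 * jj ^ (4 * (q - 1)) * (jj - 1728) ^ (3 * (q - 1)))
          ((ϖ ^ es) ^ 12 * (ϖ ^ o₁) ^ (4 * (q - 1)) * (ϖ ^ o₂) ^ (3 * (q - 1))) :=
        (hes.pow_pow.mul_mul ho₁.pow_pow).mul_mul ho₂.pow_pow
      have e : (ϖ ^ es) ^ 12 * (ϖ ^ o₁) ^ (4 * (q - 1)) * (ϖ ^ o₂) ^ (3 * (q - 1)) =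
          ϖ ^ (12 * es + 4 * (q - 1) * o₁ + 3 * (q - 1) * o₂) := by
        rw [← pow_mul, ← pow_mul, ← pow_mul, ← pow_add, ← pow_add]
        congr 1
        ring
      rw [← e]
      exact hr'
    rw [hZ] at hl
    exact ka13_pow_eq hϖ (hl.symm.trans hr)
  refine ka13_arith q κ w es μ o₁ o₂ hq hκw heq ?_ ?_
  · intro h1
    have hsn : ¬ IsUnit s := fun h => by
      have := (hunit s es hes).mp h
      omega
    exact (hunit nn μ hμ).mp (hpole hsn)
  · intro hes0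
    have hsu : IsUnit s := (hunit s es hes).mpr hes0
    by_cases hju : IsUnit jj
    · have ho10 : o₁ = 0 := (hunit jj o₁ ho₁).mp hju
      by_cases hju' : IsUnit (jj - 1728)
      · exact Or.inl ⟨ho10, (hunit _ o₂ ho₂).mp hju'⟩
      · -- `q ≥ 5` (otherwise `jj - 1728 = jj`)
        have hq5 : 5 ≤ q := by
          by_contra hlt
          exact hju' (by rw [h23 (by omega)]; exact hju)
        obtain ⟨d, u, hu, hd⟩ := hj2 hju'
        obtain ⟨ν, u', hu', hν⟩ := hn1 hsu hju'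
        refine Or.inr (Or.inr (Or.inl ⟨hq5, ho10, hpowdecomp _ d u o₂ 2 ho₂ hu hd hj10, ν, ?_⟩))
        have h1 : Associated nn (ϖ ^ (o₂ * ν)) := by
          rw [hν, pow_mul]
          exact (associated_unit_mul_left _ u' hu').trans ho₂.pow_pow |>.symm.symm
        rw [mul_comm]
        exact ka13_pow_eq hϖ (hμ.symm.trans h1)
    · obtain ⟨c, u, hu, hc⟩ := hj3 hju
      have h3 : 3 ∣ o₁ := hpowdecomp _ c u o₁ 3 ho₁ hu hc hj0
      obtain ⟨ν, u', hu', hν⟩ := hn0 hsu hju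
      have hμν : μ = ν * o₁ := by
        have h1 : Associated nn (ϖ ^ (o₁ * ν)) := by
          rw [hν, pow_mul]
          exact (associated_unit_mul_left _ u' hu').trans ho₁.pow_pow |>.symm.symm
        rw [mul_comm]
        exact ka13_pow_eq hϖ (hμ.symm.trans h1)
      by_cases hq5 : 5 ≤ q
      · have hju' : IsUnit (jj - 1728) := (h5 hq5).resolve_left hju
        exact Or.inr (Or.inl ⟨hq5, (hunit _ o₂ ho₂).mp hju', h3, ν, hμν⟩)
      · have hjj : jj - 1728 = jj := h23 (by omega)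
        have ho21 : o₂ = o₁ := by
          rw [hjj] at ho₂
          exact ka13_pow_eq hϖ (ho₂.symm.trans ho₁)
        have hju' : ¬ IsUnit (jj - 1728) := by rw [hjj]; exact hju
        obtain ⟨d, v, hv, hd⟩ := hj2 hju'
        have h2 : 2 ∣ o₂ := hpowdecomp _ d v o₂ 2 ho₂ hv hd hj10
        have hq23 : q = 2 ∨ q = 3 := by
          have h2le := hq.two_le
          have hne4 : q ≠ 4 := by
            rintro rfl
            exact absurd hq (by decide)
          omega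
        rcases hq23 with rfl | rfl
        · obtain ⟨d4, v4, hv4, hd4⟩ := hj4 rfl hju
          have h4 : 4 ∣ o₁ := hpowdecomp _ d4 v4 o₁ 4 ho₁ hv4 hd4 hj0
          refine Or.inr (Or.inr (Or.inr (Or.inr ⟨rfl, ho21, ?_, ν, hμν⟩)))
          omega
        · refine Or.inr (Or.inr (Or.inr (Or.inl ⟨rfl, ho21, ?_, ν, hμν⟩)))
          omega

end DVR

end Fermat.Agent.S36
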