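import Mathlib
import Fermat.Agent.S34.SpecFibre79

/-!
# S36 lab, row 599 C-REGq (helper13): the branch ring `O = B_n / p_V` as a Lean type

Every divisibility route to `κ = 1` at the nodes (`ka13_kappa_eq_one`, `k1e40_*`, `k1e44_*`,
`rp28_dvd_addVal`) works in the discrete valuation ring `O = B_n / p_V` of a branch `V` at a
closed point `n`.  This file constructs it.

Abstract part (Mathlib only): `A ≤ V` subrings of a field `F`, `p : F`.
* `nd13_P A V hAV p`   : the ideal `{x ∈ A | p⁻¹ x ∈ V}` of `A`;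
* `nd13_O A V hAV p`   : the quotient `A ⧸ P`;  `nd13_rho` : `A →+* O`;
* `nd13_rho_eq_zero_iff`, `nd13_rho_eq_iff` : `ρ x = 0 ↔ p⁻¹ x ∈ V`, `ρ x = ρ y ↔ p⁻¹ (x - y) ∈ V`;
* `nd13_P_isPrime`, `nd13_isDomain`;
* `nd13_isUnit_iff`    : `IsUnit (ρ x) ↔ IsUnit x` when `A` is local;
* `nd13_irreducible`, `nd13_dvr` : `O` is a discrete valuation ring with uniformiser `ρ z`
  as soon as every `x ∈ A ∖ P` is `unit · z ^ μ` modulo `P`;
* `nd13_lift`, `nd13_lift_rho`, `nd13_lift_injective` : a reduction map `red : V →+* L` with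
  kernel `p V` induces an INJECTIVE map `O →+* L` (identities proved in `L = κ((Q))` pull back
  to `O`).

Frame part (sf79 language): `B` a noetherian chart, `n` a closed point on the branch `V`
with a local coordinate `z` (`sf79_Unif π B V n z`, `π⁻¹ z ∉ V`), `A = sf79_loc B n`.
* `nd13_sf_le`, `nd13_sf_local`, `nd13_sf_isUnit_iff` (units of `B_n`), `nd13_sf_pow`;
* `nd13_sf_isDomain`, `nd13_sf_dvr`, `nd13_sf_irreducible`;
* `nd13_sf_rho_isUnit_iff` : for `b ∈ B`: `IsUnit (ρ b) ↔ b ∉ n`.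

All names are prefixed `nd13_`.
-/

set_option autoImplicit false

namespace Fermat.Agent.S36

open Fermat.Agent.S34

section Abs

variable {F : Type*} [Field F]

/-- The branch ideal `P = {x ∈ A | p⁻¹ x ∈ V}` of a subring `A ≤ V`. -/
def nd13_P (A V : Subring F) (hAV : A ≤ V) (p : F) : Ideal A where
  carrier := {x | p⁻¹ * (x : F) ∈ V}
  add_mem' := by
    intro a b ha hb
    show p⁻¹ * ((a + b : A) : F) ∈ V
    have e : p⁻¹ * ((a + b : A) : F) = p⁻¹ * (a : F) + p⁻¹ * (b : F) := by push_cast; ring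
    rw [e]; exact V.add_mem ha hb
  zero_mem' := by
    show p⁻¹ * ((0 : A) : F) ∈ V
    simp [V.zero_mem]
  smul_mem' := by
    intro c x hx
    show p⁻¹ * ((c • x : A) : F) ∈ V
    have e : p⁻¹ * ((c • x : A) : F) = (c : F) * (p⁻¹ * (x : F)) := by
      rw [smul_eq_mul]; push_cast; ring
    rw [e]; exact V.mul_mem (hAV c.2) hx

theorem nd13_mem_P (A V : Subring F) (hAV : A ≤ V) (p : F) (x : A) :
    x ∈ nd13_P A V hAV p ↔ p⁻¹ * (x : F) ∈ V := Iff.rfl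

/-- The branch ring `O = A ⧸ P`. -/
abbrev nd13_O (A V : Subring F) (hAV : A ≤ V) (p : F) : Type _ := A ⧸ nd13_P A V hAV p

/-- The reduction map `A →+* O`. -/
abbrev nd13_rho (A V : Subring F) (hAV : A ≤ V) (p : F) : A →+* nd13_O A V hAV p :=
  Ideal.Quotient.mk (nd13_P A V hAV p)

theorem nd13_rho_surjective (A V : Subring F) (hAV : A ≤ V) (p : F) :
    Function.Surjective (nd13_rho A V hAV p) := Ideal.Quotient.mk_surjective

theorem nd13_rho_eq_zero_iff (A V : Subring F) (hAV : A ≤ V) (p : F) (x : A) :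
    nd13_rho A V hAV p x = 0 ↔ p⁻¹ * (x : F) ∈ V :=
  Ideal.Quotient.eq_zero_iff_mem

theorem nd13_rho_eq_iff (A V : Subring F) (hAV : A ≤ V) (p : F) (x y : A) :
    nd13_rho A V hAV p x = nd13_rho A V hAV p y ↔ p⁻¹ * ((x : F) - (y : F)) ∈ V := by
  rw [Ideal.Quotient.eq, nd13_mem_P]
  push_cast
  rfl

theorem nd13_P_isPrime (A V : Subring F) (hAV : A ≤ V) (p : F) (hpV : p⁻¹ ∉ V)
    (hV : ∀ x ∈ V, p⁻¹ * x ∉ V → x⁻¹ ∈ V) : (nd13_P A V hAV p).IsPrime := by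
  refine ⟨?_, ?_⟩
  · rw [Ideal.ne_top_iff_one, nd13_mem_P]
    simpa using hpV
  · intro x y hxy
    rw [nd13_mem_P] at hxy
    by_cases hx : p⁻¹ * (x : F) ∈ V
    · exact Or.inl hx
    · right
      have hxinv := hV _ (hAV x.2) hx
      have hx0 : (x : F) ≠ 0 := by
        intro h0
        apply hx
        rw [h0, mul_zero]; exact V.zero_mem
      rw [nd13_mem_P]
      have e : p⁻¹ * (y : F) = (x : F)⁻¹ * (p⁻¹ * ((x * y : A) : F)) := by
        push_cast; field_simp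
      rw [e]; exact V.mul_mem hxinv hxy

theorem nd13_isDomain (A V : Subring F) (hAV : A ≤ V) (p : F) (hpV : p⁻¹ ∉ V)
    (hV : ∀ x ∈ V, p⁻¹ * x ∉ V → x⁻¹ ∈ V) : IsDomain (nd13_O A V hAV p) := by
  have := nd13_P_isPrime A V hAV p hpV hV
  exact Ideal.Quotient.isDomain _

/-- Units of a subring of a field, elementwise. -/
theorem nd13_isUnit_sub_iff (A : Subring F) (x : A) :
    IsUnit x ↔ (x : F) ≠ 0 ∧ (x : F)⁻¹ ∈ A := by
  constructor
  · rintro ⟨u, rfl⟩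
    have h1 : ((u : A) : F) * ((u⁻¹ : Aˣ) : A) = 1 := congrArg (Subtype.val) u.mul_inv
    have h0 : ((u : A) : F) ≠ 0 := left_ne_zero_of_mul_eq_one h1
    refine ⟨h0, ?_⟩
    have : ((u : A) : F)⁻¹ = ((u⁻¹ : Aˣ) : A) := by
      rw [inv_eq_of_mul_eq_one_right h1]
    rw [this]; exact Subtype.property _
  · rintro ⟨h0, hinv⟩
    refine IsUnit.of_mul_eq_one (⟨(x : F)⁻¹, hinv⟩ : A) ?_
    apply Subtype.ext
    show (x : F) * (x : F)⁻¹ = 1
    exact mul_inv_cancel₀ h0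

/-- `1 - y` is a unit of the local ring `A` for `y` in the branch ideal. -/
theorem nd13_isUnit_one_sub (A V : Subring F) (hAV : A ≤ V) (p : F) (hpV : p⁻¹ ∉ V)
    (hloc : ∀ x ∈ A, x⁻¹ ∈ A ∨ (1 - x)⁻¹ ∈ A) (y : A) (hy : y ∈ nd13_P A V hAV p) :
    IsUnit (1 - y) := by
  rw [nd13_mem_P] at hy
  rw [nd13_isUnit_sub_iff]
  have h1 : ((1 - y : A) : F) = 1 - (y : F) := by push_cast; rfl
  rw [h1]
  have hne : (1 : F) - (y : F) ≠ 0 := by
    intro h
    have hy1 : (y : F) = 1 := by linear_combination -h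
    rw [hy1, mul_one] at hy
    exact hpV hy
  refine ⟨hne, ?_⟩
  by_cases hy0 : (y : F) = 0
  · rw [hy0, sub_zero, inv_one]; exact A.one_mem
  · rcases hloc _ y.2 with h | h
    · exfalso
      apply hpV
      have : p⁻¹ = p⁻¹ * (y : F) * (y : F)⁻¹ := by field_simp
      rw [this]; exact V.mul_mem hy (hAV h)
    · exact h

/-- **The reduction map is a local homomorphism.** -/
theorem nd13_isUnit_iff (A V : Subring F) (hAV : A ≤ V) (p : F) (hpV : p⁻¹ ∉ V)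
    (hloc : ∀ x ∈ A, x⁻¹ ∈ A ∨ (1 - x)⁻¹ ∈ A) (x : A) :
    IsUnit (nd13_rho A V hAV p x) ↔ IsUnit x := by
  constructor
  · intro h
    obtain ⟨b, hb⟩ := h.exists_right_inv
    obtain ⟨y, rfl⟩ := nd13_rho_surjective A V hAV p b
    have h1 : 1 - x * y ∈ nd13_P A V hAV p := by
      rw [← Ideal.Quotient.eq_zero_iff_mem, map_sub, map_one, map_mul]
      rw [hb, sub_self]
    have h2 := nd13_isUnit_one_sub A V hAV p hpV hloc _ h1
    rw [sub_sub_cancel] at h2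
    exact isUnit_of_mul_isUnit_left h2
  · intro h
    exact h.map _

/-- Non-units of `A` reduce to non-units; in particular the class of `z` is a non-unit. -/
theorem nd13_not_isUnit (A V : Subring F) (hAV : A ≤ V) (p : F) (hpV : p⁻¹ ∉ V)
    (hloc : ∀ x ∈ A, x⁻¹ ∈ A ∨ (1 - x)⁻¹ ∈ A) (z : A) (hzA : (z : F)⁻¹ ∉ A) :
    ¬ IsUnit (nd13_rho A V hAV p z) := by
  rw [nd13_isUnit_iff A V hAV p hpV hloc, nd13_isUnit_sub_iff]
  exact fun h => hzA h.2

/-- The class of the coordinate `z` is irreducible in `O`. -/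
theorem nd13_irreducible (A V : Subring F) (hAV : A ≤ V) (p : F) (hpV : p⁻¹ ∉ V)
    (hV : ∀ x ∈ V, p⁻¹ * x ∉ V → x⁻¹ ∈ V)
    (hloc : ∀ x ∈ A, x⁻¹ ∈ A ∨ (1 - x)⁻¹ ∈ A) (z : A) (hzA : (z : F)⁻¹ ∉ A)
    (hzV : p⁻¹ * (z : F) ∉ V)
    (hpow : ∀ x : A, p⁻¹ * (x : F) ∉ V → ∃ (μ : ℕ) (w : A), IsUnit w ∧
      p⁻¹ * ((x : F) - (w : F) * (z : F) ^ μ) ∈ V) :
    Irreducible (nd13_rho A V hAV p z) := by
  have := nd13_isDomain A V hAV p hpV hV
  set ρ := nd13_rho A V hAV p with hρ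
  have hϖ0 : ρ z ≠ 0 := by
    intro h
    exact hzV ((nd13_rho_eq_zero_iff A V hAV p z).mp h)
  have hϖu : ¬ IsUnit (ρ z) := nd13_not_isUnit A V hAV p hpV hloc z hzA
  -- every non-zero element is a unit times a power of `ρ z`
  have hfac : ∀ a : nd13_O A V hAV p, a ≠ 0 → ∃ (μ : ℕ) (u : nd13_O A V hAV p), IsUnit u ∧
      a = u * ρ z ^ μ := by
    intro a ha
    obtain ⟨x, rfl⟩ := nd13_rho_surjective A V hAV p a
    have hx : p⁻¹ * (x : F) ∉ V := fun h => ha ((nd13_rho_eq_zero_iff A V hAV p x).mpr h)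
    obtain ⟨μ, w, hw, hxw⟩ := hpow x hx
    refine ⟨μ, ρ w, hw.map _, ?_⟩
    rw [← map_pow, ← map_mul, hρ, nd13_rho_eq_iff]
    have : ((w * z ^ μ : A) : F) = (w : F) * (z : F) ^ μ := by push_cast; rfl
    rw [this]; exact hxw
  refine ⟨hϖu, ?_⟩
  intro a b hab
  have ha0 : a ≠ 0 := by
    rintro rfl
    rw [zero_mul] at hab
    exact hϖ0 hab
  have hb0 : b ≠ 0 := by
    rintro rfl
    rw [mul_zero] at hab
    exact hϖ0 hab
  obtain ⟨i, u, hu, rfl⟩ := hfac a ha0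
  obtain ⟨j, v, hv, rfl⟩ := hfac b hb0
  rcases Nat.eq_zero_or_pos i with hi | hi
  · left
    rw [hi, pow_zero, mul_one]; exact hu
  rcases Nat.eq_zero_or_pos j with hj | hj
  · right
    rw [hj, pow_zero, mul_one]; exact hv
  exfalso
  apply hϖu
  obtain ⟨k, hk⟩ : ∃ k, i + j = k + 2 := ⟨i + j - 2, by omega⟩
  have h1 : ρ z * (1 - u * v * ρ z ^ (k + 1)) = 0 := by
    have : u * ρ z ^ i * (v * ρ z ^ j) = ρ z * (u * v * ρ z ^ (k + 1)) := by
      have : ρ z ^ i * ρ z ^ j = ρ z ^ (k + 2) := by rw [← pow_add, hk]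
      calc u * ρ z ^ i * (v * ρ z ^ j) = u * v * (ρ z ^ i * ρ z ^ j) := by ring
        _ = u * v * ρ z ^ (k + 2) := by rw [this]
        _ = ρ z * (u * v * ρ z ^ (k + 1)) := by ring
    rw [mul_sub, mul_one, ← this, ← hab, sub_self]
  have h2 : 1 - u * v * ρ z ^ (k + 1) = 0 := (mul_eq_zero.mp h1).resolve_left hϖ0
  have h3 : ρ z * (u * v * ρ z ^ k) = 1 := by
    have : u * v * ρ z ^ (k + 1) = 1 := by linear_combination -h2
    rw [← this]; ring
  exact IsUnit.of_mul_eq_one _ h3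

/-- **`O = A ⧸ P` is a discrete valuation ring** (with uniformiser the class of `z`). -/
theorem nd13_dvr (A V : Subring F) (hAV : A ≤ V) (p : F) (hpV : p⁻¹ ∉ V)
    (hV : ∀ x ∈ V, p⁻¹ * x ∉ V → x⁻¹ ∈ V)
    (hloc : ∀ x ∈ A, x⁻¹ ∈ A ∨ (1 - x)⁻¹ ∈ A) (z : A) (hzA : (z : F)⁻¹ ∉ A)
    (hzV : p⁻¹ * (z : F) ∉ V)
    (hpow : ∀ x : A, p⁻¹ * (x : F) ∉ V → ∃ (μ : ℕ) (w : A), IsUnit w ∧
      p⁻¹ * ((x : F) - (w : F) * (z : F) ^ μ) ∈ V) :
    @IsDiscreteValuationRing (nd13_O A V hAV p) _ (nd13_isDomain A V hAV p hpV hV) := by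
  let _ := nd13_isDomain A V hAV p hpV hV
  apply IsDiscreteValuationRing.ofHasUnitMulPowIrreducibleFactorization
  refine ⟨nd13_rho A V hAV p z,
    nd13_irreducible A V hAV p hpV hV hloc z hzA hzV hpow, ?_⟩
  intro a ha
  obtain ⟨x, rfl⟩ := nd13_rho_surjective A V hAV p a
  have hx : p⁻¹ * (x : F) ∉ V := fun h => ha ((nd13_rho_eq_zero_iff A V hAV p x).mpr h)
  obtain ⟨μ, w, hw, hxw⟩ := hpow x hx
  refine ⟨μ, ?_⟩
  have hu : IsUnit (nd13_rho A V hAV p w) := hw.map _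
  refine ⟨hu.unit, ?_⟩
  rw [IsUnit.unit_spec, ← map_pow, ← map_mul, eq_comm, nd13_rho_eq_iff]
  have : ((z ^ μ * w : A) : F) = (w : F) * (z : F) ^ μ := by push_cast; ring
  rw [this]; exact hxw

/-- A reduction map `red : V →+* L` killing `p V` induces a map `O →+* L`. -/
noncomputable def nd13_lift (A V : Subring F) (hAV : A ≤ V) (p : F) {L : Type*} [CommRing L]
    (red : V →+* L) (hred : ∀ x : V, p⁻¹ * (x : F) ∈ V → red x = 0) :
    nd13_O A V hAV p →+* L :=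
  Ideal.Quotient.lift (nd13_P A V hAV p) (red.comp (Subring.inclusion hAV))
    (fun _ ha => hred _ ha)

theorem nd13_lift_rho (A V : Subring F) (hAV : A ≤ V) (p : F) {L : Type*} [CommRing L]
    (red : V →+* L) (hred : ∀ x : V, p⁻¹ * (x : F) ∈ V → red x = 0) (x : A) :
    nd13_lift A V hAV p red hred (nd13_rho A V hAV p x) = red ⟨(x : F), hAV x.2⟩ := by
  rw [nd13_lift, Ideal.Quotient.lift_mk]
  rfl

/-- If the kernel of `red` is exactly `p V`, the induced map `O →+* L` is injective. -/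
theorem nd13_lift_injective (A V : Subring F) (hAV : A ≤ V) (p : F) {L : Type*} [CommRing L]
    (red : V →+* L) (hred : ∀ x : V, red x = 0 ↔ p⁻¹ * (x : F) ∈ V) :
    Function.Injective (nd13_lift A V hAV p red (fun x hx => (hred x).mpr hx)) := by
  rw [injective_iff_map_eq_zero]
  intro a ha
  obtain ⟨x, rfl⟩ := nd13_rho_surjective A V hAV p a
  rw [nd13_lift_rho] at ha
  rw [nd13_rho_eq_zero_iff]
  exact (hred _).mp ha

end Abs

section Frame

variable {R F : Type*} [CommRing R] [Field F] [Algebra R F]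

/-- `B_n ≤ V` for a branch `V` through `n`. -/
theorem nd13_sf_le (π : R) (B : Subalgebra R F) (V : Subring F) (hBV : ∀ x ∈ B, x ∈ V)
    (hV : ∀ x ∈ V, (algebraMap R F π)⁻¹ * x ∉ V → x⁻¹ ∈ V) (n : Ideal B) [n.IsPrime]
    (hOn : sf79_OnBr π B V n) : sf79_loc B n ≤ V :=
  sf79_loc_le π B V hBV hV n hOn

/-- `B_n` is local (elementwise form). -/
theorem nd13_sf_local (B : Subalgebra R F) (n : Ideal B) [hn : n.IsPrime] :
    ∀ x ∈ sf79_loc B n, x⁻¹ ∈ sf79_loc B n ∨ (1 - x)⁻¹ ∈ sf79_loc B n := by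
  rintro x ⟨s, hs, hsx⟩
  by_cases hb : (⟨(s : F) * x, hsx⟩ : B) ∈ n
  · right
    have hc : s - ⟨(s : F) * x, hsx⟩ ∉ n := by
      intro h
      apply hs
      have := n.add_mem h hb
      rwa [sub_add_cancel] at this
    have hx1 : 1 - x ≠ 0 := by
      intro h
      have hx : x = 1 := by linear_combination -h
      apply hs
      have : s = ⟨(s : F) * x, hsx⟩ := Subtype.ext (by simp [hx])
      rw [this]
      exact hb
    refine ⟨s - ⟨(s : F) * x, hsx⟩, hc, ?_⟩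
    have : ((s - ⟨(s : F) * x, hsx⟩ : B) : F) * (1 - x)⁻¹ = (s : F) := by
      push_cast
      field_simp
    rw [this]
    exact s.2
  · left
    have hx0 : x ≠ 0 := by
      rintro rfl
      apply hb
      have : (⟨(s : F) * 0, hsx⟩ : B) = 0 := Subtype.ext (by simp)
      rw [this]
      exact n.zero_mem
    refine ⟨⟨(s : F) * x, hsx⟩, hb, ?_⟩
    have : ((⟨(s : F) * x, hsx⟩ : B) : F) * x⁻¹ = (s : F) := by
      show (s : F) * x * x⁻¹ = (s : F)
      field_simp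
    rw [this]
    exact s.2

/-- The inverse of an element of `n` is not in `B_n`. -/
theorem nd13_sf_inv_not_mem (B : Subalgebra R F) (n : Ideal B) [hn : n.IsPrime] (b : B)
    (hb : b ∈ n) (hb0 : (b : F) ≠ 0) : (b : F)⁻¹ ∉ sf79_loc B n := by
  rintro ⟨t, ht, htb⟩
  apply ht
  have : t = ⟨(t : F) * (b : F)⁻¹, htb⟩ * b := by
    apply Subtype.ext
    show (t : F) = (t : F) * (b : F)⁻¹ * (b : F)
    field_simp
  rw [this]
  exact n.mul_mem_left _ hb

/-- For `b ∈ B`: `b` is a unit of `B_n` iff `b ∉ n`. -/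
theorem nd13_sf_isUnit_iff (B : Subalgebra R F) (n : Ideal B) [hn : n.IsPrime] (b : B) :
    IsUnit (⟨(b : F), sf79_le_loc B n _ b.2⟩ : sf79_loc B n) ↔ b ∉ n := by
  rw [nd13_isUnit_sub_iff]
  constructor
  · rintro ⟨h0, hinv⟩ hb
    exact nd13_sf_inv_not_mem B n b hb h0 hinv
  · intro hb
    exact ⟨sf79_ne_zero B n b hb, sf79_inv_mem_loc B n b hb⟩

/-- The discrete valuation property of a smooth branch, for elements of `B_n`. -/
theorem nd13_sf_pow (π : R) (B : Subalgebra R F) [IsNoetherianRing B] (V : Subring F)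
    (hBV : ∀ x ∈ B, x ∈ V) (hπV : (algebraMap R F π)⁻¹ ∉ V)
    (hV : ∀ x ∈ V, (algebraMap R F π)⁻¹ * x ∉ V → x⁻¹ ∈ V)
    (n : Ideal B) [hn : n.IsMaximal] (hOn : sf79_OnBr π B V n)
    (z : B) (hz : sf79_Unif π B V n z) :
    ∀ x : sf79_loc B n, (algebraMap R F π)⁻¹ * (x : F) ∉ V → ∃ (μ : ℕ) (w : sf79_loc B n),
      IsUnit w ∧ (algebraMap R F π)⁻¹ * ((x : F) - (w : F) * (z : F) ^ μ) ∈ V := by
  rintro ⟨x, t, ht, htx⟩ hx
  have htinv : (t : F)⁻¹ ∈ V := sf79_inv_mem π B V hBV hV n hOn t ht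
  have ht0 : (t : F) ≠ 0 := sf79_ne_zero B n t ht
  have hb : (algebraMap R F π)⁻¹ * ((⟨(t : F) * x, htx⟩ : B) : F) ∉ V := by
    intro h
    apply hx
    have e : (algebraMap R F π)⁻¹ * x = (t : F)⁻¹ * ((algebraMap R F π)⁻¹ * ((t : F) * x)) := by
      field_simp
    show (algebraMap R F π)⁻¹ * x ∈ V
    rw [e]; exact V.mul_mem htinv h
  obtain ⟨μ, s, a, hs, ha, hsa⟩ := sf79_unif_pow π B V hBV hπV hV n hOn z hz _ hb
  have hsinv : (s : F)⁻¹ ∈ V := sf79_inv_mem π B V hBV hV n hOn s hs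
  have hs0 : (s : F) ≠ 0 := sf79_ne_zero B n s hs
  have ha0 : (a : F) ≠ 0 := sf79_ne_zero B n a ha
  have hst : s * t ∉ n := fun h => (hn.isPrime.mem_or_mem h).elim hs ht
  have hwmem : (a : F) * ((s * t : B) : F)⁻¹ ∈ sf79_loc B n :=
    (sf79_loc B n).mul_mem (sf79_le_loc B n _ a.2) (sf79_inv_mem_loc B n _ hst)
  refine ⟨μ, ⟨(a : F) * ((s * t : B) : F)⁻¹, hwmem⟩, ?_, ?_⟩
  · rw [nd13_isUnit_sub_iff]
    have hst0 : ((s * t : B) : F) ≠ 0 := sf79_ne_zero B n _ hst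
    refine ⟨mul_ne_zero ha0 (inv_ne_zero hst0), ?_⟩
    show ((a : F) * ((s * t : B) : F)⁻¹)⁻¹ ∈ sf79_loc B n
    rw [mul_inv, inv_inv]
    exact (sf79_loc B n).mul_mem (sf79_inv_mem_loc B n _ ha) (sf79_le_loc B n _ (s * t).2)
  · show (algebraMap R F π)⁻¹ * (x - (a : F) * ((s * t : B) : F)⁻¹ * (z : F) ^ μ) ∈ V
    have e : (algebraMap R F π)⁻¹ * (x - (a : F) * ((s * t : B) : F)⁻¹ * (z : F) ^ μ) =
        (s : F)⁻¹ * (t : F)⁻¹ * ((algebraMap R F π)⁻¹ *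
          ((s : F) * ((⟨(t : F) * x, htx⟩ : B) : F) - (a : F) * (z : F) ^ μ)) := by
      push_cast
      field_simp
    rw [e]
    exact V.mul_mem (V.mul_mem hsinv htinv) hsa

/-- The branch ring at `n` is a domain. -/
theorem nd13_sf_isDomain (π : R) (B : Subalgebra R F) (V : Subring F)
    (hBV : ∀ x ∈ B, x ∈ V) (hπV : (algebraMap R F π)⁻¹ ∉ V)
    (hV : ∀ x ∈ V, (algebraMap R F π)⁻¹ * x ∉ V → x⁻¹ ∈ V)
    (n : Ideal B) [hn : n.IsMaximal] (hOn : sf79_OnBr π B V n) :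
    IsDomain (nd13_O (sf79_loc B n) V (nd13_sf_le π B V hBV hV n hOn) (algebraMap R F π)) :=
  nd13_isDomain _ _ _ _ hπV hV

/-- **The branch ring `B_n / p_V` at a closed point with a local coordinate is a discrete
valuation ring.** -/
theorem nd13_sf_dvr (π : R) (B : Subalgebra R F) [IsNoetherianRing B] (V : Subring F)
    (hBV : ∀ x ∈ B, x ∈ V) (hπV : (algebraMap R F π)⁻¹ ∉ V)
    (hV : ∀ x ∈ V, (algebraMap R F π)⁻¹ * x ∉ V → x⁻¹ ∈ V)
    (n : Ideal B) [hn : n.IsMaximal] (hOn : sf79_OnBr π B V n)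
    (z : B) (hz : sf79_Unif π B V n z)
    (hzV : (algebraMap R F π)⁻¹ * (z : F) ∉ V) :
    @IsDiscreteValuationRing
      (nd13_O (sf79_loc B n) V (nd13_sf_le π B V hBV hV n hOn) (algebraMap R F π)) _
      (nd13_sf_isDomain π B V hBV hπV hV n hOn) := by
  have hz0 : (z : F) ≠ 0 := by
    intro h
    apply hzV
    rw [h, mul_zero]; exact V.zero_mem
  exact nd13_dvr (sf79_loc B n) V (nd13_sf_le π B V hBV hV n hOn) (algebraMap R F π) hπV hV
    (nd13_sf_local B n) ⟨(z : F), sf79_le_loc B n _ z.2⟩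
    (nd13_sf_inv_not_mem B n z hz.1 hz0) hzV
    (nd13_sf_pow π B V hBV hπV hV n hOn z hz)

/-- The class of the local coordinate is a uniformiser of the branch ring. -/
theorem nd13_sf_irreducible (π : R) (B : Subalgebra R F) [IsNoetherianRing B] (V : Subring F)
    (hBV : ∀ x ∈ B, x ∈ V) (hπV : (algebraMap R F π)⁻¹ ∉ V)
    (hV : ∀ x ∈ V, (algebraMap R F π)⁻¹ * x ∉ V → x⁻¹ ∈ V)
    (n : Ideal B) [hn : n.IsMaximal] (hOn : sf79_OnBr π B V n)
    (z : B) (hz : sf79_Unif π B V n z)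
    (hzV : (algebraMap R F π)⁻¹ * (z : F) ∉ V) :
    Irreducible (nd13_rho (sf79_loc B n) V (nd13_sf_le π B V hBV hV n hOn) (algebraMap R F π)
      ⟨(z : F), sf79_le_loc B n _ z.2⟩) := by
  have hz0 : (z : F) ≠ 0 := by
    intro h
    apply hzV
    rw [h, mul_zero]; exact V.zero_mem
  exact nd13_irreducible (sf79_loc B n) V (nd13_sf_le π B V hBV hV n hOn) (algebraMap R F π)
    hπV hV (nd13_sf_local B n) ⟨(z : F), sf79_le_loc B n _ z.2⟩
    (nd13_sf_inv_not_mem B n z hz.1 hz0) hzV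
    (nd13_sf_pow π B V hBV hπV hV n hOn z hz)

/-- For `x ∈ B_n`: the class of `x` is a unit of the branch ring iff `x` is a unit of `B_n`. -/
theorem nd13_sf_rho_isUnit_iff' (π : R) (B : Subalgebra R F) (V : Subring F)
    (hBV : ∀ x ∈ B, x ∈ V) (hπV : (algebraMap R F π)⁻¹ ∉ V)
    (hV : ∀ x ∈ V, (algebraMap R F π)⁻¹ * x ∉ V → x⁻¹ ∈ V)
    (n : Ideal B) [hn : n.IsMaximal] (hOn : sf79_OnBr π B V n)
    (x : sf79_loc B n) :
    IsUnit (nd13_rho (sf79_loc B n) V (nd13_sf_le π B V hBV hV n hOn) (algebraMap R F π) x) ↔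
      IsUnit x :=
  nd13_isUnit_iff _ _ _ _ hπV (nd13_sf_local B n) x

/-- For `b ∈ B`: the class of `b` is a unit of the branch ring iff `b ∉ n`. -/
theorem nd13_sf_rho_isUnit_iff (π : R) (B : Subalgebra R F) (V : Subring F)
    (hBV : ∀ x ∈ B, x ∈ V) (hπV : (algebraMap R F π)⁻¹ ∉ V)
    (hV : ∀ x ∈ V, (algebraMap R F π)⁻¹ * x ∉ V → x⁻¹ ∈ V)
    (n : Ideal B) [hn : n.IsMaximal] (hOn : sf79_OnBr π B V n)
    (b : B) :
    IsUnit (nd13_rho (sf79_loc B n) V (nd13_sf_le π B V hBV hV n hOn) (algebraMap R F π)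
      ⟨(b : F), sf79_le_loc B n _ b.2⟩) ↔ b ∉ n := by
  rw [nd13_sf_rho_isUnit_iff' π B V hBV hπV hV n hOn, nd13_sf_isUnit_iff]

end Frame

end Fermat.Agent.S36
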