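import Mathlib
import Fermat.Agent.S34.SpecFibre79
import Fermat.Agent.S36.NodeDVR13
import Fermat.Agent.S36.KappaArith13

/-!
# S36 lab, row 599 C-REGq (helper13): `κ = 1` at a node, in the sf79 frame language

`B` a noetherian chart, `V₁`, `V₂` the two vertical valuation rings (as subrings of `F`) with
uniformiser `π`, `n` a closed point on both branches, and the node data of `nl71_chart_unit`
(`S34/LocStrSF71`): `z₁ ∈ p_{V₂}`, `z₁' ∈ p_{V₁}`, `n B_n = (z₁, z₁', π)`,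
`s z₁ z₁' = π ^ κ s'` with `s, s' ∉ n`.

* `kn13_unif` : `z₁` is a local coordinate of the `V₁`-branch at `n` (`sf79_Unif π B V₁ n z₁`).
* `kn13_K`    : **(K)**.  For `U ≠ 0` a unit of `V₁` with `π ^ (-e) U` a unit of `V₂` (`1 ≤ e`),
  a unit of every horizontal valuation ring through `n`, and the Krull clause at `n`:
  `π⁻¹ z₁ ∉ V₁`, `π⁻¹ z₁' ∉ V₂`, `U ∈ B_n`, and `U ^ κ = w * z₁ ^ e` with `w` a unit of `B_n`.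
  [`U = Δ(Q)/Δ(Q^q)`, `e = 12`, `V₁ = V_∞`, `V₂ = V_0`.]
* `kn13_kappa_eq_one` : with the branch ring `O = B_n / p_{V₁}` of `NodeDVR13` (a discrete
  valuation ring with uniformiser the class of `z₁`) and `(K)` for `e = 12`, the remaining
  hypotheses of `ka13_kappa_eq_one` (the reduced modular-unit identity `(Z)` and the rigid-level
  divisibilities `(R)`, all stated in `O`) give `κ = 1`.
* `kn13_node` : hence the regular-node shape `s * z * z' = π * s'` consumed by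
  `tl71_reg_of_nodes`, from the literal conclusion of `nl71_chart_unit`.

All names are prefixed `kn13_`.
-/

set_option autoImplicit false

namespace Fermat.Agent.S36

open Fermat.Agent.S34

section KN13

variable {R F : Type*} [CommRing R] [Field F] [Algebra R F]

/-- The coordinate `z₁` of the node data is a local coordinate of the `V₁`-branch. -/
theorem kn13_unif (π : R) (B : Subalgebra R F) (V₁ : Subring F) (hB₁ : ∀ x ∈ B, x ∈ V₁)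
    (hπ₁ : (algebraMap R F π)⁻¹ ∉ V₁)
    (n : Ideal B) (z₁ z₁' : B) (hz₁n : z₁ ∈ n)
    (hz₁' : (algebraMap R F π)⁻¹ * (z₁' : F) ∈ V₁)
    (hgen : ∀ x ∈ n, ∃ s : B, s ∉ n ∧ ∃ a b c : B,
      s * x = a * z₁ + b * z₁' + c * algebraMap R B π) :
    sf79_Unif π B V₁ n z₁ := by
  have hp0 : algebraMap R F π ≠ 0 := fun h0 => hπ₁ (by rw [h0, inv_zero]; exact V₁.zero_mem)
  refine ⟨hz₁n, fun x hx => ?_⟩
  obtain ⟨s, hs, a, b, c, e⟩ := hgen x hx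
  refine ⟨s, hs, a, ?_⟩
  have e' : (s : F) * (x : F) =
      (a : F) * (z₁ : F) + (b : F) * (z₁' : F) + (c : F) * algebraMap R F π := by
    have := congrArg (Subtype.val) e
    simpa using this
  have e2 : (algebraMap R F π)⁻¹ * ((s : F) * (x : F) - (a : F) * (z₁ : F)) =
      (b : F) * ((algebraMap R F π)⁻¹ * (z₁' : F)) + (c : F) := by
    rw [e']
    field_simp
    ring
  rw [e2]
  exact V₁.add_mem (V₁.mul_mem (hB₁ _ b.2) hz₁') (hB₁ _ c.2)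

/-- **(K)**: the modular unit `U` is, at a node, a unit of `B_n` times the `e`-th power of the
branch coordinate, raised to `1/κ`: `U ^ κ = w * z₁ ^ e`. -/
theorem kn13_K (π : R) (B : Subalgebra R F) (V₁ V₂ : Subring F)
    (hB₁ : ∀ x ∈ B, x ∈ V₁) (hB₂ : ∀ x ∈ B, x ∈ V₂)
    (hπ₁ : (algebraMap R F π)⁻¹ ∉ V₁) (hπ₂ : (algebraMap R F π)⁻¹ ∉ V₂)
    (hV₁ : ∀ x ∈ V₁, (algebraMap R F π)⁻¹ * x ∉ V₁ → x⁻¹ ∈ V₁)
    (hV₂ : ∀ x ∈ V₂, (algebraMap R F π)⁻¹ * x ∉ V₂ → x⁻¹ ∈ V₂)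
    (n : Ideal B) [hn : n.IsPrime] (h1 : sf79_OnBr π B V₁ n) (h2 : sf79_OnBr π B V₂ n)
    (H : Set (ValuationSubring F))
    (hAH : ∀ O ∈ H, ∀ x ∈ sf79_loc B n, x ∈ O) (hπH : ∀ O ∈ H, (algebraMap R F π)⁻¹ ∈ O)
    (hKr : ∀ x : F, x ∈ V₁ → x ∈ V₂ → (∀ O ∈ H, x ∈ O) → x ∈ sf79_loc B n)
    (z₁ z₁' : B)
    (hgen : ∀ x ∈ n, ∃ s : B, s ∉ n ∧ ∃ a b c : B,
      s * x = a * z₁ + b * z₁' + c * algebraMap R B π)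
    (κ : ℕ) (s s' : B) (hs : s ∉ n) (hs' : s' ∉ n)
    (heq : s * z₁ * z₁' = algebraMap R B π ^ κ * s')
    (hz₁ : (algebraMap R F π)⁻¹ * (z₁ : F) ∈ V₂) (hz₁' : (algebraMap R F π)⁻¹ * (z₁' : F) ∈ V₁)
    (e : ℕ) (he : 1 ≤ e) (U : F) (hU0 : U ≠ 0) (hU₁ : U ∈ V₁) (hU₁' : U⁻¹ ∈ V₁)
    (hU₂ : ((algebraMap R F π) ^ e)⁻¹ * U ∈ V₂) (hU₂' : (algebraMap R F π) ^ e * U⁻¹ ∈ V₂)
    (hUH : ∀ O ∈ H, U ∈ O ∧ U⁻¹ ∈ O) :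
    (algebraMap R F π)⁻¹ * (z₁ : F) ∉ V₁ ∧ (algebraMap R F π)⁻¹ * (z₁' : F) ∉ V₂ ∧
      U ∈ sf79_loc B n ∧
      ∃ w : F, w ∈ sf79_loc B n ∧ w⁻¹ ∈ sf79_loc B n ∧ U ^ κ = w * (z₁ : F) ^ e := by
  set p : F := algebraMap R F π with hp
  have hp0 : p ≠ 0 := fun h0 => hπ₁ (by rw [h0, inv_zero]; exact V₁.zero_mem)
  have hpB : p ∈ B := B.algebraMap_mem π
  have hpA : p ∈ sf79_loc B n := sf79_le_loc B n _ hpB
  have hp1 : p ∈ V₁ := hB₁ _ hpB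
  have hp2 : p ∈ V₂ := hB₂ _ hpB
  obtain ⟨e', rfl⟩ : ∃ e', e = e' + 1 := ⟨e - 1, by omega⟩
  -- `U` and `π ^ e / U` lie in `B_n`
  have hU2 : U ∈ V₂ := by
    have : U = p ^ (e' + 1) * ((p ^ (e' + 1))⁻¹ * U) := by field_simp
    rw [this]; exact V₂.mul_mem (pow_mem hp2 _) hU₂
  have hUA : U ∈ sf79_loc B n := hKr U hU₁ hU2 (fun O hO => (hUH O hO).1)
  have hU'A : p ^ (e' + 1) * U⁻¹ ∈ sf79_loc B n :=
    hKr _ (V₁.mul_mem (pow_mem hp1 _) hU₁') hU₂'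
      (fun O hO => O.mul_mem _ _ (pow_mem (hAH O hO _ hpA) _) (hUH O hO).2)
  -- inverses of elements outside `n`
  have hinv1 : ∀ t : B, t ∉ n → (t : F)⁻¹ ∈ V₁ := fun t ht => sf79_inv_mem π B V₁ hB₁ hV₁ n h1 t ht
  have hinv2 : ∀ t : B, t ∉ n → (t : F)⁻¹ ∈ V₂ := fun t ht => sf79_inv_mem π B V₂ hB₂ hV₂ n h2 t ht
  -- the generation clause in `F`
  have hgenF : ∀ x ∈ n, ∃ s₀ : B, s₀ ∉ n ∧ ∃ a b c : B, (s₀ : F) * (x : F) =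
      (a : F) * (z₁ : F) + (b : F) * (z₁' : F) + (c : F) * p := by
    intro x hx
    obtain ⟨s₀, hs₀, a, b, c, e⟩ := hgen x hx
    refine ⟨s₀, hs₀, a, b, c, ?_⟩
    have := congrArg (Subtype.val) e
    simpa using this
  -- `z₁ ∉ p_{V₁}`
  have hA1 : p⁻¹ * (z₁ : F) ∉ V₁ := by
    intro h
    have hall : ∀ x ∈ n, p⁻¹ * (x : F) ∈ V₁ := by
      intro x hx
      obtain ⟨s₀, hs₀, a, b, c, e⟩ := hgenF x hx
      have hs₀0 : (s₀ : F) ≠ 0 := sf79_ne_zero B n s₀ hs₀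
      have e2 : p⁻¹ * (x : F) = (s₀ : F)⁻¹ *
          ((a : F) * (p⁻¹ * (z₁ : F)) + (b : F) * (p⁻¹ * (z₁' : F)) + (c : F)) := by
        have : (x : F) = (s₀ : F)⁻¹ * ((s₀ : F) * (x : F)) := by field_simp
        rw [this, e]
        field_simp
      rw [e2]
      exact V₁.mul_mem (hinv1 s₀ hs₀) (V₁.add_mem (V₁.add_mem (V₁.mul_mem (hB₁ _ a.2) h)
        (V₁.mul_mem (hB₁ _ b.2) hz₁')) (hB₁ _ c.2))
    obtain ⟨t, ht, htU⟩ := hUA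
    have ht0 : (t : F) ≠ 0 := sf79_ne_zero B n t ht
    have hbn : (⟨(t : F) * U, htU⟩ : B) ∈ n := by
      apply h2
      show p⁻¹ * ((t : F) * U) ∈ V₂
      have : p⁻¹ * ((t : F) * U) = (t : F) * (p ^ e' * ((p ^ (e' + 1))⁻¹ * U)) := by
        rw [pow_succ]
        field_simp
      rw [this]
      exact V₂.mul_mem (hB₂ _ t.2) (V₂.mul_mem (pow_mem hp2 _) hU₂)
    have h3 := hall _ hbn
    apply hπ₁
    have : p⁻¹ = p⁻¹ * ((t : F) * U) * ((t : F)⁻¹ * U⁻¹) := by field_simp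
    rw [this]
    exact V₁.mul_mem h3 (V₁.mul_mem (hinv1 t ht) hU₁')
  -- `z₁' ∉ p_{V₂}`
  have hA2 : p⁻¹ * (z₁' : F) ∉ V₂ := by
    intro h
    have hall : ∀ x ∈ n, p⁻¹ * (x : F) ∈ V₂ := by
      intro x hx
      obtain ⟨s₀, hs₀, a, b, c, e⟩ := hgenF x hx
      have hs₀0 : (s₀ : F) ≠ 0 := sf79_ne_zero B n s₀ hs₀
      have e2 : p⁻¹ * (x : F) = (s₀ : F)⁻¹ *
          ((a : F) * (p⁻¹ * (z₁ : F)) + (b : F) * (p⁻¹ * (z₁' : F)) + (c : F)) := by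
        have : (x : F) = (s₀ : F)⁻¹ * ((s₀ : F) * (x : F)) := by field_simp
        rw [this, e]
        field_simp
      rw [e2]
      exact V₂.mul_mem (hinv2 s₀ hs₀) (V₂.add_mem (V₂.add_mem (V₂.mul_mem (hB₂ _ a.2) hz₁)
        (V₂.mul_mem (hB₂ _ b.2) h)) (hB₂ _ c.2))
    obtain ⟨t, ht, htU⟩ := hU'A
    have ht0 : (t : F) ≠ 0 := sf79_ne_zero B n t ht
    have hbn : (⟨(t : F) * (p ^ (e' + 1) * U⁻¹), htU⟩ : B) ∈ n := by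
      apply h1
      show p⁻¹ * ((t : F) * (p ^ (e' + 1) * U⁻¹)) ∈ V₁
      have : p⁻¹ * ((t : F) * (p ^ (e' + 1) * U⁻¹)) = (t : F) * (p ^ e' * U⁻¹) := by
        rw [pow_succ]
        field_simp
      rw [this]
      exact V₁.mul_mem (hB₁ _ t.2) (V₁.mul_mem (pow_mem hp1 _) hU₁')
    have h3 := hall _ hbn
    apply hπ₂
    have : p⁻¹ = p⁻¹ * ((t : F) * (p ^ (e' + 1) * U⁻¹)) *
        ((t : F)⁻¹ * ((p ^ (e' + 1))⁻¹ * U)) := by field_simp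
    rw [this]
    exact V₂.mul_mem h3 (V₂.mul_mem (hinv2 t ht) hU₂)
  refine ⟨hA1, hA2, hUA, ?_⟩
  -- the unit `w = U ^ κ / z₁ ^ e`
  have hs0 : (s : F) ≠ 0 := sf79_ne_zero B n s hs
  have hs'0 : (s' : F) ≠ 0 := sf79_ne_zero B n s' hs'
  have hz₁0 : (z₁ : F) ≠ 0 := by
    intro h
    apply hA1
    rw [h, mul_zero]; exact V₁.zero_mem
  have hz₁'0 : (z₁' : F) ≠ 0 := by
    intro h
    apply hA2
    rw [h, mul_zero]; exact V₂.zero_mem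
  have heqF : (s : F) * (z₁ : F) * (z₁' : F) = p ^ κ * (s' : F) := by
    have := congrArg (Subtype.val) heq
    simpa using this
  have hz₁inv1 : (z₁ : F)⁻¹ ∈ V₁ := hV₁ _ (hB₁ _ z₁.2) hA1
  have hz₁'inv2 : (z₁' : F)⁻¹ ∈ V₂ := hV₂ _ (hB₂ _ z₁'.2) hA2
  -- `z₁⁻¹ = s z₁' s'⁻¹ π ^ (-κ)`
  have hz₁inv : (z₁ : F)⁻¹ = (s : F) * (z₁' : F) * (s' : F)⁻¹ * (p⁻¹) ^ κ := by
    have h1' : (z₁ : F) * ((s : F) * (z₁' : F) * (s' : F)⁻¹ * (p⁻¹) ^ κ) = 1 := by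
      have : (z₁ : F) * ((s : F) * (z₁' : F) * (s' : F)⁻¹ * (p⁻¹) ^ κ) =
          ((s : F) * (z₁ : F) * (z₁' : F)) * (s' : F)⁻¹ * (p⁻¹) ^ κ := by ring
      rw [this, heqF, inv_pow]
      field_simp
    exact inv_eq_of_mul_eq_one_right h1'
  have hz₁eq : (z₁ : F) = p ^ κ * ((s' : F) * (s : F)⁻¹ * (z₁' : F)⁻¹) := by
    have : (z₁ : F) = ((s : F) * (z₁ : F) * (z₁' : F)) * ((s : F)⁻¹ * (z₁' : F)⁻¹) := by
      field_simp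
    rw [this, heqF]; ring
  refine ⟨U ^ κ * ((z₁ : F)⁻¹) ^ (e' + 1), ?_, ?_, ?_⟩
  · -- `w ∈ B_n`
    apply hKr
    · exact V₁.mul_mem (pow_mem hU₁ _) (pow_mem hz₁inv1 _)
    · have : U ^ κ * ((z₁ : F)⁻¹) ^ (e' + 1) = ((p ^ (e' + 1))⁻¹ * U) ^ κ *
          ((s : F) * (z₁' : F) * (s' : F)⁻¹) ^ (e' + 1) := by
        rw [hz₁inv]
        ring
      rw [this]
      exact V₂.mul_mem (pow_mem hU₂ _) (pow_mem (V₂.mul_mem (V₂.mul_mem (hB₂ _ s.2)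
        (hB₂ _ z₁'.2)) (hinv2 s' hs')) _)
    · intro O hO
      refine O.mul_mem _ _ (pow_mem (hUH O hO).1 _) (pow_mem ?_ _)
      rw [hz₁inv]
      exact O.mul_mem _ _ (O.mul_mem _ _ (O.mul_mem _ _ (hAH O hO _ (sf79_le_loc B n _ s.2))
        (hAH O hO _ (sf79_le_loc B n _ z₁'.2))) (hAH O hO _ (sf79_inv_mem_loc B n s' hs')))
        (pow_mem (hπH O hO) _)
  · -- `w⁻¹ ∈ B_n`
    have hwinv : (U ^ κ * ((z₁ : F)⁻¹) ^ (e' + 1))⁻¹ = (U⁻¹) ^ κ * (z₁ : F) ^ (e' + 1) := by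
      rw [mul_inv, inv_pow, inv_pow, inv_inv]
    rw [hwinv]
    apply hKr
    · exact V₁.mul_mem (pow_mem hU₁' _) (pow_mem (hB₁ _ z₁.2) _)
    · have : (U⁻¹) ^ κ * (z₁ : F) ^ (e' + 1) = (p ^ (e' + 1) * U⁻¹) ^ κ *
          ((s' : F) * (s : F)⁻¹ * (z₁' : F)⁻¹) ^ (e' + 1) := by
        conv_lhs => rw [hz₁eq]
        ring
      rw [this]
      exact V₂.mul_mem (pow_mem hU₂' _) (pow_mem (V₂.mul_mem (V₂.mul_mem (hB₂ _ s'.2)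
        (hinv2 s hs)) hz₁'inv2) _)
    · intro O hO
      exact O.mul_mem _ _ (pow_mem (hUH O hO).2 _)
        (pow_mem (hAH O hO _ (sf79_le_loc B n _ z₁.2)) _)
  · rw [mul_assoc, ← mul_pow, inv_mul_cancel₀ hz₁0, one_pow, mul_one]

/-- **`κ = 1` at a node** (frame form of `ka13_kappa_eq_one`): the node data of
`nl71_chart_unit`, the modular unit `U` (`(K)` is proved here, `kn13_K` with `e = 12`), and the
remaining hypotheses of `ka13_kappa_eq_one` in the branch ring `O = B_n / p_{V₁}`. -/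
theorem kn13_kappa_eq_one (π : R) (B : Subalgebra R F) [IsNoetherianRing B] (V₁ V₂ : Subring F)
    (hB₁ : ∀ x ∈ B, x ∈ V₁) (hB₂ : ∀ x ∈ B, x ∈ V₂)
    (hπ₁ : (algebraMap R F π)⁻¹ ∉ V₁) (hπ₂ : (algebraMap R F π)⁻¹ ∉ V₂)
    (hV₁ : ∀ x ∈ V₁, (algebraMap R F π)⁻¹ * x ∉ V₁ → x⁻¹ ∈ V₁)
    (hV₂ : ∀ x ∈ V₂, (algebraMap R F π)⁻¹ * x ∉ V₂ → x⁻¹ ∈ V₂)
    (n : Ideal B) [hn : n.IsMaximal] (h1 : sf79_OnBr π B V₁ n) (h2 : sf79_OnBr π B V₂ n)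
    (H : Set (ValuationSubring F))
    (hAH : ∀ O ∈ H, ∀ x ∈ sf79_loc B n, x ∈ O) (hπH : ∀ O ∈ H, (algebraMap R F π)⁻¹ ∈ O)
    (hKr : ∀ x : F, x ∈ V₁ → x ∈ V₂ → (∀ O ∈ H, x ∈ O) → x ∈ sf79_loc B n)
    (z₁ z₁' : B) (hz₁n : z₁ ∈ n)
    (hgen : ∀ x ∈ n, ∃ s : B, s ∉ n ∧ ∃ a b c : B,
      s * x = a * z₁ + b * z₁' + c * algebraMap R B π)
    (κ : ℕ) (s s' : B) (hs : s ∉ n) (hs' : s' ∉ n)
    (heq : s * z₁ * z₁' = algebraMap R B π ^ κ * s')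
    (hz₁ : (algebraMap R F π)⁻¹ * (z₁ : F) ∈ V₂) (hz₁' : (algebraMap R F π)⁻¹ * (z₁' : F) ∈ V₁)
    (U : F) (hU0 : U ≠ 0) (hU₁ : U ∈ V₁) (hU₁' : U⁻¹ ∈ V₁)
    (hU₂ : ((algebraMap R F π) ^ 12)⁻¹ * U ∈ V₂) (hU₂' : (algebraMap R F π) ^ 12 * U⁻¹ ∈ V₂)
    (hUH : ∀ O ∈ H, U ∈ O ∧ U⁻¹ ∈ O) (hUA : U ∈ sf79_loc B n)
    (q : ℕ) (hq : q.Prime)
    (jj ss nn : nd13_O (sf79_loc B n) V₁ (nd13_sf_le π B V₁ hB₁ hV₁ n h1) (algebraMap R F π))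
    (hs0 : ss ≠ 0) (hnn0 : nn ≠ 0) (hj0 : jj ≠ 0) (hj10 : jj - 1728 ≠ 0)
    (hZ : nd13_rho (sf79_loc B n) V₁ (nd13_sf_le π B V₁ hB₁ hV₁ n h1) (algebraMap R F π)
        ⟨U, hUA⟩ * nn ^ 6 = ss ^ 12 * jj ^ (4 * (q - 1)) * (jj - 1728) ^ (3 * (q - 1)))
    (hpole : ¬ IsUnit ss → IsUnit nn)
    (h5 : 5 ≤ q → IsUnit jj ∨ IsUnit (jj - 1728))
    (h23 : q < 5 → jj - 1728 = jj)
    (hj3 : ¬ IsUnit jj → ∃ c u, IsUnit u ∧ jj = u * c ^ 3)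
    (hj2 : ¬ IsUnit (jj - 1728) → ∃ d u, IsUnit u ∧ jj - 1728 = u * d ^ 2)
    (hj4 : q = 2 → ¬ IsUnit jj → ∃ d u, IsUnit u ∧ jj = u * d ^ 4)
    (hn0 : IsUnit ss → ¬ IsUnit jj → ∃ (ν : ℕ) (u : _), IsUnit u ∧ nn = u * jj ^ ν)
    (hn1 : IsUnit ss → ¬ IsUnit (jj - 1728) →
      ∃ (ν : ℕ) (u : _), IsUnit u ∧ nn = u * (jj - 1728) ^ ν) :
    κ = 1 := by
  classical
  obtain ⟨hzV, -, -, w, hwA, hwA', hUw⟩ := kn13_K π B V₁ V₂ hB₁ hB₂ hπ₁ hπ₂ hV₁ hV₂ n h1 h2 H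
    hAH hπH hKr z₁ z₁' hgen κ s s' hs hs' heq hz₁ hz₁' 12 (by norm_num) U hU0 hU₁ hU₁' hU₂ hU₂'
    hUH
  have hunif := kn13_unif π B V₁ hB₁ hπ₁ n z₁ z₁' hz₁n hz₁' hgen
  let hdom := nd13_sf_isDomain π B V₁ hB₁ hπ₁ hV₁ n h1
  have hdvr := nd13_sf_dvr π B V₁ hB₁ hπ₁ hV₁ n h1 z₁ hunif hzV
  have hirr := nd13_sf_irreducible π B V₁ hB₁ hπ₁ hV₁ n h1 z₁ hunif hzV
  have hp0 : algebraMap R F π ≠ 0 := fun h0 => hπ₁ (by rw [h0, inv_zero]; exact V₁.zero_mem)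
  refine ka13_kappa_eq_one _ hirr q κ hq
    (nd13_rho (sf79_loc B n) V₁ (nd13_sf_le π B V₁ hB₁ hV₁ n h1) (algebraMap R F π) ⟨U, hUA⟩)
    jj ss nn ?_ hs0 hnn0 hj0 hj10 ?_ hZ hpole h5 h23 hj3 hj2 hj4 hn0 hn1
  · intro h0
    rw [nd13_rho_eq_zero_iff] at h0
    apply hπ₁
    have : (algebraMap R F π)⁻¹ = (algebraMap R F π)⁻¹ * U * U⁻¹ := by field_simp
    rw [this]; exact V₁.mul_mem h0 hU₁'
  · have hw0 : w ≠ 0 := by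
      rintro rfl
      rw [zero_mul] at hUw
      exact pow_ne_zero κ hU0 hUw
    have hwu : IsUnit (⟨w, hwA⟩ : sf79_loc B n) := by
      rw [nd13_isUnit_sub_iff]; exact ⟨hw0, hwA'⟩
    have hmap : nd13_rho (sf79_loc B n) V₁ (nd13_sf_le π B V₁ hB₁ hV₁ n h1) (algebraMap R F π)
          ⟨U, hUA⟩ ^ κ =
        nd13_rho (sf79_loc B n) V₁ (nd13_sf_le π B V₁ hB₁ hV₁ n h1) (algebraMap R F π) ⟨w, hwA⟩ *
        nd13_rho (sf79_loc B n) V₁ (nd13_sf_le π B V₁ hB₁ hV₁ n h1) (algebraMap R F π)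
          ⟨(z₁ : F), sf79_le_loc B n _ z₁.2⟩ ^ 12 := by
      rw [← map_pow, ← map_pow, ← map_mul]
      congr 1
      apply Subtype.ext
      push_cast
      exact hUw
    rw [hmap]
    exact (associated_isUnit_mul_left_iff (hwu.map _)).mpr (Associated.refl _)

/-- **The regular-node shape** `s * z * z' = π * s'` (the hypothesis `hnode` of
`tl71_reg_of_nodes`) from the literal conclusion of `nl71_chart_unit` and the hypotheses of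
`kn13_kappa_eq_one`. -/
theorem kn13_node (π : R) (B : Subalgebra R F) [IsNoetherianRing B] (V₁ V₂ : Subring F)
    (hB₁ : ∀ x ∈ B, x ∈ V₁) (hB₂ : ∀ x ∈ B, x ∈ V₂)
    (hπ₁ : (algebraMap R F π)⁻¹ ∉ V₁) (hπ₂ : (algebraMap R F π)⁻¹ ∉ V₂)
    (hV₁ : ∀ x ∈ V₁, (algebraMap R F π)⁻¹ * x ∉ V₁ → x⁻¹ ∈ V₁)
    (hV₂ : ∀ x ∈ V₂, (algebraMap R F π)⁻¹ * x ∉ V₂ → x⁻¹ ∈ V₂)
    (n : Ideal B) [hn : n.IsMaximal] (h1 : sf79_OnBr π B V₁ n) (h2 : sf79_OnBr π B V₂ n)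
    (H : Set (ValuationSubring F))
    (hAH : ∀ O ∈ H, ∀ x ∈ sf79_loc B n, x ∈ O) (hπH : ∀ O ∈ H, (algebraMap R F π)⁻¹ ∈ O)
    (hKr : ∀ x : F, x ∈ V₁ → x ∈ V₂ → (∀ O ∈ H, x ∈ O) → x ∈ sf79_loc B n)
    (e : ℕ)
    (hdata : ∃ z₁ z₁' : B, z₁ ∈ n ∧ z₁' ∈ n ∧
      (∀ x ∈ n, ∃ s : B, s ∉ n ∧ ∃ a b c : B,
        s * x = a * z₁ + b * z₁' + c * algebraMap R B π) ∧
      (∃ (κ : ℕ) (s s' : B), s ∉ n ∧ s' ∉ n ∧ 1 ≤ κ ∧ κ ≤ e ∧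
        s * z₁ * z₁' = algebraMap R B π ^ κ * s') ∧
      (algebraMap R F π)⁻¹ * (z₁ : F) ∈ V₂ ∧ (algebraMap R F π)⁻¹ * (z₁' : F) ∈ V₁)
    (U : F) (hU0 : U ≠ 0) (hU₁ : U ∈ V₁) (hU₁' : U⁻¹ ∈ V₁)
    (hU₂ : ((algebraMap R F π) ^ 12)⁻¹ * U ∈ V₂) (hU₂' : (algebraMap R F π) ^ 12 * U⁻¹ ∈ V₂)
    (hUH : ∀ O ∈ H, U ∈ O ∧ U⁻¹ ∈ O) (hUA : U ∈ sf79_loc B n)
    (q : ℕ) (hq : q.Prime)
    (jj ss nn : nd13_O (sf79_loc B n) V₁ (nd13_sf_le π B V₁ hB₁ hV₁ n h1) (algebraMap R F π))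
    (hs0 : ss ≠ 0) (hnn0 : nn ≠ 0) (hj0 : jj ≠ 0) (hj10 : jj - 1728 ≠ 0)
    (hZ : nd13_rho (sf79_loc B n) V₁ (nd13_sf_le π B V₁ hB₁ hV₁ n h1) (algebraMap R F π)
        ⟨U, hUA⟩ * nn ^ 6 = ss ^ 12 * jj ^ (4 * (q - 1)) * (jj - 1728) ^ (3 * (q - 1)))
    (hpole : ¬ IsUnit ss → IsUnit nn)
    (h5 : 5 ≤ q → IsUnit jj ∨ IsUnit (jj - 1728))
    (h23 : q < 5 → jj - 1728 = jj)
    (hj3 : ¬ IsUnit jj → ∃ c u, IsUnit u ∧ jj = u * c ^ 3)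
    (hj2 : ¬ IsUnit (jj - 1728) → ∃ d u, IsUnit u ∧ jj - 1728 = u * d ^ 2)
    (hj4 : q = 2 → ¬ IsUnit jj → ∃ d u, IsUnit u ∧ jj = u * d ^ 4)
    (hn0 : IsUnit ss → ¬ IsUnit jj → ∃ (ν : ℕ) (u : _), IsUnit u ∧ nn = u * jj ^ ν)
    (hn1 : IsUnit ss → ¬ IsUnit (jj - 1728) →
      ∃ (ν : ℕ) (u : _), IsUnit u ∧ nn = u * (jj - 1728) ^ ν) :
    ∃ z z' s s' : B, s ∉ n ∧ s' ∉ n ∧ (algebraMap R F π)⁻¹ * (z : F) ∈ V₁ ∧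
      (algebraMap R F π)⁻¹ * (z' : F) ∈ V₂ ∧ s * z * z' = algebraMap R B π * s' := by
  obtain ⟨z₁, z₁', hz₁n, -, hgen, ⟨κ, s, s', hs, hs', -, -, heq⟩, hz₁, hz₁'⟩ := hdata
  have hκ : κ = 1 := kn13_kappa_eq_one π B V₁ V₂ hB₁ hB₂ hπ₁ hπ₂ hV₁ hV₂ n h1 h2 H hAH hπH hKr
    z₁ z₁' hz₁n hgen κ s s' hs hs' heq hz₁ hz₁' U hU0 hU₁ hU₁' hU₂ hU₂' hUH hUA q hq jj ss nn
    hs0 hnn0 hj0 hj10 hZ hpole h5 h23 hj3 hj2 hj4 hn0 hn1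
  subst hκ
  refine ⟨z₁', z₁, s, s', hs, hs', hz₁', hz₁, ?_⟩
  rw [mul_assoc, mul_comm z₁' z₁, ← mul_assoc, heq, pow_one]

end KN13

end Fermat.Agent.S36
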