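import Mathlib

/-!
# S36 lab, row 599 C-REGq (helper13): the polynomial hypotheses of `ka13_kappa_eq_one`

`O` a local domain (the branch ring `B_n / p_V` of `NodeDVR13`), `ι : O →+* L` an injective
ring homomorphism into a domain (`L = κ((Q))`, induced by the reduction of the Gauss ring,
`nd13_lift`), `c : k →+* O` the constants (`k` a field of characteristic `q`), `jj : O` the class
of `J`, `U : O` the class of the modular unit.  From the reduced mod-`q` identity of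
`km56_reduced` / `km56_U_rel` (helper56), i.e. polynomials `P₀ S₀ : k[X]` with Bezout relations
`a S₀ + b S₀' = 1`, `c' P₀ + d S₀ = 1` and, with `N₀ = P₀' S₀ - P₀ S₀' + X^(q-1) S₀^2`,

  `ι U * N₀(ι jj)^6 = S₀(ι jj)^12 * ((ι jj)^4 (ι jj - 1728)^3)^(q-1)`   in `L`,

`kp13_main` produces ALL the hypotheses of `ka13_kappa_eq_one` / `kn13_kappa_eq_one` /
`kn13_node` other than `(K)` and the rigidity inputs `(R)`:
`ss ≠ 0`, `nn ≠ 0`, `jj ≠ 0`, `jj - 1728 ≠ 0`, `(Z)`, `hpole`, `h5`, `h23`, `hn0`, `hn1`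
for `ss = S₀(jj)`, `nn = N₀(jj)`.

* `kp13_unit_pow` : in a local ring, `N(jj) = unit * (jj - a)^ν` when `jj - a` is a non-unit
  (`N ≠ 0` a polynomial over a field of constants).

Mathlib only.  All names are prefixed `kp13_`.
-/

set_option autoImplicit false

open Polynomial

namespace Fermat.Agent.S36

/-- In a local ring containing a field of constants: a non-zero polynomial in `jj` is a unit
times a power of `jj - a` whenever `jj - a` is a non-unit. -/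
theorem kp13_unit_pow {O k : Type*} [CommRing O] [IsLocalRing O] [Field k] (c : k →+* O)
    (N : k[X]) (hN : N ≠ 0) (a : k) (jj : O) (hj : ¬ IsUnit (jj - c a)) :
    ∃ (ν : ℕ) (u : O), IsUnit u ∧ eval₂ c jj N = u * (jj - c a) ^ ν := by
  obtain ⟨N₁, hN₁, hndvd⟩ := exists_eq_pow_rootMultiplicity_mul_and_not_dvd N hN a
  refine ⟨rootMultiplicity a N, eval₂ c jj N₁, ?_, ?_⟩
  · have hroot : eval a N₁ ≠ 0 := fun h => hndvd (dvd_iff_isRoot.mpr h)
    obtain ⟨Q, hQ⟩ := X_sub_C_dvd_sub_C_eval (a := a) (p := N₁)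
    have h1 : eval₂ c jj N₁ = (jj - c a) * eval₂ c jj Q + c (eval a N₁) := by
      have : N₁ = (X - C a) * Q + C (eval a N₁) := by rw [← hQ]; ring
      conv_lhs => rw [this]
      rw [eval₂_add, eval₂_mul, eval₂_sub, eval₂_X, eval₂_C, eval₂_C]
    have hu : IsUnit (c (eval a N₁)) := (IsUnit.mk0 _ hroot).map c
    by_contra hnu
    have hm1 : eval₂ c jj N₁ ∈ IsLocalRing.maximalIdeal O :=
      (IsLocalRing.mem_maximalIdeal _).mpr hnu
    have hm2 : (jj - c a) * eval₂ c jj Q ∈ IsLocalRing.maximalIdeal O :=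
      Ideal.mul_mem_right _ _ ((IsLocalRing.mem_maximalIdeal _).mpr hj)
    have hm3 : c (eval a N₁) ∈ IsLocalRing.maximalIdeal O := by
      have : c (eval a N₁) = eval₂ c jj N₁ - (jj - c a) * eval₂ c jj Q := by rw [h1]; ring
      rw [this]; exact Ideal.sub_mem _ hm1 hm2
    exact (IsLocalRing.mem_maximalIdeal _).mp hm3 hu
  · conv_lhs => rw [hN₁]
    rw [eval₂_mul, eval₂_pow, eval₂_sub, eval₂_X, eval₂_C, mul_comm]

/-- `1728` is invertible in characteristic `q ≥ 5`. -/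
theorem kp13_1728_ne_zero {k : Type*} [Field k] (q : ℕ) (hq : q.Prime) [CharP k q]
    (h5 : 5 ≤ q) : (1728 : k) ≠ 0 := by
  intro h0
  have h1 : ((1728 : ℕ) : k) = 0 := by exact_mod_cast h0
  rw [CharP.cast_eq_zero_iff k q] at h1
  have h2 : q ∣ 2 ^ 6 * 3 ^ 3 := by norm_num; exact h1
  rcases (Nat.Prime.dvd_mul hq).mp h2 with h | h
  · have := Nat.le_of_dvd (by norm_num) (hq.dvd_of_dvd_pow h)
    omega
  · have := Nat.le_of_dvd (by norm_num) (hq.dvd_of_dvd_pow h)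
    omega

/-- `1728 = 0` in characteristic `2` and `3`. -/
theorem kp13_1728_eq_zero {k : Type*} [Field k] (q : ℕ) (hq : q.Prime) [CharP k q]
    (h5 : q < 5) : (1728 : k) = 0 := by
  have h1 : ((1728 : ℕ) : k) = 0 := by
    rw [CharP.cast_eq_zero_iff k q]
    have h2 := hq.two_le
    interval_cases q
    · norm_num
    · norm_num
    · exact absurd hq (by norm_num)
  exact_mod_cast h1

/-- **The polynomial hypotheses of `ka13_kappa_eq_one`** from the reduced mod-`q` identity. -/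
theorem kp13_main {O L k : Type*} [CommRing O] [IsDomain O] [IsLocalRing O] [CommRing L]
    [IsDomain L] [Field k] (q : ℕ) (hq : q.Prime) [CharP k q]
    (ι : O →+* L) (hι : Function.Injective ι) (c : k →+* O) (U jj : O)
    (P₀ S₀ a b c' d : k[X]) (hab : a * S₀ + b * derivative S₀ = 1)
    (hcd : c' * P₀ + d * S₀ = 1)
    (hrel : ι U * (eval₂ (ι.comp c) (ι jj)
        (derivative P₀ * S₀ - P₀ * derivative S₀ + X ^ (q - 1) * S₀ ^ 2)) ^ 6 =
      (eval₂ (ι.comp c) (ι jj) S₀) ^ 12 * ((ι jj) ^ 4 * (ι jj - 1728) ^ 3) ^ (q - 1))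
    (htr : ∀ p : k[X], p ≠ 0 → eval₂ (ι.comp c) (ι jj) p ≠ 0) :
    eval₂ c jj S₀ ≠ 0 ∧
    eval₂ c jj (derivative P₀ * S₀ - P₀ * derivative S₀ + X ^ (q - 1) * S₀ ^ 2) ≠ 0 ∧
    jj ≠ 0 ∧ jj - 1728 ≠ 0 ∧
    U * (eval₂ c jj (derivative P₀ * S₀ - P₀ * derivative S₀ + X ^ (q - 1) * S₀ ^ 2)) ^ 6 =
      (eval₂ c jj S₀) ^ 12 * jj ^ (4 * (q - 1)) * (jj - 1728) ^ (3 * (q - 1)) ∧
    (¬ IsUnit (eval₂ c jj S₀) →
      IsUnit (eval₂ c jj (derivative P₀ * S₀ - P₀ * derivative S₀ + X ^ (q - 1) * S₀ ^ 2))) ∧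
    (5 ≤ q → IsUnit jj ∨ IsUnit (jj - 1728)) ∧
    (q < 5 → jj - 1728 = jj) ∧
    (IsUnit (eval₂ c jj S₀) → ¬ IsUnit jj → ∃ (ν : ℕ) (u : O), IsUnit u ∧
      eval₂ c jj (derivative P₀ * S₀ - P₀ * derivative S₀ + X ^ (q - 1) * S₀ ^ 2) =
        u * jj ^ ν) ∧
    (IsUnit (eval₂ c jj S₀) → ¬ IsUnit (jj - 1728) → ∃ (ν : ℕ) (u : O), IsUnit u ∧
      eval₂ c jj (derivative P₀ * S₀ - P₀ * derivative S₀ + X ^ (q - 1) * S₀ ^ 2) =
        u * (jj - 1728) ^ ν) := by
  set N₀ : k[X] := derivative P₀ * S₀ - P₀ * derivative S₀ + X ^ (q - 1) * S₀ ^ 2 with hN₀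
  have hev : ∀ p : k[X], ι (eval₂ c jj p) = eval₂ (ι.comp c) (ι jj) p :=
    fun p => hom_eval₂ p c ι jj
  have h1728O : (1728 : O) = c 1728 := (map_ofNat c 1728).symm
  have h1728L : (1728 : L) = ι 1728 := (map_ofNat ι 1728).symm
  -- non-vanishing
  have hS₀ : S₀ ≠ 0 := by
    intro h
    rw [h, derivative_zero, mul_zero, mul_zero, add_zero] at hab
    exact zero_ne_one hab
  have hss : eval₂ c jj S₀ ≠ 0 := by
    intro h
    apply htr S₀ hS₀
    rw [← hev, h, map_zero]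
  have hjj : jj ≠ 0 := by
    intro h
    apply htr X X_ne_zero
    rw [eval₂_X, h, map_zero]
  have hjj1 : jj - 1728 ≠ 0 := by
    intro h
    apply htr (X - C 1728) (X_sub_C_ne_zero _)
    rw [eval₂_sub, eval₂_X, eval₂_C, RingHom.comp_apply, ← h1728O, ← map_sub, h, map_zero]
  have hιj : ι jj ≠ 0 := fun h => hjj (hι (by rw [h, map_zero]))
  have hιj1 : ι jj - 1728 ≠ 0 := by
    intro h
    apply hjj1
    apply hι
    rw [map_sub, ← h1728L, h, map_zero]
  have hιs : eval₂ (ι.comp c) (ι jj) S₀ ≠ 0 := htr S₀ hS₀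
  have hnn : eval₂ c jj N₀ ≠ 0 := by
    intro h
    have h2 : eval₂ (ι.comp c) (ι jj) N₀ = 0 := by rw [← hev, h, map_zero]
    rw [h2] at hrel
    have h3 : (eval₂ (ι.comp c) (ι jj) S₀) ^ 12 *
        ((ι jj) ^ 4 * (ι jj - 1728) ^ 3) ^ (q - 1) ≠ 0 :=
      mul_ne_zero (pow_ne_zero _ hιs)
        (pow_ne_zero _ (mul_ne_zero (pow_ne_zero _ hιj) (pow_ne_zero _ hιj1)))
    apply h3
    rw [← hrel]
    ring
  have hN₀0 : N₀ ≠ 0 := by
    intro h
    apply hnn
    rw [h, eval₂_zero]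
  -- (Z)
  have hZ : U * (eval₂ c jj N₀) ^ 6 =
      (eval₂ c jj S₀) ^ 12 * jj ^ (4 * (q - 1)) * (jj - 1728) ^ (3 * (q - 1)) := by
    apply hι
    rw [map_mul, map_pow, map_mul, map_mul, map_pow, map_pow, map_pow, map_sub, hev, hev,
      ← h1728L, hrel, mul_pow, ← pow_mul, ← pow_mul, mul_assoc]
  -- units
  have hmem : ∀ x : O, x ∈ IsLocalRing.maximalIdeal O ↔ ¬ IsUnit x :=
    fun x => IsLocalRing.mem_maximalIdeal x
  have hbezS : eval₂ c jj a * eval₂ c jj S₀ + eval₂ c jj b * eval₂ c jj (derivative S₀) = 1 := by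
    rw [← eval₂_mul, ← eval₂_mul, ← eval₂_add, hab, eval₂_one]
  have hbezP : eval₂ c jj c' * eval₂ c jj P₀ + eval₂ c jj d * eval₂ c jj S₀ = 1 := by
    rw [← eval₂_mul, ← eval₂_mul, ← eval₂_add, hcd, eval₂_one]
  have hNexp : eval₂ c jj N₀ = eval₂ c jj (derivative P₀) * eval₂ c jj S₀ -
      eval₂ c jj P₀ * eval₂ c jj (derivative S₀) + jj ^ (q - 1) * (eval₂ c jj S₀) ^ 2 := by
    rw [hN₀, eval₂_add, eval₂_sub, eval₂_mul, eval₂_mul, eval₂_mul, eval₂_pow, eval₂_pow,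
      eval₂_X]
  have hpole : ¬ IsUnit (eval₂ c jj S₀) → IsUnit (eval₂ c jj N₀) := by
    intro hs
    have hsm : eval₂ c jj S₀ ∈ IsLocalRing.maximalIdeal O := (hmem _).mpr hs
    by_contra hnu
    have hnm : eval₂ c jj N₀ ∈ IsLocalRing.maximalIdeal O := (hmem _).mpr hnu
    have hprod : eval₂ c jj P₀ * eval₂ c jj (derivative S₀) ∈ IsLocalRing.maximalIdeal O := by
      have : eval₂ c jj P₀ * eval₂ c jj (derivative S₀) =
          (eval₂ c jj (derivative P₀) + jj ^ (q - 1) * eval₂ c jj S₀) * eval₂ c jj S₀ -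
            eval₂ c jj N₀ := by rw [hNexp]; ring
      rw [this]
      exact Ideal.sub_mem _ (Ideal.mul_mem_left _ _ hsm) hnm
    have h1 : (1 : O) ∈ IsLocalRing.maximalIdeal O := by
      rcases (IsLocalRing.maximalIdeal.isMaximal O).isPrime.mem_or_mem hprod with h | h
      · rw [← hbezP]
        exact Ideal.add_mem _ (Ideal.mul_mem_left _ _ h) (Ideal.mul_mem_left _ _ hsm)
      · rw [← hbezS]
        exact Ideal.add_mem _ (Ideal.mul_mem_left _ _ hsm) (Ideal.mul_mem_left _ _ h)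
    exact (hmem 1).mp h1 isUnit_one
  have h5 : 5 ≤ q → IsUnit jj ∨ IsUnit (jj - 1728) := by
    intro hq5
    have hu : IsUnit (1728 : O) := by
      rw [h1728O]
      exact (IsUnit.mk0 _ (kp13_1728_ne_zero q hq hq5)).map c
    by_contra hcon
    rw [not_or] at hcon
    have h1 : (1728 : O) ∈ IsLocalRing.maximalIdeal O := by
      have : (1728 : O) = jj - (jj - 1728) := by ring
      rw [this]
      exact Ideal.sub_mem _ ((hmem _).mpr hcon.1) ((hmem _).mpr hcon.2)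
    exact (hmem _).mp h1 hu
  have h23 : q < 5 → jj - 1728 = jj := by
    intro hq5
    rw [h1728O, kp13_1728_eq_zero q hq hq5, map_zero, sub_zero]
  refine ⟨hss, hnn, hjj, hjj1, hZ, hpole, h5, h23, ?_, ?_⟩
  · intro _ hj
    have hj' : ¬ IsUnit (jj - c 0) := by rwa [map_zero, sub_zero]
    obtain ⟨ν, u, hu, he⟩ := kp13_unit_pow c N₀ hN₀0 0 jj hj'
    exact ⟨ν, u, hu, by rw [he, map_zero, sub_zero]⟩
  · intro _ hj
    have hj' : ¬ IsUnit (jj - c 1728) := by rwa [← h1728O]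
    obtain ⟨ν, u, hu, he⟩ := kp13_unit_pow c N₀ hN₀0 1728 jj hj'
    exact ⟨ν, u, hu, by rw [he, ← h1728O]⟩

end Fermat.Agent.S36
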