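import Mathlib
import Fermat.Agent.S34.SpecFibre79
import Fermat.Agent.S34.LocStrSF71
import Fermat.Agent.S36.NodeDVR13
import Fermat.Agent.S36.KappaNode13
import Fermat.Agent.S36.KappaPoly13

/-!
# S36 lab, row 599 C-REGq (helper13): the regular node from the reduction map — frame form

`kc13_core` : ONE theorem from the frame data at a closed point `n` of both branches to the
labelled regular node `s * z * z' = π * s'` (the hypothesis `hnode` of `tl71_reg_of_nodes`).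

Inputs (all in the sf79 frame language, `B` a noetherian chart over a local ring `R`,
`V₁ = V_∞`, `V₂ = V_0` as subrings of `F`):
* the frame block `hB₁ hB₂ hπ₁ hπ₂ hV₁ hV₂ hsat`, the horizontal set `H` with `hAH hπH hKr`
  (literal shapes of `nf79_H`, `nf79_hAH`, `nf79_hqH`, `nf79_hKr`);
* local coordinates `z₀`, `y₀` of the two branches at `n` (`sf79_Unif`; from `sf79_Smooth`) and
  transversality at `n` (the clause of `sf79_Transv`);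
* the modular units `U`, `V` with `U, V ∈ B_n`, `U * V = π ^ 12 * ε` (`ε` a unit of `R`),
  `U⁻¹ ∈ V₁`, `V⁻¹ ∈ V₂` (`dq56b_U`, `dq56b_V` with `q = π * unit`);
* a reduction map `red : V₁ →+* L` with kernel `π V₁` (`L = κ((Q))`, `κ` the residue field of
  `R`), compatible with the constants (`hcL`), `J ∈ B_n` with reduction `jL`, `U` with reduction
  `UL`, and the reduced mod-`q` identity of `km56_reduced` / `km56_U_rel` for `(jL, UL)`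
  (`hab hcd hrel`) and the transcendence of `jL` (`htr`);
* the rigidity inputs `(R)` at `n`: `J = u c ^ 3` if `J` is a non-unit of `B_n`,
  `J - 1728 = u d ^ 2` if `J - 1728` is a non-unit of `B_n`, and for `q = 2`:
  `J ≡ u d ^ 4 mod π V₁` if `J` is a non-unit.

Proof: `nl71_coords` + `nl71_chart_unit` (node data), `kn13_K` ((K)), `NodeDVR13` (the branch
ring `O`, its embedding into `L`), `kp13_main` (polynomial hypotheses), `kn13_node`.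

All names are prefixed `kc13_`.
-/

set_option autoImplicit false

open Polynomial

namespace Fermat.Agent.S36

open Fermat.Agent.S34

set_option maxHeartbeats 1600000 in
/-- **The labelled regular node from the reduction map.** -/
theorem kc13_core {R F : Type*} [CommRing R] [IsLocalRing R] [Field F] [Algebra R F]
    (π : R) (B : Subalgebra R F) [IsNoetherianRing B] (V₁ V₂ : Subring F)
    (hB₁ : ∀ x ∈ B, x ∈ V₁) (hB₂ : ∀ x ∈ B, x ∈ V₂)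
    (hπ₁ : (algebraMap R F π)⁻¹ ∉ V₁) (hπ₂ : (algebraMap R F π)⁻¹ ∉ V₂)
    (hV₁ : ∀ x ∈ V₁, (algebraMap R F π)⁻¹ * x ∉ V₁ → x⁻¹ ∈ V₁)
    (hV₂ : ∀ x ∈ V₂, (algebraMap R F π)⁻¹ * x ∉ V₂ → x⁻¹ ∈ V₂)
    (hsat : ∀ x ∈ B, (algebraMap R F π)⁻¹ * x ∈ V₁ → (algebraMap R F π)⁻¹ * x ∈ V₂ →
      (algebraMap R F π)⁻¹ * x ∈ B)
    (n : Ideal B) [hn : n.IsMaximal] (h1 : sf79_OnBr π B V₁ n) (h2 : sf79_OnBr π B V₂ n)
    (H : Set (ValuationSubring F))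
    (hAH : ∀ O ∈ H, ∀ x ∈ sf79_loc B n, x ∈ O) (hπH : ∀ O ∈ H, (algebraMap R F π)⁻¹ ∈ O)
    (hKr : ∀ x : F, x ∈ V₁ → x ∈ V₂ → (∀ O ∈ H, x ∈ O) → x ∈ sf79_loc B n)
    (z₀ y₀ : B) (hz₀ : sf79_Unif π B V₁ n z₀) (hy₀ : sf79_Unif π B V₂ n y₀)
    (hT : ∀ x ∈ n, ∃ s : B, s ∉ n ∧ ∃ y y' : B, s * x = y + y' ∧
      (algebraMap R F π)⁻¹ * (y : F) ∈ V₁ ∧ (algebraMap R F π)⁻¹ * (y' : F) ∈ V₂)
    (U V : F) (hUA : U ∈ sf79_loc B n) (hVA : V ∈ sf79_loc B n) (ε : R) (hε : IsUnit ε)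
    (hUV : U * V = algebraMap R F (π ^ 12 * ε)) (hU1 : U⁻¹ ∈ V₁) (hV2 : V⁻¹ ∈ V₂)
    (hmax : ∀ r ∈ IsLocalRing.maximalIdeal R,
      (algebraMap R F π)⁻¹ * algebraMap R F r ∈ V₁)
    {L : Type*} [CommRing L] [IsDomain L] (red : V₁ →+* L)
    (hred : ∀ x : V₁, red x = 0 ↔ (algebraMap R F π)⁻¹ * (x : F) ∈ V₁)
    (cL : IsLocalRing.ResidueField R →+* L)
    (hcL : ∀ r : R, red ⟨algebraMap R F r, hB₁ _ (B.algebraMap_mem r)⟩ =
      cL (IsLocalRing.residue R r))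
    (q : ℕ) (hq : q.Prime) [CharP (IsLocalRing.ResidueField R) q]
    (J : F) (hJA : J ∈ sf79_loc B n) (UL jL : L)
    (hUL : ∀ h : U ∈ V₁, red ⟨U, h⟩ = UL) (hjL : ∀ h : J ∈ V₁, red ⟨J, h⟩ = jL)
    (P₀ S₀ a b c' d : (IsLocalRing.ResidueField R)[X])
    (hab : a * S₀ + b * derivative S₀ = 1) (hcd : c' * P₀ + d * S₀ = 1)
    (hrel : UL * (eval₂ cL jL
        (derivative P₀ * S₀ - P₀ * derivative S₀ + X ^ (q - 1) * S₀ ^ 2)) ^ 6 =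
      (eval₂ cL jL S₀) ^ 12 * (jL ^ 4 * (jL - 1728) ^ 3) ^ (q - 1))
    (htr : ∀ p : (IsLocalRing.ResidueField R)[X], p ≠ 0 → eval₂ cL jL p ≠ 0)
    (hR3 : J⁻¹ ∉ sf79_loc B n → ∃ c u : F, c ∈ sf79_loc B n ∧ u ∈ sf79_loc B n ∧
      u⁻¹ ∈ sf79_loc B n ∧ J = u * c ^ 3)
    (hR2 : (J - 1728)⁻¹ ∉ sf79_loc B n → ∃ c u : F, c ∈ sf79_loc B n ∧ u ∈ sf79_loc B n ∧
      u⁻¹ ∈ sf79_loc B n ∧ J - 1728 = u * c ^ 2)
    (hR4 : q = 2 → J⁻¹ ∉ sf79_loc B n → ∃ c u : F, c ∈ sf79_loc B n ∧ u ∈ sf79_loc B n ∧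
      u⁻¹ ∈ sf79_loc B n ∧ (algebraMap R F π)⁻¹ * (J - u * c ^ 4) ∈ V₁) :
    ∃ z z' s s' : B, s ∉ n ∧ s' ∉ n ∧ (algebraMap R F π)⁻¹ * (z : F) ∈ V₁ ∧
      (algebraMap R F π)⁻¹ * (z' : F) ∈ V₂ ∧ s * z * z' = algebraMap R B π * s' := by
  classical
  have hnp : n.IsPrime := hn.isPrime
  set p : F := algebraMap R F π with hp
  have hp0 : p ≠ 0 := fun h0 => hπ₁ (by rw [h0, inv_zero]; exact V₁.zero_mem)
  have hA₁ : sf79_loc B n ≤ V₁ := nd13_sf_le π B V₁ hB₁ hV₁ n h1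
  have hA₂ : sf79_loc B n ≤ V₂ := nd13_sf_le π B V₂ hB₂ hV₂ n h2
  obtain ⟨ε', hε'⟩ := hε.exists_right_inv
  have hεε' : algebraMap R F ε * algebraMap R F ε' = 1 := by
    rw [← map_mul, hε', map_one]
  have hεF : algebraMap R F ε ≠ 0 := left_ne_zero_of_mul_eq_one hεε'
  have hUVF : U * V = p ^ 12 * algebraMap R F ε := by rw [hUV, map_mul, map_pow]
  have hUV0 : U * V ≠ 0 := by rw [hUVF]; exact mul_ne_zero (pow_ne_zero _ hp0) hεF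
  have hU0 : U ≠ 0 := left_ne_zero_of_mul hUV0
  have hV0 : V ≠ 0 := right_ne_zero_of_mul hUV0
  have hε'inv : algebraMap R F ε' = (algebraMap R F ε)⁻¹ :=
    (inv_eq_of_mul_eq_one_right hεε').symm
  have hU₁ : U ∈ V₁ := hA₁ hUA
  have hU₂ : (p ^ 12)⁻¹ * U ∈ V₂ := by
    have : (p ^ 12)⁻¹ * U = algebraMap R F ε * V⁻¹ := by
      have : U = p ^ 12 * algebraMap R F ε * V⁻¹ := by rw [← hUVF]; field_simp
      rw [this]; field_simp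
    rw [this]
    exact V₂.mul_mem (hB₂ _ (B.algebraMap_mem ε)) hV2
  have hUinv : U⁻¹ = V * algebraMap R F ε' * (p⁻¹) ^ 12 := by
    have h1' : U * (V * algebraMap R F ε' * (p⁻¹) ^ 12) = 1 := by
      have : U * (V * algebraMap R F ε' * (p⁻¹) ^ 12) =
          (U * V) * algebraMap R F ε' * (p⁻¹) ^ 12 := by ring
      rw [this, hUVF, hε'inv, inv_pow]
      field_simp
    exact inv_eq_of_mul_eq_one_right h1'
  have hU₂' : p ^ 12 * U⁻¹ ∈ V₂ := by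
    have : p ^ 12 * U⁻¹ = V * algebraMap R F ε' := by
      rw [hUinv, inv_pow]; field_simp
    rw [this]
    exact V₂.mul_mem (hA₂ hVA) (hB₂ _ (B.algebraMap_mem ε'))
  have hUH : ∀ O ∈ H, U ∈ O ∧ U⁻¹ ∈ O := by
    intro O hO
    refine ⟨hAH O hO _ hUA, ?_⟩
    rw [hUinv]
    exact O.mul_mem _ _ (O.mul_mem _ _ (hAH O hO _ hVA)
      (hAH O hO _ (sf79_le_loc B n _ (B.algebraMap_mem ε')))) (pow_mem (hπH O hO) _)
  -- the node data of `nl71_chart_unit`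
  have hbr₁ : ∀ x ∈ n, ∃ s : B, s ∉ n ∧ ∃ a : B, p⁻¹ * ((s * x - a * z₀ : B) : F) ∈ V₁ := by
    intro x hx
    obtain ⟨s, hs, a, ha⟩ := hz₀.2 x hx
    exact ⟨s, hs, a, by push_cast; exact ha⟩
  have hbr₂ : ∀ x ∈ n, ∃ s : B, s ∉ n ∧ ∃ a : B, p⁻¹ * ((s * x - a * y₀ : B) : F) ∈ V₂ := by
    intro x hx
    obtain ⟨s, hs, a, ha⟩ := hy₀.2 x hx
    exact ⟨s, hs, a, by push_cast; exact ha⟩
  obtain ⟨z, z', hz₂, hz'₁, hgen⟩ :=
    nl71_coords π B V₁ V₂ hB₁ hB₂ hπ₁ hsat n h1 z₀ y₀ hz₀.1 hy₀.1 hbr₁ hbr₂ hT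
  have hwn : algebraMap R B ε ∉ n := by
    intro hmem
    have h1' : (1 : B) ∈ n := by
      have : (1 : B) = algebraMap R B ε * algebraMap R B ε' := by
        rw [← map_mul, hε', map_one]
      rw [this]
      exact n.mul_mem_right _ hmem
    exact hnp.ne_top ((Ideal.eq_top_iff_one n).mpr h1')
  have hpU : p⁻¹ * U ∉ V₁ := by
    intro h
    apply hπ₁
    have : p⁻¹ = p⁻¹ * U * U⁻¹ := by field_simp
    rw [this]; exact V₁.mul_mem h hU1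
  have hpV : p⁻¹ * V ∉ V₂ := by
    intro h
    apply hπ₂
    have : p⁻¹ = p⁻¹ * V * V⁻¹ := by field_simp
    rw [this]; exact V₂.mul_mem h hV2
  obtain ⟨z₁, z₁', hz₁n, hz₁'n, hgen', ⟨κ, s, s', hs, hs', hκ1, hκe, heq⟩, hz₁V₂, hz₁'V₁⟩ :=
    nl71_chart_unit π B V₁ V₂ hB₁ hB₂ hπ₁ hπ₂ hV₁ hV₂ hsat n h1 h2 z z' hz₂ hz'₁ hgen
      U V hUA hVA 12 (by norm_num) (algebraMap R B ε) hwn hUVF hpU hpV
  -- the branch ring
  have hunif := kn13_unif π B V₁ hB₁ hπ₁ n z₁ z₁' hz₁n hz₁'V₁ hgen'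
  obtain ⟨hzV, -, -, -⟩ := kn13_K π B V₁ V₂ hB₁ hB₂ hπ₁ hπ₂ hV₁ hV₂ n h1 h2 H hAH hπH hKr
    z₁ z₁' hgen' κ s s' hs hs' heq hz₁V₂ hz₁'V₁ 12 (by norm_num) U hU0 hU₁ hU1 hU₂ hU₂' hUH
  let hdom := nd13_sf_isDomain π B V₁ hB₁ hπ₁ hV₁ n h1
  have hdvr := nd13_sf_dvr π B V₁ hB₁ hπ₁ hV₁ n h1 z₁ hunif hzV
  set ρ := nd13_rho (sf79_loc B n) V₁ (nd13_sf_le π B V₁ hB₁ hV₁ n h1) (algebraMap R F π)
    with hρ
  have hι := nd13_lift_injective (sf79_loc B n) V₁ (nd13_sf_le π B V₁ hB₁ hV₁ n h1)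
    (algebraMap R F π) red hred
  set ι := nd13_lift (sf79_loc B n) V₁ (nd13_sf_le π B V₁ hB₁ hV₁ n h1) (algebraMap R F π) red
    (fun x hx => (hred x).mpr hx) with hιdef
  -- the constants
  let algA : R →+* sf79_loc B n := (algebraMap R F).codRestrict (sf79_loc B n)
    (fun r => sf79_le_loc B n _ (B.algebraMap_mem r))
  have hkill : ∀ r ∈ IsLocalRing.maximalIdeal R, (ρ.comp algA) r = 0 := by
    intro r hr
    rw [RingHom.comp_apply, hρ, nd13_rho_eq_zero_iff]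
    exact hmax r hr
  let c : IsLocalRing.ResidueField R →+*
      nd13_O (sf79_loc B n) V₁ (nd13_sf_le π B V₁ hB₁ hV₁ n h1) (algebraMap R F π) :=
    Ideal.Quotient.lift (IsLocalRing.maximalIdeal R) (ρ.comp algA) hkill
  have hιc : ι.comp c = cL := by
    ext x
    obtain ⟨r, rfl⟩ := Ideal.Quotient.mk_surjective x
    show ι (Ideal.Quotient.lift (IsLocalRing.maximalIdeal R) (ρ.comp algA) hkill
      (Ideal.Quotient.mk _ r)) = cL (Ideal.Quotient.mk _ r)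
    rw [Ideal.Quotient.lift_mk, RingHom.comp_apply, hιdef, hρ, nd13_lift_rho]
    exact hcL r
  have hιJ : ι (ρ ⟨J, hJA⟩) = jL := by
    rw [hιdef, hρ, nd13_lift_rho]
    exact hjL _
  have hιU : ι (ρ ⟨U, hUA⟩) = UL := by
    rw [hιdef, hρ, nd13_lift_rho]
    exact hUL _
  obtain ⟨hss, hnn, hjj, hjj1, hZ, hpole, h5, h23, hn0, hn1⟩ :=
    kp13_main q hq ι hι c (ρ ⟨U, hUA⟩) (ρ ⟨J, hJA⟩) P₀ S₀ a b c' d hab hcd
      (by rw [hιc, hιJ, hιU]; exact hrel) (by rw [hιc, hιJ]; exact htr)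
  -- units of `B_n` and of the branch ring
  have hunitρ : ∀ x : sf79_loc B n, IsUnit (ρ x) ↔ ((x : F) ≠ 0 ∧ (x : F)⁻¹ ∈ sf79_loc B n) := by
    intro x
    rw [hρ, nd13_sf_rho_isUnit_iff' π B V₁ hB₁ hπ₁ hV₁ n h1, nd13_isUnit_sub_iff]
  have hJ0 : J ≠ 0 := by
    rintro rfl
    apply hjj
    have : (⟨0, hJA⟩ : sf79_loc B n) = 0 := rfl
    rw [this, map_zero]
  have hJ10 : J - 1728 ≠ 0 := by
    intro h0
    apply hjj1
    have h1728 : (1728 : nd13_O (sf79_loc B n) V₁ (nd13_sf_le π B V₁ hB₁ hV₁ n h1)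
        (algebraMap R F π)) = ρ 1728 := (map_ofNat ρ 1728).symm
    rw [h1728, ← map_sub]
    have : (⟨J, hJA⟩ : sf79_loc B n) - 1728 = 0 := by
      apply Subtype.ext
      show J - 1728 = 0
      exact h0
    rw [this, map_zero]
  have hsub1728 : ρ ⟨J, hJA⟩ - 1728 =
      ρ ⟨J - 1728, (sf79_loc B n).sub_mem hJA (by
        have : (1728 : F) = ((1728 : sf79_loc B n) : F) := rfl
        rw [this]; exact Subtype.property _)⟩ := by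
    have h1728 : (1728 : nd13_O (sf79_loc B n) V₁ (nd13_sf_le π B V₁ hB₁ hV₁ n h1)
        (algebraMap R F π)) = ρ 1728 := (map_ofNat ρ 1728).symm
    rw [h1728, ← map_sub]
    rfl
  -- the rigidity inputs in the branch ring
  have hj3 : ¬ IsUnit (ρ ⟨J, hJA⟩) → ∃ c u, IsUnit u ∧ ρ ⟨J, hJA⟩ = u * c ^ 3 := by
    intro hnu
    have hJinv : J⁻¹ ∉ sf79_loc B n := fun h => hnu ((hunitρ _).mpr ⟨hJ0, h⟩)
    obtain ⟨c₀, u, hc₀, hu, hu', hJe⟩ := hR3 hJinv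
    have hu0 : u ≠ 0 := by
      rintro rfl
      rw [zero_mul] at hJe
      exact hJ0 hJe
    refine ⟨ρ ⟨c₀, hc₀⟩, ρ ⟨u, hu⟩, (hunitρ _).mpr ⟨hu0, hu'⟩, ?_⟩
    rw [← map_pow, ← map_mul]
    congr 1
    exact Subtype.ext hJe
  have hj2 : ¬ IsUnit (ρ ⟨J, hJA⟩ - 1728) →
      ∃ c u, IsUnit u ∧ ρ ⟨J, hJA⟩ - 1728 = u * c ^ 2 := by
    intro hnu
    rw [hsub1728] at hnu ⊢
    have hJinv : (J - 1728)⁻¹ ∉ sf79_loc B n := fun h => hnu ((hunitρ _).mpr ⟨hJ10, h⟩)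
    obtain ⟨c₀, u, hc₀, hu, hu', hJe⟩ := hR2 hJinv
    have hu0 : u ≠ 0 := by
      rintro rfl
      rw [zero_mul] at hJe
      exact hJ10 hJe
    refine ⟨ρ ⟨c₀, hc₀⟩, ρ ⟨u, hu⟩, (hunitρ _).mpr ⟨hu0, hu'⟩, ?_⟩
    rw [← map_pow, ← map_mul]
    congr 1
    exact Subtype.ext hJe
  have hj4 : q = 2 → ¬ IsUnit (ρ ⟨J, hJA⟩) → ∃ c u, IsUnit u ∧ ρ ⟨J, hJA⟩ = u * c ^ 4 := by
    intro hq2 hnu
    have hJinv : J⁻¹ ∉ sf79_loc B n := fun h => hnu ((hunitρ _).mpr ⟨hJ0, h⟩)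
    obtain ⟨c₀, u, hc₀, hu, hu', hJe⟩ := hR4 hq2 hJinv
    have hu0 : u ≠ 0 := by
      rintro rfl
      rw [zero_mul, sub_zero] at hJe
      apply hjj
      rw [hρ, nd13_rho_eq_zero_iff]
      exact hJe
    refine ⟨ρ ⟨c₀, hc₀⟩, ρ ⟨u, hu⟩, (hunitρ _).mpr ⟨hu0, hu'⟩, ?_⟩
    rw [← map_pow, ← map_mul, hρ, nd13_rho_eq_iff]
    exact hJe
  exact kn13_node π B V₁ V₂ hB₁ hB₂ hπ₁ hπ₂ hV₁ hV₂ n h1 h2 H hAH hπH hKr 12
    ⟨z₁, z₁', hz₁n, hz₁'n, hgen', ⟨κ, s, s', hs, hs', hκ1, hκe, heq⟩, hz₁V₂, hz₁'V₁⟩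
    U hU0 hU₁ hU1 hU₂ hU₂' hUH hUA q hq (ρ ⟨J, hJA⟩) _ _ hss hnn hjj hjj1 hZ hpole h5 h23
    hj3 hj2 hj4 hn0 hn1

end Fermat.Agent.S36
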