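import Fermat.Agent.S36.KappaConc56
import Fermat.Agent.S18.GaussVal85
import Fermat.Agent.S37.FrobL66
import Fermat.Agent.S28.ChartBase
import Fermat.Prelude.Thm_ModularCurve_coeffMap_qExpand

/-!
# S36 lab, row C-REGq (helper56): the mod-`q` identity behind `kappa = 1` at a node

`κ` a field of characteristic `q` (`q` prime), `j = jqModC κ ∈ κ((Q))`, `ϑ = θ j`
(`θ = Q d/dQ = partC_theta`).

* `km56_theta`      : `θ` coefficientwise over any commutative ring (compatible with `coeffMap`);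
* `km56_frob`       : `f̄(Q^q) = f̄ ^ q` for the reduction `f̄` of an integral series `f`;
* `km56_exists_G0`  : `G0 ∈ ℤ((Q))` with `q · G0 = J(Q^q) - J^q`;
* `km56_unreduced`  : there is `P ∈ κ[X]` (`P = Ψ̄(X^q, X)`, Kronecker) such that, with
  `S = X - X^(q^2)`,
  `ϑ^q · S(j)^2 = ϑ · (P' S - P S' + X^(q-1) S^2)(j)`;
  with `T̄ = - ϑ / ϑ^q` (the reduction of `T = - θJ / (θJ)(Q^q)`) this reads
  `T̄ · N(j) = - S(j)^2`, `N = P' S - P S' + X^(q-1) S^2`;
* `km56_reduced`    : the same identity for a reduced fraction `P₀ / S₀` with Bezout relations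
  `a S₀ + b S₀' = 1` (`S₀` separable) and `c P₀ + d S₀ = 1`.

All names are prefixed `km56_`.
-/

set_option autoImplicit false
set_option linter.style.haveILetI false

open ModularCurve Polynomial

namespace Fermat.Agent.S36

noncomputable section

open Fermat.Agent.S18 Fermat.Agent.S28 Fermat.Agent.S34 Fermat.Agent.S37

/-- `θ = Q d/dQ`, coefficientwise, over any commutative ring. -/
def km56_theta (A : Type*) [CommRing A] (f : LaurentSeries A) : LaurentSeries A where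
  coeff n := (n : A) * f.coeff n
  isPWO_support' := f.isPWO_support.mono (fun n hn => by
    simp only [Function.mem_support, ne_eq] at hn ⊢
    exact fun h => hn (by rw [h, mul_zero]))

theorem km56_theta_coeff (A : Type*) [CommRing A] (f : LaurentSeries A) (n : ℤ) :
    (km56_theta A f).coeff n = (n : A) * f.coeff n := rfl

theorem km56_coeffMap_theta {A A' : Type*} [CommRing A] [CommRing A'] (φ : A →+* A')
    (f : LaurentSeries A) : coeffMap φ (km56_theta A f) = km56_theta A' (coeffMap φ f) := by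
  ext n
  rw [coeffMap_coeff, km56_theta_coeff, km56_theta_coeff, coeffMap_coeff, map_mul, map_intCast]

theorem km56_theta_eq (k : Type*) [Field k] (f : LaurentSeries k) :
    km56_theta k f = partC_theta f := by
  ext n
  rfl

/-- Frobenius: the reduction of an integral series satisfies `f̄(Q^q) = f̄^q`. -/
theorem km56_frob (κ : Type*) [Field κ] (q : ℕ) [NeZero q] [ExpChar κ q] (f : LaurentSeries ℤ) :
    qExpand κ q (coeffMap (Int.castRingHom κ) f) = coeffMap (Int.castRingHom κ) f ^ q := by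
  rw [fr66_pow_expChar κ q, coeffMap_coeffMap,
    coeffMap_congr (RingHom.ext_int ((frobenius κ q).comp (Int.castRingHom κ))
      (Int.castRingHom κ))]

/-- `G0 ∈ ℤ((Q))` with `q · G0 = J(Q^q) - J^q`. -/
theorem km56_exists_G0 (q : ℕ) (hq : q.Prime) :
    ∃ G0 : LaurentSeries ℤ, HahnSeries.C (q : ℤ) * G0 = JdC ℤ q - jqModC ℤ ^ q := by
  haveI : NeZero q := ⟨hq.ne_zero⟩
  haveI : Fact q.Prime := ⟨hq⟩
  haveI : ExpChar (ZMod q) q := ExpChar.prime hq
  have h0 : coeffMap (Int.castRingHom (ZMod q)) (JdC ℤ q - jqModC ℤ ^ q) = 0 := by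
    rw [map_sub, map_pow, coeffMap_JdC, JdC_of_neZero,
      ← coeffMap_jqModC (Int.castRingHom (ZMod q)), km56_frob, sub_self]
  have hdiv : ∀ n, (q : ℤ) ∣ (JdC ℤ q - jqModC ℤ ^ q).coeff n := by
    intro n
    have h1 := congrArg (fun y => y.coeff n) h0
    simp only [coeffMap_coeff, HahnSeries.coeff_zero] at h1
    exact (ZMod.intCast_zmod_eq_zero_iff_dvd _ q).mp h1
  obtain ⟨G0, hG0⟩ := gv85_exists_div (JdC ℤ q - jqModC ℤ ^ q) (q : ℤ)
    (by exact_mod_cast hq.ne_zero) hdiv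
  exact ⟨G0, hG0.symm⟩

/-- The mod-`q` identity for an abstract `S` with `S(j) = j - j^(q^2)`. -/
theorem km56_aux (κ : Type*) [Field κ] (q : ℕ) (hq : q.Prime) [CharP κ q] (S : κ[X])
    (hS : aeval (jqModC κ) S = jqModC κ - jqModC κ ^ (q ^ 2)) :
    ∃ P : κ[X],
      partC_theta (jqModC κ) ^ q * (aeval (jqModC κ) S) ^ 2 =
        partC_theta (jqModC κ) *
          aeval (jqModC κ) (derivative P * S - P * derivative S + X ^ (q - 1) * S ^ 2) := by
  haveI : NeZero q := ⟨hq.ne_zero⟩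
  haveI : ExpChar κ q := ExpChar.prime hq
  obtain ⟨G0, hG0⟩ := km56_exists_G0 q hq
  obtain ⟨Ψ, hΨ⟩ := kc56_kron ℚ q hq
  have hinj : Function.Injective
      (coeffMap (Int.castRingHom ℚ) : LaurentSeries ℤ → LaurentSeries ℚ) :=
    gv85_emb_injective (R := ℤ) (K := ℚ)
  -- the rational series of `G0` is `g`
  have hg : coeffMap (Int.castRingHom ℚ) G0 = kc56_g ℚ q := by
    have h1 := congrArg (coeffMap (Int.castRingHom ℚ)) hG0
    rw [map_mul, map_sub, map_pow, coeffMap_JdC, coeffMap_jqModC, gv85_coeffMap_C] at h1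
    have h2 : (HahnSeries.C ((Int.castRingHom ℚ) (q : ℤ)) : LaurentSeries ℚ) =
        (q : LaurentSeries ℚ) := by
      rw [eq_intCast, Int.cast_natCast, map_natCast]
    rw [h2] at h1
    unfold kc56_g
    rw [eq_div_iff (dq56_natCast_ne_zero ℚ q), ← h1, mul_comm]
  -- `θ G0` over `ℤ`
  have hθZ : km56_theta ℤ G0 = qExpand ℤ q (km56_theta ℤ (jqModC ℤ)) -
      jqModC ℤ ^ (q - 1) * km56_theta ℤ (jqModC ℤ) := by
    apply hinj
    rw [km56_coeffMap_theta, hg, map_sub, map_mul, map_pow, coeffMap_qExpand,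
      km56_coeffMap_theta, coeffMap_jqModC, km56_theta_eq, km56_theta_eq]
    exact kc56_theta_g ℚ q
  -- Kronecker over `ℤ`
  have hKZ : (JdC ℤ q ^ q - jqModC ℤ) * G0 = - dq56_ev (JdC ℤ q) (jqModC ℤ) Ψ := by
    apply hinj
    rw [map_mul, map_sub, map_pow, coeffMap_JdC, coeffMap_jqModC, hg, map_neg, dq56_ev_map,
      coeffMap_JdC, coeffMap_jqModC]
    exact hΨ
  -- reduction to `κ`
  have hϑZ : coeffMap (Int.castRingHom κ) (km56_theta ℤ (jqModC ℤ)) =
      partC_theta (jqModC κ) := by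
    rw [km56_coeffMap_theta, coeffMap_jqModC, km56_theta_eq]
  have hθκ : partC_theta (coeffMap (Int.castRingHom κ) G0) =
      partC_theta (jqModC κ) ^ q - jqModC κ ^ (q - 1) * partC_theta (jqModC κ) := by
    have h1 := congrArg (coeffMap (Int.castRingHom κ)) hθZ
    rw [km56_coeffMap_theta, km56_theta_eq, map_sub, map_mul, map_pow, coeffMap_qExpand,
      coeffMap_jqModC, km56_frob κ q, hϑZ] at h1
    exact h1
  have hJq : JdC κ q = jqModC κ ^ q := by
    rw [JdC_of_neZero, ← coeffMap_jqModC (Int.castRingHom κ), km56_frob]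
  have hKκ : (jqModC κ ^ (q ^ 2) - jqModC κ) * coeffMap (Int.castRingHom κ) G0 =
      - dq56_ev (jqModC κ ^ q) (jqModC κ) Ψ := by
    have h1 := congrArg (coeffMap (Int.castRingHom κ)) hKZ
    rw [map_mul, map_sub, map_pow, coeffMap_JdC, coeffMap_jqModC, map_neg, dq56_ev_map,
      coeffMap_JdC, coeffMap_jqModC, hJq, ← pow_mul] at h1
    rw [pow_two]
    exact h1
  -- the univariate polynomial `P = Ψ̄(X^q, X)`
  obtain ⟨P, hPdef⟩ : ∃ P : κ[X],
      P = Ψ.eval₂ (Polynomial.mapRingHom (Int.castRingHom κ)) (X ^ q) := ⟨_, rfl⟩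
  have hP : aeval (jqModC κ) P = dq56_ev (jqModC κ ^ q) (jqModC κ) Ψ := by
    have h1 := Polynomial.hom_eval₂ Ψ (Polynomial.mapRingHom (Int.castRingHom κ))
      ((aeval (jqModC κ) : κ[X] →ₐ[κ] LaurentSeries κ) : κ[X] →+* LaurentSeries κ) (X ^ q)
    rw [hPdef]
    unfold dq56_ev
    have h2 : ((aeval (jqModC κ) : κ[X] →ₐ[κ] LaurentSeries κ) : κ[X] →+* LaurentSeries κ)
        (X ^ q) = jqModC κ ^ q := by
      simp
    rw [h2] at h1
    refine h1.trans ?_
    congr 1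
    refine Polynomial.ringHom_ext' (Subsingleton.elim _ _) ?_
    simp
  refine ⟨P, ?_⟩
  have hgS : coeffMap (Int.castRingHom κ) G0 * aeval (jqModC κ) S = aeval (jqModC κ) P := by
    rw [hS, hP]
    linear_combination (-1 : LaurentSeries κ) * hKκ
  have hD := congrArg (partC_theta (k := κ)) hgS
  rw [Derivation.leibniz, Derivation.map_aeval, Derivation.map_aeval, hθκ, smul_eq_mul,
    smul_eq_mul, smul_eq_mul, smul_eq_mul] at hD
  simp only [map_add, map_sub, map_mul, map_pow, aeval_X]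
  linear_combination (aeval (jqModC κ) S) * hD -
    (aeval (jqModC κ) (derivative S) * partC_theta (jqModC κ)) * hgS

/-- **The mod-`q` identity**, unreduced form: with `S = X - X^(q^2)` and `P = Ψ̄(X^q, X)`,
`ϑ^q · S(j)^2 = ϑ · (P' S - P S' + X^(q-1) S^2)(j)`. -/
theorem km56_unreduced (κ : Type*) [Field κ] (q : ℕ) (hq : q.Prime) [CharP κ q] :
    ∃ P : κ[X],
      partC_theta (jqModC κ) ^ q * (aeval (jqModC κ) (X - X ^ (q ^ 2) : κ[X])) ^ 2 =
        partC_theta (jqModC κ) *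
          aeval (jqModC κ) (derivative P * (X - X ^ (q ^ 2)) -
            P * derivative (X - X ^ (q ^ 2) : κ[X]) + X ^ (q - 1) * (X - X ^ (q ^ 2)) ^ 2) :=
  km56_aux κ q hq (X - X ^ (q ^ 2)) (by simp)

/-- **The mod-`q` identity**, reduced form with Bezout relations. -/
theorem km56_reduced (κ : Type*) [Field κ] (q : ℕ) (hq : q.Prime) [CharP κ q] :
    ∃ P₀ S₀ a b c d : κ[X], a * S₀ + b * derivative S₀ = 1 ∧ c * P₀ + d * S₀ = 1 ∧
      partC_theta (jqModC κ) ^ q * (aeval (jqModC κ) S₀) ^ 2 =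
        partC_theta (jqModC κ) *
          aeval (jqModC κ) (derivative P₀ * S₀ - P₀ * derivative S₀ + X ^ (q - 1) * S₀ ^ 2) := by
  classical
  obtain ⟨S, hSdef⟩ : ∃ S : κ[X], S = X - X ^ (q ^ 2) := ⟨_, rfl⟩
  have hSj : aeval (jqModC κ) S = jqModC κ - jqModC κ ^ (q ^ 2) := by rw [hSdef]; simp
  obtain ⟨P, hP⟩ := km56_aux κ q hq S hSj
  have hq1 : 1 < q ^ 2 := by
    have := hq.two_le
    nlinarith
  have hS' : derivative S = 1 := by
    rw [hSdef, derivative_sub, derivative_X, derivative_X_pow]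
    have h0 : ((q ^ 2 : ℕ) : κ) = 0 := by
      rw [Nat.cast_pow, CharP.cast_eq_zero κ q]
      exact zero_pow two_ne_zero
    rw [h0, map_zero, zero_mul, sub_zero]
  have hS0 : S ≠ 0 := by
    intro h
    rw [h, derivative_zero] at hS'
    exact zero_ne_one hS'
  have hsep : S.Separable := by
    rw [Polynomial.separable_def, hS']
    exact isCoprime_one_right
  obtain ⟨D, hDdef⟩ : ∃ D : κ[X], D = EuclideanDomain.gcd P S := ⟨_, rfl⟩
  obtain ⟨P₀, hP₀⟩ : D ∣ P := hDdef ▸ EuclideanDomain.gcd_dvd_left P S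
  obtain ⟨S₀, hS₀⟩ : D ∣ S := hDdef ▸ EuclideanDomain.gcd_dvd_right P S
  have hD0 : D ≠ 0 := fun h => hS0 (by rw [hS₀, h, zero_mul])
  have hbez : D = P * EuclideanDomain.gcdA P S + S * EuclideanDomain.gcdB P S :=
    hDdef ▸ EuclideanDomain.gcd_eq_gcd_ab P S
  have hcop : EuclideanDomain.gcdA P S * P₀ + EuclideanDomain.gcdB P S * S₀ = 1 := by
    apply mul_left_cancel₀ hD0
    calc D * (EuclideanDomain.gcdA P S * P₀ + EuclideanDomain.gcdB P S * S₀)
        = (D * P₀) * EuclideanDomain.gcdA P S + (D * S₀) * EuclideanDomain.gcdB P S := by ring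
      _ = P * EuclideanDomain.gcdA P S + S * EuclideanDomain.gcdB P S := by rw [← hP₀, ← hS₀]
      _ = D := hbez.symm
      _ = D * 1 := (mul_one D).symm
  have hsep₀ : S₀.Separable := hsep.of_dvd ⟨D, by rw [hS₀, mul_comm]⟩
  obtain ⟨a, b, hab⟩ := hsep₀
  refine ⟨P₀, S₀, a, b, EuclideanDomain.gcdA P S, EuclideanDomain.gcdB P S, hab, hcop, ?_⟩
  have hN : derivative P * S - P * derivative S + X ^ (q - 1) * S ^ 2 =
      D ^ 2 * (derivative P₀ * S₀ - P₀ * derivative S₀ + X ^ (q - 1) * S₀ ^ 2) := by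
    rw [hP₀, hS₀]
    simp only [derivative_mul]
    ring
  have hDj : aeval (jqModC κ) D ≠ 0 := fun h => h63_transcendental_jqModC κ ⟨D, hD0, h⟩
  rw [hN, hS₀, map_mul, map_mul, map_pow] at hP
  apply mul_left_cancel₀ (pow_ne_zero 2 hDj)
  linear_combination hP

/-- The reduction of `kc56_T_pow_six`: `ϑ^6 · W^q = Ū · W · (ϑ^q)^6`, `W = j^4 (j - 1728)^3`. -/
theorem km56_U_theta (κ : Type*) [Field κ] (q : ℕ) (hq : q.Prime) [CharP κ q] :
    partC_theta (jqModC κ) ^ 6 * (jqModC κ ^ 4 * (jqModC κ - 1728) ^ 3) ^ q =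
      dq56_U κ q * (jqModC κ ^ 4 * (jqModC κ - 1728) ^ 3) *
        (partC_theta (jqModC κ) ^ q) ^ 6 := by
  haveI : NeZero q := ⟨hq.ne_zero⟩
  haveI : ExpChar κ q := ExpChar.prime hq
  have hinj : Function.Injective
      (coeffMap (Int.castRingHom ℚ) : LaurentSeries ℤ → LaurentSeries ℚ) :=
    gv85_emb_injective (R := ℤ) (K := ℚ)
  -- the identity over `ℚ`
  have hQ : partC_theta (jqModC ℚ) ^ 6 * (JdC ℚ q ^ 4 * (JdC ℚ q - 1728) ^ 3) =
      dq56_U ℚ q * (jqModC ℚ ^ 4 * (jqModC ℚ - 1728) ^ 3) *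
        (qExpand ℚ q (partC_theta (jqModC ℚ))) ^ 6 := by
    have h1 := kc56_T_pow_six ℚ q hq
    have h2 := kc56_T_mul ℚ q
    have h3 : partC_theta (jqModC ℚ) ^ 6 =
        kc56_T ℚ q ^ 6 * qExpand ℚ q (partC_theta (jqModC ℚ)) ^ 6 := by
      rw [← mul_pow, h2]; ring
    rw [h3]
    linear_combination (qExpand ℚ q (partC_theta (jqModC ℚ)) ^ 6) * h1
  -- over `ℤ`
  have hZ : km56_theta ℤ (jqModC ℤ) ^ 6 * (JdC ℤ q ^ 4 * (JdC ℤ q - 1728) ^ 3) =
      dq56_U ℤ q * (jqModC ℤ ^ 4 * (jqModC ℤ - 1728) ^ 3) *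
        (qExpand ℤ q (km56_theta ℤ (jqModC ℤ))) ^ 6 := by
    apply hinj
    simp only [map_mul, map_pow, map_sub, map_ofNat, coeffMap_JdC, coeffMap_jqModC,
      dq56_coeffMap_U, coeffMap_qExpand, km56_coeffMap_theta, km56_theta_eq]
    exact hQ
  -- over `κ`
  have hϑZ : coeffMap (Int.castRingHom κ) (km56_theta ℤ (jqModC ℤ)) =
      partC_theta (jqModC κ) := by
    rw [km56_coeffMap_theta, coeffMap_jqModC, km56_theta_eq]
  have hJq : JdC κ q = jqModC κ ^ q := by
    rw [JdC_of_neZero, ← coeffMap_jqModC (Int.castRingHom κ), km56_frob]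
  have hJq' : JdC κ q - 1728 = (jqModC κ - 1728) ^ q := by
    have h1 := km56_frob κ q (jqModC ℤ - 1728)
    rw [map_sub, map_ofNat, coeffMap_jqModC, map_sub, map_ofNat, ← JdC_of_neZero] at h1
    exact h1
  have hκ := congrArg (coeffMap (Int.castRingHom κ)) hZ
  simp only [map_mul, map_pow, map_sub, map_ofNat, coeffMap_JdC, coeffMap_jqModC,
    dq56_coeffMap_U, coeffMap_qExpand] at hκ
  rw [km56_frob κ q, hϑZ, hJq', hJq] at hκ
  rw [mul_pow, ← pow_mul, ← pow_mul, mul_comm 4 q, mul_comm 3 q, pow_mul, pow_mul (jqModC κ - 1728)]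
  exact hκ

/-- **The reduced `U`-relation** (`hrel` of the order bookkeeping at the elliptic nodes): for ANY
`s, n ∈ κ((Q))` with `ϑ^q · s^2 = ϑ · n` (e.g. `s = S(j)`, `n = N(j)` of `km56_unreduced`),
`Ū · n^6 = s^12 · (j^4 (j - 1728)^3)^(q-1)`. -/
theorem km56_U_rel (κ : Type*) [Field κ] (q : ℕ) (hq : q.Prime) [CharP κ q]
    (s n : LaurentSeries κ)
    (h : partC_theta (jqModC κ) ^ q * s ^ 2 = partC_theta (jqModC κ) * n) :
    dq56_U κ q * n ^ 6 = s ^ 12 * (jqModC κ ^ 4 * (jqModC κ - 1728) ^ 3) ^ (q - 1) := by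
  have h1 := km56_U_theta κ q hq
  have hϑ : partC_theta (jqModC κ) ≠ 0 := dq56_theta_J_ne_zero κ
  have hW : jqModC κ ^ 4 * (jqModC κ - 1728) ^ 3 ≠ 0 := by
    have hne : (X ^ 4 * (X - C (1728 : κ)) ^ 3 : κ[X]) ≠ 0 :=
      ((monic_X_pow 4).mul ((monic_X_sub_C (1728 : κ)).pow 3)).ne_zero
    intro h0
    apply h63_transcendental_jqModC κ
    refine ⟨_, hne, ?_⟩
    rw [map_mul, map_pow, map_pow, map_sub, aeval_X, aeval_C]
    rw [← h0]
    congr 3
    exact map_ofNat (algebraMap κ (LaurentSeries κ)) 1728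
  have h6 : (partC_theta (jqModC κ) ^ q) ^ 6 * s ^ 12 = partC_theta (jqModC κ) ^ 6 * n ^ 6 := by
    have := congrArg (fun x => x ^ 6) h
    simp only [mul_pow] at this
    rw [← this]; ring
  have hq1 : q = (q - 1) + 1 := (Nat.sub_add_cancel hq.one_le).symm
  have hWq : (jqModC κ ^ 4 * (jqModC κ - 1728) ^ 3) ^ q =
      (jqModC κ ^ 4 * (jqModC κ - 1728) ^ 3) ^ (q - 1) *
        (jqModC κ ^ 4 * (jqModC κ - 1728) ^ 3) := by
    rw [← pow_succ, ← hq1]
  rw [hWq] at h1
  apply mul_left_cancel₀ (mul_ne_zero (pow_ne_zero 6 hϑ) hW)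
  linear_combination (-(dq56_U κ q * (jqModC κ ^ 4 * (jqModC κ - 1728) ^ 3))) * h6 - s ^ 12 * h1

end

end Fermat.Agent.S36
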