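import Mathlib
import Fermat.Agent.S34.UVAt17
import Fermat.Agent.S34.DeltaQuot56b
import Fermat.Agent.S34.AtkinLehnerVal73
import Fermat.Agent.S35.NewToricFrame35
import Fermat.Agent.S36.NodeFrameInst79
import Fermat.Agent.S36.KappaMod56
import Fermat.Agent.S36.KappaCore13

/-!
# S36 lab, row 599 C-REGq (helper13): the labelled regular node on the canonical level-`q` frame

Canonical frame data of `Iface47c` at level `M' * q` (`q ∤ M'`): `V_∞ = cm85_Vinf (M' * q) hπ`,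
`V_0 = s34i47c_V0 M' q hq hM' hπ`, `J = rm90_j K (M' * q)`, `U = dq56b_U`, `V = dq56b_V`, base
`R` unramified at `q` (`(q : R)` associated to `π`).

* `kb13_node` : for every integrally closed noetherian `R`-subalgebra `B` of `F_K(M' q)` with
  the chart facts (`B ⊆ W`, saturation, `s34i47_Krull`, `sf79_Smooth` along `V_∞` and `V_0`,
  `sf79_Transv`), at every closed point `n` of both branches where `J` is regular
  (`∃ s ∉ n, s * J ∈ B`), the rigidity inputs `(R)` at `n`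
  (`J = u c ^ 3` / `J - 1728 = u d ^ 2` in `B_n` when `J` / `J - 1728` is a non-unit of `B_n`;
  `q = 2`: `J ≡ u d ^ 4 mod π V_∞`) give the LABELLED REGULAR NODE
  `∃ z z' s s' : B, s ∉ n ∧ s' ∉ n ∧ π⁻¹ z ∈ V_∞ ∧ π⁻¹ z' ∈ V_0 ∧ s * z * z' = π * s'`
  (the hypothesis `hnode` of `tl71_reg_of_nodes`).

Everything else is discharged here from main: the reduction `ntf35_red` of the Gauss ring
(kernel `π V_∞`, `red J = jqModC κ`, `red U = dq56_U κ q`), the mod-`q` identities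
`km56_reduced`, `km56_U_rel` (helper56), `U V = q ^ 12`, integrality of `U`, `V` over `R[J]`,
the Krull clause `nf79_hKr`, and `kc13_core`.

All names are prefixed `kb13_`.
-/

set_option autoImplicit false
set_option linter.style.haveILetI false

open ModularCurve AlgebraicCurve IntermediateField Polynomial

namespace Fermat.Agent.S36

open Fermat.Agent.S18 Fermat.Agent.S28 Fermat.Agent.S34 Fermat.Agent.S35

local notation "Q̄" => AlgebraicClosure ℚ

section KB13

variable {R K : Type} [CommRing R] [IsDomain R] [IsDiscreteValuationRing R] [Field K]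
  [NumberField K] [Algebra K Q̄] [Algebra R K] [IsFractionRing R K]
  (M' q : ℕ) [NeZero M'] [NeZero q] (hq : q.Prime) (hM' : ¬ q ∣ M')
  [Algebra R ↥(modularFunctionFieldFullC K (M' * q))]
  [IsScalarTower R K ↥(modularFunctionFieldFullC K (M' * q))] {π : R} (hπ : Irreducible π)

set_option maxHeartbeats 1600000 in
/-- **The labelled regular node on the canonical level-`q` frame** from the rigidity inputs. -/
theorem kb13_node (B : Subalgebra R ↥(modularFunctionFieldFullC K (M' * q)))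
    [IsNoetherianRing B]
    (hBW : ∀ x ∈ B, x ∈ s34i47c_W (K := K) M' q hq hM' hπ)
    (hsatB : ∀ x ∈ B, (algebraMap R ↥(modularFunctionFieldFullC K (M' * q)) π)⁻¹ * x ∈
      s34i47c_W (K := K) M' q hq hM' hπ →
      (algebraMap R ↥(modularFunctionFieldFullC K (M' * q)) π)⁻¹ * x ∈ B)
    (hKrull : s34i47_Krull π B)
    (hS₁ : sf79_Smooth π B (cm85_Vinf (K := K) (M' * q) hπ).toSubring)
    (hS₂ : sf79_Smooth π B (s34i47c_V0 (K := K) M' q hq hM' hπ).toSubring)
    (hT : sf79_Transv π B (cm85_Vinf (K := K) (M' * q) hπ).toSubring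
      (s34i47c_V0 (K := K) M' q hq hM' hπ).toSubring)
    (hBint : ∀ z : ↥(modularFunctionFieldFullC K (M' * q)), IsIntegral B z → z ∈ B)
    (hqπ : Associated ((q : ℕ) : R) π)
    (n : Ideal B) (hn : n.IsMaximal) (hπn : algebraMap R B π ∈ n)
    (h1 : sf79_OnBr π B (cm85_Vinf (K := K) (M' * q) hπ).toSubring n)
    (h2 : sf79_OnBr π B (s34i47c_V0 (K := K) M' q hq hM' hπ).toSubring n)
    (hj : ∃ s : B, s ∉ n ∧
      (s : ↥(modularFunctionFieldFullC K (M' * q))) * rm90_j K (M' * q) ∈ B)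
    (hR3 : haveI := hn.isPrime
      (rm90_j K (M' * q))⁻¹ ∉ sf79_loc B n →
      ∃ c u : ↥(modularFunctionFieldFullC K (M' * q)), c ∈ sf79_loc B n ∧ u ∈ sf79_loc B n ∧
        u⁻¹ ∈ sf79_loc B n ∧ rm90_j K (M' * q) = u * c ^ 3)
    (hR2 : haveI := hn.isPrime
      (rm90_j K (M' * q) - 1728)⁻¹ ∉ sf79_loc B n →
      ∃ c u : ↥(modularFunctionFieldFullC K (M' * q)), c ∈ sf79_loc B n ∧ u ∈ sf79_loc B n ∧
        u⁻¹ ∈ sf79_loc B n ∧ rm90_j K (M' * q) - 1728 = u * c ^ 2)
    (hR4 : haveI := hn.isPrime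
      q = 2 → (rm90_j K (M' * q))⁻¹ ∉ sf79_loc B n →
      ∃ c u : ↥(modularFunctionFieldFullC K (M' * q)), c ∈ sf79_loc B n ∧ u ∈ sf79_loc B n ∧
        u⁻¹ ∈ sf79_loc B n ∧
        (algebraMap R ↥(modularFunctionFieldFullC K (M' * q)) π)⁻¹ *
          (rm90_j K (M' * q) - u * c ^ 4) ∈ cm85_Vinf (K := K) (M' * q) hπ) :
    ∃ z z' s s' : B, s ∉ n ∧ s' ∉ n ∧
      (algebraMap R ↥(modularFunctionFieldFullC K (M' * q)) π)⁻¹ *
        (z : ↥(modularFunctionFieldFullC K (M' * q))) ∈ cm85_Vinf (K := K) (M' * q) hπ ∧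
      (algebraMap R ↥(modularFunctionFieldFullC K (M' * q)) π)⁻¹ *
        (z' : ↥(modularFunctionFieldFullC K (M' * q))) ∈ s34i47c_V0 (K := K) M' q hq hM' hπ ∧
      s * z * z' = algebraMap R B π * s' := by
  classical
  haveI hnp : n.IsPrime := hn.isPrime
  haveI := hn
  -- the frame block (as in `nf79c_aux`)
  have hπ₁ : (algebraMap R ↥(modularFunctionFieldFullC K (M' * q)) π)⁻¹ ∉
      (cm85_Vinf (K := K) (M' * q) hπ).toSubring := al97C_pi_inv_not_mem_Vinf M' q hπ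
  have hπ₂ : (algebraMap R ↥(modularFunctionFieldFullC K (M' * q)) π)⁻¹ ∉
      (s34i47c_V0 (K := K) M' q hq hM' hπ).toSubring := al97C_pi_inv_not_mem_V0 M' q hq hM' hπ
  have hconv : algebraMap R ↥(modularFunctionFieldFullC K (M' * q)) π =
      algebraMap K ↥(modularFunctionFieldFullC K (M' * q)) (algebraMap R K π) :=
    IsScalarTower.algebraMap_apply R K ↥(modularFunctionFieldFullC K (M' * q)) π
  have hV₁ : ∀ x ∈ (cm85_Vinf (K := K) (M' * q) hπ).toSubring,
      (algebraMap R ↥(modularFunctionFieldFullC K (M' * q)) π)⁻¹ * x ∉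
        (cm85_Vinf (K := K) (M' * q) hπ).toSubring →
      x⁻¹ ∈ (cm85_Vinf (K := K) (M' * q) hπ).toSubring := by
    intro x hx hx'
    by_contra hcon
    apply hx'
    rw [hconv]
    exact gv85_hmax (IsLocalRing.residue R) π (pk85_res_iff hπ) hπ.ne_zero _ _ x hx hcon
  have hV₂ : ∀ x ∈ (s34i47c_V0 (K := K) M' q hq hM' hπ).toSubring,
      (algebraMap R ↥(modularFunctionFieldFullC K (M' * q)) π)⁻¹ * x ∉
        (s34i47c_V0 (K := K) M' q hq hM' hπ).toSubring →
      x⁻¹ ∈ (s34i47c_V0 (K := K) M' q hq hM' hπ).toSubring := by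
    intro x hx hx'
    by_contra hcon
    exact hx' (al97C_hmax_V0 M' q hq hM' hπ x hx hcon)
  have hmemW : ∀ x : ↥(modularFunctionFieldFullC K (M' * q)),
      x ∈ s34i47c_W (K := K) M' q hq hM' hπ →
      x ∈ (cm85_Vinf (K := K) (M' * q) hπ).toSubring ∧
        x ∈ (s34i47c_V0 (K := K) M' q hq hM' hπ).toSubring := by
    intro x hx
    obtain ⟨h1, h2⟩ := (s34i47c_mem_W M' q hq hM' hπ x).mp hx
    exact ⟨h1, (s34i47c_mem_V0 M' q hq hM' hπ x).mpr h2⟩
  have hWmem : ∀ x : ↥(modularFunctionFieldFullC K (M' * q)),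
      x ∈ (cm85_Vinf (K := K) (M' * q) hπ).toSubring →
      x ∈ (s34i47c_V0 (K := K) M' q hq hM' hπ).toSubring →
      x ∈ s34i47c_W (K := K) M' q hq hM' hπ := by
    intro x h1 h2
    exact (s34i47c_mem_W M' q hq hM' hπ x).mpr ⟨h1, (s34i47c_mem_V0 M' q hq hM' hπ x).mp h2⟩
  have hB₁ : ∀ x ∈ B, x ∈ (cm85_Vinf (K := K) (M' * q) hπ).toSubring :=
    fun x hx => (hmemW x (hBW x hx)).1
  have hB₂ : ∀ x ∈ B, x ∈ (s34i47c_V0 (K := K) M' q hq hM' hπ).toSubring :=
    fun x hx => (hmemW x (hBW x hx)).2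
  have hsat : ∀ x ∈ B, (algebraMap R ↥(modularFunctionFieldFullC K (M' * q)) π)⁻¹ * x ∈
      (cm85_Vinf (K := K) (M' * q) hπ).toSubring →
      (algebraMap R ↥(modularFunctionFieldFullC K (M' * q)) π)⁻¹ * x ∈
        (s34i47c_V0 (K := K) M' q hq hM' hπ).toSubring →
      (algebraMap R ↥(modularFunctionFieldFullC K (M' * q)) π)⁻¹ * x ∈ B :=
    fun x hx h1 h2 => hsatB x hx (hWmem _ h1 h2)
  have hp0 : algebraMap R ↥(modularFunctionFieldFullC K (M' * q)) π ≠ 0 := fun h0 =>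
    hπ₁ (by rw [h0, inv_zero]; exact Subring.zero_mem _)
  -- coordinates and transversality at `n`
  obtain ⟨z₀, hz₀⟩ := hS₁ n hn hπn h1
  obtain ⟨y₀, hy₀⟩ := hS₂ n hn hπn h2
  have hTn := hT n hn hπn h1 h2
  -- `J`, `U`, `V` lie in `B_n`
  obtain ⟨s₀, hs₀, hs₀j⟩ := hj
  have hJA : rm90_j K (M' * q) ∈ sf79_loc B n := ⟨s₀, hs₀, hs₀j⟩
  have hs₀k : ∀ k : ℕ, s₀ ^ k ∉ n := fun k hk => hs₀ (hnp.mem_of_pow_mem k hk)
  obtain ⟨k, hk⟩ := uv17_clear B hBint (rm90_j K (M' * q)) (dq56b_U (K := K) M' q hq)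
    (dq56b_U_integral M' q hq) (s₀ : ↥(modularFunctionFieldFullC K (M' * q))) s₀.2 hs₀j
  obtain ⟨l, hl⟩ := uv17_clear B hBint (rm90_j K (M' * q)) (dq56b_V (K := K) M' q hq hM')
    (dq56b_V_integral M' q hq hM') (s₀ : ↥(modularFunctionFieldFullC K (M' * q))) s₀.2 hs₀j
  have hUA : dq56b_U (K := K) M' q hq ∈ sf79_loc B n :=
    ⟨s₀ ^ k, hs₀k k, by push_cast; exact hk⟩
  have hVA : dq56b_V (K := K) M' q hq hM' ∈ sf79_loc B n :=
    ⟨s₀ ^ l, hs₀k l, by push_cast; exact hl⟩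
  -- `U V = π ^ 12 * ε`
  obtain ⟨u, hu⟩ := hqπ
  have hqR : ¬ IsUnit ((q : ℕ) : R) := by
    intro h
    apply hπ.not_isUnit
    rw [← hu]
    exact h.mul u.isUnit
  have hqe : ((q : ℕ) : R) ^ 12 = π ^ 12 * (((u⁻¹ : Rˣ) ^ 12 : Rˣ) : R) := by
    have h1 : ((q : ℕ) : R) = π * ((u⁻¹ : Rˣ) : R) := by
      rw [← hu, mul_assoc, Units.mul_inv, mul_one]
    rw [h1, mul_pow, Units.val_pow_eq_pow_val]
  have hUV : dq56b_U (K := K) M' q hq * dq56b_V (K := K) M' q hq hM' =
      algebraMap R ↥(modularFunctionFieldFullC K (M' * q))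
        (π ^ 12 * (((u⁻¹ : Rˣ) ^ 12 : Rˣ) : R)) := by
    rw [dq56b_mul, ← hqe, map_pow, map_natCast]
  -- the maximal ideal of `R` lies in `π V_∞`
  have hmax : ∀ r ∈ IsLocalRing.maximalIdeal R,
      (algebraMap R ↥(modularFunctionFieldFullC K (M' * q)) π)⁻¹ *
        algebraMap R ↥(modularFunctionFieldFullC K (M' * q)) r ∈
        (cm85_Vinf (K := K) (M' * q) hπ).toSubring := by
    intro r hr
    rw [hπ.maximalIdeal_eq, Ideal.mem_span_singleton] at hr
    obtain ⟨b, rfl⟩ := hr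
    rw [map_mul, ← mul_assoc, inv_mul_cancel₀ hp0, one_mul]
    exact hB₁ _ (B.algebraMap_mem b)
  -- the reduction map
  let red : (cm85_Vinf (K := K) (M' * q) hπ).toSubring →+*
      LaurentSeries (IsLocalRing.ResidueField R) :=
    { toFun := fun x => ntf35_red R (M' * q) x.1
      map_one' := ntf35_red_one (M' * q)
      map_mul' := fun x y => ntf35_red_mul (M' * q) hπ x.1 y.1 x.2 y.2
      map_zero' := ntf35_red_zero (M' * q)
      map_add' := fun x y => ntf35_red_add (M' * q) hπ x.1 y.1 x.2 y.2 }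
  have hred : ∀ x : (cm85_Vinf (K := K) (M' * q) hπ).toSubring, red x = 0 ↔
      (algebraMap R ↥(modularFunctionFieldFullC K (M' * q)) π)⁻¹ *
        (x : ↥(modularFunctionFieldFullC K (M' * q))) ∈
        (cm85_Vinf (K := K) (M' * q) hπ).toSubring := by
    intro x
    rw [hconv]
    exact ntf35_red_eq_zero_iff (M' * q) hπ x.1 x.2
  have hcL : ∀ r : R, red ⟨algebraMap R ↥(modularFunctionFieldFullC K (M' * q)) r,
      hB₁ _ (B.algebraMap_mem r)⟩ =
      algebraMap (IsLocalRing.ResidueField R) (LaurentSeries (IsLocalRing.ResidueField R))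
        (IsLocalRing.residue R r) := by
    intro r
    show ntf35_red R (M' * q) (algebraMap R ↥(modularFunctionFieldFullC K (M' * q)) r) = _
    rw [IsScalarTower.algebraMap_apply R K ↥(modularFunctionFieldFullC K (M' * q)) r,
      ntf35_red_algebraMap, algebraMap_laurentSeries_eq_single]
    rfl
  haveI : CharP (IsLocalRing.ResidueField R) q := alv73_charP hq hqR
  -- the reductions of `U` and `J`
  have hUL : ∀ h : dq56b_U (K := K) M' q hq ∈ (cm85_Vinf (K := K) (M' * q) hπ).toSubring,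
      red ⟨dq56b_U (K := K) M' q hq, h⟩ = dq56_U (IsLocalRing.ResidueField R) q := by
    intro h
    show ntf35_redS R ((dq56b_U (K := K) M' q hq : ↥(modularFunctionFieldFullC K (M' * q))) :
      LaurentSeries K) = _
    have hmem : ((dq56b_U (K := K) M' q hq : ↥(modularFunctionFieldFullC K (M' * q))) :
        LaurentSeries K) ∈ tv84_G K (IsLocalRing.residue R) := h
    rw [ntf35_redS_of_mem hmem,
      tv84_red_of_integral (IsLocalRing.residue R) _ (dq56_U R q)
        (dq56b_U_coe M' q hq (algebraMap R K)), dq56_coeffMap_U]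
  have hjL : ∀ h : rm90_j K (M' * q) ∈ (cm85_Vinf (K := K) (M' * q) hπ).toSubring,
      red ⟨rm90_j K (M' * q), h⟩ = jqModC (IsLocalRing.ResidueField R) := by
    intro h
    show ntf35_redS R ((rm90_j K (M' * q) : ↥(modularFunctionFieldFullC K (M' * q))) :
      LaurentSeries K) = _
    have hmem : (jqModC K : LaurentSeries K) ∈ tv84_G K (IsLocalRing.residue R) := h
    show ntf35_redS R (jqModC K) = _
    rw [ntf35_redS_of_mem hmem, tv84_red_J]
  -- the mod-`q` identity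
  obtain ⟨P₀, S₀, a, b, c', d, hab, hcd, hident⟩ :=
    km56_reduced (IsLocalRing.ResidueField R) q hq
  have hrel := km56_U_rel (IsLocalRing.ResidueField R) q hq _ _ hident
  have htr : ∀ p : (IsLocalRing.ResidueField R)[X], p ≠ 0 →
      eval₂ (algebraMap (IsLocalRing.ResidueField R)
        (LaurentSeries (IsLocalRing.ResidueField R)))
        (jqModC (IsLocalRing.ResidueField R)) p ≠ 0 := by
    intro p hp h
    exact h63_transcendental_jqModC (IsLocalRing.ResidueField R) ⟨p, hp, by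
      rw [aeval_def]; exact h⟩
  exact kc13_core π B (cm85_Vinf (K := K) (M' * q) hπ).toSubring
    (s34i47c_V0 (K := K) M' q hq hM' hπ).toSubring hB₁ hB₂ hπ₁ hπ₂ hV₁ hV₂ hsat n h1 h2
    (nf79_H π B n) (nf79_hAH π B n) (nf79_hqH π B n)
    (nf79_hKr π B (cm85_Vinf (K := K) (M' * q) hπ) (s34i47c_V0 (K := K) M' q hq hM' hπ)
      hB₁ hB₂ hπ₁ hsat hKrull n hn hπn)
    z₀ y₀ hz₀ hy₀ hTn (dq56b_U (K := K) M' q hq) (dq56b_V (K := K) M' q hq hM') hUA hVA
    (((u⁻¹ : Rˣ) ^ 12 : Rˣ) : R) (Units.isUnit _) hUV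
    (dq56b_Uinv_mem_Vinf M' q hq hπ) (dq56b_Vinv_mem_V0 M' q hq hM' hπ) hmax red hred
    (algebraMap (IsLocalRing.ResidueField R) (LaurentSeries (IsLocalRing.ResidueField R)))
    hcL q hq (rm90_j K (M' * q)) hJA (dq56_U (IsLocalRing.ResidueField R) q)
    (jqModC (IsLocalRing.ResidueField R)) hUL hjL P₀ S₀ a b c' d hab hcd
    (by rw [← aeval_def, ← aeval_def]; exact hrel) htr hR3 hR2 hR4

end KB13

end Fermat.Agent.S36
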