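import Mathlib
import Fermat.Agent.S34.FrameTransv49
import Fermat.Agent.S34.UVAtFrame22
import Fermat.Agent.S36.KappaBind13

/-!
# S36 lab, row 599 C-REGq (helper13): the labelled regular nodes of the canonical charts

Canonical level-`q` frame (`V_∞ = cm85_Vinf (M' * q) hπ`, `V_0 = s34i47c_V0 M' q hq hM' hπ`,
`h` an admissible Hauptmodul, charts `pk15_chart R {h}` and `pk15_chart R {h⁻¹}`), base `R`
unramified at `q`.

* `kb13c_Rig hπ B n hnp` : the rigidity inputs **(R)** at the point `n` of the chart `B`: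
  `J = u c ^ 3` (resp. `J - 1728 = u d ^ 2`) with `c, u, u⁻¹ ∈ B_n` whenever `J` (resp.
  `J - 1728`) is not a unit of `B_n`, and for `q = 2`: `J ≡ u d ^ 4 mod π V_∞`.
* `kb13c_chart` : chart facts + `J` regular at the nodes ⟹ at every closed point `n` of both
  branches with `kb13c_Rig`: the labelled regular node (`hnode` of `tl71_reg_of_nodes`).
* `kb13c_hnode` : **both canonical charts**, no chart hypothesis left:
  `∀ n maximal on both branches, kb13c_Rig … n → ∃ z z' s s', s ∉ n ∧ s' ∉ n ∧ π⁻¹ z ∈ V_∞ ∧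
  π⁻¹ z' ∈ V_0 ∧ s * z * z' = π * s'`.

So (REG-q) at a rigid level is reduced to `kb13c_Rig` at the nodes = the local rigidity root
`rr68_root` / `rp28_unit_pow` / `rc43` transported along `α`, and the level-3 Hauptmodul relation
for `q = 2` (`ed49` / `ht49`).

All names are prefixed `kb13c_`.
-/

set_option autoImplicit false
set_option linter.style.haveILetI false

open ModularCurve AlgebraicCurve IntermediateField

namespace Fermat.Agent.S36

open Fermat.Agent.S18 Fermat.Agent.S24 Fermat.Agent.S34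

local notation "Q̄" => AlgebraicClosure ℚ

section KB13C

variable {R K : Type} [CommRing R] [IsDomain R] [IsDiscreteValuationRing R] [Field K]
  [NumberField K] [Algebra K Q̄] [Algebra R K] [IsFractionRing R K]
  (M' q : ℕ) [NeZero M'] [NeZero q] (hq : q.Prime) (hM' : ¬ q ∣ M')
  [Algebra R ↥(modularFunctionFieldFullC K (M' * q))]
  [IsScalarTower R K ↥(modularFunctionFieldFullC K (M' * q))] {π : R} (hπ : Irreducible π)

/-- **The rigidity inputs (R)** at the point `n` of the chart `B`. -/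
def kb13c_Rig (B : Subalgebra R ↥(modularFunctionFieldFullC K (M' * q))) (n : Ideal B)
    (hnp : n.IsPrime) : Prop :=
  haveI := hnp
  ((rm90_j K (M' * q))⁻¹ ∉ sf79_loc B n →
    ∃ c u : ↥(modularFunctionFieldFullC K (M' * q)), c ∈ sf79_loc B n ∧ u ∈ sf79_loc B n ∧
      u⁻¹ ∈ sf79_loc B n ∧ rm90_j K (M' * q) = u * c ^ 3) ∧
  ((rm90_j K (M' * q) - 1728)⁻¹ ∉ sf79_loc B n →
    ∃ c u : ↥(modularFunctionFieldFullC K (M' * q)), c ∈ sf79_loc B n ∧ u ∈ sf79_loc B n ∧
      u⁻¹ ∈ sf79_loc B n ∧ rm90_j K (M' * q) - 1728 = u * c ^ 2) ∧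
  (q = 2 → (rm90_j K (M' * q))⁻¹ ∉ sf79_loc B n →
    ∃ c u : ↥(modularFunctionFieldFullC K (M' * q)), c ∈ sf79_loc B n ∧ u ∈ sf79_loc B n ∧
      u⁻¹ ∈ sf79_loc B n ∧
      (algebraMap R ↥(modularFunctionFieldFullC K (M' * q)) π)⁻¹ *
        (rm90_j K (M' * q) - u * c ^ 4) ∈ cm85_Vinf (K := K) (M' * q) hπ)

/-- **The labelled regular nodes of a chart** of the canonical frame. -/
theorem kb13c_chart (hqπ : Associated ((q : ℕ) : R) π)
    (s : Set ↥(modularFunctionFieldFullC K (M' * q))) [IsNoetherianRing (pk15_chart R s)]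
    (hBW : ∀ x ∈ pk15_chart R s, x ∈ s34i47c_W (K := K) M' q hq hM' hπ)
    (hsatB : ∀ x ∈ pk15_chart R s,
      (algebraMap R ↥(modularFunctionFieldFullC K (M' * q)) π)⁻¹ * x ∈
        s34i47c_W (K := K) M' q hq hM' hπ →
      (algebraMap R ↥(modularFunctionFieldFullC K (M' * q)) π)⁻¹ * x ∈ pk15_chart R s)
    (hKrull : s34i47_Krull π (pk15_chart R s))
    (hS₁ : sf79_Smooth π (pk15_chart R s) (cm85_Vinf (K := K) (M' * q) hπ).toSubring)
    (hS₂ : sf79_Smooth π (pk15_chart R s) (s34i47c_V0 (K := K) M' q hq hM' hπ).toSubring)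
    (hT : sf79_Transv π (pk15_chart R s) (cm85_Vinf (K := K) (M' * q) hπ).toSubring
      (s34i47c_V0 (K := K) M' q hq hM' hπ).toSubring)
    (hj : ∀ n : Ideal ↥(pk15_chart R s), n.IsPrime →
      sf79_OnBr π (pk15_chart R s) (cm85_Vinf (K := K) (M' * q) hπ).toSubring n →
      sf79_OnBr π (pk15_chart R s) (s34i47c_V0 (K := K) M' q hq hM' hπ).toSubring n →
      ∃ a b : ↥(pk15_chart R s), a ∉ n ∧
        (a : ↥(modularFunctionFieldFullC K (M' * q))) * rm90_j K (M' * q) =
          (b : ↥(modularFunctionFieldFullC K (M' * q)))) :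
    ∀ n : Ideal ↥(pk15_chart R s), ∀ hn : n.IsMaximal,
      sf79_OnBr π (pk15_chart R s) (cm85_Vinf (K := K) (M' * q) hπ).toSubring n →
      sf79_OnBr π (pk15_chart R s) (s34i47c_V0 (K := K) M' q hq hM' hπ).toSubring n →
      kb13c_Rig M' q hπ (pk15_chart R s) n hn.isPrime →
      ∃ z z' t t' : ↥(pk15_chart R s), t ∉ n ∧ t' ∉ n ∧
        (algebraMap R ↥(modularFunctionFieldFullC K (M' * q)) π)⁻¹ *
          (z : ↥(modularFunctionFieldFullC K (M' * q))) ∈ cm85_Vinf (K := K) (M' * q) hπ ∧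
        (algebraMap R ↥(modularFunctionFieldFullC K (M' * q)) π)⁻¹ *
          (z' : ↥(modularFunctionFieldFullC K (M' * q))) ∈
            s34i47c_V0 (K := K) M' q hq hM' hπ ∧
        t * z * z' = algebraMap R ↥(pk15_chart R s) π * t' := by
  intro n hn h1 h2 hRig
  have hπ₁ : (algebraMap R ↥(modularFunctionFieldFullC K (M' * q)) π)⁻¹ ∉
      (cm85_Vinf (K := K) (M' * q) hπ).toSubring := al97C_pi_inv_not_mem_Vinf M' q hπ
  have hp0 : algebraMap R ↥(modularFunctionFieldFullC K (M' * q)) π ≠ 0 := fun h0 =>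
    hπ₁ (by rw [h0, inv_zero]; exact Subring.zero_mem _)
  have hπn : algebraMap R ↥(pk15_chart R s) π ∈ n := by
    apply h1
    show (algebraMap R ↥(modularFunctionFieldFullC K (M' * q)) π)⁻¹ *
      algebraMap R ↥(modularFunctionFieldFullC K (M' * q)) π ∈ _
    rw [inv_mul_cancel₀ hp0]
    exact Subring.one_mem _
  obtain ⟨a, b, ha, hab⟩ := hj n hn.isPrime h1 h2
  exact kb13_node M' q hq hM' hπ (pk15_chart R s) hBW hsatB hKrull hS₁ hS₂ hT
    (uv17_chart_intClosed s) hqπ n hn hπn h1 h2 ⟨a, ha, by rw [hab]; exact b.2⟩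
    hRig.1 hRig.2.1 hRig.2.2

include hq hM' in
/-- **The labelled regular nodes of both canonical charts** from the rigidity inputs. -/
theorem kb13c_hnode (hunit : ∀ n : ℕ, Nat.Coprime n q → IsUnit (n : R))
    (hqπ : Associated ((q : ℕ) : R) π) (h : ↥(modularFunctionFieldFullC K (M' * q)))
    (hh : s34i47c_IsHaupt K (M' * q) q h) :
    (∀ n : Ideal ↥(pk15_chart R ({h} : Set ↥(modularFunctionFieldFullC K (M' * q)))),
      ∀ hn : n.IsMaximal,
      sf79_OnBr π (pk15_chart R ({h} : Set ↥(modularFunctionFieldFullC K (M' * q))))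
        (cm85_Vinf (K := K) (M' * q) hπ).toSubring n →
      sf79_OnBr π (pk15_chart R ({h} : Set ↥(modularFunctionFieldFullC K (M' * q))))
        (s34i47c_V0 (K := K) M' q hq hM' hπ).toSubring n →
      kb13c_Rig M' q hπ (pk15_chart R ({h} : Set ↥(modularFunctionFieldFullC K (M' * q)))) n
        hn.isPrime →
      ∃ z z' t t' : ↥(pk15_chart R ({h} : Set ↥(modularFunctionFieldFullC K (M' * q)))),
        t ∉ n ∧ t' ∉ n ∧
        (algebraMap R ↥(modularFunctionFieldFullC K (M' * q)) π)⁻¹ *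
          (z : ↥(modularFunctionFieldFullC K (M' * q))) ∈ cm85_Vinf (K := K) (M' * q) hπ ∧
        (algebraMap R ↥(modularFunctionFieldFullC K (M' * q)) π)⁻¹ *
          (z' : ↥(modularFunctionFieldFullC K (M' * q))) ∈
            s34i47c_V0 (K := K) M' q hq hM' hπ ∧
        t * z * z' = algebraMap R _ π * t') ∧
    (∀ n : Ideal ↥(pk15_chart R ({h⁻¹} : Set ↥(modularFunctionFieldFullC K (M' * q)))),
      ∀ hn : n.IsMaximal,
      sf79_OnBr π (pk15_chart R ({h⁻¹} : Set ↥(modularFunctionFieldFullC K (M' * q))))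
        (cm85_Vinf (K := K) (M' * q) hπ).toSubring n →
      sf79_OnBr π (pk15_chart R ({h⁻¹} : Set ↥(modularFunctionFieldFullC K (M' * q))))
        (s34i47c_V0 (K := K) M' q hq hM' hπ).toSubring n →
      kb13c_Rig M' q hπ (pk15_chart R ({h⁻¹} : Set ↥(modularFunctionFieldFullC K (M' * q)))) n
        hn.isPrime →
      ∃ z z' t t' : ↥(pk15_chart R ({h⁻¹} : Set ↥(modularFunctionFieldFullC K (M' * q)))),
        t ∉ n ∧ t' ∉ n ∧
        (algebraMap R ↥(modularFunctionFieldFullC K (M' * q)) π)⁻¹ *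
          (z : ↥(modularFunctionFieldFullC K (M' * q))) ∈ cm85_Vinf (K := K) (M' * q) hπ ∧
        (algebraMap R ↥(modularFunctionFieldFullC K (M' * q)) π)⁻¹ *
          (z' : ↥(modularFunctionFieldFullC K (M' * q))) ∈
            s34i47c_V0 (K := K) M' q hq hM' hπ ∧
        t * z * z' = algebraMap R _ π * t') := by
  have hqR : ¬ IsUnit ((q : ℕ) : R) := by
    obtain ⟨u, hu⟩ := hqπ
    intro hcon
    apply hπ.not_isUnit
    rw [← hu]
    exact hcon.mul u.isUnit
  obtain ⟨-, hC⟩ := fs85_frameSat M' q hq hM' R K π hπ hunit hqR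
  obtain ⟨-, -, -, -, -, hN1, hN2, -, -⟩ := hC h hh
  obtain ⟨⟨hBW1, hsat1, hK1, -, hSi1⟩, ⟨hBW2, hsat2, hK2, -, hSi2⟩⟩ :=
    nf79c_chart_facts M' q hq hM' hπ hunit hqR h hh
  obtain ⟨hSz1, hSz2⟩ := sf79f_smooth_zero M' q hq hM' hπ hunit hqR h hh
  obtain ⟨hT1, hT2⟩ := ft49_pkg_frameTransv M' q hq hM' R K π hπ hunit hqR h hh
  haveI := hN1
  haveI := hN2
  rcases hh with ⟨hq2, h2, rfl⟩ | ⟨hq3, h3, rfl⟩
  · have hcop : Nat.Coprime 2 q := (Nat.coprime_primes Nat.prime_two hq).mpr (Ne.symm hq2)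
    have h2' : 2 ∣ M' := hcop.dvd_of_dvd_mul_right h2
    have h2u : IsUnit (2 : R) := by
      have := hunit 2 hcop
      rwa [Nat.cast_ofNat] at this
    exact ⟨kb13c_chart M' q hq hM' hπ hqπ _ hBW1 hsat1 hK1 hSi1 hSz1 hT1
        (fun n hn h1 h2 =>
          haveI := hn
          cf22_level2 (algebraMap K Q̄) M' q hq hM' hπ hqR h2' h2u n h1 h2),
      kb13c_chart M' q hq hM' hπ hqπ _ hBW2 hsat2 hK2 hSi2 hSz2 hT2
        (fun n hn h1 h2 =>
          haveI := hn
          cf22_level2_inv (algebraMap K Q̄) M' q hq hM' hπ hqR h2' n h1 h2)⟩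
  · have hcop : Nat.Coprime 3 q := (Nat.coprime_primes Nat.prime_three hq).mpr (Ne.symm hq3)
    have h3' : 3 ∣ M' := hcop.dvd_of_dvd_mul_right h3
    have h3u : IsUnit (3 : R) := by
      have := hunit 3 hcop
      rwa [Nat.cast_ofNat] at this
    exact ⟨kb13c_chart M' q hq hM' hπ hqπ _ hBW1 hsat1 hK1 hSi1 hSz1 hT1
        (fun n hn h1 h2 =>
          haveI := hn
          cf22_level3 (algebraMap K Q̄) M' q hq hM' hπ hqR h3' h3u n h1 h2),
      kb13c_chart M' q hq hM' hπ hqπ _ hBW2 hsat2 hK2 hSi2 hSz2 hT2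
        (fun n hn h1 h2 =>
          haveI := hn
          cf22_level3_inv (algebraMap K Q̄) M' q hq hM' hπ hqR h3' n h1 h2)⟩

end KB13C

end Fermat.Agent.S36
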