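import Mathlib

/-!
# S36 lab, row 599 C-REGq, complement (helper40): `kappa = 1` at the nodes over `j = 0, 1728`
of a rigid level, abstract last step (Mathlib only)

`O` is the discrete valuation ring `B_n / p_∞` of the branch `C_∞` at a node `n` of the level
`q M''` chart, `φ : k[X] → O` is `X ↦ j̄` (`k` the prime field), `j0 ∈ k` the value of `j̄` at `n`.

* `U0` is the residue of `U = Δ(Q)/Δ(Q^q)`; the local structure `z z' = π ^ κ · unit` of the node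
  and `div U = 12 C_0` give `U0 ^ κ = unit · ϖ ^ 12`.
* `T^6 · J_q^4 (J_q - 1728)^3 = U · J^4 (J - 1728)^3` and `T̄ · N(j̄) = - S(j̄)^2`
  (`G = P / S` ANY representation, `N = P' S - P S' + X^(q-1) S^2`) give, modulo `p_∞`,
  `U0 · N(j̄)^6 = S(j̄)^12 · W(j̄)^(q-1)`, `W = X^4 (X - 1728)^3`.
* rigidity of the level gives `ϖ ^ e0 ∣ j̄ - j0` (`e0 = 2` over `1728`, `3` over `0`, `6` in
  characteristic `3`, `12` in characteristic `2`).

Conclusion: `κ = 1`.  No coprimality or separability of `S` is needed at these points: the order of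
every polynomial in `j̄` is a multiple of `e = ord (j̄ - j0)`, so `κ · e · c = 12` with
`c = 12 σ - 6 ν + (q - 1) w`, and a congruence modulo `6` bounds `c` from below.

All names are prefixed `k1e40_`.
-/

set_option autoImplicit false

namespace Fermat.Agent.S36

open Polynomial IsDiscreteValuationRing

/-- Arithmetic core: `κ t = 12`, `t = e c`, `12 ≤ e c` force `κ = 1`. -/
theorem k1e40_arith (κ t e cc : ℕ) (hκt : κ * t = 12) (ht : t = e * cc) (hec : 12 ≤ e * cc) :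
    κ = 1 := by
  have h1 : 12 ≤ t := ht ▸ hec
  have hκ0 : κ ≠ 0 := by
    rintro rfl
    simp at hκt
  by_contra h
  have h2 : 2 ≤ κ := by omega
  have h3 : 24 ≤ κ * t := by nlinarith
  omega

/-- The value of a nonzero polynomial at `j̄` is a unit times a power of `j̄ - j0`. -/
theorem k1e40_eval_shape {O k : Type*} [CommRing O] [IsLocalRing O] [Field k]
    (φ : k[X] →+* O) (j0 : k) (ha : ¬ IsUnit (φ (X - C j0))) (f : k[X]) (hf : f ≠ 0) :
    ∃ (μ : ℕ) (g : O), IsUnit g ∧ φ f = g * φ (X - C j0) ^ μ := by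
  obtain ⟨g₁, hfg, hnd⟩ := exists_eq_pow_rootMultiplicity_mul_and_not_dvd f hf j0
  refine ⟨rootMultiplicity j0 f, φ g₁, ?_, ?_⟩
  · have hev : g₁.eval j0 ≠ 0 := fun h => hnd (dvd_iff_isRoot.mpr h)
    obtain ⟨h, hh⟩ := X_sub_C_dvd_sub_C_eval (a := j0) (p := g₁)
    have hCu : IsUnit (φ (C (g₁.eval j0))) := (isUnit_C.mpr (IsUnit.mk0 _ hev)).map φ
    have hg : φ g₁ = φ (C (g₁.eval j0)) + φ (X - C j0) * φ h := by
      rw [← map_mul, ← map_add, ← hh]
      congr 1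
      ring
    by_contra hnu
    have h1 : φ g₁ ∈ IsLocalRing.maximalIdeal O := (IsLocalRing.mem_maximalIdeal _).mpr hnu
    have h2 : φ (X - C j0) * φ h ∈ IsLocalRing.maximalIdeal O :=
      Ideal.mul_mem_right _ _ ((IsLocalRing.mem_maximalIdeal _).mpr ha)
    have h3 : φ (C (g₁.eval j0)) ∈ IsLocalRing.maximalIdeal O := by
      have : φ (C (g₁.eval j0)) = φ g₁ - φ (X - C j0) * φ h := by rw [hg]; ring
      rw [this]
      exact Ideal.sub_mem _ h1 h2
    exact (IsLocalRing.mem_maximalIdeal _).mp h3 hCu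
  · rw [← map_pow, ← map_mul, mul_comm, ← hfg]

/-- A nonzero element of a discrete valuation ring has a finite order. -/
theorem k1e40_exists_addVal {O : Type*} [CommRing O] [IsDomain O] [IsDiscreteValuationRing O]
    (x : O) (hx : x ≠ 0) : ∃ n : ℕ, addVal O x = (n : ℕ∞) := by
  obtain ⟨n, hn⟩ := ENat.ne_top_iff_exists.mp (fun h => hx (addVal_eq_top_iff.mp h))
  exact ⟨n, hn.symm⟩

/-- **Abstract last step of `kappa = 1` at a node over a special value `j0`.**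
`harith` is the congruence input: every positive `c = 12 σ - 6 ν + (q - 1) w` satisfies
`12 ≤ e0 * c`. -/
theorem k1e40_main {O k : Type*} [CommRing O] [IsDomain O] [IsDiscreteValuationRing O] [Field k]
    (φ : k[X] →+* O) (j0 : k) (q κ e0 w : ℕ) (ϖ : O) (hϖ : Irreducible ϖ)
    (U0 u : O) (hu : IsUnit u) (hU : U0 ^ κ = u * ϖ ^ 12)
    (S N W : k[X]) (hS : φ S ≠ 0)
    (hW : ∃ g : O, IsUnit g ∧ φ W = g * φ (X - C j0) ^ w)
    (hrel : U0 * φ N ^ 6 = φ S ^ 12 * φ W ^ (q - 1))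
    (ha0 : φ (X - C j0) ≠ 0) (he0 : ϖ ^ e0 ∣ φ (X - C j0)) (he0pos : 1 ≤ e0)
    (harith : ∀ σ ν cc : ℕ, cc + 6 * ν = 12 * σ + (q - 1) * w → 1 ≤ cc → 12 ≤ e0 * cc) :
    κ = 1 := by
  have hϖ0 : ϖ ≠ 0 := hϖ.ne_zero
  -- `j̄ - j0` is not a unit
  have ha : ¬ IsUnit (φ (X - C j0)) := by
    intro hau
    have h1 : ϖ ∣ φ (X - C j0) := dvd_trans (dvd_pow_self ϖ (by omega)) he0
    exact hϖ.not_isUnit (isUnit_of_dvd_unit h1 hau)
  obtain ⟨gW, hgW, hWeq⟩ := hW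
  have hW0 : φ W ≠ 0 := by
    rw [hWeq]
    exact mul_ne_zero hgW.ne_zero (pow_ne_zero _ ha0)
  have hN0 : φ N ≠ 0 := by
    intro h
    rw [h, zero_pow (by norm_num), mul_zero] at hrel
    exact mul_ne_zero (pow_ne_zero _ hS) (pow_ne_zero _ hW0) hrel.symm
  have hS' : S ≠ 0 := fun h => hS (by rw [h, map_zero])
  have hN' : N ≠ 0 := fun h => hN0 (by rw [h, map_zero])
  obtain ⟨σ, gS, hgS, hSeq⟩ := k1e40_eval_shape φ j0 ha S hS'
  obtain ⟨ν, gN, hgN, hNeq⟩ := k1e40_eval_shape φ j0 ha N hN'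
  have hU0 : U0 ≠ 0 := by
    intro h
    have h2 : U0 ^ κ ≠ 0 := by
      rw [hU]
      exact mul_ne_zero hu.ne_zero (pow_ne_zero _ hϖ0)
    rcases Nat.eq_zero_or_pos κ with hκ | hκ
    · rw [hκ, pow_zero] at hU
      have h3 : IsUnit (ϖ ^ 12) := isUnit_of_mul_isUnit_right (hU ▸ isUnit_one)
      exact hϖ.not_isUnit ((isUnit_pow_iff (by norm_num)).mp h3)
    · exact h2 (by rw [h, zero_pow (by omega)])
  obtain ⟨t, ht⟩ := k1e40_exists_addVal U0 hU0
  obtain ⟨e, he⟩ := k1e40_exists_addVal (φ (X - C j0)) ha0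
  -- `e0 ≤ e`
  have hee : e0 ≤ e := by
    have h := addVal_le_iff_dvd.mpr he0
    rw [addVal_pow, addVal_uniformizer hϖ, he, nsmul_eq_mul, mul_one] at h
    exact_mod_cast h
  -- `κ * t = 12`
  have h1 : κ * t = 12 := by
    have h := congrArg (addVal O) hU
    rw [addVal_pow, addVal_mul, addVal_pow, addVal_uniformizer hϖ, addVal_eq_zero_iff.mpr hu, ht,
      zero_add, nsmul_eq_mul, nsmul_eq_mul, mul_one] at h
    exact_mod_cast h
  -- the relation in orders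
  have h2 : t + 6 * (ν * e) = 12 * (σ * e) + (q - 1) * (w * e) := by
    have h := congrArg (addVal O) hrel
    rw [hNeq, hSeq, hWeq, addVal_mul, addVal_pow, addVal_mul, addVal_pow, addVal_mul, addVal_pow,
      addVal_mul, addVal_pow, addVal_pow, addVal_mul, addVal_pow, addVal_eq_zero_iff.mpr hgN,
      addVal_eq_zero_iff.mpr hgS, addVal_eq_zero_iff.mpr hgW, ht, he] at h
    simp only [zero_add, nsmul_eq_mul] at h
    exact_mod_cast h
  have ht1 : 1 ≤ t := by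
    rcases Nat.eq_zero_or_pos t with h | h
    · rw [h, mul_zero] at h1
      omega
    · exact h
  have he1 : 1 ≤ e := le_trans he0pos hee
  -- `6 ν ≤ 12 σ + (q - 1) w`
  have h6 : 6 * ν ≤ 12 * σ + (q - 1) * w := by
    by_contra hlt
    have h3 : (12 * σ + (q - 1) * w + 1) * e ≤ 6 * ν * e :=
      Nat.mul_le_mul_right e (by omega)
    have h4 : 12 * (σ * e) + (q - 1) * (w * e) + e ≤ 6 * (ν * e) := by
      calc 12 * (σ * e) + (q - 1) * (w * e) + e
          = (12 * σ + (q - 1) * w + 1) * e := by ring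
        _ ≤ 6 * ν * e := h3
        _ = 6 * (ν * e) := by ring
    omega
  obtain ⟨cc, hcc⟩ := Nat.exists_eq_add_of_le h6
  have htcc : t = e * cc := by
    have h5 : 12 * (σ * e) + (q - 1) * (w * e) = 6 * (ν * e) + e * cc := by
      calc 12 * (σ * e) + (q - 1) * (w * e) = (12 * σ + (q - 1) * w) * e := by ring
        _ = (6 * ν + cc) * e := by rw [hcc]
        _ = 6 * (ν * e) + e * cc := by ring
    omega
  have hcc1 : 1 ≤ cc := by
    rcases Nat.eq_zero_or_pos cc with h | h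
    · rw [h, mul_zero] at htcc
      omega
    · exact h
  have h12 : 12 ≤ e0 * cc := harith σ ν cc (by omega) hcc1
  exact k1e40_arith κ t e cc h1 htcc (le_trans h12 (Nat.mul_le_mul_right cc hee))

/-- In a local ring, `x + y` is a unit if `x` is not a unit and `y` is a unit. -/
theorem k1e40_isUnit_add {O : Type*} [CommRing O] [IsLocalRing O] (x y : O)
    (hx : ¬ IsUnit x) (hy : IsUnit y) : IsUnit (x + y) := by
  by_contra hnu
  have h1 : x + y ∈ IsLocalRing.maximalIdeal O := (IsLocalRing.mem_maximalIdeal _).mpr hnu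
  have h2 : x ∈ IsLocalRing.maximalIdeal O := (IsLocalRing.mem_maximalIdeal _).mpr hx
  have h3 : y ∈ IsLocalRing.maximalIdeal O := by
    have : y = x + y - x := by ring
    rw [this]
    exact Ideal.sub_mem _ h1 h2
  exact (IsLocalRing.mem_maximalIdeal _).mp h3 hy

/-- A non-unit which is, up to a unit, an `n`-th power is divisible by `ϖ ^ n`. -/
theorem k1e40_pow_dvd {O : Type*} [CommRing O] [IsDomain O] [IsDiscreteValuationRing O]
    (ϖ : O) (hϖ : Irreducible ϖ) (n : ℕ) (a g h : O) (hg : IsUnit g) (hag : a * g = h ^ n)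
    (ha : ¬ IsUnit a) : ϖ ^ n ∣ a := by
  have hh : ¬ IsUnit h := by
    intro hhu
    have h1 : IsUnit (a * g) := hag ▸ hhu.pow n
    exact ha (isUnit_of_mul_isUnit_left h1)
  have h2 : ϖ ∣ h := by
    have hm : IsLocalRing.maximalIdeal O = Ideal.span {ϖ} :=
      (IsDiscreteValuationRing.irreducible_iff_uniformizer ϖ).mp hϖ
    have hmem : h ∈ IsLocalRing.maximalIdeal O := (IsLocalRing.mem_maximalIdeal h).mpr hh
    rw [hm] at hmem
    exact Ideal.mem_span_singleton.mp hmem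
  have h3 : ϖ ^ n ∣ a * g := hag ▸ pow_dvd_pow_of_dvd h2 n
  exact (hg.dvd_mul_right).mp h3

/-- A non-unit which is, up to units, both an `m`-th and an `n`-th power (`m`, `n` coprime) is
divisible by `ϖ ^ (m * n)` (used with `(2, 3)` in characteristic `3`: `j̄ = j̄ - 1728`). -/
theorem k1e40_pow_mul_dvd {O : Type*} [CommRing O] [IsDomain O] [IsDiscreteValuationRing O]
    (ϖ : O) (hϖ : Irreducible ϖ) (m n : ℕ) (hmn : Nat.Coprime m n) (a g₁ h₁ g₂ h₂ : O)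
    (hg₁ : IsUnit g₁) (hg₂ : IsUnit g₂) (h₁eq : a * g₁ = h₁ ^ m) (h₂eq : a * g₂ = h₂ ^ n)
    (ha0 : a ≠ 0) (ha : ¬ IsUnit a) : ϖ ^ (m * n) ∣ a := by
  have key : ∀ (r : ℕ) (g h : O), IsUnit g → a * g = h ^ r →
      ∃ d : ℕ, addVal O h = (d : ℕ∞) ∧ ∀ e : ℕ, addVal O a = (e : ℕ∞) → e = r * d := by
    intro r g h hg hag
    have hh0 : h ≠ 0 := by
      rintro rfl
      rcases Nat.eq_zero_or_pos r with hr | hr
      · rw [hr, pow_zero] at hag
        exact ha (IsUnit.of_mul_eq_one g hag)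
      · rw [zero_pow (by omega)] at hag
        exact mul_ne_zero ha0 hg.ne_zero hag
    obtain ⟨d, hd⟩ := k1e40_exists_addVal h hh0
    refine ⟨d, hd, fun e he => ?_⟩
    have hv := congrArg (addVal O) hag
    rw [addVal_mul, addVal_pow, addVal_eq_zero_iff.mpr hg, he, hd, add_zero, nsmul_eq_mul] at hv
    exact_mod_cast hv
  obtain ⟨e, he⟩ := k1e40_exists_addVal a ha0
  obtain ⟨d₁, -, h1⟩ := key m g₁ h₁ hg₁ h₁eq
  obtain ⟨d₂, -, h2⟩ := key n g₂ h₂ hg₂ h₂eq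
  have hm : m ∣ e := ⟨d₁, h1 e he⟩
  have hn : n ∣ e := ⟨d₂, h2 e he⟩
  have hmne : m * n ∣ e := hmn.mul_dvd_of_dvd_of_dvd hm hn
  have he1 : 0 < e := by
    rcases Nat.eq_zero_or_pos e with h | h
    · rw [h] at he
      exact absurd (addVal_eq_zero_iff.mp (by simpa using he)) ha
    · exact h
  have hle : m * n ≤ e := Nat.le_of_dvd he1 hmne
  apply addVal_le_iff_dvd.mp
  rw [addVal_pow, addVal_uniformizer hϖ, he, nsmul_eq_mul, mul_one]
  exact_mod_cast hle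

/-- **Nodes over `j = 1728`** (`1728 ≠ 0` in `k`, `q` odd): `ϖ ^ 2 ∣ j̄ - 1728` gives `κ = 1`. -/
theorem k1e40_at_1728 {O k : Type*} [CommRing O] [IsDomain O] [IsDiscreteValuationRing O]
    [Field k] (φ : k[X] →+* O) (q κ : ℕ) (hq : q % 2 = 1) (h1728 : (1728 : k) ≠ 0)
    (ϖ : O) (hϖ : Irreducible ϖ) (U0 u : O) (hu : IsUnit u) (hU : U0 ^ κ = u * ϖ ^ 12)
    (S N : k[X]) (hS : φ S ≠ 0)
    (hrel : U0 * φ N ^ 6 = φ S ^ 12 * φ (X ^ 4 * (X - C (1728 : k)) ^ 3) ^ (q - 1))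
    (ha0 : φ (X - C (1728 : k)) ≠ 0) (he0 : ϖ ^ 2 ∣ φ (X - C (1728 : k))) :
    κ = 1 := by
  have ha : ¬ IsUnit (φ (X - C (1728 : k))) := by
    intro hau
    have h1 : ϖ ∣ φ (X - C (1728 : k)) := dvd_trans (dvd_pow_self ϖ (by norm_num)) he0
    exact hϖ.not_isUnit (isUnit_of_dvd_unit h1 hau)
  have hXu : IsUnit (φ X) := by
    have hC : IsUnit (φ (C (1728 : k))) := (isUnit_C.mpr (IsUnit.mk0 _ h1728)).map φ
    have h := k1e40_isUnit_add _ _ ha hC
    rwa [← map_add, sub_add_cancel] at h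
  refine k1e40_main φ 1728 q κ 2 3 ϖ hϖ U0 u hu hU S N _ hS ⟨φ X ^ 4, hXu.pow 4, ?_⟩ hrel ha0 he0
    (by norm_num) ?_
  · rw [map_mul, map_pow, map_pow]
  · intro σ ν cc h1 h2
    omega

/-- **Nodes over `j = 0`** (`1728 ≠ 0` in `k`, `3 ∤ q`): `ϖ ^ 3 ∣ j̄` gives `κ = 1`. -/
theorem k1e40_at_zero {O k : Type*} [CommRing O] [IsDomain O] [IsDiscreteValuationRing O]
    [Field k] (φ : k[X] →+* O) (q κ : ℕ) (hq : q % 3 ≠ 0) (h1728 : (1728 : k) ≠ 0)
    (ϖ : O) (hϖ : Irreducible ϖ) (U0 u : O) (hu : IsUnit u) (hU : U0 ^ κ = u * ϖ ^ 12)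
    (S N : k[X]) (hS : φ S ≠ 0)
    (hrel : U0 * φ N ^ 6 = φ S ^ 12 * φ (X ^ 4 * (X - C (1728 : k)) ^ 3) ^ (q - 1))
    (ha0 : φ X ≠ 0) (he0 : ϖ ^ 3 ∣ φ X) :
    κ = 1 := by
  have hX : (X - C (0 : k) : k[X]) = X := by simp
  have ha : ¬ IsUnit (φ X) := by
    intro hau
    have h1 : ϖ ∣ φ X := dvd_trans (dvd_pow_self ϖ (by norm_num)) he0
    exact hϖ.not_isUnit (isUnit_of_dvd_unit h1 hau)
  have hYu : IsUnit (φ (X - C (1728 : k))) := by
    have hC : IsUnit (φ (C (-1728 : k))) :=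
      (isUnit_C.mpr (IsUnit.mk0 _ (neg_ne_zero.mpr h1728))).map φ
    have h := k1e40_isUnit_add _ _ ha hC
    rwa [← map_add, C_neg, ← sub_eq_add_neg] at h
  refine k1e40_main φ 0 q κ 3 4 ϖ hϖ U0 u hu hU S N _ hS
    ⟨φ (X - C (1728 : k)) ^ 3, hYu.pow 3, ?_⟩ hrel (by rwa [hX]) (by rwa [hX]) (by norm_num) ?_
  · rw [hX, map_mul, map_pow, map_pow, mul_comm]
  · intro σ ν cc h1 h2
    omega

/-- **Nodes in characteristic `3`** (`q = 3`, `1728 = 0` in `k`): `ϖ ^ 6 ∣ j̄` gives `κ = 1`. -/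
theorem k1e40_char_three {O k : Type*} [CommRing O] [IsDomain O] [IsDiscreteValuationRing O]
    [Field k] (φ : k[X] →+* O) (κ : ℕ) (h1728 : (1728 : k) = 0)
    (ϖ : O) (hϖ : Irreducible ϖ) (U0 u : O) (hu : IsUnit u) (hU : U0 ^ κ = u * ϖ ^ 12)
    (S N : k[X]) (hS : φ S ≠ 0)
    (hrel : U0 * φ N ^ 6 = φ S ^ 12 * φ (X ^ 4 * (X - C (1728 : k)) ^ 3) ^ (3 - 1))
    (ha0 : φ X ≠ 0) (he0 : ϖ ^ 6 ∣ φ X) :
    κ = 1 := by
  have hX : (X - C (0 : k) : k[X]) = X := by simp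
  have hW : (X ^ 4 * (X - C (1728 : k)) ^ 3 : k[X]) = X ^ 7 := by
    rw [h1728, hX]; ring
  refine k1e40_main φ 0 3 κ 6 7 ϖ hϖ U0 u hu hU S N _ hS ⟨1, isUnit_one, ?_⟩ hrel
    (by rwa [hX]) (by rwa [hX]) (by norm_num) ?_
  · rw [hX, hW, map_pow, one_mul]
  · intro σ ν cc h1 h2
    omega

/-- **Nodes in characteristic `2`** (`q = 2`, `1728 = 0` in `k`): `ϖ ^ 12 ∣ j̄` gives `κ = 1`. -/
theorem k1e40_char_two {O k : Type*} [CommRing O] [IsDomain O] [IsDiscreteValuationRing O]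
    [Field k] (φ : k[X] →+* O) (κ : ℕ) (h1728 : (1728 : k) = 0)
    (ϖ : O) (hϖ : Irreducible ϖ) (U0 u : O) (hu : IsUnit u) (hU : U0 ^ κ = u * ϖ ^ 12)
    (S N : k[X]) (hS : φ S ≠ 0)
    (hrel : U0 * φ N ^ 6 = φ S ^ 12 * φ (X ^ 4 * (X - C (1728 : k)) ^ 3) ^ (2 - 1))
    (ha0 : φ X ≠ 0) (he0 : ϖ ^ 12 ∣ φ X) :
    κ = 1 := by
  have hX : (X - C (0 : k) : k[X]) = X := by simp
  have hW : (X ^ 4 * (X - C (1728 : k)) ^ 3 : k[X]) = X ^ 7 := by
    rw [h1728, hX]; ring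
  refine k1e40_main φ 0 2 κ 12 7 ϖ hϖ U0 u hu hU S N _ hS ⟨1, isUnit_one, ?_⟩ hrel
    (by rwa [hX]) (by rwa [hX]) (by norm_num) ?_
  · rw [hX, hW, map_pow, one_mul]
  · intro σ ν cc h1 h2
    omega

end Fermat.Agent.S36
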