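import Mathlib
import Fermat.Agent.S36.KappaEll40

/-!
# S36 lab, row 599 C-REGq (helper40): `ϖ ^ 12 ∣ Ū` at every node — the data of `nf40_node`

Abstract (Mathlib + `KappaEll40`).  `O` the discrete valuation ring `(B ⧸ P)_n` of the branch
`C_∞` at a node, `U0` the residue of `U = Δ(Q)/Δ(Q^q)` (not a unit: `U` vanishes along `C_0`),
`φ : k[X] → O`, `X ↦ j̄`, and the reduced identity
`U0 · N(j̄)^6 = S(j̄)^12 · W(j̄)^(q-1)`, `W = X^4 (X - 1728)^3`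
(`dq56_Z1` / `kc56_T_pow_six` together with `T̄ · N(j̄) = - S(j̄)^2`).

* `k1d40_generic`    : nodes where `N(j̄)` and `W(j̄)` are units (not over `j = 0, 1728`; `S`
  separable and prime to `P`): `ϖ ^ 12 ∣ U0`.
* `k1d40_main`       : nodes over a special value `j0` with `ϖ ^ e0 ∣ j̄ - j0` (rigid level).
* `k1d40_at_1728`, `k1d40_at_zero`, `k1d40_char_three`, `k1d40_char_two` : the four cases
  (`e0 = 2, 3, 6, 12`).

The conclusion `ϖ ^ 12 ∣ U0` is exactly the hypothesis `hdata` of `nf40_node` (no `κ`).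
All names are prefixed `k1d40_`.
-/

set_option autoImplicit false

namespace Fermat.Agent.S36

open Polynomial IsDiscreteValuationRing

/-- **Generic nodes**: `N(j̄)`, `W(j̄)` units and `U0` not a unit give `ϖ ^ 12 ∣ U0`. -/
theorem k1d40_generic {O : Type*} [CommRing O] [IsDomain O] [IsDiscreteValuationRing O]
    (ϖ : O) (hϖ : Irreducible ϖ) (q : ℕ) (U0 Nn Ss Ww : O) (hN : IsUnit Nn) (hW : IsUnit Ww)
    (hUn : ¬ IsUnit U0) (hrel : U0 * Nn ^ 6 = Ss ^ 12 * Ww ^ (q - 1)) : ϖ ^ 12 ∣ U0 := by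
  have hSn : ¬ IsUnit Ss := by
    intro hS
    have h1 : IsUnit (U0 * Nn ^ 6) := hrel ▸ (hS.pow 12).mul (hW.pow (q - 1))
    exact hUn (isUnit_of_mul_isUnit_left h1)
  have h2 : ϖ ∣ Ss := by
    have hm : IsLocalRing.maximalIdeal O = Ideal.span {ϖ} :=
      (IsDiscreteValuationRing.irreducible_iff_uniformizer ϖ).mp hϖ
    have hmem : Ss ∈ IsLocalRing.maximalIdeal O := (IsLocalRing.mem_maximalIdeal Ss).mpr hSn
    rw [hm] at hmem
    exact Ideal.mem_span_singleton.mp hmem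
  have h3 : ϖ ^ 12 ∣ U0 * Nn ^ 6 := by
    rw [hrel]
    exact Dvd.dvd.mul_right (pow_dvd_pow_of_dvd h2 12) _
  exact ((hN.pow 6).dvd_mul_right).mp h3

/-- **Nodes over a special value `j0`**: the order of `U0` is `e · c` with
`c = 12 σ - 6 ν + (q - 1) w ≥ 1` and `e ≥ e0`; `harith` bounds `e0 · c` from below by `12`. -/
theorem k1d40_main {O k : Type*} [CommRing O] [IsDomain O] [IsDiscreteValuationRing O] [Field k]
    (φ : k[X] →+* O) (j0 : k) (q e0 w : ℕ) (ϖ : O) (hϖ : Irreducible ϖ)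
    (U0 : O) (hUn : ¬ IsUnit U0)
    (S N W : k[X]) (hS : φ S ≠ 0)
    (hW : ∃ g : O, IsUnit g ∧ φ W = g * φ (X - C j0) ^ w)
    (hrel : U0 * φ N ^ 6 = φ S ^ 12 * φ W ^ (q - 1))
    (ha0 : φ (X - C j0) ≠ 0) (he0 : ϖ ^ e0 ∣ φ (X - C j0)) (he0pos : 1 ≤ e0)
    (harith : ∀ σ ν cc : ℕ, cc + 6 * ν = 12 * σ + (q - 1) * w → 1 ≤ cc → 12 ≤ e0 * cc) :
    ϖ ^ 12 ∣ U0 := by
  have hϖ0 : ϖ ≠ 0 := hϖ.ne_zero
  have ha : ¬ IsUnit (φ (X - C j0)) := by
    intro hau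
    have h1 : ϖ ∣ φ (X - C j0) := dvd_trans (dvd_pow_self ϖ (by omega)) he0
    exact hϖ.not_isUnit (isUnit_of_dvd_unit h1 hau)
  obtain ⟨gW, hgW, hWeq⟩ := hW
  have hW0 : φ W ≠ 0 := by
    rw [hWeq]
    exact mul_ne_zero hgW.ne_zero (pow_ne_zero _ ha0)
  have hN0 : φ N ≠ 0 := by
    intro h
    rw [h, zero_pow (by norm_num), mul_zero] at hrel
    exact mul_ne_zero (pow_ne_zero _ hS) (pow_ne_zero _ hW0) hrel.symm
  have hU0 : U0 ≠ 0 := by
    intro h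
    rw [h, zero_mul] at hrel
    exact mul_ne_zero (pow_ne_zero _ hS) (pow_ne_zero _ hW0) hrel.symm
  have hS' : S ≠ 0 := fun h => hS (by rw [h, map_zero])
  have hN' : N ≠ 0 := fun h => hN0 (by rw [h, map_zero])
  obtain ⟨σ, gS, hgS, hSeq⟩ := k1e40_eval_shape φ j0 ha S hS'
  obtain ⟨ν, gN, hgN, hNeq⟩ := k1e40_eval_shape φ j0 ha N hN'
  obtain ⟨t, ht⟩ := k1e40_exists_addVal U0 hU0
  obtain ⟨e, he⟩ := k1e40_exists_addVal (φ (X - C j0)) ha0
  have hee : e0 ≤ e := by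
    have h := addVal_le_iff_dvd.mpr he0
    rw [addVal_pow, addVal_uniformizer hϖ, he, nsmul_eq_mul, mul_one] at h
    exact_mod_cast h
  have h2 : t + 6 * (ν * e) = 12 * (σ * e) + (q - 1) * (w * e) := by
    have h := congrArg (addVal O) hrel
    rw [hNeq, hSeq, hWeq, addVal_mul, addVal_pow, addVal_mul, addVal_pow, addVal_mul, addVal_pow,
      addVal_mul, addVal_pow, addVal_pow, addVal_mul, addVal_pow, addVal_eq_zero_iff.mpr hgN,
      addVal_eq_zero_iff.mpr hgS, addVal_eq_zero_iff.mpr hgW, ht, he] at h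
    simp only [zero_add, nsmul_eq_mul] at h
    exact_mod_cast h
  have ht1 : 1 ≤ t := by
    rcases Nat.eq_zero_or_pos t with h | h
    · rw [h] at ht
      exact absurd (addVal_eq_zero_iff.mp (by simpa using ht)) hUn
    · exact h
  have he1 : 1 ≤ e := le_trans he0pos hee
  have h6 : 6 * ν ≤ 12 * σ + (q - 1) * w := by
    by_contra hlt
    have h3 : (12 * σ + (q - 1) * w + 1) * e ≤ 6 * ν * e :=
      Nat.mul_le_mul_right e (by omega)
    have h4 : 12 * (σ * e) + (q - 1) * (w * e) + e ≤ 6 * (ν * e) := by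
      calc 12 * (σ * e) + (q - 1) * (w * e) + e
          = (12 * σ + (q - 1) * w + 1) * e := by ring
        _ ≤ 6 * ν * e := h3
        _ = 6 * (ν * e) := by ring
    omega
  obtain ⟨cc, hcc⟩ := Nat.exists_eq_add_of_le h6
  have htcc : t = e * cc := by
    have h5 : 12 * (σ * e) + (q - 1) * (w * e) = 6 * (ν * e) + e * cc := by
      calc 12 * (σ * e) + (q - 1) * (w * e) = (12 * σ + (q - 1) * w) * e := by ring
        _ = (6 * ν + cc) * e := by rw [hcc]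
        _ = 6 * (ν * e) + e * cc := by ring
    omega
  have hcc1 : 1 ≤ cc := by
    rcases Nat.eq_zero_or_pos cc with h | h
    · rw [h, mul_zero] at htcc
      omega
    · exact h
  have h12 : 12 ≤ e0 * cc := harith σ ν cc (by omega) hcc1
  have h12t : 12 ≤ t := by
    rw [htcc]
    exact le_trans h12 (Nat.mul_le_mul_right cc hee)
  apply addVal_le_iff_dvd.mp
  rw [addVal_pow, addVal_uniformizer hϖ, ht, nsmul_eq_mul, mul_one]
  exact_mod_cast h12t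

/-- **Nodes over `j = 1728`** (`1728 ≠ 0` in `k`, `q` odd, `ϖ ^ 2 ∣ j̄ - 1728`). -/
theorem k1d40_at_1728 {O k : Type*} [CommRing O] [IsDomain O] [IsDiscreteValuationRing O]
    [Field k] (φ : k[X] →+* O) (q : ℕ) (hq : q % 2 = 1) (h1728 : (1728 : k) ≠ 0)
    (ϖ : O) (hϖ : Irreducible ϖ) (U0 : O) (hUn : ¬ IsUnit U0)
    (S N : k[X]) (hS : φ S ≠ 0)
    (hrel : U0 * φ N ^ 6 = φ S ^ 12 * φ (X ^ 4 * (X - C (1728 : k)) ^ 3) ^ (q - 1))
    (ha0 : φ (X - C (1728 : k)) ≠ 0) (he0 : ϖ ^ 2 ∣ φ (X - C (1728 : k))) :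
    ϖ ^ 12 ∣ U0 := by
  have ha : ¬ IsUnit (φ (X - C (1728 : k))) := by
    intro hau
    have h1 : ϖ ∣ φ (X - C (1728 : k)) := dvd_trans (dvd_pow_self ϖ (by norm_num)) he0
    exact hϖ.not_isUnit (isUnit_of_dvd_unit h1 hau)
  have hXu : IsUnit (φ X) := by
    have hC : IsUnit (φ (C (1728 : k))) := (isUnit_C.mpr (IsUnit.mk0 _ h1728)).map φ
    have h := k1e40_isUnit_add _ _ ha hC
    rwa [← map_add, sub_add_cancel] at h
  refine k1d40_main φ 1728 q 2 3 ϖ hϖ U0 hUn S N _ hS ⟨φ X ^ 4, hXu.pow 4, ?_⟩ hrel ha0 he0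
    (by norm_num) ?_
  · rw [map_mul, map_pow, map_pow]
  · intro σ ν cc h1 h2
    omega

/-- **Nodes over `j = 0`** (`1728 ≠ 0` in `k`, `3 ∤ q`, `ϖ ^ 3 ∣ j̄`). -/
theorem k1d40_at_zero {O k : Type*} [CommRing O] [IsDomain O] [IsDiscreteValuationRing O]
    [Field k] (φ : k[X] →+* O) (q : ℕ) (hq : q % 3 ≠ 0) (h1728 : (1728 : k) ≠ 0)
    (ϖ : O) (hϖ : Irreducible ϖ) (U0 : O) (hUn : ¬ IsUnit U0)
    (S N : k[X]) (hS : φ S ≠ 0)
    (hrel : U0 * φ N ^ 6 = φ S ^ 12 * φ (X ^ 4 * (X - C (1728 : k)) ^ 3) ^ (q - 1))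
    (ha0 : φ X ≠ 0) (he0 : ϖ ^ 3 ∣ φ X) :
    ϖ ^ 12 ∣ U0 := by
  have hX : (X - C (0 : k) : k[X]) = X := by simp
  have ha : ¬ IsUnit (φ X) := by
    intro hau
    have h1 : ϖ ∣ φ X := dvd_trans (dvd_pow_self ϖ (by norm_num)) he0
    exact hϖ.not_isUnit (isUnit_of_dvd_unit h1 hau)
  have hYu : IsUnit (φ (X - C (1728 : k))) := by
    have hC : IsUnit (φ (C (-1728 : k))) :=
      (isUnit_C.mpr (IsUnit.mk0 _ (neg_ne_zero.mpr h1728))).map φ
    have h := k1e40_isUnit_add _ _ ha hC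
    rwa [← map_add, C_neg, ← sub_eq_add_neg] at h
  refine k1d40_main φ 0 q 3 4 ϖ hϖ U0 hUn S N _ hS
    ⟨φ (X - C (1728 : k)) ^ 3, hYu.pow 3, ?_⟩ hrel (by rwa [hX]) (by rwa [hX]) (by norm_num) ?_
  · rw [hX, map_mul, map_pow, map_pow, mul_comm]
  · intro σ ν cc h1 h2
    omega

/-- **Nodes in characteristic `3`** (`q = 3`, `1728 = 0` in `k`, `ϖ ^ 6 ∣ j̄`). -/
theorem k1d40_char_three {O k : Type*} [CommRing O] [IsDomain O] [IsDiscreteValuationRing O]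
    [Field k] (φ : k[X] →+* O) (h1728 : (1728 : k) = 0)
    (ϖ : O) (hϖ : Irreducible ϖ) (U0 : O) (hUn : ¬ IsUnit U0)
    (S N : k[X]) (hS : φ S ≠ 0)
    (hrel : U0 * φ N ^ 6 = φ S ^ 12 * φ (X ^ 4 * (X - C (1728 : k)) ^ 3) ^ (3 - 1))
    (ha0 : φ X ≠ 0) (he0 : ϖ ^ 6 ∣ φ X) :
    ϖ ^ 12 ∣ U0 := by
  have hX : (X - C (0 : k) : k[X]) = X := by simp
  have hW : (X ^ 4 * (X - C (1728 : k)) ^ 3 : k[X]) = X ^ 7 := by
    rw [h1728, hX]; ring
  refine k1d40_main φ 0 3 6 7 ϖ hϖ U0 hUn S N _ hS ⟨1, isUnit_one, ?_⟩ hrel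
    (by rwa [hX]) (by rwa [hX]) (by norm_num) ?_
  · rw [hX, hW, map_pow, one_mul]
  · intro σ ν cc h1 h2
    omega

/-- **Nodes in characteristic `2`** (`q = 2`, `1728 = 0` in `k`, `ϖ ^ 12 ∣ j̄`). -/
theorem k1d40_char_two {O k : Type*} [CommRing O] [IsDomain O] [IsDiscreteValuationRing O]
    [Field k] (φ : k[X] →+* O) (h1728 : (1728 : k) = 0)
    (ϖ : O) (hϖ : Irreducible ϖ) (U0 : O) (hUn : ¬ IsUnit U0)
    (S N : k[X]) (hS : φ S ≠ 0)
    (hrel : U0 * φ N ^ 6 = φ S ^ 12 * φ (X ^ 4 * (X - C (1728 : k)) ^ 3) ^ (2 - 1))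
    (ha0 : φ X ≠ 0) (he0 : ϖ ^ 12 ∣ φ X) :
    ϖ ^ 12 ∣ U0 := by
  have hX : (X - C (0 : k) : k[X]) = X := by simp
  have hW : (X ^ 4 * (X - C (1728 : k)) ^ 3 : k[X]) = X ^ 7 := by
    rw [h1728, hX]; ring
  refine k1d40_main φ 0 2 12 7 ϖ hϖ U0 hUn S N _ hS ⟨1, isUnit_one, ?_⟩ hrel
    (by rwa [hX]) (by rwa [hX]) (by norm_num) ?_
  · rw [hX, hW, map_pow, one_mul]
  · intro σ ν cc h1 h2
    omega

end Fermat.Agent.S36
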