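import Mathlib
import Fermat.Agent.S34.SpecFibre79

/-!
# S36 lab, row 599 C-REGq, piece (B) of the binding plan (helper18, twin)

Frame language of `S34/SpecFibre79` (`B` a chart, `V₁`, `V₂` the two vertical valuation rings as
subrings of the function field `F`, `π` the uniformiser of the base, `n` a closed point on both
branches).

* `nb18_sat_iter` : iterated saturation: `x ∈ B` and `π⁻ⁱ x ∈ V₁ ∩ V₂` for `1 ≤ i ≤ k` give
  `π⁻ᵏ x ∈ B`.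
* `nb18_node_pow` : if `z ∈ B` has `π⁻¹ z ∈ V₂`, `u v = π ^ (μ + 1) · e` with `e ∉ n`, `u` a unit
  along `V₁`, `v` a unit along `V₂`, and `s u ≡ a z ^ (μ + 1)` modulo `π V₁` with `s ∉ n`
  ("`z ^ (μ + 1)` divides `u` on the branch `V₁` at `n`"), then `z' := z ^ μ v / π ^ μ ∈ B`,
  `z z' = π s'` with `s' ∉ n`, `z' ∈ n` and `π⁻¹ z' ∈ V₁`: the node is REGULAR with the labelled
  coordinates `z` (of the `V₁`-branch, vanishing on the `V₂`-branch) and `z'`.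
* `nb18_node` : the literal shape (B) of the binding plan of row 599 (`μ + 1 = 12`).

All names are prefixed `nb18_`.
-/

set_option autoImplicit false

namespace Fermat.Agent.S36

open Fermat.Agent.S34

section NB18

variable {R F : Type*} [CommRing R] [Field F] [Algebra R F]

/-- Iterated saturation. -/
theorem nb18_sat_iter (π : R) (B : Subalgebra R F) (V₁ V₂ : Subring F)
    (hsat : ∀ x ∈ B, (algebraMap R F π)⁻¹ * x ∈ V₁ → (algebraMap R F π)⁻¹ * x ∈ V₂ →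
      (algebraMap R F π)⁻¹ * x ∈ B) (x : F) (hx : x ∈ B) :
    ∀ k : ℕ, (∀ i : ℕ, 1 ≤ i → i ≤ k → (algebraMap R F π)⁻¹ ^ i * x ∈ V₁ ∧
      (algebraMap R F π)⁻¹ ^ i * x ∈ V₂) → (algebraMap R F π)⁻¹ ^ k * x ∈ B := by
  intro k
  induction k with
  | zero => intro _; simpa using hx
  | succ k ih =>
    intro h
    have hk : (algebraMap R F π)⁻¹ ^ k * x ∈ B :=
      ih fun i h1 h2 => h i h1 (Nat.le_succ_of_le h2)
    have e : (algebraMap R F π)⁻¹ ^ (k + 1) * x =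
        (algebraMap R F π)⁻¹ * ((algebraMap R F π)⁻¹ ^ k * x) := by ring
    obtain ⟨h1, h2⟩ := h (k + 1) (Nat.succ_le_succ (Nat.zero_le k)) le_rfl
    rw [e] at h1 h2 ⊢
    exact hsat _ hk h1 h2

/-- **Piece (B), general exponent.** -/
theorem nb18_node_pow (π : R) (B : Subalgebra R F) (V₁ V₂ : Subring F)
    (hB₁ : ∀ x ∈ B, x ∈ V₁) (hB₂ : ∀ x ∈ B, x ∈ V₂)
    (hV₁ : ∀ x ∈ V₁, (algebraMap R F π)⁻¹ * x ∉ V₁ → x⁻¹ ∈ V₁)
    (hsat : ∀ x ∈ B, (algebraMap R F π)⁻¹ * x ∈ V₁ → (algebraMap R F π)⁻¹ * x ∈ V₂ →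
      (algebraMap R F π)⁻¹ * x ∈ B)
    (hp0 : algebraMap R F π ≠ 0)
    (n : Ideal B) [hn : n.IsPrime]
    (h1 : sf79_OnBr π B V₁ n)
    (z : B) (hz₂ : (algebraMap R F π)⁻¹ * (z : F) ∈ V₂)
    (μ : ℕ) (u v e : B) (he : e ∉ n) (huv : u * v = algebraMap R B π ^ (μ + 1) * e)
    (hu : (algebraMap R F π)⁻¹ * (u : F) ∉ V₁)
    (s a : B) (hs : s ∉ n)
    (hdiv : (algebraMap R F π)⁻¹ * ((s : F) * (u : F) - (a : F) * (z : F) ^ (μ + 1)) ∈ V₁) :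
    ∃ z' s' : B, z' ∈ n ∧ s' ∉ n ∧ z * z' = algebraMap R B π * s' ∧
      (algebraMap R F π)⁻¹ * (z' : F) ∈ V₁ ∧
      (z' : F) = (algebraMap R F π)⁻¹ ^ μ * ((z : F) ^ μ * (v : F)) ∧
      s' * u = z ^ (μ + 1) * e := by
  set p : F := algebraMap R F π with hp
  have hpB : ((algebraMap R B π : B) : F) = p := rfl
  have hpV₁ : p ∈ V₁ := hB₁ _ (algebraMap R B π).2
  have hpV₂ : p ∈ V₂ := hB₂ _ (algebraMap R B π).2
  have hu0 : (u : F) ≠ 0 := by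
    intro h0
    apply hu
    rw [h0, mul_zero]
    exact V₁.zero_mem
  have huinv : (u : F)⁻¹ ∈ V₁ := hV₁ _ (hB₁ _ u.2) hu
  have huvF : (u : F) * (v : F) = p ^ (μ + 1) * (e : F) := by
    have := congrArg (fun w : B => (w : F)) huv
    simpa using this
  have hvF : (v : F) = p ^ (μ + 1) * (e : F) * (u : F)⁻¹ := by
    rw [← huvF]
    field_simp
  -- `z' := π⁻ᵘ z ^ μ v ∈ B`
  have hx : (z : F) ^ μ * (v : F) ∈ B := B.mul_mem (B.pow_mem z.2 μ) v.2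
  have hz'B : p⁻¹ ^ μ * ((z : F) ^ μ * (v : F)) ∈ B := by
    apply nb18_sat_iter π B V₁ V₂ hsat _ hx μ
    intro i hi1 hiμ
    obtain ⟨j, rfl⟩ := Nat.exists_eq_add_of_le hiμ
    constructor
    · have e1 : p⁻¹ ^ i * ((z : F) ^ (i + j) * (v : F)) =
          p ^ (j + 1) * (z : F) ^ (i + j) * (e : F) * (u : F)⁻¹ := by
        rw [hvF]
        have : p⁻¹ ^ i * p ^ (i + j + 1) = p ^ (j + 1) := by
          rw [show i + j + 1 = i + (j + 1) by ring, pow_add, ← mul_assoc, ← mul_pow,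
            inv_mul_cancel₀ hp0, one_pow, one_mul]
        calc p⁻¹ ^ i * ((z : F) ^ (i + j) * (p ^ (i + j + 1) * (e : F) * (u : F)⁻¹))
            = (p⁻¹ ^ i * p ^ (i + j + 1)) * (z : F) ^ (i + j) * (e : F) * (u : F)⁻¹ := by ring
          _ = _ := by rw [this]
      rw [e1]
      exact V₁.mul_mem (V₁.mul_mem (V₁.mul_mem (V₁.pow_mem hpV₁ _)
        (V₁.pow_mem (hB₁ _ z.2) _)) (hB₁ _ e.2)) huinv
    · have e2 : p⁻¹ ^ i * ((z : F) ^ (i + j) * (v : F)) =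
          (p⁻¹ * (z : F)) ^ i * (z : F) ^ j * (v : F) := by
        rw [mul_pow, pow_add]; ring
      rw [e2]
      exact V₂.mul_mem (V₂.mul_mem (V₂.pow_mem hz₂ _) (V₂.pow_mem (hB₂ _ z.2) _)) (hB₂ _ v.2)
  -- `π⁻¹ z' ∈ V₁`
  have hz'V₁ : p⁻¹ * (p⁻¹ ^ μ * ((z : F) ^ μ * (v : F))) ∈ V₁ := by
    have e1 : p⁻¹ * (p⁻¹ ^ μ * ((z : F) ^ μ * (v : F))) =
        (z : F) ^ μ * (e : F) * (u : F)⁻¹ := by
      rw [hvF]
      have : p⁻¹ * (p⁻¹ ^ μ * p ^ (μ + 1)) = 1 := by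
        rw [← mul_assoc, ← pow_succ', ← mul_pow, inv_mul_cancel₀ hp0, one_pow]
      calc p⁻¹ * (p⁻¹ ^ μ * ((z : F) ^ μ * (p ^ (μ + 1) * (e : F) * (u : F)⁻¹)))
          = (p⁻¹ * (p⁻¹ ^ μ * p ^ (μ + 1))) * ((z : F) ^ μ * (e : F) * (u : F)⁻¹) := by ring
        _ = _ := by rw [this, one_mul]
    rw [e1]
    exact V₁.mul_mem (V₁.mul_mem (V₁.pow_mem (hB₁ _ z.2) _) (hB₁ _ e.2)) huinv
  -- `s' := π⁻¹ z z' ∈ B`
  have hcB : p⁻¹ * ((z : F) * (p⁻¹ ^ μ * ((z : F) ^ μ * (v : F)))) ∈ B := by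
    apply hsat _ (B.mul_mem z.2 hz'B)
    · have e1 : p⁻¹ * ((z : F) * (p⁻¹ ^ μ * ((z : F) ^ μ * (v : F)))) =
          (z : F) * (p⁻¹ * (p⁻¹ ^ μ * ((z : F) ^ μ * (v : F)))) := by ring
      rw [e1]
      exact V₁.mul_mem (hB₁ _ z.2) hz'V₁
    · have e2 : p⁻¹ * ((z : F) * (p⁻¹ ^ μ * ((z : F) ^ μ * (v : F)))) =
          (p⁻¹ * (z : F)) * (p⁻¹ ^ μ * ((z : F) ^ μ * (v : F))) := by ring
      rw [e2]
      exact V₂.mul_mem hz₂ (hB₂ _ hz'B)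
  set z' : B := ⟨_, hz'B⟩ with hz'def
  set c : B := ⟨_, hcB⟩ with hcdef
  -- `c u = z ^ (μ + 1) e`
  have hcu : (c : F) * (u : F) = (z : F) ^ (μ + 1) * (e : F) := by
    show p⁻¹ * ((z : F) * (p⁻¹ ^ μ * ((z : F) ^ μ * (v : F)))) * (u : F) = _
    have e1 : p⁻¹ * ((z : F) * (p⁻¹ ^ μ * ((z : F) ^ μ * (v : F)))) * (u : F) =
        p⁻¹ ^ (μ + 1) * (z : F) ^ (μ + 1) * ((u : F) * (v : F)) := by ring
    rw [e1, huvF]
    have : p⁻¹ ^ (μ + 1) * p ^ (μ + 1) = 1 := by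
      rw [← mul_pow, inv_mul_cancel₀ hp0, one_pow]
    calc p⁻¹ ^ (μ + 1) * (z : F) ^ (μ + 1) * (p ^ (μ + 1) * (e : F))
        = (p⁻¹ ^ (μ + 1) * p ^ (μ + 1)) * ((z : F) ^ (μ + 1) * (e : F)) := by ring
      _ = _ := by rw [this, one_mul]
  -- `c ∉ n`
  have hcn : c ∉ n := by
    intro hc
    have h3 : p⁻¹ * (((s * e - a * c : B) : F)) ∈ V₁ := by
      have e1 : p⁻¹ * (((s * e - a * c : B) : F)) =
          (u : F)⁻¹ * ((e : F) * (p⁻¹ * ((s : F) * (u : F) - (a : F) * (z : F) ^ (μ + 1)))) := by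
        have : (((s * e - a * c : B) : F)) = (s : F) * (e : F) - (a : F) * (c : F) := by
          push_cast; ring
        rw [this]
        have h4 : (u : F)⁻¹ * ((e : F) * (p⁻¹ * ((s : F) * (u : F) - (a : F) * (z : F) ^ (μ + 1))))
            = p⁻¹ * ((s : F) * (e : F) * ((u : F)⁻¹ * (u : F)) -
                (a : F) * ((z : F) ^ (μ + 1) * (e : F)) * (u : F)⁻¹) := by ring
        rw [h4, ← hcu, inv_mul_cancel₀ hu0]
        have h5 : (a : F) * ((c : F) * (u : F)) * (u : F)⁻¹ = (a : F) * (c : F) := by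
          rw [mul_assoc, mul_assoc, mul_inv_cancel₀ hu0, mul_one]
        rw [h5, mul_one]
      rw [e1]
      exact V₁.mul_mem huinv (V₁.mul_mem (hB₁ _ e.2) hdiv)
    have h4 : s * e - a * c ∈ n := h1 _ h3
    have h5 : s * e ∈ n := by
      have : s * e = (s * e - a * c) + a * c := by ring
      rw [this]
      exact n.add_mem h4 (n.mul_mem_left a hc)
    exact (hn.mem_or_mem h5).elim hs he
  refine ⟨z', c, h1 z' hz'V₁, hcn, ?_, hz'V₁, rfl, ?_⟩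
  · apply Subtype.ext
    show (z : F) * (p⁻¹ ^ μ * ((z : F) ^ μ * (v : F))) =
      p * (p⁻¹ * ((z : F) * (p⁻¹ ^ μ * ((z : F) ^ μ * (v : F)))))
    rw [← mul_assoc p, mul_inv_cancel₀ hp0, one_mul]
  · apply Subtype.ext
    have : ((c * u : B) : F) = (c : F) * (u : F) := by push_cast; ring
    rw [this, hcu]
    push_cast
    ring

/-- **Piece (B) of the binding plan of row 599 (literal shape).**  At a closed point `n` on both
branches, if `z` is a coordinate of the `V₁`-branch vanishing on the `V₂`-branch, `u v = π ^ 12 e`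
with `e ∉ n`, `u` a unit along `V₁`, `v` a unit along `V₂`, and `z ^ 12` divides `u` on the
`V₁`-branch at `n`, then `z z' = π s'` with `s' ∉ n`, `z' ∈ n`, `π⁻¹ z' ∈ V₁`. -/
theorem nb18_node (π : R) (B : Subalgebra R F) (V₁ V₂ : Subring F)
    (hB₁ : ∀ x ∈ B, x ∈ V₁) (hB₂ : ∀ x ∈ B, x ∈ V₂)
    (hπ₁ : (algebraMap R F π)⁻¹ ∉ V₁) (hπ₂ : (algebraMap R F π)⁻¹ ∉ V₂)
    (hV₁ : ∀ x ∈ V₁, (algebraMap R F π)⁻¹ * x ∉ V₁ → x⁻¹ ∈ V₁)
    (hV₂ : ∀ x ∈ V₂, (algebraMap R F π)⁻¹ * x ∉ V₂ → x⁻¹ ∈ V₂)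
    (hsat : ∀ x ∈ B, (algebraMap R F π)⁻¹ * x ∈ V₁ → (algebraMap R F π)⁻¹ * x ∈ V₂ →
      (algebraMap R F π)⁻¹ * x ∈ B)
    (n : Ideal B) [hn : n.IsMaximal] (hπn : algebraMap R B π ∈ n)
    (h1 : sf79_OnBr π B V₁ n) (h2 : sf79_OnBr π B V₂ n)
    (z : B) (hz : sf79_Unif π B V₁ n z) (hz₂ : (algebraMap R F π)⁻¹ * (z : F) ∈ V₂)
    (u v e : B) (he : e ∉ n) (huv : u * v = algebraMap R B π ^ 12 * e)
    (hu : (algebraMap R F π)⁻¹ * (u : F) ∉ V₁) (hv : (algebraMap R F π)⁻¹ * (v : F) ∉ V₂)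
    (s a : B) (hs : s ∉ n)
    (hdiv : (algebraMap R F π)⁻¹ * ((s : F) * (u : F) - (a : F) * (z : F) ^ 12) ∈ V₁) :
    ∃ z' s' : B, z' ∈ n ∧ s' ∉ n ∧ z * z' = algebraMap R B π * s' ∧
      (algebraMap R F π)⁻¹ * (z' : F) ∈ V₁ := by
  have hnp : n.IsPrime := hn.isPrime
  have hp0 : algebraMap R F π ≠ 0 := fun h0 => hπ₁ (by rw [h0, inv_zero]; exact V₁.zero_mem)
  obtain ⟨z', s', h3, h4, h5, h6, -, -⟩ :=
    nb18_node_pow π B V₁ V₂ hB₁ hB₂ hV₁ hsat hp0 n h1 z hz₂ 11 u v e he huv hu s a hs hdiv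
  exact ⟨z', s', h3, h4, h5, h6⟩

end NB18

end Fermat.Agent.S36
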