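import Mathlib
import Fermat.Agent.S34.SpecFibre79
import Fermat.Agent.S36.NodeB18

/-!
# S36 lab, row 599 C-REGq, piece (B) of the binding plan, second half (helper18)

The "regeneration step" and the node clause in the literal shape consumed by
`tl71_reg_of_nodes` (`S36/TripleReg71`).

* `nb18_regen` : if `z₁` is a coordinate of the `V₁`-branch at `n` and `s₀ z₁ = y + y'` with
  `s₀ ∉ n`, `π⁻¹ y ∈ V₁`, `π⁻¹ y' ∈ V₂` (transversality applied to `z₁`), then `z := y'` is again a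
  coordinate of the `V₁`-branch at `n`, it vanishes on the `V₂`-branch, and
  `s₀ ^ m z₁ ^ m ≡ z ^ m` modulo `π V₁` for every `m`.
* `nb18_node_regen` : piece (B) with the divisibility hypothesis stated for the ORIGINAL
  coordinate `z₁` (any exponent `μ + 1`): the regenerated `z` satisfies `z z' = π s'`, `s' ∉ n`,
  `π⁻¹ z ∈ V₂`, `π⁻¹ z' ∈ V₁`.
* `nb18_hnode` : the same conclusion in the literal shape of the hypothesis `hnode` of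
  `tl71_reg_of_nodes` : `∃ z z' s s', s ∉ n ∧ s' ∉ n ∧ π⁻¹ z ∈ V₁ ∧ π⁻¹ z' ∈ V₂ ∧ s z z' = π s'`.
* `nb18_hnode_transv` : the same from `sf79_Transv` (the full transversality clause).

All names are prefixed `nb18_`.
-/

set_option autoImplicit false

namespace Fermat.Agent.S36

open Fermat.Agent.S34

section NB18b

variable {R F : Type*} [CommRing R] [Field F] [Algebra R F]

/-- **Regeneration of the coordinate.** -/
theorem nb18_regen (π : R) (B : Subalgebra R F) (V₁ : Subring F)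
    (hB₁ : ∀ x ∈ B, x ∈ V₁)
    (n : Ideal B) [hn : n.IsPrime]
    (h1 : sf79_OnBr π B V₁ n)
    (z₁ : B) (hz₁ : sf79_Unif π B V₁ n z₁)
    (s₀ y y' : B) (hs₀ : s₀ ∉ n) (hdec : s₀ * z₁ = y + y')
    (hy : (algebraMap R F π)⁻¹ * (y : F) ∈ V₁) :
    sf79_Unif π B V₁ n y' ∧
      ∀ m : ℕ, (algebraMap R F π)⁻¹ *
        (((s₀ : F) * (z₁ : F)) ^ m - (y' : F) ^ m) ∈ V₁ := by
  have hyn : y ∈ n := h1 y hy
  have hdecF : (s₀ : F) * (z₁ : F) = (y : F) + (y' : F) := by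
    have := congrArg (fun w : B => (w : F)) hdec
    simpa using this
  refine ⟨⟨?_, ?_⟩, ?_⟩
  · have : y' = s₀ * z₁ - y := by rw [hdec]; ring
    rw [this]
    exact n.sub_mem (n.mul_mem_left s₀ hz₁.1) hyn
  · intro x hx
    obtain ⟨s, hs, a, ha⟩ := hz₁.2 x hx
    refine ⟨s₀ * s, fun h => (hn.mem_or_mem h).elim hs₀ hs, a, ?_⟩
    have e : (algebraMap R F π)⁻¹ * (((s₀ * s : B) : F) * (x : F) - (a : F) * (y' : F)) =
        (s₀ : F) * ((algebraMap R F π)⁻¹ * ((s : F) * (x : F) - (a : F) * (z₁ : F))) +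
          (a : F) * ((algebraMap R F π)⁻¹ * (y : F)) := by
      have h3 : (y' : F) = (s₀ : F) * (z₁ : F) - (y : F) := by rw [hdecF]; ring
      rw [h3]
      push_cast
      ring
    rw [e]
    exact V₁.add_mem (V₁.mul_mem (hB₁ _ s₀.2) ha) (V₁.mul_mem (hB₁ _ a.2) hy)
  · intro m
    obtain ⟨w, hw⟩ := sub_dvd_pow_sub_pow (y + y') y' m
    have hwF : ((s₀ : F) * (z₁ : F)) ^ m - (y' : F) ^ m = (y : F) * (w : F) := by
      have := congrArg (fun t : B => (t : F)) hw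
      rw [hdecF]
      simpa using this
    rw [hwF, ← mul_assoc]
    exact V₁.mul_mem hy (hB₁ _ w.2)

/-- **Piece (B) with the divisibility hypothesis on the original coordinate `z₁`.** -/
theorem nb18_node_regen (π : R) (B : Subalgebra R F) (V₁ V₂ : Subring F)
    (hB₁ : ∀ x ∈ B, x ∈ V₁) (hB₂ : ∀ x ∈ B, x ∈ V₂)
    (hπ₁ : (algebraMap R F π)⁻¹ ∉ V₁)
    (hV₁ : ∀ x ∈ V₁, (algebraMap R F π)⁻¹ * x ∉ V₁ → x⁻¹ ∈ V₁)
    (hsat : ∀ x ∈ B, (algebraMap R F π)⁻¹ * x ∈ V₁ → (algebraMap R F π)⁻¹ * x ∈ V₂ →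
      (algebraMap R F π)⁻¹ * x ∈ B)
    (n : Ideal B) [hn : n.IsPrime]
    (h1 : sf79_OnBr π B V₁ n)
    (z₁ : B) (hz₁ : sf79_Unif π B V₁ n z₁)
    (s₀ y y' : B) (hs₀ : s₀ ∉ n) (hdec : s₀ * z₁ = y + y')
    (hy : (algebraMap R F π)⁻¹ * (y : F) ∈ V₁) (hy' : (algebraMap R F π)⁻¹ * (y' : F) ∈ V₂)
    (μ : ℕ) (u v e : B) (he : e ∉ n) (huv : u * v = algebraMap R B π ^ (μ + 1) * e)
    (hu : (algebraMap R F π)⁻¹ * (u : F) ∉ V₁)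
    (s a : B) (hs : s ∉ n)
    (hdiv : (algebraMap R F π)⁻¹ * ((s : F) * (u : F) - (a : F) * (z₁ : F) ^ (μ + 1)) ∈ V₁) :
    ∃ z z' s' : B, sf79_Unif π B V₁ n z ∧ (algebraMap R F π)⁻¹ * (z : F) ∈ V₂ ∧
      z' ∈ n ∧ s' ∉ n ∧ z * z' = algebraMap R B π * s' ∧
      (algebraMap R F π)⁻¹ * (z' : F) ∈ V₁ := by
  have hp0 : algebraMap R F π ≠ 0 := fun h0 => hπ₁ (by rw [h0, inv_zero]; exact V₁.zero_mem)
  obtain ⟨hU, hpow⟩ := nb18_regen π B V₁ hB₁ n h1 z₁ hz₁ s₀ y y' hs₀ hdec hy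
  have hs' : s₀ ^ (μ + 1) * s ∉ n := fun h =>
    (hn.mem_or_mem h).elim (fun h' => hs₀ (hn.mem_of_pow_mem _ h')) hs
  have hdiv' : (algebraMap R F π)⁻¹ * (((s₀ ^ (μ + 1) * s : B) : F) * (u : F) -
      (a : F) * (y' : F) ^ (μ + 1)) ∈ V₁ := by
    have e1 : (algebraMap R F π)⁻¹ * (((s₀ ^ (μ + 1) * s : B) : F) * (u : F) -
        (a : F) * (y' : F) ^ (μ + 1)) =
        (s₀ : F) ^ (μ + 1) * ((algebraMap R F π)⁻¹ *
            ((s : F) * (u : F) - (a : F) * (z₁ : F) ^ (μ + 1))) +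
          (a : F) * ((algebraMap R F π)⁻¹ *
            (((s₀ : F) * (z₁ : F)) ^ (μ + 1) - (y' : F) ^ (μ + 1))) := by
      push_cast
      ring
    rw [e1]
    exact V₁.add_mem (V₁.mul_mem (V₁.pow_mem (hB₁ _ s₀.2) _) hdiv)
      (V₁.mul_mem (hB₁ _ a.2) (hpow (μ + 1)))
  obtain ⟨z', c, h3, h4, h5, h6, -, -⟩ :=
    nb18_node_pow π B V₁ V₂ hB₁ hB₂ hV₁ hsat hp0 n h1 y' hy' μ u v e he huv hu
      (s₀ ^ (μ + 1) * s) a hs' hdiv'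
  exact ⟨y', z', c, hU, hy', h3, h4, h5, h6⟩

/-- **The node clause `hnode` of `tl71_reg_of_nodes`** (with `U = V₁`, `U' = V₂`) at a closed
point `n` of both branches, from: a coordinate `z₁` of the `V₁`-branch, its transversal
decomposition, `u v = π ^ (μ + 1) e`, and `z₁ ^ (μ + 1) ∣ u` on the `V₁`-branch at `n`. -/
theorem nb18_hnode (π : R) (B : Subalgebra R F) (V₁ V₂ : Subring F)
    (hB₁ : ∀ x ∈ B, x ∈ V₁) (hB₂ : ∀ x ∈ B, x ∈ V₂)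
    (hπ₁ : (algebraMap R F π)⁻¹ ∉ V₁)
    (hV₁ : ∀ x ∈ V₁, (algebraMap R F π)⁻¹ * x ∉ V₁ → x⁻¹ ∈ V₁)
    (hsat : ∀ x ∈ B, (algebraMap R F π)⁻¹ * x ∈ V₁ → (algebraMap R F π)⁻¹ * x ∈ V₂ →
      (algebraMap R F π)⁻¹ * x ∈ B)
    (n : Ideal B) [hn : n.IsPrime]
    (h1 : sf79_OnBr π B V₁ n)
    (z₁ : B) (hz₁ : sf79_Unif π B V₁ n z₁)
    (s₀ y y' : B) (hs₀ : s₀ ∉ n) (hdec : s₀ * z₁ = y + y')
    (hy : (algebraMap R F π)⁻¹ * (y : F) ∈ V₁) (hy' : (algebraMap R F π)⁻¹ * (y' : F) ∈ V₂)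
    (μ : ℕ) (u v e : B) (he : e ∉ n) (huv : u * v = algebraMap R B π ^ (μ + 1) * e)
    (hu : (algebraMap R F π)⁻¹ * (u : F) ∉ V₁)
    (s a : B) (hs : s ∉ n)
    (hdiv : (algebraMap R F π)⁻¹ * ((s : F) * (u : F) - (a : F) * (z₁ : F) ^ (μ + 1)) ∈ V₁) :
    ∃ z z' s s' : B, s ∉ n ∧ s' ∉ n ∧ (algebraMap R F π)⁻¹ * (z : F) ∈ V₁ ∧
      (algebraMap R F π)⁻¹ * (z' : F) ∈ V₂ ∧ s * z * z' = algebraMap R B π * s' := by
  obtain ⟨z, z', c, -, hz2, -, hc, hzz, hz'1⟩ :=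
    nb18_node_regen π B V₁ V₂ hB₁ hB₂ hπ₁ hV₁ hsat n h1 z₁ hz₁ s₀ y y' hs₀ hdec hy hy'
      μ u v e he huv hu s a hs hdiv
  refine ⟨z', z, 1, c, (Ideal.ne_top_iff_one n).mp hn.ne_top, hc, hz'1, hz2, ?_⟩
  rw [one_mul, mul_comm, hzz]

/-- `nb18_hnode` from the full transversality clause `sf79_Transv`. -/
theorem nb18_hnode_transv (π : R) (B : Subalgebra R F) (V₁ V₂ : Subring F)
    (hB₁ : ∀ x ∈ B, x ∈ V₁) (hB₂ : ∀ x ∈ B, x ∈ V₂)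
    (hπ₁ : (algebraMap R F π)⁻¹ ∉ V₁)
    (hV₁ : ∀ x ∈ V₁, (algebraMap R F π)⁻¹ * x ∉ V₁ → x⁻¹ ∈ V₁)
    (hsat : ∀ x ∈ B, (algebraMap R F π)⁻¹ * x ∈ V₁ → (algebraMap R F π)⁻¹ * x ∈ V₂ →
      (algebraMap R F π)⁻¹ * x ∈ B)
    (hT : sf79_Transv π B V₁ V₂)
    (n : Ideal B) (hn : n.IsMaximal) (hπn : algebraMap R B π ∈ n)
    (h1 : sf79_OnBr π B V₁ n) (h2 : sf79_OnBr π B V₂ n)
    (z₁ : B) (hz₁ : sf79_Unif π B V₁ n z₁)
    (μ : ℕ) (u v e : B) (he : e ∉ n) (huv : u * v = algebraMap R B π ^ (μ + 1) * e)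
    (hu : (algebraMap R F π)⁻¹ * (u : F) ∉ V₁)
    (s a : B) (hs : s ∉ n)
    (hdiv : (algebraMap R F π)⁻¹ * ((s : F) * (u : F) - (a : F) * (z₁ : F) ^ (μ + 1)) ∈ V₁) :
    ∃ z z' s s' : B, s ∉ n ∧ s' ∉ n ∧ (algebraMap R F π)⁻¹ * (z : F) ∈ V₁ ∧
      (algebraMap R F π)⁻¹ * (z' : F) ∈ V₂ ∧ s * z * z' = algebraMap R B π * s' := by
  haveI : n.IsPrime := hn.isPrime
  obtain ⟨s₀, hs₀, y, y', hdec, hy, hy'⟩ := hT n hn hπn h1 h2 z₁ hz₁.1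
  exact nb18_hnode π B V₁ V₂ hB₁ hB₂ hπ₁ hV₁ hsat n h1 z₁ hz₁ s₀ y y' hs₀ hdec hy hy'
    μ u v e he huv hu s a hs hdiv

end NB18b

end Fermat.Agent.S36
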