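import Mathlib
import Fermat.Agent.S34.BranchIso99
import Fermat.Agent.S34.SpecFibre79

/-!
# S36 lab, row C-REGq, sub-part (helper19): the reduction hom `B_n → O` onto the DVR of a
branch at a closed point, with `O` embedded in the target field of the reduction

* `rh19_exists` (Mathlib only).  `B` a commutative ring (the chart), `ρ : B →+* L` a ring hom to
  a field `L` (the reduction of `q`-expansions, `L = κ((Q))`), `p = ker ρ` (the branch ideal) with
  `B ⧸ p` a Dedekind domain ((3a): the branch is a smooth curve), `n ⊇ p` a prime, `n ≠ p`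
  (a closed point of the branch).  Then there are a DISCRETE VALUATION RING `O`
  (`= (B ⧸ p)_n`), `φ : B →+* O` and an INJECTIVE `ψ : O →+* L` with `ψ ∘ φ = ρ`,
  `IsUnit (φ b) ↔ b ∉ n`, `φ b = 0 ↔ b ∈ p`, every element of `O` a quotient `φ a / φ s`
  (`s ∉ n`), and `φ z` a uniformizer of `O` for every local coordinate `z` of the branch at `n`.
  So identities between reductions, proved in `L`, hold in the DVR `O`, and orders at `n` of
  elements of `B` along the branch are `addVal`s in `O`.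
* `rh19_Red π B V ρ` / `rh19_exists_chart` : the same in the chart language of S34
  (`sf79_OnBr`, `sf79_Unif`, branch `B ∩ π V`), for a multiplicative-additive reduction
  `ρ : F → L` on `V` with kernel `π V`, plus the residue constants
  `c : ResidueField R →+* O`, `c (residue r) = φ r`  (so `Polynomial.eval₂ c (φ J)` is available).

All names are prefixed `rh19_`.
-/

set_option autoImplicit false

universe u v

namespace Fermat.Agent.S36

open Fermat.Agent.S34

section rh19_abs

/-- **The DVR of a branch at a closed point, inside the target of the reduction.** -/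
theorem rh19_exists {B : Type u} [CommRing B] {L : Type v} [Field L] (ρ : B →+* L)
    (p : Ideal B) (hker : ∀ x : B, ρ x = 0 ↔ x ∈ p) [IsDedekindDomain (B ⧸ p)]
    (n : Ideal B) [hn : n.IsPrime] (hpn : p ≤ n) (hne : ∃ z ∈ n, z ∉ p) :
    ∃ (O : Type u) (_ : CommRing O) (_ : IsDomain O) (_ : IsDiscreteValuationRing O)
      (φ : B →+* O) (ψ : O →+* L),
      Function.Injective ψ ∧ (∀ b : B, ψ (φ b) = ρ b) ∧
      (∀ b : B, IsUnit (φ b) ↔ b ∉ n) ∧ (∀ b : B, φ b = 0 ↔ b ∈ p) ∧
      (∀ x : O, ∃ a s : B, s ∉ n ∧ x * φ s = φ a) ∧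
      (∀ z : B, z ∈ n → (∀ x ∈ n, ∃ s : B, s ∉ n ∧ ∃ a : B, s * x - a * z ∈ p) →
        Irreducible (φ z)) := by
  classical
  let D := B ⧸ p
  let mk : B →+* D := Ideal.Quotient.mk p
  have hmk : Function.Surjective mk := Ideal.Quotient.mk_surjective
  let N : Ideal D := n.map mk
  have hNprime : N.IsPrime :=
    Ideal.map_isPrime_of_surjective hmk (by rw [Ideal.mk_ker]; exact hpn)
  have hmemN : ∀ x : B, mk x ∈ N ↔ x ∈ n := fun x => Ideal.mem_quotient_iff_mem hpn
  have hNbot : N ≠ ⊥ := by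
    obtain ⟨z, hzn, hzp⟩ := hne
    intro h
    have h1 : mk z ∈ N := (hmemN z).mpr hzn
    rw [h, Ideal.mem_bot] at h1
    exact hzp (Ideal.Quotient.eq_zero_iff_mem.mp h1)
  let O := Localization.AtPrime N
  have hDVR : IsDiscreteValuationRing O :=
    IsLocalization.AtPrime.isDiscreteValuationRing_of_dedekind_domain D hNbot O
  have hinjO : Function.Injective (algebraMap D O) :=
    IsLocalization.injective O N.primeCompl_le_nonZeroDivisors
  -- the induced map `D → L`
  let ρ' : D →+* L := Ideal.Quotient.lift p ρ (fun a ha => (hker a).mpr ha)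
  have hρ'mk : ∀ b : B, ρ' (mk b) = ρ b := fun b => Ideal.Quotient.lift_mk p ρ _
  have hρ'inj : Function.Injective ρ' := by
    rw [injective_iff_map_eq_zero]
    intro x hx
    obtain ⟨b, rfl⟩ := hmk x
    rw [hρ'mk] at hx
    exact Ideal.Quotient.eq_zero_iff_mem.mpr ((hker b).mp hx)
  have hunit : ∀ y : N.primeCompl, IsUnit (ρ' (y : D)) := by
    intro y
    apply IsUnit.mk0
    intro h0
    have h1 : (y : D) = 0 := hρ'inj (by rw [h0, map_zero])
    exact y.2 (by rw [h1]; exact N.zero_mem)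
  let ψ : O →+* L := IsLocalization.lift (M := N.primeCompl) (S := O) hunit
  have hψ : ∀ d : D, ψ (algebraMap D O d) = ρ' d := fun d => IsLocalization.lift_eq hunit d
  have hψinj : Function.Injective ψ := by
    rw [IsLocalization.lift_injective_iff]
    intro x y
    constructor
    · intro h
      rw [hinjO h]
    · intro h
      rw [hρ'inj h]
  let φ : B →+* O := (algebraMap D O).comp mk
  have hφ : ∀ b : B, φ b = algebraMap D O (mk b) := fun _ => rfl
  have hφunit : ∀ b : B, IsUnit (φ b) ↔ b ∉ n := by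
    intro b
    rw [hφ, IsLocalization.AtPrime.isUnit_to_map_iff O N (mk b)]
    show mk b ∉ N ↔ b ∉ n
    rw [hmemN]
  have hφzero : ∀ b : B, φ b = 0 ↔ b ∈ p := by
    intro b
    rw [hφ]
    constructor
    · intro h
      have h1 : mk b = 0 := hinjO (by rw [h, map_zero])
      exact Ideal.Quotient.eq_zero_iff_mem.mp h1
    · intro h
      rw [Ideal.Quotient.eq_zero_iff_mem.mpr h, map_zero]
  have hsurj : ∀ x : O, ∃ a s : B, s ∉ n ∧ x * φ s = φ a := by
    intro x
    obtain ⟨⟨a, s⟩, has⟩ := IsLocalization.surj N.primeCompl x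
    obtain ⟨a', rfl⟩ := hmk a
    obtain ⟨s', hs'⟩ := hmk (s : D)
    refine ⟨a', s', ?_, ?_⟩
    · intro h
      apply s.2
      rw [← hs']
      exact (hmemN s').mpr h
    · rw [hφ, hφ, hs']
      exact has
  refine ⟨O, inferInstance, inferInstance, hDVR, φ, ψ, hψinj, ?_, hφunit, hφzero, hsurj, ?_⟩
  · intro b
    rw [hφ, hψ, hρ'mk]
  · intro z hzn hgen
    have := hDVR
    rw [IsDiscreteValuationRing.irreducible_iff_uniformizer]
    apply le_antisymm
    · intro x hx
      obtain ⟨a, s, hs, hxs⟩ := hsurj x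
      have hsu : IsUnit (φ s) := (hφunit s).mpr hs
      have han : a ∈ n := by
        by_contra han
        have hau : IsUnit (φ a) := (hφunit a).mpr han
        rw [← hxs] at hau
        exact (IsLocalRing.mem_maximalIdeal x).mp hx (isUnit_of_mul_isUnit_left hau)
      obtain ⟨s', hs', a', ha'⟩ := hgen a han
      have hs'u : IsUnit (φ s') := (hφunit s').mpr hs'
      have h1 : φ s' * φ a = φ a' * φ z := by
        have h2 := (hφzero _).mpr ha'
        rw [map_sub, map_mul, map_mul, sub_eq_zero] at h2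
        exact h2
      rw [Ideal.mem_span_singleton]
      obtain ⟨us, hus⟩ := hsu
      obtain ⟨us', hus'⟩ := hs'u
      refine ⟨φ a' * (us⁻¹ : Oˣ) * (us'⁻¹ : Oˣ), ?_⟩
      have h3 : x = φ a * (us⁻¹ : Oˣ) := by
        rw [← hxs, ← hus, mul_assoc, Units.mul_inv, mul_one]
      have h4 : φ a = φ a' * φ z * (us'⁻¹ : Oˣ) := by
        rw [← h1, ← hus', mul_comm (us' : O), mul_assoc, Units.mul_inv, mul_one]
      rw [h3, h4]
      ring
    · rw [Ideal.span_le, Set.singleton_subset_iff]
      exact (IsLocalRing.mem_maximalIdeal _).mpr (fun h => (hφunit z).mp h hzn)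

end rh19_abs

section rh19_chart

variable {R : Type*} [CommRing R] [IsLocalRing R] {F : Type u} [Field F] [Algebra R F]
  {L : Type v} [Field L]

/-- **(RED)** for the chart `B` along the branch of `V` (uniformizer `π`), with reduction
`ρ : F → L`: at every prime `n` of `B` on the branch and different from it there is a discrete
valuation ring `O` with `φ : B →+* O`, an injective `ψ : O →+* L`, `ψ (φ b) = ρ b`, and residue
constants `c : ResidueField R →+* O`. -/
def rh19_Red (π : R) (B : Subalgebra R F) (V : Subring F) (ρ : F → L) : Prop :=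
  ∀ n : Ideal B, n.IsPrime → sf79_OnBr π B V n →
    (∃ z ∈ n, (algebraMap R F π)⁻¹ * (z : F) ∉ V) →
    ∃ (O : Type u) (_ : CommRing O) (_ : IsDomain O) (_ : IsDiscreteValuationRing O)
      (φ : B →+* O) (ψ : O →+* L) (c : IsLocalRing.ResidueField R →+* O),
      Function.Injective ψ ∧ (∀ b : B, ψ (φ b) = ρ (b : F)) ∧
      (∀ b : B, IsUnit (φ b) ↔ b ∉ n) ∧
      (∀ b : B, φ b = 0 ↔ (algebraMap R F π)⁻¹ * (b : F) ∈ V) ∧
      (∀ x : O, ∃ a s : B, s ∉ n ∧ x * φ s = φ a) ∧
      (∀ z : B, sf79_Unif π B V n z → Irreducible (φ z)) ∧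
      (∀ r : R, c (IsLocalRing.residue R r) = φ (algebraMap R B r))

/-- **(RED) from the Dedekind property of the branch.**  `ρ` is additive and multiplicative on
`V` with `ρ 1 = 1` and kernel `π V`; the maximal ideal of `R` lies in `π V`. -/
theorem rh19_exists_chart (π : R) (B : Subalgebra R F) (V : Subring F)
    (hBV : ∀ x ∈ B, x ∈ V) (ρ : F → L) (hρ1 : ρ 1 = 1)
    (hρmul : ∀ x ∈ V, ∀ y ∈ V, ρ (x * y) = ρ x * ρ y)
    (hρadd : ∀ x ∈ V, ∀ y ∈ V, ρ (x + y) = ρ x + ρ y)
    (hker : ∀ x ∈ V, ρ x = 0 ↔ (algebraMap R F π)⁻¹ * x ∈ V)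
    (hmax : ∀ r ∈ IsLocalRing.maximalIdeal R, (algebraMap R F π)⁻¹ * algebraMap R F r ∈ V)
    [IsDedekindDomain (↥B ⧸ bi99_branch B V (algebraMap R F π) hBV)] :
    rh19_Red π B V ρ := by
  intro n hn hOn hne
  have := hn
  have h0 : ρ 0 = 0 := (hker 0 V.zero_mem).mpr (by rw [mul_zero]; exact V.zero_mem)
  let ρB : ↥B →+* L :=
    { toFun := fun b => ρ (b : F)
      map_one' := hρ1
      map_mul' := fun x y => hρmul _ (hBV x x.2) _ (hBV y y.2)
      map_zero' := h0
      map_add' := fun x y => hρadd _ (hBV x x.2) _ (hBV y y.2) }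
  have hkerB : ∀ x : ↥B, ρB x = 0 ↔ x ∈ bi99_branch B V (algebraMap R F π) hBV := fun x =>
    hker _ (hBV x x.2)
  have hpn : bi99_branch B V (algebraMap R F π) hBV ≤ n := fun x hx => hOn x hx
  obtain ⟨O, iC, iD, iV, φ, ψ, hψinj, hψφ, hunit, hzero, hsurj, hirr⟩ :=
    rh19_exists ρB (bi99_branch B V (algebraMap R F π) hBV) hkerB n hpn
      (by
        obtain ⟨z, hz, hzV⟩ := hne
        exact ⟨z, hz, hzV⟩)
  have hkill : ∀ r ∈ IsLocalRing.maximalIdeal R, (φ.comp (algebraMap R ↥B)) r = 0 := by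
    intro r hr
    show φ (algebraMap R ↥B r) = 0
    rw [hzero]
    exact hmax r hr
  let c : IsLocalRing.ResidueField R →+* O :=
    Ideal.Quotient.lift (IsLocalRing.maximalIdeal R) (φ.comp (algebraMap R ↥B)) hkill
  refine ⟨O, iC, iD, iV, φ, ψ, c, hψinj, hψφ, hunit, hzero, hsurj, ?_, ?_⟩
  · intro z hz
    refine hirr z hz.1 (fun x hx => ?_)
    obtain ⟨s, hs, a, ha⟩ := hz.2 x hx
    exact ⟨s, hs, a, ha⟩
  · intro r
    exact Ideal.Quotient.lift_mk (IsLocalRing.maximalIdeal R) (φ.comp (algebraMap R ↥B)) hkill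

end rh19_chart

end Fermat.Agent.S36
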