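import Fermat.Agent.S36.KappaMod56
import Fermat.Agent.S36.KappaDvd40
import Fermat.Agent.S36.RedHom19
import Fermat.Agent.S36.NodeRegen18

/-!
# S36 lab, row 599 C-REGq (helper56): binding (Z) and the regular node, chart language

* `rz56_eval`, `rz56_ne_zero`, `rz56_rel` : binding (Z).  For a ring `O` with an injective
  `ψ : O →+* κ((Q))`, constants `c : κ →+* O` and elements `jj`, `U0` of `O` lying over the
  `j`-series and over `dq56_U κ q` (the reduction of `Δ(Q)/Δ(Q^q)`), every identity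
  `ϑ^q S(j)^2 = ϑ N(j)` of `KappaMod56` becomes, in `O`, the relation `hrel`
  `U0 * N(jj)^6 = S(jj)^12 * W(jj)^(q-1)`, `W = X^4 (X - 1728)^3`, of `KappaDvd40`.
* `rz56_generic` : the generic case (`jj`, `jj - 1728` units of the discrete valuation ring `O`,
  `U0` not a unit): `ϖ^12 ∣ U0`.
* `rn56_Pow π B V n f m` : along the branch `V` at the point `n`, `f` is a unit times an
  `m`-th power: `s f ≡ a b^m` modulo `π V` with `s, a ∉ n`.
* `rn56_core` : chart language of `S34/SpecFibre79`; at a point `n` of both branches, with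
  the reduction datum `rh19_Red` of the first branch, a unit `U` of the first branch whose
  reduction is `dq56_U κ q`, `U V = π^12 ε`, `j` regular at `n` with reduction the `j`-series,
  and the three rigidity inputs (`j` a unit times a cube at `n` when it vanishes there,
  `j - 1728` a unit times a square at `n` when it vanishes there, `j` a unit times a fourth power
  when `q = 2`): the cleared `u = s_U U` satisfies `s u ≡ a z^12` modulo `π V₁` for every local
  coordinate `z` of the first branch at `n`.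
* `rn56_hnode` : the node clause in the literal shape of `tl71_reg_of_nodes`.

All names are prefixed `rz56_` / `rn56_`.
-/

set_option autoImplicit false
set_option linter.style.haveILetI false
set_option linter.unusedSectionVars false

open ModularCurve Polynomial

namespace Fermat.Agent.S36

noncomputable section

open Fermat.Agent.S18 Fermat.Agent.S28 Fermat.Agent.S34 Fermat.Agent.S37

section rz56

variable (κ : Type*) [Field κ] {O : Type*} [CommRing O]

/-- Evaluation at `jj` lies over evaluation at the `j`-series. -/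
theorem rz56_eval (ψ : O →+* LaurentSeries κ) (c : κ →+* O)
    (hc : ∀ a : κ, ψ (c a) = HahnSeries.C a) (jj : O) (hj : ψ jj = jqModC κ) (p : κ[X]) :
    ψ (Polynomial.eval₂RingHom c jj p) = aeval (jqModC κ) p := by
  rw [Polynomial.coe_eval₂RingHom, Polynomial.hom_eval₂, hj, aeval_def]
  congr 1
  ext1 a
  rw [RingHom.comp_apply, hc, algebraMap_laurentSeries_eq_single, HahnSeries.C_apply]

theorem rz56_ne_zero (ψ : O →+* LaurentSeries κ) (c : κ →+* O)
    (hc : ∀ a : κ, ψ (c a) = HahnSeries.C a) (jj : O) (hj : ψ jj = jqModC κ) (p : κ[X])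
    (hp : p ≠ 0) : Polynomial.eval₂RingHom c jj p ≠ 0 := by
  intro h0
  have h1 := rz56_eval κ ψ c hc jj hj p
  rw [h0, map_zero] at h1
  exact hp (transcendental_iff.mp (h63_transcendental_jqModC κ) p h1.symm)

/-- **Binding (Z).** -/
theorem rz56_rel (q : ℕ) (hq : q.Prime) [CharP κ q]
    (ψ : O →+* LaurentSeries κ) (hψ : Function.Injective ψ) (c : κ →+* O)
    (hc : ∀ a : κ, ψ (c a) = HahnSeries.C a) (jj U0 : O) (hj : ψ jj = jqModC κ)
    (hU : ψ U0 = dq56_U κ q) (S N : κ[X])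
    (h : partC_theta (jqModC κ) ^ q * (aeval (jqModC κ) S) ^ 2 =
      partC_theta (jqModC κ) * aeval (jqModC κ) N) :
    U0 * (Polynomial.eval₂RingHom c jj N) ^ 6 =
      (Polynomial.eval₂RingHom c jj S) ^ 12 *
        (Polynomial.eval₂RingHom c jj (X ^ 4 * (X - C (1728 : κ)) ^ 3)) ^ (q - 1) := by
  apply hψ
  have h1 := km56_U_rel κ q hq _ _ h
  have hW : ψ (Polynomial.eval₂RingHom c jj (X ^ 4 * (X - C (1728 : κ)) ^ 3)) =
      jqModC κ ^ 4 * (jqModC κ - 1728) ^ 3 := by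
    rw [rz56_eval κ ψ c hc jj hj, map_mul, map_pow, map_pow, map_sub, aeval_X, aeval_C]
    congr 3
    exact map_ofNat (algebraMap κ (LaurentSeries κ)) 1728
  have hN := rz56_eval κ ψ c hc jj hj N
  have hS := rz56_eval κ ψ c hc jj hj S
  calc ψ (U0 * (Polynomial.eval₂RingHom c jj N) ^ 6)
      = ψ U0 * ψ (Polynomial.eval₂RingHom c jj N) ^ 6 := by rw [map_mul, map_pow]
    _ = dq56_U κ q * aeval (jqModC κ) N ^ 6 := by rw [hU, hN]
    _ = aeval (jqModC κ) S ^ 12 * (jqModC κ ^ 4 * (jqModC κ - 1728) ^ 3) ^ (q - 1) := h1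
    _ = ψ (Polynomial.eval₂RingHom c jj S) ^ 12 *
          ψ (Polynomial.eval₂RingHom c jj (X ^ 4 * (X - C (1728 : κ)) ^ 3)) ^ (q - 1) := by
        rw [hS, hW]
    _ = _ := by rw [map_mul ψ, map_pow ψ, map_pow ψ]

end rz56

section rz56dvr

variable {O : Type*} [CommRing O] [IsDomain O] [IsDiscreteValuationRing O]

/-- In a discrete valuation ring, `x f = y b^m` with `x, y` units, `f ≠ 0`, `m ≠ 0` gives
`f = w ϖ^(m k)`. -/
theorem rz56_unit_pow (ϖ : O) (hϖ : Irreducible ϖ) (f x y b : O) (m : ℕ) (hm : m ≠ 0)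
    (hx : IsUnit x) (hy : IsUnit y) (hf : f ≠ 0) (h : x * f = y * b ^ m) :
    ∃ (k : ℕ) (w : Oˣ), f = w * ϖ ^ (m * k) := by
  have hb : b ≠ 0 := by
    rintro rfl
    rw [zero_pow hm, mul_zero] at h
    exact hf ((hx.mul_right_eq_zero).mp h)
  obtain ⟨k, u, hu⟩ := IsDiscreteValuationRing.eq_unit_mul_pow_irreducible hb hϖ
  obtain ⟨ux, rfl⟩ := hx
  obtain ⟨uy, rfl⟩ := hy
  refine ⟨k, ux⁻¹ * uy * u ^ m, ?_⟩
  have e : f = ((ux⁻¹ : Oˣ) : O) * ((ux : O) * f) := by
    rw [← mul_assoc, Units.inv_mul, one_mul]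
  rw [e, h, hu, mul_pow, ← pow_mul]
  push_cast
  ring

theorem rz56_dvd_one (ϖ : O) (hϖ : Irreducible ϖ) (f x y b : O) (m : ℕ) (hm : m ≠ 0)
    (hx : IsUnit x) (hy : IsUnit y) (hf : f ≠ 0) (hfn : ¬ IsUnit f) (h : x * f = y * b ^ m) :
    ϖ ^ m ∣ f := by
  obtain ⟨k, w, hw⟩ := rz56_unit_pow ϖ hϖ f x y b m hm hx hy hf h
  have hk : k ≠ 0 := by
    rintro rfl
    apply hfn
    rw [hw, mul_zero, pow_zero, mul_one]
    exact w.isUnit
  rw [hw]
  exact Dvd.dvd.mul_left
    (pow_dvd_pow ϖ (Nat.le_mul_of_pos_right m (Nat.pos_of_ne_zero hk))) _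

theorem rz56_dvd_two (ϖ : O) (hϖ : Irreducible ϖ) (f x y b x' y' b' : O) (m m' e : ℕ)
    (hm : m ≠ 0) (hm' : m' ≠ 0) (hx : IsUnit x) (hy : IsUnit y) (hx' : IsUnit x')
    (hy' : IsUnit y') (hf : f ≠ 0) (hfn : ¬ IsUnit f)
    (h : x * f = y * b ^ m) (h' : x' * f = y' * b' ^ m')
    (he : ∀ k k' : ℕ, k ≠ 0 → m * k = m' * k' → e ≤ m * k) :
    ϖ ^ e ∣ f := by
  obtain ⟨k, w, hw⟩ := rz56_unit_pow ϖ hϖ f x y b m hm hx hy hf h
  obtain ⟨k', w', hw'⟩ := rz56_unit_pow ϖ hϖ f x' y' b' m' hm' hx' hy' hf h'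
  have hk : k ≠ 0 := by
    rintro rfl
    apply hfn
    rw [hw, mul_zero, pow_zero, mul_one]
    exact w.isUnit
  have hkk : m * k = m' * k' :=
    IsDiscreteValuationRing.unit_mul_pow_congr_pow hϖ hϖ w w' _ _ (hw.symm.trans hw')
  rw [hw]
  exact Dvd.dvd.mul_left (pow_dvd_pow ϖ (he k k' hk hkk)) _

/-- **The generic case** (`W(jj)` a unit): `ϖ^12 ∣ U0`. -/
theorem rz56_generic {k : Type*} [Field k] (φ : k[X] →+* O) (q : ℕ) (ϖ : O)
    (hϖ : Irreducible ϖ) (U0 : O) (hUn : ¬ IsUnit U0) (P₀ S₀ a b c d : k[X])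
    (hab : a * S₀ + b * derivative S₀ = 1) (hcd : c * P₀ + d * S₀ = 1)
    (hW : IsUnit (φ (X ^ 4 * (X - C (1728 : k)) ^ 3)))
    (hrel : U0 * φ (derivative P₀ * S₀ - P₀ * derivative S₀ + X ^ (q - 1) * S₀ ^ 2) ^ 6 =
      φ S₀ ^ 12 * φ (X ^ 4 * (X - C (1728 : k)) ^ 3) ^ (q - 1)) :
    ϖ ^ 12 ∣ U0 := by
  have hSn : ¬ IsUnit (φ S₀) := by
    intro hS
    have h1 : IsUnit (U0 *
        φ (derivative P₀ * S₀ - P₀ * derivative S₀ + X ^ (q - 1) * S₀ ^ 2) ^ 6) :=
      hrel ▸ (hS.pow 12).mul (hW.pow (q - 1))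
    exact hUn (isUnit_of_mul_isUnit_left h1)
  have hSm : φ S₀ ∈ IsLocalRing.maximalIdeal O := (IsLocalRing.mem_maximalIdeal _).mpr hSn
  have hP : IsUnit (φ P₀) := by
    by_contra hPn
    have hPm : φ P₀ ∈ IsLocalRing.maximalIdeal O := (IsLocalRing.mem_maximalIdeal _).mpr hPn
    have h1 : (1 : O) ∈ IsLocalRing.maximalIdeal O := by
      have h2 := congrArg φ hcd
      rw [map_add, map_mul, map_mul, map_one] at h2
      rw [← h2]
      exact Ideal.add_mem _ (Ideal.mul_mem_left _ _ hPm) (Ideal.mul_mem_left _ _ hSm)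
    exact (IsLocalRing.mem_maximalIdeal _).mp h1 isUnit_one
  have hS' : IsUnit (φ (derivative S₀)) := by
    by_contra hPn
    have hPm : φ (derivative S₀) ∈ IsLocalRing.maximalIdeal O :=
      (IsLocalRing.mem_maximalIdeal _).mpr hPn
    have h1 : (1 : O) ∈ IsLocalRing.maximalIdeal O := by
      have h2 := congrArg φ hab
      rw [map_add, map_mul, map_mul, map_one] at h2
      rw [← h2]
      exact Ideal.add_mem _ (Ideal.mul_mem_left _ _ hSm) (Ideal.mul_mem_left _ _ hPm)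
    exact (IsLocalRing.mem_maximalIdeal _).mp h1 isUnit_one
  have hN : IsUnit (φ (derivative P₀ * S₀ - P₀ * derivative S₀ + X ^ (q - 1) * S₀ ^ 2)) := by
    by_contra hNn
    have hNm := (IsLocalRing.mem_maximalIdeal _).mpr hNn
    have h1 : φ P₀ * φ (derivative S₀) ∈ IsLocalRing.maximalIdeal O := by
      have e : φ P₀ * φ (derivative S₀) =
          (φ (derivative P₀) + φ X ^ (q - 1) * φ S₀) * φ S₀ -
            φ (derivative P₀ * S₀ - P₀ * derivative S₀ + X ^ (q - 1) * S₀ ^ 2) := by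
        simp only [map_add, map_sub, map_mul, map_pow]
        ring
      rw [e]
      exact Ideal.sub_mem _ (Ideal.mul_mem_left _ _ hSm) hNm
    exact (IsLocalRing.mem_maximalIdeal _).mp h1 (hP.mul hS')
  exact k1d40_generic ϖ hϖ q U0 _ _ _ hN hW hUn hrel

end rz56dvr

section rn56

universe u

variable {R : Type*} [CommRing R] [IsLocalRing R] {F : Type u} [Field F] [Algebra R F]

/-- Along the branch `V` at the point `n`, `f` is a unit times an `m`-th power:
`s f ≡ a b^m` modulo `π V` with `s, a ∉ n`. -/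
def rn56_Pow (π : R) (B : Subalgebra R F) (V : Subring F) (n : Ideal B) (f : F) (m : ℕ) :
    Prop :=
  ∃ s a b : B, s ∉ n ∧ a ∉ n ∧
    (algebraMap R F π)⁻¹ * ((s : F) * f - (a : F) * (b : F) ^ m) ∈ V

/-- An exact equation `s f = a b^m` gives `rn56_Pow`. -/
theorem rn56_pow_of_eq (π : R) (B : Subalgebra R F) (V : Subring F) (n : Ideal B) (f : F)
    (m : ℕ) (s a b : B) (hs : s ∉ n) (ha : a ∉ n) (h : (s : F) * f = (a : F) * (b : F) ^ m) :
    rn56_Pow π B V n f m :=
  ⟨s, a, b, hs, ha, by rw [h, sub_self, mul_zero]; exact V.zero_mem⟩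

/-- `rn56_Pow` read in the ring `O` of the branch at `n`. -/
theorem rn56_pow_O (π : R) (B : Subalgebra R F) (V : Subring F) (hBV : ∀ x ∈ B, x ∈ V)
    (n : Ideal B) {O : Type*} [CommRing O] (φ : B →+* O)
    (hunit : ∀ b : B, IsUnit (φ b) ↔ b ∉ n)
    (hzero : ∀ b : B, φ b = 0 ↔ (algebraMap R F π)⁻¹ * (b : F) ∈ V)
    (f : F) (m : ℕ) (sf bf : B) (hsf : sf ∉ n) (hbf : (sf : F) * f = bf)
    (h : rn56_Pow π B V n f m) :
    ∃ x y b : O, IsUnit x ∧ IsUnit y ∧ x * φ bf = y * b ^ m := by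
  obtain ⟨s, a, b, hs, ha, hmem⟩ := h
  refine ⟨φ s, φ sf * φ a, φ b, (hunit s).mpr hs,
    ((hunit sf).mpr hsf).mul ((hunit a).mpr ha), ?_⟩
  have h1 : φ (s * bf - sf * a * b ^ m) = 0 := by
    rw [hzero]
    have e : (((s * bf - sf * a * b ^ m : B)) : F) =
        (sf : F) * ((s : F) * f - (a : F) * (b : F) ^ m) := by
      push_cast
      rw [← hbf]
      ring
    rw [e, ← mul_assoc, mul_comm _ (sf : F), mul_assoc]
    exact V.mul_mem (hBV _ sf.2) hmem
  rw [map_sub, map_mul, map_mul, map_mul, map_pow, sub_eq_zero] at h1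
  exact h1

/-- **The divisibility `z^12 ∣ u` on the first branch at a point of both branches**
(chart language). -/
theorem rn56_core (q : ℕ) (hq : q.Prime) [CharP (IsLocalRing.ResidueField R) q]
    (π : R) (B : Subalgebra R F) (V₁ V₂ : Subring F)
    (hB₁ : ∀ x ∈ B, x ∈ V₁) (hB₂ : ∀ x ∈ B, x ∈ V₂)
    (hπ₁ : (algebraMap R F π)⁻¹ ∉ V₁)
    (hV₁ : ∀ x ∈ V₁, (algebraMap R F π)⁻¹ * x ∉ V₁ → x⁻¹ ∈ V₁)
    (ρ : F → LaurentSeries (IsLocalRing.ResidueField R))
    (hρmul : ∀ x ∈ V₁, ∀ y ∈ V₁, ρ (x * y) = ρ x * ρ y)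
    (hρC : ∀ r : R, ρ (algebraMap R F r) = HahnSeries.C (IsLocalRing.residue R r))
    (hRed : rh19_Red π B V₁ ρ)
    (n : Ideal B) [hn : n.IsMaximal]
    (h1 : sf79_OnBr π B V₁ n) (h2 : sf79_OnBr π B V₂ n)
    (z : B) (hz : sf79_Unif π B V₁ n z)
    (J U V : F) (ε : R) (hε : IsUnit ε)
    (hUV : U * V = algebraMap R F (π ^ 12 * ε))
    (hUinv : U⁻¹ ∈ V₁) (hU₂ : (algebraMap R F π)⁻¹ * U ∈ V₂)
    (hUV₁ : U ∈ V₁) (hJV₁ : J ∈ V₁)
    (hρJ : ρ J = jqModC (IsLocalRing.ResidueField R))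
    (hρU : ρ U = dq56_U (IsLocalRing.ResidueField R) q)
    (sJ bJ : B) (hsJ : sJ ∉ n) (hbJ : (sJ : F) * J = bJ)
    (sU bU : B) (hsU : sU ∉ n) (hbU : (sU : F) * U = bU)
    (sV bV : B) (hsV : sV ∉ n) (hbV : (sV : F) * V = bV)
    (h0 : bJ ∈ n → rn56_Pow π B V₁ n J 3)
    (h1728 : bJ - 1728 * sJ ∈ n → rn56_Pow π B V₁ n (J - 1728) 2)
    (h4 : q = 2 → bJ ∈ n → rn56_Pow π B V₁ n J 4) :
    ∃ e s a : B, e ∉ n ∧ bU * bV = algebraMap R B π ^ 12 * e ∧
      (algebraMap R F π)⁻¹ * (bU : F) ∉ V₁ ∧ s ∉ n ∧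
      (algebraMap R F π)⁻¹ * ((s : F) * (bU : F) - (a : F) * (z : F) ^ 12) ∈ V₁ := by
  classical
  haveI hnp : n.IsPrime := hn.isPrime
  have hp0 : algebraMap R F π ≠ 0 := fun h0 => hπ₁ (by rw [h0, inv_zero]; exact V₁.zero_mem)
  have hεF : IsUnit (algebraMap R F ε) := hε.map _
  have hU0 : U ≠ 0 := by
    rintro rfl
    rw [zero_mul, map_mul, map_pow] at hUV
    exact mul_ne_zero (pow_ne_zero 12 hp0) hεF.ne_zero hUV.symm
  have hsUinv : (sU : F)⁻¹ ∈ V₁ := sf79_inv_mem π B V₁ hB₁ hV₁ n h1 sU hsU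
  have hsU0 : (sU : F) ≠ 0 := sf79_ne_zero B n sU hsU
  have hu : (algebraMap R F π)⁻¹ * (bU : F) ∉ V₁ := by
    intro h
    apply hπ₁
    have e : (algebraMap R F π)⁻¹ =
        ((algebraMap R F π)⁻¹ * (bU : F)) * ((sU : F)⁻¹ * U⁻¹) := by
      rw [← hbU]
      field_simp
    rw [e]
    exact V₁.mul_mem h (V₁.mul_mem hsUinv hUinv)
  have hbUn : bU ∈ n := by
    apply h2
    rw [← hbU, ← mul_assoc, mul_comm (algebraMap R F π)⁻¹, mul_assoc]
    exact V₂.mul_mem (hB₂ _ sU.2) hU₂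
  obtain ⟨O, iC, iD, iV, φ, ψ, c, hψinj, hψφ, hunit, hzero, hsurj, hirr, hc⟩ :=
    hRed n hnp h1 ⟨bU, hbUn, hu⟩
  have hϖ : Irreducible (φ z) := hirr z hz
  -- constants
  have hcψ : ∀ a : IsLocalRing.ResidueField R, ψ (c a) = HahnSeries.C a := by
    intro a
    obtain ⟨r, rfl⟩ := IsLocalRing.residue_surjective a
    rw [hc, hψφ]
    exact hρC r
  -- the values of `J` and `U` in `O`
  obtain ⟨uJ, huJ⟩ := (hunit sJ).mpr hsJ
  obtain ⟨uU, huU⟩ := (hunit sU).mpr hsU
  obtain ⟨jj, hjj⟩ : ∃ jj : O, jj = φ bJ * ((uJ⁻¹ : Oˣ) : O) := ⟨_, rfl⟩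
  obtain ⟨U0, hU0def⟩ : ∃ U0 : O, U0 = φ bU * ((uU⁻¹ : Oˣ) : O) := ⟨_, rfl⟩
  have hjjs : jj * φ sJ = φ bJ := by rw [hjj, ← huJ, mul_assoc, Units.inv_mul, mul_one]
  have hU0s : U0 * φ sU = φ bU := by rw [hU0def, ← huU, mul_assoc, Units.inv_mul, mul_one]
  have hψs : ∀ s : B, s ∉ n → ψ (φ s) ≠ 0 := fun s hs h0 =>
    ((hunit s).mpr hs).ne_zero (hψinj (by rw [h0, map_zero]))
  have hψjj : ψ jj = jqModC (IsLocalRing.ResidueField R) := by
    have e : ψ jj * ψ (φ sJ) = ρ J * ψ (φ sJ) := by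
      rw [← map_mul, hjjs, hψφ, hψφ, ← hbJ, hρmul _ (hB₁ _ sJ.2) _ hJV₁, mul_comm]
    rw [← hρJ]
    exact mul_right_cancel₀ (hψs sJ hsJ) e
  have hψU0 : ψ U0 = dq56_U (IsLocalRing.ResidueField R) q := by
    have e : ψ U0 * ψ (φ sU) = ρ U * ψ (φ sU) := by
      rw [← map_mul, hU0s, hψφ, hψφ, ← hbU, hρmul _ (hB₁ _ sU.2) _ hUV₁, mul_comm]
    rw [← hρU]
    exact mul_right_cancel₀ (hψs sU hsU) e
  have hU0n : ¬ IsUnit U0 := by
    intro h
    have h3 : IsUnit (φ bU) := hU0s ▸ h.mul ((hunit sU).mpr hsU)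
    exact (hunit bU).mp h3 hbUn
  -- the relation
  obtain ⟨P₀, S₀, a, b, c', d, hab, hcd, hid⟩ :=
    km56_reduced (IsLocalRing.ResidueField R) q hq
  have hrel := rz56_rel (IsLocalRing.ResidueField R) q hq ψ hψinj c hcψ jj U0 hψjj hψU0 S₀ _ hid
  have hS₀ : S₀ ≠ 0 := by
    rintro rfl
    simp at hab
  have hφS : Polynomial.eval₂RingHom c jj S₀ ≠ 0 :=
    rz56_ne_zero (IsLocalRing.ResidueField R) ψ c hcψ jj hψjj S₀ hS₀
  have hφ'X : Polynomial.eval₂RingHom c jj X = jj := by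
    rw [Polynomial.coe_eval₂RingHom, Polynomial.eval₂_X]
  have hφ'C : ∀ a : IsLocalRing.ResidueField R, Polynomial.eval₂RingHom c jj (C a) = c a := by
    intro a
    rw [Polynomial.coe_eval₂RingHom, Polynomial.eval₂_C]
  have hc1728 : c (1728 : IsLocalRing.ResidueField R) = φ (1728 : B) := by
    have h3 := hc (1728 : R)
    rw [map_ofNat (IsLocalRing.residue R) 1728, map_ofNat (algebraMap R ↥B) 1728] at h3
    exact h3
  have hjj0 : jj ≠ 0 := by
    have h3 := rz56_ne_zero (IsLocalRing.ResidueField R) ψ c hcψ jj hψjj X X_ne_zero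
    rwa [hφ'X] at h3
  have e1728 : ((1728 : B) : F) = (1728 : F) := by
    rw [← map_ofNat (algebraMap R ↥B) 1728]
    exact map_ofNat (algebraMap R F) 1728
  have hsub : ((sJ : F) * (J - 1728) : F) = ((bJ - 1728 * sJ : B) : F) := by
    have e0 : ((bJ - 1728 * sJ : B) : F) = (bJ : F) - ((1728 : B) : F) * (sJ : F) := rfl
    rw [e0, e1728, ← hbJ]
    ring
  -- the key divisibility
  have hdvd : φ z ^ 12 ∣ U0 := by
    by_cases hjju : IsUnit jj
    · by_cases hjj1 : IsUnit (jj - c 1728)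
      · -- generic
        refine rz56_generic (Polynomial.eval₂RingHom c jj) q (φ z) hϖ U0 hU0n P₀ S₀ a b c' d
          hab hcd ?_ hrel
        rw [map_mul, map_pow, map_pow, map_sub, hφ'X, hφ'C]
        exact (hjju.pow 4).mul (hjj1.pow 3)
      · -- over 1728
        have h1728ne : (1728 : IsLocalRing.ResidueField R) ≠ 0 := by
          intro h0
          apply hjj1
          rw [h0, map_zero, sub_zero]
          exact hjju
        have hqodd : q % 2 = 1 := by
          rcases hq.eq_two_or_odd with h | h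
          · exfalso
            apply h1728ne
            have h3 := (CharP.cast_eq_zero_iff (IsLocalRing.ResidueField R) q 1728).mpr
              (by rw [h]; norm_num)
            simpa using h3
          · exact h
        have hmem : bJ - 1728 * sJ ∈ n := by
          by_contra hnot
          apply hjj1
          have h3 : IsUnit (φ (bJ - 1728 * sJ)) := (hunit _).mpr hnot
          have e : φ (bJ - 1728 * sJ) = (jj - c 1728) * φ sJ := by
            rw [map_sub, map_mul, ← hjjs, hc1728]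
            ring
          rw [e] at h3
          exact isUnit_of_mul_isUnit_left h3
        obtain ⟨x, y, b', hx, hy, hxy⟩ := rn56_pow_O π B V₁ hB₁ n φ hunit hzero (J - 1728) 2
          sJ (bJ - 1728 * sJ) hsJ hsub (h1728 hmem)
        have e1 : Polynomial.eval₂RingHom c jj (X - C (1728 : IsLocalRing.ResidueField R)) =
            jj - c 1728 := by rw [map_sub, hφ'X, hφ'C]
        have ha0 : Polynomial.eval₂RingHom c jj (X - C (1728 : IsLocalRing.ResidueField R)) ≠ 0 :=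
          rz56_ne_zero (IsLocalRing.ResidueField R) ψ c hcψ jj hψjj _ (X_sub_C_ne_zero _)
        have he0 : φ z ^ 2 ∣
            Polynomial.eval₂RingHom c jj (X - C (1728 : IsLocalRing.ResidueField R)) := by
          rw [e1] at ha0 ⊢
          refine rz56_dvd_one (φ z) hϖ _ (x * φ sJ) y b' 2 (by norm_num)
            (hx.mul ((hunit sJ).mpr hsJ)) hy ha0 hjj1 ?_
          rw [← hxy, map_sub, map_mul, ← hjjs, hc1728]
          ring
        exact k1d40_at_1728 (Polynomial.eval₂RingHom c jj) q hqodd h1728ne (φ z) hϖ U0 hU0n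
          S₀ _ hφS hrel ha0 he0
    · -- over 0
      have hmem : bJ ∈ n := by
        by_contra hnot
        apply hjju
        have h3 : IsUnit (φ bJ) := (hunit _).mpr hnot
        rw [← hjjs] at h3
        exact isUnit_of_mul_isUnit_left h3
      obtain ⟨x, y, b', hx, hy, hxy⟩ := rn56_pow_O π B V₁ hB₁ n φ hunit hzero J 3
        sJ bJ hsJ hbJ (h0 hmem)
      have hxy' : (x * φ sJ) * jj = y * b' ^ 3 := by
        rw [← hxy, ← hjjs]
        ring
      have hxu : IsUnit (x * φ sJ) := hx.mul ((hunit sJ).mpr hsJ)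
      have hX0 : Polynomial.eval₂RingHom c jj X ≠ 0 := by rwa [hφ'X]
      by_cases hq2 : q = 2
      · subst hq2
        have h1728z : (1728 : IsLocalRing.ResidueField R) = 0 := by
          have h3 := (CharP.cast_eq_zero_iff (IsLocalRing.ResidueField R) 2 1728).mpr
            (by norm_num)
          simpa using h3
        obtain ⟨x4, y4, b4, hx4, hy4, hxy4⟩ := rn56_pow_O π B V₁ hB₁ n φ hunit hzero J 4
          sJ bJ hsJ hbJ (h4 rfl hmem)
        have hxy4' : (x4 * φ sJ) * jj = y4 * b4 ^ 4 := by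
          rw [← hxy4, ← hjjs]
          ring
        have he0 : φ z ^ 12 ∣ Polynomial.eval₂RingHom c jj X := by
          rw [hφ'X]
          exact rz56_dvd_two (φ z) hϖ jj _ y b' _ y4 b4 3 4 12 (by norm_num) (by norm_num)
            hxu hy (hx4.mul ((hunit sJ).mpr hsJ)) hy4 hjj0 hjju hxy' hxy4'
            (by intro k k' hk hkk; omega)
        exact k1d40_char_two (Polynomial.eval₂RingHom c jj) h1728z (φ z) hϖ U0 hU0n
          S₀ _ hφS hrel hX0 he0
      · by_cases hq3 : q = 3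
        · subst hq3
          have h1728z : (1728 : IsLocalRing.ResidueField R) = 0 := by
            have h3 := (CharP.cast_eq_zero_iff (IsLocalRing.ResidueField R) 3 1728).mpr
              (by norm_num)
            simpa using h3
          have hc0 : φ (1728 : B) = 0 := by rw [← hc1728, h1728z, map_zero]
          have hmem' : bJ - 1728 * sJ ∈ n := by
            have h3 : (1728 : B) ∈ n := by
              by_contra hnot
              have h4 := (hunit _).mpr hnot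
              rw [hc0] at h4
              exact not_isUnit_zero h4
            exact n.sub_mem hmem (n.mul_mem_right _ h3)
          obtain ⟨x2, y2, b2, hx2, hy2, hxy2⟩ := rn56_pow_O π B V₁ hB₁ n φ hunit hzero
            (J - 1728) 2 sJ (bJ - 1728 * sJ) hsJ hsub (h1728 hmem')
          have hxy2' : (x2 * φ sJ) * jj = y2 * b2 ^ 2 := by
            rw [← hxy2, map_sub, map_mul, hc0, ← hjjs]
            ring
          have he0 : φ z ^ 6 ∣ Polynomial.eval₂RingHom c jj X := by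
            rw [hφ'X]
            exact rz56_dvd_two (φ z) hϖ jj _ y b' _ y2 b2 3 2 6 (by norm_num) (by norm_num)
              hxu hy (hx2.mul ((hunit sJ).mpr hsJ)) hy2 hjj0 hjju hxy' hxy2'
              (by intro k k' hk hkk; omega)
          exact k1d40_char_three (Polynomial.eval₂RingHom c jj) h1728z (φ z) hϖ U0 hU0n
            S₀ _ hφS hrel hX0 he0
        · have h1728ne : (1728 : IsLocalRing.ResidueField R) ≠ 0 := by
            intro h0
            have h3 : q ∣ 1728 :=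
              (CharP.cast_eq_zero_iff (IsLocalRing.ResidueField R) q 1728).mp (by simpa using h0)
            have h4 : q ∣ 2 ^ 6 * 3 ^ 3 := by
              have e : (2 : ℕ) ^ 6 * 3 ^ 3 = 1728 := by norm_num
              rw [e]
              exact h3
            rcases (Nat.Prime.dvd_mul hq).mp h4 with h5 | h5
            · exact hq2 ((Nat.prime_dvd_prime_iff_eq hq Nat.prime_two).mp
                (hq.dvd_of_dvd_pow h5))
            · exact hq3 ((Nat.prime_dvd_prime_iff_eq hq Nat.prime_three).mp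
                (hq.dvd_of_dvd_pow h5))
          have hq3' : q % 3 ≠ 0 := by
            intro h
            exact hq3 ((Nat.prime_dvd_prime_iff_eq Nat.prime_three hq).mp
              (Nat.dvd_of_mod_eq_zero h)).symm
          have he0 : φ z ^ 3 ∣ Polynomial.eval₂RingHom c jj X := by
            rw [hφ'X]
            exact rz56_dvd_one (φ z) hϖ jj _ y b' 3 (by norm_num) hxu hy hjj0 hjju hxy'
          exact k1d40_at_zero (Polynomial.eval₂RingHom c jj) q hq3' h1728ne (φ z) hϖ U0 hU0n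
            S₀ _ hφS hrel hX0 he0
  -- back to the chart
  obtain ⟨x, hx⟩ := hdvd
  obtain ⟨a', s', hs', hxs⟩ := hsurj x
  refine ⟨sU * sV * algebraMap R B ε, s', a' * sU, ?_, ?_, hu, hs', ?_⟩
  · intro hmem
    rcases hnp.mem_or_mem hmem with h | h
    · rcases hnp.mem_or_mem h with h | h
      · exact hsU h
      · exact hsV h
    · exact hnp.ne_top (Ideal.eq_top_of_isUnit_mem _ h (hε.map _))
  · apply Subtype.ext
    have e1 : ((bU * bV : B) : F) = (sU : F) * (sV : F) * (U * V) := by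
      push_cast
      rw [← hbU, ← hbV]
      ring
    have e2 : ((algebraMap R B π ^ 12 * (sU * sV * algebraMap R B ε) : B) : F) =
        (sU : F) * (sV : F) * algebraMap R F (π ^ 12 * ε) := by
      have e3 : ((algebraMap R B π ^ 12 * (sU * sV * algebraMap R B ε) : B) : F) =
          algebraMap R F π ^ 12 * ((sU : F) * (sV : F) * algebraMap R F ε) := rfl
      rw [e3, map_mul, map_pow]
      ring
    rw [e1, e2, hUV]
  · have h3 : φ (s' * bU - a' * sU * z ^ 12) = 0 := by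
      rw [map_sub, map_mul, map_mul, map_mul, map_pow, ← hU0s, hx, ← hxs]
      ring
    have h4 := (hzero _).mp h3
    have e : (((s' * bU - a' * sU * z ^ 12 : B)) : F) =
        (s' : F) * (bU : F) - ((a' * sU : B) : F) * (z : F) ^ 12 := by
      push_cast
      ring
    rwa [e] at h4

/-- **The node clause** in the literal shape of the hypothesis `hnode` of `tl71_reg_of_nodes`
(`S36/TripleReg71`), at one point `n` of both branches. -/
theorem rn56_hnode (q : ℕ) (hq : q.Prime) [CharP (IsLocalRing.ResidueField R) q]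
    (π : R) (B : Subalgebra R F) (V₁ V₂ : Subring F)
    (hB₁ : ∀ x ∈ B, x ∈ V₁) (hB₂ : ∀ x ∈ B, x ∈ V₂)
    (hπ₁ : (algebraMap R F π)⁻¹ ∉ V₁)
    (hV₁ : ∀ x ∈ V₁, (algebraMap R F π)⁻¹ * x ∉ V₁ → x⁻¹ ∈ V₁)
    (hsat : ∀ x ∈ B, (algebraMap R F π)⁻¹ * x ∈ V₁ → (algebraMap R F π)⁻¹ * x ∈ V₂ →
      (algebraMap R F π)⁻¹ * x ∈ B)
    (hT : sf79_Transv π B V₁ V₂)
    (ρ : F → LaurentSeries (IsLocalRing.ResidueField R))
    (hρmul : ∀ x ∈ V₁, ∀ y ∈ V₁, ρ (x * y) = ρ x * ρ y)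
    (hρC : ∀ r : R, ρ (algebraMap R F r) = HahnSeries.C (IsLocalRing.residue R r))
    (hRed : rh19_Red π B V₁ ρ)
    (n : Ideal B) (hn : n.IsMaximal) (hπn : algebraMap R B π ∈ n)
    (h1 : sf79_OnBr π B V₁ n) (h2 : sf79_OnBr π B V₂ n)
    (z : B) (hz : sf79_Unif π B V₁ n z)
    (J U V : F) (ε : R) (hε : IsUnit ε)
    (hUV : U * V = algebraMap R F (π ^ 12 * ε))
    (hUinv : U⁻¹ ∈ V₁) (hU₂ : (algebraMap R F π)⁻¹ * U ∈ V₂)
    (hUV₁ : U ∈ V₁) (hJV₁ : J ∈ V₁)
    (hρJ : ρ J = jqModC (IsLocalRing.ResidueField R))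
    (hρU : ρ U = dq56_U (IsLocalRing.ResidueField R) q)
    (sJ bJ : B) (hsJ : sJ ∉ n) (hbJ : (sJ : F) * J = bJ)
    (sU bU : B) (hsU : sU ∉ n) (hbU : (sU : F) * U = bU)
    (sV bV : B) (hsV : sV ∉ n) (hbV : (sV : F) * V = bV)
    (h0 : bJ ∈ n → rn56_Pow π B V₁ n J 3)
    (h1728 : bJ - 1728 * sJ ∈ n → rn56_Pow π B V₁ n (J - 1728) 2)
    (h4 : q = 2 → bJ ∈ n → rn56_Pow π B V₁ n J 4) :
    ∃ z z' s s' : B, s ∉ n ∧ s' ∉ n ∧ (algebraMap R F π)⁻¹ * (z : F) ∈ V₁ ∧
      (algebraMap R F π)⁻¹ * (z' : F) ∈ V₂ ∧ s * z * z' = algebraMap R B π * s' := by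
  haveI := hn
  obtain ⟨e, s, a, he, huv, hu, hs, hdiv⟩ := rn56_core q hq π B V₁ V₂ hB₁ hB₂ hπ₁ hV₁ ρ hρmul hρC
    hRed n h1 h2 z hz J U V ε hε hUV hUinv hU₂ hUV₁ hJV₁ hρJ hρU sJ bJ hsJ hbJ sU bU hsU hbU
    sV bV hsV hbV h0 h1728 h4
  exact nb18_hnode_transv π B V₁ V₂ hB₁ hB₂ hπ₁ hV₁ hsat hT n hn hπn h1 h2 z hz 11 bU bV e he
    huv hu s a hs hdiv

end rn56

end

end Fermat.Agent.S36
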