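import Mathlib
import Fermat.Agent.S34.Iface47
import Fermat.Agent.S34.LocPrin9
import Fermat.Agent.S34.HorizUnit69
import Fermat.Agent.S36.LocPrinTwoGen9

/-!
# S36 lab, crux row C-REGq, sub-part (5) (helper43): rigidity transferred to the chart — abstract

`B` a noetherian chart with fraction field `F`, `V ⊇ B` its (one) vertical valuation ring with
uniformiser `π` (good level: smooth special fibre), `B` `π`-saturated in `V`, with the Krull
property; `n ∋ π` a closed point with `n B_n` 2-generated.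

* `rc43_locPrin_at` : the per-point (LP) of `lpz9_locPrin_at` with LOCAL hypotheses only:
  `m ∣ ord_O f` at the horizontal `O` THROUGH `n` (nothing is asked at the other places, e.g.
  at the cusps), and finitely many zeros and poles through `n`.
* `rc43_root` : **local `m`-th root structure.**  If moreover `f` is a unit of `V`, then
  `f = ε * c ^ m` with `ε` a unit of `B_n`; and `c ∈ B_n` if `f` is regular at `n`.

Application (`m = 3`, `f = j`, resp. `m = 2`, `f = j - 1728`, at a level without elliptic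
points, `ro27_modular_ord`): in the local ring of the chart at EVERY non-cuspidal closed point,
`j = ε c³` and `j - 1728 = ε' c'²`; on the special fibre `j̄ = ε̄ c̄³`, so the ramification index
of `j̄` at a point over `j = 0` is divisible by `3` (resp. by `2` over `1728`).

All names are prefixed `rc43_`.
-/

set_option autoImplicit false

namespace Fermat.Agent.S36

open Fermat.Agent.S34 Fermat.Agent.S18 Fermat.Agent.S35

section rc43_abs

variable {R F : Type*} [CommRing R] [Field F] [Algebra R F]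

/-- **(LP) at a 2-generated point, local hypotheses.**  Same proof as `lpz9_locPrin_at`; the
divisibility of the orders and the finiteness are only asked at the horizontal valuation rings
through `n`. -/
theorem rc43_locPrin_at (π : R) (hπ0 : algebraMap R F π ≠ 0) (B : Subalgebra R F)
    [IsNoetherianRing B]
    (hfrac : ∀ t : F, ∃ a ∈ B, ∃ b ∈ B, b ≠ 0 ∧ t * b = a)
    (n : Ideal B) (hn : n.IsMaximal) (hπn : algebraMap R B π ∈ n)
    (h2 : ∃ x y : B, x ∈ n ∧ y ∈ n ∧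
      ∀ v ∈ n, ∃ s : B, s ∉ n ∧ ∃ a b : B, s * v = a * x + b * y)
    (m : ℕ) (hm : 0 < m) (f : F) (hf : f ≠ 0)
    (hOrd : ∀ O : ValuationSubring F, s34i47_IsHoriz π O → s34i47_Through B n O →
      ∃ ε w : F, ε ∈ O ∧ ε⁻¹ ∈ O ∧ f = ε * w ^ m)
    (hFin : {O : ValuationSubring F | s34i47_IsHoriz π O ∧ s34i47_Through B n O ∧
      ¬ (f ∈ O ∧ f⁻¹ ∈ O)}.Finite) :
    ∃ c : F, c ≠ 0 ∧ ∀ O : ValuationSubring F, s34i47_IsHoriz π O → s34i47_Through B n O →
      f / c ^ m ∈ O ∧ c ^ m / f ∈ O := by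
  classical
  set T : Finset (ValuationSubring F) := hFin.toFinset with hT
  have hmemT : ∀ O : ValuationSubring F, O ∈ T ↔
      s34i47_IsHoriz π O ∧ s34i47_Through B n O ∧ ¬ (f ∈ O ∧ f⁻¹ ∈ O) := by
    intro O
    rw [hT, Set.Finite.mem_toFinset]
    rfl
  have hex : ∀ O ∈ T, ∃ g : F, g ≠ 0 ∧ lp9_IsU O (f / g ^ m) ∧
      ∀ O' : ValuationSubring F, s34i47_IsHoriz π O' → s34i47_Through B n O' → O' ≠ O →
        lp9_IsU O' g := by
    intro O hO
    rw [hmemT] at hO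
    obtain ⟨p, hp0, hpO, hpinv, hgen, hother⟩ :=
      lpz9_UZ_at π hπ0 B hfrac n hn hπn h2 O hO.1 hO.2.1
    obtain ⟨ε, w, hε, hεinv, hfw⟩ := hOrd O hO.1 hO.2.1
    have hw : w ≠ 0 := by
      rintro rfl
      apply hf
      rw [hfw, zero_pow (by omega), mul_zero]
    obtain ⟨k, hk⟩ := lp9_exists_zpow O hO.1.2.1 p hp0 hpO hpinv hgen w hw
    refine ⟨p ^ k, zpow_ne_zero k hp0, ?_, ?_⟩
    · have he : f / (p ^ k) ^ m = ε * (w / p ^ k) ^ m := by
        rw [hfw, div_pow, mul_div_assoc]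
      rw [he]
      exact lp9_IsU_mul ⟨hε, hεinv⟩ (lp9_IsU_pow hk m)
    · intro O' hO' hOn' hne
      exact lp9_IsU_zpow (hother O' hO' hOn' hne) k
  choose! g hg0 hgU hgother using hex
  refine ⟨∏ O ∈ T, g O, Finset.prod_ne_zero_iff.mpr hg0, ?_⟩
  intro O hO hOn
  have key : lp9_IsU O (f / (∏ O' ∈ T, g O') ^ m) := by
    by_cases hOT : O ∈ T
    · have hsplit : ∏ O' ∈ T, g O' = g O * ∏ O' ∈ T.erase O, g O' :=
        (Finset.mul_prod_erase T g hOT).symm
      have hrest : lp9_IsU O (∏ O' ∈ T.erase O, g O') := by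
        apply lp9_IsU_prod
        intro O' hO'
        have h := Finset.mem_erase.mp hO'
        exact hgother O' h.2 O hO hOn (Ne.symm h.1)
      have he : f / (∏ O' ∈ T, g O') ^ m =
          (f / g O ^ m) * ((∏ O' ∈ T.erase O, g O') ^ m)⁻¹ := by
        rw [hsplit, mul_pow, div_mul_eq_div_div, div_eq_mul_inv (f / g O ^ m)]
      rw [he]
      exact lp9_IsU_mul (hgU O hOT) (lp9_IsU_inv (lp9_IsU_pow hrest m))
    · have hfU : lp9_IsU O f := by
        by_contra h
        exact hOT ((hmemT O).mpr ⟨hO, hOn, h⟩)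
      have hcU : lp9_IsU O (∏ O' ∈ T, g O') := by
        apply lp9_IsU_prod
        intro O' hO'
        exact hgother O' hO' O hO hOn (by rintro rfl; exact hOT hO')
      rw [div_eq_mul_inv]
      exact lp9_IsU_mul hfU (lp9_IsU_inv (lp9_IsU_pow hcU m))
  refine ⟨key.1, ?_⟩
  have h2' := key.2
  rwa [inv_div] at h2'

/-- Krull + saturation: an element of `V` which is regular along every horizontal valuation
ring through `n` lies in `B_n`. -/
theorem rc43_mem_loc (π : R) (hπ0 : algebraMap R F π ≠ 0) (B : Subalgebra R F)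
    (V : Subring F) (hBV : ∀ x ∈ B, x ∈ V)
    (hsat : ∀ x ∈ B, (algebraMap R F π)⁻¹ * x ∈ V → (algebraMap R F π)⁻¹ * x ∈ B)
    (hKr : s34i47_Krull π B)
    (n : Ideal B) (hn : n.IsMaximal) (hπn : algebraMap R B π ∈ n) (y : F) (hyV : y ∈ V)
    (hreg : ∀ O : ValuationSubring F, s34i47_IsHoriz π O → s34i47_Through B n O → y ∈ O) :
    ∃ s : B, s ∉ n ∧ (s : F) * y ∈ B := by
  obtain ⟨s, hs, k, hk⟩ := hKr n hn hπn y hreg
  refine ⟨s, hs, ?_⟩
  have hπV : algebraMap R F π ∈ V := hBV _ (B.algebraMap_mem π)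
  exact hu69_sat_aux B.toSubring V (algebraMap R F π) hπ0 hπV hsat _
    (V.mul_mem (hBV _ s.2) hyV) k hk

/-- **Local `m`-th root structure at a 2-generated closed point** (see the module docstring). -/
theorem rc43_root (π : R) (hπ0 : algebraMap R F π ≠ 0) (B : Subalgebra R F)
    [IsNoetherianRing B]
    (hfrac : ∀ t : F, ∃ a ∈ B, ∃ b ∈ B, b ≠ 0 ∧ t * b = a)
    (V : Subring F) (hBV : ∀ x ∈ B, x ∈ V)
    (hsat : ∀ x ∈ B, (algebraMap R F π)⁻¹ * x ∈ V → (algebraMap R F π)⁻¹ * x ∈ B)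
    (hdisc : ∀ x : F, x ≠ 0 → ∃ k : ℤ, algebraMap R F π ^ k * x ∈ V ∧
      (algebraMap R F π ^ k * x)⁻¹ ∈ V)
    (hKr : s34i47_Krull π B)
    (n : Ideal B) (hn : n.IsMaximal) (hπn : algebraMap R B π ∈ n)
    (h2 : ∃ x y : B, x ∈ n ∧ y ∈ n ∧
      ∀ v ∈ n, ∃ s : B, s ∉ n ∧ ∃ a b : B, s * v = a * x + b * y)
    (m : ℕ) (hm : 0 < m) (f : F) (hf : f ≠ 0) (hfV : f ∈ V) (hfV' : f⁻¹ ∈ V)
    (hOrd : ∀ O : ValuationSubring F, s34i47_IsHoriz π O → s34i47_Through B n O →
      ∃ ε w : F, ε ∈ O ∧ ε⁻¹ ∈ O ∧ f = ε * w ^ m)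
    (hFin : {O : ValuationSubring F | s34i47_IsHoriz π O ∧ s34i47_Through B n O ∧
      ¬ (f ∈ O ∧ f⁻¹ ∈ O)}.Finite) :
    ∃ c ε : F, c ≠ 0 ∧ f = ε * c ^ m ∧
      (∃ s : B, s ∉ n ∧ (s : F) * ε ∈ B) ∧ (∃ s : B, s ∉ n ∧ (s : F) * ε⁻¹ ∈ B) ∧
      ((∀ O : ValuationSubring F, s34i47_IsHoriz π O → s34i47_Through B n O → f ∈ O) →
        ∃ s : B, s ∉ n ∧ (s : F) * c ∈ B) := by
  obtain ⟨c0, hc0, hU⟩ := rc43_locPrin_at π hπ0 B hfrac n hn hπn h2 m hm f hf hOrd hFin
  obtain ⟨k, hk1, hk2⟩ := hdisc c0 hc0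
  set p : F := algebraMap R F π with hp
  set c : F := p ^ k * c0 with hc
  have hpk0 : p ^ k ≠ 0 := zpow_ne_zero k hπ0
  have hc_ne : c ≠ 0 := mul_ne_zero hpk0 hc0
  have hcm : c ^ m ≠ 0 := pow_ne_zero m hc_ne
  -- `ε = f / c ^ m`
  have hεV : f / c ^ m ∈ V := by
    rw [div_eq_mul_inv, ← inv_pow]
    exact V.mul_mem hfV (V.pow_mem hk2 m)
  have hεV' : (f / c ^ m)⁻¹ ∈ V := by
    rw [inv_div, div_eq_mul_inv]
    exact V.mul_mem (V.pow_mem hk1 m) hfV'
  have hpU : ∀ O : ValuationSubring F, s34i47_IsHoriz π O → lp9_IsU O p :=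
    fun O hO => ⟨hO.2.2.1 π, hO.2.2.2⟩
  have hεO : ∀ O : ValuationSubring F, s34i47_IsHoriz π O → s34i47_Through B n O →
      lp9_IsU O (f / c ^ m) := by
    intro O hO hOn
    have h1 : lp9_IsU O (f / c0 ^ m) := by
      obtain ⟨ha, hb⟩ := hU O hO hOn
      refine ⟨ha, ?_⟩
      rw [inv_div]
      exact hb
    have h2' : f / c ^ m = (f / c0 ^ m) * ((p ^ k) ^ m)⁻¹ := by
      rw [hc, mul_pow]
      field_simp
    rw [h2']
    exact lp9_IsU_mul h1 (lp9_IsU_inv (lp9_IsU_pow (lp9_IsU_zpow (hpU O hO) k) m))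
  refine ⟨c, f / c ^ m, hc_ne, by field_simp, ?_, ?_, ?_⟩
  · exact rc43_mem_loc π hπ0 B V hBV hsat hKr n hn hπn _ hεV (fun O hO hOn => (hεO O hO hOn).1)
  · exact rc43_mem_loc π hπ0 B V hBV hsat hKr n hn hπn _ hεV' (fun O hO hOn => (hεO O hO hOn).2)
  · intro hreg
    refine rc43_mem_loc π hπ0 B V hBV hsat hKr n hn hπn c hk1 ?_
    intro O hO hOn
    -- `c ^ m = f * ε⁻¹ ∈ O`, and `O` is root closed
    have hcmO : c ^ m ∈ O := by
      have h3 : c ^ m = f * (f / c ^ m)⁻¹ := by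
        field_simp
      rw [h3]
      exact O.mul_mem _ _ (hreg O hO hOn) (hεO O hO hOn).2
    by_contra hcO
    have hlt : 1 < O.valuation c := by
      rw [← not_le, O.valuation_le_one_iff]
      exact hcO
    have hlt' : 1 < O.valuation (c ^ m) := by
      rw [map_pow]
      exact one_lt_pow₀ hlt (by omega)
    exact (not_le.mpr hlt') ((O.valuation_le_one_iff _).mpr hcmO)

end rc43_abs

end Fermat.Agent.S36
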