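import Fermat.Agent.S36.RigidOrd27
import Fermat.Agent.S18.ConstExtModular25
import Fermat.Agent.S34.CoreAsm94

/-!
# S36 lab, rows 588 / 599 (helper27): the `Place → horizontal O` bridge for `ro27_modular_ord`

`K` a field of characteristic `0` with an `Algebra K ℚ̄` structure (e.g. a number field),
`F = modularFunctionFieldFullC K M` the `K`-model of the function field of `X₀(M)`,
`J ∈ F` the element with `q`-expansion `jqModC K`.

* `rh27_place_ord_zero`, `rh27_place_ord_1728`, `rh27_place_ord_generic` (`Place K F` form):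
  if `ν₃(M) = 0` every zero of `J` has order exactly `3`; if `ν₂(M) = 0` every zero of
  `J - 1728` has order exactly `2`; the zeros of `J - a`, `a ≠ 0, 1728`, are simple.
  (From `ro27_modular_ord` / `ho_modular_ord` over `ℚ̄` and the fact that the constant field
  extension `K ⊆ ℚ̄` is unramified, S18 `cx_modular_place_exists`.)
* `rh27_horiz_cube`, `rh27_horiz_square` (literal S34 chart language): for every horizontal
  valuation subring `O` (`s34i47_IsHoriz π O`) with `J ∈ O`:
  `∃ ε w, ε ∈ O ∧ ε⁻¹ ∈ O ∧ J = ε * w ^ 3`, resp. `J - 1728 = ε * w ^ 2`.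
* `rh27_through_cube`, `rh27_through_square`: the same for the horizontal `O` through a point
  `n` of a chart `B ∋ J` (the local form of `s34i47_Ord`: only the `O` through the point).
* `rh27_horiz_cube_rigid`, `rh27_horiz_square_rigid`: with `r ∣ M`, `r ≡ 11 mod 12` prime.

All names are prefixed `rh27_`.
-/

set_option autoImplicit false
set_option linter.style.haveILetI false
set_option linter.unusedSectionVars false

open ModularCurve AlgebraicCurve MatrixGroups IntermediateField

namespace Fermat.Agent.S36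

open Fermat.Agent.S24 Fermat.Agent.S18 Fermat.Agent.S34

/-! ## 1. `Place` form over `K` -/

section PlaceForm

variable (K0 : Type) [Field K0] [CharZero K0] [Algebra K0 (AlgebraicClosure ℚ)] (M : ℕ) [NeZero M]

theorem rh27_JJ_one : JJ 1 = jqModC Kbar := by
  rw [JJ_of_neZero, qExpand_one_apply, ← jqModC_rat, coeffEmb, coeffMap_jqModC]

/-- The canonical map `F(M)_K → F(M)_ℚ̄` sends `J` to `j`. -/
theorem rh27_iota_J (J : ↥(modularFunctionFieldFullC K0 M))
    (hJ : (J : LaurentSeries K0) = jqModC K0) :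
    cx_iota K0 M J = (⟨JJ 1, asmAb_JJ_mem M 1 (one_dvd M)⟩ : ↥(modularFunctionFieldBar M)) := by
  apply Subtype.ext
  rw [cx_iota_coe, hJ, coeffMap_jqModC]
  exact rh27_JJ_one.symm

/-- The canonical map is compatible with the constants. -/
theorem rh27_iota_algebraMap (c : K0) :
    cx_iota K0 M (algebraMap K0 ↥(modularFunctionFieldFullC K0 M) c) =
      algebraMap Kbar ↥(modularFunctionFieldBar M) (algebraMap K0 Kbar c) := by
  apply Subtype.ext
  rw [cx_iota_coe]
  exact cx_coeffMap_algebraMap _ c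

/-- `J ≠ 0`. -/
theorem rh27_J_ne_zero (J : ↥(modularFunctionFieldFullC K0 M))
    (hJ : (J : LaurentSeries K0) = jqModC K0) : J ≠ 0 := by
  have h1 : J = relimc_J K0 M := Subtype.ext (hJ.trans (relimc_J_coe K0 M).symm)
  rw [h1]
  intro h0
  exact relimc_J_transcendental K0 M (h0 ▸ isAlgebraic_zero)

/-- **Exact ramification over `j = 0` in the `K`-model.** -/
theorem rh27_place_ord_zero (h3 : nuThree M = 0) (J : ↥(modularFunctionFieldFullC K0 M))
    (hJ : (J : LaurentSeries K0) = jqModC K0)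
    (P : Place K0 ↥(modularFunctionFieldFullC K0 M)) (hP : 0 < P.ord J) : P.ord J = 3 := by
  obtain ⟨P', hP'⟩ := cx_modular_place_exists (cx_iota K0 M) (cx_iota_coe K0 M) P
  have h := (ro27_modular_ord M).1 h3 P'
  rw [← rh27_iota_J K0 M J hJ, hP'] at h
  exact h hP

/-- **Exact ramification over `j = 1728` in the `K`-model.** -/
theorem rh27_place_ord_1728 (h2 : nuTwo M = 0) (J : ↥(modularFunctionFieldFullC K0 M))
    (hJ : (J : LaurentSeries K0) = jqModC K0)
    (P : Place K0 ↥(modularFunctionFieldFullC K0 M)) (hP : 0 < P.ord (J - 1728)) :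
    P.ord (J - 1728) = 2 := by
  obtain ⟨P', hP'⟩ := cx_modular_place_exists (cx_iota K0 M) (cx_iota_coe K0 M) P
  have h := (ro27_modular_ord M).2 h2 P'
  have himg : cx_iota K0 M (J - 1728) =
      (⟨JJ 1, asmAb_JJ_mem M 1 (one_dvd M)⟩ : ↥(modularFunctionFieldBar M)) -
        algebraMap Kbar ↥(modularFunctionFieldBar M) 1728 := by
    rw [map_sub, rh27_iota_J K0 M J hJ, map_ofNat, map_ofNat]
  rw [← himg, hP'] at h
  exact h hP

/-- **Simple zeros of `J - a`, `a ≠ 0, 1728`, in the `K`-model.** -/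
theorem rh27_place_ord_generic (J : ↥(modularFunctionFieldFullC K0 M))
    (hJ : (J : LaurentSeries K0) = jqModC K0) (a : K0) (ha0 : a ≠ 0) (ha : a ≠ 1728)
    (P : Place K0 ↥(modularFunctionFieldFullC K0 M))
    (hP : 0 < P.ord (J - algebraMap K0 ↥(modularFunctionFieldFullC K0 M) a)) :
    P.ord (J - algebraMap K0 ↥(modularFunctionFieldFullC K0 M) a) = 1 := by
  obtain ⟨P', hP'⟩ := cx_modular_place_exists (cx_iota K0 M) (cx_iota_coe K0 M) P
  have ha0' : algebraMap K0 Kbar a ≠ 0 := by
    rwa [Ne, map_eq_zero]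
  have ha' : algebraMap K0 Kbar a ≠ 1728 := by
    intro h
    apply ha
    apply (algebraMap K0 Kbar).injective
    rw [h, map_ofNat]
  have h := (ho_modular_ord M).1 (algebraMap K0 Kbar a) ha0' ha' P'
  have himg : cx_iota K0 M (J - algebraMap K0 ↥(modularFunctionFieldFullC K0 M) a) =
      (⟨JJ 1, asmAb_JJ_mem M 1 (one_dvd M)⟩ : ↥(modularFunctionFieldBar M)) -
        algebraMap Kbar ↥(modularFunctionFieldBar M) (algebraMap K0 Kbar a) := by
    rw [map_sub, rh27_iota_J K0 M J hJ, rh27_iota_algebraMap]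
  rw [← himg, hP'] at h
  exact h hP

end PlaceForm

/-! ## 2. Valuation-subring form at one place -/

section OnePlace

variable {K F : Type*} [Field K] [Field F] [Algebra K F]

/-- At a place where `ord f ∈ {0, m}`, `f` is a unit times an `m`-th power. -/
theorem rh27_unit_mul_pow (P : Place K F) (f : F) (hf : f ≠ 0) (m : ℕ)
    (h : P.ord f = 0 ∨ P.ord f = m) :
    ∃ ε w : F, ε ∈ P.toValuationSubring ∧ ε⁻¹ ∈ P.toValuationSubring ∧ f = ε * w ^ m := by
  obtain ⟨ϖ, hϖ⟩ := IsDiscreteValuationRing.exists_irreducible P.toValuationSubring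
  obtain ⟨u, hu⟩ := P.exists_unit_mul_zpow hf hϖ
  have huinv : (((u : P.toValuationSubring) : F))⁻¹ ∈ P.toValuationSubring := by
    have h1 : ((u : P.toValuationSubring) : F) *
        (((u⁻¹ : (P.toValuationSubring)ˣ) : P.toValuationSubring) : F) = 1 :=
      congrArg Subtype.val u.mul_inv
    rw [← eq_inv_of_mul_eq_one_right h1]
    exact ((u⁻¹ : (P.toValuationSubring)ˣ) : P.toValuationSubring).2
  rcases h with h | h
  · refine ⟨(u : P.toValuationSubring), 1, (u : P.toValuationSubring).2, huinv, ?_⟩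
    rw [h, zpow_zero, mul_one] at hu
    rw [one_pow, mul_one]
    exact hu
  · refine ⟨(u : P.toValuationSubring), (ϖ : F), (u : P.toValuationSubring).2, huinv, ?_⟩
    rw [h, zpow_natCast] at hu
    exact hu

end OnePlace

/-! ## 3. The literal S34 chart language -/

section Horiz

variable {R : Type*} [CommRing R] [IsDomain R] [IsDiscreteValuationRing R]
  (K : Type) [Field K] [CharZero K] [Algebra K (AlgebraicClosure ℚ)] [Algebra R K]
  [IsFractionRing R K] (M : ℕ) [NeZero M]
  [Algebra R ↥(modularFunctionFieldFullC K M)]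
  [IsScalarTower R K ↥(modularFunctionFieldFullC K M)]

/-- **Horizontal cube.**  At a level without elliptic points of order `3`, `J` is a unit times
a cube at every horizontal valuation subring containing it. -/
theorem rh27_horiz_cube (π : R) (hπ : Irreducible π) (h3 : nuThree M = 0)
    (J : ↥(modularFunctionFieldFullC K M)) (hJ : (J : LaurentSeries K) = jqModC K)
    (O : ValuationSubring ↥(modularFunctionFieldFullC K M)) (hO : s34i47_IsHoriz π O)
    (hJO : J ∈ O) :
    ∃ ε w : ↥(modularFunctionFieldFullC K M), ε ∈ O ∧ ε⁻¹ ∈ O ∧ J = ε * w ^ 3 := by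
  obtain ⟨P, rfl⟩ := ca94_place_of_horiz (K := K) π hπ O hO
  have h0 : 0 ≤ P.ord J := (wp1_mem_iff_ord_nonneg P J).mp hJO
  refine rh27_unit_mul_pow P J (rh27_J_ne_zero K M J hJ) 3 ?_
  rcases h0.lt_or_eq with h | h
  · exact Or.inr (by exact_mod_cast rh27_place_ord_zero K M h3 J hJ P h)
  · exact Or.inl h.symm

/-- **Horizontal square.**  At a level without elliptic points of order `2`, `J - 1728` is a
unit times a square at every horizontal valuation subring containing `J`. -/
theorem rh27_horiz_square (π : R) (hπ : Irreducible π) (h2 : nuTwo M = 0)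
    (J : ↥(modularFunctionFieldFullC K M)) (hJ : (J : LaurentSeries K) = jqModC K)
    (O : ValuationSubring ↥(modularFunctionFieldFullC K M)) (hO : s34i47_IsHoriz π O)
    (hJO : J ∈ O) :
    ∃ ε w : ↥(modularFunctionFieldFullC K M), ε ∈ O ∧ ε⁻¹ ∈ O ∧ J - 1728 = ε * w ^ 2 := by
  obtain ⟨P, rfl⟩ := ca94_place_of_horiz (K := K) π hπ O hO
  have hne : J - 1728 ≠ 0 := by
    have h1 : J = relimc_J K M := Subtype.ext (hJ.trans (relimc_J_coe K M).symm)
    intro h0
    apply relimc_J_transcendental K M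
    rw [← h1, sub_eq_zero.mp h0]
    have h1728 : IsAlgebraic K
        (algebraMap K ↥(modularFunctionFieldFullC K M) (1728 : K)) := isAlgebraic_algebraMap _
    rwa [map_ofNat] at h1728
  have hmem : J - 1728 ∈ P.toValuationSubring := by
    have h1728 := P.algebraMap_mem' (1728 : K)
    rw [map_ofNat] at h1728
    exact sub_mem hJO h1728
  have h0 : 0 ≤ P.ord (J - 1728) := (wp1_mem_iff_ord_nonneg P (J - 1728)).mp hmem
  refine rh27_unit_mul_pow P (J - 1728) hne 2 ?_
  rcases h0.lt_or_eq with h | h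
  · exact Or.inr (by exact_mod_cast rh27_place_ord_1728 K M h2 J hJ P h)
  · exact Or.inl h.symm

/-- Local form at a point of a chart `B ∋ J`: the cube at every horizontal `O` through `n`. -/
theorem rh27_through_cube (π : R) (hπ : Irreducible π) (h3 : nuThree M = 0)
    (J : ↥(modularFunctionFieldFullC K M)) (hJ : (J : LaurentSeries K) = jqModC K)
    (B : Subalgebra R ↥(modularFunctionFieldFullC K M)) (hJB : J ∈ B) (n : Ideal B)
    (O : ValuationSubring ↥(modularFunctionFieldFullC K M)) (hO : s34i47_IsHoriz π O)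
    (hn : s34i47_Through B n O) :
    ∃ ε w : ↥(modularFunctionFieldFullC K M), ε ∈ O ∧ ε⁻¹ ∈ O ∧ J = ε * w ^ 3 :=
  rh27_horiz_cube K M π hπ h3 J hJ O hO (hn.1 J hJB)

/-- Local form at a point of a chart `B ∋ J`: the square at every horizontal `O` through `n`. -/
theorem rh27_through_square (π : R) (hπ : Irreducible π) (h2 : nuTwo M = 0)
    (J : ↥(modularFunctionFieldFullC K M)) (hJ : (J : LaurentSeries K) = jqModC K)
    (B : Subalgebra R ↥(modularFunctionFieldFullC K M)) (hJB : J ∈ B) (n : Ideal B)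
    (O : ValuationSubring ↥(modularFunctionFieldFullC K M)) (hO : s34i47_IsHoriz π O)
    (hn : s34i47_Through B n O) :
    ∃ ε w : ↥(modularFunctionFieldFullC K M), ε ∈ O ∧ ε⁻¹ ∈ O ∧ J - 1728 = ε * w ^ 2 :=
  rh27_horiz_square K M π hπ h2 J hJ O hO (hn.1 J hJB)

/-- The rigid level: a prime `r ≡ 11 mod 12` divides `M`. -/
theorem rh27_horiz_cube_rigid (π : R) (hπ : Irreducible π) {r : ℕ} (hr : r.Prime)
    (hr12 : r % 12 = 11) (hrM : r ∣ M)
    (J : ↥(modularFunctionFieldFullC K M)) (hJ : (J : LaurentSeries K) = jqModC K)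
    (O : ValuationSubring ↥(modularFunctionFieldFullC K M)) (hO : s34i47_IsHoriz π O)
    (hJO : J ∈ O) :
    ∃ ε w : ↥(modularFunctionFieldFullC K M), ε ∈ O ∧ ε⁻¹ ∈ O ∧ J = ε * w ^ 3 :=
  rh27_horiz_cube K M π hπ (ro27_rigid_of_eleven hr hr12 hrM).2 J hJ O hO hJO

theorem rh27_horiz_square_rigid (π : R) (hπ : Irreducible π) {r : ℕ} (hr : r.Prime)
    (hr12 : r % 12 = 11) (hrM : r ∣ M)
    (J : ↥(modularFunctionFieldFullC K M)) (hJ : (J : LaurentSeries K) = jqModC K)
    (O : ValuationSubring ↥(modularFunctionFieldFullC K M)) (hO : s34i47_IsHoriz π O)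
    (hJO : J ∈ O) :
    ∃ ε w : ↥(modularFunctionFieldFullC K M), ε ∈ O ∧ ε⁻¹ ∈ O ∧ J - 1728 = ε * w ^ 2 :=
  rh27_horiz_square K M π hπ (ro27_rigid_of_eleven hr hr12 hrM).1 J hJ O hO hJO

end Horiz

end Fermat.Agent.S36
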