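import Mathlib
import Fermat.Agent.S34.Iface47
import Fermat.Agent.S34.LocPrin9
import Fermat.Agent.S36.LocPrinTwoGen9

/-!
# S36 lab (helper96), row 599 complement: specialisation of multiplicities at a 2-generated point

Input (5) of the `U`-route for `kappa = 1` at the nodes over `j = 0, 1728` (and at every node when
`q = 2, 3`): a function `f` all of whose zeros on the generic fibre through a closed point `n` of
a chart have order divisible by `m` is, in the local ring `B_n`, a unit times an `m`-th power.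
Hence its reduction modulo the vertical prime vanishes to order `≥ m` at `n`.

Abstract chart language of `Iface47` (`R` the base ring, `π` its uniformiser, `B` a chart with
fraction field `F`, `n` a closed point of the special fibre):

* `rs96_locPrin_at` : the per-point (LP) clause from `n B_n = (x, y)` with the hypotheses
  `m ∣ ord_O f` and finiteness asked ONLY for the horizontal `O` THROUGH `n` (the global
  `s34i47_Ord π m f` fails for `f = J`, `J - 1728` at the cusps).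
* `rs96_exists_zpow_unit` : in a valuation ring `V` in which `π` is a uniformiser (S18 shape
  `hmax`, `harch`), every nonzero element of `F` is `π ^ k * unit`.
* `rs96_spec` : if moreover `f` is a unit of the vertical valuation ring `V`, `B` is saturated in
  `V` and the Krull clause holds at `n`, then `f = ε * c ^ m` with `ε, ε⁻¹, c ∈ B_n`
  (`∃ s ∉ n, s * y ∈ B`) and `c` a unit of `V`.
* `rs96_spec_chart` : the same without denominators: `s * f = a * b ^ m` with `s, a ∉ n`, and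
  `b ∈ n` as soon as `f` vanishes at `n`.

All names are prefixed `rs96_`.
-/

set_option autoImplicit false

namespace Fermat.Agent.S36

open Fermat.Agent.S34

section rs96_abs

variable {R F : Type*} [CommRing R] [Field F] [Algebra R F]

/-- **(LP) at a 2-generated point, local hypotheses.**  As `lpz9_locPrin_at`, but `m ∣ ord_O f`
and the finiteness of the zeros and poles are asked only for the horizontal `O` through `n`. -/
theorem rs96_locPrin_at (π : R) (hπ0 : algebraMap R F π ≠ 0) (B : Subalgebra R F)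
    [IsNoetherianRing B]
    (hfrac : ∀ t : F, ∃ a ∈ B, ∃ b ∈ B, b ≠ 0 ∧ t * b = a)
    (n : Ideal B) (hn : n.IsMaximal) (hπn : algebraMap R B π ∈ n)
    (h2 : ∃ x y : B, x ∈ n ∧ y ∈ n ∧
      ∀ v ∈ n, ∃ s : B, s ∉ n ∧ ∃ a b : B, s * v = a * x + b * y)
    (m : ℕ) (hm : 0 < m) (f : F) (hf : f ≠ 0)
    (hOrd : ∀ O : ValuationSubring F, s34i47_IsHoriz π O → s34i47_Through B n O →
      ∃ ε w : F, ε ∈ O ∧ ε⁻¹ ∈ O ∧ f = ε * w ^ m)
    (hFin : {O : ValuationSubring F | s34i47_IsHoriz π O ∧ s34i47_Through B n O ∧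
      ¬ (f ∈ O ∧ f⁻¹ ∈ O)}.Finite) :
    ∃ c : F, c ≠ 0 ∧ ∀ O : ValuationSubring F, s34i47_IsHoriz π O → s34i47_Through B n O →
      f / c ^ m ∈ O ∧ c ^ m / f ∈ O := by
  classical
  set T : Finset (ValuationSubring F) := hFin.toFinset with hT
  have hmemT : ∀ O : ValuationSubring F, O ∈ T ↔
      s34i47_IsHoriz π O ∧ s34i47_Through B n O ∧ ¬ (f ∈ O ∧ f⁻¹ ∈ O) := by
    intro O
    rw [hT, Set.Finite.mem_toFinset]
    rfl
  have hex : ∀ O ∈ T, ∃ g : F, g ≠ 0 ∧ lp9_IsU O (f / g ^ m) ∧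
      ∀ O' : ValuationSubring F, s34i47_IsHoriz π O' → s34i47_Through B n O' → O' ≠ O →
        lp9_IsU O' g := by
    intro O hO
    rw [hmemT] at hO
    obtain ⟨p, hp0, hpO, hpinv, hgen, hother⟩ :=
      lpz9_UZ_at π hπ0 B hfrac n hn hπn h2 O hO.1 hO.2.1
    obtain ⟨ε, w, hε, hεinv, hfw⟩ := hOrd O hO.1 hO.2.1
    have hw : w ≠ 0 := by
      rintro rfl
      apply hf
      rw [hfw, zero_pow (by omega), mul_zero]
    obtain ⟨k, hk⟩ := lp9_exists_zpow O hO.1.2.1 p hp0 hpO hpinv hgen w hw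
    refine ⟨p ^ k, zpow_ne_zero k hp0, ?_, ?_⟩
    · have he : f / (p ^ k) ^ m = ε * (w / p ^ k) ^ m := by
        rw [hfw, div_pow, mul_div_assoc]
      rw [he]
      exact lp9_IsU_mul ⟨hε, hεinv⟩ (lp9_IsU_pow hk m)
    · intro O' hO' hOn' hne
      exact lp9_IsU_zpow (hother O' hO' hOn' hne) k
  choose! g hg0 hgU hgother using hex
  refine ⟨∏ O ∈ T, g O, Finset.prod_ne_zero_iff.mpr hg0, ?_⟩
  intro O hO hOn
  have key : lp9_IsU O (f / (∏ O' ∈ T, g O') ^ m) := by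
    by_cases hOT : O ∈ T
    · have hsplit : ∏ O' ∈ T, g O' = g O * ∏ O' ∈ T.erase O, g O' :=
        (Finset.mul_prod_erase T g hOT).symm
      have hrest : lp9_IsU O (∏ O' ∈ T.erase O, g O') := by
        apply lp9_IsU_prod
        intro O' hO'
        have h := Finset.mem_erase.mp hO'
        exact hgother O' h.2 O hO hOn (Ne.symm h.1)
      have he : f / (∏ O' ∈ T, g O') ^ m =
          (f / g O ^ m) * ((∏ O' ∈ T.erase O, g O') ^ m)⁻¹ := by
        rw [hsplit, mul_pow, div_mul_eq_div_div, div_eq_mul_inv (f / g O ^ m)]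
      rw [he]
      exact lp9_IsU_mul (hgU O hOT) (lp9_IsU_inv (lp9_IsU_pow hrest m))
    · have hfU : lp9_IsU O f := by
        by_contra h
        exact hOT ((hmemT O).mpr ⟨hO, hOn, h⟩)
      have hcU : lp9_IsU O (∏ O' ∈ T, g O') := by
        apply lp9_IsU_prod
        intro O' hO'
        exact hgother O' hO' O hO hOn (by rintro rfl; exact hOT hO')
      rw [div_eq_mul_inv]
      exact lp9_IsU_mul hfU (lp9_IsU_inv (lp9_IsU_pow hcU m))
  refine ⟨key.1, ?_⟩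
  have h2' := key.2
  rwa [inv_div] at h2'

/-- In a valuation ring `V` of `F` in which `p` is a uniformiser (S18 shape: `hmax`, `harch`),
every nonzero element of `F` is `p ^ k * unit`, `k : ℤ`. -/
theorem rs96_exists_zpow_unit (V : ValuationSubring F) (p : F) (hp0 : p ≠ 0)
    (hmax : ∀ x ∈ V, x⁻¹ ∉ V → p⁻¹ * x ∈ V)
    (harch : ∀ x : F, x ≠ 0 → ∃ k : ℕ, (p ^ k)⁻¹ * x ∉ V)
    (y : F) (hy : y ≠ 0) :
    ∃ k : ℤ, p ^ k * y ∈ V ∧ (p ^ k * y)⁻¹ ∈ V := by
  classical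
  -- the integral case
  have key : ∀ z : F, z ≠ 0 → z ∈ V → ∃ k : ℤ, p ^ k * z ∈ V ∧ (p ^ k * z)⁻¹ ∈ V := by
    intro z hz hzV
    have hex := harch z hz
    have hmin : ∀ {m : ℕ}, m < Nat.find hex → ¬ ((p ^ m)⁻¹ * z ∉ V) := fun h => Nat.find_min hex h
    have hspec := Nat.find_spec hex
    set k := Nat.find hex with hk
    have hk0 : k ≠ 0 := by
      intro h0
      rw [h0] at hspec
      apply hspec
      simpa using hzV
    obtain ⟨j, hj⟩ := Nat.exists_eq_succ_of_ne_zero hk0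
    have hjV : (p ^ j)⁻¹ * z ∈ V := by
      by_contra hcon
      exact hmin (m := j) (by omega) hcon
    refine ⟨-(j : ℤ), ?_, ?_⟩
    · rw [zpow_neg, zpow_natCast]
      exact hjV
    · rw [zpow_neg, zpow_natCast]
      by_contra hcon
      apply hspec
      have h := hmax _ hjV hcon
      have he : (p ^ k)⁻¹ * z = p⁻¹ * ((p ^ j)⁻¹ * z) := by
        rw [hj, pow_succ]
        field_simp
      rw [he]
      exact h
  rcases V.mem_or_inv_mem y with h | h
  · exact key y hy h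
  · obtain ⟨k, hk1, hk2⟩ := key y⁻¹ (inv_ne_zero hy) h
    refine ⟨-k, ?_, ?_⟩
    · have he : p ^ (-k) * y = (p ^ k * y⁻¹)⁻¹ := by
        rw [zpow_neg, mul_inv, inv_inv]
      rw [he]
      exact hk2
    · have he : (p ^ (-k) * y)⁻¹ = p ^ k * y⁻¹ := by
        rw [zpow_neg, mul_inv, inv_inv]
      rw [he]
      exact hk1

/-- Saturation descent for a chart saturated in a valuation ring `V`:
`y ∈ V`, `π ^ k * y ∈ B` ⟹ `y ∈ B`. -/
theorem rs96_sat_descent (π : R) (hπ0 : algebraMap R F π ≠ 0) (B : Subalgebra R F)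
    (V : ValuationSubring F) (hBV : ∀ x ∈ B, x ∈ V)
    (hsat : ∀ x ∈ B, (algebraMap R F π)⁻¹ * x ∈ V → (algebraMap R F π)⁻¹ * x ∈ B)
    (y : F) (hy : y ∈ V) (k : ℕ) (h : algebraMap R F π ^ k * y ∈ B) : y ∈ B := by
  have hpV : algebraMap R F π ∈ V := hBV _ (B.algebraMap_mem π)
  induction k with
  | zero => simpa using h
  | succ k ih =>
    apply ih
    have e : algebraMap R F π ^ k * y =
        (algebraMap R F π)⁻¹ * (algebraMap R F π ^ (k + 1) * y) := by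
      rw [pow_succ]
      field_simp
    rw [e]
    apply hsat _ h
    rw [← e]
    exact V.mul_mem _ _ (pow_mem hpV k) hy

/-- **Specialisation of multiplicities at a 2-generated point.**  `B` a noetherian chart with
fraction field `F`, saturated in the vertical valuation ring `V` (uniformiser `π`), `n` a closed
point of the special fibre with `n B_n = (x, y)` and the Krull clause.  Let `f` be a unit of `V`,
regular along every horizontal `O` through `n`, with `m ∣ ord_O f` at each of them and finitely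
many zeros through `n`.  Then `f = ε * c ^ m` with `ε, ε⁻¹, c ∈ B_n` and `c` a unit of `V`. -/
theorem rs96_spec (π : R) (hπ0 : algebraMap R F π ≠ 0) (B : Subalgebra R F)
    [IsNoetherianRing B]
    (hfrac : ∀ t : F, ∃ a ∈ B, ∃ b ∈ B, b ≠ 0 ∧ t * b = a)
    (V : ValuationSubring F) (hBV : ∀ x ∈ B, x ∈ V)
    (hsat : ∀ x ∈ B, (algebraMap R F π)⁻¹ * x ∈ V → (algebraMap R F π)⁻¹ * x ∈ B)
    (hmax : ∀ x ∈ V, x⁻¹ ∉ V → (algebraMap R F π)⁻¹ * x ∈ V)
    (harch : ∀ x : F, x ≠ 0 → ∃ k : ℕ, (algebraMap R F π ^ k)⁻¹ * x ∉ V)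
    (n : Ideal B) (hn : n.IsMaximal) (hπn : algebraMap R B π ∈ n)
    (h2 : ∃ x y : B, x ∈ n ∧ y ∈ n ∧
      ∀ v ∈ n, ∃ s : B, s ∉ n ∧ ∃ a b : B, s * v = a * x + b * y)
    (hKr : ∀ x : F,
      (∀ O : ValuationSubring F, s34i47_IsHoriz π O → s34i47_Through B n O → x ∈ O) →
      ∃ s : B, s ∉ n ∧ ∃ k : ℕ, algebraMap R F π ^ k * ((s : F) * x) ∈ B)
    (m : ℕ) (hm : 0 < m) (f : F) (hf : f ≠ 0) (hfV : f ∈ V) (hfV' : f⁻¹ ∈ V)
    (hfO : ∀ O : ValuationSubring F, s34i47_IsHoriz π O → s34i47_Through B n O → f ∈ O)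
    (hOrd : ∀ O : ValuationSubring F, s34i47_IsHoriz π O → s34i47_Through B n O →
      ∃ ε w : F, ε ∈ O ∧ ε⁻¹ ∈ O ∧ f = ε * w ^ m)
    (hFin : {O : ValuationSubring F | s34i47_IsHoriz π O ∧ s34i47_Through B n O ∧
      ¬ (f ∈ O ∧ f⁻¹ ∈ O)}.Finite) :
    ∃ ε c : F, f = ε * c ^ m ∧ c ∈ V ∧ c⁻¹ ∈ V ∧
      (∃ s : B, s ∉ n ∧ (s : F) * ε ∈ B) ∧ (∃ s : B, s ∉ n ∧ (s : F) * ε⁻¹ ∈ B) ∧
      (∃ s : B, s ∉ n ∧ (s : F) * c ∈ B) := by
  obtain ⟨c₀, hc₀, hLP⟩ :=
    rs96_locPrin_at π hπ0 B hfrac n hn hπn h2 m hm f hf hOrd hFin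
  obtain ⟨k, hkV, hkV'⟩ :=
    rs96_exists_zpow_unit V (algebraMap R F π) hπ0 hmax harch c₀ hc₀
  set p : F := algebraMap R F π with hp
  set c : F := p ^ k * c₀ with hc
  have hpk0 : p ^ k ≠ 0 := zpow_ne_zero k hπ0
  have hc0 : c ≠ 0 := mul_ne_zero hpk0 hc₀
  have hcm0 : c ^ m ≠ 0 := pow_ne_zero m hc0
  set ε : F := f / c ^ m with hε
  have hfε : f = ε * c ^ m := by
    rw [hε, div_mul_cancel₀ _ hcm0]
  -- vertical memberships
  have hεV : ε ∈ V := by
    rw [hε, div_eq_mul_inv, ← inv_pow]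
    exact V.mul_mem _ _ hfV (pow_mem hkV' m)
  have hεV' : ε⁻¹ ∈ V := by
    rw [hε, inv_div, div_eq_mul_inv]
    exact V.mul_mem _ _ (pow_mem hkV m) hfV'
  -- horizontal memberships
  have hpU : ∀ O : ValuationSubring F, s34i47_IsHoriz π O → lp9_IsU O (p ^ k) := by
    intro O hO
    have h1 : lp9_IsU O p := by
      refine ⟨hO.2.2.1 π, hO.2.2.2⟩
    exact lp9_IsU_zpow h1 k
  have hεO : ∀ O : ValuationSubring F, s34i47_IsHoriz π O → s34i47_Through B n O →
      lp9_IsU O ε := by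
    intro O hO hOn
    obtain ⟨h1, h2'⟩ := hLP O hO hOn
    have h3 : lp9_IsU O (f / c₀ ^ m) := ⟨h1, by rw [inv_div]; exact h2'⟩
    have he : ε = (f / c₀ ^ m) * ((p ^ k) ^ m)⁻¹ := by
      rw [hε, hc, mul_pow]
      field_simp
    rw [he]
    exact lp9_IsU_mul h3 (lp9_IsU_inv (lp9_IsU_pow (hpU O hO) m))
  have hcO : ∀ O : ValuationSubring F, s34i47_IsHoriz π O → s34i47_Through B n O → c ∈ O := by
    intro O hO hOn
    have h1 : c ^ m ∈ O := by
      have he : c ^ m = f * ε⁻¹ := by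
        rw [hfε, mul_comm ε, mul_assoc, mul_inv_cancel₀, mul_one]
        rw [hε]
        exact div_ne_zero hf hcm0
      rw [he]
      exact O.mul_mem _ _ (hfO O hO hOn) (hεO O hO hOn).2
    rcases O.mem_or_inv_mem c with h | h
    · exact h
    · -- `c⁻¹ ∈ O` and `c ^ m ∈ O` give `c ∈ O`
      obtain ⟨j, rfl⟩ := Nat.exists_eq_succ_of_ne_zero (by omega : m ≠ 0)
      have he : c = c ^ (j + 1) * (c⁻¹) ^ j := by
        rw [pow_succ, inv_pow]
        field_simp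
      rw [he]
      exact O.mul_mem _ _ h1 (pow_mem h j)
  -- Krull + saturation
  have hloc : ∀ y : F, y ∈ V →
      (∀ O : ValuationSubring F, s34i47_IsHoriz π O → s34i47_Through B n O → y ∈ O) →
      ∃ s : B, s ∉ n ∧ (s : F) * y ∈ B := by
    intro y hyV hyO
    obtain ⟨s, hs, j, hj⟩ := hKr y hyO
    exact ⟨s, hs, rs96_sat_descent π hπ0 B V hBV hsat _ (V.mul_mem _ _ (hBV _ s.2) hyV) j hj⟩
  refine ⟨ε, c, hfε, hkV, hkV', hloc ε hεV (fun O hO hOn => (hεO O hO hOn).1),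
    hloc ε⁻¹ hεV' (fun O hO hOn => (hεO O hO hOn).2), hloc c hkV hcO⟩

/-- **Chart form.**  Under the hypotheses of `rs96_spec`: `s * f = a * b ^ m` with `s, a, b ∈ B`,
`s ∉ n`, `a ∉ n`; and `b ∈ n` as soon as `f` vanishes at `n` (`t * f = g` with `t ∉ n`,
`g ∈ n`). -/
theorem rs96_spec_chart (π : R) (hπ0 : algebraMap R F π ≠ 0) (B : Subalgebra R F)
    [IsNoetherianRing B]
    (hfrac : ∀ t : F, ∃ a ∈ B, ∃ b ∈ B, b ≠ 0 ∧ t * b = a)
    (V : ValuationSubring F) (hBV : ∀ x ∈ B, x ∈ V)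
    (hsat : ∀ x ∈ B, (algebraMap R F π)⁻¹ * x ∈ V → (algebraMap R F π)⁻¹ * x ∈ B)
    (hmax : ∀ x ∈ V, x⁻¹ ∉ V → (algebraMap R F π)⁻¹ * x ∈ V)
    (harch : ∀ x : F, x ≠ 0 → ∃ k : ℕ, (algebraMap R F π ^ k)⁻¹ * x ∉ V)
    (n : Ideal B) (hn : n.IsMaximal) (hπn : algebraMap R B π ∈ n)
    (h2 : ∃ x y : B, x ∈ n ∧ y ∈ n ∧
      ∀ v ∈ n, ∃ s : B, s ∉ n ∧ ∃ a b : B, s * v = a * x + b * y)
    (hKr : ∀ x : F,
      (∀ O : ValuationSubring F, s34i47_IsHoriz π O → s34i47_Through B n O → x ∈ O) →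
      ∃ s : B, s ∉ n ∧ ∃ k : ℕ, algebraMap R F π ^ k * ((s : F) * x) ∈ B)
    (m : ℕ) (hm : 0 < m) (f : F) (hf : f ≠ 0) (hfV : f ∈ V) (hfV' : f⁻¹ ∈ V)
    (hfO : ∀ O : ValuationSubring F, s34i47_IsHoriz π O → s34i47_Through B n O → f ∈ O)
    (hOrd : ∀ O : ValuationSubring F, s34i47_IsHoriz π O → s34i47_Through B n O →
      ∃ ε w : F, ε ∈ O ∧ ε⁻¹ ∈ O ∧ f = ε * w ^ m)
    (hFin : {O : ValuationSubring F | s34i47_IsHoriz π O ∧ s34i47_Through B n O ∧
      ¬ (f ∈ O ∧ f⁻¹ ∈ O)}.Finite) :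
    ∃ s a b : B, s ∉ n ∧ a ∉ n ∧ (s : F) * f = (a : F) * (b : F) ^ m ∧
      ((∃ t g : B, t ∉ n ∧ g ∈ n ∧ (t : F) * f = g) → b ∈ n) := by
  have hnp : n.IsPrime := hn.isPrime
  obtain ⟨ε, c, hfε, hcV, hcV', ⟨s₁, hs₁, h1⟩, ⟨s₂, hs₂, h2'⟩, ⟨s₃, hs₃, h3⟩⟩ :=
    rs96_spec π hπ0 B hfrac V hBV hsat hmax harch n hn hπn h2 hKr m hm f hf hfV hfV' hfO hOrd hFin
  have hε0 : ε ≠ 0 := by
    rintro rfl
    exact hf (by rw [hfε, zero_mul])
  set a : B := ⟨(s₁ : F) * ε, h1⟩ with ha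
  set a' : B := ⟨(s₂ : F) * ε⁻¹, h2'⟩ with ha'
  set b : B := ⟨(s₃ : F) * c, h3⟩ with hb
  have haa' : a * a' = s₁ * s₂ := by
    apply Subtype.ext
    show (s₁ : F) * ε * ((s₂ : F) * ε⁻¹) = (s₁ : F) * (s₂ : F)
    field_simp
  have han : a ∉ n := by
    intro h
    have : s₁ * s₂ ∈ n := by
      rw [← haa']
      exact n.mul_mem_right _ h
    rcases Ideal.IsPrime.mem_or_mem hnp this with h | h
    · exact hs₁ h
    · exact hs₂ h
  have hsn : s₁ * s₃ ^ m ∉ n := by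
    intro h
    rcases Ideal.IsPrime.mem_or_mem hnp h with h | h
    · exact hs₁ h
    · exact hs₃ (Ideal.IsPrime.mem_of_pow_mem hnp m h)
  have heq : ((s₁ * s₃ ^ m : B) : F) * f = (a : F) * (b : F) ^ m := by
    show (s₁ : F) * (s₃ : F) ^ m * f = (s₁ : F) * ε * ((s₃ : F) * c) ^ m
    rw [hfε, mul_pow]
    ring
  refine ⟨s₁ * s₃ ^ m, a, b, hsn, han, heq, ?_⟩
  · rintro ⟨t, g, ht, hg, htg⟩
    have h4 : t * a * b ^ m = (s₁ * s₃ ^ m) * g := by
      apply Subtype.ext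
      show (t : F) * (a : F) * (b : F) ^ m = ((s₁ * s₃ ^ m : B) : F) * (g : F)
      rw [mul_assoc, ← heq, ← htg]
      ring
    have h5 : t * a * b ^ m ∈ n := by
      rw [h4]
      exact n.mul_mem_left _ hg
    rcases Ideal.IsPrime.mem_or_mem hnp h5 with h | h
    · rcases Ideal.IsPrime.mem_or_mem hnp h with h | h
      · exact absurd h ht
      · exact absurd h han
    · exact Ideal.IsPrime.mem_of_pow_mem hnp m h

end rs96_abs

end Fermat.Agent.S36
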