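import Mathlib
import Fermat.Agent.S34.ChartM15b
import Fermat.Agent.S34.WIntInst18
import Fermat.Agent.S34.Krull65
import Fermat.Agent.S34.LocStr63
import Fermat.Agent.S34.FinSupp29
import Fermat.Agent.S34.CoreAsm57
import Fermat.Agent.S34.FrameSat85
import Fermat.Agent.S36.RigidCube43
import Fermat.Agent.S36.RigidHoriz27
import Fermat.Agent.S36.RigidSpec96

/-!
# S36 lab, row C-REGq, rigidity input (5), CONCRETE chart binding (helper43)

At a GOOD level `M` (`M` a unit of the discrete valuation ring `R`, `p₀ ∣ M`, `p₀ ∈ {2, 3}`), for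
BOTH affine charts `B = pk15_chart R {h}`, `pk15_chart R {h⁻¹}` of the Hauptmodul of level `p₀`
inside `F = F_K(M)` (`K` a number field, `K = Frac R`), and EVERY closed point `n` of the special
fibre (`n` maximal, `π ∈ n`) at which the function is regular (`∃ s ∉ n, s * f ∈ B`):

* `nuThree M = 0` ⟹ `J = ε * c ^ 3`,
* `nuTwo M = 0` ⟹ `J - 1728 = ε * c ^ 2`,

with `c ≠ 0` and `ε, ε⁻¹, c` in the local ring `B_n` (elementwise: `∃ s ∉ n, s * y ∈ B`).
This is `rc43_RootAt B n m f`; `rc43_Root π B m f` is the statement at all such `n`.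

* `rc43_twoGen`     : Dedekind special fibre ⟹ `n B_n = (z, π)` (the `h2` of `rc43_root`).
* `rc43_root_chart` : abstract chart form (one vertical valuation ring `V`, discrete with
  uniformiser `π`, chart saturated in `V`, Krull, Dedekind special fibre, global `Fin`).
* `rc43_gen`        : concrete form for a chart generator `x` with the chart facts as hypotheses.
* `rc43_level2`, `rc43_level3` : the unconditional statements for `pk85_h2`, `pk85_h3`.

All names are prefixed `rc43_`.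
-/

set_option autoImplicit false
set_option linter.unusedSectionVars false
set_option linter.style.haveILetI false

open ModularCurve AlgebraicCurve

namespace Fermat.Agent.S36

open Fermat.Agent.S18 Fermat.Agent.S24 Fermat.Agent.S34

local notation "Q̄" => AlgebraicClosure ℚ

section rc43_absChart

variable {R F : Type*} [CommRing R] [Field F] [Algebra R F]

/-- `f = ε * c ^ m` with `c ≠ 0` and `ε, ε⁻¹, c` in the local ring of the chart `B` at `n`
(elementwise form). -/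
def rc43_RootAt (B : Subalgebra R F) (n : Ideal B) (m : ℕ) (f : F) : Prop :=
  ∃ c ε : F, c ≠ 0 ∧ f = ε * c ^ m ∧ (∃ s : B, s ∉ n ∧ (s : F) * ε ∈ B) ∧
    (∃ s : B, s ∉ n ∧ (s : F) * ε⁻¹ ∈ B) ∧ ∃ s : B, s ∉ n ∧ (s : F) * c ∈ B

/-- `rc43_RootAt` at every closed point of the special fibre at which `f` is regular. -/
def rc43_Root (π : R) (B : Subalgebra R F) (m : ℕ) (f : F) : Prop :=
  ∀ n : Ideal B, n.IsMaximal → algebraMap R B π ∈ n →
    (∃ s : B, s ∉ n ∧ (s : F) * f ∈ B) → rc43_RootAt B n m f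

/-- A Dedekind special fibre gives the 2-generation `n B_n = (z, π)` at every closed point. -/
theorem rc43_twoGen (π : R) (B : Subalgebra R F)
    [IsDedekindDomain (B ⧸ Ideal.span {algebraMap R B π})]
    (n : Ideal B) (hn : n.IsMaximal) (hπn : algebraMap R B π ∈ n) :
    ∃ x y : B, x ∈ n ∧ y ∈ n ∧
      ∀ v ∈ n, ∃ s : B, s ∉ n ∧ ∃ a b : B, s * v = a * x + b * y := by
  haveI : n.IsPrime := hn.isPrime
  have hPn : Ideal.span {algebraMap R B π} ≤ n := by
    rw [Ideal.span_le]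
    intro x hx
    rw [Set.mem_singleton_iff.mp hx]
    exact hπn
  obtain ⟨z, hz, hun⟩ := ls63_unif_of_dedekind (Ideal.span {algebraMap R B π}) n hPn
  refine ⟨z, algebraMap R B π, hz, hπn, fun v hv => ?_⟩
  obtain ⟨s, hs, a, ha⟩ := hun v hv
  obtain ⟨b, hb⟩ := Ideal.mem_span_singleton'.mp ha
  exact ⟨s, hs, a, b, by linear_combination -hb⟩

/-- **Abstract chart form.** -/
theorem rc43_root_chart (π : R) (hπ0 : algebraMap R F π ≠ 0) (B : Subalgebra R F)
    [IsNoetherianRing B] [IsDedekindDomain (B ⧸ Ideal.span {algebraMap R B π})]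
    (hfrac : ∀ t : F, ∃ a ∈ B, ∃ b ∈ B, b ≠ 0 ∧ t * b = a)
    (V : ValuationSubring F) (hBV : ∀ x ∈ B, x ∈ V)
    (hsat : ∀ x ∈ B, (algebraMap R F π)⁻¹ * x ∈ V → (algebraMap R F π)⁻¹ * x ∈ B)
    (hmax : ∀ x ∈ V, x⁻¹ ∉ V → (algebraMap R F π)⁻¹ * x ∈ V)
    (harch : ∀ x : F, x ≠ 0 → ∃ k : ℕ, (algebraMap R F π ^ k)⁻¹ * x ∉ V)
    (hKr : s34i47_Krull π B)
    (m : ℕ) (hm : 0 < m) (f : F) (hf : f ≠ 0) (hfV : f ∈ V) (hfV' : f⁻¹ ∈ V)
    (hOrd : ∀ O : ValuationSubring F, s34i47_IsHoriz π O → f ∈ O →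
      ∃ ε w : F, ε ∈ O ∧ ε⁻¹ ∈ O ∧ f = ε * w ^ m)
    (hFin : s34i47_Fin π f) : rc43_Root π B m f := by
  intro n hn hπn hreg
  obtain ⟨s0, hs0, hs0f⟩ := hreg
  have hfO : ∀ O : ValuationSubring F, s34i47_IsHoriz π O → s34i47_Through B n O → f ∈ O := by
    intro O _ hOn
    have hs00 : (s0 : F) ≠ 0 := by
      intro h0
      apply hs0
      have : s0 = 0 := Subtype.ext h0
      rw [this]
      exact n.zero_mem
    have h1 : f = (s0 : F)⁻¹ * ((s0 : F) * f) := by
      field_simp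
    rw [h1]
    exact O.mul_mem _ _ (hOn.2 s0 hs0) (hOn.1 _ hs0f)
  have hdisc : ∀ x : F, x ≠ 0 → ∃ k : ℤ, algebraMap R F π ^ k * x ∈ V.toSubring ∧
      (algebraMap R F π ^ k * x)⁻¹ ∈ V.toSubring :=
    fun x hx => rs96_exists_zpow_unit V (algebraMap R F π) hπ0 hmax harch x hx
  have hFin' : {O : ValuationSubring F | s34i47_IsHoriz π O ∧ s34i47_Through B n O ∧
      ¬ (f ∈ O ∧ f⁻¹ ∈ O)}.Finite :=
    hFin.subset (fun O hO => ⟨hO.1, hO.2.2⟩)
  obtain ⟨c, ε, hc, hfe, hε, hε', hcB⟩ := rc43_root π hπ0 B hfrac V.toSubring hBV hsat hdisc hKr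
    n hn hπn (rc43_twoGen π B n hn hπn) m hm f hf hfV hfV'
    (fun O hO hOn => hOrd O hO (hfO O hO hOn)) hFin'
  exact ⟨c, ε, hc, hfe, hε, hε', hcB hfO⟩

end rc43_absChart

section rc43_concrete

variable {R K : Type} [CommRing R] [IsDomain R] [IsDiscreteValuationRing R] [Field K]
  [NumberField K] [Algebra K Q̄] [Algebra R K] [IsFractionRing R K] (M : ℕ) [NeZero M]
  [Algebra R ↥(modularFunctionFieldFullC K M)]
  [IsScalarTower R K ↥(modularFunctionFieldFullC K M)]

/-- `J` is a unit of the Gauss valuation ring. -/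
theorem rc43_J_unit {π : R} (hπ : Irreducible π) (h : ↥(modularFunctionFieldFullC K M))
    (hF : cm85_Facts R K M π h (cm85_Vinf (K := K) M hπ)) :
    relimc_J K M ∈ cm85_Vinf (K := K) M hπ ∧ (relimc_J K M)⁻¹ ∈ cm85_Vinf (K := K) M hπ := by
  obtain ⟨-, -, -, hmax, -, -, -, -, -, -, -, -, hG⟩ := hF
  have hcoe : ((relimc_J K M : ↥(modularFunctionFieldFullC K M)) : LaurentSeries K) =
      coeffMap (algebraMap R K) (jqModC R) := by
    rw [coeffMap_jqModC]
    rfl
  obtain ⟨h1, h2⟩ := hG (relimc_J K M) (jqModC R) hcoe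
  refine ⟨h1, ?_⟩
  by_contra hinv
  have h3 := h2.mp (hmax _ h1 hinv)
  rw [coeffMap_jqModC] at h3
  exact jqModC_ne_zero_of_nontrivial (R := IsLocalRing.ResidueField R) h3

/-- `J - 1728 ≠ 0`. -/
theorem rc43_J1728_ne_zero : (relimc_J K M - 1728 : ↥(modularFunctionFieldFullC K M)) ≠ 0 := by
  intro h0
  apply relimc_J_transcendental K M
  rw [sub_eq_zero.mp h0]
  have h1728 : IsAlgebraic K
      (algebraMap K ↥(modularFunctionFieldFullC K M) (1728 : K)) := isAlgebraic_algebraMap _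
  rwa [map_ofNat] at h1728

/-- `J - 1728` is a unit of the Gauss valuation ring. -/
theorem rc43_J1728_unit {π : R} (hπ : Irreducible π) (h : ↥(modularFunctionFieldFullC K M))
    (hF : cm85_Facts R K M π h (cm85_Vinf (K := K) M hπ)) :
    relimc_J K M - 1728 ∈ cm85_Vinf (K := K) M hπ ∧
      (relimc_J K M - 1728)⁻¹ ∈ cm85_Vinf (K := K) M hπ := by
  obtain ⟨-, -, -, hmax, -, -, -, -, -, -, -, -, hG⟩ := hF
  have hcoe : ((relimc_J K M - 1728 : ↥(modularFunctionFieldFullC K M)) : LaurentSeries K) =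
      coeffMap (algebraMap R K) (jqModC R - 1728) := by
    rw [map_sub, coeffMap_jqModC, map_ofNat]
    rfl
  obtain ⟨h1, h2⟩ := hG (relimc_J K M - 1728) (jqModC R - 1728) hcoe
  refine ⟨h1, ?_⟩
  by_contra hinv
  have h3 := h2.mp (hmax _ h1 hinv)
  rw [map_sub, coeffMap_jqModC, map_ofNat] at h3
  have h4 : (jqModC (IsLocalRing.ResidueField R) - 1728 : LaurentSeries
      (IsLocalRing.ResidueField R)).coeff (-1 : ℤ) = 0 := by
    rw [h3]
    rfl
  rw [HahnSeries.coeff_sub, coeff_jqModC_neg_one] at h4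
  have h5 : (1728 : LaurentSeries (IsLocalRing.ResidueField R)).coeff (-1 : ℤ) = 0 := by
    have h6 : (1728 : LaurentSeries (IsLocalRing.ResidueField R)) =
        HahnSeries.C (1728 : IsLocalRing.ResidueField R) := by
      rw [map_ofNat]
    rw [h6, HahnSeries.C_apply, HahnSeries.coeff_single_of_ne (by norm_num)]
  rw [h5, sub_zero] at h4
  exact one_ne_zero h4

/-- **Concrete form for one chart generator** `x` (a unit of the Gauss valuation ring), with the
chart facts as hypotheses. -/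
theorem rc43_gen {π : R} (hπ : Irreducible π) (x : ↥(modularFunctionFieldFullC K M))
    (hxV : x ∈ cm85_Vinf (K := K) M hπ)
    (hN : IsNoetherianRing (pk15_chart R ({x} : Set ↥(modularFunctionFieldFullC K M))))
    (hDed : IsDedekindDomain (pk15_chart R ({x} : Set ↥(modularFunctionFieldFullC K M)) ⧸
      Ideal.span {algebraMap R (pk15_chart R ({x} : Set ↥(modularFunctionFieldFullC K M))) π}))
    (hfrac : ∀ t : ↥(modularFunctionFieldFullC K M),
      ∃ a ∈ pk15_chart R ({x} : Set ↥(modularFunctionFieldFullC K M)),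
      ∃ b ∈ pk15_chart R ({x} : Set ↥(modularFunctionFieldFullC K M)), b ≠ 0 ∧ t * b = a)
    (hsat : cm15_Sat R π ({x} : Set ↥(modularFunctionFieldFullC K M))
      (cm85_Vinf (K := K) M hπ).toSubring)
    (hKr : s34i47_Krull π (pk15_chart R ({x} : Set ↥(modularFunctionFieldFullC K M))))
    (hmax : ∀ y ∈ cm85_Vinf (K := K) M hπ, y⁻¹ ∉ cm85_Vinf (K := K) M hπ →
      (algebraMap R ↥(modularFunctionFieldFullC K M) π)⁻¹ * y ∈ cm85_Vinf (K := K) M hπ)
    (m : ℕ) (hm : 0 < m) (f : ↥(modularFunctionFieldFullC K M)) (hf : f ≠ 0)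
    (hfV : f ∈ cm85_Vinf (K := K) M hπ) (hfV' : f⁻¹ ∈ cm85_Vinf (K := K) M hπ)
    (hOrd : ∀ O : ValuationSubring ↥(modularFunctionFieldFullC K M), s34i47_IsHoriz π O → f ∈ O →
      ∃ ε w : ↥(modularFunctionFieldFullC K M), ε ∈ O ∧ ε⁻¹ ∈ O ∧ f = ε * w ^ m) :
    rc43_Root π (pk15_chart R ({x} : Set ↥(modularFunctionFieldFullC K M))) m f := by
  have hπ0 : algebraMap R ↥(modularFunctionFieldFullC K M) π ≠ 0 := by
    rw [IsScalarTower.algebraMap_apply R K ↥(modularFunctionFieldFullC K M)]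
    intro h0
    have h1 : algebraMap R K π = 0 :=
      (map_eq_zero (algebraMap K ↥(modularFunctionFieldFullC K M))).mp h0
    exact hπ.ne_zero ((IsFractionRing.injective R K) (by rw [h1, map_zero]))
  have hBV : ∀ y ∈ pk15_chart R ({x} : Set ↥(modularFunctionFieldFullC K M)),
      y ∈ cm85_Vinf (K := K) M hπ :=
    pk15_chart_le_V _ (pk85_hRV M hπ) _ (fun g hg => by
      rw [Set.mem_singleton_iff.mp hg]; exact hxV)
  haveI := hN
  haveI := hDed
  exact rc43_root_chart π hπ0 _ hfrac (cm85_Vinf (K := K) M hπ) hBV hsat hmax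
    (wi18_arch M hπ) hKr m hm f hf hfV hfV' hOrd
    (ca57_fin (K := K) hπ f (fs29_finSupp M K f hf))

/-- **Both charts of a Hauptmodul `h` with the chart facts**: the cube of `J` and the square of
`J - 1728` at every closed point of the special fibre. -/
theorem rc43_of_facts {π : R} (hπ : Irreducible π) (h : ↥(modularFunctionFieldFullC K M))
    (hF : cm85_Facts R K M π h (cm85_Vinf (K := K) M hπ))
    (hs₁ : cm15_Sat R π ({h} : Set ↥(modularFunctionFieldFullC K M))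
      (cm85_Vinf (K := K) M hπ).toSubring)
    (hs₂ : cm15_Sat R π ({h⁻¹} : Set ↥(modularFunctionFieldFullC K M))
      (cm85_Vinf (K := K) M hπ).toSubring)
    (hD₁ : IsDedekindDomain (pk15_chart R ({h} : Set ↥(modularFunctionFieldFullC K M)) ⧸
      Ideal.span {algebraMap R (pk15_chart R ({h} : Set ↥(modularFunctionFieldFullC K M))) π}))
    (hD₂ : IsDedekindDomain (pk15_chart R ({h⁻¹} : Set ↥(modularFunctionFieldFullC K M)) ⧸
      Ideal.span {algebraMap R
        (pk15_chart R ({h⁻¹} : Set ↥(modularFunctionFieldFullC K M))) π})) :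
    (nuThree M = 0 →
      rc43_Root π (pk15_chart R ({h} : Set ↥(modularFunctionFieldFullC K M))) 3 (relimc_J K M) ∧
      rc43_Root π (pk15_chart R ({h⁻¹} : Set ↥(modularFunctionFieldFullC K M))) 3
        (relimc_J K M)) ∧
    (nuTwo M = 0 →
      rc43_Root π (pk15_chart R ({h} : Set ↥(modularFunctionFieldFullC K M))) 2
        (relimc_J K M - 1728) ∧
      rc43_Root π (pk15_chart R ({h⁻¹} : Set ↥(modularFunctionFieldFullC K M))) 2
        (relimc_J K M - 1728)) := by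
  obtain ⟨hJV, hJV'⟩ := rc43_J_unit M hπ h hF
  obtain ⟨hLV, hLV'⟩ := rc43_J1728_unit M hπ h hF
  obtain ⟨htr, -, -, hmax, hhV, hhV', hN₁, hN₂, hfin₁, -, hfrac₁, hfrac₂, -⟩ := hF
  obtain ⟨hKr₁, hKr₂⟩ := kr65_Pkg_Krull R K ↥(modularFunctionFieldFullC K M) π hπ h htr hN₁ hN₂
    hfin₁ hfrac₁
  have hJ0 : relimc_J K M ≠ 0 := rh27_J_ne_zero K M (relimc_J K M) (relimc_J_coe K M)
  refine ⟨fun h3 => ?_, fun h2 => ?_⟩
  · have hOrd : ∀ O : ValuationSubring ↥(modularFunctionFieldFullC K M), s34i47_IsHoriz π O →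
        relimc_J K M ∈ O → ∃ ε w : ↥(modularFunctionFieldFullC K M), ε ∈ O ∧ ε⁻¹ ∈ O ∧
          relimc_J K M = ε * w ^ 3 := fun O hO hJO =>
      rh27_horiz_cube K M π hπ h3 (relimc_J K M) (relimc_J_coe K M) O hO hJO
    exact ⟨rc43_gen M hπ h hhV hN₁ hD₁ hfrac₁ hs₁ hKr₁ hmax 3 (by norm_num) _ hJ0 hJV hJV' hOrd,
      rc43_gen M hπ h⁻¹ hhV' hN₂ hD₂ hfrac₂ hs₂ hKr₂ hmax 3 (by norm_num) _ hJ0 hJV hJV' hOrd⟩
  · have hOrd : ∀ O : ValuationSubring ↥(modularFunctionFieldFullC K M), s34i47_IsHoriz π O →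
        relimc_J K M - 1728 ∈ O → ∃ ε w : ↥(modularFunctionFieldFullC K M), ε ∈ O ∧ ε⁻¹ ∈ O ∧
          relimc_J K M - 1728 = ε * w ^ 2 := by
      intro O hO hLO
      have h1728 : (1728 : ↥(modularFunctionFieldFullC K M)) ∈ O := by
        have := hO.2.2.1 (1728 : R)
        rwa [map_ofNat] at this
      have hJO : relimc_J K M ∈ O := by
        have := O.add_mem _ _ hLO h1728
        rwa [sub_add_cancel] at this
      exact rh27_horiz_square K M π hπ h2 (relimc_J K M) (relimc_J_coe K M) O hO hJO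
    have hL0 := rc43_J1728_ne_zero (K := K) M
    exact ⟨rc43_gen M hπ h hhV hN₁ hD₁ hfrac₁ hs₁ hKr₁ hmax 2 (by norm_num) _ hL0 hLV hLV' hOrd,
      rc43_gen M hπ h⁻¹ hhV' hN₂ hD₂ hfrac₂ hs₂ hKr₂ hmax 2 (by norm_num) _ hL0 hLV hLV' hOrd⟩

/-- **Rigidity input (5), level 2**: at a good level `M` (`2 ∣ M`, `M` a unit of `R`), both
charts of `h = pk85_h2 K M`. -/
theorem rc43_level2 {π : R} (hπ : Irreducible π) (h2 : 2 ∣ M) (hMu : IsUnit (M : R)) :
    (nuThree M = 0 →
      rc43_Root π (pk15_chart R ({pk85_h2 K M h2} : Set ↥(modularFunctionFieldFullC K M))) 3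
        (relimc_J K M) ∧
      rc43_Root π (pk15_chart R ({(pk85_h2 K M h2)⁻¹} : Set ↥(modularFunctionFieldFullC K M))) 3
        (relimc_J K M)) ∧
    (nuTwo M = 0 →
      rc43_Root π (pk15_chart R ({pk85_h2 K M h2} : Set ↥(modularFunctionFieldFullC K M))) 2
        (relimc_J K M - 1728) ∧
      rc43_Root π (pk15_chart R ({(pk85_h2 K M h2)⁻¹} : Set ↥(modularFunctionFieldFullC K M))) 2
        (relimc_J K M - 1728)) := by
  haveI : Algebra.IsAlgebraic K Q̄ := fs85_isAlgebraic K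
  obtain ⟨hs₁, hs₂, -⟩ := cm15_base_sat_level2 (R := R) (K := K) M hπ h2 hMu
  obtain ⟨⟨hD₁, -⟩, ⟨hD₂, -⟩⟩ := sm79_level2 (R := R) K M hπ hMu h2
  exact rc43_of_facts M hπ _ (cm85_facts_level2 (R := R) (K := K) M hπ h2) hs₁ hs₂ hD₁ hD₂

/-- **Rigidity input (5), level 3**: at a good level `M` (`3 ∣ M`, `M` a unit of `R`), both
charts of `h = pk85_h3 K M`. -/
theorem rc43_level3 {π : R} (hπ : Irreducible π) (h3 : 3 ∣ M) (hMu : IsUnit (M : R)) :
    (nuThree M = 0 →
      rc43_Root π (pk15_chart R ({pk85_h3 K M h3} : Set ↥(modularFunctionFieldFullC K M))) 3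
        (relimc_J K M) ∧
      rc43_Root π (pk15_chart R ({(pk85_h3 K M h3)⁻¹} : Set ↥(modularFunctionFieldFullC K M))) 3
        (relimc_J K M)) ∧
    (nuTwo M = 0 →
      rc43_Root π (pk15_chart R ({pk85_h3 K M h3} : Set ↥(modularFunctionFieldFullC K M))) 2
        (relimc_J K M - 1728) ∧
      rc43_Root π (pk15_chart R ({(pk85_h3 K M h3)⁻¹} : Set ↥(modularFunctionFieldFullC K M))) 2
        (relimc_J K M - 1728)) := by
  haveI : Algebra.IsAlgebraic K Q̄ := fs85_isAlgebraic K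
  obtain ⟨hs₁, hs₂, -⟩ := cm15_base_sat_level3 (R := R) (K := K) M hπ h3 hMu
  obtain ⟨⟨hD₁, -⟩, ⟨hD₂, -⟩⟩ := sm79_level3 (R := R) K M hπ hMu h3
  exact rc43_of_facts M hπ _ (cm85_facts_level3 (R := R) (K := K) M hπ h3) hs₁ hs₂ hD₁ hD₂

end rc43_concrete

end Fermat.Agent.S36
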