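import Mathlib
import Fermat.Agent.S36.RigidCubeInst43

/-!
# S36 lab, row C-REGq, rigidity input (5) for `q = 2` (helper43): `h₃ + 27` is a cube

For `q = 2` the auxiliary prime is `p₀ = 3` and the Hauptmodul is `h = pk85_h3 K M`, with
`J h³ = (h + 27) (h + 243)³`.  At a level without elliptic points of order `3` the zeros of
`h + 27` are zeros of `J` of the same order `3` (there `h`, `h + 243` are units), so at every
closed point `n` of the special fibre of both charts of a GOOD level `M` (`3 ∣ M`, `M` a unit of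
`R`) at which `h + 27` is regular:

  `h + 27 = ε * c ^ 3`, `ε, ε⁻¹, c ∈ B_n`   (`rc43_RootAt B n 3 (h + 27)`).

Modulo `2`: `jbar * hbar³ = (hbar + 1)⁴`, hence `12 ∣ ord(jbar)` at the points over `jbar = 0`
(with `ed49_level3_char_two`).

* `rc43_unit_add`      : a non-unit plus a unit of a valuation ring is a unit.
* `rc43_h27_ord`       : the horizontal order statement for `h + 27`.
* `rc43_h27_unit`      : `h + 27` is a unit of the Gauss valuation ring.
* `rc43_level3_h27`    : the statement for both charts.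

All names are prefixed `rc43_`.
-/

set_option autoImplicit false
set_option linter.unusedSectionVars false
set_option linter.style.haveILetI false

open ModularCurve AlgebraicCurve

namespace Fermat.Agent.S36

open Fermat.Agent.S18 Fermat.Agent.S24 Fermat.Agent.S34

local notation "Q̄" => AlgebraicClosure ℚ

section rc43_val

variable {F : Type*} [Field F]

/-- In a valuation ring, a non-unit plus a unit is a unit. -/
theorem rc43_unit_add (O : ValuationSubring F) (f u : F) (hf : f ∈ O) (hf' : f⁻¹ ∉ O)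
    (hu0 : u ≠ 0) (hu : u ∈ O) (hu' : u⁻¹ ∈ O) :
    f + u ≠ 0 ∧ f + u ∈ O ∧ (f + u)⁻¹ ∈ O := by
  have hvf : O.valuation f < 1 := by
    have h1 : ¬ O.valuation f⁻¹ ≤ 1 := fun h => hf' ((O.valuation_le_one_iff _).mp h)
    rw [map_inv₀, not_le] at h1
    have h0 : O.valuation f ≠ 0 := by
      intro h0
      rw [h0, inv_zero] at h1
      exact not_lt.mpr zero_le_one h1
    exact (one_lt_inv₀ (zero_lt_iff.mpr h0)).mp h1
  have hvu : O.valuation u = 1 := by
    have h1 : O.valuation u ≤ 1 := (O.valuation_le_one_iff _).mpr hu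
    have h2 : O.valuation u⁻¹ ≤ 1 := (O.valuation_le_one_iff _).mpr hu'
    rw [map_inv₀] at h2
    have h0 : O.valuation u ≠ 0 := (Valuation.ne_zero_iff _).mpr hu0
    exact le_antisymm h1 ((inv_le_one₀ (zero_lt_iff.mpr h0)).mp h2)
  have hv : O.valuation (f + u) = 1 := by
    rw [Valuation.map_add_eq_of_lt_right _ (by rw [hvu]; exact hvf), hvu]
  refine ⟨?_, O.add_mem _ _ hf hu, ?_⟩
  · intro h0
    rw [h0, map_zero] at hv
    exact zero_ne_one hv
  · rw [← O.valuation_le_one_iff, map_inv₀, hv, inv_one]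

end rc43_val

section rc43_two

variable {R K : Type} [CommRing R] [IsDomain R] [IsDiscreteValuationRing R] [Field K]
  [NumberField K] [Algebra K Q̄] [Algebra R K] [IsFractionRing R K] (M : ℕ) [NeZero M]
  [Algebra R ↥(modularFunctionFieldFullC K M)]
  [IsScalarTower R K ↥(modularFunctionFieldFullC K M)]

/-- `J h³ = (h + 27) (h + 243)³` in `F_K(M)`. -/
theorem rc43_h3_rel (h3 : 3 ∣ M) :
    relimc_J K M * pk85_h3 K M h3 ^ 3 =
      (pk85_h3 K M h3 + 27) * (pk85_h3 K M h3 + 243) ^ 3 := by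
  apply Subtype.ext
  push_cast
  exact h34_h3R_j K

/-- a nonzero rational constant is a unit of every horizontal valuation ring. -/
theorem rc43_const_unit {π : R} (hπ : Irreducible π)
    (O : ValuationSubring ↥(modularFunctionFieldFullC K M)) (hO : s34i47_IsHoriz π O) (a : K)
    (ha : a ≠ 0) :
    algebraMap K ↥(modularFunctionFieldFullC K M) a ≠ 0 ∧
      algebraMap K ↥(modularFunctionFieldFullC K M) a ∈ O ∧
      (algebraMap K ↥(modularFunctionFieldFullC K M) a)⁻¹ ∈ O := by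
  refine ⟨(map_ne_zero _).mpr ha, ca57_algebraMap_mem hπ O hO.2.2.1 hO.2.2.2 a, ?_⟩
  rw [← map_inv₀]
  exact ca57_algebraMap_mem hπ O hO.2.2.1 hO.2.2.2 a⁻¹

/-- **Horizontal order of `h₃ + 27`** at a level without elliptic points of order `3`. -/
theorem rc43_h27_ord {π : R} (hπ : Irreducible π) (h3 : 3 ∣ M) (hnu : nuThree M = 0)
    (O : ValuationSubring ↥(modularFunctionFieldFullC K M)) (hO : s34i47_IsHoriz π O)
    (hfO : pk85_h3 K M h3 + 27 ∈ O) :
    ∃ ε w : ↥(modularFunctionFieldFullC K M), ε ∈ O ∧ ε⁻¹ ∈ O ∧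
      pk85_h3 K M h3 + 27 = ε * w ^ 3 := by
  by_cases hfu : (pk85_h3 K M h3 + 27)⁻¹ ∈ O
  · exact ⟨pk85_h3 K M h3 + 27, 1, hfO, hfu, by rw [one_pow, mul_one]⟩
  · set h := pk85_h3 K M h3 with hh
    have hc1 := rc43_const_unit M hπ O hO (-27 : K) (by norm_num)
    have hc2 := rc43_const_unit M hπ O hO (216 : K) (by norm_num)
    rw [map_neg, map_ofNat] at hc1
    rw [map_ofNat] at hc2
    obtain ⟨hh0, hhO, hhO'⟩ : h ≠ 0 ∧ h ∈ O ∧ h⁻¹ ∈ O := by
      have := rc43_unit_add O (h + 27) (-27) hfO hfu hc1.1 hc1.2.1 hc1.2.2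
      rwa [add_neg_cancel_right] at this
    obtain ⟨hg0, hgO, hgO'⟩ : h + 243 ≠ 0 ∧ h + 243 ∈ O ∧ (h + 243)⁻¹ ∈ O := by
      have := rc43_unit_add O (h + 27) 216 hfO hfu hc2.1 hc2.2.1 hc2.2.2
      have e : h + 27 + 216 = h + 243 := by ring
      rwa [e] at this
    have hrel := rc43_h3_rel (K := K) M h3
    rw [← hh] at hrel
    have hJ : relimc_J K M = (h + 27) * (h + 243) ^ 3 * (h⁻¹) ^ 3 := by
      rw [← hrel]
      field_simp
    have hJO : relimc_J K M ∈ O := by
      rw [hJ]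
      exact O.mul_mem _ _ (O.mul_mem _ _ hfO (pow_mem hgO 3)) (pow_mem hhO' 3)
    obtain ⟨ε, w, hε, hε', hJε⟩ :=
      rh27_horiz_cube K M π hπ hnu (relimc_J K M) (relimc_J_coe K M) O hO hJO
    refine ⟨ε, w * h * (h + 243)⁻¹, hε, hε', ?_⟩
    have h1 : (h + 27) * (h + 243) ^ 3 = ε * w ^ 3 * h ^ 3 := by
      rw [← hrel, hJε]
    field_simp
    linear_combination h1

/-- `h₃ + 27` is a nonzero unit of the Gauss valuation ring. -/
theorem rc43_h27_unit {π : R} (hπ : Irreducible π) (h3 : 3 ∣ M) :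
    pk85_h3 K M h3 + 27 ≠ 0 ∧ pk85_h3 K M h3 + 27 ∈ cm85_Vinf (K := K) M hπ ∧
      (pk85_h3 K M h3 + 27)⁻¹ ∈ cm85_Vinf (K := K) M hπ := by
  obtain ⟨-, -, -, hmax, -, -, -, -, -, -, -, -, hG⟩ :=
    cm85_facts_level3 (R := R) (K := K) M hπ h3
  have hcoe : ((pk85_h3 K M h3 + 27 : ↥(modularFunctionFieldFullC K M)) : LaurentSeries K) =
      coeffMap (algebraMap R K) (h34_h3R R + 27) := by
    rw [map_add, h34_coeffMap_h3R, map_ofNat]
    rfl
  obtain ⟨h1, h2⟩ := hG (pk85_h3 K M h3 + 27) (h34_h3R R + 27) hcoe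
  have hres : coeffMap (IsLocalRing.residue R) (h34_h3R R + 27) ≠ 0 := by
    rw [map_add, h34_coeffMap_h3R, map_ofNat]
    intro h0
    have hrel := h34_h3R_j (IsLocalRing.ResidueField R)
    rw [h0, zero_mul] at hrel
    rcases mul_eq_zero.mp hrel with hj | hh
    · exact jqModC_ne_zero_of_nontrivial (R := IsLocalRing.ResidueField R) hj
    · exact h34_h3R_ne_zero (IsLocalRing.ResidueField R) (pow_eq_zero_iff (by norm_num) |>.mp hh)
  refine ⟨?_, h1, ?_⟩
  · intro h0
    apply hres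
    apply h2.mp
    rw [h0, mul_zero]
    exact (cm85_Vinf (K := K) M hπ).zero_mem
  · by_contra hinv
    exact hres (h2.mp (hmax _ h1 hinv))

/-- **Rigidity input (5) for `q = 2`**: at a good level `M` (`3 ∣ M`, `M` a unit of `R`) without
elliptic points of order `3`, `h₃ + 27` is a unit times a cube in the local ring of every closed
point of the special fibre of both charts at which it is regular. -/
theorem rc43_level3_h27 {π : R} (hπ : Irreducible π) (h3 : 3 ∣ M) (hMu : IsUnit (M : R))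
    (hnu : nuThree M = 0) :
    rc43_Root π (pk15_chart R ({pk85_h3 K M h3} : Set ↥(modularFunctionFieldFullC K M))) 3
        (pk85_h3 K M h3 + 27) ∧
      rc43_Root π (pk15_chart R ({(pk85_h3 K M h3)⁻¹} : Set ↥(modularFunctionFieldFullC K M))) 3
        (pk85_h3 K M h3 + 27) := by
  haveI : Algebra.IsAlgebraic K Q̄ := fs85_isAlgebraic K
  obtain ⟨hs₁, hs₂, -⟩ := cm15_base_sat_level3 (R := R) (K := K) M hπ h3 hMu
  obtain ⟨⟨hD₁, -⟩, ⟨hD₂, -⟩⟩ := sm79_level3 (R := R) K M hπ hMu h3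
  obtain ⟨hf0, hfV, hfV'⟩ := rc43_h27_unit (K := K) M hπ h3
  obtain ⟨htr, -, -, hmax, hhV, hhV', hN₁, hN₂, hfin₁, -, hfrac₁, hfrac₂, -⟩ :=
    cm85_facts_level3 (R := R) (K := K) M hπ h3
  obtain ⟨hKr₁, hKr₂⟩ := kr65_Pkg_Krull R K ↥(modularFunctionFieldFullC K M) π hπ _ htr hN₁ hN₂
    hfin₁ hfrac₁
  have hOrd := fun O hO hfO => rc43_h27_ord (K := K) M hπ h3 hnu O hO hfO
  exact ⟨rc43_gen M hπ _ hhV hN₁ hD₁ hfrac₁ hs₁ hKr₁ hmax 3 (by norm_num) _ hf0 hfV hfV' hOrd,
    rc43_gen M hπ _ hhV' hN₂ hD₂ hfrac₂ hs₂ hKr₂ hmax 3 (by norm_num) _ hf0 hfV hfV' hOrd⟩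

end rc43_two

end Fermat.Agent.S36
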