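import Mathlib
import Fermat.Agent.S34.SpecFibre79
import Fermat.Agent.S36.PointBook63

/-!
# S36 lab, rows 599 / 619 binder (c) (helper79): transport of the rigidity output along a chart map

`α : K →+* L` a field map (the degeneracy map `F_K(N) → F_K(N q)`), `B' ⊆ K`, `B ⊆ L` charts
with `α B' ⊆ B` and `B` integral over `α B'`.  For a maximal ideal `n` of `B` put
`n' := n.comap (bk63_res α B' B hαB)`.

* `rt79_isIntegral`, `rt79_isMaximal_comap`, `rt79_pi_mem_comap` : `n'` is a closed point of the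
  special fibre of `B'`.
* `rt79_loc_map` : `α (B'_{n'}) ⊆ B_n` (in the `sf79_loc` shape `∃ s ∉ n, s * x ∈ B`).
* `rt79_reg_down` : a function `j` which is regular or cuspidal at every prime of `B'` (chart
  dichotomy `ci22_dich`) and with `α j` regular at `n` is regular at `n'`.
* `rt79_root_transfer` : **the transport**: if at every closed point `n'` of the special fibre of
  `B'` where `j` is regular `f = ε * c ^ m` with `ε` a unit of `B'_{n'}` and `c ∈ B'_{n'}` (the
  output shape of `rc43_root` / `rr68_root` / `rs96_spec_chart`), then at every closed point `n`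
  of the special fibre of `B` where `α j` is regular: `α f = ε * c ^ m` with `ε` a unit of `B_n`
  and `c ∈ B_n`.
* `rt79_integral_of_adjoin` : `B` is integral over `α B'` as soon as `B` is integral over a
  subalgebra contained in `α B'` (charts `pk15_chart R {α h}` over `R[α h]`).

Mathlib + `S34/SpecFibre79` + `S36/PointBook63` only.  All names are prefixed `rt79_`.
-/

set_option autoImplicit false

namespace Fermat.Agent.S36

open Fermat.Agent.S34 Polynomial

section RT79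

variable {R K L : Type*} [CommRing R] [Field K] [Field L] [Algebra R K] [Algebra R L]

/-- The restriction of `α` to the charts is integral. -/
theorem rt79_isIntegral (α : K →+* L) (B' : Subalgebra R K) (B : Subalgebra R L)
    (hαB : ∀ x' ∈ B', α x' ∈ B)
    (hBint : ∀ x ∈ B, (α.comp (algebraMap B' K)).IsIntegralElem x) :
    (bk63_res α B' B hαB).IsIntegral := by
  intro x
  obtain ⟨p, hp, hpx⟩ := hBint x x.2
  refine ⟨p, hp, ?_⟩
  apply Subtype.ext
  have h := Polynomial.hom_eval₂ p (bk63_res α B' B hαB) (B.val : B →+* L) x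
  have hcomp : (B.val : B →+* L).comp (bk63_res α B' B hαB) = α.comp (algebraMap B' K) := by
    ext x'; rfl
  rw [hcomp] at h
  have h' : ((eval₂ (bk63_res α B' B hαB) x p : B) : L) =
      eval₂ (α.comp (algebraMap B' K)) (x : L) p := h
  exact h'.trans hpx

/-- The contraction of a closed point is a closed point. -/
theorem rt79_isMaximal_comap (α : K →+* L) (B' : Subalgebra R K) (B : Subalgebra R L)
    (hαB : ∀ x' ∈ B', α x' ∈ B)
    (hBint : ∀ x ∈ B, (α.comp (algebraMap B' K)).IsIntegralElem x)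
    (n : Ideal B) (hn : n.IsMaximal) : (n.comap (bk63_res α B' B hαB)).IsMaximal :=
  Ideal.isMaximal_comap_of_isIntegral_of_isMaximal' (bk63_res α B' B hαB)
    (rt79_isIntegral α B' B hαB hBint) n

/-- The contraction of a point of the special fibre lies on the special fibre. -/
theorem rt79_pi_mem_comap (α : K →+* L) (π : R)
    (hπα : α (algebraMap R K π) = algebraMap R L π)
    (B' : Subalgebra R K) (B : Subalgebra R L) (hαB : ∀ x' ∈ B', α x' ∈ B)
    (n : Ideal B) (hπn : algebraMap R B π ∈ n) :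
    algebraMap R B' π ∈ n.comap (bk63_res α B' B hαB) := by
  rw [Ideal.mem_comap]
  have : bk63_res α B' B hαB (algebraMap R B' π) = algebraMap R B π := by
    apply Subtype.ext
    show α (algebraMap R K π) = algebraMap R L π
    exact hπα
  rw [this]
  exact hπn

/-- `α` maps the local ring of the contraction into the local ring. -/
theorem rt79_loc_map (α : K →+* L) (B' : Subalgebra R K) (B : Subalgebra R L)
    (hαB : ∀ x' ∈ B', α x' ∈ B) (n : Ideal B) (x : K)
    (hx : ∃ s : B', s ∉ n.comap (bk63_res α B' B hαB) ∧ (s : K) * x ∈ B') :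
    ∃ s : B, s ∉ n ∧ (s : L) * α x ∈ B := by
  obtain ⟨s, hs, hsx⟩ := hx
  refine ⟨bk63_res α B' B hαB s, fun h => hs (Ideal.mem_comap.mpr h), ?_⟩
  have : ((bk63_res α B' B hαB s : B) : L) * α x = α ((s : K) * x) := by
    rw [map_mul]
    rfl
  rw [this]
  exact hαB _ hsx

/-- Regularity descends along the chart map, given the chart dichotomy downstairs. -/
theorem rt79_reg_down (α : K →+* L) (B' : Subalgebra R K) (B : Subalgebra R L)
    (hαB : ∀ x' ∈ B', α x' ∈ B) (n : Ideal B) [hn : n.IsPrime] (j : K)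
    (hdich : (∃ s b : B', s ∉ n.comap (bk63_res α B' B hαB) ∧ (s : K) * j = (b : K)) ∨
      (∃ a₀ c₀ : B', a₀ ∈ n.comap (bk63_res α B' B hαB) ∧
        c₀ ∉ n.comap (bk63_res α B' B hαB) ∧ j * (a₀ : K) = (c₀ : K)))
    (hreg : ∃ s : B, s ∉ n ∧ (s : L) * α j ∈ B) :
    ∃ s : B', s ∉ n.comap (bk63_res α B' B hαB) ∧ (s : K) * j ∈ B' := by
  rcases hdich with ⟨s, b, hs, hsb⟩ | ⟨a₀, c₀, ha, hc, hac⟩
  · exact ⟨s, hs, by rw [hsb]; exact b.2⟩
  · exfalso
    obtain ⟨s, hs, hsj⟩ := hreg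
    have hprod : s * bk63_res α B' B hαB c₀ =
        ⟨(s : L) * α j, hsj⟩ * bk63_res α B' B hαB a₀ := by
      apply Subtype.ext
      show (s : L) * α (c₀ : K) = (s : L) * α j * α (a₀ : K)
      rw [← hac, map_mul]
      ring
    have hmem : s * bk63_res α B' B hαB c₀ ∈ n := by
      rw [hprod]
      exact n.mul_mem_left _ (Ideal.mem_comap.mp ha)
    rcases hn.mem_or_mem hmem with h | h
    · exact hs h
    · exact hc (Ideal.mem_comap.mpr h)

/-- **Transport of the local `m`-th root structure** from the chart `B'` to the chart `B`. -/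
theorem rt79_root_transfer (α : K →+* L) (π : R)
    (hπα : α (algebraMap R K π) = algebraMap R L π)
    (B' : Subalgebra R K) (B : Subalgebra R L) (hαB : ∀ x' ∈ B', α x' ∈ B)
    (hBint : ∀ x ∈ B, (α.comp (algebraMap B' K)).IsIntegralElem x)
    (j f : K) (m : ℕ)
    (hdich : ∀ n' : Ideal B', n'.IsPrime →
      (∃ s b : B', s ∉ n' ∧ (s : K) * j = (b : K)) ∨
        (∃ a₀ c₀ : B', a₀ ∈ n' ∧ c₀ ∉ n' ∧ j * (a₀ : K) = (c₀ : K)))
    (hroot : ∀ n' : Ideal B', n'.IsMaximal → algebraMap R B' π ∈ n' →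
      (∃ s : B', s ∉ n' ∧ (s : K) * j ∈ B') →
      ∃ c ε : K, c ≠ 0 ∧ f = ε * c ^ m ∧ (∃ s : B', s ∉ n' ∧ (s : K) * ε ∈ B') ∧
        (∃ s : B', s ∉ n' ∧ (s : K) * ε⁻¹ ∈ B') ∧ (∃ s : B', s ∉ n' ∧ (s : K) * c ∈ B'))
    (n : Ideal B) (hn : n.IsMaximal) (hπn : algebraMap R B π ∈ n)
    (hreg : ∃ s : B, s ∉ n ∧ (s : L) * α j ∈ B) :
    ∃ c ε : L, c ≠ 0 ∧ α f = ε * c ^ m ∧ (∃ s : B, s ∉ n ∧ (s : L) * ε ∈ B) ∧
      (∃ s : B, s ∉ n ∧ (s : L) * ε⁻¹ ∈ B) ∧ (∃ s : B, s ∉ n ∧ (s : L) * c ∈ B) := by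
  haveI hnp : n.IsPrime := hn.isPrime
  have hmax := rt79_isMaximal_comap α B' B hαB hBint n hn
  have hπn' := rt79_pi_mem_comap α π hπα B' B hαB n hπn
  have hreg' := rt79_reg_down α B' B hαB n j (hdich _ hmax.isPrime) hreg
  obtain ⟨c, ε, hc0, hf, hε, hε', hc⟩ := hroot _ hmax hπn' hreg'
  refine ⟨α c, α ε, (map_ne_zero α).mpr hc0, by rw [hf, map_mul, map_pow],
    rt79_loc_map α B' B hαB n ε hε, ?_, rt79_loc_map α B' B hαB n c hc⟩
  have := rt79_loc_map α B' B hαB n ε⁻¹ hε'
  rwa [map_inv₀] at this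

/-- Integrality of `B` over `α B'` from integrality over a subalgebra inside `α B'`. -/
theorem rt79_integral_of_adjoin (α : K →+* L) (B' : Subalgebra R K) (A : Subalgebra R L)
    (hA : ∀ a ∈ A, ∃ b ∈ B', α b = a) (x : L) (hx : IsIntegral A x) :
    (α.comp (algebraMap B' K)).IsIntegralElem x := by
  obtain ⟨p, hp, hpx⟩ := hx
  have hlift : p.map (algebraMap A L) ∈ Polynomial.lifts (α.comp (algebraMap B' K)) := by
    rw [Polynomial.lifts_iff_coeff_lifts]
    intro k
    rw [Polynomial.coeff_map]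
    obtain ⟨b, hb, hba⟩ := hA (p.coeff k) (p.coeff k).2
    exact ⟨⟨b, hb⟩, hba⟩
  obtain ⟨r, hr, -, hrm⟩ := Polynomial.lifts_and_degree_eq_and_monic hlift (hp.map _)
  refine ⟨r, hrm, ?_⟩
  rw [← Polynomial.eval_map, hr, Polynomial.eval_map]
  exact hpx

/-- **The local `m`-th root structure of `f`** at every closed point of the special fibre of the
chart `B` where `j` is regular: `f = ε * c ^ m`, `ε` a unit of `B_n`, `c ∈ B_n`
(`sf79_loc` shape; the output shape of `rc43_root` / `rr68_root`). -/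
def rt79_RootAt (π : R) (B : Subalgebra R K) (j f : K) (m : ℕ) : Prop :=
  ∀ n : Ideal B, n.IsMaximal → algebraMap R B π ∈ n → (∃ s : B, s ∉ n ∧ (s : K) * j ∈ B) →
    ∃ c ε : K, c ≠ 0 ∧ f = ε * c ^ m ∧ (∃ s : B, s ∉ n ∧ (s : K) * ε ∈ B) ∧
      (∃ s : B, s ∉ n ∧ (s : K) * ε⁻¹ ∈ B) ∧ (∃ s : B, s ∉ n ∧ (s : K) * c ∈ B)

/-- `rt79_root_transfer` in the `rt79_RootAt` form. -/
theorem rt79_rootAt_transfer (α : K →+* L) (π : R)
    (hπα : α (algebraMap R K π) = algebraMap R L π)
    (B' : Subalgebra R K) (B : Subalgebra R L) (hαB : ∀ x' ∈ B', α x' ∈ B)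
    (hBint : ∀ x ∈ B, (α.comp (algebraMap B' K)).IsIntegralElem x)
    (j f : K) (m : ℕ)
    (hdich : ∀ n' : Ideal B', n'.IsPrime →
      (∃ s b : B', s ∉ n' ∧ (s : K) * j = (b : K)) ∨
        (∃ a₀ c₀ : B', a₀ ∈ n' ∧ c₀ ∉ n' ∧ j * (a₀ : K) = (c₀ : K)))
    (hroot : rt79_RootAt π B' j f m) : rt79_RootAt π B (α j) (α f) m :=
  fun n hn hπn hreg =>
    rt79_root_transfer α π hπα B' B hαB hBint j f m hdich hroot n hn hπn hreg

/-- The root structure is multiplicative in the exponent: `f = ε c ^ (m * k)` gives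
`f = ε (c ^ k) ^ m`. -/
theorem rt79_rootAt_of_mul (π : R) (B : Subalgebra R K) (j f : K) (m k : ℕ)
    (h : rt79_RootAt π B j f (m * k)) : rt79_RootAt π B j f m := by
  intro n hn hπn hreg
  haveI := hn.isPrime
  obtain ⟨c, ε, hc0, hf, hε, hε', hc⟩ := h n hn hπn hreg
  refine ⟨c ^ k, ε, pow_ne_zero k hc0, by rw [hf, ← pow_mul, mul_comm k m], hε, hε', ?_⟩
  exact (sf79_loc B n).pow_mem hc k

end RT79

end Fermat.Agent.S36
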