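import Mathlib
import Fermat.Agent.S34.CuspInst22
import Fermat.Agent.S36.ChartMaps71
import Fermat.Agent.S36.RigidTransfer79

/-!
# S36 lab, rows 599 / 619 binder (c) (helper79): the rigidity output at level `N * q`

Concrete form of `rt79_root_transfer` for `α = al97L_alpha K N q : F_K(N) → F_K(N q)` and the
affine charts `pk15_chart R {g'}` (level `N`), `pk15_chart R {α g'}` (level `N q`).

* `rt79c_transfer` : generic chart coordinate `g'` (chart dichotomy for `j` downstairs as a
  hypothesis).
* `rt79c_level2`, `rt79c_level2_inv`, `rt79c_level3`, `rt79c_level3_inv` : the four charts of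
  the Hauptmoduln `pk85_h2`, `pk85_h3` with `j = rm90_j`: **if at every closed point `n'` of the
  special fibre of the level-`N` chart where `j` is regular `f = ε * c ^ m`, `ε` a unit of the
  local ring, `c` in the local ring** (output of `rc43_root` / `rr68_root` at the good level `N`
  for `f = j` (`m = 3`), `f = j - 1728` (`m = 2`), `f = h₃ + 27` (`m = 3`)), **then the same
  holds for `α f` at every closed point `n` of the special fibre of the level-`N q` chart where
  `j` is regular** (every node: `cni53_node_regular`).  Through any ring hom `B_n → O` (e.g. the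
  reduction to the branch DVR, `rh19_Red`) this is the divisibility input `3 ∣ e`, `2 ∣ e` of
  the `κ = 1` cores.

All names are prefixed `rt79c_`.
-/

set_option autoImplicit false

open ModularCurve

namespace Fermat.Agent.S36

open Fermat.Agent.S34 Fermat.Agent.S18 Fermat.Agent.S24 Fermat.Agent.S36.TripleLoc71

section RT79C

variable {R K : Type} [CommRing R] [IsDomain R] [IsDiscreteValuationRing R] [Field K] [CharZero K]
  [Algebra R K] [IsFractionRing R K] (N q : ℕ) [NeZero N] [NeZero q]
  [Algebra R ↥(modularFunctionFieldFullC K N)]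
  [IsScalarTower R K ↥(modularFunctionFieldFullC K N)]
  [Algebra R ↥(modularFunctionFieldFullC K (N * q))]
  [IsScalarTower R K ↥(modularFunctionFieldFullC K (N * q))]

/-- `α` commutes with the constants of `R`. -/
theorem rt79c_alpha_algebraMap (r : R) :
    al97L_alpha K N q (algebraMap R ↥(modularFunctionFieldFullC K N) r) =
      algebraMap R ↥(modularFunctionFieldFullC K (N * q)) r := by
  rw [IsScalarTower.algebraMap_apply R K ↥(modularFunctionFieldFullC K N),
    IsScalarTower.algebraMap_apply R K ↥(modularFunctionFieldFullC K (N * q))]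
  exact (al97L_alpha K N q).commutes _

/-- `α j = j`. -/
theorem rt79c_alpha_j : al97L_alpha K N q (rm90_j K N) = rm90_j K (N * q) := by
  apply Subtype.ext
  rw [al97L_alpha_coe]
  rfl

/-- The chart of level `N q` is integral over the image of the chart of level `N`. -/
theorem rt79c_integral (g' : ↥(modularFunctionFieldFullC K N))
    (x : ↥(modularFunctionFieldFullC K (N * q)))
    (hx : x ∈ pk15_chart R ({al97L_alpha K N q g'} :
      Set ↥(modularFunctionFieldFullC K (N * q)))) :
    (((al97L_alpha K N q : ↥(modularFunctionFieldFullC K N) →+*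
        ↥(modularFunctionFieldFullC K (N * q)))).comp
      (algebraMap ↥(pk15_chart R ({g'} : Set ↥(modularFunctionFieldFullC K N)))
        ↥(modularFunctionFieldFullC K N))).IsIntegralElem x := by
  refine rt79_integral_of_adjoin _ _
    (Algebra.adjoin R ({al97L_alpha K N q g'} : Set ↥(modularFunctionFieldFullC K (N * q))))
    ?_ x ((pk15_mem_chart _ _).mp hx)
  intro a ha
  have hmap : (Algebra.adjoin R ({g'} : Set ↥(modularFunctionFieldFullC K N))).map
      ((al97L_alpha K N q).restrictScalars R) =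
      Algebra.adjoin R ({al97L_alpha K N q g'} : Set ↥(modularFunctionFieldFullC K (N * q))) :=
    AlgHom.map_adjoin_singleton ((al97L_alpha K N q).restrictScalars R) g'
  rw [← hmap] at ha
  obtain ⟨b, hb, hba⟩ := ha
  refine ⟨b, ?_, hba⟩
  rw [pk15_mem_chart]
  exact isIntegral_algebraMap (R := Algebra.adjoin R ({g'} : Set ↥(modularFunctionFieldFullC K N)))
    (x := ⟨b, hb⟩)

/-- **Transport of the rigidity output to level `N q`**, generic chart coordinate. -/
theorem rt79c_transfer (π : R) (g' : ↥(modularFunctionFieldFullC K N))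
    (g : ↥(modularFunctionFieldFullC K (N * q))) (hg : al97L_alpha K N q g' = g)
    (j f : ↥(modularFunctionFieldFullC K N)) (m : ℕ)
    (hdich : ∀ n' : Ideal ↥(pk15_chart R ({g'} : Set ↥(modularFunctionFieldFullC K N))),
      n'.IsPrime →
      (∃ s b : ↥(pk15_chart R ({g'} : Set ↥(modularFunctionFieldFullC K N))), s ∉ n' ∧
          (s : ↥(modularFunctionFieldFullC K N)) * j = (b : ↥(modularFunctionFieldFullC K N))) ∨
        (∃ a₀ c₀ : ↥(pk15_chart R ({g'} : Set ↥(modularFunctionFieldFullC K N))),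
          a₀ ∈ n' ∧ c₀ ∉ n' ∧
          j * (a₀ : ↥(modularFunctionFieldFullC K N)) = (c₀ : ↥(modularFunctionFieldFullC K N))))
    (hroot : ∀ n' : Ideal ↥(pk15_chart R ({g'} : Set ↥(modularFunctionFieldFullC K N))),
      n'.IsMaximal → algebraMap R _ π ∈ n' →
      (∃ s : ↥(pk15_chart R ({g'} : Set ↥(modularFunctionFieldFullC K N))), s ∉ n' ∧
        (s : ↥(modularFunctionFieldFullC K N)) * j ∈
          pk15_chart R ({g'} : Set ↥(modularFunctionFieldFullC K N))) →
      ∃ c ε : ↥(modularFunctionFieldFullC K N), c ≠ 0 ∧ f = ε * c ^ m ∧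
        (∃ s : ↥(pk15_chart R ({g'} : Set ↥(modularFunctionFieldFullC K N))), s ∉ n' ∧
          (s : ↥(modularFunctionFieldFullC K N)) * ε ∈
            pk15_chart R ({g'} : Set ↥(modularFunctionFieldFullC K N))) ∧
        (∃ s : ↥(pk15_chart R ({g'} : Set ↥(modularFunctionFieldFullC K N))), s ∉ n' ∧
          (s : ↥(modularFunctionFieldFullC K N)) * ε⁻¹ ∈
            pk15_chart R ({g'} : Set ↥(modularFunctionFieldFullC K N))) ∧
        (∃ s : ↥(pk15_chart R ({g'} : Set ↥(modularFunctionFieldFullC K N))), s ∉ n' ∧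
          (s : ↥(modularFunctionFieldFullC K N)) * c ∈
            pk15_chart R ({g'} : Set ↥(modularFunctionFieldFullC K N))))
    (n : Ideal ↥(pk15_chart R ({g} : Set ↥(modularFunctionFieldFullC K (N * q)))))
    (hn : n.IsMaximal) (hπn : algebraMap R _ π ∈ n)
    (hreg : ∃ s : ↥(pk15_chart R ({g} : Set ↥(modularFunctionFieldFullC K (N * q)))), s ∉ n ∧
      (s : ↥(modularFunctionFieldFullC K (N * q))) * al97L_alpha K N q j ∈
        pk15_chart R ({g} : Set ↥(modularFunctionFieldFullC K (N * q)))) :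
    ∃ c ε : ↥(modularFunctionFieldFullC K (N * q)), c ≠ 0 ∧
      al97L_alpha K N q f = ε * c ^ m ∧
      (∃ s : ↥(pk15_chart R ({g} : Set ↥(modularFunctionFieldFullC K (N * q)))), s ∉ n ∧
        (s : ↥(modularFunctionFieldFullC K (N * q))) * ε ∈
          pk15_chart R ({g} : Set ↥(modularFunctionFieldFullC K (N * q)))) ∧
      (∃ s : ↥(pk15_chart R ({g} : Set ↥(modularFunctionFieldFullC K (N * q)))), s ∉ n ∧
        (s : ↥(modularFunctionFieldFullC K (N * q))) * ε⁻¹ ∈
          pk15_chart R ({g} : Set ↥(modularFunctionFieldFullC K (N * q)))) ∧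
      (∃ s : ↥(pk15_chart R ({g} : Set ↥(modularFunctionFieldFullC K (N * q)))), s ∉ n ∧
        (s : ↥(modularFunctionFieldFullC K (N * q))) * c ∈
          pk15_chart R ({g} : Set ↥(modularFunctionFieldFullC K (N * q)))) := by
  subst hg
  exact rt79_root_transfer
    ((al97L_alpha K N q : ↥(modularFunctionFieldFullC K N) →+*
      ↥(modularFunctionFieldFullC K (N * q)))) π (rt79c_alpha_algebraMap N q π)
    (pk15_chart R ({g'} : Set ↥(modularFunctionFieldFullC K N)))
    (pk15_chart R ({al97L_alpha K N q g'} : Set ↥(modularFunctionFieldFullC K (N * q))))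
    (cm71_alpha_charts (R := R) (K := K) N q g').1
    (rt79c_integral N q g') j f m hdich hroot n hn hπn hreg

/-- `α h₂ = h₂`. -/
theorem rt79c_alpha_h2 (h2 : 2 ∣ N) :
    al97L_alpha K N q (pk85_h2 K N h2) = pk85_h2 K (N * q) (Dvd.dvd.mul_right h2 q) := by
  apply Subtype.ext
  rw [al97L_alpha_coe, pk85_h2_coe, pk85_h2_coe]

/-- `α h₃ = h₃`. -/
theorem rt79c_alpha_h3 (h3 : 3 ∣ N) :
    al97L_alpha K N q (pk85_h3 K N h3) = pk85_h3 K (N * q) (Dvd.dvd.mul_right h3 q) := by
  apply Subtype.ext
  rw [al97L_alpha_coe, pk85_h3_coe, pk85_h3_coe]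

/-- `rt79c_transfer` in the `rt79_RootAt` form, `j = rm90_j`. -/
theorem rt79c_rootAt (π : R) (g' : ↥(modularFunctionFieldFullC K N))
    (g : ↥(modularFunctionFieldFullC K (N * q))) (hg : al97L_alpha K N q g' = g)
    (f : ↥(modularFunctionFieldFullC K N)) (m : ℕ)
    (hdich : ∀ n' : Ideal ↥(pk15_chart R ({g'} : Set ↥(modularFunctionFieldFullC K N))),
      n'.IsPrime →
      (∃ s b : ↥(pk15_chart R ({g'} : Set ↥(modularFunctionFieldFullC K N))), s ∉ n' ∧
          (s : ↥(modularFunctionFieldFullC K N)) * rm90_j K N =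
            (b : ↥(modularFunctionFieldFullC K N))) ∨
        (∃ a₀ c₀ : ↥(pk15_chart R ({g'} : Set ↥(modularFunctionFieldFullC K N))),
          a₀ ∈ n' ∧ c₀ ∉ n' ∧
          rm90_j K N * (a₀ : ↥(modularFunctionFieldFullC K N)) =
            (c₀ : ↥(modularFunctionFieldFullC K N))))
    (hroot : rt79_RootAt π (pk15_chart R ({g'} : Set ↥(modularFunctionFieldFullC K N)))
      (rm90_j K N) f m) :
    rt79_RootAt π (pk15_chart R ({g} : Set ↥(modularFunctionFieldFullC K (N * q))))
      (rm90_j K (N * q)) (al97L_alpha K N q f) m := by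
  intro n hn hπn hreg
  rw [← rt79c_alpha_j N q] at hreg
  exact rt79c_transfer N q π g' g hg (rm90_j K N) f m hdich hroot n hn hπn hreg

/-- **Level `2`, chart `{h₂}`.** -/
theorem rt79c_level2 (π : R) (h2 : 2 ∣ N) (h2u : IsUnit (2 : R))
    (f : ↥(modularFunctionFieldFullC K N)) (m : ℕ)
    (hroot : rt79_RootAt π
      (pk15_chart R ({pk85_h2 K N h2} : Set ↥(modularFunctionFieldFullC K N)))
      (rm90_j K N) f m) :
    rt79_RootAt π
      (pk15_chart R ({pk85_h2 K (N * q) (Dvd.dvd.mul_right h2 q)} :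
        Set ↥(modularFunctionFieldFullC K (N * q))))
      (rm90_j K (N * q)) (al97L_alpha K N q f) m :=
  rt79c_rootAt N q π _ _ (rt79c_alpha_h2 N q h2) f m
    (fun n' hn' => by haveI := hn'; exact ci22_dich_level2 N h2 h2u n') hroot

/-- **Level `2`, chart `{h₂⁻¹}`.** -/
theorem rt79c_level2_inv (π : R) (h2 : 2 ∣ N)
    (f : ↥(modularFunctionFieldFullC K N)) (m : ℕ)
    (hroot : rt79_RootAt π
      (pk15_chart R ({(pk85_h2 K N h2)⁻¹} : Set ↥(modularFunctionFieldFullC K N)))
      (rm90_j K N) f m) :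
    rt79_RootAt π
      (pk15_chart R ({(pk85_h2 K (N * q) (Dvd.dvd.mul_right h2 q))⁻¹} :
        Set ↥(modularFunctionFieldFullC K (N * q))))
      (rm90_j K (N * q)) (al97L_alpha K N q f) m :=
  rt79c_rootAt N q π _ _ (by rw [map_inv₀, rt79c_alpha_h2 N q h2]) f m
    (fun n' hn' => by haveI := hn'; exact ci22_dich_level2_inv N h2 n') hroot

/-- **Level `3`, chart `{h₃}`.** -/
theorem rt79c_level3 (π : R) (h3 : 3 ∣ N) (h3u : IsUnit (3 : R))
    (f : ↥(modularFunctionFieldFullC K N)) (m : ℕ)
    (hroot : rt79_RootAt π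
      (pk15_chart R ({pk85_h3 K N h3} : Set ↥(modularFunctionFieldFullC K N)))
      (rm90_j K N) f m) :
    rt79_RootAt π
      (pk15_chart R ({pk85_h3 K (N * q) (Dvd.dvd.mul_right h3 q)} :
        Set ↥(modularFunctionFieldFullC K (N * q))))
      (rm90_j K (N * q)) (al97L_alpha K N q f) m :=
  rt79c_rootAt N q π _ _ (rt79c_alpha_h3 N q h3) f m
    (fun n' hn' => by haveI := hn'; exact ci22_dich_level3 N h3 h3u n') hroot

/-- **Level `3`, chart `{h₃⁻¹}`.** -/
theorem rt79c_level3_inv (π : R) (h3 : 3 ∣ N)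
    (f : ↥(modularFunctionFieldFullC K N)) (m : ℕ)
    (hroot : rt79_RootAt π
      (pk15_chart R ({(pk85_h3 K N h3)⁻¹} : Set ↥(modularFunctionFieldFullC K N)))
      (rm90_j K N) f m) :
    rt79_RootAt π
      (pk15_chart R ({(pk85_h3 K (N * q) (Dvd.dvd.mul_right h3 q))⁻¹} :
        Set ↥(modularFunctionFieldFullC K (N * q))))
      (rm90_j K (N * q)) (al97L_alpha K N q f) m :=
  rt79c_rootAt N q π _ _ (by rw [map_inv₀, rt79c_alpha_h3 N q h3]) f m
    (fun n' hn' => by haveI := hn'; exact ci22_dich_level3_inv N h3 n') hroot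

end RT79C

end Fermat.Agent.S36
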