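import Mathlib
import Fermat.Agent.S36.RigidCubeTwo43
import Fermat.Agent.S36.RigidTransferInst79

/-!
# S36 lab, row C-REGq, rigidity input (R) AT THE LEVEL-`q` CHARTS, unconditional (helper43)

Composition of `rc43_level2` / `rc43_level3` / `rc43_level3_h27` (rigidity at the good level `N`,
`RigidCubeInst43`, `RigidCubeTwo43`) with the transport `rt79c_level2/3(_inv)` along
`α = al97L_alpha K N q` (helper79, `RigidTransferInst79`).

For a GOOD level `N` (`p₀ ∣ N`, `N` a unit of `R`), ANY `q`, and BOTH charts `{h}`, `{h⁻¹}` of the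
Hauptmodul of level `p₀` at level `N * q`: at every closed point `n` of the special fibre at which
`J = rm90_j K (N * q)` is regular (every node: `cni53_node_regular`),

* `nuThree N = 0` ⟹ `J = ε * c ^ 3`,
* `nuTwo N = 0` ⟹ `J - 1728 = ε * c ^ 2`,
* `p₀ = 3`, `nuThree N = 0` ⟹ `h₃ + 27 = ε * c ^ 3`   (the input for `q = 2`),

with `c ≠ 0` and `ε, ε⁻¹, c ∈ B_n` — literally `rt79_RootAt π B J f m`.

* `rq43_rootAt_of_root` : `rc43_Root` ⟹ `rt79_RootAt`.
* `rq43_level2`, `rq43_level3`, `rq43_level3_h27` : the statements.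
* `rq43_image` : under any ring hom `ρ : sf79_loc B n →+* O`, `ρ f = u * c ^ m` with `u` a unit
  (the clauses `hj3`, `hj2` of `kn13_kappa_eq_one` / `ka13_kappa_eq_one` with no case split).

All names are prefixed `rq43_`.
-/

set_option autoImplicit false
set_option linter.unusedSectionVars false
set_option linter.style.haveILetI false

open ModularCurve AlgebraicCurve

namespace Fermat.Agent.S36

open Fermat.Agent.S18 Fermat.Agent.S24 Fermat.Agent.S34

local notation "Q̄" => AlgebraicClosure ℚ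

section rq43_abs

variable {R F : Type*} [CommRing R] [Field F] [Algebra R F]

/-- `rc43_Root` gives `rt79_RootAt` as soon as regularity of `j` implies regularity of `f`. -/
theorem rq43_rootAt_of_root (π : R) (B : Subalgebra R F) (j f : F) (m : ℕ)
    (hreg : ∀ n : Ideal B, n.IsMaximal → (∃ s : B, s ∉ n ∧ (s : F) * j ∈ B) →
      ∃ s : B, s ∉ n ∧ (s : F) * f ∈ B)
    (h : rc43_Root π B m f) : rt79_RootAt π B j f m :=
  fun n hn hπn hj => h n hn hπn (hreg n hn hj)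

/-- regularity of `j` gives regularity of `j - 1728`. -/
theorem rq43_reg_sub (B : Subalgebra R F) (j : F) (n : Ideal B)
    (h : ∃ s : B, s ∉ n ∧ (s : F) * j ∈ B) : ∃ s : B, s ∉ n ∧ (s : F) * (j - 1728) ∈ B := by
  obtain ⟨s, hs, hsj⟩ := h
  refine ⟨s, hs, ?_⟩
  have h1728 : (1728 : F) ∈ B := by
    have := B.algebraMap_mem (1728 : R)
    rwa [map_ofNat] at this
  rw [mul_sub]
  exact B.sub_mem hsj (B.mul_mem s.2 h1728)

/-- **Image of the root structure** under any ring hom out of the local ring `B_n`. -/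
theorem rq43_image (B : Subalgebra R F) (n : Ideal B) [n.IsPrime] (m : ℕ) (f : F) (hf0 : f ≠ 0)
    (h : ∃ c ε : F, c ≠ 0 ∧ f = ε * c ^ m ∧ (∃ s : B, s ∉ n ∧ (s : F) * ε ∈ B) ∧
      (∃ s : B, s ∉ n ∧ (s : F) * ε⁻¹ ∈ B) ∧ ∃ s : B, s ∉ n ∧ (s : F) * c ∈ B)
    {O : Type*} [CommRing O] (ρ : sf79_loc B n →+* O) (hfA : f ∈ sf79_loc B n) :
    ∃ c u : O, IsUnit u ∧ ρ ⟨f, hfA⟩ = u * c ^ m := by
  obtain ⟨c, ε, -, hf, hε, hε', hc⟩ := h
  have hε0 : ε ≠ 0 := by
    rintro rfl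
    rw [zero_mul] at hf
    exact hf0 hf
  have hεA : ε ∈ sf79_loc B n := hε
  have hεA' : ε⁻¹ ∈ sf79_loc B n := hε'
  have hcA : c ∈ sf79_loc B n := hc
  refine ⟨ρ ⟨c, hcA⟩, ρ ⟨ε, hεA⟩, ?_, ?_⟩
  · refine IsUnit.of_mul_eq_one (ρ ⟨ε⁻¹, hεA'⟩) ?_
    rw [← map_mul, ← map_one ρ]
    congr 1
    apply Subtype.ext
    show ε * ε⁻¹ = 1
    exact mul_inv_cancel₀ hε0
  · rw [← map_pow, ← map_mul]
    congr 1
    apply Subtype.ext
    show f = ε * c ^ m
    exact hf

/-- Abstract form of `rq43_reg_h27_inv`: if `h⁻¹ ∈ B` and `j h³ = (h + 27)(h + 243)³`, then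
regularity of `j` at a maximal ideal `n` of `B` gives regularity of `h + 27` at `n`. -/
theorem rq43_reg_h27_abs (B : Subalgebra R F) (n : Ideal B) (hn : n.IsMaximal) (j hh : F)
    (hh0 : hh ≠ 0) (hhB : hh⁻¹ ∈ B) (hrel : j * hh ^ 3 = (hh + 27) * (hh + 243) ^ 3)
    (h : ∃ s : B, s ∉ n ∧ (s : F) * j ∈ B) :
    ∃ s : B, s ∉ n ∧ (s : F) * (hh + 27) ∈ B := by
  haveI hnp : n.IsPrime := hn.isPrime
  let t : B := ⟨hh⁻¹, hhB⟩
  have h27 : (27 : F) ∈ B := by
    have := B.algebraMap_mem (27 : R)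
    rwa [map_ofNat] at this
  by_cases ht : t ∈ n
  · -- `j` has a pole at `n`: contradiction
    exfalso
    obtain ⟨s, hs, hsJ⟩ := h
    let c₀ : B := (1 + 27 * t) * (1 + 243 * t) ^ 3
    have hJt : j * hh⁻¹ = (1 + 27 * hh⁻¹) * (1 + 243 * hh⁻¹) ^ 3 := by
      have hj : j = (hh + 27) * (hh + 243) ^ 3 / hh ^ 3 := by
        rw [eq_div_iff (pow_ne_zero 3 hh0)]
        exact hrel
      rw [hj]
      field_simp
    have hprod : (⟨_, hsJ⟩ : B) * t = s * c₀ := by
      apply Subtype.ext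
      show (s : F) * j * hh⁻¹ = (s : F) * ((1 + 27 * hh⁻¹) * (1 + 243 * hh⁻¹) ^ 3)
      rw [mul_assoc, hJt]
    have hmem : s * c₀ ∈ n := by
      rw [← hprod]
      exact n.mul_mem_left _ ht
    have hc₀ : c₀ ∈ n := (hnp.mem_or_mem hmem).resolve_left hs
    have hc₁ : c₀ - 1 ∈ n := by
      have e : c₀ - 1 = t * (27 * (1 + 243 * t) ^ 3 + 243 * (3 + 3 * 243 * t + 243 ^ 2 * t ^ 2)) := by
        show (1 + 27 * t) * (1 + 243 * t) ^ 3 - 1 = _
        ring
      rw [e]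
      exact n.mul_mem_right _ ht
    have h1 : (1 : B) ∈ n := by
      have := n.sub_mem hc₀ hc₁
      rwa [sub_sub_cancel] at this
    exact (Ideal.ne_top_iff_one n).mp hn.ne_top h1
  · refine ⟨t, ht, ?_⟩
    have e : ((t : B) : F) * (hh + 27) = 1 + 27 * hh⁻¹ := by
      show hh⁻¹ * (hh + 27) = 1 + 27 * hh⁻¹
      field_simp
    rw [e]
    exact B.add_mem B.one_mem (B.mul_mem h27 hhB)

end rq43_abs

section rq43_concrete

variable {R K : Type} [CommRing R] [IsDomain R] [IsDiscreteValuationRing R] [Field K]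
  [NumberField K] [Algebra K Q̄] [Algebra R K] [IsFractionRing R K] (N q : ℕ) [NeZero N] [NeZero q]
  [Algebra R ↥(modularFunctionFieldFullC K N)]
  [IsScalarTower R K ↥(modularFunctionFieldFullC K N)]
  [Algebra R ↥(modularFunctionFieldFullC K (N * q))]
  [IsScalarTower R K ↥(modularFunctionFieldFullC K (N * q))]

/-- `α (J - 1728) = J - 1728`. -/
theorem rq43_alpha_j1728 :
    al97L_alpha K N q (rm90_j K N - 1728) = rm90_j K (N * q) - 1728 := by
  rw [map_sub, rt79c_alpha_j, map_ofNat]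

/-- **(R) at the level-`N q` charts, level 2.** -/
theorem rq43_level2 {π : R} (hπ : Irreducible π) (h2 : 2 ∣ N) (hNu : IsUnit (N : R)) :
    (nuThree N = 0 →
      rt79_RootAt π
        (pk15_chart R ({pk85_h2 K (N * q) (Dvd.dvd.mul_right h2 q)} :
          Set ↥(modularFunctionFieldFullC K (N * q))))
        (rm90_j K (N * q)) (rm90_j K (N * q)) 3 ∧
      rt79_RootAt π
        (pk15_chart R ({(pk85_h2 K (N * q) (Dvd.dvd.mul_right h2 q))⁻¹} :
          Set ↥(modularFunctionFieldFullC K (N * q))))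
        (rm90_j K (N * q)) (rm90_j K (N * q)) 3) ∧
    (nuTwo N = 0 →
      rt79_RootAt π
        (pk15_chart R ({pk85_h2 K (N * q) (Dvd.dvd.mul_right h2 q)} :
          Set ↥(modularFunctionFieldFullC K (N * q))))
        (rm90_j K (N * q)) (rm90_j K (N * q) - 1728) 2 ∧
      rt79_RootAt π
        (pk15_chart R ({(pk85_h2 K (N * q) (Dvd.dvd.mul_right h2 q))⁻¹} :
          Set ↥(modularFunctionFieldFullC K (N * q))))
        (rm90_j K (N * q)) (rm90_j K (N * q) - 1728) 2) := by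
  have h2u : IsUnit (2 : R) := by
    have := pk85_isUnit_of_dvd (R := R) N h2 hNu
    rwa [Nat.cast_ofNat] at this
  obtain ⟨hJ, hL⟩ := rc43_level2 (K := K) N hπ h2 hNu
  refine ⟨fun h3 => ?_, fun hn2 => ?_⟩
  · obtain ⟨hJ₁, hJ₂⟩ := hJ h3
    have e₁ := rt79c_level2 N q π h2 h2u (rm90_j K N) 3
      (rq43_rootAt_of_root π _ (rm90_j K N) (rm90_j K N) 3 (fun _ _ h => h) hJ₁)
    have e₂ := rt79c_level2_inv N q π h2 (rm90_j K N) 3
      (rq43_rootAt_of_root π _ (rm90_j K N) (rm90_j K N) 3 (fun _ _ h => h) hJ₂)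
    rw [rt79c_alpha_j] at e₁ e₂
    exact ⟨e₁, e₂⟩
  · obtain ⟨hL₁, hL₂⟩ := hL hn2
    have e₁ := rt79c_level2 N q π h2 h2u (rm90_j K N - 1728) 2
      (rq43_rootAt_of_root π _ (rm90_j K N) (rm90_j K N - 1728) 2
        (fun n _ h => rq43_reg_sub _ _ n h) hL₁)
    have e₂ := rt79c_level2_inv N q π h2 (rm90_j K N - 1728) 2
      (rq43_rootAt_of_root π _ (rm90_j K N) (rm90_j K N - 1728) 2
        (fun n _ h => rq43_reg_sub _ _ n h) hL₂)
    rw [rq43_alpha_j1728] at e₁ e₂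
    exact ⟨e₁, e₂⟩

/-- **(R) at the level-`N q` charts, level 3.** -/
theorem rq43_level3 {π : R} (hπ : Irreducible π) (h3 : 3 ∣ N) (hNu : IsUnit (N : R)) :
    (nuThree N = 0 →
      rt79_RootAt π
        (pk15_chart R ({pk85_h3 K (N * q) (Dvd.dvd.mul_right h3 q)} :
          Set ↥(modularFunctionFieldFullC K (N * q))))
        (rm90_j K (N * q)) (rm90_j K (N * q)) 3 ∧
      rt79_RootAt π
        (pk15_chart R ({(pk85_h3 K (N * q) (Dvd.dvd.mul_right h3 q))⁻¹} :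
          Set ↥(modularFunctionFieldFullC K (N * q))))
        (rm90_j K (N * q)) (rm90_j K (N * q)) 3) ∧
    (nuTwo N = 0 →
      rt79_RootAt π
        (pk15_chart R ({pk85_h3 K (N * q) (Dvd.dvd.mul_right h3 q)} :
          Set ↥(modularFunctionFieldFullC K (N * q))))
        (rm90_j K (N * q)) (rm90_j K (N * q) - 1728) 2 ∧
      rt79_RootAt π
        (pk15_chart R ({(pk85_h3 K (N * q) (Dvd.dvd.mul_right h3 q))⁻¹} :
          Set ↥(modularFunctionFieldFullC K (N * q))))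
        (rm90_j K (N * q)) (rm90_j K (N * q) - 1728) 2) := by
  have h3u : IsUnit (3 : R) := by
    have := pk85_isUnit_of_dvd (R := R) N h3 hNu
    rwa [Nat.cast_ofNat] at this
  obtain ⟨hJ, hL⟩ := rc43_level3 (K := K) N hπ h3 hNu
  refine ⟨fun hn3 => ?_, fun hn2 => ?_⟩
  · obtain ⟨hJ₁, hJ₂⟩ := hJ hn3
    have e₁ := rt79c_level3 N q π h3 h3u (rm90_j K N) 3
      (rq43_rootAt_of_root π _ (rm90_j K N) (rm90_j K N) 3 (fun _ _ h => h) hJ₁)
    have e₂ := rt79c_level3_inv N q π h3 (rm90_j K N) 3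
      (rq43_rootAt_of_root π _ (rm90_j K N) (rm90_j K N) 3 (fun _ _ h => h) hJ₂)
    rw [rt79c_alpha_j] at e₁ e₂
    exact ⟨e₁, e₂⟩
  · obtain ⟨hL₁, hL₂⟩ := hL hn2
    have e₁ := rt79c_level3 N q π h3 h3u (rm90_j K N - 1728) 2
      (rq43_rootAt_of_root π _ (rm90_j K N) (rm90_j K N - 1728) 2
        (fun n _ h => rq43_reg_sub _ _ n h) hL₁)
    have e₂ := rt79c_level3_inv N q π h3 (rm90_j K N - 1728) 2
      (rq43_rootAt_of_root π _ (rm90_j K N) (rm90_j K N - 1728) 2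
        (fun n _ h => rq43_reg_sub _ _ n h) hL₂)
    rw [rq43_alpha_j1728] at e₁ e₂
    exact ⟨e₁, e₂⟩

/-- In the chart `{h₃⁻¹}`, regularity of `J` at `n` gives regularity of `h₃ + 27` at `n`. -/
theorem rq43_reg_h27_inv (h3 : 3 ∣ N)
    (n : Ideal ↥(pk15_chart R ({(pk85_h3 K N h3)⁻¹} : Set ↥(modularFunctionFieldFullC K N))))
    (hn : n.IsMaximal)
    (h : ∃ s : ↥(pk15_chart R ({(pk85_h3 K N h3)⁻¹} : Set ↥(modularFunctionFieldFullC K N))),
      s ∉ n ∧ (s : ↥(modularFunctionFieldFullC K N)) * rm90_j K N ∈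
        pk15_chart R ({(pk85_h3 K N h3)⁻¹} : Set ↥(modularFunctionFieldFullC K N))) :
    ∃ s : ↥(pk15_chart R ({(pk85_h3 K N h3)⁻¹} : Set ↥(modularFunctionFieldFullC K N))),
      s ∉ n ∧ (s : ↥(modularFunctionFieldFullC K N)) * (pk85_h3 K N h3 + 27) ∈
        pk15_chart R ({(pk85_h3 K N h3)⁻¹} : Set ↥(modularFunctionFieldFullC K N)) :=
  rq43_reg_h27_abs _ n hn (rm90_j K N) (pk85_h3 K N h3) (ci22_h3_ne_zero (K := K) N h3)
    (pk15_subset_chart _ (Set.mem_singleton _)) (rc43_h3_rel (K := K) N h3) h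

/-- **(R) for `q = 2` at the level-`N q` charts**: `h₃ + 27 = ε c³`. -/
theorem rq43_level3_h27 {π : R} (hπ : Irreducible π) (h3 : 3 ∣ N) (hNu : IsUnit (N : R))
    (hnu : nuThree N = 0) :
    rt79_RootAt π
        (pk15_chart R ({pk85_h3 K (N * q) (Dvd.dvd.mul_right h3 q)} :
          Set ↥(modularFunctionFieldFullC K (N * q))))
        (rm90_j K (N * q)) (pk85_h3 K (N * q) (Dvd.dvd.mul_right h3 q) + 27) 3 ∧
      rt79_RootAt π
        (pk15_chart R ({(pk85_h3 K (N * q) (Dvd.dvd.mul_right h3 q))⁻¹} :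
          Set ↥(modularFunctionFieldFullC K (N * q))))
        (rm90_j K (N * q)) (pk85_h3 K (N * q) (Dvd.dvd.mul_right h3 q) + 27) 3 := by
  have h3u : IsUnit (3 : R) := by
    have := pk85_isUnit_of_dvd (R := R) N h3 hNu
    rwa [Nat.cast_ofNat] at this
  obtain ⟨hf₁, hf₂⟩ := rc43_level3_h27 (K := K) N hπ h3 hNu hnu
  have hα : al97L_alpha K N q (pk85_h3 K N h3 + 27) =
      pk85_h3 K (N * q) (Dvd.dvd.mul_right h3 q) + 27 := by
    rw [map_add, rt79c_alpha_h3, map_ofNat]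
  have e₁ := rt79c_level3 N q π h3 h3u (pk85_h3 K N h3 + 27) 3
    (rq43_rootAt_of_root π _ (rm90_j K N) (pk85_h3 K N h3 + 27) 3
      (fun n hn _ => by
        haveI := hn.isPrime
        refine ⟨1, (Ideal.ne_top_iff_one n).mp hn.ne_top, ?_⟩
        have h27 : (27 : ↥(modularFunctionFieldFullC K N)) ∈
            pk15_chart R ({pk85_h3 K N h3} : Set ↥(modularFunctionFieldFullC K N)) := by
          have := (pk15_chart R ({pk85_h3 K N h3} :
            Set ↥(modularFunctionFieldFullC K N))).algebraMap_mem (27 : R)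
          rwa [map_ofNat] at this
        rw [OneMemClass.coe_one, one_mul]
        exact Subalgebra.add_mem _ (pk15_subset_chart _ (Set.mem_singleton _)) h27) hf₁)
  have e₂ := rt79c_level3_inv N q π h3 (pk85_h3 K N h3 + 27) 3
    (rq43_rootAt_of_root π _ (rm90_j K N) (pk85_h3 K N h3 + 27) 3
      (fun n hn h => rq43_reg_h27_inv N h3 n hn h) hf₂)
  rw [hα] at e₁ e₂
  exact ⟨e₁, e₂⟩

end rq43_concrete

end Fermat.Agent.S36
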