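import Mathlib
import Fermat.Agent.S36.RegNode56
import Fermat.Agent.S36.RigidLevelQ43

/-!
# S36 lab, row 599 C-REGq (helper18): the rigidity inputs `h0`, `h1728`, `h4` of `rn56_hnode`
in the literal shape `rn56_Pow`, at the canonical level-`N q` charts

`rn56_Pow π B V n f m` (helper56, `S36/RegNode56`) : `∃ s a b : B, s ∉ n ∧ a ∉ n ∧
π⁻¹ (s f - a b^m) ∈ V`.

Abstract part:
* `rpw18_pow_of_root`   : a local root structure `f = ε c^m` (`ε, ε⁻¹, c ∈ B_n`, the output shape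
  of `rt79_RootAt`) gives `rn56_Pow π B V n f m` for ANY `V` (exact equation, `rn56_pow_of_eq`);
* `rpw18_pow_of_rootAt` : the same from `rt79_RootAt π B j f m` at a closed point where `j` is
  regular;
* `rpw18_four`, `rpw18_four_inv` : characteristic `2`: from `j h³ = (h + 27)(h + 243)³` with
  `h ∈ B` (resp. `j k = (1 + 27 k)(1 + 243 k)³` with `k = h⁻¹ ∈ B`), `2 ∈ π R`, and `j` vanishing
  at `n`: `rn56_Pow π B V n j 4` (`h³ j ≡ (h + 1)⁴`, resp. `k j ≡ (1 + k)⁴`, modulo `2`).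

Canonical part (good level `N`: `p₀ ∣ N`, `N` a unit of `R`; ANY `q`; both charts `{h}`, `{h⁻¹}`
of the Hauptmodul of level `p₀` at level `N * q`; `J = rm90_j K (N * q)`; any closed point `n`
of the special fibre where `J` is regular; any `V`):
* `rpw18_level2`, `rpw18_level2_inv`, `rpw18_level3`, `rpw18_level3_inv` :
  `(nuThree N = 0 → rn56_Pow π B V n J 3) ∧ (nuTwo N = 0 → rn56_Pow π B V n (J - 1728) 2)`;
* `rpw18_level3_four`, `rpw18_level3_four_inv` : `2 ∈ π R`, `J` vanishing at `n` ⟹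
  `rn56_Pow π B V n J 4` (no rigidity needed).

All names are prefixed `rpw18_`.
-/

set_option autoImplicit false
set_option linter.unusedSectionVars false
set_option linter.style.haveILetI false

open ModularCurve AlgebraicCurve

namespace Fermat.Agent.S36

open Fermat.Agent.S18 Fermat.Agent.S24 Fermat.Agent.S34

local notation "Q̄" => AlgebraicClosure ℚ

section rpw18_abs

variable {R : Type*} [CommRing R] [IsLocalRing R] {F : Type*} [Field F] [Algebra R F]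

/-- A local root structure `f = ε c^m` at `n` gives `rn56_Pow` (for any `V`). -/
theorem rpw18_pow_of_root (π : R) (B : Subalgebra R F) (V : Subring F) (n : Ideal B)
    [hn : n.IsPrime] (f : F) (m : ℕ) (hm : m ≠ 0)
    (h : ∃ c ε : F, c ≠ 0 ∧ f = ε * c ^ m ∧ (∃ s : B, s ∉ n ∧ (s : F) * ε ∈ B) ∧
      (∃ s : B, s ∉ n ∧ (s : F) * ε⁻¹ ∈ B) ∧ ∃ s : B, s ∉ n ∧ (s : F) * c ∈ B) :
    rn56_Pow π B V n f m := by
  obtain ⟨c, ε, -, hf, ⟨s₁, hs₁, h₁⟩, ⟨s₂, hs₂, h₂⟩, ⟨s₃, hs₃, h₃⟩⟩ := h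
  have h1n : (1 : B) ∉ n := (Ideal.ne_top_iff_one n).mp hn.ne_top
  by_cases hε : ε = 0
  · refine rn56_pow_of_eq π B V n f m 1 1 0 h1n h1n ?_
    rw [hf, hε, zero_mul]
    simp [hm]
  · have he : (⟨_, h₁⟩ : B) * ⟨_, h₂⟩ = s₁ * s₂ := by
      apply Subtype.ext
      show (s₁ : F) * ε * ((s₂ : F) * ε⁻¹) = (s₁ : F) * (s₂ : F)
      field_simp
    have he₁ : (⟨_, h₁⟩ : B) ∉ n := by
      intro hmem
      have : s₁ * s₂ ∈ n := by
        rw [← he]
        exact n.mul_mem_right _ hmem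
      exact (hn.mem_or_mem this).elim hs₁ hs₂
    have hs : s₁ * s₃ ^ m ∉ n := fun hmem =>
      (hn.mem_or_mem hmem).elim hs₁ fun h' => hs₃ (hn.mem_of_pow_mem _ h')
    refine rn56_pow_of_eq π B V n f m (s₁ * s₃ ^ m) ⟨_, h₁⟩ ⟨_, h₃⟩ hs he₁ ?_
    show ((s₁ * s₃ ^ m : B) : F) * f = (s₁ : F) * ε * ((s₃ : F) * c) ^ m
    rw [hf]
    push_cast
    ring

/-- `rt79_RootAt` gives `rn56_Pow` at every closed point where `j` is regular. -/
theorem rpw18_pow_of_rootAt (π : R) (B : Subalgebra R F) (V : Subring F) (j f : F) (m : ℕ)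
    (hm : m ≠ 0) (h : rt79_RootAt π B j f m)
    (n : Ideal B) (hn : n.IsMaximal) (hπn : algebraMap R B π ∈ n)
    (hj : ∃ s : B, s ∉ n ∧ (s : F) * j ∈ B) : rn56_Pow π B V n f m := by
  haveI := hn.isPrime
  exact rpw18_pow_of_root π B V n f m hm (h n hn hπn hj)

/-- **Characteristic 2, chart `{h}`**: `h³ j ≡ (h + 1)⁴` modulo `2`. -/
theorem rpw18_four (π : R) (B : Subalgebra R F) (V : Subring F) (hBV : ∀ x ∈ B, x ∈ V)
    (n : Ideal B) [hn : n.IsPrime] (r : R) (h2π : (2 : R) = π * r)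
    (hπn : algebraMap R B π ∈ n)
    (j : F) (hB : B) (hrel : j * (hB : F) ^ 3 = ((hB : F) + 27) * ((hB : F) + 243) ^ 3)
    (sJ bJ : B) (hsJ : sJ ∉ n) (hbJ : (sJ : F) * j = bJ) (hbJn : bJ ∈ n) :
    rn56_Pow π B V n j 4 := by
  have h1n : (1 : B) ∉ n := (Ideal.ne_top_iff_one n).mp hn.ne_top
  have h2B : (2 : B) = algebraMap R B π * algebraMap R B r := by
    rw [← map_mul, ← h2π, map_ofNat]
  have h2n : (2 : B) ∈ n := by
    rw [h2B]
    exact n.mul_mem_right _ hπn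
  have e1 : bJ * hB ^ 3 = sJ * ((hB + 27) * (hB + 243) ^ 3) := by
    apply Subtype.ext
    show (bJ : F) * (hB : F) ^ 3 = (sJ : F) * (((hB : F) + 27) * ((hB : F) + 243) ^ 3)
    rw [← hbJ]
    linear_combination (sJ : F) * hrel
  have h3 : (hB + 27) * (hB + 243) ^ 3 ∈ n := by
    have : sJ * ((hB + 27) * (hB + 243) ^ 3) ∈ n := by
      rw [← e1]
      exact n.mul_mem_right _ hbJn
    exact (hn.mem_or_mem this).resolve_left hsJ
  have h4 : hB + 1 ∈ n := by
    rcases hn.mem_or_mem h3 with h | h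
    · have e : hB + 1 = (hB + 27) - 13 * 2 := by ring
      rw [e]
      exact n.sub_mem h (n.mul_mem_left _ h2n)
    · have e : hB + 1 = (hB + 243) - 121 * 2 := by ring
      rw [e]
      exact n.sub_mem (hn.mem_of_pow_mem _ h) (n.mul_mem_left _ h2n)
  have hBn : hB ∉ n := by
    intro h
    apply h1n
    have e : (1 : B) = (hB + 1) - hB := by ring
    rw [e]
    exact n.sub_mem h4 h
  have hs : hB ^ 3 ∉ n := fun h => hBn (hn.mem_of_pow_mem _ h)
  refine ⟨hB ^ 3, 1, hB + 1, hs, h1n, ?_⟩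
  have h2F : (2 : F) = algebraMap R F π * algebraMap R F r := by
    rw [← map_mul, ← h2π, map_ofNat]
  have key : ((hB ^ 3 : B) : F) * j - ((1 : B) : F) * ((hB + 1 : B) : F) ^ 4 =
      algebraMap R F π * (algebraMap R F r *
        ((376 * hB ^ 3 + 98412 * hB ^ 2 + 9565936 * hB + 193710244 : B) : F)) := by
    show (hB : F) ^ 3 * j - 1 * ((hB : F) + 1) ^ 4 =
      algebraMap R F π * (algebraMap R F r *
        (376 * (hB : F) ^ 3 + 98412 * (hB : F) ^ 2 + 9565936 * (hB : F) + 193710244))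
    linear_combination hrel +
      (376 * (hB : F) ^ 3 + 98412 * (hB : F) ^ 2 + 9565936 * (hB : F) + 193710244) * h2F
  rw [key]
  by_cases hp0 : algebraMap R F π = 0
  · rw [hp0, inv_zero, zero_mul]
    exact V.zero_mem
  · rw [← mul_assoc, inv_mul_cancel₀ hp0, one_mul]
    exact V.mul_mem (hBV _ (B.algebraMap_mem r)) (hBV _ (Subtype.mem _))

/-- **Characteristic 2, chart `{h⁻¹}`** (`k = h⁻¹`): `k j ≡ (1 + k)⁴` modulo `2`. -/
theorem rpw18_four_inv (π : R) (B : Subalgebra R F) (V : Subring F) (hBV : ∀ x ∈ B, x ∈ V)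
    (n : Ideal B) [hn : n.IsPrime] (r : R) (h2π : (2 : R) = π * r)
    (hπn : algebraMap R B π ∈ n)
    (j : F) (kB : B)
    (hrel : j * (kB : F) = (1 + 27 * (kB : F)) * (1 + 243 * (kB : F)) ^ 3)
    (sJ bJ : B) (hsJ : sJ ∉ n) (hbJ : (sJ : F) * j = bJ) (hbJn : bJ ∈ n) :
    rn56_Pow π B V n j 4 := by
  have h1n : (1 : B) ∉ n := (Ideal.ne_top_iff_one n).mp hn.ne_top
  have h2B : (2 : B) = algebraMap R B π * algebraMap R B r := by
    rw [← map_mul, ← h2π, map_ofNat]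
  have h2n : (2 : B) ∈ n := by
    rw [h2B]
    exact n.mul_mem_right _ hπn
  have e1 : bJ * kB = sJ * ((1 + 27 * kB) * (1 + 243 * kB) ^ 3) := by
    apply Subtype.ext
    show (bJ : F) * (kB : F) = (sJ : F) * ((1 + 27 * (kB : F)) * (1 + 243 * (kB : F)) ^ 3)
    rw [← hbJ]
    linear_combination (sJ : F) * hrel
  have h3 : (1 + 27 * kB) * (1 + 243 * kB) ^ 3 ∈ n := by
    have : sJ * ((1 + 27 * kB) * (1 + 243 * kB) ^ 3) ∈ n := by
      rw [← e1]
      exact n.mul_mem_right _ hbJn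
    exact (hn.mem_or_mem this).resolve_left hsJ
  have h4 : 1 + kB ∈ n := by
    rcases hn.mem_or_mem h3 with h | h
    · have e : 1 + kB = (1 + 27 * kB) - 13 * kB * 2 := by ring
      rw [e]
      exact n.sub_mem h (n.mul_mem_left _ h2n)
    · have e : 1 + kB = (1 + 243 * kB) - 121 * kB * 2 := by ring
      rw [e]
      exact n.sub_mem (hn.mem_of_pow_mem _ h) (n.mul_mem_left _ h2n)
  have hkn : kB ∉ n := by
    intro h
    apply h1n
    have e : (1 : B) = (1 + kB) - kB := by ring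
    rw [e]
    exact n.sub_mem h4 h
  refine ⟨kB, 1, 1 + kB, hkn, h1n, ?_⟩
  have h2F : (2 : F) = algebraMap R F π * algebraMap R F r := by
    rw [← map_mul, ← h2π, map_ofNat]
  have key : ((kB : B) : F) * j - ((1 : B) : F) * ((1 + kB : B) : F) ^ 4 =
      algebraMap R F π * (algebraMap R F r *
        ((376 * kB + 98412 * kB ^ 2 + 9565936 * kB ^ 3 + 193710244 * kB ^ 4 : B) : F)) := by
    show (kB : F) * j - 1 * (1 + (kB : F)) ^ 4 =
      algebraMap R F π * (algebraMap R F r *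
        (376 * (kB : F) + 98412 * (kB : F) ^ 2 + 9565936 * (kB : F) ^ 3 +
          193710244 * (kB : F) ^ 4))
    linear_combination hrel +
      (376 * (kB : F) + 98412 * (kB : F) ^ 2 + 9565936 * (kB : F) ^ 3 +
        193710244 * (kB : F) ^ 4) * h2F
  rw [key]
  by_cases hp0 : algebraMap R F π = 0
  · rw [hp0, inv_zero, zero_mul]
    exact V.zero_mem
  · rw [← mul_assoc, inv_mul_cancel₀ hp0, one_mul]
    exact V.mul_mem (hBV _ (B.algebraMap_mem r)) (hBV _ (Subtype.mem _))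

end rpw18_abs

section rpw18_concrete

variable {R K : Type} [CommRing R] [IsDomain R] [IsDiscreteValuationRing R] [Field K]
  [NumberField K] [Algebra K Q̄] [Algebra R K] [IsFractionRing R K] (N q : ℕ) [NeZero N] [NeZero q]
  [Algebra R ↥(modularFunctionFieldFullC K N)]
  [IsScalarTower R K ↥(modularFunctionFieldFullC K N)]
  [Algebra R ↥(modularFunctionFieldFullC K (N * q))]
  [IsScalarTower R K ↥(modularFunctionFieldFullC K (N * q))]

/-- **`h0`, `h1728` at the level-`N q` chart `{h₂}`.** -/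
theorem rpw18_level2 {π : R} (hπ : Irreducible π) (h2 : 2 ∣ N) (hNu : IsUnit (N : R))
    (V : Subring ↥(modularFunctionFieldFullC K (N * q)))
    (n : Ideal ↥(pk15_chart R ({pk85_h2 K (N * q) (Dvd.dvd.mul_right h2 q)} :
      Set ↥(modularFunctionFieldFullC K (N * q)))))
    (hn : n.IsMaximal) (hπn : algebraMap R _ π ∈ n)
    (hj : ∃ s : ↥(pk15_chart R ({pk85_h2 K (N * q) (Dvd.dvd.mul_right h2 q)} :
      Set ↥(modularFunctionFieldFullC K (N * q)))), s ∉ n ∧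
      (s : ↥(modularFunctionFieldFullC K (N * q))) * rm90_j K (N * q) ∈
        pk15_chart R ({pk85_h2 K (N * q) (Dvd.dvd.mul_right h2 q)} :
          Set ↥(modularFunctionFieldFullC K (N * q)))) :
    (nuThree N = 0 → rn56_Pow π _ V n (rm90_j K (N * q)) 3) ∧
    (nuTwo N = 0 → rn56_Pow π _ V n (rm90_j K (N * q) - 1728) 2) := by
  obtain ⟨h3, h2'⟩ := rq43_level2 (K := K) N q hπ h2 hNu
  exact ⟨fun h => rpw18_pow_of_rootAt π _ V _ _ 3 (by norm_num) (h3 h).1 n hn hπn hj,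
    fun h => rpw18_pow_of_rootAt π _ V _ _ 2 (by norm_num) (h2' h).1 n hn hπn hj⟩

/-- **`h0`, `h1728` at the level-`N q` chart `{h₂⁻¹}`.** -/
theorem rpw18_level2_inv {π : R} (hπ : Irreducible π) (h2 : 2 ∣ N) (hNu : IsUnit (N : R))
    (V : Subring ↥(modularFunctionFieldFullC K (N * q)))
    (n : Ideal ↥(pk15_chart R ({(pk85_h2 K (N * q) (Dvd.dvd.mul_right h2 q))⁻¹} :
      Set ↥(modularFunctionFieldFullC K (N * q)))))
    (hn : n.IsMaximal) (hπn : algebraMap R _ π ∈ n)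
    (hj : ∃ s : ↥(pk15_chart R ({(pk85_h2 K (N * q) (Dvd.dvd.mul_right h2 q))⁻¹} :
      Set ↥(modularFunctionFieldFullC K (N * q)))), s ∉ n ∧
      (s : ↥(modularFunctionFieldFullC K (N * q))) * rm90_j K (N * q) ∈
        pk15_chart R ({(pk85_h2 K (N * q) (Dvd.dvd.mul_right h2 q))⁻¹} :
          Set ↥(modularFunctionFieldFullC K (N * q)))) :
    (nuThree N = 0 → rn56_Pow π _ V n (rm90_j K (N * q)) 3) ∧
    (nuTwo N = 0 → rn56_Pow π _ V n (rm90_j K (N * q) - 1728) 2) := by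
  obtain ⟨h3, h2'⟩ := rq43_level2 (K := K) N q hπ h2 hNu
  exact ⟨fun h => rpw18_pow_of_rootAt π _ V _ _ 3 (by norm_num) (h3 h).2 n hn hπn hj,
    fun h => rpw18_pow_of_rootAt π _ V _ _ 2 (by norm_num) (h2' h).2 n hn hπn hj⟩

/-- **`h0`, `h1728` at the level-`N q` chart `{h₃}`.** -/
theorem rpw18_level3 {π : R} (hπ : Irreducible π) (h3 : 3 ∣ N) (hNu : IsUnit (N : R))
    (V : Subring ↥(modularFunctionFieldFullC K (N * q)))
    (n : Ideal ↥(pk15_chart R ({pk85_h3 K (N * q) (Dvd.dvd.mul_right h3 q)} :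
      Set ↥(modularFunctionFieldFullC K (N * q)))))
    (hn : n.IsMaximal) (hπn : algebraMap R _ π ∈ n)
    (hj : ∃ s : ↥(pk15_chart R ({pk85_h3 K (N * q) (Dvd.dvd.mul_right h3 q)} :
      Set ↥(modularFunctionFieldFullC K (N * q)))), s ∉ n ∧
      (s : ↥(modularFunctionFieldFullC K (N * q))) * rm90_j K (N * q) ∈
        pk15_chart R ({pk85_h3 K (N * q) (Dvd.dvd.mul_right h3 q)} :
          Set ↥(modularFunctionFieldFullC K (N * q)))) :
    (nuThree N = 0 → rn56_Pow π _ V n (rm90_j K (N * q)) 3) ∧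
    (nuTwo N = 0 → rn56_Pow π _ V n (rm90_j K (N * q) - 1728) 2) := by
  obtain ⟨h3', h2'⟩ := rq43_level3 (K := K) N q hπ h3 hNu
  exact ⟨fun h => rpw18_pow_of_rootAt π _ V _ _ 3 (by norm_num) (h3' h).1 n hn hπn hj,
    fun h => rpw18_pow_of_rootAt π _ V _ _ 2 (by norm_num) (h2' h).1 n hn hπn hj⟩

/-- **`h0`, `h1728` at the level-`N q` chart `{h₃⁻¹}`.** -/
theorem rpw18_level3_inv {π : R} (hπ : Irreducible π) (h3 : 3 ∣ N) (hNu : IsUnit (N : R))
    (V : Subring ↥(modularFunctionFieldFullC K (N * q)))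
    (n : Ideal ↥(pk15_chart R ({(pk85_h3 K (N * q) (Dvd.dvd.mul_right h3 q))⁻¹} :
      Set ↥(modularFunctionFieldFullC K (N * q)))))
    (hn : n.IsMaximal) (hπn : algebraMap R _ π ∈ n)
    (hj : ∃ s : ↥(pk15_chart R ({(pk85_h3 K (N * q) (Dvd.dvd.mul_right h3 q))⁻¹} :
      Set ↥(modularFunctionFieldFullC K (N * q)))), s ∉ n ∧
      (s : ↥(modularFunctionFieldFullC K (N * q))) * rm90_j K (N * q) ∈
        pk15_chart R ({(pk85_h3 K (N * q) (Dvd.dvd.mul_right h3 q))⁻¹} :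
          Set ↥(modularFunctionFieldFullC K (N * q)))) :
    (nuThree N = 0 → rn56_Pow π _ V n (rm90_j K (N * q)) 3) ∧
    (nuTwo N = 0 → rn56_Pow π _ V n (rm90_j K (N * q) - 1728) 2) := by
  obtain ⟨h3', h2'⟩ := rq43_level3 (K := K) N q hπ h3 hNu
  exact ⟨fun h => rpw18_pow_of_rootAt π _ V _ _ 3 (by norm_num) (h3' h).2 n hn hπn hj,
    fun h => rpw18_pow_of_rootAt π _ V _ _ 2 (by norm_num) (h2' h).2 n hn hπn hj⟩

end rpw18_concrete

section rpw18_four_concrete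

variable {R K : Type} [CommRing R] [IsDomain R] [IsDiscreteValuationRing R] [Field K]
  [NumberField K] [Algebra K Q̄] [Algebra R K] [IsFractionRing R K] (M : ℕ) [NeZero M]
  [Algebra R ↥(modularFunctionFieldFullC K M)]
  [IsScalarTower R K ↥(modularFunctionFieldFullC K M)]

/-- **`h4` at a chart `{h₃}` of ANY level `M` with `3 ∣ M`** (`2 ∈ π R`, `J` vanishing at `n`). -/
theorem rpw18_level3_four (π : R) (h3 : 3 ∣ M)
    (V : Subring ↥(modularFunctionFieldFullC K M))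
    (hBV : ∀ x ∈ pk15_chart R ({pk85_h3 K M h3} : Set ↥(modularFunctionFieldFullC K M)), x ∈ V)
    (n : Ideal ↥(pk15_chart R ({pk85_h3 K M h3} : Set ↥(modularFunctionFieldFullC K M))))
    [hn : n.IsPrime] (r : R) (h2π : (2 : R) = π * r) (hπn : algebraMap R _ π ∈ n)
    (sJ bJ : ↥(pk15_chart R ({pk85_h3 K M h3} : Set ↥(modularFunctionFieldFullC K M))))
    (hsJ : sJ ∉ n) (hbJ : (sJ : ↥(modularFunctionFieldFullC K M)) * rm90_j K M = bJ)
    (hbJn : bJ ∈ n) :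
    rn56_Pow π _ V n (rm90_j K M) 4 :=
  rpw18_four π _ V hBV n r h2π hπn (rm90_j K M)
    ⟨pk85_h3 K M h3, pk15_subset_chart _ (Set.mem_singleton _)⟩
    (rc43_h3_rel (K := K) M h3) sJ bJ hsJ hbJ hbJn

/-- **`h4` at a chart `{h₃⁻¹}` of ANY level `M` with `3 ∣ M`**. -/
theorem rpw18_level3_four_inv (π : R) (h3 : 3 ∣ M)
    (V : Subring ↥(modularFunctionFieldFullC K M))
    (hBV : ∀ x ∈ pk15_chart R ({(pk85_h3 K M h3)⁻¹} : Set ↥(modularFunctionFieldFullC K M)),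
      x ∈ V)
    (n : Ideal ↥(pk15_chart R ({(pk85_h3 K M h3)⁻¹} : Set ↥(modularFunctionFieldFullC K M))))
    [hn : n.IsPrime] (r : R) (h2π : (2 : R) = π * r) (hπn : algebraMap R _ π ∈ n)
    (sJ bJ : ↥(pk15_chart R ({(pk85_h3 K M h3)⁻¹} : Set ↥(modularFunctionFieldFullC K M))))
    (hsJ : sJ ∉ n) (hbJ : (sJ : ↥(modularFunctionFieldFullC K M)) * rm90_j K M = bJ)
    (hbJn : bJ ∈ n) :
    rn56_Pow π _ V n (rm90_j K M) 4 := by
  have hh0 : pk85_h3 K M h3 ≠ 0 := ci22_h3_ne_zero (K := K) M h3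
  have hrel : rm90_j K M * (pk85_h3 K M h3)⁻¹ =
      (1 + 27 * (pk85_h3 K M h3)⁻¹) * (1 + 243 * (pk85_h3 K M h3)⁻¹) ^ 3 := by
    have hj : rm90_j K M = (pk85_h3 K M h3 + 27) * (pk85_h3 K M h3 + 243) ^ 3 /
        pk85_h3 K M h3 ^ 3 := by
      rw [eq_div_iff (pow_ne_zero 3 hh0)]
      exact rc43_h3_rel (K := K) M h3
    rw [hj]
    field_simp
  exact rpw18_four_inv π _ V hBV n r h2π hπn (rm90_j K M)
    ⟨(pk85_h3 K M h3)⁻¹, pk15_subset_chart _ (Set.mem_singleton _)⟩ hrel sJ bJ hsJ hbJ hbJn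

end rpw18_four_concrete

end Fermat.Agent.S36
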