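import Fermat.Agent.S18.HorizOrd
import Fermat.Agent.S24.GenusArith
import Fermat.Agent.S24.Differentials
import Fermat.Agent.S24.AsmDegree

/-!
# S36 lab, row LVL-rigidity (helper27, twin): exact ramification over `j = 0, 1728` at a level
without elliptic points

At a level `N` with `nuThree N = 0` every place of `ℚ̄(X₀(N))` above `j = 0` has ramification
index exactly `3`, and at a level with `nuTwo N = 0` every place above `j = 1728` has ramification
index exactly `2` (count of the places from S24 `asmB_counts`, `∑ e = deg` from S24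
`wp2_sum_zeros`, `e ∣ 3` resp. `e ∣ 2` from S18 `ho_modular_ord`).  `nuThree N = 0` as soon as a
prime `r ≡ 2 mod 3` divides `N`, `nuTwo N = 0` as soon as a prime `r ≡ 3 mod 4` divides `N`
(in particular both vanish if a prime `r ≡ 11 mod 12` divides `N`, or if `6 ∣ N`).

All names are prefixed `ro27_`.
-/

set_option autoImplicit false
set_option linter.style.haveILetI false

open ModularCurve AlgebraicCurve MatrixGroups IntermediateField

namespace Fermat.Agent.S36

open Fermat.Agent.S24 Fermat.Agent.S18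

/-! ## 1. Arithmetic: vanishing of `nuTwo`, `nuThree` -/

/-- No root of `x² + x + 1` modulo a prime `r ≡ 2 mod 3`. -/
theorem ro27_no_root_three {r : ℕ} (hr : r.Prime) (hr3 : r % 3 = 2) (x : ZMod r) :
    x ^ 2 + x + 1 ≠ 0 := by
  haveI : Fact r.Prime := ⟨hr⟩
  intro h
  have hx3 : x ^ 3 = 1 := by linear_combination (x - 1) * h
  have hx0 : x ≠ 0 := by
    rintro rfl
    simp at hx3
  have hx1 : x ≠ 1 := by
    rintro rfl
    have h3 : ((3 : ℕ) : ZMod r) = 0 := by
      have : (1 : ZMod r) ^ 2 + 1 + 1 = 0 := h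
      push_cast
      linear_combination this
    have hdvd : r ∣ 3 := (ZMod.natCast_eq_zero_iff 3 r).mp h3
    have hr3' : r = 3 := (Nat.prime_dvd_prime_iff_eq hr Nat.prime_three).mp hdvd
    omega
  have hord : orderOf x = 3 := orderOf_eq_prime hx3 hx1
  have hcard : x ^ (r - 1) = 1 := ZMod.pow_card_sub_one_eq_one hx0
  have hdvd : 3 ∣ r - 1 := by
    rw [← hord]
    exact orderOf_dvd_of_pow_eq_one hcard
  have hr2 := hr.two_le
  omega

/-- No root of `x² + 1` modulo a prime `r ≡ 3 mod 4`. -/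
theorem ro27_no_root_two {r : ℕ} (hr : r.Prime) (hr4 : r % 4 = 3) (x : ZMod r) :
    x ^ 2 + 1 ≠ 0 := by
  haveI : Fact r.Prime := ⟨hr⟩
  intro h
  have hsq : IsSquare (-1 : ZMod r) := ⟨x, by linear_combination -h⟩
  exact (ZMod.exists_sq_eq_neg_one_iff.mp hsq) hr4

/-- `ν₃(N) = 0` as soon as a prime `r ≡ 2 mod 3` divides `N`. -/
theorem ro27_nuThree_eq_zero {N r : ℕ} (hr : r.Prime) (hr3 : r % 3 = 2) (hrN : r ∣ N) :
    nuThree N = 0 := by
  unfold nuThree
  haveI : IsEmpty {x : ZMod N // x ^ 2 + x + 1 = 0} := by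
    refine ⟨fun ⟨x, hx⟩ => ?_⟩
    have h := congrArg (ZMod.castHom hrN (ZMod r)) hx
    simp only [map_add, map_pow, map_one, map_zero] at h
    exact ro27_no_root_three hr hr3 _ h
  exact Nat.card_of_isEmpty

/-- `ν₂(N) = 0` as soon as a prime `r ≡ 3 mod 4` divides `N`. -/
theorem ro27_nuTwo_eq_zero {N r : ℕ} (hr : r.Prime) (hr4 : r % 4 = 3) (hrN : r ∣ N) :
    nuTwo N = 0 := by
  unfold nuTwo
  haveI : IsEmpty {x : ZMod N // x ^ 2 + 1 = 0} := by
    refine ⟨fun ⟨x, hx⟩ => ?_⟩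
    have h := congrArg (ZMod.castHom hrN (ZMod r)) hx
    simp only [map_add, map_pow, map_one, map_zero] at h
    exact ro27_no_root_two hr hr4 _ h
  exact Nat.card_of_isEmpty

/-- Both `ν₂` and `ν₃` vanish at a level divisible by a prime `r ≡ 11 mod 12`. -/
theorem ro27_rigid_of_eleven {N r : ℕ} (hr : r.Prime) (hr12 : r % 12 = 11) (hrN : r ∣ N) :
    nuTwo N = 0 ∧ nuThree N = 0 :=
  ⟨ro27_nuTwo_eq_zero hr (by omega) hrN, ro27_nuThree_eq_zero hr (by omega) hrN⟩

/-- Both `ν₂` and `ν₃` vanish at a level divisible by `6`. -/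
theorem ro27_rigid_of_six {N : ℕ} (h6 : 6 ∣ N) : nuTwo N = 0 ∧ nuThree N = 0 :=
  ⟨ro27_nuTwo_eq_zero Nat.prime_three (by norm_num) (Dvd.dvd.trans (by norm_num) h6),
    ro27_nuThree_eq_zero Nat.prime_two (by norm_num) (Dvd.dvd.trans (by norm_num) h6)⟩

/-! ## 2. Abstract counting: all orders equal to the maximal one -/

/-- If `∑_{v ∈ S} e_v = e₀ · #S`, with `0 < e_v`, `e_v ∣ e₀`, then `e_v = e₀` for all `v ∈ S`. -/
theorem ro27_all_eq {ι : Type*} (S : Finset ι) (e : ι → ℤ) (e₀ : ℕ)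
    (_hpos : ∀ v ∈ S, 0 < e v) (hdvd : ∀ v ∈ S, e v ∣ (e₀ : ℤ)) (he₀ : 0 < e₀)
    (hsum : ∑ v ∈ S, e v = (e₀ : ℤ) * S.card) : ∀ v ∈ S, e v = e₀ := by
  have hle : ∀ v ∈ S, e v ≤ e₀ := fun v hv =>
    Int.le_of_dvd (by exact_mod_cast he₀) (hdvd v hv)
  have h0 : ∑ v ∈ S, ((e₀ : ℤ) - e v) = 0 := by
    rw [Finset.sum_sub_distrib, hsum, Finset.sum_const, nsmul_eq_mul]
    ring
  have h1 := (Finset.sum_eq_zero_iff_of_nonneg (fun v hv => sub_nonneg.mpr (hle v hv))).mp h0
  intro v hv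
  have := h1 v hv
  omega

/-! ## 3. The modular function field -/

/-- **Exact ramification over `j = 0` and `j = 1728` at a level without elliptic points.**
With `x = j = JJ 1` in `F = ℚ̄(j(q^d) : d ∣ N)`: if `ν₃(N) = 0` then every zero of `j` has order
exactly `3`; if `ν₂(N) = 0` then every zero of `j - 1728` has order exactly `2`. -/
theorem ro27_modular_ord (N : ℕ) [NeZero N] :
    (nuThree N = 0 → ∀ v : Place Kbar ↥(modularFunctionFieldBar N),
      0 < v.ord (⟨JJ 1, asmAb_JJ_mem N 1 (one_dvd N)⟩ : ↥(modularFunctionFieldBar N)) →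
      v.ord (⟨JJ 1, asmAb_JJ_mem N 1 (one_dvd N)⟩ : ↥(modularFunctionFieldBar N)) = 3) ∧
    (nuTwo N = 0 → ∀ v : Place Kbar ↥(modularFunctionFieldBar N),
      0 < v.ord ((⟨JJ 1, asmAb_JJ_mem N 1 (one_dvd N)⟩ : ↥(modularFunctionFieldBar N)) -
        algebraMap Kbar ↥(modularFunctionFieldBar N) 1728) →
      v.ord ((⟨JJ 1, asmAb_JJ_mem N 1 (one_dvd N)⟩ : ↥(modularFunctionFieldBar N)) -
        algebraMap Kbar ↥(modularFunctionFieldBar N) 1728) = 2) := by
  classical
  obtain ⟨D⟩ := wpA_nonempty_modularData N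
  letI := D.fieldM
  letI := D.algM
  letI := D.actM
  obtain ⟨ι, hι, hΓ⟩ := asmAb_exists_iota N D
  set x : ↥(modularFunctionFieldBar N) := ⟨JJ 1, asmAb_JJ_mem N 1 (one_dvd N)⟩ with hxdef
  have hx : Transcendental Kbar x := asmAb_transcendental N
  have hιx : ι x = D.jd 1 := hι 1 (one_dvd N)
  obtain ⟨hfin, hdeg⟩ := asmA_finrank N D ι x ⟨JJ N, asmAb_JJ_mem N N dvd_rfl⟩ hιx
    (hι N dvd_rfl) hΓ
  haveI := hfin
  obtain ⟨-, h0, h1728, -⟩ := asmB_counts N D ι x hx hιx hdeg hΓ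
  obtain ⟨-, H2, H3, -⟩ := ho_modular_ord N
  have hpsi : Module.finrank Kbar⟮x⟯ ↥(modularFunctionFieldBar N) = dedekindPsi N := by
    rw [hdeg]
    exact Fermat.Agent.Lib.card_quotient_Gamma0 N
  refine ⟨fun h3 v hv => ?_, fun h2 v hv => ?_⟩
  · -- `j = 0`
    have hcard := wp2_card_zeros x hx (0 : Kbar)
    have hsum := wp2_sum_zeros x hx (0 : Kbar)
    simp only [map_zero, sub_zero] at hcard hsum
    have h3orb := wp8_three_mul_numOrbits_ST N
    rw [h3, mul_zero, add_zero] at h3orb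
    have hS : ∑ w ∈ wp2_zeros x hx (0 : Kbar), w.ord x =
        ((3 : ℕ) : ℤ) * ((wp2_zeros x hx (0 : Kbar)).card : ℤ) := by
      rw [hsum, hpsi, ← h3orb, ← h0, hcard]
      push_cast
      ring
    have hmem : ∀ w : Place Kbar ↥(modularFunctionFieldBar N),
        w ∈ wp2_zeros x hx (0 : Kbar) ↔ 0 < w.ord x := by
      intro w
      rw [wp2_mem_zeros, map_zero, sub_zero]
    have := ro27_all_eq (wp2_zeros x hx (0 : Kbar)) (fun w => w.ord x) 3
      (fun w hw => (hmem w).mp hw) (fun w hw => H2 w ((hmem w).mp hw)) (by norm_num) hS v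
      ((hmem v).mpr hv)
    exact_mod_cast this
  · -- `j = 1728`
    have hcard := wp2_card_zeros x hx (1728 : Kbar)
    have hsum := wp2_sum_zeros x hx (1728 : Kbar)
    have h2orb := wp8_two_mul_numOrbits_S N
    rw [h2, add_zero] at h2orb
    have hS : ∑ w ∈ wp2_zeros x hx (1728 : Kbar),
        w.ord (x - algebraMap Kbar ↥(modularFunctionFieldBar N) 1728) =
        ((2 : ℕ) : ℤ) * ((wp2_zeros x hx (1728 : Kbar)).card : ℤ) := by
      rw [hsum, hpsi, ← h2orb, ← h1728, hcard]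
      push_cast
      ring
    have := ro27_all_eq (wp2_zeros x hx (1728 : Kbar))
      (fun w => w.ord (x - algebraMap Kbar ↥(modularFunctionFieldBar N) 1728)) 2
      (fun w hw => (wp2_mem_zeros x hx 1728 w).mp hw)
      (fun w hw => H3 w ((wp2_mem_zeros x hx 1728 w).mp hw)) (by norm_num) hS v
      ((wp2_mem_zeros x hx 1728 v).mpr hv)
    exact_mod_cast this

end Fermat.Agent.S36
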