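import Mathlib
import Fermat.Agent.S36.KappaChart13
import Fermat.Agent.S36.RigidLevelQ43
import Fermat.Agent.S36.RigPow18
import Fermat.Agent.S36.RigidOrd27
import Fermat.Agent.S36.TripleFrame71

/-!
# S36 lab, row 599 C-REGq (helper13): `tf71_RegNodes` on the canonical charts, unconditional

The chain `ka13_kappa_eq_one → kn13_node → kc13_core → kb13_node → kb13c_hnode` (helper13) is
closed here with the rigidity inputs that are on main:

* `rq43_level2`, `rq43_level3` (helper43 / helper79): `J = ε c ^ 3`, `J - 1728 = ε c ^ 2` in `B_n`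
  at every closed point of the four canonical level-`M' q` charts where `J` is regular,
  at a level `M'` without elliptic points (`nuThree M' = 0`, `nuTwo M' = 0`);
* `rpw18_level3_four(_inv)` (helper18): for `q = 2`, `J` is a unit times a fourth power modulo
  `π V_∞` at the points where `J` vanishes.

Results (all in the LITERAL shape `tf71_RegNodes M' q hq hM' hπ B'` = `hreg₁`, `hreg₂` of
`tg71_final_level2/3`, `hp1c36_level2/3`, `tg71_hD_level2/3`):

* `rg13_rig` : the three inputs ⟹ `kb13c_Rig` at a closed point of the `V_∞`-branch;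
* `rg13_regNodes` : both charts `{h}`, `{h⁻¹}` of every admissible Hauptmodul, EVERY prime `q`
  (`q = 2` included), hypotheses only `hunit`, `Associated (q : R) π`, `nuThree M' = 0`,
  `nuTwo M' = 0`;
* `rg13_regNodes_rigid` (a prime `r ≡ 11 mod 12` dividing `M'`), `rg13_regNodes_six` (`6 ∣ M'`);
* `rg13_regNodes_level2`, `rg13_regNodes_level3` : the same for the literal charts of
  `pk85_h2 K (M' * q) _` and `pk85_h3 K (M' * q) _`.

This is an independent twin of `nrg68_reg_rigid` + `rb57_regNodes_of_reg`.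

All names are prefixed `rg13_`.
-/

set_option autoImplicit false
set_option linter.style.haveILetI false
set_option linter.unusedSectionVars false

open ModularCurve AlgebraicCurve IntermediateField

namespace Fermat.Agent.S36

open Fermat.Agent.S18 Fermat.Agent.S24 Fermat.Agent.S34 Fermat.Agent.S36.TripleLoc71

local notation "Q̄" => AlgebraicClosure ℚ

section RG13

variable {R K : Type} [CommRing R] [IsDomain R] [IsDiscreteValuationRing R] [Field K]
  [NumberField K] [Algebra K Q̄] [Algebra R K] [IsFractionRing R K]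
  (M' q : ℕ) [NeZero M'] [NeZero q] (hq : q.Prime) (hM' : ¬ q ∣ M')
  [Algebra R ↥(modularFunctionFieldFullC K (M' * q))]
  [IsScalarTower R K ↥(modularFunctionFieldFullC K (M' * q))] {π : R} (hπ : Irreducible π)

/-- **`kb13c_Rig` from the root structures** `rt79_RootAt` of `J`, `J - 1728` and the
fourth-power congruence `rn56_Pow` for `q = 2`. -/
theorem rg13_rig (B : Subalgebra R ↥(modularFunctionFieldFullC K (M' * q)))
    (hBV : ∀ x ∈ B, x ∈ (cm85_Vinf (K := K) (M' * q) hπ).toSubring)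
    (n : Ideal B) (hn : n.IsMaximal) (hπn : algebraMap R B π ∈ n)
    (h1 : sf79_OnBr π B (cm85_Vinf (K := K) (M' * q) hπ).toSubring n)
    (hj : ∃ s : B, s ∉ n ∧
      (s : ↥(modularFunctionFieldFullC K (M' * q))) * rm90_j K (M' * q) ∈ B)
    (h3 : rt79_RootAt π B (rm90_j K (M' * q)) (rm90_j K (M' * q)) 3)
    (h2 : rt79_RootAt π B (rm90_j K (M' * q)) (rm90_j K (M' * q) - 1728) 2)
    (h4 : q = 2 → ∀ sJ bJ : B, sJ ∉ n →
      (sJ : ↥(modularFunctionFieldFullC K (M' * q))) * rm90_j K (M' * q) = bJ → bJ ∈ n →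
      rn56_Pow π B (cm85_Vinf (K := K) (M' * q) hπ).toSubring n (rm90_j K (M' * q)) 4) :
    kb13c_Rig M' q hπ B n hn.isPrime := by
  haveI hnp : n.IsPrime := hn.isPrime
  have hconv : algebraMap R ↥(modularFunctionFieldFullC K (M' * q)) π =
      algebraMap K ↥(modularFunctionFieldFullC K (M' * q)) (algebraMap R K π) :=
    IsScalarTower.algebraMap_apply R K ↥(modularFunctionFieldFullC K (M' * q)) π
  have hV₁ : ∀ x ∈ (cm85_Vinf (K := K) (M' * q) hπ).toSubring,
      (algebraMap R ↥(modularFunctionFieldFullC K (M' * q)) π)⁻¹ * x ∉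
        (cm85_Vinf (K := K) (M' * q) hπ).toSubring →
      x⁻¹ ∈ (cm85_Vinf (K := K) (M' * q) hπ).toSubring := by
    intro x hx hx'
    by_contra hcon
    apply hx'
    rw [hconv]
    exact gv85_hmax (IsLocalRing.residue R) π (pk85_res_iff hπ) hπ.ne_zero _ _ x hx hcon
  refine ⟨fun _ => ?_, fun _ => ?_, fun hq2 hJinv => ?_⟩
  · obtain ⟨c, ε, -, hf, hε, hε', hc⟩ := h3 n hn hπn hj
    exact ⟨c, ε, hc, hε, hε', hf⟩
  · obtain ⟨c, ε, -, hf, hε, hε', hc⟩ := h2 n hn hπn hj
    exact ⟨c, ε, hc, hε, hε', hf⟩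
  · obtain ⟨sJ, hsJ, hsJB⟩ := hj
    have hbJn : (⟨_, hsJB⟩ : B) ∈ n := by
      by_contra hb
      apply hJinv
      refine ⟨⟨_, hsJB⟩, hb, ?_⟩
      show (sJ : ↥(modularFunctionFieldFullC K (M' * q))) * rm90_j K (M' * q) *
          (rm90_j K (M' * q))⁻¹ ∈ B
      by_cases hJ0 : rm90_j K (M' * q) = 0
      · rw [hJ0, inv_zero, mul_zero]
        exact B.zero_mem
      · rw [mul_assoc, mul_inv_cancel₀ hJ0, mul_one]
        exact sJ.2
    obtain ⟨s, a, b, hs, ha, hpow⟩ := h4 hq2 sJ ⟨_, hsJB⟩ hsJ rfl hbJn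
    have hs0 : (s : ↥(modularFunctionFieldFullC K (M' * q))) ≠ 0 := sf79_ne_zero B n s hs
    have ha0 : (a : ↥(modularFunctionFieldFullC K (M' * q))) ≠ 0 := sf79_ne_zero B n a ha
    have hsV : (s : ↥(modularFunctionFieldFullC K (M' * q)))⁻¹ ∈
        (cm85_Vinf (K := K) (M' * q) hπ).toSubring :=
      sf79_inv_mem π B _ hBV hV₁ n h1 s hs
    refine ⟨(b : ↥(modularFunctionFieldFullC K (M' * q))),
      (a : ↥(modularFunctionFieldFullC K (M' * q))) *
        (s : ↥(modularFunctionFieldFullC K (M' * q)))⁻¹,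
      sf79_le_loc B n _ b.2, ⟨s, hs, ?_⟩, ⟨a, ha, ?_⟩, ?_⟩
    · have e : (s : ↥(modularFunctionFieldFullC K (M' * q))) *
          ((a : ↥(modularFunctionFieldFullC K (M' * q))) *
            (s : ↥(modularFunctionFieldFullC K (M' * q)))⁻¹) = a := by
        field_simp
      rw [e]
      exact a.2
    · have e : (a : ↥(modularFunctionFieldFullC K (M' * q))) *
          ((a : ↥(modularFunctionFieldFullC K (M' * q))) *
            (s : ↥(modularFunctionFieldFullC K (M' * q)))⁻¹)⁻¹ = s := by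
        field_simp
      rw [e]
      exact s.2
    · have e : (algebraMap R ↥(modularFunctionFieldFullC K (M' * q)) π)⁻¹ *
          (rm90_j K (M' * q) - (a : ↥(modularFunctionFieldFullC K (M' * q))) *
            (s : ↥(modularFunctionFieldFullC K (M' * q)))⁻¹ *
            (b : ↥(modularFunctionFieldFullC K (M' * q))) ^ 4) =
          (s : ↥(modularFunctionFieldFullC K (M' * q)))⁻¹ *
            ((algebraMap R ↥(modularFunctionFieldFullC K (M' * q)) π)⁻¹ *
              ((s : ↥(modularFunctionFieldFullC K (M' * q))) * rm90_j K (M' * q) -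
                (a : ↥(modularFunctionFieldFullC K (M' * q))) *
                  (b : ↥(modularFunctionFieldFullC K (M' * q))) ^ 4)) := by
        field_simp
      rw [e]
      exact Subring.mul_mem _ hsV hpow

include hq hM' in
/-- **(REG-q) in the `tf71_RegNodes` shape**, both charts of every admissible Hauptmodul of level
`M' q`, every prime `q`, at a level `M'` without elliptic points. -/
theorem rg13_regNodes (hunit : ∀ n : ℕ, Nat.Coprime n q → IsUnit (n : R))
    (hqπ : Associated ((q : ℕ) : R) π) (hν3 : nuThree M' = 0) (hν2 : nuTwo M' = 0)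
    (h : ↥(modularFunctionFieldFullC K (M' * q))) (hh : s34i47c_IsHaupt K (M' * q) q h) :
    tf71_RegNodes M' q hq hM' hπ
        (pk15_chart R ({h} : Set ↥(modularFunctionFieldFullC K (M' * q)))) ∧
      tf71_RegNodes M' q hq hM' hπ
        (pk15_chart R ({h⁻¹} : Set ↥(modularFunctionFieldFullC K (M' * q)))) := by
  letI : Algebra R ↥(modularFunctionFieldFullC K M') :=
    ((algebraMap K ↥(modularFunctionFieldFullC K M')).comp (algebraMap R K)).toAlgebra
  haveI : IsScalarTower R K ↥(modularFunctionFieldFullC K M') :=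
    IsScalarTower.of_algebraMap_eq (fun _ => rfl)
  have hMu : IsUnit (M' : R) :=
    hunit M' (Nat.Coprime.symm ((Nat.Prime.coprime_iff_not_dvd hq).mpr hM'))
  have hqR : ¬ IsUnit ((q : ℕ) : R) := by
    obtain ⟨u, hu⟩ := hqπ
    intro hcon
    apply hπ.not_isUnit
    rw [← hu]
    exact hcon.mul u.isUnit
  obtain ⟨N1, N2⟩ := kb13c_hnode M' q hq hM' hπ hunit hqπ h hh
  obtain ⟨⟨hBW1, -, -, -, -⟩, ⟨hBW2, -, -, -, -⟩⟩ :=
    nf79c_chart_facts M' q hq hM' hπ hunit hqR h hh
  have hmemW : ∀ x : ↥(modularFunctionFieldFullC K (M' * q)),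
      x ∈ s34i47c_W (K := K) M' q hq hM' hπ →
      x ∈ (cm85_Vinf (K := K) (M' * q) hπ).toSubring :=
    fun x hx => ((s34i47c_mem_W M' q hq hM' hπ x).mp hx).1
  have hπ₁ : (algebraMap R ↥(modularFunctionFieldFullC K (M' * q)) π)⁻¹ ∉
      (cm85_Vinf (K := K) (M' * q) hπ).toSubring := al97C_pi_inv_not_mem_Vinf M' q hπ
  have hp0 : algebraMap R ↥(modularFunctionFieldFullC K (M' * q)) π ≠ 0 := fun h0 =>
    hπ₁ (by rw [h0, inv_zero]; exact Subring.zero_mem _)
  have key : ∀ (B : Subalgebra R ↥(modularFunctionFieldFullC K (M' * q))) (n : Ideal B),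
      sf79_OnBr π B (cm85_Vinf (K := K) (M' * q) hπ).toSubring n → algebraMap R B π ∈ n := by
    intro B n h1
    apply h1
    have e : (algebraMap R ↥(modularFunctionFieldFullC K (M' * q)) π)⁻¹ *
        ((algebraMap R B π : B) : ↥(modularFunctionFieldFullC K (M' * q))) = 1 :=
      inv_mul_cancel₀ hp0
    rw [e]
    exact Subring.one_mem _
  rcases hh with ⟨hq2, h2, rfl⟩ | ⟨hq3, h3, rfl⟩
  · have hcop : Nat.Coprime 2 q := (Nat.coprime_primes Nat.prime_two hq).mpr (Ne.symm hq2)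
    have h2' : 2 ∣ M' := hcop.dvd_of_dvd_mul_right h2
    have h2u : IsUnit (2 : R) := by
      have := hunit 2 hcop
      rwa [Nat.cast_ofNat] at this
    obtain ⟨hJ3, hJ2⟩ := rq43_level2 (K := K) M' q hπ h2' hMu
    obtain ⟨r3a, r3b⟩ := hJ3 hν3
    obtain ⟨r2a, r2b⟩ := hJ2 hν2
    refine ⟨fun n hn h1 h2n => ?_, fun n hn h1 h2n => ?_⟩
    · haveI := hn.isPrime
      obtain ⟨a, b, ha, hab⟩ :=
        cf22_level2 (algebraMap K Q̄) M' q hq hM' hπ hqR h2' h2u n h1 h2n
      exact N1 n hn h1 h2n (rg13_rig M' q hπ _ (fun x hx => hmemW x (hBW1 x hx)) n hn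
        (key _ n h1) h1 ⟨a, ha, by rw [hab]; exact b.2⟩ r3a r2a (fun h => absurd h hq2))
    · haveI := hn.isPrime
      obtain ⟨a, b, ha, hab⟩ :=
        cf22_level2_inv (algebraMap K Q̄) M' q hq hM' hπ hqR h2' n h1 h2n
      exact N2 n hn h1 h2n (rg13_rig M' q hπ _ (fun x hx => hmemW x (hBW2 x hx)) n hn
        (key _ n h1) h1 ⟨a, ha, by rw [hab]; exact b.2⟩ r3b r2b (fun h => absurd h hq2))
  · have hcop : Nat.Coprime 3 q := (Nat.coprime_primes Nat.prime_three hq).mpr (Ne.symm hq3)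
    have h3' : 3 ∣ M' := hcop.dvd_of_dvd_mul_right h3
    have h3u : IsUnit (3 : R) := by
      have := hunit 3 hcop
      rwa [Nat.cast_ofNat] at this
    obtain ⟨hJ3, hJ2⟩ := rq43_level3 (K := K) M' q hπ h3' hMu
    obtain ⟨r3a, r3b⟩ := hJ3 hν3
    obtain ⟨r2a, r2b⟩ := hJ2 hν2
    have h2π : q = 2 → ∃ r : R, (2 : R) = π * r := by
      intro hq2
      obtain ⟨u, hu⟩ := hqπ
      refine ⟨((u⁻¹ : Rˣ) : R), ?_⟩
      rw [← hu, mul_assoc, Units.mul_inv, mul_one, hq2, Nat.cast_ofNat]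
    refine ⟨fun n hn h1 h2n => ?_, fun n hn h1 h2n => ?_⟩
    · haveI := hn.isPrime
      obtain ⟨a, b, ha, hab⟩ :=
        cf22_level3 (algebraMap K Q̄) M' q hq hM' hπ hqR h3' h3u n h1 h2n
      exact N1 n hn h1 h2n (rg13_rig M' q hπ _ (fun x hx => hmemW x (hBW1 x hx)) n hn
        (key _ n h1) h1 ⟨a, ha, by rw [hab]; exact b.2⟩ r3a r2a
        (fun hq2 sJ bJ hsJ hbJ hbJn => by
          obtain ⟨r, hr⟩ := h2π hq2
          exact rpw18_level3_four (M' * q) π h3 _ (fun x hx => hmemW x (hBW1 x hx)) n r hr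
            (key _ n h1) sJ bJ hsJ hbJ hbJn))
    · haveI := hn.isPrime
      obtain ⟨a, b, ha, hab⟩ :=
        cf22_level3_inv (algebraMap K Q̄) M' q hq hM' hπ hqR h3' n h1 h2n
      exact N2 n hn h1 h2n (rg13_rig M' q hπ _ (fun x hx => hmemW x (hBW2 x hx)) n hn
        (key _ n h1) h1 ⟨a, ha, by rw [hab]; exact b.2⟩ r3b r2b
        (fun hq2 sJ bJ hsJ hbJ hbJn => by
          obtain ⟨r, hr⟩ := h2π hq2
          exact rpw18_level3_four_inv (M' * q) π h3 _ (fun x hx => hmemW x (hBW2 x hx)) n r hr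
            (key _ n h1) sJ bJ hsJ hbJ hbJn))

include hq hM' in
/-- **(REG-q) at a rigid level**: a prime `r ≡ 11 mod 12` dividing `M'`. -/
theorem rg13_regNodes_rigid (hunit : ∀ n : ℕ, Nat.Coprime n q → IsUnit (n : R))
    (hqπ : Associated ((q : ℕ) : R) π)
    {r : ℕ} (hr : r.Prime) (hr12 : r % 12 = 11) (hrM : r ∣ M')
    (h : ↥(modularFunctionFieldFullC K (M' * q))) (hh : s34i47c_IsHaupt K (M' * q) q h) :
    tf71_RegNodes M' q hq hM' hπ
        (pk15_chart R ({h} : Set ↥(modularFunctionFieldFullC K (M' * q)))) ∧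
      tf71_RegNodes M' q hq hM' hπ
        (pk15_chart R ({h⁻¹} : Set ↥(modularFunctionFieldFullC K (M' * q)))) :=
  rg13_regNodes M' q hq hM' hπ hunit hqπ (ro27_rigid_of_eleven hr hr12 hrM).2
    (ro27_rigid_of_eleven hr hr12 hrM).1 h hh

include hq hM' in
/-- **(REG-q) at a level divisible by `6`.** -/
theorem rg13_regNodes_six (hunit : ∀ n : ℕ, Nat.Coprime n q → IsUnit (n : R))
    (hqπ : Associated ((q : ℕ) : R) π) (h6 : 6 ∣ M')
    (h : ↥(modularFunctionFieldFullC K (M' * q))) (hh : s34i47c_IsHaupt K (M' * q) q h) :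
    tf71_RegNodes M' q hq hM' hπ
        (pk15_chart R ({h} : Set ↥(modularFunctionFieldFullC K (M' * q)))) ∧
      tf71_RegNodes M' q hq hM' hπ
        (pk15_chart R ({h⁻¹} : Set ↥(modularFunctionFieldFullC K (M' * q)))) :=
  rg13_regNodes M' q hq hM' hπ hunit hqπ (ro27_rigid_of_six h6).2 (ro27_rigid_of_six h6).1 h hh

include hq hM' in
/-- **(REG-q), literal level-2 charts** `{pk85_h2 K (M' * q) _}`, `{(pk85_h2 K (M' * q) _)⁻¹}`. -/
theorem rg13_regNodes_level2 (hunit : ∀ n : ℕ, Nat.Coprime n q → IsUnit (n : R))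
    (hqπ : Associated ((q : ℕ) : R) π) (hν3 : nuThree M' = 0) (hν2 : nuTwo M' = 0)
    (h2 : 2 ∣ M') :
    tf71_RegNodes M' q hq hM' hπ
        (pk15_chart R ({pk85_h2 K (M' * q) (h2.trans (dvd_mul_right M' q))} :
          Set ↥(modularFunctionFieldFullC K (M' * q)))) ∧
      tf71_RegNodes M' q hq hM' hπ
        (pk15_chart R ({(pk85_h2 K (M' * q) (h2.trans (dvd_mul_right M' q)))⁻¹} :
          Set ↥(modularFunctionFieldFullC K (M' * q)))) :=
  rg13_regNodes M' q hq hM' hπ hunit hqπ hν3 hν2 _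
    (Or.inl ⟨fun hq2 => hM' (hq2 ▸ h2), h2.trans (dvd_mul_right M' q), rfl⟩)

include hq hM' in
/-- **(REG-q), literal level-3 charts** `{pk85_h3 K (M' * q) _}`, `{(pk85_h3 K (M' * q) _)⁻¹}`
(`q = 2` included). -/
theorem rg13_regNodes_level3 (hunit : ∀ n : ℕ, Nat.Coprime n q → IsUnit (n : R))
    (hqπ : Associated ((q : ℕ) : R) π) (hν3 : nuThree M' = 0) (hν2 : nuTwo M' = 0)
    (h3 : 3 ∣ M') :
    tf71_RegNodes M' q hq hM' hπ
        (pk15_chart R ({pk85_h3 K (M' * q) (h3.trans (dvd_mul_right M' q))} :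
          Set ↥(modularFunctionFieldFullC K (M' * q)))) ∧
      tf71_RegNodes M' q hq hM' hπ
        (pk15_chart R ({(pk85_h3 K (M' * q) (h3.trans (dvd_mul_right M' q)))⁻¹} :
          Set ↥(modularFunctionFieldFullC K (M' * q)))) :=
  rg13_regNodes M' q hq hM' hπ hunit hqπ hν3 hν2 _
    (Or.inr ⟨fun hq3 => hM' (hq3 ▸ h3), h3.trans (dvd_mul_right M' q), rfl⟩)

end RG13

end Fermat.Agent.S36
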