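import Mathlib
import Fermat.Agent.S36.PointBook63

/-!
# S36 lab (helper63): what the instance owes at a triple point, in the `sf79_loc` language

`gcd26_datum_triple` / `gc26_triple` (row 602) take local subrings `Aal`, `Abe` of the level-`q`
function field and `Bn = sf79_loc B n`.  With `Aal := sf79_loc B' (n.comap (bk63_res α B' B hαB))`
(the local ring of the level-`q` chart at the image of `n`), this file proves the hypotheses of
`gc26_triple` which are pure bookkeeping, from `B`-level statements: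

* `to63_hAB`   : `α` maps `sf79_loc B' n'` into `sf79_loc B n`                     (`hAB`, `hAB'`);
* `to63_hloc`  : and reflects units                                               (`hloc`, `hloc'`);
* `to63_root`  : `sf79_loc B' n'` is closed under `m`-th roots (`B'` integrally closed)
                                                                                  (`hrootA`, `hrootB`);
* `to63_cen`   : `sf79_OnBr` + radical clause ⟹ the centre of `V` on `B` lies in `n`;
* `to63_lift`  : residue surjectivity on `B` (`∀ y ∈ B, ∃ a ∈ B', v(α a - y) < 1`: the output of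
  `bi99_main` / `bb19_main` along `α₂ α₁` resp. `β₂ β₁`) ⟹ the same on the local rings
                                                                  (`hO1`, `hO2`, `hO3'`, `hO2'`);
* `to63_norm_unit` : `n` the only prime over `n'` (`bk63_over_node` / `bk63_triple`) ⟹ the norm
  of a unit of `sf79_loc B n` is a unit of `sf79_loc B' n'`                       (`hNeps`, `hNeps'`).

Mathlib + `S36/PointBook63` (+ `S34/SpecFibre79`) only.  All names are prefixed `to63_`.
-/

set_option autoImplicit false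

namespace Fermat.Agent.S36

open Fermat.Agent.S34

section TO63

variable {R K L : Type*} [CommRing R] [Field K] [Field L] [Algebra R K] [Algebra R L]

/-- `α` maps the local ring of `B'` at the contraction of `n` into the local ring of `B` at `n`. -/
theorem to63_hAB (α : K →+* L) (B' : Subalgebra R K) (B : Subalgebra R L)
    (hαB : ∀ x' ∈ B', α x' ∈ B) (n : Ideal B) [n.IsPrime]
    (x : K) (hx : x ∈ sf79_loc B' (n.comap (bk63_res α B' B hαB))) : α x ∈ sf79_loc B n := by
  obtain ⟨s, hs, hsx⟩ := hx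
  refine ⟨bk63_res α B' B hαB s, hs, ?_⟩
  have : ((bk63_res α B' B hαB s : B) : L) * α x = α ((s : K) * x) := by
    rw [map_mul]; rfl
  rw [this]
  exact hαB _ hsx

/-- `α : B'_{n'} → B_n` reflects units. -/
theorem to63_hloc (α : K →+* L) (B' : Subalgebra R K) (B : Subalgebra R L)
    (hαB : ∀ x' ∈ B', α x' ∈ B) (n : Ideal B) [hn : n.IsPrime]
    (x : K) (hx : x ∈ sf79_loc B' (n.comap (bk63_res α B' B hαB)))
    (hinv : (α x)⁻¹ ∈ sf79_loc B n) : x⁻¹ ∈ sf79_loc B' (n.comap (bk63_res α B' B hαB)) := by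
  by_cases hx0 : x = 0
  · rw [hx0, inv_zero]; exact Subring.zero_mem _
  obtain ⟨s, hs, hsx⟩ := hx
  obtain ⟨t, ht, hty⟩ := hinv
  -- `a = s x ∈ B'` is not in the contraction of `n`
  have hαx0 : α x ≠ 0 := (map_ne_zero α).2 hx0
  have ha : (⟨(s : K) * x, hsx⟩ : B') ∉ n.comap (bk63_res α B' B hαB) := by
    intro hmem
    rw [Ideal.mem_comap] at hmem
    -- `t * α s = y * α (s x)` with `y = t (α x)⁻¹ ∈ B`
    have heq : t * bk63_res α B' B hαB s
        = (⟨(t : L) * (α x)⁻¹, hty⟩ : B) * bk63_res α B' B hαB ⟨(s : K) * x, hsx⟩ := by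
      apply Subtype.ext
      show (t : L) * α (s : K) = ((t : L) * (α x)⁻¹) * α ((s : K) * x)
      rw [map_mul]
      field_simp
    have hmem2 : t * bk63_res α B' B hαB s ∈ n := by
      rw [heq]; exact n.mul_mem_left _ hmem
    exact (hn.mem_or_mem hmem2).elim ht hs
  refine ⟨⟨(s : K) * x, hsx⟩, ha, ?_⟩
  show (s : K) * x * x⁻¹ ∈ B'
  rw [mul_assoc, mul_inv_cancel₀ hx0, mul_one]
  exact s.2

/-- The local ring of an integrally closed chart is closed under `m`-th roots. -/
theorem to63_root (B' : Subalgebra R K)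
    (hB'n : ∀ t : K, (algebraMap B' K).IsIntegralElem t → t ∈ B')
    (n' : Ideal B') [n'.IsPrime] (m : ℕ) (hm : 0 < m)
    (x : K) (hx : x ^ m ∈ sf79_loc B' n') : x ∈ sf79_loc B' n' := by
  obtain ⟨s, hs, hsx⟩ := hx
  refine ⟨s, hs, ?_⟩
  apply hB'n
  -- `(s x)^m = s^(m-1) * (s x^m)`
  obtain ⟨k, rfl⟩ : ∃ k, m = k + 1 := ⟨m - 1, by omega⟩
  refine ⟨Polynomial.X ^ (k + 1) - Polynomial.C (s ^ k * ⟨(s : K) * x ^ (k + 1), hsx⟩),
    Polynomial.monic_X_pow_sub_C _ (by omega), ?_⟩
  rw [Polynomial.eval₂_sub, Polynomial.eval₂_pow, Polynomial.eval₂_X, Polynomial.eval₂_C]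
  show ((s : K) * x) ^ (k + 1) - ((s : K) ^ k * ((s : K) * x ^ (k + 1))) = 0
  ring

/-- The centre of `V` on `B` lies in `n` when `n` is on the branch `V` (`sf79_OnBr`) and a power
of every nonunit of `V` is divisible by `π`. -/
theorem to63_cen (π : R) (B : Subalgebra R L) (V : ValuationSubring L)
    (hrad : ∀ x ∈ V, x⁻¹ ∉ V → ∃ k : ℕ, (algebraMap R L π)⁻¹ * x ^ k ∈ V)
    (n : Ideal B) [hn : n.IsPrime] (hOn : sf79_OnBr π B V.toSubring n)
    (x : B) (hx : V.valuation (x : L) < 1) : x ∈ n := by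
  have hxV : (x : L) ∈ V := (V.valuation_le_one_iff _).1 hx.le
  by_cases hx0 : (x : L) = 0
  · have : x = 0 := Subtype.ext hx0
    rw [this]; exact n.zero_mem
  have hxi : (x : L)⁻¹ ∉ V := by
    intro h
    have h1 : V.valuation (x : L)⁻¹ ≤ 1 := (V.valuation_le_one_iff _).2 h
    have h2 : V.valuation (x : L) * V.valuation (x : L)⁻¹ = 1 := by
      rw [← map_mul, mul_inv_cancel₀ hx0, map_one]
    exact absurd h2 (ne_of_lt (mul_lt_one_of_lt_of_le hx h1))
  obtain ⟨k, hk⟩ := hrad _ hxV hxi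
  have hmem : x ^ k ∈ n := hOn (x ^ k) (by simpa using hk)
  exact hn.mem_of_pow_mem k hmem

/-- **Residue surjectivity passes to the local rings** (`hO1`, `hO2`, `hO3'`, `hO2'` of
`gc26_triple`): if every `y ∈ B` is congruent modulo the maximal ideal of `V` to `α a`, `a ∈ B'`,
and the centre of `V` on `B` lies in `n`, then every `b ∈ B_n` is congruent modulo the maximal
ideal of `V` to `α a`, `a ∈ B'_{n'}`. -/
theorem to63_lift (α : K →+* L) (B' : Subalgebra R K) (B : Subalgebra R L)
    (hαB : ∀ x' ∈ B', α x' ∈ B) (V : ValuationSubring L) (hBV : ∀ x ∈ B, x ∈ V)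
    (n : Ideal B) [hn : n.IsPrime]
    (hcen : ∀ x : B, V.valuation (x : L) < 1 → x ∈ n)
    (hlift : ∀ y ∈ B, ∃ a ∈ B', V.valuation (α a - y) < 1)
    (b : L) (hb : b ∈ sf79_loc B n) :
    ∃ a ∈ sf79_loc B' (n.comap (bk63_res α B' B hαB)), V.valuation (α a - b) < 1 := by
  obtain ⟨t, ht, hty⟩ := hb
  obtain ⟨ay, hay, hy⟩ := hlift _ hty
  obtain ⟨at', hat, htl⟩ := hlift _ t.2
  -- valuations of elements of `B` outside `n` are `1`
  have hone : ∀ x : B, x ∉ n → V.valuation (x : L) = 1 := by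
    intro x hx
    refine le_antisymm ((V.valuation_le_one_iff _).2 (hBV _ x.2)) ?_
    by_contra h
    exact hx (hcen x (not_le.1 h))
  -- `α at' ∉ n`
  have hatn : bk63_res α B' B hαB ⟨at', hat⟩ ∉ n := by
    intro hmem
    have hdiff : bk63_res α B' B hαB ⟨at', hat⟩ - t ∈ n := hcen _ (by simpa using htl)
    have : t = bk63_res α B' B hαB ⟨at', hat⟩ - (bk63_res α B' B hαB ⟨at', hat⟩ - t) := by ring
    exact ht (this ▸ n.sub_mem hmem hdiff)
  have hvt : V.valuation (t : L) = 1 := hone t ht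
  have hvat : V.valuation (α at') = 1 := hone _ hatn
  have ht0 : (t : L) ≠ 0 := by
    intro h; rw [h, map_zero] at hvt; exact zero_ne_one hvt
  have hat0 : α at' ≠ 0 := by
    intro h; rw [h, map_zero] at hvat; exact zero_ne_one hvat
  have hat0' : at' ≠ 0 := fun h => hat0 (by rw [h, map_zero])
  refine ⟨ay / at', ⟨⟨at', hat⟩, hatn, ?_⟩, ?_⟩
  · show at' * (ay / at') ∈ B'
    rw [mul_div_cancel₀ _ hat0']
    exact hay
  · -- `α (ay/at') - b = ((α ay - t b) * t - t b * (α at' - t)) / (t * α at')`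
    have hexp : α (ay / at') - b
        = ((α ay - (t : L) * b) * (t : L) - ((t : L) * b) * (α at' - (t : L)))
          * ((t : L) * α at')⁻¹ := by
      rw [map_div₀]
      field_simp
      ring
    rw [hexp, map_mul, map_inv₀, map_mul, hvt, hvat, mul_one, inv_one, mul_one]
    refine lt_of_le_of_lt (Valuation.map_sub _ _ _) (max_lt ?_ ?_)
    · rw [map_mul, hvt, mul_one]; exact hy
    · rw [map_mul]
      have h1 : V.valuation ((t : L) * b) ≤ 1 := (V.valuation_le_one_iff _).2 (hBV _ hty)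
      calc V.valuation ((t : L) * b) * V.valuation (α at' - (t : L))
          ≤ 1 * V.valuation (α at' - (t : L)) := mul_le_mul_left h1 _
        _ = V.valuation (α at' - (t : L)) := one_mul _
        _ < 1 := htl

/-- **Norms of local units** (`hNeps`, `hNeps'` of `gc26_triple`): if `n` is the only prime of
`B` over its contraction `n'` (`bk63_over_node`, `bk63_triple`), `Nm` is multiplicative, maps `B`
into `B'` and is the `d`-th power on `α B'`, then the norm of a unit of `B_n` is a unit of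
`B'_{n'}`. -/
theorem to63_norm_unit (α : K →+* L) (B' : Subalgebra R K) (B : Subalgebra R L)
    (hαB : ∀ x' ∈ B', α x' ∈ B)
    (hBint : ∀ x ∈ B, (α.comp (algebraMap B' K)).IsIntegralElem x)
    (n : Ideal B) [hn : n.IsPrime]
    (huniq : ∀ n₂ : Ideal B, n₂.IsPrime →
      n₂.comap (bk63_res α B' B hαB) = n.comap (bk63_res α B' B hαB) → n₂ = n)
    (Nm : L →* K) (d : ℕ) (hNmB : ∀ y ∈ B, Nm y ∈ B') (hNmα : ∀ s' ∈ B', Nm (α s') = s' ^ d)
    (eps : L) (heps0 : eps ≠ 0) (heps' : eps⁻¹ ∈ sf79_loc B n) :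
    (Nm eps)⁻¹ ∈ sf79_loc B' (n.comap (bk63_res α B' B hαB)) := by
  obtain ⟨t, ht, hty⟩ := heps'
  obtain ⟨z, s', hs', hz⟩ := bk63_local_unit α B' B hαB hBint n huniq t ht
  have hzL : (t : L) * (z : L) = α (s' : K) := congrArg (fun y : B => (y : L)) hz
  -- `α s' * eps⁻¹ = z * (t eps⁻¹) ∈ B`
  have hmem : α (s' : K) * eps⁻¹ ∈ B := by
    have : α (s' : K) * eps⁻¹ = (z : L) * ((t : L) * eps⁻¹) := by rw [← hzL]; ring
    rw [this]; exact B.mul_mem z.2 hty
  have hN1 : Nm eps * Nm eps⁻¹ = 1 := by rw [← map_mul, mul_inv_cancel₀ heps0, map_one]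
  have hNinv : Nm eps⁻¹ = (Nm eps)⁻¹ := eq_inv_of_mul_eq_one_right hN1
  have hN : Nm (α (s' : K) * eps⁻¹) = (s' : K) ^ d * (Nm eps)⁻¹ := by
    rw [map_mul, hNmα _ s'.2, hNinv]
  refine ⟨s' ^ d, fun h => hs' (Ideal.mem_comap.1 ((Ideal.comap_isPrime _ n).mem_of_pow_mem d h)), ?_⟩
  show ((s' ^ d : B') : K) * (Nm eps)⁻¹ ∈ B'
  have := hNmB _ hmem
  rw [hN] at this
  simpa using this

end TO63

end Fermat.Agent.S36
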