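import Fermat.Agent.S36.TripleLift3
import Fermat.Agent.S36.TripleOwes63

/-!
# S36 lab, row 632 HP3-CANON-LIFT, stage 2 (helper3): `hO1`, `hO2`, `hO3'`, `hO2'` of
`gcd26_datum_triple` / `hp53_TripleData` at a prime of the canonical level `M' q²` charts

* `tll3_hO` (abstract): chart-level residue surjectivity along `al` for the valuation ring `V`,
  `n` a prime of `B` containing the centre of `V`, and ANY ring homomorphism `f : B' →+* B`
  restricting `al`: every `b ∈ B_n` is congruent modulo `𝔪(V)` to `al a`, `a ∈ B'_{f⁻¹ n}`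
  (`to63_lift` of helper63 in the `fα`-form of `pbi81_triple`).
* `tll3_cen` : the centre clause from `sf79_OnBr` and the radical clause (`to63_cen`).
* `tll3_of_lifts` : `tl3_Lifts` (the four chart-level lifts, `TripleLift3`) gives the four local
  clauses, LITERALLY conjuncts `hO1`, `hO2` (for `Aal := sf79_loc B' (n.comap fα)`) and `hO3'`,
  `hO2'` (for `Abe := sf79_loc B' (n.comap fβ)`) of the `∃ Aal Abe` block of `hp53_TripleData` /
  `hp3x77_TripleData`.  With `tl3_lifts_level2/3` this is unconditional on the canonical charts.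

All names are prefixed `tll3_`.
-/

set_option autoImplicit false
set_option linter.unusedSectionVars false
set_option linter.style.haveILetI false
set_option linter.unusedVariables false
set_option linter.style.longLine false

open ModularCurve AlgebraicCurve

namespace Fermat.Agent.S36

open Fermat.Agent.S18 Fermat.Agent.S24 Fermat.Agent.S34 Fermat.Agent.S36.TripleLoc71

section tll3_abs

variable {R F1 F2 : Type*} [CommRing R] [Field F1] [Field F2] [Algebra R F1] [Algebra R F2]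

/-- **Residue surjectivity passes to the local rings**, for any restriction `f` of `al` to the
charts. -/
theorem tll3_hO (al : F1 →+* F2) (B' : Subalgebra R F1) (B : Subalgebra R F2)
    (f : ↥B' →+* ↥B) (hf : ∀ x : ↥B', ((f x : ↥B) : F2) = al (x : F1))
    (V : ValuationSubring F2) (hBV : ∀ x ∈ B, x ∈ V)
    (n : Ideal B) [hn : n.IsPrime]
    (hcen : ∀ x : B, V.valuation (x : F2) < 1 → x ∈ n)
    (hlift : ∀ y ∈ B, ∃ a ∈ B', V.valuation (al a - y) < 1)
    (b : F2) (hb : b ∈ sf79_loc B n) :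
    ∃ a ∈ sf79_loc B' (n.comap f), V.valuation (al a - b) < 1 := by
  have hαB : ∀ x' ∈ B', al x' ∈ B := fun x' hx' => by
    have h := (f ⟨x', hx'⟩).2
    rwa [hf] at h
  obtain ⟨a, ⟨s, hs, hsa⟩, hv⟩ := to63_lift al B' B hαB V hBV n hcen hlift b hb
  refine ⟨a, ⟨s, fun hmem => hs ?_, hsa⟩, hv⟩
  rw [Ideal.mem_comap] at hmem ⊢
  have e : bk63_res al B' B hαB s = f s := Subtype.ext (hf s).symm
  rw [e]
  exact hmem

/-- The centre of `V` on `B` lies in `n` (from `sf79_OnBr` and the radical clause). -/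
theorem tll3_cen (π : R) (B : Subalgebra R F2) (V : ValuationSubring F2)
    (hrad : ∀ x ∈ V, x⁻¹ ∉ V → ∃ k : ℕ, (algebraMap R F2 π)⁻¹ * x ^ k ∈ V)
    (n : Ideal B) [hn : n.IsPrime] (hOn : sf79_OnBr π B V.toSubring n) :
    ∀ x : B, V.valuation (x : F2) < 1 → x ∈ n :=
  fun x hx => to63_cen π B V hrad n hOn x hx

end tll3_abs

section tll3

variable {R K : Type} [CommRing R] [IsDomain R] [IsDiscreteValuationRing R] [Field K]
  [CharZero K] [Algebra R K] [IsFractionRing R K] [Algebra K Kbar] [Algebra.IsAlgebraic K Kbar]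
  (M' q : ℕ) [NeZero M'] [NeZero q] (hq : q.Prime) (hM' : ¬ q ∣ M')
  [Algebra R ↥(modularFunctionFieldFullC K M')]
  [IsScalarTower R K ↥(modularFunctionFieldFullC K M')]
  [Algebra R ↥(modularFunctionFieldFullC K (M' * q))]
  [IsScalarTower R K ↥(modularFunctionFieldFullC K (M' * q))]
  [Algebra R ↥(modularFunctionFieldFullC K (M' * q * q))]
  [IsScalarTower R K ↥(modularFunctionFieldFullC K (M' * q * q))]

/-- **`hO1`, `hO2`, `hO3'`, `hO2'` from the four chart-level lifts**, at a prime `n` of the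
chart `B = pk15_chart R s₂` on the three branches, for `Aal := sf79_loc B' (n.comap fα)` and
`Abe := sf79_loc B' (n.comap fβ)` (`B' = pk15_chart R s₁`; `fα`, `fβ` the restrictions of `α₂`,
`β₂` as in `pbi81_triple`). -/
theorem tll3_of_lifts {π : R} (hπ : Irreducible π)
    (V₂ : ValuationSubring ↥(modularFunctionFieldFullC K (M' * q * q)))
    (s₁ : Set ↥(modularFunctionFieldFullC K (M' * q)))
    (s₂ : Set ↥(modularFunctionFieldFullC K (M' * q * q)))
    (hL : tl3_Lifts (K := K) M' q hq hM' hπ V₂ s₁ s₂)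
    (fα : ↥(pk15_chart R s₁) →+* ↥(pk15_chart R s₂))
    (hfα : ∀ x, ((fα x : ↥(pk15_chart R s₂)) : ↥(modularFunctionFieldFullC K (M' * q * q))) =
      al97L_alpha K (M' * q) q (x : ↥(modularFunctionFieldFullC K (M' * q))))
    (fβ : ↥(pk15_chart R s₁) →+* ↥(pk15_chart R s₂))
    (hfβ : ∀ x, ((fβ x : ↥(pk15_chart R s₂)) : ↥(modularFunctionFieldFullC K (M' * q * q))) =
      al97L_beta K (M' * q) q (x : ↥(modularFunctionFieldFullC K (M' * q))))
    (hBV₁ : ∀ x ∈ pk15_chart R s₂, x ∈ cm85_Vinf (K := K) (M' * q * q) hπ)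
    (hBV₂ : ∀ x ∈ pk15_chart R s₂, x ∈ V₂)
    (hBV₃ : ∀ x ∈ pk15_chart R s₂, x ∈ nsb86_V3 (K := K) M' q hq hM' hπ)
    (hrad₁ : ∀ x ∈ cm85_Vinf (K := K) (M' * q * q) hπ,
      x⁻¹ ∉ cm85_Vinf (K := K) (M' * q * q) hπ → ∃ k : ℕ,
        (algebraMap R ↥(modularFunctionFieldFullC K (M' * q * q)) π)⁻¹ * x ^ k ∈
          cm85_Vinf (K := K) (M' * q * q) hπ)
    (hrad₂ : ∀ x ∈ V₂, x⁻¹ ∉ V₂ → ∃ k : ℕ,
      (algebraMap R ↥(modularFunctionFieldFullC K (M' * q * q)) π)⁻¹ * x ^ k ∈ V₂)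
    (hrad₃ : ∀ x ∈ nsb86_V3 (K := K) M' q hq hM' hπ,
      x⁻¹ ∉ nsb86_V3 (K := K) M' q hq hM' hπ → ∃ k : ℕ,
        (algebraMap R ↥(modularFunctionFieldFullC K (M' * q * q)) π)⁻¹ * x ^ k ∈
          nsb86_V3 (K := K) M' q hq hM' hπ)
    (n : Ideal ↥(pk15_chart R s₂)) [hn : n.IsPrime]
    (hOn1 : sf79_OnBr π (pk15_chart R s₂) (cm85_Vinf (K := K) (M' * q * q) hπ).toSubring n)
    (hOn2 : sf79_OnBr π (pk15_chart R s₂) V₂.toSubring n)
    (hOn3 : sf79_OnBr π (pk15_chart R s₂) (nsb86_V3 (K := K) M' q hq hM' hπ).toSubring n) :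
    (∀ b ∈ sf79_loc (pk15_chart R s₂) n, ∃ a ∈ sf79_loc (pk15_chart R s₁) (n.comap fα),
      (cm85_Vinf (K := K) (M' * q * q) hπ).valuation
        ((al97L_alpha K (M' * q) q).toRingHom a - b) < 1) ∧
    (∀ b ∈ sf79_loc (pk15_chart R s₂) n, ∃ a ∈ sf79_loc (pk15_chart R s₁) (n.comap fα),
      V₂.valuation ((al97L_alpha K (M' * q) q).toRingHom a - b) < 1) ∧
    (∀ b ∈ sf79_loc (pk15_chart R s₂) n, ∃ a ∈ sf79_loc (pk15_chart R s₁) (n.comap fβ),
      (nsb86_V3 (K := K) M' q hq hM' hπ).valuation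
        ((al97L_beta K (M' * q) q).toRingHom a - b) < 1) ∧
    (∀ b ∈ sf79_loc (pk15_chart R s₂) n, ∃ a ∈ sf79_loc (pk15_chart R s₁) (n.comap fβ),
      V₂.valuation ((al97L_beta K (M' * q) q).toRingHom a - b) < 1) := by
  obtain ⟨l1, l2, l3, l4⟩ := hL
  exact ⟨fun b hb => tll3_hO (al97L_alpha K (M' * q) q).toRingHom _ _ fα hfα _ hBV₁ n
      (tll3_cen π _ _ hrad₁ n hOn1) l1 b hb,
    fun b hb => tll3_hO (al97L_alpha K (M' * q) q).toRingHom _ _ fα hfα _ hBV₂ n
      (tll3_cen π _ _ hrad₂ n hOn2) l2 b hb,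
    fun b hb => tll3_hO (al97L_beta K (M' * q) q).toRingHom _ _ fβ hfβ _ hBV₃ n
      (tll3_cen π _ _ hrad₃ n hOn3) l3 b hb,
    fun b hb => tll3_hO (al97L_beta K (M' * q) q).toRingHom _ _ fβ hfβ _ hBV₂ n
      (tll3_cen π _ _ hrad₂ n hOn2) l4 b hb⟩

end tll3

end Fermat.Agent.S36
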