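/-
S36 lab, (HP-3) sub-binding (helper81, rows 605/632): the NON-LIFT clauses of
`hp3x77_TripleData` / `gcd26_datum_triple` at a closed point on two branches, on the canonical
frame (level `M' q q` over `M' q`).

`B' = pk15_chart R s'` (level `M' q`), `B` a chart of level `M' q q`, chart maps `fα`, `fβ`
(outputs of `bc95_alpha` / `bc95_beta_level2/3`), `V₁ = cm85_Vinf (M' q q)`, `V₃ = nsb86_V3`,
`V₂` a parameter, `Aal := sf79_loc B' (n.comap fα)`, `Abe := sf79_loc B' (n.comap fβ)`.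

`tn81_node` : for a prime `n` of `B` on two of the three branches:
* `n` is on all three branches;
* `α Aal ⊆ B_n`, `Aal ⊆ V_∞'`, `Aal → B_n` reflects units; the `β`-twins with `Abe ⊆ V_0'`;
* `Aal`, `Abe` are closed under `m`-th roots and contain the constants of `R`;
* `(Nal eps)⁻¹ ∈ Aal` and `(Nbe eps)⁻¹ ∈ Abe` for every unit `eps` of `B_n`.
-/
import Fermat.Agent.S36.PointBind81
import Fermat.Agent.S36.TripleOwes63
import Fermat.Agent.S35.Iface62

set_option autoImplicit false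
set_option linter.unusedSectionVars false
set_option linter.style.haveILetI false

open ModularCurve AlgebraicCurve IntermediateField
open Fermat.Agent.S24 Fermat.Agent.S28 Fermat.Agent.S18 Fermat.Agent.S37 Fermat.Agent.S34
open Fermat.Agent.S42 Fermat.Agent.S35

namespace Fermat.Agent.S36

section canonical

variable {R K : Type} [CommRing R] [IsDomain R] [IsDiscreteValuationRing R] [Field K]
  [CharZero K] [Algebra R K] [IsFractionRing R K] [Algebra K Kbar]
  (M' q : ℕ) [NeZero M'] [NeZero q] (hq : q.Prime) (hM' : ¬ q ∣ M')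
  {π : R} (hπ : Irreducible π)
  [Algebra R ↥(modularFunctionFieldFullC K (M' * q))]
  [IsScalarTower R K ↥(modularFunctionFieldFullC K (M' * q))]
  [Algebra R ↥(modularFunctionFieldFullC K (M' * q * q))]
  [IsScalarTower R K ↥(modularFunctionFieldFullC K (M' * q * q))]

/-- **The non-lift clauses of the triple-point data on the canonical frame.** -/
theorem tn81_node (hqR : ¬ IsUnit (q : R))
    (s' : Set ↥(modularFunctionFieldFullC K (M' * q)))
    (B : Subalgebra R ↥(modularFunctionFieldFullC K (M' * q * q)))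
    (fα : ↥(pk15_chart R s') →+* ↥B)
    (hfα : ∀ x, ((fα x : ↥B) : ↥(modularFunctionFieldFullC K (M' * q * q))) =
      al97L_alpha K (M' * q) q (x : ↥(modularFunctionFieldFullC K (M' * q))))
    (hfαi : fα.IsIntegral)
    (fβ : ↥(pk15_chart R s') →+* ↥B)
    (hfβ : ∀ x, ((fβ x : ↥B) : ↥(modularFunctionFieldFullC K (M' * q * q))) =
      al97L_beta K (M' * q) q (x : ↥(modularFunctionFieldFullC K (M' * q))))
    (hfβi : fβ.IsIntegral)
    (hB'Vi : ∀ x ∈ pk15_chart R s', x ∈ cm85_Vinf (K := K) (M' * q) hπ)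
    (hB'V0 : ∀ x ∈ pk15_chart R s', x ∈ s34i47c_V0 (K := K) M' q hq hM' hπ)
    (V₂ : ValuationSubring ↥(modularFunctionFieldFullC K (M' * q * q)))
    (hα₂ : ∀ x ∈ cm85_Vinf (K := K) (M' * q) hπ, al97L_alpha K (M' * q) q x ∈ V₂)
    (hβ₂ : ∀ x ∈ s34i47c_V0 (K := K) M' q hq hM' hπ, al97L_beta K (M' * q) q x ∈ V₂)
    (hπ₂ : (algebraMap R ↥(modularFunctionFieldFullC K (M' * q * q)) π)⁻¹ ∉ V₂)
    (hBV₁ : ∀ x ∈ B, x ∈ cm85_Vinf (K := K) (M' * q * q) hπ) (hBV₂ : ∀ x ∈ B, x ∈ V₂)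
    (hBV₃ : ∀ x ∈ B, x ∈ nsb86_V3 M' q hq hM' hπ)
    (n : Ideal B) [hn : n.IsPrime]
    (htwo : (sf79_OnBr π B (cm85_Vinf (K := K) (M' * q * q) hπ).toSubring n ∧
        sf79_OnBr π B V₂.toSubring n) ∨
      (sf79_OnBr π B (cm85_Vinf (K := K) (M' * q * q) hπ).toSubring n ∧
        sf79_OnBr π B (nsb86_V3 M' q hq hM' hπ).toSubring n) ∨
      (sf79_OnBr π B V₂.toSubring n ∧
        sf79_OnBr π B (nsb86_V3 M' q hq hM' hπ).toSubring n))
    (m : ℕ) (hm : 0 < m) :
    (sf79_OnBr π B (cm85_Vinf (K := K) (M' * q * q) hπ).toSubring n ∧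
      sf79_OnBr π B V₂.toSubring n ∧
      sf79_OnBr π B (nsb86_V3 M' q hq hM' hπ).toSubring n) ∧
    (∀ x ∈ sf79_loc (pk15_chart R s') (n.comap fα),
      al97L_alpha K (M' * q) q x ∈ sf79_loc B n) ∧
    (∀ x ∈ sf79_loc (pk15_chart R s') (n.comap fα), x ∈ cm85_Vinf (K := K) (M' * q) hπ) ∧
    (∀ x ∈ sf79_loc (pk15_chart R s') (n.comap fα),
      (al97L_alpha K (M' * q) q x)⁻¹ ∈ sf79_loc B n →
        x⁻¹ ∈ sf79_loc (pk15_chart R s') (n.comap fα)) ∧
    (∀ x ∈ sf79_loc (pk15_chart R s') (n.comap fβ),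
      al97L_beta K (M' * q) q x ∈ sf79_loc B n) ∧
    (∀ x ∈ sf79_loc (pk15_chart R s') (n.comap fβ),
      x ∈ s34i47c_V0 (K := K) M' q hq hM' hπ) ∧
    (∀ x ∈ sf79_loc (pk15_chart R s') (n.comap fβ),
      (al97L_beta K (M' * q) q x)⁻¹ ∈ sf79_loc B n →
        x⁻¹ ∈ sf79_loc (pk15_chart R s') (n.comap fβ)) ∧
    (∀ x : ↥(modularFunctionFieldFullC K (M' * q)),
      x ^ m ∈ sf79_loc (pk15_chart R s') (n.comap fα) →
        x ∈ sf79_loc (pk15_chart R s') (n.comap fα)) ∧
    (∀ x : ↥(modularFunctionFieldFullC K (M' * q)),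
      x ^ m ∈ sf79_loc (pk15_chart R s') (n.comap fβ) →
        x ∈ sf79_loc (pk15_chart R s') (n.comap fβ)) ∧
    (∀ r : R, algebraMap K ↥(modularFunctionFieldFullC K (M' * q)) (algebraMap R K r) ∈
      sf79_loc (pk15_chart R s') (n.comap fα)) ∧
    (∀ r : R, algebraMap K ↥(modularFunctionFieldFullC K (M' * q)) (algebraMap R K r) ∈
      sf79_loc (pk15_chart R s') (n.comap fβ)) ∧
    (∀ eps : ↥(modularFunctionFieldFullC K (M' * q * q)), eps ≠ 0 → eps ∈ sf79_loc B n →
      eps⁻¹ ∈ sf79_loc B n →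
      (s35i62_normA K (M' * q) q eps)⁻¹ ∈ sf79_loc (pk15_chart R s') (n.comap fα) ∧
      (s35i62_normB K (M' * q) q eps)⁻¹ ∈ sf79_loc (pk15_chart R s') (n.comap fβ)) := by
  obtain ⟨hall, ⟨hαi, hα0⟩, ⟨hβi, hβ0⟩, huα, huβ⟩ :=
    pbi81_triple M' q hq hM' hπ hqR s' B fα hfα hfαi fβ hfβ hfβi hB'Vi hB'V0 V₂ hα₂ hβ₂ hπ₂
      hBV₁ hBV₂ hBV₃ n htwo
  obtain ⟨cα1, cα2, cα3⟩ :=
    pbi81_chart_fields (al97L_alpha K (M' * q) q).toRingHom s' B fα hfα hfαi
  obtain ⟨cβ1, cβ2, cβ3⟩ :=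
    pbi81_chart_fields (al97L_beta K (M' * q) q).toRingHom s' B fβ hfβ hfβi
  have eα : bk63_res (al97L_alpha K (M' * q) q).toRingHom (pk15_chart R s') B cα1 = fα :=
    RingHom.ext fun x => Subtype.ext (by rw [bk63_res_coe]; exact (hfα x).symm)
  have eβ : bk63_res (al97L_beta K (M' * q) q).toRingHom (pk15_chart R s') B cβ1 = fβ :=
    RingHom.ext fun x => Subtype.ext (by rw [bk63_res_coe]; exact (hfβ x).symm)
  subst eα
  subst eβ
  have hB'n : ∀ t : ↥(modularFunctionFieldFullC K (M' * q)),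
      (algebraMap ↥(pk15_chart R s') ↥(modularFunctionFieldFullC K (M' * q))).IsIntegralElem t →
        t ∈ pk15_chart R s' := fun t ht => pbi81_chart_closed s' t ht
  have hVi : ∀ x ∈ (cm85_Vinf (K := K) (M' * q) hπ).toSubring,
      (algebraMap R ↥(modularFunctionFieldFullC K (M' * q)) π)⁻¹ * x ∉
        (cm85_Vinf (K := K) (M' * q) hπ).toSubring →
      x⁻¹ ∈ (cm85_Vinf (K := K) (M' * q) hπ).toSubring := by
    intro x hx hx'
    by_contra hxi
    apply hx'
    rw [IsScalarTower.algebraMap_apply R K ↥(modularFunctionFieldFullC K (M' * q))]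
    exact gv85_hmax (IsLocalRing.residue R) π (pk85_res_iff hπ) hπ.ne_zero _
      (pk85_HF K (M' * q) hπ) x hx hxi
  have hV0 : ∀ x ∈ (s34i47c_V0 (K := K) M' q hq hM' hπ).toSubring,
      (algebraMap R ↥(modularFunctionFieldFullC K (M' * q)) π)⁻¹ * x ∉
        (s34i47c_V0 (K := K) M' q hq hM' hπ).toSubring →
      x⁻¹ ∈ (s34i47c_V0 (K := K) M' q hq hM' hπ).toSubring := by
    intro x hx hx'
    by_contra hxi
    apply hx'
    rw [IsScalarTower.algebraMap_apply R K ↥(modularFunctionFieldFullC K (M' * q))]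
    exact (obi72_V0_dvr (K := K) M' q hq hM' hπ).hmax x hx hxi
  have hconst : ∀ (n' : Ideal ↥(pk15_chart R s')) [n'.IsPrime] (r : R),
      algebraMap K ↥(modularFunctionFieldFullC K (M' * q)) (algebraMap R K r) ∈
        sf79_loc (pk15_chart R s') n' := by
    intro n' _ r
    rw [← IsScalarTower.algebraMap_apply R K ↥(modularFunctionFieldFullC K (M' * q))]
    exact sf79_le_loc _ n' _ ((pk15_chart R s').algebraMap_mem r)
  refine ⟨hall, ?_, ?_, ?_, ?_, ?_, ?_, ?_, ?_, ?_, ?_, ?_⟩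
  · exact fun x hx => to63_hAB _ _ B cα1 n x hx
  · exact fun x hx => sf79_loc_le π (pk15_chart R s') _ hB'Vi hVi _ hαi hx
  · exact fun x hx hinv => to63_hloc _ _ B cα1 n x hx hinv
  · exact fun x hx => to63_hAB _ _ B cβ1 n x hx
  · exact fun x hx => sf79_loc_le π (pk15_chart R s') _ hB'V0 hV0 _ hβ0 hx
  · exact fun x hx hinv => to63_hloc _ _ B cβ1 n x hx hinv
  · exact fun x hx => to63_root (pk15_chart R s') hB'n _ m hm x hx
  · exact fun x hx => to63_root (pk15_chart R s') hB'n _ m hm x hx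
  · exact fun r => hconst _ r
  · exact fun r => hconst _ r
  · intro eps heps0 _ hepsi
    constructor
    · refine to63_norm_unit _ (pk15_chart R s') B cα1 cα2 n huα (s35i62_normA K (M' * q) q)
        (@Module.finrank ↥(modularFunctionFieldFullC K (M' * q))
          ↥(modularFunctionFieldFullC K (M' * q * q)) _ _
          (algebraAlong (al97L_alpha K (M' * q) q)).toModule) cα3 ?_ eps heps0 hepsi
      intro s0 _
      letI := algebraAlong (al97L_alpha K (M' * q) q)
      exact Algebra.norm_algebraMap (S := ↥(modularFunctionFieldFullC K (M' * q * q))) s0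
    · refine to63_norm_unit _ (pk15_chart R s') B cβ1 cβ2 n huβ (s35i62_normB K (M' * q) q)
        (@Module.finrank ↥(modularFunctionFieldFullC K (M' * q))
          ↥(modularFunctionFieldFullC K (M' * q * q)) _ _
          (algebraAlong (al97L_beta K (M' * q) q)).toModule) cβ3 ?_ eps heps0 hepsi
      intro s0 _
      letI := algebraAlong (al97L_beta K (M' * q) q)
      exact Algebra.norm_algebraMap (S := ↥(modularFunctionFieldFullC K (M' * q * q))) s0

end canonical

end Fermat.Agent.S36
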