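import Mathlib
import Fermat.Agent.S36.HPSplit62
import Fermat.Agent.S36.HP3Canon28
import Fermat.Agent.S36.TripleNode81
import Fermat.Agent.S36.TripleLiftLoc3
import Fermat.Agent.S36.RegNodes13
import Fermat.Agent.S34.BetaChart95

/-!
# S36 lab (helper62, architect): (HP-3) on the canonical frame — CLOSED

`cp57_HP3` on both charts of `pk85_h2` / `pk85_h3` at level `M' * q * q` for the canonical frame,
with NO open hypothesis:

* `s36i62k_pair`   : a pair of charts `(pk15_chart R s', pk15_chart R s)` with chart maps `fα`,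
  `fβ`: `hp3c28_core` (helper28) with the `∃ Aal Abe` block built from `tn81_node` (helper81: all
  clauses but the four residue lifts) and `tll3_of_lifts` (helper3: the four residue lifts);
* `s36i62k_charts` : both charts of a Hauptmodul `h = α h'` (`bc95_alpha` for `fα`);
* `s36i62k_level2`, `s36i62k_level3` : the literal charts (`bc95_beta_level2/3` for `fβ`,
  `tl3_lifts_level2/3`, (REG-q) = `rg13_regNodes_level2/3` (helper13), `fb85_frameV3_level2/3`,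
  `sm7_three_smooth_sq_level2/3`), `V₂` any valuation subring with the four facts;
* **`s36i62k_HP3c2 : s36i62g_HP3c2`, `s36i62k_HP3c3 : s36i62g_HP3c3`** (`V₂ = v2g64_V2`);
* `s36i62k_top : s36i62j_Reg2 → s36i62j_Reg3 → (frozen S36)` is in `TopReg62` (next file).

All names are prefixed `s36i62k_`.
-/

set_option autoImplicit false
set_option linter.unusedSectionVars false
set_option linter.unusedVariables false
set_option linter.style.haveILetI false
set_option linter.style.longLine false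

open ModularCurve AlgebraicCurve CongruenceSubgroup Polynomial

namespace Fermat.Agent.S36

open Fermat.Agent.S34 Fermat.Agent.S18 Fermat.Agent.S24 Fermat.Agent.S35
open Fermat.Agent.S36.TripleLoc71

local notation "Q̄" => AlgebraicClosure ℚ

section HP3K

variable {R K : Type} [CommRing R] [IsDomain R] [IsDiscreteValuationRing R] [Field K]
  [NumberField K] [Algebra R K] [IsFractionRing R K] [Algebra K Q̄] [Algebra.IsAlgebraic K Q̄]
  (M' q : ℕ) [NeZero M'] [NeZero q] (hq : q.Prime) (hM' : ¬ q ∣ M')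
  {π : R} (hπ : Irreducible π)
  [Algebra R ↥(modularFunctionFieldFullC K M')]
  [IsScalarTower R K ↥(modularFunctionFieldFullC K M')]
  [Algebra R ↥(modularFunctionFieldFullC K (M' * q))]
  [IsScalarTower R K ↥(modularFunctionFieldFullC K (M' * q))]
  [Algebra R ↥(modularFunctionFieldFullC K (M' * q * q))]
  [IsScalarTower R K ↥(modularFunctionFieldFullC K (M' * q * q))]

include hq hM' in
/-- **(HP-3) for a pair of charts** `(pk15_chart R s', pk15_chart R s)` of levels `M' q`,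
`M' q q` with chart maps `fα`, `fβ`, the frame facts, (REG) on the lower chart and the four
chart-level residue lifts. -/
theorem s36i62k_pair (hqR : ¬ IsUnit (q : R))
    (V₂ : ValuationSubring ↥(modularFunctionFieldFullC K (M' * q * q)))
    (hV₂ : ∀ c ∈ cm85_Vinf (K := K) (M' * q) hπ, al97L_alpha K (M' * q) q c ∈ V₂)
    (hπ₂ : (algebraMap K ↥(modularFunctionFieldFullC K (M' * q * q)) (algebraMap R K π))⁻¹ ∉ V₂)
    (hne : cm85_Vinf (K := K) (M' * q * q) hπ ≠ V₂)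
    (hs : V₂.valuation (v2g64_s K M' q) ^ (q - 1) =
      V₂.valuation (algebraMap K ↥(modularFunctionFieldFullC K (M' * q * q)) (algebraMap R K π)))
    (s' : Set ↥(modularFunctionFieldFullC K (M' * q)))
    (s : Set ↥(modularFunctionFieldFullC K (M' * q * q))) [IsNoetherianRing ↥(pk15_chart R s)]
    (hαB : ∀ x ∈ pk15_chart R s', al97L_alpha K (M' * q) q x ∈ pk15_chart R s)
    (hβB : ∀ x ∈ pk15_chart R s', al97L_beta K (M' * q) q x ∈ pk15_chart R s)
    (hB'W : ∀ x ∈ pk15_chart R s', x ∈ s34i47c_W (K := K) M' q hq hM' hπ)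
    (hBW : ∀ x ∈ pk15_chart R s, x ∈ (cm85_Vinf (K := K) (M' * q * q) hπ).toSubring ⊓ V₂.toSubring ⊓
      (nsb86_V3 (K := K) M' q hq hM' hπ).toSubring)
    (hsatW : ∀ x ∈ pk15_chart R s, (algebraMap R ↥(modularFunctionFieldFullC K (M' * q * q)) π)⁻¹ * x ∈
        (cm85_Vinf (K := K) (M' * q * q) hπ).toSubring ⊓ V₂.toSubring ⊓ (nsb86_V3 (K := K) M' q hq hM' hπ).toSubring →
      (algebraMap R ↥(modularFunctionFieldFullC K (M' * q * q)) π)⁻¹ * x ∈ pk15_chart R s)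
    (hS₁ : sf79_Smooth π (pk15_chart R s) (cm85_Vinf (K := K) (M' * q * q) hπ).toSubring)
    (hS₂ : tl71_MidSmooth π (v2g64_s K M' q) (pk15_chart R s) V₂.toSubring)
    (hS₃ : sf79_Smooth π (pk15_chart R s) (nsb86_V3 (K := K) M' q hq hM' hπ).toSubring)
    (hfrac : ∀ t : ↥(modularFunctionFieldFullC K (M' * q * q)), ∃ a ∈ pk15_chart R s, ∃ b ∈ pk15_chart R s, b ≠ 0 ∧ t * b = a)
    (hKr : s34i47_Krull π (pk15_chart R s))
    (m : ℕ) (hm : 0 < m)
    (hmB : ∃ μ ∈ pk15_chart R s, (m : ↥(modularFunctionFieldFullC K (M' * q * q))) * μ = 1)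
    (fα : ↥(pk15_chart R s') →+* ↥(pk15_chart R s))
    (hfα : ∀ x, ((fα x : ↥(pk15_chart R s)) : ↥(modularFunctionFieldFullC K (M' * q * q))) =
      al97L_alpha K (M' * q) q (x : ↥(modularFunctionFieldFullC K (M' * q))))
    (hfαi : fα.IsIntegral)
    (fβ : ↥(pk15_chart R s') →+* ↥(pk15_chart R s))
    (hfβ : ∀ x, ((fβ x : ↥(pk15_chart R s)) : ↥(modularFunctionFieldFullC K (M' * q * q))) =
      al97L_beta K (M' * q) q (x : ↥(modularFunctionFieldFullC K (M' * q))))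
    (hfβi : fβ.IsIntegral)
    (hreg : tf71_RegNodes (K := K) M' q hq hM' hπ (pk15_chart R s'))
    (hL : tl3_Lifts (K := K) M' q hq hM' hπ V₂ s' s) :
    cp57_HP3 (K := K) π q m (pk15_chart R s) (al97L_alpha K (M' * q) q).toRingHom
      (al97L_beta K (M' * q) q).toRingHom (s35i62_normA K (M' * q) q)
      (s35i62_normB K (M' * q) q) (cm85_Vinf (K := K) (M' * q * q) hπ) V₂
      (nsb86_V3 (K := K) M' q hq hM' hπ) (cm85_Vinf (K := K) (M' * q) hπ)
      (s34i47c_V0 (K := K) M' q hq hM' hπ) := by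
  have e : algebraMap R ↥(modularFunctionFieldFullC K (M' * q * q)) π = (algebraMap K ↥(modularFunctionFieldFullC K (M' * q * q)) (algebraMap R K π)) :=
    IsScalarTower.algebraMap_apply R K _ π
  have hπ₂' : (algebraMap R ↥(modularFunctionFieldFullC K (M' * q * q)) π)⁻¹ ∉ V₂ := by
    rw [e]
    exact hπ₂
  have hL' := nsb86_hL K (M' * q * q)
  have hβ₂ : ∀ x ∈ s34i47c_V0 (K := K) M' q hq hM' hπ, al97L_beta K (M' * q) q x ∈ V₂ :=
    fun c hc => (bv66_beta_mem_V2 (K := K) M' q hq hM' hπ hqR hL' V₂ hV₂ hπ₂ hne c).mpr hc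
  have hB₁ : ∀ x ∈ pk15_chart R s, x ∈ cm85_Vinf (K := K) (M' * q * q) hπ := fun x hx =>
    (Subring.mem_inf.mp (Subring.mem_inf.mp (hBW x hx)).1).1
  have hB₂ : ∀ x ∈ pk15_chart R s, x ∈ V₂ := fun x hx =>
    (Subring.mem_inf.mp (Subring.mem_inf.mp (hBW x hx)).1).2
  have hB₃ : ∀ x ∈ pk15_chart R s, x ∈ nsb86_V3 (K := K) M' q hq hM' hπ := fun x hx =>
    (Subring.mem_inf.mp (hBW x hx)).2
  have hrad := fc73_rad (K := K) M' q hq hM' hπ hqR V₂ hV₂ hπ₂ hne hs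
  have hB'Vi : ∀ x ∈ pk15_chart R s', x ∈ cm85_Vinf (K := K) (M' * q) hπ := fun x hx =>
    ((s34i47c_mem_W (K := K) M' q hq hM' hπ x).mp (hB'W x hx)).1
  have hB'V0 : ∀ x ∈ pk15_chart R s', x ∈ s34i47c_V0 (K := K) M' q hq hM' hπ := fun x hx =>
    ((s34i47c_mem_W (K := K) M' q hq hM' hπ x).mp (hB'W x hx)).2
  refine hp3c28_core (K := K) M' q hq hM' hπ hqR V₂ hV₂ hπ₂ hne hs s' (pk15_chart R s) hαB hβB
    hB'W hBW hsatW hS₁ hS₂ hS₃ hfrac hKr m hm hmB fα hfα hfαi fβ hfβ hfβi hreg ?_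
  intro n hn hπn hnot
  haveI : n.IsPrime := hn.isPrime
  have htwo : (sf79_OnBr π (pk15_chart R s) (cm85_Vinf (K := K) (M' * q * q) hπ).toSubring n ∧
        sf79_OnBr π (pk15_chart R s) V₂.toSubring n) ∨
      (sf79_OnBr π (pk15_chart R s) (cm85_Vinf (K := K) (M' * q * q) hπ).toSubring n ∧
        sf79_OnBr π (pk15_chart R s) (nsb86_V3 M' q hq hM' hπ).toSubring n) ∨
      (sf79_OnBr π (pk15_chart R s) V₂.toSubring n ∧
        sf79_OnBr π (pk15_chart R s) (nsb86_V3 M' q hq hM' hπ).toSubring n) := by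
    by_contra hcon
    exact hnot ⟨fun a => hcon (Or.inl a), fun a => hcon (Or.inr (Or.inl a)),
      fun a => hcon (Or.inr (Or.inr a))⟩
  obtain ⟨⟨hOn1, hOn2, hOn3⟩, c2, c3, c4, c5, c6, c7, c8, c9, c10, c11, c12⟩ :=
    tn81_node (K := K) M' q hq hM' hπ hqR s' (pk15_chart R s) fα hfα hfαi fβ hfβ hfβi hB'Vi hB'V0
      V₂ hV₂ hβ₂ hπ₂' hB₁ hB₂ hB₃ n htwo m hm
  obtain ⟨o1, o2, o3, o4⟩ := tll3_of_lifts (K := K) M' q hq hM' hπ V₂ s' s hL fα hfα fβ hfβ
    hB₁ hB₂ hB₃ (hrad 0) (hrad 1) (hrad 2) n hOn1 hOn2 hOn3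
  exact ⟨sf79_loc (pk15_chart R s') (n.comap fα), sf79_loc (pk15_chart R s') (n.comap fβ),
    c2, c3, c4, o1, o2, c5, c6, c7, o3, o4, c8, c9, c10, c11, c12⟩

include hq hM' in
/-- **(HP-3) on both charts of a Hauptmodul `h = α h'`** of the canonical frame. -/
theorem s36i62k_charts (hunit : ∀ n : ℕ, Nat.Coprime n q → IsUnit (n : R))
    (hqR : ¬ IsUnit (q : R))
    (V₂ : ValuationSubring ↥(modularFunctionFieldFullC K (M' * q * q)))
    (hV₂ : ∀ c ∈ cm85_Vinf (K := K) (M' * q) hπ, al97L_alpha K (M' * q) q c ∈ V₂)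
    (hπ₂ : (algebraMap K ↥(modularFunctionFieldFullC K (M' * q * q)) (algebraMap R K π))⁻¹ ∉ V₂)
    (hne : cm85_Vinf (K := K) (M' * q * q) hπ ≠ V₂)
    (hs : V₂.valuation (v2g64_s K M' q) ^ (q - 1) =
      V₂.valuation (algebraMap K ↥(modularFunctionFieldFullC K (M' * q * q)) (algebraMap R K π)))
    (h' : ↥(modularFunctionFieldFullC K (M' * q))) (hh' : s34i47c_IsHaupt K (M' * q) q h')
    (h : ↥(modularFunctionFieldFullC K (M' * q * q))) (hαh : al97L_alpha K (M' * q) q h' = h)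
    (hC : s34i47_ChartProps K π ((cm85_Vinf (K := K) (M' * q * q) hπ).toSubring ⊓ V₂.toSubring ⊓
      (nsb86_V3 (K := K) M' q hq hM' hπ).toSubring) h)
    (hsm₁ : (sf79_Smooth π (pk15_chart R ({h} : Set ↥(modularFunctionFieldFullC K (M' * q * q)))) (cm85_Vinf (K := K) (M' * q * q) hπ).toSubring ∧
      tl71_MidSmooth π (v2g64_s K M' q) (pk15_chart R ({h} : Set ↥(modularFunctionFieldFullC K (M' * q * q)))) V₂.toSubring ∧
      sf79_Smooth π (pk15_chart R ({h} : Set ↥(modularFunctionFieldFullC K (M' * q * q)))) (nsb86_V3 (K := K) M' q hq hM' hπ).toSubring))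
    (hsm₂ : (sf79_Smooth π (pk15_chart R ({h⁻¹} : Set ↥(modularFunctionFieldFullC K (M' * q * q)))) (cm85_Vinf (K := K) (M' * q * q) hπ).toSubring ∧
      tl71_MidSmooth π (v2g64_s K M' q) (pk15_chart R ({h⁻¹} : Set ↥(modularFunctionFieldFullC K (M' * q * q)))) V₂.toSubring ∧
      sf79_Smooth π (pk15_chart R ({h⁻¹} : Set ↥(modularFunctionFieldFullC K (M' * q * q)))) (nsb86_V3 (K := K) M' q hq hM' hπ).toSubring))
    (m : ℕ) (hm0 : 0 < m) (hm : IsUnit (m : R))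
    (hβ₁ : (∃ f : ↥(pk15_chart R ({h'} : Set ↥(modularFunctionFieldFullC K (M' * q)))) →+* ↥(pk15_chart R ({h} : Set ↥(modularFunctionFieldFullC K (M' * q * q)))),
      (∀ x : ↥(pk15_chart R ({h'} : Set ↥(modularFunctionFieldFullC K (M' * q)))), ((f x : ↥(pk15_chart R ({h} : Set ↥(modularFunctionFieldFullC K (M' * q * q))))) : ↥(modularFunctionFieldFullC K (M' * q * q))) =
        al97L_beta K (M' * q) q (x : ↥(modularFunctionFieldFullC K (M' * q)))) ∧ f.IsIntegral))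
    (hβ₂ : (∃ f : ↥(pk15_chart R ({h'⁻¹} : Set ↥(modularFunctionFieldFullC K (M' * q)))) →+* ↥(pk15_chart R ({h⁻¹} : Set ↥(modularFunctionFieldFullC K (M' * q * q)))),
      (∀ x : ↥(pk15_chart R ({h'⁻¹} : Set ↥(modularFunctionFieldFullC K (M' * q)))), ((f x : ↥(pk15_chart R ({h⁻¹} : Set ↥(modularFunctionFieldFullC K (M' * q * q))))) : ↥(modularFunctionFieldFullC K (M' * q * q))) =
        al97L_beta K (M' * q) q (x : ↥(modularFunctionFieldFullC K (M' * q)))) ∧ f.IsIntegral))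
    (hreg₁ : tf71_RegNodes (K := K) M' q hq hM' hπ (pk15_chart R ({h'} : Set ↥(modularFunctionFieldFullC K (M' * q)))))
    (hreg₂ : tf71_RegNodes (K := K) M' q hq hM' hπ (pk15_chart R ({h'⁻¹} : Set ↥(modularFunctionFieldFullC K (M' * q)))))
    (hL₁ : tl3_Lifts (K := K) M' q hq hM' hπ V₂ {h'} {h})
    (hL₂ : tl3_Lifts (K := K) M' q hq hM' hπ V₂ {h'⁻¹} {h⁻¹}) :
    cp57_HP3 (K := K) π q m (pk15_chart R ({h} : Set ↥(modularFunctionFieldFullC K (M' * q * q)))) (al97L_alpha K (M' * q) q).toRingHom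
      (al97L_beta K (M' * q) q).toRingHom (s35i62_normA K (M' * q) q)
      (s35i62_normB K (M' * q) q) (cm85_Vinf (K := K) (M' * q * q) hπ) V₂
      (nsb86_V3 (K := K) M' q hq hM' hπ) (cm85_Vinf (K := K) (M' * q) hπ)
      (s34i47c_V0 (K := K) M' q hq hM' hπ) ∧
    cp57_HP3 (K := K) π q m (pk15_chart R ({h⁻¹} : Set ↥(modularFunctionFieldFullC K (M' * q * q)))) (al97L_alpha K (M' * q) q).toRingHom
      (al97L_beta K (M' * q) q).toRingHom (s35i62_normA K (M' * q) q)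
      (s35i62_normB K (M' * q) q) (cm85_Vinf (K := K) (M' * q * q) hπ) V₂
      (nsb86_V3 (K := K) M' q hq hM' hπ) (cm85_Vinf (K := K) (M' * q) hπ)
      (s34i47c_V0 (K := K) M' q hq hM' hπ) := by
  obtain ⟨hα1, hα2⟩ := cm71_alpha_charts (R := R) (K := K) (M' * q) q h'
  obtain ⟨hβ1, hβ2'⟩ := cm71_beta_charts (R := R) (K := K) (M' * q) q hq hunit h' hh'
  rw [hαh] at hα1 hα2 hβ1 hβ2'
  obtain ⟨⟨hBW₁, -⟩, ⟨hBW₂, -⟩⟩ := nf79c_chart_facts (K := K) M' q hq hM' hπ hunit hqR h' hh'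
  obtain ⟨htr, h12W, hsat1, hsat2, -, hN₁, hN₂, hfin, hfrac⟩ := hC
  have hh0 : h ≠ 0 := by
    rintro rfl
    exact htr isAlgebraic_zero
  have hfrac₂ := ca57_frac_inv (R := R) h hh0 hfrac
  obtain ⟨hKr₁, hKr₂⟩ := kr65_Pkg_Krull R K ↥(modularFunctionFieldFullC K (M' * q * q)) π hπ h htr
    hN₁ hN₂ hfin hfrac
  obtain ⟨μ, hμ⟩ := hm.exists_right_inv
  have hmB : ∀ B : Subalgebra R ↥(modularFunctionFieldFullC K (M' * q * q)),
      ∃ μ' ∈ B, (m : ↥(modularFunctionFieldFullC K (M' * q * q))) * μ' = 1 := by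
    intro B
    refine ⟨algebraMap R ↥(modularFunctionFieldFullC K (M' * q * q)) μ, B.algebraMap_mem μ, ?_⟩
    have e : (m : ↥(modularFunctionFieldFullC K (M' * q * q))) =
        algebraMap R ↥(modularFunctionFieldFullC K (M' * q * q)) (m : R) := by simp
    rw [e, ← map_mul, hμ, map_one]
  have hsub1 : ({h} : Set ↥(modularFunctionFieldFullC K (M' * q * q))) ⊆ {h, h⁻¹} := by
    intro x hx
    rw [Set.mem_singleton_iff.mp hx]
    exact Set.mem_insert _ _
  have hsub2 : ({h⁻¹} : Set ↥(modularFunctionFieldFullC K (M' * q * q))) ⊆ {h, h⁻¹} := by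
    intro x hx
    rw [Set.mem_singleton_iff.mp hx]
    exact Set.mem_insert_of_mem _ rfl
  obtain ⟨a1, a2, a3⟩ := hsm₁
  obtain ⟨b1, b2, b3⟩ := hsm₂
  obtain ⟨⟨fα₁, hfα₁, hfα₁i⟩, ⟨fα₂, hfα₂, hfα₂i⟩⟩ := bc95_alpha (R := R) (K := K) (M' * q) q h' h hαh
  obtain ⟨fβ₁, hfβ₁, hfβ₁i⟩ := hβ₁
  obtain ⟨fβ₂, hfβ₂, hfβ₂i⟩ := hβ₂
  constructor
  · haveI := hN₁
    exact s36i62k_pair (K := K) M' q hq hM' hπ hqR V₂ hV₂ hπ₂ hne hs {h'} {h} hα1 hβ1 hBW₁
      (fun x hx => h12W x (pk15_chart_mono hsub1 hx)) hsat1 a1 a2 a3 hfrac hKr₁ m hm0 (hmB _)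
      fα₁ hfα₁ hfα₁i fβ₁ hfβ₁ hfβ₁i hreg₁ hL₁
  · haveI := hN₂
    exact s36i62k_pair (K := K) M' q hq hM' hπ hqR V₂ hV₂ hπ₂ hne hs {h'⁻¹} {h⁻¹} hα2 hβ2' hBW₂
      (fun x hx => h12W x (pk15_chart_mono hsub2 hx)) hsat2 b1 b2 b3 hfrac₂ hKr₂ m hm0 (hmB _)
      fα₂ hfα₂ hfα₂i fβ₂ hfβ₂ hfβ₂i hreg₂ hL₂

include hq hM' in
/-- **(HP-3) on the canonical frame, Hauptmodul of level 2**: both affine charts, NO open
hypothesis (`V₂` ANY valuation subring with the four facts of row B1-V2; rigid level). -/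
theorem s36i62k_level2 (hunit : ∀ n : ℕ, Nat.Coprime n q → IsUnit (n : R))
    (hqR : ¬ IsUnit (q : R)) (hqπ : Associated ((q : ℕ) : R) π)
    (hν3 : nuThree M' = 0) (hν2 : nuTwo M' = 0) (h2 : 2 ∣ M')
    (V₂ : ValuationSubring ↥(modularFunctionFieldFullC K (M' * q * q)))
    (hV₂ : ∀ c ∈ cm85_Vinf (K := K) (M' * q) hπ, al97L_alpha K (M' * q) q c ∈ V₂)
    (hπ₂ : (algebraMap K ↥(modularFunctionFieldFullC K (M' * q * q)) (algebraMap R K π))⁻¹ ∉ V₂)
    (hne : cm85_Vinf (K := K) (M' * q * q) hπ ≠ V₂)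
    (hs : V₂.valuation (v2g64_s K M' q) ^ (q - 1) =
      V₂.valuation (algebraMap K ↥(modularFunctionFieldFullC K (M' * q * q)) (algebraMap R K π)))
    (m : ℕ) (hm0 : 0 < m) (hm : IsUnit (m : R)) :
    cp57_HP3 (K := K) π q m (pk15_chart R ({pk85_h2 K (M' * q * q) (h2.trans ((dvd_mul_right M' q).trans (dvd_mul_right (M' * q) q)))} : Set ↥(modularFunctionFieldFullC K (M' * q * q)))) (al97L_alpha K (M' * q) q).toRingHom
      (al97L_beta K (M' * q) q).toRingHom (s35i62_normA K (M' * q) q)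
      (s35i62_normB K (M' * q) q) (cm85_Vinf (K := K) (M' * q * q) hπ) V₂
      (nsb86_V3 (K := K) M' q hq hM' hπ) (cm85_Vinf (K := K) (M' * q) hπ)
      (s34i47c_V0 (K := K) M' q hq hM' hπ) ∧
    cp57_HP3 (K := K) π q m (pk15_chart R ({(pk85_h2 K (M' * q * q) (h2.trans ((dvd_mul_right M' q).trans (dvd_mul_right (M' * q) q))))⁻¹} : Set ↥(modularFunctionFieldFullC K (M' * q * q)))) (al97L_alpha K (M' * q) q).toRingHom
      (al97L_beta K (M' * q) q).toRingHom (s35i62_normA K (M' * q) q)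
      (s35i62_normB K (M' * q) q) (cm85_Vinf (K := K) (M' * q * q) hπ) V₂
      (nsb86_V3 (K := K) M' q hq hM' hπ) (cm85_Vinf (K := K) (M' * q) hπ)
      (s34i47c_V0 (K := K) M' q hq hM' hπ) := by
  have hMu : IsUnit (M' : R) :=
    hunit M' (Nat.Coprime.symm ((Nat.Prime.coprime_iff_not_dvd hq).mpr hM'))
  have hqp : q ≠ 2 := by
    intro h
    apply hM'
    rw [h]
    exact h2
  have hpu : IsUnit ((2 : ℕ) : R) :=
    hunit 2 ((Nat.coprime_primes Nat.prime_two hq).mpr (Ne.symm hqp))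
  have hpu' : IsUnit (2 : R) := by
    simpa using hpu
  have hh' : s34i47c_IsHaupt K (M' * q) q (pk85_h2 K (M' * q) (h2.trans (dvd_mul_right M' q))) :=
    Or.inl ⟨hqp, (h2.trans (dvd_mul_right M' q)), rfl⟩
  have hαh : al97L_alpha K (M' * q) q (pk85_h2 K (M' * q) (h2.trans (dvd_mul_right M' q))) =
      pk85_h2 K (M' * q * q) (h2.trans ((dvd_mul_right M' q).trans (dvd_mul_right (M' * q) q))) :=
    Subtype.ext (by rw [al97L_alpha_coe, pk85_h2_coe, pk85_h2_coe])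
  obtain ⟨-, hC, -⟩ := fb85_frameV3_level2 M' q hq hM' hπ hqR hMu h2 V₂ hV₂ hπ₂ hs
  have e : algebraMap R ↥(modularFunctionFieldFullC K (M' * q * q)) π = (algebraMap K ↥(modularFunctionFieldFullC K (M' * q * q)) (algebraMap R K π)) :=
    IsScalarTower.algebraMap_apply R K _ π
  have hπ₂' : (algebraMap R ↥(modularFunctionFieldFullC K (M' * q * q)) π)⁻¹ ∉ V₂ := by
    rw [e]
    exact hπ₂
  have hs' : V₂.valuation (v2g64_s K M' q) ^ (q - 1) =
      V₂.valuation (algebraMap R ↥(modularFunctionFieldFullC K (M' * q * q)) π) := by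
    rw [e]
    exact hs
  obtain ⟨hsm₁, hsm₂⟩ := sm7_three_smooth_sq_level2 (R := R) (K := K) M' q hq hM'
    hπ hqR h2 hMu V₂ hV₂ hπ₂' hne (v2g64_s K M' q) hs'
  obtain ⟨hβ₁, hβ₂⟩ := bc95_beta_level2 (R := R) (K := K) (M' * q) q hq hqp hpu'
    (h2.trans (dvd_mul_right M' q)) (pk85_h2 K (M' * q) (h2.trans (dvd_mul_right M' q)))
    (pk85_h2 K (M' * q * q) (h2.trans ((dvd_mul_right M' q).trans (dvd_mul_right (M' * q) q))))
    (pk85_h2_coe K (M' * q) _) (pk85_h2_coe K (M' * q * q) _)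
  obtain ⟨hreg₁, hreg₂⟩ := rg13_regNodes_level2 (K := K) M' q hq hM' hπ hunit hqπ hν3 hν2 h2
  obtain ⟨hL₁, hL₂⟩ := tl3_lifts_level2 (K := K) M' q hq hM' hπ hqR hunit h2 V₂ hV₂ hπ₂ hne hs
  exact s36i62k_charts (K := K) M' q hq hM' hπ hunit hqR V₂ hV₂ hπ₂ hne hs _ hh' _ hαh hC
    hsm₁ hsm₂ m hm0 hm hβ₁ hβ₂ hreg₁ hreg₂ hL₁ hL₂

include hq hM' in
/-- **(HP-3) on the canonical frame, Hauptmodul of level 3**: both affine charts, NO open
hypothesis (`V₂` ANY valuation subring with the four facts of row B1-V2; rigid level). -/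
theorem s36i62k_level3 (hunit : ∀ n : ℕ, Nat.Coprime n q → IsUnit (n : R))
    (hqR : ¬ IsUnit (q : R)) (hqπ : Associated ((q : ℕ) : R) π)
    (hν3 : nuThree M' = 0) (hν2 : nuTwo M' = 0) (h3 : 3 ∣ M')
    (V₂ : ValuationSubring ↥(modularFunctionFieldFullC K (M' * q * q)))
    (hV₂ : ∀ c ∈ cm85_Vinf (K := K) (M' * q) hπ, al97L_alpha K (M' * q) q c ∈ V₂)
    (hπ₂ : (algebraMap K ↥(modularFunctionFieldFullC K (M' * q * q)) (algebraMap R K π))⁻¹ ∉ V₂)
    (hne : cm85_Vinf (K := K) (M' * q * q) hπ ≠ V₂)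
    (hs : V₂.valuation (v2g64_s K M' q) ^ (q - 1) =
      V₂.valuation (algebraMap K ↥(modularFunctionFieldFullC K (M' * q * q)) (algebraMap R K π)))
    (m : ℕ) (hm0 : 0 < m) (hm : IsUnit (m : R)) :
    cp57_HP3 (K := K) π q m (pk15_chart R ({pk85_h3 K (M' * q * q) (h3.trans ((dvd_mul_right M' q).trans (dvd_mul_right (M' * q) q)))} : Set ↥(modularFunctionFieldFullC K (M' * q * q)))) (al97L_alpha K (M' * q) q).toRingHom
      (al97L_beta K (M' * q) q).toRingHom (s35i62_normA K (M' * q) q)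
      (s35i62_normB K (M' * q) q) (cm85_Vinf (K := K) (M' * q * q) hπ) V₂
      (nsb86_V3 (K := K) M' q hq hM' hπ) (cm85_Vinf (K := K) (M' * q) hπ)
      (s34i47c_V0 (K := K) M' q hq hM' hπ) ∧
    cp57_HP3 (K := K) π q m (pk15_chart R ({(pk85_h3 K (M' * q * q) (h3.trans ((dvd_mul_right M' q).trans (dvd_mul_right (M' * q) q))))⁻¹} : Set ↥(modularFunctionFieldFullC K (M' * q * q)))) (al97L_alpha K (M' * q) q).toRingHom
      (al97L_beta K (M' * q) q).toRingHom (s35i62_normA K (M' * q) q)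
      (s35i62_normB K (M' * q) q) (cm85_Vinf (K := K) (M' * q * q) hπ) V₂
      (nsb86_V3 (K := K) M' q hq hM' hπ) (cm85_Vinf (K := K) (M' * q) hπ)
      (s34i47c_V0 (K := K) M' q hq hM' hπ) := by
  have hMu : IsUnit (M' : R) :=
    hunit M' (Nat.Coprime.symm ((Nat.Prime.coprime_iff_not_dvd hq).mpr hM'))
  have hqp : q ≠ 3 := by
    intro h
    apply hM'
    rw [h]
    exact h3
  have hpu : IsUnit ((3 : ℕ) : R) :=
    hunit 3 ((Nat.coprime_primes Nat.prime_three hq).mpr (Ne.symm hqp))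
  have hpu' : IsUnit (3 : R) := by
    simpa using hpu
  have hh' : s34i47c_IsHaupt K (M' * q) q (pk85_h3 K (M' * q) (h3.trans (dvd_mul_right M' q))) :=
    Or.inr ⟨hqp, (h3.trans (dvd_mul_right M' q)), rfl⟩
  have hαh : al97L_alpha K (M' * q) q (pk85_h3 K (M' * q) (h3.trans (dvd_mul_right M' q))) =
      pk85_h3 K (M' * q * q) (h3.trans ((dvd_mul_right M' q).trans (dvd_mul_right (M' * q) q))) :=
    Subtype.ext (by rw [al97L_alpha_coe, pk85_h3_coe, pk85_h3_coe])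
  obtain ⟨-, hC, -⟩ := fb85_frameV3_level3 M' q hq hM' hπ hqR hMu h3 V₂ hV₂ hπ₂ hs
  have e : algebraMap R ↥(modularFunctionFieldFullC K (M' * q * q)) π = (algebraMap K ↥(modularFunctionFieldFullC K (M' * q * q)) (algebraMap R K π)) :=
    IsScalarTower.algebraMap_apply R K _ π
  have hπ₂' : (algebraMap R ↥(modularFunctionFieldFullC K (M' * q * q)) π)⁻¹ ∉ V₂ := by
    rw [e]
    exact hπ₂
  have hs' : V₂.valuation (v2g64_s K M' q) ^ (q - 1) =
      V₂.valuation (algebraMap R ↥(modularFunctionFieldFullC K (M' * q * q)) π) := by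
    rw [e]
    exact hs
  obtain ⟨hsm₁, hsm₂⟩ := sm7_three_smooth_sq_level3 (R := R) (K := K) M' q hq hM'
    hπ hqR h3 hMu V₂ hV₂ hπ₂' hne (v2g64_s K M' q) hs'
  obtain ⟨hβ₁, hβ₂⟩ := bc95_beta_level3 (R := R) (K := K) (M' * q) q hq hqp hpu'
    (h3.trans (dvd_mul_right M' q)) (pk85_h3 K (M' * q) (h3.trans (dvd_mul_right M' q)))
    (pk85_h3 K (M' * q * q) (h3.trans ((dvd_mul_right M' q).trans (dvd_mul_right (M' * q) q))))
    (pk85_h3_coe K (M' * q) _) (pk85_h3_coe K (M' * q * q) _)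
  obtain ⟨hreg₁, hreg₂⟩ := rg13_regNodes_level3 (K := K) M' q hq hM' hπ hunit hqπ hν3 hν2 h3
  obtain ⟨hL₁, hL₂⟩ := tl3_lifts_level3 (K := K) M' q hq hM' hπ hqR hunit h3 V₂ hV₂ hπ₂ hne hs
  exact s36i62k_charts (K := K) M' q hq hM' hπ hunit hqR V₂ hV₂ hπ₂ hne hs _ hh' _ hαh hC
    hsm₁ hsm₂ m hm0 hm hβ₁ hβ₂ hreg₁ hreg₂ hL₁ hL₂

end HP3K

/-- **(HP-3), canonical, Hauptmodul of level 2: PROVED.** -/
theorem s36i62k_HP3c2 : s36i62g_HP3c2 := by
  intro M' q p r _ _ hq hM' hrig hp hpq h2 n R K _ _ _ _ _ _ _ _ _ _ hπ hunit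
  haveI : Algebra.IsAlgebraic K Q̄ := fs85_isAlgebraic K
  letI a0 : Algebra R ↥(modularFunctionFieldFullC K M') :=
    ((algebraMap K ↥(modularFunctionFieldFullC K M')).comp (algebraMap R K)).toAlgebra
  haveI t0 : IsScalarTower R K ↥(modularFunctionFieldFullC K M') :=
    IsScalarTower.of_algebraMap_eq (fun _ => rfl)
  letI a1 : Algebra R ↥(modularFunctionFieldFullC K (M' * q)) :=
    ((algebraMap K ↥(modularFunctionFieldFullC K (M' * q))).comp (algebraMap R K)).toAlgebra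
  haveI t1 : IsScalarTower R K ↥(modularFunctionFieldFullC K (M' * q)) :=
    IsScalarTower.of_algebraMap_eq (fun _ => rfl)
  have hqR : ¬ IsUnit ((q : ℕ) : R) := hπ.not_isUnit
  have hcop : Nat.Coprime (p ^ n) q :=
    Nat.Coprime.pow_left n ((Nat.coprime_primes hp hq).mpr hpq)
  obtain ⟨-, -, hr, hr12, hrq, hrN⟩ := hrig
  have hrM : r ∣ M' := by
    rcases (Nat.Prime.dvd_mul hr).mp hrN with h | h
    · exact h
    · exact absurd ((Nat.prime_dvd_prime_iff_eq hr hq).mp h) hrq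
  obtain ⟨hν2, hν3⟩ := ro27_rigid_of_eleven hr hr12 hrM
  exact s36i62k_level2 (K := K) M' q hq hM' hπ hunit hqR (Associated.refl _) hν3 hν2 h2
    (v2g64_V2 (algebraMap K Q̄) M' q hq hM' hπ (Associated.refl _))
    (v2g64_V2_alpha (algebraMap K Q̄) M' q hq hM' hπ (Associated.refl _))
    (v2g64_V2_pi (algebraMap K Q̄) M' q hq hM' hπ (Associated.refl _))
    (v2g64_V2_ne (algebraMap K Q̄) M' q hq hM' hπ (Associated.refl _))
    (v2g64_V2_val (algebraMap K Q̄) M' q hq hM' hπ (Associated.refl _))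
    (p ^ n) (pow_pos hp.pos n) (hunit (p ^ n) hcop)

/-- **(HP-3), canonical, Hauptmodul of level 3: PROVED.** -/
theorem s36i62k_HP3c3 : s36i62g_HP3c3 := by
  intro M' q p r _ _ hq hM' hrig hp hpq hq2 h3 n R K _ _ _ _ _ _ _ _ _ _ hπ hunit
  haveI : Algebra.IsAlgebraic K Q̄ := fs85_isAlgebraic K
  letI a0 : Algebra R ↥(modularFunctionFieldFullC K M') :=
    ((algebraMap K ↥(modularFunctionFieldFullC K M')).comp (algebraMap R K)).toAlgebra
  haveI t0 : IsScalarTower R K ↥(modularFunctionFieldFullC K M') :=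
    IsScalarTower.of_algebraMap_eq (fun _ => rfl)
  letI a1 : Algebra R ↥(modularFunctionFieldFullC K (M' * q)) :=
    ((algebraMap K ↥(modularFunctionFieldFullC K (M' * q))).comp (algebraMap R K)).toAlgebra
  haveI t1 : IsScalarTower R K ↥(modularFunctionFieldFullC K (M' * q)) :=
    IsScalarTower.of_algebraMap_eq (fun _ => rfl)
  have hqR : ¬ IsUnit ((q : ℕ) : R) := hπ.not_isUnit
  have hcop : Nat.Coprime (p ^ n) q :=
    Nat.Coprime.pow_left n ((Nat.coprime_primes hp hq).mpr hpq)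
  obtain ⟨-, -, hr, hr12, hrq, hrN⟩ := hrig
  have hrM : r ∣ M' := by
    rcases (Nat.Prime.dvd_mul hr).mp hrN with h | h
    · exact h
    · exact absurd ((Nat.prime_dvd_prime_iff_eq hr hq).mp h) hrq
  obtain ⟨hν2, hν3⟩ := ro27_rigid_of_eleven hr hr12 hrM
  exact s36i62k_level3 (K := K) M' q hq hM' hπ hunit hqR (Associated.refl _) hν3 hν2 h3
    (v2g64_V2 (algebraMap K Q̄) M' q hq hM' hπ (Associated.refl _))
    (v2g64_V2_alpha (algebraMap K Q̄) M' q hq hM' hπ (Associated.refl _))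
    (v2g64_V2_pi (algebraMap K Q̄) M' q hq hM' hπ (Associated.refl _))
    (v2g64_V2_ne (algebraMap K Q̄) M' q hq hM' hπ (Associated.refl _))
    (v2g64_V2_val (algebraMap K Q̄) M' q hq hM' hπ (Associated.refl _))
    (p ^ n) (pow_pos hp.pos n) (hunit (p ^ n) hcop)

end Fermat.Agent.S36
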