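import Mathlib
import Fermat.Agent.S36.MidBind62
import Fermat.Agent.S36.HP3Bind62

/-!
# S36 lab (helper62, architect): the frozen S36 from row 600 ALONE

Everything of the canonical chain is closed on main except the two statements of row 600
(`MidBind62`): `s36i62j_Reg2`, `s36i62j_Reg3` = the middle branch is principal
(`mc25_MidPrinAt`) at every closed point of the two canonical charts of level `M' * q * q` lying
on the middle branch only at which `j` is regular.

`s36i62m_top : s36i62j_Reg2 → s36i62j_Reg3 → (frozen S36)`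
(= `s36i62j_top` with (HP-3) `s36i62k_HP3c2`, `s36i62k_HP3c3` of `HP3Bind62`).
-/

set_option autoImplicit false
set_option linter.style.longLine false
set_option linter.unusedVariables false

open ModularCurve AlgebraicCurve CongruenceSubgroup Polynomial

namespace Fermat.Agent.S36

/-- **The frozen S36 from row 600 alone** (the `j`-regular `C₂`-only points of the canonical
charts of `pk85_h2`, and of `pk85_h3` when `q = 2`). -/
theorem s36i62m_top (hR2 : s36i62j_Reg2) (hR3 : s36i62j_Reg3)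
    {M : ℕ} [NeZero M] {g : CuspForm (CongruenceSubgroup.Gamma0 M) 2} (hg : g.IsNewform)
    (lam : ℕ) [Fact lam.Prime]
    (S : Finset ℕ)
    (O' : Type) [CommRing O'] [IsDomain O'] [IsDiscreteValuationRing O']
    [IsAdicComplete (IsLocalRing.maximalIdeal O') O'] [Finite (IsLocalRing.ResidueField O')]
    [CharZero O'] (hlamO' : (lam : O') ∈ IsLocalRing.maximalIdeal O')
    (chig : CuspForm.heckeAlgebra M 2 (↑S : Set ℕ) →+* ℂ)
    (hchig : ∀ (ℓ : ℕ) (hℓ : ℓ.Prime) (hℓM : ¬ ℓ ∣ M) (hℓS : ℓ ∉ (↑S : Set ℕ)),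
      chig (CuspForm.heckeAlgebra.T hℓ hℓM hℓS) = ModularFormClass.qCoeff g ℓ)
    (iota : chig.range →+* O')
    (hlamS : lam ∈ S) (hMS : ∀ q : ℕ, q.Prime → q ∣ M → q ∈ S) :
    ∃ (O'' : Type) (_ : CommRing O'') (_ : IsDomain O'') (_ : IsDiscreteValuationRing O'')
      (_ : IsAdicComplete (IsLocalRing.maximalIdeal O'') O'') (_ : Finite (IsLocalRing.ResidueField O''))
      (_ : CharZero O'') (_ : Algebra O' O'') (_ : Module.Finite O' O'') (_ : IsLocalHom (algebraMap O' O'')),
      Function.Injective (algebraMap O' O'') ∧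
      ∃ ρ : GaloisRepAdic O'',
        (∀ (ℓ : ℕ) (hℓ : ℓ.Prime) (hℓM : ¬ ℓ ∣ M) (hℓS : ℓ ∉ (↑S : Set ℕ)),
          ∀ A : ValuationSubring (AlgebraicClosure ℚ), A.LiesOverPrime ℓ →
            ∀ σ : AlgebraicClosure ℚ ≃ₐ[ℚ] AlgebraicClosure ℚ, A.IsFrobeniusAt σ ℓ →
              LinearMap.charpoly (ρ.ρ σ) =
                X ^ 2 - C (algebraMap O' O'' ((iota.comp chig.rangeRestrict) (CuspForm.heckeAlgebra.T hℓ hℓM hℓS))) * X
                  + C ((ℓ : O''))) ∧
        (∀ q : ℕ, q.Prime → q ≠ lam → M.factorization q = 2 → ¬ ρ.IsUnipotentOnInertiaAt q) :=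
  s36i62j_top hR2 s36i62k_HP3c2 hR3 s36i62k_HP3c3 hg lam S O' hlamO' chig hchig iota hlamS hMS

end Fermat.Agent.S36
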