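import Mathlib

/-!
# S36 lab (helper94, row 595 "B2-abelian"): the abelian bookkeeping B1 + B2, abstract

Pure commutative group theory (Mathlib only).  Dictionary (helper1's (B) text, #2876):

* `U`  = units of `W = V₁ ⊓ V₂ ⊓ V₃` (level `q² M''`), `U'` = units of `W' = V_∞' ⊓ V_0'`
  (level `q M''`), `L` = the multiplicative group of the target of the reductions (`k((Q))ˣ`);
* `r1 r2 r3 : U → L` the three reductions, `ri rz : U' → L` the two reductions of level `q`;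
* `al be : U' → U` the pull-backs, `Na Nb : U → U'` the two norms, `V : L → L` (`Q ↦ Q^q`);
* `C ≤ L` the constants `kˣ`, `Cu ≤ U`, `Cu' ≤ U'` the constant units (`Rˣ`);
* (I2) `h2al h3al h1be`, (I3) `N1 N2 N3 N4`, (I5) LEMMA K = `hK`, separators/CRT = `hglue`.

`ab94_core` is the additive form (proved with `module`), `ab94_main` the multiplicative form:
from `Na f = cA * A ^ m`, `Nb f = cB * B ^ m` (`cA cB` constant units, `gcd(q, m) = 1`) we get
`f ^ ((q - 1) * (q ^ 2 - 1)) = D * G ^ m * u0` with `D` a constant unit, all three reductions of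
`u0` equal to `1`, and `Na u0 = cu * Au ^ m`, `Nb u0 = du * Bu ^ m` with `cu du` constant units
and all four reductions of `Au`, `Bu` constants.
-/

namespace Fermat.Agent.S36

/-- **B1 + B2, additive core.** -/
theorem ab94_core {U U' L : Type*} [AddCommGroup U] [AddCommGroup U'] [AddCommGroup L]
    (r1 r2 r3 : U →+ L) (ri rz : U' →+ L) (al be : U' →+ U) (Na Nb : U →+ U') (V : L →+ L)
    (C : AddSubgroup L) (Cu : AddSubgroup U) (Cu' : AddSubgroup U')
    (q m s t : ℤ) (hst : s * q + t * m = 1)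
    (h2al : ∀ h, r2 (al h) = ri h) (h3al : ∀ h, r3 (al h) = V (rz h))
    (h1be : ∀ h, r1 (be h) = V (ri h))
    (N1 : ∀ y, ri (Na y) = r1 y + (q - 1) • r2 y)
    (N2 : ∀ y, V (rz (Na y)) = q • r3 y)
    (N3 : ∀ y, V (ri (Nb y)) = q • r1 y)
    (N4 : ∀ y, rz (Nb y) = r3 y + (q - 1) • r2 y)
    (hVinj : Function.Injective V) (hVC : ∀ c ∈ C, V c = c)
    (hK : ∀ x : L, m • x ∈ C → x ∈ C)
    (hCu2 : ∀ d ∈ Cu, r2 d = r1 d) (hCu3 : ∀ d ∈ Cu, r3 d = r1 d)
    (hCi : ∀ d ∈ Cu', ri d ∈ C) (hCz : ∀ d ∈ Cu', rz d = ri d)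
    (hNaC : ∀ d ∈ Cu, Na d ∈ Cu') (hNbC : ∀ d ∈ Cu, Nb d ∈ Cu')
    (hlift : ∀ c ∈ C, ∃ d ∈ Cu, r1 d = c)
    (hglue : ∀ g1 g2 g3 : U, ∃ G : U, r1 G = r1 g1 ∧ r2 G = r2 g2 ∧ r3 G = r3 g3)
    (f : U) (cA cB A B : U') (hcA : cA ∈ Cu') (hcB : cB ∈ Cu')
    (hA : Na f = cA + m • A) (hB : Nb f = cB + m • B) :
    ∃ (u0 D G : U), D ∈ Cu ∧ ((q - 1) * (q ^ 2 - 1)) • f = D + m • G + u0 ∧
      r1 u0 = 0 ∧ r2 u0 = 0 ∧ r3 u0 = 0 ∧
      (∃ cu ∈ Cu', ∃ Au : U', Na u0 = cu + m • Au ∧ ri Au ∈ C ∧ rz Au ∈ C) ∧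
      (∃ du ∈ Cu', ∃ Bu : U', Nb u0 = du + m • Bu ∧ ri Bu ∈ C ∧ rz Bu ∈ C) := by
  -- auxiliary forms of LEMMA K
  have hK' : ∀ (x c : L), c ∈ C → m • x = c → x ∈ C := fun x c hc h => hK x (h ▸ hc)
  have hKV : ∀ (x c : L), c ∈ C → m • V x = c → x ∈ C := by
    intro x c hc h
    apply hK
    have h1 : V (m • x) = V c := by rw [map_zsmul, h, hVC c hc]
    rw [hVinj h1]; exact hc
  -- the constants of the two norms
  have hκA : ri cA ∈ C := hCi cA hcA
  have hκB : ri cB ∈ C := hCi cB hcB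
  have hzA : rz cA = ri cA := hCz cA hcA
  have hzB : rz cB = ri cB := hCz cB hcB
  -- Step 1: `r3 f`
  have E1 : q • r3 f = ri cA + m • r3 (al A) := by
    have h := N2 f
    rw [hA, map_add, map_zsmul, map_add, map_zsmul, hzA, hVC _ hκA] at h
    rw [h3al]; exact h.symm
  have R3 : r3 f = s • ri cA + m • r3 (s • al A + t • f) := by
    have h1 : (s * q + t * m) • r3 f = r3 f := by rw [hst, one_smul]
    rw [map_add, map_zsmul, map_zsmul]
    linear_combination (norm := module) s • E1 - h1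
  -- Step 2: `r1 f`
  have E2 : q • r1 f = ri cB + m • r1 (be B) := by
    have h := N3 f
    rw [hB, map_add, map_zsmul, map_add, map_zsmul, hVC _ hκB] at h
    rw [h1be]; exact h.symm
  have R1 : r1 f = s • ri cB + m • r1 (s • be B + t • f) := by
    have h1 : (s * q + t * m) • r1 f = r1 f := by rw [hst, one_smul]
    rw [map_add, map_zsmul, map_zsmul]
    linear_combination (norm := module) s • E2 - h1
  set G1 : U := s • be B + t • f with hG1
  set G3 : U := s • al A + t • f with hG3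
  -- Step 3: `(q - 1) • r2 f`
  obtain ⟨H, hH1, hH2, -⟩ := hglue G1 0 0
  rw [map_zero] at hH2
  have hrG2 : r2 (al A - al (Na H)) = ri A - r1 G1 := by
    rw [map_sub, h2al, h2al, N1 H, hH2, smul_zero, add_zero, hH1]
  set G2 : U := al A - al (Na H) with hG2
  have R2 : (q - 1) • r2 f = (ri cA - s • ri cB) + m • r2 G2 := by
    have h := N1 f
    rw [hA, map_add, map_zsmul] at h
    rw [hrG2]
    linear_combination (norm := module) -h - R1
  -- Step 4: `f3` with constant reductions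
  obtain ⟨G, hGr1, hGr2, hGr3⟩ := hglue ((q - 1) • G1) G2 ((q - 1) • G3)
  rw [map_zsmul] at hGr1 hGr3
  have g1 : r1 ((q - 1) • f - m • G) = ((q - 1) * s) • ri cB := by
    rw [map_sub, map_zsmul, map_zsmul, hGr1]
    linear_combination (norm := module) (q - 1) • R1
  have g2 : r2 ((q - 1) • f - m • G) = ri cA - s • ri cB := by
    rw [map_sub, map_zsmul, map_zsmul, hGr2]
    linear_combination (norm := module) R2
  have g3 : r3 ((q - 1) • f - m • G) = ((q - 1) * s) • ri cA := by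
    rw [map_sub, map_zsmul, map_zsmul, hGr3]
    linear_combination (norm := module) (q - 1) • R3
  set f3 : U := (q - 1) • f - m • G with hf3
  -- Step 5: the norms of `f3` and the relations between the constants
  have hc3 : (q - 1) • cA ∈ Cu' := Cu'.zsmul_mem hcA _
  have hd3 : (q - 1) • cB ∈ Cu' := Cu'.zsmul_mem hcB _
  have hNa3 : Na f3 = (q - 1) • cA + m • ((q - 1) • A - Na G) := by
    rw [hf3, map_sub, map_zsmul, map_zsmul, hA]; module
  have hNb3 : Nb f3 = (q - 1) • cB + m • ((q - 1) • B - Nb G) := by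
    rw [hf3, map_sub, map_zsmul, map_zsmul, hB]; module
  set A3 : U' := (q - 1) • A - Na G with hA3
  set B3 : U' := (q - 1) • B - Nb G with hB3
  have e1 : m • ri A3 = 0 := by
    have h := N1 f3
    rw [hNa3] at h
    simp only [map_add, map_zsmul] at h
    rw [g1, g2] at h
    linear_combination (norm := module) h
  have e2 : m • V (rz A3) = (q * ((q - 1) * s) - (q - 1)) • ri cA := by
    have h := N2 f3
    rw [hNa3] at h
    simp only [map_add, map_zsmul] at h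
    rw [hzA, hVC _ hκA, g3] at h
    linear_combination (norm := module) h
  have e3 : m • V (ri B3) = (q * ((q - 1) * s) - (q - 1)) • ri cB := by
    have h := N3 f3
    rw [hNb3] at h
    simp only [map_add, map_zsmul] at h
    rw [hVC _ hκB, g1] at h
    linear_combination (norm := module) h
  have e4 : m • rz B3 = ((q - 1) * s) • ri cA + (q - 1) • (ri cA - s • ri cB) -
      (q - 1) • ri cB := by
    have h := N4 f3
    rw [hNb3] at h
    simp only [map_add, map_zsmul] at h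
    rw [hzB, g3, g2] at h
    linear_combination (norm := module) h
  have hAi : ri A3 ∈ C := hK' _ 0 C.zero_mem e1
  have hAz : rz A3 ∈ C := hKV _ _ (C.zsmul_mem hκA _) e2
  have hBi : ri B3 ∈ C := hKV _ _ (C.zsmul_mem hκB _) e3
  have hBz : rz B3 ∈ C := hK' _ _ (C.sub_mem (C.add_mem (C.zsmul_mem hκA _)
    (C.zsmul_mem (C.sub_mem hκA (C.zsmul_mem hκB _)) _)) (C.zsmul_mem hκB _)) e4
  have e2' : m • rz A3 = (q * ((q - 1) * s) - (q - 1)) • ri cA := by
    apply hVinj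
    rw [map_zsmul, e2, hVC _ (C.zsmul_mem hκA _)]
  have e3' : m • ri B3 = (q * ((q - 1) * s) - (q - 1)) • ri cB := by
    apply hVinj
    rw [map_zsmul, e3, hVC _ (C.zsmul_mem hκB _)]
  -- `ρ`, `ρ2`
  set X : L := ri A3 - rz A3 with hX
  set Y : L := rz B3 - ri B3 with hY
  have hXC : X ∈ C := C.sub_mem hAi hAz
  have hYC : Y ∈ C := C.sub_mem hBz hBi
  have hρ : (q ^ 2 - 1) • (((q - 1) * s) • ri cB - ((q - 1) * s) • ri cA) =
      m • ((q - 1) • (X - Y)) := by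
    rw [hX, hY]
    linear_combination (norm := module) -(q - 1) • e1 + (q - 1) • e2' + (q - 1) • e4 -
      (q - 1) • e3'
  have hρ2 : (q ^ 2 - 1) • ((ri cA - s • ri cB) - ((q - 1) * s) • ri cA) =
      m • (q • X + Y) := by
    rw [hX, hY]
    linear_combination (norm := module) -q • e1 + q • e2' - e4 + e3'
  -- Step 6: the lifts and `u0`
  obtain ⟨d1, hd1, hd1r⟩ := hlift ((q - 1) • (X - Y)) (C.zsmul_mem (C.sub_mem hXC hYC) _)
  obtain ⟨d2, hd2, hd2r⟩ := hlift (q • X + Y) (C.add_mem (C.zsmul_mem hXC _) hYC)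
  obtain ⟨θ, hθ1, hθ2, hθ3⟩ := hglue d1 d2 0
  rw [map_zero] at hθ3
  rw [hd1r] at hθ1
  rw [hCu2 d2 hd2, hd2r] at hθ2
  obtain ⟨c, hc, hcr⟩ := hlift ((q ^ 2 - 1) • (((q - 1) * s) • ri cA))
    (C.zsmul_mem (C.zsmul_mem hκA _) _)
  have u1 : r1 ((q ^ 2 - 1) • f3 - c - m • θ) = 0 := by
    rw [map_sub, map_sub, map_zsmul, map_zsmul, g1, hcr, hθ1]
    linear_combination (norm := module) hρ
  have u2 : r2 ((q ^ 2 - 1) • f3 - c - m • θ) = 0 := by
    rw [map_sub, map_sub, map_zsmul, map_zsmul, g2, hCu2 c hc, hcr, hθ2]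
    linear_combination (norm := module) hρ2
  have u3 : r3 ((q ^ 2 - 1) • f3 - c - m • θ) = 0 := by
    rw [map_sub, map_sub, map_zsmul, map_zsmul, g3, hCu3 c hc, hcr, hθ3]
    module
  have hNau : Na ((q ^ 2 - 1) • f3 - c - m • θ) =
      ((q ^ 2 - 1) • ((q - 1) • cA) - Na c) + m • ((q ^ 2 - 1) • A3 - Na θ) := by
    rw [map_sub, map_sub, map_zsmul, map_zsmul, hNa3]; module
  have hNbu : Nb ((q ^ 2 - 1) • f3 - c - m • θ) =
      ((q ^ 2 - 1) • ((q - 1) • cB) - Nb c) + m • ((q ^ 2 - 1) • B3 - Nb θ) := by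
    rw [map_sub, map_sub, map_zsmul, map_zsmul, hNb3]; module
  have htot : ((q - 1) * (q ^ 2 - 1)) • f =
      c + m • (θ + (q ^ 2 - 1) • G) + ((q ^ 2 - 1) • f3 - c - m • θ) := by
    rw [hf3]; module
  set u0 : U := (q ^ 2 - 1) • f3 - c - m • θ with hu0
  have hcu : (q ^ 2 - 1) • ((q - 1) • cA) - Na c ∈ Cu' :=
    Cu'.sub_mem (Cu'.zsmul_mem hc3 _) (hNaC c hc)
  have hdu : (q ^ 2 - 1) • ((q - 1) • cB) - Nb c ∈ Cu' :=
    Cu'.sub_mem (Cu'.zsmul_mem hd3 _) (hNbC c hc)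
  set cu : U' := (q ^ 2 - 1) • ((q - 1) • cA) - Na c with hcu'
  set du : U' := (q ^ 2 - 1) • ((q - 1) • cB) - Nb c with hdu'
  set Au : U' := (q ^ 2 - 1) • A3 - Na θ with hAu
  set Bu : U' := (q ^ 2 - 1) • B3 - Nb θ with hBu
  refine ⟨u0, c, θ + (q ^ 2 - 1) • G, hc, htot, u1, u2, u3,
    ⟨cu, hcu, Au, hNau, ?_, ?_⟩, ⟨du, hdu, Bu, hNbu, ?_, ?_⟩⟩
  · -- `ri Au`
    have h := N1 u0
    rw [hNau] at h
    simp only [map_add, map_zsmul] at h
    rw [u1, u2] at h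
    refine hK' _ (-ri cu) (C.neg_mem (hCi cu hcu)) ?_
    linear_combination (norm := module) h
  · -- `rz Au`
    have h := N2 u0
    rw [hNau] at h
    simp only [map_add, map_zsmul] at h
    rw [hCz cu hcu, hVC _ (hCi cu hcu), u3] at h
    refine hKV _ (-ri cu) (C.neg_mem (hCi cu hcu)) ?_
    linear_combination (norm := module) h
  · -- `ri Bu`
    have h := N3 u0
    rw [hNbu] at h
    simp only [map_add, map_zsmul] at h
    rw [hVC _ (hCi du hdu), u1] at h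
    refine hKV _ (-ri du) (C.neg_mem (hCi du hdu)) ?_
    linear_combination (norm := module) h
  · -- `rz Bu`
    have h := N4 u0
    rw [hNbu] at h
    simp only [map_add, map_zsmul] at h
    rw [hCz du hdu, u3, u2] at h
    refine hK' _ (-ri du) (C.neg_mem (hCi du hdu)) ?_
    linear_combination (norm := module) h

/-- **B1 + B2, multiplicative form** (`U = Wˣ`, `U' = W'ˣ`, `Λ = k((Q))ˣ`; see the header). -/
theorem ab94_main {U U' Λ : Type*} [CommGroup U] [CommGroup U'] [CommGroup Λ]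
    (r1 r2 r3 : U →* Λ) (ri rz : U' →* Λ) (al be : U' →* U) (Na Nb : U →* U') (V : Λ →* Λ)
    (C : Subgroup Λ) (Cu : Subgroup U) (Cu' : Subgroup U')
    (q m : ℕ) (hq : 1 ≤ q) (hqm : Nat.Coprime q m)
    (h2al : ∀ h, r2 (al h) = ri h) (h3al : ∀ h, r3 (al h) = V (rz h))
    (h1be : ∀ h, r1 (be h) = V (ri h))
    (N1 : ∀ y, ri (Na y) = r1 y * r2 y ^ (q - 1))
    (N2 : ∀ y, V (rz (Na y)) = r3 y ^ q)
    (N3 : ∀ y, V (ri (Nb y)) = r1 y ^ q)
    (N4 : ∀ y, rz (Nb y) = r3 y * r2 y ^ (q - 1))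
    (hVinj : Function.Injective V) (hVC : ∀ c ∈ C, V c = c)
    (hK : ∀ x : Λ, x ^ m ∈ C → x ∈ C)
    (hCu2 : ∀ d ∈ Cu, r2 d = r1 d) (hCu3 : ∀ d ∈ Cu, r3 d = r1 d)
    (hCi : ∀ d ∈ Cu', ri d ∈ C) (hCz : ∀ d ∈ Cu', rz d = ri d)
    (hNaC : ∀ d ∈ Cu, Na d ∈ Cu') (hNbC : ∀ d ∈ Cu, Nb d ∈ Cu')
    (hlift : ∀ c ∈ C, ∃ d ∈ Cu, r1 d = c)
    (hglue : ∀ g1 g2 g3 : U, ∃ G : U, r1 G = r1 g1 ∧ r2 G = r2 g2 ∧ r3 G = r3 g3)
    (f : U) (cA cB A B : U') (hcA : cA ∈ Cu') (hcB : cB ∈ Cu')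
    (hA : Na f = cA * A ^ m) (hB : Nb f = cB * B ^ m) :
    ∃ (u0 D G : U), D ∈ Cu ∧ f ^ ((q - 1) * (q ^ 2 - 1)) = D * G ^ m * u0 ∧
      r1 u0 = 1 ∧ r2 u0 = 1 ∧ r3 u0 = 1 ∧
      (∃ cu ∈ Cu', ∃ Au : U', Na u0 = cu * Au ^ m ∧ ri Au ∈ C ∧ rz Au ∈ C) ∧
      (∃ du ∈ Cu', ∃ Bu : U', Nb u0 = du * Bu ^ m ∧ ri Bu ∈ C ∧ rz Bu ∈ C) := by
  obtain ⟨s, t, hst⟩ : ∃ s t : ℤ, s * q + t * m = 1 := by
    refine ⟨Nat.gcdA q m, Nat.gcdB q m, ?_⟩
    have h := Nat.gcd_eq_gcd_ab q m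
    rw [Nat.Coprime.gcd_eq_one hqm] at h
    push_cast at h
    linarith
  have hq1 : ((q : ℤ) - 1) = ((q - 1 : ℕ) : ℤ) := by rw [Nat.cast_sub hq]; simp
  have hE : (((q - 1) * (q ^ 2 - 1) : ℕ) : ℤ) = ((q : ℤ) - 1) * ((q : ℤ) ^ 2 - 1) := by
    rw [Nat.cast_mul, Nat.cast_sub hq, Nat.cast_sub (Nat.one_le_pow _ _ hq)]
    push_cast; ring
  have key := ab94_core (U := Additive U) (U' := Additive U') (L := Additive Λ)
    (MonoidHom.toAdditive r1) (MonoidHom.toAdditive r2) (MonoidHom.toAdditive r3)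
    (MonoidHom.toAdditive ri) (MonoidHom.toAdditive rz) (MonoidHom.toAdditive al)
    (MonoidHom.toAdditive be) (MonoidHom.toAdditive Na) (MonoidHom.toAdditive Nb)
    (MonoidHom.toAdditive V) (Subgroup.toAddSubgroup C) (Subgroup.toAddSubgroup Cu)
    (Subgroup.toAddSubgroup Cu') (q : ℤ) (m : ℤ) s t hst
    (fun h => congrArg Additive.ofMul (h2al h.toMul))
    (fun h => congrArg Additive.ofMul (h3al h.toMul))
    (fun h => congrArg Additive.ofMul (h1be h.toMul))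
    (fun y => by
      show Additive.ofMul (ri (Na y.toMul)) =
        Additive.ofMul (r1 y.toMul * r2 y.toMul ^ ((q : ℤ) - 1))
      rw [hq1, zpow_natCast, N1])
    (fun y => by
      show Additive.ofMul (V (rz (Na y.toMul))) = Additive.ofMul (r3 y.toMul ^ (q : ℤ))
      rw [zpow_natCast, N2])
    (fun y => by
      show Additive.ofMul (V (ri (Nb y.toMul))) = Additive.ofMul (r1 y.toMul ^ (q : ℤ))
      rw [zpow_natCast, N3])
    (fun y => by
      show Additive.ofMul (rz (Nb y.toMul)) =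
        Additive.ofMul (r3 y.toMul * r2 y.toMul ^ ((q : ℤ) - 1))
      rw [hq1, zpow_natCast, N4])
    (fun a b h => hVinj h)
    (fun c hc => congrArg Additive.ofMul (hVC c.toMul hc))
    (fun x hx => hK x.toMul (by
      have h : x.toMul ^ (m : ℤ) ∈ C := hx
      rwa [zpow_natCast] at h))
    (fun d hd => congrArg Additive.ofMul (hCu2 d.toMul hd))
    (fun d hd => congrArg Additive.ofMul (hCu3 d.toMul hd))
    (fun d hd => hCi d.toMul hd)
    (fun d hd => congrArg Additive.ofMul (hCz d.toMul hd))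
    (fun d hd => hNaC d.toMul hd)
    (fun d hd => hNbC d.toMul hd)
    (fun c hc => by
      obtain ⟨d, hd, h⟩ := hlift c.toMul hc
      exact ⟨Additive.ofMul d, hd, congrArg Additive.ofMul h⟩)
    (fun g1 g2 g3 => by
      obtain ⟨G, h1, h2, h3⟩ := hglue g1.toMul g2.toMul g3.toMul
      exact ⟨Additive.ofMul G, congrArg Additive.ofMul h1, congrArg Additive.ofMul h2,
        congrArg Additive.ofMul h3⟩)
    (Additive.ofMul f) (Additive.ofMul cA) (Additive.ofMul cB) (Additive.ofMul A)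
    (Additive.ofMul B) hcA hcB
    (by
      show Additive.ofMul (Na f) = Additive.ofMul (cA * A ^ (m : ℤ))
      rw [zpow_natCast, hA])
    (by
      show Additive.ofMul (Nb f) = Additive.ofMul (cB * B ^ (m : ℤ))
      rw [zpow_natCast, hB])
  obtain ⟨u0, D, G, hD, htot, hu1, hu2, hu3, ⟨cu, hcu, Au, hNau, hAi, hAz⟩,
    ⟨du, hdu, Bu, hNbu, hBi, hBz⟩⟩ := key
  refine ⟨u0.toMul, D.toMul, G.toMul, hD, ?_, hu1, hu2, hu3,
    ⟨cu.toMul, hcu, Au.toMul, ?_, hAi, hAz⟩, ⟨du.toMul, hdu, Bu.toMul, ?_, hBi, hBz⟩⟩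
  · have h : f ^ (((q : ℤ) - 1) * ((q : ℤ) ^ 2 - 1)) =
        D.toMul * G.toMul ^ (m : ℤ) * u0.toMul := htot
    rw [← hE, zpow_natCast, zpow_natCast] at h
    exact h
  · have h : Na u0.toMul = cu.toMul * Au.toMul ^ (m : ℤ) := hNau
    rwa [zpow_natCast] at h
  · have h : Nb u0.toMul = du.toMul * Bu.toMul ^ (m : ℤ) := hNbu
    rwa [zpow_natCast] at h

/-- **The `q`-th power upgrade** (end of B2): in a valuation ring `V` with `q ∈ π V` and
`z ^ q ∈ π V` for every non-unit `z` (`V₁`, `V₃`: `m = π V`; `V₂`: `m ^ (q - 1) = π V`),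
`u ≡ 1` modulo the maximal ideal implies `u ^ q ≡ 1` modulo `π V`. -/
theorem ab94_qpow_mem {F : Type*} [Field F] (V : ValuationSubring F) (π : F) (q : ℕ)
    (hq : q.Prime) (hqπ : π⁻¹ * (q : F) ∈ V) (hpow : ∀ z ∈ V.nonunits, π⁻¹ * z ^ q ∈ V)
    (u : F) (hu1 : u - 1 ∈ V.nonunits) : π⁻¹ * (u ^ q - 1) ∈ V := by
  have hx : u - 1 ∈ V := ValuationSubring.nonunits_subset hu1
  obtain ⟨r, hr⟩ := exists_add_pow_prime_eq hq (1 : V) ⟨u - 1, hx⟩
  have h := congrArg (Subtype.val : V → F) hr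
  push_cast at h
  have hu : u ^ q - 1 = (u - 1) ^ q + (q : F) * ((u - 1) * (r : F)) := by
    have h2 : (1 + (u - 1)) ^ q = u ^ q := by congr 1; ring
    rw [h2] at h
    rw [h]; ring
  rw [hu, mul_add, ← mul_assoc]
  exact V.add_mem _ _ (hpow _ hu1) (V.mul_mem _ _ hqπ (V.mul_mem _ _ hx r.2))

/-- The same for a finite family of valuation rings: `u ≡ 1` modulo every maximal ideal
implies `π⁻¹ (u ^ q - 1) ∈ ⨅ V i`. -/
theorem ab94_qpow_mem_all {F : Type*} [Field F] {ι : Type*} (V : ι → ValuationSubring F)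
    (π : F) (q : ℕ) (hq : q.Prime) (hqπ : ∀ i, π⁻¹ * (q : F) ∈ V i)
    (hpow : ∀ i, ∀ z ∈ (V i).nonunits, π⁻¹ * z ^ q ∈ V i)
    (u : F) (hu1 : ∀ i, u - 1 ∈ (V i).nonunits) (i : ι) : π⁻¹ * (u ^ q - 1) ∈ V i :=
  ab94_qpow_mem (V i) π q hq (hqπ i) (hpow i) u (hu1 i)

end Fermat.Agent.S36
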