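import Mathlib
import Fermat.Agent.S36.AbelianVal94

/-!
# S36 lab (helper94, row 595 "B2-abelian"): `abv94_intrinsic` with hypotheses in `nonunits` form

`abv94_of_nonunits` : the hypotheses are the INTRINSIC fields of `fov50_Data` (file
`FrameOfVal50`) in their literal shapes (`mem` / `nu` for the six lying-over pairs, `res`,
`res2β`, `ramα`, `inα`, `ramβ`, `inβ`, `insα`, `insβ`), a separator `e0` of the lower level in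
intrinsic form (`e0 ∈ 𝔪(Vi)`, `e0 - 1 ∈ 𝔪(V0)`), the constants `c' : Kx →* F'ˣ` and LEMMA K at
`Vi` in congruence form.  NOT needed: reductions `ri rz`, the twist `Vs`, the cross
compatibilities `α3 β1 β2`, `Cst`, `lift`.

Conclusion: `f ^ ((q-1)(q²-1)) = α(c' D) * G ^ m * u0`, `u0 - 1 ∈ 𝔪(V_j)` (`j = 1, 2, 3`), and
the norm data of `u0` consumed by B3 (`gc26_triple`): `Nα u0 = c' cu * Au ^ m`,
`Nβ u0 = c' du * Bu ^ m` with `Au`, `Bu` units of `Vi ⊓ V0` congruent to constants on both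
branches.
-/

set_option linter.unusedVariables false
set_option linter.unusedSectionVars false
set_option linter.style.longLine false

namespace Fermat.Agent.S36

section

variable {F F' : Type*} [Field F] [Field F']

/-- `x ∈ 𝔪(V) ↔ v x < 1`. -/
theorem abv94_nu {E : Type*} [Field E] (V : ValuationSubring E) (x : E) :
    x ∈ V.nonunits ↔ V.valuation x < 1 := ValuationSubring.mem_nonunits_iff V

theorem abv94_sub_mem {E : Type*} [Field E] (V : ValuationSubring E) (x y : E)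
    (h : x - y ∈ V.nonunits) (hy : y ∈ V) : x ∈ V := by
  have e : x = (x - y) + y := by ring
  rw [e]; exact V.add_mem _ _ (ValuationSubring.nonunits_subset h) hy

theorem abv94_ne_zero_of_val {E : Type*} [Field E] (V : ValuationSubring E) (x : E)
    (h : V.valuation x = 1) : x ≠ 0 := by
  rintro rfl
  rw [map_zero] at h
  exact zero_ne_one h

/-- lying over (as an iff) from `mem` + `nu`. -/
theorem abv94_iff_of_mem_nu (φ : F' →+* F) (V' : ValuationSubring F') (V : ValuationSubring F)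
    (hmem : ∀ a ∈ V', φ a ∈ V) (hnu : ∀ a ∈ V'.nonunits, φ a ∈ V.nonunits) (x : F') :
    φ x ∈ V ↔ x ∈ V' := by
  refine ⟨fun h => ?_, hmem x⟩
  by_contra hx
  have hx0 : x ≠ 0 := fun h0 => hx (h0 ▸ V'.zero_mem)
  have hpos : 0 < V'.valuation x := zero_lt_iff.mpr ((map_ne_zero _).mpr hx0)
  have h1 : x⁻¹ ∈ V'.nonunits := by
    rw [ValuationSubring.mem_nonunits_iff, map_inv₀, inv_lt_one₀ hpos]
    exact lt_of_not_ge (fun hle => hx ((V'.valuation_le_one_iff x).mp hle))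
  have h2 := hnu _ h1
  have hφ0 : φ x ≠ 0 := (map_ne_zero φ).mpr hx0
  have hpos' : 0 < V.valuation (φ x) := zero_lt_iff.mpr ((map_ne_zero _).mpr hφ0)
  rw [map_inv₀, ValuationSubring.mem_nonunits_iff, map_inv₀, inv_lt_one₀ hpos'] at h2
  exact absurd ((V.valuation_le_one_iff _).mpr h) (not_le.mpr h2)

/-- unit gluing from three separators. -/
theorem abv94_glue_of_sep (V1 V2 V3 : ValuationSubring F) (ε1 ε2 ε3 : F)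
    (h11 : V1.valuation (ε1 - 1) < 1) (h12 : V2.valuation ε1 < 1) (h13 : V3.valuation ε1 < 1)
    (h21 : V1.valuation ε2 < 1) (h22 : V2.valuation (ε2 - 1) < 1) (h23 : V3.valuation ε2 < 1)
    (h31 : V1.valuation ε3 < 1) (h32 : V2.valuation ε3 < 1) (h33 : V3.valuation (ε3 - 1) < 1)
    (y1 y2 y3 : F)
    (hy1 : V1.valuation y1 = 1 ∧ V2.valuation y1 = 1 ∧ V3.valuation y1 = 1)
    (hy2 : V1.valuation y2 = 1 ∧ V2.valuation y2 = 1 ∧ V3.valuation y2 = 1)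
    (hy3 : V1.valuation y3 = 1 ∧ V2.valuation y3 = 1 ∧ V3.valuation y3 = 1) :
    ∃ G : F, (V1.valuation G = 1 ∧ V2.valuation G = 1 ∧ V3.valuation G = 1) ∧
      V1.valuation (G - y1) < 1 ∧ V2.valuation (G - y2) < 1 ∧ V3.valuation (G - y3) < 1 := by
  have key : ∀ (V : ValuationSubring F) (a b c x y z : F), V.valuation a < 1 →
      V.valuation b < 1 → V.valuation c < 1 → V.valuation x = 1 → V.valuation y = 1 →
      V.valuation z = 1 → V.valuation (a * x + b * y + c * z) < 1 := by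
    intro V a b c x y z ha hb hc hx hy hz
    refine Valuation.map_add_lt _ (Valuation.map_add_lt _ ?_ ?_) ?_
    · rw [map_mul, hx, mul_one]; exact ha
    · rw [map_mul, hy, mul_one]; exact hb
    · rw [map_mul, hz, mul_one]; exact hc
  have c1 : V1.valuation (ε1 * y1 + ε2 * y2 + ε3 * y3 - y1) < 1 := by
    have e : ε1 * y1 + ε2 * y2 + ε3 * y3 - y1 = (ε1 - 1) * y1 + ε2 * y2 + ε3 * y3 := by ring
    rw [e]; exact key V1 _ _ _ _ _ _ h11 h21 h31 hy1.1 hy2.1 hy3.1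
  have c2 : V2.valuation (ε1 * y1 + ε2 * y2 + ε3 * y3 - y2) < 1 := by
    have e : ε1 * y1 + ε2 * y2 + ε3 * y3 - y2 = ε1 * y1 + (ε2 - 1) * y2 + ε3 * y3 := by ring
    rw [e]; exact key V2 _ _ _ _ _ _ h12 h22 h32 hy1.2.1 hy2.2.1 hy3.2.1
  have c3 : V3.valuation (ε1 * y1 + ε2 * y2 + ε3 * y3 - y3) < 1 := by
    have e : ε1 * y1 + ε2 * y2 + ε3 * y3 - y3 = ε1 * y1 + ε2 * y2 + (ε3 - 1) * y3 := by ring
    rw [e]; exact key V3 _ _ _ _ _ _ h13 h23 h33 hy1.2.2 hy2.2.2 hy3.2.2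
  refine ⟨ε1 * y1 + ε2 * y2 + ε3 * y3, ⟨?_, ?_, ?_⟩, c1, c2, c3⟩
  · exact abv94_val_eq_one_of_sub V1 _ _ hy1.1 (by rw [Valuation.map_sub_swap]; exact c1)
  · exact abv94_val_eq_one_of_sub V2 _ _ hy2.2.1 (by rw [Valuation.map_sub_swap]; exact c2)
  · exact abv94_val_eq_one_of_sub V3 _ _ hy3.2.2 (by rw [Valuation.map_sub_swap]; exact c3)

/-- **B1 + B2 from the intrinsic fields of `fov50_Data`** (`nonunits` form). -/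
theorem abv94_of_nonunits
    (al be : F' →+* F) (Na Nb : F →* F')
    (V1 V2 V3 : ValuationSubring F) (Vi V0 : ValuationSubring F')
    (q m : ℕ) (hq : 1 ≤ q) (hqm : Nat.Coprime q m)
    (m_a1 : ∀ a ∈ Vi, al a ∈ V1) (n_a1 : ∀ a ∈ Vi.nonunits, al a ∈ V1.nonunits)
    (m_a2 : ∀ a ∈ Vi, al a ∈ V2) (n_a2 : ∀ a ∈ Vi.nonunits, al a ∈ V2.nonunits)
    (m_a3 : ∀ a ∈ V0, al a ∈ V3) (n_a3 : ∀ a ∈ V0.nonunits, al a ∈ V3.nonunits)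
    (m_b1 : ∀ a ∈ Vi, be a ∈ V1) (n_b1 : ∀ a ∈ Vi.nonunits, be a ∈ V1.nonunits)
    (m_b2 : ∀ a ∈ V0, be a ∈ V2) (n_b2 : ∀ a ∈ V0.nonunits, be a ∈ V2.nonunits)
    (m_b3 : ∀ a ∈ V0, be a ∈ V3) (n_b3 : ∀ a ∈ V0.nonunits, be a ∈ V3.nonunits)
    (res1 : ∀ x ∈ V1, ∃ b ∈ Vi, x - al b ∈ V1.nonunits)
    (res2 : ∀ x ∈ V2, ∃ b ∈ Vi, x - al b ∈ V2.nonunits)
    (res2β : ∀ x ∈ V2, ∃ b ∈ V0, x - be b ∈ V2.nonunits)
    (res3 : ∀ x ∈ V3, ∃ b ∈ V0, x - be b ∈ V3.nonunits)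
    (insα : ∀ y ∈ V3, ∃ v ∈ V0, y ^ q - al v ∈ V3.nonunits)
    (insβ : ∀ y ∈ V1, ∃ v ∈ Vi, y ^ q - be v ∈ V1.nonunits)
    (ramα : ∀ y ∈ V1, y ∈ V2 → ∀ v1 ∈ Vi, ∀ v2 ∈ Vi, y - al v1 ∈ V1.nonunits →
      y - al v2 ∈ V2.nonunits → Na y - v1 * v2 ^ (q - 1) ∈ Vi.nonunits)
    (inα : ∀ y ∈ V3, ∀ v ∈ V0, y ^ q - al v ∈ V3.nonunits → Na y - v ∈ V0.nonunits)
    (ramβ : ∀ y ∈ V3, y ∈ V2 → ∀ v3 ∈ V0, ∀ v2 ∈ V0, y - be v3 ∈ V3.nonunits →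
      y - be v2 ∈ V2.nonunits → Nb y - v3 * v2 ^ (q - 1) ∈ V0.nonunits)
    (inβ : ∀ y ∈ V1, ∀ v ∈ Vi, y ^ q - be v ∈ V1.nonunits → Nb y - v ∈ Vi.nonunits)
    (e0 : F') (he0i : e0 ∈ Vi.nonunits) (he0z : e0 - 1 ∈ V0.nonunits)
    {Kx : Type*} [CommGroup Kx] (c' : Kx →* F'ˣ)
    (hcVi : ∀ c, ((c' c : F'ˣ) : F') ∈ Vi) (hcV0 : ∀ c, ((c' c : F'ˣ) : F') ∈ V0)
    (hc_albe : ∀ c, be ((c' c : F'ˣ) : F') = al ((c' c : F'ˣ) : F'))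
    (hNac : ∀ c, Na (al ((c' c : F'ˣ) : F')) = ((c' (c ^ q) : F'ˣ) : F'))
    (hNbc : ∀ c, Nb (al ((c' c : F'ˣ) : F')) = ((c' (c ^ q) : F'ˣ) : F'))
    (hK : ∀ x ∈ Vi, x⁻¹ ∈ Vi → x ≠ 0 → ∀ c, x ^ m - ((c' c : F'ˣ) : F') ∈ Vi.nonunits →
      ∃ a, x - ((c' a : F'ˣ) : F') ∈ Vi.nonunits)
    (f : F) (hf0 : f ≠ 0) (hf : f ∈ V1 ∧ f ∈ V2 ∧ f ∈ V3)
    (hfi : f⁻¹ ∈ V1 ∧ f⁻¹ ∈ V2 ∧ f⁻¹ ∈ V3)
    (cA cB : Kx) (A B : F') (hA0 : A ≠ 0) (hB0 : B ≠ 0)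
    (hAm : A ∈ Vi ∧ A ∈ V0) (hAi : A⁻¹ ∈ Vi ∧ A⁻¹ ∈ V0)
    (hBm : B ∈ Vi ∧ B ∈ V0) (hBi : B⁻¹ ∈ Vi ∧ B⁻¹ ∈ V0)
    (hA : Na f = ((c' cA : F'ˣ) : F') * A ^ m) (hB : Nb f = ((c' cB : F'ˣ) : F') * B ^ m) :
    ∃ (u0 G : F) (D : Kx), u0 ≠ 0 ∧ G ≠ 0 ∧
      (u0 ∈ V1 ∧ u0 ∈ V2 ∧ u0 ∈ V3) ∧ (u0⁻¹ ∈ V1 ∧ u0⁻¹ ∈ V2 ∧ u0⁻¹ ∈ V3) ∧
      (G ∈ V1 ∧ G ∈ V2 ∧ G ∈ V3) ∧ (G⁻¹ ∈ V1 ∧ G⁻¹ ∈ V2 ∧ G⁻¹ ∈ V3) ∧
      f ^ ((q - 1) * (q ^ 2 - 1)) = al ((c' D : F'ˣ) : F') * G ^ m * u0 ∧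
      u0 - 1 ∈ V1.nonunits ∧ u0 - 1 ∈ V2.nonunits ∧ u0 - 1 ∈ V3.nonunits ∧
      (∃ (cu : Kx) (Au : F'), Au ≠ 0 ∧ (Au ∈ Vi ∧ Au ∈ V0) ∧ (Au⁻¹ ∈ Vi ∧ Au⁻¹ ∈ V0) ∧
        Na u0 = ((c' cu : F'ˣ) : F') * Au ^ m ∧
        (∃ a, Au - ((c' a : F'ˣ) : F') ∈ Vi.nonunits) ∧
        ∃ a, Au - ((c' a : F'ˣ) : F') ∈ V0.nonunits) ∧
      (∃ (du : Kx) (Bu : F'), Bu ≠ 0 ∧ (Bu ∈ Vi ∧ Bu ∈ V0) ∧ (Bu⁻¹ ∈ Vi ∧ Bu⁻¹ ∈ V0) ∧
        Nb u0 = ((c' du : F'ˣ) : F') * Bu ^ m ∧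
        (∃ a, Bu - ((c' a : F'ˣ) : F') ∈ Vi.nonunits) ∧
        ∃ a, Bu - ((c' a : F'ˣ) : F') ∈ V0.nonunits) := by
  have hal1 := abv94_iff_of_mem_nu al Vi V1 m_a1 n_a1
  have hal2 := abv94_iff_of_mem_nu al Vi V2 m_a2 n_a2
  have hal3 := abv94_iff_of_mem_nu al V0 V3 m_a3 n_a3
  have hbe1 := abv94_iff_of_mem_nu be Vi V1 m_b1 n_b1
  have hbe2 := abv94_iff_of_mem_nu be V0 V2 m_b2 n_b2
  have hbe3 := abv94_iff_of_mem_nu be V0 V3 m_b3 n_b3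
  -- norm memberships
  have hNaVi : ∀ y, y ∈ V1 → y ∈ V2 → Na y ∈ Vi := by
    intro y h1 h2
    obtain ⟨w1, hw1, c1⟩ := res1 y h1
    obtain ⟨w2, hw2, c2⟩ := res2 y h2
    exact abv94_sub_mem Vi _ _ (ramα y h1 h2 w1 hw1 w2 hw2 c1 c2)
      (Vi.mul_mem _ _ hw1 (Vi.pow_mem hw2 _))
  have hNaVz : ∀ y ∈ V3, Na y ∈ V0 := by
    intro y h3
    obtain ⟨v, hv, c⟩ := insα y h3
    exact abv94_sub_mem V0 _ _ (inα y h3 v hv c) hv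
  have hNbVi : ∀ y ∈ V1, Nb y ∈ Vi := by
    intro y h1
    obtain ⟨v, hv, c⟩ := insβ y h1
    exact abv94_sub_mem Vi _ _ (inβ y h1 v hv c) hv
  have hNbVz : ∀ y, y ∈ V3 → y ∈ V2 → Nb y ∈ V0 := by
    intro y h3 h2
    obtain ⟨w3, hw3, c3⟩ := res3 y h3
    obtain ⟨w2, hw2, c2⟩ := res2β y h2
    exact abv94_sub_mem V0 _ _ (ramβ y h3 h2 w3 hw3 w2 hw2 c3 c2)
      (V0.mul_mem _ _ hw3 (V0.pow_mem hw2 _))
  -- separators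
  have s_a1 : V1.valuation (al e0) < 1 := (abv94_nu V1 _).mp (n_a1 _ he0i)
  have s_a2 : V2.valuation (al e0) < 1 := (abv94_nu V2 _).mp (n_a2 _ he0i)
  have s_a3 : V3.valuation (al e0 - 1) < 1 := by
    have := (abv94_nu V3 _).mp (n_a3 _ he0z)
    rwa [map_sub, map_one] at this
  have s_b1 : V1.valuation (be e0) < 1 := (abv94_nu V1 _).mp (n_b1 _ he0i)
  have s_b2 : V2.valuation (be e0 - 1) < 1 := by
    have := (abv94_nu V2 _).mp (n_b2 _ he0z)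
    rwa [map_sub, map_one] at this
  have s_b3 : V3.valuation (be e0 - 1) < 1 := by
    have := (abv94_nu V3 _).mp (n_b3 _ he0z)
    rwa [map_sub, map_one] at this
  have hglue := abv94_glue_of_sep V1 V2 V3 (1 - be e0) (be e0 - al e0) (al e0)
    (by rw [show (1 : F) - be e0 - 1 = -(be e0) by ring, Valuation.map_neg]; exact s_b1)
    (by rw [← Valuation.map_sub_swap]; exact s_b2)
    (by rw [← Valuation.map_sub_swap]; exact s_b3)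
    (Valuation.map_sub_lt _ s_b1 s_a1)
    (by
      rw [show be e0 - al e0 - 1 = (be e0 - 1) - al e0 by ring]
      exact Valuation.map_sub_lt _ s_b2 s_a2)
    (by
      rw [show be e0 - al e0 = (be e0 - 1) - (al e0 - 1) by ring]
      exact Valuation.map_sub_lt _ s_b3 s_a3)
    s_a1 s_a2 s_a3
  have cinv : ∀ (V : ValuationSubring F') (c : Kx), ((c' c : F'ˣ) : F') ∈ V →
      ((c' c⁻¹ : F'ˣ) : F') ∈ V → V.valuation ((c' c : F'ˣ) : F') = 1 := by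
    intro V c h1 h2
    refine abv94_val_eq_one_of_mem V _ h1 ?_ (c' c).ne_zero
    rw [map_inv, Units.val_inv_eq_inv_val] at h2
    exact h2
  obtain ⟨u0, G, D, hu0, hG, htot, hu1, hu2, hu3, ⟨cu, Au, hAu, hNau, ⟨ai, hai⟩, ⟨az, haz⟩⟩,
    ⟨du, Bu, hBu, hNbu, ⟨bi, hbi⟩, ⟨bz, hbz⟩⟩⟩ :=
    abv94_intrinsic al be Na Nb V1 V2 V3 Vi V0 q m hq hqm hal1 hal2 hal3 hbe1 hbe2 hbe3
      (fun x hx => by
        obtain ⟨v, hv, h⟩ := res1 x hx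
        exact ⟨v, hv, (abv94_nu V1 _).mp h⟩)
      (fun x hx => by
        obtain ⟨v, hv, h⟩ := res2 x hx
        exact ⟨v, hv, (abv94_nu V2 _).mp h⟩)
      (fun x hx => by
        obtain ⟨v, hv, h⟩ := res2β x hx
        exact ⟨v, hv, (abv94_nu V2 _).mp h⟩)
      (fun x hx => by
        obtain ⟨v, hv, h⟩ := res3 x hx
        exact ⟨v, hv, (abv94_nu V3 _).mp h⟩)
      (fun x hx => by
        obtain ⟨v, hv, h⟩ := insα x hx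
        exact ⟨v, hv, (abv94_nu V3 _).mp h⟩)
      (fun x hx => by
        obtain ⟨v, hv, h⟩ := insβ x hx
        exact ⟨v, hv, (abv94_nu V1 _).mp h⟩)
      hNaVi hNaVz hNbVi hNbVz
      (fun y h1 h2 w1 hw1 w2 hw2 c1 c2 =>
        (abv94_nu Vi _).mp (ramα y h1 h2 w1 hw1 w2 hw2 ((abv94_nu V1 _).mpr c1) ((abv94_nu V2 _).mpr c2)))
      (fun x hx v hv c => (abv94_nu V0 _).mp (inα x hx v hv ((abv94_nu V3 _).mpr c)))
      (fun x hx v hv c => (abv94_nu Vi _).mp (inβ x hx v hv ((abv94_nu V1 _).mpr c)))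
      (fun y h3 h2 w3 hw3 w2 hw2 c3 c2 =>
        (abv94_nu V0 _).mp (ramβ y h3 h2 w3 hw3 w2 hw2 ((abv94_nu V3 _).mpr c3) ((abv94_nu V2 _).mpr c2)))
      hglue c'
      (fun c => cinv Vi c (hcVi c) (hcVi c⁻¹)) (fun c => cinv V0 c (hcV0 c) (hcV0 c⁻¹))
      hc_albe hNac hNbc
      (fun x hx c h => by
        have hx0 : x ≠ 0 := by
          rintro rfl
          rw [map_zero] at hx
          exact zero_ne_one hx
        obtain ⟨a, ha⟩ := hK x (abv94_mem_of_val_eq_one Vi x hx).1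
          (abv94_mem_of_val_eq_one Vi x hx).2 hx0 c ((abv94_nu Vi _).mpr h)
        exact ⟨a, (abv94_nu Vi _).mp ha⟩)
      f ⟨abv94_val_eq_one_of_mem V1 f hf.1 hfi.1 hf0, abv94_val_eq_one_of_mem V2 f hf.2.1 hfi.2.1 hf0,
        abv94_val_eq_one_of_mem V3 f hf.2.2 hfi.2.2 hf0⟩
      cA cB A B ⟨abv94_val_eq_one_of_mem Vi A hAm.1 hAi.1 hA0, abv94_val_eq_one_of_mem V0 A hAm.2 hAi.2 hA0⟩
      ⟨abv94_val_eq_one_of_mem Vi B hBm.1 hBi.1 hB0, abv94_val_eq_one_of_mem V0 B hBm.2 hBi.2 hB0⟩ hA hB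
  refine ⟨u0, G, D, abv94_ne_zero_of_val V1 u0 hu0.1, abv94_ne_zero_of_val V1 G hG.1,
    ⟨(abv94_mem_of_val_eq_one V1 _ hu0.1).1, (abv94_mem_of_val_eq_one V2 _ hu0.2.1).1,
      (abv94_mem_of_val_eq_one V3 _ hu0.2.2).1⟩,
    ⟨(abv94_mem_of_val_eq_one V1 _ hu0.1).2, (abv94_mem_of_val_eq_one V2 _ hu0.2.1).2,
      (abv94_mem_of_val_eq_one V3 _ hu0.2.2).2⟩,
    ⟨(abv94_mem_of_val_eq_one V1 _ hG.1).1, (abv94_mem_of_val_eq_one V2 _ hG.2.1).1,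
      (abv94_mem_of_val_eq_one V3 _ hG.2.2).1⟩,
    ⟨(abv94_mem_of_val_eq_one V1 _ hG.1).2, (abv94_mem_of_val_eq_one V2 _ hG.2.1).2,
      (abv94_mem_of_val_eq_one V3 _ hG.2.2).2⟩,
    htot, (abv94_nu V1 _).mpr hu1, (abv94_nu V2 _).mpr hu2, (abv94_nu V3 _).mpr hu3,
    ⟨cu, Au, abv94_ne_zero_of_val Vi Au hAu.1,
      ⟨(abv94_mem_of_val_eq_one Vi _ hAu.1).1, (abv94_mem_of_val_eq_one V0 _ hAu.2).1⟩,
      ⟨(abv94_mem_of_val_eq_one Vi _ hAu.1).2, (abv94_mem_of_val_eq_one V0 _ hAu.2).2⟩,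
      hNau, ⟨ai, (abv94_nu Vi _).mpr hai⟩, ⟨az, (abv94_nu V0 _).mpr haz⟩⟩,
    ⟨du, Bu, abv94_ne_zero_of_val Vi Bu hBu.1,
      ⟨(abv94_mem_of_val_eq_one Vi _ hBu.1).1, (abv94_mem_of_val_eq_one V0 _ hBu.2).1⟩,
      ⟨(abv94_mem_of_val_eq_one Vi _ hBu.1).2, (abv94_mem_of_val_eq_one V0 _ hBu.2).2⟩,
      hNbu, ⟨bi, (abv94_nu Vi _).mpr hbi⟩, ⟨bz, (abv94_nu V0 _).mpr hbz⟩⟩⟩

end

end Fermat.Agent.S36
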