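/-
helper50 (S36 lab, registry row 609 "B2-ABS"): the abstract THREE-BRANCH lemma, Mathlib only.

Level `q² M''` over level `q M''`: three reductions `r1 r2 r3` on `W = V₁ ⊓ V₂ ⊓ V₃`
(the middle one of multiplicity `q - 1`), two reductions `ri rz` on `W' = V_∞' ⊓ V_0'`,
the Frobenius substitution `V` (`Q ↦ Q^q`), the two degeneracy maps `α β` and their norms with
the four norm formulas

  `ri (Nα y) = r1 y * r2 y ^ (q-1)`,   `V (rz (Nα y)) = r3 y ^ q`,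
  `V (ri (Nβ y)) = r1 y ^ q`,          `rz (Nβ y) = r3 y * r2 y ^ (q-1)`.

`tb50_main`: if `f` is a unit of `W` whose two norms are constants times `m`-th powers of
units (`(m, q) = 1`), then `f ^ ((q-1)*(q+1)) = D * G ^ m * u₀` with `G` a unit of `W`, `D` a
constant unit and `r1 u₀ = r2 u₀ = r3 u₀ = 1`.  No root of a constant has to be adjoined.
-/
import Mathlib

set_option autoImplicit false
set_option linter.unusedSectionVars false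
set_option linter.unusedVariables false

namespace Fermat.Agent.S36

section FieldAlg

variable {Λ : Type*} [Field Λ]

/-- Bezout in `ℕ`: `q` coprime to `m ≥ 1`, `q ≥ 1`. -/
theorem tb50_bezout (q m : ℕ) (hq : 1 ≤ q) (hm : 1 ≤ m) (h : Nat.Coprime q m) :
    ∃ u w : ℕ, u * q = 1 + w * m := by
  rcases Nat.lt_or_ge 1 m with hm1 | hm1
  · obtain ⟨u, -, hu⟩ := Nat.exists_mul_mod_eq_one_of_coprime h hm1
    refine ⟨u, q * u / m, ?_⟩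
    have := Nat.div_add_mod (q * u) m
    rw [hu] at this
    nlinarith [this]
  · have hm' : m = 1 := le_antisymm hm1 hm
    subst hm'
    exact ⟨1, q - 1, by omega⟩

/-- root extraction: `x ^ q = c * P ^ m`, `u q = 1 + w m` ⟹ `x = c ^ u * (P ^ u / x ^ w) ^ m`. -/
theorem tb50_root (x c P : Λ) (hx : x ≠ 0) (q m u w : ℕ) (huw : u * q = 1 + w * m)
    (h : x ^ q = c * P ^ m) : x = c ^ u * (P ^ u / x ^ w) ^ m := by
  have h1 : x * (x ^ w) ^ m = c ^ u * (P ^ u) ^ m := by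
    have : x ^ (u * q) = (c * P ^ m) ^ u := by rw [mul_comm u q, pow_mul, h]
    rw [huw] at this
    rw [← pow_mul, ← pow_mul, mul_comm u m, pow_mul P m u, ← mul_pow, ← this, pow_add, pow_one]
  have hxw : (x ^ w) ^ m ≠ 0 := pow_ne_zero _ (pow_ne_zero _ hx)
  rw [div_pow, ← mul_div_assoc, eq_div_iff hxw, h1]

/-- (I): from `x1 * x2 ^ p = ca * S ^ m` and `x1 = cb ^ u * y1 ^ m`. -/
theorem tb50_algI (x1 x2 ca cb S y1 : Λ) (hcb : cb ≠ 0) (hy1 : y1 ≠ 0)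
    (p m u : ℕ) (hD : x1 * x2 ^ p = ca * S ^ m) (hG : x1 = cb ^ u * y1 ^ m) :
    x2 ^ p = ca / cb ^ u * (S / y1) ^ m := by
  have h1 : cb ^ u ≠ 0 := pow_ne_zero _ hcb
  have h2 : y1 ^ m ≠ 0 := pow_ne_zero _ hy1
  rw [hG] at hD
  rw [div_pow]
  field_simp
  linear_combination hD

/-- (γ1)/(γ3): `x = c ^ u * y ^ m` ⟹ `x ^ p / (y ^ p) ^ m = (c ^ u) ^ p`. -/
theorem tb50_gamma13 (x c y : Λ) (hy : y ≠ 0) (p m u : ℕ) (h : x = c ^ u * y ^ m) :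
    x ^ p / (y ^ p) ^ m = (c ^ u) ^ p := by
  have h2 : (y ^ p) ^ m ≠ 0 := pow_ne_zero _ (pow_ne_zero _ hy)
  rw [div_eq_iff h2, h, mul_pow, ← pow_mul y m p, ← pow_mul y p m, mul_comm m p]

/-- (γ2). -/
theorem tb50_gamma2 (x2 ca cb S y1 : Λ) (hS : S ≠ 0) (hy1 : y1 ≠ 0)
    (p m u : ℕ) (hI : x2 ^ p = ca / cb ^ u * (S / y1) ^ m) :
    x2 ^ p / (S / y1) ^ m = ca / cb ^ u := by
  have h2 : (S / y1) ^ m ≠ 0 := pow_ne_zero _ (div_ne_zero hS hy1)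
  rw [div_eq_iff h2, hI]

/-- (K). -/
theorem tb50_algK (x2 x3 ca cb S y1 y3 Bz : Λ) (hca : ca ≠ 0) (hcb : cb ≠ 0) (hBz : Bz ≠ 0)
    (p m u : ℕ) (hE : x3 * x2 ^ p = cb * Bz ^ m) (hF : x3 = ca ^ u * y3 ^ m)
    (hI : x2 ^ p = ca / cb ^ u * (S / y1) ^ m) :
    (y3 * (S / y1) / Bz) ^ m = (cb / ca) ^ (u + 1) := by
  have h1 : cb ^ u ≠ 0 := pow_ne_zero _ hcb
  have h2 : ca ^ u ≠ 0 := pow_ne_zero _ hca
  have h3 : Bz ^ m ≠ 0 := pow_ne_zero _ hBz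
  rw [hF, hI] at hE
  rw [div_pow, mul_pow, div_pow cb ca, pow_succ, pow_succ]
  rw [div_eq_div_iff h3 (mul_ne_zero h2 hca)]
  have hE' : ca ^ u * y3 ^ m * (ca * (S / y1) ^ m) = cb * Bz ^ m * cb ^ u := by
    rw [← hE]; field_simp
  linear_combination hE'

/-- (L): `ρ ^ (u + 1) = Z ^ m`, `u q = 1 + w m` ⟹ `(Z ^ q / ρ ^ w) ^ m = ρ ^ (q + 1)`. -/
theorem tb50_algL (ρ Z : Λ) (hρ : ρ ≠ 0) (q m u w : ℕ) (huw : u * q = 1 + w * m)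
    (hK : Z ^ m = ρ ^ (u + 1)) : (Z ^ q / ρ ^ w) ^ m = ρ ^ (q + 1) := by
  have h1 : (ρ ^ w) ^ m ≠ 0 := pow_ne_zero _ (pow_ne_zero _ hρ)
  rw [div_pow, div_eq_iff h1, ← pow_mul Z q m, mul_comm q m, pow_mul Z m q, hK, ← pow_mul,
    ← pow_mul, ← pow_add]
  congr 1
  nlinarith [huw]

/-- (M1). -/
theorem tb50_algM1 (ca cb ω : Λ) (hca : ca ≠ 0) (p m u n : ℕ)
    (hL : (cb / ca) ^ n = ω ^ m) :
    ((cb ^ u) ^ p) ^ n = ((ca ^ u) ^ p) ^ n * (ω ^ (u * p)) ^ m := by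
  have h1 : cb ^ n = ca ^ n * ω ^ m := by
    rw [← hL, div_pow]; field_simp
  calc ((cb ^ u) ^ p) ^ n = (cb ^ n) ^ (u * p) := by ring
    _ = (ca ^ n * ω ^ m) ^ (u * p) := by rw [h1]
    _ = ((ca ^ u) ^ p) ^ n * (ω ^ (u * p)) ^ m := by ring

/-- (M2). -/
theorem tb50_algM2 (ca cb ω : Λ) (hca : ca ≠ 0) (hcb : cb ≠ 0) (hω : ω ≠ 0) (p m u w n : ℕ)
    (huw : u * (p + 1) = 1 + w * m) (hL : (cb / ca) ^ n = ω ^ m) :
    (ca / cb ^ u) ^ n =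
      ((ca ^ u) ^ p) ^ n * ((ca ^ (w * n) * ω ^ u)⁻¹) ^ m := by
  have h1 : cb ^ n = ca ^ n * ω ^ m := by
    rw [← hL, div_pow]; field_simp
  have h2 : (cb ^ u) ^ n = (ca ^ u) ^ n * (ω ^ u) ^ m := by
    calc (cb ^ u) ^ n = (cb ^ n) ^ u := by ring
      _ = (ca ^ n * ω ^ m) ^ u := by rw [h1]
      _ = (ca ^ u) ^ n * (ω ^ u) ^ m := by ring
  have hx1 : (ca ^ u) ^ n ≠ 0 := pow_ne_zero _ (pow_ne_zero _ hca)
  have hx2 : (ω ^ u) ^ m ≠ 0 := pow_ne_zero _ (pow_ne_zero _ hω)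
  have hx3 : (ca ^ (w * n) * ω ^ u) ^ m ≠ 0 :=
    pow_ne_zero _ (mul_ne_zero (pow_ne_zero _ hca) (pow_ne_zero _ hω))
  have key : ((ca ^ u) ^ p) ^ n * (ca ^ u) ^ n = ca ^ n * (ca ^ (w * n)) ^ m := by
    rw [← pow_mul, ← pow_mul, ← pow_mul, ← pow_mul, ← pow_add, ← pow_add]
    congr 1
    nlinarith [huw]
  rw [div_pow, h2, inv_pow, div_eq_iff (mul_ne_zero hx1 hx2), mul_assoc,
    mul_comm _ ((ca ^ u) ^ n * (ω ^ u) ^ m), ← mul_assoc, ← mul_assoc]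
  rw [eq_comm, mul_inv_eq_iff_eq_mul₀ hx3, mul_pow]
  linear_combination (ω ^ u) ^ m * key

end FieldAlg

/-! ### Units of a subring, reductions -/

/-- `x` is a unit of the subring `W` of the field `F`. -/
def tb50_U {F : Type*} [Field F] (W : Subring F) (x : F) : Prop := x ≠ 0 ∧ x ∈ W ∧ x⁻¹ ∈ W

section Units

variable {F : Type*} [Field F] {W : Subring F}

theorem tb50_U_one : tb50_U W (1 : F) := ⟨one_ne_zero, W.one_mem, by rw [inv_one]; exact W.one_mem⟩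

theorem tb50_U_mul {x y : F} (hx : tb50_U W x) (hy : tb50_U W y) : tb50_U W (x * y) :=
  ⟨mul_ne_zero hx.1 hy.1, W.mul_mem hx.2.1 hy.2.1, by
    rw [mul_inv]; exact W.mul_mem hx.2.2 hy.2.2⟩

theorem tb50_U_inv {x : F} (hx : tb50_U W x) : tb50_U W x⁻¹ :=
  ⟨inv_ne_zero hx.1, hx.2.2, by rw [inv_inv]; exact hx.2.1⟩

theorem tb50_U_div {x y : F} (hx : tb50_U W x) (hy : tb50_U W y) : tb50_U W (x / y) := by
  rw [div_eq_mul_inv]; exact tb50_U_mul hx (tb50_U_inv hy)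

theorem tb50_U_pow {x : F} (hx : tb50_U W x) (n : ℕ) : tb50_U W (x ^ n) :=
  ⟨pow_ne_zero _ hx.1, W.pow_mem hx.2.1 n, by rw [← inv_pow]; exact W.pow_mem hx.2.2 n⟩

end Units

/-- `r` is multiplicative on `W`. -/
structure tb50_MH {F Λ : Type*} [Field F] [Field Λ] (W : Subring F) (r : F → Λ) : Prop where
  one : r 1 = 1
  mul : ∀ x ∈ W, ∀ y ∈ W, r (x * y) = r x * r y

/-- `r` is a ring homomorphism on `W`. -/
structure tb50_RH {F Λ : Type*} [Field F] [Field Λ] (W : Subring F) (r : F → Λ) : Prop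
    extends tb50_MH W r where
  add : ∀ x ∈ W, ∀ y ∈ W, r (x + y) = r x + r y

section Hom

variable {F Λ : Type*} [Field F] [Field Λ] {W : Subring F} {r : F → Λ}

theorem tb50_MH.ne_zero (h : tb50_MH W r) {x : F} (hx : tb50_U W x) : r x ≠ 0 := by
  intro h0
  have h1 : r (x * x⁻¹) = r x * r x⁻¹ := h.mul x hx.2.1 _ hx.2.2
  rw [mul_inv_cancel₀ hx.1, h.one, h0, zero_mul] at h1
  exact one_ne_zero h1

theorem tb50_MH.inv (h : tb50_MH W r) {x : F} (hx : tb50_U W x) : r x⁻¹ = (r x)⁻¹ := by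
  have h1 : r (x * x⁻¹) = r x * r x⁻¹ := h.mul x hx.2.1 _ hx.2.2
  rw [mul_inv_cancel₀ hx.1, h.one] at h1
  exact eq_inv_of_mul_eq_one_right h1.symm

theorem tb50_MH.pow (h : tb50_MH W r) {x : F} (hx : x ∈ W) (n : ℕ) : r (x ^ n) = r x ^ n := by
  induction n with
  | zero => rw [pow_zero, pow_zero, h.one]
  | succ k ih => rw [pow_succ, pow_succ, h.mul _ (W.pow_mem hx k) _ hx, ih]

theorem tb50_MH.div (h : tb50_MH W r) {x y : F} (hx : x ∈ W) (hy : tb50_U W y) :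
    r (x / y) = r x / r y := by
  rw [div_eq_mul_inv, h.mul _ hx _ hy.2.2, h.inv hy, div_eq_mul_inv]

theorem tb50_RH.zero (h : tb50_RH W r) : r 0 = 0 := by
  have h1 := h.add 0 W.zero_mem 0 W.zero_mem
  rw [add_zero] at h1
  exact left_eq_add.mp h1

theorem tb50_RH.neg (h : tb50_RH W r) {x : F} (hx : x ∈ W) : r (-x) = - r x := by
  have h1 := h.add x hx (-x) (W.neg_mem hx)
  rw [add_neg_cancel, h.zero] at h1
  exact (neg_eq_of_add_eq_zero_right h1.symm).symm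

theorem tb50_RH.sub (h : tb50_RH W r) {x y : F} (hx : x ∈ W) (hy : y ∈ W) :
    r (x - y) = r x - r y := by
  rw [sub_eq_add_neg, h.add x hx _ (W.neg_mem hy), h.neg hy, sub_eq_add_neg]

end Hom

/-! ### The frame and the main lemma -/

/-- The abstract three-branch frame (level `q² M''` over level `q M''`). -/
structure tb50_Frame {F F' Λ : Type*} [Field F] [Field F'] [Field Λ]
    (q : ℕ) (W : Subring F) (W' : Subring F') (r1 r2 r3 : F → Λ) (ri rz : F' → Λ)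
    (V : Λ →+* Λ) (α β : F' →+* F) (Nα Nβ : F →* F') (e1 e2 e3 : F)
    (Cst : Subfield Λ) (KF : Set F) : Prop where
  /-- the three reductions are ring homomorphisms on `W` -/
  h1 : tb50_RH W r1
  h2 : tb50_RH W r2
  h3 : tb50_RH W r3
  /-- the two reductions of the lower level are multiplicative on `W'` -/
  hi : tb50_MH W' ri
  hz : tb50_MH W' rz
  /-- the degeneracy maps -/
  α_mem : ∀ h ∈ W', α h ∈ W
  β_mem : ∀ h ∈ W', β h ∈ W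
  r2_α : ∀ h ∈ W', r2 (α h) = ri h
  r3_α : ∀ h ∈ W', r3 (α h) = V (rz h)
  r1_β : ∀ h ∈ W', r1 (β h) = V (ri h)
  /-- the norms preserve units -/
  Nα_U : ∀ x : F, tb50_U W x → tb50_U W' (Nα x)
  Nβ_U : ∀ x : F, tb50_U W x → tb50_U W' (Nβ x)
  /-- the four norm formulas, on units of `W` -/
  N1 : ∀ x : F, tb50_U W x → ri (Nα x) = r1 x * r2 x ^ (q - 1)
  N2 : ∀ x : F, tb50_U W x → V (rz (Nα x)) = r3 x ^ q
  N3 : ∀ x : F, tb50_U W x → V (ri (Nβ x)) = r1 x ^ q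
  N4 : ∀ x : F, tb50_U W x → rz (Nβ x) = r3 x * r2 x ^ (q - 1)
  /-- the three branch separators -/
  e1_mem : e1 ∈ W
  e2_mem : e2 ∈ W
  e3_mem : e3 ∈ W
  r1_e1 : r1 e1 = 1
  r2_e1 : r2 e1 = 0
  r3_e1 : r3 e1 = 0
  r1_e2 : r1 e2 = 0
  r2_e2 : r2 e2 = 1
  r3_e2 : r3 e2 = 0
  r1_e3 : r1 e3 = 0
  r2_e3 : r2 e3 = 0
  r3_e3 : r3 e3 = 1
  /-- unit criterion: `W = V₁ ⊓ V₂ ⊓ V₃`, the kernels of the reductions are the maximal ideals -/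
  unit_crit : ∀ x ∈ W, r1 x ≠ 0 → r2 x ≠ 0 → r3 x ≠ 0 → x⁻¹ ∈ W
  /-- constants: fixed by `V`, liftable to constant units of `W` -/
  V_cst : ∀ c ∈ Cst, V c = c
  lift : ∀ c ∈ Cst, c ≠ 0 → ∃ d ∈ KF, tb50_U W d ∧ r1 d = c ∧ r2 d = c ∧ r3 d = c

section Main

variable {F F' Λ : Type*} [Field F] [Field F'] [Field Λ]
  {q : ℕ} {W : Subring F} {W' : Subring F'} {r1 r2 r3 : F → Λ} {ri rz : F' → Λ}
  {V : Λ →+* Λ} {α β : F' →+* F} {Nα Nβ : F →* F'} {e1 e2 e3 : F}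
  {Cst : Subfield Λ} {KF : Set F}

/-- `α` maps units of `W'` to units of `W`. -/
theorem tb50_Frame.α_U (H : tb50_Frame q W W' r1 r2 r3 ri rz V α β Nα Nβ e1 e2 e3 Cst KF)
    {x : F'} (hx : tb50_U W' x) : tb50_U W (α x) :=
  ⟨(map_ne_zero α).mpr hx.1, H.α_mem x hx.2.1, by rw [← map_inv₀]; exact H.α_mem _ hx.2.2⟩

/-- `β` maps units of `W'` to units of `W`. -/
theorem tb50_Frame.β_U (H : tb50_Frame q W W' r1 r2 r3 ri rz V α β Nα Nβ e1 e2 e3 Cst KF)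
    {x : F'} (hx : tb50_U W' x) : tb50_U W (β x) :=
  ⟨(map_ne_zero β).mpr hx.1, H.β_mem x hx.2.1, by rw [← map_inv₀]; exact H.β_mem _ hx.2.2⟩

/-- Gluing with the separators: an element of `W` with prescribed reductions. -/
theorem tb50_Frame.comb (H : tb50_Frame q W W' r1 r2 r3 ri rz V α β Nα Nβ e1 e2 e3 Cst KF)
    {X1 X2 X3 : F} (hX1 : X1 ∈ W) (hX2 : X2 ∈ W) (hX3 : X3 ∈ W) :
    e1 * X1 + e2 * X2 + e3 * X3 ∈ W ∧ r1 (e1 * X1 + e2 * X2 + e3 * X3) = r1 X1 ∧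
      r2 (e1 * X1 + e2 * X2 + e3 * X3) = r2 X2 ∧ r3 (e1 * X1 + e2 * X2 + e3 * X3) = r3 X3 := by
  have m1 : e1 * X1 ∈ W := W.mul_mem H.e1_mem hX1
  have m2 : e2 * X2 ∈ W := W.mul_mem H.e2_mem hX2
  have m3 : e3 * X3 ∈ W := W.mul_mem H.e3_mem hX3
  have m12 : e1 * X1 + e2 * X2 ∈ W := W.add_mem m1 m2
  refine ⟨W.add_mem m12 m3, ?_, ?_, ?_⟩
  · rw [H.h1.add _ m12 _ m3, H.h1.add _ m1 _ m2, H.h1.mul _ H.e1_mem _ hX1,
      H.h1.mul _ H.e2_mem _ hX2, H.h1.mul _ H.e3_mem _ hX3, H.r1_e1, H.r1_e2, H.r1_e3]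
    ring
  · rw [H.h2.add _ m12 _ m3, H.h2.add _ m1 _ m2, H.h2.mul _ H.e1_mem _ hX1,
      H.h2.mul _ H.e2_mem _ hX2, H.h2.mul _ H.e3_mem _ hX3, H.r2_e1, H.r2_e2, H.r2_e3]
    ring
  · rw [H.h3.add _ m12 _ m3, H.h3.add _ m1 _ m2, H.h3.mul _ H.e1_mem _ hX1,
      H.h3.mul _ H.e2_mem _ hX2, H.h3.mul _ H.e3_mem _ hX3, H.r3_e1, H.r3_e2, H.r3_e3]
    ring

/-- The glued element is a unit when the prescribed reductions are nonzero. -/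
theorem tb50_Frame.comb_U (H : tb50_Frame q W W' r1 r2 r3 ri rz V α β Nα Nβ e1 e2 e3 Cst KF)
    {X1 X2 X3 : F} (hX1 : X1 ∈ W) (hX2 : X2 ∈ W) (hX3 : X3 ∈ W)
    (h1 : r1 X1 ≠ 0) (h2 : r2 X2 ≠ 0) (h3 : r3 X3 ≠ 0) :
    tb50_U W (e1 * X1 + e2 * X2 + e3 * X3) := by
  obtain ⟨hm, hr1, hr2, hr3⟩ := H.comb hX1 hX2 hX3
  refine ⟨?_, hm, H.unit_crit _ hm (by rw [hr1]; exact h1) (by rw [hr2]; exact h2)
    (by rw [hr3]; exact h3)⟩
  intro h0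
  rw [h0, H.h1.zero] at hr1
  exact h1 hr1.symm

end Main

section MainThm

variable {F F' Λ : Type*} [Field F] [Field F'] [Field Λ]
  {q : ℕ} {W : Subring F} {W' : Subring F'} {r1 r2 r3 : F → Λ} {ri rz : F' → Λ}
  {V : Λ →+* Λ} {α β : F' →+* F} {Nα Nβ : F →* F'} {e1 e2 e3 : F}
  {Cst : Subfield Λ} {KF : Set F}

/-- **The three-branch lemma.**  `f` a unit of `W` with `Nα f = A0 * a ^ m`,
`Nβ f = B0 * b ^ m` (`a`, `b` units of `W'`, `A0`, `B0` units of `W'` with constant reductions,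
`(q, m) = 1`, constants `m`-root-closed in `Λ`): then
`f ^ ((q - 1) * (q + 1)) / (D * G ^ m)` has all three reductions equal to `1`, for a unit `G`
of `W` and a constant unit `D`. -/
theorem tb50_main (H : tb50_Frame q W W' r1 r2 r3 ri rz V α β Nα Nβ e1 e2 e3 Cst KF)
    (hq : 1 ≤ q) (m : ℕ) (hm : 1 ≤ m) (hmq : Nat.Coprime q m)
    (hroot : ∀ x : Λ, x ^ m ∈ Cst → x ∈ Cst)
    (f : F) (hf : tb50_U W f) (a b A0 B0 : F')
    (ha : tb50_U W' a) (hb : tb50_U W' b) (hA0 : tb50_U W' A0) (hB0 : tb50_U W' B0)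
    (ca cb : Λ) (hca : ca ∈ Cst) (hcb : cb ∈ Cst)
    (hA0i : ri A0 = ca) (hA0z : rz A0 = ca) (hB0i : ri B0 = cb) (hB0z : rz B0 = cb)
    (hNα : Nα f = A0 * a ^ m) (hNβ : Nβ f = B0 * b ^ m) :
    ∃ G D : F, tb50_U W G ∧ D ∈ KF ∧ tb50_U W D ∧
      r1 (f ^ ((q - 1) * (q + 1)) / (D * G ^ m)) = 1 ∧
      r2 (f ^ ((q - 1) * (q + 1)) / (D * G ^ m)) = 1 ∧
      r3 (f ^ ((q - 1) * (q + 1)) / (D * G ^ m)) = 1 := by
  obtain ⟨p, rfl⟩ : ∃ p, q = p + 1 := ⟨q - 1, by omega⟩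
  obtain ⟨u, w, huw⟩ := tb50_bezout (p + 1) m hq hm hmq
  have M1 := H.h1.totb50_MH
  have M2 := H.h2.totb50_MH
  have M3 := H.h3.totb50_MH
  -- nonvanishing
  have hx1 : r1 f ≠ 0 := M1.ne_zero hf
  have hx2 : r2 f ≠ 0 := M2.ne_zero hf
  have hx3 : r3 f ≠ 0 := M3.ne_zero hf
  have hca0 : ca ≠ 0 := by rw [← hA0i]; exact H.hi.ne_zero hA0
  have hcb0 : cb ≠ 0 := by rw [← hB0i]; exact H.hi.ne_zero hB0
  have hαa : tb50_U W (α a) := H.α_U ha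
  have hβb : tb50_U W (β b) := H.β_U hb
  have ham : a ^ m ∈ W' := W'.pow_mem ha.2.1 m
  have hbm : b ^ m ∈ W' := W'.pow_mem hb.2.1 m
  -- the four relations
  have hB : r3 f ^ (p + 1) = ca * r3 (α a) ^ m := by
    have h := H.N2 f hf
    rw [hNα, H.hz.mul A0 hA0.2.1 _ ham, H.hz.pow ha.2.1 m, hA0z, map_mul, map_pow,
      H.V_cst ca hca, ← H.r3_α a ha.2.1] at h
    exact h.symm
  have hC : r1 f ^ (p + 1) = cb * r1 (β b) ^ m := by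
    have h := H.N3 f hf
    rw [hNβ, H.hi.mul B0 hB0.2.1 _ hbm, H.hi.pow hb.2.1 m, hB0i, map_mul, map_pow,
      H.V_cst cb hcb, ← H.r1_β b hb.2.1] at h
    exact h.symm
  have hD : r1 f * r2 f ^ p = ca * r2 (α a) ^ m := by
    have h := H.N1 f hf
    rw [hNα, H.hi.mul A0 hA0.2.1 _ ham, H.hi.pow ha.2.1 m, hA0i, Nat.add_sub_cancel,
      ← H.r2_α a ha.2.1] at h
    exact h.symm
  have hE : r3 f * r2 f ^ p = cb * rz b ^ m := by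
    have h := H.N4 f hf
    rw [hNβ, H.hz.mul B0 hB0.2.1 _ hbm, H.hz.pow hb.2.1 m, hB0z, Nat.add_sub_cancel] at h
    exact h.symm
  -- the roots on the branches 3 and 1
  have hg3U : tb50_U W (α a ^ u / f ^ w) := tb50_U_div (tb50_U_pow hαa u) (tb50_U_pow hf w)
  have hg1U : tb50_U W (β b ^ u / f ^ w) := tb50_U_div (tb50_U_pow hβb u) (tb50_U_pow hf w)
  have hr3g3 : r3 (α a ^ u / f ^ w) = r3 (α a) ^ u / r3 f ^ w := by
    rw [M3.div (W.pow_mem hαa.2.1 u) (tb50_U_pow hf w), M3.pow hαa.2.1, M3.pow hf.2.1]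
  have hr1g1 : r1 (β b ^ u / f ^ w) = r1 (β b) ^ u / r1 f ^ w := by
    rw [M1.div (W.pow_mem hβb.2.1 u) (tb50_U_pow hf w), M1.pow hβb.2.1, M1.pow hf.2.1]
  have hF : r3 f = ca ^ u * r3 (α a ^ u / f ^ w) ^ m := by
    rw [hr3g3]; exact tb50_root (r3 f) ca (r3 (α a)) hx3 (p + 1) m u w huw hB
  have hG : r1 f = cb ^ u * r1 (β b ^ u / f ^ w) ^ m := by
    rw [hr1g1]; exact tb50_root (r1 f) cb (r1 (β b)) hx1 (p + 1) m u w huw hC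
  have hy3 : r3 (α a ^ u / f ^ w) ≠ 0 := M3.ne_zero hg3U
  have hy1 : r1 (β b ^ u / f ^ w) ≠ 0 := M1.ne_zero hg1U
  -- transport of the root of branch 1 to branch 2
  obtain ⟨hym, hyr1, hyr2, hyr3⟩ := H.comb hg1U.2.1 W.one_mem W.one_mem
  have hyU : tb50_U W (e1 * (β b ^ u / f ^ w) + e2 * 1 + e3 * 1) :=
    H.comb_U hg1U.2.1 W.one_mem W.one_mem hy1 (by rw [M2.one]; exact one_ne_zero)
      (by rw [M3.one]; exact one_ne_zero)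
  have hTU : tb50_U W (α (Nα (e1 * (β b ^ u / f ^ w) + e2 * 1 + e3 * 1))) :=
    H.α_U (H.Nα_U _ hyU)
  have hr2T : r2 (α (Nα (e1 * (β b ^ u / f ^ w) + e2 * 1 + e3 * 1))) =
      r1 (β b ^ u / f ^ w) := by
    rw [H.r2_α _ (H.Nα_U _ hyU).2.1, H.N1 _ hyU, hyr1, hyr2, M2.one, one_pow, mul_one]
  have hS : r2 (α a) ≠ 0 := M2.ne_zero hαa
  have hI : r2 f ^ p = ca / cb ^ u * (r2 (α a) / r1 (β b ^ u / f ^ w)) ^ m :=
    tb50_algI (r1 f) (r2 f) ca cb (r2 (α a)) _ hcb0 hy1 p m u hD hG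
  -- the element `G₀`
  have hX1 : (β b ^ u / f ^ w) ^ p ∈ W := W.pow_mem hg1U.2.1 p
  have hX2U : tb50_U W (α a / α (Nα (e1 * (β b ^ u / f ^ w) + e2 * 1 + e3 * 1))) :=
    tb50_U_div hαa hTU
  have hX3 : (α a ^ u / f ^ w) ^ p ∈ W := W.pow_mem hg3U.2.1 p
  obtain ⟨hGm, hGr1, hGr2, hGr3⟩ := H.comb hX1 hX2U.2.1 hX3
  rw [M1.pow hg1U.2.1] at hGr1
  rw [M2.div hαa.2.1 hTU, hr2T] at hGr2
  rw [M3.pow hg3U.2.1] at hGr3
  have hGU : tb50_U W (e1 * (β b ^ u / f ^ w) ^ p +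
      e2 * (α a / α (Nα (e1 * (β b ^ u / f ^ w) + e2 * 1 + e3 * 1))) +
      e3 * (α a ^ u / f ^ w) ^ p) := by
    refine H.comb_U hX1 hX2U.2.1 hX3 ?_ ?_ ?_
    · rw [M1.pow hg1U.2.1]; exact pow_ne_zero _ hy1
    · exact M2.ne_zero hX2U
    · rw [M3.pow hg3U.2.1]; exact pow_ne_zero _ hy3
  set G₀ : F := e1 * (β b ^ u / f ^ w) ^ p +
      e2 * (α a / α (Nα (e1 * (β b ^ u / f ^ w) + e2 * 1 + e3 * 1))) +
      e3 * (α a ^ u / f ^ w) ^ p with hG₀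
  -- `f₃ := f ^ p / G₀ ^ m` and its reductions
  have hf3U : tb50_U W (f ^ p / G₀ ^ m) := tb50_U_div (tb50_U_pow hf p) (tb50_U_pow hGU m)
  have hf3r1 : r1 (f ^ p / G₀ ^ m) = (cb ^ u) ^ p := by
    rw [M1.div (W.pow_mem hf.2.1 p) (tb50_U_pow hGU m), M1.pow hf.2.1, M1.pow hGU.2.1, hGr1]
    exact tb50_gamma13 (r1 f) cb _ hy1 p m u hG
  have hf3r2 : r2 (f ^ p / G₀ ^ m) = ca / cb ^ u := by
    rw [M2.div (W.pow_mem hf.2.1 p) (tb50_U_pow hGU m), M2.pow hf.2.1, M2.pow hGU.2.1, hGr2]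
    exact tb50_gamma2 (r2 f) ca cb (r2 (α a)) _ hS hy1 p m u hI
  have hf3r3 : r3 (f ^ p / G₀ ^ m) = (ca ^ u) ^ p := by
    rw [M3.div (W.pow_mem hf.2.1 p) (tb50_U_pow hGU m), M3.pow hf.2.1, M3.pow hGU.2.1, hGr3]
    exact tb50_gamma13 (r3 f) ca _ hy3 p m u hF
  -- the constant `Z` from the fourth norm formula
  have hBz : rz b ≠ 0 := H.hz.ne_zero hb
  have hK := tb50_algK (r2 f) (r3 f) ca cb (r2 (α a)) (r1 (β b ^ u / f ^ w))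
    (r3 (α a ^ u / f ^ w)) (rz b) hca0 hcb0 hBz p m u hE hF hI
  have hρ0 : cb / ca ≠ 0 := div_ne_zero hcb0 hca0
  have hρC : cb / ca ∈ Cst := Cst.div_mem hcb hca
  have hZC : r3 (α a ^ u / f ^ w) * (r2 (α a) / r1 (β b ^ u / f ^ w)) / rz b ∈ Cst :=
    hroot _ (by rw [hK]; exact Cst.pow_mem hρC _)
  set Z : Λ := r3 (α a ^ u / f ^ w) * (r2 (α a) / r1 (β b ^ u / f ^ w)) / rz b with hZ
  have hL := tb50_algL (cb / ca) Z hρ0 (p + 1) m u w huw hK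
  have hωC : Z ^ (p + 1) / (cb / ca) ^ w ∈ Cst := Cst.div_mem (Cst.pow_mem hZC _) (Cst.pow_mem hρC _)
  set ω : Λ := Z ^ (p + 1) / (cb / ca) ^ w with hω
  have hω0 : ω ≠ 0 := by
    intro h0
    rw [h0, zero_pow (by omega)] at hL
    exact pow_ne_zero _ hρ0 hL.symm
  -- the correcting constants
  have hM1 := tb50_algM1 ca cb ω hca0 p m u (p + 1 + 1) hL.symm
  have hM2 := tb50_algM2 ca cb ω hca0 hcb0 hω0 p m u w (p + 1 + 1) huw hL.symm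
  have hc3C : ((ca ^ u) ^ p) ^ (p + 1 + 1) ∈ Cst := Cst.pow_mem (Cst.pow_mem (Cst.pow_mem hca _) _) _
  have hc30 : ((ca ^ u) ^ p) ^ (p + 1 + 1) ≠ 0 := pow_ne_zero _ (pow_ne_zero _ (pow_ne_zero _ hca0))
  have hδ1C : ω ^ (u * p) ∈ Cst := Cst.pow_mem hωC _
  have hδ10 : ω ^ (u * p) ≠ 0 := pow_ne_zero _ hω0
  have hδ2C : (ca ^ (w * (p + 1 + 1)) * ω ^ u)⁻¹ ∈ Cst :=
    Cst.inv_mem (Cst.mul_mem (Cst.pow_mem hca _) (Cst.pow_mem hωC _))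
  have hδ20 : (ca ^ (w * (p + 1 + 1)) * ω ^ u)⁻¹ ≠ 0 :=
    inv_ne_zero (mul_ne_zero (pow_ne_zero _ hca0) (pow_ne_zero _ hω0))
  obtain ⟨D, hDK, hDU, hDr1, hDr2, hDr3⟩ := H.lift _ hc3C hc30
  obtain ⟨d1, -, hd1U, hd1r1, -, -⟩ := H.lift _ hδ1C hδ10
  obtain ⟨d2, -, hd2U, -, hd2r2, -⟩ := H.lift _ hδ2C hδ20
  obtain ⟨hθm, hθr1, hθr2, hθr3⟩ := H.comb hd1U.2.1 hd2U.2.1 W.one_mem
  have hθU : tb50_U W (e1 * d1 + e2 * d2 + e3 * 1) :=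
    H.comb_U hd1U.2.1 hd2U.2.1 W.one_mem (by rw [hd1r1]; exact hδ10) (by rw [hd2r2]; exact hδ20)
      (by rw [M3.one]; exact one_ne_zero)
  rw [hd1r1] at hθr1
  rw [hd2r2] at hθr2
  rw [M3.one] at hθr3
  set θ : F := e1 * d1 + e2 * d2 + e3 * 1 with hθ
  -- assembling
  have hG'U : tb50_U W (G₀ ^ (p + 1 + 1) * θ) := tb50_U_mul (tb50_U_pow hGU _) hθU
  have hid : f ^ ((p + 1 - 1) * (p + 1 + 1)) / (D * (G₀ ^ (p + 1 + 1) * θ) ^ m) =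
      (f ^ p / G₀ ^ m) ^ (p + 1 + 1) / (D * θ ^ m) := by
    rw [Nat.add_sub_cancel, div_pow, mul_pow, div_div, ← pow_mul, ← pow_mul, ← pow_mul]
    congr 1
    ring
  have hden : tb50_U W (D * θ ^ m) := tb50_U_mul hDU (tb50_U_pow hθU m)
  have hnum : (f ^ p / G₀ ^ m) ^ (p + 1 + 1) ∈ W := W.pow_mem hf3U.2.1 _
  refine ⟨G₀ ^ (p + 1 + 1) * θ, D, hG'U, hDK, hDU, ?_, ?_, ?_⟩
  · rw [hid, M1.div hnum hden, M1.pow hf3U.2.1, M1.mul _ hDU.2.1 _ (W.pow_mem hθU.2.1 m),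
      M1.pow hθU.2.1, hf3r1, hDr1, hθr1, hM1]
    exact div_self (mul_ne_zero hc30 (pow_ne_zero _ hδ10))
  · rw [hid, M2.div hnum hden, M2.pow hf3U.2.1, M2.mul _ hDU.2.1 _ (W.pow_mem hθU.2.1 m),
      M2.pow hθU.2.1, hf3r2, hDr2, hθr2, hM2]
    exact div_self (mul_ne_zero hc30 (pow_ne_zero _ hδ20))
  · rw [hid, M3.div hnum hden, M3.pow hf3U.2.1, M3.mul _ hDU.2.1 _ (W.pow_mem hθU.2.1 m),
      M3.pow hθU.2.1, hf3r3, hDr3, hθr3, one_pow, mul_one]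
    exact div_self hc30

end MainThm

end Fermat.Agent.S36
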