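/-
helper50 (S36 lab, rows 609 / 594 / 605 binder help): the three-branch frame `tb50_Frame` of
`ThreeBranch50` from INTRINSIC valuation data, Mathlib + `ThreeBranch50` only.

Level `q² M''` over level `q M''`:  `Vi V0` the two vertical valuation rings of the lower field
`F'` with reductions `ri rz : F' → Λ` (ring homs on `Vi`, `V0`, kernels the maximal ideals);
`V1 V2 V3` the three vertical valuation rings of the upper field `F`.

* `fov50_ext γ V' V r'` : the reduction of `V` induced by the reduction `r'` of `V'` along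
  `γ : F' →+* F` when `V` lies over `V'` with residue degree one (`fov50_Over`);
  it is a ring hom on `V` (`fov50_Over.ext_rh`) with kernel the maximal ideal
  (`ext_nu`, `ext_ker`) and `ext (γ a) = r' a` (`ext_alg`);
* `fov50_Data` : the intrinsic data (residue degree one of `V1, V2` over `Vi` along `α` and of
  `V3` over `V0` along `β`; the cross compatibilities; the four norm congruences in the shape of
  `nv88_ram_norm` / `nv88_inert_norm`; pure inseparability; one separator of the lower level;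
  constants);
* `fov50_frame` : `fov50_Data → tb50_Frame` with `r1 r2 r3` the induced reductions;
* `fov50_main` : the three-branch lemma in valuation form:
  `f ^ ((q-1)*(q+1)) / (D * G ^ m) - 1` lies in the maximal ideals of `V1`, `V2`, `V3`;
* `fov50_mid` : the `β`-side facts on `V2` from (MID) `β (w g) - α g ∈ 𝔪(V2)` (`g ∈ Vi`);
* `fov50_nu_iff_unif` : `x ∈ 𝔪(V) ↔ ϖ⁻¹ * x ∈ V` for a uniformizer `ϖ` (conversion to the
  shapes of `oe72_ram_main` / `nv88_*`).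
-/
import Mathlib
import Fermat.Agent.S36.ThreeBranch50

set_option autoImplicit false
set_option linter.unusedSectionVars false
set_option linter.unusedVariables false

namespace Fermat.Agent.S36

/-! ### Nonunits of a valuation subring -/

section Nonunits

variable {F : Type*} [Field F] (V : ValuationSubring F)

theorem fov50_nu_iff {x : F} : x ∈ V.nonunits ↔ V.valuation x < 1 :=
  ValuationSubring.mem_nonunits_iff V

theorem fov50_nu_mem {x : F} (hx : x ∈ V.nonunits) : x ∈ V :=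
  (V.valuation_le_one_iff x).mp (le_of_lt ((fov50_nu_iff V).mp hx))

theorem fov50_nu_zero : (0 : F) ∈ V.nonunits := by
  rw [fov50_nu_iff, map_zero]
  exact zero_lt_one

theorem fov50_nu_add {x y : F} (hx : x ∈ V.nonunits) (hy : y ∈ V.nonunits) :
    x + y ∈ V.nonunits := by
  rw [fov50_nu_iff] at *
  exact Valuation.map_add_lt _ hx hy

theorem fov50_nu_neg {x : F} (hx : x ∈ V.nonunits) : -x ∈ V.nonunits := by
  rw [fov50_nu_iff] at *
  rwa [Valuation.map_neg]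

theorem fov50_nu_sub {x y : F} (hx : x ∈ V.nonunits) (hy : y ∈ V.nonunits) :
    x - y ∈ V.nonunits := by
  rw [sub_eq_add_neg]
  exact fov50_nu_add V hx (fov50_nu_neg V hy)

theorem fov50_nu_mul {x y : F} (hx : x ∈ V.nonunits) (hy : y ∈ V) : x * y ∈ V.nonunits := by
  rw [fov50_nu_iff] at *
  rw [map_mul]
  have hy' : V.valuation y ≤ 1 := (V.valuation_le_one_iff y).mpr hy
  exact lt_of_le_of_lt (mul_le_of_le_one_right' hy') hx

theorem fov50_nu_mul' {x y : F} (hx : x ∈ V) (hy : y ∈ V.nonunits) : x * y ∈ V.nonunits := by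
  rw [mul_comm]
  exact fov50_nu_mul V hy hx

theorem fov50_inv_mem {x : F} (hx : x ∈ V) (hn : x ∉ V.nonunits) : x⁻¹ ∈ V := by
  rw [fov50_nu_iff, not_lt] at hn
  rw [← V.valuation_le_one_iff, map_inv₀]
  exact inv_le_one_of_one_le₀ hn

theorem fov50_not_nu_of_inv {x : F} (hx0 : x ≠ 0) (hx : x⁻¹ ∈ V) : x ∉ V.nonunits := by
  intro h
  rw [fov50_nu_iff] at h
  have h1 : V.valuation x⁻¹ ≤ 1 := (V.valuation_le_one_iff _).mpr hx
  rw [map_inv₀] at h1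
  have hv0 : V.valuation x ≠ 0 := (map_ne_zero _).mpr hx0
  have h2 : (1 : _) ≤ V.valuation x := (inv_le_one₀ (zero_lt_iff.mpr hv0)).mp h1
  exact absurd h (not_lt.mpr h2)

/-- Conversion to the uniformizer shape: `x ∈ 𝔪(V) ↔ ϖ⁻¹ * x ∈ V`. -/
theorem fov50_nu_iff_unif (ϖ : F) (hϖ : ϖ ∈ V) (hϖ' : ϖ⁻¹ ∉ V)
    (hmax : ∀ x ∈ V, x⁻¹ ∉ V → ϖ⁻¹ * x ∈ V) (x : F) :
    x ∈ V.nonunits ↔ ϖ⁻¹ * x ∈ V := by
  have hϖ0 : ϖ ≠ 0 := by
    intro h
    apply hϖ'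
    rw [h, inv_zero]
    exact V.zero_mem
  have hϖnu : ϖ ∈ V.nonunits := by
    by_contra hn
    exact hϖ' (fov50_inv_mem V hϖ hn)
  constructor
  · intro hx
    by_cases hx0 : x = 0
    · rw [hx0, mul_zero]
      exact V.zero_mem
    · refine hmax x (fov50_nu_mem V hx) ?_
      intro hinv
      exact fov50_not_nu_of_inv V hx0 hinv hx
  · intro hx
    have : x = ϖ * (ϖ⁻¹ * x) := by
      rw [← mul_assoc, mul_inv_cancel₀ hϖ0, one_mul]
    rw [this]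
    exact fov50_nu_mul V hϖnu hx

end Nonunits

/-! ### The induced reduction along a residue-degree-one extension -/

section Ext

variable {F' F Λ : Type*} [Field F'] [Field F] [Field Λ]

open Classical in
/-- The reduction of `V` induced by the reduction `r'` of `V'` along `γ` (residue degree one):
`x ↦ r' b` for any `b ∈ V'` with `x - γ b ∈ 𝔪(V)`. -/
noncomputable def fov50_ext (γ : F' →+* F) (V' : ValuationSubring F') (V : ValuationSubring F)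
    (r' : F' → Λ) (x : F) : Λ :=
  if h : ∃ b ∈ V', x - γ b ∈ V.nonunits then r' (Classical.choose h) else 0

/-- `V` lies over `V'` along `γ` with residue degree one, and `r'` is a reduction of `V'`
(a ring hom on `V'` whose kernel is the maximal ideal). -/
structure fov50_Over (γ : F' →+* F) (V' : ValuationSubring F') (V : ValuationSubring F)
    (r' : F' → Λ) : Prop where
  rh : tb50_RH V'.toSubring r'
  ker : ∀ b ∈ V', r' b = 0 ↔ b ∈ V'.nonunits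
  mem : ∀ a ∈ V', γ a ∈ V
  nu : ∀ a ∈ V'.nonunits, γ a ∈ V.nonunits
  res : ∀ x ∈ V, ∃ b ∈ V', x - γ b ∈ V.nonunits

variable {γ : F' →+* F} {V' : ValuationSubring F'} {V : ValuationSubring F} {r' : F' → Λ}

theorem fov50_Over.unit_of (H : fov50_Over γ V' V r') {a : F'} (ha : a ∈ V')
    (h : γ a ∈ V.nonunits) : a ∈ V'.nonunits := by
  by_contra hn
  have ha0 : a ≠ 0 := fun h0 => hn (h0 ▸ fov50_nu_zero V')
  have h1 : a⁻¹ ∈ V' := fov50_inv_mem V' ha hn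
  have h2 : (γ a)⁻¹ ∈ V := by
    rw [← map_inv₀]
    exact H.mem _ h1
  exact fov50_not_nu_of_inv V ((map_ne_zero γ).mpr ha0) h2 h

/-- Congruent elements of `V'` have the same reduction. -/
theorem fov50_Over.congr' (H : fov50_Over γ V' V r') {a b : F'} (hb : b ∈ V')
    (hab : a - b ∈ V'.nonunits) : a ∈ V' ∧ r' a = r' b := by
  have ha : a ∈ V' := by
    have : a = (a - b) + b := by ring
    rw [this]
    exact add_mem (fov50_nu_mem V' hab) hb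
  refine ⟨ha, ?_⟩
  have h3 : r' (a - b) = 0 := (H.ker _ (sub_mem ha hb)).mpr hab
  rw [H.rh.sub ha hb, sub_eq_zero] at h3
  exact h3

theorem fov50_Over.ext_eq (H : fov50_Over γ V' V r') {x : F} {b : F'} (hb : b ∈ V')
    (hxb : x - γ b ∈ V.nonunits) : fov50_ext γ V' V r' x = r' b := by
  have hex : ∃ b ∈ V', x - γ b ∈ V.nonunits := ⟨b, hb, hxb⟩
  unfold fov50_ext
  rw [dif_pos hex]
  obtain ⟨hc, hxc⟩ := Classical.choose_spec hex
  have h1 : γ (Classical.choose hex - b) ∈ V.nonunits := by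
    have : γ (Classical.choose hex - b) = (x - γ b) - (x - γ (Classical.choose hex)) := by
      rw [map_sub]
      ring
    rw [this]
    exact fov50_nu_sub V hxb hxc
  have h2 : Classical.choose hex - b ∈ V'.nonunits := H.unit_of (sub_mem hc hb) h1
  exact (H.congr' hb h2).2

theorem fov50_Over.ext_alg (H : fov50_Over γ V' V r') {a : F'} (ha : a ∈ V') :
    fov50_ext γ V' V r' (γ a) = r' a :=
  H.ext_eq ha (by rw [sub_self]; exact fov50_nu_zero V)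

theorem fov50_Over.ext_nu (H : fov50_Over γ V' V r') {x : F} (hx : x ∈ V.nonunits) :
    fov50_ext γ V' V r' x = 0 := by
  have h := H.ext_eq (x := x) V'.zero_mem (by rw [map_zero, sub_zero]; exact hx)
  rw [h, H.rh.zero]

theorem fov50_Over.ext_rh (H : fov50_Over γ V' V r') :
    tb50_RH V.toSubring (fov50_ext γ V' V r') := by
  refine { one := ?_, mul := ?_, add := ?_ }
  · have h := H.ext_alg (a := 1) V'.one_mem
    rw [map_one] at h
    rw [h, H.rh.one]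
  · intro x hx y hy
    obtain ⟨b, hb, hxb⟩ := H.res x hx
    obtain ⟨c, hc, hyc⟩ := H.res y hy
    have h1 : x * y - γ (b * c) ∈ V.nonunits := by
      have : x * y - γ (b * c) = (x - γ b) * y + γ b * (y - γ c) := by
        rw [map_mul]
        ring
      rw [this]
      exact fov50_nu_add V (fov50_nu_mul V hxb hy) (fov50_nu_mul' V (H.mem b hb) hyc)
    rw [H.ext_eq (mul_mem hb hc) h1, H.ext_eq hb hxb, H.ext_eq hc hyc, H.rh.mul b hb c hc]
  · intro x hx y hy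
    obtain ⟨b, hb, hxb⟩ := H.res x hx
    obtain ⟨c, hc, hyc⟩ := H.res y hy
    have h1 : x + y - γ (b + c) ∈ V.nonunits := by
      have : x + y - γ (b + c) = (x - γ b) + (y - γ c) := by
        rw [map_add]
        ring
      rw [this]
      exact fov50_nu_add V hxb hyc
    rw [H.ext_eq (add_mem hb hc) h1, H.ext_eq hb hxb, H.ext_eq hc hyc, H.rh.add b hb c hc]

theorem fov50_Over.ext_ker (H : fov50_Over γ V' V r') {x : F} (hx : x ∈ V)
    (h0 : fov50_ext γ V' V r' x = 0) : x ∈ V.nonunits := by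
  obtain ⟨b, hb, hxb⟩ := H.res x hx
  rw [H.ext_eq hb hxb] at h0
  have hb' : b ∈ V'.nonunits := (H.ker b hb).mp h0
  have : x = (x - γ b) + γ b := by ring
  rw [this]
  exact fov50_nu_add V hxb (H.nu b hb')

theorem fov50_Over.ext_congr (H : fov50_Over γ V' V r') {x y : F} (hx : x ∈ V) (hy : y ∈ V)
    (h : x - y ∈ V.nonunits) : fov50_ext γ V' V r' x = fov50_ext γ V' V r' y := by
  have h1 := H.ext_rh.sub (x := x) (y := y) hx hy
  rw [H.ext_nu h] at h1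
  exact sub_eq_zero.mp h1.symm

end Ext

/-! ### The intrinsic data and the frame -/

/-- The intrinsic valuation data of the level-`q²` frame over the level-`q` frame. -/
structure fov50_Data {F' F Λ : Type*} [Field F'] [Field F] [Field Λ] (q : ℕ)
    (Vi V0 : ValuationSubring F') (V1 V2 V3 : ValuationSubring F) (ri rz : F' → Λ)
    (Vs : Λ →+* Λ) (α β : F' →+* F) (Nα Nβ : F →* F') (e0 : F') (Cst : Subfield Λ)
    (KF' : Set F') : Prop where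
  /-- `V1`, `V2` over `Vi` along `α`, `V3` over `V0` along `β`, residue degree one -/
  o1 : fov50_Over α Vi V1 ri
  o2 : fov50_Over α Vi V2 ri
  o3 : fov50_Over β V0 V3 rz
  /-- cross compatibilities -/
  α3_mem : ∀ h ∈ V0, α h ∈ V3
  α3 : ∀ h ∈ V0, ∀ v ∈ V0, α h - β v ∈ V3.nonunits → rz v = Vs (rz h)
  β1_mem : ∀ h ∈ Vi, β h ∈ V1
  β1 : ∀ h ∈ Vi, ∀ v ∈ Vi, β h - α v ∈ V1.nonunits → ri v = Vs (ri h)
  β2_mem : ∀ h ∈ V0, β h ∈ V2
  β2 : ∀ h ∈ V0, ∀ v ∈ Vi, β h - α v ∈ V2.nonunits → ri v = rz h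
  res2β : ∀ x ∈ V2, ∃ b ∈ V0, x - β b ∈ V2.nonunits
  /-- the four norm congruences (shapes of `nv88_ram_norm`, `nv88_inert_norm`) -/
  ramα : ∀ y ∈ V1, y ∈ V2 → ∀ v1 ∈ Vi, ∀ v2 ∈ Vi, y - α v1 ∈ V1.nonunits →
    y - α v2 ∈ V2.nonunits → Nα y - v1 * v2 ^ (q - 1) ∈ Vi.nonunits
  inα : ∀ y ∈ V3, ∀ v ∈ V0, y ^ q - α v ∈ V3.nonunits → Nα y - v ∈ V0.nonunits
  ramβ : ∀ y ∈ V3, y ∈ V2 → ∀ v3 ∈ V0, ∀ v2 ∈ V0, y - β v3 ∈ V3.nonunits →
    y - β v2 ∈ V2.nonunits → Nβ y - v3 * v2 ^ (q - 1) ∈ V0.nonunits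
  inβ : ∀ y ∈ V1, ∀ v ∈ Vi, y ^ q - β v ∈ V1.nonunits → Nβ y - v ∈ Vi.nonunits
  /-- pure inseparability of `V3` over `V0` along `α` and of `V1` over `Vi` along `β` -/
  insα : ∀ y ∈ V3, ∃ v ∈ V0, y ^ q - α v ∈ V3.nonunits
  insβ : ∀ y ∈ V1, ∃ v ∈ Vi, y ^ q - β v ∈ V1.nonunits
  /-- a separator of the lower level -/
  e0_i : e0 ∈ Vi
  e0_z : e0 ∈ V0
  ri_e0 : ri e0 = 0
  rz_e0 : rz e0 = 1
  /-- constants -/
  V_cst : ∀ c ∈ Cst, Vs c = c
  lift : ∀ c ∈ Cst, c ≠ 0 →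
    ∃ d ∈ KF', tb50_U (Vi.toSubring ⊓ V0.toSubring) d ∧ ri d = c ∧ rz d = c

section Frame

variable {F' F Λ : Type*} [Field F'] [Field F] [Field Λ] {q : ℕ}
  {Vi V0 : ValuationSubring F'} {V1 V2 V3 : ValuationSubring F} {ri rz : F' → Λ}
  {Vs : Λ →+* Λ} {α β : F' →+* F} {Nα Nβ : F →* F'} {e0 : F'} {Cst : Subfield Λ}
  {KF' : Set F'}

theorem fov50_memW {x : F} :
    x ∈ V1.toSubring ⊓ V2.toSubring ⊓ V3.toSubring ↔ x ∈ V1 ∧ x ∈ V2 ∧ x ∈ V3 := by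
  rw [Subring.mem_inf, Subring.mem_inf]
  exact ⟨fun h => ⟨h.1.1, h.1.2, h.2⟩, fun h => ⟨⟨h.1, h.2.1⟩, h.2.2⟩⟩

theorem fov50_memW' {x : F'} : x ∈ Vi.toSubring ⊓ V0.toSubring ↔ x ∈ Vi ∧ x ∈ V0 :=
  Subring.mem_inf

theorem fov50_RH_mono {W W₀ : Subring F} {r : F → Λ} (h : tb50_RH W r) (hle : W₀ ≤ W) :
    tb50_RH W₀ r :=
  { one := h.one
    mul := fun x hx y hy => h.mul x (hle hx) y (hle hy)
    add := fun x hx y hy => h.add x (hle hx) y (hle hy) }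

theorem fov50_norm_inv (N : F →* F') {x : F} (hx : x ≠ 0) :
    N x ≠ 0 ∧ N x⁻¹ = (N x)⁻¹ := by
  have h1 : N x * N x⁻¹ = 1 := by rw [← map_mul, mul_inv_cancel₀ hx, map_one]
  have h0 : N x ≠ 0 := fun h => by rw [h, zero_mul] at h1; exact zero_ne_one h1
  exact ⟨h0, (inv_eq_of_mul_eq_one_right h1).symm⟩

variable (D : fov50_Data q Vi V0 V1 V2 V3 ri rz Vs α β Nα Nβ e0 Cst KF')

include D

/-- `r3 (α h) = V (rz h)` for `h ∈ V0`. -/
theorem fov50_Data.r3α {h : F'} (hh : h ∈ V0) :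
    fov50_ext β V0 V3 rz (α h) = Vs (rz h) := by
  obtain ⟨v, hv, hhv⟩ := D.o3.res (α h) (D.α3_mem h hh)
  rw [D.o3.ext_eq hv hhv, D.α3 h hh v hv hhv]

/-- `r1 (β h) = V (ri h)` for `h ∈ Vi`. -/
theorem fov50_Data.r1β {h : F'} (hh : h ∈ Vi) :
    fov50_ext α Vi V1 ri (β h) = Vs (ri h) := by
  obtain ⟨v, hv, hhv⟩ := D.o1.res (β h) (D.β1_mem h hh)
  rw [D.o1.ext_eq hv hhv, D.β1 h hh v hv hhv]

/-- `r2 (β h) = rz h` for `h ∈ V0`. -/
theorem fov50_Data.r2β {h : F'} (hh : h ∈ V0) :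
    fov50_ext α Vi V2 ri (β h) = rz h := by
  obtain ⟨v, hv, hhv⟩ := D.o2.res (β h) (D.β2_mem h hh)
  rw [D.o2.ext_eq hv hhv, D.β2 h hh v hv hhv]

/-- The norm along `α` on elements of `V1 ⊓ V2 ⊓ V3`. -/
theorem fov50_Data.normα {x : F} (h1 : x ∈ V1) (h2 : x ∈ V2) (h3 : x ∈ V3) :
    Nα x ∈ Vi ∧ Nα x ∈ V0 ∧
      ri (Nα x) = fov50_ext α Vi V1 ri x * fov50_ext α Vi V2 ri x ^ (q - 1) ∧
      Vs (rz (Nα x)) = fov50_ext β V0 V3 rz x ^ q := by
  obtain ⟨v1, hv1, hx1⟩ := D.o1.res x h1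
  obtain ⟨v2, hv2, hx2⟩ := D.o2.res x h2
  have hN := D.ramα x h1 h2 v1 hv1 v2 hv2 hx1 hx2
  obtain ⟨hNi, hNr⟩ := D.o1.congr' (mul_mem hv1 (pow_mem hv2 (q - 1))) hN
  obtain ⟨v, hv, hxv⟩ := D.insα x h3
  have hN0 := D.inα x h3 v hv hxv
  obtain ⟨hNz, hNrz⟩ := D.o3.congr' hv hN0
  refine ⟨hNi, hNz, ?_, ?_⟩
  · rw [hNr, D.o1.rh.mul v1 hv1 _ (pow_mem hv2 (q - 1)),
      D.o1.rh.totb50_MH.pow (x := v2) hv2, D.o1.ext_eq hv1 hx1, D.o2.ext_eq hv2 hx2]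
  · rw [hNrz, ← D.o3.ext_rh.totb50_MH.pow (x := x) h3,
      D.o3.ext_congr (pow_mem h3 q) (D.α3_mem v hv) hxv, D.r3α hv]

/-- The norm along `β` on elements of `V1 ⊓ V2 ⊓ V3`. -/
theorem fov50_Data.normβ {x : F} (h1 : x ∈ V1) (h2 : x ∈ V2) (h3 : x ∈ V3) :
    Nβ x ∈ Vi ∧ Nβ x ∈ V0 ∧
      Vs (ri (Nβ x)) = fov50_ext α Vi V1 ri x ^ q ∧
      rz (Nβ x) = fov50_ext β V0 V3 rz x * fov50_ext α Vi V2 ri x ^ (q - 1) := by
  obtain ⟨v3, hv3, hx3⟩ := D.o3.res x h3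
  obtain ⟨v2, hv2, hx2⟩ := D.res2β x h2
  have hN := D.ramβ x h3 h2 v3 hv3 v2 hv2 hx3 hx2
  obtain ⟨hNz, hNr⟩ := D.o3.congr' (mul_mem hv3 (pow_mem hv2 (q - 1))) hN
  obtain ⟨v, hv, hxv⟩ := D.insβ x h1
  have hNi' := D.inβ x h1 v hv hxv
  obtain ⟨hNi, hNri⟩ := D.o1.congr' hv hNi'
  refine ⟨hNi, hNz, ?_, ?_⟩
  · rw [hNri, ← D.o1.ext_rh.totb50_MH.pow (x := x) h1,
      D.o1.ext_congr (pow_mem h1 q) (D.β1_mem v hv) hxv, D.r1β hv]
  · rw [hNr, D.o3.rh.mul v3 hv3 _ (pow_mem hv2 (q - 1)),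
      D.o3.rh.totb50_MH.pow (x := v2) hv2, D.o3.ext_eq hv3 hx3,
      D.o2.ext_congr h2 (D.β2_mem v2 hv2) hx2, D.r2β hv2]

/-- **The frame of `ThreeBranch50` from intrinsic valuation data.** -/
theorem fov50_frame :
    tb50_Frame q (V1.toSubring ⊓ V2.toSubring ⊓ V3.toSubring) (Vi.toSubring ⊓ V0.toSubring)
      (fov50_ext α Vi V1 ri) (fov50_ext α Vi V2 ri) (fov50_ext β V0 V3 rz) ri rz Vs α β Nα Nβ
      (1 - β e0) (β e0 - α e0) (α e0) Cst (α '' KF') := by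
  have R1 := D.o1.ext_rh
  have R2 := D.o2.ext_rh
  have R3 := D.o3.ext_rh
  have hαW : ∀ h ∈ Vi.toSubring ⊓ V0.toSubring,
      α h ∈ V1.toSubring ⊓ V2.toSubring ⊓ V3.toSubring := fun h hh =>
    fov50_memW.mpr ⟨D.o1.mem h (fov50_memW'.mp hh).1, D.o2.mem h (fov50_memW'.mp hh).1,
      D.α3_mem h (fov50_memW'.mp hh).2⟩
  have hβW : ∀ h ∈ Vi.toSubring ⊓ V0.toSubring,
      β h ∈ V1.toSubring ⊓ V2.toSubring ⊓ V3.toSubring := fun h hh =>
    fov50_memW.mpr ⟨D.β1_mem h (fov50_memW'.mp hh).1, D.β2_mem h (fov50_memW'.mp hh).2,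
      D.o3.mem h (fov50_memW'.mp hh).2⟩
  have he0 : e0 ∈ Vi.toSubring ⊓ V0.toSubring := fov50_memW'.mpr ⟨D.e0_i, D.e0_z⟩
  have hαe := fov50_memW.mp (hαW e0 he0)
  have hβe := fov50_memW.mp (hβW e0 he0)
  have hV0 : Vs 0 = 0 := map_zero Vs
  have hV1 : Vs 1 = 1 := map_one Vs
  refine
    { h1 := fov50_RH_mono R1 (fun x hx => (fov50_memW.mp hx).1)
      h2 := fov50_RH_mono R2 (fun x hx => (fov50_memW.mp hx).2.1)
      h3 := fov50_RH_mono R3 (fun x hx => (fov50_memW.mp hx).2.2)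
      hi := (fov50_RH_mono D.o1.rh (fun x hx => (fov50_memW'.mp hx).1)).totb50_MH
      hz := (fov50_RH_mono D.o3.rh (fun x hx => (fov50_memW'.mp hx).2)).totb50_MH
      α_mem := hαW
      β_mem := hβW
      r2_α := fun h hh => D.o2.ext_alg (fov50_memW'.mp hh).1
      r3_α := fun h hh => D.r3α (fov50_memW'.mp hh).2
      r1_β := fun h hh => D.r1β (fov50_memW'.mp hh).1
      Nα_U := ?_
      Nβ_U := ?_
      N1 := fun x hx => (D.normα (fov50_memW.mp hx.2.1).1 (fov50_memW.mp hx.2.1).2.1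
        (fov50_memW.mp hx.2.1).2.2).2.2.1
      N2 := fun x hx => (D.normα (fov50_memW.mp hx.2.1).1 (fov50_memW.mp hx.2.1).2.1
        (fov50_memW.mp hx.2.1).2.2).2.2.2
      N3 := fun x hx => (D.normβ (fov50_memW.mp hx.2.1).1 (fov50_memW.mp hx.2.1).2.1
        (fov50_memW.mp hx.2.1).2.2).2.2.1
      N4 := fun x hx => (D.normβ (fov50_memW.mp hx.2.1).1 (fov50_memW.mp hx.2.1).2.1
        (fov50_memW.mp hx.2.1).2.2).2.2.2
      e1_mem := Subring.sub_mem _ (Subring.one_mem _) (hβW e0 he0)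
      e2_mem := Subring.sub_mem _ (hβW e0 he0) (hαW e0 he0)
      e3_mem := hαW e0 he0
      r1_e1 := ?_
      r2_e1 := ?_
      r3_e1 := ?_
      r1_e2 := ?_
      r2_e2 := ?_
      r3_e2 := ?_
      r1_e3 := ?_
      r2_e3 := ?_
      r3_e3 := ?_
      unit_crit := ?_
      V_cst := D.V_cst
      lift := ?_ }
  · -- Nα_U
    intro x hx
    obtain ⟨m1, m2, m3⟩ := fov50_memW.mp hx.2.1
    obtain ⟨n1, n2, n3⟩ := fov50_memW.mp hx.2.2
    obtain ⟨a1, a2, -, -⟩ := D.normα m1 m2 m3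
    obtain ⟨b1, b2, -, -⟩ := D.normα n1 n2 n3
    obtain ⟨c0, c1⟩ := fov50_norm_inv Nα hx.1
    refine ⟨c0, fov50_memW'.mpr ⟨a1, a2⟩, ?_⟩
    rw [← c1]
    exact fov50_memW'.mpr ⟨b1, b2⟩
  · -- Nβ_U
    intro x hx
    obtain ⟨m1, m2, m3⟩ := fov50_memW.mp hx.2.1
    obtain ⟨n1, n2, n3⟩ := fov50_memW.mp hx.2.2
    obtain ⟨a1, a2, -, -⟩ := D.normβ m1 m2 m3
    obtain ⟨b1, b2, -, -⟩ := D.normβ n1 n2 n3
    obtain ⟨c0, c1⟩ := fov50_norm_inv Nβ hx.1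
    refine ⟨c0, fov50_memW'.mpr ⟨a1, a2⟩, ?_⟩
    rw [← c1]
    exact fov50_memW'.mpr ⟨b1, b2⟩
  · -- r1 e1
    rw [R1.sub (x := 1) (y := β e0) V1.one_mem hβe.1, R1.one, D.r1β D.e0_i, D.ri_e0, hV0,
      sub_zero]
  · -- r2 e1
    rw [R2.sub (x := 1) (y := β e0) V2.one_mem hβe.2.1, R2.one, D.r2β D.e0_z, D.rz_e0,
      sub_self]
  · -- r3 e1
    rw [R3.sub (x := 1) (y := β e0) V3.one_mem hβe.2.2, R3.one, D.o3.ext_alg D.e0_z, D.rz_e0,
      sub_self]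
  · -- r1 e2
    rw [R1.sub (x := β e0) (y := α e0) hβe.1 hαe.1, D.r1β D.e0_i, D.o1.ext_alg D.e0_i,
      D.ri_e0, hV0, sub_self]
  · -- r2 e2
    rw [R2.sub (x := β e0) (y := α e0) hβe.2.1 hαe.2.1, D.r2β D.e0_z, D.o2.ext_alg D.e0_i,
      D.ri_e0, D.rz_e0, sub_zero]
  · -- r3 e2
    rw [R3.sub (x := β e0) (y := α e0) hβe.2.2 hαe.2.2, D.o3.ext_alg D.e0_z, D.r3α D.e0_z,
      D.rz_e0, hV1, sub_self]
  · -- r1 e3
    rw [D.o1.ext_alg D.e0_i, D.ri_e0]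
  · -- r2 e3
    rw [D.o2.ext_alg D.e0_i, D.ri_e0]
  · -- r3 e3
    rw [D.r3α D.e0_z, D.rz_e0, hV1]
  · -- unit_crit
    intro x hx h1 h2 h3
    obtain ⟨m1, m2, m3⟩ := fov50_memW.mp hx
    exact fov50_memW.mpr
      ⟨fov50_inv_mem V1 m1 (fun hn => h1 (D.o1.ext_nu hn)),
        fov50_inv_mem V2 m2 (fun hn => h2 (D.o2.ext_nu hn)),
        fov50_inv_mem V3 m3 (fun hn => h3 (D.o3.ext_nu hn))⟩
  · -- lift
    intro c hc hc0
    obtain ⟨d, hdK, hdU, hdi, hdz⟩ := D.lift c hc hc0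
    refine ⟨α d, Set.mem_image_of_mem α hdK,
      ⟨(map_ne_zero α).mpr hdU.1, hαW d hdU.2.1, by rw [← map_inv₀]; exact hαW _ hdU.2.2⟩,
      ?_, ?_, ?_⟩
    · rw [D.o1.ext_alg (fov50_memW'.mp hdU.2.1).1, hdi]
    · rw [D.o2.ext_alg (fov50_memW'.mp hdU.2.1).1, hdi]
    · rw [D.r3α (fov50_memW'.mp hdU.2.1).2, hdz, D.V_cst c hc]

/-- **The three-branch lemma in valuation form.**  `f` a unit of `W = V1 ⊓ V2 ⊓ V3` with
`Nα f = A0 * a ^ m`, `Nβ f = B0 * b ^ m` (`a`, `b`, `A0`, `B0` units of `W' = Vi ⊓ V0`, `A0`, `B0`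
with constant reductions, `(q, m) = 1`, constants `m`-root-closed in `Λ`): then
`f ^ ((q - 1) * (q + 1)) = D₀ * G ^ m * u₀` with `G` a unit of `W`, `D₀` the image of a constant
and `u₀ - 1` in the maximal ideals of `V1`, `V2`, `V3`. -/
theorem fov50_main (hq : 1 ≤ q) (m : ℕ) (hm : 1 ≤ m) (hmq : Nat.Coprime q m)
    (hroot : ∀ x : Λ, x ^ m ∈ Cst → x ∈ Cst)
    (f : F) (hf : tb50_U (V1.toSubring ⊓ V2.toSubring ⊓ V3.toSubring) f) (a b A0 B0 : F')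
    (ha : tb50_U (Vi.toSubring ⊓ V0.toSubring) a) (hb : tb50_U (Vi.toSubring ⊓ V0.toSubring) b)
    (hA0 : tb50_U (Vi.toSubring ⊓ V0.toSubring) A0)
    (hB0 : tb50_U (Vi.toSubring ⊓ V0.toSubring) B0)
    (ca cb : Λ) (hca : ca ∈ Cst) (hcb : cb ∈ Cst)
    (hA0i : ri A0 = ca) (hA0z : rz A0 = ca) (hB0i : ri B0 = cb) (hB0z : rz B0 = cb)
    (hNα : Nα f = A0 * a ^ m) (hNβ : Nβ f = B0 * b ^ m) :
    ∃ G D₀ : F, tb50_U (V1.toSubring ⊓ V2.toSubring ⊓ V3.toSubring) G ∧ D₀ ∈ α '' KF' ∧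
      tb50_U (V1.toSubring ⊓ V2.toSubring ⊓ V3.toSubring) D₀ ∧
      f ^ ((q - 1) * (q + 1)) / (D₀ * G ^ m) - 1 ∈ V1.nonunits ∧
      f ^ ((q - 1) * (q + 1)) / (D₀ * G ^ m) - 1 ∈ V2.nonunits ∧
      f ^ ((q - 1) * (q + 1)) / (D₀ * G ^ m) - 1 ∈ V3.nonunits := by
  have H := fov50_frame D
  obtain ⟨G, D₀, hG, hD₀K, hD₀, h1, h2, h3⟩ :=
    tb50_main H hq m hm hmq hroot f hf a b A0 B0 ha hb hA0 hB0 ca cb hca hcb hA0i hA0z hB0i hB0z
      hNα hNβ
  have hu : tb50_U (V1.toSubring ⊓ V2.toSubring ⊓ V3.toSubring)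
      (f ^ ((q - 1) * (q + 1)) / (D₀ * G ^ m)) :=
    tb50_U_div (tb50_U_pow hf _) (tb50_U_mul hD₀ (tb50_U_pow hG m))
  obtain ⟨m1, m2, m3⟩ := fov50_memW.mp hu.2.1
  refine ⟨G, D₀, hG, hD₀K, hD₀, ?_, ?_, ?_⟩
  · refine D.o1.ext_ker (sub_mem m1 V1.one_mem) ?_
    rw [D.o1.ext_rh.sub m1 V1.one_mem, h1, D.o1.ext_rh.one, sub_self]
  · refine D.o2.ext_ker (sub_mem m2 V2.one_mem) ?_
    rw [D.o2.ext_rh.sub m2 V2.one_mem, h2, D.o2.ext_rh.one, sub_self]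
  · refine D.o3.ext_ker (sub_mem m3 V3.one_mem) ?_
    rw [D.o3.ext_rh.sub m3 V3.one_mem, h3, D.o3.ext_rh.one, sub_self]

omit D

end Frame

/-! ### The `β`-side facts on `V2` from (MID) -/

section Mid

variable {F' F Λ : Type*} [Field F'] [Field F] [Field Λ]
  {Vi V0 : ValuationSubring F'} {V2 : ValuationSubring F} {ri rz : F' → Λ} {α β : F' →+* F}

/-- From (MID) `β (w g) - α g ∈ 𝔪(V2)` for `g ∈ Vi` (`w` the Atkin–Lehner involution of the lower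
level, `rz = ri ∘ w`): `β V0 ⊆ V2`, the compatibility `ri v = rz h` whenever
`β h ≡ α v` modulo `𝔪(V2)`, and residue degree one of `V2` over `V0` along `β`. -/
theorem fov50_mid (w : F' → F') (hw0 : ∀ h ∈ V0, w h ∈ Vi) (hwi : ∀ g ∈ Vi, w g ∈ V0)
    (hww : ∀ h : F', w (w h) = h) (hrz : ∀ h ∈ V0, rz h = ri (w h))
    (o2 : fov50_Over α Vi V2 ri) (mid : ∀ g ∈ Vi, β (w g) - α g ∈ V2.nonunits) :
    (∀ h ∈ V0, β h ∈ V2) ∧
      (∀ h ∈ V0, ∀ v ∈ Vi, β h - α v ∈ V2.nonunits → ri v = rz h) ∧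
      (∀ x ∈ V2, ∃ b ∈ V0, x - β b ∈ V2.nonunits) := by
  have hm : ∀ h ∈ V0, β h - α (w h) ∈ V2.nonunits := fun h hh => by
    have := mid (w h) (hw0 h hh)
    rwa [hww] at this
  refine ⟨?_, ?_, ?_⟩
  · intro h hh
    have : β h = (β h - α (w h)) + α (w h) := by ring
    rw [this]
    exact add_mem (fov50_nu_mem V2 (hm h hh)) (o2.mem _ (hw0 h hh))
  · intro h hh v hv hhv
    have h1 : α (v - w h) ∈ V2.nonunits := by
      have : α (v - w h) = (β h - α (w h)) - (β h - α v) := by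
        rw [map_sub]
        ring
      rw [this]
      exact fov50_nu_sub V2 (hm h hh) hhv
    have h2 := o2.unit_of (sub_mem hv (hw0 h hh)) h1
    rw [hrz h hh]
    exact (o2.congr' (hw0 h hh) h2).2
  · intro x hx
    obtain ⟨b, hb, hxb⟩ := o2.res x hx
    refine ⟨w b, hwi b hb, ?_⟩
    have : x - β (w b) = (x - α b) - (β (w b) - α b) := by ring
    rw [this]
    exact fov50_nu_sub V2 hxb (mid b hb)

end Mid

end Fermat.Agent.S36
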