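import Mathlib
import Fermat.Agent.S36.AbelianValNu94
import Fermat.Agent.S36.FrameOfVal50

/-!
# S36 lab (helper94, row 595 "B2-abelian"): B1 + B2 WITH THE NORM DATA from `fov50_Data`

`abv94_of_fov` : an instance of `fov50_Data` (file `FrameOfVal50`, rows 609/621) together with
the constants `c' : Kx →* F'ˣ` (`Kx = Rˣ`) and LEMMA K at `Vi` in congruence form gives
`f ^ ((q-1)(q²-1)) = α(c' D) * G ^ m * u0` with `u0 - 1 ∈ 𝔪(V_j)` AND the norm data of `u0`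
consumed by B3 (`gc26_triple`): `Nα u0 = c' cu * Au ^ m`, `Nβ u0 = c' du * Bu ^ m` with `Au`,
`Bu` units of `Vi ⊓ V0` congruent to constants on both branches.  (Of `fov50_Data` only the
intrinsic fields are used, and `α3 β1 β2` only to see that `α`, `β` map non-units to non-units.)
-/

set_option linter.unusedVariables false
set_option linter.unusedSectionVars false
set_option linter.style.longLine false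

namespace Fermat.Agent.S36

theorem abv94_of_fov {F' F Λ : Type*} [Field F'] [Field F] [Field Λ] {q : ℕ}
    {Vi V0 : ValuationSubring F'} {V1 V2 V3 : ValuationSubring F} {ri rz : F' → Λ}
    {Vs : Λ →+* Λ} {α β : F' →+* F} {Nα Nβ : F →* F'} {e0 : F'} {Cst : Subfield Λ}
    {KF' : Set F'}
    (D : fov50_Data q Vi V0 V1 V2 V3 ri rz Vs α β Nα Nβ e0 Cst KF')
    (m : ℕ) (hq : 1 ≤ q) (hqm : Nat.Coprime q m)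
    {Kx : Type*} [CommGroup Kx] (c' : Kx →* F'ˣ)
    (hcVi : ∀ c, ((c' c : F'ˣ) : F') ∈ Vi) (hcV0 : ∀ c, ((c' c : F'ˣ) : F') ∈ V0)
    (hc_albe : ∀ c, β ((c' c : F'ˣ) : F') = α ((c' c : F'ˣ) : F'))
    (hNac : ∀ c, Nα (α ((c' c : F'ˣ) : F')) = ((c' (c ^ q) : F'ˣ) : F'))
    (hNbc : ∀ c, Nβ (α ((c' c : F'ˣ) : F')) = ((c' (c ^ q) : F'ˣ) : F'))
    (hK : ∀ x ∈ Vi, x⁻¹ ∈ Vi → x ≠ 0 → ∀ c, x ^ m - ((c' c : F'ˣ) : F') ∈ Vi.nonunits →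
      ∃ a, x - ((c' a : F'ˣ) : F') ∈ Vi.nonunits)
    (f : F) (hf0 : f ≠ 0) (hf : f ∈ V1 ∧ f ∈ V2 ∧ f ∈ V3)
    (hfi : f⁻¹ ∈ V1 ∧ f⁻¹ ∈ V2 ∧ f⁻¹ ∈ V3)
    (cA cB : Kx) (A B : F') (hA0 : A ≠ 0) (hB0 : B ≠ 0)
    (hAm : A ∈ Vi ∧ A ∈ V0) (hAi : A⁻¹ ∈ Vi ∧ A⁻¹ ∈ V0)
    (hBm : B ∈ Vi ∧ B ∈ V0) (hBi : B⁻¹ ∈ Vi ∧ B⁻¹ ∈ V0)
    (hA : Nα f = ((c' cA : F'ˣ) : F') * A ^ m) (hB : Nβ f = ((c' cB : F'ˣ) : F') * B ^ m) :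
    ∃ (u0 G : F) (D : Kx), u0 ≠ 0 ∧ G ≠ 0 ∧
      (u0 ∈ V1 ∧ u0 ∈ V2 ∧ u0 ∈ V3) ∧ (u0⁻¹ ∈ V1 ∧ u0⁻¹ ∈ V2 ∧ u0⁻¹ ∈ V3) ∧
      (G ∈ V1 ∧ G ∈ V2 ∧ G ∈ V3) ∧ (G⁻¹ ∈ V1 ∧ G⁻¹ ∈ V2 ∧ G⁻¹ ∈ V3) ∧
      f ^ ((q - 1) * (q ^ 2 - 1)) = α ((c' D : F'ˣ) : F') * G ^ m * u0 ∧
      u0 - 1 ∈ V1.nonunits ∧ u0 - 1 ∈ V2.nonunits ∧ u0 - 1 ∈ V3.nonunits ∧
      (∃ (cu : Kx) (Au : F'), Au ≠ 0 ∧ (Au ∈ Vi ∧ Au ∈ V0) ∧ (Au⁻¹ ∈ Vi ∧ Au⁻¹ ∈ V0) ∧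
        Nα u0 = ((c' cu : F'ˣ) : F') * Au ^ m ∧
        (∃ a, Au - ((c' a : F'ˣ) : F') ∈ Vi.nonunits) ∧
        ∃ a, Au - ((c' a : F'ˣ) : F') ∈ V0.nonunits) ∧
      (∃ (du : Kx) (Bu : F'), Bu ≠ 0 ∧ (Bu ∈ Vi ∧ Bu ∈ V0) ∧ (Bu⁻¹ ∈ Vi ∧ Bu⁻¹ ∈ V0) ∧
        Nβ u0 = ((c' du : F'ˣ) : F') * Bu ^ m ∧
        (∃ a, Bu - ((c' a : F'ˣ) : F') ∈ Vi.nonunits) ∧
        ∃ a, Bu - ((c' a : F'ˣ) : F') ∈ V0.nonunits) := by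
  have add_nu : ∀ (V : ValuationSubring F) (x y : F), x - y ∈ V.nonunits → y ∈ V.nonunits →
      x ∈ V.nonunits := by
    intro V x y h1 h2
    rw [abv94_nu] at h1 h2 ⊢
    have e : x = (x - y) + y := by ring
    rw [e]; exact Valuation.map_add_lt _ h1 h2
  have n_a3 : ∀ a ∈ V0.nonunits, α a ∈ V3.nonunits := by
    intro a ha
    have haV : a ∈ V0 := ValuationSubring.nonunits_subset ha
    obtain ⟨v, hv, hc⟩ := D.o3.res (α a) (D.α3_mem a haV)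
    have h1 := D.α3 a haV v hv hc
    rw [(D.o3.ker a haV).mpr ha, map_zero] at h1
    exact add_nu V3 _ _ hc (D.o3.nu v ((D.o3.ker v hv).mp h1))
  have n_b1 : ∀ a ∈ Vi.nonunits, β a ∈ V1.nonunits := by
    intro a ha
    have haV : a ∈ Vi := ValuationSubring.nonunits_subset ha
    obtain ⟨v, hv, hc⟩ := D.o1.res (β a) (D.β1_mem a haV)
    have h1 := D.β1 a haV v hv hc
    rw [(D.o1.ker a haV).mpr ha, map_zero] at h1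
    exact add_nu V1 _ _ hc (D.o1.nu v ((D.o1.ker v hv).mp h1))
  have n_b2 : ∀ a ∈ V0.nonunits, β a ∈ V2.nonunits := by
    intro a ha
    have haV : a ∈ V0 := ValuationSubring.nonunits_subset ha
    obtain ⟨v, hv, hc⟩ := D.o2.res (β a) (D.β2_mem a haV)
    have h1 := D.β2 a haV v hv hc
    rw [(D.o3.ker a haV).mpr ha] at h1
    exact add_nu V2 _ _ hc (D.o2.nu v ((D.o2.ker v hv).mp h1))
  have he0i : e0 ∈ Vi.nonunits := (D.o1.ker e0 D.e0_i).mp D.ri_e0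
  have he0z : e0 - 1 ∈ V0.nonunits := by
    refine (D.o3.ker (e0 - 1) (V0.sub_mem D.e0_z V0.one_mem)).mp ?_
    rw [D.o3.rh.sub D.e0_z V0.one_mem, D.rz_e0, D.o3.rh.one, sub_self]
  exact abv94_of_nonunits α β Nα Nβ V1 V2 V3 Vi V0 q m hq hqm
    D.o1.mem D.o1.nu D.o2.mem D.o2.nu D.α3_mem n_a3 D.β1_mem n_b1 D.β2_mem n_b2 D.o3.mem D.o3.nu
    D.o1.res D.o2.res D.res2β D.o3.res D.insα D.insβ D.ramα D.inα D.ramβ D.inβ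
    e0 he0i he0z c' hcVi hcV0 hc_albe hNac hNbc hK f hf0 hf hfi cA cB A B hA0 hB0
    hAm hAi hBm hBi hA hB

end Fermat.Agent.S36
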