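import Fermat.Agent.S36.AbvBind72
import Fermat.Agent.S36.AbelianVal94

/-!
# S36 lab (helper72): `abv94_intrinsic` on the canonical frame, lying-over / residue block discharged

`abb72_abv` = `abv94_intrinsic` (`AbelianVal94`, helper94; B1 + B2 in intrinsic congruence form)
at the canonical level `M' q q` frame

* `F' = F(M' q)_K`, `F = F(M' q q)_K`, `al = al97L_alpha K (M' * q) q`,
  `be = al97L_beta K (M' * q) q`,
* `V1 = cm85_Vinf (M' * q * q) hπ`, `V2 = V₂` (PARAMETER with `hV₂ hπ₂ hne s hs`: the `ob72_ram`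
  shape), `V3 = V₃` (with `hV₃mem`; `Iff.rfl` for `nsb86_V3`),
* `Vi = cm85_Vinf (M' * q) hπ`, `Vz = s34i47c_V0 M' q hq hM' hπ`,

with its twelve hypotheses `hal1 hal2 hal3 hbe1 hbe2 hbe3 hres1 hres2 hres2' hres3' hres3q hres1q`
DISCHARGED (`AbvBind72`).  What remains are the norm hypotheses `hNaVi hNaVz hNbVi hNbVz hN1 hN2
hN3 hN4`, the gluing `hglue`, the constants `c'` with `hcVi hcVz hc_albe hNac hNbc hK`, and the
input `f, cA, cB, A, B` — literally in the shapes of `abv94_intrinsic`.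

All names are prefixed `abb72_`.
-/

set_option autoImplicit false
set_option linter.unusedSectionVars false
set_option linter.unusedVariables false
set_option linter.style.haveILetI false
set_option linter.style.longLine false

open ModularCurve AlgebraicCurve IntermediateField Polynomial

namespace Fermat.Agent.S36

open Fermat.Agent.S18 Fermat.Agent.S24 Fermat.Agent.S37 Fermat.Agent.S34

local notation "Q̄" => AlgebraicClosure ℚ

section abb72_apply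

variable {R K : Type} [CommRing R] [IsDomain R] [IsDiscreteValuationRing R] [Field K] [CharZero K]
  [Algebra R K] [IsFractionRing R K] [Algebra K Q̄] (M' q : ℕ) [NeZero M'] [NeZero q]

/-- **B1 + B2 on the canonical frame**, lying-over and residue hypotheses discharged. -/
theorem abb72_abv (hq : q.Prime) (hM' : ¬ q ∣ M') {π : R} (hπ : Irreducible π)
    (hqR : ¬ IsUnit (q : R)) (hL : ((M' * q * q : ℕ) : K) ≠ 0)
    (V₂ V₃ : ValuationSubring ↥(modularFunctionFieldFullC K (M' * q * q)))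
    (hV₂ : ∀ c ∈ cm85_Vinf (K := K) (M' * q) hπ, al97L_alpha K (M' * q) q c ∈ V₂)
    (hπ₂ : (algebraMap K ↥(modularFunctionFieldFullC K (M' * q * q)) (algebraMap R K π))⁻¹ ∉ V₂)
    (hne : cm85_Vinf (K := K) (M' * q * q) hπ ≠ V₂)
    (s : ↥(modularFunctionFieldFullC K (M' * q * q)))
    (hs : V₂.valuation s ^ (q - 1) =
      V₂.valuation (algebraMap K ↥(modularFunctionFieldFullC K (M' * q * q)) (algebraMap R K π)))
    (hV₃mem : ∀ x, x ∈ V₃ ↔
      als86_w2 (algebraMap K Q̄) M' q hq hM' hL x ∈ cm85_Vinf (K := K) (M' * q * q) hπ)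
    (Na Nb : ↥(modularFunctionFieldFullC K (M' * q * q)) →* ↥(modularFunctionFieldFullC K (M' * q)))
    (m : ℕ) (hqm : Nat.Coprime q m)
    (hNaVi : ∀ y, y ∈ (cm85_Vinf (K := K) (M' * q * q) hπ) → y ∈ V₂ → Na y ∈ (cm85_Vinf (K := K) (M' * q) hπ)) (hNaVz : ∀ y ∈ V₃, Na y ∈ (s34i47c_V0 (K := K) M' q hq hM' hπ))
    (hNbVi : ∀ y ∈ (cm85_Vinf (K := K) (M' * q * q) hπ), Nb y ∈ (cm85_Vinf (K := K) (M' * q) hπ)) (hNbVz : ∀ y, y ∈ V₃ → y ∈ V₂ → Nb y ∈ (s34i47c_V0 (K := K) M' q hq hM' hπ))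
    (hN1 : ∀ y, y ∈ (cm85_Vinf (K := K) (M' * q * q) hπ) → y ∈ V₂ → ∀ v1 ∈ (cm85_Vinf (K := K) (M' * q) hπ), ∀ v2 ∈ (cm85_Vinf (K := K) (M' * q) hπ), (cm85_Vinf (K := K) (M' * q * q) hπ).valuation (y - al97L_alpha K (M' * q) q v1) < 1 →
      V₂.valuation (y - al97L_alpha K (M' * q) q v2) < 1 → (cm85_Vinf (K := K) (M' * q) hπ).valuation (Na y - v1 * v2 ^ (q - 1)) < 1)
    (hN2 : ∀ x ∈ V₃, ∀ v ∈ (s34i47c_V0 (K := K) M' q hq hM' hπ), V₃.valuation (x ^ q - al97L_alpha K (M' * q) q v) < 1 → (s34i47c_V0 (K := K) M' q hq hM' hπ).valuation (Na x - v) < 1)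
    (hN3 : ∀ x ∈ (cm85_Vinf (K := K) (M' * q * q) hπ), ∀ v ∈ (cm85_Vinf (K := K) (M' * q) hπ), (cm85_Vinf (K := K) (M' * q * q) hπ).valuation (x ^ q - al97L_beta K (M' * q) q v) < 1 → (cm85_Vinf (K := K) (M' * q) hπ).valuation (Nb x - v) < 1)
    (hN4 : ∀ y, y ∈ V₃ → y ∈ V₂ → ∀ v3 ∈ (s34i47c_V0 (K := K) M' q hq hM' hπ), ∀ v2 ∈ (s34i47c_V0 (K := K) M' q hq hM' hπ), V₃.valuation (y - al97L_beta K (M' * q) q v3) < 1 →
      V₂.valuation (y - al97L_beta K (M' * q) q v2) < 1 → (s34i47c_V0 (K := K) M' q hq hM' hπ).valuation (Nb y - v3 * v2 ^ (q - 1)) < 1)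
    (hglue : ∀ y1 y2 y3 : ↥(modularFunctionFieldFullC K (M' * q * q)),
      ((cm85_Vinf (K := K) (M' * q * q) hπ).valuation y1 = 1 ∧ V₂.valuation y1 = 1 ∧ V₃.valuation y1 = 1) →
      ((cm85_Vinf (K := K) (M' * q * q) hπ).valuation y2 = 1 ∧ V₂.valuation y2 = 1 ∧ V₃.valuation y2 = 1) →
      ((cm85_Vinf (K := K) (M' * q * q) hπ).valuation y3 = 1 ∧ V₂.valuation y3 = 1 ∧ V₃.valuation y3 = 1) →
      ∃ G : ↥(modularFunctionFieldFullC K (M' * q * q)), ((cm85_Vinf (K := K) (M' * q * q) hπ).valuation G = 1 ∧ V₂.valuation G = 1 ∧ V₃.valuation G = 1) ∧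
        (cm85_Vinf (K := K) (M' * q * q) hπ).valuation (G - y1) < 1 ∧ V₂.valuation (G - y2) < 1 ∧ V₃.valuation (G - y3) < 1)
    {Kx : Type*} [CommGroup Kx] (c' : Kx →* (↥(modularFunctionFieldFullC K (M' * q)))ˣ)
    (hcVi : ∀ c, (cm85_Vinf (K := K) (M' * q) hπ).valuation ((c' c : (↥(modularFunctionFieldFullC K (M' * q)))ˣ) : ↥(modularFunctionFieldFullC K (M' * q))) = 1)
    (hcVz : ∀ c, (s34i47c_V0 (K := K) M' q hq hM' hπ).valuation ((c' c : (↥(modularFunctionFieldFullC K (M' * q)))ˣ) : ↥(modularFunctionFieldFullC K (M' * q))) = 1)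
    (hc_albe : ∀ c, al97L_beta K (M' * q) q ((c' c : (↥(modularFunctionFieldFullC K (M' * q)))ˣ) : ↥(modularFunctionFieldFullC K (M' * q))) = al97L_alpha K (M' * q) q ((c' c : (↥(modularFunctionFieldFullC K (M' * q)))ˣ) : ↥(modularFunctionFieldFullC K (M' * q))))
    (hNac : ∀ c, Na (al97L_alpha K (M' * q) q ((c' c : (↥(modularFunctionFieldFullC K (M' * q)))ˣ) : ↥(modularFunctionFieldFullC K (M' * q)))) = ((c' (c ^ q) : (↥(modularFunctionFieldFullC K (M' * q)))ˣ) : ↥(modularFunctionFieldFullC K (M' * q))))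
    (hNbc : ∀ c, Nb (al97L_alpha K (M' * q) q ((c' c : (↥(modularFunctionFieldFullC K (M' * q)))ˣ) : ↥(modularFunctionFieldFullC K (M' * q)))) = ((c' (c ^ q) : (↥(modularFunctionFieldFullC K (M' * q)))ˣ) : ↥(modularFunctionFieldFullC K (M' * q))))
    (hK : ∀ x : ↥(modularFunctionFieldFullC K (M' * q)), (cm85_Vinf (K := K) (M' * q) hπ).valuation x = 1 → ∀ c, (cm85_Vinf (K := K) (M' * q) hπ).valuation (x ^ m - ((c' c : (↥(modularFunctionFieldFullC K (M' * q)))ˣ) : ↥(modularFunctionFieldFullC K (M' * q)))) < 1 →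
      ∃ a, (cm85_Vinf (K := K) (M' * q) hπ).valuation (x - ((c' a : (↥(modularFunctionFieldFullC K (M' * q)))ˣ) : ↥(modularFunctionFieldFullC K (M' * q)))) < 1)
    (f : ↥(modularFunctionFieldFullC K (M' * q * q))) (hf : (cm85_Vinf (K := K) (M' * q * q) hπ).valuation f = 1 ∧ V₂.valuation f = 1 ∧ V₃.valuation f = 1)
    (cA cB : Kx) (A B : ↥(modularFunctionFieldFullC K (M' * q))) (hAu : (cm85_Vinf (K := K) (M' * q) hπ).valuation A = 1 ∧ (s34i47c_V0 (K := K) M' q hq hM' hπ).valuation A = 1)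
    (hBu : (cm85_Vinf (K := K) (M' * q) hπ).valuation B = 1 ∧ (s34i47c_V0 (K := K) M' q hq hM' hπ).valuation B = 1)
    (hA : Na f = ((c' cA : (↥(modularFunctionFieldFullC K (M' * q)))ˣ) : ↥(modularFunctionFieldFullC K (M' * q))) * A ^ m) (hB : Nb f = ((c' cB : (↥(modularFunctionFieldFullC K (M' * q)))ˣ) : ↥(modularFunctionFieldFullC K (M' * q))) * B ^ m) :
    ∃ (u0 G : ↥(modularFunctionFieldFullC K (M' * q * q))) (D : Kx),
      ((cm85_Vinf (K := K) (M' * q * q) hπ).valuation u0 = 1 ∧ V₂.valuation u0 = 1 ∧ V₃.valuation u0 = 1) ∧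
      ((cm85_Vinf (K := K) (M' * q * q) hπ).valuation G = 1 ∧ V₂.valuation G = 1 ∧ V₃.valuation G = 1) ∧
      f ^ ((q - 1) * (q ^ 2 - 1)) = al97L_alpha K (M' * q) q ((c' D : (↥(modularFunctionFieldFullC K (M' * q)))ˣ) : ↥(modularFunctionFieldFullC K (M' * q))) * G ^ m * u0 ∧
      (cm85_Vinf (K := K) (M' * q * q) hπ).valuation (u0 - 1) < 1 ∧ V₂.valuation (u0 - 1) < 1 ∧ V₃.valuation (u0 - 1) < 1 ∧
      (∃ (cu : Kx) (Au : ↥(modularFunctionFieldFullC K (M' * q))), ((cm85_Vinf (K := K) (M' * q) hπ).valuation Au = 1 ∧ (s34i47c_V0 (K := K) M' q hq hM' hπ).valuation Au = 1) ∧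
        Na u0 = ((c' cu : (↥(modularFunctionFieldFullC K (M' * q)))ˣ) : ↥(modularFunctionFieldFullC K (M' * q))) * Au ^ m ∧
        (∃ a, (cm85_Vinf (K := K) (M' * q) hπ).valuation (Au - ((c' a : (↥(modularFunctionFieldFullC K (M' * q)))ˣ) : ↥(modularFunctionFieldFullC K (M' * q)))) < 1) ∧
        ∃ a, (s34i47c_V0 (K := K) M' q hq hM' hπ).valuation (Au - ((c' a : (↥(modularFunctionFieldFullC K (M' * q)))ˣ) : ↥(modularFunctionFieldFullC K (M' * q)))) < 1) ∧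
      (∃ (du : Kx) (Bu : ↥(modularFunctionFieldFullC K (M' * q))), ((cm85_Vinf (K := K) (M' * q) hπ).valuation Bu = 1 ∧ (s34i47c_V0 (K := K) M' q hq hM' hπ).valuation Bu = 1) ∧
        Nb u0 = ((c' du : (↥(modularFunctionFieldFullC K (M' * q)))ˣ) : ↥(modularFunctionFieldFullC K (M' * q))) * Bu ^ m ∧
        (∃ a, (cm85_Vinf (K := K) (M' * q) hπ).valuation (Bu - ((c' a : (↥(modularFunctionFieldFullC K (M' * q)))ˣ) : ↥(modularFunctionFieldFullC K (M' * q)))) < 1) ∧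
        ∃ a, (s34i47c_V0 (K := K) M' q hq hM' hπ).valuation (Bu - ((c' a : (↥(modularFunctionFieldFullC K (M' * q)))ˣ) : ↥(modularFunctionFieldFullC K (M' * q)))) < 1) :=
  abv94_intrinsic
    ((al97L_alpha K (M' * q) q : ↥(modularFunctionFieldFullC K (M' * q)) →ₐ[K]
      ↥(modularFunctionFieldFullC K (M' * q * q))) : ↥(modularFunctionFieldFullC K (M' * q)) →+*
      ↥(modularFunctionFieldFullC K (M' * q * q)))
    ((al97L_beta K (M' * q) q : ↥(modularFunctionFieldFullC K (M' * q)) →ₐ[K]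
      ↥(modularFunctionFieldFullC K (M' * q * q))) : ↥(modularFunctionFieldFullC K (M' * q)) →+*
      ↥(modularFunctionFieldFullC K (M' * q * q)))
    Na Nb (cm85_Vinf (K := K) (M' * q * q) hπ) V₂ V₃ (cm85_Vinf (K := K) (M' * q) hπ)
    (s34i47c_V0 (K := K) M' q hq hM' hπ) q m hq.one_le hqm
    (abb72_hal1 (K := K) M' q hπ)
    (abb72_hal2 (K := K) M' q hπ V₂ hV₂ hπ₂)
    (abb72_hal3 (K := K) M' q hq hM' hπ hL V₃ hV₃mem)
    (abb72_hbe1 (K := K) M' q hπ)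
    (abb72_hbe2 (K := K) M' q hq hM' hπ hqR hL V₂ hV₂ hπ₂ hne)
    (abb72_hbe3 (K := K) M' q hq hM' hπ hL V₃ hV₃mem)
    (abb72_hres1 (K := K) M' q hq hπ V₂ hV₂ hπ₂ hne s hs)
    (abb72_hres2 (K := K) M' q hq hπ V₂ hV₂ hπ₂ hne s hs)
    (abb72_hres2p (K := K) M' q hq hM' hπ hqR hL V₂ hV₂ hπ₂ hne s hs)
    (abb72_hres3p (K := K) M' q hq hM' hπ hqR hL V₂ V₃ hV₂ hπ₂ hne s hs hV₃mem)
    (abb72_hres3q (K := K) M' q hq hM' hπ hqR hL V₃ hV₃mem)
    (abb72_hres1q (K := K) M' q hq hM' hπ hqR hL)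
    hNaVi hNaVz hNbVi hNbVz hN1 hN2 hN3 hN4 hglue c' hcVi hcVz hc_albe hNac hNbc hK
    f hf cA cB A B hAu hBu hA hB

end abb72_apply

end Fermat.Agent.S36
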