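import Fermat.Agent.S36.OnlyBindBeta72
import Fermat.Agent.S36.BetaV2_66

/-!
# S36 lab (helper72): the lying-over / residue hypotheses of `abv94_intrinsic` on the canonical frame

Level `M' q q` (`q` prime, `q ∤ M'`, residue characteristic `q`), `F₁ = F(M' q)_K`,
`F₂ = F(M' q q)_K`, `α₂ = al97L_alpha K (M' q) q`, `β₂ = al97L_beta K (M' q) q`,

* `V₁ = cm85_Vinf (M' q q)`, `V₂` a PARAMETER with the four facts of row B1-V2
  (`hV₂`, `hπ₂`, `hne`, `s`, `hs`: the `ob72_ram` shape), `V₃` any valuation subring with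
  `hV₃mem : x ∈ V₃ ↔ w₂ x ∈ V₁` (`Iff.rfl` for `nsb86_V3`);
* `V_∞ = cm85_Vinf (M' q)`, `V_0 = s34i47c_V0 M' q`.

The twelve hypotheses `hal1 hal2 hal3 hbe1 hbe2 hbe3` (lying over), `hres1 hres2 hres2' hres3'`
(residue degree one) and `hres3q hres1q` (inert side: the residue field is purely inseparable of
degree `q`) of `abv94_intrinsic` (`AbelianVal94`, helper94), in its literal shapes:

* `abb72_hal1`, `abb72_hal2`, `abb72_hal3`, `abb72_hbe1`, `abb72_hbe2`, `abb72_hbe3`;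
* `abb72_hres1`, `abb72_hres2`, `abb72_hres2p`, `abb72_hres3p`;
* `abb72_hres3q`, `abb72_hres1q`.

(The application `abv94_intrinsic` with these twelve discharged is `abb72_abv`, file
`AbvApply72`.)

Abstract helpers: `abb72_lt_of_div`, `abb72_pi_lt`, `abb72_s_lt`, `abb72_frob`.

All names are prefixed `abb72_`.
-/

set_option autoImplicit false
set_option linter.unusedSectionVars false
set_option linter.unusedVariables false
set_option linter.style.haveILetI false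
set_option linter.style.longLine false

open ModularCurve AlgebraicCurve IntermediateField Polynomial

namespace Fermat.Agent.S36

open Fermat.Agent.S18 Fermat.Agent.S24 Fermat.Agent.S37 Fermat.Agent.S34

local notation "Q̄" => AlgebraicClosure ℚ

section abb72_abs

variable {F : Type*} [Field F]

/-- `ϖ⁻¹ z ∈ V` with `ϖ` a nonzero non-unit gives `v(z) < 1`. -/
theorem abb72_lt_of_div (V : ValuationSubring F) (ϖ z : F) (hϖ0 : ϖ ≠ 0)
    (hϖ : V.valuation ϖ < 1) (hz : ϖ⁻¹ * z ∈ V) : V.valuation z < 1 := by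
  have h2 : V.valuation (ϖ⁻¹ * z) ≤ 1 := (V.valuation_le_one_iff _).2 hz
  have h3 : z = ϖ * (ϖ⁻¹ * z) := by rw [mul_inv_cancel_left₀ hϖ0]
  rw [h3, map_mul]
  calc V.valuation ϖ * V.valuation (ϖ⁻¹ * z) ≤ V.valuation ϖ * 1 := mul_le_mul_right h2 _
    _ < 1 := by rwa [mul_one]

/-- `ϖ⁻¹ ∉ V` : `ϖ` is a nonzero non-unit of `V`. -/
theorem abb72_pi_lt (V : ValuationSubring F) (ϖ : F) (hϖ : ϖ⁻¹ ∉ V) :
    ϖ ≠ 0 ∧ V.valuation ϖ < 1 := by
  refine ⟨?_, ?_⟩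
  · rintro rfl
    exact hϖ (by rw [inv_zero]; exact V.zero_mem)
  · rw [← ValuationSubring.mem_nonunits_iff, ValuationSubring.mem_nonunits_iff_or]
    exact Or.inr hϖ

/-- `v(s) ^ n = v(ϖ)`, `n > 0`, `ϖ⁻¹ ∉ V` : `s` is a nonzero non-unit of `V`. -/
theorem abb72_s_lt (V : ValuationSubring F) (ϖ s : F) (n : ℕ) (hn : 0 < n) (hϖ : ϖ⁻¹ ∉ V)
    (hs : V.valuation s ^ n = V.valuation ϖ) : s ≠ 0 ∧ V.valuation s < 1 := by
  obtain ⟨h0, h1⟩ := abb72_pi_lt V ϖ hϖ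
  refine ⟨?_, ?_⟩
  · rintro rfl
    rw [map_zero, zero_pow hn.ne'] at hs
    exact h0 ((map_eq_zero _).1 hs.symm)
  · by_contra h
    have h2 : 1 ≤ V.valuation s ^ n := one_le_pow₀ (not_lt.1 h)
    rw [hs] at h2
    exact absurd h1 (not_lt.2 h2)

/-- **Frobenius on an inert residue extension.**  If `x ≡ ∑ γ(c i) y ^ i` and `y ^ q ≡ γ a`
modulo `𝔪(V)`, and `q ∈ 𝔪(V)`, then `x ^ q ≡ γ (∑ c i ^ q a ^ i)` modulo `𝔪(V)`. -/
theorem abb72_frob {F' : Type*} [Field F'] (γ : F' →+* F) (V : ValuationSubring F)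
    (V' : ValuationSubring F') (hγ : ∀ c ∈ V', γ c ∈ V) (q : ℕ) (hq : q.Prime)
    (hqV : V.valuation (q : F) < 1) (y : F) (hy : y ∈ V) (a : F') (ha : a ∈ V')
    (hya : V.valuation (y ^ q - γ a) < 1) (x : F) (hx : x ∈ V) (c : Fin q → F')
    (hc : ∀ i, c i ∈ V') (hxc : V.valuation (x - ∑ i, γ (c i) * y ^ (i : ℕ)) < 1) :
    ∃ v ∈ V', V.valuation (x ^ q - γ v) < 1 := by
  refine ⟨∑ i, c i ^ q * a ^ (i : ℕ),
    sum_mem (fun i _ => mul_mem (pow_mem (hc i) q) (pow_mem ha _)), ?_⟩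
  have hchar : ((q : ℕ) : IsLocalRing.ResidueField V) = 0 := by
    have h1 : IsLocalRing.residue V ((q : ℕ) : V) = 0 := by
      rw [IsLocalRing.residue_eq_zero_iff, ValuationSubring.valuation_lt_one_iff]
      simpa using hqV
    simpa using h1
  haveI : CharP (IsLocalRing.ResidueField V) q := (CharP.charP_iff_prime_eq_zero hq).mpr hchar
  haveI : ExpChar (IsLocalRing.ResidueField V) q := ExpChar.prime hq
  let X : V := ⟨x, hx⟩
  let Y : V := ⟨y, hy⟩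
  let C : Fin q → V := fun i => ⟨γ (c i), hγ _ (hc i)⟩
  let A : V := ⟨γ a, hγ a ha⟩
  have hres : ∀ z : V, IsLocalRing.residue V z = 0 ↔ V.valuation (z : F) < 1 := fun z => by
    rw [IsLocalRing.residue_eq_zero_iff, ValuationSubring.valuation_lt_one_iff]
  have e1 : ((X - ∑ i, C i * Y ^ (i : ℕ) : V) : F) = x - ∑ i, γ (c i) * y ^ (i : ℕ) := by
    simp [X, Y, C]
  have e2 : ((Y ^ q - A : V) : F) = y ^ q - γ a := by simp [Y, A]
  have e3 : ((X ^ q - ∑ i, C i ^ q * A ^ (i : ℕ) : V) : F) =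
      x ^ q - γ (∑ i, c i ^ q * a ^ (i : ℕ)) := by
    simp [X, C, A, map_sum, map_mul, map_pow]
  have h1 : IsLocalRing.residue V X =
      ∑ i, IsLocalRing.residue V (C i) * IsLocalRing.residue V Y ^ (i : ℕ) := by
    have := (hres _).2 (e1 ▸ hxc)
    rw [map_sub, sub_eq_zero] at this
    rw [this, map_sum]
    exact Finset.sum_congr rfl (fun i _ => by rw [map_mul, map_pow])
  have h2 : IsLocalRing.residue V Y ^ q = IsLocalRing.residue V A := by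
    have := (hres _).2 (e2 ▸ hya)
    rw [map_sub, sub_eq_zero, map_pow] at this
    exact this
  rw [← e3, ← hres, map_sub, sub_eq_zero, map_pow, h1, sum_pow_char, map_sum]
  refine Finset.sum_congr rfl (fun i _ => ?_)
  rw [map_mul, map_pow, map_pow, mul_pow, ← pow_mul, mul_comm (i : ℕ) q, pow_mul, h2]

end abb72_abs

section abb72

variable {R K : Type} [CommRing R] [IsDomain R] [IsDiscreteValuationRing R] [Field K] [CharZero K]
  [Algebra R K] [IsFractionRing R K] [Algebra K Q̄] (M' q : ℕ) [NeZero M'] [NeZero q]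

/-- `hal1` : `α₂ x ∈ V₁ ↔ x ∈ V_∞`. -/
theorem abb72_hal1 {π : R} (hπ : Irreducible π) (x : ↥(modularFunctionFieldFullC K (M' * q))) :
    al97L_alpha K (M' * q) q x ∈ cm85_Vinf (K := K) (M' * q * q) hπ ↔
      x ∈ cm85_Vinf (K := K) (M' * q) hπ :=
  al97V_alpha_mem_Vinf (M' * q) q hπ x

/-- `hbe1` : `β₂ x ∈ V₁ ↔ x ∈ V_∞`. -/
theorem abb72_hbe1 {π : R} (hπ : Irreducible π) (x : ↥(modularFunctionFieldFullC K (M' * q))) :
    al97L_beta K (M' * q) q x ∈ cm85_Vinf (K := K) (M' * q * q) hπ ↔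
      x ∈ cm85_Vinf (K := K) (M' * q) hπ :=
  al97V_beta_mem_Vinf (M' * q) q hπ x

/-- `hal2` : `α₂ x ∈ V₂ ↔ x ∈ V_∞`. -/
theorem abb72_hal2 {π : R} (hπ : Irreducible π)
    (V₂ : ValuationSubring ↥(modularFunctionFieldFullC K (M' * q * q)))
    (hV₂ : ∀ c ∈ cm85_Vinf (K := K) (M' * q) hπ, al97L_alpha K (M' * q) q c ∈ V₂)
    (hπ₂ : (algebraMap K ↥(modularFunctionFieldFullC K (M' * q * q)) (algebraMap R K π))⁻¹ ∉ V₂)
    (x : ↥(modularFunctionFieldFullC K (M' * q))) :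
    al97L_alpha K (M' * q) q x ∈ V₂ ↔ x ∈ cm85_Vinf (K := K) (M' * q) hπ := by
  refine ⟨fun h => ?_, hV₂ x⟩
  let U : ValuationSubring ↥(modularFunctionFieldFullC K (M' * q)) :=
    V₂.comap (al97L_alpha K (M' * q) q : ↥(modularFunctionFieldFullC K (M' * q)) →+*
      ↥(modularFunctionFieldFullC K (M' * q * q)))
  have hUmem : ∀ c, c ∈ U ↔ al97L_alpha K (M' * q) q c ∈ V₂ := fun c => Iff.rfl
  have hU1 : cm85_Vinf (K := K) (M' * q) hπ ≤ U := fun c hc => (hUmem c).2 (hV₂ c hc)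
  have hπU : (algebraMap K ↥(modularFunctionFieldFullC K (M' * q)) (algebraMap R K π))⁻¹ ∉
      U := by
    rw [hUmem, map_inv₀, AlgHom.commutes]
    exact hπ₂
  have e1 : U ≤ cm85_Vinf (K := K) (M' * q) hπ :=
    o3x72_le_of_le _ _ _ hU1 (fun x hx hx' =>
      gv85_hmax (IsLocalRing.residue R) π (pk85_res_iff hπ) hπ.ne_zero _ _ x hx hx') hπU
  exact e1 ((hUmem x).2 h)

/-- `hal3` : `α₂ x ∈ V₃ ↔ x ∈ V_0`. -/
theorem abb72_hal3 (hq : q.Prime) (hM' : ¬ q ∣ M') {π : R} (hπ : Irreducible π)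
    (hL : ((M' * q * q : ℕ) : K) ≠ 0)
    (V₃ : ValuationSubring ↥(modularFunctionFieldFullC K (M' * q * q)))
    (hV₃mem : ∀ x, x ∈ V₃ ↔
      als86_w2 (algebraMap K Q̄) M' q hq hM' hL x ∈ cm85_Vinf (K := K) (M' * q * q) hπ)
    (x : ↥(modularFunctionFieldFullC K (M' * q))) :
    al97L_alpha K (M' * q) q x ∈ V₃ ↔ x ∈ s34i47c_V0 (K := K) M' q hq hM' hπ := by
  rw [hV₃mem, als86_w2_alpha, s34i47c_mem_V0]
  exact al97V_beta_mem_Vinf (M' * q) q hπ _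

/-- `hbe3` : `β₂ x ∈ V₃ ↔ x ∈ V_0`. -/
theorem abb72_hbe3 (hq : q.Prime) (hM' : ¬ q ∣ M') {π : R} (hπ : Irreducible π)
    (hL : ((M' * q * q : ℕ) : K) ≠ 0)
    (V₃ : ValuationSubring ↥(modularFunctionFieldFullC K (M' * q * q)))
    (hV₃mem : ∀ x, x ∈ V₃ ↔
      als86_w2 (algebraMap K Q̄) M' q hq hM' hL x ∈ cm85_Vinf (K := K) (M' * q * q) hπ)
    (x : ↥(modularFunctionFieldFullC K (M' * q))) :
    al97L_beta K (M' * q) q x ∈ V₃ ↔ x ∈ s34i47c_V0 (K := K) M' q hq hM' hπ := by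
  rw [hV₃mem, als86_w2_beta, s34i47c_mem_V0]
  exact al97V_alpha_mem_Vinf (M' * q) q hπ _

/-- `hbe2` : `β₂ x ∈ V₂ ↔ x ∈ V_0` (helper66's `bv66_beta_mem_V2`). -/
theorem abb72_hbe2 (hq : q.Prime) (hM' : ¬ q ∣ M') {π : R} (hπ : Irreducible π)
    (hqR : ¬ IsUnit (q : R)) (hL : ((M' * q * q : ℕ) : K) ≠ 0)
    (V₂ : ValuationSubring ↥(modularFunctionFieldFullC K (M' * q * q)))
    (hV₂ : ∀ c ∈ cm85_Vinf (K := K) (M' * q) hπ, al97L_alpha K (M' * q) q c ∈ V₂)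
    (hπ₂ : (algebraMap K ↥(modularFunctionFieldFullC K (M' * q * q)) (algebraMap R K π))⁻¹ ∉ V₂)
    (hne : cm85_Vinf (K := K) (M' * q * q) hπ ≠ V₂)
    (x : ↥(modularFunctionFieldFullC K (M' * q))) :
    al97L_beta K (M' * q) q x ∈ V₂ ↔ x ∈ s34i47c_V0 (K := K) M' q hq hM' hπ :=
  bv66_beta_mem_V2 (K := K) M' q hq hM' hπ hqR hL V₂ hV₂ hπ₂ hne x

/-- `π⁻¹ ∉ V₁`. -/
theorem abb72_pi_V1 {π : R} (hπ : Irreducible π) :
    (algebraMap K ↥(modularFunctionFieldFullC K (M' * q * q)) (algebraMap R K π))⁻¹ ∉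
      cm85_Vinf (K := K) (M' * q * q) hπ :=
  gv85_pi_inv_not_mem (IsLocalRing.residue R) π (pk85_res_iff hπ) hπ.ne_zero _ _

/-- `hres1` : residue degree one of `V₁` over `V_∞` along `α₂`. -/
theorem abb72_hres1 (hq : q.Prime) {π : R} (hπ : Irreducible π)
    (V₂ : ValuationSubring ↥(modularFunctionFieldFullC K (M' * q * q)))
    (hV₂ : ∀ c ∈ cm85_Vinf (K := K) (M' * q) hπ, al97L_alpha K (M' * q) q c ∈ V₂)
    (hπ₂ : (algebraMap K ↥(modularFunctionFieldFullC K (M' * q * q)) (algebraMap R K π))⁻¹ ∉ V₂)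
    (hne : cm85_Vinf (K := K) (M' * q * q) hπ ≠ V₂)
    (s : ↥(modularFunctionFieldFullC K (M' * q * q)))
    (hs : V₂.valuation s ^ (q - 1) =
      V₂.valuation (algebraMap K ↥(modularFunctionFieldFullC K (M' * q * q)) (algebraMap R K π))) :
    ∀ x ∈ cm85_Vinf (K := K) (M' * q * q) hπ, ∃ v ∈ cm85_Vinf (K := K) (M' * q) hπ,
      (cm85_Vinf (K := K) (M' * q * q) hπ).valuation (x - al97L_alpha K (M' * q) q v) < 1 := by
  obtain ⟨-, -, -, h4, -⟩ := ob72_ram (K := K) (M' * q) q hq (dvd_mul_left q M') hπ V₂ hV₂ hπ₂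
    hne s hs
  intro x hx
  obtain ⟨b, hb, hb'⟩ := h4 x hx
  obtain ⟨p0, p1⟩ := abb72_pi_lt _ _ (abb72_pi_V1 (K := K) M' q hπ)
  exact ⟨b, hb, abb72_lt_of_div _ _ _ p0 p1 hb'⟩

/-- `hres2` : residue degree one of `V₂` over `V_∞` along `α₂`. -/
theorem abb72_hres2 (hq : q.Prime) {π : R} (hπ : Irreducible π)
    (V₂ : ValuationSubring ↥(modularFunctionFieldFullC K (M' * q * q)))
    (hV₂ : ∀ c ∈ cm85_Vinf (K := K) (M' * q) hπ, al97L_alpha K (M' * q) q c ∈ V₂)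
    (hπ₂ : (algebraMap K ↥(modularFunctionFieldFullC K (M' * q * q)) (algebraMap R K π))⁻¹ ∉ V₂)
    (hne : cm85_Vinf (K := K) (M' * q * q) hπ ≠ V₂)
    (s : ↥(modularFunctionFieldFullC K (M' * q * q)))
    (hs : V₂.valuation s ^ (q - 1) =
      V₂.valuation (algebraMap K ↥(modularFunctionFieldFullC K (M' * q * q)) (algebraMap R K π))) :
    ∀ x ∈ V₂, ∃ v ∈ cm85_Vinf (K := K) (M' * q) hπ,
      V₂.valuation (x - al97L_alpha K (M' * q) q v) < 1 := by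
  obtain ⟨-, -, -, -, h5⟩ := ob72_ram (K := K) (M' * q) q hq (dvd_mul_left q M') hπ V₂ hV₂ hπ₂
    hne s hs
  intro x hx
  obtain ⟨b, hb, hb'⟩ := h5 x hx
  have hq2 := hq.two_le
  obtain ⟨p0, p1⟩ := abb72_s_lt V₂ _ s (q - 1) (by omega) hπ₂ hs
  exact ⟨b, hb, abb72_lt_of_div _ _ _ p0 p1 hb'⟩

/-- `hres3'` : residue degree one of `V₃` over `V_0` along `β₂`. -/
theorem abb72_hres3p (hq : q.Prime) (hM' : ¬ q ∣ M') {π : R} (hπ : Irreducible π)
    (hqR : ¬ IsUnit (q : R)) (hL : ((M' * q * q : ℕ) : K) ≠ 0)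
    (V₂ V₃ : ValuationSubring ↥(modularFunctionFieldFullC K (M' * q * q)))
    (hV₂ : ∀ c ∈ cm85_Vinf (K := K) (M' * q) hπ, al97L_alpha K (M' * q) q c ∈ V₂)
    (hπ₂ : (algebraMap K ↥(modularFunctionFieldFullC K (M' * q * q)) (algebraMap R K π))⁻¹ ∉ V₂)
    (hne : cm85_Vinf (K := K) (M' * q * q) hπ ≠ V₂)
    (s : ↥(modularFunctionFieldFullC K (M' * q * q)))
    (hs : V₂.valuation s ^ (q - 1) =
      V₂.valuation (algebraMap K ↥(modularFunctionFieldFullC K (M' * q * q)) (algebraMap R K π)))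
    (hV₃mem : ∀ x, x ∈ V₃ ↔
      als86_w2 (algebraMap K Q̄) M' q hq hM' hL x ∈ cm85_Vinf (K := K) (M' * q * q) hπ) :
    ∀ x ∈ V₃, ∃ v ∈ s34i47c_V0 (K := K) M' q hq hM' hπ,
      V₃.valuation (x - al97L_beta K (M' * q) q v) < 1 := by
  obtain ⟨-, -, h3, -⟩ := obb72_ram (K := K) M' q hq hM' hπ hqR hL V₂ V₃ hV₂ hπ₂ hne s hs
    (bv66_E2 (K := K) M' q hq hM' hπ hqR hL V₂ hV₂ hπ₂ hne) hV₃mem
  intro x hx
  obtain ⟨b, hb, hb'⟩ := h3 x hx
  obtain ⟨p0, p1⟩ := abb72_pi_lt _ _ (o3x72_V3_pi M' q hq hM' hπ hL V₃ hV₃mem)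
  exact ⟨b, hb, abb72_lt_of_div _ _ _ p0 p1 hb'⟩

/-- `hres2'` : residue degree one of `V₂` over `V_0` along `β₂`. -/
theorem abb72_hres2p (hq : q.Prime) (hM' : ¬ q ∣ M') {π : R} (hπ : Irreducible π)
    (hqR : ¬ IsUnit (q : R)) (hL : ((M' * q * q : ℕ) : K) ≠ 0)
    (V₂ : ValuationSubring ↥(modularFunctionFieldFullC K (M' * q * q)))
    (hV₂ : ∀ c ∈ cm85_Vinf (K := K) (M' * q) hπ, al97L_alpha K (M' * q) q c ∈ V₂)
    (hπ₂ : (algebraMap K ↥(modularFunctionFieldFullC K (M' * q * q)) (algebraMap R K π))⁻¹ ∉ V₂)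
    (hne : cm85_Vinf (K := K) (M' * q * q) hπ ≠ V₂)
    (s : ↥(modularFunctionFieldFullC K (M' * q * q)))
    (hs : V₂.valuation s ^ (q - 1) =
      V₂.valuation (algebraMap K ↥(modularFunctionFieldFullC K (M' * q * q)) (algebraMap R K π))) :
    ∀ x ∈ V₂, ∃ v ∈ s34i47c_V0 (K := K) M' q hq hM' hπ,
      V₂.valuation (x - al97L_beta K (M' * q) q v) < 1 := by
  let V₃ : ValuationSubring ↥(modularFunctionFieldFullC K (M' * q * q)) :=
    (cm85_Vinf (K := K) (M' * q * q) hπ).comap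
      ((als86_w2 (algebraMap K Q̄) M' q hq hM' hL :
        ↥(modularFunctionFieldFullC K (M' * q * q)) ≃ₐ[K]
          ↥(modularFunctionFieldFullC K (M' * q * q))) :
        ↥(modularFunctionFieldFullC K (M' * q * q)) →+*
          ↥(modularFunctionFieldFullC K (M' * q * q)))
  have hV₃mem : ∀ x, x ∈ V₃ ↔
      als86_w2 (algebraMap K Q̄) M' q hq hM' hL x ∈ cm85_Vinf (K := K) (M' * q * q) hπ :=
    fun x => Iff.rfl
  obtain ⟨-, -, -, h4⟩ := obb72_ram (K := K) M' q hq hM' hπ hqR hL V₂ V₃ hV₂ hπ₂ hne s hs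
    (bv66_E2 (K := K) M' q hq hM' hπ hqR hL V₂ hV₂ hπ₂ hne) hV₃mem
  intro x hx
  obtain ⟨b, hb, hb'⟩ := h4 x hx
  have hq2 := hq.two_le
  obtain ⟨p0, p1⟩ := abb72_s_lt V₂ _ s (q - 1) (by omega) hπ₂ hs
  exact ⟨b, hb, abb72_lt_of_div _ _ _ p0 p1 hb'⟩

/-- Constants of `R` lie in `V₁`. -/
theorem abb72_const_V1 {π : R} (hπ : Irreducible π) (r : R) :
    algebraMap K ↥(modularFunctionFieldFullC K (M' * q * q)) (algebraMap R K r) ∈
      cm85_Vinf (K := K) (M' * q * q) hπ :=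
  gv85_mem_V_of_integral _ _ _ _ (HahnSeries.C r) (by rw [gv85_coe_algebraMap, gv85_coeffMap_C])

/-- `q ∈ 𝔪(V)` for every valuation subring `V` of `F₂` containing the constants of `R`, with
`π⁻¹ ∉ V` (residue characteristic `q`). -/
theorem abb72_q_lt {π : R} (hπ : Irreducible π) (hqR : ¬ IsUnit (q : R))
    (V : ValuationSubring ↥(modularFunctionFieldFullC K (M' * q * q)))
    (hπV : (algebraMap K ↥(modularFunctionFieldFullC K (M' * q * q)) (algebraMap R K π))⁻¹ ∉ V)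
    (hconst : ∀ r : R,
      algebraMap K ↥(modularFunctionFieldFullC K (M' * q * q)) (algebraMap R K r) ∈ V) :
    V.valuation ((q : ℕ) : ↥(modularFunctionFieldFullC K (M' * q * q))) < 1 := by
  have h1 : (q : R) ∈ IsLocalRing.maximalIdeal R := (IsLocalRing.mem_maximalIdeal _).mpr hqR
  rw [hπ.maximalIdeal_eq, Ideal.mem_span_singleton] at h1
  obtain ⟨r, hr⟩ := h1
  obtain ⟨p0, p1⟩ := abb72_pi_lt V _ hπV
  refine abb72_lt_of_div V _ _ p0 p1 ?_
  have e : ((q : ℕ) : ↥(modularFunctionFieldFullC K (M' * q * q))) =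
      algebraMap K ↥(modularFunctionFieldFullC K (M' * q * q)) (algebraMap R K π) *
        algebraMap K ↥(modularFunctionFieldFullC K (M' * q * q)) (algebraMap R K r) := by
    rw [← map_mul, ← map_mul, ← hr, map_natCast, map_natCast]
  rw [e, inv_mul_cancel_left₀ p0]
  exact hconst r

/-- `hres3q` : the residue field of `V₃` is purely inseparable of degree `q` over that of `V_0`
along `α₂`: `x ^ q ≡ α₂ v` modulo `𝔪(V₃)`. -/
theorem abb72_hres3q (hq : q.Prime) (hM' : ¬ q ∣ M') {π : R} (hπ : Irreducible π)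
    (hqR : ¬ IsUnit (q : R)) (hL : ((M' * q * q : ℕ) : K) ≠ 0)
    (V₃ : ValuationSubring ↥(modularFunctionFieldFullC K (M' * q * q)))
    (hV₃mem : ∀ x, x ∈ V₃ ↔
      als86_w2 (algebraMap K Q̄) M' q hq hM' hL x ∈ cm85_Vinf (K := K) (M' * q * q) hπ) :
    ∀ x ∈ V₃, ∃ v ∈ s34i47c_V0 (K := K) M' q hq hM' hπ,
      V₃.valuation (x ^ q - al97L_alpha K (M' * q) q v) < 1 := by
  obtain ⟨-, -, -, h4⟩ := o3x72_inert (K := K) M' q hq hM' hπ hqR hL V₃ hV₃mem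
  have hπ₃ := o3x72_V3_pi (K := K) M' q hq hM' hπ hL V₃ hV₃mem
  obtain ⟨p0, p1⟩ := abb72_pi_lt _ _ hπ₃
  have hqV := abb72_q_lt (K := K) M' q hπ hqR V₃ hπ₃ (fun r => by
    rw [hV₃mem, AlgEquiv.commutes]
    exact abb72_const_V1 (K := K) M' q hπ r)
  have ha : al97L_beta K M' q (relimc_J K M') ∈ s34i47c_V0 (K := K) M' q hq hM' hπ := by
    rw [s34i47c_mem_V0, al97L_w_beta_apply]
    have hJ : al97L_alpha K M' q (relimc_J K M') = relimc_J K (M' * q) := Subtype.ext rfl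
    rw [hJ]
    exact gv85_mem_V_of_integral _ _ _ _ (jqModC R) (by rw [relimc_J_coe, coeffMap_jqModC])
  intro x hx
  obtain ⟨c, hc, hc'⟩ := h4 x hx
  exact abb72_frob
    ((al97L_alpha K (M' * q) q : ↥(modularFunctionFieldFullC K (M' * q)) →ₐ[K]
      ↥(modularFunctionFieldFullC K (M' * q * q))) : ↥(modularFunctionFieldFullC K (M' * q)) →+*
      ↥(modularFunctionFieldFullC K (M' * q * q))) V₃ (s34i47c_V0 (K := K) M' q hq hM' hπ)
    (fun c hc => (abb72_hal3 (K := K) M' q hq hM' hπ hL V₃ hV₃mem c).2 hc) q hq hqV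
    (al97L_beta K (M' * q) q (al97L_beta K M' q (relimc_J K M')))
    (o3x72_V3_y M' q hq hM' hπ hL V₃ hV₃mem) (al97L_beta K M' q (relimc_J K M')) ha
    (abb72_lt_of_div _ _ _ p0 p1 (o3x72_V3_frob M' q hq hM' hπ hqR hL V₃ hV₃mem))
    x hx c hc (abb72_lt_of_div _ _ _ p0 p1 hc')

/-- `hres1q` : the residue field of `V₁` is purely inseparable of degree `q` over that of `V_∞`
along `β₂`: `x ^ q ≡ β₂ v` modulo `𝔪(V₁)`. -/
theorem abb72_hres1q (hq : q.Prime) (hM' : ¬ q ∣ M') {π : R} (hπ : Irreducible π)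
    (hqR : ¬ IsUnit (q : R)) (hL : ((M' * q * q : ℕ) : K) ≠ 0) :
    ∀ x ∈ cm85_Vinf (K := K) (M' * q * q) hπ, ∃ v ∈ cm85_Vinf (K := K) (M' * q) hπ,
      (cm85_Vinf (K := K) (M' * q * q) hπ).valuation (x ^ q - al97L_beta K (M' * q) q v) < 1 := by
  obtain ⟨-, -, h3⟩ := obb72_inert (K := K) M' q hq hM' hπ hqR hL
  have hπ₁ := abb72_pi_V1 (K := K) M' q hπ
  obtain ⟨p0, p1⟩ := abb72_pi_lt _ _ hπ₁
  have hqV := abb72_q_lt (K := K) M' q hπ hqR (cm85_Vinf (K := K) (M' * q * q) hπ) hπ₁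
    (abb72_const_V1 (K := K) M' q hπ)
  have hJV1 : relimc_J K (M' * q) ∈ cm85_Vinf (K := K) (M' * q) hπ :=
    gv85_mem_V_of_integral _ _ _ _ (jqModC R) (by rw [relimc_J_coe, coeffMap_jqModC])
  have hJV2 : relimc_J K (M' * q * q) ∈ cm85_Vinf (K := K) (M' * q * q) hπ :=
    gv85_mem_V_of_integral _ _ _ _ (jqModC R) (by rw [relimc_J_coe, coeffMap_jqModC])
  have hJ2 : al97L_alpha K (M' * q) q (relimc_J K (M' * q)) = relimc_J K (M' * q * q) :=
    Subtype.ext rfl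
  have hya : (cm85_Vinf (K := K) (M' * q * q) hπ).valuation
      (relimc_J K (M' * q * q) ^ q - al97L_beta K (M' * q) q (relimc_J K (M' * q))) < 1 := by
    have h2 := abb72_lt_of_div _ _ _ p0 p1 (fs85_frob (K := K) (M' * q) q hq hπ hqR)
    rw [map_pow, hJ2] at h2
    rw [← Valuation.map_neg, neg_sub]
    exact h2
  intro x hx
  obtain ⟨c, hc, hc'⟩ := h3 x hx
  exact abb72_frob
    ((al97L_beta K (M' * q) q : ↥(modularFunctionFieldFullC K (M' * q)) →ₐ[K]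
      ↥(modularFunctionFieldFullC K (M' * q * q))) : ↥(modularFunctionFieldFullC K (M' * q)) →+*
      ↥(modularFunctionFieldFullC K (M' * q * q))) (cm85_Vinf (K := K) (M' * q * q) hπ)
    (cm85_Vinf (K := K) (M' * q) hπ)
    (fun c hc => (abb72_hbe1 (K := K) M' q hπ c).2 hc) q hq hqV
    (relimc_J K (M' * q * q)) hJV2 (relimc_J K (M' * q)) hJV1 hya
    x hx c hc (abb72_lt_of_div _ _ _ p0 p1 hc')

end abb72

end Fermat.Agent.S36
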