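import Fermat.Agent.S35.PkgNewB32
import Fermat.Agent.S36.DegRoot39

/-!
# S36 lab, NEW36 (helper32): (2a)-β at `q ∣ N` (twin of row 585)

Levels `N q → N`, `q` prime, `q ∣ N`; `β = heckeBetaBar` the map `f(τ) ↦ f(qτ)`, `δ = diag(q,1)`.

* `pb32_finrank_comp` : tower law for degrees along ring homomorphisms of fields;
* `pb32_finrank_incl` : degree along an inclusion of intermediate fields = `relfinrank`;
* `pb32_finrank_beta_mul` : `ψ(N) * [F(N q) : β F(N)] = ψ(N q)` for EVERY prime `q` and every `N`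
  (the square `F(1) ⊆ F(N) →β F(N q)` = `F(1) →β F(q) ⊆ F(N q)`, Atkin–Lehner at level `q`);
* `pb32_finrank_beta` : `[F(N q) : β F(N)] = q` for `q ∣ N`;
* `pb32_card` : `[Γ₀(N) : Γ₀(N) ∩ Γ⁰(q)] = q` for `q ∣ N` (representatives `T^b`, `b < q`);
* `pb32_beta_hnorm`, `pb32_push_beta`, `pb32_adm_beta`, `pb32_compat_beta`, `pb32_betaCompat` :
  the `q ∣ N` twins of `nb75_beta_hnorm`, `tb87_push_beta`, `tb87_adm_beta`, `tb87_compat_beta`,
  `tb87_compat_beta_pj40`.

All names are prefixed `pb32_`.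
-/

set_option autoImplicit false
set_option linter.unusedSectionVars false
set_option linter.unusedVariables false
set_option linter.style.longLine false
set_option linter.style.haveILetI false
set_option synthInstance.maxHeartbeats 400000

open CongruenceSubgroup ModularCurve ModularCurve.Period AlgebraicCurve UpperHalfPlane
open IntermediateField
open scoped MatrixGroups

namespace Fermat.Agent.S36

open Fermat.Agent.S35
open Fermat.Agent.S16 Fermat.Agent.S24 Fermat.Agent.S42 Fermat.Agent.S41 Fermat.Agent.S37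
open Fermat.Agent.S18 Fermat.Agent.S28

local notation "Qb" => AlgebraicClosure ℚ

/-! ### 1. Degrees -/

/-- Tower law for the degrees along two composable ring homomorphisms of fields. -/
theorem pb32_finrank_comp {A B C : Type*} [Field A] [Field B] [Field C]
    (f : A →+* B) (g : B →+* C) :
    @Module.finrank A C _ _ (g.comp f).toAlgebra.toModule
      = @Module.finrank A B _ _ f.toAlgebra.toModule
        * @Module.finrank B C _ _ g.toAlgebra.toModule := by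
  letI := f.toAlgebra
  letI := g.toAlgebra
  letI := (g.comp f).toAlgebra
  haveI : IsScalarTower A B C := IsScalarTower.of_algebraMap_eq (fun x => rfl)
  exact (Module.finrank_mul_finrank A B C).symm

/-- The degree along an inclusion of intermediate fields is the relative degree. -/
theorem pb32_finrank_incl {K E : Type*} [Field K] [Field E] [Algebra K E]
    {A B : IntermediateField K E} (hle : A ≤ B) :
    @Module.finrank ↥A ↥B _ _ (IntermediateField.inclusion hle).toRingHom.toAlgebra.toModule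
      = A.relfinrank B := by
  rw [IntermediateField.relfinrank_eq_finrank_of_le hle]
  letI := (IntermediateField.inclusion hle).toRingHom.toAlgebra
  let j : ↥B ≃+* ↥(IntermediateField.extendScalars hle) :=
    { toFun := fun x => ⟨x.1, (IntermediateField.mem_extendScalars hle).mpr x.2⟩
      invFun := fun x => ⟨x.1, (IntermediateField.mem_extendScalars hle).mp x.2⟩
      left_inv := fun _ => rfl
      right_inv := fun _ => rfl
      map_mul' := fun _ _ => rfl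
      map_add' := fun _ _ => rfl }
  exact Algebra.finrank_eq_of_equiv_equiv (RingEquiv.refl _) j (RingHom.ext fun x => rfl)

/-- `ψ(N) * [F(N') : F(N)] = ψ(N')` along the inclusion, over `ℚ̄`. -/
theorem pb32_finrank_incl_bar {N N' : ℕ} [NeZero N] [NeZero N'] (h : N ∣ N') :
    dedekindPsi N * @Module.finrank ↥(modularFunctionFieldBar N) ↥(modularFunctionFieldBar N') _ _
      (IntermediateField.inclusion (nd38_bar_le h)).toRingHom.toAlgebra.toModule
      = dedekindPsi N' := by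
  rw [pb32_finrank_incl (nd38_bar_le h)]
  have hK : ((N' : ℕ) : Qb) ≠ 0 := Nat.cast_ne_zero.mpr (NeZero.ne N')
  have h1 := gi41_relfinrank Qb h hK
  rw [← gi41_baseChange_eq, ← gi41_baseChange_eq] at h1
  exact h1

section pb32_degree

variable (N q : ℕ) [NeZero N] [NeZero q]

/-- The commutative square `β_{N} ∘ incl = incl ∘ β_{1}`. -/
theorem pb32_square :
    ((heckeBetaBar Qb N q).toRingHom).comp
        (IntermediateField.inclusion (nd38_bar_le (one_dvd N))).toRingHom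
      = ((IntermediateField.inclusion
          (nd38_bar_le (Nat.mul_dvd_mul_right (one_dvd N) q))).toRingHom).comp
        (heckeBetaBar Qb 1 q).toRingHom := by
  refine RingHom.ext fun x => Subtype.ext ?_
  rw [RingHom.comp_apply, RingHom.comp_apply]
  simp only [AlgHom.toRingHom_eq_coe, RingHom.coe_coe]
  rw [coe_heckeBetaBar, IntermediateField.coe_inclusion, IntermediateField.coe_inclusion,
    coe_heckeBetaBar]

/-- The degree along `β` at level `1`: `[F(q) : β F(1)] = q + 1`. -/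
theorem pb32_finrank_beta_one (hq : q.Prime) :
    @Module.finrank ↥(modularFunctionFieldBar 1) ↥(modularFunctionFieldBar (1 * q)) _ _
      ((heckeBetaBar Qb 1 q).toRingHom).toAlgebra.toModule = q + 1 := by
  obtain ⟨w, hw, -, -⟩ := al47_exists 1 q (Nat.coprime_one_right q)
  exact nc73_finrank_beta 1 q hq (fun h => hq.one_lt.ne' (Nat.dvd_one.mp h)) w hw

/-- **The degree along `β`**: `ψ(N) * [F(N q) : β F(N)] = ψ(N q)` for every prime `q`. -/
theorem pb32_finrank_beta_mul (hq : q.Prime) :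
    dedekindPsi N * @Module.finrank ↥(modularFunctionFieldBar N)
      ↥(modularFunctionFieldBar (N * q)) _ _
      ((heckeBetaBar Qb N q).toRingHom).toAlgebra.toModule
      = dedekindPsi (N * q) := by
  have hT1 := pb32_finrank_comp
    (IntermediateField.inclusion (nd38_bar_le (one_dvd N))).toRingHom
    ((heckeBetaBar Qb N q).toRingHom)
  have hT2 := pb32_finrank_comp ((heckeBetaBar Qb 1 q).toRingHom)
    (IntermediateField.inclusion
      (nd38_bar_le (Nat.mul_dvd_mul_right (one_dvd N) q))).toRingHom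
  rw [pb32_square N q] at hT1
  have hA1 := pb32_finrank_incl_bar (one_dvd N)
  have hA2 := pb32_finrank_incl_bar (Nat.mul_dvd_mul_right (one_dvd N) q)
  have hB1 := pb32_finrank_beta_one q hq
  have hpsi : dedekindPsi (1 * q) = q + 1 := by
    have h2 := Fermat.Agent.Lib.G0C.dedekindPsi_prime_pow hq (e := 1) one_pos
    rw [one_mul]
    simpa using h2
  rw [dedekindPsi_one, one_mul] at hA1
  rw [hpsi] at hA2
  rw [hB1] at hT2
  rw [← hA1, ← hT1, hT2, hA2]

/-- `[F(N q) : β F(N)] = q` for a prime `q ∣ N`. -/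
theorem pb32_finrank_beta (hq : q.Prime) (hqN : q ∣ N) :
    @Module.finrank ↥(modularFunctionFieldBar N)
      ↥(modularFunctionFieldBar (N * q)) _ _ (algebraAlong (heckeBetaBar Qb N q)).toModule
      = q := by
  have h1 := pb32_finrank_beta_mul N q hq
  rw [dr39_psi_mul N q hq hqN, mul_comm] at h1
  exact Nat.eq_of_mul_eq_mul_right (gi41_psi_pos N) h1

end pb32_degree

/-! ### 2. Representatives of `Γ₀(N) ⧸ (Γ₀(N) ∩ Γ⁰(q))` for `q ∣ N` -/

section pb32_reps

variable (N q : ℕ)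

/-- The representatives `T^b`, `b < q`. -/
def pb32_reps : Fin q → ↥(Gamma0 N) :=
  fun b => lbMk N 1 ((b : ℕ) : ℤ) 0 1 (by ring) (dvd_zero _)

variable {N q}

theorem pb32_reps_01 (b : Fin q) :
    ((pb32_reps N q b : ↥(Gamma0 N)) : SL(2, ℤ)) 0 1 = ((b : ℕ) : ℤ) := rfl

theorem pb32_reps_11 (b : Fin q) :
    ((pb32_reps N q b : ↥(Gamma0 N)) : SL(2, ℤ)) 1 1 = 1 := rfl

/-- The representatives are pairwise inequivalent modulo `Γ₀(N) ∩ Γ⁰(q)`. -/
theorem pb32_reps_spec (i j : Fin q)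
    (hd : (q : ℤ) ∣ (((pb32_reps N q j)⁻¹ * pb32_reps N q i : ↥(Gamma0 N)) :
      SL(2, ℤ)) 0 1) : i = j := by
  have hd' : (q : ℤ) ∣ ((pb32_reps N q j : ↥(Gamma0 N)) : SL(2, ℤ)) 1 1
        * ((pb32_reps N q i : ↥(Gamma0 N)) : SL(2, ℤ)) 0 1
      - ((pb32_reps N q j : ↥(Gamma0 N)) : SL(2, ℤ)) 0 1
        * ((pb32_reps N q i : ↥(Gamma0 N)) : SL(2, ℤ)) 1 1 := by
    rw [← nb75_inv_mul_01]
    exact hd
  rw [pb32_reps_11, pb32_reps_01, pb32_reps_01, pb32_reps_11] at hd'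
  have h0 : (1 : ℤ) * ((i : ℕ) : ℤ) - ((j : ℕ) : ℤ) * 1 = 0 := by
    apply Int.eq_zero_of_abs_lt_dvd hd'
    have hb : ((i : ℕ) : ℤ) < q := by exact_mod_cast i.2
    have hb' : ((j : ℕ) : ℤ) < q := by exact_mod_cast j.2
    have hb0' : (0 : ℤ) ≤ ((i : ℕ) : ℤ) := Int.natCast_nonneg _
    have hb'0 : (0 : ℤ) ≤ ((j : ℕ) : ℤ) := Int.natCast_nonneg _
    rw [abs_lt]
    constructor <;> linarith
  have h1 : ((i : ℕ) : ℤ) = ((j : ℕ) : ℤ) := by linarith
  have h2 : (i : ℕ) = (j : ℕ) := by exact_mod_cast h1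
  exact Fin.ext h2

/-- For `q ∣ N` the lower right entry of an element of `Γ₀(N)` is prime to `q`. -/
theorem pb32_not_dvd_11 (hq : q.Prime) (hqN : q ∣ N) (γ : ↥(Gamma0 N)) :
    ¬ (q : ℤ) ∣ (γ : SL(2, ℤ)) 1 1 := by
  intro hd
  have hdet := lb_sl_det (γ : SL(2, ℤ))
  have h10 : (q : ℤ) ∣ ((γ : SL(2, ℤ)) : Matrix (Fin 2) (Fin 2) ℤ) 1 0 :=
    dvd_trans (by exact_mod_cast hqN) (lb_Gamma0_dvd γ)
  have h1 : (q : ℤ) ∣ 1 := by
    rw [← hdet]
    exact dvd_sub (Dvd.dvd.mul_left hd _) (Dvd.dvd.mul_left h10 _)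
  have h2 : (q : ℤ) = 1 := Int.eq_one_of_dvd_one (by positivity) h1
  have h3 : q = 1 := by exact_mod_cast h2
  exact hq.one_lt.ne' h3

/-- The representatives are complete for `q ∣ N`. -/
theorem pb32_reps_complete (hq : q.Prime) (hqN : q ∣ N) (γ : ↥(Gamma0 N)) :
    ∃ i : Fin q, (q : ℤ) ∣ (((pb32_reps N q i)⁻¹ * γ : ↥(Gamma0 N)) : SL(2, ℤ)) 0 1 := by
  obtain ⟨j, hj⟩ := lb_exists_fin hq ((γ : SL(2, ℤ)) 1 1) ((γ : SL(2, ℤ)) 0 1)
    (pb32_not_dvd_11 hq hqN γ)
  refine ⟨j, ?_⟩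
  have key : (((pb32_reps N q j)⁻¹ * γ : ↥(Gamma0 N)) : SL(2, ℤ)) 0 1
      = ((pb32_reps N q j : ↥(Gamma0 N)) : SL(2, ℤ)) 1 1 * (γ : SL(2, ℤ)) 0 1
        - ((pb32_reps N q j : ↥(Gamma0 N)) : SL(2, ℤ)) 0 1 * (γ : SL(2, ℤ)) 1 1 :=
    nb75_inv_mul_01 _ _
  rw [key, pb32_reps_11, pb32_reps_01, one_mul]
  exact hj

end pb32_reps

section pb32_card

variable (N q : ℕ) [NeZero N] [NeZero q]

/-- `[Γ₀(N) : Γ₀(N) ∩ Γ⁰(q)] = q` for a prime `q ∣ N`. -/
theorem pb32_card (hq : q.Prime) (hqN : q ∣ N) :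
    Nat.card (↥(Gamma0 N) ⧸ (tb87_K N q).subgroupOf (Gamma0 N)) = q := by
  let f : Fin q → ↥(Gamma0 N) ⧸ (tb87_K N q).subgroupOf (Gamma0 N) :=
    fun i => ((pb32_reps N q i : ↥(Gamma0 N)) :
      ↥(Gamma0 N) ⧸ (tb87_K N q).subgroupOf (Gamma0 N))
  have hf : Function.Bijective f := by
    constructor
    · intro i j hij
      have h1 : (pb32_reps N q i)⁻¹ * pb32_reps N q j
          ∈ (tb87_K N q).subgroupOf (Gamma0 N) := QuotientGroup.eq.mp hij
      exact (pb32_reps_spec j i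
        (tb87_dvd_of_mem_K N q (Subgroup.mem_subgroupOf.mp h1))).symm
    · intro c
      obtain ⟨i, hi⟩ := pb32_reps_complete hq hqN c.out
      refine ⟨i, ?_⟩
      have h1 : (pb32_reps N q i)⁻¹ * c.out ∈ (tb87_K N q).subgroupOf (Gamma0 N) :=
        Subgroup.mem_subgroupOf.mpr (tb87_mem_K_of_dvd N q _ hi)
      have h2 : ((pb32_reps N q i : ↥(Gamma0 N)) :
          ↥(Gamma0 N) ⧸ (tb87_K N q).subgroupOf (Gamma0 N))
          = ((c.out : ↥(Gamma0 N)) : ↥(Gamma0 N) ⧸ (tb87_K N q).subgroupOf (Gamma0 N)) :=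
        QuotientGroup.eq.mpr h1
      rw [QuotientGroup.out_eq'] at h2
      exact h2
  rw [← Nat.card_congr (Equiv.ofBijective f hf), Nat.card_eq_fintype_card, Fintype.card_fin]

end pb32_card

/-! ### 3. The norm formula along `β` and the push of admissible pairs, `q ∣ N` -/

section pb32_norm

variable (φ : Qb →+* ℂ) (N q : ℕ) [NeZero N] [NeZero q]

/-- **The analytic norm formula along `β`** (`q` prime, `q ∣ N`): for `q` elements of `Γ₀(N)`,
pairwise inequivalent modulo `Γ₀(N) ∩ Γ⁰(q)`,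
`ev0_N (Nm_β y) = ∏ i, r i • (diag(q,1) • ev0_{Nq} y)`. -/
theorem pb32_beta_hnorm (hq : q.Prime) (hqN : q ∣ N) {κ : Type*} [Fintype κ]
    (r : κ → ↥(Gamma0 N))
    (hr : ∀ i j, (q : ℤ) ∣ (((r j)⁻¹ * r i : ↥(Gamma0 N)) : SL(2, ℤ)) 0 1 → i = j)
    (hκ : Fintype.card κ = q) (y : ↥(modularFunctionFieldBar (N * q))) :
    ff79_ev0 φ N (ht45_normAlong (heckeBetaBar Qb N q) y)
      = ∏ i, ((r i : ↥(Gamma0 N)) : SL(2, ℤ)) • (ff79_diag q • ff79_ev0 φ (N * q) y) := by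
  letI := algebraAlong (heckeBetaBar Qb N q)
  have hfr : Module.finrank ↥(modularFunctionFieldBar N) ↥(modularFunctionFieldBar (N * q))
      = q := pb32_finrank_beta N q hq hqN
  haveI : FiniteDimensional ↥(modularFunctionFieldBar N) ↥(modularFunctionFieldBar (N * q)) :=
    Module.finite_of_finrank_pos (by rw [hfr]; exact hq.pos)
  haveI : CharZero ↥(modularFunctionFieldBar N) :=
    charZero_of_injective_algebraMap (algebraMap Qb ↥(modularFunctionFieldBar N)).injective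
  have key := nm49_norm_eq_prod (G := SL(2, ℤ)) (ff79_ev0 φ N) (nb75_e' φ N q)
    (fun x => nb75_e'_beta φ N q x) (fun i => ((r i : ↥(Gamma0 N)) : SL(2, ℤ)))
    (fun i x => ff79_ev0_fix φ N (r i) x) ?_ (by rw [hκ, hfr]) y
  · exact key
  · intro i j hij
    apply hr i j
    apply nb75_stab q
    intro τ
    obtain ⟨Fi, hFi, hFi'⟩ := nb75_e'_J φ N q ((r i : ↥(Gamma0 N)) : SL(2, ℤ)) τ
    obtain ⟨Fj, hFj, hFj'⟩ := nb75_e'_J φ N q ((r j : ↥(Gamma0 N)) : SL(2, ℤ)) τ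
    have hF : Fi = Fj := by
      apply mer95_algebraMap_injective
      rw [← hFi, ← hFj]
      exact hij _
    have h1 := hFi' (((r j : ↥(Gamma0 N)) : SL(2, ℤ)) • τ)
    have h2 := hFj' (((r j : ↥(Gamma0 N)) : SL(2, ℤ)) • τ)
    rw [hF] at h1
    rw [h1, inv_smul_smul] at h2
    rw [← h2]
    congr 2
    rw [← mul_smul]
    congr 1
    simp [mul_inv_rev]

/-- **The root of the norm along `β` and its character**, `q ∣ N`. -/
theorem pb32_push_beta (hq : q.Prime) (hqN : q ∣ N) (m : ℕ)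
    (χ : Additive ↥(Gamma0 (N * q)) →+ ℤ) (h : mer95_MER)
    (f : ↥(modularFunctionFieldBar (N * q)))
    (h0 : h ≠ 0) (hchar : thz31_IsCharZ (th70_zeta m) χ h)
    (hpow : h ^ m = ff79_ev0 φ (N * q) f) :
    ∃ H : mer95_MER, H ≠ 0 ∧
      thz31_IsCharZ (th70_zeta m) (tb87_corB N q ℤ χ) H ∧
      H ^ m = ff79_ev0 φ N (ht45_normAlong (heckeBetaBar Qb N q) f) := by
  classical
  letI : Fintype (↥(Gamma0 N) ⧸ (tb87_K N q).subgroupOf (Gamma0 N)) := Fintype.ofFinite _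
  have hκ : Fintype.card (↥(Gamma0 N) ⧸ (tb87_K N q).subgroupOf (Gamma0 N)) = q := by
    rw [← Nat.card_eq_fintype_card]
    exact pb32_card N q hq hqN
  have hnorm := pb32_beta_hnorm φ N q hq hqN
    (fun c : ↥(Gamma0 N) ⧸ (tb87_K N q).subgroupOf (Gamma0 N) => c.out)
    (fun c c' hcc => tb87_out_inj N q c c' hcc) hκ f
  have hd0 : ff79_diag q • h ≠ 0 := by
    intro hz
    apply h0
    have := congrArg (fun x => (ff79_diag q)⁻¹ • x) hz
    simpa using this
  refine ⟨∏ c : ↥(Gamma0 N) ⧸ (tb87_K N q).subgroupOf (Gamma0 N),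
    ((c.out : ↥(Gamma0 N)) : SL(2, ℤ)) • (ff79_diag q • h), ht45_prod_ne_zero _ hd0, ?_, ?_⟩
  · intro γ
    exact cor22_char (Gamma0 N) (tb87_K N q) (th70_zeta m) (pa22_zeta_ne_zero m)
      (fun g => mer95_smul_C_SL g _)
      (χ.comp (MonoidHom.toAdditive (tb87_back N q).toMonoidHom)) (ff79_diag q • h)
      (fun k => tb87_char_diag N q m χ h hchar k) γ
  · rw [hnorm, ← Finset.prod_pow]
    refine Finset.prod_congr rfl fun c _ => ?_
    rw [← smul_pow', ← smul_pow', hpow]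

end pb32_norm

section pb32_adm

variable (N q : ℕ) [NeZero N] [NeZero q]

/-- **Pushforward of an admissible pair along `β`**, `q ∣ N`. -/
theorem pb32_adm_beta (hq : q.Prime) (hqN : q ∣ N) (m : ℕ) (hm : m ≠ 0)
    (χ : Additive ↥(Gamma0 (N * q)) →+ ℤ) (h : mer95_MER)
    (f : ↥(modularFunctionFieldBar (N * q)))
    (H : thz31_AdmZ Qb (ff79_ev0 phi (N * q)) m (th70_zeta m) χ h f) :
    (∃ H' : mer95_MER, thz31_AdmZ Qb (ff79_ev0 phi N) m (th70_zeta m)
      (tb87_corB N q ℤ χ) H' (ht45_normAlong (heckeBetaBar Qb N q) f)) ∧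
    ∀ D : Divisor Qb ↥(modularFunctionFieldBar (N * q)), th70_IsDivOf m f D →
      th70_IsDivOf m (ht45_normAlong (heckeBetaBar Qb N q) f)
        (Divisor.pushforwardAlong (heckeBetaBar Qb N q) (hx63_heckeBetaBarIntegral N q) D) := by
  obtain ⟨h0, f0, hchar, hpow, hdvd⟩ := H
  haveI := hi63_hasPrincipalDivisors_bar (N * q)
  have hβ := hx63_heckeBetaBarIntegral N q
  obtain ⟨-, hfin, hNF⟩ := hx63_inputs_gen (φ := heckeBetaBar Qb N q) hβ
  have hdiv : ∀ D : Divisor Qb ↥(modularFunctionFieldBar (N * q)), th70_IsDivOf m f D →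
      th70_IsDivOf m (ht45_normAlong (heckeBetaBar Qb N q) f)
        (Divisor.pushforwardAlong (heckeBetaBar Qb N q) hβ D) := fun D hD v =>
    hd63_pushforwardAlong_div (heckeBetaBar Qb N q) hβ hfin hNF D (m : ℤ) f f0 hD v
  refine ⟨?_, hdiv⟩
  obtain ⟨H', H'0, H'char, H'pow⟩ := pb32_push_beta phi N q hq hqN m χ h f h0 hchar hpow
  obtain ⟨D, hD, -⟩ := th70_exists_div (K := Qb) hm f0 hdvd
  exact ⟨H', H'0, ht45_normAlong_ne_zero _ hfin f0, H'char, H'pow,
    fun v => ⟨_, (hdiv D hD v).symm⟩⟩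

/-- **`β_* ∘ Θ_n = Θ'_n ∘ cor_β`, divisor form**, `q ∣ N`. -/
theorem pb32_compat_beta (hq : q.Prime) (hqN : q ∣ N) (p : ℕ) (hp : p ≠ 0)
    (Θ : ℕ → (↥(parabolicHoms ℤ (Gamma0 (N * q)) ℤ) →+ JZero (N * q)))
    (hex : ∀ (n : ℕ) (χ : ↥(parabolicHoms ℤ (Gamma0 (N * q)) ℤ)),
      ∃ (h : mer95_MER) (f : ↥(modularFunctionFieldBar (N * q))),
        thz31_AdmZ Qb (ff79_ev0 phi (N * q)) (p ^ n) (th70_zeta (p ^ n))
          (χ : Additive (Gamma0 (N * q)) →+ ℤ) h f)
    (heval : ∀ (n : ℕ) (χ : ↥(parabolicHoms ℤ (Gamma0 (N * q)) ℤ)) (h : mer95_MER)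
      (f : ↥(modularFunctionFieldBar (N * q))),
      thz31_AdmZ Qb (ff79_ev0 phi (N * q)) (p ^ n) (th70_zeta (p ^ n))
        (χ : Additive (Gamma0 (N * q)) →+ ℤ) h f →
      ∀ D : Divisor.degZero (K := Qb) (F := ↥(modularFunctionFieldBar (N * q))),
        th70_IsDivOf (p ^ n) f (D : Divisor Qb ↥(modularFunctionFieldBar (N * q))) →
          Θ n χ = Pic0.mk D)
    (Θ' : ℕ → (↥(parabolicHoms ℤ (Gamma0 N) ℤ) →+ JZero N))
    (heval' : ∀ (n : ℕ) (χ : ↥(parabolicHoms ℤ (Gamma0 N) ℤ)) (h : mer95_MER)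
      (f : ↥(modularFunctionFieldBar N)),
      thz31_AdmZ Qb (ff79_ev0 phi N) (p ^ n) (th70_zeta (p ^ n))
        (χ : Additive (Gamma0 N) →+ ℤ) h f →
      ∀ D : Divisor.degZero (K := Qb) (F := ↥(modularFunctionFieldBar N)),
        th70_IsDivOf (p ^ n) f (D : Divisor Qb ↥(modularFunctionFieldBar N)) →
          Θ' n χ = Pic0.mk D)
    (n : ℕ) (χ : ↥(parabolicHoms ℤ (Gamma0 (N * q)) ℤ)) :
    ∃ D : Divisor.degZero (K := Qb) (F := ↥(modularFunctionFieldBar (N * q))),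
      Θ n χ = Pic0.mk D ∧
      Θ' n (tb87_corBpar N q χ)
        = Pic0.mk ⟨Divisor.pushforwardAlong (heckeBetaBar Qb N q)
            (hx63_heckeBetaBarIntegral N q)
            (D : Divisor Qb ↥(modularFunctionFieldBar (N * q))),
          Divisor.pushforwardAlong_mem_degZero _ _ D.2⟩ := by
  haveI := hi63_hasPrincipalDivisors_bar (N * q)
  have hm : p ^ n ≠ 0 := pow_ne_zero n hp
  obtain ⟨h, f, H⟩ := hex n χ
  obtain ⟨h0, f0, hchar, hpow, hdvd⟩ := id H
  obtain ⟨D, hD, hdeg⟩ := th70_exists_div (K := Qb) hm f0 hdvd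
  obtain ⟨⟨H', hadm⟩, hdiv⟩ := pb32_adm_beta N q hq hqN (p ^ n) hm
    (χ : Additive (Gamma0 (N * q)) →+ ℤ) h f H
  refine ⟨⟨D, Divisor.mem_degZero.mpr hdeg⟩, heval n χ h f H _ hD, ?_⟩
  exact heval' n (tb87_corBpar N q χ) H' _ hadm
    ⟨_, Divisor.pushforwardAlong_mem_degZero _ _ (Divisor.mem_degZero.mpr hdeg)⟩ (hdiv D hD)

/-- **(2a)-β at `q ∣ N`**: `β_* (Θ n c) = Θ' n (cor_β c)` for all evaluated families, with
`cor_β = tb87_corBpar N q`. -/
theorem pb32_betaCompat (hq : q.Prime) (hqN : q ∣ N) (p : ℕ) (hp : p ≠ 0)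
    (Θ : ℕ → (↥(parabolicHoms ℤ (Gamma0 (N * q)) ℤ) →+ JZero (N * q)))
    (Θ' : ℕ → (↥(parabolicHoms ℤ (Gamma0 N) ℤ) →+ JZero N))
    (hΘ : pn32_Eval (N * q) p Θ) (hΘ' : pn32_Eval N p Θ')
    (n : ℕ) (c : ↥(parabolicHoms ℤ (Gamma0 (N * q)) ℤ)) :
    pj40_betaPush N q (Θ n c) = Θ' n (tb87_corBpar N q c) := by
  obtain ⟨D, hD, hD'⟩ := pb32_compat_beta N q hq hqN p hp Θ hΘ.1 hΘ.2 Θ' hΘ'.2 n c
  rw [hD, pj40_betaPush_mk N q (hx63_heckeBetaBarIntegral N q) D _]
  exact hD'.symm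

end pb32_adm

end Fermat.Agent.S36
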