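import Fermat.Agent.S36.ValVec3

/-!
# S36 lab, row 620 B2-VAL-INST (helper3): the `β`-side norm-valuation identities by `w` (abstract)

Mathlib only.  `Nβ y = w (Nα (w₂ y))`, `V3 = w₂^* V1`, `V1 = w₂^* V3`, `V2 = w₂^* V2`,
`V0 = w^* V∞`, `V∞ = w^* V0`: the two `β`-identities
`v∞'(Nβ y) = q v₁(y)`, `v₀'(Nβ y) = v₂(y) + v₃(y)` follow from the two `α`-identities
`v∞'(Nα y) = v₁(y) + v₂(y)`, `v₀'(Nα y) = q v₃(y)`.
-/

set_option autoImplicit false

namespace Fermat.Agent.S36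

section

variable {F : Type*} [Field F]

/-- The relation `v(x) = v(y)^k` as a unit statement. -/
theorem bw3_val_zpow_iff (V : ValuationSubring F) (x y : F) (hy : y ≠ 0) (k : ℤ) :
    V.valuation x = V.valuation y ^ k ↔
      (x * (y ^ k)⁻¹ ∈ V ∧ (x * (y ^ k)⁻¹)⁻¹ ∈ V ∧ x ≠ 0) := by
  have hvy : V.valuation y ≠ 0 := (Valuation.ne_zero_iff _).2 hy
  have hyk : y ^ k ≠ 0 := zpow_ne_zero _ hy
  constructor
  · intro h
    have hx : x ≠ 0 := by
      rintro rfl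
      rw [map_zero] at h
      exact zpow_ne_zero k hvy h.symm
    have h1 : V.valuation (x * (y ^ k)⁻¹) = 1 := by
      rw [map_mul, map_inv₀, map_zpow₀, h, mul_inv_cancel₀ (zpow_ne_zero _ hvy)]
    obtain ⟨a, b, -⟩ := (vv3_val_eq_one_iff V _).1 h1
    exact ⟨a, b, hx⟩
  · rintro ⟨a, b, hx⟩
    have h1 : V.valuation (x * (y ^ k)⁻¹) = 1 :=
      (vv3_val_eq_one_iff V _).2 ⟨a, b, mul_ne_zero hx (inv_ne_zero hyk)⟩
    rw [map_mul, map_inv₀, map_zpow₀] at h1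
    exact (mul_inv_eq_one₀ (zpow_ne_zero _ hvy)).1 h1

/-- Transport of the relation `v(x) = v(y)^k` along a ring homomorphism identifying two
valuation subrings. -/
theorem bw3_val_transport {F' : Type*} [Field F'] (e : F →+* F') (V : ValuationSubring F)
    (V' : ValuationSubring F') (h : ∀ x, x ∈ V ↔ e x ∈ V') (x y : F) (hy : y ≠ 0) (k : ℤ) :
    V.valuation x = V.valuation y ^ k ↔ V'.valuation (e x) = V'.valuation (e y) ^ k := by
  rw [bw3_val_zpow_iff V x y hy, bw3_val_zpow_iff V' (e x) (e y) ((map_ne_zero e).2 hy), h, h,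
    map_inv₀, map_mul, map_inv₀, map_zpow₀, map_ne_zero]

end

/-- **The `β`-identities from the `α`-identities by `w`.** -/
theorem bw3_beta {F1 F2 : Type*} [Field F1] [Field F2] (q : ℕ)
    (Nα Nβ : F2 → F1) (w : F1 →+* F1) (w2 : F2 →+* F2)
    (hN : ∀ y, Nβ y = w (Nα (w2 y)))
    (V1 V2 V3 : ValuationSubring F2) (Vinf V0 : ValuationSubring F1)
    (h31 : ∀ x, x ∈ V3 ↔ w2 x ∈ V1) (h13 : ∀ x, x ∈ V1 ↔ w2 x ∈ V3)
    (h22 : ∀ x, x ∈ V2 ↔ w2 x ∈ V2)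
    (h0 : ∀ x, x ∈ V0 ↔ w x ∈ Vinf) (hinf : ∀ x, x ∈ Vinf ↔ w x ∈ V0)
    (p2 s : F2) (p1 : F1) (hp2 : p2 ≠ 0) (hs0 : s ≠ 0) (hp1 : p1 ≠ 0)
    (hwp : w p1 = p1) (hw2p : w2 p2 = p2) (hw2s : V2.valuation (w2 s) = V2.valuation s)
    (hAinf : ∀ y : F2, y ≠ 0 → ∀ a b : ℤ, V1.valuation y = V1.valuation p2 ^ a →
      V2.valuation y = V2.valuation s ^ b → Vinf.valuation (Nα y) = Vinf.valuation p1 ^ (a + b))
    (hA0 : ∀ y : F2, y ≠ 0 → ∀ c : ℤ, V3.valuation y = V3.valuation p2 ^ c →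
      V0.valuation (Nα y) = V0.valuation p1 ^ ((q : ℤ) * c)) :
    (∀ y : F2, y ≠ 0 → ∀ a : ℤ, V1.valuation y = V1.valuation p2 ^ a →
      Vinf.valuation (Nβ y) = Vinf.valuation p1 ^ ((q : ℤ) * a)) ∧
    (∀ y : F2, y ≠ 0 → ∀ b c : ℤ, V2.valuation y = V2.valuation s ^ b →
      V3.valuation y = V3.valuation p2 ^ c →
      V0.valuation (Nβ y) = V0.valuation p1 ^ (b + c)) := by
  refine ⟨?_, ?_⟩
  · intro y hy a ha
    have hy' : w2 y ≠ 0 := (map_ne_zero w2).2 hy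
    have h1 : V3.valuation (w2 y) = V3.valuation p2 ^ a := by
      have := (bw3_val_transport w2 V1 V3 h13 y p2 hp2 a).1 ha
      rwa [hw2p] at this
    have h2 := hA0 (w2 y) hy' a h1
    have h3 := (bw3_val_transport w V0 Vinf h0 (Nα (w2 y)) p1 hp1 ((q : ℤ) * a)).1 h2
    rw [hwp] at h3
    rw [hN]
    exact h3
  · intro y hy b c hb hc
    have hy' : w2 y ≠ 0 := (map_ne_zero w2).2 hy
    have h1 : V1.valuation (w2 y) = V1.valuation p2 ^ c := by
      have := (bw3_val_transport w2 V3 V1 h31 y p2 hp2 c).1 hc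
      rwa [hw2p] at this
    have h2 : V2.valuation (w2 y) = V2.valuation s ^ b := by
      have := (bw3_val_transport w2 V2 V2 h22 y s hs0 b).1 hb
      rwa [hw2s] at this
    have h3 := hAinf (w2 y) hy' c b h1 h2
    have h4 := (bw3_val_transport w Vinf V0 hinf (Nα (w2 y)) p1 hp1 (c + b)).1 h3
    rw [hwp] at h4
    rw [hN, add_comm b c]
    exact h4

end Fermat.Agent.S36
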