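/-
# S36 lab, NEW36 (helper39): the degree of `β : F(N) → F(N q)` for EVERY prime `q`

* `bd39_tower`, `bd39_tower'` : tower law for finranks along ring homomorphisms of fields;
* `bd39_finrank_incl` : the degree of `F(N')` over `F(N)` along the inclusion is the relfinrank;
* `bd39_sq` : the commutative square `F(1) ⊂ F(N) -β→ F(N q)` = `F(1) -β→ F(q) ⊂ F(N q)`;
* `bd39_psi_mul_finrank_beta` : `ψ(N) * deg_β(F(N q) / F(N)) = ψ(N q)` for every prime `q`;
* `bd39_finrank_beta` : for a prime `q ∣ N` the degree along `β` is `q`.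

All names are prefixed `bd39_`.
-/
import Fermat.Agent.S36.DegRoot39
import Fermat.Agent.S35.NormBeta75

set_option autoImplicit false
set_option linter.style.haveILetI false
set_option synthInstance.maxHeartbeats 400000

open ModularCurve IntermediateField AlgebraicCurve

namespace Fermat.Agent.S36

open Fermat.Agent.S18 Fermat.Agent.S24 Fermat.Agent.S37 Fermat.Agent.S42

local notation "Qb" => AlgebraicClosure ℚ

/-- Tower law for finranks along ring homomorphisms of fields. -/
theorem bd39_tower {A B C : Type*} [Field A] [Field B] [Field C] (f : A →+* B) (g : B →+* C) :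
    @Module.finrank A B _ _ f.toAlgebra.toModule * @Module.finrank B C _ _ g.toAlgebra.toModule
      = @Module.finrank A C _ _ (g.comp f).toAlgebra.toModule := by
  letI := f.toAlgebra
  letI := g.toAlgebra
  letI := (g.comp f).toAlgebra
  haveI : IsScalarTower A B C := IsScalarTower.of_algebraMap_eq (fun x => rfl)
  exact Module.finrank_mul_finrank A B C

/-- The degree of `F(N')` over `F(N)` along the inclusion is the relative finrank. -/
theorem bd39_finrank_incl {N N' : ℕ} (h : N ∣ N') :
    @Module.finrank ↥(modularFunctionFieldBar N) ↥(modularFunctionFieldBar N') _ _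
      (IntermediateField.inclusion (nd38_bar_le h)).toRingHom.toAlgebra.toModule
      = (modularFunctionFieldBar N).relfinrank (modularFunctionFieldBar N') := by
  have hle : modularFunctionFieldBar N ≤ modularFunctionFieldBar N' := nd38_bar_le h
  rw [IntermediateField.relfinrank_eq_finrank_of_le hle]
  letI := (IntermediateField.inclusion hle).toRingHom.toAlgebra
  let j : ↥(modularFunctionFieldBar N') ≃+* ↥(IntermediateField.extendScalars hle) :=
    { toFun := fun x => ⟨x.1, (IntermediateField.mem_extendScalars hle).mpr x.2⟩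
      invFun := fun x => ⟨x.1, (IntermediateField.mem_extendScalars hle).mp x.2⟩
      left_inv := fun _ => rfl
      right_inv := fun _ => rfl
      map_mul' := fun _ _ => rfl
      map_add' := fun _ _ => rfl }
  exact Algebra.finrank_eq_of_equiv_equiv (RingEquiv.refl _) j (RingHom.ext fun x => rfl)


theorem bd39_tower' {A B C : Type*} [Field A] [Field B] [Field C] (f : A →+* B) (g : B →+* C)
    (h : A →+* C) (hh : g.comp f = h) :
    @Module.finrank A B _ _ f.toAlgebra.toModule * @Module.finrank B C _ _ g.toAlgebra.toModule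
      = @Module.finrank A C _ _ h.toAlgebra.toModule := by
  subst hh
  exact bd39_tower f g

theorem bd39_sq (N q : ℕ) [NeZero N] [NeZero q] (h1N : (1 : ℕ) ∣ N) (hqNq : 1 * q ∣ N * q) :
    (heckeBetaBar Qb N q).toRingHom.comp
        (IntermediateField.inclusion (nd38_bar_le h1N)).toRingHom
      = (IntermediateField.inclusion (nd38_bar_le hqNq)).toRingHom.comp
        (heckeBetaBar Qb 1 q).toRingHom := by
  refine RingHom.ext fun x => Subtype.ext ?_
  have h1 : (((heckeBetaBar Qb N q).toRingHom.comp
        (IntermediateField.inclusion (nd38_bar_le h1N)).toRingHom) x : LaurentSeries Qb)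
      = qExpand Qb q (x : LaurentSeries Qb) := by
    rw [RingHom.comp_apply]
    exact (coe_heckeBetaBar N q _).trans (by rw [AlgHom.toRingHom_eq_coe, RingHom.coe_coe, IntermediateField.coe_inclusion])
  have h2 : (((IntermediateField.inclusion (nd38_bar_le hqNq)).toRingHom.comp
        (heckeBetaBar Qb 1 q).toRingHom) x : LaurentSeries Qb)
      = qExpand Qb q (x : LaurentSeries Qb) := by
    rw [RingHom.comp_apply]
    exact (IntermediateField.coe_inclusion _ _).trans (coe_heckeBetaBar 1 q x)
  rw [h1, h2]

theorem bd39_d1 (N : ℕ) [NeZero N] (h1N : (1 : ℕ) ∣ N) :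
    @Module.finrank ↥(modularFunctionFieldBar 1) ↥(modularFunctionFieldBar N) _ _
      (IntermediateField.inclusion (nd38_bar_le h1N)).toRingHom.toAlgebra.toModule
      = dedekindPsi N := by
  rw [bd39_finrank_incl h1N]
  have := nd38_relfinrank (N := 1) (N' := N) h1N
  rwa [dedekindPsi_one, one_mul] at this

theorem bd39_d2 (q : ℕ) [NeZero q] (hq : q.Prime) :
    @Module.finrank ↥(modularFunctionFieldBar 1) ↥(modularFunctionFieldBar (1 * q)) _ _
      (heckeBetaBar Qb 1 q).toRingHom.toAlgebra.toModule = q + 1 := by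
  have hq1 : ¬ q ∣ 1 := fun hd => hq.one_lt.ne' (Nat.dvd_one.mp hd)
  have hcop : Nat.Coprime q 1 := Nat.coprime_one_right q
  obtain ⟨w, hwα, -, -⟩ := al47_exists 1 q hcop
  exact nc73_finrank_beta 1 q hq hq1 w hwα

theorem bd39_d3 (N q : ℕ) [NeZero N] [NeZero q] (hq : q.Prime) (hqNq : 1 * q ∣ N * q) :
    (q + 1) * @Module.finrank ↥(modularFunctionFieldBar (1 * q))
      ↥(modularFunctionFieldBar (N * q)) _ _
      (IntermediateField.inclusion (nd38_bar_le hqNq)).toRingHom.toAlgebra.toModule
      = dedekindPsi (N * q) := by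
  haveI : NeZero (1 * q) := ⟨by rw [one_mul]; exact NeZero.ne q⟩
  haveI : NeZero (N * q) := ⟨Nat.mul_ne_zero (NeZero.ne N) (NeZero.ne q)⟩
  rw [bd39_finrank_incl hqNq]
  have h3 := nd38_relfinrank (N := 1 * q) (N' := N * q) hqNq
  have h4 : dedekindPsi (1 * q) = q + 1 := by
    rw [one_mul]
    have := Fermat.Agent.Lib.G0C.dedekindPsi_prime_pow hq (e := 1) one_pos
    simpa using this
  rwa [h4] at h3


/-- **General degree formula along `β`**: `ψ(N) * deg_β(F(N q) / F(N)) = ψ(N q)` for every
prime `q` and every `N`. -/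
theorem bd39_psi_mul_finrank_beta (N q : ℕ) [NeZero N] [NeZero q] (hq : q.Prime) :
    dedekindPsi N * @Module.finrank ↥(modularFunctionFieldBar N)
      ↥(modularFunctionFieldBar (N * q)) _ _
      (algebraAlong (heckeBetaBar Qb N q)).toModule = dedekindPsi (N * q) := by
  have h1N : (1 : ℕ) ∣ N := one_dvd N
  have hqNq : 1 * q ∣ N * q := Nat.mul_dvd_mul_right (one_dvd N) q
  have t1 := bd39_tower' (IntermediateField.inclusion (nd38_bar_le h1N)).toRingHom
    (heckeBetaBar Qb N q).toRingHom _ (bd39_sq N q h1N hqNq)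
  have t2 := bd39_tower (heckeBetaBar Qb 1 q).toRingHom
    (IntermediateField.inclusion (nd38_bar_le hqNq)).toRingHom
  rw [bd39_d1 N h1N] at t1
  rw [bd39_d2 q hq] at t2
  have t3 := bd39_d3 N q hq hqNq
  exact t1.trans (t2.symm.trans t3)

/-- The degree of `F(N q)` over `F(N)` along `β`, for a prime `q ∣ N`, is `q`. -/
theorem bd39_finrank_beta (N q : ℕ) [NeZero N] [NeZero q] (hq : q.Prime) (hqN : q ∣ N) :
    @Module.finrank ↥(modularFunctionFieldBar N) ↥(modularFunctionFieldBar (N * q)) _ _
      (algebraAlong (heckeBetaBar Qb N q)).toModule = q := by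
  have h1 := bd39_psi_mul_finrank_beta N q hq
  rw [dr39_psi_mul N q hq hqN, mul_comm q] at h1
  exact Nat.eq_of_mul_eq_mul_left (gi41_psi_pos N) h1

end Fermat.Agent.S36
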