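import Mathlib

/-!
# S36 lab, row 599 C-REGq (helper40): the discrete valuation ring of a branch at a closed point

Abstract (Mathlib only).  `B` a noetherian ring (the chart), `P` a prime (the branch
`{x ∈ B | π⁻¹ x ∈ V}`), `n ⊇ P` a prime (the closed point), `y ∈ n`, `y ∉ P` a local coordinate of
the branch at `n`: `∀ x ∈ n, ∃ s ∉ n, ∃ a, s x - a y ∈ P` (this is `sf79_Unif` read in `B`).

`bd40_exists_dvr` : there is a discrete valuation ring `O = (B ⧸ P)_n` with a ring homomorphism
`ι : B → O` such that `ι x = 0 ↔ x ∈ P`, `IsUnit (ι s) ↔ s ∉ n`, and `ι y` is a uniformiser.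

Every congruence `E ∈ P` between elements of `B` becomes an equation in `O`, every `s ∉ n` becomes
a unit: this is the bridge from the chart language to the abstract lemmas `k1e40_*`, `k1x56_*`,
`k1e44_*`, `ka13_*`, `ed49_*` about `O`.

All names are prefixed `bd40_`.
-/

set_option autoImplicit false
set_option linter.style.haveILetI false

namespace Fermat.Agent.S36

open IsLocalRing

universe u

/-- **The discrete valuation ring of a branch at a closed point.** -/
theorem bd40_exists_dvr {B : Type u} [CommRing B] [IsNoetherianRing B] (P n : Ideal B)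
    [hP : P.IsPrime] [hn : n.IsPrime] (hPn : P ≤ n) (y : B) (hyn : y ∈ n) (hyP : y ∉ P)
    (hunif : ∀ x ∈ n, ∃ s : B, s ∉ n ∧ ∃ a : B, s * x - a * y ∈ P) :
    ∃ (O : Type u) (_ : CommRing O) (_ : IsDomain O) (_ : IsDiscreteValuationRing O)
      (ι : B →+* O), (∀ x : B, ι x = 0 ↔ x ∈ P) ∧ (∀ s : B, IsUnit (ι s) ↔ s ∉ n) ∧
        Irreducible (ι y) := by
  classical
  have hsurj : Function.Surjective (Ideal.Quotient.mk P) := Ideal.Quotient.mk_surjective
  haveI hnbar : (n.map (Ideal.Quotient.mk P)).IsPrime :=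
    Ideal.map_isPrime_of_surjective hsurj (by rw [Ideal.mk_ker]; exact hPn)
  let O := Localization.AtPrime (n.map (Ideal.Quotient.mk P))
  let ι : B →+* O := (algebraMap (B ⧸ P) O).comp (Ideal.Quotient.mk P)
  have hle : (n.map (Ideal.Quotient.mk P)).primeCompl ≤ nonZeroDivisors (B ⧸ P) :=
    Ideal.primeCompl_le_nonZeroDivisors _
  have hinj : Function.Injective (algebraMap (B ⧸ P) O) := IsLocalization.injective O hle
  haveI : IsDomain O := IsLocalization.isDomain_localization hle
  haveI : IsNoetherianRing O :=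
    IsLocalization.isNoetherianRing (n.map (Ideal.Quotient.mk P)).primeCompl O inferInstance
  have h0 : ∀ x : B, ι x = 0 ↔ x ∈ P := by
    intro x
    show algebraMap (B ⧸ P) O (Ideal.Quotient.mk P x) = 0 ↔ x ∈ P
    rw [map_eq_zero_iff _ hinj, Ideal.Quotient.eq_zero_iff_mem]
  have hmem : ∀ x : B, Ideal.Quotient.mk P x ∈ n.map (Ideal.Quotient.mk P) ↔ x ∈ n := by
    intro x
    constructor
    · intro h
      obtain ⟨x', hx', hxx'⟩ := (Ideal.mem_map_iff_of_surjective _ hsurj).mp h
      have h1 : x' - x ∈ P := Ideal.Quotient.eq.mp hxx'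
      have h2 : x = x' - (x' - x) := by ring
      rw [h2]
      exact n.sub_mem hx' (hPn h1)
    · exact fun h => Ideal.mem_map_of_mem _ h
  have hunit : ∀ s : B, s ∉ n → IsUnit (ι s) := by
    intro s hs
    exact IsLocalization.map_units O
      (⟨Ideal.Quotient.mk P s, fun h => hs ((hmem s).mp h)⟩ :
        (n.map (Ideal.Quotient.mk P)).primeCompl)
  have hmax : maximalIdeal O =
      (n.map (Ideal.Quotient.mk P)).map (algebraMap (B ⧸ P) O) :=
    (Localization.AtPrime.map_eq_maximalIdeal).symm
  have hnon : ∀ x : B, x ∈ n → ι x ∈ maximalIdeal O := by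
    intro x hx
    rw [hmax]
    exact Ideal.mem_map_of_mem _ (Ideal.mem_map_of_mem _ hx)
  have hspan : maximalIdeal O = Ideal.span {ι y} := by
    apply le_antisymm
    · rw [hmax, Ideal.map_map, Ideal.map_le_iff_le_comap]
      intro x hx
      obtain ⟨s, hs, a, ha⟩ := hunif x hx
      have h1 : ι s * ι x = ι a * ι y := by
        have h := (h0 (s * x - a * y)).mpr ha
        rw [map_sub, map_mul, map_mul, sub_eq_zero] at h
        exact h
      obtain ⟨us, hus⟩ := hunit s hs
      rw [Ideal.mem_comap, Ideal.mem_span_singleton]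
      refine ⟨↑us⁻¹ * ι a, ?_⟩
      have h2 : ι x = ↑us⁻¹ * (ι s * ι x) := by
        rw [← hus, ← mul_assoc, Units.inv_mul, one_mul]
      show ι x = ι y * (↑us⁻¹ * ι a)
      rw [h2, h1]
      ring
    · rw [Ideal.span_singleton_le_iff_mem]
      exact hnon y hyn
  have hy0 : ι y ≠ 0 := fun h => hyP ((h0 y).mp h)
  have hne : maximalIdeal O ≠ ⊥ := by
    rw [hspan]
    intro h
    exact hy0 (Ideal.span_singleton_eq_bot.mp h)
  haveI : IsDiscreteValuationRing O := by
    have hprin : (maximalIdeal O).IsPrincipal := ⟨⟨ι y, hspan⟩⟩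
    haveI : IsPrincipalIdealRing O :=
      ((tfae_of_isNoetherianRing_of_isLocalRing_of_isDomain (R := O)).out 0 4).mpr
        hprin
    exact { not_a_field' := hne }
  refine ⟨O, inferInstance, inferInstance, inferInstance, ι, h0, ?_, ?_⟩
  · intro s
    constructor
    · intro hu hs
      exact (IsLocalRing.mem_maximalIdeal _).mp (hnon s hs) hu
    · exact hunit s
  · exact (IsDiscreteValuationRing.irreducible_iff_uniformizer _).mpr hspan

end Fermat.Agent.S36
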