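import Mathlib
import Fermat.Agent.S34.SpecFibre79
import Fermat.Agent.S34.Iface47

/-!
# S36 lab, row 599 (C-REGq), helper44: a REGULAR NODE from the order of `U` on one branch
— chart language, NO discrete valuation ring type, NO `κ`

`B` a chart (`Subalgebra R F`), `V₁`, `V₂` the two vertical valuation subrings (uniformiser `π`,
shape `hV`), `B ⊆ V₁ ⊓ V₂` saturated, `n` a prime of `B` on both branches, Krull clause at `n`.

* `rq44_node_of_ord` : let `z ∈ p₂ ∖ p₁` (`π⁻¹ z ∈ V₂`, `π⁻¹ z ∉ V₁`), `U V = π ^ a · s₀`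
  (`s₀ ∉ n`), `U` a unit along `V₁`, and `s U ≡ b z ^ a` modulo the branch `p₁` at `n`
  ("`ord_{n, V₁}(U) ≥ a`").  Then `z` divides `π` at `n`: `z' * z = π * t`, `t ∉ n`,
  `π⁻¹ z' ∈ V₁` — a LABELLED REGULAR NODE (the shape `hnode` of `tl71_reg_of_nodes`).
  [`U = Δ(Q)/Δ(Q^q)`, `a = 12`; or `T = q Φ_X/Φ_Y` (numerator), `a = 2`.]
* `rq44_Ord π B V n z x μ` : `s x ≡ a z ^ μ` modulo the branch of `V` at `n`, `s, a ∉ n`
  (the order of `x` at `n` along the branch, in chart language) with its calculus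
  `rq44_Ord_mul`, `_pow`, `_unit`, `_congr`, `_unique`, `_exists` (= `sf79_unif_pow`),
  `_pos`; `rq44_node_of_Ord` : `rq44_Ord … U μ`, `a ≤ μ` ⟹ the regular node.

All names are prefixed `rq44_`.
-/

set_option autoImplicit false

namespace Fermat.Agent.S36

open Fermat.Agent.S34

section RQ44

variable {R F : Type*} [CommRing R] [Field F] [Algebra R F]

/-- Saturation, iterated: `y ∈ V₁ ⊓ V₂`, `π ^ k y ∈ B` ⟹ `y ∈ B`. -/
theorem rq44_sat_pow (π : R) (B : Subalgebra R F) (V₁ V₂ : ValuationSubring F)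
    (hB₁ : ∀ x ∈ B, x ∈ V₁) (hB₂ : ∀ x ∈ B, x ∈ V₂)
    (hπ0 : algebraMap R F π ≠ 0)
    (hsat : ∀ x ∈ B, (algebraMap R F π)⁻¹ * x ∈ V₁ → (algebraMap R F π)⁻¹ * x ∈ V₂ →
      (algebraMap R F π)⁻¹ * x ∈ B) :
    ∀ (k : ℕ) (y : F), y ∈ V₁ → y ∈ V₂ → algebraMap R F π ^ k * y ∈ B → y ∈ B := by
  have hpB : algebraMap R F π ∈ B := B.algebraMap_mem π
  intro k
  induction k with
  | zero =>
    intro y _ _ h
    simpa using h
  | succ k ih =>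
    intro y h1 h2 h
    refine ih y h1 h2 ?_
    have e : algebraMap R F π ^ k * y =
        (algebraMap R F π)⁻¹ * (algebraMap R F π ^ (k + 1) * y) := by
      rw [pow_succ]
      field_simp
    rw [e]
    refine hsat _ h ?_ ?_
    · rw [← e]
      exact V₁.mul_mem _ _ (pow_mem (hB₁ _ hpB) k) h1
    · rw [← e]
      exact V₂.mul_mem _ _ (pow_mem (hB₂ _ hpB) k) h2

/-- A valuation subring is root closed. -/
theorem rq44_mem_of_pow_mem (V : ValuationSubring F) (x : F) (a : ℕ) (ha : 1 ≤ a)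
    (h : x ^ a ∈ V) : x ∈ V := by
  by_contra hx
  have hinv : x⁻¹ ∈ V := (V.mem_or_inv_mem x).resolve_left hx
  have hx0 : x ≠ 0 := fun h0 => hx (by rw [h0]; exact V.zero_mem)
  obtain ⟨k, rfl⟩ : ∃ k, a = k + 1 := ⟨a - 1, by omega⟩
  apply hx
  have e : x = x ^ (k + 1) * x⁻¹ ^ k := by
    rw [pow_succ, inv_pow]
    field_simp
  rw [e]
  exact V.mul_mem _ _ h (pow_mem hinv k)

/-- Elements of `B ∖ n` are units of a vertical valuation ring whose branch passes through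
`n`. -/
theorem rq44_inv_mem (π : R) (B : Subalgebra R F) (V : ValuationSubring F)
    (hB : ∀ x ∈ B, x ∈ V)
    (hV : ∀ x ∈ V, (algebraMap R F π)⁻¹ * x ∉ V → x⁻¹ ∈ V)
    (n : Ideal B) (hOn : sf79_OnBr π B V.toSubring n) (s : B) (hs : s ∉ n) :
    (s : F)⁻¹ ∈ V :=
  hV _ (hB _ s.2) (fun h => hs (hOn s h))

/-- **A regular node from the order of `U` along one branch** (see the module docstring). -/
theorem rq44_node_of_ord (π : R) (B : Subalgebra R F) (V₁ V₂ : ValuationSubring F)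
    (hB₁ : ∀ x ∈ B, x ∈ V₁) (hB₂ : ∀ x ∈ B, x ∈ V₂)
    (hπ0 : algebraMap R F π ≠ 0)
    (hV₁ : ∀ x ∈ V₁, (algebraMap R F π)⁻¹ * x ∉ V₁ → x⁻¹ ∈ V₁)
    (hV₂ : ∀ x ∈ V₂, (algebraMap R F π)⁻¹ * x ∉ V₂ → x⁻¹ ∈ V₂)
    (hsat : ∀ x ∈ B, (algebraMap R F π)⁻¹ * x ∈ V₁ → (algebraMap R F π)⁻¹ * x ∈ V₂ →
      (algebraMap R F π)⁻¹ * x ∈ B)
    (n : Ideal B) [hn : n.IsPrime]
    (h1 : sf79_OnBr π B V₁.toSubring n) (h2 : sf79_OnBr π B V₂.toSubring n)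
    (hKr : ∀ x : F,
      (∀ O : ValuationSubring F, s34i47_IsHoriz π O → s34i47_Through B n O → x ∈ O) →
      ∃ s : B, s ∉ n ∧ ∃ k : ℕ, algebraMap R F π ^ k * ((s : F) * x) ∈ B)
    (a : ℕ) (ha : 1 ≤ a)
    (z : B) (hz₂ : (algebraMap R F π)⁻¹ * (z : F) ∈ V₂)
    (hz₁ : (algebraMap R F π)⁻¹ * (z : F) ∉ V₁)
    (U V s₀ : B) (hs₀ : s₀ ∉ n) (hUV : U * V = algebraMap R B π ^ a * s₀)
    (hU₁ : (algebraMap R F π)⁻¹ * (U : F) ∉ V₁)
    (hord : ∃ s b : B, s ∉ n ∧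
      (algebraMap R F π)⁻¹ * ((s : F) * (U : F) - (b : F) * (z : F) ^ a) ∈ V₁) :
    ∃ z' t : B, t ∉ n ∧ (algebraMap R F π)⁻¹ * (z' : F) ∈ V₁ ∧
      z' * z = algebraMap R B π * t := by
  classical
  set p : F := algebraMap R F π with hp
  have hpB : p ∈ B := B.algebraMap_mem π
  have hp₁ : p ∈ V₁ := hB₁ _ hpB
  have hp₂ : p ∈ V₂ := hB₂ _ hpB
  -- basic non-vanishing and unit facts
  have hz0 : (z : F) ≠ 0 := fun h0 => hz₁ (by rw [h0, mul_zero]; exact V₁.zero_mem)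
  have hU0 : (U : F) ≠ 0 := fun h0 => hU₁ (by rw [h0, mul_zero]; exact V₁.zero_mem)
  have hs₀0 : (s₀ : F) ≠ 0 := sf79_ne_zero B n s₀ hs₀
  have hzinv₁ : (z : F)⁻¹ ∈ V₁ := hV₁ _ (hB₁ _ z.2) hz₁
  have hUinv₁ : (U : F)⁻¹ ∈ V₁ := hV₁ _ (hB₁ _ U.2) hU₁
  have hUVF : (U : F) * (V : F) = p ^ a * (s₀ : F) := by
    have := congrArg (fun y : B => (y : F)) hUV
    simpa using this
  -- `U⁻¹ = V * s₀⁻¹ * p⁻¹ ^ a`
  have hUinv : (U : F)⁻¹ = (V : F) * (s₀ : F)⁻¹ * p⁻¹ ^ a := by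
    have h3 : (V : F) = p ^ a * (s₀ : F) * (U : F)⁻¹ := by
      rw [← hUVF]
      field_simp
    rw [h3, inv_pow]
    field_simp
  have hs₀inv₂ : (s₀ : F)⁻¹ ∈ V₂ := rq44_inv_mem π B V₂ hB₂ hV₂ n h2 s₀ hs₀
  -- `U⁻¹ ∈ O` for horizontal `O` through `n`
  have hUinvO : ∀ O : ValuationSubring F, s34i47_IsHoriz π O → s34i47_Through B n O →
      (U : F)⁻¹ ∈ O := by
    intro O hO hT
    rw [hUinv]
    exact O.mul_mem _ _ (O.mul_mem _ _ (hT.1 _ V.2) (hT.2 s₀ hs₀)) (pow_mem hO.2.2.2 a)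
  -- Step 1: `c = z ^ a / U` lies in `B_n`
  set c : F := (z : F) ^ a * (U : F)⁻¹ with hc
  have hc₁ : c ∈ V₁ := V₁.mul_mem _ _ (pow_mem (hB₁ _ z.2) a) hUinv₁
  have hc₂ : c ∈ V₂ := by
    have e : c = (p⁻¹ * (z : F)) ^ a * ((V : F) * (s₀ : F)⁻¹) := by
      rw [hc, hUinv, mul_pow]
      ring
    rw [e]
    exact V₂.mul_mem _ _ (pow_mem hz₂ a) (V₂.mul_mem _ _ (hB₂ _ V.2) hs₀inv₂)
  obtain ⟨s₁, hs₁, k, hk⟩ := hKr c (fun O hO hT =>
    O.mul_mem _ _ (pow_mem (hT.1 _ z.2) a) (hUinvO O hO hT))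
  have hC : (s₁ : F) * c ∈ B :=
    rq44_sat_pow π B V₁ V₂ hB₁ hB₂ hπ0 hsat k _ (V₁.mul_mem _ _ (hB₁ _ s₁.2) hc₁)
      (V₂.mul_mem _ _ (hB₂ _ s₁.2) hc₂) hk
  set C : B := ⟨(s₁ : F) * c, hC⟩ with hCdef
  have hCval : (C : F) = (s₁ : F) * c := rfl
  -- Step 2: `C ∉ n`
  obtain ⟨s, b, hs, hsb⟩ := hord
  have hCn : C ∉ n := by
    intro hCn
    have hw : s * s₁ - C * b ∈ n := by
      apply h1
      show p⁻¹ * (((s * s₁ - C * b : B) : F)) ∈ V₁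
      have e : p⁻¹ * (((s * s₁ - C * b : B) : F)) =
          ((z : F)⁻¹) ^ a * ((C : F) * (p⁻¹ * ((s : F) * (U : F) - (b : F) * (z : F) ^ a))) := by
        push_cast
        rw [hCval, hc, inv_pow]
        have hza : (z : F) ^ a ≠ 0 := pow_ne_zero a hz0
        field_simp
      rw [e]
      exact V₁.mul_mem _ _ (pow_mem hzinv₁ a) (V₁.mul_mem _ _ (hB₁ _ C.2) hsb)
    have h3 : s * s₁ ∈ n := by
      have : s * s₁ = (s * s₁ - C * b) + C * b := by ring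
      rw [this]
      exact n.add_mem hw (n.mul_mem_right b hCn)
    exact (hn.mem_or_mem h3).elim hs hs₁
  have hC0 : (C : F) ≠ 0 := sf79_ne_zero B n C hCn
  have hs₁0 : (s₁ : F) ≠ 0 := sf79_ne_zero B n s₁ hs₁
  -- `z⁻¹ ^ a = s₁ * C⁻¹ * U⁻¹`
  have hzpow : ((z : F)⁻¹) ^ a = (s₁ : F) * (C : F)⁻¹ * (U : F)⁻¹ := by
    have hza : (z : F) ^ a ≠ 0 := pow_ne_zero a hz0
    rw [hCval, hc, inv_pow]
    field_simp
  -- Step 3: `ζ = p / z` lies in `B_n`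
  set ζ : F := p * (z : F)⁻¹ with hζ
  have hζ₁ : ζ ∈ V₁ := V₁.mul_mem _ _ hp₁ hzinv₁
  have hζ₂ : ζ ∈ V₂ := by
    refine rq44_mem_of_pow_mem V₂ ζ a ha ?_
    have e : ζ ^ a = (V : F) * (s₀ : F)⁻¹ * ((s₁ : F) * (C : F)⁻¹) := by
      rw [hζ, mul_pow, hzpow, hUinv, inv_pow]
      field_simp
    rw [e]
    exact V₂.mul_mem _ _ (V₂.mul_mem _ _ (hB₂ _ V.2) hs₀inv₂)
      (V₂.mul_mem _ _ (hB₂ _ s₁.2) (rq44_inv_mem π B V₂ hB₂ hV₂ n h2 C hCn))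
  obtain ⟨t, ht, k', hk'⟩ := hKr ζ (fun O hO hT => by
    have hzinvO : (z : F)⁻¹ ∈ O := by
      refine rq44_mem_of_pow_mem O _ a ha ?_
      rw [hzpow]
      exact O.mul_mem _ _ (O.mul_mem _ _ (hT.1 _ s₁.2) (hT.2 C hCn)) (hUinvO O hO hT)
    exact O.mul_mem _ _ (hT.1 _ hpB) hzinvO)
  have hZ : (t : F) * ζ ∈ B :=
    rq44_sat_pow π B V₁ V₂ hB₁ hB₂ hπ0 hsat k' _ (V₁.mul_mem _ _ (hB₁ _ t.2) hζ₁)
      (V₂.mul_mem _ _ (hB₂ _ t.2) hζ₂) hk'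
  refine ⟨⟨(t : F) * ζ, hZ⟩, t, ht, ?_, ?_⟩
  · show p⁻¹ * ((t : F) * ζ) ∈ V₁
    have e : p⁻¹ * ((t : F) * ζ) = (t : F) * (z : F)⁻¹ := by
      rw [hζ]
      field_simp
    rw [e]
    exact V₁.mul_mem _ _ (hB₁ _ t.2) hzinv₁
  · apply Subtype.ext
    show (t : F) * ζ * (z : F) = p * (t : F)
    rw [hζ]
    field_simp

/-! ### The order at `n` along a branch, in chart language -/

/-- `x` has order `μ` at `n` along the branch of `V` with local coordinate `z`: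
`s x ≡ a z ^ μ` modulo the branch, with `s, a ∉ n`. -/
def rq44_Ord (π : R) (B : Subalgebra R F) (V : ValuationSubring F) (n : Ideal B) (z x : B)
    (μ : ℕ) : Prop :=
  ∃ s a : B, s ∉ n ∧ a ∉ n ∧
    (algebraMap R F π)⁻¹ * ((s : F) * (x : F) - (a : F) * (z : F) ^ μ) ∈ V

theorem rq44_Ord_unit (π : R) (B : Subalgebra R F) (V : ValuationSubring F) (n : Ideal B)
    [hn : n.IsPrime] (z x : B) (hx : x ∉ n) : rq44_Ord π B V n z x 0 :=
  ⟨1, x, (Ideal.ne_top_iff_one n).mp hn.ne_top, hx, by simp [V.zero_mem]⟩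

theorem rq44_Ord_mul (π : R) (B : Subalgebra R F) (V : ValuationSubring F)
    (hBV : ∀ x ∈ B, x ∈ V) (n : Ideal B) [hn : n.IsPrime] (z x y : B) (μ ν : ℕ)
    (hx : rq44_Ord π B V n z x μ) (hy : rq44_Ord π B V n z y ν) :
    rq44_Ord π B V n z (x * y) (μ + ν) := by
  obtain ⟨s, a, hs, ha, h⟩ := hx
  obtain ⟨s', a', hs', ha', h'⟩ := hy
  refine ⟨s * s', a * a', fun hh => (hn.mem_or_mem hh).elim hs hs',
    fun hh => (hn.mem_or_mem hh).elim ha ha', ?_⟩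
  have e : (algebraMap R F π)⁻¹ * (((s * s' : B) : F) * ((x * y : B) : F) -
        ((a * a' : B) : F) * (z : F) ^ (μ + ν)) =
      ((algebraMap R F π)⁻¹ * ((s : F) * (x : F) - (a : F) * (z : F) ^ μ)) *
          ((s' : F) * (y : F)) +
        ((a : F) * (z : F) ^ μ) *
          ((algebraMap R F π)⁻¹ * ((s' : F) * (y : F) - (a' : F) * (z : F) ^ ν)) := by
    push_cast
    ring
  rw [e]
  exact V.add_mem _ _ (V.mul_mem _ _ h (hBV _ (B.mul_mem s'.2 y.2)))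
    (V.mul_mem _ _ (hBV _ (B.mul_mem a.2 (B.pow_mem z.2 μ))) h')

theorem rq44_Ord_pow (π : R) (B : Subalgebra R F) (V : ValuationSubring F)
    (hBV : ∀ x ∈ B, x ∈ V) (n : Ideal B) [hn : n.IsPrime] (z x : B) (μ : ℕ)
    (hx : rq44_Ord π B V n z x μ) (k : ℕ) : rq44_Ord π B V n z (x ^ k) (k * μ) := by
  induction k with
  | zero =>
    rw [pow_zero, Nat.zero_mul]
    exact rq44_Ord_unit π B V n z 1 ((Ideal.ne_top_iff_one n).mp hn.ne_top)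
  | succ k ih =>
    rw [pow_succ, Nat.succ_mul]
    exact rq44_Ord_mul π B V hBV n z _ _ _ _ ih hx

theorem rq44_Ord_congr (π : R) (B : Subalgebra R F) (V : ValuationSubring F)
    (hBV : ∀ x ∈ B, x ∈ V) (n : Ideal B) (z x y : B) (μ : ℕ)
    (hxy : (algebraMap R F π)⁻¹ * ((x : F) - (y : F)) ∈ V)
    (hx : rq44_Ord π B V n z x μ) : rq44_Ord π B V n z y μ := by
  obtain ⟨s, a, hs, ha, h⟩ := hx
  refine ⟨s, a, hs, ha, ?_⟩
  have e : (algebraMap R F π)⁻¹ * ((s : F) * (y : F) - (a : F) * (z : F) ^ μ) =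
      (algebraMap R F π)⁻¹ * ((s : F) * (x : F) - (a : F) * (z : F) ^ μ) -
        (s : F) * ((algebraMap R F π)⁻¹ * ((x : F) - (y : F))) := by
    ring
  rw [e]
  exact sub_mem h (V.mul_mem _ _ (hBV _ s.2) hxy)

/-- The order is unique (`z ∈ n` a unit along `V`). -/
theorem rq44_Ord_unique (π : R) (B : Subalgebra R F) (V : ValuationSubring F)
    (hBV : ∀ x ∈ B, x ∈ V)
    (hV : ∀ x ∈ V, (algebraMap R F π)⁻¹ * x ∉ V → x⁻¹ ∈ V)
    (n : Ideal B) [hn : n.IsPrime] (hOn : sf79_OnBr π B V.toSubring n)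
    (z : B) (hzn : z ∈ n) (hz : (algebraMap R F π)⁻¹ * (z : F) ∉ V) (x : B) (μ ν : ℕ)
    (hμ : rq44_Ord π B V n z x μ) (hν : rq44_Ord π B V n z x ν) : μ = ν := by
  have hzinv : (z : F)⁻¹ ∈ V := hV _ (hBV _ z.2) hz
  have hz0 : (z : F) ≠ 0 := fun h0 => hz (by rw [h0, mul_zero]; exact V.zero_mem)
  -- the asymmetric statement
  have key : ∀ (μ ν : ℕ), μ < ν → rq44_Ord π B V n z x μ → rq44_Ord π B V n z x ν → False := by
    intro μ ν hlt hμ hν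
    obtain ⟨s, a, hs, ha, h⟩ := hμ
    obtain ⟨s', a', hs', ha', h'⟩ := hν
    obtain ⟨d, rfl⟩ : ∃ d, ν = μ + (d + 1) := ⟨ν - μ - 1, by omega⟩
    have hw : s' * a - s * a' * z ^ (d + 1) ∈ n := by
      apply hOn
      show (algebraMap R F π)⁻¹ * (((s' * a - s * a' * z ^ (d + 1) : B) : F)) ∈ V
      have e : (algebraMap R F π)⁻¹ * (((s' * a - s * a' * z ^ (d + 1) : B) : F)) =
          ((z : F)⁻¹) ^ μ * ((s : F) * ((algebraMap R F π)⁻¹ *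
              ((s' : F) * (x : F) - (a' : F) * (z : F) ^ (μ + (d + 1)))) -
            (s' : F) * ((algebraMap R F π)⁻¹ * ((s : F) * (x : F) - (a : F) * (z : F) ^ μ))) := by
        have hzμ : (z : F) ^ μ ≠ 0 := pow_ne_zero μ hz0
        push_cast
        rw [inv_pow, pow_add]
        field_simp
        ring
      rw [e]
      exact V.mul_mem _ _ (pow_mem hzinv μ)
        (sub_mem (V.mul_mem _ _ (hBV _ s.2) h') (V.mul_mem _ _ (hBV _ s'.2) h))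
    have h3 : s' * a ∈ n := by
      have : s' * a = (s' * a - s * a' * z ^ (d + 1)) + s * a' * z ^ (d + 1) := by ring
      rw [this]
      exact n.add_mem hw (n.mul_mem_left _ (n.pow_mem_of_mem hzn (d + 1) (Nat.succ_pos d)))
    exact (hn.mem_or_mem h3).elim hs' ha
  rcases Nat.lt_trichotomy μ ν with h | h | h
  · exact (key μ ν h hμ hν).elim
  · exact h
  · exact (key ν μ h hν hμ).elim

/-- Elements of `n` have positive order. -/
theorem rq44_Ord_pos (π : R) (B : Subalgebra R F) (V : ValuationSubring F)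
    (n : Ideal B) (hOn : sf79_OnBr π B V.toSubring n) (z x : B) (hx : x ∈ n) (μ : ℕ)
    (hμ : rq44_Ord π B V n z x μ) : 1 ≤ μ := by
  rcases Nat.eq_zero_or_pos μ with h0 | h0
  · exfalso
    subst h0
    obtain ⟨s, a, -, ha, h⟩ := hμ
    have hw : s * x - a ∈ n := by
      apply hOn
      show (algebraMap R F π)⁻¹ * (((s * x - a : B) : F)) ∈ V
      have e : (algebraMap R F π)⁻¹ * (((s * x - a : B) : F)) =
          (algebraMap R F π)⁻¹ * ((s : F) * (x : F) - (a : F) * (z : F) ^ 0) := by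
        push_cast
        ring
      rw [e]
      exact h
    apply ha
    have : a = s * x - (s * x - a) := by ring
    rw [this]
    exact n.sub_mem (n.mul_mem_left s hx) hw
  · exact h0

/-- Existence of the order for a unit along `V` (= `sf79_unif_pow`). -/
theorem rq44_Ord_exists (π : R) (B : Subalgebra R F) [IsNoetherianRing B]
    (V : ValuationSubring F) (hBV : ∀ x ∈ B, x ∈ V) (hπV : (algebraMap R F π)⁻¹ ∉ V)
    (hV : ∀ x ∈ V, (algebraMap R F π)⁻¹ * x ∉ V → x⁻¹ ∈ V)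
    (n : Ideal B) [hn : n.IsMaximal] (hOn : sf79_OnBr π B V.toSubring n)
    (z : B) (hz : sf79_Unif π B V.toSubring n z) (x : B)
    (hx : (algebraMap R F π)⁻¹ * (x : F) ∉ V) : ∃ μ : ℕ, rq44_Ord π B V n z x μ := by
  obtain ⟨μ, s, a, hs, ha, h⟩ :=
    sf79_unif_pow π B V.toSubring hBV hπV hV n hOn z hz x hx
  exact ⟨μ, s, a, hs, ha, h⟩

/-- **A regular node from `ord_{n, V₁}(U) ≥ a`** (order form of `rq44_node_of_ord`). -/
theorem rq44_node_of_Ord (π : R) (B : Subalgebra R F) (V₁ V₂ : ValuationSubring F)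
    (hB₁ : ∀ x ∈ B, x ∈ V₁) (hB₂ : ∀ x ∈ B, x ∈ V₂)
    (hπ0 : algebraMap R F π ≠ 0)
    (hV₁ : ∀ x ∈ V₁, (algebraMap R F π)⁻¹ * x ∉ V₁ → x⁻¹ ∈ V₁)
    (hV₂ : ∀ x ∈ V₂, (algebraMap R F π)⁻¹ * x ∉ V₂ → x⁻¹ ∈ V₂)
    (hsat : ∀ x ∈ B, (algebraMap R F π)⁻¹ * x ∈ V₁ → (algebraMap R F π)⁻¹ * x ∈ V₂ →
      (algebraMap R F π)⁻¹ * x ∈ B)
    (n : Ideal B) [hn : n.IsPrime]
    (h1 : sf79_OnBr π B V₁.toSubring n) (h2 : sf79_OnBr π B V₂.toSubring n)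
    (hKr : ∀ x : F,
      (∀ O : ValuationSubring F, s34i47_IsHoriz π O → s34i47_Through B n O → x ∈ O) →
      ∃ s : B, s ∉ n ∧ ∃ k : ℕ, algebraMap R F π ^ k * ((s : F) * x) ∈ B)
    (a : ℕ) (ha : 1 ≤ a)
    (z : B) (hz₂ : (algebraMap R F π)⁻¹ * (z : F) ∈ V₂)
    (hz₁ : (algebraMap R F π)⁻¹ * (z : F) ∉ V₁)
    (U V s₀ : B) (hs₀ : s₀ ∉ n) (hUV : U * V = algebraMap R B π ^ a * s₀)
    (hU₁ : (algebraMap R F π)⁻¹ * (U : F) ∉ V₁)
    (μ : ℕ) (haμ : a ≤ μ) (hord : rq44_Ord π B V₁ n z U μ) :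
    ∃ z' t : B, t ∉ n ∧ (algebraMap R F π)⁻¹ * (z' : F) ∈ V₁ ∧
      z' * z = algebraMap R B π * t := by
  obtain ⟨s, a₀, hs, -, h⟩ := hord
  obtain ⟨d, rfl⟩ : ∃ d, μ = a + d := ⟨μ - a, by omega⟩
  refine rq44_node_of_ord π B V₁ V₂ hB₁ hB₂ hπ0 hV₁ hV₂ hsat n h1 h2 hKr a ha z hz₂ hz₁
    U V s₀ hs₀ hUV hU₁ ⟨s, a₀ * z ^ d, hs, ?_⟩
  have e : (algebraMap R F π)⁻¹ * ((s : F) * (U : F) - ((a₀ * z ^ d : B) : F) * (z : F) ^ a) =
      (algebraMap R F π)⁻¹ * ((s : F) * (U : F) - (a₀ : F) * (z : F) ^ (a + d)) := by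
    push_cast
    ring
  rw [e]
  exact h

/-- Congruences modulo the branch are stable under powers. -/
theorem rq44_pow_cong (π : R) (V : ValuationSubring F) (x y : F) (hx : x ∈ V) (hy : y ∈ V)
    (hxy : (algebraMap R F π)⁻¹ * (x - y) ∈ V) (k : ℕ) :
    (algebraMap R F π)⁻¹ * (x ^ k - y ^ k) ∈ V := by
  induction k with
  | zero => simp [V.zero_mem]
  | succ k ih =>
    have e : (algebraMap R F π)⁻¹ * (x ^ (k + 1) - y ^ (k + 1)) =
        x * ((algebraMap R F π)⁻¹ * (x ^ k - y ^ k)) +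
          (algebraMap R F π)⁻¹ * (x - y) * y ^ k := by ring
    rw [e]
    exact V.add_mem _ _ (V.mul_mem _ _ hx ih) (V.mul_mem _ _ hxy (pow_mem hy k))

/-- Change of local coordinate: if `s z ≡ a z'` modulo the branch (`s, a ∉ n`), orders with
respect to `z` are orders with respect to `z'`. -/
theorem rq44_Ord_change (π : R) (B : Subalgebra R F) (V : ValuationSubring F)
    (hBV : ∀ x ∈ B, x ∈ V) (n : Ideal B) [hn : n.IsPrime] (z z' : B)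
    (hzz' : ∃ s a : B, s ∉ n ∧ a ∉ n ∧
      (algebraMap R F π)⁻¹ * ((s : F) * (z : F) - (a : F) * (z' : F)) ∈ V)
    (x : B) (μ : ℕ) (hx : rq44_Ord π B V n z x μ) : rq44_Ord π B V n z' x μ := by
  obtain ⟨s, a, hs, ha, h⟩ := hzz'
  obtain ⟨s₀, a₀, hs₀, ha₀, h₀⟩ := hx
  have hsμ : s ^ μ ∉ n := fun hh => hs (hn.mem_of_pow_mem μ hh)
  have haμ : a ^ μ ∉ n := fun hh => ha (hn.mem_of_pow_mem μ hh)
  refine ⟨s ^ μ * s₀, a₀ * a ^ μ, fun hh => (hn.mem_or_mem hh).elim hsμ hs₀,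
    fun hh => (hn.mem_or_mem hh).elim ha₀ haμ, ?_⟩
  have hpow := rq44_pow_cong π V ((s : F) * (z : F)) ((a : F) * (z' : F))
    (hBV _ (B.mul_mem s.2 z.2)) (hBV _ (B.mul_mem a.2 z'.2)) h μ
  have e : (algebraMap R F π)⁻¹ * (((s ^ μ * s₀ : B) : F) * (x : F) -
        ((a₀ * a ^ μ : B) : F) * (z' : F) ^ μ) =
      (s : F) ^ μ * ((algebraMap R F π)⁻¹ * ((s₀ : F) * (x : F) - (a₀ : F) * (z : F) ^ μ)) +
        (a₀ : F) * ((algebraMap R F π)⁻¹ *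
          (((s : F) * (z : F)) ^ μ - ((a : F) * (z' : F)) ^ μ)) := by
    push_cast
    ring
  rw [e]
  exact V.add_mem _ _ (V.mul_mem _ _ (pow_mem (hBV _ s.2) μ) h₀) (V.mul_mem _ _ (hBV _ a₀.2) hpow)

/-- A local coordinate of the branch `V` at `n` is a unit along `V` as soon as `n` contains an
element which is a unit along `V`. -/
theorem rq44_coord_not_mem (π : R) (B : Subalgebra R F) (V : ValuationSubring F)
    (hBV : ∀ x ∈ B, x ∈ V)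
    (hV : ∀ x ∈ V, (algebraMap R F π)⁻¹ * x ∉ V → x⁻¹ ∈ V)
    (n : Ideal B) (hOn : sf79_OnBr π B V.toSubring n)
    (z : B) (hz : sf79_Unif π B V.toSubring n z)
    (u : B) (hun : u ∈ n) (hu : (algebraMap R F π)⁻¹ * (u : F) ∉ V) :
    (algebraMap R F π)⁻¹ * (z : F) ∉ V := by
  intro hzV
  obtain ⟨s, hs, a, h⟩ := hz.2 u hun
  apply hu
  have hsinv : (s : F)⁻¹ ∈ V := rq44_inv_mem π B V hBV hV n hOn s hs
  have hs0 : (s : F) ≠ 0 := fun h0 => by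
    apply hs
    have : s = 0 := Subtype.ext h0
    rw [this]
    exact n.zero_mem
  have e : (algebraMap R F π)⁻¹ * (u : F) =
      (s : F)⁻¹ * ((algebraMap R F π)⁻¹ * ((s : F) * (u : F) - (a : F) * (z : F)) +
        (a : F) * ((algebraMap R F π)⁻¹ * (z : F))) := by
    field_simp
    ring
  rw [e]
  exact V.mul_mem _ _ hsinv (V.add_mem _ _ h (V.mul_mem _ _ (hBV _ a.2) hzV))

/-- **REGULAR NODE, final chart form.**  At a point `n` of both branches with a local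
coordinate `z₁` of the `V₁`-branch, transversality for `z₁`, and `U V = π ^ a · s₀`
(`U ∈ n` a unit along `V₁`): if the order `μ` of `U` along the `V₁`-branch is `≥ a`, then `n` is
a labelled regular node: `s * z * z' = π * s'` with `z ∈ p₁`, `z' ∈ p₂`, `s, s' ∉ n`
(the hypothesis `hnode` of `tl71_reg_of_nodes`). -/
theorem rq44_node (π : R) (B : Subalgebra R F) (V₁ V₂ : ValuationSubring F)
    (hB₁ : ∀ x ∈ B, x ∈ V₁) (hB₂ : ∀ x ∈ B, x ∈ V₂)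
    (hπ0 : algebraMap R F π ≠ 0)
    (hV₁ : ∀ x ∈ V₁, (algebraMap R F π)⁻¹ * x ∉ V₁ → x⁻¹ ∈ V₁)
    (hV₂ : ∀ x ∈ V₂, (algebraMap R F π)⁻¹ * x ∉ V₂ → x⁻¹ ∈ V₂)
    (hsat : ∀ x ∈ B, (algebraMap R F π)⁻¹ * x ∈ V₁ → (algebraMap R F π)⁻¹ * x ∈ V₂ →
      (algebraMap R F π)⁻¹ * x ∈ B)
    (n : Ideal B) [hn : n.IsPrime]
    (h1 : sf79_OnBr π B V₁.toSubring n) (h2 : sf79_OnBr π B V₂.toSubring n)
    (hKr : ∀ x : F,
      (∀ O : ValuationSubring F, s34i47_IsHoriz π O → s34i47_Through B n O → x ∈ O) →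
      ∃ s : B, s ∉ n ∧ ∃ k : ℕ, algebraMap R F π ^ k * ((s : F) * x) ∈ B)
    (z₁ : B) (hz₁ : sf79_Unif π B V₁.toSubring n z₁)
    (hT : ∃ s : B, s ∉ n ∧ ∃ y y' : B, s * z₁ = y + y' ∧
      (algebraMap R F π)⁻¹ * (y : F) ∈ V₁ ∧ (algebraMap R F π)⁻¹ * (y' : F) ∈ V₂)
    (a : ℕ) (ha : 1 ≤ a)
    (U V s₀ : B) (hUn : U ∈ n) (hs₀ : s₀ ∉ n) (hUV : U * V = algebraMap R B π ^ a * s₀)
    (hU₁ : (algebraMap R F π)⁻¹ * (U : F) ∉ V₁)
    (μ : ℕ) (haμ : a ≤ μ) (hord : rq44_Ord π B V₁ n z₁ U μ) :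
    ∃ z z' s s' : B, s ∉ n ∧ s' ∉ n ∧ (algebraMap R F π)⁻¹ * (z : F) ∈ V₁ ∧
      (algebraMap R F π)⁻¹ * (z' : F) ∈ V₂ ∧ s * z * z' = algebraMap R B π * s' := by
  obtain ⟨s, hs, y, y', hyy', hy, hy'⟩ := hT
  have hone : (1 : B) ∉ n := (Ideal.ne_top_iff_one n).mp hn.ne_top
  -- `y'` is a coordinate of the `V₁`-branch lying in `p₂`
  have hcong : (algebraMap R F π)⁻¹ * ((s : F) * (z₁ : F) - ((1 : B) : F) * (y' : F)) ∈ V₁ := by
    have e : (s : F) * (z₁ : F) - ((1 : B) : F) * (y' : F) = (y : F) := by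
      have := congrArg (fun b : B => (b : F)) hyy'
      simp only [Subalgebra.coe_mul, Subalgebra.coe_add] at this
      rw [this]
      push_cast
      ring
    rw [e]
    exact hy
  have hyn : y ∈ n := h1 y hy
  have hy'n : y' ∈ n := by
    have : y' = s * z₁ - y := by rw [hyy']; ring
    rw [this]
    exact n.sub_mem (n.mul_mem_left s hz₁.1) hyn
  have hunif : sf79_Unif π B V₁.toSubring n y' := by
    refine ⟨hy'n, fun x hx => ?_⟩
    obtain ⟨sx, hsx, ax, hax⟩ := hz₁.2 x hx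
    refine ⟨s * sx, fun hh => (hn.mem_or_mem hh).elim hs hsx, ax, ?_⟩
    show (algebraMap R F π)⁻¹ * (((s * sx : B) : F) * (x : F) - (ax : F) * (y' : F)) ∈ V₁
    have e : (algebraMap R F π)⁻¹ * (((s * sx : B) : F) * (x : F) - (ax : F) * (y' : F)) =
        (s : F) * ((algebraMap R F π)⁻¹ * ((sx : F) * (x : F) - (ax : F) * (z₁ : F))) +
          (ax : F) * ((algebraMap R F π)⁻¹ *
            ((s : F) * (z₁ : F) - ((1 : B) : F) * (y' : F))) := by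
      push_cast
      ring
    rw [e]
    exact V₁.add_mem _ _ (V₁.mul_mem _ _ (hB₁ _ s.2) hax) (V₁.mul_mem _ _ (hB₁ _ ax.2) hcong)
  have hy'₁ : (algebraMap R F π)⁻¹ * (y' : F) ∉ V₁ :=
    rq44_coord_not_mem π B V₁ hB₁ hV₁ n h1 y' hunif U hUn hU₁
  have hord' : rq44_Ord π B V₁ n y' U μ :=
    rq44_Ord_change π B V₁ hB₁ n z₁ y' ⟨s, 1, hs, hone, hcong⟩ U μ hord
  obtain ⟨z', t, ht, hz', he⟩ :=
    rq44_node_of_Ord π B V₁ V₂ hB₁ hB₂ hπ0 hV₁ hV₂ hsat n h1 h2 hKr a ha y' hy' hy'₁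
      U V s₀ hs₀ hUV hU₁ μ haμ hord'
  exact ⟨z', y', 1, t, hone, ht, hz', hy', by rw [one_mul]; exact he⟩

end RQ44

end Fermat.Agent.S36
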