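import Mathlib
import Fermat.Agent.S34.SpecFibre79
import Fermat.Agent.S36.NodeOrd44
import Fermat.Agent.S36.DerivChart93

/-!
# S36 lab, row 619 binder (c) (helper54): the branch of a chart at a closed point, AS A TYPE

Chart language of `S34/SpecFibre79` and `S36/NodeOrd44`: `B` a noetherian chart, `V` a vertical
valuation subring with `𝔪_V = π V` (shape `hV`), `n` a prime of `B` on the branch of `V`
(`sf79_OnBr`), `z` a local coordinate of the branch at `n` (`sf79_Unif`), and `n` is not the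
generic point of the branch (`hne`).

`bd54_exists` : there are a DISCRETE VALUATION RING `O` (`= B_n / (B_n ∩ π V)`) and a surjective
ring homomorphism `ρ : B_n → O` (`B_n = sf79_loc B n`, a subring of the function field) with

* `ρ x = 0 ↔ π⁻¹ x ∈ V`                      (congruences modulo `π V` become equalities in `O`);
* `IsUnit (ρ x) ↔ IsUnit x`, and for `s ∈ B`: `IsUnit (ρ s) ↔ s ∉ n`;
* `ρ z` is irreducible (a uniformizer of `O`);
* DICTIONARY: `rq44_Ord π B V n z x μ ↔ Associated (ρ x) (ρ z ^ μ)` for `x ∈ B`.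

`bd54_exists_addVal` : the same with `rq44_Ord π B V n z x μ ↔ addVal O (ρ x) = μ`.

So any arithmetic lemma stated in an abstract DVR (`ka13_*`, `k1e44_*`, `k1x56_*`, `ed49_*`)
applies verbatim to identities modulo `π V` between elements of `B_n`, and its conclusion goes
back to the chart-language order `rq44_Ord` consumed by `rq44_node`.

All names are prefixed `bd54_`.
-/

set_option autoImplicit false
set_option linter.style.haveILetI false
set_option linter.unusedVariables false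

namespace Fermat.Agent.S36

open Fermat.Agent.S34

section BD54

universe u v

variable {R : Type v} {F : Type u} [CommRing R] [Field F] [Algebra R F]

/-- The branch ideal `P = {x ∈ B_n | π⁻¹ x ∈ V}` of the local ring `B_n`. -/
def bd54_P (π : R) (B : Subalgebra R F) (V : ValuationSubring F) (n : Ideal B) [n.IsPrime]
    (hle : ∀ x ∈ sf79_loc B n, x ∈ V) : Ideal ↥(sf79_loc B n) where
  carrier := {x | (algebraMap R F π)⁻¹ * (x : F) ∈ V}
  add_mem' := by
    intro a b ha hb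
    show (algebraMap R F π)⁻¹ * ((a + b : ↥(sf79_loc B n)) : F) ∈ V
    rw [Subring.coe_add, mul_add]
    exact V.add_mem _ _ ha hb
  zero_mem' := by
    show (algebraMap R F π)⁻¹ * ((0 : ↥(sf79_loc B n)) : F) ∈ V
    rw [Subring.coe_zero, mul_zero]
    exact V.zero_mem
  smul_mem' := by
    intro c x hx
    show (algebraMap R F π)⁻¹ * ((c * x : ↥(sf79_loc B n)) : F) ∈ V
    rw [Subring.coe_mul, mul_left_comm]
    exact V.mul_mem _ _ (hle _ c.2) hx

theorem bd54_mem_P (π : R) (B : Subalgebra R F) (V : ValuationSubring F) (n : Ideal B)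
    [n.IsPrime] (hle : ∀ x ∈ sf79_loc B n, x ∈ V) (x : ↥(sf79_loc B n)) :
    x ∈ bd54_P π B V n hle ↔ (algebraMap R F π)⁻¹ * (x : F) ∈ V := Iff.rfl

/-- **The branch DVR.** -/
theorem bd54_exists (π : R) (B : Subalgebra R F) [IsNoetherianRing B] (V : ValuationSubring F)
    (hBV : ∀ x ∈ B, x ∈ V) (hπV : (algebraMap R F π)⁻¹ ∉ V)
    (hV : ∀ x ∈ V, (algebraMap R F π)⁻¹ * x ∉ V → x⁻¹ ∈ V)
    (n : Ideal B) [hn : n.IsPrime] (hOn : sf79_OnBr π B V.toSubring n)
    (z : B) (hz : sf79_Unif π B V.toSubring n z)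
    (hne : ∃ x : B, x ∈ n ∧ (algebraMap R F π)⁻¹ * (x : F) ∉ V) :
    ∃ (O : Type u) (_ : CommRing O) (_ : IsDomain O) (_ : IsDiscreteValuationRing O)
      (ρ : ↥(sf79_loc B n) →+* O),
      Function.Surjective ρ ∧
      (∀ x : ↥(sf79_loc B n), ρ x = 0 ↔ (algebraMap R F π)⁻¹ * (x : F) ∈ V) ∧
      (∀ x : ↥(sf79_loc B n), IsUnit (ρ x) ↔ IsUnit x) ∧
      (∀ s : B, IsUnit (ρ (dl93c_incl B n s)) ↔ s ∉ n) ∧
      Irreducible (ρ (dl93c_incl B n z)) ∧
      (∀ (x : B) (μ : ℕ), rq44_Ord π B V n z x μ ↔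
        Associated (ρ (dl93c_incl B n x)) (ρ (dl93c_incl B n z) ^ μ)) := by
  classical
  have hle : ∀ x ∈ sf79_loc B n, x ∈ V := fun x hx =>
    sf79_loc_le π B V.toSubring hBV hV n hOn hx
  letI alg : Algebra ↥B ↥(sf79_loc B n) := (dl93c_incl B n).toAlgebra
  haveI hloc : IsLocalization.AtPrime ↥(sf79_loc B n) n := dl93c_isLocalization B n
  haveI hlocal : IsLocalRing ↥(sf79_loc B n) :=
    IsLocalization.AtPrime.isLocalRing ↥(sf79_loc B n) n
  haveI hnoeth : IsNoetherianRing ↥(sf79_loc B n) := dl93c_noeth B n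
  have hPmem : ∀ x : ↥(sf79_loc B n),
      x ∈ bd54_P π B V n hle ↔ (algebraMap R F π)⁻¹ * (x : F) ∈ V := fun x => Iff.rfl
  have hP1 : (1 : ↥(sf79_loc B n)) ∉ bd54_P π B V n hle := by
    rw [hPmem, Subring.coe_one, mul_one]
    exact hπV
  have hPtop : bd54_P π B V n hle ≠ ⊤ := fun h => hP1 (h ▸ Submodule.mem_top)
  haveI hPprime : (bd54_P π B V n hle).IsPrime := by
    refine ⟨hPtop, ?_⟩
    intro x y hxy
    by_contra hcon
    push_neg at hcon
    obtain ⟨hx, hy⟩ := hcon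
    rw [hPmem] at hxy hx hy
    have hxinv : (x : F)⁻¹ ∈ V := hV _ (hle _ x.2) hx
    have hx0 : (x : F) ≠ 0 := by
      intro h0
      apply hx
      rw [h0, mul_zero]
      exact V.zero_mem
    apply hy
    have e : (algebraMap R F π)⁻¹ * (y : F) =
        (x : F)⁻¹ * ((algebraMap R F π)⁻¹ * ((x * y : ↥(sf79_loc B n)) : F)) := by
      rw [Subring.coe_mul]
      have e1 : (x : F)⁻¹ * ((algebraMap R F π)⁻¹ * ((x : F) * (y : F))) =
          ((x : F)⁻¹ * (x : F)) * ((algebraMap R F π)⁻¹ * (y : F)) := by ring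
      rw [e1, inv_mul_cancel₀ hx0, one_mul]
    rw [e]
    exact V.mul_mem _ _ hxinv hxy
  let ρ : ↥(sf79_loc B n) →+* (↥(sf79_loc B n) ⧸ bd54_P π B V n hle) :=
    Ideal.Quotient.mk (bd54_P π B V n hle)
  have hρsurj : Function.Surjective ρ := Ideal.Quotient.mk_surjective
  have hρ0 : ∀ x : ↥(sf79_loc B n), ρ x = 0 ↔ (algebraMap R F π)⁻¹ * (x : F) ∈ V := fun x =>
    Ideal.Quotient.eq_zero_iff_mem
  haveI hnt : Nontrivial (↥(sf79_loc B n) ⧸ bd54_P π B V n hle) :=
    Ideal.Quotient.nontrivial_iff.mpr hPtop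
  haveI hdom : IsDomain (↥(sf79_loc B n) ⧸ bd54_P π B V n hle) :=
    Ideal.Quotient.isDomain (bd54_P π B V n hle)
  haveI hlocO : IsLocalRing (↥(sf79_loc B n) ⧸ bd54_P π B V n hle) :=
    IsLocalRing.of_surjective' ρ hρsurj
  have hPle : bd54_P π B V n hle ≤ IsLocalRing.maximalIdeal ↥(sf79_loc B n) :=
    IsLocalRing.le_maximalIdeal hPtop
  -- units
  have hunit : ∀ x : ↥(sf79_loc B n), IsUnit (ρ x) ↔ IsUnit x := by
    intro x
    constructor
    · intro hu
      by_contra hx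
      have hxm : x ∈ IsLocalRing.maximalIdeal ↥(sf79_loc B n) :=
        (IsLocalRing.mem_maximalIdeal x).mpr hx
      obtain ⟨w, hw⟩ := hu.exists_right_inv
      obtain ⟨y, rfl⟩ := hρsurj w
      have h1 : ρ (x * y - 1) = 0 := by rw [map_sub, map_mul, hw, map_one, sub_self]
      have h2 : x * y - 1 ∈ bd54_P π B V n hle := Ideal.Quotient.eq_zero_iff_mem.mp h1
      have h3 : (1 : ↥(sf79_loc B n)) ∈ IsLocalRing.maximalIdeal ↥(sf79_loc B n) := by
        have e : (1 : ↥(sf79_loc B n)) = x * y - (x * y - 1) := by ring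
        rw [e]
        exact Ideal.sub_mem _ (Ideal.mul_mem_right _ _ hxm) (hPle h2)
      exact (IsLocalRing.maximalIdeal.isMaximal _).ne_top ((Ideal.eq_top_iff_one _).mpr h3)
    · exact fun hx => hx.map ρ
  have hunitB : ∀ s : B, IsUnit (ρ (dl93c_incl B n s)) ↔ s ∉ n := by
    intro s
    rw [hunit]
    exact IsLocalization.AtPrime.isUnit_to_map_iff ↥(sf79_loc B n) n s
  -- the coordinate
  have hzn : z ∈ n := hz.1
  have hζnu : ¬ IsUnit (ρ (dl93c_incl B n z)) := by
    rw [hunitB]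
    exact fun h => h hzn
  obtain ⟨x₀, hx₀n, hx₀V⟩ := hne
  have hzV : (algebraMap R F π)⁻¹ * (z : F) ∉ V := by
    intro hzV
    obtain ⟨s, hs, a, hsa⟩ := hz.2 x₀ hx₀n
    have hsa' : (algebraMap R F π)⁻¹ * ((s : F) * (x₀ : F) - (a : F) * (z : F)) ∈ V := hsa
    have h1 : (algebraMap R F π)⁻¹ * ((s : F) * (x₀ : F)) ∈ V := by
      have e : (algebraMap R F π)⁻¹ * ((s : F) * (x₀ : F)) =
          (algebraMap R F π)⁻¹ * ((s : F) * (x₀ : F) - (a : F) * (z : F)) +
            (a : F) * ((algebraMap R F π)⁻¹ * (z : F)) := by ring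
      rw [e]
      exact V.add_mem _ _ hsa' (V.mul_mem _ _ (hBV _ a.2) hzV)
    have hsinv : (s : F)⁻¹ ∈ V := sf79_inv_mem π B V.toSubring hBV hV n hOn s hs
    have hs0 : (s : F) ≠ 0 := sf79_ne_zero B n s hs
    apply hx₀V
    have e2 : (algebraMap R F π)⁻¹ * (x₀ : F) =
        (s : F)⁻¹ * ((algebraMap R F π)⁻¹ * ((s : F) * (x₀ : F))) := by
      have e3 : (s : F)⁻¹ * ((algebraMap R F π)⁻¹ * ((s : F) * (x₀ : F))) =
          ((s : F)⁻¹ * (s : F)) * ((algebraMap R F π)⁻¹ * (x₀ : F)) := by ring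
      rw [e3, inv_mul_cancel₀ hs0, one_mul]
    rw [e2]
    exact V.mul_mem _ _ hsinv h1
  have hζ0 : ρ (dl93c_incl B n z) ≠ 0 := by
    rw [Ne, hρ0]
    exact hzV
  -- congruences in `B` modulo the branch become equalities
  have hcong : ∀ (s x a w : B),
      (algebraMap R F π)⁻¹ * ((s : F) * (x : F) - (a : F) * (w : F)) ∈ V ↔
      ρ (dl93c_incl B n s) * ρ (dl93c_incl B n x) =
        ρ (dl93c_incl B n a) * ρ (dl93c_incl B n w) := by
    intro s x a w
    have e : ρ (dl93c_incl B n s) * ρ (dl93c_incl B n x) -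
        ρ (dl93c_incl B n a) * ρ (dl93c_incl B n w) =
        ρ (dl93c_incl B n s * dl93c_incl B n x - dl93c_incl B n a * dl93c_incl B n w) := by
      rw [map_sub, map_mul, map_mul]
    rw [← sub_eq_zero, e, hρ0]
    rfl
  -- the maximal ideal is generated by `ρ z`
  have hmax : IsLocalRing.maximalIdeal (↥(sf79_loc B n) ⧸ bd54_P π B V n hle) =
      Ideal.span {ρ (dl93c_incl B n z)} := by
    apply le_antisymm
    · intro y hy
      obtain ⟨x, rfl⟩ := hρsurj y
      have hxnu : ¬ IsUnit x := fun hx =>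
        (IsLocalRing.mem_maximalIdeal _).mp hy ((hunit x).mpr hx)
      obtain ⟨⟨b, s⟩, hbs⟩ := IsLocalization.surj n.primeCompl x
      have hbs' : x * dl93c_incl B n (s : B) = dl93c_incl B n b := hbs
      have hbn : b ∈ n := by
        by_contra hb
        have hub : IsUnit (dl93c_incl B n b) :=
          (IsLocalization.AtPrime.isUnit_to_map_iff ↥(sf79_loc B n) n b).mpr hb
        rw [← hbs'] at hub
        exact hxnu (isUnit_of_mul_isUnit_left hub)
      obtain ⟨s', hs', a, hsa⟩ := hz.2 b hbn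
      have h1 : ρ (dl93c_incl B n s') * ρ (dl93c_incl B n b) =
          ρ (dl93c_incl B n a) * ρ (dl93c_incl B n z) := (hcong s' b a z).mp hsa
      have hus : IsUnit (ρ (dl93c_incl B n (s : B))) := (hunitB s).mpr s.2
      have hus' : IsUnit (ρ (dl93c_incl B n s')) := (hunitB s').mpr hs'
      have h2 : ρ x * ρ (dl93c_incl B n (s : B)) = ρ (dl93c_incl B n b) := by
        rw [← map_mul, hbs']
      rw [Ideal.mem_span_singleton]
      have h3 : ρ (dl93c_incl B n z) ∣
          ρ x * (ρ (dl93c_incl B n (s : B)) * ρ (dl93c_incl B n s')) := by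
        rw [← mul_assoc, h2, mul_comm, h1]
        exact Dvd.intro_left _ rfl
      exact (IsUnit.dvd_mul_right (hus.mul hus')).mp h3
    · rw [Ideal.span_singleton_le_iff_mem]
      exact (IsLocalRing.mem_maximalIdeal _).mpr hζnu
  have hnf : ¬ IsField (↥(sf79_loc B n) ⧸ bd54_P π B V n hle) := by
    intro hf
    obtain ⟨w, hw⟩ := hf.mul_inv_cancel hζ0
    exact hζnu (IsUnit.of_mul_eq_one w hw)
  have hprinc : (IsLocalRing.maximalIdeal
      (↥(sf79_loc B n) ⧸ bd54_P π B V n hle)).IsPrincipal :=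
    ⟨⟨ρ (dl93c_incl B n z), hmax⟩⟩
  haveI hdvr : IsDiscreteValuationRing (↥(sf79_loc B n) ⧸ bd54_P π B V n hle) :=
    ((IsDiscreteValuationRing.TFAE (↥(sf79_loc B n) ⧸ bd54_P π B V n hle) hnf).out 0 4).mpr
      hprinc
  have hirr : Irreducible (ρ (dl93c_incl B n z)) :=
    (IsDiscreteValuationRing.irreducible_iff_uniformizer _).mpr hmax
  refine ⟨↥(sf79_loc B n) ⧸ bd54_P π B V n hle, inferInstance, hdom, hdvr, ρ, hρsurj, hρ0,
    hunit, hunitB, hirr, ?_⟩
  intro x μ
  constructor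
  · rintro ⟨s, a, hs, ha, hsa⟩
    have hsa' : (algebraMap R F π)⁻¹ * ((s : F) * (x : F) - (a : F) * ((z ^ μ : B) : F)) ∈ V := by
      rw [Subalgebra.coe_pow]
      exact hsa
    have h1 : ρ (dl93c_incl B n s) * ρ (dl93c_incl B n x) =
        ρ (dl93c_incl B n a) * ρ (dl93c_incl B n z) ^ μ := by
      rw [← map_pow, ← map_pow]
      exact (hcong s x a (z ^ μ)).mp hsa'
    have hus := (hunitB s).mpr hs
    have hua := (hunitB a).mpr ha
    refine ⟨hus.unit * hua.unit⁻¹, ?_⟩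
    have h2 : ρ (dl93c_incl B n x) * (hus.unit : (↥(sf79_loc B n) ⧸ bd54_P π B V n hle)) =
        (hua.unit : (↥(sf79_loc B n) ⧸ bd54_P π B V n hle)) * ρ (dl93c_incl B n z) ^ μ := by
      rw [IsUnit.unit_spec, IsUnit.unit_spec, mul_comm]
      exact h1
    rw [Units.val_mul, ← mul_assoc, h2, mul_comm (hua.unit : (↥(sf79_loc B n) ⧸ bd54_P π B V n hle)),
      mul_assoc, Units.mul_inv, mul_one]
  · rintro ⟨u, hu⟩
    obtain ⟨w, hw⟩ := hρsurj (u : (↥(sf79_loc B n) ⧸ bd54_P π B V n hle))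
    have hwu : IsUnit w := (hunit w).mp (hw ▸ u.isUnit)
    obtain ⟨⟨c, t⟩, hct⟩ := IsLocalization.surj n.primeCompl w
    have hct' : w * dl93c_incl B n (t : B) = dl93c_incl B n c := hct
    have hc : c ∉ n := by
      have h1 : IsUnit (dl93c_incl B n c) := by
        rw [← hct']
        exact hwu.mul ((IsLocalization.AtPrime.isUnit_to_map_iff ↥(sf79_loc B n) n (t : B)).mpr t.2)
      exact (IsLocalization.AtPrime.isUnit_to_map_iff ↥(sf79_loc B n) n c).mp h1
    refine ⟨c, t, hc, t.2, ?_⟩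
    have h2 : ρ (dl93c_incl B n c) =
        (u : (↥(sf79_loc B n) ⧸ bd54_P π B V n hle)) * ρ (dl93c_incl B n (t : B)) := by
      rw [← hw, ← map_mul, hct']
    have h3 : ρ (dl93c_incl B n c) * ρ (dl93c_incl B n x) =
        ρ (dl93c_incl B n (t : B)) * ρ (dl93c_incl B n (z ^ μ)) := by
      rw [h2, map_pow, map_pow, ← hu]
      ring
    have h4 := (hcong c x t (z ^ μ)).mpr h3
    rw [Subalgebra.coe_pow] at h4
    exact h4

/-- **The branch DVR, additive-valuation form of the dictionary**: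
`rq44_Ord π B V n z x μ ↔ addVal O (ρ x) = μ`. -/
theorem bd54_exists_addVal (π : R) (B : Subalgebra R F) [IsNoetherianRing B]
    (V : ValuationSubring F)
    (hBV : ∀ x ∈ B, x ∈ V) (hπV : (algebraMap R F π)⁻¹ ∉ V)
    (hV : ∀ x ∈ V, (algebraMap R F π)⁻¹ * x ∉ V → x⁻¹ ∈ V)
    (n : Ideal B) [hn : n.IsPrime] (hOn : sf79_OnBr π B V.toSubring n)
    (z : B) (hz : sf79_Unif π B V.toSubring n z)
    (hne : ∃ x : B, x ∈ n ∧ (algebraMap R F π)⁻¹ * (x : F) ∉ V) :
    ∃ (O : Type u) (_ : CommRing O) (_ : IsDomain O) (_ : IsDiscreteValuationRing O)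
      (ρ : ↥(sf79_loc B n) →+* O),
      Function.Surjective ρ ∧
      (∀ x : ↥(sf79_loc B n), ρ x = 0 ↔ (algebraMap R F π)⁻¹ * (x : F) ∈ V) ∧
      (∀ x : ↥(sf79_loc B n), IsUnit (ρ x) ↔ IsUnit x) ∧
      (∀ s : B, IsUnit (ρ (dl93c_incl B n s)) ↔ s ∉ n) ∧
      Irreducible (ρ (dl93c_incl B n z)) ∧
      (∀ (x : B) (μ : ℕ), rq44_Ord π B V n z x μ ↔
        IsDiscreteValuationRing.addVal O (ρ (dl93c_incl B n x)) = (μ : ℕ∞)) := by
  obtain ⟨O, i1, i2, i3, ρ, h1, h2, h3, h4, h5, h6⟩ :=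
    bd54_exists π B V hBV hπV hV n hOn z hz hne
  refine ⟨O, i1, i2, i3, ρ, h1, h2, h3, h4, h5, ?_⟩
  have key : ∀ (y : O) (μ : ℕ), Associated y (ρ (dl93c_incl B n z) ^ μ) →
      IsDiscreteValuationRing.addVal O y = (μ : ℕ∞) := by
    rintro y μ ⟨w, hw⟩
    refine IsDiscreteValuationRing.addVal_def y w⁻¹ h5 μ ?_
    rw [← hw, mul_comm y, ← mul_assoc, Units.inv_mul, one_mul]
  intro x μ
  rw [h6]
  constructor
  · exact key _ μ
  · intro hval
    have hx0 : ρ (dl93c_incl B n x) ≠ 0 := by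
      intro h0
      rw [h0] at hval
      have : IsDiscreteValuationRing.addVal O (0 : O) = ⊤ :=
        IsDiscreteValuationRing.addVal_eq_top_iff.mpr rfl
      rw [this] at hval
      exact ENat.top_ne_coe μ hval
    obtain ⟨m, hm⟩ := IsDiscreteValuationRing.associated_pow_irreducible hx0 h5
    have hm' := key _ m hm
    rw [hval] at hm'
    have hmμ : μ = m := by exact_mod_cast hm'
    rw [hmμ]
    exact hm

end BD54

end Fermat.Agent.S36
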