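import Mathlib

/-!
# (LP2) (helper40): in a noetherian local ring whose maximal ideal is generated by two elements,
every prime different from the maximal ideal is principal

* `lp40_principal_of_not_mem` : `m = (x, y)`, `P` prime, `x ∉ P`  ⟹  `P = (p)` for some `p ∈ P`;
* `lp40_principal` : `m = (x, y)`, `P` prime, `P ≠ m`  ⟹  `P` is principal.

No regularity theory, no factoriality: `A / x A` has a principal maximal ideal, so the image of
`P` is `(ȳ ^ k)` or `0` (Krull's intersection theorem); lift a generator to `p ∈ P`; then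
`P = p A + x P` because `x ∉ P`, and Nakayama gives `P = p A`.
-/

set_option autoImplicit false

namespace Fermat.Agent.S36

open IsLocalRing

/-- `m = (x, y)`, `P` prime, `x ∉ P` ⟹ `P` is generated by one of its elements. -/
theorem lp40_principal_of_not_mem {A : Type*} [CommRing A] [IsLocalRing A] [IsNoetherianRing A]
    (x y : A) (hm : maximalIdeal A = Ideal.span {x, y})
    (P : Ideal A) [hP : P.IsPrime] (hx : x ∉ P) : ∃ p ∈ P, P = Ideal.span {p} := by
  classical
  -- key step: a `p ∈ P` with `P ≤ (p, x)`
  have key : ∃ p ∈ P, P ≤ Ideal.span {p, x} := by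
    by_cases hall : ∀ k : ℕ, P ≤ Ideal.span {x, y ^ k}
    · -- Krull's intersection theorem in `A / x A`: `P ≤ (x)`
      refine ⟨0, P.zero_mem, ?_⟩
      intro z hz
      have hK := Ideal.iInf_pow_smul_eq_bot_of_isLocalRing (R := A)
        (M := A ⧸ Ideal.span {x}) (I := maximalIdeal A) (Ideal.IsPrime.ne_top inferInstance)
      have hmem : Ideal.Quotient.mk (Ideal.span {x}) z ∈
          (⨅ i : ℕ, maximalIdeal A ^ i • ⊤ : Submodule A (A ⧸ Ideal.span {x})) := by
        rw [Submodule.mem_iInf]
        intro k
        obtain ⟨a, b, hab⟩ := Ideal.mem_span_pair.mp (hall k hz)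
        have h1 : Ideal.Quotient.mk (Ideal.span {x}) z =
            (b * y ^ k) • (Ideal.Quotient.mk (Ideal.span {x}) 1) := by
          have h2 : (b * y ^ k) • (Ideal.Quotient.mk (Ideal.span {x}) 1) =
              Ideal.Quotient.mk (Ideal.span {x}) (b * y ^ k) := by
            simp [Algebra.smul_def]
          rw [h2, ← hab, Ideal.Quotient.eq]
          have : a * x + b * y ^ k - b * y ^ k = a * x := by ring
          rw [this]
          exact Ideal.mul_mem_left _ _ (Ideal.subset_span (Set.mem_singleton x))
        rw [h1]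
        refine Submodule.smul_mem_smul ?_ Submodule.mem_top
        refine Ideal.mul_mem_left _ _ (Ideal.pow_mem_pow ?_ k)
        rw [hm]
        exact Ideal.subset_span (by simp)
      rw [hK] at hmem
      have hz0 : Ideal.Quotient.mk (Ideal.span {x}) z = 0 := (Submodule.mem_bot A).mp hmem
      have hzx : z ∈ Ideal.span {x} := Ideal.Quotient.eq_zero_iff_mem.mp hz0
      exact Ideal.span_mono (by simp) hzx
    · rw [not_forall] at hall
      have hk : ¬ P ≤ Ideal.span {x, y ^ Nat.find hall} := Nat.find_spec hall
      have hk0 : Nat.find hall ≠ 0 := by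
        intro h0
        apply hk
        rw [h0, pow_zero]
        intro w _
        rw [Ideal.mem_span_pair]
        exact ⟨0, w, by simp⟩
      obtain ⟨j, hj⟩ := Nat.exists_eq_succ_of_ne_zero hk0
      have hjle : P ≤ Ideal.span {x, y ^ j} := by
        by_contra h
        exact Nat.find_min hall (by omega) h
      obtain ⟨z, hzP, hz⟩ := SetLike.not_le_iff_exists.mp hk
      obtain ⟨a, b, hab⟩ := Ideal.mem_span_pair.mp (hjle hzP)
      have hb : IsUnit b := by
        by_contra hb
        have hbm : b ∈ maximalIdeal A := (mem_maximalIdeal b).mpr hb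
        rw [hm] at hbm
        obtain ⟨c, d, hcd⟩ := Ideal.mem_span_pair.mp hbm
        apply hz
        rw [hj, Ideal.mem_span_pair]
        refine ⟨a + c * y ^ j, d, ?_⟩
        rw [← hab, ← hcd, pow_succ]
        ring
      obtain ⟨u, rfl⟩ := hb
      refine ⟨z, hzP, hjle.trans ?_⟩
      rw [Ideal.span_le]
      intro w hw
      simp only [Set.mem_insert_iff, Set.mem_singleton_iff] at hw
      rcases hw with rfl | rfl
      · exact Ideal.subset_span (by simp)
      · rw [SetLike.mem_coe, Ideal.mem_span_pair]
        refine ⟨((u⁻¹ : Aˣ) : A), -(((u⁻¹ : Aˣ) : A) * a), ?_⟩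
        rw [← hab]
        have h1 : ((u⁻¹ : Aˣ) : A) * (u : A) = 1 := Units.inv_mul u
        linear_combination (y ^ j) * h1
  obtain ⟨p, hpP, hle⟩ := key
  refine ⟨p, hpP, le_antisymm ?_ ((Ideal.span_singleton_le_iff_mem _).mpr hpP)⟩
  -- Nakayama: `P ≤ (p) ⊔ m • P`
  apply Submodule.le_of_le_smul_of_le_jacobson_bot (I := maximalIdeal A)
    (IsNoetherian.noetherian P) (maximalIdeal_le_jacobson _)
  intro w hw
  obtain ⟨c, d, hcd⟩ := Ideal.mem_span_pair.mp (hle hw)
  have hdx : d * x ∈ P := by
    have h1 : d * x = w - c * p := by rw [← hcd]; ring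
    rw [h1]
    exact P.sub_mem hw (P.mul_mem_left _ hpP)
  have hd : d ∈ P := (hP.mem_or_mem hdx).resolve_right hx
  have hxm : x ∈ maximalIdeal A := by
    rw [hm]
    exact Ideal.subset_span (by simp)
  rw [← hcd]
  refine Submodule.add_mem_sup (Ideal.mem_span_singleton'.mpr ⟨c, rfl⟩) ?_
  rw [mul_comm]
  exact Submodule.smul_mem_smul hxm hd

/-- **(LP2)** In a noetherian local ring with `m = (x, y)`, every prime `P ≠ m` is principal. -/
theorem lp40_principal {A : Type*} [CommRing A] [IsLocalRing A] [IsNoetherianRing A]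
    (x y : A) (hm : maximalIdeal A = Ideal.span {x, y})
    (P : Ideal A) [hP : P.IsPrime] (hPm : P ≠ maximalIdeal A) : ∃ p : A, P = Ideal.span {p} := by
  by_cases hx : x ∈ P
  · have hy : y ∉ P := by
      intro hy
      apply hPm
      refine le_antisymm (le_maximalIdeal hP.ne_top) ?_
      rw [hm, Ideal.span_le]
      intro z hz
      simp only [Set.mem_insert_iff, Set.mem_singleton_iff] at hz
      rcases hz with rfl | rfl
      · exact hx
      · exact hy
    obtain ⟨p, -, h⟩ := lp40_principal_of_not_mem y x (by rw [hm, Ideal.span_pair_comm]) P hy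
    exact ⟨p, h⟩
  · obtain ⟨p, -, h⟩ := lp40_principal_of_not_mem x y hm P hx
    exact ⟨p, h⟩

end Fermat.Agent.S36
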