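import Mathlib
import Fermat.Agent.S36.LocalDatumB55

/-!
# S36 lab, row 603 (helper55), part C: the LIFT of the local root on one branch, literal shapes

`ld55_hres` : on ANY branch `V` through the closed point `n` (one-branch point or triple point)
with a local coordinate `z` at `n` and a generator `ξ` at `n`: the local root `c` of `u`
(`u ≡ 1` modulo `𝔪 (V)`, `u / c ^ m` a unit of `B_n`) is congruent modulo `𝔪 (V)` to an element
`b` of `B_n`.  This is literally the clause `hres` of `ld84_datum_at` / `ld84_RootAt` and the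
input `b_i`, `hcb_i` of `gc26_triple`.

* `ld55_hres_red` : the same with the literal frame shapes of a REDUCED branch
  (`sf79_OnBr`, `sf79_Unif`, `π` a uniformiser of `V`, generator as in `tl71_branch_principal`).
* `ld55_hres_mid` : the same with the literal frame shapes of the MIDDLE branch (uniformiser
  `σ`; `tl71_OnMid`, the clause of `tl71_MidSmooth`, generator as in `tl71_mid_principal`).
-/

set_option autoImplicit false

namespace Fermat.Agent.S36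

open Fermat.Agent.S34

section HRes

variable {R F : Type*} [CommRing R] [Field F] [Algebra R F]

/-- **The lift of the local root on one branch through `n`.** -/
theorem ld55_hres (π : R) (B : Subalgebra R F) [IsNoetherianRing B] (V : ValuationSubring F)
    (hBV : ∀ x ∈ B, x ∈ V) (hπV : (algebraMap R F π)⁻¹ ∉ V)
    (hrad : ∀ x ∈ V, x⁻¹ ∉ V → ∃ k : ℕ, (algebraMap R F π)⁻¹ * x ^ k ∈ V)
    (harch : ∀ x ∈ B, x ≠ 0 → ∃ k : ℕ, (algebraMap R F π ^ k)⁻¹ * x ∉ V)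
    (hFrac : ∀ x : F, ∃ a ∈ B, ∃ b ∈ B, b ≠ 0 ∧ x * b = a)
    (n : Ideal B) [hn : n.IsMaximal]
    (hPn : ∀ x : B, (x : F) ∈ ld55_mV V → x ∈ n)
    (m : ℕ) (hm0 : 0 < m) (u : F) (hu1 : u - 1 ∈ ld55_mV V)
    (c : F) (hc : c ≠ 0)
    (hε : ∃ s : B, s ∉ n ∧ (s : F) * (u / c ^ m) ∈ B)
    (hε' : ∃ s : B, s ∉ n ∧ (s : F) * (c ^ m / u) ∈ B)
    (z : B) (hzn : z ∈ n)
    (hz : ∀ x ∈ n, ∃ s : B, s ∉ n ∧ ∃ a : B,
      (s : F) * (x : F) - (a : F) * (z : F) ∈ ld55_mV V)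
    (ξ : B) (hξ : (ξ : F) ∈ ld55_mV V)
    (hgen : ∀ x : B, (x : F) ∈ ld55_mV V → ∃ t : B, t ∉ n ∧ ∃ b : B, t * x = b * ξ) :
    ∃ b : F, (∃ s : B, s ∉ n ∧ (s : F) * b ∈ B) ∧ V.valuation (c - b) < 1 := by
  have hnp : n.IsPrime := hn.isPrime
  have hunitV : ∀ y : B, y ∉ n → (y : F)⁻¹ ∈ V := fun y hy =>
    ld55_inv_mem V (hBV _ y.2) (fun h => hy (hPn y h))
  have hne : ∀ y : B, y ∉ n → (y : F) ≠ 0 := by
    intro y hy h0
    apply hy
    have e : y = 0 := Subtype.ext h0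
    rw [e]
    exact n.zero_mem
  have hu0 : u ≠ 0 := by
    intro h0
    rw [h0, zero_sub] at hu1
    have h1 := neg_mem hu1
    rw [neg_neg] at h1
    exact ld55_one_not_mV V h1
  have huV : u ∈ V ∧ u⁻¹ ∈ V := by
    have h := ld55_unit_one_add V (u - 1) hu1
    have e : 1 + (u - 1) = u := by ring
    rwa [e] at h
  obtain ⟨t, ht, htm⟩ := hε'
  obtain ⟨r, hr, hrm⟩ := hε
  have hcV : c ∈ V := by
    have h1 : c ^ m ∈ V := by
      have e : c ^ m = (t : F)⁻¹ * ((t : F) * (c ^ m / u)) * u := by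
        have := hne t ht
        field_simp
      rw [e]
      exact mul_mem (mul_mem (hunitV t ht) (hBV _ htm)) huV.1
    exact ld55_root V c m hm0 h1
  have ht' : (⟨_, htm⟩ : B) ∉ n := by
    intro h
    have h2 : (⟨_, htm⟩ : B) * ⟨_, hrm⟩ ∈ n := n.mul_mem_right _ h
    have e : (⟨_, htm⟩ : B) * ⟨_, hrm⟩ = t * r := by
      apply Subtype.ext
      push_cast
      field_simp
    rw [e] at h2
    exact (hnp.mem_or_mem h2).elim ht hr
  have hroot : (t : F) * c ^ m - ((⟨_, htm⟩ : B) : F) ∈ ld55_mV V := by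
    have e : (t : F) * c ^ m - ((⟨_, htm⟩ : B) : F) = (t : F) * c ^ m * u⁻¹ * (u - 1) := by
      show (t : F) * c ^ m - (t : F) * (c ^ m / u) = _
      field_simp
    rw [e]
    exact ld55_mV_mul V (mul_mem (mul_mem (hBV _ t.2) (pow_mem hcV m)) huV.2) hu1
  have hfrac : ∀ x ∈ V, ∃ b b' : B, (b' : F) ∉ ld55_mV V ∧ (b' : F) * x = (b : F) :=
    fun x hx => ld55_frac π B V hBV hπV hrad harch hFrac n hPn ξ hξ hgen x hx
  obtain ⟨d, c', hd, hdc⟩ := ld55_lift B V hBV n hPn z hzn hz hfrac c hcV m hm0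
    t ⟨_, htm⟩ ht ht' hroot
  have hd0 : (d : F) ≠ 0 := hne d hd
  refine ⟨(d : F)⁻¹ * (c' : F), ⟨d, hd, ?_⟩, ?_⟩
  · rw [← mul_assoc, mul_inv_cancel₀ hd0, one_mul]
    exact c'.2
  · have e : c - (d : F)⁻¹ * (c' : F) = (d : F)⁻¹ * ((d : F) * c - (c' : F)) := by
      field_simp
    rw [e]
    exact ld55_mV_mul V (hunitV d hd) hdc

/-- `ld55_hres` with the literal frame shapes of a REDUCED branch: `π` a uniformiser of `V`,
`sf79_OnBr`, `sf79_Unif`, and a generator `ξ` of the branch at `n` in the shape of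
`tl71_branch_principal` / `ob58_branch_principal`. -/
theorem ld55_hres_red (π : R) (B : Subalgebra R F) [IsNoetherianRing B] (V : ValuationSubring F)
    (hBV : ∀ x ∈ B, x ∈ V) (hπV : (algebraMap R F π)⁻¹ ∉ V)
    (hunif : ∀ x ∈ V, x⁻¹ ∉ V → (algebraMap R F π)⁻¹ * x ∈ V)
    (harch : ∀ x ∈ B, x ≠ 0 → ∃ k : ℕ, (algebraMap R F π ^ k)⁻¹ * x ∉ V)
    (hFrac : ∀ x : F, ∃ a ∈ B, ∃ b ∈ B, b ≠ 0 ∧ x * b = a)
    (n : Ideal B) [hn : n.IsMaximal] (hOn : sf79_OnBr π B V.toSubring n)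
    (m : ℕ) (hm0 : 0 < m) (u : F) (hu : (algebraMap R F π)⁻¹ * (u - 1) ∈ V)
    (c : F) (hc : c ≠ 0)
    (hε : ∃ s : B, s ∉ n ∧ (s : F) * (u / c ^ m) ∈ B)
    (hε' : ∃ s : B, s ∉ n ∧ (s : F) * (c ^ m / u) ∈ B)
    (z : B) (hz : sf79_Unif π B V.toSubring n z)
    (ξ : B) (hξ : (algebraMap R F π)⁻¹ * (ξ : F) ∈ V)
    (hgen : ∀ x : B, (algebraMap R F π)⁻¹ * (x : F) ∈ V → ∃ t : B, t ∉ n ∧ ∃ b : B, t * x = b * ξ) :
    ∃ b : F, (∃ s : B, s ∉ n ∧ (s : F) * b ∈ B) ∧ V.valuation (c - b) < 1 := by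
  have hnp : n.IsPrime := hn.isPrime
  have hpV : algebraMap R F π ∈ V := hBV _ (B.algebraMap_mem π)
  have hrad : ∀ x ∈ V, x⁻¹ ∉ V → ∃ k : ℕ, (algebraMap R F π)⁻¹ * x ^ k ∈ V := by
    intro x hx hxinv
    refine ⟨1, ?_⟩
    rw [pow_one]
    exact hunif x hx hxinv
  -- `𝔪 (V) = π V`
  have hdiv : ∀ x : F, x ∈ ld55_mV V → (algebraMap R F π)⁻¹ * x ∈ V := by
    intro x hx
    obtain ⟨k, hk⟩ := ld55_rad_val V _ hrad x hx
    by_cases hx0 : x = 0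
    · rw [hx0, mul_zero]
      exact zero_mem _
    · apply hunif x (ld55_mV_le V hx)
      intro hinv
      have h1 : (1 : F) ∈ ld55_mV V := by
        have h2 := ld55_mV_mul V hinv hx
        rwa [inv_mul_cancel₀ hx0] at h2
      exact ld55_one_not_mV V h1
  have hPn : ∀ x : B, (x : F) ∈ ld55_mV V → x ∈ n := fun x hx => hOn x (hdiv _ hx)
  refine ld55_hres π B V hBV hπV hrad harch hFrac n hPn m hm0 u
    (ld55_mV_of_div V _ _ hpV hπV hu) c hc hε hε' z hz.1 ?_ ξ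
    (ld55_mV_of_div V _ _ hpV hπV hξ) (fun x hx => hgen x (hdiv _ hx))
  intro x hx
  obtain ⟨s, hs, a, ha⟩ := hz.2 x hx
  exact ⟨s, hs, a, ld55_mV_of_div V _ _ hpV hπV ha⟩

/-- `ld55_hres` with the literal frame shapes of the MIDDLE (thick) branch with uniformiser
`σ`: the branch is `{x ∈ B | x σ⁻¹ ∈ V}` (`tl71_OnMid`), the local coordinate is the clause of
`tl71_MidSmooth`, and the generator `ξ` of the branch at `n` is in the shape of
`tl71_mid_principal`. -/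
theorem ld55_hres_mid (π : R) (σ : F) (B : Subalgebra R F) [IsNoetherianRing B]
    (V : ValuationSubring F)
    (hBV : ∀ x ∈ B, x ∈ V) (hπV : (algebraMap R F π)⁻¹ ∉ V)
    (hσV : σ ∈ V) (hσinv : σ⁻¹ ∉ V) (hσ : ∀ x ∈ V, x⁻¹ ∉ V → x * σ⁻¹ ∈ V)
    (hrad : ∀ x ∈ V, x⁻¹ ∉ V → ∃ k : ℕ, (algebraMap R F π)⁻¹ * x ^ k ∈ V)
    (harch : ∀ x ∈ B, x ≠ 0 → ∃ k : ℕ, (algebraMap R F π ^ k)⁻¹ * x ∉ V)
    (hFrac : ∀ x : F, ∃ a ∈ B, ∃ b ∈ B, b ≠ 0 ∧ x * b = a)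
    (n : Ideal B) [hn : n.IsMaximal]
    (hOn : ∀ x : B, (x : F) * σ⁻¹ ∈ V → x ∈ n)
    (m : ℕ) (hm0 : 0 < m) (u : F) (hu : (algebraMap R F π)⁻¹ * (u - 1) ∈ V)
    (c : F) (hc : c ≠ 0)
    (hε : ∃ s : B, s ∉ n ∧ (s : F) * (u / c ^ m) ∈ B)
    (hε' : ∃ s : B, s ∉ n ∧ (s : F) * (c ^ m / u) ∈ B)
    (z : B) (hzn : z ∈ n)
    (hz : ∀ x ∈ n, ∃ s : B, s ∉ n ∧ ∃ a : B, ((s : F) * (x : F) - (a : F) * (z : F)) * σ⁻¹ ∈ V)
    (ξ : B) (hξ : (ξ : F) * σ⁻¹ ∈ V)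
    (hgen : ∀ x : B, (x : F) * σ⁻¹ ∈ V → ∃ t : B, t ∉ n ∧ ∃ b : B, t * x = b * ξ) :
    ∃ b : F, (∃ s : B, s ∉ n ∧ (s : F) * b ∈ B) ∧ V.valuation (c - b) < 1 := by
  have hpV : algebraMap R F π ∈ V := hBV _ (B.algebraMap_mem π)
  -- `𝔪 (V) = σ V`
  have hdiv : ∀ x : F, x ∈ ld55_mV V → x * σ⁻¹ ∈ V := by
    intro x hx
    by_cases hx0 : x = 0
    · rw [hx0, zero_mul]
      exact zero_mem _
    · apply hσ x (ld55_mV_le V hx)
      intro hinv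
      have h1 : (1 : F) ∈ ld55_mV V := by
        have h2 := ld55_mV_mul V hinv hx
        rwa [inv_mul_cancel₀ hx0] at h2
      exact ld55_one_not_mV V h1
  have hmul : ∀ x : F, x * σ⁻¹ ∈ V → x ∈ ld55_mV V := by
    intro x hx
    apply ld55_mV_of_div V σ x hσV hσinv
    rwa [mul_comm] at hx
  have hPn : ∀ x : B, (x : F) ∈ ld55_mV V → x ∈ n := fun x hx => hOn x (hdiv _ hx)
  refine ld55_hres π B V hBV hπV hrad harch hFrac n hPn m hm0 u
    (ld55_mV_of_div V _ _ hpV hπV hu) c hc hε hε' z hzn ?_ ξ (hmul _ hξ)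
    (fun x hx => hgen x (hdiv _ hx))
  intro x hx
  obtain ⟨s, hs, a, ha⟩ := hz x hx
  exact ⟨s, hs, a, hmul _ ha⟩

end HRes

end Fermat.Agent.S36
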