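import Mathlib
import Fermat.Agent.S36.LocPrin2_40
import Fermat.Agent.S36.LocalDatumC55
import Fermat.Agent.S36.LocStrThree71

/-!
# S36 lab, row 633 (helper76): branch generators at a 2-generated closed point, and the three
branch root lifts of `hp53_TripleData` / `hp3x77_TripleData`

At a TRIPLE point `n` of the level-`q²` chart the middle branch `V₂` has no `tl71_MidDivAt`
(the hypothesis `hD₂` of `tl71_twoGen` is available at the `C₂`-only points only), so the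
generator `ξ` of the branch wanted by `ld55_hres` / `ld55_hres_mid` must come from elsewhere.
It comes from (LP2) (`lp40_principal`, helper40): the local ring at a 2-generated closed point
is a noetherian local ring with a 2-generated maximal ideal, so every prime below `n` and
different from `n` is principal there.

* `bg76_gen` : `B` noetherian, `n` prime with the 2-generation clause of `tl71_TwoGen`,
  `P ≤ n` prime, `t ∈ n ∖ P`  ⟹  `∃ ξ ∈ P, ∀ z ∈ P, ∃ s ∉ n, ∃ b, s * z = b * ξ`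
  (literally the clause `hgen` of `ld55_hres`).
* `bg76_lift` : the branch root lift (conclusion shape of `gblc26_lift_at` = the three lift
  clauses of `hp53_TripleData`) on ANY branch `V` (reduced or thick) through a 2-generated
  closed point `n`, from a local coordinate `z` of the branch at `n` and one `t ∈ n` which is
  a unit of `V`.  No generator of the branch is asked for.
* `bg76_lift_onBr` : the same with the centre hypothesis in the `sf79_OnBr` shape.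
* `bg76_coord_red`, `bg76_coord_mid` : the coordinate clause from `sf79_Unif` resp. from the
  clause of `tl71_MidSmooth`.
* `bg76_off_of_divAt` : the `z` of `tl71_DivAt π B V V' V'' n` lies in `n` and is a unit of
  `V'` and of `V''`.
* `bg76_three_lifts` : the three lift clauses of `hp53_TripleData` at a closed point on the
  three branches, from the 2-generation clause at `n`, the three (3a) coordinates and the two
  local divisors `tl71_DivAt` of `V₁` and `V₃` (hypotheses `hD₁`, `hD₃` of `tl71_twoGen`).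

All names are prefixed `bg76_`.
-/

set_option autoImplicit false
set_option linter.style.longLine false
set_option linter.unusedVariables false
set_option linter.unusedSectionVars false
set_option linter.style.haveILetI false
set_option linter.deprecated false

namespace Fermat.Agent.S36

open Fermat.Agent.S34 Fermat.Agent.S36.TripleLoc71

section Gen

/-- **Generator of a branch at a 2-generated point.**  `B` noetherian, `n` a prime with
`n B_n = (x, y)` (clause of `tl71_TwoGen`), `P ≤ n` a prime and `t ∈ n ∖ P`: then `P B_n` is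
principal, generated by some `ξ ∈ P`, in the chart language. -/
theorem bg76_gen {B : Type*} [CommRing B] [IsNoetherianRing B] (n : Ideal B) [hn : n.IsPrime]
    (x y : B) (hx : x ∈ n) (hy : y ∈ n)
    (h2 : ∀ v ∈ n, ∃ s : B, s ∉ n ∧ ∃ a b : B, s * v = a * x + b * y)
    (P : Ideal B) [hP : P.IsPrime] (hPn : P ≤ n) (t : B) (htn : t ∈ n) (htP : t ∉ P) :
    ∃ ξ : B, ξ ∈ P ∧ ∀ z ∈ P, ∃ s : B, s ∉ n ∧ ∃ b : B, s * z = b * ξ := by
  classical
  let A := Localization.AtPrime n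
  haveI : IsNoetherianRing A := IsLocalization.isNoetherianRing n.primeCompl A inferInstance
  have hdisj : Disjoint (n.primeCompl : Set B) (P : Set B) := by
    rw [Set.disjoint_left]
    intro s hs hsP
    exact hs (hPn hsP)
  haveI hP' : (P.map (algebraMap B A)).IsPrime :=
    IsLocalization.isPrime_of_isPrime_disjoint n.primeCompl A P hP hdisj
  have hcomap : (P.map (algebraMap B A)).comap (algebraMap B A) = P :=
    IsLocalization.comap_map_of_isPrime_disjoint n.primeCompl A hP hdisj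
  have hunit : ∀ s : B, s ∉ n → IsUnit (algebraMap B A s) := fun s hs =>
    IsLocalization.map_units A (⟨s, hs⟩ : n.primeCompl)
  have hmaxmem : ∀ v : B, v ∈ n → algebraMap B A v ∈ IsLocalRing.maximalIdeal A := by
    intro v hv
    rw [← Localization.AtPrime.map_eq_maximalIdeal]
    exact Ideal.mem_map_of_mem _ hv
  have hm : IsLocalRing.maximalIdeal A = Ideal.span {algebraMap B A x, algebraMap B A y} := by
    apply le_antisymm
    · rw [← Localization.AtPrime.map_eq_maximalIdeal, Ideal.map_le_iff_le_comap]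
      intro v hv
      obtain ⟨s, hs, a, b, hab⟩ := h2 v hv
      rw [Ideal.mem_comap]
      obtain ⟨u, hu⟩ := hunit s hs
      have h1 : algebraMap B A v = ↑u⁻¹ * (algebraMap B A a * algebraMap B A x +
          algebraMap B A b * algebraMap B A y) := by
        rw [← map_mul, ← map_mul, ← map_add, ← hab, map_mul, ← hu, ← mul_assoc, Units.inv_mul,
          one_mul]
      rw [h1]
      refine Ideal.mul_mem_left _ _ (Ideal.add_mem _ ?_ ?_)
      · exact Ideal.mul_mem_left _ _ (Ideal.subset_span (by simp))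
      · exact Ideal.mul_mem_left _ _ (Ideal.subset_span (by simp))
    · rw [Ideal.span_le]
      rintro z (rfl | rfl)
      · exact hmaxmem x hx
      · exact hmaxmem y hy
  have hne : P.map (algebraMap B A) ≠ IsLocalRing.maximalIdeal A := by
    intro h
    apply htP
    rw [← hcomap, Ideal.mem_comap, h]
    exact hmaxmem t htn
  obtain ⟨g, hg⟩ := lp40_principal (algebraMap B A x) (algebraMap B A y) hm
    (P.map (algebraMap B A)) hne
  obtain ⟨⟨ξ, s₀⟩, hξ⟩ := IsLocalization.surj n.primeCompl g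
  have hgP : g ∈ P.map (algebraMap B A) := by
    rw [hg]
    exact Ideal.subset_span rfl
  have hξP : ξ ∈ P := by
    rw [← hcomap, Ideal.mem_comap]
    have : algebraMap B A ξ = g * algebraMap B A s₀ := hξ.symm
    rw [this]
    exact Ideal.mul_mem_right _ _ hgP
  refine ⟨ξ, hξP, ?_⟩
  intro z hz
  have hzP : algebraMap B A z ∈ P.map (algebraMap B A) := Ideal.mem_map_of_mem _ hz
  rw [hg] at hzP
  obtain ⟨c, hc⟩ := Ideal.mem_span_singleton'.mp hzP
  obtain ⟨⟨c₀, s₁⟩, hc₀⟩ := IsLocalization.surj n.primeCompl c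
  have hξ' : g * algebraMap B A (s₀ : B) = algebraMap B A ξ := hξ
  have hc₀' : c * algebraMap B A (s₁ : B) = algebraMap B A c₀ := hc₀
  have heq : algebraMap B A ((s₁ : B) * (s₀ : B) * z) = algebraMap B A (c₀ * ξ) := by
    rw [map_mul, map_mul, map_mul, ← hc, ← hc₀', ← hξ']
    ring
  obtain ⟨u, hu⟩ := (IsLocalization.eq_iff_exists n.primeCompl A).mp heq
  refine ⟨u * (s₁ * s₀), ?_, u * c₀, ?_⟩
  · intro h
    rcases hn.mem_or_mem h with h | h
    · exact u.2 h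
    · rcases hn.mem_or_mem h with h | h
      · exact s₁.2 h
      · exact s₀.2 h
  · calc (u : B) * (s₁ * s₀) * z = u * (s₁ * s₀ * z) := by ring
      _ = u * (c₀ * ξ) := hu
      _ = u * c₀ * ξ := by ring

end Gen

section Lift

variable {R F : Type*} [CommRing R] [Field F] [Algebra R F]

/-- **The branch root lift at a 2-generated closed point.**  `V` any branch through `n`
(reduced or thick), `z` a local coordinate of the branch at `n`, `t ∈ n` a unit of `V`: every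
`c ∈ V` whose `m`-th power is congruent modulo `𝔪 (V)` to a unit `e` of `B_n` is congruent modulo
`𝔪 (V)` to an element of `B_n`.  (Conclusion shape of `gblc26_lift_at`; the generator of the
branch is supplied by `bg76_gen`.) -/
theorem bg76_lift (π : R) (B : Subalgebra R F) [IsNoetherianRing B] (V : ValuationSubring F)
    (hBV : ∀ x ∈ B, x ∈ V) (hπV : (algebraMap R F π)⁻¹ ∉ V)
    (hrad : ∀ x ∈ V, x⁻¹ ∉ V → ∃ k : ℕ, (algebraMap R F π)⁻¹ * x ^ k ∈ V)
    (harch : ∀ x ∈ B, x ≠ 0 → ∃ k : ℕ, (algebraMap R F π ^ k)⁻¹ * x ∉ V)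
    (hFrac : ∀ x : F, ∃ a ∈ B, ∃ b ∈ B, b ≠ 0 ∧ x * b = a)
    (n : Ideal B) [hn : n.IsMaximal]
    (hPn : ∀ x : B, (x : F) ∈ ld55_mV V → x ∈ n)
    (x y : B) (hx : x ∈ n) (hy : y ∈ n)
    (h2 : ∀ v ∈ n, ∃ s : B, s ∉ n ∧ ∃ a b : B, s * v = a * x + b * y)
    (t : B) (htn : t ∈ n) (htV : (t : F) ∉ ld55_mV V)
    (z : B) (hzn : z ∈ n)
    (hz : ∀ x ∈ n, ∃ s : B, s ∉ n ∧ ∃ a : B,
      (s : F) * (x : F) - (a : F) * (z : F) ∈ ld55_mV V)
    (m : ℕ) (hm0 : 0 < m) (c e : F) (hc : c ∈ V) (he0 : e ≠ 0)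
    (he : e ∈ sf79_loc B n) (he' : e⁻¹ ∈ sf79_loc B n)
    (hce : V.valuation (c ^ m - e) < 1) :
    ∃ b ∈ sf79_loc B n, V.valuation (c - b) < 1 := by
  have hnp : n.IsPrime := hn.isPrime
  haveI := ld55_br_isPrime B V hBV
  obtain ⟨ξ, hξ, hgen⟩ := bg76_gen n x y hx hy h2 (ld55_br B V hBV) (fun v hv => hPn v hv)
    t htn htV
  by_cases hc0 : c = 0
  · refine ⟨0, zero_mem _, ?_⟩
    rw [hc0, sub_zero, map_zero]
    exact zero_lt_one
  have hne : ∀ s : B, s ∉ n → (s : F) ≠ 0 := by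
    intro s hs h0
    apply hs
    have e0 : s = 0 := Subtype.ext h0
    rw [e0]
    exact n.zero_mem
  have hlocV : ∀ w ∈ sf79_loc B n, w ∈ V := by
    rintro w ⟨s, hs, hsw⟩
    have hsV : (s : F)⁻¹ ∈ V := ld55_inv_mem V (hBV _ s.2) (fun h => hs (hPn s h))
    have hs0 : (s : F) ≠ 0 := hne s hs
    have e1 : w = (s : F)⁻¹ * ((s : F) * w) := by field_simp
    rw [e1]
    exact mul_mem hsV (hBV _ hsw)
  have hcm0 : c ^ m ≠ 0 := pow_ne_zero m hc0
  have hu1 : c ^ m / e - 1 ∈ ld55_mV V := by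
    have e1 : c ^ m / e - 1 = e⁻¹ * (c ^ m - e) := by field_simp
    rw [e1]
    exact ld55_mV_mul V (hlocV _ he') hce
  have hε : ∃ s : B, s ∉ n ∧ (s : F) * (c ^ m / e / c ^ m) ∈ B := by
    have e1 : c ^ m / e / c ^ m = e⁻¹ := by field_simp
    rw [e1]
    exact he'
  have hε' : ∃ s : B, s ∉ n ∧ (s : F) * (c ^ m / (c ^ m / e)) ∈ B := by
    have e1 : c ^ m / (c ^ m / e) = e := by field_simp
    rw [e1]
    exact he
  obtain ⟨b, hb, hcb⟩ := ld55_hres π B V hBV hπV hrad harch hFrac n hPn m hm0 (c ^ m / e) hu1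
    c hc0 hε hε' z hzn hz ξ hξ (fun w hw => hgen w hw)
  exact ⟨b, hb, hcb⟩

/-- `bg76_lift` with the centre hypothesis in the `sf79_OnBr` shape (thick branches allowed,
via `hrad`), quantified over `c`, `e`: literally one of the three lift clauses of
`hp53_TripleData` / `hp3x77_TripleData`. -/
theorem bg76_lift_onBr (π : R) (B : Subalgebra R F) [IsNoetherianRing B]
    (V : ValuationSubring F)
    (hBV : ∀ x ∈ B, x ∈ V) (hπV : (algebraMap R F π)⁻¹ ∉ V)
    (hrad : ∀ x ∈ V, x⁻¹ ∉ V → ∃ k : ℕ, (algebraMap R F π)⁻¹ * x ^ k ∈ V)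
    (harch : ∀ x ∈ B, x ≠ 0 → ∃ k : ℕ, (algebraMap R F π ^ k)⁻¹ * x ∉ V)
    (hFrac : ∀ x : F, ∃ a ∈ B, ∃ b ∈ B, b ≠ 0 ∧ x * b = a)
    (n : Ideal B) [hn : n.IsMaximal] (hOn : sf79_OnBr π B V.toSubring n)
    (h2 : ∃ x y : B, x ∈ n ∧ y ∈ n ∧
      ∀ v ∈ n, ∃ s : B, s ∉ n ∧ ∃ a b : B, s * v = a * x + b * y)
    (t : B) (htn : t ∈ n) (htV : ¬ V.valuation (t : F) < 1)
    (z : B) (hzn : z ∈ n)
    (hz : ∀ x ∈ n, ∃ s : B, s ∉ n ∧ ∃ a : B,
      V.valuation ((s : F) * (x : F) - (a : F) * (z : F)) < 1)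
    (m : ℕ) (hm0 : 0 < m) :
    ∀ c e : F, c ∈ V → e ≠ 0 → e ∈ sf79_loc B n → e⁻¹ ∈ sf79_loc B n →
      V.valuation (c ^ m - e) < 1 → ∃ b ∈ sf79_loc B n, V.valuation (c - b) < 1 := by
  have hnp : n.IsPrime := hn.isPrime
  obtain ⟨x, y, hx, hy, h2'⟩ := h2
  intro c e hc he0 he he' hce
  exact bg76_lift π B V hBV hπV hrad harch hFrac n
    (fun w hw => ld55_br_le π B V hrad n hOn w hw) x y hx hy h2' t htn htV z hzn hz m hm0
    c e hc he0 he he' hce

/-- The coordinate clause of `bg76_lift_onBr` from `sf79_Unif` (reduced branch). -/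
theorem bg76_coord_red (π : R) (B : Subalgebra R F) (V : ValuationSubring F)
    (hBV : ∀ x ∈ B, x ∈ V) (hπV : (algebraMap R F π)⁻¹ ∉ V)
    (n : Ideal B) (z : B) (hz : sf79_Unif π B V.toSubring n z) :
    z ∈ n ∧ ∀ x ∈ n, ∃ s : B, s ∉ n ∧ ∃ a : B,
      V.valuation ((s : F) * (x : F) - (a : F) * (z : F)) < 1 := by
  have hpV : algebraMap R F π ∈ V := hBV _ (B.algebraMap_mem π)
  refine ⟨hz.1, ?_⟩
  intro x hx
  obtain ⟨s, hs, a, ha⟩ := hz.2 x hx
  exact ⟨s, hs, a, ld55_mV_of_div V _ _ hpV hπV ha⟩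

/-- The coordinate clause of `bg76_lift_onBr` from the clause of `tl71_MidSmooth` (middle
branch with uniformiser `σ`). -/
theorem bg76_coord_mid (σ : F) (B : Subalgebra R F) (V : ValuationSubring F)
    (hσV : σ ∈ V) (hσinv : σ⁻¹ ∉ V)
    (n : Ideal B) (z : B)
    (hz : ∀ x ∈ n, ∃ s : B, s ∉ n ∧ ∃ a : B,
      ((s : F) * (x : F) - (a : F) * (z : F)) * σ⁻¹ ∈ V.toSubring) :
    ∀ x ∈ n, ∃ s : B, s ∉ n ∧ ∃ a : B,
      V.valuation ((s : F) * (x : F) - (a : F) * (z : F)) < 1 := by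
  intro x hx
  obtain ⟨s, hs, a, ha⟩ := hz x hx
  refine ⟨s, hs, a, ld55_mV_of_div V σ _ hσV hσinv ?_⟩
  rw [mul_comm]
  exact ha

/-- The local divisor `z` of `tl71_DivAt π B V V' V'' n` at a point `n` of the branch `V` lies
in `n` and is a unit of `V'` and of `V''`. -/
theorem bg76_off_of_divAt (π : R) (B : Subalgebra R F) (V V' V'' : ValuationSubring F)
    (hπV : (algebraMap R F π)⁻¹ ∉ V)
    (n : Ideal B) [hn : n.IsPrime] (hOn : sf79_OnBr π B V.toSubring n)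
    (hD : tl71_DivAt π B V.toSubring V'.toSubring V''.toSubring n) :
    ∃ t : B, t ∈ n ∧ ¬ V'.valuation (t : F) < 1 ∧ ¬ V''.valuation (t : F) < 1 := by
  obtain ⟨z, c, t, ht, hzc, hz1, -, hz', hz''⟩ := hD
  have hπ0 : algebraMap R F π ≠ 0 := by
    intro h0
    apply hπV
    rw [h0, inv_zero]
    exact zero_mem _
  have hz0 : (z : F) ≠ 0 := by
    intro h0
    have h1 : ((z * c : B) : F) = ((t * algebraMap R B π : B) : F) := by rw [hzc]
    push_cast at h1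
    rw [h0, zero_mul] at h1
    have ht0 : (t : F) ≠ 0 := by
      intro h
      apply ht
      have e0 : t = 0 := Subtype.ext h
      rw [e0]
      exact n.zero_mem
    have h2 : (t : F) * algebraMap R F π = 0 := by
      rw [h1]
    rcases mul_eq_zero.mp h2 with h | h
    · exact ht0 h
    · exact hπ0 h
  have key : ∀ W : ValuationSubring F, (z : F)⁻¹ ∈ W → ¬ W.valuation (z : F) < 1 := by
    intro W hW hlt
    have h1 : W.valuation ((z : F)⁻¹) ≤ 1 := (ValuationSubring.valuation_le_one_iff W _).mpr hW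
    have h2 : W.valuation ((z : F) * (z : F)⁻¹) < 1 := by
      rw [map_mul]
      exact lt_of_le_of_lt (mul_le_of_le_one_right' h1) hlt
    rw [mul_inv_cancel₀ hz0, map_one] at h2
    exact lt_irrefl _ h2
  exact ⟨z, hOn z hz1, key V' hz', key V'' hz''⟩

/-- **The three branch root lifts at a triple point**: literally the three lift clauses of
`hp53_TripleData` / `hp3x77_TripleData` at a closed point `n` on the three branches, from the
2-generation clause of `tl71_TwoGen` at `n`, the (3a) coordinates of the three branches at `n`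
(`sf79_Unif` for `V₁`, `V₃`; the clause of `tl71_MidSmooth` for `V₂`) and the local divisors
`tl71_DivAt` of `V₁` and `V₃` at `n` (hypotheses `hD₁`, `hD₃` of `tl71_twoGen`).  No generator of
the middle branch is asked for. -/
theorem bg76_three_lifts (π : R) (σ : F) (B : Subalgebra R F) [IsNoetherianRing B]
    (V₁ V₂ V₃ : ValuationSubring F)
    (hBV₁ : ∀ x ∈ B, x ∈ V₁) (hBV₂ : ∀ x ∈ B, x ∈ V₂) (hBV₃ : ∀ x ∈ B, x ∈ V₃)
    (hπ₁ : (algebraMap R F π)⁻¹ ∉ V₁) (hπ₂ : (algebraMap R F π)⁻¹ ∉ V₂)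
    (hπ₃ : (algebraMap R F π)⁻¹ ∉ V₃)
    (hrad₁ : ∀ x ∈ V₁, x⁻¹ ∉ V₁ → ∃ k : ℕ, (algebraMap R F π)⁻¹ * x ^ k ∈ V₁)
    (hrad₂ : ∀ x ∈ V₂, x⁻¹ ∉ V₂ → ∃ k : ℕ, (algebraMap R F π)⁻¹ * x ^ k ∈ V₂)
    (hrad₃ : ∀ x ∈ V₃, x⁻¹ ∉ V₃ → ∃ k : ℕ, (algebraMap R F π)⁻¹ * x ^ k ∈ V₃)
    (harch₁ : ∀ x ∈ B, x ≠ 0 → ∃ k : ℕ, (algebraMap R F π ^ k)⁻¹ * x ∉ V₁)
    (harch₂ : ∀ x ∈ B, x ≠ 0 → ∃ k : ℕ, (algebraMap R F π ^ k)⁻¹ * x ∉ V₂)
    (harch₃ : ∀ x ∈ B, x ≠ 0 → ∃ k : ℕ, (algebraMap R F π ^ k)⁻¹ * x ∉ V₃)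
    (hFrac : ∀ x : F, ∃ a ∈ B, ∃ b ∈ B, b ≠ 0 ∧ x * b = a)
    (hσV : σ ∈ V₂) (hσinv : σ⁻¹ ∉ V₂)
    (n : Ideal B) [hn : n.IsMaximal]
    (hOn₁ : sf79_OnBr π B V₁.toSubring n) (hOn₂ : sf79_OnBr π B V₂.toSubring n)
    (hOn₃ : sf79_OnBr π B V₃.toSubring n)
    (h2 : ∃ x y : B, x ∈ n ∧ y ∈ n ∧
      ∀ v ∈ n, ∃ s : B, s ∉ n ∧ ∃ a b : B, s * v = a * x + b * y)
    (hz₁ : ∃ z : B, sf79_Unif π B V₁.toSubring n z)
    (hz₂ : ∃ z : B, z ∈ n ∧ ∀ x ∈ n, ∃ s : B, s ∉ n ∧ ∃ a : B,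
      ((s : F) * (x : F) - (a : F) * (z : F)) * σ⁻¹ ∈ V₂.toSubring)
    (hz₃ : ∃ z : B, sf79_Unif π B V₃.toSubring n z)
    (hD₁ : tl71_DivAt π B V₁.toSubring V₂.toSubring V₃.toSubring n)
    (hD₃ : tl71_DivAt π B V₃.toSubring V₂.toSubring V₁.toSubring n)
    (m : ℕ) (hm0 : 0 < m) :
    (∀ c e : F, c ∈ V₁ → e ≠ 0 → e ∈ sf79_loc B n → e⁻¹ ∈ sf79_loc B n →
      V₁.valuation (c ^ m - e) < 1 → ∃ b ∈ sf79_loc B n, V₁.valuation (c - b) < 1) ∧
    (∀ c e : F, c ∈ V₂ → e ≠ 0 → e ∈ sf79_loc B n → e⁻¹ ∈ sf79_loc B n →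
      V₂.valuation (c ^ m - e) < 1 → ∃ b ∈ sf79_loc B n, V₂.valuation (c - b) < 1) ∧
    (∀ c e : F, c ∈ V₃ → e ≠ 0 → e ∈ sf79_loc B n → e⁻¹ ∈ sf79_loc B n →
      V₃.valuation (c ^ m - e) < 1 → ∃ b ∈ sf79_loc B n, V₃.valuation (c - b) < 1) := by
  have hnp : n.IsPrime := hn.isPrime
  obtain ⟨t₁, ht₁n, ht₁2, ht₁3⟩ := bg76_off_of_divAt π B V₁ V₂ V₃ hπ₁ n hOn₁ hD₁
  obtain ⟨t₃, ht₃n, ht₃2, ht₃1⟩ := bg76_off_of_divAt π B V₃ V₂ V₁ hπ₃ n hOn₃ hD₃
  obtain ⟨z₁, hz₁⟩ := hz₁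
  obtain ⟨z₂, hz₂n, hz₂⟩ := hz₂
  obtain ⟨z₃, hz₃⟩ := hz₃
  obtain ⟨hz₁n, hz₁'⟩ := bg76_coord_red π B V₁ hBV₁ hπ₁ n z₁ hz₁
  obtain ⟨hz₃n, hz₃'⟩ := bg76_coord_red π B V₃ hBV₃ hπ₃ n z₃ hz₃
  have hz₂' := bg76_coord_mid σ B V₂ hσV hσinv n z₂ hz₂
  exact ⟨bg76_lift_onBr π B V₁ hBV₁ hπ₁ hrad₁ harch₁ hFrac n hOn₁ h2 t₃ ht₃n ht₃1 z₁ hz₁n hz₁'
      m hm0,
    bg76_lift_onBr π B V₂ hBV₂ hπ₂ hrad₂ harch₂ hFrac n hOn₂ h2 t₁ ht₁n ht₁2 z₂ hz₂n hz₂' m hm0,
    bg76_lift_onBr π B V₃ hBV₃ hπ₃ hrad₃ harch₃ hFrac n hOn₃ h2 t₁ ht₁n ht₁3 z₃ hz₃n hz₃' m hm0⟩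

end Lift

end Fermat.Agent.S36
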