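import Mathlib
import Fermat.Agent.S36.BranchGen76

/-!
# S36 lab, row 633 (helper76): the three branch root lifts at EVERY triple point of a chart

`bg76_lifts_all` : ONE call giving, at every closed point `n ∋ π` of the chart `B` lying on the
three branches, the three lift clauses of `hp53_TripleData` / `hp3x77_TripleData` (conjuncts
4-6 of `hp53_TripleData`), from hypotheses which the binders of `lps9_strong_three` /
`tl71_twoGen` already hold: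

* the frame clauses `hBV i`, `hπ i`, `hrad i`, `harch i`, `hFrac` (the `ld55` / `fd85` shapes),
  `σ ∈ V₂`, `σ⁻¹ ∉ V₂`;
* `h2 : tl71_TwoGen π B` (`tg73_twoGen_level2/3`, `tg7_twoGen_level2/3`, `tg71`);
* `hS₁ hS₃ : sf79_Smooth`, `hS₂ : tl71_MidSmooth` (`sm7_three_smooth_*`);
* `hD₁`, `hD₃` : the literal hypotheses of `tl71_twoGen` (the two outputs of `tf71b_hD`).

No generator of the middle branch is needed (`bg76_gen`).  Also `bg76_onMid_of_onBr`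
(`sf79_OnBr` ⟹ `tl71_OnMid` on a thick branch, from `hrad`).
All names are prefixed `bg76_`.
-/

set_option autoImplicit false
set_option linter.style.longLine false
set_option linter.unusedVariables false
set_option linter.unusedSectionVars false

namespace Fermat.Agent.S36

open Fermat.Agent.S34 Fermat.Agent.S36.TripleLoc71

section All

variable {R F : Type*} [CommRing R] [Field F] [Algebra R F]

/-- A point of the branch `V₂` in the `sf79_OnBr` sense lies on the middle branch in the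
`tl71_OnMid` sense (`σ` a nonunit of `V₂`; thick branch allowed, via `hrad`). -/
theorem bg76_onMid_of_onBr (π : R) (σ : F) (B : Subalgebra R F) (V₂ : ValuationSubring F)
    (hrad₂ : ∀ x ∈ V₂, x⁻¹ ∉ V₂ → ∃ k : ℕ, (algebraMap R F π)⁻¹ * x ^ k ∈ V₂)
    (hσV : σ ∈ V₂) (hσinv : σ⁻¹ ∉ V₂)
    (n : Ideal B) [hn : n.IsPrime] (hOn₂ : sf79_OnBr π B V₂.toSubring n) :
    tl71_OnMid σ B V₂.toSubring n := by
  intro x hx
  apply ld55_br_le π B V₂ hrad₂ n hOn₂ x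
  apply ld55_mV_of_div V₂ σ _ hσV hσinv
  rw [mul_comm]
  exact hx

/-- **The three branch root lifts at every triple point of the chart `B`.** -/
theorem bg76_lifts_all (π : R) (σ : F) (B : Subalgebra R F) [IsNoetherianRing B]
    (V₁ V₂ V₃ : ValuationSubring F)
    (hBV₁ : ∀ x ∈ B, x ∈ V₁) (hBV₂ : ∀ x ∈ B, x ∈ V₂) (hBV₃ : ∀ x ∈ B, x ∈ V₃)
    (hπ₁ : (algebraMap R F π)⁻¹ ∉ V₁) (hπ₂ : (algebraMap R F π)⁻¹ ∉ V₂)
    (hπ₃ : (algebraMap R F π)⁻¹ ∉ V₃)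
    (hrad₁ : ∀ x ∈ V₁, x⁻¹ ∉ V₁ → ∃ k : ℕ, (algebraMap R F π)⁻¹ * x ^ k ∈ V₁)
    (hrad₂ : ∀ x ∈ V₂, x⁻¹ ∉ V₂ → ∃ k : ℕ, (algebraMap R F π)⁻¹ * x ^ k ∈ V₂)
    (hrad₃ : ∀ x ∈ V₃, x⁻¹ ∉ V₃ → ∃ k : ℕ, (algebraMap R F π)⁻¹ * x ^ k ∈ V₃)
    (harch₁ : ∀ x ∈ B, x ≠ 0 → ∃ k : ℕ, (algebraMap R F π ^ k)⁻¹ * x ∉ V₁)
    (harch₂ : ∀ x ∈ B, x ≠ 0 → ∃ k : ℕ, (algebraMap R F π ^ k)⁻¹ * x ∉ V₂)
    (harch₃ : ∀ x ∈ B, x ≠ 0 → ∃ k : ℕ, (algebraMap R F π ^ k)⁻¹ * x ∉ V₃)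
    (hFrac : ∀ x : F, ∃ a ∈ B, ∃ b ∈ B, b ≠ 0 ∧ x * b = a)
    (hσV : σ ∈ V₂) (hσinv : σ⁻¹ ∉ V₂)
    (h2 : tl71_TwoGen π B)
    (hS₁ : sf79_Smooth π B V₁.toSubring) (hS₃ : sf79_Smooth π B V₃.toSubring)
    (hS₂ : tl71_MidSmooth π σ B V₂.toSubring)
    (hD₁ : ∀ n : Ideal B, n.IsMaximal → sf79_OnBr π B V₁.toSubring n →
      (tl71_OnMid σ B V₂.toSubring n ∨ sf79_OnBr π B V₃.toSubring n) →
      tl71_DivAt π B V₁.toSubring V₂.toSubring V₃.toSubring n)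
    (hD₃ : ∀ n : Ideal B, n.IsMaximal → sf79_OnBr π B V₃.toSubring n →
      (tl71_OnMid σ B V₂.toSubring n ∨ sf79_OnBr π B V₁.toSubring n) →
      tl71_DivAt π B V₃.toSubring V₂.toSubring V₁.toSubring n)
    (m : ℕ) (hm0 : 0 < m)
    (n : Ideal B) (hn : n.IsMaximal) (hπn : algebraMap R B π ∈ n)
    (hOn₁ : sf79_OnBr π B V₁.toSubring n) (hOn₂ : sf79_OnBr π B V₂.toSubring n)
    (hOn₃ : sf79_OnBr π B V₃.toSubring n) :
    haveI := hn.isPrime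
    (∀ c e : F, c ∈ V₁ → e ≠ 0 → e ∈ sf79_loc B n → e⁻¹ ∈ sf79_loc B n →
      V₁.valuation (c ^ m - e) < 1 → ∃ b ∈ sf79_loc B n, V₁.valuation (c - b) < 1) ∧
    (∀ c e : F, c ∈ V₂ → e ≠ 0 → e ∈ sf79_loc B n → e⁻¹ ∈ sf79_loc B n →
      V₂.valuation (c ^ m - e) < 1 → ∃ b ∈ sf79_loc B n, V₂.valuation (c - b) < 1) ∧
    (∀ c e : F, c ∈ V₃ → e ≠ 0 → e ∈ sf79_loc B n → e⁻¹ ∈ sf79_loc B n →
      V₃.valuation (c ^ m - e) < 1 → ∃ b ∈ sf79_loc B n, V₃.valuation (c - b) < 1) := by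
  haveI hnp : n.IsPrime := hn.isPrime
  haveI := hn
  have hMid : tl71_OnMid σ B V₂.toSubring n :=
    bg76_onMid_of_onBr π σ B V₂ hrad₂ hσV hσinv n hOn₂
  exact bg76_three_lifts π σ B V₁ V₂ V₃ hBV₁ hBV₂ hBV₃ hπ₁ hπ₂ hπ₃ hrad₁ hrad₂ hrad₃
    harch₁ harch₂ harch₃ hFrac hσV hσinv n hOn₁ hOn₂ hOn₃ (h2 n hn hπn)
    (hS₁ n hn hπn hOn₁) (hS₂ n hn hπn hMid) (hS₃ n hn hπn hOn₃)
    (hD₁ n hn hOn₁ (Or.inl hMid)) (hD₃ n hn hOn₃ (Or.inl hMid)) m hm0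

end All

end Fermat.Agent.S36
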