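import Fermat.Agent.S36.BranchDVR40

/-!
# S36 lab, row 625 (B3-LIFT), helper26: the branch root lift, ring form

`B` a noetherian ring (the chart), `P ≤ n` primes (the branch and the closed point), `y ∈ n ∖ P`
a local coordinate of the branch at `n` (`∀ x ∈ n, ∃ s ∉ n, ∃ a, s x - a y ∈ P`, = `sf79_Unif`
read in `B`).  Then `O = (B ⧸ P)_n` is a discrete valuation ring (`bd40_exists_dvr`, helper40),
hence integrally closed in the fraction field of `B ⧸ P`:

`gbl26_lift`: if `a, t ∈ B`, `t ∉ P`, and `s * a ^ m - e * t ^ m ∈ P` with `s, e ∉ n`, `0 < m`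
(the fraction `a / t` has an `m`-th power which is a unit of `O`), then
`a * s₁ - b * t ∈ P` for some `b ∈ B`, `s₁ ∉ n` (the fraction `a / t` lies in `O`).
-/

set_option autoImplicit false

namespace Fermat.Agent.S36

universe u

/-- Descent on the power of the uniformiser. -/
theorem gbl26_descent {B : Type u} [CommRing B] (P n : Ideal B)
    [hn : n.IsPrime] (y : B)
    (hunif : ∀ x ∈ n, ∃ s : B, s ∉ n ∧ ∃ a : B, s * x - a * y ∈ P)
    {O : Type u} [CommRing O] [IsDomain O] (ι : B →+* O)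
    (h0 : ∀ x : B, ι x = 0 ↔ x ∈ P) (hU : ∀ s : B, IsUnit (ι s) ↔ s ∉ n)
    (hirr : Irreducible (ι y)) :
    ∀ (i : ℕ) (a t : B) (ua ut : Oˣ), ι a = ua * ι y ^ i → ι t = ut * ι y ^ i →
      ∃ b s₁ : B, s₁ ∉ n ∧ a * s₁ - b * t ∈ P := by
  intro i
  induction i with
  | zero =>
    intro a t ua ut ha ht
    have htn : t ∉ n := by
      rw [← hU, ht, pow_zero, mul_one]
      exact ut.isUnit
    refine ⟨a, t, htn, ?_⟩
    rw [sub_self]
    exact P.zero_mem
  | succ i ih =>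
    intro a t ua ut ha ht
    have hϖ0 : ι y ≠ 0 := hirr.ne_zero
    have hnu : ∀ (x : B) (ux : Oˣ), ι x = ux * ι y ^ (i + 1) → x ∈ n := by
      intro x ux hx
      by_contra hxn
      have h1 : IsUnit (ι x) := (hU x).mpr hxn
      rw [hx, pow_succ, ← mul_assoc] at h1
      exact hirr.not_isUnit (isUnit_of_mul_isUnit_right h1)
    have han : a ∈ n := hnu a ua ha
    have htn : t ∈ n := hnu t ut ht
    obtain ⟨sa, hsa, a₁, ha₁⟩ := hunif a han
    obtain ⟨st, hst, t₁, ht₁⟩ := hunif t htn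
    have hstep : ∀ (x x₁ s : B) (ux : Oˣ), s ∉ n → s * x - x₁ * y ∈ P →
        ι x = ux * ι y ^ (i + 1) → ∃ ux₁ : Oˣ, ι x₁ = ux₁ * ι y ^ i := by
      intro x x₁ s ux hs hx hxu
      obtain ⟨us, hus⟩ := (hU s).mpr hs
      refine ⟨us * ux, ?_⟩
      have h1 : ι (s * x - x₁ * y) = 0 := (h0 _).mpr hx
      rw [map_sub, map_mul, map_mul, sub_eq_zero, hxu, ← hus] at h1
      apply mul_right_cancel₀ hϖ0
      rw [← h1]
      push_cast
      ring
    obtain ⟨ua₁, hua₁⟩ := hstep a a₁ sa ua hsa ha₁ ha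
    obtain ⟨ut₁, hut₁⟩ := hstep t t₁ st ut hst ht₁ ht
    obtain ⟨b, s₁, hs₁, hb⟩ := ih a₁ t₁ ua₁ ut₁ hua₁ hut₁
    refine ⟨b * st, sa * s₁, fun h => (hn.mem_or_mem h).elim hsa hs₁, ?_⟩
    have e : a * (sa * s₁) - b * st * t =
        s₁ * (sa * a - a₁ * y) + y * (a₁ * s₁ - b * t₁) - b * (st * t - t₁ * y) := by ring
    rw [e]
    exact P.sub_mem (P.add_mem (P.mul_mem_left _ ha₁) (P.mul_mem_left _ hb))
      (P.mul_mem_left _ ht₁)

/-- **The branch root lift, ring form.** -/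
theorem gbl26_lift {B : Type u} [CommRing B] [IsNoetherianRing B] (P n : Ideal B)
    [hP : P.IsPrime] [hn : n.IsPrime] (hPn : P ≤ n) (y : B) (hyn : y ∈ n) (hyP : y ∉ P)
    (hunif : ∀ x ∈ n, ∃ s : B, s ∉ n ∧ ∃ a : B, s * x - a * y ∈ P)
    (m : ℕ) (hm : 0 < m) (a t s e : B) (ht : t ∉ P) (hs : s ∉ n) (he : e ∉ n)
    (hrel : s * a ^ m - e * t ^ m ∈ P) :
    ∃ b s₁ : B, s₁ ∉ n ∧ a * s₁ - b * t ∈ P := by
  obtain ⟨O, _, _, _, ι, h0, hU, hirr⟩ := bd40_exists_dvr P n hPn y hyn hyP hunif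
  have hιt : ι t ≠ 0 := fun h => ht ((h0 t).mp h)
  obtain ⟨us, hus⟩ := (hU s).mpr hs
  obtain ⟨ue, hue⟩ := (hU e).mpr he
  have hrel' : ι s * ι a ^ m = ι e * ι t ^ m := by
    have h1 : ι (s * a ^ m - e * t ^ m) = 0 := (h0 _).mpr hrel
    rwa [map_sub, map_mul, map_mul, map_pow, map_pow, sub_eq_zero] at h1
  have hιa : ι a ≠ 0 := by
    intro h
    rw [h, zero_pow hm.ne', mul_zero] at hrel'
    have h2 : ι e * ι t ^ m ≠ 0 := mul_ne_zero (hue ▸ ue.ne_zero) (pow_ne_zero _ hιt)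
    exact h2 hrel'.symm
  obtain ⟨i, ua, hua⟩ := IsDiscreteValuationRing.eq_unit_mul_pow_irreducible hιa hirr
  obtain ⟨j, ut, hut⟩ := IsDiscreteValuationRing.eq_unit_mul_pow_irreducible hιt hirr
  have hij : i * m = j * m := by
    apply IsDiscreteValuationRing.unit_mul_pow_congr_pow hirr hirr (us * ua ^ m) (ue * ut ^ m)
    rw [hua, hut, ← hus, ← hue] at hrel'
    push_cast
    rw [pow_mul, pow_mul]
    linear_combination hrel'
  have hij' : i = j := Nat.eq_of_mul_eq_mul_right hm hij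
  rw [← hij'] at hut
  exact gbl26_descent P n y hunif ι h0 hU hirr i a t ua ut hua hut

end Fermat.Agent.S36
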