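import Mathlib
import Fermat.Agent.S34.BranchIso99

/-!
# S36 lab, row B1-3a, sub-part `(3a)_2` (helper19): a RAMIFIED branch of a chart is the special
fibre of the chart at the good level

Ramified twin of `bi99_main` / `bi99_smoothFrom` (S34, helper99).  Setting: fields `E`
(`= F(M'')`, the good level) and `F` (`= F(q² M'')`), `ι : E →+* F`, charts `B' ⊆ E`, `B ⊆ F`,
`V' ⊇ B'` with uniformizer `q'` (the Gauss ring of the good level, `q' = π`), and a valuation-like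
overring `V ⊇ B` of `F` with uniformizer `s` which is NOT `ι q'` (for the middle component `C₂`:
`V = V₂`, `s = j(q² τ) - j(τ)`, `s ^ (q - 1) = π · unit`).  The branch ideals are
`I = {x ∈ B' | q'⁻¹ x ∈ V'}` and `p = {x ∈ B | s⁻¹ x ∈ V}`.

* `bb19_contract` : `s V ∩ ι V' ⊆ ι (q' V')` from "`q'` is a uniformizer of `V'`" and `s⁻¹ ∉ V`.
* `bb19_main` : `B` integral over `f B'`, `ι V' ⊆ V`, `ι q' ∈ s V`, residue degree one on `B`
  (`hres : ∀ x ∈ B, ∃ b ∈ V', s⁻¹ (x - ι b) ∈ V`), `B' ⧸ I` Dedekind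
  ⟹ `B ⧸ p` is a Dedekind domain, `p.comap f = I`, and `B' → B ⧸ p` is onto.
* `bb19_unif` : hence at every prime `n ⊇ p` of `B` there is `z' ∈ B'` with `f z' ∈ n` a local
  coordinate of the branch `p` at `n`, in the elementwise shape
  `∀ x ∈ n, ∃ s₀ ∉ n, ∃ a, s⁻¹ (s₀ x - a (f z')) ∈ V`   (`n B_n = (f z') B_n + p B_n`).

All names are prefixed `bb19_`.  Mathlib + S34/BranchIso99 (on main).
-/

set_option autoImplicit false

namespace Fermat.Agent.S36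

open Fermat.Agent.S34

section bb19_abs

variable {E F : Type*} [Field E] [Field F]
  {S' : Type*} [SetLike S' E] [SubringClass S' E] {S : Type*} [SetLike S F] [SubringClass S F]

/-- `s V ∩ ι V' ⊆ ι (q' V')`: if `q'` is a uniformizer of `V'`, `ι V' ⊆ V` and `s` is not a
unit of `V`, then an element of `V'` whose image is divisible by `s` in `V` is divisible by `q'`
in `V'`. -/
theorem bb19_contract (V' : Subring E) (q' : E) (ι : E →+* F) (V : Subring F) (s : F)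
    (hmax' : ∀ x ∈ V', q'⁻¹ * x ∉ V' → x⁻¹ ∈ V')
    (hV'V : ∀ x ∈ V', ι x ∈ V) (hsV : s⁻¹ ∉ V)
    (x : E) (hx : x ∈ V') (h : s⁻¹ * ι x ∈ V) : q'⁻¹ * x ∈ V' := by
  by_contra hcon
  have hxinv : x⁻¹ ∈ V' := hmax' x hx hcon
  have hx0 : x ≠ 0 := by
    intro h0
    apply hcon
    rw [h0, mul_zero]
    exact V'.zero_mem
  apply hsV
  have e : s⁻¹ = (s⁻¹ * ι x) * ι x⁻¹ := by
    rw [mul_assoc, ← map_mul, mul_inv_cancel₀ hx0, map_one, mul_one]
  rw [e]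
  exact V.mul_mem h (hV'V _ hxinv)

variable (B' : S') (V' : Subring E) (q' : E) (ι : E →+* F) (B : S) (V : Subring F)

/-- **(3a) for a ramified branch, abstract.**  The branch `B ⧸ p`, `p = B ∩ s V`, of the chart
`B` is the special fibre `B' ⧸ I` of the chart `B'`: it is a Dedekind domain, `p ∩ B' = I`, and
`B' → B ⧸ p` is onto.  (`s` is a uniformizer of `V`; `ι q' ∈ s V`; no relation `s = ι q'`.) -/
theorem bb19_main (hB'V' : ∀ x ∈ B', x ∈ V')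
    (I : Ideal B') (hI : ∀ x : B', x ∈ I ↔ q'⁻¹ * (x : E) ∈ V') [IsDedekindDomain (B' ⧸ I)]
    (hloc' : ∀ v ∈ V', ∃ a ∈ B', ∃ a' ∈ B', q'⁻¹ * a' ∉ V' ∧ a' * v = a)
    (s : F) (hBV : ∀ x ∈ B, x ∈ V) (hsV : s⁻¹ ∉ V)
    (hV : ∀ x ∈ V, s⁻¹ * x ∉ V → x⁻¹ ∈ V)
    (hV'V : ∀ x ∈ V', ι x ∈ V) (hsq : s⁻¹ * ι q' ∈ V)
    (hVV' : ∀ x ∈ V', s⁻¹ * ι x ∈ V → q'⁻¹ * x ∈ V')
    (f : B' →+* B) (hf : ∀ x : B', ((f x : B) : F) = ι (x : E)) (hint : f.IsIntegral)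
    (hres : ∀ x ∈ B, ∃ b ∈ V', s⁻¹ * (x - ι b) ∈ V)
    (p : Ideal B) (hp : ∀ x : B, x ∈ p ↔ s⁻¹ * (x : F) ∈ V) :
    IsDedekindDomain (B ⧸ p) ∧ p.comap f = I ∧ ∀ b : B, ∃ a : B', b - f a ∈ p := by
  have hpprime : p.IsPrime := nc99_branch_prime B V s hBV hsV hV p hp
  have hIprime : I.IsPrime := (Ideal.Quotient.isDomain_iff_prime I).mp inferInstance
  have hq'0 : q' ≠ 0 := by
    intro h0
    apply hIprime.ne_top
    rw [Ideal.eq_top_iff_one, hI, h0, inv_zero, zero_mul]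
    exact V'.zero_mem
  have hcomap : p.comap f = I := by
    ext x
    rw [Ideal.mem_comap, hp, hf, hI]
    constructor
    · intro h
      exact hVV' _ (hB'V' x x.2) h
    · intro h
      have e : s⁻¹ * ι (x : E) = (s⁻¹ * ι q') * ι (q'⁻¹ * (x : E)) := by
        rw [mul_assoc, ← map_mul, ← mul_assoc, mul_inv_cancel₀ hq'0, one_mul]
      rw [e]
      exact V.mul_mem hsq (hV'V _ h)
  have hfrac : ∀ b : B, ∃ a a' : B', a' ∉ I ∧ f a' * b - f a ∈ p := by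
    intro b
    obtain ⟨v, hv, hwv⟩ := hres b b.2
    obtain ⟨a, ha, a', ha', hna', hav⟩ := hloc' v hv
    refine ⟨⟨a, ha⟩, ⟨a', ha'⟩, ?_, ?_⟩
    · rw [hI]
      exact hna'
    · have h1 : s⁻¹ * (((f ⟨a', ha'⟩ : B) : F) * (b : F) - ((f ⟨a, ha⟩ : B) : F)) ∈ V := by
        rw [hf, hf]
        have h3 : s⁻¹ * (ι a' * (b : F) - ι a) = ι a' * (s⁻¹ * ((b : F) - ι v)) := by
          rw [← hav, map_mul]
          ring
        rw [h3]
        exact V.mul_mem (hV'V _ (hB'V' a' ha')) hwv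
      exact (hp _).mpr h1
  have hsurj : ∀ b : B, ∃ a : B', b - f a ∈ p :=
    na99_surj_of_integral f hint I p hcomap hfrac
  exact ⟨bi99_dedekind_of_surj f I p hcomap hsurj, hcomap, hsurj⟩

/-- **(3a) for a ramified branch, export.**  At every prime `n` of `B` containing the branch
`B ∩ s V` there is `z' ∈ B'` such that `f z'` is a local coordinate of the branch at `n`:
`n B_n = (f z') B_n + (B ∩ s V) B_n`, in the elementwise shape of the (LS) assemblers. -/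
theorem bb19_unif (hB'V' : ∀ x ∈ B', x ∈ V')
    (I : Ideal B') (hI : ∀ x : B', x ∈ I ↔ q'⁻¹ * (x : E) ∈ V') [IsDedekindDomain (B' ⧸ I)]
    (hloc' : ∀ v ∈ V', ∃ a ∈ B', ∃ a' ∈ B', q'⁻¹ * a' ∉ V' ∧ a' * v = a)
    (s : F) (hBV : ∀ x ∈ B, x ∈ V) (hsV : s⁻¹ ∉ V)
    (hV : ∀ x ∈ V, s⁻¹ * x ∉ V → x⁻¹ ∈ V)
    (hV'V : ∀ x ∈ V', ι x ∈ V) (hsq : s⁻¹ * ι q' ∈ V)
    (hVV' : ∀ x ∈ V', s⁻¹ * ι x ∈ V → q'⁻¹ * x ∈ V')
    (f : B' →+* B) (hf : ∀ x : B', ((f x : B) : F) = ι (x : E)) (hint : f.IsIntegral)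
    (hres : ∀ x ∈ B, ∃ b ∈ V', s⁻¹ * (x - ι b) ∈ V)
    (n : Ideal B) [hn : n.IsPrime] (hOn : ∀ x : B, s⁻¹ * (x : F) ∈ V → x ∈ n) :
    ∃ z' : B', f z' ∈ n ∧ ∀ x ∈ n, ∃ s₀ : B, s₀ ∉ n ∧ ∃ a : B,
      s⁻¹ * ((s₀ * x - a * f z' : B) : F) ∈ V := by
  have hp := bi99_mem_branch B V s hBV
  obtain ⟨hD, -, hsurj⟩ := bb19_main B' V' q' ι B V hB'V' I hI hloc' s hBV hsV hV hV'V hsq hVV'
    f hf hint hres (bi99_branch B V s hBV) hp
  have hpprime : (bi99_branch B V s hBV).IsPrime :=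
    nc99_branch_prime B V s hBV hsV hV _ hp
  have hpn : bi99_branch B V s hBV ≤ n := fun x hx => hOn x hx
  have : IsDedekindDomain (↥B ⧸ bi99_branch B V s hBV) := hD
  obtain ⟨z', hz'⟩ := bi99_smoothFrom B' B f (bi99_branch B V s hBV) hsurj n hpn
  have h := bi99_unif_literal B V s (bi99_branch B V s hBV) n hpn hp (f z') hz'
  exact ⟨z', h.1, h.2⟩

end bb19_abs

end Fermat.Agent.S36
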