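import Fermat.Agent.S34.BranchInf93
import Fermat.Agent.S36.BranchRam19

/-!
# S36 lab, row B1-3a, sub-part `(3a)_2` (helper19), instance: a RAMIFIED branch of a chart at
level `M` is the special fibre of the chart at the good level `M'`

Ramified twin of `bi93_surj` / `bi93_unif` (S34, helper93).  `M' ∣ M`, `V' = cm85_Vinf M'` the
Gauss valuation ring of the good level, `ι = cm15_incl K M' M hdvd`, and **`V` an ARBITRARY
valuation subring of `F(M)_K` over `V'` with a uniformizer `s`** (for S36: `M = M'' q²`,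
`V = V₂` the middle valuation, `s = j(q² τ) - j(τ)`, `s ^ (q - 1) = π · unit`).  Hypotheses on
`(V, s)`, in the literal shapes produced by `oe72_ram_main` (helper72):

* `hV'V : ∀ y ∈ V', ι y ∈ V`;
* `hsV : s⁻¹ ∉ V`, `hmaxV : ∀ x ∈ V, x⁻¹ ∉ V → s⁻¹ * x ∈ V`  (`s` is a uniformizer of `V`);
* `hsπ : s⁻¹ * π ∈ V`  (`π ∈ s V`);
* `hf1 : ∀ x ∈ V, ∃ b ∈ V', s⁻¹ * (x - ι b) ∈ V`  (residue degree one over the good level).

Results, for a chart `B' = pk15_chart R S₀` of `F(M')_K` with `S₀ ⊆ V'`, saturated in `V'`, with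
fraction field `F(M')_K` and Dedekind special fibre, and `B = pk15_chart R (ι '' S₀)`:

* `bbi19_surj` : `B = ι(B') + (B ∩ s V)`;
* `bbi19_unif` : at every prime `n` of `B` containing the branch `B ∩ s V` there is `z' ∈ B'`
  such that `z = ι z' ∈ n` is a local coordinate of the branch at `n`:
  `∀ x ∈ n, ∃ s₀ ∉ n, ∃ a ∈ B, s⁻¹ (s₀ x - a z) ∈ V`   (`n B_n = z B_n + (B ∩ s V) B_n`);
* `bbi19_dedekind` : `B ⧸ (B ∩ s V)` is a Dedekind domain (branch ideal `bi99_branch`).
-/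

set_option autoImplicit false
set_option linter.unusedSectionVars false
set_option linter.style.haveILetI false

open ModularCurve IntermediateField Polynomial

namespace Fermat.Agent.S36

open Fermat.Agent.S18 Fermat.Agent.S24 Fermat.Agent.S34

section gen

variable {R K : Type} [CommRing R] [IsDomain R] [IsDiscreteValuationRing R] [Field K] [CharZero K]
  [Algebra R K] [IsFractionRing R K]
  (M' M : ℕ) [NeZero M'] [NeZero M]
  [Algebra R ↥(modularFunctionFieldFullC K M')]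
  [IsScalarTower R K ↥(modularFunctionFieldFullC K M')]
  [Algebra R ↥(modularFunctionFieldFullC K M)]
  [IsScalarTower R K ↥(modularFunctionFieldFullC K M)]

/-- **All three outputs of `bb19_main` for the charts** `B' = pk15_chart R S₀` (good level `M'`)
and `B = pk15_chart R (ι '' S₀)` (level `M`) and an arbitrary valuation subring `V` of `F(M)_K`
over the Gauss ring of level `M'` with uniformizer `s`. -/
theorem bbi19_main (hdvd : M' ∣ M) {π : R} (hπ : Irreducible π)
    (S₀ : Set ↥(modularFunctionFieldFullC K M'))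
    (hS₀V : ∀ g ∈ S₀, g ∈ cm85_Vinf (K := K) M' hπ)
    (hsat : cm15_Sat R π S₀ (cm85_Vinf (K := K) M' hπ).toSubring)
    (hfrac : ∀ x : ↥(modularFunctionFieldFullC K M'),
      ∃ a ∈ pk15_chart R S₀, ∃ b ∈ pk15_chart R S₀, b ≠ 0 ∧ x * b = a)
    [IsDedekindDomain (pk15_chart R S₀ ⧸ Ideal.span {algebraMap R (pk15_chart R S₀) π})]
    (V : ValuationSubring ↥(modularFunctionFieldFullC K M))
    (s : ↥(modularFunctionFieldFullC K M))
    (hV'V : ∀ y ∈ cm85_Vinf (K := K) M' hπ, cm15_incl K M' M hdvd y ∈ V)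
    (hsV : s⁻¹ ∉ V) (hmaxV : ∀ x ∈ V, x⁻¹ ∉ V → s⁻¹ * x ∈ V)
    (hsπ : s⁻¹ * algebraMap R ↥(modularFunctionFieldFullC K M) π ∈ V)
    (hf1 : ∀ x ∈ V, ∃ b ∈ cm85_Vinf (K := K) M' hπ,
      s⁻¹ * (x - cm15_incl K M' M hdvd b) ∈ V) :
    (∀ x ∈ pk15_chart R ((cm15_incl K M' M hdvd) '' S₀), x ∈ V) ∧
    (∀ x ∈ pk15_chart R ((cm15_incl K M' M hdvd) '' S₀), ∃ x' ∈ pk15_chart R S₀,
      s⁻¹ * (x - cm15_incl K M' M hdvd x') ∈ V) ∧
    (∀ n : Ideal ↥(pk15_chart R ((cm15_incl K M' M hdvd) '' S₀)), n.IsPrime →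
      (∀ x : ↥(pk15_chart R ((cm15_incl K M' M hdvd) '' S₀)),
        s⁻¹ * (x : ↥(modularFunctionFieldFullC K M)) ∈ V → x ∈ n) →
      ∃ z' ∈ pk15_chart R S₀, ∃ z ∈ n,
        (z : ↥(modularFunctionFieldFullC K M)) = cm15_incl K M' M hdvd z' ∧
        ∀ x ∈ n, ∃ s₀ : ↥(pk15_chart R ((cm15_incl K M' M hdvd) '' S₀)), s₀ ∉ n ∧
          ∃ a : ↥(pk15_chart R ((cm15_incl K M' M hdvd) '' S₀)),
            s⁻¹ * ((s₀ : ↥(modularFunctionFieldFullC K M)) *
                (x : ↥(modularFunctionFieldFullC K M)) -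
              (a : ↥(modularFunctionFieldFullC K M)) *
                (z : ↥(modularFunctionFieldFullC K M))) ∈ V) := by
  classical
  let j : ↥(pk15_chart R S₀) →+* ↥(modularFunctionFieldFullC K M') :=
    (pk15_chart R S₀).val.toRingHom
  let ϖ : ↥(pk15_chart R S₀) := algebraMap R ↥(pk15_chart R S₀) π
  let ι : ↥(modularFunctionFieldFullC K M') →+* ↥(modularFunctionFieldFullC K M) :=
    (cm15_incl K M' M hdvd).toRingHom
  have hjϖ : j ϖ = algebraMap R ↥(modularFunctionFieldFullC K M') π := rfl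
  have hιϖ : ι (algebraMap R ↥(modularFunctionFieldFullC K M') π) =
      algebraMap R ↥(modularFunctionFieldFullC K M) π :=
    wi18_incl_algebraMap M' M hdvd π
  have hconv' : algebraMap R ↥(modularFunctionFieldFullC K M') π =
      algebraMap K ↥(modularFunctionFieldFullC K M') (algebraMap R K π) :=
    IsScalarTower.algebraMap_apply R K ↥(modularFunctionFieldFullC K M') π
  have hπ0' : algebraMap R ↥(modularFunctionFieldFullC K M') π ≠ 0 := by
    rw [hconv']
    intro h0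
    have h1 : algebraMap R K π = 0 :=
      (map_eq_zero (algebraMap K ↥(modularFunctionFieldFullC K M'))).mp h0
    exact hπ.ne_zero ((map_eq_zero_iff _ (IsFractionRing.injective R K)).mp h1)
  -- `B' ⊆ V'`
  have hB'V' : ∀ x ∈ pk15_chart R S₀, x ∈ (cm85_Vinf (K := K) M' hπ).toSubring := fun x hx =>
    pk15_chart_le_V (cm85_Vinf (K := K) M' hπ) (pk85_hRV M' hπ) S₀ hS₀V x hx
  have hBV' : ∀ b : ↥(pk15_chart R S₀), j b ∈ cm85_Vinf (K := K) M' hπ := fun b =>
    hB'V' b b.2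
  have hsat' : ∀ b : ↥(pk15_chart R S₀), (j ϖ)⁻¹ * j b ∈ cm85_Vinf (K := K) M' hπ →
      ∃ e : ↥(pk15_chart R S₀), b = ϖ * e := by
    intro b hb
    have h1 := hsat (b : ↥(modularFunctionFieldFullC K M')) b.2 hb
    refine ⟨⟨_, h1⟩, Subtype.ext ?_⟩
    show (b : ↥(modularFunctionFieldFullC K M')) =
      algebraMap R ↥(modularFunctionFieldFullC K M') π *
        ((algebraMap R ↥(modularFunctionFieldFullC K M') π)⁻¹ * b)
    rw [← mul_assoc, mul_inv_cancel₀ hπ0', one_mul]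
  have hfrac' : ∀ c : ↥(modularFunctionFieldFullC K M'),
      ∃ a d : ↥(pk15_chart R S₀), j d ≠ 0 ∧ c * j d = j a := by
    intro c
    obtain ⟨a, ha, d, hd, hd0, hcd⟩ := hfrac c
    exact ⟨⟨a, ha⟩, ⟨d, hd⟩, hd0, hcd⟩
  have hfracV := bi93_frac j ϖ (cm85_Vinf (K := K) M' hπ) hπ0' hBV' hsat'
    (fun y hy => wi18_arch M' hπ y hy) hfrac'
  -- `V'` is the localization of `B'` at the branch
  have hloc' : ∀ v ∈ (cm85_Vinf (K := K) M' hπ).toSubring, ∃ a ∈ pk15_chart R S₀,
      ∃ a' ∈ pk15_chart R S₀,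
        (algebraMap R ↥(modularFunctionFieldFullC K M') π)⁻¹ * a' ∉
          (cm85_Vinf (K := K) M' hπ).toSubring ∧ a' * v = a := by
    intro v hv
    obtain ⟨a, d, hd, hcd⟩ := hfracV v hv
    exact ⟨a, a.2, d, d.2, hd, by rw [mul_comm]; exact hcd⟩
  -- `π` is a uniformizer of `V'`
  have hmax' : ∀ y ∈ (cm85_Vinf (K := K) M' hπ).toSubring,
      (algebraMap R ↥(modularFunctionFieldFullC K M') π)⁻¹ * y ∉
        (cm85_Vinf (K := K) M' hπ).toSubring → y⁻¹ ∈ (cm85_Vinf (K := K) M' hπ).toSubring := by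
    intro y hy hy'
    by_contra hcon
    apply hy'
    rw [hconv']
    exact gv85_hmax (IsLocalRing.residue R) π (pk85_res_iff hπ) hπ.ne_zero _ _ y hy hcon
  have hV'V' : ∀ y ∈ (cm85_Vinf (K := K) M' hπ).toSubring, ι y ∈ V.toSubring := hV'V
  have hsq : s⁻¹ * ι (algebraMap R ↥(modularFunctionFieldFullC K M') π) ∈ V.toSubring := by
    rw [hιϖ]
    exact hsπ
  have hVV' : ∀ y ∈ (cm85_Vinf (K := K) M' hπ).toSubring, s⁻¹ * ι y ∈ V.toSubring →
      (algebraMap R ↥(modularFunctionFieldFullC K M') π)⁻¹ * y ∈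
        (cm85_Vinf (K := K) M' hπ).toSubring := fun y hy h =>
    bb19_contract (cm85_Vinf (K := K) M' hπ).toSubring _ ι V.toSubring s hmax' hV'V' hsV y hy h
  have hVs : ∀ x ∈ V.toSubring, s⁻¹ * x ∉ V.toSubring → x⁻¹ ∈ V.toSubring := by
    intro x hx h
    by_contra hcon
    exact h (hmaxV x hx hcon)
  -- `R ⊆ V` and `B ⊆ V`
  have hRV : ∀ r : R, algebraMap R ↥(modularFunctionFieldFullC K M) r ∈ V := by
    intro r
    rw [← wi18_incl_algebraMap M' M hdvd r]
    exact hV'V _ (pk85_hRV M' hπ r)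
  have hBV : ∀ x ∈ pk15_chart R ((cm15_incl K M' M hdvd) '' S₀), x ∈ V.toSubring := by
    refine pk15_chart_le_V V hRV _ ?_
    rintro _ ⟨g, hg, rfl⟩
    exact hV'V g (hS₀V g hg)
  -- the image of `B'` lies in `B`
  have himg : ∀ b' : ↥(pk15_chart R S₀), (ι.comp j) b' ∈
      pk15_chart R ((cm15_incl K M' M hdvd) '' S₀) := by
    intro b'
    obtain ⟨p, hp, hpb⟩ := (pk15_mem_chart S₀ (b' : ↥(modularFunctionFieldFullC K M'))).mp b'.2
    refine (cm15_mem_chart_image ((cm15_incl K M' M hdvd).restrictScalars R) S₀ _).mpr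
      ⟨p, hp, ?_⟩
    have h1 := Polynomial.hom_eval₂ p (algebraMap (Algebra.adjoin R S₀)
      ↥(modularFunctionFieldFullC K M')) ι (b' : ↥(modularFunctionFieldFullC K M'))
    have h2 : Polynomial.eval₂ (algebraMap (Algebra.adjoin R S₀)
        ↥(modularFunctionFieldFullC K M')) (b' : ↥(modularFunctionFieldFullC K M')) p = 0 := hpb
    rw [h2, map_zero] at h1
    exact h1.symm
  let α : ↥(pk15_chart R S₀) →+* ↥(pk15_chart R ((cm15_incl K M' M hdvd) '' S₀)) :=
    (ι.comp j).codRestrict (pk15_chart R ((cm15_incl K M' M hdvd) '' S₀)) himg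
  have hα : ∀ b' : ↥(pk15_chart R S₀),
      ((α b' : ↥(pk15_chart R ((cm15_incl K M' M hdvd) '' S₀))) :
        ↥(modularFunctionFieldFullC K M)) = ι (b' : ↥(modularFunctionFieldFullC K M')) :=
    fun _ => rfl
  -- `B` is integral over `α B'`
  have hle : Algebra.adjoin R S₀ ≤ pk15_chart R S₀ :=
    Algebra.adjoin_le fun y hy => pk15_subset_chart S₀ hy
  let θ : ↥(Algebra.adjoin R S₀) →+* ↥(pk15_chart R S₀) := (Subalgebra.inclusion hle).toRingHom
  have hint : α.IsIntegral := by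
    intro x
    obtain ⟨p0, hp0, hp0x⟩ :=
      (cm15_mem_chart_image ((cm15_incl K M' M hdvd).restrictScalars R) S₀
        (x : ↥(modularFunctionFieldFullC K M))).mp x.2
    refine ⟨p0.map θ, hp0.map θ, ?_⟩
    apply Subtype.ext
    have h1 := Polynomial.hom_eval₂ (p0.map θ) α
      (pk15_chart R ((cm15_incl K M' M hdvd) '' S₀)).val.toRingHom x
    have h2 : (pk15_chart R ((cm15_incl K M' M hdvd) '' S₀)).val.toRingHom
        (Polynomial.eval₂ α x (p0.map θ)) =
        ((Polynomial.eval₂ α x (p0.map θ) : ↥(pk15_chart R ((cm15_incl K M' M hdvd) '' S₀))) :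
          ↥(modularFunctionFieldFullC K M)) := rfl
    rw [← h2, h1, Polynomial.eval₂_map]
    exact hp0x
  -- residue degree one on `B`
  have hres : ∀ x ∈ pk15_chart R ((cm15_incl K M' M hdvd) '' S₀),
      ∃ b ∈ (cm85_Vinf (K := K) M' hπ).toSubring, s⁻¹ * (x - ι b) ∈ V.toSubring :=
    fun x hx => hf1 x (hBV x hx)
  -- the branch ideal of `B'`
  have hI : ∀ x : ↥(pk15_chart R S₀), x ∈ Ideal.span {ϖ} ↔
      (algebraMap R ↥(modularFunctionFieldFullC K M') π)⁻¹ *
        (x : ↥(modularFunctionFieldFullC K M')) ∈ (cm85_Vinf (K := K) M' hπ).toSubring := by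
    intro x
    constructor
    · intro hx
      obtain ⟨e, rfl⟩ := Ideal.mem_span_singleton'.mp hx
      have h1 : (algebraMap R ↥(modularFunctionFieldFullC K M') π)⁻¹ *
          ((e * ϖ : ↥(pk15_chart R S₀)) : ↥(modularFunctionFieldFullC K M')) =
          (e : ↥(modularFunctionFieldFullC K M')) := by
        show (algebraMap R ↥(modularFunctionFieldFullC K M') π)⁻¹ *
          ((e : ↥(modularFunctionFieldFullC K M')) *
            algebraMap R ↥(modularFunctionFieldFullC K M') π) = _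
        rw [mul_comm (e : ↥(modularFunctionFieldFullC K M')), ← mul_assoc,
          inv_mul_cancel₀ hπ0', one_mul]
      rw [h1]
      exact hB'V' e e.2
    · intro hx
      obtain ⟨e, he⟩ := hsat' x hx
      rw [he]
      exact Ideal.mul_mem_right _ _ (Ideal.mem_span_singleton_self ϖ)
  have hmain := bb19_main (pk15_chart R S₀) (cm85_Vinf (K := K) M' hπ).toSubring
    (algebraMap R ↥(modularFunctionFieldFullC K M') π) ι
    (pk15_chart R ((cm15_incl K M' M hdvd) '' S₀)) V.toSubring hB'V' (Ideal.span {ϖ}) hI hloc'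
    s hBV hsV hVs hV'V' hsq hVV' α hα hint hres
    (bi99_branch (pk15_chart R ((cm15_incl K M' M hdvd) '' S₀)) V.toSubring s hBV)
    (bi99_mem_branch (pk15_chart R ((cm15_incl K M' M hdvd) '' S₀)) V.toSubring s hBV)
  refine ⟨hBV, ?_, ?_⟩
  · intro x hx
    obtain ⟨a, ha⟩ := hmain.2.2 ⟨x, hx⟩
    exact ⟨a, a.2, ha⟩
  · intro n hn hOn
    haveI := hn
    obtain ⟨z', hz', hun⟩ := bb19_unif (pk15_chart R S₀) (cm85_Vinf (K := K) M' hπ).toSubring
      (algebraMap R ↥(modularFunctionFieldFullC K M') π) ι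
      (pk15_chart R ((cm15_incl K M' M hdvd) '' S₀)) V.toSubring hB'V' (Ideal.span {ϖ}) hI hloc'
      s hBV hsV hVs hV'V' hsq hVV' α hα hint hres n hOn
    refine ⟨z', z'.2, α z', hz', rfl, fun x hx => ?_⟩
    obtain ⟨s₀, hs₀, a, ha⟩ := hun x hx
    exact ⟨s₀, hs₀, a, ha⟩

end gen

end Fermat.Agent.S36
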