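import Fermat.Agent.S34.FrameLSInf7
import Fermat.Agent.S36.BranchRamInst19
import Fermat.Agent.S36.LocStrThree71
import Fermat.Agent.S36.OnlyBind72

/-!
# S36 lab, row B1-3a, `(3a)_2` (helper19): the middle component is smooth — literal
`tl71_MidSmooth` for the two affine charts of the Hauptmodul

* `bbg19_midSmooth_of_main` : the `unif` output of `bbi19_main` is `tl71_MidSmooth` (LocStrThree71,
  helper71) for the chart `pk15_chart R (ι '' S₀)`.
* `bbg19_midSmooth_level2/3` : `M' ∣ M`, `M'` a good level (`p₀ ∣ M'`, `M'` a unit of `R`),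
  `V` a valuation subring of `F(M)_K` over the Gauss ring of level `M'` with uniformizer `s`,
  `π ∈ s V`, residue degree one over `cm85_Vinf M'` ⟹ both charts `{h}`, `{h⁻¹}` of the
  Hauptmodul of level `p₀` at level `M` satisfy `tl71_MidSmooth π s B V`.
* `bbg19_incl_trans`, `bbg19_f1_comp` : residue degree one of `(V, s)` over level `M'` from
  residue degree one over an intermediate level `N` (`M' ∣ N ∣ M`) and `bi93_F1 M' N`.
* `bbg19_of_val` : `s⁻¹ ∉ V₂` from `v₂(s) ^ (q - 1) = v₂(π)`, `π⁻¹ ∉ V₂`.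
* `bbg19_midSmooth_sq_level2/3` : **(3a)₂ at level `M' q²`** with EXACTLY the parameters of
  `ob72_ram` / `obf72_F1` (helper72) for the third valuation: `V₂` over `cm85_Vinf (M' q)`,
  `π⁻¹ ∉ V₂`, `V₁ ≠ V₂`, `v₂(s) ^ (q - 1) = v₂(π)`.

All names are prefixed `bbg19_`.
-/

set_option autoImplicit false
set_option linter.unusedSectionVars false
set_option linter.style.haveILetI false

open ModularCurve AlgebraicCurve

namespace Fermat.Agent.S36

open Fermat.Agent.S18 Fermat.Agent.S24 Fermat.Agent.S37 Fermat.Agent.S34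
open Fermat.Agent.S36.TripleLoc71

local notation "Q̄" => AlgebraicClosure ℚ

section bbg19_gen

variable {R K : Type} [CommRing R] [IsDomain R] [IsDiscreteValuationRing R] [Field K] [CharZero K]
  [Algebra R K] [IsFractionRing R K]

/-- The `unif` statement of `bbi19_main` is the literal `tl71_MidSmooth`. -/
theorem bbg19_midSmooth_of_main {F : Type*} [Field F] [Algebra R F] (π : R) (s : F)
    (B : Subalgebra R F) (V : Subring F)
    (h : ∀ n : Ideal ↥B, n.IsPrime → (∀ x : ↥B, s⁻¹ * (x : F) ∈ V → x ∈ n) →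
      ∃ z ∈ n, ∀ x ∈ n, ∃ s₀ : ↥B, s₀ ∉ n ∧ ∃ a : ↥B,
        s⁻¹ * ((s₀ : F) * (x : F) - (a : F) * (z : F)) ∈ V) :
    tl71_MidSmooth π s B V := by
  intro n hn _ hOn
  obtain ⟨z, hz, hgen⟩ := h n hn.isPrime (fun x hx => hOn x (by rw [mul_comm]; exact hx))
  refine ⟨z, hz, fun x hx => ?_⟩
  obtain ⟨s₀, hs₀, a, ha⟩ := hgen x hx
  exact ⟨s₀, hs₀, a, by rw [mul_comm]; exact ha⟩

/-- `cm15_incl` is transitive. -/
theorem bbg19_incl_trans (M' N M : ℕ) [NeZero M'] [NeZero N] [NeZero M] (h1 : M' ∣ N)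
    (h2 : N ∣ M) (c : ↥(modularFunctionFieldFullC K M')) :
    cm15_incl K M' M (h1.trans h2) c = cm15_incl K N M h2 (cm15_incl K M' N h1 c) :=
  Subtype.ext (by
    have e1 : ((cm15_incl K M' M (h1.trans h2) c : ↥(modularFunctionFieldFullC K M)) :
        LaurentSeries K) = (c : LaurentSeries K) :=
      IntermediateField.coe_inclusion (full_degeneracyC_le K (h1.trans h2)) c
    have e2 : ((cm15_incl K N M h2 (cm15_incl K M' N h1 c) :
        ↥(modularFunctionFieldFullC K M)) : LaurentSeries K) =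
        ((cm15_incl K M' N h1 c : ↥(modularFunctionFieldFullC K N)) : LaurentSeries K) :=
      IntermediateField.coe_inclusion (full_degeneracyC_le K h2) _
    have e3 : ((cm15_incl K M' N h1 c : ↥(modularFunctionFieldFullC K N)) :
        LaurentSeries K) = (c : LaurentSeries K) :=
      IntermediateField.coe_inclusion (full_degeneracyC_le K h1) c
    rw [e1, e2, e3])

/-- **Residue degree one composes**: `(V, s)` over the Gauss ring of level `N`, and the Gauss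
ring of level `N` over that of level `M'` (`bi93_F1`), give `(V, s)` over level `M'`. -/
theorem bbg19_f1_comp (M' N M : ℕ) [NeZero M'] [NeZero N] [NeZero M]
    [Algebra R ↥(modularFunctionFieldFullC K M')]
    [IsScalarTower R K ↥(modularFunctionFieldFullC K M')]
    [Algebra R ↥(modularFunctionFieldFullC K N)]
    [IsScalarTower R K ↥(modularFunctionFieldFullC K N)]
    [Algebra R ↥(modularFunctionFieldFullC K M)]
    [IsScalarTower R K ↥(modularFunctionFieldFullC K M)]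
    (h1 : M' ∣ N) (h2 : N ∣ M) {π : R} (hπ : Irreducible π)
    (V : ValuationSubring ↥(modularFunctionFieldFullC K M))
    (s : ↥(modularFunctionFieldFullC K M))
    (hNV : ∀ y ∈ cm85_Vinf (K := K) N hπ, cm15_incl K N M h2 y ∈ V)
    (hsπ : s⁻¹ * algebraMap R ↥(modularFunctionFieldFullC K M) π ∈ V)
    (hf1 : bi93_F1 (K := K) M' N h1 hπ)
    (hf2 : ∀ x ∈ V, ∃ b ∈ cm85_Vinf (K := K) N hπ, s⁻¹ * (x - cm15_incl K N M h2 b) ∈ V) :
    ∀ x ∈ V, ∃ c ∈ cm85_Vinf (K := K) M' hπ,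
      s⁻¹ * (x - cm15_incl K M' M (h1.trans h2) c) ∈ V := by
  intro x hx
  obtain ⟨b, hb, hxb⟩ := hf2 x hx
  obtain ⟨c, hc, hbc⟩ := hf1 b hb
  refine ⟨c, hc, ?_⟩
  have hconv : algebraMap R ↥(modularFunctionFieldFullC K N) π =
      algebraMap K ↥(modularFunctionFieldFullC K N) (algebraMap R K π) :=
    IsScalarTower.algebraMap_apply R K ↥(modularFunctionFieldFullC K N) π
  have hπ0 : algebraMap R ↥(modularFunctionFieldFullC K N) π ≠ 0 := by
    rw [hconv]
    intro h0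
    have h1' : algebraMap R K π = 0 :=
      (map_eq_zero (algebraMap K ↥(modularFunctionFieldFullC K N))).mp h0
    exact hπ.ne_zero ((map_eq_zero_iff _ (IsFractionRing.injective R K)).mp h1')
  have himg := hNV _ hbc
  have e : s⁻¹ * (x - cm15_incl K M' M (h1.trans h2) c) =
      s⁻¹ * (x - cm15_incl K N M h2 b) +
        (s⁻¹ * algebraMap R ↥(modularFunctionFieldFullC K M) π) *
          cm15_incl K N M h2 ((algebraMap R ↥(modularFunctionFieldFullC K N) π)⁻¹ *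
            (b - cm15_incl K M' N h1 c)) := by
    rw [bbg19_incl_trans M' N M h1 h2 c, ← wi18_incl_algebraMap N M h2 π, mul_assoc, ← map_mul,
      ← mul_assoc (algebraMap R ↥(modularFunctionFieldFullC K N) π), mul_inv_cancel₀ hπ0, one_mul,
      map_sub]
    ring
  rw [e]
  exact V.add_mem _ _ hxb (V.mul_mem _ _ hsπ himg)

/-- `s` is not a unit of `V₂` when `v₂(s) ^ e = v₂(π)` and `π⁻¹ ∉ V₂`. -/
theorem bbg19_of_val {F : Type*} [Field F] (V₂ : ValuationSubring F) (ϖ s : F) (e : ℕ)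
    (hϖ : ϖ⁻¹ ∉ V₂) (hs : V₂.valuation s ^ e = V₂.valuation ϖ) : s⁻¹ ∉ V₂ := by
  intro h
  apply hϖ
  rw [← V₂.valuation_le_one_iff, map_inv₀, ← hs, ← inv_pow, ← map_inv₀, ← map_pow,
    V₂.valuation_le_one_iff]
  exact pow_mem h e

variable [Algebra K Q̄] [Algebra.IsAlgebraic K Q̄]

/-- **(3a)₂, level 2**: both affine charts of `h = pk85_h2 K M` at level `M` are smooth along a
valuation subring `V` of `F(M)_K` with uniformizer `s`, of residue degree one over the Gauss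
ring of the good level `M'`. -/
theorem bbg19_midSmooth_level2 (M' M : ℕ) [NeZero M'] [NeZero M]
    [Algebra R ↥(modularFunctionFieldFullC K M')]
    [IsScalarTower R K ↥(modularFunctionFieldFullC K M')]
    [Algebra R ↥(modularFunctionFieldFullC K M)]
    [IsScalarTower R K ↥(modularFunctionFieldFullC K M)]
    (hdvd : M' ∣ M) {π : R} (hπ : Irreducible π) (h2 : 2 ∣ M') (hMu : IsUnit (M' : R))
    (V : ValuationSubring ↥(modularFunctionFieldFullC K M))
    (s : ↥(modularFunctionFieldFullC K M))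
    (hV'V : ∀ y ∈ cm85_Vinf (K := K) M' hπ, cm15_incl K M' M hdvd y ∈ V)
    (hsV : s⁻¹ ∉ V) (hmaxV : ∀ x ∈ V, x⁻¹ ∉ V → s⁻¹ * x ∈ V)
    (hsπ : s⁻¹ * algebraMap R ↥(modularFunctionFieldFullC K M) π ∈ V)
    (hf1 : ∀ x ∈ V, ∃ b ∈ cm85_Vinf (K := K) M' hπ,
      s⁻¹ * (x - cm15_incl K M' M hdvd b) ∈ V) :
    tl71_MidSmooth π s (pk15_chart R {pk85_h2 K M (h2.trans hdvd)}) V.toSubring ∧
      tl71_MidSmooth π s (pk15_chart R {(pk85_h2 K M (h2.trans hdvd))⁻¹}) V.toSubring := by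
  obtain ⟨-, -, -, -, hhV, hhV', -, -, -, -, hfrac₁, hfrac₂, -⟩ :=
    cm85_facts_level2 (R := R) (K := K) M' hπ h2
  obtain ⟨hs₁, hs₂, -⟩ := cm15_base_sat_level2 (R := R) (K := K) M' hπ h2 hMu
  obtain ⟨⟨hD₁, -⟩, ⟨hD₂, -⟩⟩ := sm79_level2 (R := R) K M' hπ hMu h2
  have hh : cm15_incl K M' M hdvd (pk85_h2 K M' h2) = pk85_h2 K M (h2.trans hdvd) :=
    Subtype.ext (cm15_incl_coe M' M hdvd _)
  haveI : IsDedekindDomain (↥(pk15_chart R ({pk85_h2 K M' h2} :
      Set ↥(modularFunctionFieldFullC K M'))) ⧸ Ideal.span {algebraMap R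
        ↥(pk15_chart R ({pk85_h2 K M' h2} : Set ↥(modularFunctionFieldFullC K M'))) π}) := hD₁
  haveI : IsDedekindDomain (↥(pk15_chart R ({(pk85_h2 K M' h2)⁻¹} :
      Set ↥(modularFunctionFieldFullC K M'))) ⧸ Ideal.span {algebraMap R
        ↥(pk15_chart R ({(pk85_h2 K M' h2)⁻¹} : Set ↥(modularFunctionFieldFullC K M'))) π}) :=
    hD₂
  have k₁ := (bbi19_main M' M hdvd hπ ({pk85_h2 K M' h2} : Set ↥(modularFunctionFieldFullC K M'))
    (fun g hg => by rw [Set.mem_singleton_iff.mp hg]; exact hhV) hs₁ hfrac₁ V s hV'V hsV hmaxV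
    hsπ hf1).2.2
  have k₂ := (bbi19_main M' M hdvd hπ
    ({(pk85_h2 K M' h2)⁻¹} : Set ↥(modularFunctionFieldFullC K M'))
    (fun g hg => by rw [Set.mem_singleton_iff.mp hg]; exact hhV') hs₂ hfrac₂ V s hV'V hsV hmaxV
    hsπ hf1).2.2
  rw [Set.image_singleton, hh] at k₁
  rw [Set.image_singleton, map_inv₀, hh] at k₂
  refine ⟨bbg19_midSmooth_of_main π s _ _ fun n hn hOn => ?_,
    bbg19_midSmooth_of_main π s _ _ fun n hn hOn => ?_⟩
  · obtain ⟨z', -, z, hz, -, hgen⟩ := k₁ n hn hOn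
    exact ⟨z, hz, hgen⟩
  · obtain ⟨z', -, z, hz, -, hgen⟩ := k₂ n hn hOn
    exact ⟨z, hz, hgen⟩

/-- **(3a)₂, level 3**. -/
theorem bbg19_midSmooth_level3 (M' M : ℕ) [NeZero M'] [NeZero M]
    [Algebra R ↥(modularFunctionFieldFullC K M')]
    [IsScalarTower R K ↥(modularFunctionFieldFullC K M')]
    [Algebra R ↥(modularFunctionFieldFullC K M)]
    [IsScalarTower R K ↥(modularFunctionFieldFullC K M)]
    (hdvd : M' ∣ M) {π : R} (hπ : Irreducible π) (h3 : 3 ∣ M') (hMu : IsUnit (M' : R))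
    (V : ValuationSubring ↥(modularFunctionFieldFullC K M))
    (s : ↥(modularFunctionFieldFullC K M))
    (hV'V : ∀ y ∈ cm85_Vinf (K := K) M' hπ, cm15_incl K M' M hdvd y ∈ V)
    (hsV : s⁻¹ ∉ V) (hmaxV : ∀ x ∈ V, x⁻¹ ∉ V → s⁻¹ * x ∈ V)
    (hsπ : s⁻¹ * algebraMap R ↥(modularFunctionFieldFullC K M) π ∈ V)
    (hf1 : ∀ x ∈ V, ∃ b ∈ cm85_Vinf (K := K) M' hπ,
      s⁻¹ * (x - cm15_incl K M' M hdvd b) ∈ V) :
    tl71_MidSmooth π s (pk15_chart R {pk85_h3 K M (h3.trans hdvd)}) V.toSubring ∧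
      tl71_MidSmooth π s (pk15_chart R {(pk85_h3 K M (h3.trans hdvd))⁻¹}) V.toSubring := by
  obtain ⟨-, -, -, -, hhV, hhV', -, -, -, -, hfrac₁, hfrac₂, -⟩ :=
    cm85_facts_level3 (R := R) (K := K) M' hπ h3
  obtain ⟨hs₁, hs₂, -⟩ := cm15_base_sat_level3 (R := R) (K := K) M' hπ h3 hMu
  obtain ⟨⟨hD₁, -⟩, ⟨hD₂, -⟩⟩ := sm79_level3 (R := R) K M' hπ hMu h3
  have hh : cm15_incl K M' M hdvd (pk85_h3 K M' h3) = pk85_h3 K M (h3.trans hdvd) :=
    Subtype.ext (cm15_incl_coe M' M hdvd _)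
  haveI : IsDedekindDomain (↥(pk15_chart R ({pk85_h3 K M' h3} :
      Set ↥(modularFunctionFieldFullC K M'))) ⧸ Ideal.span {algebraMap R
        ↥(pk15_chart R ({pk85_h3 K M' h3} : Set ↥(modularFunctionFieldFullC K M'))) π}) := hD₁
  haveI : IsDedekindDomain (↥(pk15_chart R ({(pk85_h3 K M' h3)⁻¹} :
      Set ↥(modularFunctionFieldFullC K M'))) ⧸ Ideal.span {algebraMap R
        ↥(pk15_chart R ({(pk85_h3 K M' h3)⁻¹} : Set ↥(modularFunctionFieldFullC K M'))) π}) :=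
    hD₂
  have k₁ := (bbi19_main M' M hdvd hπ ({pk85_h3 K M' h3} : Set ↥(modularFunctionFieldFullC K M'))
    (fun g hg => by rw [Set.mem_singleton_iff.mp hg]; exact hhV) hs₁ hfrac₁ V s hV'V hsV hmaxV
    hsπ hf1).2.2
  have k₂ := (bbi19_main M' M hdvd hπ
    ({(pk85_h3 K M' h3)⁻¹} : Set ↥(modularFunctionFieldFullC K M'))
    (fun g hg => by rw [Set.mem_singleton_iff.mp hg]; exact hhV') hs₂ hfrac₂ V s hV'V hsV hmaxV
    hsπ hf1).2.2
  rw [Set.image_singleton, hh] at k₁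
  rw [Set.image_singleton, map_inv₀, hh] at k₂
  refine ⟨bbg19_midSmooth_of_main π s _ _ fun n hn hOn => ?_,
    bbg19_midSmooth_of_main π s _ _ fun n hn hOn => ?_⟩
  · obtain ⟨z', -, z, hz, -, hgen⟩ := k₁ n hn hOn
    exact ⟨z, hz, hgen⟩
  · obtain ⟨z', -, z, hz, -, hgen⟩ := k₂ n hn hOn
    exact ⟨z, hz, hgen⟩

/-- The hypotheses of `bbg19_midSmooth_level2/3` at level `M' q²` from the parameters of
`ob72_ram` for the third valuation `V₂` (over the Gauss ring of level `M' q`). -/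
theorem bbg19_sq_hyps (M' q : ℕ) [NeZero M'] [NeZero q] (hq : q.Prime) (hM' : ¬ q ∣ M')
    [Algebra R ↥(modularFunctionFieldFullC K M')]
    [IsScalarTower R K ↥(modularFunctionFieldFullC K M')]
    [Algebra R ↥(modularFunctionFieldFullC K (M' * q))]
    [IsScalarTower R K ↥(modularFunctionFieldFullC K (M' * q))]
    [Algebra R ↥(modularFunctionFieldFullC K (M' * q * q))]
    [IsScalarTower R K ↥(modularFunctionFieldFullC K (M' * q * q))]
    {π : R} (hπ : Irreducible π) (hqR : ¬ IsUnit (q : R))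
    (V₂ : ValuationSubring ↥(modularFunctionFieldFullC K (M' * q * q)))
    (hV₂ : ∀ c ∈ cm85_Vinf (K := K) (M' * q) hπ,
      cm15_incl K (M' * q) (M' * q * q) (dvd_mul_right (M' * q) q) c ∈ V₂)
    (hπ₂ : (algebraMap R ↥(modularFunctionFieldFullC K (M' * q * q)) π)⁻¹ ∉ V₂)
    (hne : cm85_Vinf (K := K) (M' * q * q) hπ ≠ V₂)
    (s : ↥(modularFunctionFieldFullC K (M' * q * q)))
    (hs : V₂.valuation s ^ (q - 1) =
      V₂.valuation (algebraMap R ↥(modularFunctionFieldFullC K (M' * q * q)) π)) :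
    (∀ y ∈ cm85_Vinf (K := K) M' hπ, cm15_incl K M' (M' * q * q)
      ((dvd_mul_right M' q).trans (dvd_mul_right (M' * q) q)) y ∈ V₂) ∧
    s⁻¹ ∉ V₂ ∧ (∀ x ∈ V₂, x⁻¹ ∉ V₂ → s⁻¹ * x ∈ V₂) ∧
    s⁻¹ * algebraMap R ↥(modularFunctionFieldFullC K (M' * q * q)) π ∈ V₂ ∧
    (∀ x ∈ V₂, ∃ b ∈ cm85_Vinf (K := K) M' hπ, s⁻¹ * (x - cm15_incl K M' (M' * q * q)
      ((dvd_mul_right M' q).trans (dvd_mul_right (M' * q) q)) b) ∈ V₂) := by
  have e : algebraMap R ↥(modularFunctionFieldFullC K (M' * q * q)) π =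
      algebraMap K ↥(modularFunctionFieldFullC K (M' * q * q)) (algebraMap R K π) :=
    IsScalarTower.algebraMap_apply R K _ π
  have hsV : s⁻¹ ∉ V₂ := bbg19_of_val V₂ _ s (q - 1) hπ₂ hs
  have hπ₂' := hπ₂
  have hs' := hs
  rw [e] at hπ₂' hs'
  obtain ⟨-, -, h3, -, h5⟩ := ob72_ram (K := K) (M' * q) q hq (dvd_mul_left q M') hπ V₂ hV₂ hπ₂'
    hne s hs'
  have hπV : algebraMap R ↥(modularFunctionFieldFullC K (M' * q * q)) π ∈ V₂ := by
    rw [← wi18_incl_algebraMap (M' * q) (M' * q * q) (dvd_mul_right (M' * q) q) π]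
    exact hV₂ _ (pk85_hRV (M' * q) hπ π)
  have hsπ : s⁻¹ * algebraMap R ↥(modularFunctionFieldFullC K (M' * q * q)) π ∈ V₂ :=
    h3 _ hπV hπ₂
  have hV'V : ∀ y ∈ cm85_Vinf (K := K) M' hπ, cm15_incl K M' (M' * q * q)
      ((dvd_mul_right M' q).trans (dvd_mul_right (M' * q) q)) y ∈ V₂ := by
    intro y hy
    rw [bbg19_incl_trans M' (M' * q) (M' * q * q) (dvd_mul_right M' q)
      (dvd_mul_right (M' * q) q) y]
    exact hV₂ _ (wi18_incl_mem M' (M' * q) (dvd_mul_right M' q) hπ y hy)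
  refine ⟨hV'V, hsV, h3, hsπ, ?_⟩
  exact bbg19_f1_comp M' (M' * q) (M' * q * q) (dvd_mul_right M' q) (dvd_mul_right (M' * q) q) hπ
    V₂ s hV₂ hsπ (fl7_F1 (R := R) (K := K) M' q hq hM' hπ hqR) h5

/-- **(3a)₂ at level `M' q²`, level 2**: both affine charts of `h = pk85_h2 K (M' q²)` are
smooth along the middle valuation `V₂` (uniformizer `s`, `v₂(s)^(q-1) = v₂(π)`). -/
theorem bbg19_midSmooth_sq_level2 (M' q : ℕ) [NeZero M'] [NeZero q] (hq : q.Prime)
    (hM' : ¬ q ∣ M')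
    [Algebra R ↥(modularFunctionFieldFullC K M')]
    [IsScalarTower R K ↥(modularFunctionFieldFullC K M')]
    [Algebra R ↥(modularFunctionFieldFullC K (M' * q))]
    [IsScalarTower R K ↥(modularFunctionFieldFullC K (M' * q))]
    [Algebra R ↥(modularFunctionFieldFullC K (M' * q * q))]
    [IsScalarTower R K ↥(modularFunctionFieldFullC K (M' * q * q))]
    {π : R} (hπ : Irreducible π) (hqR : ¬ IsUnit (q : R)) (h2 : 2 ∣ M') (hMu : IsUnit (M' : R))
    (V₂ : ValuationSubring ↥(modularFunctionFieldFullC K (M' * q * q)))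
    (hV₂ : ∀ c ∈ cm85_Vinf (K := K) (M' * q) hπ,
      cm15_incl K (M' * q) (M' * q * q) (dvd_mul_right (M' * q) q) c ∈ V₂)
    (hπ₂ : (algebraMap R ↥(modularFunctionFieldFullC K (M' * q * q)) π)⁻¹ ∉ V₂)
    (hne : cm85_Vinf (K := K) (M' * q * q) hπ ≠ V₂)
    (s : ↥(modularFunctionFieldFullC K (M' * q * q)))
    (hs : V₂.valuation s ^ (q - 1) =
      V₂.valuation (algebraMap R ↥(modularFunctionFieldFullC K (M' * q * q)) π)) :
    tl71_MidSmooth π s (pk15_chart R {pk85_h2 K (M' * q * q)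
          (h2.trans ((dvd_mul_right M' q).trans (dvd_mul_right (M' * q) q)))}) V₂.toSubring ∧
      tl71_MidSmooth π s (pk15_chart R {(pk85_h2 K (M' * q * q)
          (h2.trans ((dvd_mul_right M' q).trans (dvd_mul_right (M' * q) q))))⁻¹})
        V₂.toSubring := by
  obtain ⟨hV'V, hsV, hmaxV, hsπ, hf1⟩ :=
    bbg19_sq_hyps M' q hq hM' hπ hqR V₂ hV₂ hπ₂ hne s hs
  exact bbg19_midSmooth_level2 M' (M' * q * q)
    ((dvd_mul_right M' q).trans (dvd_mul_right (M' * q) q)) hπ h2 hMu V₂ s hV'V hsV hmaxV hsπ hf1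

/-- **(3a)₂ at level `M' q²`, level 3**. -/
theorem bbg19_midSmooth_sq_level3 (M' q : ℕ) [NeZero M'] [NeZero q] (hq : q.Prime)
    (hM' : ¬ q ∣ M')
    [Algebra R ↥(modularFunctionFieldFullC K M')]
    [IsScalarTower R K ↥(modularFunctionFieldFullC K M')]
    [Algebra R ↥(modularFunctionFieldFullC K (M' * q))]
    [IsScalarTower R K ↥(modularFunctionFieldFullC K (M' * q))]
    [Algebra R ↥(modularFunctionFieldFullC K (M' * q * q))]
    [IsScalarTower R K ↥(modularFunctionFieldFullC K (M' * q * q))]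
    {π : R} (hπ : Irreducible π) (hqR : ¬ IsUnit (q : R)) (h3 : 3 ∣ M') (hMu : IsUnit (M' : R))
    (V₂ : ValuationSubring ↥(modularFunctionFieldFullC K (M' * q * q)))
    (hV₂ : ∀ c ∈ cm85_Vinf (K := K) (M' * q) hπ,
      cm15_incl K (M' * q) (M' * q * q) (dvd_mul_right (M' * q) q) c ∈ V₂)
    (hπ₂ : (algebraMap R ↥(modularFunctionFieldFullC K (M' * q * q)) π)⁻¹ ∉ V₂)
    (hne : cm85_Vinf (K := K) (M' * q * q) hπ ≠ V₂)
    (s : ↥(modularFunctionFieldFullC K (M' * q * q)))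
    (hs : V₂.valuation s ^ (q - 1) =
      V₂.valuation (algebraMap R ↥(modularFunctionFieldFullC K (M' * q * q)) π)) :
    tl71_MidSmooth π s (pk15_chart R {pk85_h3 K (M' * q * q)
          (h3.trans ((dvd_mul_right M' q).trans (dvd_mul_right (M' * q) q)))}) V₂.toSubring ∧
      tl71_MidSmooth π s (pk15_chart R {(pk85_h3 K (M' * q * q)
          (h3.trans ((dvd_mul_right M' q).trans (dvd_mul_right (M' * q) q))))⁻¹})
        V₂.toSubring := by
  obtain ⟨hV'V, hsV, hmaxV, hsπ, hf1⟩ :=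
    bbg19_sq_hyps M' q hq hM' hπ hqR V₂ hV₂ hπ₂ hne s hs
  exact bbg19_midSmooth_level3 M' (M' * q * q)
    ((dvd_mul_right M' q).trans (dvd_mul_right (M' * q) q)) hπ h3 hMu V₂ s hV'V hsV hmaxV hsπ hf1

end bbg19_gen

end Fermat.Agent.S36
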