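import Mathlib

/-!
S36 lab (helper24): the local algebra behind point (C2) (middle component) of the S36 lab.
Names are prefixed `c2a24_`.  Mathlib only.
-/

set_option autoImplicit false

namespace Fermat.Agent.S36

open Finset

/-- Refined binomial congruence for a prime exponent. -/
theorem c2a24_binom {R : Type*} [CommRing R] {p : ℕ} (hp : p.Prime) (x y : R) :
    ∃ r : R, (x + y) ^ p = x ^ p + y ^ p + p * y * (x ^ (p - 1) + y * r) := by
  have h := add_pow_prime_eq' hp x y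
  have hp2 := hp.two_le
  have hmem : p - 1 ∈ Ioo 0 p := by
    rw [mem_Ioo]; omega
  refine ⟨∑ k ∈ (Ioo 0 p).erase (p - 1), x ^ k * y ^ (p - k - 2) * ((p.choose k / p : ℕ) : R), ?_⟩
  rw [h, ← Finset.add_sum_erase _ _ hmem]
  have h1 : p.choose (p - 1) / p = 1 := by
    rw [Nat.choose_symm (by omega), Nat.choose_one_right]
    exact Nat.div_self hp.pos
  have h2 : p - (p - 1) = 1 := by omega
  rw [h1, h2, pow_one, Nat.cast_one, mul_one]
  have h3 : ∑ k ∈ (Ioo 0 p).erase (p - 1), x ^ k * y ^ (p - k) * ((p.choose k / p : ℕ) : R) =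
      y ^ 2 * ∑ k ∈ (Ioo 0 p).erase (p - 1), x ^ k * y ^ (p - k - 2) * ((p.choose k / p : ℕ) : R) := by
    rw [Finset.mul_sum]
    refine Finset.sum_congr rfl fun k hk => ?_
    rw [mem_erase, mem_Ioo] at hk
    have : p - k = (p - k - 2) + 2 := by omega
    rw [this, pow_add]
    have : p - k - 2 + 2 - 2 = p - k - 2 := by omega
    rw [this]
    ring
  rw [h3]
  ring

/-- The two exact identities (3) and (4). `ψ` plays the role of `Ψ(J, ·)`. -/
theorem c2a24_identity {B : Type*} [CommRing B] {q : ℕ} (hq : q.Prime) (ψ : Polynomial B)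
    (x1 J x3 γ1 γ3 : B)
    (h1 : J = x1 ^ q + q * γ1) (h3 : J = x3 ^ q + q * γ3)
    (r1 : (J ^ q - x1) * γ1 = - ψ.eval x1) (r3 : (J ^ q - x3) * γ3 = - ψ.eval x3) :
    ∃ k c : B,
      (J ^ q - x1) * (γ3 - γ1) =
        (x3 - x1) * (γ3 - ψ.derivative.eval x1 - k * (x3 - x1)) ∧
      (J ^ q - x1) * (x3 - x1) ^ q =
        q * (x3 - x1) *
          (ψ.derivative.eval x1 - γ3 - (J ^ q - x1) * x1 ^ (q - 1) + (x3 - x1) * c) := by
  obtain ⟨k, hk⟩ := Polynomial.binomExpansion ψ x1 (x3 - x1)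
  obtain ⟨r, hr⟩ := c2a24_binom hq x1 (x3 - x1)
  have hx : x1 + (x3 - x1) = x3 := by ring
  rw [hx] at hk hr
  have e3 : (J ^ q - x1) * (γ3 - γ1) =
      (x3 - x1) * (γ3 - ψ.derivative.eval x1 - k * (x3 - x1)) := by
    linear_combination r3 - r1 - hk
  refine ⟨k, k - (J ^ q - x1) * r, e3, ?_⟩
  have e2 : (x3 - x1) ^ q + q * (x3 - x1) * (x1 ^ (q - 1) + (x3 - x1) * r) = q * (γ1 - γ3) := by
    linear_combination h1 - h3 - hr
  linear_combination (J ^ q - x1) * e2 - (q : B) * e3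

/-- The unit statement: in a local domain, with `𝔭` a prime containing `q` and `s = x3 - x1`
but not `ε = J^q - x1`, if `ϑ = s^(q-1)/q` lies in the ring and the level-`q` element `w`
is a unit with `Φ_Y/q ≡ -w ε` modulo `𝔭`, then `ϑ` is a unit; so `q = s^(q-1) · unit`. -/
theorem c2a24_unit {B : Type*} [CommRing B] [IsDomain B] [IsLocalRing B]
    (𝔭 : Ideal B) [𝔭.IsPrime] {q : ℕ} (hq : q.Prime) (hq0 : (q : B) ≠ 0)
    (ψ : Polynomial B) (x1 J x3 γ1 γ3 ϑ w : B)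
    (hs0 : x3 ≠ x1)
    (h1 : J = x1 ^ q + q * γ1) (h3 : J = x3 ^ q + q * γ3)
    (r1 : (J ^ q - x1) * γ1 = - ψ.eval x1) (r3 : (J ^ q - x3) * γ3 = - ψ.eval x3)
    (hϑ : (q : B) * ϑ = (x3 - x1) ^ (q - 1))
    (hs : x3 - x1 ∈ 𝔭) (hε : J ^ q - x1 ∉ 𝔭)
    (hw : IsUnit w)
    (hwrel : ψ.derivative.eval x1 - γ1 - (J ^ q - x1) * x1 ^ (q - 1) + w * (J ^ q - x1) ∈ 𝔭) :
    IsUnit ϑ := by
  obtain ⟨k, c, e3, e4⟩ := c2a24_identity hq ψ x1 J x3 γ1 γ3 h1 h3 r1 r3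
  have hsne : x3 - x1 ≠ 0 := sub_ne_zero.mpr hs0
  -- γ3 - γ1 ∈ 𝔭
  have hγ : γ3 - γ1 ∈ 𝔭 := by
    have : (J ^ q - x1) * (γ3 - γ1) ∈ 𝔭 := by
      rw [e3]; exact 𝔭.mul_mem_right _ hs
    exact (Ideal.IsPrime.mem_or_mem inferInstance this).resolve_left hε
  -- ε ϑ = A + s c
  have hpow : (x3 - x1) ^ q = (x3 - x1) * (x3 - x1) ^ (q - 1) := by
    rw [← pow_succ']
    congr 1
    have := hq.pos
    omega
  have e5 : (J ^ q - x1) * ϑ =
      ψ.derivative.eval x1 - γ3 - (J ^ q - x1) * x1 ^ (q - 1) + (x3 - x1) * c := by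
    have hne : (q : B) * (x3 - x1) ≠ 0 := mul_ne_zero hq0 hsne
    apply mul_left_cancel₀ hne
    rw [← e4, hpow, ← hϑ]
    ring
  have e6 : (J ^ q - x1) * (ϑ + w) ∈ 𝔭 := by
    have : (J ^ q - x1) * (ϑ + w) =
        (ψ.derivative.eval x1 - γ1 - (J ^ q - x1) * x1 ^ (q - 1) + w * (J ^ q - x1))
          - (γ3 - γ1) + (x3 - x1) * c := by
      linear_combination e5
    rw [this]
    exact 𝔭.add_mem (𝔭.sub_mem hwrel hγ) (𝔭.mul_mem_right _ hs)
  have e7 : ϑ + w ∈ 𝔭 := (Ideal.IsPrime.mem_or_mem inferInstance e6).resolve_left hε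
  have hle : 𝔭 ≤ IsLocalRing.maximalIdeal B := IsLocalRing.le_maximalIdeal (Ideal.IsPrime.ne_top inferInstance)
  have e8 : ϑ + w ∈ IsLocalRing.maximalIdeal B := hle e7
  by_contra hϑu
  have hϑm : ϑ ∈ IsLocalRing.maximalIdeal B := (IsLocalRing.mem_maximalIdeal ϑ).mpr hϑu
  have hwm : w ∈ IsLocalRing.maximalIdeal B := by
    have := (IsLocalRing.maximalIdeal B).sub_mem e8 hϑm
    simpa using this
  exact (IsLocalRing.mem_maximalIdeal w).mp hwm hw

end Fermat.Agent.S36
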