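import Fermat.Agent.S36.LocStrThree71

/-!
# S36 lab (helper74), row 600: from `g ^ (q-1) ∣ π` at `n` to `tl71_MidDivAt`

The chart lemmas of row 600 (`c2b24_mid_dvd`, `c2p11_mid_dvd`, `c2x11_mid_dvd`, `c2u74_mid_dvd`,
`c2u74x_main`) all conclude `∃ c t : B, t ∉ n ∧ g ^ (q-1) * c = t * algebraMap R B π`.  The
consumer (`tl71_twoGen`, `hD₂`) asks for `tl71_MidDivAt π σ B V₁ V₂ V₃ n`.  This file is the
adapter, for a valuation subring `V₂` with uniformizer `σ` in the literal `ob72_ram` shape.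

* `c2m74_sigma_div` : `σ * g⁻¹ ∈ V₂`.
* `c2m74_midDivAt` : the adapter.
* `c2m74_hD2` : `hD₂` of `tl71_twoGen` from a pointwise generator.

All names are prefixed `c2m74_`.
-/

set_option autoImplicit false

namespace Fermat.Agent.S36

open Fermat.Agent.S34 Fermat.Agent.S36.TripleLoc71

section

variable {R F : Type*} [CommRing R] [Field F] [Algebra R F]

/-- If `g ^ (q-1) * c = t * π` in `B ⊆ V₂`, `t` a unit of `V₂`, `g σ⁻¹ ∈ V₂` and
`v₂(σ)^(q-1) = v₂(π)`, then `σ g⁻¹ ∈ V₂`. -/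
theorem c2m74_sigma_div (π : R) (σ : F) (B : Subalgebra R F) (V₂ : ValuationSubring F)
    (hB₂ : ∀ x ∈ B, x ∈ V₂) (q : ℕ) (hq : 2 ≤ q)
    (hs : V₂.valuation σ ^ (q - 1) = V₂.valuation (algebraMap R F π))
    (hπ0 : algebraMap R F π ≠ 0)
    (g c t : B) (htu : (t : F)⁻¹ ∈ V₂) (ht0 : (t : F) ≠ 0)
    (hgc : g ^ (q - 1) * c = t * algebraMap R B π) :
    σ * (g : F)⁻¹ ∈ V₂ := by
  have hq1 : q - 1 ≠ 0 := by omega
  have hgcF : (g : F) ^ (q - 1) * (c : F) = (t : F) * algebraMap R F π := by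
    have := congrArg (fun b : B => (b : F)) hgc
    simpa using this
  have hg0 : (g : F) ≠ 0 := by
    intro h
    rw [h, zero_pow hq1, zero_mul] at hgcF
    exact (mul_ne_zero ht0 hπ0) hgcF.symm
  have hvt : V₂.valuation (t : F) = 1 := by
    have h1 : V₂.valuation (t : F) ≤ 1 := (V₂.valuation_le_one_iff _).mpr (hB₂ _ t.2)
    have h2 : V₂.valuation (t : F)⁻¹ ≤ 1 := (V₂.valuation_le_one_iff _).mpr htu
    rw [map_inv₀] at h2
    have h3 : V₂.valuation (t : F) ≠ 0 := (Valuation.ne_zero_iff _).mpr ht0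
    have h4 : 1 ≤ V₂.valuation (t : F) := by
      have := (inv_le_one₀ (zero_lt_iff.mpr h3)).mp h2
      exact this
    exact le_antisymm h1 h4
  have hvc : V₂.valuation (c : F) ≤ 1 := (V₂.valuation_le_one_iff _).mpr (hB₂ _ c.2)
  have hval : V₂.valuation (g : F) ^ (q - 1) * V₂.valuation (c : F) =
      V₂.valuation σ ^ (q - 1) := by
    rw [hs, ← map_pow, ← map_mul, hgcF, map_mul, hvt, one_mul]
  have hle : V₂.valuation σ ^ (q - 1) ≤ V₂.valuation (g : F) ^ (q - 1) := by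
    rw [← hval]
    calc V₂.valuation (g : F) ^ (q - 1) * V₂.valuation (c : F)
        ≤ V₂.valuation (g : F) ^ (q - 1) * 1 := mul_le_mul' le_rfl hvc
      _ = V₂.valuation (g : F) ^ (q - 1) := mul_one _
  have hle' : V₂.valuation σ ≤ V₂.valuation (g : F) := by
    by_contra hlt
    rw [not_le] at hlt
    have := pow_lt_pow_left₀ hlt zero_le hq1
    exact (not_lt.mpr hle) this
  rw [← V₂.valuation_le_one_iff, map_mul, map_inv₀]
  have hvg : V₂.valuation (g : F) ≠ 0 := (Valuation.ne_zero_iff _).mpr hg0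
  calc V₂.valuation σ * (V₂.valuation (g : F))⁻¹
      ≤ V₂.valuation (g : F) * (V₂.valuation (g : F))⁻¹ := mul_le_mul' hle' le_rfl
    _ = 1 := mul_inv_cancel₀ hvg

/-- **Adapter.**  `g ^ (q-1) * c = t * π`, `t ∉ n`, at a point `n` of the middle branch, with
`g ∈ σ V₂` and `g` a unit along `V₁`, `V₃`, is `tl71_MidDivAt`.  `hσ` is the third clause of
`ob72_ram` (`σ` a uniformizer of `V₂`), `hs` its hypothesis. -/
theorem c2m74_midDivAt (π : R) (σ : F) (B : Subalgebra R F) (V₁ V₃ : Subring F)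
    (V₂ : ValuationSubring F) (hB₂ : ∀ x ∈ B, x ∈ V₂) (q : ℕ) (hq : 2 ≤ q)
    (hσ : ∀ x ∈ V₂, x⁻¹ ∉ V₂ → σ⁻¹ * x ∈ V₂)
    (hs : V₂.valuation σ ^ (q - 1) = V₂.valuation (algebraMap R F π))
    (hπ0 : algebraMap R F π ≠ 0)
    (n : Ideal B) (hon : tl71_OnMid σ B V₂.toSubring n)
    (g c t : B) (ht : t ∉ n) (hgc : g ^ (q - 1) * c = t * algebraMap R B π)
    (hgσ : (g : F) * σ⁻¹ ∈ V₂) (hg₁ : (g : F)⁻¹ ∈ V₁) (hg₃ : (g : F)⁻¹ ∈ V₃) :
    tl71_MidDivAt π σ B V₁ V₂.toSubring V₃ n := by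
  have ht0 : (t : F) ≠ 0 := by
    intro h
    apply ht
    have : t = 0 := Subtype.ext h
    rw [this]
    exact n.zero_mem
  have htu : (t : F)⁻¹ ∈ V₂ := by
    by_contra hninv
    apply ht
    apply hon t
    have := hσ (t : F) (hB₂ _ t.2) hninv
    rw [mul_comm]
    exact this
  have hk : q - 2 + 1 = q - 1 := by omega
  refine ⟨g, c, t, q - 2, ht, ?_, hgσ, ?_, hg₁, hg₃⟩
  · rw [hk]
    exact hgc
  · exact c2m74_sigma_div π σ B V₂ hB₂ q hq hs hπ0 g c t htu ht0 hgc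

/-- **`hD₂` of `tl71_twoGen`** from a generator at every point of the middle component only. -/
theorem c2m74_hD2 (π : R) (σ : F) (B : Subalgebra R F) (V₁ V₃ : Subring F)
    (V₂ : ValuationSubring F) (hB₂ : ∀ x ∈ B, x ∈ V₂) (q : ℕ) (hq : 2 ≤ q)
    (hσ : ∀ x ∈ V₂, x⁻¹ ∉ V₂ → σ⁻¹ * x ∈ V₂)
    (hs : V₂.valuation σ ^ (q - 1) = V₂.valuation (algebraMap R F π))
    (hπ0 : algebraMap R F π ≠ 0)
    (hpt : ∀ n : Ideal B, n.IsMaximal → algebraMap R B π ∈ n → tl71_OnMid σ B V₂.toSubring n →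
      ¬ sf79_OnBr π B V₁ n → ¬ sf79_OnBr π B V₃ n →
      ∃ g c t : B, t ∉ n ∧ g ^ (q - 1) * c = t * algebraMap R B π ∧ (g : F) * σ⁻¹ ∈ V₂ ∧
        (g : F)⁻¹ ∈ V₁ ∧ (g : F)⁻¹ ∈ V₃) :
    ∀ n : Ideal B, n.IsMaximal → algebraMap R B π ∈ n → tl71_OnMid σ B V₂.toSubring n →
      ¬ sf79_OnBr π B V₁ n → ¬ sf79_OnBr π B V₃ n → tl71_MidDivAt π σ B V₁ V₂.toSubring V₃ n := by
  intro n hmax hπn hon h1 h3
  obtain ⟨g, c, t, ht, hgc, hgσ, hg₁, hg₃⟩ := hpt n hmax hπn hon h1 h3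
  exact c2m74_midDivAt π σ B V₁ V₃ V₂ hB₂ q hq hσ hs hπ0 n hon g c t ht hgc hgσ hg₁ hg₃

end

end Fermat.Agent.S36
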