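import Fermat.Agent.S36.V2Mid64
import Fermat.Agent.S36.NormSqBeta86

/-!
# S36 lab (helper74), row 600: `s_x = x(Q^(q²)) - x(Q)` is a unit along `V₁` and `V₃`

Canonical frame binders (`V2Mid64`, `NormSqBeta86`): `R` a discrete valuation ring, `K = Frac R`,
`[Algebra K ℚ̄]`, `q` prime, `q ∤ M'`, `π` a uniformizer; `V₁ = cm85_Vinf (M' q²)`,
`V₃ = nsb86_V3 M' q hq hM' hπ`.  For `x ∈ F(M')_K` with `R`-integral expansion `xR` whose
reduction is not constant (some coefficient of index `n ≠ 0` is a unit; e.g. `θ x ≢ 0`), the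
function `s_x = β₂ (β₁ x) - α₂ (α₁ x)` and its inverse lie in `V₁` and in `V₃`
(`w₂ s_x = - s_x`).  These are the hypotheses `hg₁`, `hg₃` of `c2m74_midDivAt` for `g = s_x`.

* `c2b74_coeff_eq_zero` : `f(Q^d) = f(Q)`, `d ≥ 2` ⟹ `f` is constant.
* `c2b74_red_ne_zero` : `f(Q^(q²)) - f(Q) ≠ 0` for non-constant `f`.
* `c2b74_s_coe`, `c2b74_s_mem_V1`, `c2b74_s_inv_mem_V1`, `c2b74_w2_s`, `c2b74_s_mem_V3`,
  `c2b74_s_inv_mem_V3`, `c2b74_exists_of_theta`.

All names are prefixed `c2b74_`.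
-/

set_option autoImplicit false
set_option linter.unusedSectionVars false

open ModularCurve IntermediateField

namespace Fermat.Agent.S36

open Fermat.Agent.S18 Fermat.Agent.S24 Fermat.Agent.S28 Fermat.Agent.S37 Fermat.Agent.S34
open Fermat.Agent.S35

section c2b74_series

variable {κ : Type*} [CommRing κ]

/-- A Laurent series with `f(Q^d) = f(Q)`, `d ≥ 2`, is constant. -/
theorem c2b74_coeff_eq_zero (d : ℕ) [NeZero d] (hd : 2 ≤ d) (f : LaurentSeries κ)
    (h : qExpand κ d f = f) (n : ℤ) (hn : n ≠ 0) : f.coeff n = 0 := by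
  induction' hk : n.natAbs using Nat.strong_induction_on with k ih generalizing n
  by_cases hdvd : (d : ℤ) ∣ n
  · obtain ⟨m, rfl⟩ := hdvd
    have hm0 : m ≠ 0 := by
      rintro rfl
      exact hn (mul_zero _)
    have hlt : m.natAbs < k := by
      rw [← hk, Int.natAbs_mul, Int.natAbs_natCast]
      have hm1 : 0 < m.natAbs := Int.natAbs_pos.mpr hm0
      nlinarith
    have h1 : f.coeff ((d : ℤ) * m) = f.coeff m := by
      conv_lhs => rw [← h]
      exact qExpand_coeff_mul d f m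
    rw [h1]
    exact ih m.natAbs hlt m hm0 rfl
  · rw [← h]
    exact qExpand_coeff_of_not_dvd d f hdvd

/-- `f(Q^(q²)) - f(Q) ≠ 0` when `f` has a nonzero coefficient of index `n ≠ 0`. -/
theorem c2b74_red_ne_zero (q : ℕ) [NeZero q] (hq : 2 ≤ q) (f : LaurentSeries κ) (n : ℤ)
    (hn : n ≠ 0) (hfn : f.coeff n ≠ 0) : qExpand κ q (qExpand κ q f) - f ≠ 0 := by
  intro h0
  apply hfn
  have h1 : qExpand κ (q * q) f = f := by
    rw [← qExpand_qExpand]
    exact sub_eq_zero.mp h0
  have hd : 2 ≤ q * q := by nlinarith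
  exact c2b74_coeff_eq_zero (q * q) hd f h1 n hn

end c2b74_series

section c2b74_frame

variable {R K : Type} [CommRing R] [IsDomain R] [IsDiscreteValuationRing R] [Field K] [CharZero K]
  [Algebra R K] [IsFractionRing R K]
  (M' q : ℕ) [NeZero M'] [NeZero q]

/-- The expansion of `s_x`. -/
theorem c2b74_s_coe (x : ↥(modularFunctionFieldFullC K M')) (xR : LaurentSeries R)
    (hx : (x : LaurentSeries K) = coeffMap (algebraMap R K) xR) :
    ((al97L_beta K (M' * q) q (al97L_beta K M' q x) -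
      al97L_alpha K (M' * q) q (al97L_alpha K M' q x) :
        ↥(modularFunctionFieldFullC K (M' * q * q))) : LaurentSeries K) =
      coeffMap (algebraMap R K) (qExpand R q (qExpand R q xR) - xR) := by
  have h1 : ((al97L_beta K (M' * q) q (al97L_beta K M' q x) -
      al97L_alpha K (M' * q) q (al97L_alpha K M' q x) :
        ↥(modularFunctionFieldFullC K (M' * q * q))) : LaurentSeries K) =
      ((al97L_beta K (M' * q) q (al97L_beta K M' q x) :
        ↥(modularFunctionFieldFullC K (M' * q * q))) : LaurentSeries K) -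
      ((al97L_alpha K (M' * q) q (al97L_alpha K M' q x) :
        ↥(modularFunctionFieldFullC K (M' * q * q))) : LaurentSeries K) := rfl
  rw [h1, al97L_beta_coe, al97L_beta_coe, al97L_alpha_coe, al97L_alpha_coe, hx, map_sub,
    coeffMap_qExpand, coeffMap_qExpand]

/-- `s_x ∈ V₁`. -/
theorem c2b74_s_mem_V1 {π : R} (hπ : Irreducible π)
    (x : ↥(modularFunctionFieldFullC K M')) (xR : LaurentSeries R)
    (hx : (x : LaurentSeries K) = coeffMap (algebraMap R K) xR) :
    al97L_beta K (M' * q) q (al97L_beta K M' q x) -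
      al97L_alpha K (M' * q) q (al97L_alpha K M' q x) ∈ cm85_Vinf (K := K) (M' * q * q) hπ :=
  gv85_mem_V_of_integral _ _ _ _ _ (c2b74_s_coe M' q x xR hx)

/-- `s_x⁻¹ ∈ V₁` when the reduction of `x` is not constant. -/
theorem c2b74_s_inv_mem_V1 (hq : 2 ≤ q) {π : R} (hπ : Irreducible π)
    (x : ↥(modularFunctionFieldFullC K M')) (xR : LaurentSeries R)
    (hx : (x : LaurentSeries K) = coeffMap (algebraMap R K) xR) (n : ℤ) (hn : n ≠ 0)
    (hxn : (coeffMap (IsLocalRing.residue R) xR).coeff n ≠ 0) :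
    (al97L_beta K (M' * q) q (al97L_beta K M' q x) -
      al97L_alpha K (M' * q) q (al97L_alpha K M' q x))⁻¹ ∈
        cm85_Vinf (K := K) (M' * q * q) hπ := by
  refine v2g64_gv_inv_mem _ _ _ _ _ (c2b74_s_coe M' q x xR hx) ?_
  rw [map_sub, coeffMap_qExpand, coeffMap_qExpand]
  exact c2b74_red_ne_zero q hq _ n hn hxn

/-- A coefficient of nonzero index from `θ x̄ ≠ 0`. -/
theorem c2b74_exists_of_theta {κ : Type*} [Field κ] (f : LaurentSeries κ)
    (hθ : partC_theta f ≠ 0) : ∃ n : ℤ, n ≠ 0 ∧ f.coeff n ≠ 0 := by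
  by_contra hcon
  apply hθ
  ext n
  rw [partC_theta_coeff, HahnSeries.coeff_zero]
  by_cases hn : n = 0
  · rw [hn, Int.cast_zero, zero_mul]
  · have : f.coeff n = 0 := by
      by_contra h
      exact hcon ⟨n, hn, h⟩
    rw [this, mul_zero]

variable [Algebra K Kbar] (hq : q.Prime) (hM' : ¬ q ∣ M')

/-- `w₂ s_x = - s_x`. -/
theorem c2b74_w2_s (hL : ((M' * q * q : ℕ) : K) ≠ 0) (x : ↥(modularFunctionFieldFullC K M')) :
    als86_w2 (algebraMap K Kbar) M' q hq hM' hL
      (al97L_beta K (M' * q) q (al97L_beta K M' q x) -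
        al97L_alpha K (M' * q) q (al97L_alpha K M' q x)) =
      -(al97L_beta K (M' * q) q (al97L_beta K M' q x) -
        al97L_alpha K (M' * q) q (al97L_alpha K M' q x)) := by
  rw [map_sub, als86_w2_beta, als86_w2_alpha, al97L_w_beta_apply, al97L_w_alpha_apply, neg_sub]

/-- `s_x ∈ V₃`. -/
theorem c2b74_s_mem_V3 {π : R} (hπ : Irreducible π)
    (x : ↥(modularFunctionFieldFullC K M')) (xR : LaurentSeries R)
    (hx : (x : LaurentSeries K) = coeffMap (algebraMap R K) xR) :
    al97L_beta K (M' * q) q (al97L_beta K M' q x) -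
      al97L_alpha K (M' * q) q (al97L_alpha K M' q x) ∈ nsb86_V3 M' q hq hM' hπ := by
  rw [nsb86_mem_V3, c2b74_w2_s]
  exact neg_mem (c2b74_s_mem_V1 M' q hπ x xR hx)

/-- `s_x⁻¹ ∈ V₃` when the reduction of `x` is not constant. -/
theorem c2b74_s_inv_mem_V3 {π : R} (hπ : Irreducible π)
    (x : ↥(modularFunctionFieldFullC K M')) (xR : LaurentSeries R)
    (hx : (x : LaurentSeries K) = coeffMap (algebraMap R K) xR) (n : ℤ) (hn : n ≠ 0)
    (hxn : (coeffMap (IsLocalRing.residue R) xR).coeff n ≠ 0) :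
    (al97L_beta K (M' * q) q (al97L_beta K M' q x) -
      al97L_alpha K (M' * q) q (al97L_alpha K M' q x))⁻¹ ∈ nsb86_V3 M' q hq hM' hπ := by
  rw [nsb86_mem_V3, map_inv₀, c2b74_w2_s, inv_neg]
  exact neg_mem (c2b74_s_inv_mem_V1 M' q hq.two_le hπ x xR hx n hn hxn)

end c2b74_frame

end Fermat.Agent.S36
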