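import Fermat.Agent.S36.V2Diag74
import Fermat.Agent.S36.C2MidDiv74
import Fermat.Agent.S36.C2UnitBr74

/-!
# S36 lab (helper74), row 600: `tl71_MidDivAt` on the CANONICAL frame from a pointwise generator

Canonical frame: `R` a discrete valuation ring, `K = Frac R` (characteristic zero),
`[Algebra K ℚ̄]`, `q` prime, `q ∤ M'`, `π` a uniformizer, `q ~ π`;
`V₁ = cm85_Vinf (M' q²)`, `V₂ = v2g64_V2 (algebraMap K ℚ̄) M' q hq hM' hπ hqπ`,
`V₃ = nsb86_V3 M' q hq hM' hπ`, `σ = v2g64_s K M' q`; `B` a chart of level `M' q²` inside `V₂`.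

* `c2c74_midDivAt` : at a point `n` of the middle branch, if for some `x ∈ F(M')_K` with
  `R`-integral expansion and non-constant reduction the function
  `D_x = β₂ (β₁ x) - α₂ (α₁ x)` is (the value of) `g ∈ B` and `g ^ (q-1) * c = t * π` with
  `t ∉ n` (the conclusion of `c2b24_mid_dvd` / `c2p11_mid_dvd` / `c2x11_mid_dvd` /
  `c2u74x_main`), then `tl71_MidDivAt π σ B V₁ V₂ V₃ n`.
* `c2c74_hD2` : the quantified form, LITERALLY `hD₂` of `tg71_twoGen_of_out` /
  `tl71_twoGen` for `V₂ = v2g64_V2`.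

All names are prefixed `c2c74_`.
-/

set_option autoImplicit false
set_option linter.unusedSectionVars false

open ModularCurve IntermediateField

namespace Fermat.Agent.S36

open Fermat.Agent.S18 Fermat.Agent.S24 Fermat.Agent.S28 Fermat.Agent.S37 Fermat.Agent.S34
open Fermat.Agent.S35 Fermat.Agent.S36.TripleLoc71

section c2c74_main

variable {R K : Type} [CommRing R] [IsDomain R] [IsDiscreteValuationRing R] [Field K] [CharZero K]
  [Algebra R K] [IsFractionRing R K] [Algebra K Kbar]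
  (M' q : ℕ) [NeZero M'] [NeZero q] (hq : q.Prime) (hM' : ¬ q ∣ M')
  [Algebra R ↥(modularFunctionFieldFullC K (M' * q * q))]
  [IsScalarTower R K ↥(modularFunctionFieldFullC K (M' * q * q))]

/-- **`tl71_MidDivAt` on the canonical frame** from a pointwise generator `g = D_x`. -/
theorem c2c74_midDivAt {π : R} (hπ : Irreducible π) (hqπ : Associated ((q : ℕ) : R) π)
    (B : Subalgebra R ↥(modularFunctionFieldFullC K (M' * q * q)))
    (hB₂ : ∀ y ∈ B, y ∈ v2g64_V2 (algebraMap K Kbar) M' q hq hM' hπ hqπ)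
    (n : Ideal B)
    (hon : tl71_OnMid (v2g64_s K M' q) B
      (v2g64_V2 (algebraMap K Kbar) M' q hq hM' hπ hqπ).toSubring n)
    (x : ↥(modularFunctionFieldFullC K M')) (xR : LaurentSeries R)
    (hx : (x : LaurentSeries K) = coeffMap (algebraMap R K) xR) (m : ℤ) (hm : m ≠ 0)
    (hxm : (coeffMap (IsLocalRing.residue R) xR).coeff m ≠ 0)
    (g c t : B)
    (hg : (g : ↥(modularFunctionFieldFullC K (M' * q * q))) =
      al97L_beta K (M' * q) q (al97L_beta K M' q x) -
        al97L_alpha K (M' * q) q (al97L_alpha K M' q x))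
    (ht : t ∉ n) (hgc : g ^ (q - 1) * c = t * algebraMap R B π) :
    tl71_MidDivAt π (v2g64_s K M' q) B (cm85_Vinf (K := K) (M' * q * q) hπ).toSubring
      (v2g64_V2 (algebraMap K Kbar) M' q hq hM' hπ hqπ).toSubring
      (nsb86_V3 (K := K) M' q hq hM' hπ).toSubring n := by
  have hπeq : algebraMap R ↥(modularFunctionFieldFullC K (M' * q * q)) π =
      algebraMap K ↥(modularFunctionFieldFullC K (M' * q * q)) (algebraMap R K π) :=
    IsScalarTower.algebraMap_apply R K _ π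
  have hπ0 : algebraMap R ↥(modularFunctionFieldFullC K (M' * q * q)) π ≠ 0 := by
    rw [hπeq]
    exact (map_ne_zero _).mpr ((map_ne_zero_iff _ (IsFractionRing.injective R K)).mpr hπ.ne_zero)
  have hσ := (ob72_ram (K := K) (M' * q) q hq (dvd_mul_left q M') hπ
    (v2g64_V2 (algebraMap K Kbar) M' q hq hM' hπ hqπ)
    (v2g64_V2_alpha (algebraMap K Kbar) M' q hq hM' hπ hqπ)
    (v2g64_V2_pi (algebraMap K Kbar) M' q hq hM' hπ hqπ)
    (v2g64_V2_ne (algebraMap K Kbar) M' q hq hM' hπ hqπ) (v2g64_s K M' q)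
    (v2g64_V2_val (algebraMap K Kbar) M' q hq hM' hπ hqπ)).2.2.1
  have hs : (v2g64_V2 (algebraMap K Kbar) M' q hq hM' hπ hqπ).valuation (v2g64_s K M' q) ^ (q - 1)
      = (v2g64_V2 (algebraMap K Kbar) M' q hq hM' hπ hqπ).valuation
        (algebraMap R ↥(modularFunctionFieldFullC K (M' * q * q)) π) := by
    rw [hπeq]
    exact v2g64_V2_val (algebraMap K Kbar) M' q hq hM' hπ hqπ
  have hxV : x ∈ cm85_Vinf (K := K) M' hπ := gv85_mem_V_of_integral _ _ _ _ xR hx
  have hgσ : (g : ↥(modularFunctionFieldFullC K (M' * q * q))) * (v2g64_s K M' q)⁻¹ ∈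
      v2g64_V2 (algebraMap K Kbar) M' q hq hM' hπ hqπ := by
    rw [hg]
    exact v2d74_diag_div (K := K) M' q hq hM' hπ hqπ x hxV
  have hg₁ : (g : ↥(modularFunctionFieldFullC K (M' * q * q)))⁻¹ ∈
      cm85_Vinf (K := K) (M' * q * q) hπ := by
    rw [hg]
    exact c2b74_s_inv_mem_V1 M' q hq.two_le hπ x xR hx m hm hxm
  have hg₃ : (g : ↥(modularFunctionFieldFullC K (M' * q * q)))⁻¹ ∈
      nsb86_V3 (K := K) M' q hq hM' hπ := by
    rw [hg]
    exact c2b74_s_inv_mem_V3 M' q hq hM' hπ x xR hx m hm hxm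
  exact c2m74_midDivAt π (v2g64_s K M' q) B (cm85_Vinf (K := K) (M' * q * q) hπ).toSubring
    (nsb86_V3 (K := K) M' q hq hM' hπ).toSubring
    (v2g64_V2 (algebraMap K Kbar) M' q hq hM' hπ hqπ) hB₂ q hq.two_le hσ hs hπ0 n hon g c t ht hgc
    hgσ hg₁ hg₃

/-- **`hD₂` on the canonical frame**, literally the hypothesis of `tl71_twoGen` /
`tg71_twoGen_of_out` (with `V₂ = v2g64_V2`), from a pointwise generator `D_x`. -/
theorem c2c74_hD2 {π : R} (hπ : Irreducible π) (hqπ : Associated ((q : ℕ) : R) π)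
    (B : Subalgebra R ↥(modularFunctionFieldFullC K (M' * q * q)))
    (hB₂ : ∀ y ∈ B, y ∈ v2g64_V2 (algebraMap K Kbar) M' q hq hM' hπ hqπ)
    (hpt : ∀ n : Ideal B, n.IsMaximal → algebraMap R B π ∈ n →
      tl71_OnMid (v2g64_s K M' q) B
        (v2g64_V2 (algebraMap K Kbar) M' q hq hM' hπ hqπ).toSubring n →
      ¬ sf79_OnBr π B (cm85_Vinf (K := K) (M' * q * q) hπ).toSubring n →
      ¬ sf79_OnBr π B (nsb86_V3 (K := K) M' q hq hM' hπ).toSubring n →
      ∃ (x : ↥(modularFunctionFieldFullC K M')) (xR : LaurentSeries R) (m : ℤ) (g c t : B),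
        (x : LaurentSeries K) = coeffMap (algebraMap R K) xR ∧ m ≠ 0 ∧
        (coeffMap (IsLocalRing.residue R) xR).coeff m ≠ 0 ∧
        (g : ↥(modularFunctionFieldFullC K (M' * q * q))) =
          al97L_beta K (M' * q) q (al97L_beta K M' q x) -
            al97L_alpha K (M' * q) q (al97L_alpha K M' q x) ∧
        t ∉ n ∧ g ^ (q - 1) * c = t * algebraMap R B π) :
    ∀ n : Ideal B, n.IsMaximal → algebraMap R B π ∈ n →
      tl71_OnMid (v2g64_s K M' q) B
        (v2g64_V2 (algebraMap K Kbar) M' q hq hM' hπ hqπ).toSubring n →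
      ¬ sf79_OnBr π B (cm85_Vinf (K := K) (M' * q * q) hπ).toSubring n →
      ¬ sf79_OnBr π B (nsb86_V3 (K := K) M' q hq hM' hπ).toSubring n →
      tl71_MidDivAt π (v2g64_s K M' q) B (cm85_Vinf (K := K) (M' * q * q) hπ).toSubring
        (v2g64_V2 (algebraMap K Kbar) M' q hq hM' hπ hqπ).toSubring
        (nsb86_V3 (K := K) M' q hq hM' hπ).toSubring n := by
  intro n hmax hπn hon h1 h3
  obtain ⟨x, xR, m, g, c, t, hx, hm, hxm, hg, ht, hgc⟩ := hpt n hmax hπn hon h1 h3
  exact c2c74_midDivAt M' q hq hM' hπ hqπ B hB₂ n hon x xR hx m hm hxm g c t hg ht hgc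

end c2c74_main

end Fermat.Agent.S36
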