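import Mathlib
import Fermat.Agent.S36.C2Alg24

/-!
S36 lab (helper24): the middle component `C₂` at its one-branch closed points, chart language.

* `c2b24_generic` : in a domain `O` (application: the valuation ring `V₂`), from the two Kronecker
  relations, the element `ϑ = s^(q-1)/q` exists in `O` and `ϑ ≡ -w` modulo `s`.
* `c2b24_mid_dvd` : chart form.  `B` saturated in `V₁ ⊓ V₂ ⊓ V₃`; at a prime `n` of `B` through
  which `C₂` passes and `C₁`, `C₃` do not, if `w` is a unit at `n` then `s^(q-1)` divides `π`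
  at `n`:  `∃ c t : B, t ∉ n ∧ s^(q-1) * c = t * π`  (the hypothesis of `tl71_mid_principal`
  with `k = q - 2`).
-/

set_option autoImplicit false

namespace Fermat.Agent.S36

open Polynomial

/-- Generic (valuation-ring) form: `ϑ := s^(q-1)/q` lies in `O` and `ϑ + w ∈ s O`. -/
theorem c2b24_generic {O : Type*} [CommRing O] [IsDomain O] {q : ℕ} (hq : q.Prime)
    (ψ : Polynomial O) (x1 J x3 γ1 γ3 w e' : O) (hs0 : x3 ≠ x1)
    (h1 : J = x1 ^ q + q * γ1) (h3 : J = x3 ^ q + q * γ3)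
    (r1 : (J ^ q - x1) * γ1 = - ψ.eval x1) (r3 : (J ^ q - x3) * γ3 = - ψ.eval x3)
    (hε : (J ^ q - x1) * e' = 1)
    (hwrel : ∃ b : O, ψ.derivative.eval x1 - γ1 - (J ^ q - x1) * x1 ^ (q - 1)
      + w * (J ^ q - x1) = (x3 - x1) * b) :
    ∃ ϑ y : O, (q : O) * ϑ = (x3 - x1) ^ (q - 1) ∧ ϑ + w = (x3 - x1) * y := by
  obtain ⟨k, c, e3, e4⟩ := c2a24_identity hq ψ x1 J x3 γ1 γ3 h1 h3 r1 r3
  obtain ⟨b, hb⟩ := hwrel
  have hsne : x3 - x1 ≠ 0 := sub_ne_zero.mpr hs0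
  have hpow : (x3 - x1) ^ q = (x3 - x1) * (x3 - x1) ^ (q - 1) := by
    rw [← pow_succ']
    congr 1
    have := hq.pos
    omega
  have hεne : J ^ q - x1 ≠ 0 := by
    intro h0
    rw [h0, zero_mul] at hε
    exact zero_ne_one hε
  -- s^(q-1) = q * (A * e')
  have e5 : (q : O) * ((ψ.derivative.eval x1 - γ3 - (J ^ q - x1) * x1 ^ (q - 1)
      + (x3 - x1) * c) * e') = (x3 - x1) ^ (q - 1) := by
    have h : (J ^ q - x1) * ((x3 - x1) * (x3 - x1) ^ (q - 1)) = q * (x3 - x1) *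
        (ψ.derivative.eval x1 - γ3 - (J ^ q - x1) * x1 ^ (q - 1) + (x3 - x1) * c) := by
      rw [← hpow]; exact e4
    apply mul_left_cancel₀ (mul_ne_zero hεne hsne)
    linear_combination (q * (x3 - x1) *
        (ψ.derivative.eval x1 - γ3 - (J ^ q - x1) * x1 ^ (q - 1) + (x3 - x1) * c)) * hε - h
  refine ⟨(ψ.derivative.eval x1 - γ3 - (J ^ q - x1) * x1 ^ (q - 1) + (x3 - x1) * c) * e',
    e' * (b - (γ3 - ψ.derivative.eval x1 - k * (x3 - x1)) * e' + c), e5, ?_⟩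
  have hγ : γ3 - γ1 = (x3 - x1) * ((γ3 - ψ.derivative.eval x1 - k * (x3 - x1)) * e') := by
    linear_combination e' * e3 - (γ3 - γ1) * hε
  linear_combination e' * hb - e' * hγ - w * hε

/-- Chart form.  `B ⊆ V₁ ⊓ V₂ ⊓ V₃` saturated; `n` a prime of `B` with `C₂` through `n`
(`hp2n`) and `C₁`, `C₃` not through `n` (`a ∉ n`, `π⁻¹ a ∈ V₁ ⊓ V₃`); `ϑ = s^(q-1)/q ∈ V₂`,
`ϑ ≡ -w` modulo `s V₂`, and `w` without zero at `n` (`w * t_w = a_w`, `a_w ∉ n`).  Then `s^(q-1)` divides `π` at `n`. -/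
theorem c2b24_mid_dvd {R F : Type*} [CommRing R] [Field F] [Algebra R F]
    (π u u' : R) (huu' : u * u' = 1) (q : ℕ) (hqπ : (q : R) = u * π)
    (B : Subalgebra R F) (V₁ V₂ V₃ : Subring F)
    (hB₁ : ∀ x ∈ B, x ∈ V₁) (hB₂ : ∀ x ∈ B, x ∈ V₂) (hB₃ : ∀ x ∈ B, x ∈ V₃)
    (hsat : ∀ x ∈ B, (algebraMap R F π)⁻¹ * x ∈ V₁ → (algebraMap R F π)⁻¹ * x ∈ V₂ →
      (algebraMap R F π)⁻¹ * x ∈ V₃ → (algebraMap R F π)⁻¹ * x ∈ B)
    (hπ0 : algebraMap R F π ≠ 0)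
    (n : Ideal B) [hn : n.IsPrime]
    (s : B) (ϑ w : F)
    (hϑq : (q : F) * ϑ = (s : F) ^ (q - 1)) (hϑ₂ : ϑ ∈ V₂)
    (hcong : (ϑ + w) * (s : F)⁻¹ ∈ V₂)
    (hp2n : ∀ x : B, (x : F) * (s : F)⁻¹ ∈ V₂ → x ∈ n)
    (a : B) (ha : a ∉ n) (ha₁ : (algebraMap R F π)⁻¹ * (a : F) ∈ V₁)
    (ha₃ : (algebraMap R F π)⁻¹ * (a : F) ∈ V₃)
    (aw tw : B) (haw : aw ∉ n) (hw : w * (tw : F) = (aw : F)) :
    ∃ c t : B, t ∉ n ∧ s ^ (q - 1) * c = t * algebraMap R B π := by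
  have hqF : (q : F) = algebraMap R F u * algebraMap R F π := by
    have := congrArg (algebraMap R F) hqπ
    simpa using this
  have huF : algebraMap R F u * algebraMap R F u' = 1 := by
    rw [← map_mul, huu', map_one]
  have hu0 : algebraMap R F u ≠ 0 := left_ne_zero_of_mul_eq_one huF
  -- x0 := u' * s^(q-1) * a ∈ B and π⁻¹ x0 = ϑ * a
  have hx0B : algebraMap R F u' * (s : F) ^ (q - 1) * (a : F) ∈ B :=
    B.mul_mem (B.mul_mem (B.algebraMap_mem u') (B.pow_mem s.2 _)) a.2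
  have hval : (algebraMap R F π)⁻¹ * (algebraMap R F u' * (s : F) ^ (q - 1) * (a : F)) = ϑ * a := by
    rw [← hϑq, hqF]
    have : algebraMap R F u' * algebraMap R F u = 1 := by rw [mul_comm]; exact huF
    have hπ1 : (algebraMap R F π)⁻¹ * algebraMap R F π = 1 := inv_mul_cancel₀ hπ0
    linear_combination (algebraMap R F u' * algebraMap R F u * ϑ * (a : F)) * hπ1
      + (ϑ * (a : F)) * this
  have hV₁ : (algebraMap R F π)⁻¹ * (algebraMap R F u' * (s : F) ^ (q - 1) * (a : F)) ∈ V₁ := by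
    have : (algebraMap R F π)⁻¹ * (algebraMap R F u' * (s : F) ^ (q - 1) * (a : F))
        = algebraMap R F u' * (s : F) ^ (q - 1) * ((algebraMap R F π)⁻¹ * (a : F)) := by ring
    rw [this]
    exact V₁.mul_mem (V₁.mul_mem (hB₁ _ (B.algebraMap_mem u')) (V₁.pow_mem (hB₁ _ s.2) _)) ha₁
  have hV₃ : (algebraMap R F π)⁻¹ * (algebraMap R F u' * (s : F) ^ (q - 1) * (a : F)) ∈ V₃ := by
    have : (algebraMap R F π)⁻¹ * (algebraMap R F u' * (s : F) ^ (q - 1) * (a : F))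
        = algebraMap R F u' * (s : F) ^ (q - 1) * ((algebraMap R F π)⁻¹ * (a : F)) := by ring
    rw [this]
    exact V₃.mul_mem (V₃.mul_mem (hB₃ _ (B.algebraMap_mem u')) (V₃.pow_mem (hB₃ _ s.2) _)) ha₃
  have hV₂ : (algebraMap R F π)⁻¹ * (algebraMap R F u' * (s : F) ^ (q - 1) * (a : F)) ∈ V₂ := by
    rw [hval]
    exact V₂.mul_mem hϑ₂ (hB₂ _ a.2)
  have hϑaB : ϑ * (a : F) ∈ B := by
    rw [← hval]
    exact hsat _ hx0B hV₁ hV₂ hV₃
  -- the numerator `aϑ := ϑ * a` is not in `n`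
  set aϑ : B := ⟨ϑ * (a : F), hϑaB⟩ with haϑ
  have hsum : aϑ * tw + aw * a ∈ n := by
    apply hp2n
    have : ((aϑ * tw + aw * a : B) : F) * (s : F)⁻¹
        = ((ϑ + w) * (s : F)⁻¹) * ((a : F) * (tw : F)) := by
      push_cast
      rw [haϑ]
      simp only []
      rw [← hw]
      ring
    rw [this]
    exact V₂.mul_mem hcong (V₂.mul_mem (hB₂ _ a.2) (hB₂ _ tw.2))
  have hawa : aw * a ∉ n := fun h => (hn.mem_or_mem h).elim haw ha
  have haϑn : aϑ ∉ n := by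
    intro h
    apply hawa
    have := n.sub_mem hsum (n.mul_mem_right tw h)
    simpa using this
  refine ⟨algebraMap R B u' * a, aϑ, haϑn, Subtype.ext ?_⟩
  push_cast
  rw [haϑ]
  show (s : F) ^ (q - 1) * (algebraMap R F u' * (a : F)) = ϑ * (a : F) * algebraMap R F π
  rw [← hϑq, hqF]
  have : algebraMap R F u' * algebraMap R F u = 1 := by rw [mul_comm]; exact huF
  linear_combination (algebraMap R F π * ϑ * (a : F)) * this

end Fermat.Agent.S36
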