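import Fermat.Agent.S36.UnitW31
import Fermat.Agent.S36.LocStrThree71

/-!
# S36 lab (helper74), row 600: the CHART SIDE (B) at a `j`-regular point, with denominators

Abstract kit (`R`, `F`, `B : Subalgebra R F` integrally closed, `V₂ : ValuationSubring F`,
`n` a prime of `B` on the middle branch) producing the chart-side hypotheses
`(b, hbn, hb₂)` and `(aw, tw, haw, hwtw)` of `c2f24_prinAt_two` / `c2f24_prinAt_three` (helper24)
when the Hauptmodul values `t₁ = h(τ)`, `t₂ = h(qτ)` and `U` are NOT in `B` but are cleared by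
denominators `b, c ∉ n` (`T₁ = b t₁`, `T₂ = b t₂`, `Uc = c U` in `B`; `C2Den74`).

* `c2q74_inv_mem_V2` : `b ∉ n` ⟹ `b⁻¹ ∈ V₂`  (`hb₂`).
* `c2q74_hroot` : an integrally closed `B` is closed under `m`-th roots.
* `c2q74_frob` : `T₁ + a b ∉ n` ⟹ `T₂ + a b ∉ n`  (`t₂ ≡ t₁^q` modulo `σ V₂`, `a ∈ ℕ`).
* `c2q74_aw_two` / `c2q74_aw_three` : `w_t` has no zero at `n`: `∃ aw tw, aw ∉ n ∧ wt * tw = aw`
  from the sixth-power identity and `T₁ ∉ n`, `T₁ + 64 b ∉ n` (resp. `27`).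
* `c2q74_T1_two` / `c2q74_T1_three` : `T₁ ∉ n` at a `j`-regular point (`2 ∉ n` resp. `3 ∉ n`).
* `c2q74_cover` : `T₁ + 64 b ∉ n` or `U₁ + 27 b₃ ∉ n` when `2, 3 ∉ n` (the case split).

All names are prefixed `c2q74_`.
-/

set_option autoImplicit false

namespace Fermat.Agent.S36

open Fermat.Agent.S34 Fermat.Agent.S36.TripleLoc71

section c2q74

variable {R F : Type*} [CommRing R] [Field F] [Algebra R F]

/-- `b ∉ n`, `n` on the middle branch ⟹ `b` is a unit of `V₂`. -/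
theorem c2q74_inv_mem_V2 (B : Subalgebra R F) (V₂ : ValuationSubring F)
    (hB₂ : ∀ x ∈ B, x ∈ V₂) (σ : F) (hσ : ∀ x ∈ V₂, x⁻¹ ∉ V₂ → σ⁻¹ * x ∈ V₂)
    (n : Ideal B) (hon : tl71_OnMid σ B V₂.toSubring n) (b : B) (hb : b ∉ n) :
    (b : F)⁻¹ ∈ V₂ := by
  by_contra hninv
  apply hb
  apply hon b
  have := hσ (b : F) (hB₂ _ b.2) hninv
  rw [mul_comm]
  exact this

/-- An integrally closed subalgebra is closed under `m`-th roots. -/
theorem c2q74_hroot (B : Subalgebra R F) (hBint : ∀ z : F, IsIntegral B z → z ∈ B) (m : ℕ)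
    (hm : 0 < m) (x : F) (hx : x ^ m ∈ B) : x ∈ B := by
  apply hBint
  refine IsIntegral.of_pow hm ?_
  exact isIntegral_algebraMap (R := B) (x := ⟨x ^ m, hx⟩)

/-- **Frobenius with denominators.**  `t₂ ≡ t₁^q` modulo `σ V₂`, `q ∈ σ V₂`, `T₁ = b t₁`,
`T₂ = b t₂`: if `T₁ + a b ∉ n` then `T₂ + a b ∉ n`. -/
theorem c2q74_frob (B : Subalgebra R F) (V₂ : ValuationSubring F) (hB₂ : ∀ x ∈ B, x ∈ V₂)
    (σ : F) (n : Ideal B) [hn : n.IsPrime] (hon : tl71_OnMid σ B V₂.toSubring n)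
    (q : ℕ) (hq : q.Prime) (hqσ : (q : F) * σ⁻¹ ∈ V₂)
    (t1 t2 : F) (ht1V : t1 ∈ V₂) (hfrob : (t2 - t1 ^ q) * σ⁻¹ ∈ V₂)
    (b T1 T2 : B) (hT1 : (T1 : F) = (b : F) * t1) (hT2 : (T2 : F) = (b : F) * t2)
    (a : ℕ) (h1 : T1 + (a : B) * b ∉ n) : T2 + (a : B) * b ∉ n := by
  have hq1 : q - 1 + 1 = q := Nat.sub_add_cancel hq.pos
  -- `(t1 + a)^q = t1^q + a^q + q * t1 * a * r` inside `V₂`
  obtain ⟨r, hr⟩ := exists_add_pow_prime_eq hq (⟨t1, ht1V⟩ : V₂) ((a : ℕ) : V₂)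
  have hrF : (t1 + (a : F)) ^ q = t1 ^ q + (a : F) ^ q + (q : F) * t1 * (a : F) * (r : F) := by
    have := congrArg (fun z : V₂ => (z : F)) hr
    simpa using this
  -- `a^q - a = q * m`
  obtain ⟨m, hm⟩ : ∃ m : ℤ, ((a : ℤ) ^ q - (a : ℤ)) = (q : ℤ) * m := by
    have : Fact q.Prime := ⟨hq⟩
    have h1 : (((a : ℤ) ^ q - (a : ℤ) : ℤ) : ZMod q) = 0 := by
      push_cast
      rw [ZMod.pow_card, sub_self]
    exact (ZMod.intCast_zmod_eq_zero_iff_dvd _ q).mp h1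
  have hmF : (a : F) ^ q - (a : F) = (q : F) * (m : F) := by
    have := congrArg (fun z : ℤ => (z : F)) hm
    simpa using this
  have hmV : (m : F) ∈ V₂ := by exact_mod_cast intCast_mem V₂ m
  have haV : (a : F) ∈ V₂ := by exact_mod_cast natCast_mem V₂ a
  have hbV : (b : F) ∈ V₂ := hB₂ _ b.2
  -- the element `Y`
  have hY : b ^ (q - 1) * (T2 + (a : B) * b) - (T1 + (a : B) * b) ^ q ∈ n := by
    apply hon
    have e : ((b ^ (q - 1) * (T2 + (a : B) * b) - (T1 + (a : B) * b) ^ q : B) : F) * σ⁻¹ =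
        (b : F) ^ q * ((t2 - t1 ^ q) * σ⁻¹ - ((q : F) * σ⁻¹) * (m : F)
          - ((q : F) * σ⁻¹) * (t1 * (a : F) * (r : F))) := by
      have hbq : (b : F) ^ q = (b : F) ^ (q - 1) * (b : F) := by
        rw [← pow_succ, hq1]
      have e1 : ((b ^ (q - 1) * (T2 + (a : B) * b) - (T1 + (a : B) * b) ^ q : B) : F) =
          (b : F) ^ q * (t2 + (a : F)) - (b : F) ^ q * (t1 + (a : F)) ^ q := by
        have hx : (b : F) * t1 + (a : F) * (b : F) = (b : F) * (t1 + (a : F)) := by ring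
        push_cast
        rw [hT1, hT2, hx, mul_pow, hbq]
        ring
      rw [e1, hrF]
      linear_combination (-((b : F) ^ q * σ⁻¹)) * hmF
    rw [e]
    refine mul_mem (pow_mem hbV _) (sub_mem (sub_mem hfrob (mul_mem hqσ hmV)) ?_)
    exact mul_mem hqσ (mul_mem (mul_mem ht1V haV) r.2)
  intro h2
  apply h1
  have h3 : b ^ (q - 1) * (T2 + (a : B) * b) ∈ n := n.mul_mem_left _ h2
  have h4 : (T1 + (a : B) * b) ^ q ∈ n := by
    have := n.sub_mem h3 hY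
    simpa using this
  exact hn.mem_of_pow_mem _ h4

/-- **Level 2: `w_t` has no zero at `n`** (denominator form of `uwh31_nozero2`). -/
theorem c2q74_aw_two (B : Subalgebra R F) (hBint : ∀ z : F, IsIntegral B z → z ∈ B)
    (V₂ : ValuationSubring F) (hB₂ : ∀ x ∈ B, x ∈ V₂)
    (σ : F) (n : Ideal B) [hn : n.IsPrime] (hon : tl71_OnMid σ B V₂.toSubring n)
    (q : ℕ) (hq : q.Prime) (hqσ : (q : F) * σ⁻¹ ∈ V₂)
    (t1 t2 U wt : F) (ht1V : t1 ∈ V₂) (hfrob : (t2 - t1 ^ q) * σ⁻¹ ∈ V₂)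
    (h6 : wt ^ 6 * (t1 ^ 4 * (t1 + 64) ^ 3 * U) = t2 ^ 4 * (t2 + 64) ^ 3)
    (b T1 T2 : B) (hT1 : (T1 : F) = (b : F) * t1) (hT2 : (T2 : F) = (b : F) * t2)
    (c Uc : B) (hc : c ∉ n) (hUc : (Uc : F) = (c : F) * U)
    (hT1n : T1 ∉ n) (hT1' : T1 + 64 * b ∉ n) :
    ∃ aw tw : B, aw ∉ n ∧ wt * (tw : F) = (aw : F) := by
  have hT2n : T2 ∉ n := by
    have h0 : T1 + ((0 : ℕ) : B) * b ∉ n := by simpa using hT1n
    have := c2q74_frob B V₂ hB₂ σ n hon q hq hqσ t1 t2 ht1V hfrob b T1 T2 hT1 hT2 0 h0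
    simpa using this
  have hT2' : T2 + 64 * b ∉ n := by
    have h0 : T1 + ((64 : ℕ) : B) * b ∉ n := by simpa using hT1'
    have := c2q74_frob B V₂ hB₂ σ n hon q hq hqσ t1 t2 ht1V hfrob b T1 T2 hT1 hT2 64 h0
    simpa using this
  refine uw31_nozero B 6 (by norm_num) (c2q74_hroot B hBint 6 (by norm_num)) n wt
    (c * T2 ^ 4 * (T2 + 64 * b) ^ 3) (T1 ^ 4 * (T1 + 64 * b) ^ 3 * Uc) ?_ ?_
  · intro hmem
    rcases hn.mem_or_mem hmem with h' | h'
    · rcases hn.mem_or_mem h' with h'' | h''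
      · exact hc h''
      · exact hT2n (hn.mem_of_pow_mem _ h'')
    · exact hT2' (hn.mem_of_pow_mem _ h')
  · have h64 : ((64 : B) : F) = 64 := rfl
    push_cast
    simp only [h64]
    rw [hT1, hT2, hUc]
    linear_combination ((b : F) ^ 7 * (c : F)) * h6

/-- **Level 3: `w_t` has no zero at `n`** (denominator form of `uwh31_nozero3`). -/
theorem c2q74_aw_three (B : Subalgebra R F) (hBint : ∀ z : F, IsIntegral B z → z ∈ B)
    (V₂ : ValuationSubring F) (hB₂ : ∀ x ∈ B, x ∈ V₂)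
    (σ : F) (n : Ideal B) [hn : n.IsPrime] (hon : tl71_OnMid σ B V₂.toSubring n)
    (q : ℕ) (hq : q.Prime) (hqσ : (q : F) * σ⁻¹ ∈ V₂)
    (t1 t2 U wt : F) (ht1V : t1 ∈ V₂) (hfrob : (t2 - t1 ^ q) * σ⁻¹ ∈ V₂)
    (h6 : wt ^ 6 * (t1 ^ 3 * (t1 + 27) ^ 4 * U) = t2 ^ 3 * (t2 + 27) ^ 4)
    (b T1 T2 : B) (hT1 : (T1 : F) = (b : F) * t1) (hT2 : (T2 : F) = (b : F) * t2)
    (c Uc : B) (hc : c ∉ n) (hUc : (Uc : F) = (c : F) * U)
    (hT1n : T1 ∉ n) (hT1' : T1 + 27 * b ∉ n) :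
    ∃ aw tw : B, aw ∉ n ∧ wt * (tw : F) = (aw : F) := by
  have hT2n : T2 ∉ n := by
    have h0 : T1 + ((0 : ℕ) : B) * b ∉ n := by simpa using hT1n
    have := c2q74_frob B V₂ hB₂ σ n hon q hq hqσ t1 t2 ht1V hfrob b T1 T2 hT1 hT2 0 h0
    simpa using this
  have hT2' : T2 + 27 * b ∉ n := by
    have h0 : T1 + ((27 : ℕ) : B) * b ∉ n := by simpa using hT1'
    have := c2q74_frob B V₂ hB₂ σ n hon q hq hqσ t1 t2 ht1V hfrob b T1 T2 hT1 hT2 27 h0
    simpa using this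
  refine uw31_nozero B 6 (by norm_num) (c2q74_hroot B hBint 6 (by norm_num)) n wt
    (c * T2 ^ 3 * (T2 + 27 * b) ^ 4) (T1 ^ 3 * (T1 + 27 * b) ^ 4 * Uc) ?_ ?_
  · intro hmem
    rcases hn.mem_or_mem hmem with h' | h'
    · rcases hn.mem_or_mem h' with h'' | h''
      · exact hc h''
      · exact hT2n (hn.mem_of_pow_mem _ h'')
    · exact hT2' (hn.mem_of_pow_mem _ h')
  · have h27 : ((27 : B) : F) = 27 := rfl
    push_cast
    simp only [h27]
    rw [hT1, hT2, hUc]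
    linear_combination ((b : F) ^ 7 * (c : F)) * h6

/-- **Level 2: `T₁ ∉ n` at a `j`-regular point** (`2 ∉ n`). -/
theorem c2q74_T1_two (B : Subalgebra R F) (n : Ideal B) [hn : n.IsPrime] (J t1 : F)
    (hrel : J * t1 ^ 2 = (t1 + 256) ^ 3) (s' b' b T1 : B) (hs' : s' ∉ n)
    (hsj : (s' : F) * J = (b' : F)) (hb : b ∉ n) (hT1 : (T1 : F) = (b : F) * t1)
    (h2 : (2 : B) ∉ n) : T1 ∉ n := by
  intro hmem
  have key : b' * T1 ^ 2 * b = s' * (T1 + 256 * b) ^ 3 := by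
    have h256 : ((256 : B) : F) = 256 := rfl
    apply Subtype.ext
    push_cast
    simp only [h256]
    rw [hT1, ← hsj]
    linear_combination ((s' : F) * (b : F) ^ 3) * hrel
  have h1 : s' * (T1 + 256 * b) ^ 3 ∈ n := by
    rw [← key]
    exact n.mul_mem_right _ (n.mul_mem_left _ (n.pow_mem_of_mem hmem 2 (by norm_num)))
  have h3 : T1 + 256 * b ∈ n := hn.mem_of_pow_mem _ ((hn.mem_or_mem h1).resolve_left hs')
  have h4 : 256 * b ∈ n := by
    have := n.sub_mem h3 hmem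
    simpa using this
  have h5 : (256 : B) ∈ n := (hn.mem_or_mem h4).resolve_right hb
  have h6 : (2 : B) ^ 8 ∈ n := by
    have e : (2 : B) ^ 8 = 256 := by norm_num
    rw [e]
    exact h5
  exact h2 (hn.mem_of_pow_mem _ h6)

/-- **Level 3: `T₁ ∉ n` at a `j`-regular point** (`3 ∉ n`). -/
theorem c2q74_T1_three (B : Subalgebra R F) (n : Ideal B) [hn : n.IsPrime] (J t1 : F)
    (hrel : J * t1 ^ 3 = (t1 + 27) * (t1 + 243) ^ 3) (s' b' b T1 : B) (hs' : s' ∉ n)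
    (hsj : (s' : F) * J = (b' : F)) (hb : b ∉ n) (hT1 : (T1 : F) = (b : F) * t1)
    (h3 : (3 : B) ∉ n) : T1 ∉ n := by
  intro hmem
  have key : b' * T1 ^ 3 * b = s' * ((T1 + 27 * b) * (T1 + 243 * b) ^ 3) := by
    have h27 : ((27 : B) : F) = 27 := rfl
    have h243 : ((243 : B) : F) = 243 := rfl
    apply Subtype.ext
    push_cast
    simp only [h27, h243]
    rw [hT1, ← hsj]
    linear_combination ((s' : F) * (b : F) ^ 4) * hrel
  have h1 : s' * ((T1 + 27 * b) * (T1 + 243 * b) ^ 3) ∈ n := by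
    rw [← key]
    exact n.mul_mem_right _ (n.mul_mem_left _ (n.pow_mem_of_mem hmem 3 (by norm_num)))
  have h3pow : ∀ k : ℕ, (3 : B) ^ k * b ∈ n → False := by
    intro k hk
    rcases hn.mem_or_mem hk with h | h
    · exact h3 (hn.mem_of_pow_mem _ h)
    · exact hb h
  rcases hn.mem_or_mem ((hn.mem_or_mem h1).resolve_left hs') with h | h
  · have h4 : 27 * b ∈ n := by
      have := n.sub_mem h hmem
      simpa using this
    have e : (27 : B) * b = (3 : B) ^ 3 * b := by norm_num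
    rw [e] at h4
    exact h3pow 3 h4
  · have h4 : 243 * b ∈ n := by
      have := n.sub_mem (hn.mem_of_pow_mem _ h) hmem
      simpa using this
    have e : (243 : B) * b = (3 : B) ^ 5 * b := by norm_num
    rw [e] at h4
    exact h3pow 5 h4

/-- **The case split.**  At a `j`-regular prime `n` with `2, 3 ∉ n`: `h₂ + 64 ≠ 0` or
`h₃ + 27 ≠ 0` at `n` (in denominator form). -/
theorem c2q74_cover (B : Subalgebra R F) (n : Ideal B) [hn : n.IsPrime] (J t1 u1 : F)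
    (hrel2 : J * t1 ^ 2 = (t1 + 256) ^ 3) (hrel3 : J * u1 ^ 3 = (u1 + 27) * (u1 + 243) ^ 3)
    (s' b' : B) (hs' : s' ∉ n) (hsj : (s' : F) * J = (b' : F))
    (b T1 : B) (hb : b ∉ n) (hT1 : (T1 : F) = (b : F) * t1)
    (b₃ U1 : B) (hb₃ : b₃ ∉ n) (hU1 : (U1 : F) = (b₃ : F) * u1)
    (h2 : (2 : B) ∉ n) (h3 : (3 : B) ∉ n) :
    T1 + 64 * b ∉ n ∨ U1 + 27 * b₃ ∉ n := by
  by_contra hcon
  obtain ⟨ha', hb'⟩ := not_or.mp hcon
  have ha : T1 + 64 * b ∈ n := not_not.mp ha'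
  have hbb : U1 + 27 * b₃ ∈ n := not_not.mp hb'
  have key2 : b' * T1 ^ 2 * b = s' * (T1 + 256 * b) ^ 3 := by
    have h256 : ((256 : B) : F) = 256 := rfl
    apply Subtype.ext
    push_cast
    simp only [h256]
    rw [hT1, ← hsj]
    linear_combination ((s' : F) * (b : F) ^ 3) * hrel2
  have key3 : b' * U1 ^ 3 * b₃ = s' * ((U1 + 27 * b₃) * (U1 + 243 * b₃) ^ 3) := by
    have h27 : ((27 : B) : F) = 27 := rfl
    have h243 : ((243 : B) : F) = 243 := rfl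
    apply Subtype.ext
    push_cast
    simp only [h27, h243]
    rw [hU1, ← hsj]
    linear_combination ((s' : F) * (b₃ : F) ^ 4) * hrel3
  have hpow : ∀ (k l : ℕ) (x : B), x ∉ n → (2 : B) ^ k * 3 ^ l * x ∉ n := by
    intro k l x hx hmem
    rcases hn.mem_or_mem hmem with h | h
    · rcases hn.mem_or_mem h with h | h
      · exact h2 (hn.mem_of_pow_mem _ h)
      · exact h3 (hn.mem_of_pow_mem _ h)
    · exact hx h
  -- from level 3: `b' ∈ n`
  have hU1n : U1 ∉ n := by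
    intro hmem
    have h4 : 27 * b₃ ∈ n := by
      have := n.sub_mem hbb hmem
      simpa using this
    have e : (27 : B) * b₃ = (2 : B) ^ 0 * 3 ^ 3 * b₃ := by norm_num
    rw [e] at h4
    exact hpow 0 3 b₃ hb₃ h4
  have hb'n : b' ∈ n := by
    have h1 : b' * U1 ^ 3 * b₃ ∈ n := by
      rw [key3]
      exact n.mul_mem_left _ (n.mul_mem_right _ hbb)
    rcases hn.mem_or_mem h1 with h | h
    · rcases hn.mem_or_mem h with h | h
      · exact h
      · exact absurd (hn.mem_of_pow_mem _ h) hU1n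
    · exact absurd h hb₃
  -- from level 2: `b' - 1728 s' ∈ n` up to a unit
  have h5 : (2 : B) ^ 12 * 3 ^ 0 * (b ^ 3 * (b' - 1728 * s')) ∈ n := by
    have e : (2 : B) ^ 12 * 3 ^ 0 * (b ^ 3 * (b' - 1728 * s')) =
        (T1 + 64 * b) * (s' * ((T1 + 64 * b) ^ 2 + 576 * b * (T1 + 64 * b) + 110592 * b ^ 2)
          - b' * b * (T1 - 64 * b)) := by
      linear_combination key2
    rw [e]
    exact n.mul_mem_right _ ha
  have h6 : b ^ 3 * (b' - 1728 * s') ∈ n := by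
    by_contra h
    exact hpow 12 0 _ h h5
  have h7 : b' - 1728 * s' ∈ n := by
    rcases hn.mem_or_mem h6 with h | h
    · exact absurd (hn.mem_of_pow_mem _ h) hb
    · exact h
  have h8 : 1728 * s' ∈ n := by
    have := n.sub_mem hb'n h7
    simpa using this
  have e : (1728 : B) * s' = (2 : B) ^ 6 * 3 ^ 3 * s' := by norm_num
  rw [e] at h8
  exact hpow 6 3 s' hs' h8

end c2q74

end Fermat.Agent.S36
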