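import Fermat.Agent.S34.DeltaQuot56
import Fermat.Agent.S36.C2Chart24

/-!
S36 lab, registry row 600 (C-C2), sub-part (W) (helper31, backup of helper24).

The level-`q` function `w = (1/q) · dj(qτ)/dj(τ) = (θJ)(Q^q) / (θJ)(Q)`.

* `uw31_w K q`            : the Laurent series `w`.
* `uw31_chain`            : for EVERY integer polynomial `Φ` with `Φ(J_q, J) = 0`:
                            `Φ_Y(J_q, J) = -(q · Φ_X(J_q, J) · w)`.
* `uw31_w_pow_six`        : `w^6 · (J^4 (J - 1728)^3 · U) = J_q^4 (J_q - 1728)^3`, `U = Δ(Q)/Δ(Q^q)`.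
* `uw31_w_mem(_full)`     : `w` lies in every subfield containing `J`, `J_q`; in `F_K(M)` for `q ∣ M`.
* `uw31_field`            : the same inside any field `F` with `ι : F →+* K((Q))`.
* `uw31_nozero`, `uw31_nopole`, `uw31_nozero_j` : chart form.  In a root-closed chart `B`
                            (`pk15_chart_root`), at a prime `n` with `j_q ∉ n`, `j_q - 1728 ∉ n`:
                            `∃ aw tw : B, aw ∉ n ∧ w * tw = aw`
                            (literally the input `aw tw haw hw` of `c2b24_mid_dvd`).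
* `uw31_hwrel`, `uw31_generic`, `uw31_generic_local` : the hypothesis `hwrel` of `c2b24_generic`
                            from the differentiated Kronecker relation
                            `ψ'(x1) - γ1 - ε x1^(q-1) + w ε = -(w q c0)`, with NO divisibility
                            `s ∣ q` assumed: only `s, q` in the maximal ideal and `w`, `ε` units.
-/

set_option autoImplicit false

namespace Fermat.Agent.S36

open ModularCurve Polynomial
open Fermat.Agent.S28 Fermat.Agent.S34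

section Laurent

variable (K : Type*) [Field K] (q : ℕ)

/-- `w = (θJ)(Q^q) / (θJ)(Q)`. -/
noncomputable def uw31_w : LaurentSeries K :=
  qE K q (partC_theta (jqModC K)) / partC_theta (jqModC K)

theorem uw31_w_mul_theta [NeZero q] :
    uw31_w K q * partC_theta (jqModC K) = qExpand K q (partC_theta (jqModC K)) := by
  unfold uw31_w
  rw [qE_of_neZero]
  exact div_mul_cancel₀ _ (dq56_theta_J_ne_zero K)

/-- The differentiated modular equation, for every integer polynomial vanishing at `(J_q, J)`. -/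
theorem uw31_chain [NeZero q] (Φ : Polynomial (Polynomial ℤ))
    (h0 : dq56_ev (JdC K q) (jqModC K) Φ = 0) :
    dq56_ev (JdC K q) (jqModC K) (dq56_dY Φ) =
      -((q : LaurentSeries K) * dq56_ev (JdC K q) (jqModC K) (derivative Φ) * uw31_w K q) := by
  have h := congrArg (dq56_theta K) h0
  rw [dq56_chain _ (dq56_theta_leibniz K), map_zero, dq56_theta_apply, dq56_theta_apply,
    JdC_of_neZero, partC_theta_qExpand, map_natCast] at h
  have hθ := dq56_theta_J_ne_zero K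
  have hw := uw31_w_mul_theta K q
  apply mul_right_cancel₀ hθ
  rw [JdC_of_neZero]
  linear_combination h +
    ((q : LaurentSeries K) * dq56_ev (qExpand K q (jqModC K)) (jqModC K) (derivative Φ)) * hw

/-- `w^6 · (J^4 (J - 1728)^3 · U) = J_q^4 (J_q - 1728)^3`. -/
theorem uw31_w_pow_six [NeZero q] :
    uw31_w K q ^ 6 * (jqModC K ^ 4 * (jqModC K - 1728) ^ 3 * dq56_U K q) =
      JdC K q ^ 4 * (JdC K q - 1728) ^ 3 := by
  have hT := dq56_theta_pow_six K
  have hσT := congrArg (qExpand K q) hT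
  rw [map_pow, map_mul, map_mul, map_pow, map_pow, map_sub, map_ofNat] at hσT
  have hinv : qExpand K q (DeltaSer K) * qExpand K q (DeltaInv K) = 1 := by
    rw [← map_mul, DeltaSer_mul_DeltaInv, map_one]
  have hw6 : uw31_w K q ^ 6 * partC_theta (jqModC K) ^ 6 =
      qExpand K q (partC_theta (jqModC K)) ^ 6 := by
    rw [← mul_pow, uw31_w_mul_theta]
  unfold dq56_U
  rw [qE_of_neZero, JdC_of_neZero]
  linear_combination (qExpand K q (DeltaInv K)) * hw6 -
    (uw31_w K q ^ 6 * qExpand K q (DeltaInv K)) * hT +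
    (qExpand K q (DeltaInv K)) * hσT +
    (qExpand K q (jqModC K) ^ 4 * (qExpand K q (jqModC K) - 1728) ^ 3) * hinv

theorem uw31_w_ne_zero [NeZero q] : uw31_w K q ≠ 0 := by
  unfold uw31_w
  rw [qE_of_neZero]
  exact div_ne_zero ((map_ne_zero_iff _ (qExpand_injective q)).mpr (dq56_theta_J_ne_zero K))
    (dq56_theta_J_ne_zero K)

variable [CharZero K]

omit [CharZero K] in
/-- `B = -(q A w)` for the modular equation `dq56_Phi q`. -/
theorem uw31_B_eq (hq : q.Prime) [NeZero q] :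
    dq56_B K q = -((q : LaurentSeries K) * dq56_A K q * uw31_w K q) :=
  uw31_chain K q (dq56_Phi q) (dq56_eq1 K q hq)

/-- `w = -B / (q A)`. -/
theorem uw31_w_eq (hq : q.Prime) [NeZero q] :
    uw31_w K q = -(dq56_B K q) / ((q : LaurentSeries K) * dq56_A K q) := by
  have hne : (q : LaurentSeries K) * dq56_A K q ≠ 0 :=
    mul_ne_zero (dq56_natCast_ne_zero K q) (dq56_Z3 K q hq).1
  rw [eq_div_iff hne, uw31_B_eq K q hq]
  ring

/-- **Membership.** `w` lies in every subfield of `K((Q))` containing `J` and `J(Q^q)`. -/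
theorem uw31_w_mem (hq : q.Prime) (E : Subfield (LaurentSeries K)) (hJ : jqModC K ∈ E)
    (hJq : JdC K q ∈ E) : uw31_w K q ∈ E := by
  have : NeZero q := ⟨hq.ne_zero⟩
  have hev : ∀ Ψ : Polynomial (Polynomial ℤ), dq56_ev (JdC K q) (jqModC K) Ψ ∈ E := by
    intro Ψ
    have h : dq56_ev (JdC K q) (jqModC K) Ψ =
        E.subtype (dq56_ev ⟨JdC K q, hJq⟩ ⟨jqModC K, hJ⟩ Ψ) :=
      (dq56_ev_map E.subtype ⟨JdC K q, hJq⟩ ⟨jqModC K, hJ⟩ Ψ).symm
    rw [h]
    exact SetLike.coe_mem _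
  rw [uw31_w_eq K q hq]
  exact div_mem (neg_mem (hev _)) (mul_mem (natCast_mem E q) (hev _))

/-- **Membership at level `M`.** For `q ∣ M`, `w ∈ modularFunctionFieldFullC K M`. -/
theorem uw31_w_mem_full (hq : q.Prime) (M : ℕ) [NeZero M] (hqM : q ∣ M) :
    uw31_w K q ∈ modularFunctionFieldFullC K M := by
  have : NeZero q := ⟨hq.ne_zero⟩
  have h := uw31_w_mem K q hq (modularFunctionFieldFullC K M).toSubfield
    (jqModC_mem_full K M) (by rw [JdC_of_neZero]; exact jqModCd_mem_full K M hqM)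
  exact h

/-- **Field form.** Inside any field `F` with `ι : F →+* K((Q))` and `j, jq, u ∈ F` of
expansions `J`, `J(Q^q)`, `U`: there is `w ∈ F` of expansion `uw31_w`, non-zero, with
`Φ_Y(jq, j) = -(q Φ_X(jq, j) w)` for every integer polynomial `Φ` vanishing at `(jq, j)` and
`w^6 (j^4 (j - 1728)^3 u) = jq^4 (jq - 1728)^3`. -/
theorem uw31_field (hq : q.Prime) {F : Type*} [Field F] (ι : F →+* LaurentSeries K)
    (j jq u : F) (hj : ι j = jqModC K) (hjq : ι jq = JdC K q) (hu : ι u = dq56_U K q) :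
    ∃ w : F, ι w = uw31_w K q ∧ w ≠ 0 ∧
      (∀ Φ : Polynomial (Polynomial ℤ), dq56_ev jq j Φ = 0 →
        dq56_ev jq j (dq56_dY Φ) = -((q : F) * dq56_ev jq j (derivative Φ) * w)) ∧
      w ^ 6 * (j ^ 4 * (j - 1728) ^ 3 * u) = jq ^ 4 * (jq - 1728) ^ 3 := by
  have : NeZero q := ⟨hq.ne_zero⟩
  have hinj : Function.Injective ι := ι.injective
  have hmem : uw31_w K q ∈ ι.fieldRange :=
    uw31_w_mem K q hq ι.fieldRange ⟨j, hj⟩ ⟨jq, hjq⟩
  obtain ⟨w, hw⟩ := hmem
  refine ⟨w, hw, ?_, ?_, ?_⟩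
  · intro h0
    rw [h0, map_zero] at hw
    exact uw31_w_ne_zero K q hw.symm
  · intro Φ hΦ
    apply hinj
    have h1 := congrArg ι hΦ
    rw [dq56_ev_map, hj, hjq, map_zero] at h1
    have h2 := uw31_chain K q Φ h1
    rw [dq56_ev_map, map_neg, map_mul, map_mul, map_natCast, dq56_ev_map, hj, hjq, hw]
    exact h2
  · apply hinj
    have h := uw31_w_pow_six K q
    rw [map_mul, map_pow, map_mul, map_mul, map_pow, map_pow, map_sub, map_ofNat, map_mul,
      map_pow, map_pow, map_sub, map_ofNat, hj, hjq, hu, hw]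
    exact h

end Laurent

section Chart

/-- **No zero.** `B` closed under `m`-th roots in `F`; `w^m · D = N` with `N, D ∈ B` and
`N ∉ n`: then `w * tw = aw` with `aw ∉ n` (`aw = N`, `tw = N / w`). -/
theorem uw31_nozero {R F : Type*} [CommRing R] [Field F] [Algebra R F] (B : Subalgebra R F)
    (m : ℕ) (hm : 0 < m) (hroot : ∀ x : F, x ^ m ∈ B → x ∈ B) (n : Ideal B) [n.IsPrime]
    (w : F) (N D : B) (hN : N ∉ n) (h : w ^ m * (D : F) = (N : F)) :
    ∃ aw tw : B, aw ∉ n ∧ w * (tw : F) = (aw : F) := by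
  have hN0 : (N : F) ≠ 0 := by
    intro h0
    apply hN
    have hN' : N = 0 := Subtype.ext h0
    rw [hN']
    exact n.zero_mem
  have hw0 : w ≠ 0 := by
    intro h0
    rw [h0, zero_pow hm.ne', zero_mul] at h
    exact hN0 h.symm
  obtain ⟨k, rfl⟩ : ∃ k, m = k + 1 := ⟨m - 1, by omega⟩
  have hmem : ((N : F) / w) ^ (k + 1) ∈ B := by
    have hEq : ((N : F) / w) ^ (k + 1) = (N : F) ^ k * (D : F) := by
      rw [div_pow, div_eq_iff (pow_ne_zero _ hw0), pow_succ, ← h]
      ring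
    rw [hEq]
    exact B.mul_mem (B.pow_mem N.2 k) D.2
  refine ⟨N, ⟨(N : F) / w, hroot _ hmem⟩, hN, ?_⟩
  show w * ((N : F) / w) = N
  field_simp

/-- **No pole.** Same data with `D ∉ n`: `w * t = a` with `t ∉ n` (`t = D`, `a = w D`). -/
theorem uw31_nopole {R F : Type*} [CommRing R] [Field F] [Algebra R F] (B : Subalgebra R F)
    (m : ℕ) (hm : 0 < m) (hroot : ∀ x : F, x ^ m ∈ B → x ∈ B) (n : Ideal B)
    (w : F) (N D : B) (hD : D ∉ n) (h : w ^ m * (D : F) = (N : F)) :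
    ∃ a t : B, t ∉ n ∧ w * (t : F) = (a : F) := by
  obtain ⟨k, rfl⟩ : ∃ k, m = k + 1 := ⟨m - 1, by omega⟩
  have hmem : (w * (D : F)) ^ (k + 1) ∈ B := by
    have hEq : (w * (D : F)) ^ (k + 1) = (N : F) * (D : F) ^ k := by
      rw [← h]
      ring
    rw [hEq]
    exact B.mul_mem N.2 (B.pow_mem D.2 k)
  exact ⟨⟨w * (D : F), hroot _ hmem⟩, D, hD, rfl⟩

/-- **The level-`q` function `w` has no zero at the points with `j_q ≠ 0, 1728`.**
`B` a root-closed chart containing `j, jq, u`; `w ∈ F` with the sixth-power identity of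
`uw31_field`; `n` a prime of `B` with `jq ∉ n` and `jq - 1728 ∉ n`. -/
theorem uw31_nozero_j {R F : Type*} [CommRing R] [Field F] [Algebra R F] (B : Subalgebra R F)
    (hroot : ∀ x : F, x ^ 6 ∈ B → x ∈ B) (n : Ideal B) [hn : n.IsPrime]
    (w : F) (j jq u : B)
    (h6 : w ^ 6 * ((j : F) ^ 4 * ((j : F) - 1728) ^ 3 * (u : F)) =
      (jq : F) ^ 4 * ((jq : F) - 1728) ^ 3)
    (hjq : jq ∉ n) (hjq' : jq - 1728 ∉ n) :
    ∃ aw tw : B, aw ∉ n ∧ w * (tw : F) = (aw : F) := by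
  refine uw31_nozero B 6 (by norm_num) hroot n w (jq ^ 4 * (jq - 1728) ^ 3)
    (j ^ 4 * (j - 1728) ^ 3 * u) ?_ ?_
  · intro hmem
    rcases hn.mem_or_mem hmem with h | h
    · exact hjq (hn.mem_of_pow_mem _ h)
    · exact hjq' (hn.mem_of_pow_mem _ h)
  · push_cast
    exact h6

end Chart

section Generic

/-- **`hwrel` of `c2b24_generic` without `s ∣ q`.**  From the differentiated Kronecker relation
`ψ'(x1) - γ1 - ε x1^(q-1) + w ε = -(w q c0)` (`ε = J^q - x1`) and the fact that every element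
`w ε + s a + q b` is a unit (`s = x3 - x1`; true in a local ring with `s, q` in the maximal
ideal and `w, ε` units), the left side is divisible by `s`. -/
theorem uw31_hwrel {O : Type*} [CommRing O] [IsDomain O] {q : ℕ} (hq : q.Prime)
    (ψ : Polynomial O) (x1 J x3 γ1 γ3 w c0 e' : O) (hs0 : x3 ≠ x1)
    (h1 : J = x1 ^ q + q * γ1) (h3 : J = x3 ^ q + q * γ3)
    (r1 : (J ^ q - x1) * γ1 = - ψ.eval x1) (r3 : (J ^ q - x3) * γ3 = - ψ.eval x3)
    (hε : (J ^ q - x1) * e' = 1)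
    (hunit : ∀ a b : O, IsUnit (w * (J ^ q - x1) + (x3 - x1) * a + q * b))
    (hrel : ψ.derivative.eval x1 - γ1 - (J ^ q - x1) * x1 ^ (q - 1) + w * (J ^ q - x1)
      = -(w * q * c0)) :
    ∃ b : O, ψ.derivative.eval x1 - γ1 - (J ^ q - x1) * x1 ^ (q - 1)
      + w * (J ^ q - x1) = (x3 - x1) * b := by
  obtain ⟨k, c, e3, e4⟩ := c2a24_identity hq ψ x1 J x3 γ1 γ3 h1 h3 r1 r3
  have hsne : x3 - x1 ≠ 0 := sub_ne_zero.mpr hs0
  obtain ⟨m, hm⟩ : ∃ m, q = m + 2 := ⟨q - 2, by have := hq.two_le; omega⟩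
  -- ε s^(q-1) = q A3
  have e5 : (J ^ q - x1) * (x3 - x1) ^ (q - 1) = q *
      (ψ.derivative.eval x1 - γ3 - (J ^ q - x1) * x1 ^ (q - 1) + (x3 - x1) * c) := by
    apply mul_left_cancel₀ hsne
    have hpow : (x3 - x1) ^ q = (x3 - x1) * (x3 - x1) ^ (q - 1) := by
      rw [← pow_succ']
      congr 1
      have := hq.pos
      omega
    rw [hpow] at e4
    linear_combination e4
  -- γ3 - γ1 = s * (...)
  have hγ : γ3 - γ1 = (x3 - x1) * ((γ3 - ψ.derivative.eval x1 - k * (x3 - x1)) * e') := by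
    linear_combination e' * e3 - (γ3 - γ1) * hε
  -- -A3 is a unit
  obtain ⟨v, hv⟩ := (hunit ((γ3 - ψ.derivative.eval x1 - k * (x3 - x1)) * e' - c) (w * c0)).exists_right_inv
  have hA3 : -(ψ.derivative.eval x1 - γ3 - (J ^ q - x1) * x1 ^ (q - 1) + (x3 - x1) * c) =
      w * (J ^ q - x1) + (x3 - x1) * ((γ3 - ψ.derivative.eval x1 - k * (x3 - x1)) * e' - c)
        + q * (w * c0) := by
    linear_combination hγ - hrel
  rw [← hA3] at hv
  have hpow2 : (x3 - x1) ^ (q - 1) = (x3 - x1) * (x3 - x1) ^ m := by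
    rw [← pow_succ']
    congr 1
    omega
  refine ⟨w * c0 * (J ^ q - x1) * (x3 - x1) ^ m * v, ?_⟩
  rw [hrel]
  linear_combination (w * (q : O) * c0) * hv - (w * c0 * v) * e5
    + (w * c0 * v * (J ^ q - x1)) * hpow2

/-- `c2b24_generic` with the weaker input. -/
theorem uw31_generic {O : Type*} [CommRing O] [IsDomain O] {q : ℕ} (hq : q.Prime)
    (ψ : Polynomial O) (x1 J x3 γ1 γ3 w c0 e' : O) (hs0 : x3 ≠ x1)
    (h1 : J = x1 ^ q + q * γ1) (h3 : J = x3 ^ q + q * γ3)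
    (r1 : (J ^ q - x1) * γ1 = - ψ.eval x1) (r3 : (J ^ q - x3) * γ3 = - ψ.eval x3)
    (hε : (J ^ q - x1) * e' = 1)
    (hunit : ∀ a b : O, IsUnit (w * (J ^ q - x1) + (x3 - x1) * a + q * b))
    (hrel : ψ.derivative.eval x1 - γ1 - (J ^ q - x1) * x1 ^ (q - 1) + w * (J ^ q - x1)
      = -(w * q * c0)) :
    ∃ ϑ y : O, (q : O) * ϑ = (x3 - x1) ^ (q - 1) ∧ ϑ + w = (x3 - x1) * y :=
  c2b24_generic hq ψ x1 J x3 γ1 γ3 w e' hs0 h1 h3 r1 r3 hε
    (uw31_hwrel hq ψ x1 J x3 γ1 γ3 w c0 e' hs0 h1 h3 r1 r3 hε hunit hrel)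

/-- Local-ring form: `s, q` in the maximal ideal, `w` a unit, `ε e' = 1`. -/
theorem uw31_generic_local {O : Type*} [CommRing O] [IsDomain O] [IsLocalRing O] {q : ℕ}
    (hq : q.Prime) (ψ : Polynomial O) (x1 J x3 γ1 γ3 w c0 e' : O) (hs0 : x3 ≠ x1)
    (h1 : J = x1 ^ q + q * γ1) (h3 : J = x3 ^ q + q * γ3)
    (r1 : (J ^ q - x1) * γ1 = - ψ.eval x1) (r3 : (J ^ q - x3) * γ3 = - ψ.eval x3)
    (hε : (J ^ q - x1) * e' = 1) (hw : IsUnit w)
    (hsm : x3 - x1 ∈ IsLocalRing.maximalIdeal O) (hqm : (q : O) ∈ IsLocalRing.maximalIdeal O)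
    (hrel : ψ.derivative.eval x1 - γ1 - (J ^ q - x1) * x1 ^ (q - 1) + w * (J ^ q - x1)
      = -(w * q * c0)) :
    ∃ ϑ y : O, (q : O) * ϑ = (x3 - x1) ^ (q - 1) ∧ ϑ + w = (x3 - x1) * y := by
  refine uw31_generic hq ψ x1 J x3 γ1 γ3 w c0 e' hs0 h1 h3 r1 r3 hε ?_ hrel
  intro a b
  have hεu : IsUnit (J ^ q - x1) := IsUnit.of_mul_eq_one _ hε
  have hu : IsUnit (w * (J ^ q - x1)) := hw.mul hεu
  by_contra hcon
  have hmem : w * (J ^ q - x1) + (x3 - x1) * a + q * b ∈ IsLocalRing.maximalIdeal O :=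
    (IsLocalRing.mem_maximalIdeal _).mpr hcon
  have h2 : (x3 - x1) * a + q * b ∈ IsLocalRing.maximalIdeal O :=
    Ideal.add_mem _ (Ideal.mul_mem_right _ _ hsm) (Ideal.mul_mem_right _ _ hqm)
  have h3' : w * (J ^ q - x1) ∈ IsLocalRing.maximalIdeal O := by
    have := Ideal.sub_mem _ hmem h2
    have hEq : w * (J ^ q - x1) + (x3 - x1) * a + q * b - ((x3 - x1) * a + q * b)
        = w * (J ^ q - x1) := by ring
    rwa [hEq] at this
  exact (IsLocalRing.mem_maximalIdeal _).mp h3' hu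

end Generic

end Fermat.Agent.S36
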