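import Fermat.Agent.S34.UVAt17
import Fermat.Agent.S36.UnitW31

/-!
# S36 lab, row 600 C-C2 (helper75): the CHART side of `c2f24_prinAt_two` / `c2f24_prinAt_three`
at a closed point `n` of the middle component where `j` is regular

`B` an integrally closed chart, `V₂` the valuation ring of the middle component with
uniformiser `σ` (`huni`), `n` a prime of `B` on the middle branch (`hmid`, literally
`tl71_OnMid σ B V₂.toSubring n`), `q ∈ σ V₂`, `j` regular at `n` (`s' j ∈ B`, `s' ∉ n`).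
`t1, t2, t3 ∈ F` integral over `R[j]` (`h(τ), h(qτ), h(q²τ)`), `t2 = t1 ^ q + q g`, `g ∈ V₂`,
`U` a unit of `B_n` (`usq75_alphaU_unit_at`), and the sixth-power identity
`wt ^ 6 * (t1 ^ e₁ * (t1 + κ) ^ e₂ * U) = t2 ^ e₁ * (t2 + κ) ^ e₂`
(`(κ, e₁, e₂) = (64, 4, 3)` for `h₂`, `(27, 3, 4)` for `h₃`).  If `t1` and `t1 + κ` are units at
`n`, then

* `∃ s b : B, s = b * (t3 - t1) ∧ b ∉ n ∧ b⁻¹ ∈ V₂`,
* `∃ aw tw : B, aw ∉ n ∧ wt * tw = aw`,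

LITERALLY the chart data `(s b hsb hbn hb₂) (aw tw haw hwtw)` of `c2f24_prinAt_two/three`.

All names are prefixed `c2b75_`.
-/

set_option autoImplicit false

namespace Fermat.Agent.S36

open Fermat.Agent.S34

section

variable {R F : Type*} [CommRing R] [Field F] [Algebra R F]

/-- Fermat: `κ ^ q = κ + q * m`. -/
theorem c2b75_fermat (q : ℕ) (hq : q.Prime) (κ : ℕ) : ∃ m : ℕ, κ ^ q = κ + q * m := by
  have : Fact q.Prime := ⟨hq⟩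
  have h1 : ((κ ^ q : ℕ) : ZMod q) = ((κ : ℕ) : ZMod q) := by
    push_cast
    exact ZMod.pow_card _
  have h2 : κ ^ q ≡ κ [MOD q] := (ZMod.natCast_eq_natCast_iff _ _ _).mp h1
  have hle : κ ≤ κ ^ q := by
    rcases Nat.eq_zero_or_pos κ with h0 | h0
    · rw [h0]; exact Nat.zero_le _
    · exact Nat.le_self_pow hq.ne_zero κ
  obtain ⟨m, hm⟩ := (Nat.modEq_iff_dvd' hle).mp h2.symm
  exact ⟨m, by omega⟩

/-- **The chart data of `c2f24_prinAt_two/three`.** -/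
theorem c2b75_chart (B : Subalgebra R F) (hBint : ∀ z : F, IsIntegral B z → z ∈ B)
    (V₂ : ValuationSubring F) (hB₂ : ∀ x ∈ B, x ∈ V₂)
    (σ : F) (huni : ∀ x : F, V₂.valuation x < 1 → x * σ⁻¹ ∈ V₂)
    (n : Ideal B) [hn : n.IsPrime] (hmid : ∀ x : B, (x : F) * σ⁻¹ ∈ V₂ → x ∈ n)
    (q : ℕ) (hq : q.Prime) (hqσ : (q : F) * σ⁻¹ ∈ V₂)
    (j : F) (s' : B) (hs' : s' ∉ n) (hs'j : (s' : F) * j ∈ B)
    (t1 t2 t3 g wt U : F) (κ e₁ e₂ : ℕ)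
    (ht1 : IsIntegral (Algebra.adjoin R ({j} : Set F)) t1)
    (ht2 : IsIntegral (Algebra.adjoin R ({j} : Set F)) t2)
    (ht3 : IsIntegral (Algebra.adjoin R ({j} : Set F)) t3)
    (hg : g ∈ V₂) (ht2g : t2 = t1 ^ q + q * g)
    (hU : ∃ t U' : B, t ∉ n ∧ U' ∉ n ∧ (U' : F) = (t : F) * U)
    (h6 : wt ^ 6 * (t1 ^ e₁ * (t1 + κ) ^ e₂ * U) = t2 ^ e₁ * (t2 + κ) ^ e₂)
    (hu1 : ∀ c : B, ∀ hc : (c : F) * t1 ∈ B, c ∉ n → (⟨_, hc⟩ : B) ∉ n)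
    (huκ : ∀ c : B, ∀ hc : (c : F) * (t1 + κ) ∈ B, c ∉ n → (⟨_, hc⟩ : B) ∉ n) :
    (∃ s b : B, (s : F) = (b : F) * (t3 - t1) ∧ b ∉ n ∧ (b : F)⁻¹ ∈ V₂) ∧
      ∃ aw tw : B, aw ∉ n ∧ wt * (tw : F) = (aw : F) := by
  classical
  have hroot : ∀ x : F, x ^ 6 ∈ B → x ∈ B := by
    intro x hx
    apply hBint
    refine IsIntegral.of_pow (n := 6) (by norm_num) ?_
    exact isIntegral_algebraMap (R := B) (A := F) (x := ⟨x ^ 6, hx⟩)
  have hunitV : ∀ c : B, c ∉ n → (c : F)⁻¹ ∈ V₂ := by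
    intro c hc
    have hle : V₂.valuation (c : F) ≤ 1 := (V₂.valuation_le_one_iff _).mpr (hB₂ _ c.2)
    have hnlt : ¬ V₂.valuation (c : F) < 1 := fun h => hc (hmid c (huni _ h))
    have heq : V₂.valuation (c : F) = 1 := le_antisymm hle (not_lt.mp hnlt)
    rw [← V₂.valuation_le_one_iff, map_inv₀, heq, inv_one]
  obtain ⟨k1, hk1⟩ := uv17_clear B hBint j t1 ht1 (s' : F) s'.2 hs'j
  obtain ⟨k2, hk2⟩ := uv17_clear B hBint j t2 ht2 (s' : F) s'.2 hs'j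
  obtain ⟨k3, hk3⟩ := uv17_clear B hBint j t3 ht3 (s' : F) s'.2 hs'j
  obtain ⟨c, hcdef⟩ : ∃ c : B, c = s' ^ (k1 + k2 + k3) := ⟨_, rfl⟩
  have hcn : c ∉ n := by
    rw [hcdef]
    exact fun h => hs' (hn.mem_of_pow_mem _ h)
  have hcF : (c : F) = (s' : F) ^ (k1 + k2 + k3) := by
    rw [hcdef]
    push_cast
    rfl
  have hc1 : (c : F) * t1 ∈ B := by
    have e : (c : F) * t1 = (s' : F) ^ (k2 + k3) * ((s' : F) ^ k1 * t1) := by rw [hcF]; ring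
    rw [e]
    exact B.mul_mem (B.pow_mem s'.2 _) hk1
  have hc2 : (c : F) * t2 ∈ B := by
    have e : (c : F) * t2 = (s' : F) ^ (k1 + k3) * ((s' : F) ^ k2 * t2) := by rw [hcF]; ring
    rw [e]
    exact B.mul_mem (B.pow_mem s'.2 _) hk2
  have hc3 : (c : F) * t3 ∈ B := by
    have e : (c : F) * t3 = (s' : F) ^ (k1 + k2) * ((s' : F) ^ k3 * t3) := by rw [hcF]; ring
    rw [e]
    exact B.mul_mem (B.pow_mem s'.2 _) hk3
  have hcinv : (c : F)⁻¹ ∈ V₂ := hunitV c hcn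
  have hc0 : (c : F) ≠ 0 := by
    intro h
    apply hcn
    have : c = 0 := Subtype.ext h
    rw [this]
    exact n.zero_mem
  have hcV : (c : F) ∈ V₂ := hB₂ _ c.2
  have ht1V : t1 ∈ V₂ := by
    have e : t1 = (c : F)⁻¹ * ((c : F) * t1) := by field_simp
    rw [e]
    exact mul_mem hcinv (hB₂ _ hc1)
  have hpow : (c : F) ^ q = (c : F) ^ (q - 1) * (c : F) := by
    rw [← pow_succ, Nat.sub_add_cancel hq.one_le]
  refine ⟨⟨⟨_, hc3⟩ - ⟨_, hc1⟩, c, ?_, hcn, hcinv⟩, ?_⟩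
  · push_cast
    ring
  obtain ⟨t, U', ht, hU', hU'eq⟩ := hU
  have hκB : (κ : F) ∈ B := natCast_mem B κ
  have hcκ1 : (c : F) * (t1 + κ) ∈ B := by
    have e : (c : F) * (t1 + κ) = (c : F) * t1 + (κ : F) * (c : F) := by ring
    rw [e]
    exact B.add_mem hc1 (B.mul_mem hκB c.2)
  have hcκ2 : (c : F) * (t2 + κ) ∈ B := by
    have e : (c : F) * (t2 + κ) = (c : F) * t2 + (κ : F) * (c : F) := by ring
    rw [e]
    exact B.add_mem hc2 (B.mul_mem hκB c.2)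
  -- `c t2 ∉ n`
  have hT2 : (⟨_, hc2⟩ : B) ∉ n := by
    intro hmem
    have hE : c ^ (q - 1) * (⟨_, hc2⟩ : B) - (⟨_, hc1⟩ : B) ^ q ∈ n := by
      apply hmid
      have e : ((c ^ (q - 1) * (⟨_, hc2⟩ : B) - (⟨_, hc1⟩ : B) ^ q : B) : F) * σ⁻¹ =
          (c : F) ^ q * g * ((q : F) * σ⁻¹) := by
        push_cast
        linear_combination ((c : F) ^ (q - 1) * (c : F) * σ⁻¹) * ht2g -
          ((t1 ^ q + q * g) * σ⁻¹) * hpow
      rw [e]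
      exact mul_mem (mul_mem (pow_mem hcV _) hg) hqσ
    have h1 : (⟨_, hc1⟩ : B) ^ q ∈ n := by
      have e : (⟨_, hc1⟩ : B) ^ q = c ^ (q - 1) * (⟨_, hc2⟩ : B) -
          (c ^ (q - 1) * (⟨_, hc2⟩ : B) - (⟨_, hc1⟩ : B) ^ q) := by ring
      rw [e]
      exact n.sub_mem (n.mul_mem_left _ hmem) hE
    exact hu1 c hc1 hcn (hn.mem_of_pow_mem _ h1)
  -- `c (t2 + κ) ∉ n`
  have hK2 : (⟨_, hcκ2⟩ : B) ∉ n := by
    intro hmem
    obtain ⟨m, hm⟩ := c2b75_fermat q hq κ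
    have hκq : (κ : F) ^ q = κ + q * m := by exact_mod_cast congrArg (Nat.cast : ℕ → F) hm
    obtain ⟨r, hr⟩ := exists_add_pow_prime_eq hq (⟨t1, ht1V⟩ : V₂) ((κ : ℕ) : V₂)
    have hfd : (t1 + κ) ^ q = t1 ^ q + (κ : F) ^ q + q * t1 * κ * (r : F) := by
      have := congrArg (fun x : V₂ => (x : F)) hr
      simpa using this
    have hE : c ^ (q - 1) * (⟨_, hcκ2⟩ : B) - (⟨_, hcκ1⟩ : B) ^ q ∈ n := by
      apply hmid
      have e : ((c ^ (q - 1) * (⟨_, hcκ2⟩ : B) - (⟨_, hcκ1⟩ : B) ^ q : B) : F) * σ⁻¹ =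
          (c : F) ^ q * (g - m - t1 * κ * (r : F)) * ((q : F) * σ⁻¹) := by
        push_cast
        rw [mul_pow]
        linear_combination ((c : F) ^ q * σ⁻¹) * ht2g - ((t2 + κ) * σ⁻¹) * hpow -
          ((c : F) ^ q * σ⁻¹) * hfd - ((c : F) ^ q * σ⁻¹) * hκq
      rw [e]
      have hmV : (m : F) ∈ V₂ := natCast_mem V₂ m
      have hκV : (κ : F) ∈ V₂ := natCast_mem V₂ κ
      exact mul_mem (mul_mem (pow_mem hcV _)
        (sub_mem (sub_mem hg hmV) (mul_mem (mul_mem ht1V hκV) r.2))) hqσ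
    have h1 : (⟨_, hcκ1⟩ : B) ^ q ∈ n := by
      have e : (⟨_, hcκ1⟩ : B) ^ q = c ^ (q - 1) * (⟨_, hcκ2⟩ : B) -
          (c ^ (q - 1) * (⟨_, hcκ2⟩ : B) - (⟨_, hcκ1⟩ : B) ^ q) := by ring
      rw [e]
      exact n.sub_mem (n.mul_mem_left _ hmem) hE
    exact huκ c hcκ1 hcn (hn.mem_of_pow_mem _ h1)
  -- numerator and denominator
  have hN : t * (⟨_, hc2⟩ : B) ^ e₁ * (⟨_, hcκ2⟩ : B) ^ e₂ ∉ n := by
    intro h
    rcases hn.mem_or_mem h with h' | h'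
    · rcases hn.mem_or_mem h' with h'' | h''
      · exact ht h''
      · exact hT2 (hn.mem_of_pow_mem _ h'')
    · exact hK2 (hn.mem_of_pow_mem _ h')
  refine uw31_nozero B 6 (by norm_num) hroot n wt
    (t * (⟨_, hc2⟩ : B) ^ e₁ * (⟨_, hcκ2⟩ : B) ^ e₂)
    ((⟨_, hc1⟩ : B) ^ e₁ * (⟨_, hcκ1⟩ : B) ^ e₂ * U') hN ?_
  push_cast
  rw [hU'eq]
  simp only [mul_pow]
  linear_combination ((c : F) ^ e₁ * (c : F) ^ e₂ * (t : F)) * h6

end

end Fermat.Agent.S36
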