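import Mathlib
import Fermat.Agent.S36.C2Chart24

/-!
S36 lab (helper24), row C-C2: change of coordinate `j ↦ h` for the middle component `C₂`,
`h` the Hauptmodul of level `2` (`j h² = (h + 256)³`) or of level `3`
(`j h³ = (h + 27) (h + 243)³`).  Mathlib + `C2Chart24` only.

With `t1 = h(τ)`, `t2 = h(qτ)`, `t3 = h(q²τ)`, `x1 = j(τ)`, `x3 = j(q²τ)`, the `j`-identity
(`c2c24_kron_field`: `ϑj = s_j^(q-1)/q ∈ V₂`, `ϑj + wj ∈ s_j V₂`) is transported to the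
coordinate `h`:  `ϑ = s_h^(q-1)/q ∈ V₂` and `ϑ + wt ∈ s_h V₂`, where
`wt = wj · R'(t1)/R'(t2) = (1/q) dh(qτ)/dh(τ)`, and `wt` satisfies the exact identities

* level 2: `wt^6 · t1^4 (t1 + 64)^3 · U = t2^4 (t2 + 64)^3`,
* level 3: `wt^6 · t1^3 (t1 + 27)^4 · U = t2^3 (t2 + 27)^4`.

So `wt` has no zero at the non-cuspidal points with `h₂ + 64` a unit (level 2), resp. `h₃ + 27` a
unit (level 3), and (`c2d24_cover`) for `6 ∣ M''` every non-cuspidal closed point of residue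
characteristic `≥ 5` is of one of the two kinds: no exceptional ordinary points remain.

* `c2d24_frob`       : `P(x)^q = P(x^q)` for `P ∈ ℤ[X]` in a ring with `q = 0`.
* `c2d24_coord_abs`  : the abstract transport.
* `c2d24_coord2`, `c2d24_coord3` : the transport for the two Hauptmoduln.
* `c2d24_w6_two`, `c2d24_w6_three` : the sixth-power identities for `wt`.
* `c2d24_cover`      : `h₂ + 64 ∉ n ∨ h₃ + 27 ∉ n`.
* `c2d24_frob_mem`   : `P(t2) ∈ n ↔ P(t1) ∈ n` when `t2 ≡ t1^q` modulo `n`.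
-/

set_option autoImplicit false

namespace Fermat.Agent.S36

open Polynomial

/-- Frobenius on integer polynomials in a ring with `q = 0`. -/
theorem c2d24_frob {A : Type*} [CommRing A] {q : ℕ} (hq : q.Prime) (hq0 : (q : A) = 0)
    (P : Polynomial ℤ) (x : A) : (aeval x P) ^ q = aeval (x ^ q) P := by
  have hadd : ∀ x y : A, (x + y) ^ q = x ^ q + y ^ q := by
    intro x y
    rw [add_pow_prime_eq' hq x y, hq0, zero_mul, add_zero]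
  have hint : ∀ c : ℤ, ((c : A)) ^ q = (c : A) := by
    intro c
    have : Fact q.Prime := ⟨hq⟩
    have h1 : ((c ^ q - c : ℤ) : ZMod q) = 0 := by
      push_cast
      rw [ZMod.pow_card, sub_self]
    obtain ⟨k, hk⟩ := (ZMod.intCast_zmod_eq_zero_iff_dvd _ q).mp h1
    have h2 : ((c ^ q - c : ℤ) : A) = 0 := by
      rw [hk]
      push_cast
      rw [hq0, zero_mul]
    push_cast at h2
    exact sub_eq_zero.mp h2
  induction P using Polynomial.induction_on' with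
  | add p r hp hr => rw [map_add, hadd, hp, hr, map_add]
  | monomial n c =>
    rw [Polynomial.aeval_monomial, Polynomial.aeval_monomial, mul_pow, ← pow_mul, ← pow_mul,
      mul_comm n q]
    congr 1
    simpa using hint c

/-- **Abstract transport.**  `sj = st ρ`, `ρ` a unit, `wt Υ = wj Ξ` with `Υ` a unit and
`Ξ ρ^(q-1) ≡ Υ` modulo `st`. -/
theorem c2d24_coord_abs {O : Type*} [CommRing O] {q : ℕ}
    (sj st ρ ρi Υ e2 Ξ ϑj wj y wt z : O)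
    (hs : sj = st * ρ) (hρ : ρ * ρi = 1) (hΥ : Υ * e2 = 1)
    (hϑ : (q : O) * ϑj = sj ^ (q - 1)) (hy : ϑj + wj = sj * y)
    (hwt : wt * Υ = wj * Ξ) (hz : Ξ * ρ ^ (q - 1) - Υ = st * z) :
    ∃ ϑ y' : O, (q : O) * ϑ = st ^ (q - 1) ∧ ϑ + wt = st * y' := by
  have hP : ρ ^ (q - 1) * ρi ^ (q - 1) = 1 := by rw [← mul_pow, hρ, one_pow]
  refine ⟨ϑj * ρi ^ (q - 1), ρ * y * ρi ^ (q - 1) + wj * z * e2 * ρi ^ (q - 1), ?_, ?_⟩
  · rw [← mul_assoc, hϑ, hs, ← mul_pow, mul_assoc, hρ, mul_one]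
  · linear_combination ρi ^ (q - 1) * hy + (ρi ^ (q - 1) * y) * hs - wt * hΥ + e2 * hwt
      + wj * (-(e2 * Ξ) * hP + (e2 * ρi ^ (q - 1)) * hz + ρi ^ (q - 1) * hΥ)

/-- auxiliary identity, level 2 -/
theorem c2d24_aux2 {A : Type*} [CommRing A] (a b : A) (m : ℕ) (hab : a * b = 1) :
    (a + 256) ^ 2 * (a - 512) * (a ^ (m + 1)) ^ 3 *
      ((a ^ 2 * a ^ 2 - 196608 * a * a - 16777216 * (a + a)) * (b ^ 2 * b ^ 2)) ^ m
      = ((a + 256) ^ 2 * (a - 512)) ^ (m + 1) * a ^ 3 := by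
  have hbase : a ^ 2 * a ^ 2 - 196608 * a * a - 16777216 * (a + a)
      = a * ((a + 256) ^ 2 * (a - 512)) := by ring
  rw [hbase]
  generalize (a + 256) ^ 2 * (a - 512) = d
  have hab' : a ^ (4 * m) * b ^ (4 * m) = 1 := by rw [← mul_pow, hab, one_pow]
  calc d * (a ^ (m + 1)) ^ 3 * (a * d * (b ^ 2 * b ^ 2)) ^ m
      = d ^ (m + 1) * a ^ 3 * (a ^ (4 * m) * b ^ (4 * m)) := by ring
    _ = d ^ (m + 1) * a ^ 3 := by rw [hab', mul_one]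

/-- auxiliary identity, level 3 -/
theorem c2d24_aux3 {A : Type*} [CommRing A] (a b : A) (m : ℕ) (hab : a * b = 1) :
    (a + 243) ^ 2 * (a ^ 2 - 486 * a - 19683) * (a ^ (m + 1)) ^ 4 *
      ((a ^ 3 * a ^ 3 - 196830 * a ^ 2 * a ^ 2 - 19131876 * a * a * (a + a)
        - 387420489 * (a ^ 2 + a * a + a ^ 2)) * (b ^ 3 * b ^ 3)) ^ m
      = ((a + 243) ^ 2 * (a ^ 2 - 486 * a - 19683)) ^ (m + 1) * a ^ 4 := by
  have hbase : a ^ 3 * a ^ 3 - 196830 * a ^ 2 * a ^ 2 - 19131876 * a * a * (a + a)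
        - 387420489 * (a ^ 2 + a * a + a ^ 2)
      = a ^ 2 * ((a + 243) ^ 2 * (a ^ 2 - 486 * a - 19683)) := by ring
  rw [hbase]
  generalize (a + 243) ^ 2 * (a ^ 2 - 486 * a - 19683) = d
  have hab' : a ^ (6 * m) * b ^ (6 * m) = 1 := by rw [← mul_pow, hab, one_pow]
  calc d * (a ^ (m + 1)) ^ 4 * (a ^ 2 * d * (b ^ 3 * b ^ 3)) ^ m
      = d ^ (m + 1) * a ^ 4 * (a ^ (6 * m) * b ^ (6 * m)) := by ring
    _ = d ^ (m + 1) * a ^ 4 := by rw [hab', mul_one]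

/-- **Transport to the Hauptmodul of level 2.** -/
theorem c2d24_coord2 {O : Type*} [CommRing O] {q : ℕ} (hq : q.Prime)
    (t1 t2 t3 i1 i3 g bq x1 x3 ρ' e2 ϑj wj y wt : O)
    (h1 : t1 * i1 = 1) (h3 : t3 * i3 = 1)
    (ht2 : t2 = t1 ^ q + q * g) (hqs : (q : O) = (t3 - t1) * bq)
    (hx1 : x1 * t1 ^ 2 = (t1 + 256) ^ 3) (hx3 : x3 * t3 ^ 2 = (t3 + 256) ^ 3)
    (hρ : (t1 ^ 2 * t3 ^ 2 - 196608 * t1 * t3 - 16777216 * (t1 + t3)) * ρ' = 1)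
    (hD2 : ((t2 + 256) ^ 2 * (t2 - 512) * t1 ^ 3) * e2 = 1)
    (hϑ : (q : O) * ϑj = (x3 - x1) ^ (q - 1)) (hy : ϑj + wj = (x3 - x1) * y)
    (hwt : wt * ((t2 + 256) ^ 2 * (t2 - 512) * t1 ^ 3)
      = wj * ((t1 + 256) ^ 2 * (t1 - 512) * t2 ^ 3)) :
    ∃ ϑ y' : O, (q : O) * ϑ = (t3 - t1) ^ (q - 1) ∧ ϑ + wt = (t3 - t1) * y' := by
  have hT : (t1 ^ 2 * t3 ^ 2) * (i1 ^ 2 * i3 ^ 2) = 1 := by
    linear_combination (t1 * i1 + 1) * (t3 * i3) ^ 2 * h1 + (t3 * i3 + 1) * h3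
  have hsT : (x3 - x1) * (t1 ^ 2 * t3 ^ 2)
      = (t3 - t1) * (t1 ^ 2 * t3 ^ 2 - 196608 * t1 * t3 - 16777216 * (t1 + t3)) := by
    linear_combination t1 ^ 2 * hx3 - t3 ^ 2 * hx1
  have hs : x3 - x1 = (t3 - t1) *
      ((t1 ^ 2 * t3 ^ 2 - 196608 * t1 * t3 - 16777216 * (t1 + t3)) * (i1 ^ 2 * i3 ^ 2)) := by
    linear_combination (i1 ^ 2 * i3 ^ 2) * hsT - (x3 - x1) * hT
  have hρρ : ((t1 ^ 2 * t3 ^ 2 - 196608 * t1 * t3 - 16777216 * (t1 + t3)) * (i1 ^ 2 * i3 ^ 2))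
      * (ρ' * (t1 ^ 2 * t3 ^ 2)) = 1 := by
    linear_combination ((t1 ^ 2 * t3 ^ 2) * (i1 ^ 2 * i3 ^ 2)) * hρ + hT
  -- the congruence modulo `t3 - t1`
  have hz : ∃ z : O, ((t1 + 256) ^ 2 * (t1 - 512) * t2 ^ 3) *
      ((t1 ^ 2 * t3 ^ 2 - 196608 * t1 * t3 - 16777216 * (t1 + t3)) * (i1 ^ 2 * i3 ^ 2)) ^ (q - 1)
      - (t2 + 256) ^ 2 * (t2 - 512) * t1 ^ 3 = (t3 - t1) * z := by
    set I : Ideal O := Ideal.span {t3 - t1} with hI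
    have hmem : ((t1 + 256) ^ 2 * (t1 - 512) * t2 ^ 3) *
        ((t1 ^ 2 * t3 ^ 2 - 196608 * t1 * t3 - 16777216 * (t1 + t3)) * (i1 ^ 2 * i3 ^ 2)) ^ (q - 1)
        - (t2 + 256) ^ 2 * (t2 - 512) * t1 ^ 3 ∈ I := by
      rw [← Ideal.Quotient.eq_zero_iff_mem]
      set φ := Ideal.Quotient.mk I with hφ
      have h31 : φ t3 = φ t1 := by
        have : φ (t3 - t1) = 0 :=
          Ideal.Quotient.eq_zero_iff_mem.mpr (Ideal.subset_span (Set.mem_singleton _))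
        rw [map_sub] at this
        exact sub_eq_zero.mp this
      have hq0 : ((q : ℕ) : O ⧸ I) = 0 := by
        have : φ ((q : O)) = 0 := by
          rw [hqs, map_mul, map_sub, h31, sub_self, zero_mul]
        simpa using this
      have hab : φ t1 * φ i1 = 1 := by rw [← map_mul, h1, map_one]
      have hi3 : φ i3 = φ i1 := by
        have h3' : φ t1 * φ i3 = 1 := by rw [← h31, ← map_mul, h3, map_one]
        calc φ i3 = φ i3 * (φ t1 * φ i1) := by rw [hab, mul_one]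
          _ = (φ t1 * φ i3) * φ i1 := by ring
          _ = φ i1 := by rw [h3', one_mul]
      have ht2' : φ t2 = φ t1 ^ q := by
        rw [ht2, map_add, map_mul, map_pow, map_natCast, hq0, zero_mul, add_zero]
      have hfrob := c2d24_frob hq hq0 ((X + 256) ^ 2 * (X - 512) : Polynomial ℤ) (φ t1)
      simp only [map_mul, map_pow, map_add, map_sub, aeval_X, map_ofNat] at hfrob
      obtain ⟨m, rfl⟩ : ∃ m, q = m + 1 := ⟨q - 1, by have := hq.pos; omega⟩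
      simp only [map_sub, map_mul, map_pow, map_add, map_ofNat, h31, hi3, ht2',
        Nat.add_sub_cancel]
      rw [← hfrob]
      linear_combination c2d24_aux2 (φ t1) (φ i1) m hab
    obtain ⟨z, hz⟩ := Ideal.mem_span_singleton'.mp hmem
    exact ⟨z, by rw [← hz]; ring⟩
  obtain ⟨z, hz⟩ := hz
  exact c2d24_coord_abs (x3 - x1) (t3 - t1) _ _ _ e2 _ ϑj wj y wt z hs hρρ hD2 hϑ hy hwt hz

/-- **Transport to the Hauptmodul of level 3.** -/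
theorem c2d24_coord3 {O : Type*} [CommRing O] {q : ℕ} (hq : q.Prime)
    (t1 t2 t3 i1 i3 g bq x1 x3 ρ' e2 ϑj wj y wt : O)
    (h1 : t1 * i1 = 1) (h3 : t3 * i3 = 1)
    (ht2 : t2 = t1 ^ q + q * g) (hqs : (q : O) = (t3 - t1) * bq)
    (hx1 : x1 * t1 ^ 3 = (t1 + 27) * (t1 + 243) ^ 3)
    (hx3 : x3 * t3 ^ 3 = (t3 + 27) * (t3 + 243) ^ 3)
    (hρ : (t1 ^ 3 * t3 ^ 3 - 196830 * t1 ^ 2 * t3 ^ 2 - 19131876 * t1 * t3 * (t1 + t3)
      - 387420489 * (t1 ^ 2 + t1 * t3 + t3 ^ 2)) * ρ' = 1)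
    (hD2 : ((t2 + 243) ^ 2 * (t2 ^ 2 - 486 * t2 - 19683) * t1 ^ 4) * e2 = 1)
    (hϑ : (q : O) * ϑj = (x3 - x1) ^ (q - 1)) (hy : ϑj + wj = (x3 - x1) * y)
    (hwt : wt * ((t2 + 243) ^ 2 * (t2 ^ 2 - 486 * t2 - 19683) * t1 ^ 4)
      = wj * ((t1 + 243) ^ 2 * (t1 ^ 2 - 486 * t1 - 19683) * t2 ^ 4)) :
    ∃ ϑ y' : O, (q : O) * ϑ = (t3 - t1) ^ (q - 1) ∧ ϑ + wt = (t3 - t1) * y' := by
  have hT : (t1 ^ 3 * t3 ^ 3) * (i1 ^ 3 * i3 ^ 3) = 1 := by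
    linear_combination ((t1 * i1) ^ 2 + t1 * i1 + 1) * (t3 * i3) ^ 3 * h1
      + ((t3 * i3) ^ 2 + t3 * i3 + 1) * h3
  have hsT : (x3 - x1) * (t1 ^ 3 * t3 ^ 3)
      = (t3 - t1) * (t1 ^ 3 * t3 ^ 3 - 196830 * t1 ^ 2 * t3 ^ 2 - 19131876 * t1 * t3 * (t1 + t3)
        - 387420489 * (t1 ^ 2 + t1 * t3 + t3 ^ 2)) := by
    linear_combination t1 ^ 3 * hx3 - t3 ^ 3 * hx1
  have hs : x3 - x1 = (t3 - t1) *
      ((t1 ^ 3 * t3 ^ 3 - 196830 * t1 ^ 2 * t3 ^ 2 - 19131876 * t1 * t3 * (t1 + t3)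
        - 387420489 * (t1 ^ 2 + t1 * t3 + t3 ^ 2)) * (i1 ^ 3 * i3 ^ 3)) := by
    linear_combination (i1 ^ 3 * i3 ^ 3) * hsT - (x3 - x1) * hT
  have hρρ : ((t1 ^ 3 * t3 ^ 3 - 196830 * t1 ^ 2 * t3 ^ 2 - 19131876 * t1 * t3 * (t1 + t3)
        - 387420489 * (t1 ^ 2 + t1 * t3 + t3 ^ 2)) * (i1 ^ 3 * i3 ^ 3))
      * (ρ' * (t1 ^ 3 * t3 ^ 3)) = 1 := by
    linear_combination ((t1 ^ 3 * t3 ^ 3) * (i1 ^ 3 * i3 ^ 3)) * hρ + hT
  have hz : ∃ z : O, ((t1 + 243) ^ 2 * (t1 ^ 2 - 486 * t1 - 19683) * t2 ^ 4) *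
      ((t1 ^ 3 * t3 ^ 3 - 196830 * t1 ^ 2 * t3 ^ 2 - 19131876 * t1 * t3 * (t1 + t3)
        - 387420489 * (t1 ^ 2 + t1 * t3 + t3 ^ 2)) * (i1 ^ 3 * i3 ^ 3)) ^ (q - 1)
      - (t2 + 243) ^ 2 * (t2 ^ 2 - 486 * t2 - 19683) * t1 ^ 4 = (t3 - t1) * z := by
    set I : Ideal O := Ideal.span {t3 - t1} with hI
    have hmem : ((t1 + 243) ^ 2 * (t1 ^ 2 - 486 * t1 - 19683) * t2 ^ 4) *
        ((t1 ^ 3 * t3 ^ 3 - 196830 * t1 ^ 2 * t3 ^ 2 - 19131876 * t1 * t3 * (t1 + t3)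
          - 387420489 * (t1 ^ 2 + t1 * t3 + t3 ^ 2)) * (i1 ^ 3 * i3 ^ 3)) ^ (q - 1)
        - (t2 + 243) ^ 2 * (t2 ^ 2 - 486 * t2 - 19683) * t1 ^ 4 ∈ I := by
      rw [← Ideal.Quotient.eq_zero_iff_mem]
      set φ := Ideal.Quotient.mk I with hφ
      have h31 : φ t3 = φ t1 := by
        have : φ (t3 - t1) = 0 :=
          Ideal.Quotient.eq_zero_iff_mem.mpr (Ideal.subset_span (Set.mem_singleton _))
        rw [map_sub] at this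
        exact sub_eq_zero.mp this
      have hq0 : ((q : ℕ) : O ⧸ I) = 0 := by
        have : φ ((q : O)) = 0 := by
          rw [hqs, map_mul, map_sub, h31, sub_self, zero_mul]
        simpa using this
      have hab : φ t1 * φ i1 = 1 := by rw [← map_mul, h1, map_one]
      have hi3 : φ i3 = φ i1 := by
        have h3' : φ t1 * φ i3 = 1 := by rw [← h31, ← map_mul, h3, map_one]
        calc φ i3 = φ i3 * (φ t1 * φ i1) := by rw [hab, mul_one]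
          _ = (φ t1 * φ i3) * φ i1 := by ring
          _ = φ i1 := by rw [h3', one_mul]
      have ht2' : φ t2 = φ t1 ^ q := by
        rw [ht2, map_add, map_mul, map_pow, map_natCast, hq0, zero_mul, add_zero]
      have hfrob := c2d24_frob hq hq0
        ((X + 243) ^ 2 * (X ^ 2 - 486 * X - 19683) : Polynomial ℤ) (φ t1)
      simp only [map_mul, map_pow, map_add, map_sub, aeval_X, map_ofNat] at hfrob
      obtain ⟨m, rfl⟩ : ∃ m, q = m + 1 := ⟨q - 1, by have := hq.pos; omega⟩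
      simp only [map_sub, map_mul, map_pow, map_add, map_ofNat, h31, hi3, ht2',
        Nat.add_sub_cancel]
      rw [← hfrob]
      linear_combination c2d24_aux3 (φ t1) (φ i1) m hab
    obtain ⟨z, hz⟩ := Ideal.mem_span_singleton'.mp hmem
    exact ⟨z, by rw [← hz]; ring⟩
  obtain ⟨z, hz⟩ := hz
  exact c2d24_coord_abs (x3 - x1) (t3 - t1) _ _ _ e2 _ ϑj wj y wt z hs hρρ hD2 hϑ hy hwt hz

/-- Sixth-power identity for `wt`, level 2 (`a = t + 256`, `c = t - 512`, `e = t + 64`). -/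
theorem c2d24_w6_two {F : Type*} [Field F] (t1 t2 x1 J u wj wt : F)
    (ht1 : t1 ≠ 0) (ha2 : t2 + 256 ≠ 0) (hc2 : t2 - 512 ≠ 0)
    (hx1 : x1 * t1 ^ 2 = (t1 + 256) ^ 3) (hJ : J * t2 ^ 2 = (t2 + 256) ^ 3)
    (h6 : wj ^ 6 * (x1 ^ 4 * (x1 - 1728) ^ 3 * u) = J ^ 4 * (J - 1728) ^ 3)
    (hwt : wt * ((t2 + 256) ^ 2 * (t2 - 512) * t1 ^ 3)
      = wj * ((t1 + 256) ^ 2 * (t1 - 512) * t2 ^ 3)) :
    wt ^ 6 * (t1 ^ 4 * (t1 + 64) ^ 3 * u) = t2 ^ 4 * (t2 + 64) ^ 3 := by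
  have key : ∀ (a1 c1 e1 a2 c2 e2 : F), a2 ≠ 0 → c2 ≠ 0 →
      x1 * t1 ^ 2 = a1 ^ 3 → (x1 - 1728) * t1 ^ 2 = c1 ^ 2 * e1 →
      J * t2 ^ 2 = a2 ^ 3 → (J - 1728) * t2 ^ 2 = c2 ^ 2 * e2 →
      wt * (a2 ^ 2 * c2 * t1 ^ 3) = wj * (a1 ^ 2 * c1 * t2 ^ 3) →
      wt ^ 6 * (t1 ^ 4 * e1 ^ 3 * u) = t2 ^ 4 * e2 ^ 3 := by
    intro a1 c1 e1 a2 c2 e2 ha2 hc2 hx1 hb1 hJ hb2 hwt
    have E1 : x1 ^ 4 * (x1 - 1728) ^ 3 * t1 ^ 14 = a1 ^ 12 * c1 ^ 6 * e1 ^ 3 := by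
      calc x1 ^ 4 * (x1 - 1728) ^ 3 * t1 ^ 14
          = (x1 * t1 ^ 2) ^ 4 * ((x1 - 1728) * t1 ^ 2) ^ 3 := by ring
        _ = a1 ^ 12 * c1 ^ 6 * e1 ^ 3 := by rw [hx1, hb1]; ring
    have E2 : J ^ 4 * (J - 1728) ^ 3 * t2 ^ 14 = a2 ^ 12 * c2 ^ 6 * e2 ^ 3 := by
      calc J ^ 4 * (J - 1728) ^ 3 * t2 ^ 14
          = (J * t2 ^ 2) ^ 4 * ((J - 1728) * t2 ^ 2) ^ 3 := by ring
        _ = a2 ^ 12 * c2 ^ 6 * e2 ^ 3 := by rw [hJ, hb2]; ring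
    have H6 : wj ^ 6 * (a1 ^ 12 * c1 ^ 6 * e1 ^ 3) * u * t2 ^ 14
        = a2 ^ 12 * c2 ^ 6 * e2 ^ 3 * t1 ^ 14 := by
      rw [← E1, ← E2]
      linear_combination (t1 ^ 14 * t2 ^ 14) * h6
    have Hw : wt ^ 6 * (a2 ^ 12 * c2 ^ 6 * t1 ^ 18) = wj ^ 6 * (a1 ^ 12 * c1 ^ 6 * t2 ^ 18) := by
      have this : (wt * (a2 ^ 2 * c2 * t1 ^ 3)) ^ 6 = (wj * (a1 ^ 2 * c1 * t2 ^ 3)) ^ 6 := by
        rw [hwt]
      linear_combination this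
    have hne : a2 ^ 12 * c2 ^ 6 * t1 ^ 14 ≠ 0 :=
      mul_ne_zero (mul_ne_zero (pow_ne_zero _ ha2) (pow_ne_zero _ hc2)) (pow_ne_zero _ ht1)
    apply mul_left_cancel₀ hne
    linear_combination (e1 ^ 3 * u) * Hw + t2 ^ 4 * H6
  exact key (t1 + 256) (t1 - 512) (t1 + 64) (t2 + 256) (t2 - 512) (t2 + 64) ha2 hc2 hx1
    (by linear_combination hx1) hJ (by linear_combination hJ) hwt

/-- Sixth-power identity for `wt`, level 3 (`a = t + 27`, `b = t + 243`,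
`c = t² - 486 t - 19683`). -/
theorem c2d24_w6_three {F : Type*} [Field F] (t1 t2 x1 J u wj wt : F)
    (ht1 : t1 ≠ 0) (hb2 : t2 + 243 ≠ 0) (hc2 : t2 ^ 2 - 486 * t2 - 19683 ≠ 0)
    (hx1 : x1 * t1 ^ 3 = (t1 + 27) * (t1 + 243) ^ 3)
    (hJ : J * t2 ^ 3 = (t2 + 27) * (t2 + 243) ^ 3)
    (h6 : wj ^ 6 * (x1 ^ 4 * (x1 - 1728) ^ 3 * u) = J ^ 4 * (J - 1728) ^ 3)
    (hwt : wt * ((t2 + 243) ^ 2 * (t2 ^ 2 - 486 * t2 - 19683) * t1 ^ 4)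
      = wj * ((t1 + 243) ^ 2 * (t1 ^ 2 - 486 * t1 - 19683) * t2 ^ 4)) :
    wt ^ 6 * (t1 ^ 3 * (t1 + 27) ^ 4 * u) = t2 ^ 3 * (t2 + 27) ^ 4 := by
  have key : ∀ (a1 b1 c1 a2 b2 c2 : F), b2 ≠ 0 → c2 ≠ 0 →
      x1 * t1 ^ 3 = a1 * b1 ^ 3 → (x1 - 1728) * t1 ^ 3 = c1 ^ 2 →
      J * t2 ^ 3 = a2 * b2 ^ 3 → (J - 1728) * t2 ^ 3 = c2 ^ 2 →
      wt * (b2 ^ 2 * c2 * t1 ^ 4) = wj * (b1 ^ 2 * c1 * t2 ^ 4) →
      wt ^ 6 * (t1 ^ 3 * a1 ^ 4 * u) = t2 ^ 3 * a2 ^ 4 := by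
    intro a1 b1 c1 a2 b2 c2 hb2 hc2 hx1 hb1 hJ hb2' hwt
    have E1 : x1 ^ 4 * (x1 - 1728) ^ 3 * t1 ^ 21 = a1 ^ 4 * b1 ^ 12 * c1 ^ 6 := by
      calc x1 ^ 4 * (x1 - 1728) ^ 3 * t1 ^ 21
          = (x1 * t1 ^ 3) ^ 4 * ((x1 - 1728) * t1 ^ 3) ^ 3 := by ring
        _ = a1 ^ 4 * b1 ^ 12 * c1 ^ 6 := by rw [hx1, hb1]; ring
    have E2 : J ^ 4 * (J - 1728) ^ 3 * t2 ^ 21 = a2 ^ 4 * b2 ^ 12 * c2 ^ 6 := by
      calc J ^ 4 * (J - 1728) ^ 3 * t2 ^ 21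
          = (J * t2 ^ 3) ^ 4 * ((J - 1728) * t2 ^ 3) ^ 3 := by ring
        _ = a2 ^ 4 * b2 ^ 12 * c2 ^ 6 := by rw [hJ, hb2']; ring
    have H6 : wj ^ 6 * (a1 ^ 4 * b1 ^ 12 * c1 ^ 6) * u * t2 ^ 21
        = a2 ^ 4 * b2 ^ 12 * c2 ^ 6 * t1 ^ 21 := by
      rw [← E1, ← E2]
      linear_combination (t1 ^ 21 * t2 ^ 21) * h6
    have Hw : wt ^ 6 * (b2 ^ 12 * c2 ^ 6 * t1 ^ 24) = wj ^ 6 * (b1 ^ 12 * c1 ^ 6 * t2 ^ 24) := by
      have this : (wt * (b2 ^ 2 * c2 * t1 ^ 4)) ^ 6 = (wj * (b1 ^ 2 * c1 * t2 ^ 4)) ^ 6 := by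
        rw [hwt]
      linear_combination this
    have hne : b2 ^ 12 * c2 ^ 6 * t1 ^ 21 ≠ 0 :=
      mul_ne_zero (mul_ne_zero (pow_ne_zero _ hb2) (pow_ne_zero _ hc2)) (pow_ne_zero _ ht1)
    apply mul_left_cancel₀ hne
    linear_combination (a1 ^ 4 * u) * Hw + t2 ^ 3 * H6
  exact key (t1 + 27) (t1 + 243) (t1 ^ 2 - 486 * t1 - 19683) (t2 + 27) (t2 + 243)
    (t2 ^ 2 - 486 * t2 - 19683) hb2 hc2 hx1 (by linear_combination hx1) hJ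
    (by linear_combination hJ) hwt

/-- **No exceptional point.**  In a commutative ring with the two Hauptmodul relations for the
same `j` (`(h₂ + 256)³ h₃³ = (h₃ + 27) (h₃ + 243)³ h₂²`), at a prime `n` not containing `6`:
`h₂ + 64 ∉ n` or `h₃ + 27 ∉ n`. -/
theorem c2d24_cover {B : Type*} [CommRing B] (n : Ideal B) [hn : n.IsPrime] (h2 h3 : B)
    (hrel : (h2 + 256) ^ 3 * h3 ^ 3 = (h3 + 27) * (h3 + 243) ^ 3 * h2 ^ 2)
    (h6 : (6 : B) ∉ n) : h2 + 64 ∉ n ∨ h3 + 27 ∉ n := by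
  by_contra hcon
  obtain ⟨ha', hb'⟩ := not_or.mp hcon
  have ha : h2 + 64 ∈ n := not_not.mp ha'
  have hb : h3 + 27 ∈ n := not_not.mp hb'
  have hmem : (h2 + 256) ^ 3 * h3 ^ 3 ∈ n := by
    rw [hrel, mul_assoc]
    exact n.mul_mem_right _ hb
  have h23 : ∀ x : B, x ∈ n → ∀ k l : ℕ, x = (2 : B) ^ k * 3 ^ l → False := by
    intro x hx k l hxe
    rw [hxe] at hx
    have h2or3 : (2 : B) ∈ n ∨ (3 : B) ∈ n := by
      rcases hn.mem_or_mem hx with h | h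
      · exact Or.inl (hn.mem_of_pow_mem _ h)
      · exact Or.inr (hn.mem_of_pow_mem _ h)
    apply h6
    rcases h2or3 with h | h
    · have : (6 : B) = 2 * 3 := by norm_num
      rw [this]; exact n.mul_mem_right _ h
    · have : (6 : B) = 2 * 3 := by norm_num
      rw [this]; exact n.mul_mem_left _ h
  rcases hn.mem_or_mem hmem with h | h
  · have h' : h2 + 256 ∈ n := hn.mem_of_pow_mem _ h
    have : (h2 + 256) - (h2 + 64) ∈ n := n.sub_mem h' ha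
    exact h23 _ this 6 1 (by ring)
  · have h' : h3 ∈ n := hn.mem_of_pow_mem _ h
    have : (h3 + 27) - h3 ∈ n := n.sub_mem hb h'
    exact h23 _ this 0 3 (by ring)

/-- **Frobenius at a closed point.**  `n` a prime containing `q`, `t2 ≡ t1^q` modulo `n` up to
a factor `c ∉ n` (in the application `c (t2 - t1^q) = q · (g c)` with `c` a separator): for every
integer polynomial `P`, `P(t2) ∈ n ↔ P(t1) ∈ n`. -/
theorem c2d24_frob_mem {B : Type*} [CommRing B] (n : Ideal B) [hn : n.IsPrime] {q : ℕ}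
    (hq : q.Prime) (hqn : (q : B) ∈ n) (t1 t2 c : B) (hc : c ∉ n)
    (hct : c * (t2 - t1 ^ q) ∈ n) (P : Polynomial ℤ) :
    aeval t2 P ∈ n ↔ aeval t1 P ∈ n := by
  have ht : t2 - t1 ^ q ∈ n := (hn.mem_or_mem hct).resolve_left hc
  set φ := Ideal.Quotient.mk n with hφ
  have hq0 : ((q : ℕ) : B ⧸ n) = 0 := by
    have : φ ((q : B)) = 0 := Ideal.Quotient.eq_zero_iff_mem.mpr hqn
    simpa using this
  have h21 : φ t2 = φ t1 ^ q := by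
    have : φ (t2 - t1 ^ q) = 0 := Ideal.Quotient.eq_zero_iff_mem.mpr ht
    rw [map_sub, map_pow] at this
    exact sub_eq_zero.mp this
  have hP : ∀ t : B, φ (aeval t P) = aeval (φ t) P := by
    intro t
    exact (Polynomial.aeval_algHom_apply (Ideal.Quotient.mkₐ ℤ n) t P).symm
  have key : φ (aeval t2 P) = φ (aeval t1 P) ^ q := by
    rw [hP, hP, h21]
    exact (c2d24_frob hq hq0 P (φ t1)).symm
  rw [← Ideal.Quotient.eq_zero_iff_mem, ← Ideal.Quotient.eq_zero_iff_mem, ← hφ, key]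
  exact pow_eq_zero_iff hq.ne_zero

end Fermat.Agent.S36
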