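import Mathlib

/-!
# S36 lab (helper65): residue characteristic `2`, `3` — from "`J` is a unit" to the Hauptmodul
units (Mathlib only)

Companion of `UnitJSmall65` (`U ≡ J ^ (q - 1)` mod `q` for `q ∈ {2, 3}`, hence `J ∉ n` at every
closed point `n` where `U` is a unit).  Here: the elementary consequences for the Hauptmoduln of
level `3` (when `q = 2`) and of level `2` (when `q = 3`), in a commutative ring `A` with a prime
ideal `P` (the chart, or its local ring, with the closed point):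

* `ujh65_frob`   : `jq - j ^ q ∈ P`, `j ∉ P`  ⟹  `jq ∉ P`  (`J(Q^q)` is a unit where `J` is);
* `ujh65_level3` : `2 ∈ P`, `j ∉ P`, `j h³ = (h + 27)(h + 243)³`  ⟹  `h`, `h + 27`, `h + 243`,
  `h² - 486 h - 19683 ∉ P`;
* `ujh65_level2` : `3 ∈ P`, `j ∉ P`, `j h² = (h + 256)³`  ⟹  `h`, `h + 64`, `h + 256`,
  `h - 512 ∉ P`.

So for `q = 2` (resp. `q = 3`) the exceptional locus `h₃ = -27` (resp. `h₂ = -64`) of the
Hauptmodul route contains no closed point at which `U` is a unit.

All names are prefixed `ujh65_`.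
-/

set_option autoImplicit false

namespace Fermat.Agent.S36

variable {A : Type*} [CommRing A]

/-- `jq ≡ j ^ q` modulo `P` and `j ∉ P` give `jq ∉ P`. -/
theorem ujh65_frob (P : Ideal A) [hP : P.IsPrime] (j jq : A) (q : ℕ)
    (hfrob : jq - j ^ q ∈ P) (hj : j ∉ P) : jq ∉ P := by
  intro h
  have h1 : j ^ q ∈ P := by
    have h2 : j ^ q = jq - (jq - j ^ q) := by ring
    rw [h2]
    exact P.sub_mem h hfrob
  exact hj (hP.mem_of_pow_mem q h1)

/-- Residue characteristic `2`, Hauptmodul of level `3`. -/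
theorem ujh65_level3 (P : Ideal A) [hP : P.IsPrime] (j h : A) (h2 : (2 : A) ∈ P) (hj : j ∉ P)
    (hrel : j * h ^ 3 = (h + 27) * (h + 243) ^ 3) :
    h ∉ P ∧ h + 27 ∉ P ∧ h + 243 ∉ P ∧ h ^ 2 - 486 * h - 19683 ∉ P := by
  have h1 : (1 : A) ∉ P := fun h => hP.ne_top ((Ideal.eq_top_iff_one P).mpr h)
  -- `h + 1 ∉ P`
  have hkey : h + 1 ∉ P := by
    intro hh
    -- then `(h + 27) ∈ P`, so `j h^3 ∈ P`, so `h ∈ P`, so `1 ∈ P`
    have h27 : h + 27 ∈ P := by
      have e : h + 27 = (h + 1) + 13 * 2 := by ring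
      rw [e]
      exact P.add_mem hh (P.mul_mem_left _ h2)
    have hjh : j * h ^ 3 ∈ P := by
      rw [hrel]
      exact P.mul_mem_right _ h27
    have hh3 : h ^ 3 ∈ P := (hP.mem_or_mem hjh).resolve_left hj
    have hhP : h ∈ P := hP.mem_of_pow_mem 3 hh3
    apply h1
    have e : (1 : A) = (h + 1) - h := by ring
    rw [e]
    exact P.sub_mem hh hhP
  have hh : h ∉ P := by
    intro hhP
    -- `(h + 27)(h + 243)^3 ∈ P`, so `h + 27 ∈ P` or `h + 243 ∈ P`, each gives `1 ∈ P`
    have hprod : (h + 27) * (h + 243) ^ 3 ∈ P := by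
      rw [← hrel]
      exact P.mul_mem_left _ (P.pow_mem_of_mem hhP 3 (by norm_num))
    rcases hP.mem_or_mem hprod with h27 | h243
    · apply h1
      have e : (1 : A) = (h + 27) - h - 13 * 2 := by ring
      rw [e]
      exact P.sub_mem (P.sub_mem h27 hhP) (P.mul_mem_left _ h2)
    · have h243' : h + 243 ∈ P := hP.mem_of_pow_mem 3 h243
      apply h1
      have e : (1 : A) = (h + 243) - h - 121 * 2 := by ring
      rw [e]
      exact P.sub_mem (P.sub_mem h243' hhP) (P.mul_mem_left _ h2)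
  refine ⟨hh, ?_, ?_, ?_⟩
  · intro h27
    apply hkey
    have e : h + 1 = (h + 27) - 13 * 2 := by ring
    rw [e]
    exact P.sub_mem h27 (P.mul_mem_left _ h2)
  · intro h243
    apply hkey
    have e : h + 1 = (h + 243) - 121 * 2 := by ring
    rw [e]
    exact P.sub_mem h243 (P.mul_mem_left _ h2)
  · intro hq
    -- `h^2 - 486 h - 19683 = (h + 1)^2 - 2 * (244 h + 9842)`
    have hsq : (h + 1) ^ 2 ∈ P := by
      have e : (h + 1) ^ 2 = (h ^ 2 - 486 * h - 19683) + (244 * h + 9842) * 2 := by ring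
      rw [e]
      exact P.add_mem hq (P.mul_mem_left _ h2)
    exact hkey (hP.mem_of_pow_mem 2 hsq)

/-- Residue characteristic `3`, Hauptmodul of level `2`. -/
theorem ujh65_level2 (P : Ideal A) [hP : P.IsPrime] (j h : A) (h3 : (3 : A) ∈ P) (hj : j ∉ P)
    (hrel : j * h ^ 2 = (h + 256) ^ 3) :
    h ∉ P ∧ h + 64 ∉ P ∧ h + 256 ∉ P ∧ h - 512 ∉ P := by
  have h1 : (1 : A) ∉ P := fun h => hP.ne_top ((Ideal.eq_top_iff_one P).mpr h)
  have hkey : h + 1 ∉ P := by
    intro hh
    have h256 : h + 256 ∈ P := by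
      have e : h + 256 = (h + 1) + 85 * 3 := by ring
      rw [e]
      exact P.add_mem hh (P.mul_mem_left _ h3)
    have hjh : j * h ^ 2 ∈ P := by
      rw [hrel]
      exact P.pow_mem_of_mem h256 3 (by norm_num)
    have hh2 : h ^ 2 ∈ P := (hP.mem_or_mem hjh).resolve_left hj
    have hhP : h ∈ P := hP.mem_of_pow_mem 2 hh2
    apply h1
    have e : (1 : A) = (h + 1) - h := by ring
    rw [e]
    exact P.sub_mem hh hhP
  have hh : h ∉ P := by
    intro hhP
    have hpow : (h + 256) ^ 3 ∈ P := by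
      rw [← hrel]
      exact P.mul_mem_left _ (P.pow_mem_of_mem hhP 2 (by norm_num))
    have h256 : h + 256 ∈ P := hP.mem_of_pow_mem 3 hpow
    apply h1
    have e : (1 : A) = (h + 256) - h - 85 * 3 := by ring
    rw [e]
    exact P.sub_mem (P.sub_mem h256 hhP) (P.mul_mem_left _ h3)
  refine ⟨hh, ?_, ?_, ?_⟩
  · intro h64
    apply hkey
    have e : h + 1 = (h + 64) - 21 * 3 := by ring
    rw [e]
    exact P.sub_mem h64 (P.mul_mem_left _ h3)
  · intro h256
    apply hkey
    have e : h + 1 = (h + 256) - 85 * 3 := by ring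
    rw [e]
    exact P.sub_mem h256 (P.mul_mem_left _ h3)
  · intro h512
    apply hkey
    have e : h + 1 = (h - 512) + 171 * 3 := by ring
    rw [e]
    exact P.add_mem h512 (P.mul_mem_left _ h3)

end Fermat.Agent.S36
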