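import Mathlib
import Fermat.Agent.S34.SpecFibre79
import Fermat.Agent.S34.UVAt17
import Fermat.Agent.S36.GlueBridge26
import Fermat.Agent.S36.C2Coord24
import Fermat.Agent.S36.UnitJSmallH65
import Fermat.Agent.S36.LocStrThree71

/-!
# S36 lab (helper91), row C-C2 (600): the CHART SIDE at a closed point `n` on the middle
component only where `j` is regular — everything in the local ring `sf79_loc B n`

`B` is a chart (integrally closed subalgebra of the function field `F`), `n` a prime of `B`.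
"`x` is regular at `n`" is `x ∈ sf79_loc B n`, "`x` vanishes at `n`" is `sf79_nmem B n x`.

* `c2s91_loc_of_reg`, `c2s91_reg_of_integral` : the literal regularity hypothesis on `j` gives
  `j ∈ B_n`, and everything integral over `R[j]` is in `B_n`.
* `c2s91_den`, `c2s91_unit_data`, `c2s91_not_nmem_of_clear` : denominators.
* `c2s91_sb` : the chart datum `(s, b)` with `s = b * (t3 - t1)`, `b ∉ n`, `b⁻¹ ∈ V₂`.
* `c2s91_frob`, `c2s91_frob_add` : Frobenius transfer of unit conditions along the middle branch.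
* `c2s91_nozero`, `c2s91_nozero_two`, `c2s91_nozero_three` : the chart datum `(aw, tw)`.
* `c2s91_unit_two`, `c2s91_unit_three` : the Hauptmodul is a unit of `B_n` where `j` is regular.
* `c2s91_cover`, `c2s91_small_two`, `c2s91_small_three` : the case split.
-/

set_option autoImplicit false

namespace Fermat.Agent.S36

open Polynomial Fermat.Agent.S34 TripleLoc71

section c2s91

variable {R F : Type*} [CommRing R] [Field F] [Algebra R F]

/-- The literal regularity hypothesis on `j` says `j ∈ B_n`. -/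
theorem c2s91_loc_of_reg (B : Subalgebra R F) (n : Ideal B) [hn : n.IsPrime] (j : F)
    (h : ∃ s' b : B, s' ∉ n ∧ (s' : F) * j = (b : F)) : j ∈ sf79_loc B n := by
  obtain ⟨s', b, hs', e⟩ := h
  exact ⟨s', hs', by rw [e]; exact b.2⟩

/-- Everything integral over `R[j]` is regular where `j` is. -/
theorem c2s91_reg_of_integral (B : Subalgebra R F) (hBint : ∀ z : F, IsIntegral B z → z ∈ B)
    (n : Ideal B) [hn : n.IsPrime] (j x : F) (hj : j ∈ sf79_loc B n)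
    (hx : IsIntegral (Algebra.adjoin R ({j} : Set F)) x) : x ∈ sf79_loc B n := by
  obtain ⟨s, hs, hsj⟩ := hj
  obtain ⟨k, hk⟩ := uv17_clear B hBint j x hx (s : F) s.2 hsj
  exact ⟨s ^ k, fun h => hs (hn.mem_of_pow_mem k h), by push_cast; exact hk⟩

/-- Denominator form of `x ∈ B_n`. -/
theorem c2s91_den (B : Subalgebra R F) (n : Ideal B) [hn : n.IsPrime] (x : F)
    (hx : x ∈ sf79_loc B n) : ∃ b sB : B, b ∉ n ∧ (sB : F) = (b : F) * x := by
  obtain ⟨b, hb, hbx⟩ := hx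
  exact ⟨b, ⟨_, hbx⟩, hb, rfl⟩

/-- A cleared numerator outside `n` shows that `x` does not vanish at `n`. -/
theorem c2s91_not_nmem_of_clear (B : Subalgebra R F) (n : Ideal B) [hn : n.IsPrime] (s : B)
    (x : F) (hsx : (s : F) * x ∈ B) (h : (⟨(s : F) * x, hsx⟩ : B) ∉ n) :
    ¬ sf79_nmem B n x := by
  rintro ⟨t, ht, c, hc, e⟩
  apply h
  have e' : t * (⟨(s : F) * x, hsx⟩ : B) = s * c :=
    Subtype.ext (by push_cast; rw [← e]; ring)
  have hm : t * (⟨(s : F) * x, hsx⟩ : B) ∈ n := by rw [e']; exact n.mul_mem_left _ hc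
  exact (hn.mem_or_mem hm).resolve_left ht

/-- A unit of `B_n` as a quotient of two elements of `B` outside `n`. -/
theorem c2s91_unit_data (B : Subalgebra R F) (n : Ideal B) [hn : n.IsPrime] (x : F)
    (hx : x ∈ sf79_loc B n) (hu : ¬ sf79_nmem B n x) :
    ∃ e d : B, d ∉ n ∧ e ∉ n ∧ (e : F) = (d : F) * x := by
  obtain ⟨d, hd, hdx⟩ := hx
  exact ⟨⟨_, hdx⟩, d, hd, fun he => hu ⟨d, hd, ⟨_, hdx⟩, he, rfl⟩, rfl⟩

theorem c2s91_not_nmem_mul (B : Subalgebra R F) (n : Ideal B) [hn : n.IsPrime] (x y : F)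
    (hx : x ∈ sf79_loc B n) (hy : y ∈ sf79_loc B n) (hxu : ¬ sf79_nmem B n x)
    (hyu : ¬ sf79_nmem B n y) : ¬ sf79_nmem B n (x * y) := by
  intro h
  have hx0 : x ≠ 0 := by
    rintro rfl
    exact hxu (gcb26_nmem_zero B n)
  have hy0 : y ≠ 0 := by
    rintro rfl
    exact hyu (gcb26_nmem_zero B n)
  have hxi := gcb26_inv_mem B n x hx hxu
  have hyi := gcb26_inv_mem B n y hy hyu
  refine gcb26_not_unit B n (x * y) (x⁻¹ * y⁻¹) h ((sf79_loc B n).mul_mem hxi hyi) ?_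
  field_simp

theorem c2s91_not_nmem_pow (B : Subalgebra R F) (n : Ideal B) [hn : n.IsPrime] (x : F)
    (hx : x ∈ sf79_loc B n) (hxu : ¬ sf79_nmem B n x) (k : ℕ) : ¬ sf79_nmem B n (x ^ k) := by
  induction k with
  | zero => rw [pow_zero]; exact sf79_not_nmem_one B n
  | succ k ih =>
    rw [pow_succ]
    exact c2s91_not_nmem_mul B n _ _ ((sf79_loc B n).pow_mem hx k) hx ih hxu

/-- The maximal ideal of the local ring `B_n` is `sf79_nmem B n`. -/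
theorem c2s91_max_iff (B : Subalgebra R F) (n : Ideal B) [hn : n.IsPrime]
    [IsLocalRing (sf79_loc B n)] (a : sf79_loc B n) :
    a ∈ IsLocalRing.maximalIdeal (sf79_loc B n) ↔ sf79_nmem B n (a : F) := by
  rw [IsLocalRing.mem_maximalIdeal]
  exact gcb26_nonunits_iff B n a

/-- An element regular at a point of the middle branch and divisible by `σ` in `V₂` vanishes
at the point. -/
theorem c2s91_nmem_of_mid (B : Subalgebra R F) (n : Ideal B) [hn : n.IsPrime] (V₂ : Subring F)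
    (hB₂ : ∀ x ∈ B, x ∈ V₂) (σ : F) (hmid : tl71_OnMid σ B V₂ n) (x : F)
    (hx : x ∈ sf79_loc B n) (hxσ : x * σ⁻¹ ∈ V₂) : sf79_nmem B n x := by
  obtain ⟨s, hs, hsx⟩ := hx
  refine ⟨s, hs, ⟨_, hsx⟩, ?_, rfl⟩
  apply hmid
  have : ((⟨(s : F) * x, hsx⟩ : B) : F) * σ⁻¹ = (s : F) * (x * σ⁻¹) := by ring
  rw [this]
  exact V₂.mul_mem (hB₂ _ s.2) hxσ

/-- At a point of the middle branch every element of `B` outside `n` is a unit of `V₂`. -/
theorem c2s91_inv_mem_V2 (B : Subalgebra R F) (n : Ideal B) (V₂ : ValuationSubring F)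
    (hB₂ : ∀ x ∈ B, x ∈ V₂.toSubring) (σ : F)
    (hσ : ∀ z ∈ V₂, z⁻¹ ∉ V₂ → σ⁻¹ * z ∈ V₂)
    (hmid : tl71_OnMid σ B V₂.toSubring n) (b : B) (hb : b ∉ n) : (b : F)⁻¹ ∈ V₂ := by
  by_contra hcon
  apply hb
  apply hmid
  have := hσ (b : F) (hB₂ _ b.2) hcon
  rw [mul_comm]
  exact this

/-- **Chart datum `(s, b)`** of `c2f24_prinAt_two/three`, for ANY `x ∈ B_n`
(`x = t3 - t1`). -/
theorem c2s91_sb_of_loc (B : Subalgebra R F) (n : Ideal B) [hn : n.IsPrime]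
    (V₂ : ValuationSubring F) (hB₂ : ∀ x ∈ B, x ∈ V₂.toSubring) (σ : F)
    (hσ : ∀ z ∈ V₂, z⁻¹ ∉ V₂ → σ⁻¹ * z ∈ V₂)
    (hmid : tl71_OnMid σ B V₂.toSubring n) (x : F) (hx : x ∈ sf79_loc B n) :
    ∃ s b : B, (s : F) = (b : F) * x ∧ b ∉ n ∧ (b : F)⁻¹ ∈ V₂ := by
  obtain ⟨b, hb, hbx⟩ := hx
  exact ⟨⟨_, hbx⟩, b, rfl, hb, c2s91_inv_mem_V2 B n V₂ hB₂ σ hσ hmid b hb⟩

/-- **Chart datum `(s, b)`** of `c2f24_prinAt_two/three`. -/
theorem c2s91_sb (B : Subalgebra R F) (n : Ideal B) [hn : n.IsPrime]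
    (V₂ : ValuationSubring F) (hB₂ : ∀ x ∈ B, x ∈ V₂.toSubring) (σ : F)
    (hσ : ∀ z ∈ V₂, z⁻¹ ∉ V₂ → σ⁻¹ * z ∈ V₂)
    (hmid : tl71_OnMid σ B V₂.toSubring n) (t1 t3 : F) (h1 : t1 ∈ sf79_loc B n)
    (h3 : t3 ∈ sf79_loc B n) :
    ∃ s b : B, (s : F) = (b : F) * (t3 - t1) ∧ b ∉ n ∧ (b : F)⁻¹ ∈ V₂ :=
  c2s91_sb_of_loc B n V₂ hB₂ σ hσ hmid _ ((sf79_loc B n).sub_mem h3 h1)

/-- **Frobenius transfer along the middle branch**: if `t2 ≡ t1 ^ q` modulo `σ V₂` then an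
integral polynomial vanishes at `n` on `t2` iff it does on `t1`. -/
theorem c2s91_frob (B : Subalgebra R F) (n : Ideal B) [hn : n.IsPrime] (V₂ : Subring F)
    (hB₂ : ∀ x ∈ B, x ∈ V₂) (σ : F) (hmid : tl71_OnMid σ B V₂ n) {q : ℕ} (hq : q.Prime)
    (hqn : ((q : ℕ) : B) ∈ n) (t1 t2 : F) (h1 : t1 ∈ sf79_loc B n) (h2 : t2 ∈ sf79_loc B n)
    (hfrob : (t2 - t1 ^ q) * σ⁻¹ ∈ V₂) (P : Polynomial ℤ) :
    sf79_nmem B n (aeval t2 P) ↔ sf79_nmem B n (aeval t1 P) := by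
  have := gcb26_isLocalRing B n
  have hd : sf79_nmem B n (t2 - t1 ^ q) :=
    c2s91_nmem_of_mid B n V₂ hB₂ σ hmid _
      ((sf79_loc B n).sub_mem h2 ((sf79_loc B n).pow_mem h1 q)) hfrob
  have hdA : (⟨t2, h2⟩ : sf79_loc B n) - ⟨t1, h1⟩ ^ q
      ∈ IsLocalRing.maximalIdeal (sf79_loc B n) :=
    (c2s91_max_iff B n _).mpr (by push_cast; exact hd)
  have hqA : ((q : ℕ) : sf79_loc B n) ∈ IsLocalRing.maximalIdeal (sf79_loc B n) :=
    (c2s91_max_iff B n _).mpr (by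
      have := sf79_nmem_of_mem B n _ hqn
      simpa using this)
  have h1A : (1 : sf79_loc B n) ∉ IsLocalRing.maximalIdeal (sf79_loc B n) := fun h =>
    (IsLocalRing.maximalIdeal.isMaximal (sf79_loc B n)).ne_top ((Ideal.eq_top_iff_one _).mpr h)
  have key := c2d24_frob_mem (IsLocalRing.maximalIdeal (sf79_loc B n)) hq hqA
    ⟨t1, h1⟩ ⟨t2, h2⟩ 1 h1A (by rw [one_mul]; exact hdA) P
  have hcoe : ∀ (t : F) (ht : t ∈ sf79_loc B n),
      ((aeval (⟨t, ht⟩ : sf79_loc B n) P : sf79_loc B n) : F) = aeval t P := by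
    intro t ht
    have := Polynomial.aeval_algHom_apply ((sf79_loc B n).subtype.toIntAlgHom)
      (⟨t, ht⟩ : sf79_loc B n) P
    exact this.symm
  rw [← hcoe t2 h2, ← hcoe t1 h1, ← c2s91_max_iff, ← c2s91_max_iff]
  exact key

/-- Frobenius transfer of the unit condition on `t + c`. -/
theorem c2s91_frob_add (B : Subalgebra R F) (n : Ideal B) [hn : n.IsPrime] (V₂ : Subring F)
    (hB₂ : ∀ x ∈ B, x ∈ V₂) (σ : F) (hmid : tl71_OnMid σ B V₂ n) {q : ℕ} (hq : q.Prime)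
    (hqn : ((q : ℕ) : B) ∈ n) (t1 t2 : F) (h1 : t1 ∈ sf79_loc B n) (h2 : t2 ∈ sf79_loc B n)
    (hfrob : (t2 - t1 ^ q) * σ⁻¹ ∈ V₂) (c : ℤ) (hu : ¬ sf79_nmem B n (t1 + (c : F))) :
    ¬ sf79_nmem B n (t2 + (c : F)) := by
  have key := c2s91_frob B n V₂ hB₂ σ hmid hq hqn t1 t2 h1 h2 hfrob (X + C c)
  have e : ∀ t : F, aeval t (X + C c : Polynomial ℤ) = t + (c : F) := by
    intro t
    simp
  rw [e, e] at key
  exact fun h => hu (key.mp h)

/-- Frobenius transfer of the unit condition on `t`. -/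
theorem c2s91_frob_unit (B : Subalgebra R F) (n : Ideal B) [hn : n.IsPrime] (V₂ : Subring F)
    (hB₂ : ∀ x ∈ B, x ∈ V₂) (σ : F) (hmid : tl71_OnMid σ B V₂ n) {q : ℕ} (hq : q.Prime)
    (hqn : ((q : ℕ) : B) ∈ n) (t1 t2 : F) (h1 : t1 ∈ sf79_loc B n) (h2 : t2 ∈ sf79_loc B n)
    (hfrob : (t2 - t1 ^ q) * σ⁻¹ ∈ V₂) (hu : ¬ sf79_nmem B n t1) : ¬ sf79_nmem B n t2 := by
  have key := c2s91_frob B n V₂ hB₂ σ hmid hq hqn t1 t2 h1 h2 hfrob X
  simp only [aeval_X] at key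
  exact fun h => hu (key.mp h)

/-- the congruence `t2 ≡ t1 ^ q` in the shape of `c2f24_prinAt_two/three` (`ht2g`). -/
theorem c2s91_frob_of_eq (V₂ : Subring F) (σ : F) (q : ℕ) (t1 t2 g : F) (hg : g ∈ V₂)
    (ht2g : t2 = t1 ^ q + q * g) (hqσ : (q : F) * σ⁻¹ ∈ V₂) : (t2 - t1 ^ q) * σ⁻¹ ∈ V₂ := by
  have : (t2 - t1 ^ q) * σ⁻¹ = g * ((q : F) * σ⁻¹) := by rw [ht2g]; ring
  rw [this]
  exact V₂.mul_mem hg hqσ

/-- **No zero of a sixth root**: `w ^ 6 * D = N` with `D` regular and `N` a unit at `n`. -/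
theorem c2s91_nozero (B : Subalgebra R F) (hBint : ∀ z : F, IsIntegral B z → z ∈ B)
    (n : Ideal B) [hn : n.IsPrime] (w D N : F) (hD : D ∈ sf79_loc B n)
    (hN : N ∈ sf79_loc B n) (hNu : ¬ sf79_nmem B n N) (h6 : w ^ 6 * D = N) :
    ∃ aw tw : B, aw ∉ n ∧ w * (tw : F) = (aw : F) := by
  obtain ⟨d, hd, hdD⟩ := hD
  obtain ⟨e, he, heN⟩ := hN
  have heNn : (⟨_, heN⟩ : B) ∉ n := fun h => hNu ⟨e, he, ⟨_, heN⟩, h, rfl⟩
  have hN0 : N ≠ 0 := by
    rintro rfl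
    exact hNu (gcb26_nmem_zero B n)
  have hw0 : w ≠ 0 := by
    rintro rfl
    apply hN0
    rw [← h6]
    ring
  have hD' : (w⁻¹) ^ 6 * N = D := by
    rw [← h6]
    field_simp
  have hy6 : (w⁻¹ * ((e : F) * N) * (d : F)) ^ 6 ∈ B := by
    have : (w⁻¹ * ((e : F) * N) * (d : F)) ^ 6
        = ((d : F) * D) * ((e : F) * N) ^ 5 * (e : F) * (d : F) ^ 5 := by
      calc (w⁻¹ * ((e : F) * N) * (d : F)) ^ 6
          = ((w⁻¹) ^ 6 * N) * ((e : F) ^ 6 * N ^ 5 * (d : F) ^ 6) := by ring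
        _ = D * ((e : F) ^ 6 * N ^ 5 * (d : F) ^ 6) := by rw [hD']
        _ = ((d : F) * D) * ((e : F) * N) ^ 5 * (e : F) * (d : F) ^ 5 := by ring
    rw [this]
    exact B.mul_mem (B.mul_mem (B.mul_mem hdD (B.pow_mem heN 5)) e.2) (B.pow_mem d.2 5)
  have hy : w⁻¹ * ((e : F) * N) * (d : F) ∈ B := by
    apply hBint
    refine IsIntegral.of_pow (by norm_num : 0 < 6) ?_
    have : IsIntegral B (algebraMap B F ⟨_, hy6⟩) := isIntegral_algebraMap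
    exact this
  refine ⟨⟨_, heN⟩ * d, ⟨_, hy⟩, fun h => (hn.mem_or_mem h).elim heNn hd, ?_⟩
  push_cast
  field_simp

/-- **Chart datum `(aw, tw)` of `c2f24_prinAt_two`.** -/
theorem c2s91_nozero_two (B : Subalgebra R F) (hBint : ∀ z : F, IsIntegral B z → z ∈ B)
    (n : Ideal B) [hn : n.IsPrime] (V₂ : Subring F) (hB₂ : ∀ x ∈ B, x ∈ V₂) (σ : F)
    (hmid : tl71_OnMid σ B V₂ n) {q : ℕ} (hq : q.Prime) (hqn : ((q : ℕ) : B) ∈ n)
    (t1 t2 u wt : F) (h1 : t1 ∈ sf79_loc B n) (h2 : t2 ∈ sf79_loc B n)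
    (hu : u ∈ sf79_loc B n) (hfrob : (t2 - t1 ^ q) * σ⁻¹ ∈ V₂)
    (ht1 : ¬ sf79_nmem B n t1) (ht64 : ¬ sf79_nmem B n (t1 + 64))
    (h6 : wt ^ 6 * (t1 ^ 4 * (t1 + 64) ^ 3 * u) = t2 ^ 4 * (t2 + 64) ^ 3) :
    ∃ aw tw : B, aw ∉ n ∧ wt * (tw : F) = (aw : F) := by
  have h64 : (64 : F) ∈ sf79_loc B n := ofNat_mem _ 64
  have h2u : ¬ sf79_nmem B n t2 :=
    c2s91_frob_unit B n V₂ hB₂ σ hmid hq hqn t1 t2 h1 h2 hfrob ht1
  have h2u64 : ¬ sf79_nmem B n (t2 + 64) := by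
    have := c2s91_frob_add B n V₂ hB₂ σ hmid hq hqn t1 t2 h1 h2 hfrob 64 (by simpa using ht64)
    simpa using this
  refine c2s91_nozero B hBint n wt _ _ ?_ ?_ ?_ h6
  · exact (sf79_loc B n).mul_mem ((sf79_loc B n).mul_mem ((sf79_loc B n).pow_mem h1 4)
      ((sf79_loc B n).pow_mem ((sf79_loc B n).add_mem h1 h64) 3)) hu
  · exact (sf79_loc B n).mul_mem ((sf79_loc B n).pow_mem h2 4)
      ((sf79_loc B n).pow_mem ((sf79_loc B n).add_mem h2 h64) 3)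
  · exact c2s91_not_nmem_mul B n _ _ ((sf79_loc B n).pow_mem h2 4)
      ((sf79_loc B n).pow_mem ((sf79_loc B n).add_mem h2 h64) 3)
      (c2s91_not_nmem_pow B n _ h2 h2u 4)
      (c2s91_not_nmem_pow B n _ ((sf79_loc B n).add_mem h2 h64) h2u64 3)

/-- **Chart datum `(aw, tw)` of `c2f24_prinAt_three`.** -/
theorem c2s91_nozero_three (B : Subalgebra R F) (hBint : ∀ z : F, IsIntegral B z → z ∈ B)
    (n : Ideal B) [hn : n.IsPrime] (V₂ : Subring F) (hB₂ : ∀ x ∈ B, x ∈ V₂) (σ : F)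
    (hmid : tl71_OnMid σ B V₂ n) {q : ℕ} (hq : q.Prime) (hqn : ((q : ℕ) : B) ∈ n)
    (t1 t2 u wt : F) (h1 : t1 ∈ sf79_loc B n) (h2 : t2 ∈ sf79_loc B n)
    (hu : u ∈ sf79_loc B n) (hfrob : (t2 - t1 ^ q) * σ⁻¹ ∈ V₂)
    (ht1 : ¬ sf79_nmem B n t1) (ht27 : ¬ sf79_nmem B n (t1 + 27))
    (h6 : wt ^ 6 * (t1 ^ 3 * (t1 + 27) ^ 4 * u) = t2 ^ 3 * (t2 + 27) ^ 4) :
    ∃ aw tw : B, aw ∉ n ∧ wt * (tw : F) = (aw : F) := by
  have h27 : (27 : F) ∈ sf79_loc B n := ofNat_mem _ 27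
  have h2u : ¬ sf79_nmem B n t2 :=
    c2s91_frob_unit B n V₂ hB₂ σ hmid hq hqn t1 t2 h1 h2 hfrob ht1
  have h2u27 : ¬ sf79_nmem B n (t2 + 27) := by
    have := c2s91_frob_add B n V₂ hB₂ σ hmid hq hqn t1 t2 h1 h2 hfrob 27 (by simpa using ht27)
    simpa using this
  refine c2s91_nozero B hBint n wt _ _ ?_ ?_ ?_ h6
  · exact (sf79_loc B n).mul_mem ((sf79_loc B n).mul_mem ((sf79_loc B n).pow_mem h1 3)
      ((sf79_loc B n).pow_mem ((sf79_loc B n).add_mem h1 h27) 4)) hu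
  · exact (sf79_loc B n).mul_mem ((sf79_loc B n).pow_mem h2 3)
      ((sf79_loc B n).pow_mem ((sf79_loc B n).add_mem h2 h27) 4)
  · exact c2s91_not_nmem_mul B n _ _ ((sf79_loc B n).pow_mem h2 3)
      ((sf79_loc B n).pow_mem ((sf79_loc B n).add_mem h2 h27) 4)
      (c2s91_not_nmem_pow B n _ h2 h2u 3)
      (c2s91_not_nmem_pow B n _ ((sf79_loc B n).add_mem h2 h27) h2u27 4)

/-- abstract: `j t² = (t + 256)³`, `2` a unit ⟹ `t` a unit. -/
theorem c2s91_abs_unit_two {A : Type*} [CommRing A] (P : Ideal A) [hP : P.IsPrime] (j t : A)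
    (h2 : (2 : A) ∉ P) (hrel : j * t ^ 2 = (t + 256) ^ 3) : t ∉ P := by
  intro ht
  have h1 : (t + 256) ^ 3 ∈ P := by
    rw [← hrel]
    exact P.mul_mem_left _ (P.pow_mem_of_mem ht 2 (by norm_num))
  have h3 : t + 256 ∈ P := hP.mem_of_pow_mem 3 h1
  have h4 : (2 : A) ^ 8 ∈ P := by
    have : (2 : A) ^ 8 = (t + 256) - t := by ring
    rw [this]
    exact P.sub_mem h3 ht
  exact h2 (hP.mem_of_pow_mem 8 h4)

/-- abstract: `j t³ = (t + 27) (t + 243)³`, `3` a unit ⟹ `t` a unit. -/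
theorem c2s91_abs_unit_three {A : Type*} [CommRing A] (P : Ideal A) [hP : P.IsPrime] (j t : A)
    (h3 : (3 : A) ∉ P) (hrel : j * t ^ 3 = (t + 27) * (t + 243) ^ 3) : t ∉ P := by
  intro ht
  have h1 : (t + 27) * (t + 243) ^ 3 ∈ P := by
    rw [← hrel]
    exact P.mul_mem_left _ (P.pow_mem_of_mem ht 3 (by norm_num))
  rcases hP.mem_or_mem h1 with h | h
  · have h4 : (3 : A) ^ 3 ∈ P := by
      have : (3 : A) ^ 3 = (t + 27) - t := by ring
      rw [this]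
      exact P.sub_mem h ht
    exact h3 (hP.mem_of_pow_mem 3 h4)
  · have h5 := hP.mem_of_pow_mem 3 h
    have h4 : (3 : A) ^ 5 ∈ P := by
      have : (3 : A) ^ 5 = (t + 243) - t := by ring
      rw [this]
      exact P.sub_mem h5 ht
    exact h3 (hP.mem_of_pow_mem 5 h4)

/-- numerals: membership in the maximal ideal of `B_n`. -/
theorem c2s91_natCast_max_iff (B : Subalgebra R F) (n : Ideal B) [hn : n.IsPrime]
    [IsLocalRing (sf79_loc B n)] (k : ℕ) :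
    ((k : ℕ) : sf79_loc B n) ∈ IsLocalRing.maximalIdeal (sf79_loc B n) ↔ ((k : ℕ) : B) ∈ n := by
  rw [c2s91_max_iff]
  constructor
  · intro h
    apply sf79_mem_of_nmem B n
    simpa using h
  · intro h
    have := sf79_nmem_of_mem B n _ h
    simpa using this

/-- **`h₂` is a unit of `B_n` where `j` is regular** (`2 ∉ n`). -/
theorem c2s91_unit_two (B : Subalgebra R F) (n : Ideal B) [hn : n.IsPrime] (j t : F)
    (hj : j ∈ sf79_loc B n) (ht : t ∈ sf79_loc B n) (h2 : ((2 : ℕ) : B) ∉ n)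
    (hrel : j * t ^ 2 = (t + 256) ^ 3) : ¬ sf79_nmem B n t := by
  have := gcb26_isLocalRing B n
  intro hnm
  have hP : (⟨t, ht⟩ : sf79_loc B n) ∈ IsLocalRing.maximalIdeal (sf79_loc B n) :=
    (c2s91_max_iff B n _).mpr hnm
  refine c2s91_abs_unit_two (IsLocalRing.maximalIdeal (sf79_loc B n)) ⟨j, hj⟩ ⟨t, ht⟩ ?_
    (Subtype.ext (by push_cast; exact hrel)) hP
  intro h2'
  apply h2
  rw [← c2s91_natCast_max_iff B n 2]
  exact_mod_cast h2'

/-- **`h₃` is a unit of `B_n` where `j` is regular** (`3 ∉ n`). -/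
theorem c2s91_unit_three (B : Subalgebra R F) (n : Ideal B) [hn : n.IsPrime] (j t : F)
    (hj : j ∈ sf79_loc B n) (ht : t ∈ sf79_loc B n) (h3 : ((3 : ℕ) : B) ∉ n)
    (hrel : j * t ^ 3 = (t + 27) * (t + 243) ^ 3) : ¬ sf79_nmem B n t := by
  have := gcb26_isLocalRing B n
  intro hnm
  have hP : (⟨t, ht⟩ : sf79_loc B n) ∈ IsLocalRing.maximalIdeal (sf79_loc B n) :=
    (c2s91_max_iff B n _).mpr hnm
  refine c2s91_abs_unit_three (IsLocalRing.maximalIdeal (sf79_loc B n)) ⟨j, hj⟩ ⟨t, ht⟩ ?_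
    (Subtype.ext (by push_cast; exact hrel)) hP
  intro h3'
  apply h3
  rw [← c2s91_natCast_max_iff B n 3]
  exact_mod_cast h3'

/-- **Case split for `q ≥ 5`** (`6 ∉ n`): `h₂ + 64` or `h₃ + 27` is a unit of `B_n`. -/
theorem c2s91_cover (B : Subalgebra R F) (n : Ideal B) [hn : n.IsPrime] (j h2 h3 : F)
    (hh2 : h2 ∈ sf79_loc B n) (hh3 : h3 ∈ sf79_loc B n)
    (hr2 : j * h2 ^ 2 = (h2 + 256) ^ 3) (hr3 : j * h3 ^ 3 = (h3 + 27) * (h3 + 243) ^ 3)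
    (h6 : ((6 : ℕ) : B) ∉ n) :
    ¬ sf79_nmem B n (h2 + 64) ∨ ¬ sf79_nmem B n (h3 + 27) := by
  have := gcb26_isLocalRing B n
  have hrel : ((⟨h2, hh2⟩ : sf79_loc B n) + 256) ^ 3 * (⟨h3, hh3⟩ : sf79_loc B n) ^ 3
      = ((⟨h3, hh3⟩ : sf79_loc B n) + 27) * ((⟨h3, hh3⟩ : sf79_loc B n) + 243) ^ 3
        * (⟨h2, hh2⟩ : sf79_loc B n) ^ 2 :=
    Subtype.ext (by
      show (h2 + 256) ^ 3 * h3 ^ 3 = (h3 + 27) * (h3 + 243) ^ 3 * h2 ^ 2
      linear_combination (-(h3 ^ 3)) * hr2 + h2 ^ 2 * hr3)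
  have h6A : (6 : sf79_loc B n) ∉ IsLocalRing.maximalIdeal (sf79_loc B n) := by
    intro h
    apply h6
    rw [← c2s91_natCast_max_iff B n 6]
    exact_mod_cast h
  rcases c2d24_cover (IsLocalRing.maximalIdeal (sf79_loc B n)) ⟨h2, hh2⟩ ⟨h3, hh3⟩ hrel h6A
    with h | h
  · left
    intro hnm
    exact h ((c2s91_max_iff B n _).mpr (by push_cast; exact hnm))
  · right
    intro hnm
    exact h ((c2s91_max_iff B n _).mpr (by push_cast; exact hnm))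

/-- **`q = 3`**: where `j` is a unit of `B_n`, so are `h₂` and `h₂ + 64`. -/
theorem c2s91_small_two (B : Subalgebra R F) (n : Ideal B) [hn : n.IsPrime] (j h : F)
    (hj : j ∈ sf79_loc B n) (hh : h ∈ sf79_loc B n) (h3n : ((3 : ℕ) : B) ∈ n)
    (hju : ¬ sf79_nmem B n j) (hrel : j * h ^ 2 = (h + 256) ^ 3) :
    ¬ sf79_nmem B n h ∧ ¬ sf79_nmem B n (h + 64) := by
  have := gcb26_isLocalRing B n
  have h3A : (3 : sf79_loc B n) ∈ IsLocalRing.maximalIdeal (sf79_loc B n) := by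
    have := (c2s91_natCast_max_iff B n 3).mpr h3n
    exact_mod_cast this
  obtain ⟨a, b, -, -⟩ := ujh65_level2 (IsLocalRing.maximalIdeal (sf79_loc B n)) ⟨j, hj⟩ ⟨h, hh⟩
    h3A (fun hjP => hju ((c2s91_max_iff B n _).mp hjP))
    (Subtype.ext (by push_cast; exact hrel))
  exact ⟨fun hnm => a ((c2s91_max_iff B n _).mpr hnm),
    fun hnm => b ((c2s91_max_iff B n _).mpr (by push_cast; exact hnm))⟩

/-- **`q = 2`**: where `j` is a unit of `B_n`, so are `h₃` and `h₃ + 27`. -/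
theorem c2s91_small_three (B : Subalgebra R F) (n : Ideal B) [hn : n.IsPrime] (j h : F)
    (hj : j ∈ sf79_loc B n) (hh : h ∈ sf79_loc B n) (h2n : ((2 : ℕ) : B) ∈ n)
    (hju : ¬ sf79_nmem B n j) (hrel : j * h ^ 3 = (h + 27) * (h + 243) ^ 3) :
    ¬ sf79_nmem B n h ∧ ¬ sf79_nmem B n (h + 27) := by
  have := gcb26_isLocalRing B n
  have h2A : (2 : sf79_loc B n) ∈ IsLocalRing.maximalIdeal (sf79_loc B n) := by
    have := (c2s91_natCast_max_iff B n 2).mpr h2n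
    exact_mod_cast this
  obtain ⟨a, b, -, -⟩ := ujh65_level3 (IsLocalRing.maximalIdeal (sf79_loc B n)) ⟨j, hj⟩ ⟨h, hh⟩
    h2A (fun hjP => hju ((c2s91_max_iff B n _).mp hjP))
    (Subtype.ext (by push_cast; exact hrel))
  exact ⟨fun hnm => a ((c2s91_max_iff B n _).mpr hnm),
    fun hnm => b ((c2s91_max_iff B n _).mpr (by push_cast; exact hnm))⟩

end c2s91

end Fermat.Agent.S36
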