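import Fermat.Agent.S36.ChartMaps71
import Fermat.Agent.S34.UVAt17
import Fermat.Agent.S34.CuspInst22

/-!
# S36 lab (helper74), row 600: the DENOMINATORS at a `j`-regular point (per-point data (P1))

`h'` an admissible Hauptmodul of level `M'` (`s34i47c_IsHaupt K M' q h'`: `pk85_h2` with `q ≠ 2`,
or `pk85_h3` with `q ≠ 3`), `t₁ = α₂ (α₁ h')`, `t₃ = β₂ (β₁ h')` in `F(M' q²)_K`,
`J = rm90_j K (M' q²)`.  `B` ANY integrally closed `R`-subalgebra of `F(M' q²)_K` (all four
canonical charts; e.g. `h₃` on the `h₂`-chart), `n` a prime of `B` at which `J` is regular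
(`s' * J = b'`, `s' ∉ n`: the literal hypothesis of `hreg` of `mc25_hD2_level2/3(_inv)`).

* `c2p74_int_rel2`, `c2p74_int_rel3` : `h` is integral over `R[j]` from the Hauptmodul relation.
* `c2p74_t1_int`, `c2p74_t3_int` : `t₁`, `t₃` are integral over `R[J]`.
* `c2p74_den` (abstract) and `c2p74_den_haupt` : `∃ b sB t1B t3B : B, b ∉ n ∧ sB = b (t₃ - t₁) ∧
  t1B = b t₁ ∧ t3B = b t₃` (with `b = s' ^ k`).

All names are prefixed `c2p74_`.
-/

set_option autoImplicit false
set_option linter.unusedSectionVars false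

open ModularCurve Polynomial

namespace Fermat.Agent.S36

open Fermat.Agent.S18 Fermat.Agent.S24 Fermat.Agent.S28 Fermat.Agent.S37 Fermat.Agent.S34
open Fermat.Agent.S36.TripleLoc71

section c2p74_abstract

variable {R : Type*} [CommRing R] {F : Type*} [Field F] [Algebra R F]

/-- `j h² = (h + 256)³` ⟹ `h` is integral over `R[j]`. -/
theorem c2p74_int_rel2 (j h : F) (hrel : j * h ^ 2 = (h + 256) ^ 3) :
    IsIntegral (Algebra.adjoin R ({j} : Set F)) h := by
  let jA : Algebra.adjoin R ({j} : Set F) := ⟨j, Algebra.subset_adjoin (Set.mem_singleton j)⟩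
  have hmon : ((X + C (256 : Algebra.adjoin R ({j} : Set F))) ^ 3 - C jA * X ^ 2).Monic := by
    have h1 : ((X + C (256 : Algebra.adjoin R ({j} : Set F))) ^ 3).Monic :=
      (monic_X_add_C _).pow 3
    refine h1.sub_of_left ?_
    have h2 : ((X + C (256 : Algebra.adjoin R ({j} : Set F))) ^ 3).degree = 3 := by
      rw [degree_pow, degree_X_add_C]
      rfl
    rw [h2]
    exact lt_of_le_of_lt (degree_C_mul_X_pow_le 2 jA) (by norm_num)
  refine ⟨_, hmon, ?_⟩
  have hj : algebraMap (Algebra.adjoin R ({j} : Set F)) F jA = j := rfl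
  have h256 : algebraMap (Algebra.adjoin R ({j} : Set F)) F 256 = 256 := map_ofNat _ 256
  simp only [eval₂_sub, eval₂_pow, eval₂_add, eval₂_mul, eval₂_X, eval₂_C, hj, h256]
  rw [hrel, sub_self]

/-- `j h³ = (h + 27) (h + 243)³` ⟹ `h` is integral over `R[j]`. -/
theorem c2p74_int_rel3 (j h : F) (hrel : j * h ^ 3 = (h + 27) * (h + 243) ^ 3) :
    IsIntegral (Algebra.adjoin R ({j} : Set F)) h := by
  let jA : Algebra.adjoin R ({j} : Set F) := ⟨j, Algebra.subset_adjoin (Set.mem_singleton j)⟩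
  have hmon : ((X + C (27 : Algebra.adjoin R ({j} : Set F))) *
      (X + C (243 : Algebra.adjoin R ({j} : Set F))) ^ 3 - C jA * X ^ 3).Monic := by
    have h1 : ((X + C (27 : Algebra.adjoin R ({j} : Set F))) *
        (X + C (243 : Algebra.adjoin R ({j} : Set F))) ^ 3).Monic :=
      (monic_X_add_C _).mul ((monic_X_add_C _).pow 3)
    refine h1.sub_of_left ?_
    have h2 : ((X + C (27 : Algebra.adjoin R ({j} : Set F))) *
        (X + C (243 : Algebra.adjoin R ({j} : Set F))) ^ 3).degree = 4 := by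
      rw [degree_mul, degree_pow, degree_X_add_C, degree_X_add_C]
      rfl
    rw [h2]
    exact lt_of_le_of_lt (degree_C_mul_X_pow_le 3 jA) (by norm_num)
  refine ⟨_, hmon, ?_⟩
  have hj : algebraMap (Algebra.adjoin R ({j} : Set F)) F jA = j := rfl
  have h27 : algebraMap (Algebra.adjoin R ({j} : Set F)) F 27 = 27 := map_ofNat _ 27
  have h243 : algebraMap (Algebra.adjoin R ({j} : Set F)) F 243 = 243 := map_ofNat _ 243
  simp only [eval₂_sub, eval₂_pow, eval₂_add, eval₂_mul, eval₂_X, eval₂_C, hj, h27, h243]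
  rw [hrel, sub_self]

/-- **Denominators, abstract.**  `y₁, y₃` integral over `R[j]`, `s' * j ∈ B`, `s' ∉ n`, `B`
integrally closed: a power `b` of `s'` clears `y₁`, `y₃` and `y₃ - y₁`. -/
theorem c2p74_den (B : Subalgebra R F) (hBint : ∀ z : F, IsIntegral B z → z ∈ B)
    (n : Ideal B) [hn : n.IsPrime] (j y₁ y₃ : F)
    (h₁ : IsIntegral (Algebra.adjoin R ({j} : Set F)) y₁)
    (h₃ : IsIntegral (Algebra.adjoin R ({j} : Set F)) y₃)
    (s' b' : B) (hs' : s' ∉ n) (hsj : (s' : F) * j = (b' : F)) :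
    ∃ b sB y1B y3B : B, b ∉ n ∧ (sB : F) = (b : F) * (y₃ - y₁) ∧ (y1B : F) = (b : F) * y₁ ∧
      (y3B : F) = (b : F) * y₃ := by
  have hsjB : (s' : F) * j ∈ B := by rw [hsj]; exact b'.2
  obtain ⟨k₁, hk₁⟩ := uv17_clear B hBint j y₁ h₁ (s' : F) s'.2 hsjB
  obtain ⟨k₃, hk₃⟩ := uv17_clear B hBint j y₃ h₃ (s' : F) s'.2 hsjB
  have e1 : ((s' ^ (k₁ + k₃) : B) : F) * y₁ = (s' : F) ^ k₃ * ((s' : F) ^ k₁ * y₁) := by
    push_cast
    rw [pow_add]
    ring
  have e3 : ((s' ^ (k₁ + k₃) : B) : F) * y₃ = (s' : F) ^ k₁ * ((s' : F) ^ k₃ * y₃) := by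
    push_cast
    rw [pow_add]
    ring
  have m1 : ((s' ^ (k₁ + k₃) : B) : F) * y₁ ∈ B := by
    rw [e1]
    exact B.mul_mem (B.pow_mem s'.2 _) hk₁
  have m3 : ((s' ^ (k₁ + k₃) : B) : F) * y₃ ∈ B := by
    rw [e3]
    exact B.mul_mem (B.pow_mem s'.2 _) hk₃
  refine ⟨s' ^ (k₁ + k₃), ⟨_, B.sub_mem m3 m1⟩, ⟨_, m1⟩, ⟨_, m3⟩,
    fun h => hs' (hn.mem_of_pow_mem _ h), ?_, rfl, rfl⟩
  show ((s' ^ (k₁ + k₃) : B) : F) * y₃ - ((s' ^ (k₁ + k₃) : B) : F) * y₁ = _
  ring

end c2p74_abstract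

section c2p74_concrete

variable {R K : Type} [CommRing R] [Field K] [CharZero K] [Algebra R K]
  (M' q : ℕ) [NeZero M'] [NeZero q]
  [Algebra R ↥(modularFunctionFieldFullC K M')]
  [IsScalarTower R K ↥(modularFunctionFieldFullC K M')]
  [Algebra R ↥(modularFunctionFieldFullC K (M' * q))]
  [IsScalarTower R K ↥(modularFunctionFieldFullC K (M' * q))]
  [Algebra R ↥(modularFunctionFieldFullC K (M' * q * q))]
  [IsScalarTower R K ↥(modularFunctionFieldFullC K (M' * q * q))]

/-- An admissible Hauptmodul of level `M` is integral over `R[j]`. -/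
theorem c2p74_haupt_int (M : ℕ) [NeZero M] [Algebra R ↥(modularFunctionFieldFullC K M)]
    (h : ↥(modularFunctionFieldFullC K M)) (hh : s34i47c_IsHaupt K M q h) :
    IsIntegral (Algebra.adjoin R ({rm90_j K M} : Set ↥(modularFunctionFieldFullC K M))) h := by
  rcases hh with ⟨-, h2, rfl⟩ | ⟨-, h3, rfl⟩
  · exact c2p74_int_rel2 _ _ (pk85_h2_rel K M h2)
  · exact c2p74_int_rel3 _ _ (pk85_h3_rel K M h3)

/-- `t₁ = α₂ (α₁ h')` is integral over `R[J]`. -/
theorem c2p74_t1_int (h' : ↥(modularFunctionFieldFullC K M'))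
    (hh' : s34i47c_IsHaupt K M' q h') :
    IsIntegral (Algebra.adjoin R
      ({rm90_j K (M' * q * q)} : Set ↥(modularFunctionFieldFullC K (M' * q * q))))
      (al97L_alpha K (M' * q) q (al97L_alpha K M' q h')) :=
  c2p74_haupt_int q (M' * q * q) _
    (cm71_alpha_isHaupt (M' * q) q _ (cm71_alpha_isHaupt M' q h' hh'))

/-- `t₃ = β₂ (β₁ h')` is integral over `R[J]`. -/
theorem c2p74_t3_int (hq : q.Prime) (hunit : ∀ n : ℕ, Nat.Coprime n q → IsUnit (n : R))
    (h' : ↥(modularFunctionFieldFullC K M')) (hh' : s34i47c_IsHaupt K M' q h') :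
    IsIntegral (Algebra.adjoin R
      ({rm90_j K (M' * q * q)} : Set ↥(modularFunctionFieldFullC K (M' * q * q))))
      (al97L_beta K (M' * q) q (al97L_beta K M' q h')) := by
  have hh1 := cm71_alpha_isHaupt (K := K) M' q h' hh'
  have hβ1 := (cm71_beta_charts (R := R) (K := K) M' q hq hunit h' hh').1 h'
    (pk15_subset_chart _ (Set.mem_singleton _))
  have hβ2 := (cm71_beta_charts (R := R) (K := K) (M' * q) q hq hunit _ hh1).1 _ hβ1
  have h3 : IsIntegral (Algebra.adjoin R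
      ({al97L_alpha K (M' * q) q (al97L_alpha K M' q h')} :
        Set ↥(modularFunctionFieldFullC K (M' * q * q))))
      (al97L_beta K (M' * q) q (al97L_beta K M' q h')) := (pk15_mem_chart _ _).mp hβ2
  refine bz7_isIntegral_trans _ _ ?_ _ h3
  intro y hy
  rw [Set.mem_singleton_iff.mp hy]
  exact c2p74_t1_int M' q h' hh'

/-- **Denominators at a `j`-regular point** (per-point data (P1)). -/
theorem c2p74_den_haupt (hq : q.Prime) (hunit : ∀ n : ℕ, Nat.Coprime n q → IsUnit (n : R))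
    (h' : ↥(modularFunctionFieldFullC K M')) (hh' : s34i47c_IsHaupt K M' q h')
    (B : Subalgebra R ↥(modularFunctionFieldFullC K (M' * q * q)))
    (hBint : ∀ z : ↥(modularFunctionFieldFullC K (M' * q * q)), IsIntegral B z → z ∈ B)
    (n : Ideal B) [hn : n.IsPrime] (s' b' : B) (hs' : s' ∉ n)
    (hsj : (s' : ↥(modularFunctionFieldFullC K (M' * q * q))) * rm90_j K (M' * q * q) =
      (b' : ↥(modularFunctionFieldFullC K (M' * q * q)))) :
    ∃ b sB t1B t3B : B, b ∉ n ∧
      (sB : ↥(modularFunctionFieldFullC K (M' * q * q))) =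
        (b : ↥(modularFunctionFieldFullC K (M' * q * q))) *
          (al97L_beta K (M' * q) q (al97L_beta K M' q h') -
            al97L_alpha K (M' * q) q (al97L_alpha K M' q h')) ∧
      (t1B : ↥(modularFunctionFieldFullC K (M' * q * q))) =
        (b : ↥(modularFunctionFieldFullC K (M' * q * q))) *
          al97L_alpha K (M' * q) q (al97L_alpha K M' q h') ∧
      (t3B : ↥(modularFunctionFieldFullC K (M' * q * q))) =
        (b : ↥(modularFunctionFieldFullC K (M' * q * q))) *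
          al97L_beta K (M' * q) q (al97L_beta K M' q h') :=
  c2p74_den B hBint n (rm90_j K (M' * q * q)) _ _ (c2p74_t1_int M' q h' hh')
    (c2p74_t3_int M' q hq hunit h' hh') s' b' hs' hsj

end c2p74_concrete

end Fermat.Agent.S36
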