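import Fermat.Agent.S36.UnitWH31
import Fermat.Agent.S34.ChartM85
import Fermat.Agent.S34.AtkinLehnerL97

/-!
S36 lab, registry row 600 (C-C2), binding support (helper31, backup of helper24).

**The level-`q` functions `w` are UNITS of the Gauss valuation ring `V_∞ = cm85_Vinf M hπ`**
(hence of every valuation ring above it, e.g. `V₂` via `hV₂`), at every level `M` where they live:

* `guw31_gauss_unit` : general form.  `f ∈ R((Q))` with `θ f̄ ≠ 0` over the residue field;
  `x ∈ F_K(M)` with `x · θ f_K = (θ f_K)(Q^q)`.  Then `x ∈ V_∞` and `x⁻¹ ∈ V_∞`.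
* `guw31_wj`  : `w_j = uw31_w K q` (any `M` with `q ∣ M`): the element `guw31_wjF` of `F_K(M)`;
  `guw31_wj_chain` (`Φ_Y(jq, j) = -(q Φ_X(jq, j) w_j)` in `F_K(M)` for EVERY integer `Φ`
  vanishing at `(jq, j)` = hypothesis `hw` of `c2c24_kron_field`), `guw31_wj_pow_six`.
* `guw31_wh2`, `guw31_wh3` : every `x ∈ F_K(M)` with expansion `uwh31_w K q (h70_h2 K)`
  (resp. `h34_h3R K`) is a unit of `V_∞`.
* `guw31_pkg2`, `guw31_pkg3` : at level `N * q` with `2 ∣ N` (resp. `3 ∣ N`): elements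
  `wj = guw31_wjF`, `wh ∈ F_K(N q)`, units of `V_∞`, with the sixth-power identity of `wh` and
  the chain rule between `wj` and `wh` (= `hrel` of `ht31_level2/3`)
  (`α = al97L_alpha K N q`, `β = al97L_beta K N q`, `h = pk85_h2 K N h2`, resp. `pk85_h3`).
-/

set_option autoImplicit false
set_option linter.unusedSectionVars false

open ModularCurve

namespace Fermat.Agent.S36

open Fermat.Agent.S18 Fermat.Agent.S28 Fermat.Agent.S34

/-- `θ = Q d/dQ` on Laurent series over any commutative ring. -/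
def guw31_theta (A : Type*) [CommRing A] (f : LaurentSeries A) : LaurentSeries A where
  coeff n := (n : A) * f.coeff n
  isPWO_support' := f.isPWO_support.mono (fun n hn => by
    simp only [Function.mem_support, ne_eq] at hn ⊢
    exact fun h => hn (by rw [h, mul_zero]))

theorem guw31_coeffMap_theta {A A' : Type*} [CommRing A] [CommRing A'] (φ : A →+* A')
    (f : LaurentSeries A) : coeffMap φ (guw31_theta A f) = guw31_theta A' (coeffMap φ f) := by
  ext n
  show φ ((n : A) * f.coeff n) = (n : A') * φ (f.coeff n)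
  rw [map_mul, map_intCast]

theorem guw31_theta_eq (k : Type*) [Field k] (f : LaurentSeries k) :
    guw31_theta k f = partC_theta f := by
  ext n
  rfl

/-- `θ h ≠ 0` for a level-2 Hauptmodul series over any field. -/
theorem guw31_theta_ne_zero2 (κ : Type*) [Field κ] (h : LaurentSeries κ) (hh0 : h ≠ 0)
    (hrel : jqModC κ * h ^ 2 = (h + 256) ^ 3) : partC_theta h ≠ 0 := by
  have ha : partC_theta (jqModC κ) * h ^ 3 = partC_theta h * ((h + 256) ^ 2 * (h - 512)) :=
    uwh31_der2 (dq56_theta κ) (dq56_theta_leibniz κ) (jqModC κ) h hrel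
  intro h0
  rw [h0, zero_mul] at ha
  exact mul_ne_zero (dq56_theta_J_ne_zero κ) (pow_ne_zero 3 hh0) ha

/-- `θ h ≠ 0` for a level-3 Hauptmodul series over any field. -/
theorem guw31_theta_ne_zero3 (κ : Type*) [Field κ] (h : LaurentSeries κ) (hh0 : h ≠ 0)
    (hrel : jqModC κ * h ^ 3 = (h + 27) * (h + 243) ^ 3) : partC_theta h ≠ 0 := by
  have ha : partC_theta (jqModC κ) * h ^ 4 =
      partC_theta h * ((h + 243) ^ 2 * (h ^ 2 - 486 * h - 19683)) :=
    uwh31_der3 (dq56_theta κ) (dq56_theta_leibniz κ) (jqModC κ) h hrel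
  intro h0
  rw [h0, zero_mul] at ha
  exact mul_ne_zero (dq56_theta_J_ne_zero κ) (pow_ne_zero 4 hh0) ha

section Gauss

variable {R K : Type} [CommRing R] [IsDomain R] [IsDiscreteValuationRing R] [Field K]
  [Algebra R K] [IsFractionRing R K] (M : ℕ) [NeZero M]

/-- **General form.** -/
theorem guw31_gauss_unit {π : R} (hπ : Irreducible π) (q : ℕ) [NeZero q] (f : LaurentSeries R)
    (hf : partC_theta (coeffMap (IsLocalRing.residue R) f) ≠ 0)
    (x : ↥(modularFunctionFieldFullC K M))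
    (hx : (x : LaurentSeries K) * partC_theta (coeffMap (algebraMap R K) f) =
      qExpand K q (partC_theta (coeffMap (algebraMap R K) f))) :
    x ∈ cm85_Vinf M hπ ∧ x⁻¹ ∈ cm85_Vinf M hπ := by
  have hsK : coeffMap (algebraMap R K) (guw31_theta R f) =
      partC_theta (coeffMap (algebraMap R K) f) := by
    rw [guw31_coeffMap_theta, guw31_theta_eq]
  have htK : coeffMap (algebraMap R K) (qE R q (guw31_theta R f)) =
      qExpand K q (partC_theta (coeffMap (algebraMap R K) f)) := by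
    rw [coeffMap_qE, hsK, qE_of_neZero]
  have hsκ : coeffMap (IsLocalRing.residue R) (guw31_theta R f) ≠ 0 := by
    rw [guw31_coeffMap_theta, guw31_theta_eq]
    exact hf
  have htκ : coeffMap (IsLocalRing.residue R) (qE R q (guw31_theta R f)) ≠ 0 := by
    rw [coeffMap_qE, qE_of_neZero]
    exact (map_ne_zero_iff _ (qExpand_injective q)).mpr hsκ
  have hθK : partC_theta (coeffMap (algebraMap R K) f) ≠ 0 := by
    intro h0
    apply hsκ
    have h1 : guw31_theta R f = 0 := by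
      apply gv85_emb_injective (R := R) (K := K)
      rw [hsK, h0, map_zero]
    rw [h1, map_zero]
  have hσK : qExpand K q (partC_theta (coeffMap (algebraMap R K) f)) ≠ 0 :=
    (map_ne_zero_iff _ (qExpand_injective q)).mpr hθK
  have hx0 : (x : LaurentSeries K) ≠ 0 := by
    intro h0
    rw [h0, zero_mul] at hx
    exact hσK hx.symm
  refine ⟨⟨guw31_theta R f, qE R q (guw31_theta R f), hsκ, ?_⟩,
    ⟨qE R q (guw31_theta R f), guw31_theta R f, htκ, ?_⟩⟩
  · rw [hsK, htK, mul_comm]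
    exact hx
  · have h1 : (((x⁻¹ : ↥(modularFunctionFieldFullC K M)) :
        ↥(modularFunctionFieldFullC K M)) : LaurentSeries K) = (x : LaurentSeries K)⁻¹ := rfl
    rw [hsK, htK, h1, ← hx]
    field_simp

variable [CharZero K]

/-- `w_j` as an element of `F_K(M)`, `q ∣ M`. -/
noncomputable def guw31_wjF (q : ℕ) (hq : q.Prime) (hqM : q ∣ M) :
    ↥(modularFunctionFieldFullC K M) :=
  ⟨uw31_w K q, uw31_w_mem_full K q hq M hqM⟩

theorem guw31_wjF_coe (q : ℕ) (hq : q.Prime) (hqM : q ∣ M) :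
    ((guw31_wjF (K := K) M q hq hqM : ↥(modularFunctionFieldFullC K M)) : LaurentSeries K) =
      uw31_w K q := rfl

/-- **`w_j` is a unit of `V_∞`.** -/
theorem guw31_wj {π : R} (hπ : Irreducible π) (q : ℕ) (hq : q.Prime) (hqM : q ∣ M) :
    guw31_wjF (K := K) M q hq hqM ∈ cm85_Vinf M hπ ∧
      (guw31_wjF (K := K) M q hq hqM)⁻¹ ∈ cm85_Vinf M hπ := by
  have hNZ : NeZero q := ⟨hq.ne_zero⟩
  refine guw31_gauss_unit M hπ q (jqModC R) ?_ _ ?_
  · rw [coeffMap_jqModC]
    exact dq56_theta_J_ne_zero _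
  · rw [coeffMap_jqModC, guw31_wjF_coe]
    exact uw31_w_mul_theta K q

omit [IsDomain R] [IsDiscreteValuationRing R] [Algebra R K] [IsFractionRing R K] in
/-- The chain relation for `w_j` inside `F_K(M)`: for `j, jq ∈ F_K(M)` of expansions `J`,
`J(Q^q)` and EVERY integer polynomial `Φ` with `Φ(jq, j) = 0`:
`Φ_Y(jq, j) = -(q Φ_X(jq, j) w_j)`  (the hypothesis `hw` of `c2c24_kron_field`). -/
theorem guw31_wj_chain (q : ℕ) (hq : q.Prime) (hqM : q ∣ M)
    (j jq : ↥(modularFunctionFieldFullC K M)) (hj : (j : LaurentSeries K) = jqModC K)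
    (hjq : (jq : LaurentSeries K) = JdC K q) (Φ : Polynomial (Polynomial ℤ))
    (hΦ : dq56_ev jq j Φ = 0) :
    dq56_ev jq j (dq56_dY Φ) =
      -((q : ↥(modularFunctionFieldFullC K M)) * dq56_ev jq j (Polynomial.derivative Φ) *
        guw31_wjF (K := K) M q hq hqM) := by
  have hNZ : NeZero q := ⟨hq.ne_zero⟩
  let ι : ↥(modularFunctionFieldFullC K M) →+* LaurentSeries K :=
    algebraMap ↥(modularFunctionFieldFullC K M) (LaurentSeries K)
  have hιj : ι j = jqModC K := hj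
  have hιjq : ι jq = JdC K q := hjq
  apply ι.injective
  have h1 := congrArg ι hΦ
  rw [dq56_ev_map, hιj, hιjq, map_zero] at h1
  have h2 := uw31_chain K q Φ h1
  rw [dq56_ev_map, map_neg, map_mul, map_mul, map_natCast, dq56_ev_map, hιj, hιjq]
  exact h2

omit [IsDomain R] [IsDiscreteValuationRing R] [Algebra R K] [IsFractionRing R K] in
/-- The sixth-power identity for `w_j` inside `F_K(M)`. -/
theorem guw31_wj_pow_six (q : ℕ) (hq : q.Prime) (hqM : q ∣ M)
    (j jq u : ↥(modularFunctionFieldFullC K M)) (hj : (j : LaurentSeries K) = jqModC K)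
    (hjq : (jq : LaurentSeries K) = JdC K q) (hu : (u : LaurentSeries K) = dq56_U K q) :
    guw31_wjF (K := K) M q hq hqM ^ 6 * (j ^ 4 * (j - 1728) ^ 3 * u) =
      jq ^ 4 * (jq - 1728) ^ 3 := by
  have hNZ : NeZero q := ⟨hq.ne_zero⟩
  let ι : ↥(modularFunctionFieldFullC K M) →+* LaurentSeries K :=
    algebraMap ↥(modularFunctionFieldFullC K M) (LaurentSeries K)
  have hιj : ι j = jqModC K := hj
  have hιjq : ι jq = JdC K q := hjq
  have hιu : ι u = dq56_U K q := hu
  have hιw : ι (guw31_wjF (K := K) M q hq hqM) = uw31_w K q := rfl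
  apply ι.injective
  rw [map_mul, map_pow, map_mul, map_mul, map_pow, map_pow, map_sub, map_ofNat, map_mul,
    map_pow, map_pow, map_sub, map_ofNat, hιj, hιjq, hιu, hιw]
  exact uw31_w_pow_six K q

/-- **`w_h` (level 2) is a unit of `V_∞`.** -/
theorem guw31_wh2 {π : R} (hπ : Irreducible π) (q : ℕ) (hq : q.Prime)
    (x : ↥(modularFunctionFieldFullC K M))
    (hx : (x : LaurentSeries K) = uwh31_w K q (h70_h2 K)) :
    x ∈ cm85_Vinf M hπ ∧ x⁻¹ ∈ cm85_Vinf M hπ := by
  have hNZ : NeZero q := ⟨hq.ne_zero⟩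
  refine guw31_gauss_unit M hπ q (h70_h2 R) ?_ x ?_
  · rw [h70_coeffMap_h2]
    exact guw31_theta_ne_zero2 _ _ (h70_h2_ne_zero _) (h70_j_mul_h2_sq _)
  · rw [h70_coeffMap_h2, hx]
    unfold uwh31_w
    rw [qE_of_neZero]
    exact div_mul_cancel₀ _
      (guw31_theta_ne_zero2 K _ (h70_h2_ne_zero K) (h70_j_mul_h2_sq K))

/-- **`w_h` (level 3) is a unit of `V_∞`.** -/
theorem guw31_wh3 {π : R} (hπ : Irreducible π) (q : ℕ) (hq : q.Prime)
    (x : ↥(modularFunctionFieldFullC K M))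
    (hx : (x : LaurentSeries K) = uwh31_w K q (h34_h3R K)) :
    x ∈ cm85_Vinf M hπ ∧ x⁻¹ ∈ cm85_Vinf M hπ := by
  have hNZ : NeZero q := ⟨hq.ne_zero⟩
  have h3ok : ∀ (κ : Type) [Field κ], partC_theta (h34_h3R κ) ≠ 0 := by
    intro κ _
    exact guw31_theta_ne_zero3 κ _ (uwh31_h3_ok κ).1 (uwh31_h3_ok κ).2
  refine guw31_gauss_unit M hπ q (h34_h3R R) ?_ x ?_
  · rw [h34_coeffMap_h3R]
    exact h3ok _
  · rw [h34_coeffMap_h3R, hx]
    unfold uwh31_w
    rw [qE_of_neZero]
    exact div_mul_cancel₀ _ (h3ok K)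

end Gauss

section Pkg

variable {R K : Type} [CommRing R] [IsDomain R] [IsDiscreteValuationRing R] [Field K]
  [Algebra R K] [IsFractionRing R K] [CharZero K] (N : ℕ) [NeZero N]

/-- **Level-2 package at level `N * q`, `2 ∣ N`.**  `α = al97L_alpha K N q`,
`β = al97L_beta K N q`, `h = pk85_h2 K N h2`, `u ∈ F_K(N q)` of expansion `U`. -/
theorem guw31_pkg2 {π : R} (hπ : Irreducible π) (q : ℕ) [NeZero q] (hq : q.Prime) (h2 : 2 ∣ N)
    (u : ↥(modularFunctionFieldFullC K (N * q))) (hu : (u : LaurentSeries K) = dq56_U K q) :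
    ∃ wj wh : ↥(modularFunctionFieldFullC K (N * q)),
      (wj : LaurentSeries K) = uw31_w K q ∧
      (wh : LaurentSeries K) = uwh31_w K q (h70_h2 K) ∧
      wj ∈ cm85_Vinf (N * q) hπ ∧ wj⁻¹ ∈ cm85_Vinf (N * q) hπ ∧
      wh ∈ cm85_Vinf (N * q) hπ ∧ wh⁻¹ ∈ cm85_Vinf (N * q) hπ ∧
      wh ^ 6 * (al97L_alpha K N q (pk85_h2 K N h2) ^ 4 *
          (al97L_alpha K N q (pk85_h2 K N h2) + 64) ^ 3 * u) =
        al97L_beta K N q (pk85_h2 K N h2) ^ 4 * (al97L_beta K N q (pk85_h2 K N h2) + 64) ^ 3 ∧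
      wj * ((al97L_alpha K N q (pk85_h2 K N h2) + 256) ^ 2 *
          (al97L_alpha K N q (pk85_h2 K N h2) - 512) * al97L_beta K N q (pk85_h2 K N h2) ^ 3) =
        wh * ((al97L_beta K N q (pk85_h2 K N h2) + 256) ^ 2 *
          (al97L_beta K N q (pk85_h2 K N h2) - 512) * al97L_alpha K N q (pk85_h2 K N h2) ^ 3) := by
  have hqM : q ∣ N * q := dvd_mul_left q N
  obtain ⟨wh, hwh, h6, hch⟩ := uwh31_field2 K q hq
    (algebraMap ↥(modularFunctionFieldFullC K (N * q)) (LaurentSeries K))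
    (h70_h2 K) (h70_h2_ne_zero K) (h70_j_mul_h2_sq K) u
    (al97L_alpha K N q (pk85_h2 K N h2)) (al97L_beta K N q (pk85_h2 K N h2))
    (guw31_wjF (K := K) (N * q) q hq hqM) hu
    (by
      show ((al97L_alpha K N q (pk85_h2 K N h2) : ↥(modularFunctionFieldFullC K (N * q))) :
        LaurentSeries K) = h70_h2 K
      rw [al97L_alpha_coe, pk85_h2_coe])
    (by
      show ((al97L_beta K N q (pk85_h2 K N h2) : ↥(modularFunctionFieldFullC K (N * q))) :
        LaurentSeries K) = qE K q (h70_h2 K)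
      rw [al97L_beta_coe, pk85_h2_coe, qE_of_neZero])
    rfl
  have hwj := guw31_wj (R := R) (K := K) (N * q) hπ q hq hqM
  have hwhV := guw31_wh2 (R := R) (K := K) (N * q) hπ q hq wh hwh
  exact ⟨guw31_wjF (K := K) (N * q) q hq hqM, wh, rfl, hwh, hwj.1, hwj.2, hwhV.1, hwhV.2, h6, hch⟩

/-- **Level-3 package at level `N * q`, `3 ∣ N`.** -/
theorem guw31_pkg3 {π : R} (hπ : Irreducible π) (q : ℕ) [NeZero q] (hq : q.Prime) (h3 : 3 ∣ N)
    (u : ↥(modularFunctionFieldFullC K (N * q))) (hu : (u : LaurentSeries K) = dq56_U K q) :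
    ∃ wj wh : ↥(modularFunctionFieldFullC K (N * q)),
      (wj : LaurentSeries K) = uw31_w K q ∧
      (wh : LaurentSeries K) = uwh31_w K q (h34_h3R K) ∧
      wj ∈ cm85_Vinf (N * q) hπ ∧ wj⁻¹ ∈ cm85_Vinf (N * q) hπ ∧
      wh ∈ cm85_Vinf (N * q) hπ ∧ wh⁻¹ ∈ cm85_Vinf (N * q) hπ ∧
      wh ^ 6 * (al97L_alpha K N q (pk85_h3 K N h3) ^ 3 *
          (al97L_alpha K N q (pk85_h3 K N h3) + 27) ^ 4 * u) =
        al97L_beta K N q (pk85_h3 K N h3) ^ 3 * (al97L_beta K N q (pk85_h3 K N h3) + 27) ^ 4 ∧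
      wj * ((al97L_alpha K N q (pk85_h3 K N h3) + 243) ^ 2 *
          (al97L_alpha K N q (pk85_h3 K N h3) ^ 2 - 486 * al97L_alpha K N q (pk85_h3 K N h3)
            - 19683) * al97L_beta K N q (pk85_h3 K N h3) ^ 4) =
        wh * ((al97L_beta K N q (pk85_h3 K N h3) + 243) ^ 2 *
          (al97L_beta K N q (pk85_h3 K N h3) ^ 2 - 486 * al97L_beta K N q (pk85_h3 K N h3)
            - 19683) * al97L_alpha K N q (pk85_h3 K N h3) ^ 4) := by
  have hqM : q ∣ N * q := dvd_mul_left q N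
  obtain ⟨wh, hwh, h6, hch⟩ := uwh31_field3 K q hq
    (algebraMap ↥(modularFunctionFieldFullC K (N * q)) (LaurentSeries K))
    (h34_h3R K) (uwh31_h3_ok K).1 (uwh31_h3_ok K).2 u
    (al97L_alpha K N q (pk85_h3 K N h3)) (al97L_beta K N q (pk85_h3 K N h3))
    (guw31_wjF (K := K) (N * q) q hq hqM) hu
    (by
      show ((al97L_alpha K N q (pk85_h3 K N h3) : ↥(modularFunctionFieldFullC K (N * q))) :
        LaurentSeries K) = h34_h3R K
      rw [al97L_alpha_coe, pk85_h3_coe])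
    (by
      show ((al97L_beta K N q (pk85_h3 K N h3) : ↥(modularFunctionFieldFullC K (N * q))) :
        LaurentSeries K) = qE K q (h34_h3R K)
      rw [al97L_beta_coe, pk85_h3_coe, qE_of_neZero])
    rfl
  have hwj := guw31_wj (R := R) (K := K) (N * q) hπ q hq hqM
  have hwhV := guw31_wh3 (R := R) (K := K) (N * q) hπ q hq wh hwh
  exact ⟨guw31_wjF (K := K) (N * q) q hq hqM, wh, rfl, hwh, hwj.1, hwj.2, hwhV.1, hwhV.2, h6, hch⟩

end Pkg

end Fermat.Agent.S36
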