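import Mathlib
import Fermat.Agent.S18.ConstFk11
import Fermat.Agent.S28.CTools

/-!
# S36 lab, row 599 sub-part (DM) (helper69): `θ = Q d/dQ` and the modular function field

`F = F_K(N) = modularFunctionFieldFullC K N ⊆ K((Q))`, `K` a field of characteristic zero,
`θ = partC_theta` (`θ (∑ aₙ Qⁿ) = ∑ n aₙ Qⁿ`), `J = jqModC K`.

* abstract (Mathlib only): a map `D : L → L` on a field which is additive and satisfies the
  Leibniz rule, `ι : F →+* L` a subfield, `t : L`;
  `tf69_sub` : the elements `y` of `F` with `D (ι y) ∈ ι F · t` form a subfield of `F`;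
  `tf69_core` : a simple root in `F` of a polynomial whose coefficients satisfy
  `D (ι a) ∈ ι F · t` satisfies it, too;
* `tf69_theta_mem` : for `f ∈ F_K(N)` there is `c ∈ F_K(N)` with `θ f = c · θ J`;
* `tf69_theta_div_mem` : `θ f / θ x ∈ F_K(N)` for `f, x ∈ F_K(N)`;
* `tf69_Dx x` : the map `f ↦ θ f / θ x` of `F_K(N)` into itself (`= d/dx` when `θ x ≠ 0`), with
  `tf69_Dx_coe`, `tf69_Dx_add`, `tf69_Dx_mul` (Leibniz), `tf69_Dx_algebraMap` (zero on
  constants), `tf69_Dx_self` (`D_x x = 1`), `tf69_Dx_pow`, `tf69_Dx_inv`, `tf69_Dx_chain`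
  (`D_x f = D_y f · D_x y`), `tf69_Dx_aeval` (`D_x (p(f)) = p'(f) · D_x f` for `p ∈ K[X]`).

All names are prefixed `tf69_`.
-/

set_option autoImplicit false
set_option linter.unusedSectionVars false
set_option linter.unusedVariables false
set_option linter.style.longLine false

open Polynomial IntermediateField ModularCurve

namespace Fermat.Agent.S36

noncomputable section

/-! ## 1. Abstract part (Mathlib only) -/

section Abstract

variable {F L : Type*} [Field F] [Field L]

theorem tf69_map_zero (D : L → L) (hadd : ∀ a b, D (a + b) = D a + D b) : D 0 = 0 := by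
  have h := hadd 0 0
  rw [add_zero] at h
  linear_combination (-1 : L) * h

theorem tf69_map_neg (D : L → L) (hadd : ∀ a b, D (a + b) = D a + D b) (x : L) :
    D (-x) = - D x := by
  have h := hadd (-x) x
  rw [neg_add_cancel, tf69_map_zero D hadd] at h
  linear_combination (-1 : L) * h

theorem tf69_map_one (D : L → L) (hmul : ∀ a b, D (a * b) = a * D b + b * D a) : D 1 = 0 := by
  have h := hmul 1 1
  rw [mul_one, one_mul] at h
  linear_combination (-1 : L) * h

theorem tf69_map_pow (D : L → L) (hmul : ∀ a b, D (a * b) = a * D b + b * D a) (x : L)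
    (n : ℕ) : D (x ^ n) = (n : L) * x ^ (n - 1) * D x := by
  induction n with
  | zero => simp [tf69_map_one D hmul]
  | succ n ih =>
    rw [pow_succ, hmul, ih]
    rcases n with _ | n
    · simp
    · simp only [Nat.add_sub_cancel]
      push_cast
      ring

/-- The elements `y` of `F` with `D (ι y) ∈ ι F · t` form a subfield of `F`. -/
def tf69_sub (ι : F →+* L) (D : L → L) (hadd : ∀ a b, D (a + b) = D a + D b)
    (hmul : ∀ a b, D (a * b) = a * D b + b * D a) (t : L) : Subfield F where
  carrier := {y | ∃ c : F, D (ι y) = ι c * t}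
  mul_mem' := by
    rintro a b ⟨ca, ha⟩ ⟨cb, hb⟩
    refine ⟨a * cb + b * ca, ?_⟩
    rw [map_mul, hmul, ha, hb, map_add, map_mul, map_mul]
    ring
  one_mem' := ⟨0, by rw [map_one, tf69_map_one D hmul, map_zero, zero_mul]⟩
  add_mem' := by
    rintro a b ⟨ca, ha⟩ ⟨cb, hb⟩
    refine ⟨ca + cb, ?_⟩
    rw [map_add, hadd, ha, hb, map_add]
    ring
  zero_mem' := ⟨0, by rw [map_zero, tf69_map_zero D hadd, zero_mul]⟩
  neg_mem' := by
    rintro a ⟨ca, ha⟩
    refine ⟨-ca, ?_⟩
    rw [map_neg, tf69_map_neg D hadd, ha, map_neg]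
    ring
  inv_mem' := by
    rintro a ⟨ca, ha⟩
    by_cases h0 : a = 0
    · subst h0
      exact ⟨0, by rw [inv_zero, map_zero, tf69_map_zero D hadd, zero_mul]⟩
    · refine ⟨-(a⁻¹ * a⁻¹) * ca, ?_⟩
      have h1 : ι a ≠ 0 := (map_ne_zero ι).mpr h0
      have h2 := hmul (ι a) (ι a)⁻¹
      rw [mul_inv_cancel₀ h1, tf69_map_one D hmul, ha] at h2
      have h3 : ι a * (ι a)⁻¹ = 1 := mul_inv_cancel₀ h1
      rw [map_inv₀, map_mul, map_neg, map_mul, map_inv₀]
      apply mul_left_cancel₀ h1
      linear_combination (-1 : L) * h2 + ((ι a)⁻¹ * ι ca * t) * h3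

theorem tf69_mem_sub (ι : F →+* L) (D : L → L) (hadd : ∀ a b, D (a + b) = D a + D b)
    (hmul : ∀ a b, D (a * b) = a * D b + b * D a) (t : L) (y : F) :
    y ∈ tf69_sub ι D hadd hmul t ↔ ∃ c : F, D (ι y) = ι c * t := Iff.rfl

/-- **Differentiating an algebraic relation.**  If `D (ι a) ∈ ι F · t` for the coefficients `a`
of a polynomial `P` over `E` and `f ∈ F` is a simple root of `P`, then `D (ι f) ∈ ι F · t`. -/
theorem tf69_core {E : Type*} [CommRing E] [Algebra E F] (ι : F →+* L) (D : L → L)
    (hadd : ∀ a b, D (a + b) = D a + D b) (hmul : ∀ a b, D (a * b) = a * D b + b * D a)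
    (t : L) (hE : ∀ a : E, ∃ c : F, D (ι (algebraMap E F a)) = ι c * t)
    (f : F) (P : Polynomial E) (hP : aeval f P = 0) (hsep : aeval f (derivative P) ≠ 0) :
    ∃ c : F, D (ι f) = ι c * t := by
  have key : ∀ Q : Polynomial E, ∃ c : F,
      D (ι (aeval f Q)) = ι c * t + ι (aeval f (derivative Q)) * D (ι f) := by
    intro Q
    induction Q using Polynomial.induction_on' with
    | add p q hp hq =>
      obtain ⟨c₁, h₁⟩ := hp
      obtain ⟨c₂, h₂⟩ := hq
      refine ⟨c₁ + c₂, ?_⟩
      rw [map_add, map_add, hadd, h₁, h₂, derivative_add, map_add, map_add, map_add]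
      ring
    | monomial n a =>
      obtain ⟨ca, hca⟩ := hE a
      refine ⟨ca * f ^ n, ?_⟩
      rw [aeval_monomial, derivative_monomial, aeval_monomial, map_mul, map_pow, hmul, hca,
        tf69_map_pow D hmul, map_mul, map_pow, map_mul, map_pow, map_mul, map_natCast,
        map_mul, map_natCast]
      ring
  obtain ⟨c, hc⟩ := key P
  rw [hP, map_zero, tf69_map_zero D hadd] at hc
  have hne : ι (aeval f (derivative P)) ≠ 0 := (map_ne_zero ι).mpr hsep
  refine ⟨-c / aeval f (derivative P), ?_⟩
  rw [map_div₀, map_neg]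
  apply mul_left_cancel₀ hne
  have h3 : ι (aeval f (derivative P)) * (-ι c / ι (aeval f (derivative P)) * t) = -ι c * t := by
    field_simp
  rw [h3]
  linear_combination (-1 : L) * hc

end Abstract

/-! ## 2. The modular function field -/

section Modular

open Fermat.Agent.S18 Fermat.Agent.S28

variable (K : Type*) [Field K] [CharZero K] (N : ℕ) [NeZero N]

/-- **(DM)** For `f ∈ F_K(N)` there is `c ∈ F_K(N)` with `θ f = c · θ J`. -/
theorem tf69_theta_mem (f : ↥(modularFunctionFieldFullC K N)) :
    ∃ c : ↥(modularFunctionFieldFullC K N),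
      partC_theta (f : LaurentSeries K) = (c : LaurentSeries K) * partC_theta (jqModC K) := by
  classical
  let ι : ↥(modularFunctionFieldFullC K N) →+* LaurentSeries K :=
    (modularFunctionFieldFullC K N).val.toRingHom
  have hι : ∀ y : ↥(modularFunctionFieldFullC K N), ι y = (y : LaurentSeries K) := fun _ => rfl
  let D : LaurentSeries K → LaurentSeries K := fun x => partC_theta x
  have hadd : ∀ a b, D (a + b) = D a + D b := fun a b => map_add _ a b
  have hmul : ∀ a b, D (a * b) = a * D b + b * D a := fun a b => by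
    show partC_theta (a * b) = a * partC_theta b + b * partC_theta a
    rw [Derivation.leibniz, smul_eq_mul, smul_eq_mul]
  let t : LaurentSeries K := partC_theta (jqModC K)
  -- the subfield of `F` of elements with `θ y ∈ F · θ J` contains `K` and `J`
  have hK : ∀ c : K, algebraMap K ↥(modularFunctionFieldFullC K N) c ∈ tf69_sub ι D hadd hmul t := by
    intro c
    refine ⟨0, ?_⟩
    show partC_theta (algebraMap K (LaurentSeries K) c) = ι 0 * t
    rw [Derivation.map_algebraMap, map_zero, zero_mul]
  have hj : ck11_j K N ∈ tf69_sub ι D hadd hmul t := by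
    refine ⟨1, ?_⟩
    show partC_theta (jqModC K) = ι 1 * t
    rw [map_one, one_mul]
  have hle : K⟮ck11_j K N⟯ ≤ (tf69_sub ι D hadd hmul t).toIntermediateField hK :=
    adjoin_simple_le_iff.mpr hj
  have hE : ∀ a : ↥K⟮ck11_j K N⟯, ∃ c : ↥(modularFunctionFieldFullC K N),
      D (ι (algebraMap ↥K⟮ck11_j K N⟯ ↥(modularFunctionFieldFullC K N) a)) = ι c * t :=
    fun a => hle a.2
  -- `f` is a simple root of its minimal polynomial over `K(J)`
  have hint : IsIntegral ↥K⟮ck11_j K N⟯ f := ck11_isIntegral K N f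
  have hcz : CharZero ↥K⟮ck11_j K N⟯ :=
    charZero_of_injective_algebraMap (algebraMap K ↥K⟮ck11_j K N⟯).injective
  have hsepP : (minpoly ↥K⟮ck11_j K N⟯ f).Separable := (minpoly.irreducible hint).separable
  have hP : aeval f (minpoly ↥K⟮ck11_j K N⟯ f) = 0 := minpoly.aeval _ f
  have hsep : aeval f (derivative (minpoly ↥K⟮ck11_j K N⟯ f)) ≠ 0 :=
    hsepP.aeval_derivative_ne_zero hP
  obtain ⟨c, hc⟩ := tf69_core ι D hadd hmul t hE f _ hP hsep
  exact ⟨c, hc⟩

/-- **(DM)** `θ f / θ x ∈ F_K(N)` for `f, x ∈ F_K(N)`. -/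
theorem tf69_theta_div_mem (f x : ↥(modularFunctionFieldFullC K N)) :
    partC_theta (f : LaurentSeries K) / partC_theta (x : LaurentSeries K) ∈
      modularFunctionFieldFullC K N := by
  obtain ⟨cf, hf⟩ := tf69_theta_mem K N f
  obtain ⟨cx, hx⟩ := tf69_theta_mem K N x
  by_cases h0 : partC_theta (x : LaurentSeries K) = 0
  · rw [h0, div_zero]
    exact zero_mem _
  · have ht : partC_theta (jqModC K) ≠ 0 := by
      intro h
      apply h0
      rw [hx, h, mul_zero]
    have hcx : (cx : LaurentSeries K) ≠ 0 := by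
      intro h
      apply h0
      rw [hx, h, zero_mul]
    have e : partC_theta (f : LaurentSeries K) / partC_theta (x : LaurentSeries K) =
        (cf : LaurentSeries K) / (cx : LaurentSeries K) := by
      rw [hf, hx]
      field_simp
    rw [e]
    exact div_mem cf.2 cx.2

/-- The map `f ↦ θ f / θ x` of `F_K(N)` into itself (`d/dx` when `θ x ≠ 0`). -/
def tf69_Dx (x f : ↥(modularFunctionFieldFullC K N)) : ↥(modularFunctionFieldFullC K N) :=
  ⟨partC_theta (f : LaurentSeries K) / partC_theta (x : LaurentSeries K),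
    tf69_theta_div_mem K N f x⟩

theorem tf69_Dx_coe (x f : ↥(modularFunctionFieldFullC K N)) :
    ((tf69_Dx K N x f : ↥(modularFunctionFieldFullC K N)) : LaurentSeries K) =
      partC_theta (f : LaurentSeries K) / partC_theta (x : LaurentSeries K) := rfl

/-- `θ f = D_x f · θ x`. -/
theorem tf69_Dx_mul_theta (x f : ↥(modularFunctionFieldFullC K N))
    (hx : partC_theta (x : LaurentSeries K) ≠ 0) :
    ((tf69_Dx K N x f : ↥(modularFunctionFieldFullC K N)) : LaurentSeries K) *
      partC_theta (x : LaurentSeries K) = partC_theta (f : LaurentSeries K) := by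
  rw [tf69_Dx_coe, div_mul_cancel₀ _ hx]

theorem tf69_Dx_add (x f g : ↥(modularFunctionFieldFullC K N)) :
    tf69_Dx K N x (f + g) = tf69_Dx K N x f + tf69_Dx K N x g := by
  apply Subtype.ext
  show partC_theta ((f : LaurentSeries K) + (g : LaurentSeries K)) / _ =
    partC_theta (f : LaurentSeries K) / _ + partC_theta (g : LaurentSeries K) / _
  rw [map_add, add_div]

theorem tf69_Dx_mul (x f g : ↥(modularFunctionFieldFullC K N)) :
    tf69_Dx K N x (f * g) = f * tf69_Dx K N x g + g * tf69_Dx K N x f := by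
  apply Subtype.ext
  show partC_theta ((f : LaurentSeries K) * (g : LaurentSeries K)) / _ =
    (f : LaurentSeries K) * (partC_theta (g : LaurentSeries K) / _) +
      (g : LaurentSeries K) * (partC_theta (f : LaurentSeries K) / _)
  rw [Derivation.leibniz, smul_eq_mul, smul_eq_mul, add_div, mul_div_assoc, mul_div_assoc]

theorem tf69_Dx_algebraMap (x : ↥(modularFunctionFieldFullC K N)) (c : K) :
    tf69_Dx K N x (algebraMap K ↥(modularFunctionFieldFullC K N) c) = 0 := by
  apply Subtype.ext
  show partC_theta (algebraMap K (LaurentSeries K) c) / _ = 0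
  rw [Derivation.map_algebraMap, zero_div]

theorem tf69_Dx_zero (x : ↥(modularFunctionFieldFullC K N)) : tf69_Dx K N x 0 = 0 := by
  apply Subtype.ext
  show partC_theta (0 : LaurentSeries K) / _ = 0
  rw [map_zero, zero_div]

theorem tf69_Dx_one (x : ↥(modularFunctionFieldFullC K N)) : tf69_Dx K N x 1 = 0 := by
  have h := tf69_Dx_algebraMap K N x 1
  rwa [map_one] at h

theorem tf69_Dx_neg (x f : ↥(modularFunctionFieldFullC K N)) :
    tf69_Dx K N x (-f) = - tf69_Dx K N x f := by
  apply Subtype.ext
  show partC_theta (-(f : LaurentSeries K)) / _ = -(partC_theta (f : LaurentSeries K) / _)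
  rw [map_neg, neg_div]

theorem tf69_Dx_sub (x f g : ↥(modularFunctionFieldFullC K N)) :
    tf69_Dx K N x (f - g) = tf69_Dx K N x f - tf69_Dx K N x g := by
  rw [sub_eq_add_neg, tf69_Dx_add, tf69_Dx_neg, ← sub_eq_add_neg]

/-- `D_x x = 1`. -/
theorem tf69_Dx_self (x : ↥(modularFunctionFieldFullC K N))
    (hx : partC_theta (x : LaurentSeries K) ≠ 0) : tf69_Dx K N x x = 1 := by
  apply Subtype.ext
  show partC_theta (x : LaurentSeries K) / partC_theta (x : LaurentSeries K) = 1
  exact div_self hx

theorem tf69_Dx_pow (x f : ↥(modularFunctionFieldFullC K N)) (n : ℕ) :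
    tf69_Dx K N x (f ^ n) = (n : ↥(modularFunctionFieldFullC K N)) * f ^ (n - 1) *
      tf69_Dx K N x f :=
  tf69_map_pow (tf69_Dx K N x) (tf69_Dx_mul K N x) f n

theorem tf69_Dx_inv (x f : ↥(modularFunctionFieldFullC K N)) :
    tf69_Dx K N x f⁻¹ = -(f⁻¹ * f⁻¹) * tf69_Dx K N x f := by
  by_cases h0 : f = 0
  · subst h0
    rw [inv_zero, tf69_Dx_zero, mul_zero]
  · have h2 := tf69_Dx_mul K N x f f⁻¹
    rw [mul_inv_cancel₀ h0, tf69_Dx_one] at h2
    have h3 : f * f⁻¹ = 1 := mul_inv_cancel₀ h0
    apply mul_left_cancel₀ h0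
    linear_combination (-1 : ↥(modularFunctionFieldFullC K N)) * h2 +
      (f⁻¹ * tf69_Dx K N x f) * h3

/-- Chain rule: `D_x f = D_y f · D_x y`. -/
theorem tf69_Dx_chain (x y f : ↥(modularFunctionFieldFullC K N))
    (hy : partC_theta (y : LaurentSeries K) ≠ 0) :
    tf69_Dx K N x f = tf69_Dx K N y f * tf69_Dx K N x y := by
  apply Subtype.ext
  show partC_theta (f : LaurentSeries K) / partC_theta (x : LaurentSeries K) =
    partC_theta (f : LaurentSeries K) / partC_theta (y : LaurentSeries K) *
      (partC_theta (y : LaurentSeries K) / partC_theta (x : LaurentSeries K))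
  rw [div_mul_div_comm, mul_comm (partC_theta (f : LaurentSeries K)),
    mul_div_mul_left _ _ hy]

/-- `D_x (p(f)) = p'(f) · D_x f` for `p ∈ K[X]`. -/
theorem tf69_Dx_aeval (x f : ↥(modularFunctionFieldFullC K N)) (p : Polynomial K) :
    tf69_Dx K N x (aeval f p) = aeval f (derivative p) * tf69_Dx K N x f := by
  induction p using Polynomial.induction_on' with
  | add p q hp hq =>
    rw [map_add, tf69_Dx_add, hp, hq, derivative_add, map_add]
    ring
  | monomial n a =>
    rw [aeval_monomial, derivative_monomial, aeval_monomial, tf69_Dx_mul, tf69_Dx_algebraMap,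
      tf69_Dx_pow, map_mul, map_natCast]
    ring

/-- `θ x ≠ 0` for a non-constant `x` (characteristic zero): `θ x = 0` forces `x ∈ K`. -/
theorem tf69_theta_eq_zero_iff (x : LaurentSeries K) :
    partC_theta x = 0 ↔ x = HahnSeries.C (x.coeff 0) := by
  constructor
  · intro h
    ext n
    have hn := congrArg (fun y : LaurentSeries K => y.coeff n) h
    simp only [partC_theta_coeff, HahnSeries.coeff_zero] at hn
    by_cases h0 : n = 0
    · subst h0
      simp
    · have hn0 : (n : K) ≠ 0 := by exact_mod_cast h0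
      have hx : x.coeff n = 0 := by
        rcases mul_eq_zero.mp hn with h1 | h1
        · exact absurd h1 hn0
        · exact h1
      rw [hx, HahnSeries.C_apply, HahnSeries.coeff_single_of_ne h0]
  · intro h
    rw [h]
    ext n
    rw [partC_theta_coeff, HahnSeries.coeff_zero, HahnSeries.C_apply]
    by_cases h0 : n = 0
    · subst h0
      simp
    · rw [HahnSeries.coeff_single_of_ne h0, mul_zero]

end Modular

end

end Fermat.Agent.S36
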