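import Mathlib
import Fermat.Agent.S36.ThetaField69
import Fermat.Agent.S34.DeltaQuot56
import Fermat.Agent.S34.AtkinLehnerL97

/-!
# S36 lab, rows 599 / 600, uniform `d/dx` routes (helper69): `G_x = Δ / (θ x)^6` and
`w_x = (θ x)(Q^q) / (θ x)(Q)` for an ARBITRARY coordinate `x ∈ F_K(N)`

`K` a field of characteristic zero, `F = F_K(N) ⊆ K((Q))`, `θ = Q d/dQ`, `J = jqModC K`,
`Δ = DeltaSer K`, `U = dq56_U K q = Δ(Q) / Δ(Q^q)`.  For `x ∈ F_K(N)` with `θ x ≠ 0`:

* `tg69_G K N x ∈ F_K(N)` : `G_x = (D_x J)^6 / (J^4 (J - 1728)^3)` (`D_x = d/dx = tf69_Dx`);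
  `tg69_G_mul_theta` : `G_x · (θ x)^6 = Δ`  (so `G_x = Δ / (θ x)^6`, `G_J = 1 / (J^4 (J-1728)^3)`);
  `tg69_G_ne_zero`, `tg69_G_mul_J` : `G_x · J^4 (J - 1728)^3 = (D_x J)^6`;
  `tg69_G_chain` : `G_x = G_y · (D_x y)^6`.
* `tg69_w K N q x ∈ F_K(N q)` : `w_x = (1/q) · d(β x)/d(α x)`, with expansion
  `(θ x)(Q^q) / (θ x)(Q)` (`tg69_w_coe`); `tg69_w_mul` : `w_x · θ x = (θ x)(Q^q)`;
  `tg69_w_ne_zero`.
* `tg69_w_pow_six` : **`w_x^6 · (U · G_x(Q^q)) = G_x(Q)`** in `K((Q))` — the generalisation of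
  `uw31_w_pow_six` / `kc56_T_pow_six` (`x = J`) to every coordinate;
  `tg69_w_pow_six_field` : the same identity inside `F_K(N q)`:
  `w_x^6 · (u · β G_x) = α G_x` for every `u ∈ F_K(N q)` with expansion `U`.
* `tg69_w_chain` : `w_x · β (D_x f) = α (D_x f) · w_f`-type chain rule in the form
  `w_f · α(D_x f) = β(D_x f) · w_x`.

All names are prefixed `tg69_`.
-/

set_option autoImplicit false
set_option linter.unusedSectionVars false
set_option linter.unusedVariables false
set_option linter.style.longLine false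

open Polynomial IntermediateField ModularCurve

namespace Fermat.Agent.S36

noncomputable section

open Fermat.Agent.S18 Fermat.Agent.S28 Fermat.Agent.S34

variable (K : Type*) [Field K] [CharZero K] (N : ℕ) [NeZero N]

/-! ## 1. `G_x` -/

theorem tg69_J_ne_zero : jqModC K ^ 4 * (jqModC K - 1728) ^ 3 ≠ 0 := by
  have h := dq56_theta_pow_six K
  have h6 : partC_theta (jqModC K) ^ 6 ≠ 0 := pow_ne_zero 6 (dq56_theta_J_ne_zero K)
  rw [h] at h6
  exact left_ne_zero_of_mul h6

theorem tg69_Delta_ne_zero : DeltaSer K ≠ 0 := by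
  have h := dq56_theta_pow_six K
  have h6 : partC_theta (jqModC K) ^ 6 ≠ 0 := pow_ne_zero 6 (dq56_theta_J_ne_zero K)
  rw [h] at h6
  exact right_ne_zero_of_mul h6

/-- `G_x = (D_x J)^6 / (J^4 (J - 1728)^3) ∈ F_K(N)`. -/
def tg69_G (x : ↥(modularFunctionFieldFullC K N)) : ↥(modularFunctionFieldFullC K N) :=
  tf69_Dx K N x (ck11_j K N) ^ 6 / (ck11_j K N ^ 4 * (ck11_j K N - 1728) ^ 3)

theorem tg69_G_coe (x : ↥(modularFunctionFieldFullC K N)) :
    ((tg69_G K N x : ↥(modularFunctionFieldFullC K N)) : LaurentSeries K) =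
      (partC_theta (jqModC K) / partC_theta (x : LaurentSeries K)) ^ 6 /
        (jqModC K ^ 4 * (jqModC K - 1728) ^ 3) := by
  unfold tg69_G
  have h1728 : (((1728 : ↥(modularFunctionFieldFullC K N)) :
      ↥(modularFunctionFieldFullC K N)) : LaurentSeries K) = 1728 := by
    exact map_ofNat (algebraMap ↥(modularFunctionFieldFullC K N) (LaurentSeries K)) 1728
  rw [IntermediateField.coe_div, IntermediateField.coe_pow, IntermediateField.coe_mul,
    IntermediateField.coe_pow, IntermediateField.coe_pow, AddSubgroupClass.coe_sub, h1728,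
    tf69_Dx_coe, ck11_j_coe]

/-- `G_x · (θ x)^6 = Δ`. -/
theorem tg69_G_mul_theta (x : ↥(modularFunctionFieldFullC K N))
    (hx : partC_theta (x : LaurentSeries K) ≠ 0) :
    ((tg69_G K N x : ↥(modularFunctionFieldFullC K N)) : LaurentSeries K) *
      partC_theta (x : LaurentSeries K) ^ 6 = DeltaSer K := by
  rw [tg69_G_coe, div_pow, dq56_theta_pow_six]
  have h1 := tg69_J_ne_zero K
  have h2 : partC_theta (x : LaurentSeries K) ^ 6 ≠ 0 := pow_ne_zero 6 hx
  have hJ : jqModC K ≠ 0 := fun h => h1 (by rw [h]; simp)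
  have hJ' : jqModC K - 1728 ≠ 0 := fun h => h1 (by rw [h]; simp)
  field_simp

theorem tg69_G_ne_zero (x : ↥(modularFunctionFieldFullC K N))
    (hx : partC_theta (x : LaurentSeries K) ≠ 0) : tg69_G K N x ≠ 0 := by
  intro h
  have h1 := tg69_G_mul_theta K N x hx
  rw [h, ZeroMemClass.coe_zero, zero_mul] at h1
  exact tg69_Delta_ne_zero K h1.symm

/-- `G_x · J^4 (J - 1728)^3 = (D_x J)^6`. -/
theorem tg69_G_mul_J (x : ↥(modularFunctionFieldFullC K N)) :
    tg69_G K N x * (ck11_j K N ^ 4 * (ck11_j K N - 1728) ^ 3) =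
      tf69_Dx K N x (ck11_j K N) ^ 6 := by
  have h0 : ck11_j K N ^ 4 * (ck11_j K N - 1728) ^ 3 ≠ 0 := by
    intro h
    have h1 := congrArg (fun y : ↥(modularFunctionFieldFullC K N) => (y : LaurentSeries K)) h
    have h1728 : (((1728 : ↥(modularFunctionFieldFullC K N)) :
        ↥(modularFunctionFieldFullC K N)) : LaurentSeries K) = 1728 := by
      exact map_ofNat (algebraMap ↥(modularFunctionFieldFullC K N) (LaurentSeries K)) 1728
    simp only [IntermediateField.coe_mul, IntermediateField.coe_pow, AddSubgroupClass.coe_sub,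
      h1728, ck11_j_coe, ZeroMemClass.coe_zero] at h1
    exact tg69_J_ne_zero K h1
  unfold tg69_G
  rw [div_mul_cancel₀ _ h0]

/-- Change of coordinate: `G_x = G_y · (D_x y)^6`. -/
theorem tg69_G_chain (x y : ↥(modularFunctionFieldFullC K N))
    (hy : partC_theta (y : LaurentSeries K) ≠ 0) :
    tg69_G K N x = tg69_G K N y * tf69_Dx K N x y ^ 6 := by
  unfold tg69_G
  rw [tf69_Dx_chain K N x y (ck11_j K N) hy, mul_pow]
  ring

/-! ## 2. `w_x` and the identity `w_x^6 · U · G_x(Q^q) = G_x` -/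

variable (q : ℕ) [NeZero q]

/-- `w_x = (1/q) · d(β x)/d(α x) ∈ F_K(N q)`, with expansion `(θ x)(Q^q) / (θ x)(Q)`. -/
def tg69_w (x : ↥(modularFunctionFieldFullC K N)) : ↥(modularFunctionFieldFullC K (N * q)) :=
  (q : ↥(modularFunctionFieldFullC K (N * q)))⁻¹ *
    tf69_Dx K (N * q) (al97L_alpha K N q x) (al97L_beta K N q x)

theorem tg69_w_coe (x : ↥(modularFunctionFieldFullC K N)) :
    ((tg69_w K N q x : ↥(modularFunctionFieldFullC K (N * q))) : LaurentSeries K) =
      qExpand K q (partC_theta (x : LaurentSeries K)) / partC_theta (x : LaurentSeries K) := by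
  unfold tg69_w
  have hq0 : (q : LaurentSeries K) ≠ 0 := dq56_natCast_ne_zero K q
  have hqc : (((q : ↥(modularFunctionFieldFullC K (N * q))) :
      ↥(modularFunctionFieldFullC K (N * q))) : LaurentSeries K) = (q : LaurentSeries K) := by
    exact map_natCast (algebraMap ↥(modularFunctionFieldFullC K (N * q)) (LaurentSeries K)) q
  have hC : (HahnSeries.C (q : K) : LaurentSeries K) = (q : LaurentSeries K) := by
    rw [map_natCast]
  rw [IntermediateField.coe_mul, IntermediateField.coe_inv, hqc, tf69_Dx_coe, al97L_alpha_coe,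
    al97L_beta_coe, partC_theta_qExpand, hC]
  field_simp

/-- `w_x · θ x = (θ x)(Q^q)`. -/
theorem tg69_w_mul (x : ↥(modularFunctionFieldFullC K N))
    (hx : partC_theta (x : LaurentSeries K) ≠ 0) :
    ((tg69_w K N q x : ↥(modularFunctionFieldFullC K (N * q))) : LaurentSeries K) *
      partC_theta (x : LaurentSeries K) = qExpand K q (partC_theta (x : LaurentSeries K)) := by
  rw [tg69_w_coe, div_mul_cancel₀ _ hx]

theorem tg69_w_ne_zero (x : ↥(modularFunctionFieldFullC K N))
    (hx : partC_theta (x : LaurentSeries K) ≠ 0) : tg69_w K N q x ≠ 0 := by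
  intro h
  have h1 := tg69_w_mul K N q x hx
  rw [h, ZeroMemClass.coe_zero, zero_mul] at h1
  exact (map_ne_zero_iff _ (qExpand_injective q)).mpr hx h1.symm

/-- **`w_x^6 · (U · G_x(Q^q)) = G_x(Q)`**, `U = Δ(Q)/Δ(Q^q)`. -/
theorem tg69_w_pow_six (x : ↥(modularFunctionFieldFullC K N))
    (hx : partC_theta (x : LaurentSeries K) ≠ 0) :
    ((tg69_w K N q x : ↥(modularFunctionFieldFullC K (N * q))) : LaurentSeries K) ^ 6 *
      (dq56_U K q * qExpand K q ((tg69_G K N x : ↥(modularFunctionFieldFullC K N)) :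
        LaurentSeries K)) =
      ((tg69_G K N x : ↥(modularFunctionFieldFullC K N)) : LaurentSeries K) := by
  have h1 := tg69_G_mul_theta K N x hx
  have h2 := congrArg (qExpand K q) h1
  rw [map_mul, map_pow] at h2
  have h3 : qExpand K q (DeltaSer K) * qExpand K q (DeltaInv K) = 1 := by
    rw [← map_mul, DeltaSer_mul_DeltaInv, map_one]
  have hU : dq56_U K q = DeltaSer K * qExpand K q (DeltaInv K) := by
    unfold dq56_U
    rw [qE_of_neZero]
  have key : qExpand K q (partC_theta (x : LaurentSeries K)) ^ 6 *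
      (DeltaSer K * qExpand K q (DeltaInv K) *
        qExpand K q ((tg69_G K N x : ↥(modularFunctionFieldFullC K N)) : LaurentSeries K)) =
      ((tg69_G K N x : ↥(modularFunctionFieldFullC K N)) : LaurentSeries K) *
        partC_theta (x : LaurentSeries K) ^ 6 := by
    linear_combination (DeltaSer K * qExpand K q (DeltaInv K)) * h2 + DeltaSer K * h3 - h1
  have h6 : partC_theta (x : LaurentSeries K) ^ 6 ≠ 0 := pow_ne_zero 6 hx
  rw [tg69_w_coe, hU, div_pow, div_mul_eq_mul_div, key, mul_div_assoc, div_self h6, mul_one]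

/-- The same identity inside `F_K(N q)`: `w_x^6 · (u · β G_x) = α G_x` for every `u` with
expansion `U = Δ(Q)/Δ(Q^q)`. -/
theorem tg69_w_pow_six_field (x : ↥(modularFunctionFieldFullC K N))
    (hx : partC_theta (x : LaurentSeries K) ≠ 0)
    (u : ↥(modularFunctionFieldFullC K (N * q)))
    (hu : (u : LaurentSeries K) = dq56_U K q) :
    tg69_w K N q x ^ 6 * (u * al97L_beta K N q (tg69_G K N x)) =
      al97L_alpha K N q (tg69_G K N x) := by
  apply Subtype.ext
  rw [IntermediateField.coe_mul, IntermediateField.coe_pow, IntermediateField.coe_mul, hu,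
    al97L_beta_coe, al97L_alpha_coe]
  exact tg69_w_pow_six K N q x hx

/-- Chain rule for `w`: `w_f · α(D_x f) = β(D_x f) · w_x`. -/
theorem tg69_w_chain (x f : ↥(modularFunctionFieldFullC K N))
    (hx : partC_theta (x : LaurentSeries K) ≠ 0)
    (hf : partC_theta (f : LaurentSeries K) ≠ 0) :
    tg69_w K N q f * al97L_alpha K N q (tf69_Dx K N x f) =
      al97L_beta K N q (tf69_Dx K N x f) * tg69_w K N q x := by
  apply Subtype.ext
  rw [IntermediateField.coe_mul, IntermediateField.coe_mul, al97L_alpha_coe, al97L_beta_coe,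
    tg69_w_coe, tg69_w_coe, tf69_Dx_coe, map_div₀]
  have hx' : qExpand K q (partC_theta (x : LaurentSeries K)) ≠ 0 :=
    (map_ne_zero_iff _ (qExpand_injective q)).mpr hx
  field_simp

end

end Fermat.Agent.S36
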