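import Mathlib
import Fermat.Agent.S36.ThetaG69
import Fermat.Agent.S36.GaussUnitW31
import Fermat.Agent.S18.Pack85

/-!
# S36 lab, row 600 C-C2 (helper67): `G_h = Δ / (θ h)^6` for the Hauptmoduln, in closed form

For the uniform coordinate route of row 600 (helper11 `c2x11_coord` / `c2x11_mid_dvd`, helper69
`cth69_main`: `ϑ_x^6 · α(G_x)^(q-1) · U ≡ 1` modulo `s_x V₂`) the only input on the coordinate `x`
is that `G_x = tg69_G K N x` (`G_x · (θ x)^6 = Δ`, helper69 `ThetaG69`) has no pole at the point.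
For `x` a Hauptmodul this is an explicit rational function of `x`:

* `gh67_two` : `J x² = (x + 256)³` ⟹ `G_x · (x⁴ (x + 64)³) = 1`;
* `gh67_three` : `J x³ = (x + 27)(x + 243)³` ⟹ `G_x · (x³ (x + 27)⁴) = 1`;
* `gh67_h2` / `gh67_h3` : the same for `pk85_h2 K N h2` / `pk85_h3 K N h3`, with
  `gh67_theta_h2` / `gh67_theta_h3` : `θ h ≠ 0`.

So `G_h` is a unit at every point where `h, h + 64` (resp. `h, h + 27`) are units: no rigidity
and no derivation argument is needed for `x = h₂, h₃`.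

All names are prefixed `gh67_`.
-/

set_option autoImplicit false
set_option linter.unusedSectionVars false
set_option linter.unusedVariables false
set_option linter.style.longLine false

open ModularCurve

namespace Fermat.Agent.S36

open Fermat.Agent.S18 Fermat.Agent.S28 Fermat.Agent.S34

section gh67

variable (K : Type) [Field K] [CharZero K] (N : ℕ) [NeZero N]

theorem gh67_Dx_natCast (x : ↥(modularFunctionFieldFullC K N)) (n : ℕ) :
    tf69_Dx K N x (n : ↥(modularFunctionFieldFullC K N)) = 0 := by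
  have h := tf69_Dx_algebraMap K N x (n : K)
  rwa [map_natCast] at h

theorem gh67_two_ne_zero : (2 : ↥(modularFunctionFieldFullC K N)) ≠ 0 := by
  intro h
  have h1 : algebraMap K ↥(modularFunctionFieldFullC K N) 2 = 0 := by
    rw [map_ofNat]; exact h
  have h2 : (2 : K) = 0 := (map_eq_zero _).mp h1
  exact two_ne_zero h2

/-- **Level 2**: `J x² = (x + 256)³` ⟹ `G_x · x⁴ (x + 64)³ = 1`. -/
theorem gh67_two (x : ↥(modularFunctionFieldFullC K N))
    (hθ : partC_theta (x : LaurentSeries K) ≠ 0)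
    (hrel : ck11_j K N * x ^ 2 = (x + 256) ^ 3) :
    tg69_G K N x * (x ^ 4 * (x + 64) ^ 3) = 1 := by
  have hself := tf69_Dx_self K N x hθ
  have hGJ := tg69_G_mul_J K N x
  have h256 : tf69_Dx K N x (256 : ↥(modularFunctionFieldFullC K N)) = 0 := by
    exact_mod_cast gh67_Dx_natCast K N x 256
  have h512 : tf69_Dx K N x (512 : ↥(modularFunctionFieldFullC K N)) = 0 := by
    exact_mod_cast gh67_Dx_natCast K N x 512
  have hd := congrArg (tf69_Dx K N x) hrel
  rw [tf69_Dx_mul, tf69_Dx_pow, tf69_Dx_pow, tf69_Dx_add, hself, h256] at hd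
  simp only [Nat.reduceSub, Nat.cast_ofNat, pow_one, mul_one, add_zero] at hd
  -- `hd : J * (2 * x) + x ^ 2 * DJ = 3 * (x + 256) ^ 2`
  have e2 : x ^ 3 * tf69_Dx K N x (ck11_j K N) = (x + 256) ^ 2 * (x - 512) := by
    linear_combination x * hd - 2 * hrel
  have e3 : (ck11_j K N - 1728) * x ^ 2 = (x - 512) ^ 2 * (x + 64) := by
    linear_combination hrel
  have ha : x + 256 ≠ 0 := by
    intro h
    have h1 := congrArg (tf69_Dx K N x) h
    rw [tf69_Dx_add, hself, h256, tf69_Dx_zero, add_zero] at h1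
    exact one_ne_zero h1
  have hb : x - 512 ≠ 0 := by
    intro h
    have h1 := congrArg (tf69_Dx K N x) h
    rw [tf69_Dx_sub, hself, h512, tf69_Dx_zero, sub_zero] at h1
    exact one_ne_zero h1
  have hX : (x + 256) ^ 12 * (x - 512) ^ 6 ≠ 0 :=
    mul_ne_zero (pow_ne_zero _ ha) (pow_ne_zero _ hb)
  have e4 : tg69_G K N x * ((ck11_j K N * x ^ 2) ^ 4 * ((ck11_j K N - 1728) * x ^ 2) ^ 3) *
      x ^ 4 = (x ^ 3 * tf69_Dx K N x (ck11_j K N)) ^ 6 := by
    linear_combination x ^ 18 * hGJ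
  rw [hrel, e3, e2] at e4
  apply mul_right_cancel₀ hX
  linear_combination e4

/-- **Level 3**: `J x³ = (x + 27)(x + 243)³` ⟹ `G_x · x³ (x + 27)⁴ = 1`. -/
theorem gh67_three (x : ↥(modularFunctionFieldFullC K N))
    (hθ : partC_theta (x : LaurentSeries K) ≠ 0)
    (hrel : ck11_j K N * x ^ 3 = (x + 27) * (x + 243) ^ 3) :
    tg69_G K N x * (x ^ 3 * (x + 27) ^ 4) = 1 := by
  have hself := tf69_Dx_self K N x hθ
  have hGJ := tg69_G_mul_J K N x
  have h27 : tf69_Dx K N x (27 : ↥(modularFunctionFieldFullC K N)) = 0 := by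
    exact_mod_cast gh67_Dx_natCast K N x 27
  have h243 : tf69_Dx K N x (243 : ↥(modularFunctionFieldFullC K N)) = 0 := by
    exact_mod_cast gh67_Dx_natCast K N x 243
  have h486 : tf69_Dx K N x (486 : ↥(modularFunctionFieldFullC K N)) = 0 := by
    exact_mod_cast gh67_Dx_natCast K N x 486
  have h19683 : tf69_Dx K N x (19683 : ↥(modularFunctionFieldFullC K N)) = 0 := by
    exact_mod_cast gh67_Dx_natCast K N x 19683
  have h2c : tf69_Dx K N x (2 : ↥(modularFunctionFieldFullC K N)) = 0 := by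
    exact_mod_cast gh67_Dx_natCast K N x 2
  have hd := congrArg (tf69_Dx K N x) hrel
  rw [tf69_Dx_mul, tf69_Dx_pow, tf69_Dx_mul, tf69_Dx_pow, tf69_Dx_add, tf69_Dx_add, hself,
    h27, h243] at hd
  simp only [Nat.reduceSub, Nat.cast_ofNat, pow_one, mul_one, add_zero] at hd
  -- `hd : J * (3 * x ^ 2) + x ^ 3 * DJ = (x + 27) * (3 * (x + 243) ^ 2) + (x + 243) ^ 3`
  have e2 : x ^ 4 * tf69_Dx K N x (ck11_j K N) =
      (x + 243) ^ 2 * (x ^ 2 - 486 * x - 19683) := by
    linear_combination x * hd - 3 * hrel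
  have e3 : (ck11_j K N - 1728) * x ^ 3 = (x ^ 2 - 486 * x - 19683) ^ 2 := by
    linear_combination hrel
  have ha : x + 243 ≠ 0 := by
    intro h
    have h1 := congrArg (tf69_Dx K N x) h
    rw [tf69_Dx_add, hself, h243, tf69_Dx_zero, add_zero] at h1
    exact one_ne_zero h1
  have hb : x ^ 2 - 486 * x - 19683 ≠ 0 := by
    intro h
    have h1 := congrArg (tf69_Dx K N x) h
    rw [tf69_Dx_sub, tf69_Dx_sub, tf69_Dx_pow, tf69_Dx_mul, hself, h486, h19683,
      tf69_Dx_zero] at h1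
    simp only [Nat.reduceSub, Nat.cast_ofNat, pow_one, mul_one, mul_zero, add_zero,
      sub_zero] at h1
    -- `h1 : 2 * x - 486 = 0`
    have h2 := congrArg (tf69_Dx K N x) h1
    rw [tf69_Dx_sub, tf69_Dx_mul, hself, h2c, h486, tf69_Dx_zero] at h2
    simp only [mul_one, mul_zero, add_zero, sub_zero] at h2
    exact gh67_two_ne_zero K N h2
  have hX : (x + 243) ^ 12 * (x ^ 2 - 486 * x - 19683) ^ 6 ≠ 0 :=
    mul_ne_zero (pow_ne_zero _ ha) (pow_ne_zero _ hb)
  have e4 : tg69_G K N x * ((ck11_j K N * x ^ 3) ^ 4 * ((ck11_j K N - 1728) * x ^ 3) ^ 3) *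
      x ^ 3 = (x ^ 4 * tf69_Dx K N x (ck11_j K N)) ^ 6 := by
    linear_combination x ^ 24 * hGJ
  rw [hrel, e3, e2] at e4
  apply mul_right_cancel₀ hX
  linear_combination e4

end gh67

section gh67_haupt

variable (K : Type) [Field K] [CharZero K] (N : ℕ) [NeZero N]

theorem gh67_theta_h2 (h2 : 2 ∣ N) :
    partC_theta ((pk85_h2 K N h2 : ↥(modularFunctionFieldFullC K N)) : LaurentSeries K) ≠ 0 := by
  rw [pk85_h2_coe]
  exact guw31_theta_ne_zero2 K _ (h70_h2_ne_zero K) (h70_j_mul_h2_sq K)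

theorem gh67_theta_h3 (h3 : 3 ∣ N) :
    partC_theta ((pk85_h3 K N h3 : ↥(modularFunctionFieldFullC K N)) : LaurentSeries K) ≠ 0 := by
  rw [pk85_h3_coe]
  exact guw31_theta_ne_zero3 K _ (uwh31_h3_ok K).1 (uwh31_h3_ok K).2

/-- **`G_{h₂} · h₂⁴ (h₂ + 64)³ = 1`** in `F_K(N)`, `2 ∣ N`. -/
theorem gh67_h2 (h2 : 2 ∣ N) :
    tg69_G K N (pk85_h2 K N h2) *
      (pk85_h2 K N h2 ^ 4 * (pk85_h2 K N h2 + 64) ^ 3) = 1 :=
  gh67_two K N _ (gh67_theta_h2 K N h2) (pk85_h2_rel K N h2)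

/-- **`G_{h₃} · h₃³ (h₃ + 27)⁴ = 1`** in `F_K(N)`, `3 ∣ N`. -/
theorem gh67_h3 (h3 : 3 ∣ N) :
    tg69_G K N (pk85_h3 K N h3) *
      (pk85_h3 K N h3 ^ 3 * (pk85_h3 K N h3 + 27) ^ 4) = 1 :=
  gh67_three K N _ (gh67_theta_h3 K N h3) (pk85_h3_rel K N h3)

end gh67_haupt

end Fermat.Agent.S36
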