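import Fermat.Agent.S36.KappaMod56
import Fermat.Agent.S34.DeltaQuot56b
import Fermat.Agent.S18.Haupt2

/-!
# S36 lab (helper65): residue characteristic `2` and `3` — `U ≡ J ^ (q - 1)` modulo `q`

The input "`J` is a unit wherever `U = Δ(Q)/Δ(Q^q)` is a unit" for `q ∈ {2, 3}` (rows 599 / 600:
at a point of the special fibre lying on ONE branch only, `U` is a unit, hence `j̄ ≠ 0 = 1728`;
so for `q = 2, 3` there is no one-branch point over `j = 0 = 1728` and the generic case of the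
`C_2`-only / smooth-point analysis applies).

* `uj65_j_mul_Delta` : `j · Δ = 1` over any commutative ring in which `240 = 0`
  (`j Δ = E₄³`, `E₄ = 1 + 240 (…)`);
* `uj65_U_eq`        : over a field of characteristic `q ∈ {2, 3}`:
  `dq56_U κ q = jqModC κ ^ (q - 1)`;
* `uj65_exists_G`    : over `ℤ`: `q · G = U - J ^ (q - 1)` for an integral series `G`;
* `uj65_U_cong`      : on the canonical frame at level `M' q`:
  `π⁻¹ (U - j ^ (q - 1)) ∈ V_∞` for every `j ∈ F_K(M' q)` with expansion `jqModC K`;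
* `uj65_not_mem`     : chart form: if `n` is a prime of a chart `B ⊆ V` containing `B ∩ π V`,
  `U ∉ n` and `π⁻¹ (U - j ^ k) ∈ V` with `1 ≤ k`, then `j ∉ n`.

All names are prefixed `uj65_`.
-/

set_option autoImplicit false
set_option linter.unusedSectionVars false

open ModularCurve

namespace Fermat.Agent.S36

open Fermat.Agent.S18 Fermat.Agent.S28 Fermat.Agent.S34

/-- `j · Δ = 1` over a commutative ring in which `240 = 0`. -/
theorem uj65_j_mul_Delta (A : Type*) [CommRing A] (h240 : (240 : A) = 0) :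
    jqModC A * DeltaSer A = 1 := by
  have h := congrArg (coeffMap (Int.castRingHom A)) h70_jq_mul_DeltaSer_int
  rw [map_mul, coeffMap_jqModC, coeffMap_DeltaSer, coeffMap_ofPowerSeries] at h
  rw [h]
  have hE4 : PowerSeries.map (Int.castRingHom A) h70_E4 = 1 := by
    unfold h70_E4
    have h2 : PowerSeries.map (Int.castRingHom A) (240 : PowerSeries ℤ) = 0 := by
      rw [map_ofNat]
      have h3 : (240 : PowerSeries A) = PowerSeries.C (240 : A) := by
        rw [map_ofNat]
      rw [h3, h240, map_zero]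
    rw [map_add, map_one, map_mul, h2, zero_mul, add_zero]
  rw [map_pow, hE4, one_pow, map_one]

/-- In characteristic `q ∈ {2, 3}`: `Δ(Q)/Δ(Q^q) = j ^ (q - 1)`. -/
theorem uj65_U_eq (κ : Type*) [Field κ] (q : ℕ) (hq : q.Prime) [CharP κ q]
    (h23 : q = 2 ∨ q = 3) : dq56_U κ q = jqModC κ ^ (q - 1) := by
  haveI : NeZero q := ⟨hq.ne_zero⟩
  haveI : ExpChar κ q := ExpChar.prime hq
  have hq0 : ((q : ℕ) : κ) = 0 := CharP.cast_eq_zero κ q
  have h240 : (240 : κ) = 0 := by
    rcases h23 with rfl | rfl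
    · have h2 : (2 : κ) = 0 := by exact_mod_cast hq0
      linear_combination 120 * h2
    · have h3 : (3 : κ) = 0 := by exact_mod_cast hq0
      linear_combination 80 * h3
  have hjD := uj65_j_mul_Delta κ h240
  have hDD := DeltaSer_mul_DeltaInv κ
  have hinv : DeltaInv κ = jqModC κ := by
    calc DeltaInv κ = (jqModC κ * DeltaSer κ) * DeltaInv κ := by rw [hjD, one_mul]
      _ = jqModC κ * (DeltaSer κ * DeltaInv κ) := by ring
      _ = jqModC κ := by rw [hDD, mul_one]
  have hfrob : qE κ q (jqModC κ) = jqModC κ ^ q := by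
    have h1 : JdC κ q = jqModC κ ^ q := by
      rw [JdC_of_neZero, ← coeffMap_jqModC (Int.castRingHom κ), km56_frob]
    exact h1
  unfold dq56_U
  rw [hinv, hfrob]
  have hq1 : q = (q - 1) + 1 := (Nat.sub_add_cancel hq.one_le).symm
  calc DeltaSer κ * jqModC κ ^ q
      = (jqModC κ * DeltaSer κ) * jqModC κ ^ (q - 1) := by
        conv_lhs => rw [hq1, pow_succ]
        ring
    _ = jqModC κ ^ (q - 1) := by rw [hjD, one_mul]

/-- Over `ℤ`, for `q ∈ {2, 3}`: `U - J ^ (q - 1)` is divisible by `q`. -/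
theorem uj65_exists_G (q : ℕ) (hq : q.Prime) (h23 : q = 2 ∨ q = 3) :
    ∃ G : LaurentSeries ℤ, HahnSeries.C (q : ℤ) * G = dq56_U ℤ q - jqModC ℤ ^ (q - 1) := by
  haveI : NeZero q := ⟨hq.ne_zero⟩
  haveI : Fact q.Prime := ⟨hq⟩
  have h0 : coeffMap (Int.castRingHom (ZMod q)) (dq56_U ℤ q - jqModC ℤ ^ (q - 1)) = 0 := by
    rw [map_sub, map_pow, dq56_coeffMap_U, coeffMap_jqModC, uj65_U_eq (ZMod q) q hq h23, sub_self]
  have hdiv : ∀ n, (q : ℤ) ∣ (dq56_U ℤ q - jqModC ℤ ^ (q - 1)).coeff n := by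
    intro n
    have h1 := congrArg (fun y => y.coeff n) h0
    simp only [coeffMap_coeff, HahnSeries.coeff_zero] at h1
    exact (ZMod.intCast_zmod_eq_zero_iff_dvd _ q).mp h1
  obtain ⟨G, hG⟩ := gv85_exists_div (dq56_U ℤ q - jqModC ℤ ^ (q - 1)) (q : ℤ)
    (by exact_mod_cast hq.ne_zero) hdiv
  exact ⟨G, hG.symm⟩

section Frame

variable {R K : Type} [CommRing R] [IsDomain R] [IsDiscreteValuationRing R] [Field K] [CharZero K]
  [Algebra R K] [IsFractionRing R K] [Algebra K (AlgebraicClosure ℚ)]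
  (M' q : ℕ) [NeZero M'] [NeZero q]
  [Algebra R ↥(modularFunctionFieldFullC K (M' * q))]
  [IsScalarTower R K ↥(modularFunctionFieldFullC K (M' * q))]

/-- The reduction of `U - J ^ (q - 1)` vanishes in residue characteristic `q ∈ {2, 3}`. -/
theorem uj65_U_red (hq : q.Prime) (h23 : q = 2 ∨ q = 3) (hqR : ¬ IsUnit (q : R)) :
    coeffMap (IsLocalRing.residue R) (dq56_U R q - jqModC R ^ (q - 1)) = 0 := by
  have hchar : (q : IsLocalRing.ResidueField R) = 0 := by
    have h1 : IsLocalRing.residue R (q : R) = 0 :=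
      (IsLocalRing.residue_eq_zero_iff _).mpr ((IsLocalRing.mem_maximalIdeal _).mpr hqR)
    simpa using h1
  haveI : CharP (IsLocalRing.ResidueField R) q := (CharP.charP_iff_prime_eq_zero hq).mpr hchar
  rw [map_sub, map_pow, dq56_coeffMap_U, coeffMap_jqModC,
    uj65_U_eq (IsLocalRing.ResidueField R) q hq h23, sub_self]

/-- **`U ≡ j ^ (q - 1)` modulo `π V_∞`** at level `M' q`, `q ∈ {2, 3}` the residue
characteristic. -/
theorem uj65_U_cong (hq : q.Prime) (h23 : q = 2 ∨ q = 3) {π : R} (hπ : Irreducible π)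
    (hqR : ¬ IsUnit (q : R)) (j : ↥(modularFunctionFieldFullC K (M' * q)))
    (hj : (j : LaurentSeries K) = jqModC K) :
    (algebraMap K ↥(modularFunctionFieldFullC K (M' * q)) (algebraMap R K π))⁻¹ *
      (dq56b_U (K := K) M' q hq - j ^ (q - 1)) ∈ cm85_Vinf (K := K) (M' * q) hπ := by
  refine (gv85_gauss (IsLocalRing.residue R) π (pk85_res_iff hπ) hπ.ne_zero _ _ _
    (dq56_U R q - jqModC R ^ (q - 1)) ?_).mpr (uj65_U_red q hq h23 hqR)
  show ((dq56b_U (K := K) M' q hq : ↥(modularFunctionFieldFullC K (M' * q))) :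
      LaurentSeries K) - ((j ^ (q - 1) : ↥(modularFunctionFieldFullC K (M' * q))) :
        LaurentSeries K) = _
  rw [map_sub, map_pow, dq56_coeffMap_U, coeffMap_jqModC]
  have h1 : ((j ^ (q - 1) : ↥(modularFunctionFieldFullC K (M' * q))) : LaurentSeries K) =
      (j : LaurentSeries K) ^ (q - 1) := rfl
  rw [h1, hj]
  rfl

end Frame

/-- Chart form: `n` a prime of `B ⊆ F` containing the centre of `V` (`x ∈ B`, `p⁻¹ x ∈ V` imply
`x ∈ n`), `U ∉ n`, `p⁻¹ (U - j ^ k) ∈ V`, `1 ≤ k`.  Then `j ∉ n`. -/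
theorem uj65_not_mem {R F : Type*} [CommRing R] [Field F] [Algebra R F] (p : F)
    (B : Subalgebra R F) (V : Subring F) (n : Ideal B) [n.IsPrime]
    (hOn : ∀ x : B, p⁻¹ * (x : F) ∈ V → x ∈ n)
    (U j : B) (k : ℕ) (hk : 1 ≤ k) (hU : U ∉ n)
    (hcong : p⁻¹ * ((U : F) - (j : F) ^ k) ∈ V) : j ∉ n := by
  intro hj
  apply hU
  have h1 : U - j ^ k ∈ n := by
    apply hOn
    push_cast
    exact hcong
  have h2 : j ^ k ∈ n := by
    obtain ⟨k', rfl⟩ : ∃ k', k = k' + 1 := ⟨k - 1, by omega⟩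
    rw [pow_succ]
    exact n.mul_mem_left _ hj
  have h3 : U = (U - j ^ k) + j ^ k := by ring
  rw [h3]
  exact n.add_mem h1 h2

end Fermat.Agent.S36
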