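import Fermat.Agent.S36.UnitAtSq75
import Fermat.Agent.S36.UnitJSmall65

/-!
# S36 lab, row 600 C-C2 binder, `q = 2, 3` (helper75): `j` is a unit of `B_n` at every closed
point of the middle branch off the third branch, canonical frame of level `M' q q`

`sqi75_j_unit_at` : `q ∈ {2, 3}`, `V₁ = cm85_Vinf (M' q q)`, ANY `V₂ ⊇ α (cm85_Vinf (M' q))`
(fact 1 of `v2e46_exists`), any `V₃`, `B` integrally closed and saturated, `n` a prime of `B`
on the `V₂`-branch (`hOn₂`, literally `sf79_OnBr π B V₂ n`), off the `V₃`-branch (separator `a`),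
`j` regular at `n` (`s j ∈ B`, `s ∉ n`, `s` a unit of `V₁` and `V₂`).  Then `s j ∉ n`:
`j` is a unit of `B_n`, i.e. there is NO one-branch point of the middle component over
`j = 0 = 1728`.

Proof: `usq75_alphaU_unit_at` (`α^* U` is a unit of `B_n`) and `uj65_U_cong`
(`U ≡ j ^ (q - 1)` modulo `π V_∞` at level `M' q`) pushed into `V₂` by `α`.

All names are prefixed `sqi75_`.
-/

set_option autoImplicit false
set_option linter.unusedSectionVars false

open ModularCurve AlgebraicCurve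

namespace Fermat.Agent.S36

open Fermat.Agent.S18 Fermat.Agent.S28 Fermat.Agent.S34

local notation "Q̄" => AlgebraicClosure ℚ

section Canon

variable {R K : Type} [CommRing R] [IsDomain R] [IsDiscreteValuationRing R] [Field K] [CharZero K]
  [Algebra R K] [IsFractionRing R K] [Algebra K Q̄]
  (M' q : ℕ) [NeZero M'] [NeZero q] (hq : q.Prime) (hM' : ¬ q ∣ M')
  [Algebra R ↥(modularFunctionFieldFullC K (M' * q * q))]
  [IsScalarTower R K ↥(modularFunctionFieldFullC K (M' * q * q))]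
  [Algebra R ↥(modularFunctionFieldFullC K (M' * q))]
  [IsScalarTower R K ↥(modularFunctionFieldFullC K (M' * q))]

include hq hM' in
/-- **`q ∈ {2, 3}`: `j` is a unit of `B_n` at every point of the middle branch off the third
branch.** -/
theorem sqi75_j_unit_at (h23 : q = 2 ∨ q = 3) (hπq : Irreducible ((q : ℕ) : R))
    (B : Subalgebra R ↥(modularFunctionFieldFullC K (M' * q * q)))
    (hBint : ∀ z : ↥(modularFunctionFieldFullC K (M' * q * q)), IsIntegral B z → z ∈ B)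
    (V₂ V₃ : ValuationSubring ↥(modularFunctionFieldFullC K (M' * q * q)))
    (hV₂ : ∀ c ∈ cm85_Vinf (K := K) (M' * q) hπq, al97L_alpha K (M' * q) q c ∈ V₂)
    (hB₁ : ∀ x ∈ B, x ∈ cm85_Vinf (K := K) (M' * q * q) hπq)
    (hB₂ : ∀ x ∈ B, x ∈ V₂) (hB₃ : ∀ x ∈ B, x ∈ V₃)
    (hsat : ∀ x ∈ B,
      (algebraMap R ↥(modularFunctionFieldFullC K (M' * q * q)) ((q : ℕ) : R))⁻¹ * x ∈
        cm85_Vinf (K := K) (M' * q * q) hπq →
      (algebraMap R ↥(modularFunctionFieldFullC K (M' * q * q)) ((q : ℕ) : R))⁻¹ * x ∈ V₂ →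
      (algebraMap R ↥(modularFunctionFieldFullC K (M' * q * q)) ((q : ℕ) : R))⁻¹ * x ∈ V₃ →
      (algebraMap R ↥(modularFunctionFieldFullC K (M' * q * q)) ((q : ℕ) : R))⁻¹ * x ∈ B)
    (n : Ideal B) [hn : n.IsPrime]
    (hOn₂ : ∀ x : B,
      (algebraMap R ↥(modularFunctionFieldFullC K (M' * q * q)) ((q : ℕ) : R))⁻¹ *
        (x : ↥(modularFunctionFieldFullC K (M' * q * q))) ∈ V₂ → x ∈ n)
    (s : B) (hs : s ∉ n)
    (hsj : (s : ↥(modularFunctionFieldFullC K (M' * q * q))) * rm90_j K (M' * q * q) ∈ B)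
    (hs₁ : (s : ↥(modularFunctionFieldFullC K (M' * q * q)))⁻¹ ∈
      cm85_Vinf (K := K) (M' * q * q) hπq)
    (hs₂ : (s : ↥(modularFunctionFieldFullC K (M' * q * q)))⁻¹ ∈ V₂)
    (a : B) (ha : a ∉ n)
    (ha₃ : (algebraMap R ↥(modularFunctionFieldFullC K (M' * q * q)) ((q : ℕ) : R))⁻¹ *
      (a : ↥(modularFunctionFieldFullC K (M' * q * q))) ∈ V₃) :
    (⟨_, hsj⟩ : B) ∉ n := by
  obtain ⟨t, U', ht, hU', hU'eq⟩ := usq75_alphaU_unit_at M' q hq hM' hπq B hBint V₂ V₃ hV₂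
    hB₁ hB₂ hB₃ hsat n s hs hsj hs₁ hs₂ a ha ha₃
  -- the congruence at level `M' q`, pushed to `V₂`
  have hc := uj65_U_cong (K := K) M' q hq h23 hπq hπq.not_isUnit (rm90_j K (M' * q)) rfl
  have hc2 := hV₂ _ hc
  have hαj : al97L_alpha K (M' * q) q (rm90_j K (M' * q)) = rm90_j K (M' * q * q) := by
    apply Subtype.ext
    rw [al97L_alpha_coe]
    rfl
  have hαπ : al97L_alpha K (M' * q) q
      (algebraMap K ↥(modularFunctionFieldFullC K (M' * q)) (algebraMap R K ((q : ℕ) : R))) =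
      algebraMap R ↥(modularFunctionFieldFullC K (M' * q * q)) ((q : ℕ) : R) := by
    rw [IsScalarTower.algebraMap_apply R K ↥(modularFunctionFieldFullC K (M' * q * q))]
    exact (al97L_alpha K (M' * q) q).commutes _
  rw [map_mul, map_inv₀, hαπ, map_sub, map_pow, hαj] at hc2
  -- `X = s ^ (q - 1) * U' - t * (s j) ^ (q - 1)` lies in `n`
  have hX : s ^ (q - 1) * U' - t * (⟨_, hsj⟩ : B) ^ (q - 1) ∈ n := by
    apply hOn₂
    have e : (algebraMap R ↥(modularFunctionFieldFullC K (M' * q * q)) ((q : ℕ) : R))⁻¹ *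
        ((s ^ (q - 1) * U' - t * (⟨_, hsj⟩ : B) ^ (q - 1) : B) :
          ↥(modularFunctionFieldFullC K (M' * q * q))) =
        ((t : ↥(modularFunctionFieldFullC K (M' * q * q))) *
          (s : ↥(modularFunctionFieldFullC K (M' * q * q))) ^ (q - 1)) *
        ((algebraMap R ↥(modularFunctionFieldFullC K (M' * q * q)) ((q : ℕ) : R))⁻¹ *
          (al97L_alpha K (M' * q) q (dq56b_U (K := K) M' q hq) -
            rm90_j K (M' * q * q) ^ (q - 1))) := by
      push_cast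
      rw [hU'eq]
      unfold usq75_alphaU
      ring
    rw [e]
    exact mul_mem (mul_mem (hB₂ _ t.2) (pow_mem (hB₂ _ s.2) _)) hc2
  intro hj
  have hq1 : 1 ≤ q - 1 := by rcases h23 with rfl | rfl <;> norm_num
  have h1 : t * (⟨_, hsj⟩ : B) ^ (q - 1) ∈ n := by
    obtain ⟨k, hk⟩ : ∃ k, q - 1 = k + 1 := ⟨q - 2, by omega⟩
    rw [hk, pow_succ]
    exact n.mul_mem_left _ (n.mul_mem_left _ hj)
  have h2 : s ^ (q - 1) * U' ∈ n := by
    have e : s ^ (q - 1) * U' =
        (s ^ (q - 1) * U' - t * (⟨_, hsj⟩ : B) ^ (q - 1)) + t * (⟨_, hsj⟩ : B) ^ (q - 1) := by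
      ring
    rw [e]
    exact n.add_mem hX h1
  rcases hn.mem_or_mem h2 with h | h
  · exact hs (hn.mem_of_pow_mem _ h)
  · exact hU' h

end Canon

end Fermat.Agent.S36
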