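import Fermat.Agent.S36.C2Den66
import Fermat.Agent.S36.C2Den74
import Fermat.Agent.S36.SmallQInst75
import Fermat.Agent.S36.GHaupt67

/-!
# S36 lab, row C-C2 (helper66): the middle branch is principal at every `j`-regular
`C₂`-only point (`hreg`), Hauptmodul route with denominators

* `c2r66_two` / `c2r66_three` : at a `j`-regular prime `n` on the middle branch only of an
  integrally closed saturated chart `B` of level `M' q²`, with the coordinate `x = h₂` (where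
  `j - 1728` is a unit at `n`) resp. `x = h₃` (where `j` is a unit at `n`):
  `mc25_MidPrinAt s B V₂ n`, via `c2h66_prinAt`, `c2p74_den_haupt` (denominators),
  `usq75_alphaU_unit_at` (`α^* U` unit at `n`) and `gh67_h2` / `gh67_h3` (closed form of `G_x`).
* `c2r66_core` : the case split (`q ≥ 5` : `j - 1728` or `j` is a unit at `n`;
  `q = 3`, `q = 2` : `j` is a unit at `n` by `sqi75_j_unit_at`).

The chart enters through one element `sc ∈ B`, `sc ∉ n`, `sc * j ∈ B`, `sc` a unit of `V₁`, `V₂`.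

All names are prefixed `c2r66_`.
-/

set_option autoImplicit false
set_option linter.unusedSectionVars false
set_option linter.style.haveILetI false
set_option linter.style.longLine false
set_option linter.unusedVariables false
set_option linter.unusedSimpArgs false

open ModularCurve IntermediateField

namespace Fermat.Agent.S36

open Fermat.Agent.S18 Fermat.Agent.S24 Fermat.Agent.S28 Fermat.Agent.S37 Fermat.Agent.S34
open Fermat.Agent.S35 Fermat.Agent.S36.TripleLoc71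

local notation "Q̄" => AlgebraicClosure ℚ

section c2r66_abs

variable {R F : Type*} [CommRing R] [Field F] [Algebra R F]

/-- Two distinct primes cannot both lie in a prime ideal. -/
theorem c2r66_prime_not_mem (B : Subalgebra R F) (n : Ideal B) [hn : n.IsPrime] (q p : ℕ)
    (hq : q.Prime) (hp : p.Prime) (hpq : p ≠ q) (hqn : ((q : ℕ) : B) ∈ n) :
    ((p : ℕ) : B) ∉ n := by
  intro hpn
  have hcop : IsCoprime (p : ℤ) (q : ℤ) := by
    rw [Nat.isCoprime_iff_coprime]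
    exact (Nat.coprime_primes hp hq).mpr hpq
  obtain ⟨u, v, huv⟩ := hcop
  apply hn.ne_top
  rw [Ideal.eq_top_iff_one]
  have h1 : ((u : B) * ((p : ℕ) : B) + (v : B) * ((q : ℕ) : B)) = 1 := by
    have := congrArg (Int.cast : ℤ → B) huv
    push_cast at this
    exact this
  rw [← h1]
  exact n.add_mem (n.mul_mem_left _ hpn) (n.mul_mem_left _ hqn)

/-- Level 2: `t = b T` is a unit at `n` when `j` is regular at `n` and `2 ∉ n`. -/
theorem c2r66_t_not_mem_two (B : Subalgebra R F) (n : Ideal B) [hn : n.IsPrime] (j T : F)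
    (hrel : j * T ^ 2 = (T + 256) ^ 3) (s' b' b t : B) (hs' : s' ∉ n)
    (hsj : (s' : F) * j = (b' : F)) (ht : (t : F) = (b : F) * T) (hb : b ∉ n)
    (h2 : ((2 : ℕ) : B) ∉ n) : t ∉ n := by
  intro htn
  have key : b' * t ^ 2 * b = s' * (t + ((256 : ℕ) : B) * b) ^ 3 := by
    apply Subtype.ext
    have hc : ∀ k : ℕ, (((k : ℕ) : B) : F) = (k : F) := fun k => SubringClass.coe_natCast B k
    simp only [Subalgebra.coe_add, Subalgebra.coe_sub, Subalgebra.coe_mul, Subalgebra.coe_pow, hc]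
    simp only [Nat.cast_ofNat]
    rw [← hsj, ht]
    linear_combination (s' : F) * (b : F) ^ 3 * hrel
  have h1 : s' * (t + ((256 : ℕ) : B) * b) ^ 3 ∈ n := by
    rw [← key]
    exact n.mul_mem_right _ (n.mul_mem_left _ (n.pow_mem_of_mem htn 2 (by norm_num)))
  have h2' : t + ((256 : ℕ) : B) * b ∈ n :=
    hn.mem_of_pow_mem 3 ((hn.mem_or_mem h1).resolve_left hs')
  have h3 : ((256 : ℕ) : B) * b ∈ n := by
    have := n.sub_mem h2' htn
    simpa using this
  rcases hn.mem_or_mem h3 with h | h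
  · apply h2
    have e : ((256 : ℕ) : B) = ((2 : ℕ) : B) ^ 8 := by push_cast; norm_num
    rw [e] at h
    exact hn.mem_of_pow_mem 8 h
  · exact hb h

/-- Level 3: `t = b T` is a unit at `n` when `j` is regular at `n` and `3 ∉ n`. -/
theorem c2r66_t_not_mem_three (B : Subalgebra R F) (n : Ideal B) [hn : n.IsPrime] (j T : F)
    (hrel : j * T ^ 3 = (T + 27) * (T + 243) ^ 3) (s' b' b t : B) (hs' : s' ∉ n)
    (hsj : (s' : F) * j = (b' : F)) (ht : (t : F) = (b : F) * T) (hb : b ∉ n)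
    (h3 : ((3 : ℕ) : B) ∉ n) : t ∉ n := by
  intro htn
  have key : b' * t ^ 3 * b =
      s' * ((t + ((27 : ℕ) : B) * b) * (t + ((243 : ℕ) : B) * b) ^ 3) := by
    apply Subtype.ext
    have hc : ∀ k : ℕ, (((k : ℕ) : B) : F) = (k : F) := fun k => SubringClass.coe_natCast B k
    simp only [Subalgebra.coe_add, Subalgebra.coe_sub, Subalgebra.coe_mul, Subalgebra.coe_pow, hc]
    simp only [Nat.cast_ofNat]
    rw [← hsj, ht]
    linear_combination (s' : F) * (b : F) ^ 4 * hrel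
  have h1 : s' * ((t + ((27 : ℕ) : B) * b) * (t + ((243 : ℕ) : B) * b) ^ 3) ∈ n := by
    rw [← key]
    exact n.mul_mem_right _ (n.mul_mem_left _ (n.pow_mem_of_mem htn 3 (by norm_num)))
  have h1' := (hn.mem_or_mem h1).resolve_left hs'
  have hk : ∀ k : ℕ, ((3 : ℕ) : B) ^ k * b ∉ n := by
    intro k h
    rcases hn.mem_or_mem h with h | h
    · exact h3 (hn.mem_of_pow_mem k h)
    · exact hb h
  rcases hn.mem_or_mem h1' with h | h
  · apply hk 3
    have := n.sub_mem h htn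
    have e : ((27 : ℕ) : B) = ((3 : ℕ) : B) ^ 3 := by push_cast; norm_num
    rw [← e]
    simpa using this
  · apply hk 5
    have := n.sub_mem (hn.mem_of_pow_mem 3 h) htn
    have e : ((243 : ℕ) : B) = ((3 : ℕ) : B) ^ 5 := by push_cast; norm_num
    rw [← e]
    simpa using this

/-- Level 2: `T + 64` is a unit at `n` when `j - 1728` is. -/
theorem c2r66_unit64 (B : Subalgebra R F) (n : Ideal B) [hn : n.IsPrime] (j T : F)
    (hrel : j * T ^ 2 = (T + 256) ^ 3) (s' b' b t : B)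
    (hsj : (s' : F) * j = (b' : F)) (ht : (t : F) = (b : F) * T)
    (hJ : b' - ((1728 : ℕ) : B) * s' ∉ n) (htn : t ∉ n) (hb : b ∉ n) :
    t + ((64 : ℕ) : B) * b ∉ n := by
  intro h
  have key : (b' - ((1728 : ℕ) : B) * s') * t ^ 2 * b =
      s' * ((t + ((64 : ℕ) : B) * b) * (t - ((512 : ℕ) : B) * b) ^ 2) := by
    apply Subtype.ext
    have hc : ∀ k : ℕ, (((k : ℕ) : B) : F) = (k : F) := fun k => SubringClass.coe_natCast B k
    simp only [Subalgebra.coe_add, Subalgebra.coe_sub, Subalgebra.coe_mul, Subalgebra.coe_pow, hc]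
    simp only [Nat.cast_ofNat]
    rw [← hsj, ht]
    linear_combination (s' : F) * (b : F) ^ 3 * hrel
  have h1 : (b' - ((1728 : ℕ) : B) * s') * t ^ 2 * b ∈ n := by
    rw [key]
    exact n.mul_mem_left _ (n.mul_mem_right _ h)
  rcases hn.mem_or_mem h1 with h2 | h2
  · rcases hn.mem_or_mem h2 with h3 | h3
    · exact hJ h3
    · exact htn (hn.mem_of_pow_mem 2 h3)
  · exact hb h2

/-- Level 3: `T + 27` is a unit at `n` when `j` is. -/
theorem c2r66_unit27 (B : Subalgebra R F) (n : Ideal B) [hn : n.IsPrime] (j T : F)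
    (hrel : j * T ^ 3 = (T + 27) * (T + 243) ^ 3) (s' b' b t : B)
    (hsj : (s' : F) * j = (b' : F)) (ht : (t : F) = (b : F) * T)
    (hJ : b' ∉ n) (htn : t ∉ n) (hb : b ∉ n) :
    t + ((27 : ℕ) : B) * b ∉ n := by
  intro h
  have key : b' * t ^ 3 * b =
      s' * ((t + ((27 : ℕ) : B) * b) * (t + ((243 : ℕ) : B) * b) ^ 3) := by
    apply Subtype.ext
    have hc : ∀ k : ℕ, (((k : ℕ) : B) : F) = (k : F) := fun k => SubringClass.coe_natCast B k
    simp only [Subalgebra.coe_add, Subalgebra.coe_sub, Subalgebra.coe_mul, Subalgebra.coe_pow, hc]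
    simp only [Nat.cast_ofNat]
    rw [← hsj, ht]
    linear_combination (s' : F) * (b : F) ^ 4 * hrel
  have h1 : b' * t ^ 3 * b ∈ n := by
    rw [key]
    exact n.mul_mem_left _ (n.mul_mem_right _ h)
  rcases hn.mem_or_mem h1 with h2 | h2
  · rcases hn.mem_or_mem h2 with h3 | h3
    · exact hJ h3
    · exact htn (hn.mem_of_pow_mem 3 h3)
  · exact hb h2

end c2r66_abs

section c2r66_concrete

variable {R K : Type} [CommRing R] [IsDomain R] [IsDiscreteValuationRing R] [Field K] [CharZero K]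
  [Algebra R K] [IsFractionRing R K] [Algebra K Q̄]
  (M' q : ℕ) [NeZero M'] [NeZero q] (hq : q.Prime) (hM' : ¬ q ∣ M')
  [Algebra R ↥(modularFunctionFieldFullC K M')]
  [IsScalarTower R K ↥(modularFunctionFieldFullC K M')]
  [Algebra R ↥(modularFunctionFieldFullC K (M' * q))]
  [IsScalarTower R K ↥(modularFunctionFieldFullC K (M' * q))]
  [Algebra R ↥(modularFunctionFieldFullC K (M' * q * q))]
  [IsScalarTower R K ↥(modularFunctionFieldFullC K (M' * q * q))]

omit [IsDomain R] [IsDiscreteValuationRing R] [IsFractionRing R K] [Algebra K Q̄]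
  [Algebra R ↥(modularFunctionFieldFullC K M')]
  [IsScalarTower R K ↥(modularFunctionFieldFullC K M')]
  [Algebra R ↥(modularFunctionFieldFullC K (M' * q))]
  [IsScalarTower R K ↥(modularFunctionFieldFullC K (M' * q))]
  [Algebra R ↥(modularFunctionFieldFullC K (M' * q * q))]
  [IsScalarTower R K ↥(modularFunctionFieldFullC K (M' * q * q))] in
theorem c2r66_alpha_j :
    al97L_alpha K (M' * q) q (al97L_alpha K M' q (rm90_j K M')) = rm90_j K (M' * q * q) := by
  apply Subtype.ext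
  rw [al97L_alpha_coe, al97L_alpha_coe]
  rfl

include hq hM' in
/-- **Level 2 coordinate.** -/
theorem c2r66_two (hπq : Irreducible ((q : ℕ) : R))
    (hunit : ∀ n : ℕ, Nat.Coprime n q → IsUnit (n : R)) (h2 : 2 ∣ M')
    (V₂ : ValuationSubring ↥(modularFunctionFieldFullC K (M' * q * q)))
    (hV₂ : ∀ c ∈ cm85_Vinf (K := K) (M' * q) hπq, al97L_alpha K (M' * q) q c ∈ V₂)
    (hπ₂ : (algebraMap K ↥(modularFunctionFieldFullC K (M' * q * q))
      (algebraMap R K ((q : ℕ) : R)))⁻¹ ∉ V₂)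
    (hne : cm85_Vinf (K := K) (M' * q * q) hπq ≠ V₂)
    (s : ↥(modularFunctionFieldFullC K (M' * q * q)))
    (hs : V₂.valuation s ^ (q - 1) =
      V₂.valuation (algebraMap K ↥(modularFunctionFieldFullC K (M' * q * q))
        (algebraMap R K ((q : ℕ) : R))))
    (B : Subalgebra R ↥(modularFunctionFieldFullC K (M' * q * q)))
    (hBint : ∀ z : ↥(modularFunctionFieldFullC K (M' * q * q)), IsIntegral B z → z ∈ B)
    (V₃ : ValuationSubring ↥(modularFunctionFieldFullC K (M' * q * q)))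
    (hB₁ : ∀ x ∈ B, x ∈ cm85_Vinf (K := K) (M' * q * q) hπq)
    (hB₂ : ∀ x ∈ B, x ∈ V₂) (hB₃ : ∀ x ∈ B, x ∈ V₃)
    (hsat : ∀ x ∈ B,
      (algebraMap R ↥(modularFunctionFieldFullC K (M' * q * q)) ((q : ℕ) : R))⁻¹ * x ∈
        cm85_Vinf (K := K) (M' * q * q) hπq →
      (algebraMap R ↥(modularFunctionFieldFullC K (M' * q * q)) ((q : ℕ) : R))⁻¹ * x ∈ V₂ →
      (algebraMap R ↥(modularFunctionFieldFullC K (M' * q * q)) ((q : ℕ) : R))⁻¹ * x ∈ V₃ →
      (algebraMap R ↥(modularFunctionFieldFullC K (M' * q * q)) ((q : ℕ) : R))⁻¹ * x ∈ B)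
    (n : Ideal B) [hn : n.IsPrime] (hqn : ((q : ℕ) : B) ∈ n)
    (hmid : tl71_OnMid s B V₂.toSubring n)
    (h1 : ¬ sf79_OnBr ((q : ℕ) : R) B (cm85_Vinf (K := K) (M' * q * q) hπq).toSubring n)
    (h3 : ¬ sf79_OnBr ((q : ℕ) : R) B V₃.toSubring n)
    (sc : B) (hsc : sc ∉ n)
    (hscj : (sc : ↥(modularFunctionFieldFullC K (M' * q * q))) * rm90_j K (M' * q * q) ∈ B)
    (hsc₁ : (sc : ↥(modularFunctionFieldFullC K (M' * q * q)))⁻¹ ∈
      cm85_Vinf (K := K) (M' * q * q) hπq)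
    (hsc₂ : (sc : ↥(modularFunctionFieldFullC K (M' * q * q)))⁻¹ ∈ V₂)
    (hJ : (⟨_, hscj⟩ : B) - ((1728 : ℕ) : B) * sc ∉ n) :
    mc25_MidPrinAt s B V₂.toSubring n := by
  have hq2 : q ≠ 2 := by
    rintro rfl
    exact hM' h2
  have h2n : ((2 : ℕ) : B) ∉ n :=
    c2r66_prime_not_mem B n q 2 hq Nat.prime_two (Ne.symm hq2) hqn
  have hH : s34i47c_IsHaupt K M' q (pk85_h2 K M' h2) := Or.inl ⟨hq2, h2, rfl⟩
  obtain ⟨b, sB, t1B, t3B, hb, hsB, ht1B, -⟩ :=
    c2p74_den_haupt M' q hq hunit (pk85_h2 K M' h2) hH B hBint n sc ⟨_, hscj⟩ hsc rfl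
  have hrel : rm90_j K (M' * q * q) *
      (al97L_alpha K (M' * q) q (al97L_alpha K M' q (pk85_h2 K M' h2))) ^ 2 =
      (al97L_alpha K (M' * q) q (al97L_alpha K M' q (pk85_h2 K M' h2)) + 256) ^ 3 := by
    have := congrArg (fun y => al97L_alpha K (M' * q) q (al97L_alpha K M' q y))
      (pk85_h2_rel K M' h2)
    simp only [map_mul, map_pow, map_add, map_ofNat] at this
    rw [c2r66_alpha_j] at this
    exact this
  have ht1n : t1B ∉ n :=
    c2r66_t_not_mem_two B n _ _ hrel sc ⟨_, hscj⟩ b t1B hsc rfl ht1B hb h2n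
  have he2 : t1B + ((64 : ℕ) : B) * b ∉ n :=
    c2r66_unit64 B n _ _ hrel sc ⟨_, hscj⟩ b t1B rfl ht1B hJ ht1n hb
  obtain ⟨a, ha, ha₁, ha₃⟩ := c2m31_sep ((q : ℕ) : R) B
    (cm85_Vinf (K := K) (M' * q * q) hπq).toSubring V₃.toSubring hB₁ hB₃ n h1 h3
  obtain ⟨tU, U', htU, hU', hU'eq⟩ := usq75_alphaU_unit_at M' q hq hM' hπq B hBint V₂ V₃ hV₂
    hB₁ hB₂ hB₃ hsat n sc hsc hscj hsc₁ hsc₂ a ha ha₃
  have hθx := gh67_theta_h2 K M' h2
  have hG := congrArg (fun y => al97L_alpha K (M' * q) q (al97L_alpha K M' q y))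
    (gh67_h2 K M' h2)
  simp only [map_mul, map_pow, map_add, map_one, map_ofNat] at hG
  have hθ : partC_theta (coeffMap (IsLocalRing.residue R) (h70_h2 R)) ≠ 0 := by
    rw [h70_coeffMap_h2]
    exact guw31_theta_ne_zero2 _ _ (h70_h2_ne_zero _) (h70_j_mul_h2_sq _)
  refine c2h66_prinAt (algebraMap K Q̄) M' q hq hM' hπq (Associated.refl _) V₂ hV₂ hπ₂ hne s hs B
    (cm85_Vinf (K := K) (M' * q * q) hπq).toSubring V₃.toSubring hB₁ hB₂ hB₃ hsat n hmid h1 h3
    (pk85_h2 K M' h2) (h70_h2 R) (h70_coeffMap_h2 (algebraMap R K)).symm hθ b sB hb hsB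
    (tg69_G K M' (pk85_h2 K M' h2)) (dq56b_U (K := K) M' q hq)
    (tg69_G_mul_theta K M' _ hθx) rfl
    ((b ^ 4 * b ^ 3) ^ (q - 1) * U')
    ((t1B ^ 4 * (t1B + ((64 : ℕ) : B) * b) ^ 3) ^ (q - 1) * tU) ?_ ?_
  · intro h
    rcases hn.mem_or_mem h with h | h
    · rcases hn.mem_or_mem (hn.mem_of_pow_mem _ h) with h | h
      · exact ht1n (hn.mem_of_pow_mem _ h)
      · exact he2 (hn.mem_of_pow_mem _ h)
    · exact htU h
  · have hc : ∀ k : ℕ, (((k : ℕ) : B) : ↥(modularFunctionFieldFullC K (M' * q * q))) =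
        (k : ↥(modularFunctionFieldFullC K (M' * q * q))) := fun k => SubringClass.coe_natCast B k
    simp only [Subalgebra.coe_add, Subalgebra.coe_mul, Subalgebra.coe_pow, hc]
    simp only [Nat.cast_ofNat]
    rw [hU'eq, ht1B]
    unfold usq75_alphaU
    have e1 : ∀ (bb T : ↥(modularFunctionFieldFullC K (M' * q * q))),
        (bb * T) ^ 4 * (bb * T + 64 * bb) ^ 3 = (bb ^ 4 * bb ^ 3) * (T ^ 4 * (T + 64) ^ 3) := by
      intro bb T; ring
    have key : ∀ (G X Y U t : ↥(modularFunctionFieldFullC K (M' * q * q))) (k : ℕ),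
        G ^ k * U * ((Y * X) ^ k * t) = (G * X) ^ k * (Y ^ k * (t * U)) := by
      intro G X Y U t k
      rw [mul_pow, mul_pow]; ring
    rw [e1, key, hG, one_pow, one_mul]

include hq hM' in
/-- **Level 3 coordinate.** -/
theorem c2r66_three (hπq : Irreducible ((q : ℕ) : R))
    (hunit : ∀ n : ℕ, Nat.Coprime n q → IsUnit (n : R)) (h3d : 3 ∣ M')
    (V₂ : ValuationSubring ↥(modularFunctionFieldFullC K (M' * q * q)))
    (hV₂ : ∀ c ∈ cm85_Vinf (K := K) (M' * q) hπq, al97L_alpha K (M' * q) q c ∈ V₂)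
    (hπ₂ : (algebraMap K ↥(modularFunctionFieldFullC K (M' * q * q))
      (algebraMap R K ((q : ℕ) : R)))⁻¹ ∉ V₂)
    (hne : cm85_Vinf (K := K) (M' * q * q) hπq ≠ V₂)
    (s : ↥(modularFunctionFieldFullC K (M' * q * q)))
    (hs : V₂.valuation s ^ (q - 1) =
      V₂.valuation (algebraMap K ↥(modularFunctionFieldFullC K (M' * q * q))
        (algebraMap R K ((q : ℕ) : R))))
    (B : Subalgebra R ↥(modularFunctionFieldFullC K (M' * q * q)))
    (hBint : ∀ z : ↥(modularFunctionFieldFullC K (M' * q * q)), IsIntegral B z → z ∈ B)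
    (V₃ : ValuationSubring ↥(modularFunctionFieldFullC K (M' * q * q)))
    (hB₁ : ∀ x ∈ B, x ∈ cm85_Vinf (K := K) (M' * q * q) hπq)
    (hB₂ : ∀ x ∈ B, x ∈ V₂) (hB₃ : ∀ x ∈ B, x ∈ V₃)
    (hsat : ∀ x ∈ B,
      (algebraMap R ↥(modularFunctionFieldFullC K (M' * q * q)) ((q : ℕ) : R))⁻¹ * x ∈
        cm85_Vinf (K := K) (M' * q * q) hπq →
      (algebraMap R ↥(modularFunctionFieldFullC K (M' * q * q)) ((q : ℕ) : R))⁻¹ * x ∈ V₂ →
      (algebraMap R ↥(modularFunctionFieldFullC K (M' * q * q)) ((q : ℕ) : R))⁻¹ * x ∈ V₃ →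
      (algebraMap R ↥(modularFunctionFieldFullC K (M' * q * q)) ((q : ℕ) : R))⁻¹ * x ∈ B)
    (n : Ideal B) [hn : n.IsPrime] (hqn : ((q : ℕ) : B) ∈ n)
    (hmid : tl71_OnMid s B V₂.toSubring n)
    (h1 : ¬ sf79_OnBr ((q : ℕ) : R) B (cm85_Vinf (K := K) (M' * q * q) hπq).toSubring n)
    (h3 : ¬ sf79_OnBr ((q : ℕ) : R) B V₃.toSubring n)
    (sc : B) (hsc : sc ∉ n)
    (hscj : (sc : ↥(modularFunctionFieldFullC K (M' * q * q))) * rm90_j K (M' * q * q) ∈ B)
    (hsc₁ : (sc : ↥(modularFunctionFieldFullC K (M' * q * q)))⁻¹ ∈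
      cm85_Vinf (K := K) (M' * q * q) hπq)
    (hsc₂ : (sc : ↥(modularFunctionFieldFullC K (M' * q * q)))⁻¹ ∈ V₂)
    (hJ : (⟨_, hscj⟩ : B) ∉ n) :
    mc25_MidPrinAt s B V₂.toSubring n := by
  have hq3 : q ≠ 3 := by
    rintro rfl
    exact hM' h3d
  have h3n : ((3 : ℕ) : B) ∉ n :=
    c2r66_prime_not_mem B n q 3 hq Nat.prime_three (Ne.symm hq3) hqn
  have hH : s34i47c_IsHaupt K M' q (pk85_h3 K M' h3d) := Or.inr ⟨hq3, h3d, rfl⟩
  obtain ⟨b, sB, t1B, t3B, hb, hsB, ht1B, -⟩ :=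
    c2p74_den_haupt M' q hq hunit (pk85_h3 K M' h3d) hH B hBint n sc ⟨_, hscj⟩ hsc rfl
  have hrel : rm90_j K (M' * q * q) *
      (al97L_alpha K (M' * q) q (al97L_alpha K M' q (pk85_h3 K M' h3d))) ^ 3 =
      (al97L_alpha K (M' * q) q (al97L_alpha K M' q (pk85_h3 K M' h3d)) + 27) *
      (al97L_alpha K (M' * q) q (al97L_alpha K M' q (pk85_h3 K M' h3d)) + 243) ^ 3 := by
    have := congrArg (fun y => al97L_alpha K (M' * q) q (al97L_alpha K M' q y))
      (pk85_h3_rel K M' h3d)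
    simp only [map_mul, map_pow, map_add, map_ofNat] at this
    rw [c2r66_alpha_j] at this
    exact this
  have ht1n : t1B ∉ n :=
    c2r66_t_not_mem_three B n _ _ hrel sc ⟨_, hscj⟩ b t1B hsc rfl ht1B hb h3n
  have he2 : t1B + ((27 : ℕ) : B) * b ∉ n :=
    c2r66_unit27 B n _ _ hrel sc ⟨_, hscj⟩ b t1B rfl ht1B hJ ht1n hb
  obtain ⟨a, ha, ha₁, ha₃⟩ := c2m31_sep ((q : ℕ) : R) B
    (cm85_Vinf (K := K) (M' * q * q) hπq).toSubring V₃.toSubring hB₁ hB₃ n h1 h3
  obtain ⟨tU, U', htU, hU', hU'eq⟩ := usq75_alphaU_unit_at M' q hq hM' hπq B hBint V₂ V₃ hV₂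
    hB₁ hB₂ hB₃ hsat n sc hsc hscj hsc₁ hsc₂ a ha ha₃
  have hθx := gh67_theta_h3 K M' h3d
  have hG := congrArg (fun y => al97L_alpha K (M' * q) q (al97L_alpha K M' q y))
    (gh67_h3 K M' h3d)
  simp only [map_mul, map_pow, map_add, map_one, map_ofNat] at hG
  have hθ : partC_theta (coeffMap (IsLocalRing.residue R) (h34_h3R R)) ≠ 0 := by
    rw [h34_coeffMap_h3R]
    exact guw31_theta_ne_zero3 _ _ (uwh31_h3_ok _).1 (uwh31_h3_ok _).2
  refine c2h66_prinAt (algebraMap K Q̄) M' q hq hM' hπq (Associated.refl _) V₂ hV₂ hπ₂ hne s hs B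
    (cm85_Vinf (K := K) (M' * q * q) hπq).toSubring V₃.toSubring hB₁ hB₂ hB₃ hsat n hmid h1 h3
    (pk85_h3 K M' h3d) (h34_h3R R) (h34_coeffMap_h3R (algebraMap R K)).symm hθ b sB hb hsB
    (tg69_G K M' (pk85_h3 K M' h3d)) (dq56b_U (K := K) M' q hq)
    (tg69_G_mul_theta K M' _ hθx) rfl
    ((b ^ 3 * b ^ 4) ^ (q - 1) * U')
    ((t1B ^ 3 * (t1B + ((27 : ℕ) : B) * b) ^ 4) ^ (q - 1) * tU) ?_ ?_
  · intro h
    rcases hn.mem_or_mem h with h | h
    · rcases hn.mem_or_mem (hn.mem_of_pow_mem _ h) with h | h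
      · exact ht1n (hn.mem_of_pow_mem _ h)
      · exact he2 (hn.mem_of_pow_mem _ h)
    · exact htU h
  · have hc : ∀ k : ℕ, (((k : ℕ) : B) : ↥(modularFunctionFieldFullC K (M' * q * q))) =
        (k : ↥(modularFunctionFieldFullC K (M' * q * q))) := fun k => SubringClass.coe_natCast B k
    simp only [Subalgebra.coe_add, Subalgebra.coe_mul, Subalgebra.coe_pow, hc]
    simp only [Nat.cast_ofNat]
    rw [hU'eq, ht1B]
    unfold usq75_alphaU
    have e1 : ∀ (bb T : ↥(modularFunctionFieldFullC K (M' * q * q))),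
        (bb * T) ^ 3 * (bb * T + 27 * bb) ^ 4 = (bb ^ 3 * bb ^ 4) * (T ^ 3 * (T + 27) ^ 4) := by
      intro bb T; ring
    have key : ∀ (G X Y U t : ↥(modularFunctionFieldFullC K (M' * q * q))) (k : ℕ),
        G ^ k * U * ((Y * X) ^ k * t) = (G * X) ^ k * (Y ^ k * (t * U)) := by
      intro G X Y U t k
      rw [mul_pow, mul_pow]; ring
    rw [e1, key, hG, one_pow, one_mul]

include hq hM' in
/-- **The case split**: at every `j`-regular prime `n` on the middle branch only of an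
integrally closed saturated chart, the middle branch is principal at `n`. -/
theorem c2r66_core (hπq : Irreducible ((q : ℕ) : R))
    (hunit : ∀ n : ℕ, Nat.Coprime n q → IsUnit (n : R))
    (h2o : q ≠ 2 → 2 ∣ M') (h3o : q ≠ 3 → 3 ∣ M')
    (V₂ : ValuationSubring ↥(modularFunctionFieldFullC K (M' * q * q)))
    (hV₂ : ∀ c ∈ cm85_Vinf (K := K) (M' * q) hπq, al97L_alpha K (M' * q) q c ∈ V₂)
    (hπ₂ : (algebraMap K ↥(modularFunctionFieldFullC K (M' * q * q))
      (algebraMap R K ((q : ℕ) : R)))⁻¹ ∉ V₂)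
    (hne : cm85_Vinf (K := K) (M' * q * q) hπq ≠ V₂)
    (s : ↥(modularFunctionFieldFullC K (M' * q * q)))
    (hs : V₂.valuation s ^ (q - 1) =
      V₂.valuation (algebraMap K ↥(modularFunctionFieldFullC K (M' * q * q))
        (algebraMap R K ((q : ℕ) : R))))
    (B : Subalgebra R ↥(modularFunctionFieldFullC K (M' * q * q)))
    (hBint : ∀ z : ↥(modularFunctionFieldFullC K (M' * q * q)), IsIntegral B z → z ∈ B)
    (V₃ : ValuationSubring ↥(modularFunctionFieldFullC K (M' * q * q)))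
    (hB₁ : ∀ x ∈ B, x ∈ cm85_Vinf (K := K) (M' * q * q) hπq)
    (hB₂ : ∀ x ∈ B, x ∈ V₂) (hB₃ : ∀ x ∈ B, x ∈ V₃)
    (hsat : ∀ x ∈ B,
      (algebraMap R ↥(modularFunctionFieldFullC K (M' * q * q)) ((q : ℕ) : R))⁻¹ * x ∈
        cm85_Vinf (K := K) (M' * q * q) hπq →
      (algebraMap R ↥(modularFunctionFieldFullC K (M' * q * q)) ((q : ℕ) : R))⁻¹ * x ∈ V₂ →
      (algebraMap R ↥(modularFunctionFieldFullC K (M' * q * q)) ((q : ℕ) : R))⁻¹ * x ∈ V₃ →
      (algebraMap R ↥(modularFunctionFieldFullC K (M' * q * q)) ((q : ℕ) : R))⁻¹ * x ∈ B)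
    (n : Ideal B) [hn : n.IsPrime] (hqn : ((q : ℕ) : B) ∈ n)
    (hmid : tl71_OnMid s B V₂.toSubring n)
    (h1 : ¬ sf79_OnBr ((q : ℕ) : R) B (cm85_Vinf (K := K) (M' * q * q) hπq).toSubring n)
    (h3 : ¬ sf79_OnBr ((q : ℕ) : R) B V₃.toSubring n)
    (sc : B) (hsc : sc ∉ n)
    (hscj : (sc : ↥(modularFunctionFieldFullC K (M' * q * q))) * rm90_j K (M' * q * q) ∈ B)
    (hsc₁ : (sc : ↥(modularFunctionFieldFullC K (M' * q * q)))⁻¹ ∈
      cm85_Vinf (K := K) (M' * q * q) hπq)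
    (hsc₂ : (sc : ↥(modularFunctionFieldFullC K (M' * q * q)))⁻¹ ∈ V₂) :
    mc25_MidPrinAt s B V₂.toSubring n := by
  have hq2' := hq.two_le
  have hq1 : q - 1 ≠ 0 := by omega
  have hπF : algebraMap R ↥(modularFunctionFieldFullC K (M' * q * q)) ((q : ℕ) : R) =
      algebraMap K ↥(modularFunctionFieldFullC K (M' * q * q)) (algebraMap R K ((q : ℕ) : R)) :=
    IsScalarTower.algebraMap_apply R K _ _
  have hπK0 : algebraMap K ↥(modularFunctionFieldFullC K (M' * q * q))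
      (algebraMap R K ((q : ℕ) : R)) ≠ 0 :=
    (map_ne_zero _).mpr ((map_ne_zero_iff _ (IsFractionRing.injective R K)).mpr hπq.ne_zero)
  obtain ⟨hs0, hsV, hsinv⟩ := c2h66_unif_basic V₂ s _ (q - 1) hq1 hπK0 hπ₂ hs
  -- the middle branch contains the `π`-branch of `V₂`
  have hOn₂ : ∀ x : B,
      (algebraMap R ↥(modularFunctionFieldFullC K (M' * q * q)) ((q : ℕ) : R))⁻¹ *
        (x : ↥(modularFunctionFieldFullC K (M' * q * q))) ∈ V₂ → x ∈ n := by
    intro x hx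
    apply hmid
    have hvs : V₂.valuation s ≤ 1 := (V₂.valuation_le_one_iff s).mpr hsV
    have hvs0 : V₂.valuation s ≠ 0 := (Valuation.ne_zero_iff _).mpr hs0
    have hπs : algebraMap K ↥(modularFunctionFieldFullC K (M' * q * q))
        (algebraMap R K ((q : ℕ) : R)) * s⁻¹ ∈ V₂ := by
      rw [← V₂.valuation_le_one_iff, map_mul, map_inv₀, ← hs,
        (show q - 1 = (q - 2) + 1 by omega), pow_succ, mul_assoc (V₂.valuation s ^ (q - 2)),
        mul_inv_cancel₀ hvs0, mul_one]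
      exact pow_le_one₀ zero_le hvs
    have key : (x : ↥(modularFunctionFieldFullC K (M' * q * q))) * s⁻¹ =
        (algebraMap R ↥(modularFunctionFieldFullC K (M' * q * q)) ((q : ℕ) : R))⁻¹ *
          (x : ↥(modularFunctionFieldFullC K (M' * q * q))) *
        (algebraMap K ↥(modularFunctionFieldFullC K (M' * q * q))
          (algebraMap R K ((q : ℕ) : R)) * s⁻¹) := by
      rw [hπF]
      field_simp
    rw [key]
    exact mul_mem hx hπs
  obtain ⟨a, ha, ha₁, ha₃⟩ := c2m31_sep ((q : ℕ) : R) B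
    (cm85_Vinf (K := K) (M' * q * q) hπq).toSubring V₃.toSubring hB₁ hB₃ n h1 h3
  by_cases hq3 : q = 3
  · have hq2 : q ≠ 2 := by omega
    have hj := sqi75_j_unit_at M' q hq hM' (Or.inr hq3) hπq B hBint V₂ V₃ hV₂ hB₁ hB₂ hB₃ hsat n
      hOn₂ sc hsc hscj hsc₁ hsc₂ a ha ha₃
    refine c2r66_two M' q hq hM' hπq hunit (h2o hq2) V₂ hV₂ hπ₂ hne s hs B hBint V₃ hB₁ hB₂ hB₃
      hsat n hqn hmid h1 h3 sc hsc hscj hsc₁ hsc₂ ?_
    intro h
    apply hj
    have h1728 : ((1728 : ℕ) : B) * sc ∈ n := by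
      have e : ((1728 : ℕ) : B) = ((q : ℕ) : B) * ((576 : ℕ) : B) := by
        have h' : (1728 : ℕ) = q * 576 := by omega
        rw [h', Nat.cast_mul]
      rw [e]
      exact n.mul_mem_right _ (n.mul_mem_right _ hqn)
    have := n.add_mem h h1728
    simpa using this
  · by_cases hq2 : q = 2
    · have hj := sqi75_j_unit_at M' q hq hM' (Or.inl hq2) hπq B hBint V₂ V₃ hV₂ hB₁ hB₂ hB₃ hsat n
        hOn₂ sc hsc hscj hsc₁ hsc₂ a ha ha₃
      exact c2r66_three M' q hq hM' hπq hunit (h3o hq3) V₂ hV₂ hπ₂ hne s hs B hBint V₃ hB₁ hB₂ hB₃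
        hsat n hqn hmid h1 h3 sc hsc hscj hsc₁ hsc₂ hj
    · by_cases hJ : (⟨_, hscj⟩ : B) - ((1728 : ℕ) : B) * sc ∈ n
      · have h2n := c2r66_prime_not_mem B n q 2 hq Nat.prime_two (Ne.symm hq2) hqn
        have h3n := c2r66_prime_not_mem B n q 3 hq Nat.prime_three (Ne.symm hq3) hqn
        refine c2r66_three M' q hq hM' hπq hunit (h3o hq3) V₂ hV₂ hπ₂ hne s hs B hBint V₃
          hB₁ hB₂ hB₃ hsat n hqn hmid h1 h3 sc hsc hscj hsc₁ hsc₂ ?_
        intro hb'
        have h1728 : ((1728 : ℕ) : B) * sc ∈ n := by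
          have := n.sub_mem hb' hJ
          simpa using this
        rcases hn.mem_or_mem h1728 with h | h
        · have e : ((1728 : ℕ) : B) = ((2 : ℕ) : B) ^ 6 * ((3 : ℕ) : B) ^ 3 := by
            push_cast; norm_num
          rw [e] at h
          rcases hn.mem_or_mem h with h | h
          · exact h2n (hn.mem_of_pow_mem _ h)
          · exact h3n (hn.mem_of_pow_mem _ h)
        · exact hsc h
      · exact c2r66_two M' q hq hM' hπq hunit (h2o hq2) V₂ hV₂ hπ₂ hne s hs B hBint V₃ hB₁ hB₂ hB₃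
          hsat n hqn hmid h1 h3 sc hsc hscj hsc₁ hsc₂ hJ

end c2r66_concrete

end Fermat.Agent.S36
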