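import Fermat.Agent.S36.SmallQInst75
import Fermat.Agent.S36.LocStrThree71

/-!
# S36 lab, row 600 C-C2, `q = 2, 3` (helper88): `j` is a unit of `B_n` at every `j`-regular closed
point of the middle branch off the third branch, ON THE FOUR CANONICAL CHARTS of level `M' q q`

Canonical instances of `sqi75_j_unit_at` (helper75): the denominator `s` of `j` with `s` a unit of
`V₁ = cm85_Vinf (M' q q)` and of `V₂` is `H²` (chart `{H}`, `H = pk85_h2`), `H³` (`H = pk85_h3`),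
`H⁻¹` (charts `{H⁻¹}`); `H ∉ n` (resp. `H⁻¹ ∉ n`) because `j` is regular at `n`; the separator for
`V₃` comes from `¬ sf79_OnBr π B V₃ n`.

* `c2j88_transfer`     : `j` unit at `n` for one denominator ⟹ for every denominator.
* `c2j88_sep`          : separator from `¬ sf79_OnBr`.
* `c2j88_onBr_of_onMid`: `tl71_OnMid σ B V₂ n` ⟹ `sf79_OnBr π B V₂ n` when `v₂(σ)^e = v₂(π)`.
* `c2j88_not_mem2 / _inv / 3 / 3_inv` : `j` regular at `n` ⟹ the chart coordinate is not in `n`.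
* `c2j88_h2_mem_Vinf`, `c2j88_h3_mem_Vinf` : `H, H⁻¹ ∈ cm85_Vinf N` (any level).
* `c2j88_h2_mem_V2`, `c2j88_h3_mem_V2` : `H, H⁻¹ ∈ V₂` at level `M' q q` (fact 1 of `v2e46_exists`).
* `c2j88_core`         : any integrally closed saturated chart `B` with a denominator `t ^ k`.
* **`c2j88_level2`, `c2j88_level2_inv`, `c2j88_level3`, `c2j88_level3_inv`** : the four canonical
  charts: `∀ s' b', s' ∉ n → s' * j = b' → b' ∉ n`.

All names are prefixed `c2j88_`.
-/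

set_option autoImplicit false
set_option linter.unusedSectionVars false
set_option linter.unusedVariables false
set_option linter.style.longLine false

open ModularCurve AlgebraicCurve

namespace Fermat.Agent.S36

open Fermat.Agent.S18 Fermat.Agent.S28 Fermat.Agent.S34 TripleLoc71

local notation "Q̄" => AlgebraicClosure ℚ

section Abs

variable {R F : Type*} [CommRing R] [Field F] [Algebra R F]

/-- `j` is a unit at `n` for one denominator `s` ⟹ for every denominator `s'`. -/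
theorem c2j88_transfer (B : Subalgebra R F) (n : Ideal B) [hn : n.IsPrime] (j : F)
    (s : B) (hs : s ∉ n) (hsj : (s : F) * j ∈ B) (hu : (⟨_, hsj⟩ : B) ∉ n)
    (s' b' : B) (hs' : s' ∉ n) (hb' : (s' : F) * j = (b' : F)) : b' ∉ n := by
  intro hb
  have e : s * b' = s' * (⟨_, hsj⟩ : B) := by
    apply Subtype.ext
    push_cast
    rw [← hb']
    ring
  have h1 : s' * (⟨_, hsj⟩ : B) ∈ n := by
    rw [← e]
    exact n.mul_mem_left _ hb
  rcases hn.mem_or_mem h1 with h | h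
  · exact hs' h
  · exact hu h

/-- A separator from `¬ sf79_OnBr`. -/
theorem c2j88_sep (π : R) (B : Subalgebra R F) (V : Subring F) (n : Ideal B)
    (h : ¬ sf79_OnBr π B V n) : ∃ a : B, a ∉ n ∧ (algebraMap R F π)⁻¹ * (a : F) ∈ V := by
  by_contra hcon
  exact h fun x hx => by
    by_contra hxn
    exact hcon ⟨x, hxn, hx⟩

/-- On the middle branch in the `σ`-form ⟹ on the branch in the `π`-form, when
`v₂(σ) ^ e = v₂(π)`, `e ≠ 0`. -/
theorem c2j88_onBr_of_onMid (π : R) (B : Subalgebra R F) (V₂ : ValuationSubring F) (σ : F)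
    (e : ℕ) (he : e ≠ 0) (hσ : V₂.valuation σ ^ e = V₂.valuation (algebraMap R F π))
    (hπ₂ : (algebraMap R F π)⁻¹ ∉ V₂) (n : Ideal B)
    (h : tl71_OnMid σ B V₂.toSubring n) : sf79_OnBr π B V₂.toSubring n := by
  have hπ0 : algebraMap R F π ≠ 0 := by
    intro h0
    apply hπ₂
    rw [h0, inv_zero]
    exact V₂.zero_mem
  have hvπ0 : V₂.valuation (algebraMap R F π) ≠ 0 := (Valuation.ne_zero_iff _).mpr hπ0
  have hvπ : V₂.valuation (algebraMap R F π) < 1 := by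
    by_contra hcon
    apply hπ₂
    rw [← V₂.valuation_le_one_iff, map_inv₀]
    exact inv_le_one_of_one_le₀ (not_lt.mp hcon)
  have hσ0 : σ ≠ 0 := by
    intro h0
    rw [h0, map_zero, zero_pow he] at hσ
    exact hvπ0 hσ.symm
  have hvσ0 : V₂.valuation σ ≠ 0 := (Valuation.ne_zero_iff _).mpr hσ0
  have hvσ : V₂.valuation σ ≤ 1 := by
    by_contra hcon
    have h1 : 1 < V₂.valuation σ := not_le.mp hcon
    have h2 : 1 < V₂.valuation σ ^ e := one_lt_pow₀ h1 he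
    rw [hσ] at h2
    exact (lt_asymm h2) hvπ
  have hle : V₂.valuation (algebraMap R F π) ≤ V₂.valuation σ := by
    rw [← hσ]
    exact pow_le_of_le_one zero_le hvσ he
  have hπσ : algebraMap R F π * σ⁻¹ ∈ V₂ := by
    rw [← V₂.valuation_le_one_iff, map_mul, map_inv₀]
    calc V₂.valuation (algebraMap R F π) * (V₂.valuation σ)⁻¹
        ≤ V₂.valuation σ * (V₂.valuation σ)⁻¹ := mul_le_mul_left hle _
      _ = 1 := mul_inv_cancel₀ hvσ0
  intro x hx
  apply h
  have h1 : (x : F) * σ⁻¹ = ((algebraMap R F π)⁻¹ * (x : F)) * (algebraMap R F π * σ⁻¹) := by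
    field_simp
  rw [h1]
  exact Subring.mul_mem V₂.toSubring hx hπσ

/-- `j t² = (t + 256)³`, `2` a unit, `j` regular at `n` ⟹ `t ∉ n`. -/
theorem c2j88_not_mem2 (B : Subalgebra R F) (n : Ideal B) [hn : n.IsPrime] (j : F) (t : B)
    (hrel : j * (t : F) ^ 2 = ((t : F) + 256) ^ 3) (h2u : IsUnit (2 : R))
    (s' b' : B) (hs' : s' ∉ n) (hb' : (s' : F) * j = (b' : F)) : t ∉ n := by
  intro ht
  have hc : IsUnit (algebraMap R B 256) := by
    have : (256 : R) = 2 ^ 8 := by norm_num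
    rw [this]
    exact (h2u.pow 8).map _
  have e : s' * (t + algebraMap R B 256) ^ 3 = b' * t ^ 2 := by
    apply Subtype.ext
    push_cast
    rw [map_ofNat, ← hb', ← hrel]
    ring
  have h1 : s' * (t + algebraMap R B 256) ^ 3 ∈ n := by
    rw [e]
    exact n.mul_mem_left _ (n.pow_mem_of_mem ht 2 (by norm_num))
  rcases hn.mem_or_mem h1 with h | h
  · exact hs' h
  · have h2 : t + algebraMap R B 256 ∈ n := hn.mem_of_pow_mem _ h
    have h3 : algebraMap R B 256 ∈ n := by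
      have : algebraMap R B 256 = (t + algebraMap R B 256) - t := by ring
      rw [this]
      exact Ideal.sub_mem _ h2 ht
    exact hn.ne_top (Ideal.eq_top_of_isUnit_mem _ h3 hc)

/-- `j t = (1 + 256 t)³`, `j` regular at `n` ⟹ `t ∉ n`. -/
theorem c2j88_not_mem2_inv (B : Subalgebra R F) (n : Ideal B) [hn : n.IsPrime] (j : F) (t : B)
    (hrel : j * (t : F) = (1 + 256 * (t : F)) ^ 3)
    (s' b' : B) (hs' : s' ∉ n) (hb' : (s' : F) * j = (b' : F)) : t ∉ n := by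
  intro ht
  have e : s' * (1 + algebraMap R B 256 * t) ^ 3 = b' * t := by
    apply Subtype.ext
    push_cast
    rw [map_ofNat, ← hb', ← hrel]
    ring
  have h1 : s' * (1 + algebraMap R B 256 * t) ^ 3 ∈ n := by
    rw [e]
    exact n.mul_mem_left _ ht
  rcases hn.mem_or_mem h1 with h | h
  · exact hs' h
  · have h2 : 1 + algebraMap R B 256 * t ∈ n := hn.mem_of_pow_mem _ h
    have h3 : (1 : B) ∈ n := by
      have : (1 : B) = (1 + algebraMap R B 256 * t) - algebraMap R B 256 * t := by ring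
      rw [this]
      exact Ideal.sub_mem _ h2 (Ideal.mul_mem_left _ _ ht)
    exact hn.ne_top ((Ideal.eq_top_iff_one _).mpr h3)

/-- `j t³ = (t + 27) (t + 243)³`, `3` a unit, `j` regular at `n` ⟹ `t ∉ n`. -/
theorem c2j88_not_mem3 (B : Subalgebra R F) (n : Ideal B) [hn : n.IsPrime] (j : F) (t : B)
    (hrel : j * (t : F) ^ 3 = ((t : F) + 27) * ((t : F) + 243) ^ 3) (h3u : IsUnit (3 : R))
    (s' b' : B) (hs' : s' ∉ n) (hb' : (s' : F) * j = (b' : F)) : t ∉ n := by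
  intro ht
  have hc1 : IsUnit (algebraMap R B 27) := by
    have : (27 : R) = 3 ^ 3 := by norm_num
    rw [this]
    exact (h3u.pow 3).map _
  have hc2 : IsUnit (algebraMap R B 243) := by
    have : (243 : R) = 3 ^ 5 := by norm_num
    rw [this]
    exact (h3u.pow 5).map _
  have e : s' * ((t + algebraMap R B 27) * (t + algebraMap R B 243) ^ 3) = b' * t ^ 3 := by
    apply Subtype.ext
    push_cast
    rw [map_ofNat, map_ofNat, ← hb', ← hrel]
    ring
  have h1 : s' * ((t + algebraMap R B 27) * (t + algebraMap R B 243) ^ 3) ∈ n := by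
    rw [e]
    exact n.mul_mem_left _ (n.pow_mem_of_mem ht 3 (by norm_num))
  have key : ∀ c : B, IsUnit c → t + c ∈ n → False := by
    intro c hc h2
    have h3 : c ∈ n := by
      have : c = (t + c) - t := by ring
      rw [this]
      exact Ideal.sub_mem _ h2 ht
    exact hn.ne_top (Ideal.eq_top_of_isUnit_mem _ h3 hc)
  rcases hn.mem_or_mem h1 with h | h
  · exact hs' h
  · rcases hn.mem_or_mem h with h' | h'
    · exact key _ hc1 h'
    · exact key _ hc2 (hn.mem_of_pow_mem _ h')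

/-- `j t = (1 + 27 t) (1 + 243 t)³`, `j` regular at `n` ⟹ `t ∉ n`. -/
theorem c2j88_not_mem3_inv (B : Subalgebra R F) (n : Ideal B) [hn : n.IsPrime] (j : F) (t : B)
    (hrel : j * (t : F) = (1 + 27 * (t : F)) * (1 + 243 * (t : F)) ^ 3)
    (s' b' : B) (hs' : s' ∉ n) (hb' : (s' : F) * j = (b' : F)) : t ∉ n := by
  intro ht
  have e : s' * ((1 + algebraMap R B 27 * t) * (1 + algebraMap R B 243 * t) ^ 3) = b' * t := by
    apply Subtype.ext
    push_cast
    rw [map_ofNat, map_ofNat, ← hb', ← hrel]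
    ring
  have h1 : s' * ((1 + algebraMap R B 27 * t) * (1 + algebraMap R B 243 * t) ^ 3) ∈ n := by
    rw [e]
    exact n.mul_mem_left _ ht
  have key : ∀ c : B, 1 + c * t ∈ n → False := by
    intro c h2
    have h3 : (1 : B) ∈ n := by
      have : (1 : B) = (1 + c * t) - c * t := by ring
      rw [this]
      exact Ideal.sub_mem _ h2 (Ideal.mul_mem_left _ _ ht)
    exact hn.ne_top ((Ideal.eq_top_iff_one _).mpr h3)
  rcases hn.mem_or_mem h1 with h | h
  · exact hs' h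
  · rcases hn.mem_or_mem h with h' | h'
    · exact key _ h'
    · exact key _ (hn.mem_of_pow_mem _ h')

end Abs

section Gauss

variable {R K : Type} [CommRing R] [IsDomain R] [IsDiscreteValuationRing R] [Field K] [CharZero K]
  [Algebra R K] [IsFractionRing R K]

/-- The Hauptmodul of level 2 and its inverse lie in the Gauss valuation ring (any level). -/
theorem c2j88_h2_mem_Vinf (N : ℕ) [NeZero N] {π : R} (hπ : Irreducible π) (h2 : 2 ∣ N) :
    pk85_h2 K N h2 ∈ cm85_Vinf (K := K) N hπ ∧ (pk85_h2 K N h2)⁻¹ ∈ cm85_Vinf (K := K) N hπ := by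
  constructor
  · refine gv85_mem_V_of_integral _ _ _ (pk85_h2 K N h2) (h70_h2 R) ?_
    rw [pk85_h2_coe, h70_coeffMap_h2]
  · refine gv85_mem_V_of_integral _ _ _ (pk85_h2 K N h2)⁻¹ (h70_h2inv R) ?_
    have h1 : coeffMap (algebraMap R K) (h70_h2 R) * coeffMap (algebraMap R K) (h70_h2inv R)
        = 1 := by
      rw [← map_mul, h70_h2_mul_h2inv, map_one]
    have h2' : (((pk85_h2 K N h2)⁻¹ : ↥(modularFunctionFieldFullC K N)) : LaurentSeries K) =
        ((pk85_h2 K N h2 : ↥(modularFunctionFieldFullC K N)) : LaurentSeries K)⁻¹ := rfl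
    rw [h2', pk85_h2_coe, ← h70_coeffMap_h2 (algebraMap R K)]
    exact inv_eq_of_mul_eq_one_right h1

/-- The Hauptmodul of level 3 and its inverse lie in the Gauss valuation ring (any level). -/
theorem c2j88_h3_mem_Vinf (N : ℕ) [NeZero N] {π : R} (hπ : Irreducible π) (h3 : 3 ∣ N) :
    pk85_h3 K N h3 ∈ cm85_Vinf (K := K) N hπ ∧ (pk85_h3 K N h3)⁻¹ ∈ cm85_Vinf (K := K) N hπ := by
  constructor
  · refine gv85_mem_V_of_integral _ _ _ (pk85_h3 K N h3) (h34_h3R R) ?_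
    rw [pk85_h3_coe, h34_coeffMap_h3R]
  · refine gv85_mem_V_of_integral _ _ _ (pk85_h3 K N h3)⁻¹ (h34_h3Rinv R) ?_
    have h1 : coeffMap (algebraMap R K) (h34_h3R R) * coeffMap (algebraMap R K) (h34_h3Rinv R)
        = 1 := by
      rw [← map_mul, h34_h3R_mul_inv, map_one]
    have h2' : (((pk85_h3 K N h3)⁻¹ : ↥(modularFunctionFieldFullC K N)) : LaurentSeries K) =
        ((pk85_h3 K N h3 : ↥(modularFunctionFieldFullC K N)) : LaurentSeries K)⁻¹ := rfl
    rw [h2', pk85_h3_coe, ← h34_coeffMap_h3R (algebraMap R K)]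
    exact inv_eq_of_mul_eq_one_right h1

end Gauss

section Canon

variable {R K : Type} [CommRing R] [IsDomain R] [IsDiscreteValuationRing R] [Field K] [CharZero K]
  [Algebra R K] [IsFractionRing R K] [Algebra K Q̄]
  (M' q : ℕ) [NeZero M'] [NeZero q] (hq : q.Prime) (hM' : ¬ q ∣ M')
  [Algebra R ↥(modularFunctionFieldFullC K (M' * q * q))]
  [IsScalarTower R K ↥(modularFunctionFieldFullC K (M' * q * q))]
  [Algebra R ↥(modularFunctionFieldFullC K (M' * q))]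
  [IsScalarTower R K ↥(modularFunctionFieldFullC K (M' * q))]

/-- `H = pk85_h2 K (M' q q)` and `H⁻¹` lie in every `V₂ ⊇ α (cm85_Vinf (M' q))`. -/
theorem c2j88_h2_mem_V2 {π : R} (hπ : Irreducible π) (h2 : 2 ∣ M')
    (V₂ : ValuationSubring ↥(modularFunctionFieldFullC K (M' * q * q)))
    (hV₂ : ∀ c ∈ cm85_Vinf (K := K) (M' * q) hπ, al97L_alpha K (M' * q) q c ∈ V₂) :
    pk85_h2 K (M' * q * q) (h2.trans ((dvd_mul_right M' q).trans (dvd_mul_right (M' * q) q)))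
        ∈ V₂ ∧
      (pk85_h2 K (M' * q * q)
        (h2.trans ((dvd_mul_right M' q).trans (dvd_mul_right (M' * q) q))))⁻¹ ∈ V₂ := by
  have e : al97L_alpha K (M' * q) q (pk85_h2 K (M' * q) (h2.trans (dvd_mul_right M' q))) =
      pk85_h2 K (M' * q * q) (h2.trans ((dvd_mul_right M' q).trans (dvd_mul_right (M' * q) q))) := by
    apply Subtype.ext
    rw [al97L_alpha_coe, pk85_h2_coe, pk85_h2_coe]
  obtain ⟨h1, h1'⟩ := c2j88_h2_mem_Vinf (R := R) (K := K) (M' * q) hπ (h2.trans (dvd_mul_right M' q))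
  refine ⟨?_, ?_⟩
  · rw [← e]
    exact hV₂ _ h1
  · rw [← e, ← map_inv₀]
    exact hV₂ _ h1'

/-- `H = pk85_h3 K (M' q q)` and `H⁻¹` lie in every `V₂ ⊇ α (cm85_Vinf (M' q))`. -/
theorem c2j88_h3_mem_V2 {π : R} (hπ : Irreducible π) (h3 : 3 ∣ M')
    (V₂ : ValuationSubring ↥(modularFunctionFieldFullC K (M' * q * q)))
    (hV₂ : ∀ c ∈ cm85_Vinf (K := K) (M' * q) hπ, al97L_alpha K (M' * q) q c ∈ V₂) :
    pk85_h3 K (M' * q * q) (h3.trans ((dvd_mul_right M' q).trans (dvd_mul_right (M' * q) q)))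
        ∈ V₂ ∧
      (pk85_h3 K (M' * q * q)
        (h3.trans ((dvd_mul_right M' q).trans (dvd_mul_right (M' * q) q))))⁻¹ ∈ V₂ := by
  have e : al97L_alpha K (M' * q) q (pk85_h3 K (M' * q) (h3.trans (dvd_mul_right M' q))) =
      pk85_h3 K (M' * q * q) (h3.trans ((dvd_mul_right M' q).trans (dvd_mul_right (M' * q) q))) := by
    apply Subtype.ext
    rw [al97L_alpha_coe, pk85_h3_coe, pk85_h3_coe]
  obtain ⟨h1, h1'⟩ := c2j88_h3_mem_Vinf (R := R) (K := K) (M' * q) hπ (h3.trans (dvd_mul_right M' q))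
  refine ⟨?_, ?_⟩
  · rw [← e]
    exact hV₂ _ h1
  · rw [← e, ← map_inv₀]
    exact hV₂ _ h1'

include hq hM' in
/-- **Core**: `q ∈ {2, 3}`, `B` integrally closed and saturated, `n` a prime on the `V₂`-branch
and off the `V₃`-branch, `t ^ k * j ∈ B` with `t ∉ n` a unit of `V₁` and `V₂`: `j` is a unit of
`B_n`, for every denominator. -/
theorem c2j88_core (h23 : q = 2 ∨ q = 3) (hπq : Irreducible ((q : ℕ) : R))
    (B : Subalgebra R ↥(modularFunctionFieldFullC K (M' * q * q)))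
    (hBint : ∀ z : ↥(modularFunctionFieldFullC K (M' * q * q)), IsIntegral B z → z ∈ B)
    (V₂ V₃ : ValuationSubring ↥(modularFunctionFieldFullC K (M' * q * q)))
    (hV₂ : ∀ c ∈ cm85_Vinf (K := K) (M' * q) hπq, al97L_alpha K (M' * q) q c ∈ V₂)
    (hB₁ : ∀ x ∈ B, x ∈ cm85_Vinf (K := K) (M' * q * q) hπq)
    (hB₂ : ∀ x ∈ B, x ∈ V₂) (hB₃ : ∀ x ∈ B, x ∈ V₃)
    (hsat : ∀ x ∈ B,
      (algebraMap R ↥(modularFunctionFieldFullC K (M' * q * q)) ((q : ℕ) : R))⁻¹ * x ∈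
        cm85_Vinf (K := K) (M' * q * q) hπq →
      (algebraMap R ↥(modularFunctionFieldFullC K (M' * q * q)) ((q : ℕ) : R))⁻¹ * x ∈ V₂ →
      (algebraMap R ↥(modularFunctionFieldFullC K (M' * q * q)) ((q : ℕ) : R))⁻¹ * x ∈ V₃ →
      (algebraMap R ↥(modularFunctionFieldFullC K (M' * q * q)) ((q : ℕ) : R))⁻¹ * x ∈ B)
    (n : Ideal B) [hn : n.IsPrime]
    (hOn₂ : sf79_OnBr ((q : ℕ) : R) B V₂.toSubring n)
    (h3 : ¬ sf79_OnBr ((q : ℕ) : R) B V₃.toSubring n)
    (t : B) (k : ℕ) (ht : t ∉ n)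
    (htj : (t : ↥(modularFunctionFieldFullC K (M' * q * q))) ^ k * rm90_j K (M' * q * q) ∈ B)
    (ht₁ : (t : ↥(modularFunctionFieldFullC K (M' * q * q)))⁻¹ ∈
      cm85_Vinf (K := K) (M' * q * q) hπq)
    (ht₂ : (t : ↥(modularFunctionFieldFullC K (M' * q * q)))⁻¹ ∈ V₂)
    (s' b' : B) (hs' : s' ∉ n)
    (hb' : (s' : ↥(modularFunctionFieldFullC K (M' * q * q))) * rm90_j K (M' * q * q) =
      (b' : ↥(modularFunctionFieldFullC K (M' * q * q)))) : b' ∉ n := by
  obtain ⟨a, ha, ha₃⟩ := c2j88_sep _ B _ n h3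
  have hcoe : ((t ^ k : B) : ↥(modularFunctionFieldFullC K (M' * q * q))) =
      (t : ↥(modularFunctionFieldFullC K (M' * q * q))) ^ k := by push_cast; rfl
  have hsj : ((t ^ k : B) : ↥(modularFunctionFieldFullC K (M' * q * q))) *
      rm90_j K (M' * q * q) ∈ B := by
    rw [hcoe]
    exact htj
  have hs : t ^ k ∉ n := fun h => ht (hn.mem_of_pow_mem _ h)
  have hs₁ : ((t ^ k : B) : ↥(modularFunctionFieldFullC K (M' * q * q)))⁻¹ ∈
      cm85_Vinf (K := K) (M' * q * q) hπq := by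
    rw [hcoe, ← inv_pow]
    exact pow_mem ht₁ k
  have hs₂ : ((t ^ k : B) : ↥(modularFunctionFieldFullC K (M' * q * q)))⁻¹ ∈ V₂ := by
    rw [hcoe, ← inv_pow]
    exact pow_mem ht₂ k
  have hu := sqi75_j_unit_at M' q hq hM' h23 hπq B hBint V₂ V₃ hV₂ hB₁ hB₂ hB₃ hsat n
    (fun x hx => hOn₂ x hx) (t ^ k) hs hsj hs₁ hs₂ a ha ha₃
  exact c2j88_transfer B n (rm90_j K (M' * q * q)) (t ^ k) hs hsj hu s' b' hs' hb'

end Canon

section Charts

variable {R K : Type} [CommRing R] [IsDomain R] [IsDiscreteValuationRing R] [Field K] [CharZero K]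
  [Algebra R K] [IsFractionRing R K] [Algebra K Q̄]
  (M' q : ℕ) [NeZero M'] [NeZero q] (hq : q.Prime) (hM' : ¬ q ∣ M')
  [Algebra R ↥(modularFunctionFieldFullC K (M' * q * q))]
  [IsScalarTower R K ↥(modularFunctionFieldFullC K (M' * q * q))]
  [Algebra R ↥(modularFunctionFieldFullC K (M' * q))]
  [IsScalarTower R K ↥(modularFunctionFieldFullC K (M' * q))]

include hq hM' in
/-- **Level 2, chart `{H}`**: `j` is a unit of `B_n` at every `j`-regular point of the middle branch off the third branch (`q ∈ {2, 3}`). -/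
theorem c2j88_level2 (h23 : q = 2 ∨ q = 3) (hπq : Irreducible ((q : ℕ) : R)) (h2 : 2 ∣ M') (h2u : IsUnit (2 : R))
    (V₂ V₃ : ValuationSubring ↥(modularFunctionFieldFullC K (M' * q * q)))
    (hV₂ : ∀ c ∈ cm85_Vinf (K := K) (M' * q) hπq, al97L_alpha K (M' * q) q c ∈ V₂)
    (hB₁ : ∀ x ∈ (pk15_chart R ({pk85_h2 K (M' * q * q) (h2.trans ((dvd_mul_right M' q).trans (dvd_mul_right (M' * q) q)))} : Set ↥(modularFunctionFieldFullC K (M' * q * q)))), x ∈ cm85_Vinf (K := K) (M' * q * q) hπq)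
    (hB₂ : ∀ x ∈ (pk15_chart R ({pk85_h2 K (M' * q * q) (h2.trans ((dvd_mul_right M' q).trans (dvd_mul_right (M' * q) q)))} : Set ↥(modularFunctionFieldFullC K (M' * q * q)))), x ∈ V₂)
    (hB₃ : ∀ x ∈ (pk15_chart R ({pk85_h2 K (M' * q * q) (h2.trans ((dvd_mul_right M' q).trans (dvd_mul_right (M' * q) q)))} : Set ↥(modularFunctionFieldFullC K (M' * q * q)))), x ∈ V₃)
    (hsat : ∀ x ∈ (pk15_chart R ({pk85_h2 K (M' * q * q) (h2.trans ((dvd_mul_right M' q).trans (dvd_mul_right (M' * q) q)))} : Set ↥(modularFunctionFieldFullC K (M' * q * q)))),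
      (algebraMap R ↥(modularFunctionFieldFullC K (M' * q * q)) ((q : ℕ) : R))⁻¹ * x ∈ cm85_Vinf (K := K) (M' * q * q) hπq →
      (algebraMap R ↥(modularFunctionFieldFullC K (M' * q * q)) ((q : ℕ) : R))⁻¹ * x ∈ V₂ →
      (algebraMap R ↥(modularFunctionFieldFullC K (M' * q * q)) ((q : ℕ) : R))⁻¹ * x ∈ V₃ →
      (algebraMap R ↥(modularFunctionFieldFullC K (M' * q * q)) ((q : ℕ) : R))⁻¹ * x ∈ (pk15_chart R ({pk85_h2 K (M' * q * q) (h2.trans ((dvd_mul_right M' q).trans (dvd_mul_right (M' * q) q)))} : Set ↥(modularFunctionFieldFullC K (M' * q * q)))))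
    (n : Ideal ↥(pk15_chart R ({pk85_h2 K (M' * q * q) (h2.trans ((dvd_mul_right M' q).trans (dvd_mul_right (M' * q) q)))} : Set ↥(modularFunctionFieldFullC K (M' * q * q))))) [hn : n.IsPrime]
    (hOn₂ : sf79_OnBr ((q : ℕ) : R) (pk15_chart R ({pk85_h2 K (M' * q * q) (h2.trans ((dvd_mul_right M' q).trans (dvd_mul_right (M' * q) q)))} : Set ↥(modularFunctionFieldFullC K (M' * q * q)))) V₂.toSubring n)
    (h3' : ¬ sf79_OnBr ((q : ℕ) : R) (pk15_chart R ({pk85_h2 K (M' * q * q) (h2.trans ((dvd_mul_right M' q).trans (dvd_mul_right (M' * q) q)))} : Set ↥(modularFunctionFieldFullC K (M' * q * q)))) V₃.toSubring n)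
    (s' b' : ↥(pk15_chart R ({pk85_h2 K (M' * q * q) (h2.trans ((dvd_mul_right M' q).trans (dvd_mul_right (M' * q) q)))} : Set ↥(modularFunctionFieldFullC K (M' * q * q))))) (hs' : s' ∉ n)
    (hb' : (s' : ↥(modularFunctionFieldFullC K (M' * q * q))) * rm90_j K (M' * q * q) = (b' : ↥(modularFunctionFieldFullC K (M' * q * q)))) : b' ∉ n := by
  have hrel := pk85_h2_rel K (M' * q * q) (h2.trans ((dvd_mul_right M' q).trans (dvd_mul_right (M' * q) q)))
  obtain ⟨hv1, hv1'⟩ := c2j88_h2_mem_Vinf (R := R) (K := K) (M' * q * q) hπq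
    (h2.trans ((dvd_mul_right M' q).trans (dvd_mul_right (M' * q) q)))
  obtain ⟨hv2, hv2'⟩ := c2j88_h2_mem_V2 (R := R) (K := K) M' q hπq h2 V₂ hV₂
  have hHmem : pk85_h2 K (M' * q * q) (h2.trans ((dvd_mul_right M' q).trans (dvd_mul_right (M' * q) q))) ∈ (pk15_chart R ({pk85_h2 K (M' * q * q) (h2.trans ((dvd_mul_right M' q).trans (dvd_mul_right (M' * q) q)))} : Set ↥(modularFunctionFieldFullC K (M' * q * q)))) := pk15_subset_chart _ (Set.mem_singleton _)
  have ht : (⟨_, hHmem⟩ : ↥(pk15_chart R ({pk85_h2 K (M' * q * q) (h2.trans ((dvd_mul_right M' q).trans (dvd_mul_right (M' * q) q)))} : Set ↥(modularFunctionFieldFullC K (M' * q * q))))) ∉ n :=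
    c2j88_not_mem2 _ n (rm90_j K (M' * q * q)) ⟨_, hHmem⟩ hrel h2u s' b' hs' hb'
  refine c2j88_core M' q hq hM' h23 hπq _ (fun z hz => uv17_chart_intClosed _ z hz) V₂ V₃ hV₂
    hB₁ hB₂ hB₃ hsat n hOn₂ h3' ⟨_, hHmem⟩ 2 ht ?_ hv1' hv2' s' b' hs' hb'
  have e : pk85_h2 K (M' * q * q) (h2.trans ((dvd_mul_right M' q).trans (dvd_mul_right (M' * q) q))) ^ 2 * rm90_j K (M' * q * q) = (pk85_h2 K (M' * q * q) (h2.trans ((dvd_mul_right M' q).trans (dvd_mul_right (M' * q) q))) + 256) ^ 3 :=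
    (mul_comm _ _).trans hrel
  show pk85_h2 K (M' * q * q) (h2.trans ((dvd_mul_right M' q).trans (dvd_mul_right (M' * q) q))) ^ 2 * rm90_j K (M' * q * q) ∈ (pk15_chart R ({pk85_h2 K (M' * q * q) (h2.trans ((dvd_mul_right M' q).trans (dvd_mul_right (M' * q) q)))} : Set ↥(modularFunctionFieldFullC K (M' * q * q))))
  rw [e]
  exact pow_mem (add_mem hHmem (ofNat_mem _ 256)) 3

include hq hM' in
/-- **Level 2, chart `{H⁻¹}`.** -/
theorem c2j88_level2_inv (h23 : q = 2 ∨ q = 3) (hπq : Irreducible ((q : ℕ) : R)) (h2 : 2 ∣ M')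
    (V₂ V₃ : ValuationSubring ↥(modularFunctionFieldFullC K (M' * q * q)))
    (hV₂ : ∀ c ∈ cm85_Vinf (K := K) (M' * q) hπq, al97L_alpha K (M' * q) q c ∈ V₂)
    (hB₁ : ∀ x ∈ (pk15_chart R ({(pk85_h2 K (M' * q * q) (h2.trans ((dvd_mul_right M' q).trans (dvd_mul_right (M' * q) q))))⁻¹} : Set ↥(modularFunctionFieldFullC K (M' * q * q)))), x ∈ cm85_Vinf (K := K) (M' * q * q) hπq)
    (hB₂ : ∀ x ∈ (pk15_chart R ({(pk85_h2 K (M' * q * q) (h2.trans ((dvd_mul_right M' q).trans (dvd_mul_right (M' * q) q))))⁻¹} : Set ↥(modularFunctionFieldFullC K (M' * q * q)))), x ∈ V₂)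
    (hB₃ : ∀ x ∈ (pk15_chart R ({(pk85_h2 K (M' * q * q) (h2.trans ((dvd_mul_right M' q).trans (dvd_mul_right (M' * q) q))))⁻¹} : Set ↥(modularFunctionFieldFullC K (M' * q * q)))), x ∈ V₃)
    (hsat : ∀ x ∈ (pk15_chart R ({(pk85_h2 K (M' * q * q) (h2.trans ((dvd_mul_right M' q).trans (dvd_mul_right (M' * q) q))))⁻¹} : Set ↥(modularFunctionFieldFullC K (M' * q * q)))),
      (algebraMap R ↥(modularFunctionFieldFullC K (M' * q * q)) ((q : ℕ) : R))⁻¹ * x ∈ cm85_Vinf (K := K) (M' * q * q) hπq →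
      (algebraMap R ↥(modularFunctionFieldFullC K (M' * q * q)) ((q : ℕ) : R))⁻¹ * x ∈ V₂ →
      (algebraMap R ↥(modularFunctionFieldFullC K (M' * q * q)) ((q : ℕ) : R))⁻¹ * x ∈ V₃ →
      (algebraMap R ↥(modularFunctionFieldFullC K (M' * q * q)) ((q : ℕ) : R))⁻¹ * x ∈ (pk15_chart R ({(pk85_h2 K (M' * q * q) (h2.trans ((dvd_mul_right M' q).trans (dvd_mul_right (M' * q) q))))⁻¹} : Set ↥(modularFunctionFieldFullC K (M' * q * q)))))
    (n : Ideal ↥(pk15_chart R ({(pk85_h2 K (M' * q * q) (h2.trans ((dvd_mul_right M' q).trans (dvd_mul_right (M' * q) q))))⁻¹} : Set ↥(modularFunctionFieldFullC K (M' * q * q))))) [hn : n.IsPrime]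
    (hOn₂ : sf79_OnBr ((q : ℕ) : R) (pk15_chart R ({(pk85_h2 K (M' * q * q) (h2.trans ((dvd_mul_right M' q).trans (dvd_mul_right (M' * q) q))))⁻¹} : Set ↥(modularFunctionFieldFullC K (M' * q * q)))) V₂.toSubring n)
    (h3' : ¬ sf79_OnBr ((q : ℕ) : R) (pk15_chart R ({(pk85_h2 K (M' * q * q) (h2.trans ((dvd_mul_right M' q).trans (dvd_mul_right (M' * q) q))))⁻¹} : Set ↥(modularFunctionFieldFullC K (M' * q * q)))) V₃.toSubring n)
    (s' b' : ↥(pk15_chart R ({(pk85_h2 K (M' * q * q) (h2.trans ((dvd_mul_right M' q).trans (dvd_mul_right (M' * q) q))))⁻¹} : Set ↥(modularFunctionFieldFullC K (M' * q * q))))) (hs' : s' ∉ n)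
    (hb' : (s' : ↥(modularFunctionFieldFullC K (M' * q * q))) * rm90_j K (M' * q * q) = (b' : ↥(modularFunctionFieldFullC K (M' * q * q)))) : b' ∉ n := by
  have hrel := pk85_h2_rel K (M' * q * q) (h2.trans ((dvd_mul_right M' q).trans (dvd_mul_right (M' * q) q)))
  obtain ⟨hv1, hv1'⟩ := c2j88_h2_mem_Vinf (R := R) (K := K) (M' * q * q) hπq
    (h2.trans ((dvd_mul_right M' q).trans (dvd_mul_right (M' * q) q)))
  obtain ⟨hv2, hv2'⟩ := c2j88_h2_mem_V2 (R := R) (K := K) M' q hπq h2 V₂ hV₂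
  have hh0 : pk85_h2 K (M' * q * q) (h2.trans ((dvd_mul_right M' q).trans (dvd_mul_right (M' * q) q))) ≠ 0 :=
    fun h0 => pk85_h2_transcendental K (M' * q * q) _ (by rw [h0]; exact isAlgebraic_zero)
  have hrel' : rm90_j K (M' * q * q) * (pk85_h2 K (M' * q * q) (h2.trans ((dvd_mul_right M' q).trans (dvd_mul_right (M' * q) q))))⁻¹ = (1 + 256 * (pk85_h2 K (M' * q * q) (h2.trans ((dvd_mul_right M' q).trans (dvd_mul_right (M' * q) q))))⁻¹) ^ 3 := by
    have hj : rm90_j K (M' * q * q) = (pk85_h2 K (M' * q * q) (h2.trans ((dvd_mul_right M' q).trans (dvd_mul_right (M' * q) q))) + 256) ^ 3 / pk85_h2 K (M' * q * q) (h2.trans ((dvd_mul_right M' q).trans (dvd_mul_right (M' * q) q))) ^ 2 := by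
      rw [eq_div_iff (pow_ne_zero 2 hh0)]
      exact hrel
    rw [hj]
    field_simp
  have hHmem : (pk85_h2 K (M' * q * q) (h2.trans ((dvd_mul_right M' q).trans (dvd_mul_right (M' * q) q))))⁻¹ ∈ (pk15_chart R ({(pk85_h2 K (M' * q * q) (h2.trans ((dvd_mul_right M' q).trans (dvd_mul_right (M' * q) q))))⁻¹} : Set ↥(modularFunctionFieldFullC K (M' * q * q)))) := pk15_subset_chart _ (Set.mem_singleton _)
  have ht : (⟨_, hHmem⟩ : ↥(pk15_chart R ({(pk85_h2 K (M' * q * q) (h2.trans ((dvd_mul_right M' q).trans (dvd_mul_right (M' * q) q))))⁻¹} : Set ↥(modularFunctionFieldFullC K (M' * q * q))))) ∉ n :=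
    c2j88_not_mem2_inv _ n (rm90_j K (M' * q * q)) ⟨_, hHmem⟩ hrel' s' b' hs' hb'
  refine c2j88_core M' q hq hM' h23 hπq _ (fun z hz => uv17_chart_intClosed _ z hz) V₂ V₃ hV₂
    hB₁ hB₂ hB₃ hsat n hOn₂ h3' ⟨_, hHmem⟩ 1 ht ?_ (by rw [inv_inv]; exact hv1)
    (by rw [inv_inv]; exact hv2) s' b' hs' hb'
  have e : ((pk85_h2 K (M' * q * q) (h2.trans ((dvd_mul_right M' q).trans (dvd_mul_right (M' * q) q))))⁻¹) ^ 1 * rm90_j K (M' * q * q) = (1 + 256 * (pk85_h2 K (M' * q * q) (h2.trans ((dvd_mul_right M' q).trans (dvd_mul_right (M' * q) q))))⁻¹) ^ 3 := by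
    rw [pow_one]
    exact (mul_comm _ _).trans hrel'
  show ((pk85_h2 K (M' * q * q) (h2.trans ((dvd_mul_right M' q).trans (dvd_mul_right (M' * q) q))))⁻¹) ^ 1 * rm90_j K (M' * q * q) ∈ (pk15_chart R ({(pk85_h2 K (M' * q * q) (h2.trans ((dvd_mul_right M' q).trans (dvd_mul_right (M' * q) q))))⁻¹} : Set ↥(modularFunctionFieldFullC K (M' * q * q))))
  rw [e]
  exact pow_mem (add_mem (one_mem _) (mul_mem (ofNat_mem _ 256) hHmem)) 3

include hq hM' in
/-- **Level 3, chart `{H}`.** -/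
theorem c2j88_level3 (h23 : q = 2 ∨ q = 3) (hπq : Irreducible ((q : ℕ) : R)) (h3 : 3 ∣ M') (h3u : IsUnit (3 : R))
    (V₂ V₃ : ValuationSubring ↥(modularFunctionFieldFullC K (M' * q * q)))
    (hV₂ : ∀ c ∈ cm85_Vinf (K := K) (M' * q) hπq, al97L_alpha K (M' * q) q c ∈ V₂)
    (hB₁ : ∀ x ∈ (pk15_chart R ({pk85_h3 K (M' * q * q) (h3.trans ((dvd_mul_right M' q).trans (dvd_mul_right (M' * q) q)))} : Set ↥(modularFunctionFieldFullC K (M' * q * q)))), x ∈ cm85_Vinf (K := K) (M' * q * q) hπq)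
    (hB₂ : ∀ x ∈ (pk15_chart R ({pk85_h3 K (M' * q * q) (h3.trans ((dvd_mul_right M' q).trans (dvd_mul_right (M' * q) q)))} : Set ↥(modularFunctionFieldFullC K (M' * q * q)))), x ∈ V₂)
    (hB₃ : ∀ x ∈ (pk15_chart R ({pk85_h3 K (M' * q * q) (h3.trans ((dvd_mul_right M' q).trans (dvd_mul_right (M' * q) q)))} : Set ↥(modularFunctionFieldFullC K (M' * q * q)))), x ∈ V₃)
    (hsat : ∀ x ∈ (pk15_chart R ({pk85_h3 K (M' * q * q) (h3.trans ((dvd_mul_right M' q).trans (dvd_mul_right (M' * q) q)))} : Set ↥(modularFunctionFieldFullC K (M' * q * q)))),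
      (algebraMap R ↥(modularFunctionFieldFullC K (M' * q * q)) ((q : ℕ) : R))⁻¹ * x ∈ cm85_Vinf (K := K) (M' * q * q) hπq →
      (algebraMap R ↥(modularFunctionFieldFullC K (M' * q * q)) ((q : ℕ) : R))⁻¹ * x ∈ V₂ →
      (algebraMap R ↥(modularFunctionFieldFullC K (M' * q * q)) ((q : ℕ) : R))⁻¹ * x ∈ V₃ →
      (algebraMap R ↥(modularFunctionFieldFullC K (M' * q * q)) ((q : ℕ) : R))⁻¹ * x ∈ (pk15_chart R ({pk85_h3 K (M' * q * q) (h3.trans ((dvd_mul_right M' q).trans (dvd_mul_right (M' * q) q)))} : Set ↥(modularFunctionFieldFullC K (M' * q * q)))))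
    (n : Ideal ↥(pk15_chart R ({pk85_h3 K (M' * q * q) (h3.trans ((dvd_mul_right M' q).trans (dvd_mul_right (M' * q) q)))} : Set ↥(modularFunctionFieldFullC K (M' * q * q))))) [hn : n.IsPrime]
    (hOn₂ : sf79_OnBr ((q : ℕ) : R) (pk15_chart R ({pk85_h3 K (M' * q * q) (h3.trans ((dvd_mul_right M' q).trans (dvd_mul_right (M' * q) q)))} : Set ↥(modularFunctionFieldFullC K (M' * q * q)))) V₂.toSubring n)
    (h3' : ¬ sf79_OnBr ((q : ℕ) : R) (pk15_chart R ({pk85_h3 K (M' * q * q) (h3.trans ((dvd_mul_right M' q).trans (dvd_mul_right (M' * q) q)))} : Set ↥(modularFunctionFieldFullC K (M' * q * q)))) V₃.toSubring n)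
    (s' b' : ↥(pk15_chart R ({pk85_h3 K (M' * q * q) (h3.trans ((dvd_mul_right M' q).trans (dvd_mul_right (M' * q) q)))} : Set ↥(modularFunctionFieldFullC K (M' * q * q))))) (hs' : s' ∉ n)
    (hb' : (s' : ↥(modularFunctionFieldFullC K (M' * q * q))) * rm90_j K (M' * q * q) = (b' : ↥(modularFunctionFieldFullC K (M' * q * q)))) : b' ∉ n := by
  have hrel := pk85_h3_rel K (M' * q * q) (h3.trans ((dvd_mul_right M' q).trans (dvd_mul_right (M' * q) q)))
  obtain ⟨hv1, hv1'⟩ := c2j88_h3_mem_Vinf (R := R) (K := K) (M' * q * q) hπq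
    (h3.trans ((dvd_mul_right M' q).trans (dvd_mul_right (M' * q) q)))
  obtain ⟨hv2, hv2'⟩ := c2j88_h3_mem_V2 (R := R) (K := K) M' q hπq h3 V₂ hV₂
  have hHmem : pk85_h3 K (M' * q * q) (h3.trans ((dvd_mul_right M' q).trans (dvd_mul_right (M' * q) q))) ∈ (pk15_chart R ({pk85_h3 K (M' * q * q) (h3.trans ((dvd_mul_right M' q).trans (dvd_mul_right (M' * q) q)))} : Set ↥(modularFunctionFieldFullC K (M' * q * q)))) := pk15_subset_chart _ (Set.mem_singleton _)
  have ht : (⟨_, hHmem⟩ : ↥(pk15_chart R ({pk85_h3 K (M' * q * q) (h3.trans ((dvd_mul_right M' q).trans (dvd_mul_right (M' * q) q)))} : Set ↥(modularFunctionFieldFullC K (M' * q * q))))) ∉ n :=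
    c2j88_not_mem3 _ n (rm90_j K (M' * q * q)) ⟨_, hHmem⟩ hrel h3u s' b' hs' hb'
  refine c2j88_core M' q hq hM' h23 hπq _ (fun z hz => uv17_chart_intClosed _ z hz) V₂ V₃ hV₂
    hB₁ hB₂ hB₃ hsat n hOn₂ h3' ⟨_, hHmem⟩ 3 ht ?_ hv1' hv2' s' b' hs' hb'
  have e : pk85_h3 K (M' * q * q) (h3.trans ((dvd_mul_right M' q).trans (dvd_mul_right (M' * q) q))) ^ 3 * rm90_j K (M' * q * q) = (pk85_h3 K (M' * q * q) (h3.trans ((dvd_mul_right M' q).trans (dvd_mul_right (M' * q) q))) + 27) * (pk85_h3 K (M' * q * q) (h3.trans ((dvd_mul_right M' q).trans (dvd_mul_right (M' * q) q))) + 243) ^ 3 :=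
    (mul_comm _ _).trans hrel
  show pk85_h3 K (M' * q * q) (h3.trans ((dvd_mul_right M' q).trans (dvd_mul_right (M' * q) q))) ^ 3 * rm90_j K (M' * q * q) ∈ (pk15_chart R ({pk85_h3 K (M' * q * q) (h3.trans ((dvd_mul_right M' q).trans (dvd_mul_right (M' * q) q)))} : Set ↥(modularFunctionFieldFullC K (M' * q * q))))
  rw [e]
  exact mul_mem (add_mem hHmem (ofNat_mem _ 27)) (pow_mem (add_mem hHmem (ofNat_mem _ 243)) 3)

include hq hM' in
/-- **Level 3, chart `{H⁻¹}`.** -/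
theorem c2j88_level3_inv (h23 : q = 2 ∨ q = 3) (hπq : Irreducible ((q : ℕ) : R)) (h3 : 3 ∣ M')
    (V₂ V₃ : ValuationSubring ↥(modularFunctionFieldFullC K (M' * q * q)))
    (hV₂ : ∀ c ∈ cm85_Vinf (K := K) (M' * q) hπq, al97L_alpha K (M' * q) q c ∈ V₂)
    (hB₁ : ∀ x ∈ (pk15_chart R ({(pk85_h3 K (M' * q * q) (h3.trans ((dvd_mul_right M' q).trans (dvd_mul_right (M' * q) q))))⁻¹} : Set ↥(modularFunctionFieldFullC K (M' * q * q)))), x ∈ cm85_Vinf (K := K) (M' * q * q) hπq)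
    (hB₂ : ∀ x ∈ (pk15_chart R ({(pk85_h3 K (M' * q * q) (h3.trans ((dvd_mul_right M' q).trans (dvd_mul_right (M' * q) q))))⁻¹} : Set ↥(modularFunctionFieldFullC K (M' * q * q)))), x ∈ V₂)
    (hB₃ : ∀ x ∈ (pk15_chart R ({(pk85_h3 K (M' * q * q) (h3.trans ((dvd_mul_right M' q).trans (dvd_mul_right (M' * q) q))))⁻¹} : Set ↥(modularFunctionFieldFullC K (M' * q * q)))), x ∈ V₃)
    (hsat : ∀ x ∈ (pk15_chart R ({(pk85_h3 K (M' * q * q) (h3.trans ((dvd_mul_right M' q).trans (dvd_mul_right (M' * q) q))))⁻¹} : Set ↥(modularFunctionFieldFullC K (M' * q * q)))),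
      (algebraMap R ↥(modularFunctionFieldFullC K (M' * q * q)) ((q : ℕ) : R))⁻¹ * x ∈ cm85_Vinf (K := K) (M' * q * q) hπq →
      (algebraMap R ↥(modularFunctionFieldFullC K (M' * q * q)) ((q : ℕ) : R))⁻¹ * x ∈ V₂ →
      (algebraMap R ↥(modularFunctionFieldFullC K (M' * q * q)) ((q : ℕ) : R))⁻¹ * x ∈ V₃ →
      (algebraMap R ↥(modularFunctionFieldFullC K (M' * q * q)) ((q : ℕ) : R))⁻¹ * x ∈ (pk15_chart R ({(pk85_h3 K (M' * q * q) (h3.trans ((dvd_mul_right M' q).trans (dvd_mul_right (M' * q) q))))⁻¹} : Set ↥(modularFunctionFieldFullC K (M' * q * q)))))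
    (n : Ideal ↥(pk15_chart R ({(pk85_h3 K (M' * q * q) (h3.trans ((dvd_mul_right M' q).trans (dvd_mul_right (M' * q) q))))⁻¹} : Set ↥(modularFunctionFieldFullC K (M' * q * q))))) [hn : n.IsPrime]
    (hOn₂ : sf79_OnBr ((q : ℕ) : R) (pk15_chart R ({(pk85_h3 K (M' * q * q) (h3.trans ((dvd_mul_right M' q).trans (dvd_mul_right (M' * q) q))))⁻¹} : Set ↥(modularFunctionFieldFullC K (M' * q * q)))) V₂.toSubring n)
    (h3' : ¬ sf79_OnBr ((q : ℕ) : R) (pk15_chart R ({(pk85_h3 K (M' * q * q) (h3.trans ((dvd_mul_right M' q).trans (dvd_mul_right (M' * q) q))))⁻¹} : Set ↥(modularFunctionFieldFullC K (M' * q * q)))) V₃.toSubring n)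
    (s' b' : ↥(pk15_chart R ({(pk85_h3 K (M' * q * q) (h3.trans ((dvd_mul_right M' q).trans (dvd_mul_right (M' * q) q))))⁻¹} : Set ↥(modularFunctionFieldFullC K (M' * q * q))))) (hs' : s' ∉ n)
    (hb' : (s' : ↥(modularFunctionFieldFullC K (M' * q * q))) * rm90_j K (M' * q * q) = (b' : ↥(modularFunctionFieldFullC K (M' * q * q)))) : b' ∉ n := by
  have hrel := pk85_h3_rel K (M' * q * q) (h3.trans ((dvd_mul_right M' q).trans (dvd_mul_right (M' * q) q)))
  obtain ⟨hv1, hv1'⟩ := c2j88_h3_mem_Vinf (R := R) (K := K) (M' * q * q) hπq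
    (h3.trans ((dvd_mul_right M' q).trans (dvd_mul_right (M' * q) q)))
  obtain ⟨hv2, hv2'⟩ := c2j88_h3_mem_V2 (R := R) (K := K) M' q hπq h3 V₂ hV₂
  have hh0 : pk85_h3 K (M' * q * q) (h3.trans ((dvd_mul_right M' q).trans (dvd_mul_right (M' * q) q))) ≠ 0 :=
    fun h0 => pk85_h3_transcendental K (M' * q * q) _ (by rw [h0]; exact isAlgebraic_zero)
  have hrel' : rm90_j K (M' * q * q) * (pk85_h3 K (M' * q * q) (h3.trans ((dvd_mul_right M' q).trans (dvd_mul_right (M' * q) q))))⁻¹ = (1 + 27 * (pk85_h3 K (M' * q * q) (h3.trans ((dvd_mul_right M' q).trans (dvd_mul_right (M' * q) q))))⁻¹) * (1 + 243 * (pk85_h3 K (M' * q * q) (h3.trans ((dvd_mul_right M' q).trans (dvd_mul_right (M' * q) q))))⁻¹) ^ 3 := by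
    have hj : rm90_j K (M' * q * q) = (pk85_h3 K (M' * q * q) (h3.trans ((dvd_mul_right M' q).trans (dvd_mul_right (M' * q) q))) + 27) * (pk85_h3 K (M' * q * q) (h3.trans ((dvd_mul_right M' q).trans (dvd_mul_right (M' * q) q))) + 243) ^ 3 / pk85_h3 K (M' * q * q) (h3.trans ((dvd_mul_right M' q).trans (dvd_mul_right (M' * q) q))) ^ 3 := by
      rw [eq_div_iff (pow_ne_zero 3 hh0)]
      exact hrel
    rw [hj]
    field_simp
  have hHmem : (pk85_h3 K (M' * q * q) (h3.trans ((dvd_mul_right M' q).trans (dvd_mul_right (M' * q) q))))⁻¹ ∈ (pk15_chart R ({(pk85_h3 K (M' * q * q) (h3.trans ((dvd_mul_right M' q).trans (dvd_mul_right (M' * q) q))))⁻¹} : Set ↥(modularFunctionFieldFullC K (M' * q * q)))) := pk15_subset_chart _ (Set.mem_singleton _)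
  have ht : (⟨_, hHmem⟩ : ↥(pk15_chart R ({(pk85_h3 K (M' * q * q) (h3.trans ((dvd_mul_right M' q).trans (dvd_mul_right (M' * q) q))))⁻¹} : Set ↥(modularFunctionFieldFullC K (M' * q * q))))) ∉ n :=
    c2j88_not_mem3_inv _ n (rm90_j K (M' * q * q)) ⟨_, hHmem⟩ hrel' s' b' hs' hb'
  refine c2j88_core M' q hq hM' h23 hπq _ (fun z hz => uv17_chart_intClosed _ z hz) V₂ V₃ hV₂
    hB₁ hB₂ hB₃ hsat n hOn₂ h3' ⟨_, hHmem⟩ 1 ht ?_ (by rw [inv_inv]; exact hv1)
    (by rw [inv_inv]; exact hv2) s' b' hs' hb'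
  have e : ((pk85_h3 K (M' * q * q) (h3.trans ((dvd_mul_right M' q).trans (dvd_mul_right (M' * q) q))))⁻¹) ^ 1 * rm90_j K (M' * q * q) = (1 + 27 * (pk85_h3 K (M' * q * q) (h3.trans ((dvd_mul_right M' q).trans (dvd_mul_right (M' * q) q))))⁻¹) * (1 + 243 * (pk85_h3 K (M' * q * q) (h3.trans ((dvd_mul_right M' q).trans (dvd_mul_right (M' * q) q))))⁻¹) ^ 3 := by
    rw [pow_one]
    exact (mul_comm _ _).trans hrel'
  show ((pk85_h3 K (M' * q * q) (h3.trans ((dvd_mul_right M' q).trans (dvd_mul_right (M' * q) q))))⁻¹) ^ 1 * rm90_j K (M' * q * q) ∈ (pk15_chart R ({(pk85_h3 K (M' * q * q) (h3.trans ((dvd_mul_right M' q).trans (dvd_mul_right (M' * q) q))))⁻¹} : Set ↥(modularFunctionFieldFullC K (M' * q * q))))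
  rw [e]
  exact mul_mem (add_mem (one_mem _) (mul_mem (ofNat_mem _ 27) hHmem)) (pow_mem (add_mem (one_mem _) (mul_mem (ofNat_mem _ 243) hHmem)) 3)

end Charts

end Fermat.Agent.S36
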