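import Mathlib
import Fermat.Agent.S36.MidBind62
import Fermat.Agent.S36.C2Hreg66
import Fermat.Agent.S36.C2JUnit88

/-!
# S36 lab (helper44), row 600: the closed statements `s36i62j_Reg2`, `s36i62j_Reg3`

`MidBind62` (helper62) reduces the frozen S36 to the two (HP-3) statements and to row 600 at the
`j`-regular closed points of the middle branch on the canonical charts, `s36i62j_Reg2` and
`s36i62j_Reg3`.  This file proves both from `c2r66_core` (helper66: the middle branch is principal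
at every `j`-regular prime of an integrally closed saturated chart, given one chart element `sc`
with `sc ∉ n`, `sc * j ∈ B`, `sc` a unit of `V₁`, `V₂`), with

* `sc = H ^ 2` on the chart `{H}` and `sc = H⁻¹` on `{H⁻¹}` for the Hauptmodul of level 2
  (`j H ^ 2 = (H + 256) ^ 3`),
* `sc = H ^ 3` on `{H}` and `sc = H⁻¹` on `{H⁻¹}` for the Hauptmodul of level 3
  (`j H ^ 3 = (H + 27) (H + 243) ^ 3`),

`sc ∉ n` from the regularity of `j` at `n` (`c2j88_not_mem2/3(_inv)`, helper88), the unit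
properties from `c2j88_h2/h3_mem_Vinf`, `c2j88_h2/h3_mem_V2`, and the chart facts from
`fb85_frameV3_level2/3` (helper85).

* `c2z44_chart` : chart-generic form;
* `c2z44_level2`, `c2z44_level3` : both canonical charts, `V₂` a parameter with the four facts;
* `c2z44_Reg2 : s36i62j_Reg2`, `c2z44_Reg3 : s36i62j_Reg3`.

All names are prefixed `c2z44_`.
-/

set_option autoImplicit false
set_option linter.unusedSectionVars false
set_option linter.unusedVariables false
set_option linter.style.haveILetI false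
set_option linter.style.longLine false

open ModularCurve AlgebraicCurve CongruenceSubgroup Polynomial

namespace Fermat.Agent.S36

open Fermat.Agent.S34 Fermat.Agent.S18 Fermat.Agent.S24 Fermat.Agent.S35
open Fermat.Agent.S36.TripleLoc71

local notation "Q̄" => AlgebraicClosure ℚ

section c2z44

variable {R K : Type} [CommRing R] [IsDomain R] [IsDiscreteValuationRing R] [Field K]
  [NumberField K] [Algebra R K] [IsFractionRing R K] [Algebra K Q̄] [Algebra.IsAlgebraic K Q̄]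
  (M' q : ℕ) [NeZero M'] [NeZero q] (hq : q.Prime) (hM' : ¬ q ∣ M')
  [Algebra R ↥(modularFunctionFieldFullC K M')]
  [IsScalarTower R K ↥(modularFunctionFieldFullC K M')]
  [Algebra R ↥(modularFunctionFieldFullC K (M' * q))]
  [IsScalarTower R K ↥(modularFunctionFieldFullC K (M' * q))]
  [Algebra R ↥(modularFunctionFieldFullC K (M' * q * q))]
  [IsScalarTower R K ↥(modularFunctionFieldFullC K (M' * q * q))]

include hq hM' in
/-- **Row 600 for a chart `B`** (integrally closed, inside `V₁ ⊓ V₂ ⊓ V₃`, saturated) with a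
chart element `t` such that `t ^ k * j ∈ B`, `t` a unit of `V₁` and `V₂`, and `t ∉ n` at every
prime `n` where `j` is regular: the middle branch is principal at every `j`-regular closed point
of the middle branch only. -/
theorem c2z44_chart (hπ : Irreducible ((q : ℕ) : R))
    (hunit : ∀ n : ℕ, Nat.Coprime n q → IsUnit (n : R))
    (h2o : q ≠ 2 → 2 ∣ M') (h3o : q ≠ 3 → 3 ∣ M')
    (V₂ : ValuationSubring ↥(modularFunctionFieldFullC K (M' * q * q)))
    (hV₂ : ∀ c ∈ cm85_Vinf (K := K) (M' * q) hπ, al97L_alpha K (M' * q) q c ∈ V₂)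
    (hπ₂ : (algebraMap K ↥(modularFunctionFieldFullC K (M' * q * q)) (algebraMap R K ((q : ℕ) : R)))⁻¹ ∉ V₂)
    (hne : cm85_Vinf (K := K) (M' * q * q) hπ ≠ V₂)
    (hs : V₂.valuation (v2g64_s K M' q) ^ (q - 1) =
      V₂.valuation (algebraMap K ↥(modularFunctionFieldFullC K (M' * q * q)) (algebraMap R K ((q : ℕ) : R))))
    (B : Subalgebra R ↥(modularFunctionFieldFullC K (M' * q * q)))
    (hBint : ∀ z : ↥(modularFunctionFieldFullC K (M' * q * q)), IsIntegral B z → z ∈ B)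
    (hBW : ∀ x ∈ B, x ∈ (cm85_Vinf (K := K) (M' * q * q) hπ).toSubring ⊓ V₂.toSubring ⊓
      (nsb86_V3 (K := K) M' q hq hM' hπ).toSubring)
    (hsatW : ∀ x ∈ B, (algebraMap R ↥(modularFunctionFieldFullC K (M' * q * q)) ((q : ℕ) : R))⁻¹ * x ∈
        (cm85_Vinf (K := K) (M' * q * q) hπ).toSubring ⊓ V₂.toSubring ⊓
          (nsb86_V3 (K := K) M' q hq hM' hπ).toSubring →
      (algebraMap R ↥(modularFunctionFieldFullC K (M' * q * q)) ((q : ℕ) : R))⁻¹ * x ∈ B)
    (t : B) (k : ℕ)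
    (htj : (t : ↥(modularFunctionFieldFullC K (M' * q * q))) ^ k * rm90_j K (M' * q * q) ∈ B)
    (ht₁ : (t : ↥(modularFunctionFieldFullC K (M' * q * q)))⁻¹ ∈ cm85_Vinf (K := K) (M' * q * q) hπ)
    (ht₂ : (t : ↥(modularFunctionFieldFullC K (M' * q * q)))⁻¹ ∈ V₂)
    (htn : ∀ n : Ideal B, n.IsPrime → ∀ s' b' : B, s' ∉ n →
      (s' : ↥(modularFunctionFieldFullC K (M' * q * q))) * rm90_j K (M' * q * q) = (b' : ↥(modularFunctionFieldFullC K (M' * q * q))) → t ∉ n)
    (n : Ideal B) (hn : n.IsMaximal) (hπn : algebraMap R B ((q : ℕ) : R) ∈ n)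
    (hmid : tl71_OnMid (v2g64_s K M' q) B V₂.toSubring n)
    (h1 : ¬ sf79_OnBr ((q : ℕ) : R) B (cm85_Vinf (K := K) (M' * q * q) hπ).toSubring n)
    (h3 : ¬ sf79_OnBr ((q : ℕ) : R) B (nsb86_V3 (K := K) M' q hq hM' hπ).toSubring n)
    (hreg : ∃ s' b : B, s' ∉ n ∧ (s' : ↥(modularFunctionFieldFullC K (M' * q * q))) * rm90_j K (M' * q * q) = (b : ↥(modularFunctionFieldFullC K (M' * q * q)))) :
    mc25_MidPrinAt (v2g64_s K M' q) B V₂.toSubring n := by
  haveI hnp : n.IsPrime := hn.isPrime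
  obtain ⟨s', b', hs', hb'⟩ := hreg
  have htn' : t ∉ n := htn n hnp s' b' hs' hb'
  have hqn : ((q : ℕ) : B) ∈ n := by
    have h0 := hπn
    rwa [map_natCast] at h0
  have hcoe : ((t ^ k : B) : ↥(modularFunctionFieldFullC K (M' * q * q))) = (t : ↥(modularFunctionFieldFullC K (M' * q * q))) ^ k := Subalgebra.coe_pow B t k
  refine c2r66_core (K := K) M' q hq hM' hπ hunit h2o h3o V₂ hV₂ hπ₂ hne (v2g64_s K M' q) hs B
    hBint (nsb86_V3 (K := K) M' q hq hM' hπ)
    (fun x hx => (Subring.mem_inf.mp (Subring.mem_inf.mp (hBW x hx)).1).1)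
    (fun x hx => (Subring.mem_inf.mp (Subring.mem_inf.mp (hBW x hx)).1).2)
    (fun x hx => (Subring.mem_inf.mp (hBW x hx)).2)
    (fun x hx a1 a2 a3 => hsatW x hx (Subring.mem_inf.mpr ⟨Subring.mem_inf.mpr ⟨a1, a2⟩, a3⟩))
    n hqn hmid h1 h3 (t ^ k) (fun h => htn' (hnp.mem_of_pow_mem k h)) ?_ ?_ ?_
  · rw [hcoe]
    exact htj
  · rw [hcoe, ← inv_pow]
    exact pow_mem ht₁ k
  · rw [hcoe, ← inv_pow]
    exact pow_mem ht₂ k

include hq hM' in
/-- **Row 600 on both canonical charts of the Hauptmodul of level 2**, `V₂` ANY valuation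
subring with the four facts of row B1-V2. -/
theorem c2z44_level2 (hπ : Irreducible ((q : ℕ) : R))
    (hunit : ∀ n : ℕ, Nat.Coprime n q → IsUnit (n : R))
    (hqR : ¬ IsUnit (q : R)) (hMu : IsUnit (M' : R)) (h2 : 2 ∣ M') (h2u : IsUnit (2 : R))
    (h3o : q ≠ 3 → 3 ∣ M')
    (V₂ : ValuationSubring ↥(modularFunctionFieldFullC K (M' * q * q)))
    (hV₂ : ∀ c ∈ cm85_Vinf (K := K) (M' * q) hπ, al97L_alpha K (M' * q) q c ∈ V₂)
    (hπ₂ : (algebraMap K ↥(modularFunctionFieldFullC K (M' * q * q)) (algebraMap R K ((q : ℕ) : R)))⁻¹ ∉ V₂)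
    (hne : cm85_Vinf (K := K) (M' * q * q) hπ ≠ V₂)
    (hs : V₂.valuation (v2g64_s K M' q) ^ (q - 1) =
      V₂.valuation (algebraMap K ↥(modularFunctionFieldFullC K (M' * q * q)) (algebraMap R K ((q : ℕ) : R)))) :
      (∀ n : Ideal ↥(pk15_chart R ({pk85_h2 K (M' * q * q) (h2.trans ((dvd_mul_right M' q).trans (dvd_mul_right (M' * q) q)))} : Set ↥(modularFunctionFieldFullC K (M' * q * q)))), n.IsMaximal → algebraMap R ↥(pk15_chart R ({pk85_h2 K (M' * q * q) (h2.trans ((dvd_mul_right M' q).trans (dvd_mul_right (M' * q) q)))} : Set ↥(modularFunctionFieldFullC K (M' * q * q)))) ((q : ℕ) : R) ∈ n →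
        tl71_OnMid (v2g64_s K M' q) (pk15_chart R ({pk85_h2 K (M' * q * q) (h2.trans ((dvd_mul_right M' q).trans (dvd_mul_right (M' * q) q)))} : Set ↥(modularFunctionFieldFullC K (M' * q * q)))) V₂.toSubring n →
        ¬ sf79_OnBr ((q : ℕ) : R) (pk15_chart R ({pk85_h2 K (M' * q * q) (h2.trans ((dvd_mul_right M' q).trans (dvd_mul_right (M' * q) q)))} : Set ↥(modularFunctionFieldFullC K (M' * q * q)))) (cm85_Vinf (K := K) (M' * q * q) hπ).toSubring n →
        ¬ sf79_OnBr ((q : ℕ) : R) (pk15_chart R ({pk85_h2 K (M' * q * q) (h2.trans ((dvd_mul_right M' q).trans (dvd_mul_right (M' * q) q)))} : Set ↥(modularFunctionFieldFullC K (M' * q * q)))) (nsb86_V3 (K := K) M' q hq hM' hπ).toSubring n →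
        (∃ s' b : ↥(pk15_chart R ({pk85_h2 K (M' * q * q) (h2.trans ((dvd_mul_right M' q).trans (dvd_mul_right (M' * q) q)))} : Set ↥(modularFunctionFieldFullC K (M' * q * q)))), s' ∉ n ∧
          (s' : ↥(modularFunctionFieldFullC K (M' * q * q))) * rm90_j K (M' * q * q) = (b : ↥(modularFunctionFieldFullC K (M' * q * q)))) →
        mc25_MidPrinAt (v2g64_s K M' q) (pk15_chart R ({pk85_h2 K (M' * q * q) (h2.trans ((dvd_mul_right M' q).trans (dvd_mul_right (M' * q) q)))} : Set ↥(modularFunctionFieldFullC K (M' * q * q)))) V₂.toSubring n) ∧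
      (∀ n : Ideal ↥(pk15_chart R ({(pk85_h2 K (M' * q * q) (h2.trans ((dvd_mul_right M' q).trans (dvd_mul_right (M' * q) q))))⁻¹} : Set ↥(modularFunctionFieldFullC K (M' * q * q)))), n.IsMaximal → algebraMap R ↥(pk15_chart R ({(pk85_h2 K (M' * q * q) (h2.trans ((dvd_mul_right M' q).trans (dvd_mul_right (M' * q) q))))⁻¹} : Set ↥(modularFunctionFieldFullC K (M' * q * q)))) ((q : ℕ) : R) ∈ n →
        tl71_OnMid (v2g64_s K M' q) (pk15_chart R ({(pk85_h2 K (M' * q * q) (h2.trans ((dvd_mul_right M' q).trans (dvd_mul_right (M' * q) q))))⁻¹} : Set ↥(modularFunctionFieldFullC K (M' * q * q)))) V₂.toSubring n →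
        ¬ sf79_OnBr ((q : ℕ) : R) (pk15_chart R ({(pk85_h2 K (M' * q * q) (h2.trans ((dvd_mul_right M' q).trans (dvd_mul_right (M' * q) q))))⁻¹} : Set ↥(modularFunctionFieldFullC K (M' * q * q)))) (cm85_Vinf (K := K) (M' * q * q) hπ).toSubring n →
        ¬ sf79_OnBr ((q : ℕ) : R) (pk15_chart R ({(pk85_h2 K (M' * q * q) (h2.trans ((dvd_mul_right M' q).trans (dvd_mul_right (M' * q) q))))⁻¹} : Set ↥(modularFunctionFieldFullC K (M' * q * q)))) (nsb86_V3 (K := K) M' q hq hM' hπ).toSubring n →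
        (∃ s' b : ↥(pk15_chart R ({(pk85_h2 K (M' * q * q) (h2.trans ((dvd_mul_right M' q).trans (dvd_mul_right (M' * q) q))))⁻¹} : Set ↥(modularFunctionFieldFullC K (M' * q * q)))), s' ∉ n ∧
          (s' : ↥(modularFunctionFieldFullC K (M' * q * q))) * rm90_j K (M' * q * q) = (b : ↥(modularFunctionFieldFullC K (M' * q * q)))) →
        mc25_MidPrinAt (v2g64_s K M' q) (pk15_chart R ({(pk85_h2 K (M' * q * q) (h2.trans ((dvd_mul_right M' q).trans (dvd_mul_right (M' * q) q))))⁻¹} : Set ↥(modularFunctionFieldFullC K (M' * q * q)))) V₂.toSubring n) := by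
  obtain ⟨-, hC, -⟩ := fb85_frameV3_level2 M' q hq hM' hπ hqR hMu h2 V₂ hV₂ hπ₂ hs
  obtain ⟨-, h12W, hsat1, hsat2, -⟩ := hC
  have hsub1 : ({pk85_h2 K (M' * q * q) (h2.trans ((dvd_mul_right M' q).trans (dvd_mul_right (M' * q) q)))} : Set ↥(modularFunctionFieldFullC K (M' * q * q))) ⊆
      {pk85_h2 K (M' * q * q) (h2.trans ((dvd_mul_right M' q).trans (dvd_mul_right (M' * q) q))), (pk85_h2 K (M' * q * q) (h2.trans ((dvd_mul_right M' q).trans (dvd_mul_right (M' * q) q))))⁻¹} := by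
    intro x hx
    rw [Set.mem_singleton_iff.mp hx]
    exact Set.mem_insert _ _
  have hsub2 : ({(pk85_h2 K (M' * q * q) (h2.trans ((dvd_mul_right M' q).trans (dvd_mul_right (M' * q) q))))⁻¹} : Set ↥(modularFunctionFieldFullC K (M' * q * q))) ⊆
      {pk85_h2 K (M' * q * q) (h2.trans ((dvd_mul_right M' q).trans (dvd_mul_right (M' * q) q))), (pk85_h2 K (M' * q * q) (h2.trans ((dvd_mul_right M' q).trans (dvd_mul_right (M' * q) q))))⁻¹} := by
    intro x hx
    rw [Set.mem_singleton_iff.mp hx]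
    exact Set.mem_insert_of_mem _ rfl
  have hrel := pk85_h2_rel K (M' * q * q) (h2.trans ((dvd_mul_right M' q).trans (dvd_mul_right (M' * q) q)))
  obtain ⟨hv1, hv1'⟩ := c2j88_h2_mem_Vinf (R := R) (K := K) (M' * q * q) hπ
    (h2.trans ((dvd_mul_right M' q).trans (dvd_mul_right (M' * q) q)))
  obtain ⟨hv2, hv2'⟩ := c2j88_h2_mem_V2 (R := R) (K := K) M' q hπ h2 V₂ hV₂
  have hh0 : pk85_h2 K (M' * q * q) (h2.trans ((dvd_mul_right M' q).trans (dvd_mul_right (M' * q) q))) ≠ 0 :=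
    fun h0 => pk85_h2_transcendental K (M' * q * q) _ (by rw [h0]; exact isAlgebraic_zero)
  have hrel' : rm90_j K (M' * q * q) * (pk85_h2 K (M' * q * q) (h2.trans ((dvd_mul_right M' q).trans (dvd_mul_right (M' * q) q))))⁻¹ = (1 + 256 * (pk85_h2 K (M' * q * q) (h2.trans ((dvd_mul_right M' q).trans (dvd_mul_right (M' * q) q))))⁻¹) ^ 3 := by
    have hj : rm90_j K (M' * q * q) = ((pk85_h2 K (M' * q * q) (h2.trans ((dvd_mul_right M' q).trans (dvd_mul_right (M' * q) q))) + 256) ^ 3) / pk85_h2 K (M' * q * q) (h2.trans ((dvd_mul_right M' q).trans (dvd_mul_right (M' * q) q))) ^ 2 := by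
      rw [eq_div_iff (pow_ne_zero 2 hh0)]
      exact hrel
    rw [hj]
    field_simp
  have hHmem : pk85_h2 K (M' * q * q) (h2.trans ((dvd_mul_right M' q).trans (dvd_mul_right (M' * q) q))) ∈ (pk15_chart R ({pk85_h2 K (M' * q * q) (h2.trans ((dvd_mul_right M' q).trans (dvd_mul_right (M' * q) q)))} : Set ↥(modularFunctionFieldFullC K (M' * q * q)))) := pk15_subset_chart _ (Set.mem_singleton _)
  have hHmem' : (pk85_h2 K (M' * q * q) (h2.trans ((dvd_mul_right M' q).trans (dvd_mul_right (M' * q) q))))⁻¹ ∈ (pk15_chart R ({(pk85_h2 K (M' * q * q) (h2.trans ((dvd_mul_right M' q).trans (dvd_mul_right (M' * q) q))))⁻¹} : Set ↥(modularFunctionFieldFullC K (M' * q * q)))) := pk15_subset_chart _ (Set.mem_singleton _)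
  refine ⟨fun n hn hπn hmid h1 h3' hreg => ?_, fun n hn hπn hmid h1 h3' hreg => ?_⟩
  · refine c2z44_chart (K := K) M' q hq hM' hπ hunit (fun _ => h2) h3o V₂ hV₂ hπ₂ hne hs _
      (fun z hz => uv17_chart_intClosed _ z hz)
      (fun x hx => h12W x (pk15_chart_mono hsub1 hx)) hsat1 ⟨_, hHmem⟩ 2 ?_ hv1' hv2'
      (fun n' hn' s' b' hs' hb' => by
        haveI := hn'
        exact c2j88_not_mem2 _ n' (rm90_j K (M' * q * q)) ⟨_, hHmem⟩ hrel h2u s' b' hs' hb')
      n hn hπn hmid h1 h3' hreg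
    have e : pk85_h2 K (M' * q * q) (h2.trans ((dvd_mul_right M' q).trans (dvd_mul_right (M' * q) q))) ^ 2 * rm90_j K (M' * q * q) = (pk85_h2 K (M' * q * q) (h2.trans ((dvd_mul_right M' q).trans (dvd_mul_right (M' * q) q))) + 256) ^ 3 :=
      (mul_comm _ _).trans hrel
    show pk85_h2 K (M' * q * q) (h2.trans ((dvd_mul_right M' q).trans (dvd_mul_right (M' * q) q))) ^ 2 * rm90_j K (M' * q * q) ∈ (pk15_chart R ({pk85_h2 K (M' * q * q) (h2.trans ((dvd_mul_right M' q).trans (dvd_mul_right (M' * q) q)))} : Set ↥(modularFunctionFieldFullC K (M' * q * q))))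
    rw [e]
    exact pow_mem (add_mem hHmem (ofNat_mem _ 256)) 3
  · refine c2z44_chart (K := K) M' q hq hM' hπ hunit (fun _ => h2) h3o V₂ hV₂ hπ₂ hne hs _
      (fun z hz => uv17_chart_intClosed _ z hz)
      (fun x hx => h12W x (pk15_chart_mono hsub2 hx)) hsat2 ⟨_, hHmem'⟩ 1 ?_
      (by rw [inv_inv]; exact hv1) (by rw [inv_inv]; exact hv2)
      (fun n' hn' s' b' hs' hb' => by
        haveI := hn'
        exact c2j88_not_mem2_inv _ n' (rm90_j K (M' * q * q)) ⟨_, hHmem'⟩ hrel' s' b' hs' hb')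
      n hn hπn hmid h1 h3' hreg
    have e : ((pk85_h2 K (M' * q * q) (h2.trans ((dvd_mul_right M' q).trans (dvd_mul_right (M' * q) q))))⁻¹) ^ 1 * rm90_j K (M' * q * q) = (1 + 256 * (pk85_h2 K (M' * q * q) (h2.trans ((dvd_mul_right M' q).trans (dvd_mul_right (M' * q) q))))⁻¹) ^ 3 := by
      rw [pow_one]
      exact (mul_comm _ _).trans hrel'
    show ((pk85_h2 K (M' * q * q) (h2.trans ((dvd_mul_right M' q).trans (dvd_mul_right (M' * q) q))))⁻¹) ^ 1 * rm90_j K (M' * q * q) ∈ (pk15_chart R ({(pk85_h2 K (M' * q * q) (h2.trans ((dvd_mul_right M' q).trans (dvd_mul_right (M' * q) q))))⁻¹} : Set ↥(modularFunctionFieldFullC K (M' * q * q))))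
    rw [e]
    exact pow_mem (add_mem (one_mem _) (mul_mem (ofNat_mem _ 256) hHmem')) 3

include hq hM' in
/-- **Row 600 on both canonical charts of the Hauptmodul of level 3**, `V₂` ANY valuation
subring with the four facts of row B1-V2. -/
theorem c2z44_level3 (hπ : Irreducible ((q : ℕ) : R))
    (hunit : ∀ n : ℕ, Nat.Coprime n q → IsUnit (n : R))
    (hqR : ¬ IsUnit (q : R)) (hMu : IsUnit (M' : R)) (h3 : 3 ∣ M') (h3u : IsUnit (3 : R))
    (h2o : q ≠ 2 → 2 ∣ M')
    (V₂ : ValuationSubring ↥(modularFunctionFieldFullC K (M' * q * q)))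
    (hV₂ : ∀ c ∈ cm85_Vinf (K := K) (M' * q) hπ, al97L_alpha K (M' * q) q c ∈ V₂)
    (hπ₂ : (algebraMap K ↥(modularFunctionFieldFullC K (M' * q * q)) (algebraMap R K ((q : ℕ) : R)))⁻¹ ∉ V₂)
    (hne : cm85_Vinf (K := K) (M' * q * q) hπ ≠ V₂)
    (hs : V₂.valuation (v2g64_s K M' q) ^ (q - 1) =
      V₂.valuation (algebraMap K ↥(modularFunctionFieldFullC K (M' * q * q)) (algebraMap R K ((q : ℕ) : R)))) :
      (∀ n : Ideal ↥(pk15_chart R ({pk85_h3 K (M' * q * q) (h3.trans ((dvd_mul_right M' q).trans (dvd_mul_right (M' * q) q)))} : Set ↥(modularFunctionFieldFullC K (M' * q * q)))), n.IsMaximal → algebraMap R ↥(pk15_chart R ({pk85_h3 K (M' * q * q) (h3.trans ((dvd_mul_right M' q).trans (dvd_mul_right (M' * q) q)))} : Set ↥(modularFunctionFieldFullC K (M' * q * q)))) ((q : ℕ) : R) ∈ n →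
        tl71_OnMid (v2g64_s K M' q) (pk15_chart R ({pk85_h3 K (M' * q * q) (h3.trans ((dvd_mul_right M' q).trans (dvd_mul_right (M' * q) q)))} : Set ↥(modularFunctionFieldFullC K (M' * q * q)))) V₂.toSubring n →
        ¬ sf79_OnBr ((q : ℕ) : R) (pk15_chart R ({pk85_h3 K (M' * q * q) (h3.trans ((dvd_mul_right M' q).trans (dvd_mul_right (M' * q) q)))} : Set ↥(modularFunctionFieldFullC K (M' * q * q)))) (cm85_Vinf (K := K) (M' * q * q) hπ).toSubring n →
        ¬ sf79_OnBr ((q : ℕ) : R) (pk15_chart R ({pk85_h3 K (M' * q * q) (h3.trans ((dvd_mul_right M' q).trans (dvd_mul_right (M' * q) q)))} : Set ↥(modularFunctionFieldFullC K (M' * q * q)))) (nsb86_V3 (K := K) M' q hq hM' hπ).toSubring n →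
        (∃ s' b : ↥(pk15_chart R ({pk85_h3 K (M' * q * q) (h3.trans ((dvd_mul_right M' q).trans (dvd_mul_right (M' * q) q)))} : Set ↥(modularFunctionFieldFullC K (M' * q * q)))), s' ∉ n ∧
          (s' : ↥(modularFunctionFieldFullC K (M' * q * q))) * rm90_j K (M' * q * q) = (b : ↥(modularFunctionFieldFullC K (M' * q * q)))) →
        mc25_MidPrinAt (v2g64_s K M' q) (pk15_chart R ({pk85_h3 K (M' * q * q) (h3.trans ((dvd_mul_right M' q).trans (dvd_mul_right (M' * q) q)))} : Set ↥(modularFunctionFieldFullC K (M' * q * q)))) V₂.toSubring n) ∧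
      (∀ n : Ideal ↥(pk15_chart R ({(pk85_h3 K (M' * q * q) (h3.trans ((dvd_mul_right M' q).trans (dvd_mul_right (M' * q) q))))⁻¹} : Set ↥(modularFunctionFieldFullC K (M' * q * q)))), n.IsMaximal → algebraMap R ↥(pk15_chart R ({(pk85_h3 K (M' * q * q) (h3.trans ((dvd_mul_right M' q).trans (dvd_mul_right (M' * q) q))))⁻¹} : Set ↥(modularFunctionFieldFullC K (M' * q * q)))) ((q : ℕ) : R) ∈ n →
        tl71_OnMid (v2g64_s K M' q) (pk15_chart R ({(pk85_h3 K (M' * q * q) (h3.trans ((dvd_mul_right M' q).trans (dvd_mul_right (M' * q) q))))⁻¹} : Set ↥(modularFunctionFieldFullC K (M' * q * q)))) V₂.toSubring n →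
        ¬ sf79_OnBr ((q : ℕ) : R) (pk15_chart R ({(pk85_h3 K (M' * q * q) (h3.trans ((dvd_mul_right M' q).trans (dvd_mul_right (M' * q) q))))⁻¹} : Set ↥(modularFunctionFieldFullC K (M' * q * q)))) (cm85_Vinf (K := K) (M' * q * q) hπ).toSubring n →
        ¬ sf79_OnBr ((q : ℕ) : R) (pk15_chart R ({(pk85_h3 K (M' * q * q) (h3.trans ((dvd_mul_right M' q).trans (dvd_mul_right (M' * q) q))))⁻¹} : Set ↥(modularFunctionFieldFullC K (M' * q * q)))) (nsb86_V3 (K := K) M' q hq hM' hπ).toSubring n →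
        (∃ s' b : ↥(pk15_chart R ({(pk85_h3 K (M' * q * q) (h3.trans ((dvd_mul_right M' q).trans (dvd_mul_right (M' * q) q))))⁻¹} : Set ↥(modularFunctionFieldFullC K (M' * q * q)))), s' ∉ n ∧
          (s' : ↥(modularFunctionFieldFullC K (M' * q * q))) * rm90_j K (M' * q * q) = (b : ↥(modularFunctionFieldFullC K (M' * q * q)))) →
        mc25_MidPrinAt (v2g64_s K M' q) (pk15_chart R ({(pk85_h3 K (M' * q * q) (h3.trans ((dvd_mul_right M' q).trans (dvd_mul_right (M' * q) q))))⁻¹} : Set ↥(modularFunctionFieldFullC K (M' * q * q)))) V₂.toSubring n) := by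
  obtain ⟨-, hC, -⟩ := fb85_frameV3_level3 M' q hq hM' hπ hqR hMu h3 V₂ hV₂ hπ₂ hs
  obtain ⟨-, h12W, hsat1, hsat2, -⟩ := hC
  have hsub1 : ({pk85_h3 K (M' * q * q) (h3.trans ((dvd_mul_right M' q).trans (dvd_mul_right (M' * q) q)))} : Set ↥(modularFunctionFieldFullC K (M' * q * q))) ⊆
      {pk85_h3 K (M' * q * q) (h3.trans ((dvd_mul_right M' q).trans (dvd_mul_right (M' * q) q))), (pk85_h3 K (M' * q * q) (h3.trans ((dvd_mul_right M' q).trans (dvd_mul_right (M' * q) q))))⁻¹} := by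
    intro x hx
    rw [Set.mem_singleton_iff.mp hx]
    exact Set.mem_insert _ _
  have hsub2 : ({(pk85_h3 K (M' * q * q) (h3.trans ((dvd_mul_right M' q).trans (dvd_mul_right (M' * q) q))))⁻¹} : Set ↥(modularFunctionFieldFullC K (M' * q * q))) ⊆
      {pk85_h3 K (M' * q * q) (h3.trans ((dvd_mul_right M' q).trans (dvd_mul_right (M' * q) q))), (pk85_h3 K (M' * q * q) (h3.trans ((dvd_mul_right M' q).trans (dvd_mul_right (M' * q) q))))⁻¹} := by
    intro x hx
    rw [Set.mem_singleton_iff.mp hx]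
    exact Set.mem_insert_of_mem _ rfl
  have hrel := pk85_h3_rel K (M' * q * q) (h3.trans ((dvd_mul_right M' q).trans (dvd_mul_right (M' * q) q)))
  obtain ⟨hv1, hv1'⟩ := c2j88_h3_mem_Vinf (R := R) (K := K) (M' * q * q) hπ
    (h3.trans ((dvd_mul_right M' q).trans (dvd_mul_right (M' * q) q)))
  obtain ⟨hv2, hv2'⟩ := c2j88_h3_mem_V2 (R := R) (K := K) M' q hπ h3 V₂ hV₂
  have hh0 : pk85_h3 K (M' * q * q) (h3.trans ((dvd_mul_right M' q).trans (dvd_mul_right (M' * q) q))) ≠ 0 :=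
    fun h0 => pk85_h3_transcendental K (M' * q * q) _ (by rw [h0]; exact isAlgebraic_zero)
  have hrel' : rm90_j K (M' * q * q) * (pk85_h3 K (M' * q * q) (h3.trans ((dvd_mul_right M' q).trans (dvd_mul_right (M' * q) q))))⁻¹ = (1 + 27 * (pk85_h3 K (M' * q * q) (h3.trans ((dvd_mul_right M' q).trans (dvd_mul_right (M' * q) q))))⁻¹) * (1 + 243 * (pk85_h3 K (M' * q * q) (h3.trans ((dvd_mul_right M' q).trans (dvd_mul_right (M' * q) q))))⁻¹) ^ 3 := by
    have hj : rm90_j K (M' * q * q) = ((pk85_h3 K (M' * q * q) (h3.trans ((dvd_mul_right M' q).trans (dvd_mul_right (M' * q) q))) + 27) * (pk85_h3 K (M' * q * q) (h3.trans ((dvd_mul_right M' q).trans (dvd_mul_right (M' * q) q))) + 243) ^ 3) / pk85_h3 K (M' * q * q) (h3.trans ((dvd_mul_right M' q).trans (dvd_mul_right (M' * q) q))) ^ 3 := by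
      rw [eq_div_iff (pow_ne_zero 3 hh0)]
      exact hrel
    rw [hj]
    field_simp
  have hHmem : pk85_h3 K (M' * q * q) (h3.trans ((dvd_mul_right M' q).trans (dvd_mul_right (M' * q) q))) ∈ (pk15_chart R ({pk85_h3 K (M' * q * q) (h3.trans ((dvd_mul_right M' q).trans (dvd_mul_right (M' * q) q)))} : Set ↥(modularFunctionFieldFullC K (M' * q * q)))) := pk15_subset_chart _ (Set.mem_singleton _)
  have hHmem' : (pk85_h3 K (M' * q * q) (h3.trans ((dvd_mul_right M' q).trans (dvd_mul_right (M' * q) q))))⁻¹ ∈ (pk15_chart R ({(pk85_h3 K (M' * q * q) (h3.trans ((dvd_mul_right M' q).trans (dvd_mul_right (M' * q) q))))⁻¹} : Set ↥(modularFunctionFieldFullC K (M' * q * q)))) := pk15_subset_chart _ (Set.mem_singleton _)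
  refine ⟨fun n hn hπn hmid h1 h3' hreg => ?_, fun n hn hπn hmid h1 h3' hreg => ?_⟩
  · refine c2z44_chart (K := K) M' q hq hM' hπ hunit h2o (fun _ => h3) V₂ hV₂ hπ₂ hne hs _
      (fun z hz => uv17_chart_intClosed _ z hz)
      (fun x hx => h12W x (pk15_chart_mono hsub1 hx)) hsat1 ⟨_, hHmem⟩ 3 ?_ hv1' hv2'
      (fun n' hn' s' b' hs' hb' => by
        haveI := hn'
        exact c2j88_not_mem3 _ n' (rm90_j K (M' * q * q)) ⟨_, hHmem⟩ hrel h3u s' b' hs' hb')
      n hn hπn hmid h1 h3' hreg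
    have e : pk85_h3 K (M' * q * q) (h3.trans ((dvd_mul_right M' q).trans (dvd_mul_right (M' * q) q))) ^ 3 * rm90_j K (M' * q * q) = (pk85_h3 K (M' * q * q) (h3.trans ((dvd_mul_right M' q).trans (dvd_mul_right (M' * q) q))) + 27) * (pk85_h3 K (M' * q * q) (h3.trans ((dvd_mul_right M' q).trans (dvd_mul_right (M' * q) q))) + 243) ^ 3 :=
      (mul_comm _ _).trans hrel
    show pk85_h3 K (M' * q * q) (h3.trans ((dvd_mul_right M' q).trans (dvd_mul_right (M' * q) q))) ^ 3 * rm90_j K (M' * q * q) ∈ (pk15_chart R ({pk85_h3 K (M' * q * q) (h3.trans ((dvd_mul_right M' q).trans (dvd_mul_right (M' * q) q)))} : Set ↥(modularFunctionFieldFullC K (M' * q * q))))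
    rw [e]
    exact mul_mem (add_mem hHmem (ofNat_mem _ 27)) (pow_mem (add_mem hHmem (ofNat_mem _ 243)) 3)
  · refine c2z44_chart (K := K) M' q hq hM' hπ hunit h2o (fun _ => h3) V₂ hV₂ hπ₂ hne hs _
      (fun z hz => uv17_chart_intClosed _ z hz)
      (fun x hx => h12W x (pk15_chart_mono hsub2 hx)) hsat2 ⟨_, hHmem'⟩ 1 ?_
      (by rw [inv_inv]; exact hv1) (by rw [inv_inv]; exact hv2)
      (fun n' hn' s' b' hs' hb' => by
        haveI := hn'
        exact c2j88_not_mem3_inv _ n' (rm90_j K (M' * q * q)) ⟨_, hHmem'⟩ hrel' s' b' hs' hb')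
      n hn hπn hmid h1 h3' hreg
    have e : ((pk85_h3 K (M' * q * q) (h3.trans ((dvd_mul_right M' q).trans (dvd_mul_right (M' * q) q))))⁻¹) ^ 1 * rm90_j K (M' * q * q) = (1 + 27 * (pk85_h3 K (M' * q * q) (h3.trans ((dvd_mul_right M' q).trans (dvd_mul_right (M' * q) q))))⁻¹) * (1 + 243 * (pk85_h3 K (M' * q * q) (h3.trans ((dvd_mul_right M' q).trans (dvd_mul_right (M' * q) q))))⁻¹) ^ 3 := by
      rw [pow_one]
      exact (mul_comm _ _).trans hrel'
    show ((pk85_h3 K (M' * q * q) (h3.trans ((dvd_mul_right M' q).trans (dvd_mul_right (M' * q) q))))⁻¹) ^ 1 * rm90_j K (M' * q * q) ∈ (pk15_chart R ({(pk85_h3 K (M' * q * q) (h3.trans ((dvd_mul_right M' q).trans (dvd_mul_right (M' * q) q))))⁻¹} : Set ↥(modularFunctionFieldFullC K (M' * q * q))))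
    rw [e]
    exact mul_mem (add_mem (one_mem _) (mul_mem (ofNat_mem _ 27) hHmem')) (pow_mem (add_mem (one_mem _) (mul_mem (ofNat_mem _ 243) hHmem')) 3)

end c2z44

/-- **Row 600 on the canonical frame, Hauptmodul of level 2** (`s36i62j_Reg2` of `MidBind62`). -/
theorem c2z44_Reg2 : s36i62j_Reg2 := by
  intro M' q r _ _ hq hM' hrig h2 R K _ _ _ _ _ _ _ _ _ _ hπ hunit
  haveI : Algebra.IsAlgebraic K Q̄ := fs85_isAlgebraic K
  letI a0 : Algebra R ↥(modularFunctionFieldFullC K M') :=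
    ((algebraMap K ↥(modularFunctionFieldFullC K M')).comp (algebraMap R K)).toAlgebra
  haveI t0 : IsScalarTower R K ↥(modularFunctionFieldFullC K M') :=
    IsScalarTower.of_algebraMap_eq (fun _ => rfl)
  letI a1 : Algebra R ↥(modularFunctionFieldFullC K (M' * q)) :=
    ((algebraMap K ↥(modularFunctionFieldFullC K (M' * q))).comp (algebraMap R K)).toAlgebra
  haveI t1 : IsScalarTower R K ↥(modularFunctionFieldFullC K (M' * q)) :=
    IsScalarTower.of_algebraMap_eq (fun _ => rfl)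
  have hqR : ¬ IsUnit ((q : ℕ) : R) := hπ.not_isUnit
  have hMu : IsUnit ((M' : ℕ) : R) :=
    hunit M' (Nat.Coprime.symm ((Nat.Prime.coprime_iff_not_dvd hq).mpr hM'))
  have hq2 : q ≠ 2 := by
    intro h
    apply hM'
    rw [h]
    exact h2
  have h2u : IsUnit (2 : R) := by
    simpa using hunit 2 ((Nat.coprime_primes Nat.prime_two hq).mpr (Ne.symm hq2))
  have h3o : q ≠ 3 → 3 ∣ M' := by
    intro hq3
    rcases (Nat.Prime.dvd_mul Nat.prime_three).mp (hrig.2.1 hq3) with h | h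
    · exact h
    · exact absurd ((Nat.prime_dvd_prime_iff_eq Nat.prime_three hq).mp h).symm hq3
  exact c2z44_level2 (K := K) M' q hq hM' hπ hunit hqR hMu h2 h2u h3o
    (v2g64_V2 (algebraMap K Q̄) M' q hq hM' hπ (Associated.refl _))
    (v2g64_V2_alpha (algebraMap K Q̄) M' q hq hM' hπ (Associated.refl _))
    (v2g64_V2_pi (algebraMap K Q̄) M' q hq hM' hπ (Associated.refl _))
    (v2g64_V2_ne (algebraMap K Q̄) M' q hq hM' hπ (Associated.refl _))
    (v2g64_V2_val (algebraMap K Q̄) M' q hq hM' hπ (Associated.refl _))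

/-- **Row 600 on the canonical frame, Hauptmodul of level 3** (`s36i62j_Reg3` of `MidBind62`). -/
theorem c2z44_Reg3 : s36i62j_Reg3 := by
  intro M' q r _ _ hq hM' hrig hq2 h3 R K _ _ _ _ _ _ _ _ _ _ hπ hunit
  haveI : Algebra.IsAlgebraic K Q̄ := fs85_isAlgebraic K
  letI a0 : Algebra R ↥(modularFunctionFieldFullC K M') :=
    ((algebraMap K ↥(modularFunctionFieldFullC K M')).comp (algebraMap R K)).toAlgebra
  haveI t0 : IsScalarTower R K ↥(modularFunctionFieldFullC K M') :=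
    IsScalarTower.of_algebraMap_eq (fun _ => rfl)
  letI a1 : Algebra R ↥(modularFunctionFieldFullC K (M' * q)) :=
    ((algebraMap K ↥(modularFunctionFieldFullC K (M' * q))).comp (algebraMap R K)).toAlgebra
  haveI t1 : IsScalarTower R K ↥(modularFunctionFieldFullC K (M' * q)) :=
    IsScalarTower.of_algebraMap_eq (fun _ => rfl)
  have hqR : ¬ IsUnit ((q : ℕ) : R) := hπ.not_isUnit
  have hMu : IsUnit ((M' : ℕ) : R) :=
    hunit M' (Nat.Coprime.symm ((Nat.Prime.coprime_iff_not_dvd hq).mpr hM'))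
  have h3u : IsUnit (3 : R) := by
    have hc : Nat.Coprime 3 q := by
      rw [hq2]
      decide
    simpa using hunit 3 hc
  have h2o : q ≠ 2 → 2 ∣ M' := fun h => absurd hq2 h
  exact c2z44_level3 (K := K) M' q hq hM' hπ hunit hqR hMu h3 h3u h2o
    (v2g64_V2 (algebraMap K Q̄) M' q hq hM' hπ (Associated.refl _))
    (v2g64_V2_alpha (algebraMap K Q̄) M' q hq hM' hπ (Associated.refl _))
    (v2g64_V2_pi (algebraMap K Q̄) M' q hq hM' hπ (Associated.refl _))
    (v2g64_V2_ne (algebraMap K Q̄) M' q hq hM' hπ (Associated.refl _))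
    (v2g64_V2_val (algebraMap K Q̄) M' q hq hM' hπ (Associated.refl _))

end Fermat.Agent.S36
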