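import Fermat.Agent.S36.HP1Final36
import Fermat.Agent.S36.C2Hreg66
import Fermat.Agent.S36.C2JUnit88

/-!
# S36 lab (helper94), row 600 C-C2, closed form on the four canonical charts

`hp1f36_C2` (helper36 = the literal `hreg` of `mc25_hD2_level2/3(_inv)`: `mc25_MidPrinAt` at the
`j`-regular closed points lying on `C₂` only) on the four canonical charts of level `M' q q`, from
`c2r66_core` (helper66) with the chart denominator `t ^ k` of `j`
(`t = H`, `k = 2` resp. `3` on the charts `{H}`; `t = H⁻¹`, `k = 1` on the charts `{H⁻¹}`),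
the frame facts of `fb85_frameV3_level2/3` (helper85) and `c2j88_not_mem2/3(_inv)`,
`c2j88_h2/h3_mem_Vinf`, `c2j88_h2/h3_mem_V2` (helper88).

* `c2c94_chart`   : a chart `B` with its frame facts and a denominator `t ^ k` of `j`;
* `c2c94_level2`, `c2c94_level3` : both charts of `pk85_h2` / `pk85_h3`, `V₂` any valuation
  subring with the four facts of row B1-V2;
* `c2c94_C2c2 : hp1f36_C2c2`, `c2c94_C2c3 : hp1f36_C2c3` (closed statements of HP1Final36);
* `c2c94_HP1c2 : s36i62g_HP1c2`, `c2c94_HP1c3 : s36i62g_HP1c3` (closed statements of HPSplit62).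

All names are prefixed `c2c94_`.
-/

set_option autoImplicit false
set_option linter.unusedSectionVars false
set_option linter.unusedVariables false
set_option linter.style.haveILetI false
set_option linter.style.longLine false

open ModularCurve AlgebraicCurve

namespace Fermat.Agent.S36

open Fermat.Agent.S34 Fermat.Agent.S18 Fermat.Agent.S24 Fermat.Agent.S28 Fermat.Agent.S35
open Fermat.Agent.S36.TripleLoc71

local notation "Q̄" => AlgebraicClosure ℚ

section C2C94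

variable {R K : Type} [CommRing R] [IsDomain R] [IsDiscreteValuationRing R] [Field K]
  [NumberField K] [Algebra R K] [IsFractionRing R K] [Algebra K Q̄] [Algebra.IsAlgebraic K Q̄]
  (M' q : ℕ) [NeZero M'] [NeZero q] (hq : q.Prime) (hM' : ¬ q ∣ M')
  [Algebra R ↥(modularFunctionFieldFullC K M')]
  [IsScalarTower R K ↥(modularFunctionFieldFullC K M')]
  [Algebra R ↥(modularFunctionFieldFullC K (M' * q))]
  [IsScalarTower R K ↥(modularFunctionFieldFullC K (M' * q))]
  [Algebra R ↥(modularFunctionFieldFullC K (M' * q * q))]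
  [IsScalarTower R K ↥(modularFunctionFieldFullC K (M' * q * q))]

include hq hM' in
/-- **Row C-C2 on a chart `B` with its frame facts and a denominator `t ^ k` of `j`.** -/
theorem c2c94_chart (hπq : Irreducible ((q : ℕ) : R))
    (hunit : ∀ n : ℕ, Nat.Coprime n q → IsUnit (n : R))
    (h2o : q ≠ 2 → 2 ∣ M') (h3o : q ≠ 3 → 3 ∣ M')
    (V₂ : ValuationSubring ↥(modularFunctionFieldFullC K (M' * q * q)))
    (hV₂ : ∀ c ∈ cm85_Vinf (K := K) (M' * q) hπq, al97L_alpha K (M' * q) q c ∈ V₂)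
    (hπ₂ : (algebraMap K ↥(modularFunctionFieldFullC K (M' * q * q)) (algebraMap R K ((q : ℕ) : R)))⁻¹ ∉ V₂)
    (hne : cm85_Vinf (K := K) (M' * q * q) hπq ≠ V₂)
    (hs : V₂.valuation (v2g64_s K M' q) ^ (q - 1) =
      V₂.valuation (algebraMap K ↥(modularFunctionFieldFullC K (M' * q * q)) (algebraMap R K ((q : ℕ) : R))))
    (B : Subalgebra R ↥(modularFunctionFieldFullC K (M' * q * q)))
    (hBint : ∀ z : ↥(modularFunctionFieldFullC K (M' * q * q)), IsIntegral B z → z ∈ B)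
    (hB₁ : ∀ x ∈ B, x ∈ cm85_Vinf (K := K) (M' * q * q) hπq)
    (hB₂ : ∀ x ∈ B, x ∈ V₂) (hB₃ : ∀ x ∈ B, x ∈ nsb86_V3 (K := K) M' q hq hM' hπq)
    (hsat : ∀ x ∈ B,
      (algebraMap R ↥(modularFunctionFieldFullC K (M' * q * q)) ((q : ℕ) : R))⁻¹ * x ∈ cm85_Vinf (K := K) (M' * q * q) hπq →
      (algebraMap R ↥(modularFunctionFieldFullC K (M' * q * q)) ((q : ℕ) : R))⁻¹ * x ∈ V₂ →
      (algebraMap R ↥(modularFunctionFieldFullC K (M' * q * q)) ((q : ℕ) : R))⁻¹ * x ∈ nsb86_V3 (K := K) M' q hq hM' hπq →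
      (algebraMap R ↥(modularFunctionFieldFullC K (M' * q * q)) ((q : ℕ) : R))⁻¹ * x ∈ B)
    (t : B) (k : ℕ)
    (htj : (t : ↥(modularFunctionFieldFullC K (M' * q * q))) ^ k * rm90_j K (M' * q * q) ∈ B)
    (ht₁ : (t : ↥(modularFunctionFieldFullC K (M' * q * q)))⁻¹ ∈ cm85_Vinf (K := K) (M' * q * q) hπq)
    (ht₂ : (t : ↥(modularFunctionFieldFullC K (M' * q * q)))⁻¹ ∈ V₂)
    (htn : ∀ (n : Ideal B), n.IsPrime → ∀ (s' b' : B), s' ∉ n →
      (s' : ↥(modularFunctionFieldFullC K (M' * q * q))) * rm90_j K (M' * q * q) = (b' : ↥(modularFunctionFieldFullC K (M' * q * q))) → t ∉ n) :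
    hp1f36_C2 (K := K) M' q hq hM' hπq V₂ B := by
  intro n hn hπn hmid h1 h3 hreg
  obtain ⟨s', b', hs', hb'⟩ := hreg
  haveI hnp : n.IsPrime := hn.isPrime
  have ht : t ∉ n := htn n hnp s' b' hs' hb'
  have hcoe : ((t ^ k : B) : ↥(modularFunctionFieldFullC K (M' * q * q))) = (t : ↥(modularFunctionFieldFullC K (M' * q * q))) ^ k := by push_cast; rfl
  have hqn : ((q : ℕ) : B) ∈ n := by
    have e : algebraMap R ↥B ((q : ℕ) : R) = ((q : ℕ) : B) := map_natCast _ _
    rw [← e]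
    exact hπn
  refine c2r66_core M' q hq hM' hπq hunit h2o h3o V₂ hV₂ hπ₂ hne (v2g64_s K M' q) hs B hBint
    (nsb86_V3 (K := K) M' q hq hM' hπq) hB₁ hB₂ hB₃ hsat n hqn hmid h1 h3 (t ^ k) ?_ ?_ ?_ ?_
  · exact fun h => ht (hnp.mem_of_pow_mem _ h)
  · rw [hcoe]
    exact htj
  · rw [hcoe, ← inv_pow]
    exact pow_mem ht₁ k
  · rw [hcoe, ← inv_pow]
    exact pow_mem ht₂ k

include hq hM' in
/-- **Row C-C2 on both canonical charts, Hauptmodul of level 2** (`V₂` any valuation subring with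
the four facts of row B1-V2). -/
theorem c2c94_level2 (hπq : Irreducible ((q : ℕ) : R))
    (hunit : ∀ n : ℕ, Nat.Coprime n q → IsUnit (n : R))
    (h2 : 2 ∣ M') (h3o : q ≠ 3 → 3 ∣ M')
    (V₂ : ValuationSubring ↥(modularFunctionFieldFullC K (M' * q * q)))
    (hV₂ : ∀ c ∈ cm85_Vinf (K := K) (M' * q) hπq, al97L_alpha K (M' * q) q c ∈ V₂)
    (hπ₂ : (algebraMap K ↥(modularFunctionFieldFullC K (M' * q * q)) (algebraMap R K ((q : ℕ) : R)))⁻¹ ∉ V₂)
    (hne : cm85_Vinf (K := K) (M' * q * q) hπq ≠ V₂)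
    (hs : V₂.valuation (v2g64_s K M' q) ^ (q - 1) =
      V₂.valuation (algebraMap K ↥(modularFunctionFieldFullC K (M' * q * q)) (algebraMap R K ((q : ℕ) : R)))) :
    hp1f36_C2 (K := K) M' q hq hM' hπq V₂ (pk15_chart R ({pk85_h2 K (M' * q * q) (h2.trans ((dvd_mul_right M' q).trans (dvd_mul_right (M' * q) q)))} : Set ↥(modularFunctionFieldFullC K (M' * q * q)))) ∧
    hp1f36_C2 (K := K) M' q hq hM' hπq V₂ (pk15_chart R ({(pk85_h2 K (M' * q * q) (h2.trans ((dvd_mul_right M' q).trans (dvd_mul_right (M' * q) q))))⁻¹} : Set ↥(modularFunctionFieldFullC K (M' * q * q)))) := by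
  have hqR : ¬ IsUnit ((q : ℕ) : R) := hπq.not_isUnit
  have hMu : IsUnit (M' : R) := hunit M' ((Nat.Prime.coprime_iff_not_dvd hq).mpr hM').symm
  have hqp : q ≠ 2 := by
    intro h
    apply hM'
    rw [h]
    exact h2
  have hku : IsUnit (2 : R) := by
    have := hunit 2 ((Nat.coprime_primes Nat.prime_two hq).mpr (Ne.symm hqp))
    simpa using this
  have h2o : q ≠ 2 → 2 ∣ M' := fun _ => h2
  obtain ⟨-, hC, -⟩ := fb85_frameV3_level2 M' q hq hM' hπq hqR hMu h2 V₂ hV₂ hπ₂ hs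
  obtain ⟨-, h12W, hsat1, hsat2, -⟩ := hC
  have hsub1 : ({pk85_h2 K (M' * q * q) (h2.trans ((dvd_mul_right M' q).trans (dvd_mul_right (M' * q) q)))} : Set ↥(modularFunctionFieldFullC K (M' * q * q))) ⊆
      {pk85_h2 K (M' * q * q) (h2.trans ((dvd_mul_right M' q).trans (dvd_mul_right (M' * q) q))), (pk85_h2 K (M' * q * q) (h2.trans ((dvd_mul_right M' q).trans (dvd_mul_right (M' * q) q))))⁻¹} := by
    intro x hx
    rw [Set.mem_singleton_iff.mp hx]
    exact Set.mem_insert _ _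
  have hsub2 : ({(pk85_h2 K (M' * q * q) (h2.trans ((dvd_mul_right M' q).trans (dvd_mul_right (M' * q) q))))⁻¹} : Set ↥(modularFunctionFieldFullC K (M' * q * q))) ⊆
      {pk85_h2 K (M' * q * q) (h2.trans ((dvd_mul_right M' q).trans (dvd_mul_right (M' * q) q))), (pk85_h2 K (M' * q * q) (h2.trans ((dvd_mul_right M' q).trans (dvd_mul_right (M' * q) q))))⁻¹} := by
    intro x hx
    rw [Set.mem_singleton_iff.mp hx]
    exact Set.mem_insert_of_mem _ rfl
  have hrel := pk85_h2_rel K (M' * q * q) (h2.trans ((dvd_mul_right M' q).trans (dvd_mul_right (M' * q) q)))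
  obtain ⟨hv1, hv1'⟩ := c2j88_h2_mem_Vinf (R := R) (K := K) (M' * q * q) hπq
    (h2.trans ((dvd_mul_right M' q).trans (dvd_mul_right (M' * q) q)))
  obtain ⟨hv2, hv2'⟩ := c2j88_h2_mem_V2 (R := R) (K := K) M' q hπq h2 V₂ hV₂
  have hh0 : pk85_h2 K (M' * q * q) (h2.trans ((dvd_mul_right M' q).trans (dvd_mul_right (M' * q) q))) ≠ 0 :=
    fun h0 => pk85_h2_transcendental K (M' * q * q) _ (by rw [h0]; exact isAlgebraic_zero)
  have hrel' : rm90_j K (M' * q * q) * (pk85_h2 K (M' * q * q) (h2.trans ((dvd_mul_right M' q).trans (dvd_mul_right (M' * q) q))))⁻¹ = (1 + 256 * (pk85_h2 K (M' * q * q) (h2.trans ((dvd_mul_right M' q).trans (dvd_mul_right (M' * q) q))))⁻¹) ^ 3 := by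
    have hj : rm90_j K (M' * q * q) = (pk85_h2 K (M' * q * q) (h2.trans ((dvd_mul_right M' q).trans (dvd_mul_right (M' * q) q))) + 256) ^ 3 / pk85_h2 K (M' * q * q) (h2.trans ((dvd_mul_right M' q).trans (dvd_mul_right (M' * q) q))) ^ 2 := by
      rw [eq_div_iff (pow_ne_zero 2 hh0)]
      exact hrel
    rw [hj]
    field_simp
  have hHmem : pk85_h2 K (M' * q * q) (h2.trans ((dvd_mul_right M' q).trans (dvd_mul_right (M' * q) q))) ∈ (pk15_chart R ({pk85_h2 K (M' * q * q) (h2.trans ((dvd_mul_right M' q).trans (dvd_mul_right (M' * q) q)))} : Set ↥(modularFunctionFieldFullC K (M' * q * q)))) := pk15_subset_chart _ (Set.mem_singleton _)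
  have hHinv : (pk85_h2 K (M' * q * q) (h2.trans ((dvd_mul_right M' q).trans (dvd_mul_right (M' * q) q))))⁻¹ ∈ (pk15_chart R ({(pk85_h2 K (M' * q * q) (h2.trans ((dvd_mul_right M' q).trans (dvd_mul_right (M' * q) q))))⁻¹} : Set ↥(modularFunctionFieldFullC K (M' * q * q)))) := pk15_subset_chart _ (Set.mem_singleton _)
  constructor
  · refine c2c94_chart (K := K) M' q hq hM' hπq hunit h2o h3o V₂ hV₂ hπ₂ hne hs _
      (fun z hz => uv17_chart_intClosed _ z hz)
      (fun x hx => (h12W x (pk15_chart_mono hsub1 hx)).1.1)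
      (fun x hx => (h12W x (pk15_chart_mono hsub1 hx)).1.2)
      (fun x hx => (h12W x (pk15_chart_mono hsub1 hx)).2)
      (fun x hx h1 h2 h3 => hsat1 x hx ⟨⟨h1, h2⟩, h3⟩)
      ⟨_, hHmem⟩ 2 ?_ hv1' hv2' ?_
    · have e : pk85_h2 K (M' * q * q) (h2.trans ((dvd_mul_right M' q).trans (dvd_mul_right (M' * q) q))) ^ 2 * rm90_j K (M' * q * q) = (pk85_h2 K (M' * q * q) (h2.trans ((dvd_mul_right M' q).trans (dvd_mul_right (M' * q) q))) + 256) ^ 3 :=
        (mul_comm _ _).trans hrel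
      show pk85_h2 K (M' * q * q) (h2.trans ((dvd_mul_right M' q).trans (dvd_mul_right (M' * q) q))) ^ 2 * rm90_j K (M' * q * q) ∈ (pk15_chart R ({pk85_h2 K (M' * q * q) (h2.trans ((dvd_mul_right M' q).trans (dvd_mul_right (M' * q) q)))} : Set ↥(modularFunctionFieldFullC K (M' * q * q))))
      rw [e]
      exact pow_mem (add_mem hHmem (ofNat_mem _ 256)) 3
    · intro n hn s' b' hs' hb'
      haveI := hn
      exact c2j88_not_mem2 _ n (rm90_j K (M' * q * q)) ⟨_, hHmem⟩ hrel hku s' b' hs' hb'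
  · refine c2c94_chart (K := K) M' q hq hM' hπq hunit h2o h3o V₂ hV₂ hπ₂ hne hs _
      (fun z hz => uv17_chart_intClosed _ z hz)
      (fun x hx => (h12W x (pk15_chart_mono hsub2 hx)).1.1)
      (fun x hx => (h12W x (pk15_chart_mono hsub2 hx)).1.2)
      (fun x hx => (h12W x (pk15_chart_mono hsub2 hx)).2)
      (fun x hx h1 h2 h3 => hsat2 x hx ⟨⟨h1, h2⟩, h3⟩)
      ⟨_, hHinv⟩ 1 ?_ (by rw [inv_inv]; exact hv1) (by rw [inv_inv]; exact hv2) ?_
    · have e : ((pk85_h2 K (M' * q * q) (h2.trans ((dvd_mul_right M' q).trans (dvd_mul_right (M' * q) q))))⁻¹) ^ 1 * rm90_j K (M' * q * q) = (1 + 256 * (pk85_h2 K (M' * q * q) (h2.trans ((dvd_mul_right M' q).trans (dvd_mul_right (M' * q) q))))⁻¹) ^ 3 := by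
        rw [pow_one]
        exact (mul_comm _ _).trans hrel'
      show ((pk85_h2 K (M' * q * q) (h2.trans ((dvd_mul_right M' q).trans (dvd_mul_right (M' * q) q))))⁻¹) ^ 1 * rm90_j K (M' * q * q) ∈ (pk15_chart R ({(pk85_h2 K (M' * q * q) (h2.trans ((dvd_mul_right M' q).trans (dvd_mul_right (M' * q) q))))⁻¹} : Set ↥(modularFunctionFieldFullC K (M' * q * q))))
      rw [e]
      exact pow_mem (add_mem (one_mem _) (mul_mem (ofNat_mem _ 256) hHinv)) 3
    · intro n hn s' b' hs' hb'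
      haveI := hn
      exact c2j88_not_mem2_inv _ n (rm90_j K (M' * q * q)) ⟨_, hHinv⟩ hrel' s' b' hs' hb'

include hq hM' in
/-- **Row C-C2 on both canonical charts, Hauptmodul of level 3** (`V₂` any valuation subring with
the four facts of row B1-V2). -/
theorem c2c94_level3 (hπq : Irreducible ((q : ℕ) : R))
    (hunit : ∀ n : ℕ, Nat.Coprime n q → IsUnit (n : R))
    (h3 : 3 ∣ M') (h2o : q ≠ 2 → 2 ∣ M')
    (V₂ : ValuationSubring ↥(modularFunctionFieldFullC K (M' * q * q)))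
    (hV₂ : ∀ c ∈ cm85_Vinf (K := K) (M' * q) hπq, al97L_alpha K (M' * q) q c ∈ V₂)
    (hπ₂ : (algebraMap K ↥(modularFunctionFieldFullC K (M' * q * q)) (algebraMap R K ((q : ℕ) : R)))⁻¹ ∉ V₂)
    (hne : cm85_Vinf (K := K) (M' * q * q) hπq ≠ V₂)
    (hs : V₂.valuation (v2g64_s K M' q) ^ (q - 1) =
      V₂.valuation (algebraMap K ↥(modularFunctionFieldFullC K (M' * q * q)) (algebraMap R K ((q : ℕ) : R)))) :
    hp1f36_C2 (K := K) M' q hq hM' hπq V₂ (pk15_chart R ({pk85_h3 K (M' * q * q) (h3.trans ((dvd_mul_right M' q).trans (dvd_mul_right (M' * q) q)))} : Set ↥(modularFunctionFieldFullC K (M' * q * q)))) ∧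
    hp1f36_C2 (K := K) M' q hq hM' hπq V₂ (pk15_chart R ({(pk85_h3 K (M' * q * q) (h3.trans ((dvd_mul_right M' q).trans (dvd_mul_right (M' * q) q))))⁻¹} : Set ↥(modularFunctionFieldFullC K (M' * q * q)))) := by
  have hqR : ¬ IsUnit ((q : ℕ) : R) := hπq.not_isUnit
  have hMu : IsUnit (M' : R) := hunit M' ((Nat.Prime.coprime_iff_not_dvd hq).mpr hM').symm
  have hqp : q ≠ 3 := by
    intro h
    apply hM'
    rw [h]
    exact h3
  have hku : IsUnit (3 : R) := by
    have := hunit 3 ((Nat.coprime_primes Nat.prime_three hq).mpr (Ne.symm hqp))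
    simpa using this
  have h3o : q ≠ 3 → 3 ∣ M' := fun _ => h3
  obtain ⟨-, hC, -⟩ := fb85_frameV3_level3 M' q hq hM' hπq hqR hMu h3 V₂ hV₂ hπ₂ hs
  obtain ⟨-, h12W, hsat1, hsat2, -⟩ := hC
  have hsub1 : ({pk85_h3 K (M' * q * q) (h3.trans ((dvd_mul_right M' q).trans (dvd_mul_right (M' * q) q)))} : Set ↥(modularFunctionFieldFullC K (M' * q * q))) ⊆
      {pk85_h3 K (M' * q * q) (h3.trans ((dvd_mul_right M' q).trans (dvd_mul_right (M' * q) q))), (pk85_h3 K (M' * q * q) (h3.trans ((dvd_mul_right M' q).trans (dvd_mul_right (M' * q) q))))⁻¹} := by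
    intro x hx
    rw [Set.mem_singleton_iff.mp hx]
    exact Set.mem_insert _ _
  have hsub2 : ({(pk85_h3 K (M' * q * q) (h3.trans ((dvd_mul_right M' q).trans (dvd_mul_right (M' * q) q))))⁻¹} : Set ↥(modularFunctionFieldFullC K (M' * q * q))) ⊆
      {pk85_h3 K (M' * q * q) (h3.trans ((dvd_mul_right M' q).trans (dvd_mul_right (M' * q) q))), (pk85_h3 K (M' * q * q) (h3.trans ((dvd_mul_right M' q).trans (dvd_mul_right (M' * q) q))))⁻¹} := by
    intro x hx
    rw [Set.mem_singleton_iff.mp hx]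
    exact Set.mem_insert_of_mem _ rfl
  have hrel := pk85_h3_rel K (M' * q * q) (h3.trans ((dvd_mul_right M' q).trans (dvd_mul_right (M' * q) q)))
  obtain ⟨hv1, hv1'⟩ := c2j88_h3_mem_Vinf (R := R) (K := K) (M' * q * q) hπq
    (h3.trans ((dvd_mul_right M' q).trans (dvd_mul_right (M' * q) q)))
  obtain ⟨hv2, hv2'⟩ := c2j88_h3_mem_V2 (R := R) (K := K) M' q hπq h3 V₂ hV₂
  have hh0 : pk85_h3 K (M' * q * q) (h3.trans ((dvd_mul_right M' q).trans (dvd_mul_right (M' * q) q))) ≠ 0 :=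
    fun h0 => pk85_h3_transcendental K (M' * q * q) _ (by rw [h0]; exact isAlgebraic_zero)
  have hrel' : rm90_j K (M' * q * q) * (pk85_h3 K (M' * q * q) (h3.trans ((dvd_mul_right M' q).trans (dvd_mul_right (M' * q) q))))⁻¹ = (1 + 27 * (pk85_h3 K (M' * q * q) (h3.trans ((dvd_mul_right M' q).trans (dvd_mul_right (M' * q) q))))⁻¹) * (1 + 243 * (pk85_h3 K (M' * q * q) (h3.trans ((dvd_mul_right M' q).trans (dvd_mul_right (M' * q) q))))⁻¹) ^ 3 := by
    have hj : rm90_j K (M' * q * q) = (pk85_h3 K (M' * q * q) (h3.trans ((dvd_mul_right M' q).trans (dvd_mul_right (M' * q) q))) + 27) * (pk85_h3 K (M' * q * q) (h3.trans ((dvd_mul_right M' q).trans (dvd_mul_right (M' * q) q))) + 243) ^ 3 / pk85_h3 K (M' * q * q) (h3.trans ((dvd_mul_right M' q).trans (dvd_mul_right (M' * q) q))) ^ 3 := by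
      rw [eq_div_iff (pow_ne_zero 3 hh0)]
      exact hrel
    rw [hj]
    field_simp
  have hHmem : pk85_h3 K (M' * q * q) (h3.trans ((dvd_mul_right M' q).trans (dvd_mul_right (M' * q) q))) ∈ (pk15_chart R ({pk85_h3 K (M' * q * q) (h3.trans ((dvd_mul_right M' q).trans (dvd_mul_right (M' * q) q)))} : Set ↥(modularFunctionFieldFullC K (M' * q * q)))) := pk15_subset_chart _ (Set.mem_singleton _)
  have hHinv : (pk85_h3 K (M' * q * q) (h3.trans ((dvd_mul_right M' q).trans (dvd_mul_right (M' * q) q))))⁻¹ ∈ (pk15_chart R ({(pk85_h3 K (M' * q * q) (h3.trans ((dvd_mul_right M' q).trans (dvd_mul_right (M' * q) q))))⁻¹} : Set ↥(modularFunctionFieldFullC K (M' * q * q)))) := pk15_subset_chart _ (Set.mem_singleton _)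
  constructor
  · refine c2c94_chart (K := K) M' q hq hM' hπq hunit h2o h3o V₂ hV₂ hπ₂ hne hs _
      (fun z hz => uv17_chart_intClosed _ z hz)
      (fun x hx => (h12W x (pk15_chart_mono hsub1 hx)).1.1)
      (fun x hx => (h12W x (pk15_chart_mono hsub1 hx)).1.2)
      (fun x hx => (h12W x (pk15_chart_mono hsub1 hx)).2)
      (fun x hx h1 h2 h3 => hsat1 x hx ⟨⟨h1, h2⟩, h3⟩)
      ⟨_, hHmem⟩ 3 ?_ hv1' hv2' ?_
    · have e : pk85_h3 K (M' * q * q) (h3.trans ((dvd_mul_right M' q).trans (dvd_mul_right (M' * q) q))) ^ 3 * rm90_j K (M' * q * q) = (pk85_h3 K (M' * q * q) (h3.trans ((dvd_mul_right M' q).trans (dvd_mul_right (M' * q) q))) + 27) * (pk85_h3 K (M' * q * q) (h3.trans ((dvd_mul_right M' q).trans (dvd_mul_right (M' * q) q))) + 243) ^ 3 :=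
        (mul_comm _ _).trans hrel
      show pk85_h3 K (M' * q * q) (h3.trans ((dvd_mul_right M' q).trans (dvd_mul_right (M' * q) q))) ^ 3 * rm90_j K (M' * q * q) ∈ (pk15_chart R ({pk85_h3 K (M' * q * q) (h3.trans ((dvd_mul_right M' q).trans (dvd_mul_right (M' * q) q)))} : Set ↥(modularFunctionFieldFullC K (M' * q * q))))
      rw [e]
      exact mul_mem (add_mem hHmem (ofNat_mem _ 27)) (pow_mem (add_mem hHmem (ofNat_mem _ 243)) 3)
    · intro n hn s' b' hs' hb'
      haveI := hn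
      exact c2j88_not_mem3 _ n (rm90_j K (M' * q * q)) ⟨_, hHmem⟩ hrel hku s' b' hs' hb'
  · refine c2c94_chart (K := K) M' q hq hM' hπq hunit h2o h3o V₂ hV₂ hπ₂ hne hs _
      (fun z hz => uv17_chart_intClosed _ z hz)
      (fun x hx => (h12W x (pk15_chart_mono hsub2 hx)).1.1)
      (fun x hx => (h12W x (pk15_chart_mono hsub2 hx)).1.2)
      (fun x hx => (h12W x (pk15_chart_mono hsub2 hx)).2)
      (fun x hx h1 h2 h3 => hsat2 x hx ⟨⟨h1, h2⟩, h3⟩)
      ⟨_, hHinv⟩ 1 ?_ (by rw [inv_inv]; exact hv1) (by rw [inv_inv]; exact hv2) ?_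
    · have e : ((pk85_h3 K (M' * q * q) (h3.trans ((dvd_mul_right M' q).trans (dvd_mul_right (M' * q) q))))⁻¹) ^ 1 * rm90_j K (M' * q * q) = (1 + 27 * (pk85_h3 K (M' * q * q) (h3.trans ((dvd_mul_right M' q).trans (dvd_mul_right (M' * q) q))))⁻¹) * (1 + 243 * (pk85_h3 K (M' * q * q) (h3.trans ((dvd_mul_right M' q).trans (dvd_mul_right (M' * q) q))))⁻¹) ^ 3 := by
        rw [pow_one]
        exact (mul_comm _ _).trans hrel'
      show ((pk85_h3 K (M' * q * q) (h3.trans ((dvd_mul_right M' q).trans (dvd_mul_right (M' * q) q))))⁻¹) ^ 1 * rm90_j K (M' * q * q) ∈ (pk15_chart R ({(pk85_h3 K (M' * q * q) (h3.trans ((dvd_mul_right M' q).trans (dvd_mul_right (M' * q) q))))⁻¹} : Set ↥(modularFunctionFieldFullC K (M' * q * q))))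
      rw [e]
      exact mul_mem (add_mem (one_mem _) (mul_mem (ofNat_mem _ 27) hHinv)) (pow_mem (add_mem (one_mem _) (mul_mem (ofNat_mem _ 243) hHinv)) 3)
    · intro n hn s' b' hs' hb'
      haveI := hn
      exact c2j88_not_mem3_inv _ n (rm90_j K (M' * q * q)) ⟨_, hHinv⟩ hrel' s' b' hs' hb'

end C2C94

section C2C94Closed

/-- **Row C-C2, closed form, Hauptmodul of level 2** (`hp1f36_C2c2` of HP1Final36). -/
theorem c2c94_C2c2 : hp1f36_C2c2 := by
  intro M' q r _ _ hq hM' hrig h2 R K _ _ _ _ _ _ _ _ _ _ hπ hunit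
  haveI : Algebra.IsAlgebraic K Q̄ := cx_isAlgebraic_closure K
  letI a1 : Algebra R ↥(modularFunctionFieldFullC K M') :=
    ((algebraMap K ↥(modularFunctionFieldFullC K M')).comp (algebraMap R K)).toAlgebra
  haveI : IsScalarTower R K ↥(modularFunctionFieldFullC K M') :=
    IsScalarTower.of_algebraMap_eq (fun _ => rfl)
  letI a2 : Algebra R ↥(modularFunctionFieldFullC K (M' * q)) :=
    ((algebraMap K ↥(modularFunctionFieldFullC K (M' * q))).comp (algebraMap R K)).toAlgebra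
  haveI : IsScalarTower R K ↥(modularFunctionFieldFullC K (M' * q)) :=
    IsScalarTower.of_algebraMap_eq (fun _ => rfl)
  have h3o : q ≠ 3 → 3 ∣ M' := by
    intro hq3
    rcases (Nat.Prime.dvd_mul Nat.prime_three).mp (hrig.2.1 hq3) with h | h
    · exact h
    · exact absurd ((Nat.prime_dvd_prime_iff_eq Nat.prime_three hq).mp h).symm hq3
  exact c2c94_level2 (K := K) M' q hq hM' hπ hunit h2 h3o
    (v2g64_V2 (algebraMap K Q̄) M' q hq hM' hπ (Associated.refl _))
    (v2g64_V2_alpha (algebraMap K Q̄) M' q hq hM' hπ (Associated.refl _))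
    (v2g64_V2_pi (algebraMap K Q̄) M' q hq hM' hπ (Associated.refl _))
    (v2g64_V2_ne (algebraMap K Q̄) M' q hq hM' hπ (Associated.refl _))
    (v2g64_V2_val (algebraMap K Q̄) M' q hq hM' hπ (Associated.refl _))

/-- **Row C-C2, closed form, Hauptmodul of level 3** (`hp1f36_C2c3` of HP1Final36). -/
theorem c2c94_C2c3 : hp1f36_C2c3 := by
  intro M' q r _ _ hq hM' hrig hq2 h3 R K _ _ _ _ _ _ _ _ _ _ hπ hunit
  haveI : Algebra.IsAlgebraic K Q̄ := cx_isAlgebraic_closure K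
  letI a1 : Algebra R ↥(modularFunctionFieldFullC K M') :=
    ((algebraMap K ↥(modularFunctionFieldFullC K M')).comp (algebraMap R K)).toAlgebra
  haveI : IsScalarTower R K ↥(modularFunctionFieldFullC K M') :=
    IsScalarTower.of_algebraMap_eq (fun _ => rfl)
  letI a2 : Algebra R ↥(modularFunctionFieldFullC K (M' * q)) :=
    ((algebraMap K ↥(modularFunctionFieldFullC K (M' * q))).comp (algebraMap R K)).toAlgebra
  haveI : IsScalarTower R K ↥(modularFunctionFieldFullC K (M' * q)) :=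
    IsScalarTower.of_algebraMap_eq (fun _ => rfl)
  have h2o : q ≠ 2 → 2 ∣ M' := fun h => absurd hq2 h
  exact c2c94_level3 (K := K) M' q hq hM' hπ hunit h3 h2o
    (v2g64_V2 (algebraMap K Q̄) M' q hq hM' hπ (Associated.refl _))
    (v2g64_V2_alpha (algebraMap K Q̄) M' q hq hM' hπ (Associated.refl _))
    (v2g64_V2_pi (algebraMap K Q̄) M' q hq hM' hπ (Associated.refl _))
    (v2g64_V2_ne (algebraMap K Q̄) M' q hq hM' hπ (Associated.refl _))
    (v2g64_V2_val (algebraMap K Q̄) M' q hq hM' hπ (Associated.refl _))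

/-- **`s36i62g_HP1c2` (HPSplit62), closed.** -/
theorem c2c94_HP1c2 : s36i62g_HP1c2 := hp1f36_HP1c2 c2c94_C2c2

/-- **`s36i62g_HP1c3` (HPSplit62), closed.** -/
theorem c2c94_HP1c3 : s36i62g_HP1c3 := hp1f36_HP1c3 c2c94_C2c3

end C2C94Closed

end Fermat.Agent.S36
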