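import Mathlib
import Fermat.Agent.S36.C2Alg24

/-!
S36 lab, row C-C2 (helper11): the middle component `C₂` at its one-branch closed points,
`k`-th power form, and the cyclotomic constant.

* `c2p11_const` : in a domain, `ζ^q = 1`, `ζ ≠ 1`, `q` prime:
  `(ζ - 1)^(q-1) = -(q * (1 + (ζ - 1) * r))`  (so `(ζ-1)^(q-1)/q ≡ -1` modulo `ζ - 1`).
* `c2p11_mid_dvd` : chart form, the `k`-th power variant of `c2b24_mid_dvd` (helper24).
  `B ⊆ V₁ ⊓ V₂ ⊓ V₃` saturated; `n` a prime of `B` with `C₂` through `n` and `C₁`, `C₃` not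
  through `n`; `ϑ = s^(q-1)/q ∈ V₂`, `ϑ^k * g ≡ 1` modulo `s V₂` for a function `g` WITHOUT POLE
  at `n` (`g * t_g = a_g`, `t_g ∉ n`), `k ≠ 0`.  Then `s^(q-1)` divides `π` at `n`:
  `∃ c t : B, t ∉ n ∧ s^(q-1) * c = t * π`  (the hypothesis of `tl71_mid_principal`).
  Application: `s = x(q²τ) - x(τ)` for ANY coordinate `x` of the good level at the point under
  `n`, `k = 6`, `g = G_x^(q-1) * U`, `G_x = Δ/(θx)^6`.

Names are prefixed `c2p11_`.  Mathlib + `C2Alg24` only.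
-/

set_option autoImplicit false

namespace Fermat.Agent.S36

/-- The cyclotomic constant: `(ζ - 1)^(q-1) = -(q * (1 + (ζ - 1) * r))`. -/
theorem c2p11_const {A : Type*} [CommRing A] [IsDomain A] {q : ℕ} (hq : q.Prime) (ζ : A)
    (hζq : ζ ^ q = 1) (hζ1 : ζ ≠ 1) :
    ∃ r : A, (ζ - 1) ^ (q - 1) = -((q : A) * (1 + (ζ - 1) * r)) := by
  obtain ⟨r, hr⟩ := c2a24_binom hq (1 : A) (ζ - 1)
  have h1 : (1 : A) + (ζ - 1) = ζ := by ring
  rw [h1, hζq, one_pow, one_pow] at hr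
  have hl : ζ - 1 ≠ 0 := sub_ne_zero.mpr hζ1
  refine ⟨r, ?_⟩
  apply mul_left_cancel₀ hl
  have hpow : (ζ - 1) * (ζ - 1) ^ (q - 1) = (ζ - 1) ^ q := by
    rw [← pow_succ']
    congr 1
    have := hq.pos
    omega
  rw [hpow]
  linear_combination -hr

/-- Chart form, `k`-th power variant of `c2b24_mid_dvd`.  `B ⊆ V₁ ⊓ V₂ ⊓ V₃` saturated; `n` a
prime of `B` with `C₂` through `n` (`hp2n`) and `C₁`, `C₃` not through `n` (`a ∉ n`,
`π⁻¹ a ∈ V₁ ⊓ V₃`); `ϑ = s^(q-1)/q ∈ V₂`, `ϑ^k * g ≡ 1` modulo `s V₂`, `k ≠ 0`, and `g` without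
pole at `n` (`g * t_g = a_g`, `t_g ∉ n`).  Then `s^(q-1)` divides `π` at `n`. -/
theorem c2p11_mid_dvd {R F : Type*} [CommRing R] [Field F] [Algebra R F]
    (π u u' : R) (huu' : u * u' = 1) (q : ℕ) (hqπ : (q : R) = u * π)
    (B : Subalgebra R F) (V₁ V₂ V₃ : Subring F)
    (hB₁ : ∀ x ∈ B, x ∈ V₁) (hB₂ : ∀ x ∈ B, x ∈ V₂) (hB₃ : ∀ x ∈ B, x ∈ V₃)
    (hsat : ∀ x ∈ B, (algebraMap R F π)⁻¹ * x ∈ V₁ → (algebraMap R F π)⁻¹ * x ∈ V₂ →
      (algebraMap R F π)⁻¹ * x ∈ V₃ → (algebraMap R F π)⁻¹ * x ∈ B)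
    (hπ0 : algebraMap R F π ≠ 0)
    (n : Ideal B) [hn : n.IsPrime]
    (s : B) (ϑ g : F) (k : ℕ) (hk : k ≠ 0)
    (hϑq : (q : F) * ϑ = (s : F) ^ (q - 1)) (hϑ₂ : ϑ ∈ V₂)
    (hcong : (ϑ ^ k * g - 1) * (s : F)⁻¹ ∈ V₂)
    (hp2n : ∀ x : B, (x : F) * (s : F)⁻¹ ∈ V₂ → x ∈ n)
    (a : B) (ha : a ∉ n) (ha₁ : (algebraMap R F π)⁻¹ * (a : F) ∈ V₁)
    (ha₃ : (algebraMap R F π)⁻¹ * (a : F) ∈ V₃)
    (ag tg : B) (htg : tg ∉ n) (hg : g * (tg : F) = (ag : F)) :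
    ∃ c t : B, t ∉ n ∧ s ^ (q - 1) * c = t * algebraMap R B π := by
  have hqF : (q : F) = algebraMap R F u * algebraMap R F π := by
    have := congrArg (algebraMap R F) hqπ
    simpa using this
  have huF : algebraMap R F u * algebraMap R F u' = 1 := by
    rw [← map_mul, huu', map_one]
  -- x0 := u' * s^(q-1) * a ∈ B and π⁻¹ x0 = ϑ * a
  have hx0B : algebraMap R F u' * (s : F) ^ (q - 1) * (a : F) ∈ B :=
    B.mul_mem (B.mul_mem (B.algebraMap_mem u') (B.pow_mem s.2 _)) a.2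
  have hval : (algebraMap R F π)⁻¹ * (algebraMap R F u' * (s : F) ^ (q - 1) * (a : F)) = ϑ * a := by
    rw [← hϑq, hqF]
    have : algebraMap R F u' * algebraMap R F u = 1 := by rw [mul_comm]; exact huF
    have hπ1 : (algebraMap R F π)⁻¹ * algebraMap R F π = 1 := inv_mul_cancel₀ hπ0
    linear_combination (algebraMap R F u' * algebraMap R F u * ϑ * (a : F)) * hπ1
      + (ϑ * (a : F)) * this
  have hV₁ : (algebraMap R F π)⁻¹ * (algebraMap R F u' * (s : F) ^ (q - 1) * (a : F)) ∈ V₁ := by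
    have : (algebraMap R F π)⁻¹ * (algebraMap R F u' * (s : F) ^ (q - 1) * (a : F))
        = algebraMap R F u' * (s : F) ^ (q - 1) * ((algebraMap R F π)⁻¹ * (a : F)) := by ring
    rw [this]
    exact V₁.mul_mem (V₁.mul_mem (hB₁ _ (B.algebraMap_mem u')) (V₁.pow_mem (hB₁ _ s.2) _)) ha₁
  have hV₃ : (algebraMap R F π)⁻¹ * (algebraMap R F u' * (s : F) ^ (q - 1) * (a : F)) ∈ V₃ := by
    have : (algebraMap R F π)⁻¹ * (algebraMap R F u' * (s : F) ^ (q - 1) * (a : F))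
        = algebraMap R F u' * (s : F) ^ (q - 1) * ((algebraMap R F π)⁻¹ * (a : F)) := by ring
    rw [this]
    exact V₃.mul_mem (V₃.mul_mem (hB₃ _ (B.algebraMap_mem u')) (V₃.pow_mem (hB₃ _ s.2) _)) ha₃
  have hV₂ : (algebraMap R F π)⁻¹ * (algebraMap R F u' * (s : F) ^ (q - 1) * (a : F)) ∈ V₂ := by
    rw [hval]
    exact V₂.mul_mem hϑ₂ (hB₂ _ a.2)
  have hϑaB : ϑ * (a : F) ∈ B := by
    rw [← hval]
    exact hsat _ hx0B hV₁ hV₂ hV₃
  -- the numerator `aϑ := ϑ * a` is not in `n`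
  set aϑ : B := ⟨ϑ * (a : F), hϑaB⟩ with haϑ
  have hsum : aϑ ^ k * ag - a ^ k * tg ∈ n := by
    apply hp2n
    have : ((aϑ ^ k * ag - a ^ k * tg : B) : F) * (s : F)⁻¹
        = ((ϑ ^ k * g - 1) * (s : F)⁻¹) * ((a : F) ^ k * (tg : F)) := by
      push_cast
      rw [haϑ]
      simp only []
      rw [← hg, mul_pow]
      ring
    rw [this]
    exact V₂.mul_mem hcong (V₂.mul_mem (V₂.pow_mem (hB₂ _ a.2) _) (hB₂ _ tg.2))
  have haktg : a ^ k * tg ∉ n := fun h =>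
    (hn.mem_or_mem h).elim (fun h' => ha (hn.mem_of_pow_mem k h')) htg
  have haϑn : aϑ ∉ n := by
    intro h
    apply haktg
    have h1 : aϑ ^ k * ag ∈ n := n.mul_mem_right ag (n.pow_mem_of_mem h k (Nat.pos_of_ne_zero hk))
    have := n.sub_mem h1 hsum
    simpa using this
  refine ⟨algebraMap R B u' * a, aϑ, haϑn, Subtype.ext ?_⟩
  push_cast
  rw [haϑ]
  show (s : F) ^ (q - 1) * (algebraMap R F u' * (a : F)) = ϑ * (a : F) * algebraMap R F π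
  rw [← hϑq, hqF]
  have : algebraMap R F u' * algebraMap R F u = 1 := by rw [mul_comm]; exact huF
  linear_combination (algebraMap R F π * ϑ * (a : F)) * this

end Fermat.Agent.S36
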