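import Fermat.Agent.S36.V2Gauss64
import Fermat.Agent.S36.OnlyBind72
import Fermat.Agent.S36.C2Pow11
import Fermat.Agent.S36.CycDVR30
import Fermat.Agent.S34.DeltaQuot56
import Fermat.Agent.S34.BranchSep70

/-!
# S36 lab, row C-C2 (helper11): the middle component in an ARBITRARY coordinate `x`

Setting of `V2Gauss64` (helper64): `q` prime, `q ∤ N`, `R` a discrete valuation ring with fraction
field `K` of characteristic zero, `F₂ = F(N q²)_K`.  For `x ∈ F(N)_K` put

  `s_x = x(Q^(q²)) - x(Q) = β₂ β₁ x - α₂ α₁ x`        (`c2x11_s`),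
  `ϑ_x = s_x^(q-1) / q`                                 (`c2x11_vt`),
  `P_x = ϑ_x^6 * (α₂ α₁ g)^(q-1) * α₂ U`                (`c2x11_P`),

where `g * (θ x)^6 = Δ` (`g = G_x = Δ/(θx)^6 ∈ F(N)_K`) and `U = Δ(Q)/Δ(Q^q)` (`dq56_U`).

In the conjugate embedding `Θ` (`Θ(α₂ α₁ x) = x(Q)`, `Θ(β₂ β₁ x) = x(ζQ)`) one has
`Θ(s_x) = (ζ - 1) y` with `y ≡ θ x` modulo `ζ - 1`, and `(ζ-1)^(q-1) = -q (1 + (ζ-1) r)`.  Hence,
if `x` has an `R`-integral expansion with `θ x ≢ 0` modulo `π`:

* `ϑ_x` is a unit of `V₂` (so `s_x` is a uniformizer of `V₂`), and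
* `P_x - 1` lies in the maximal ideal of `V₂`   (`ϑ_x^6 G_x^(q-1) U ≡ 1`).

`c2x11_exists_of_datum` : the Gauss pull-back along `Θ` has these facts (plus the three facts of
`ob72_ram`);  `c2x11_coord` : EVERY valuation subring `V₂` of `F₂` with the facts of `ob72_ram`
(`α₂ V_∞' ⊆ V₂`, `π⁻¹ ∉ V₂`, `V₁ ≠ V₂`, `v₂(s)^(q-1) = v₂(π)`) has them, by the only-clause of
`ob72_ram`.  With `c2p11_mid_dvd` (`k = 6`, `g := (α₂α₁ G_x)^(q-1) * α₂ U`) this gives
`s_x^(q-1) ∣ π` at EVERY closed point `n` on `C₂` only at which `G_x` and `U` have no pole: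
no condition on `j`, no Kronecker relation.

All names are prefixed `c2x11_`.
-/

set_option autoImplicit false
set_option linter.unusedSectionVars false
set_option linter.style.haveILetI false
set_option linter.style.longLine false
set_option linter.unusedVariables false

open ModularCurve IntermediateField

namespace Fermat.Agent.S36

open Fermat.Agent.S18 Fermat.Agent.S24 Fermat.Agent.S28 Fermat.Agent.S37 Fermat.Agent.S34
open Fermat.Agent.S35

/-- `θ = Q d/dQ` on Laurent series over any commutative ring. -/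
def c2x11_theta {S : Type*} [CommRing S] (f : LaurentSeries S) : LaurentSeries S where
  coeff n := (n : S) * f.coeff n
  isPWO_support' := f.isPWO_support.mono (fun n hn => by
    simp only [Function.mem_support, ne_eq] at hn ⊢
    exact fun h => hn (by rw [h, mul_zero]))

theorem c2x11_theta_coeff {S : Type*} [CommRing S] (f : LaurentSeries S) (n : ℤ) :
    (c2x11_theta f).coeff n = (n : S) * f.coeff n := rfl

theorem c2x11_coeffMap_theta {S T : Type*} [CommRing S] [CommRing T] (φ : S →+* T)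
    (f : LaurentSeries S) : coeffMap φ (c2x11_theta f) = c2x11_theta (coeffMap φ f) := by
  ext n
  simp only [coeffMap_coeff, c2x11_theta_coeff, map_mul, map_intCast]

theorem c2x11_theta_eq {k : Type*} [Field k] (f : LaurentSeries k) :
    c2x11_theta f = partC_theta f := by
  ext n
  rw [c2x11_theta_coeff, partC_theta_coeff]

section c2x11_series

variable {K' : Type} [Field K'] (A' : ValuationSubring K')

/-- `ζ^n - 1 = (ζ - 1) e` with `e ≡ n` modulo the maximal ideal. -/
theorem c2x11_zpow_sub_one (ζ : A'ˣ) (q : ℕ) (hq0 : q ≠ 0) (hζq : ζ ^ q = 1)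
    (hζm : IsLocalRing.residue A' ((ζ : A') - 1) = 0)
    (hqm : IsLocalRing.residue A' ((q : ℕ) : A') = 0) (n : ℤ) :
    ∃ e : A', (((ζ ^ n : A'ˣ) : A') - 1) = ((ζ : A') - 1) * e ∧
      IsLocalRing.residue A' e = ((n : ℤ) : IsLocalRing.ResidueField A') := by
  have hq' : (ζ : A'ˣ) ^ ((q : ℕ) : ℤ) = 1 := by rw [zpow_natCast]; exact hζq
  have h1 : ζ ^ n = ζ ^ (n % (q : ℤ)) := zpow_eq_zpow_emod n hq'
  have h2 : 0 ≤ n % (q : ℤ) := Int.emod_nonneg n (by exact_mod_cast hq0)
  obtain ⟨k, hk⟩ := Int.eq_ofNat_of_zero_le h2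
  refine ⟨∑ i ∈ Finset.range k, (ζ : A') ^ i, ?_, ?_⟩
  · rw [h1, hk, zpow_natCast, Units.val_pow_eq_pow_val, mul_geom_sum]
  · have hζres : IsLocalRing.residue A' (ζ : A') = 1 := by
      have := hζm
      rw [map_sub, map_one, sub_eq_zero] at this
      exact this
    have hn : n = (q : ℤ) * (n / (q : ℤ)) + (k : ℤ) := by
      rw [← hk]
      exact (Int.mul_ediv_add_emod n q).symm
    have hqκ : ((q : ℕ) : IsLocalRing.ResidueField A') = 0 := by
      rw [← map_natCast (IsLocalRing.residue A')]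
      exact hqm
    have hn' : ((n : ℤ) : IsLocalRing.ResidueField A') = (k : IsLocalRing.ResidueField A') := by
      conv_lhs => rw [hn]
      push_cast
      rw [hqκ, zero_mul, zero_add]
    rw [hn', map_sum]
    simp only [map_pow, hζres, one_pow, Finset.sum_const, Finset.card_range, nsmul_eq_mul,
      mul_one]

/-- **The divided twist with its reduction**: `f(ζQ) - f(Q) = (ζ - 1) · y` with `y` integral and
`y ≡ θ f` modulo the maximal ideal. -/
theorem c2x11_twist_sub (ζ : A'ˣ) (q : ℕ) (hq0 : q ≠ 0) (hζq : ζ ^ q = 1) (hζ1 : ζ ≠ 1)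
    (hζm : IsLocalRing.residue A' ((ζ : A') - 1) = 0)
    (hqm : IsLocalRing.residue A' ((q : ℕ) : A') = 0) (f : LaurentSeries A') :
    ∃ y : LaurentSeries A', twist ζ f - f = HahnSeries.C ((ζ : A') - 1) * y ∧
      coeffMap (IsLocalRing.residue A') y =
        c2x11_theta (coeffMap (IsLocalRing.residue A') f) := by
  obtain ⟨y, hy⟩ := v2g64_twist_sub A' ζ q hq0 hζq hζ1 f
  refine ⟨y, hy, ?_⟩
  have hζ0 : (ζ : A') - 1 ≠ 0 := by
    intro h
    apply hζ1
    ext
    exact congrArg Subtype.val (sub_eq_zero.mp h)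
  ext n
  obtain ⟨e, he, heres⟩ := c2x11_zpow_sub_one A' ζ q hq0 hζq hζm hqm n
  have h1 := congrArg (fun z : LaurentSeries A' => z.coeff n) hy
  simp only [HahnSeries.coeff_sub, twist_coeff, gv85_coeff_C_mul] at h1
  have h2 : y.coeff n = e * f.coeff n := by
    apply mul_left_cancel₀ hζ0
    rw [← h1, ← mul_assoc, ← he]
    ring
  rw [coeffMap_coeff, c2x11_theta_coeff, coeffMap_coeff, h2, map_mul, heres]

end c2x11_series

section c2x11_defs

variable (K : Type) [Field K] (N q : ℕ) [NeZero N] [NeZero q]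

/-- `s_x = x(Q^(q²)) - x(Q) ∈ F(N q²)_K`, written as `β₂ β₁ x - α₂ α₁ x`. -/
noncomputable def c2x11_s (x : ↥(modularFunctionFieldFullC K N)) :
    ↥(modularFunctionFieldFullC K (N * q * q)) :=
  al97L_beta K (N * q) q (al97L_beta K N q x) - al97L_alpha K (N * q) q (al97L_alpha K N q x)

/-- `ϑ_x = s_x^(q-1) / q`. -/
noncomputable def c2x11_vt (x : ↥(modularFunctionFieldFullC K N)) :
    ↥(modularFunctionFieldFullC K (N * q * q)) :=
  ((q : ℕ) : ↥(modularFunctionFieldFullC K (N * q * q)))⁻¹ * c2x11_s K N q x ^ (q - 1)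

/-- `P_x = ϑ_x^6 * (α₂ α₁ g)^(q-1) * α₂ U`. -/
noncomputable def c2x11_P (x g : ↥(modularFunctionFieldFullC K N))
    (U : ↥(modularFunctionFieldFullC K (N * q))) :
    ↥(modularFunctionFieldFullC K (N * q * q)) :=
  c2x11_vt K N q x ^ 6 * al97L_alpha K (N * q) q (al97L_alpha K N q g) ^ (q - 1) *
    al97L_alpha K (N * q) q U

theorem c2x11_s_j : c2x11_s K N q (v2g64_j K N) = v2g64_s K N q := rfl

end c2x11_defs

/-- The algebra behind `Θ(P_x) * T = S`. -/
theorem c2x11_alg {L : Type*} [CommRing L] (A G U' T0 E D : L) (q : ℕ) (hq : 1 ≤ q)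
    (h1 : G * T0 ^ 6 = D) (h2 : U' * E = D) :
    A ^ 6 * G ^ (q - 1) * U' * (T0 ^ (6 * (q - 1)) * E) = A ^ 6 * D ^ q := by
  have hq1 : q - 1 + 1 = q := by omega
  have h3 : G ^ (q - 1) * T0 ^ (6 * (q - 1)) = D ^ (q - 1) := by rw [pow_mul, ← mul_pow, h1]
  have hDq : D ^ q = D ^ (q - 1) * D := by rw [← pow_succ, hq1]
  rw [hDq]
  linear_combination (A ^ 6 * (U' * E)) * h3 + (A ^ 6 * D ^ (q - 1)) * h2

section c2x11_main

variable {R K : Type} [CommRing R] [IsDomain R] [IsDiscreteValuationRing R] [Field K] [CharZero K]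
  [Algebra R K] [IsFractionRing R K]
variable {K' : Type} [Field K'] [Algebra K K'] (A' : ValuationSubring K')
variable (φ : K →+* Kbar) (N q : ℕ) [NeZero N] [NeZero q] (hq : q.Prime) (hN : ¬ q ∣ N)

include φ hq hN in
/-- **The coordinate facts for the Gauss pull-back along the conjugate embedding.** -/
theorem c2x11_exists_of_datum {π : R} (hπ : Irreducible π) (ϖ : A') (ρ : R →+* A') (ζ : A'ˣ)
    (hD : v2g64_Datum K A' q π ϖ ρ ζ) :
    ∃ V₂ : ValuationSubring ↥(modularFunctionFieldFullC K (N * q * q)),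
      (∀ c ∈ cm85_Vinf (K := K) (N * q) hπ, al97L_alpha K (N * q) q c ∈ V₂) ∧
      (algebraMap K ↥(modularFunctionFieldFullC K (N * q * q)) (algebraMap R K π))⁻¹ ∉ V₂ ∧
      cm85_Vinf (K := K) (N * q * q) hπ ≠ V₂ ∧
      ∀ (x : ↥(modularFunctionFieldFullC K N)) (xR : LaurentSeries R),
        (x : LaurentSeries K) = coeffMap (algebraMap R K) xR →
        c2x11_theta (coeffMap (IsLocalRing.residue R) xR) ≠ 0 →
        c2x11_vt K N q x ≠ 0 ∧ c2x11_vt K N q x ∈ V₂ ∧ (c2x11_vt K N q x)⁻¹ ∈ V₂ ∧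
        ∀ (g : ↥(modularFunctionFieldFullC K N)) (U : ↥(modularFunctionFieldFullC K (N * q))),
          (g : LaurentSeries K) * c2x11_theta (x : LaurentSeries K) ^ 6 = DeltaSer K →
          (U : LaurentSeries K) = dq56_U K q →
          c2x11_P K N q x g U - 1 ∈ V₂ ∧
          ((c2x11_P K N q x g U - 1)⁻¹ ∈ V₂ → c2x11_P K N q x g U - 1 = 0) := by
  obtain ⟨hϖ0, hres, hfin, hρ, hρπ, hζq, hζ1, u, hu⟩ := hD
  have hq0 : q ≠ 0 := hq.ne_zero
  have hq2 := hq.two_le
  have hζKq : (Units.map (algebraMap A' K' : A' →* K') ζ) ^ q = 1 := by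
    rw [← map_pow, hζq, map_one]
  have hζK1 : Units.map (algebraMap A' K' : A' →* K') ζ ≠ 1 := by
    intro h
    apply hζ1
    have h1 := congrArg (fun z : K'ˣ => (z : K')) h
    simp only [Units.coe_map, MonoidHom.coe_coe, Units.val_one] at h1
    ext
    exact h1
  obtain ⟨Θ, hΘα, hΘβ⟩ := v2g64_exists_Theta φ N q hq hN
    (Units.map (algebraMap A' K' : A' →* K') ζ) hζKq hζK1
  have hF := v2g64_HF A' ϖ hres hϖ0 hfin
  -- the image of `Θ` lies in the field of integral series
  have hmem : ∀ x, Θ x ∈ v2g64_F A' := by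
    have hS := ce97_gen K N q hq ((v2g64_F A').toSubfield.comap Θ)
      (fun a => by
        show Θ _ ∈ v2g64_F A'
        rw [hΘα]
        exact v2g64_coeffMap_mem A' (N * q) _ a.2)
      (fun b => by
        show Θ _ ∈ v2g64_F A'
        rw [hΘβ]
        exact v2g64_twist_coeffMap_mem A' ζ (N * q) _ (al97L_w φ N q hq hN b).2)
    intro x
    have hx : x ∈ (v2g64_F A').toSubfield.comap Θ := by rw [hS]; exact Subfield.mem_top x
    exact hx
  let Θ' : ↥(modularFunctionFieldFullC K (N * q * q)) →+* ↥(v2g64_F A') :=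
    Θ.codRestrict (v2g64_F A') hmem
  have hΘ' : ∀ x, ((Θ' x : ↥(v2g64_F A')) : LaurentSeries K') = Θ x := fun _ => rfl
  -- (A) `α₂ V_∞' ⊆ V₂`
  have hA : ∀ c ∈ cm85_Vinf (K := K) (N * q) hπ, Θ' (al97L_alpha K (N * q) q c) ∈
      gv85_V (IsLocalRing.residue A') (v2g64_F A') hF := by
    intro c hc
    obtain ⟨s, t, hs, hst⟩ := hc
    refine ⟨coeffMap ρ s, coeffMap ρ t, v2g64_res_rho A' ρ s hs, ?_⟩
    rw [hΘ', hΘα, v2g64_coeffMap_rho A' ρ hρ, v2g64_coeffMap_rho A' ρ hρ, ← hst, map_mul]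
  -- (B) `π⁻¹ ∉ V₂`
  have hπ0' : algebraMap A' K' (ρ π) ≠ 0 := by
    rw [hρ]
    exact (map_ne_zero _).mpr ((map_ne_zero_iff _ (IsFractionRing.injective R K)).mpr hπ.ne_zero)
  have hπΘ : ((Θ' (algebraMap K ↥(modularFunctionFieldFullC K (N * q * q))
      (algebraMap R K π)) : ↥(v2g64_F A')) : LaurentSeries K') =
      HahnSeries.C (algebraMap A' K' (ρ π)) := by
    rw [hΘ']
    have h1 : algebraMap K ↥(modularFunctionFieldFullC K (N * q * q)) (algebraMap R K π) =
        al97L_alpha K (N * q) q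
          (algebraMap K ↥(modularFunctionFieldFullC K (N * q)) (algebraMap R K π)) :=
      ((al97L_alpha K (N * q) q).commutes _).symm
    rw [h1, hΘα, gv85_coe_algebraMap, gv85_coeffMap_C, hρ]
  have hB := v2g64_const_inv_not_mem A' hF (ρ π) hρπ hπ0' _ hπΘ
  -- the constants
  have hζ0 : (ζ : A') - 1 ≠ 0 := by
    intro h
    apply hζ1
    ext
    exact congrArg Subtype.val (sub_eq_zero.mp h)
  have hζm : IsLocalRing.residue A' ((ζ : A') - 1) = 0 := by
    have h1 : IsLocalRing.residue A' (((ζ : A') - 1) ^ (q - 1)) = 0 := by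
      rw [hu, map_mul, hρπ, zero_mul]
    rw [map_pow] at h1
    exact pow_eq_zero_iff (by omega) |>.mp h1
  have hζqA : (ζ : A') ^ q = 1 := by
    rw [← Units.val_pow_eq_pow_val, hζq, Units.val_one]
  have hζ1A : (ζ : A') ≠ 1 := fun h => hζ0 (sub_eq_zero.mpr h)
  obtain ⟨r, hr⟩ := c2p11_const hq (ζ : A') hζqA hζ1A
  have hone : IsLocalRing.residue A' (1 + ((ζ : A') - 1) * r) = 1 := by
    rw [map_add, map_mul, hζm, zero_mul, add_zero, map_one]
  have hqm : IsLocalRing.residue A' ((q : ℕ) : A') = 0 := by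
    have h1 : IsLocalRing.residue A' (((ζ : A') - 1) ^ (q - 1)) = 0 := by
      rw [hu, map_mul, hρπ, zero_mul]
    rw [hr, map_neg, map_mul, hone, mul_one, neg_eq_zero] at h1
    exact h1
  have hchar : ((q : ℕ) : IsLocalRing.ResidueField A') = 0 := by
    rw [← map_natCast (IsLocalRing.residue A')]
    exact hqm
  set c₀ : A' := -(1 + ((ζ : A') - 1) * r) with hc₀def
  have hc₀ : ((ζ : A') - 1) ^ (q - 1) = ((q : ℕ) : A') * c₀ := by
    rw [hr, hc₀def]; ring
  have hc₀res : IsLocalRing.residue A' c₀ = -1 := by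
    rw [hc₀def, map_neg, hone]
  have hqK' : ((q : ℕ) : K') ≠ 0 := by
    have h1 : ((q : ℕ) : K') = algebraMap K K' ((q : ℕ) : K) := (map_natCast _ q).symm
    rw [h1]
    exact (map_ne_zero _).mpr (Nat.cast_ne_zero.mpr hq0)
  have hqLS : ((q : ℕ) : LaurentSeries K') ≠ 0 := by
    have h1 : ((q : ℕ) : LaurentSeries K') = HahnSeries.C ((q : ℕ) : K') :=
      (map_natCast (HahnSeries.C : K' →+* LaurentSeries K') q).symm
    rw [h1]
    exact HahnSeries.C_ne_zero hqK'
  have hΔ0 : DeltaSer (IsLocalRing.ResidueField A') ≠ 0 := by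
    intro h
    have h1 := DeltaSer_mul_DeltaInv (IsLocalRing.ResidueField A')
    rw [h, zero_mul] at h1
    exact zero_ne_one h1
  -- `q⁻¹ ∉ V₂`
  have hqΘ : ((Θ' ((q : ℕ) : ↥(modularFunctionFieldFullC K (N * q * q))) : ↥(v2g64_F A')) :
      LaurentSeries K') = HahnSeries.C (algebraMap A' K' ((q : ℕ) : A')) := by
    rw [hΘ', map_natCast, map_natCast]
    exact (map_natCast (HahnSeries.C : K' →+* LaurentSeries K') q).symm
  have hqA0 : algebraMap A' K' ((q : ℕ) : A') ≠ 0 := by
    rw [map_natCast]; exact hqK'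
  have hBq := v2g64_const_inv_not_mem A' hF ((q : ℕ) : A') hqm hqA0 _ hqΘ
  -- the generic coordinate facts in the `Θ`-model
  have hgen : ∀ (x : ↥(modularFunctionFieldFullC K N)) (xR : LaurentSeries R),
      (x : LaurentSeries K) = coeffMap (algebraMap R K) xR →
      c2x11_theta (coeffMap (IsLocalRing.residue R) xR) ≠ 0 →
      ∃ y : LaurentSeries A',
        coeffMap (IsLocalRing.residue A') y =
          c2x11_theta (coeffMap (IsLocalRing.residue A') (coeffMap ρ xR)) ∧
        c2x11_theta (coeffMap (IsLocalRing.residue A') (coeffMap ρ xR)) ≠ 0 ∧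
        Θ (c2x11_vt K N q x) =
          coeffMap (algebraMap A' K') (HahnSeries.C c₀ * y ^ (q - 1)) := by
    intro x xR hx hθ
    obtain ⟨y, hy, hyres⟩ := c2x11_twist_sub A' ζ q hq0 hζq hζ1 hζm hqm (coeffMap ρ xR)
    have hθ' : c2x11_theta (coeffMap (IsLocalRing.residue A') (coeffMap ρ xR)) ≠ 0 := by
      rw [← c2x11_coeffMap_theta, ← c2x11_coeffMap_theta]
      apply v2g64_res_rho A' ρ
      rw [c2x11_coeffMap_theta]
      exact hθ
    have hxx : coeffMap (algebraMap K K') (x : LaurentSeries K) =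
        coeffMap (algebraMap A' K') (coeffMap ρ xR) := by
      rw [hx, v2g64_coeffMap_rho A' ρ hρ]
    have hsΘ : Θ (c2x11_s K N q x) =
        coeffMap (algebraMap A' K') (HahnSeries.C ((ζ : A') - 1) * y) := by
      unfold c2x11_s
      rw [map_sub, hΘβ, hΘα, al97L_w_beta_apply φ N q hq hN x, al97L_alpha_coe, hxx, ← hy,
        map_sub, coeffMap_twist]
    refine ⟨y, hyres, hθ', ?_⟩
    unfold c2x11_vt
    rw [map_mul, map_inv₀, map_pow, map_natCast, hsΘ, inv_mul_eq_iff_eq_mul₀ hqLS,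
      ← map_natCast (coeffMap (algebraMap A' K')) q, ← map_pow, ← map_mul]
    congr 1
    rw [mul_pow, ← map_pow, hc₀, map_mul, map_natCast]
    ring
  have hZres : ∀ (y : LaurentSeries A') (θb : LaurentSeries (IsLocalRing.ResidueField A')),
      coeffMap (IsLocalRing.residue A') y = θb → θb ≠ 0 →
      coeffMap (IsLocalRing.residue A') (HahnSeries.C c₀ * y ^ (q - 1)) ≠ 0 := by
    intro y θb hy hθb
    rw [map_mul, map_pow, gv85_coeffMap_C, hy, hc₀res]
    exact mul_ne_zero (HahnSeries.C_ne_zero (neg_ne_zero.mpr one_ne_zero)) (pow_ne_zero _ hθb)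
  have hvt0gen : ∀ (x : ↥(modularFunctionFieldFullC K N)) (y : LaurentSeries A'),
      Θ (c2x11_vt K N q x) = coeffMap (algebraMap A' K') (HahnSeries.C c₀ * y ^ (q - 1)) →
      coeffMap (IsLocalRing.residue A') (HahnSeries.C c₀ * y ^ (q - 1)) ≠ 0 →
      c2x11_vt K N q x ≠ 0 := by
    intro x y hZ hZr h0
    apply hZr
    have h1 : coeffMap (algebraMap A' K') (HahnSeries.C c₀ * y ^ (q - 1)) = 0 := by
      rw [← hZ, h0, map_zero]
    have h2 : HahnSeries.C c₀ * y ^ (q - 1) = 0 := by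
      apply gv85_emb_injective (R := A') (K := K')
      rw [h1, map_zero]
    rw [h2, map_zero]
  -- `s_j` is a unit of `V₁`
  have hsV1 : (v2g64_s K N q)⁻¹ ∈ cm85_Vinf (K := K) (N * q * q) hπ := by
    have hsR : ((v2g64_s K N q : ↥(modularFunctionFieldFullC K (N * q * q))) :
        LaurentSeries K) = coeffMap (algebraMap R K)
          (qExpand R q (qExpand R q (jqModC R)) - jqModC R) := by
      rw [v2g64_s_coe, map_sub, coeffMap_qExpand, coeffMap_qExpand, coeffMap_jqModC]
    refine v2g64_gv_inv_mem _ _ _ _ _ hsR ?_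
    intro h0
    have h1 := congrArg (fun z : LaurentSeries (IsLocalRing.ResidueField R) =>
      z.coeff ((q : ℤ) * ((q : ℤ) * (-1)))) h0
    have hlt : (q : ℤ) * ((q : ℤ) * (-1)) < -1 := by
      have h2 : (2 : ℤ) ≤ q := by exact_mod_cast hq.two_le
      nlinarith
    simp only [coeffMap_coeff, HahnSeries.coeff_sub, qExpand_coeff_mul,
      coeff_jqModC_neg_one, coeff_jqModC_of_lt R hlt, sub_zero, map_one,
      HahnSeries.coeff_zero] at h1
    exact one_ne_zero h1
  -- the instance `x = j`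
  have hjx : ((v2g64_j K N : ↥(modularFunctionFieldFullC K N)) : LaurentSeries K) =
      coeffMap (algebraMap R K) (jqModC R) := by
    show jqModC K = _
    rw [coeffMap_jqModC]
  have hjθ : c2x11_theta (coeffMap (IsLocalRing.residue R) (jqModC R)) ≠ 0 := by
    rw [coeffMap_jqModC]
    intro h0
    have h1 := congrArg (fun z : LaurentSeries (IsLocalRing.ResidueField R) => z.coeff (-1)) h0
    simp only [c2x11_theta_coeff, coeff_jqModC_neg_one, HahnSeries.coeff_zero, mul_one] at h1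
    norm_num at h1
  refine ⟨(gv85_V (IsLocalRing.residue A') (v2g64_F A') hF).comap Θ', ?_, ?_, ?_, ?_⟩
  · intro c hc
    exact ValuationSubring.mem_comap.mpr (hA c hc)
  · intro h
    apply hB
    rw [← map_inv₀]
    exact ValuationSubring.mem_comap.mp h
  · intro heq
    obtain ⟨y, hyres, hθ', hZ⟩ := hgen (v2g64_j K N) (jqModC R) hjx hjθ
    have hZ' : ((Θ' (c2x11_vt K N q (v2g64_j K N)) : ↥(v2g64_F A')) : LaurentSeries K') =
        coeffMap (algebraMap A' K') (HahnSeries.C c₀ * y ^ (q - 1)) := (hΘ' _).trans hZ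
    have hZr := hZres y _ hyres hθ'
    have hvt : c2x11_vt K N q (v2g64_j K N) ∈
        (gv85_V (IsLocalRing.residue A') (v2g64_F A') hF).comap Θ' :=
      ValuationSubring.mem_comap.mpr (v2g64_mem_of_int A' hF _ _ hZ')
    have hvt0 : c2x11_vt K N q (v2g64_j K N) ≠ 0 := hvt0gen _ y hZ hZr
    have hs0 : v2g64_s K N q ≠ 0 := by
      intro h0
      apply hvt0
      unfold c2x11_vt
      rw [c2x11_s_j, h0, zero_pow (by omega), mul_zero]
    rw [heq] at hsV1
    apply hBq
    rw [← map_inv₀]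
    apply ValuationSubring.mem_comap.mp
    have h1 : (((q : ℕ) : ↥(modularFunctionFieldFullC K (N * q * q))))⁻¹ =
        c2x11_vt K N q (v2g64_j K N) * ((v2g64_s K N q)⁻¹) ^ (q - 1) := by
      unfold c2x11_vt
      rw [c2x11_s_j, inv_pow, mul_inv_cancel_right₀ (pow_ne_zero _ hs0)]
    rw [h1]
    exact mul_mem hvt (pow_mem hsV1 _)
  · intro x xR hx hθ
    obtain ⟨y, hyres, hθ', hZ⟩ := hgen x xR hx hθ
    have hZ' : ((Θ' (c2x11_vt K N q x) : ↥(v2g64_F A')) : LaurentSeries K') =
        coeffMap (algebraMap A' K') (HahnSeries.C c₀ * y ^ (q - 1)) := (hΘ' _).trans hZ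
    have hZr := hZres y _ hyres hθ'
    refine ⟨hvt0gen x y hZ hZr, ValuationSubring.mem_comap.mpr (v2g64_mem_of_int A' hF _ _ hZ'), ?_, ?_⟩
    · apply ValuationSubring.mem_comap.mpr
      rw [map_inv₀]
      exact v2g64_inv_mem_of_int A' hF _ _ hZ' hZr
    · intro g U hg hU
      obtain ⟨xA, hxA⟩ : ∃ xA : LaurentSeries A', xA = coeffMap ρ xR := ⟨_, rfl⟩
      obtain ⟨T₀, hT₀⟩ : ∃ T₀ : LaurentSeries A', T₀ = c2x11_theta xA := ⟨_, rfl⟩
      obtain ⟨S, hS⟩ : ∃ S : LaurentSeries A',
        S = (HahnSeries.C c₀ * y ^ (q - 1)) ^ 6 * DeltaSer A' ^ q := ⟨_, rfl⟩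
      obtain ⟨T, hT⟩ : ∃ T : LaurentSeries A',
        T = T₀ ^ (6 * (q - 1)) * qExpand A' q (DeltaSer A') := ⟨_, rfl⟩
      rw [← hxA] at hyres hθ'
      have hxx : coeffMap (algebraMap K K') (x : LaurentSeries K) =
          coeffMap (algebraMap A' K') xA := by
        rw [hx, hxA, v2g64_coeffMap_rho A' ρ hρ]
      have hT₀res : coeffMap (IsLocalRing.residue A') T₀ =
          c2x11_theta (coeffMap (IsLocalRing.residue A') xA) := by
        rw [hT₀, c2x11_coeffMap_theta]
      have hfrob : qExpand (IsLocalRing.ResidueField A') q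
          (DeltaSer (IsLocalRing.ResidueField A')) =
          DeltaSer (IsLocalRing.ResidueField A') ^ q :=
        bs70_frob _ q hq hchar _ (fun _ => coeffMap_DeltaSer _)
      have hTres : coeffMap (IsLocalRing.residue A') T =
          c2x11_theta (coeffMap (IsLocalRing.residue A') xA) ^ (6 * (q - 1)) *
            DeltaSer (IsLocalRing.ResidueField A') ^ q := by
        rw [hT, map_mul, map_pow, hT₀res, coeffMap_qExpand, coeffMap_DeltaSer, hfrob]
      have hSres : coeffMap (IsLocalRing.residue A') S =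
          coeffMap (IsLocalRing.residue A') T := by
        rw [hTres, hS, map_mul, map_pow, map_pow, map_mul, map_pow, gv85_coeffMap_C, hyres,
          hc₀res, coeffMap_DeltaSer, map_neg, map_one, pow_mul]
        ring
      have hTne : coeffMap (IsLocalRing.residue A') T ≠ 0 := by
        rw [hTres]
        exact mul_ne_zero (pow_ne_zero _ hθ') (pow_ne_zero _ hΔ0)
      obtain ⟨W, hW⟩ := gv85_red_eq_zero (IsLocalRing.residue A') ϖ hres hϖ0 (S - T)
        (by rw [map_sub, hSres, sub_self])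
      have hΘg : Θ (al97L_alpha K (N * q) q (al97L_alpha K N q g)) =
          coeffMap (algebraMap K K') (g : LaurentSeries K) := by
        rw [hΘα, al97L_alpha_coe]
      have hΘU : Θ (al97L_alpha K (N * q) q U) = dq56_U K' q := by
        rw [hΘα, hU, dq56_coeffMap_U]
      have hI1 : coeffMap (algebraMap K K') (g : LaurentSeries K) *
          coeffMap (algebraMap A' K') T₀ ^ 6 = DeltaSer K' := by
        have h1 := congrArg (coeffMap (algebraMap K K')) hg
        rw [map_mul, map_pow, coeffMap_DeltaSer, c2x11_coeffMap_theta, hxx,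
          ← c2x11_coeffMap_theta, ← hT₀] at h1
        exact h1
      have hI2 : dq56_U K' q * qExpand K' q (DeltaSer K') = DeltaSer K' := by
        unfold dq56_U
        rw [qE_of_neZero, mul_assoc, ← map_mul, mul_comm (DeltaInv K'), DeltaSer_mul_DeltaInv,
          map_one, mul_one]
      have hP : Θ (c2x11_P K N q x g U) * coeffMap (algebraMap A' K') T =
          coeffMap (algebraMap A' K') S := by
        unfold c2x11_P
        rw [map_mul, map_mul, map_pow, map_pow, hZ, hΘg, hΘU, hT, hS]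
        simp only [map_mul, map_pow, coeffMap_qExpand, coeffMap_DeltaSer]
        exact c2x11_alg _ _ _ _ _ _ q hq.one_le hI1 hI2
      have hΘP1 : Θ (c2x11_P K N q x g U - 1) * coeffMap (algebraMap A' K') T =
          coeffMap (algebraMap A' K') (HahnSeries.C ϖ * W) := by
        rw [map_sub, map_one, sub_mul, one_mul, hP, ← map_sub, hW]
      refine ⟨?_, ?_⟩
      · apply ValuationSubring.mem_comap.mpr
        refine ⟨T, HahnSeries.C ϖ * W, hTne, ?_⟩
        rw [hΘ', mul_comm]
        exact hΘP1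
      · intro hinv
        by_contra hne
        obtain ⟨s', t', hs', hst'⟩ := ValuationSubring.mem_comap.mp hinv
        rw [hΘ', map_inv₀] at hst'
        have hD0 : Θ (c2x11_P K N q x g U - 1) ≠ 0 := (map_ne_zero Θ).mpr hne
        have h1 : coeffMap (algebraMap A' K') s' =
            coeffMap (algebraMap A' K') t' * Θ (c2x11_P K N q x g U - 1) := by
          rw [← hst', mul_assoc, inv_mul_cancel₀ hD0, mul_one]
        have h2 : coeffMap (algebraMap A' K') (s' * T) =
            coeffMap (algebraMap A' K') (HahnSeries.C ϖ * (t' * W)) := by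
          rw [map_mul, h1, mul_assoc, hΘP1, ← map_mul]
          congr 1
          ring
        have h3 := gv85_emb_injective (R := A') (K := K') h2
        have h4 := congrArg (coeffMap (IsLocalRing.residue A')) h3
        rw [gv85_red_C_mul (IsLocalRing.residue A') ϖ hres, map_mul] at h4
        exact (mul_ne_zero hs' hTne) h4

end c2x11_main

section c2x11_any

variable {R K : Type} [CommRing R] [IsDomain R] [IsDiscreteValuationRing R] [Field K] [CharZero K]
  [Algebra R K] [IsFractionRing R K]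
variable (φ : K →+* Kbar) (N q : ℕ) [NeZero N] [NeZero q] (hq : q.Prime) (hN : ¬ q ∣ N)

include φ hq hN in
/-- **The middle component in an arbitrary coordinate.**  Unramified base (`q ~ π`).  Let `V₂` be
ANY valuation subring of `F(N q²)_K` with the four facts of `ob72_ram` / `v2g64_exists`, and let
`x ∈ F(N)_K` have an `R`-integral expansion `xR` with `θ x ≢ 0` modulo `π`.  Then
`s_x = β₂β₁ x - α₂α₁ x` satisfies the `hs` of `ob72_ram` (`v₂(s_x)^(q-1) = v₂(π)`: it is a
uniformizer of `V₂`), `ϑ_x = s_x^(q-1)/q` is a unit of `V₂`, and for `g * (θ x)^6 = Δ`,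
`U = Δ(Q)/Δ(Q^q)`:  `ϑ_x^6 * (α₂α₁ g)^(q-1) * α₂ U ≡ 1` modulo `s_x V₂`. -/
theorem c2x11_coord {π : R} (hπ : Irreducible π) (hqπ : Associated ((q : ℕ) : R) π)
    (V₂ : ValuationSubring ↥(modularFunctionFieldFullC K (N * q * q)))
    (hV₂ : ∀ c ∈ cm85_Vinf (K := K) (N * q) hπ, al97L_alpha K (N * q) q c ∈ V₂)
    (hπ₂ : (algebraMap K ↥(modularFunctionFieldFullC K (N * q * q)) (algebraMap R K π))⁻¹ ∉ V₂)
    (hne : cm85_Vinf (K := K) (N * q * q) hπ ≠ V₂)
    (s : ↥(modularFunctionFieldFullC K (N * q * q)))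
    (hs : V₂.valuation s ^ (q - 1) =
      V₂.valuation (algebraMap K ↥(modularFunctionFieldFullC K (N * q * q)) (algebraMap R K π)))
    (x : ↥(modularFunctionFieldFullC K N)) (xR : LaurentSeries R)
    (hx : (x : LaurentSeries K) = coeffMap (algebraMap R K) xR)
    (hθ : partC_theta (coeffMap (IsLocalRing.residue R) xR) ≠ 0) :
    V₂.valuation (c2x11_s K N q x) ^ (q - 1) =
      V₂.valuation (algebraMap K ↥(modularFunctionFieldFullC K (N * q * q))
        (algebraMap R K π)) ∧
    c2x11_vt K N q x ∈ V₂ ∧ (c2x11_vt K N q x)⁻¹ ∈ V₂ ∧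
    (∀ z ∈ V₂, z⁻¹ ∉ V₂ → (c2x11_s K N q x)⁻¹ * z ∈ V₂) ∧
    ∀ (g : ↥(modularFunctionFieldFullC K N)) (U : ↥(modularFunctionFieldFullC K (N * q))),
      (g : LaurentSeries K) * partC_theta (x : LaurentSeries K) ^ 6 = DeltaSer K →
      (U : LaurentSeries K) = dq56_U K q →
      (c2x11_P K N q x g U - 1) * (c2x11_s K N q x)⁻¹ ∈ V₂ := by
  obtain ⟨K', _, _, A', ϖ, ρ, ζ, hD⟩ := cyc30_exists (R := R) (K := K) q hq hπ hqπ
  obtain ⟨V₂', hA, hB, hC, hX⟩ := c2x11_exists_of_datum A' φ N q hq hN hπ ϖ ρ ζ hD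
  obtain ⟨honly, -, -, -, -⟩ :=
    ob72_ram (K := K) (N * q) q hq (dvd_mul_left q N) hπ V₂ hV₂ hπ₂ hne s hs
  have hVV : V₂' = V₂ := (honly V₂' hA hB).resolve_left (fun h => hC h.symm)
  rw [hVV] at hX
  rw [← c2x11_theta_eq] at hθ
  obtain ⟨h0, h1, h2, h3⟩ := hX x xR hx hθ
  -- constants of `R` lie in `V₂`
  have hconst : ∀ r : R,
      algebraMap K ↥(modularFunctionFieldFullC K (N * q * q)) (algebraMap R K r) ∈ V₂ := by
    intro r
    have e1 : algebraMap K ↥(modularFunctionFieldFullC K (N * q * q)) (algebraMap R K r) =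
        al97L_alpha K (N * q) q
          (algebraMap K ↥(modularFunctionFieldFullC K (N * q)) (algebraMap R K r)) :=
      ((al97L_alpha K (N * q) q).commutes _).symm
    rw [e1]
    apply hV₂
    exact gv85_mem_V_of_integral _ _ _ _ (HahnSeries.C r)
      (by rw [gv85_coe_algebraMap, gv85_coeffMap_C])
  obtain ⟨u, hu⟩ := hqπ
  -- `v₂(q) = v₂(π)`
  have hvq : V₂.valuation ((q : ℕ) : ↥(modularFunctionFieldFullC K (N * q * q))) =
      V₂.valuation (algebraMap K ↥(modularFunctionFieldFullC K (N * q * q))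
        (algebraMap R K π)) := by
    have e2 : algebraMap K ↥(modularFunctionFieldFullC K (N * q * q)) (algebraMap R K π) =
        ((q : ℕ) : ↥(modularFunctionFieldFullC K (N * q * q))) *
          algebraMap K ↥(modularFunctionFieldFullC K (N * q * q)) (algebraMap R K (u : R)) := by
      rw [← hu, map_mul, map_mul, map_natCast, map_natCast]
    have e3 : algebraMap K ↥(modularFunctionFieldFullC K (N * q * q)) (algebraMap R K (u : R)) *
        algebraMap K ↥(modularFunctionFieldFullC K (N * q * q))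
          (algebraMap R K ((u⁻¹ : Rˣ) : R)) = 1 := by
      rw [← map_mul, ← map_mul, Units.mul_inv, map_one, map_one]
    have a1 := (V₂.valuation_le_one_iff _).2 (hconst (u : R))
    have a2 := (V₂.valuation_le_one_iff _).2 (hconst ((u⁻¹ : Rˣ) : R))
    have a3 : V₂.valuation (algebraMap K ↥(modularFunctionFieldFullC K (N * q * q))
        (algebraMap R K (u : R))) * V₂.valuation (algebraMap K
          ↥(modularFunctionFieldFullC K (N * q * q)) (algebraMap R K ((u⁻¹ : Rˣ) : R))) = 1 := by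
      rw [← map_mul, e3, map_one]
    have a4 : V₂.valuation (algebraMap K ↥(modularFunctionFieldFullC K (N * q * q))
        (algebraMap R K (u : R))) = 1 := by
      refine le_antisymm a1 ?_
      calc (1 : _) = V₂.valuation (algebraMap K ↥(modularFunctionFieldFullC K (N * q * q))
            (algebraMap R K (u : R))) * V₂.valuation (algebraMap K
              ↥(modularFunctionFieldFullC K (N * q * q)) (algebraMap R K ((u⁻¹ : Rˣ) : R))) :=
            a3.symm
        _ ≤ V₂.valuation (algebraMap K ↥(modularFunctionFieldFullC K (N * q * q))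
            (algebraMap R K (u : R))) * 1 := mul_le_mul_right a2 _
        _ = _ := mul_one _
    rw [e2, map_mul, a4, mul_one]
  have hq0F : ((q : ℕ) : ↥(modularFunctionFieldFullC K (N * q * q))) ≠ 0 :=
    Nat.cast_ne_zero.mpr hq.ne_zero
  have hsx0 : c2x11_s K N q x ≠ 0 := by
    intro h
    apply h0
    unfold c2x11_vt
    rw [h, zero_pow (by have := hq.two_le; omega), mul_zero]
  have hsx : V₂.valuation (c2x11_s K N q x) ^ (q - 1) =
      V₂.valuation (algebraMap K ↥(modularFunctionFieldFullC K (N * q * q))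
        (algebraMap R K π)) := by
    rw [← hvq]
    exact v2g64_val_pow_eq V₂ _ _ hq0F (q - 1) hsx0 h1 h2
  obtain ⟨-, -, hmaxx, -, -⟩ :=
    ob72_ram (K := K) (N * q) q hq (dvd_mul_left q N) hπ V₂ hV₂ hπ₂ hne (c2x11_s K N q x) hsx
  refine ⟨hsx, h1, h2, hmaxx, ?_⟩
  intro g U hg hU
  rw [← c2x11_theta_eq] at hg
  obtain ⟨h4, h5⟩ := h3 g U hg hU
  by_cases hinv : (c2x11_P K N q x g U - 1)⁻¹ ∈ V₂
  · rw [h5 hinv, zero_mul]
    exact V₂.zero_mem
  · have h6 := hmaxx _ h4 hinv
    have e : (c2x11_P K N q x g U - 1) * (c2x11_s K N q x)⁻¹ =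
        (c2x11_s K N q x)⁻¹ * (c2x11_P K N q x g U - 1) := mul_comm _ _
    rw [e]
    exact h6

end c2x11_any

end Fermat.Agent.S36
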