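import Fermat.Agent.S36.C2Coord11

/-!
# S36 lab, row C-C2 (helper11): the coordinate form of (C2) in the chart language

* `c2x11_theta_ne_zero` : if `g * (θ x)^6 = Δ` with `g` in the Gauss ring `cm85_Vinf N` and `x`
  has the `R`-integral expansion `xR`, then `θ x ≢ 0` modulo `π` (the hypothesis `hθ` of
  `c2x11_coord`).
* `c2x11_mid_dvd` : composition of `c2x11_coord` and `c2p11_mid_dvd` (`k = 6`).  Chart `B` of
  level `N q²`, saturated in `V₁ ⊓ V₂ ⊓ V₃`, `V₂` ANY valuation subring with the four facts of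
  `ob72_ram` (uniformizer `s`); `n` a prime of `B` with `C₂` through `n` (`hp2n`, stated with the
  frame's `s`) and `C₁`, `C₃` not through `n`; `x ∈ F(N)_K` with `R`-integral expansion, `s_x ∈ B`,
  `g * (θ x)^6 = Δ`, and `(α₂α₁ g)^(q-1) * α₂ U` without pole at `n`.  Then `s_x^(q-1)` divides
  `π` at `n` (hypothesis of `tl71_mid_principal` with `k = q - 2`, for `s := s_x`).

All names are prefixed `c2x11_`.
-/

set_option autoImplicit false
set_option linter.unusedSectionVars false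
set_option linter.style.haveILetI false
set_option linter.style.longLine false
set_option linter.unusedVariables false

open ModularCurve IntermediateField

namespace Fermat.Agent.S36

open Fermat.Agent.S18 Fermat.Agent.S24 Fermat.Agent.S28 Fermat.Agent.S37 Fermat.Agent.S34
open Fermat.Agent.S35

section c2x11_chart

variable {R K : Type} [CommRing R] [IsDomain R] [IsDiscreteValuationRing R] [Field K] [CharZero K]
  [Algebra R K] [IsFractionRing R K]

/-- `θ x ≢ 0` modulo `π` as soon as `G_x = Δ/(θ x)^6` is Gauss-integral. -/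
theorem c2x11_theta_ne_zero (N : ℕ) [NeZero N] {π : R} (hπ : Irreducible π)
    (x g : ↥(modularFunctionFieldFullC K N)) (xR : LaurentSeries R)
    (hx : (x : LaurentSeries K) = coeffMap (algebraMap R K) xR)
    (hg : (g : LaurentSeries K) * partC_theta (x : LaurentSeries K) ^ 6 = DeltaSer K)
    (hgV : g ∈ cm85_Vinf (K := K) N hπ) :
    partC_theta (coeffMap (IsLocalRing.residue R) xR) ≠ 0 := by
  obtain ⟨s, t, hs, hst⟩ := hgV
  intro h0
  have hΔ0 : DeltaSer (IsLocalRing.ResidueField R) ≠ 0 := by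
    intro h
    have h1 := DeltaSer_mul_DeltaInv (IsLocalRing.ResidueField R)
    rw [h, zero_mul] at h1
    exact zero_ne_one h1
  have hθx : partC_theta (x : LaurentSeries K) = coeffMap (algebraMap R K) (c2x11_theta xR) := by
    rw [← c2x11_theta_eq, hx, c2x11_coeffMap_theta]
  have h1 : coeffMap (algebraMap R K) (s * DeltaSer R) =
      coeffMap (algebraMap R K) (t * c2x11_theta xR ^ 6) := by
    rw [map_mul, map_mul, map_pow, coeffMap_DeltaSer, ← hθx, ← hst, ← hg]
    ring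
  have h2 := gv85_emb_injective (R := R) (K := K) h1
  have h3 := congrArg (coeffMap (IsLocalRing.residue R)) h2
  rw [map_mul, map_mul, map_pow, coeffMap_DeltaSer, c2x11_coeffMap_theta, c2x11_theta_eq, h0,
    zero_pow (by norm_num), mul_zero] at h3
  exact (mul_ne_zero hs hΔ0) h3

variable (φ : K →+* Kbar) (N q : ℕ) [NeZero N] [NeZero q] (hq : q.Prime) (hN : ¬ q ∣ N)
  [Algebra R ↥(modularFunctionFieldFullC K (N * q * q))]
  [IsScalarTower R K ↥(modularFunctionFieldFullC K (N * q * q))]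

include φ hq hN in
/-- **(C2) in an arbitrary coordinate, chart form.** -/
theorem c2x11_mid_dvd {π : R} (hπ : Irreducible π) (hqπ : Associated ((q : ℕ) : R) π)
    (V₂ : ValuationSubring ↥(modularFunctionFieldFullC K (N * q * q)))
    (hV₂ : ∀ c ∈ cm85_Vinf (K := K) (N * q) hπ, al97L_alpha K (N * q) q c ∈ V₂)
    (hπ₂ : (algebraMap K ↥(modularFunctionFieldFullC K (N * q * q)) (algebraMap R K π))⁻¹ ∉ V₂)
    (hne : cm85_Vinf (K := K) (N * q * q) hπ ≠ V₂)
    (s : ↥(modularFunctionFieldFullC K (N * q * q)))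
    (hs : V₂.valuation s ^ (q - 1) =
      V₂.valuation (algebraMap K ↥(modularFunctionFieldFullC K (N * q * q)) (algebraMap R K π)))
    (B : Subalgebra R ↥(modularFunctionFieldFullC K (N * q * q)))
    (V₁ V₃ : Subring ↥(modularFunctionFieldFullC K (N * q * q)))
    (hB₁ : ∀ y ∈ B, y ∈ V₁) (hB₂ : ∀ y ∈ B, y ∈ V₂) (hB₃ : ∀ y ∈ B, y ∈ V₃)
    (hsat : ∀ y ∈ B,
      (algebraMap R ↥(modularFunctionFieldFullC K (N * q * q)) π)⁻¹ * y ∈ V₁ →
      (algebraMap R ↥(modularFunctionFieldFullC K (N * q * q)) π)⁻¹ * y ∈ V₂ →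
      (algebraMap R ↥(modularFunctionFieldFullC K (N * q * q)) π)⁻¹ * y ∈ V₃ →
      (algebraMap R ↥(modularFunctionFieldFullC K (N * q * q)) π)⁻¹ * y ∈ B)
    (n : Ideal B) [hn : n.IsPrime]
    (hp2n : ∀ y : B, (y : ↥(modularFunctionFieldFullC K (N * q * q))) * s⁻¹ ∈ V₂ → y ∈ n)
    (a : B) (ha : a ∉ n)
    (ha₁ : (algebraMap R ↥(modularFunctionFieldFullC K (N * q * q)) π)⁻¹ *
      (a : ↥(modularFunctionFieldFullC K (N * q * q))) ∈ V₁)
    (ha₃ : (algebraMap R ↥(modularFunctionFieldFullC K (N * q * q)) π)⁻¹ *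
      (a : ↥(modularFunctionFieldFullC K (N * q * q))) ∈ V₃)
    (x : ↥(modularFunctionFieldFullC K N)) (xR : LaurentSeries R)
    (hx : (x : LaurentSeries K) = coeffMap (algebraMap R K) xR)
    (hθ : partC_theta (coeffMap (IsLocalRing.residue R) xR) ≠ 0)
    (sx : B) (hsx : (sx : ↥(modularFunctionFieldFullC K (N * q * q))) = c2x11_s K N q x)
    (g : ↥(modularFunctionFieldFullC K N)) (U : ↥(modularFunctionFieldFullC K (N * q)))
    (hg : (g : LaurentSeries K) * partC_theta (x : LaurentSeries K) ^ 6 = DeltaSer K)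
    (hU : (U : LaurentSeries K) = dq56_U K q)
    (ag tg : B) (htg : tg ∉ n)
    (hgn : al97L_alpha K (N * q) q (al97L_alpha K N q g) ^ (q - 1) *
      al97L_alpha K (N * q) q U * (tg : ↥(modularFunctionFieldFullC K (N * q * q))) =
        (ag : ↥(modularFunctionFieldFullC K (N * q * q)))) :
    ∃ c t : B, t ∉ n ∧ sx ^ (q - 1) * c = t * algebraMap R B π := by
  obtain ⟨hsxv, hvt1, hvt2, hmaxx, hP⟩ :=
    c2x11_coord φ N q hq hN hπ hqπ V₂ hV₂ hπ₂ hne s hs x xR hx hθ
  obtain ⟨-, -, hmaxs, -, -⟩ :=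
    ob72_ram (K := K) (N * q) q hq (dvd_mul_left q N) hπ V₂ hV₂ hπ₂ hne s hs
  have hπF : algebraMap R ↥(modularFunctionFieldFullC K (N * q * q)) π =
      algebraMap K ↥(modularFunctionFieldFullC K (N * q * q)) (algebraMap R K π) :=
    IsScalarTower.algebraMap_apply R K _ π
  have hπK0 : algebraMap K ↥(modularFunctionFieldFullC K (N * q * q)) (algebraMap R K π) ≠ 0 :=
    (map_ne_zero _).mpr ((map_ne_zero_iff _ (IsFractionRing.injective R K)).mpr hπ.ne_zero)
  have hπ0 : algebraMap R ↥(modularFunctionFieldFullC K (N * q * q)) π ≠ 0 := by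
    rw [hπF]; exact hπK0
  have hvπ : V₂.valuation (algebraMap K ↥(modularFunctionFieldFullC K (N * q * q))
      (algebraMap R K π)) ≠ 0 := (Valuation.ne_zero_iff _).2 hπK0
  have hq1 : q - 1 ≠ 0 := by have := hq.two_le; omega
  have hsx0 : c2x11_s K N q x ≠ 0 := by
    intro h
    rw [h, map_zero, zero_pow hq1] at hsxv
    exact hvπ hsxv.symm
  have hsxinv : (c2x11_s K N q x)⁻¹ ∉ V₂ := by
    intro h
    apply hπ₂
    have h1 : (algebraMap K ↥(modularFunctionFieldFullC K (N * q * q)) (algebraMap R K π))⁻¹ *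
        c2x11_s K N q x ^ (q - 1) ∈ V₂ := by
      rw [← V₂.valuation_le_one_iff, map_mul, map_inv₀, map_pow, hsxv, inv_mul_cancel₀ hvπ]
    have h2 : (algebraMap K ↥(modularFunctionFieldFullC K (N * q * q)) (algebraMap R K π))⁻¹ =
        ((c2x11_s K N q x)⁻¹) ^ (q - 1) *
          ((algebraMap K ↥(modularFunctionFieldFullC K (N * q * q)) (algebraMap R K π))⁻¹ *
            c2x11_s K N q x ^ (q - 1)) := by
      rw [inv_pow, mul_left_comm, inv_mul_cancel₀ (pow_ne_zero _ hsx0), mul_one]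
    rw [h2]
    exact mul_mem (pow_mem h _) h1
  have hsxV : c2x11_s K N q x ∈ V₂ := by
    rw [← hsx]; exact hB₂ _ sx.2
  have hss : s⁻¹ * c2x11_s K N q x ∈ V₂ := hmaxs _ hsxV hsxinv
  obtain ⟨u, hu⟩ := hqπ
  have hqπ' : ((q : ℕ) : R) = ((u⁻¹ : Rˣ) : R) * π := by
    rw [← hu, mul_comm ((q : ℕ) : R), ← mul_assoc, Units.inv_mul, one_mul]
  have hq0F : ((q : ℕ) : ↥(modularFunctionFieldFullC K (N * q * q))) ≠ 0 :=
    Nat.cast_ne_zero.mpr hq.ne_zero
  have hϑq : ((q : ℕ) : ↥(modularFunctionFieldFullC K (N * q * q))) * c2x11_vt K N q x =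
      (sx : ↥(modularFunctionFieldFullC K (N * q * q))) ^ (q - 1) := by
    unfold c2x11_vt
    rw [hsx, mul_inv_cancel_left₀ hq0F]
  have hcong : (c2x11_vt K N q x ^ 6 *
      (al97L_alpha K (N * q) q (al97L_alpha K N q g) ^ (q - 1) * al97L_alpha K (N * q) q U) - 1) *
      (sx : ↥(modularFunctionFieldFullC K (N * q * q)))⁻¹ ∈ V₂ := by
    have e : c2x11_P K N q x g U = c2x11_vt K N q x ^ 6 *
        (al97L_alpha K (N * q) q (al97L_alpha K N q g) ^ (q - 1) *
          al97L_alpha K (N * q) q U) := by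
      unfold c2x11_P
      exact mul_assoc _ _ _
    rw [← e, hsx]
    exact hP g U hg hU
  have hp2n' : ∀ y : B, (y : ↥(modularFunctionFieldFullC K (N * q * q))) *
      (sx : ↥(modularFunctionFieldFullC K (N * q * q)))⁻¹ ∈ V₂ → y ∈ n := by
    intro y hy
    apply hp2n
    have key : ∀ (Y S SX : ↥(modularFunctionFieldFullC K (N * q * q))), SX ≠ 0 →
        Y * S⁻¹ = Y * SX⁻¹ * (S⁻¹ * SX) := by
      intro Y S SX h
      have h' : Y * SX⁻¹ * (S⁻¹ * SX) = Y * S⁻¹ * (SX⁻¹ * SX) := by ring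
      rw [h', inv_mul_cancel₀ h, mul_one]
    rw [key _ s _ hsx0, ← hsx]
    rw [← hsx] at hss
    exact mul_mem hy hss
  exact c2p11_mid_dvd π ((u⁻¹ : Rˣ) : R) (u : R) (by rw [Units.inv_mul]) q hqπ' B V₁ V₂.toSubring V₃
    hB₁ hB₂ hB₃ hsat hπ0 n sx (c2x11_vt K N q x)
    (al97L_alpha K (N * q) q (al97L_alpha K N q g) ^ (q - 1) * al97L_alpha K (N * q) q U) 6
    (by norm_num) hϑq hvt1 hcong hp2n' a ha ha₁ ha₃ ag tg htg hgn

end c2x11_chart

end Fermat.Agent.S36
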