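import Fermat.Agent.S36.UnitWH31
import Fermat.Agent.S18.Pack85

/-!
# S36 lab (helper42), row 600 (C-C2): the per-point data of the coordinate route, FIELD HALF

For the two Hauptmoduln on main (`pk85_h2 K N _`, level 2; `pk85_h3 K N _`, level 3) the function
`G_x = Δ / (θ x)^6` of `c2x11_coord` / `c2x11_mid_dvd` / `c2h66_prinAt` is an explicit monomial:

* `c2dt42_six` : generic form (`θJ · A = θh · G`, `J^4 (J - 1728)^3 A^6 = G^6 R` ⟹
  `θh ≠ 0 ∧ (θh)^6 = R Δ`), any field of coefficients;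
* `c2dt42_theta2` : `J h² = (h + 256)³` ⟹ `θh ≠ 0 ∧ (θh)^6 = h^4 (h + 64)^3 Δ`;
* `c2dt42_theta3` : `J h³ = (h + 27)(h + 243)³` ⟹ `θh ≠ 0 ∧ (θh)^6 = h^3 (h + 27)^4 Δ`;
* `c2dt42_g2`, `c2dt42_g3` : the elements `g = (x^4 (x + 64)^3)⁻¹`, `(x^3 (x + 27)^4)⁻¹` of
  `F(N)_K`; `c2dt42_g2_theta`, `c2dt42_g3_theta` : `g * (θ x)^6 = Δ` (LITERALLY the hypothesis
  `hg` of `c2x11_mid_dvd`); `c2dt42_g2_mul`, `c2dt42_g3_mul` : `g * (x^4 (x+64)^3) = 1` etc.;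
* `c2dt42_h2_int`, `c2dt42_h3_int` : the `R`-integral expansions (hypothesis `hx`), and
  `c2dt42_h2_theta`, `c2dt42_h3_theta` : `θ (x mod π) ≠ 0` (hypothesis `hθ`), for every local
  ring `R` (any residue characteristic).

All names are prefixed `c2dt42_`.
-/

set_option autoImplicit false
set_option linter.unusedSectionVars false
set_option linter.style.longLine false

namespace Fermat.Agent.S36

open ModularCurve Polynomial
open Fermat.Agent.S28 Fermat.Agent.S34 Fermat.Agent.S18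

section c2dt42_series

variable (k : Type*) [Field k]

/-- Generic form: `θh ≠ 0` and `(θh)^6 = R Δ`. -/
theorem c2dt42_six (h Ah Gh Rh : LaurentSeries k) (hA0 : Ah ≠ 0)
    (ha : partC_theta (jqModC k) * Ah = partC_theta h * Gh)
    (hb : jqModC k ^ 4 * (jqModC k - 1728) ^ 3 * Ah ^ 6 = Gh ^ 6 * Rh) :
    partC_theta h ≠ 0 ∧ partC_theta h ^ 6 = Rh * DeltaSer k := by
  have hθJ := dq56_theta_J_ne_zero k
  have hprod : partC_theta h * Gh ≠ 0 := by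
    rw [← ha]
    exact mul_ne_zero hθJ hA0
  have hθh : partC_theta h ≠ 0 := left_ne_zero_of_mul hprod
  have hG : Gh ≠ 0 := right_ne_zero_of_mul hprod
  have hT := dq56_theta_pow_six k
  refine ⟨hθh, ?_⟩
  apply mul_right_cancel₀ (pow_ne_zero 6 hG)
  have e : (partC_theta h * Gh) ^ 6 = (partC_theta (jqModC k) * Ah) ^ 6 := by rw [ha]
  linear_combination e + Ah ^ 6 * hT + DeltaSer k * hb

/-- Level 2: `(θh)^6 = h^4 (h + 64)^3 Δ`. -/
theorem c2dt42_theta2 (h : LaurentSeries k) (hh0 : h ≠ 0)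
    (hrel : jqModC k * h ^ 2 = (h + 256) ^ 3) :
    partC_theta h ≠ 0 ∧ partC_theta h ^ 6 = h ^ 4 * (h + 64) ^ 3 * DeltaSer k := by
  have hrel2 : (jqModC k - 1728) * h ^ 2 = (h + 64) * (h - 512) ^ 2 := by
    linear_combination hrel
  have ha : partC_theta (jqModC k) * h ^ 3 = partC_theta h * ((h + 256) ^ 2 * (h - 512)) :=
    uwh31_der2 (dq56_theta k) (dq56_theta_leibniz k) (jqModC k) h hrel
  have hb : jqModC k ^ 4 * (jqModC k - 1728) ^ 3 * (h ^ 3) ^ 6 =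
      ((h + 256) ^ 2 * (h - 512)) ^ 6 * (h ^ 4 * (h + 64) ^ 3) := by
    have e : jqModC k ^ 4 * (jqModC k - 1728) ^ 3 * (h ^ 3) ^ 6 =
        (jqModC k * h ^ 2) ^ 4 * ((jqModC k - 1728) * h ^ 2) ^ 3 * h ^ 4 := by
      ring
    rw [e, hrel, hrel2]
    ring
  exact c2dt42_six k h (h ^ 3) ((h + 256) ^ 2 * (h - 512)) (h ^ 4 * (h + 64) ^ 3)
    (pow_ne_zero 3 hh0) ha hb

/-- Level 3: `(θh)^6 = h^3 (h + 27)^4 Δ`. -/
theorem c2dt42_theta3 (h : LaurentSeries k) (hh0 : h ≠ 0)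
    (hrel : jqModC k * h ^ 3 = (h + 27) * (h + 243) ^ 3) :
    partC_theta h ≠ 0 ∧ partC_theta h ^ 6 = h ^ 3 * (h + 27) ^ 4 * DeltaSer k := by
  have hrel2 : (jqModC k - 1728) * h ^ 3 = (h ^ 2 - 486 * h - 19683) ^ 2 := by
    linear_combination hrel
  have ha : partC_theta (jqModC k) * h ^ 4 =
      partC_theta h * ((h + 243) ^ 2 * (h ^ 2 - 486 * h - 19683)) :=
    uwh31_der3 (dq56_theta k) (dq56_theta_leibniz k) (jqModC k) h hrel
  have hb : jqModC k ^ 4 * (jqModC k - 1728) ^ 3 * (h ^ 4) ^ 6 =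
      ((h + 243) ^ 2 * (h ^ 2 - 486 * h - 19683)) ^ 6 * (h ^ 3 * (h + 27) ^ 4) := by
    have e : jqModC k ^ 4 * (jqModC k - 1728) ^ 3 * (h ^ 4) ^ 6 =
        (jqModC k * h ^ 3) ^ 4 * ((jqModC k - 1728) * h ^ 3) ^ 3 * h ^ 3 := by
      ring
    rw [e, hrel, hrel2]
    ring
  exact c2dt42_six k h (h ^ 4) ((h + 243) ^ 2 * (h ^ 2 - 486 * h - 19683))
    (h ^ 3 * (h + 27) ^ 4) (pow_ne_zero 4 hh0) ha hb

/-- `h70_h2` over any field: `θ ≠ 0` and the sixth-power identity. -/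
theorem c2dt42_h2_series :
    partC_theta (h70_h2 k) ≠ 0 ∧
      partC_theta (h70_h2 k) ^ 6 = h70_h2 k ^ 4 * (h70_h2 k + 64) ^ 3 * DeltaSer k :=
  c2dt42_theta2 k (h70_h2 k) (uwh31_h2_ok k).1 (uwh31_h2_ok k).2

/-- `h34_h3R` over any field: `θ ≠ 0` and the sixth-power identity. -/
theorem c2dt42_h3_series :
    partC_theta (h34_h3R k) ≠ 0 ∧
      partC_theta (h34_h3R k) ^ 6 = h34_h3R k ^ 3 * (h34_h3R k + 27) ^ 4 * DeltaSer k :=
  c2dt42_theta3 k (h34_h3R k) (uwh31_h3_ok k).1 (uwh31_h3_ok k).2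

end c2dt42_series

section c2dt42_field

variable (K : Type) [Field K] [CharZero K] (N : ℕ) [NeZero N]

/-- `G_x` for `x = pk85_h2`: `(x^4 (x + 64)^3)⁻¹`. -/
noncomputable def c2dt42_g2 (h2 : 2 ∣ N) : ↥(modularFunctionFieldFullC K N) :=
  (pk85_h2 K N h2 ^ 4 * (pk85_h2 K N h2 + 64) ^ 3)⁻¹

/-- `G_x` for `x = pk85_h3`: `(x^3 (x + 27)^4)⁻¹`. -/
noncomputable def c2dt42_g3 (h3 : 3 ∣ N) : ↥(modularFunctionFieldFullC K N) :=
  (pk85_h3 K N h3 ^ 3 * (pk85_h3 K N h3 + 27) ^ 4)⁻¹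

theorem c2dt42_den2_ne_zero (h2 : 2 ∣ N) :
    pk85_h2 K N h2 ^ 4 * (pk85_h2 K N h2 + 64) ^ 3 ≠ 0 := by
  intro h0
  obtain ⟨hθ, h6⟩ := c2dt42_h2_series K
  have h1 := congrArg (fun z : ↥(modularFunctionFieldFullC K N) => (z : LaurentSeries K)) h0
  push_cast at h1
  rw [pk85_h2_coe] at h1
  have h1' : h70_h2 K ^ 4 * (h70_h2 K + 64) ^ 3 = 0 := h1
  rw [h1', zero_mul] at h6
  exact hθ (pow_eq_zero_iff (by norm_num) |>.mp h6)

theorem c2dt42_den3_ne_zero (h3 : 3 ∣ N) :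
    pk85_h3 K N h3 ^ 3 * (pk85_h3 K N h3 + 27) ^ 4 ≠ 0 := by
  intro h0
  obtain ⟨hθ, h6⟩ := c2dt42_h3_series K
  have h1 := congrArg (fun z : ↥(modularFunctionFieldFullC K N) => (z : LaurentSeries K)) h0
  push_cast at h1
  rw [pk85_h3_coe] at h1
  have h1' : h34_h3R K ^ 3 * (h34_h3R K + 27) ^ 4 = 0 := h1
  rw [h1', zero_mul] at h6
  exact hθ (pow_eq_zero_iff (by norm_num) |>.mp h6)

theorem c2dt42_g2_mul (h2 : 2 ∣ N) :
    c2dt42_g2 K N h2 * (pk85_h2 K N h2 ^ 4 * (pk85_h2 K N h2 + 64) ^ 3) = 1 :=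
  inv_mul_cancel₀ (c2dt42_den2_ne_zero K N h2)

theorem c2dt42_g3_mul (h3 : 3 ∣ N) :
    c2dt42_g3 K N h3 * (pk85_h3 K N h3 ^ 3 * (pk85_h3 K N h3 + 27) ^ 4) = 1 :=
  inv_mul_cancel₀ (c2dt42_den3_ne_zero K N h3)

/-- **`hg` of `c2x11_mid_dvd` for `x = pk85_h2`.** -/
theorem c2dt42_g2_theta (h2 : 2 ∣ N) :
    ((c2dt42_g2 K N h2 : ↥(modularFunctionFieldFullC K N)) : LaurentSeries K) *
      partC_theta ((pk85_h2 K N h2 : ↥(modularFunctionFieldFullC K N)) : LaurentSeries K) ^ 6 =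
        DeltaSer K := by
  obtain ⟨-, h6⟩ := c2dt42_h2_series K
  have h1 := congrArg (fun z : ↥(modularFunctionFieldFullC K N) => (z : LaurentSeries K))
    (c2dt42_g2_mul K N h2)
  push_cast at h1
  rw [pk85_h2_coe] at h1 ⊢
  have h1' : ((c2dt42_g2 K N h2 : ↥(modularFunctionFieldFullC K N)) : LaurentSeries K) *
      (h70_h2 K ^ 4 * (h70_h2 K + 64) ^ 3) = 1 := h1
  rw [h6, ← mul_assoc, h1', one_mul]

/-- **`hg` of `c2x11_mid_dvd` for `x = pk85_h3`.** -/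
theorem c2dt42_g3_theta (h3 : 3 ∣ N) :
    ((c2dt42_g3 K N h3 : ↥(modularFunctionFieldFullC K N)) : LaurentSeries K) *
      partC_theta ((pk85_h3 K N h3 : ↥(modularFunctionFieldFullC K N)) : LaurentSeries K) ^ 6 =
        DeltaSer K := by
  obtain ⟨-, h6⟩ := c2dt42_h3_series K
  have h1 := congrArg (fun z : ↥(modularFunctionFieldFullC K N) => (z : LaurentSeries K))
    (c2dt42_g3_mul K N h3)
  push_cast at h1
  rw [pk85_h3_coe] at h1 ⊢
  have h1' : ((c2dt42_g3 K N h3 : ↥(modularFunctionFieldFullC K N)) : LaurentSeries K) *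
      (h34_h3R K ^ 3 * (h34_h3R K + 27) ^ 4) = 1 := h1
  rw [h6, ← mul_assoc, h1', one_mul]

end c2dt42_field

section c2dt42_int

variable {R : Type} [CommRing R] [IsLocalRing R] (K : Type) [Field K] [CharZero K] [Algebra R K]
  (N : ℕ) [NeZero N]

/-- **`hx` for `x = pk85_h2`**: the `R`-integral expansion. -/
theorem c2dt42_h2_int (h2 : 2 ∣ N) :
    ((pk85_h2 K N h2 : ↥(modularFunctionFieldFullC K N)) : LaurentSeries K) =
      coeffMap (algebraMap R K) (h70_h2 R) := by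
  rw [pk85_h2_coe, h70_coeffMap_h2]

/-- **`hx` for `x = pk85_h3`**: the `R`-integral expansion. -/
theorem c2dt42_h3_int (h3 : 3 ∣ N) :
    ((pk85_h3 K N h3 : ↥(modularFunctionFieldFullC K N)) : LaurentSeries K) =
      coeffMap (algebraMap R K) (h34_h3R R) := by
  rw [pk85_h3_coe, h34_coeffMap_h3R]

variable (R) in
/-- **`hθ` for `x = pk85_h2`**: `θ (h mod π) ≠ 0`. -/
theorem c2dt42_h2_theta :
    partC_theta (coeffMap (IsLocalRing.residue R) (h70_h2 R)) ≠ 0 := by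
  rw [h70_coeffMap_h2]
  exact (c2dt42_h2_series (IsLocalRing.ResidueField R)).1

variable (R) in
/-- **`hθ` for `x = pk85_h3`**: `θ (h mod π) ≠ 0`. -/
theorem c2dt42_h3_theta :
    partC_theta (coeffMap (IsLocalRing.residue R) (h34_h3R R)) ≠ 0 := by
  rw [h34_coeffMap_h3R]
  exact (c2dt42_h3_series (IsLocalRing.ResidueField R)).1

end c2dt42_int

end Fermat.Agent.S36
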