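import Fermat.Agent.S36.C2Chart24
import Fermat.Agent.S36.LocStrThree71

/-!
S36 lab, registry row 600 (C-C2), adapter (helper31, backup of helper24).

**From the chart form of (C2) to the literal `tl71_MidDivAt`** (the hypothesis `hD₂` of
`tl71_twoGen` / `tg7_twoGen_level2/3` / `tg73`), at a closed point `n` on the middle branch only.

* `c2m31_sep`          : the separator `a ∉ n`, `π⁻¹ a ∈ V₁ ⊓ V₃`, from `¬ sf79_OnBr` twice.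
* `c2m31_midDivAt`     : `ϑ = g^(q-1)/q ∈ V₂`, `ϑ + w ∈ g V₂`, `w` without zero at `n`,
                         `g ~ σ` in `V₂`, `g` a unit of `V₁`, `V₃`  ⟹  `tl71_MidDivAt π σ B V₁ V₂ V₃ n`
                         (generator `g`, exponent `k = q - 2`).
* `c2m31_midDivAt_val` : the same for a valuation subring `V₂`, where `g ~ σ` and `ϑ ∈ V₂` are
                         DERIVED from `v₂(w) = 1`, `v₂(g) < 1` and `v₂(σ)^(q-1) = v₂(q)`.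
* `c2m31_midDivAt_den` : with a denominator: `g = b * sF`, `b ∉ n`, `σ` a uniformiser of `V₂`.
-/

set_option autoImplicit false

namespace Fermat.Agent.S36

open Fermat.Agent.S34 Fermat.Agent.S36.TripleLoc71

section

variable {R F : Type*} [CommRing R] [Field F] [Algebra R F]

/-- The separator at a point which is neither on the branch `V₁` nor on the branch `V₃`. -/
theorem c2m31_sep (π : R) (B : Subalgebra R F) (V₁ V₃ : Subring F)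
    (hB₁ : ∀ x ∈ B, x ∈ V₁) (hB₃ : ∀ x ∈ B, x ∈ V₃) (n : Ideal B) [hn : n.IsPrime]
    (h1 : ¬ sf79_OnBr π B V₁ n) (h3 : ¬ sf79_OnBr π B V₃ n) :
    ∃ a : B, a ∉ n ∧ (algebraMap R F π)⁻¹ * (a : F) ∈ V₁ ∧
      (algebraMap R F π)⁻¹ * (a : F) ∈ V₃ := by
  have h1' : ∃ a₁ : B, (algebraMap R F π)⁻¹ * (a₁ : F) ∈ V₁ ∧ a₁ ∉ n := by
    by_contra hcon
    exact h1 (fun x hx => by
      by_contra hxn
      exact hcon ⟨x, hx, hxn⟩)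
  have h3' : ∃ a₃ : B, (algebraMap R F π)⁻¹ * (a₃ : F) ∈ V₃ ∧ a₃ ∉ n := by
    by_contra hcon
    exact h3 (fun x hx => by
      by_contra hxn
      exact hcon ⟨x, hx, hxn⟩)
  obtain ⟨a₁, ha₁, ha₁n⟩ := h1'
  obtain ⟨a₃, ha₃, ha₃n⟩ := h3'
  refine ⟨a₁ * a₃, fun h => (hn.mem_or_mem h).elim ha₁n ha₃n, ?_, ?_⟩
  · have : (algebraMap R F π)⁻¹ * ((a₁ * a₃ : B) : F) =
        ((algebraMap R F π)⁻¹ * (a₁ : F)) * (a₃ : F) := by
      push_cast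
      ring
    rw [this]
    exact V₁.mul_mem ha₁ (hB₁ _ a₃.2)
  · have : (algebraMap R F π)⁻¹ * ((a₁ * a₃ : B) : F) =
        (a₁ : F) * ((algebraMap R F π)⁻¹ * (a₃ : F)) := by
      push_cast
      ring
    rw [this]
    exact V₃.mul_mem (hB₃ _ a₁.2) ha₃

/-- **Adapter.**  The chart form of (C2) gives the literal `tl71_MidDivAt` at `n`. -/
theorem c2m31_midDivAt (π u u' : R) (huu' : u * u' = 1) (q : ℕ) (hq : q.Prime)
    (hqπ : (q : R) = u * π)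
    (B : Subalgebra R F) (V₁ V₂ V₃ : Subring F)
    (hB₁ : ∀ x ∈ B, x ∈ V₁) (hB₂ : ∀ x ∈ B, x ∈ V₂) (hB₃ : ∀ x ∈ B, x ∈ V₃)
    (hsat : ∀ x ∈ B, (algebraMap R F π)⁻¹ * x ∈ V₁ → (algebraMap R F π)⁻¹ * x ∈ V₂ →
      (algebraMap R F π)⁻¹ * x ∈ V₃ → (algebraMap R F π)⁻¹ * x ∈ B)
    (hπ0 : algebraMap R F π ≠ 0)
    (σ : F) (n : Ideal B) [hn : n.IsPrime]
    (hOn : tl71_OnMid σ B V₂ n) (h1 : ¬ sf79_OnBr π B V₁ n) (h3 : ¬ sf79_OnBr π B V₃ n)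
    (g : B) (hg0 : (g : F) ≠ 0) (ϑ w : F)
    (hϑq : (q : F) * ϑ = (g : F) ^ (q - 1)) (hϑ₂ : ϑ ∈ V₂)
    (hcong : (ϑ + w) * (g : F)⁻¹ ∈ V₂)
    (hgσ : (g : F) * σ⁻¹ ∈ V₂) (hσg : σ * (g : F)⁻¹ ∈ V₂)
    (hg₁ : (g : F)⁻¹ ∈ V₁) (hg₃ : (g : F)⁻¹ ∈ V₃)
    (aw tw : B) (haw : aw ∉ n) (hw : w * (tw : F) = (aw : F)) :
    tl71_MidDivAt π σ B V₁ V₂ V₃ n := by
  obtain ⟨a, ha, ha₁, ha₃⟩ := c2m31_sep π B V₁ V₃ hB₁ hB₃ n h1 h3
  have hp2n : ∀ x : B, (x : F) * (g : F)⁻¹ ∈ V₂ → x ∈ n := by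
    intro x hx
    apply hOn
    have : (x : F) * σ⁻¹ = ((x : F) * (g : F)⁻¹) * ((g : F) * σ⁻¹) := by
      field_simp
    rw [this]
    exact V₂.mul_mem hx hgσ
  obtain ⟨c, t, ht, hsc⟩ := c2b24_mid_dvd π u u' huu' q hqπ B V₁ V₂ V₃ hB₁ hB₂ hB₃ hsat hπ0 n
    g ϑ w hϑq hϑ₂ hcong hp2n a ha ha₁ ha₃ aw tw haw hw
  have hqe : q - 1 = (q - 2) + 1 := by
    have := hq.two_le
    omega
  exact ⟨g, c, t, q - 2, ht, by rw [← hqe]; exact hsc, hgσ, hσg, hg₁, hg₃⟩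

/-- **Valuation form.**  `V₂` a valuation subring; `g ~ σ` and `ϑ ∈ V₂` are derived from
`v₂(w) = 1`, `v₂(g) < 1`, `v₂(σ)^(q-1) = v₂(q)`. -/
theorem c2m31_midDivAt_val (π u u' : R) (huu' : u * u' = 1) (q : ℕ) (hq : q.Prime)
    (hqπ : (q : R) = u * π)
    (B : Subalgebra R F) (V₁ V₃ : Subring F) (V₂ : ValuationSubring F)
    (hB₁ : ∀ x ∈ B, x ∈ V₁) (hB₂ : ∀ x ∈ B, x ∈ V₂) (hB₃ : ∀ x ∈ B, x ∈ V₃)
    (hsat : ∀ x ∈ B, (algebraMap R F π)⁻¹ * x ∈ V₁ → (algebraMap R F π)⁻¹ * x ∈ V₂ →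
      (algebraMap R F π)⁻¹ * x ∈ V₃ → (algebraMap R F π)⁻¹ * x ∈ B)
    (hπ0 : algebraMap R F π ≠ 0)
    (σ : F) (hσ : V₂.valuation σ ^ (q - 1) = V₂.valuation (q : F))
    (n : Ideal B) [hn : n.IsPrime]
    (hOn : tl71_OnMid σ B V₂.toSubring n) (h1 : ¬ sf79_OnBr π B V₁ n)
    (h3 : ¬ sf79_OnBr π B V₃ n)
    (g : B) (hg0 : (g : F) ≠ 0) (ϑ w : F)
    (hϑq : (q : F) * ϑ = (g : F) ^ (q - 1))
    (hcong : (ϑ + w) * (g : F)⁻¹ ∈ V₂)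
    (hw1 : V₂.valuation w = 1) (hgm : V₂.valuation (g : F) < 1)
    (hg₁ : (g : F)⁻¹ ∈ V₁) (hg₃ : (g : F)⁻¹ ∈ V₃)
    (aw tw : B) (haw : aw ∉ n) (hw : w * (tw : F) = (aw : F)) :
    tl71_MidDivAt π σ B V₁ V₂.toSubring V₃ n := by
  have hq2 := hq.two_le
  -- v(ϑ + w) < 1
  have hsum : V₂.valuation (ϑ + w) < 1 := by
    have h : ϑ + w = ((ϑ + w) * (g : F)⁻¹) * (g : F) := by
      field_simp
    rw [h, map_mul]
    have h1' : V₂.valuation ((ϑ + w) * (g : F)⁻¹) ≤ 1 := (V₂.valuation_le_one_iff _).mpr hcong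
    calc V₂.valuation ((ϑ + w) * (g : F)⁻¹) * V₂.valuation (g : F)
        ≤ 1 * V₂.valuation (g : F) := mul_le_mul_left h1' _
      _ = V₂.valuation (g : F) := one_mul _
      _ < 1 := hgm
  -- v(ϑ) = 1
  have hϑ1 : V₂.valuation ϑ = 1 := by
    have h : ϑ = -w + (ϑ + w) := by ring
    have hnw : V₂.valuation (-w) = 1 := by rw [Valuation.map_neg, hw1]
    rw [h, Valuation.map_add_eq_of_lt_left _ (by rw [hnw]; exact hsum), hnw]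
  have hϑ₂ : ϑ ∈ V₂ := (V₂.valuation_le_one_iff _).mp hϑ1.le
  -- v(g) = v(σ)
  have hgσv : V₂.valuation (g : F) = V₂.valuation σ := by
    have h : V₂.valuation (g : F) ^ (q - 1) = V₂.valuation σ ^ (q - 1) := by
      rw [hσ, ← map_pow, ← hϑq, map_mul, hϑ1, mul_one]
    exact (pow_left_inj (by omega)).mp h
  have hgv0 : V₂.valuation (g : F) ≠ 0 := (V₂.valuation.ne_zero_iff).mpr hg0
  have hgσ : (g : F) * σ⁻¹ ∈ V₂ := by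
    rw [← V₂.valuation_le_one_iff, map_mul, map_inv₀, ← hgσv, mul_inv_cancel₀ hgv0]
  have hσg : σ * (g : F)⁻¹ ∈ V₂ := by
    rw [← V₂.valuation_le_one_iff, map_mul, map_inv₀, ← hgσv, mul_inv_cancel₀ hgv0]
  exact c2m31_midDivAt π u u' huu' q hq hqπ B V₁ V₂.toSubring V₃ hB₁ hB₂ hB₃ hsat hπ0 σ n hOn
    h1 h3 g hg0 ϑ w hϑq hϑ₂ hcong hgσ hσg hg₁ hg₃ aw tw haw hw

/-- **With a denominator.**  `g = b * sF` with `b ∈ B`, `b ∉ n`; `σ` a uniformiser of `V₂`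
(`huni`); `ϑ = sF^(q-1)/q`, `ϑ + w ∈ sF V₂` (outputs of `c2c24_kron_field`, `c2d24_coord2/3`,
`ht31_level2/3` for `sF = t(q²τ) - t(τ)`). -/
theorem c2m31_midDivAt_den (π u u' : R) (huu' : u * u' = 1) (q : ℕ) (hq : q.Prime)
    (hqπ : (q : R) = u * π)
    (B : Subalgebra R F) (V₁ V₃ : Subring F) (V₂ : ValuationSubring F)
    (hB₁ : ∀ x ∈ B, x ∈ V₁) (hB₂ : ∀ x ∈ B, x ∈ V₂) (hB₃ : ∀ x ∈ B, x ∈ V₃)
    (hsat : ∀ x ∈ B, (algebraMap R F π)⁻¹ * x ∈ V₁ → (algebraMap R F π)⁻¹ * x ∈ V₂ →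
      (algebraMap R F π)⁻¹ * x ∈ V₃ → (algebraMap R F π)⁻¹ * x ∈ B)
    (hπ0 : algebraMap R F π ≠ 0)
    (σ : F) (hσ : V₂.valuation σ ^ (q - 1) = V₂.valuation (q : F))
    (huni : ∀ x : F, V₂.valuation x < 1 → x * σ⁻¹ ∈ V₂)
    (n : Ideal B) [hn : n.IsPrime]
    (hOn : tl71_OnMid σ B V₂.toSubring n) (h1 : ¬ sf79_OnBr π B V₁ n)
    (h3 : ¬ sf79_OnBr π B V₃ n)
    (g b : B) (sF : F) (hgb : (g : F) = (b : F) * sF) (hbn : b ∉ n) (hs0 : sF ≠ 0)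
    (ϑ w : F)
    (hϑq : (q : F) * ϑ = sF ^ (q - 1))
    (hcong : (ϑ + w) * sF⁻¹ ∈ V₂)
    (hw1 : V₂.valuation w = 1) (hsm : V₂.valuation sF < 1)
    (hg₁ : (g : F)⁻¹ ∈ V₁) (hg₃ : (g : F)⁻¹ ∈ V₃)
    (aw tw : B) (haw : aw ∉ n) (hw : w * (tw : F) = (aw : F)) :
    tl71_MidDivAt π σ B V₁ V₂.toSubring V₃ n := by
  have hq2 := hq.two_le
  have hb0 : (b : F) ≠ 0 := by
    intro h
    apply hbn
    have : b = 0 := Subtype.ext h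
    rw [this]
    exact n.zero_mem
  have hg0 : (g : F) ≠ 0 := by rw [hgb]; exact mul_ne_zero hb0 hs0
  -- `b ∉ n` is a unit of `V₂` because `p₂ ⊆ n` and `σ` is a uniformiser
  have hbV : V₂.valuation (b : F) = 1 := by
    have hle : V₂.valuation (b : F) ≤ 1 := (V₂.valuation_le_one_iff _).mpr (hB₂ _ b.2)
    by_contra hne
    exact hbn (hOn b (huni _ (lt_of_le_of_ne hle hne)))
  have hqe : q - 1 = (q - 2) + 1 := by omega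
  refine c2m31_midDivAt_val π u u' huu' q hq hqπ B V₁ V₃ V₂ hB₁ hB₂ hB₃ hsat hπ0 σ hσ n hOn
    h1 h3 g hg0 ((b : F) ^ (q - 1) * ϑ) ((b : F) ^ (q - 1) * w) ?_ ?_ ?_ ?_ hg₁ hg₃
    (b ^ (q - 1) * aw) tw ?_ ?_
  · rw [hgb, mul_pow, ← hϑq]
    ring
  · have : ((b : F) ^ (q - 1) * ϑ + (b : F) ^ (q - 1) * w) * (g : F)⁻¹
        = (b : F) ^ (q - 2) * ((ϑ + w) * sF⁻¹) := by
      rw [hgb, hqe, pow_succ, mul_inv]
      field_simp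
    rw [this]
    exact mul_mem (pow_mem (hB₂ _ b.2) _) hcong
  · rw [map_mul, map_pow, hbV, one_pow, one_mul, hw1]
  · rw [hgb, map_mul, hbV, one_mul]
    exact hsm
  · exact fun h => (hn.mem_or_mem h).elim (fun h' => hbn (hn.mem_of_pow_mem _ h')) haw
  · push_cast
    rw [← hw]
    ring

end

end Fermat.Agent.S36
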