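import Fermat.Agent.S36.C2CoordChart11
import Fermat.Agent.S36.MidCuspGen25
import Fermat.Agent.S36.C2MidDiv31

/-!
# S36 lab, row C-C2 (helper66): the coordinate form of (C2) WITH A DENOMINATOR

`c2h66_prinAt` : on the frame of level `N q²` (`V₂` ANY valuation subring with the four facts of
`ob72_ram`, uniformizer datum `s`), for a chart `B ⊆ V₁ ⊓ V₂ ⊓ V₃` saturated, a prime `n` of `B`
on the middle branch only, a coordinate `x ∈ F(N)_K` with `R`-integral expansion and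
`θ x ≢ 0` modulo `π`, a denominator `b ∈ B ∖ n` with `b * s_x ∈ B`
(`s_x = β₂β₁ x - α₂α₁ x`), `g * (θ x)^6 = Δ`, and `(α₂α₁ g)^(q-1) * α₂ U` without pole at `n`:
the middle branch is principal at `n` (`mc25_MidPrinAt s B V₂ n`), generator `b * s_x`.

This is `c2x11_mid_dvd` (helper11) without the assumption `s_x ∈ B`, composed with
`mc25_prinAt_of_dvd` (helper25).

All names are prefixed `c2h66_`.
-/

set_option autoImplicit false
set_option linter.unusedSectionVars false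
set_option linter.style.haveILetI false
set_option linter.style.longLine false
set_option linter.unusedVariables false

open ModularCurve IntermediateField

namespace Fermat.Agent.S36

open Fermat.Agent.S18 Fermat.Agent.S24 Fermat.Agent.S28 Fermat.Agent.S37 Fermat.Agent.S34
open Fermat.Agent.S35 Fermat.Agent.S36.TripleLoc71

section c2h66_val

/-- `v(x) < 1` gives `x ∈ V` and (`x = 0` or `x⁻¹ ∉ V`). -/
theorem c2h66_of_lt_one {F : Type*} [Field F] (V : ValuationSubring F) (x : F)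
    (hx : V.valuation x < 1) : x ∈ V ∧ (x ≠ 0 → x⁻¹ ∉ V) := by
  refine ⟨(V.valuation_le_one_iff x).mp hx.le, fun hx0 hinv => ?_⟩
  have h1 : V.valuation x⁻¹ ≤ 1 := (V.valuation_le_one_iff _).mpr hinv
  have h0 : V.valuation x ≠ 0 := (Valuation.ne_zero_iff _).mpr hx0
  rw [map_inv₀] at h1
  have h2 : 1 ≤ V.valuation x := (inv_le_one₀ (zero_lt_iff.mpr h0)).mp h1
  exact absurd hx (not_lt.mpr h2)

/-- If `v(y)^(k) = v(p)` with `k ≠ 0` and `p⁻¹ ∉ V`, then `y ≠ 0`, `y ∈ V`, `y⁻¹ ∉ V`. -/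
theorem c2h66_unif_basic {F : Type*} [Field F] (V : ValuationSubring F) (y p : F) (k : ℕ)
    (hk : k ≠ 0) (hp0 : p ≠ 0) (hp : p⁻¹ ∉ V) (hy : V.valuation y ^ k = V.valuation p) :
    y ≠ 0 ∧ y ∈ V ∧ y⁻¹ ∉ V := by
  have hvp0 : V.valuation p ≠ 0 := (Valuation.ne_zero_iff _).mpr hp0
  have hvp : V.valuation p < 1 := by
    by_contra hcon
    apply hp
    rw [← V.valuation_le_one_iff, map_inv₀]
    exact inv_le_one_of_one_le₀ (not_lt.mp hcon)
  have hy0 : y ≠ 0 := by
    intro h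
    rw [h, map_zero, zero_pow hk] at hy
    exact hvp0 hy.symm
  have hvy : V.valuation y < 1 := by
    by_contra hcon
    have h1 : 1 ≤ V.valuation y ^ k := one_le_pow₀ (not_lt.mp hcon)
    rw [hy] at h1
    exact absurd hvp (not_lt.mpr h1)
  obtain ⟨h1, h2⟩ := c2h66_of_lt_one V y hvy
  exact ⟨hy0, h1, h2 hy0⟩

end c2h66_val

section c2h66_chart

variable {R K : Type} [CommRing R] [IsDomain R] [IsDiscreteValuationRing R] [Field K] [CharZero K]
  [Algebra R K] [IsFractionRing R K]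

variable (φ : K →+* Kbar) (N q : ℕ) [NeZero N] [NeZero q] (hq : q.Prime) (hN : ¬ q ∣ N)
  [Algebra R ↥(modularFunctionFieldFullC K (N * q * q))]
  [IsScalarTower R K ↥(modularFunctionFieldFullC K (N * q * q))]

include φ hq hN in
/-- **(C2) in an arbitrary coordinate, chart form with a denominator, principal form.** -/
theorem c2h66_prinAt {π : R} (hπ : Irreducible π) (hqπ : Associated ((q : ℕ) : R) π)
    (V₂ : ValuationSubring ↥(modularFunctionFieldFullC K (N * q * q)))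
    (hV₂ : ∀ c ∈ cm85_Vinf (K := K) (N * q) hπ, al97L_alpha K (N * q) q c ∈ V₂)
    (hπ₂ : (algebraMap K ↥(modularFunctionFieldFullC K (N * q * q)) (algebraMap R K π))⁻¹ ∉ V₂)
    (hne : cm85_Vinf (K := K) (N * q * q) hπ ≠ V₂)
    (s : ↥(modularFunctionFieldFullC K (N * q * q)))
    (hs : V₂.valuation s ^ (q - 1) =
      V₂.valuation (algebraMap K ↥(modularFunctionFieldFullC K (N * q * q)) (algebraMap R K π)))
    (B : Subalgebra R ↥(modularFunctionFieldFullC K (N * q * q)))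
    (V₁ V₃ : Subring ↥(modularFunctionFieldFullC K (N * q * q)))
    (hB₁ : ∀ y ∈ B, y ∈ V₁) (hB₂ : ∀ y ∈ B, y ∈ V₂.toSubring) (hB₃ : ∀ y ∈ B, y ∈ V₃)
    (hsat : ∀ y ∈ B,
      (algebraMap R ↥(modularFunctionFieldFullC K (N * q * q)) π)⁻¹ * y ∈ V₁ →
      (algebraMap R ↥(modularFunctionFieldFullC K (N * q * q)) π)⁻¹ * y ∈ V₂.toSubring →
      (algebraMap R ↥(modularFunctionFieldFullC K (N * q * q)) π)⁻¹ * y ∈ V₃ →
      (algebraMap R ↥(modularFunctionFieldFullC K (N * q * q)) π)⁻¹ * y ∈ B)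
    (n : Ideal B) [hn : n.IsPrime]
    (hmid : tl71_OnMid s B V₂.toSubring n)
    (h1 : ¬ sf79_OnBr π B V₁ n) (h3 : ¬ sf79_OnBr π B V₃ n)
    (x : ↥(modularFunctionFieldFullC K N)) (xR : LaurentSeries R)
    (hx : (x : LaurentSeries K) = coeffMap (algebraMap R K) xR)
    (hθ : partC_theta (coeffMap (IsLocalRing.residue R) xR) ≠ 0)
    (b sB : B) (hb : b ∉ n)
    (hsB : (sB : ↥(modularFunctionFieldFullC K (N * q * q))) =
      (b : ↥(modularFunctionFieldFullC K (N * q * q))) * c2x11_s K N q x)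
    (g : ↥(modularFunctionFieldFullC K N)) (U : ↥(modularFunctionFieldFullC K (N * q)))
    (hg : (g : LaurentSeries K) * partC_theta (x : LaurentSeries K) ^ 6 = DeltaSer K)
    (hU : (U : LaurentSeries K) = dq56_U K q)
    (ag tg : B) (htg : tg ∉ n)
    (hgn : al97L_alpha K (N * q) q (al97L_alpha K N q g) ^ (q - 1) *
      al97L_alpha K (N * q) q U * (tg : ↥(modularFunctionFieldFullC K (N * q * q))) =
        (ag : ↥(modularFunctionFieldFullC K (N * q * q)))) :
    mc25_MidPrinAt s B V₂.toSubring n := by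
  obtain ⟨hsxv, hvt1, hvt2, hmaxx, hP⟩ :=
    c2x11_coord φ N q hq hN hπ hqπ V₂ hV₂ hπ₂ hne s hs x xR hx hθ
  obtain ⟨-, -, hmaxs, -, -⟩ :=
    ob72_ram (K := K) (N * q) q hq (dvd_mul_left q N) hπ V₂ hV₂ hπ₂ hne s hs
  have hπF : algebraMap R ↥(modularFunctionFieldFullC K (N * q * q)) π =
      algebraMap K ↥(modularFunctionFieldFullC K (N * q * q)) (algebraMap R K π) :=
    IsScalarTower.algebraMap_apply R K _ π
  have hπK0 : algebraMap K ↥(modularFunctionFieldFullC K (N * q * q)) (algebraMap R K π) ≠ 0 :=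
    (map_ne_zero _).mpr ((map_ne_zero_iff _ (IsFractionRing.injective R K)).mpr hπ.ne_zero)
  have hπ0 : algebraMap R ↥(modularFunctionFieldFullC K (N * q * q)) π ≠ 0 := by
    rw [hπF]; exact hπK0
  have hq2 := hq.two_le
  have hq1 : q - 1 ≠ 0 := by omega
  -- the two uniformizers
  obtain ⟨hD0, hDV, hDinv⟩ := c2h66_unif_basic V₂ (c2x11_s K N q x) _ (q - 1) hq1 hπK0 hπ₂ hsxv
  obtain ⟨hs0, hsV, hsinv⟩ := c2h66_unif_basic V₂ s _ (q - 1) hq1 hπK0 hπ₂ hs
  have hsD : s⁻¹ * c2x11_s K N q x ∈ V₂ := hmaxs _ hDV hDinv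
  have hDs : (c2x11_s K N q x)⁻¹ * s ∈ V₂ := hmaxx _ hsV hsinv
  -- `b` is a unit of `V₂`
  have hb0 : (b : ↥(modularFunctionFieldFullC K (N * q * q))) ≠ 0 := by
    intro h
    apply hb
    have : b = 0 := Subtype.ext h
    rw [this]
    exact n.zero_mem
  have hbV : (b : ↥(modularFunctionFieldFullC K (N * q * q))) ∈ V₂ := hB₂ _ b.2
  have hbinv : (b : ↥(modularFunctionFieldFullC K (N * q * q)))⁻¹ ∈ V₂ := by
    by_contra hcon
    apply hb
    apply hmid
    have h2 := hmaxs _ hbV hcon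
    have e2 : (b : ↥(modularFunctionFieldFullC K (N * q * q))) * s⁻¹ =
        s⁻¹ * (b : ↥(modularFunctionFieldFullC K (N * q * q))) := mul_comm _ _
    rw [e2]
    exact h2
  have hsB0 : (sB : ↥(modularFunctionFieldFullC K (N * q * q))) ≠ 0 := by
    rw [hsB]; exact mul_ne_zero hb0 hD0
  -- unit of `R`
  obtain ⟨u, hu⟩ := hqπ
  have hqπ' : ((q : ℕ) : R) = ((u⁻¹ : Rˣ) : R) * π := by
    rw [← hu, mul_comm ((q : ℕ) : R), ← mul_assoc, Units.inv_mul, one_mul]
  have hq0F : ((q : ℕ) : ↥(modularFunctionFieldFullC K (N * q * q))) ≠ 0 :=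
    Nat.cast_ne_zero.mpr hq.ne_zero
  -- separator
  obtain ⟨a, ha, ha₁, ha₃⟩ := c2m31_sep π B V₁ V₃ hB₁ hB₃ n h1 h3
  -- the data of `c2p11_mid_dvd`
  have hϑq : ((q : ℕ) : ↥(modularFunctionFieldFullC K (N * q * q))) *
      ((b : ↥(modularFunctionFieldFullC K (N * q * q))) ^ (q - 1) * c2x11_vt K N q x) =
      (sB : ↥(modularFunctionFieldFullC K (N * q * q))) ^ (q - 1) := by
    unfold c2x11_vt
    rw [hsB, mul_pow, mul_left_comm, mul_inv_cancel_left₀ hq0F]
  have hϑ₂ : (b : ↥(modularFunctionFieldFullC K (N * q * q))) ^ (q - 1) * c2x11_vt K N q x ∈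
      V₂.toSubring := mul_mem (pow_mem hbV _) hvt1
  have hbpow0 : (b : ↥(modularFunctionFieldFullC K (N * q * q))) ^ (q - 1) ≠ 0 :=
    pow_ne_zero _ hb0
  have hcong : (((b : ↥(modularFunctionFieldFullC K (N * q * q))) ^ (q - 1) *
      c2x11_vt K N q x) ^ 6 *
      ((al97L_alpha K (N * q) q (al97L_alpha K N q g) ^ (q - 1) * al97L_alpha K (N * q) q U) *
        (((b : ↥(modularFunctionFieldFullC K (N * q * q))) ^ (q - 1)) ^ 6)⁻¹) - 1) *
      (sB : ↥(modularFunctionFieldFullC K (N * q * q)))⁻¹ ∈ V₂.toSubring := by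
    have e : ((b : ↥(modularFunctionFieldFullC K (N * q * q))) ^ (q - 1) *
        c2x11_vt K N q x) ^ 6 *
        ((al97L_alpha K (N * q) q (al97L_alpha K N q g) ^ (q - 1) * al97L_alpha K (N * q) q U) *
          (((b : ↥(modularFunctionFieldFullC K (N * q * q))) ^ (q - 1)) ^ 6)⁻¹) =
        c2x11_P K N q x g U := by
      unfold c2x11_P
      rw [mul_pow]
      have h6 : ((b : ↥(modularFunctionFieldFullC K (N * q * q))) ^ (q - 1)) ^ 6 ≠ 0 :=
        pow_ne_zero _ hbpow0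
      field_simp
    rw [e, hsB, mul_inv, mul_comm (b : ↥(modularFunctionFieldFullC K (N * q * q)))⁻¹, ← mul_assoc]
    exact mul_mem (hP g U hg hU) hbinv
  have hp2n : ∀ y : B, (y : ↥(modularFunctionFieldFullC K (N * q * q))) *
      (sB : ↥(modularFunctionFieldFullC K (N * q * q)))⁻¹ ∈ V₂.toSubring → y ∈ n := by
    intro y hy
    apply hmid
    have key : (y : ↥(modularFunctionFieldFullC K (N * q * q))) * s⁻¹ =
        (y : ↥(modularFunctionFieldFullC K (N * q * q))) *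
          (sB : ↥(modularFunctionFieldFullC K (N * q * q)))⁻¹ *
          ((b : ↥(modularFunctionFieldFullC K (N * q * q))) * (s⁻¹ * c2x11_s K N q x)) := by
      rw [hsB]
      field_simp
    rw [key]
    exact mul_mem hy (mul_mem hbV hsD)
  have htg' : tg * b ^ ((q - 1) * 6) ∉ n := by
    intro h
    rcases hn.mem_or_mem h with h | h
    · exact htg h
    · exact hb (hn.mem_of_pow_mem _ h)
  have hg' : (al97L_alpha K (N * q) q (al97L_alpha K N q g) ^ (q - 1) *
      al97L_alpha K (N * q) q U) *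
      (((b : ↥(modularFunctionFieldFullC K (N * q * q))) ^ (q - 1)) ^ 6)⁻¹ *
      ((tg * b ^ ((q - 1) * 6) : B) : ↥(modularFunctionFieldFullC K (N * q * q))) =
      (ag : ↥(modularFunctionFieldFullC K (N * q * q))) := by
    rw [← hgn]
    push_cast
    rw [pow_mul]
    have h6 : ((b : ↥(modularFunctionFieldFullC K (N * q * q))) ^ (q - 1)) ^ 6 ≠ 0 :=
      pow_ne_zero _ hbpow0
    field_simp
  obtain ⟨c, t, ht, hct⟩ := c2p11_mid_dvd π ((u⁻¹ : Rˣ) : R) (u : R) (by rw [Units.inv_mul]) q hqπ'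
    B V₁ V₂.toSubring V₃ hB₁ hB₂ hB₃ hsat hπ0 n sB
    ((b : ↥(modularFunctionFieldFullC K (N * q * q))) ^ (q - 1) * c2x11_vt K N q x)
    ((al97L_alpha K (N * q) q (al97L_alpha K N q g) ^ (q - 1) * al97L_alpha K (N * q) q U) *
      (((b : ↥(modularFunctionFieldFullC K (N * q * q))) ^ (q - 1)) ^ 6)⁻¹) 6
    (by norm_num) hϑq hϑ₂ hcong hp2n a ha ha₁ ha₃ ag (tg * b ^ ((q - 1) * 6)) htg' hg'
  -- conclude with `mc25_prinAt_of_dvd`
  have hsBn : sB ∈ n := by
    apply hmid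
    have key : (sB : ↥(modularFunctionFieldFullC K (N * q * q))) * s⁻¹ =
        (b : ↥(modularFunctionFieldFullC K (N * q * q))) * (s⁻¹ * c2x11_s K N q x) := by
      rw [hsB]; ring
    rw [key]
    exact mul_mem hbV hsD
  have hσz : s * (sB : ↥(modularFunctionFieldFullC K (N * q * q)))⁻¹ ∈ V₂.toSubring := by
    have key : s * (sB : ↥(modularFunctionFieldFullC K (N * q * q)))⁻¹ =
        (c2x11_s K N q x)⁻¹ * s * (b : ↥(modularFunctionFieldFullC K (N * q * q)))⁻¹ := by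
      rw [hsB, mul_inv]; ring
    rw [key]
    exact mul_mem hDs hbinv
  have hqe : q - 1 = (q - 2) + 1 := by omega
  have hzc : sB * (sB ^ (q - 2) * c * algebraMap R B ((u⁻¹ : Rˣ) : R)) = t * ((q : ℕ) : B) := by
    have e1 : sB * (sB ^ (q - 2) * c * algebraMap R B ((u⁻¹ : Rˣ) : R)) =
        sB ^ (q - 1) * c * algebraMap R B ((u⁻¹ : Rˣ) : R) := by
      rw [hqe, pow_succ]; ring
    have e2 : ((q : ℕ) : B) = algebraMap R B ((u⁻¹ : Rˣ) : R) * algebraMap R B π := by
      rw [← map_mul, ← hqπ', map_natCast]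
    rw [e1, hct, e2]; ring
  exact mc25_prinAt_of_dvd π ((u⁻¹ : Rˣ) : R) (u : R) (by rw [Units.inv_mul]) q hqπ'
    B V₁ V₂.toSubring V₃ hB₁ hB₂ hB₃ hsat hπ0 s hs0 n h1 h3 sB
    (sB ^ (q - 2) * c * algebraMap R B ((u⁻¹ : Rˣ) : R)) t ht hsBn hsB0 hσz hzc

end c2h66_chart

end Fermat.Agent.S36
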