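import Fermat.Agent.S36.C2Den74

/-!
# S36 lab (helper74), row 600: denominators for `t₁, t₂, t₃` simultaneously

Complement of `C2Den74`: `t₂ = α₂ (β₁ h')` (`= h(qτ)`) is integral over `R[J]` too, and ONE
denominator `b = s' ^ k ∉ n` clears `t₁ = α₂ (α₁ h')`, `t₂`, `t₃ = β₂ (β₁ h')` at a `j`-regular
prime `n` of an integrally closed chart `B` of level `M' q²`.

* `c2p74x_t2_int` : `t₂` is integral over `R[J]`.
* `c2p74x_den3` (abstract), `c2p74x_den3_haupt` :
  `∃ b sB T1 T2 T3 : B, b ∉ n ∧ sB = b (t₃ - t₁) ∧ T1 = b t₁ ∧ T2 = b t₂ ∧ T3 = b t₃`.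

All names are prefixed `c2p74x_`.
-/

set_option autoImplicit false
set_option linter.unusedSectionVars false

open ModularCurve Polynomial

namespace Fermat.Agent.S36

open Fermat.Agent.S18 Fermat.Agent.S24 Fermat.Agent.S28 Fermat.Agent.S37 Fermat.Agent.S34
open Fermat.Agent.S36.TripleLoc71

section c2p74x_abstract

variable {R : Type*} [CommRing R] {F : Type*} [Field F] [Algebra R F]

/-- **Three denominators, abstract.** -/
theorem c2p74x_den3 (B : Subalgebra R F) (hBint : ∀ z : F, IsIntegral B z → z ∈ B)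
    (n : Ideal B) [hn : n.IsPrime] (j y₁ y₂ y₃ : F)
    (h₁ : IsIntegral (Algebra.adjoin R ({j} : Set F)) y₁)
    (h₂ : IsIntegral (Algebra.adjoin R ({j} : Set F)) y₂)
    (h₃ : IsIntegral (Algebra.adjoin R ({j} : Set F)) y₃)
    (s' b' : B) (hs' : s' ∉ n) (hsj : (s' : F) * j = (b' : F)) :
    ∃ b sB y1B y2B y3B : B, b ∉ n ∧ (sB : F) = (b : F) * (y₃ - y₁) ∧
      (y1B : F) = (b : F) * y₁ ∧ (y2B : F) = (b : F) * y₂ ∧ (y3B : F) = (b : F) * y₃ := by
  have hsjB : (s' : F) * j ∈ B := by rw [hsj]; exact b'.2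
  obtain ⟨k₁, hk₁⟩ := uv17_clear B hBint j y₁ h₁ (s' : F) s'.2 hsjB
  obtain ⟨k₂, hk₂⟩ := uv17_clear B hBint j y₂ h₂ (s' : F) s'.2 hsjB
  obtain ⟨k₃, hk₃⟩ := uv17_clear B hBint j y₃ h₃ (s' : F) s'.2 hsjB
  have e1 : ((s' ^ (k₁ + k₂ + k₃) : B) : F) * y₁ =
      (s' : F) ^ k₂ * (s' : F) ^ k₃ * ((s' : F) ^ k₁ * y₁) := by
    push_cast
    rw [pow_add, pow_add]
    ring
  have e2 : ((s' ^ (k₁ + k₂ + k₃) : B) : F) * y₂ =
      (s' : F) ^ k₁ * (s' : F) ^ k₃ * ((s' : F) ^ k₂ * y₂) := by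
    push_cast
    rw [pow_add, pow_add]
    ring
  have e3 : ((s' ^ (k₁ + k₂ + k₃) : B) : F) * y₃ =
      (s' : F) ^ k₁ * (s' : F) ^ k₂ * ((s' : F) ^ k₃ * y₃) := by
    push_cast
    rw [pow_add, pow_add]
    ring
  have m1 : ((s' ^ (k₁ + k₂ + k₃) : B) : F) * y₁ ∈ B := by
    rw [e1]
    exact B.mul_mem (B.mul_mem (B.pow_mem s'.2 _) (B.pow_mem s'.2 _)) hk₁
  have m2 : ((s' ^ (k₁ + k₂ + k₃) : B) : F) * y₂ ∈ B := by
    rw [e2]
    exact B.mul_mem (B.mul_mem (B.pow_mem s'.2 _) (B.pow_mem s'.2 _)) hk₂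
  have m3 : ((s' ^ (k₁ + k₂ + k₃) : B) : F) * y₃ ∈ B := by
    rw [e3]
    exact B.mul_mem (B.mul_mem (B.pow_mem s'.2 _) (B.pow_mem s'.2 _)) hk₃
  refine ⟨s' ^ (k₁ + k₂ + k₃), ⟨_, B.sub_mem m3 m1⟩, ⟨_, m1⟩, ⟨_, m2⟩, ⟨_, m3⟩,
    fun h => hs' (hn.mem_of_pow_mem _ h), ?_, rfl, rfl, rfl⟩
  show ((s' ^ (k₁ + k₂ + k₃) : B) : F) * y₃ - ((s' ^ (k₁ + k₂ + k₃) : B) : F) * y₁ = _
  ring

end c2p74x_abstract

section c2p74x_concrete

variable {R K : Type} [CommRing R] [Field K] [CharZero K] [Algebra R K]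
  (M' q : ℕ) [NeZero M'] [NeZero q]
  [Algebra R ↥(modularFunctionFieldFullC K M')]
  [IsScalarTower R K ↥(modularFunctionFieldFullC K M')]
  [Algebra R ↥(modularFunctionFieldFullC K (M' * q))]
  [IsScalarTower R K ↥(modularFunctionFieldFullC K (M' * q))]
  [Algebra R ↥(modularFunctionFieldFullC K (M' * q * q))]
  [IsScalarTower R K ↥(modularFunctionFieldFullC K (M' * q * q))]

/-- `t₂ = α₂ (β₁ h')` is integral over `R[J]`. -/
theorem c2p74x_t2_int (hq : q.Prime) (hunit : ∀ n : ℕ, Nat.Coprime n q → IsUnit (n : R))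
    (h' : ↥(modularFunctionFieldFullC K M')) (hh' : s34i47c_IsHaupt K M' q h') :
    IsIntegral (Algebra.adjoin R
      ({rm90_j K (M' * q * q)} : Set ↥(modularFunctionFieldFullC K (M' * q * q))))
      (al97L_alpha K (M' * q) q (al97L_beta K M' q h')) := by
  have hβ1 := (cm71_beta_charts (R := R) (K := K) M' q hq hunit h' hh').1 h'
    (pk15_subset_chart _ (Set.mem_singleton _))
  have hα2 := (cm71_alpha_charts (R := R) (K := K) (M' * q) q (al97L_alpha K M' q h')).1 _ hβ1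
  have h3 : IsIntegral (Algebra.adjoin R
      ({al97L_alpha K (M' * q) q (al97L_alpha K M' q h')} :
        Set ↥(modularFunctionFieldFullC K (M' * q * q))))
      (al97L_alpha K (M' * q) q (al97L_beta K M' q h')) := (pk15_mem_chart _ _).mp hα2
  refine bz7_isIntegral_trans _ _ ?_ _ h3
  intro y hy
  rw [Set.mem_singleton_iff.mp hy]
  exact c2p74_t1_int M' q h' hh'

/-- **Denominators for `t₁, t₂, t₃` at a `j`-regular point.** -/
theorem c2p74x_den3_haupt (hq : q.Prime) (hunit : ∀ n : ℕ, Nat.Coprime n q → IsUnit (n : R))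
    (h' : ↥(modularFunctionFieldFullC K M')) (hh' : s34i47c_IsHaupt K M' q h')
    (B : Subalgebra R ↥(modularFunctionFieldFullC K (M' * q * q)))
    (hBint : ∀ z : ↥(modularFunctionFieldFullC K (M' * q * q)), IsIntegral B z → z ∈ B)
    (n : Ideal B) [hn : n.IsPrime] (s' b' : B) (hs' : s' ∉ n)
    (hsj : (s' : ↥(modularFunctionFieldFullC K (M' * q * q))) * rm90_j K (M' * q * q) =
      (b' : ↥(modularFunctionFieldFullC K (M' * q * q)))) :
    ∃ b sB T1 T2 T3 : B, b ∉ n ∧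
      (sB : ↥(modularFunctionFieldFullC K (M' * q * q))) =
        (b : ↥(modularFunctionFieldFullC K (M' * q * q))) *
          (al97L_beta K (M' * q) q (al97L_beta K M' q h') -
            al97L_alpha K (M' * q) q (al97L_alpha K M' q h')) ∧
      (T1 : ↥(modularFunctionFieldFullC K (M' * q * q))) =
        (b : ↥(modularFunctionFieldFullC K (M' * q * q))) *
          al97L_alpha K (M' * q) q (al97L_alpha K M' q h') ∧
      (T2 : ↥(modularFunctionFieldFullC K (M' * q * q))) =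
        (b : ↥(modularFunctionFieldFullC K (M' * q * q))) *
          al97L_alpha K (M' * q) q (al97L_beta K M' q h') ∧
      (T3 : ↥(modularFunctionFieldFullC K (M' * q * q))) =
        (b : ↥(modularFunctionFieldFullC K (M' * q * q))) *
          al97L_beta K (M' * q) q (al97L_beta K M' q h') :=
  c2p74x_den3 B hBint n (rm90_j K (M' * q * q)) _ _ _ (c2p74_t1_int M' q h' hh')
    (c2p74x_t2_int M' q hq hunit h' hh') (c2p74_t3_int M' q hq hunit h' hh') s' b' hs' hsj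

end c2p74x_concrete

end Fermat.Agent.S36
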