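import Fermat.Agent.S36.FrameW47
import Fermat.Agent.S36.MidCuspGen25
import Fermat.Agent.S36.MidCuspInst8

/-!
# S36 lab (helper8), row C-midcusp: the `V₂`-facts of the `j`-triple on the canonical frame

Level `M' * q * q`, base `(R, K, π)`, `V₂` ANY valuation subring with the four facts
`s36f47_IsV2 M' q hπ V₂` (helper47, `FrameW47`; e.g. the canonical `s36f47_V2 M' q hπ`).
With `a = j(Q) = rm90_j K (M' q q)`, `b = j(Q^q)`, `a₃ = j(Q^(q²)) = fq85_y K M' q` and
`σ = a₃ - a = v2g64_s K M' q`: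

* `mcv8_J_unit` : `J` is a unit of the Gauss valuation ring of every level;
* `mcv8_pi_lt`, `mcv8_s_lt`, `mcv8_s_ne_zero`, `mcv8_unif` : `π` and `σ` are non-units of `V₂`,
  and `σ` divides every non-unit of `V₂` (`σ` is a uniformiser);
* `mcv8_a_val` : `j` is a unit of `V₂`;  `mcv8_kron` : `j(Q^q) ≡ j(Q)^q` along `V₂`;
* `mcv8_prinAt` : **the middle branch is principal at every cuspidal point of `C₂` only**
  (`mc25_MidPrinAt`, helper25), for ANY chart `B` of the frame (integrally closed, saturated in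
  `V₁, V₂, V₃`): all `V₂`-hypotheses and the two Kronecker relations of `mc25_prinAt_cusp` are
  discharged;  `mcv8_prinAt_canon` : the same for the canonical `s36f47_V2`.

All names are prefixed `mcv8_`.
-/

set_option autoImplicit false
set_option linter.unusedSectionVars false
set_option linter.unusedVariables false
set_option linter.style.longLine false

open ModularCurve AlgebraicCurve IntermediateField Polynomial

namespace Fermat.Agent.S36

open Fermat.Agent.S18 Fermat.Agent.S24 Fermat.Agent.S28 Fermat.Agent.S37 Fermat.Agent.S34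
  Fermat.Agent.S42 Fermat.Agent.S35 TripleLoc71

local notation "Q̄" => AlgebraicClosure ℚ

section mcv8

variable {R K : Type} [CommRing R] [IsDomain R] [IsDiscreteValuationRing R] [Field K] [CharZero K]
  [Algebra R K] [IsFractionRing R K]

/-- `J` is a unit of the Gauss valuation ring of level `M`. -/
theorem mcv8_J_unit (M : ℕ) [NeZero M] {π : R} (hπ : Irreducible π) :
    relimc_J K M ∈ cm85_Vinf (K := K) M hπ ∧ (relimc_J K M)⁻¹ ∈ cm85_Vinf (K := K) M hπ := by
  have h1 : relimc_J K M ∈ cm85_Vinf (K := K) M hπ :=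
    gv85_mem_V_of_integral _ _ _ _ (jqModC R) (by rw [relimc_J_coe, coeffMap_jqModC])
  refine ⟨h1, ?_⟩
  by_contra hinv
  have h3 := gv85_hmax (IsLocalRing.residue R) π (pk85_res_iff hπ) hπ.ne_zero _ _
    (relimc_J K M) h1 hinv
  have h4 := (gv85_gauss (IsLocalRing.residue R) π (pk85_res_iff hπ) hπ.ne_zero _ _
    (relimc_J K M) (jqModC R) (by rw [relimc_J_coe, coeffMap_jqModC])).mp h3
  rw [coeffMap_jqModC] at h4
  exact relimc_jqModC_transcendental (IsLocalRing.ResidueField R)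
    (by rw [h4]; exact isAlgebraic_zero)

variable [Algebra K Q̄] (M' q : ℕ) [NeZero M'] [NeZero q]

/-- `π` is a non-unit of `V₂`. -/
theorem mcv8_pi_lt {π : R} (hπ : Irreducible π)
    (V₂ : ValuationSubring ↥(modularFunctionFieldFullC K (M' * q * q)))
    (h : s36f47_IsV2 M' q hπ V₂) :
    V₂.valuation (algebraMap K ↥(modularFunctionFieldFullC K (M' * q * q))
      (algebraMap R K π)) < 1 := by
  have hπV' : algebraMap K ↥(modularFunctionFieldFullC K (M' * q)) (algebraMap R K π) ∈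
      cm85_Vinf (K := K) (M' * q) hπ :=
    gv85_mem_V_of_integral _ _ _ _ (HahnSeries.C π) (by rw [gv85_coe_algebraMap, gv85_coeffMap_C])
  have h1 := h.hover _ hπV'
  rw [AlgHom.commutes] at h1
  have h2 : V₂.valuation (algebraMap K ↥(modularFunctionFieldFullC K (M' * q * q))
      (algebraMap R K π)) ≤ 1 := (V₂.valuation_le_one_iff _).mpr h1
  refine lt_of_le_of_ne h2 fun h3 => h.hpi ?_
  rw [← V₂.valuation_le_one_iff, map_inv₀, h3, inv_one]

/-- `σ = j(Q^(q²)) - j(Q)` is a non-unit of `V₂`. -/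
theorem mcv8_s_lt (hq : q.Prime) {π : R} (hπ : Irreducible π)
    (V₂ : ValuationSubring ↥(modularFunctionFieldFullC K (M' * q * q)))
    (h : s36f47_IsV2 M' q hπ V₂) :
    V₂.valuation (v2g64_s K M' q) < 1 := by
  by_contra hge
  have h1 : 1 ≤ V₂.valuation (v2g64_s K M' q) ^ (q - 1) := one_le_pow₀ (not_lt.mp hge)
  rw [h.hval] at h1
  exact absurd (mcv8_pi_lt M' q hπ V₂ h) (not_lt.mpr h1)

/-- `σ ≠ 0`. -/
theorem mcv8_s_ne_zero (hq : q.Prime) {π : R} (hπ : Irreducible π)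
    (V₂ : ValuationSubring ↥(modularFunctionFieldFullC K (M' * q * q)))
    (h : s36f47_IsV2 M' q hπ V₂) : v2g64_s K M' q ≠ 0 := by
  intro h0
  have h1 := h.hval
  have hq2 := hq.two_le
  rw [h0, map_zero, zero_pow (by omega)] at h1
  have h2 : algebraMap K ↥(modularFunctionFieldFullC K (M' * q * q)) (algebraMap R K π) = 0 :=
    (map_eq_zero _).mp h1.symm
  have h3 : algebraMap R K π = 0 := (map_eq_zero _).mp h2
  exact hπ.ne_zero (IsFractionRing.injective R K (by rw [h3, map_zero]))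

/-- `σ` divides every non-unit of `V₂`. -/
theorem mcv8_unif (hq : q.Prime) {π : R} (hπ : Irreducible π)
    (V₂ : ValuationSubring ↥(modularFunctionFieldFullC K (M' * q * q)))
    (h : s36f47_IsV2 M' q hπ V₂) (x : ↥(modularFunctionFieldFullC K (M' * q * q)))
    (hx : V₂.valuation x < 1) : x * (v2g64_s K M' q)⁻¹ ∈ V₂ := by
  have key := (ob72_ram (K := K) (M' * q) q hq (dvd_mul_left q M') hπ V₂ h.hover h.hpi h.hne
    (v2g64_s K M' q) h.hval).2.2.1
  by_cases hx0 : x = 0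
  · rw [hx0, zero_mul]
    exact V₂.zero_mem
  have hxV : x ∈ V₂ := (V₂.valuation_le_one_iff _).mp hx.le
  have hxi : x⁻¹ ∉ V₂ := by
    intro hi
    have h1 : V₂.valuation x⁻¹ ≤ 1 := (V₂.valuation_le_one_iff _).mpr hi
    have hv0 : V₂.valuation x ≠ 0 := (Valuation.ne_zero_iff _).mpr hx0
    rw [map_inv₀] at h1
    have h2 : 1 ≤ V₂.valuation x := (inv_le_one₀ (zero_lt_iff.mpr hv0)).mp h1
    exact absurd hx (not_lt.mpr h2)
  have h5 : x * (v2g64_s K M' q)⁻¹ = (v2g64_s K M' q)⁻¹ * x := mul_comm _ _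
  rw [h5]
  exact key x hxV hxi

/-- `j = rm90_j` at level `M' q q` is `α₂` of `J` at level `M' q`. -/
theorem mcv8_a_eq :
    rm90_j K (M' * q * q) = al97L_alpha K (M' * q) q (relimc_J K (M' * q)) :=
  Subtype.ext rfl

/-- `j` is a unit of `V₂`. -/
theorem mcv8_a_val {π : R} (hπ : Irreducible π)
    (V₂ : ValuationSubring ↥(modularFunctionFieldFullC K (M' * q * q)))
    (h : s36f47_IsV2 M' q hπ V₂) :
    V₂.valuation (rm90_j K (M' * q * q)) = 1 := by
  obtain ⟨hJ, hJi⟩ := mcv8_J_unit (K := K) (M' * q) hπ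
  have h1 := h.hover _ hJ
  have h2 := h.hover _ hJi
  rw [map_inv₀] at h2
  rw [mcv8_a_eq]
  have h3 : V₂.valuation (al97L_alpha K (M' * q) q (relimc_J K (M' * q))) ≤ 1 :=
    (V₂.valuation_le_one_iff _).mpr h1
  have h4 : V₂.valuation (al97L_alpha K (M' * q) q (relimc_J K (M' * q)))⁻¹ ≤ 1 :=
    (V₂.valuation_le_one_iff _).mpr h2
  have hne : al97L_alpha K (M' * q) q (relimc_J K (M' * q)) ≠ 0 := by
    intro h0
    have : relimc_J K (M' * q) = 0 := (map_eq_zero _).mp h0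
    have hc := congrArg (fun x : ↥(modularFunctionFieldFullC K (M' * q)) =>
      (x : LaurentSeries K)) this
    simp only [relimc_J_coe] at hc
    exact relimc_jqModC_transcendental K (by
      rw [show jqModC K = 0 from hc]; exact isAlgebraic_zero)
  have hv0 : V₂.valuation (al97L_alpha K (M' * q) q (relimc_J K (M' * q))) ≠ 0 :=
    (Valuation.ne_zero_iff _).mpr hne
  rw [map_inv₀] at h4
  exact le_antisymm h3 ((inv_le_one₀ (zero_lt_iff.mpr hv0)).mp h4)

/-- `j(Q^q) ≡ j(Q)^q` along `V₂` (Kronecker). -/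
theorem mcv8_kron (hq : q.Prime) {π : R} (hπ : Irreducible π) (hqR : ¬ IsUnit (q : R))
    (V₂ : ValuationSubring ↥(modularFunctionFieldFullC K (M' * q * q)))
    (h : s36f47_IsV2 M' q hπ V₂) :
    V₂.valuation (al97L_alpha K (M' * q) q (al97L_beta K M' q (relimc_J K M')) -
      rm90_j K (M' * q * q) ^ q) < 1 := by
  have h1 := h.hover _ (fs85_frob (K := K) M' q hq hπ hqR)
  have h2 : al97L_alpha K (M' * q) q
      ((algebraMap K ↥(modularFunctionFieldFullC K (M' * q)) (algebraMap R K π))⁻¹ *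
        (al97L_beta K M' q (relimc_J K M') - al97L_alpha K M' q (relimc_J K M' ^ q)))
      = (algebraMap K ↥(modularFunctionFieldFullC K (M' * q * q)) (algebraMap R K π))⁻¹ *
        (al97L_alpha K (M' * q) q (al97L_beta K M' q (relimc_J K M')) -
          rm90_j K (M' * q * q) ^ q) := by
    have h3 : al97L_alpha K (M' * q) q (al97L_alpha K M' q (relimc_J K M' ^ q)) =
        rm90_j K (M' * q * q) ^ q := Subtype.ext rfl
    rw [map_mul, map_inv₀, AlgHom.commutes, map_sub, h3]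
  rw [h2] at h1
  have hπlt := mcv8_pi_lt M' q hπ V₂ h
  have hπ0 : algebraMap K ↥(modularFunctionFieldFullC K (M' * q * q)) (algebraMap R K π) ≠ 0 := by
    intro h0
    have h3 : algebraMap R K π = 0 := (map_eq_zero _).mp h0
    exact hπ.ne_zero (IsFractionRing.injective R K (by rw [h3, map_zero]))
  have h4 : V₂.valuation ((algebraMap K ↥(modularFunctionFieldFullC K (M' * q * q))
      (algebraMap R K π))⁻¹ * (al97L_alpha K (M' * q) q (al97L_beta K M' q (relimc_J K M')) -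
          rm90_j K (M' * q * q) ^ q)) ≤ 1 := (V₂.valuation_le_one_iff _).mpr h1
  have h5 : al97L_alpha K (M' * q) q (al97L_beta K M' q (relimc_J K M')) -
      rm90_j K (M' * q * q) ^ q =
      algebraMap K ↥(modularFunctionFieldFullC K (M' * q * q)) (algebraMap R K π) *
        ((algebraMap K ↥(modularFunctionFieldFullC K (M' * q * q)) (algebraMap R K π))⁻¹ *
          (al97L_alpha K (M' * q) q (al97L_beta K M' q (relimc_J K M')) -
            rm90_j K (M' * q * q) ^ q)) := by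
    rw [← mul_assoc, mul_inv_cancel₀ hπ0, one_mul]
  rw [h5, map_mul]
  calc _ ≤ V₂.valuation (algebraMap K ↥(modularFunctionFieldFullC K (M' * q * q))
        (algebraMap R K π)) * 1 := mul_le_mul' (le_refl _) h4
    _ < 1 := by rw [mul_one]; exact hπlt

variable [Algebra R ↥(modularFunctionFieldFullC K (M' * q * q))]
  [IsScalarTower R K ↥(modularFunctionFieldFullC K (M' * q * q))]

/-- **The middle branch is principal at every cuspidal point of `C₂` only**, on any chart `B`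
of the frame of level `M' q q` (integrally closed in `F`, inside `V₁, V₂, V₃` and saturated
there), for ANY `V₂` with the four facts `s36f47_IsV2`: the uniformiser is
`σ = v2g64_s K M' q = j(Q^(q²)) - j(Q)`, the cuspidal alternative is the one of
`ci22_dich_level2/3(_inv)` (`rm90_j * a₀ = c₀`, `a₀ ∈ n`, `c₀ ∉ n`). -/
theorem mcv8_prinAt (hq : q.Prime) {π : R} (hπ : Irreducible π)
    (u u' : R) (huu' : u * u' = 1) (hqπ : ((q : ℕ) : R) = u * π)
    (V₂ : ValuationSubring ↥(modularFunctionFieldFullC K (M' * q * q)))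
    (hV₂ : s36f47_IsV2 M' q hπ V₂)
    (B : Subalgebra R ↥(modularFunctionFieldFullC K (M' * q * q)))
    (hBcl : ∀ x : ↥(modularFunctionFieldFullC K (M' * q * q)), IsIntegral B x → x ∈ B)
    (V₁ V₃ : Subring ↥(modularFunctionFieldFullC K (M' * q * q)))
    (hB₁ : ∀ x ∈ B, x ∈ V₁) (hB₂ : ∀ x ∈ B, x ∈ V₂) (hB₃ : ∀ x ∈ B, x ∈ V₃)
    (hsat : ∀ x ∈ B,
      (algebraMap R ↥(modularFunctionFieldFullC K (M' * q * q)) π)⁻¹ * x ∈ V₁ →
      (algebraMap R ↥(modularFunctionFieldFullC K (M' * q * q)) π)⁻¹ * x ∈ V₂.toSubring →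
      (algebraMap R ↥(modularFunctionFieldFullC K (M' * q * q)) π)⁻¹ * x ∈ V₃ →
      (algebraMap R ↥(modularFunctionFieldFullC K (M' * q * q)) π)⁻¹ * x ∈ B)
    (n : Ideal B) [hn : n.IsPrime]
    (h2 : tl71_OnMid (v2g64_s K M' q) B V₂.toSubring n)
    (h1 : ¬ sf79_OnBr π B V₁ n) (h3 : ¬ sf79_OnBr π B V₃ n)
    (a₀ c₀ : B) (ha₀ : a₀ ∈ n) (hc₀ : c₀ ∉ n)
    (hcusp : rm90_j K (M' * q * q) * (a₀ : ↥(modularFunctionFieldFullC K (M' * q * q))) =
      (c₀ : ↥(modularFunctionFieldFullC K (M' * q * q)))) :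
    mc25_MidPrinAt (v2g64_s K M' q) B V₂.toSubring n := by
  have hqR : ¬ IsUnit ((q : ℕ) : R) := by
    intro hu
    rw [hqπ] at hu
    exact hπ.not_isUnit (isUnit_of_mul_isUnit_right hu)
  have hπ0 : algebraMap R ↥(modularFunctionFieldFullC K (M' * q * q)) π ≠ 0 := by
    rw [IsScalarTower.algebraMap_apply R K ↥(modularFunctionFieldFullC K (M' * q * q))]
    intro h0
    have h3 : algebraMap R K π = 0 := (map_eq_zero _).mp h0
    exact hπ.ne_zero (IsFractionRing.injective R K (by rw [h3, map_zero]))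
  obtain ⟨S, ψ, hS, hrel⟩ := mci8_rels K (M' * q * q) q hq
  have hσ0 := mcv8_s_ne_zero M' q hq hπ V₂ hV₂
  have hσlt := mcv8_s_lt M' q hq hπ V₂ hV₂
  have hσeq : v2g64_s K M' q = fq85_y K M' q - rm90_j K (M' * q * q) := Subtype.ext rfl
  have ha : ((rm90_j K (M' * q * q) : ↥(modularFunctionFieldFullC K (M' * q * q))) :
      LaurentSeries K) = JdC K 1 := by
    rw [JdC_one]; rfl
  have hb : ((al97L_alpha K (M' * q) q (al97L_beta K M' q (relimc_J K M')) :
      ↥(modularFunctionFieldFullC K (M' * q * q))) : LaurentSeries K) = JdC K q := by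
    rw [JdC_of_neZero]; rfl
  have ha₃ : ((fq85_y K M' q : ↥(modularFunctionFieldFullC K (M' * q * q))) :
      LaurentSeries K) = JdC K (q * q) := by
    rw [JdC_of_neZero, ← qExpand_qExpand]; rfl
  obtain ⟨hrel₁, hrel₃⟩ := hrel _ _ _ ha hb ha₃
  have hne : fq85_y K M' q ≠ rm90_j K (M' * q * q) := by
    intro he
    apply hσ0
    rw [hσeq, he, sub_self]
  have hva := mcv8_a_val M' q hπ V₂ hV₂
  have hσ₂ : V₂.valuation (fq85_y K M' q - rm90_j K (M' * q * q)) < 1 := by
    rw [← hσeq]; exact hσlt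
  have hva₃ : V₂.valuation (fq85_y K M' q) = 1 := by
    have h := Valuation.map_add_eq_of_lt_left (v := V₂.valuation) (x := rm90_j K (M' * q * q))
      (y := fq85_y K M' q - rm90_j K (M' * q * q)) (by rw [hva]; exact hσ₂)
    rw [add_sub_cancel, hva] at h
    exact h
  have ha₃0 : fq85_y K M' q ≠ 0 := by
    intro h0
    rw [h0, map_zero] at hva₃
    exact zero_ne_one hva₃
  refine mc25_prinAt_cusp π u u' huu' q hq.two_le hqπ B hBcl V₁ V₃ V₂ hB₁ hB₂ hB₃ hsat hπ0
    (v2g64_s K M' q) hσ0 (mcv8_unif M' q hq hπ V₂ hV₂) n h2 h1 h3 S ψ hS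
    (rm90_j K (M' * q * q)) (al97L_alpha K (M' * q) q (al97L_beta K M' q (relimc_J K M')))
    (fq85_y K M' q) ha₃0 hne a₀ c₀ ha₀ hc₀ hcusp hrel₁ hrel₃ hva
    (mcv8_kron M' q hq hπ hqR V₂ hV₂) hσ₂ ?_
  rw [hσeq, mul_inv_cancel₀ (sub_ne_zero.mpr hne)]
  exact V₂.one_mem

/-- `mcv8_prinAt` for the canonical middle valuation `s36f47_V2 M' q hπ`. -/
theorem mcv8_prinAt_canon (hq : q.Prime) (hM' : ¬ q ∣ M') {π : R} (hπ : Irreducible π)
    (u u' : R) (huu' : u * u' = 1) (hqπ : ((q : ℕ) : R) = u * π)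
    (B : Subalgebra R ↥(modularFunctionFieldFullC K (M' * q * q)))
    (hBcl : ∀ x : ↥(modularFunctionFieldFullC K (M' * q * q)), IsIntegral B x → x ∈ B)
    (V₁ V₃ : Subring ↥(modularFunctionFieldFullC K (M' * q * q)))
    (hB₁ : ∀ x ∈ B, x ∈ V₁) (hB₂ : ∀ x ∈ B, x ∈ s36f47_V2 (K := K) M' q hπ)
    (hB₃ : ∀ x ∈ B, x ∈ V₃)
    (hsat : ∀ x ∈ B,
      (algebraMap R ↥(modularFunctionFieldFullC K (M' * q * q)) π)⁻¹ * x ∈ V₁ →
      (algebraMap R ↥(modularFunctionFieldFullC K (M' * q * q)) π)⁻¹ * x ∈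
        (s36f47_V2 (K := K) M' q hπ).toSubring →
      (algebraMap R ↥(modularFunctionFieldFullC K (M' * q * q)) π)⁻¹ * x ∈ V₃ →
      (algebraMap R ↥(modularFunctionFieldFullC K (M' * q * q)) π)⁻¹ * x ∈ B)
    (n : Ideal B) [hn : n.IsPrime]
    (h2 : tl71_OnMid (v2g64_s K M' q) B (s36f47_V2 (K := K) M' q hπ).toSubring n)
    (h1 : ¬ sf79_OnBr π B V₁ n) (h3 : ¬ sf79_OnBr π B V₃ n)
    (a₀ c₀ : B) (ha₀ : a₀ ∈ n) (hc₀ : c₀ ∉ n)
    (hcusp : rm90_j K (M' * q * q) * (a₀ : ↥(modularFunctionFieldFullC K (M' * q * q))) =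
      (c₀ : ↥(modularFunctionFieldFullC K (M' * q * q)))) :
    mc25_MidPrinAt (v2g64_s K M' q) B (s36f47_V2 (K := K) M' q hπ).toSubring n := by
  have hass : Associated ((q : ℕ) : R) π := by
    rw [hqπ]
    exact associated_unit_mul_left π u (IsUnit.of_mul_eq_one u' huu')
  exact mcv8_prinAt M' q hq hπ u u' huu' hqπ _ (s36f47_V2_spec (K := K) M' q hq hM' hπ hass)
    B hBcl V₁ V₃ hB₁ hB₂ hB₃ hsat n h2 h1 h3 a₀ c₀ ha₀ hc₀ hcusp

end mcv8

end Fermat.Agent.S36
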