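import Mathlib

/-!
# S36 lab, row 589 (B1-V2), sub-part L3 (helper46): the cyclotomic discrete valuation datum

`R` a discrete valuation ring with fraction field `K` of characteristic zero in which the prime
`q` is a uniformizer (`q ~ π`).  Then there are the field `K' = K(ζ_q)`, a DISCRETE valuation
subring `A'` of `K'` (uniformizer `ϖ`, `residue r = 0 ↔ ϖ ∣ r`, no nonzero element divisible by
all powers of `ϖ`) dominating `R` (`ρ : R →+* A'`, compatible with `K → K'`, `ρ π` in the maximal
ideal), and a unit `ζ ∈ A'ˣ`, `ζ ^ q = 1`, `ζ ≠ 1`, with `(ζ - 1)^(q-1) = ρ π · unit`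
(total ramification of `q` in `K(ζ_q)`: `q = ∏_{k=1}^{q-1} (1 - ζ^k)` and `1 - ζ^k ~ 1 - ζ`).

* `cyc46_exists` : the datum, with LITERALLY the type of `cyc86_exists` asked for in row 589.

Construction: `K' = CyclotomicField q K`, `O = integralClosure R K'` (a Dedekind domain), `Q` a
prime of `O` over the maximal ideal of `R`, `A'` the valuation subring of the `Q`-adic valuation.
Mathlib only.  All names are prefixed `cyc46_`.
-/

set_option autoImplicit false
set_option linter.style.haveILetI false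

open IsDedekindDomain Polynomial

namespace Fermat.Agent.S36

/-- In `ℤᵐ⁰`: `x < 1 ↔ x ≤ exp (-1)`. -/
theorem cyc46_lt_one_iff (x : WithZero (Multiplicative ℤ)) :
    x < 1 ↔ x ≤ WithZero.exp (-1 : ℤ) := by
  by_cases hx : x = 0
  · subst hx
    exact ⟨fun _ => zero_le, fun _ => zero_lt_one⟩
  · rw [← WithZero.exp_log hx, ← WithZero.exp_zero (M := ℤ), WithZero.exp_lt_exp,
      WithZero.exp_le_exp]
    omega

/-- `x ^ n = 1 → x = 1` in a linearly ordered commutative group with zero. -/
theorem cyc46_eq_one_of_pow {Γ : Type*} [LinearOrderedCommGroupWithZero Γ] {x : Γ} {n : ℕ}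
    (hn : n ≠ 0) (h : x ^ n = 1) : x = 1 := by
  rcases lt_trichotomy x 1 with h1 | h1 | h1
  · exact absurd h (pow_lt_one₀ zero_le h1 hn).ne
  · exact h1
  · exact absurd h (one_lt_pow₀ h1 hn).ne'

/-- `v (a ^ k - 1) ≤ v (a - 1)` for `v a ≤ 1`. -/
theorem cyc46_val_pow_sub_one_le {F : Type*} [Field F] {Γ : Type*}
    [LinearOrderedCommGroupWithZero Γ] (w : Valuation F Γ) (a : F) (ha : w a ≤ 1) (k : ℕ) :
    w (a ^ k - 1) ≤ w (a - 1) := by
  rw [← mul_geom_sum, map_mul]
  have h : w (∑ i ∈ Finset.range k, a ^ i) ≤ 1 :=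
    w.map_sum_le fun i _ => by
      rw [map_pow]
      exact pow_le_one₀ zero_le ha
  exact mul_le_of_le_one_right' h

/-- For a primitive `q`-th root of unity `ζ` (`q` prime) in a field and a valuation `w`:
`w (ζ - 1) ^ (q - 1) = w q`. -/
theorem cyc46_val_zeta_sub_one {F : Type*} [Field F] {Γ : Type*}
    [LinearOrderedCommGroupWithZero Γ] (w : Valuation F Γ) {q : ℕ} (hq : q.Prime) {ζ : F}
    (hζ : IsPrimitiveRoot ζ q) : w (ζ - 1) ^ (q - 1) = w ((q : ℕ) : F) := by
  classical
  haveI : Fact q.Prime := ⟨hq⟩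
  haveI : NeZero q := ⟨hq.ne_zero⟩
  have hroot : ∀ μ : F, μ ^ q = 1 → w μ = 1 := fun μ hμ =>
    cyc46_eq_one_of_pow hq.ne_zero (by rw [← map_pow, hμ, map_one])
  have hq' : ((q : ℕ) : F) = ∏ μ ∈ primitiveRoots q F, (1 - μ) := by
    have h1 := congrArg (Polynomial.eval (1 : F)) (cyclotomic_eq_prod_X_sub_primitiveRoots hζ)
    rw [eval_one_cyclotomic_prime, eval_prod] at h1
    rw [h1]
    refine Finset.prod_congr rfl fun μ _ => ?_
    simp
  rw [hq', map_prod]
  have hconst : ∀ μ ∈ primitiveRoots q F, w (1 - μ) = w (ζ - 1) := by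
    intro μ hμ
    have hμ' : IsPrimitiveRoot μ q := (mem_primitiveRoots hq.pos).mp hμ
    obtain ⟨i, -, hi⟩ := hζ.eq_pow_of_pow_eq_one hμ'.pow_eq_one
    obtain ⟨j, -, hj⟩ := hμ'.eq_pow_of_pow_eq_one hζ.pow_eq_one
    rw [w.map_sub_swap]
    refine le_antisymm ?_ ?_
    · rw [← hi]
      exact cyc46_val_pow_sub_one_le w ζ (hroot ζ hζ.pow_eq_one).le i
    · rw [← hj]
      exact cyc46_val_pow_sub_one_le w μ (hroot μ hμ'.pow_eq_one).le j
  rw [Finset.prod_congr rfl hconst, Finset.prod_const, hζ.card_primitiveRoots,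
    Nat.totient_prime hq]

/-- **The cyclotomic discrete valuation datum** (`cyc86_exists` of row 589, literal type). -/
theorem cyc46_exists {R K : Type} [CommRing R] [IsDomain R] [IsDiscreteValuationRing R] [Field K]
    [CharZero K] [Algebra R K] [IsFractionRing R K] (q : ℕ) (hq : q.Prime) {π : R}
    (hπ : Irreducible π) (hqπ : Associated ((q : ℕ) : R) π) :
    ∃ (K' : Type) (_ : Field K') (_ : Algebra K K') (A' : ValuationSubring K') (ϖ : A')
      (ρ : R →+* A') (ζ : A'ˣ),
      ϖ ≠ 0 ∧ (∀ r : A', IsLocalRing.residue A' r = 0 ↔ ϖ ∣ r) ∧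
      (∀ r : A', r ≠ 0 → ∃ n : ℕ, ¬ ϖ ^ (n + 1) ∣ r) ∧
      (∀ r : R, algebraMap A' K' (ρ r) = algebraMap K K' (algebraMap R K r)) ∧
      IsLocalRing.residue A' (ρ π) = 0 ∧
      ζ ^ q = 1 ∧ ζ ≠ 1 ∧ ∃ u : A'ˣ, ((ζ : A') - 1) ^ (q - 1) = ρ π * u := by
  classical
  haveI : NeZero q := ⟨hq.ne_zero⟩
  haveI : NeZero ((q : ℕ) : K) := ⟨Nat.cast_ne_zero.mpr hq.ne_zero⟩
  haveI : Fact q.Prime := ⟨hq⟩
  haveI : IsCyclotomicExtension {q} K (CyclotomicField q K) :=
    CyclotomicField.isCyclotomicExtension q K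
  haveI : FiniteDimensional K (CyclotomicField q K) :=
    IsCyclotomicExtension.finiteDimensional {q} K (CyclotomicField q K)
  haveI : Algebra.IsSeparable K (CyclotomicField q K) :=
    IsCyclotomicExtension.isSeparable {q} K (CyclotomicField q K)
  haveI : IsDedekindDomain ↥(integralClosure R (CyclotomicField q K)) :=
    integralClosure.isDedekindDomain R K (CyclotomicField q K)
  haveI : IsFractionRing ↥(integralClosure R (CyclotomicField q K)) (CyclotomicField q K) :=
    integralClosure.isFractionRing_of_finite_extension K (CyclotomicField q K)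
  -- injectivity of `R → O`
  have hinjK : Function.Injective (algebraMap R (CyclotomicField q K)) :=
    (algebraMap K (CyclotomicField q K)).injective.comp (IsFractionRing.injective R K)
  have hinj : Function.Injective (algebraMap R ↥(integralClosure R (CyclotomicField q K))) := by
    intro a b hab
    apply hinjK
    have := congrArg (algebraMap ↥(integralClosure R (CyclotomicField q K))
      (CyclotomicField q K)) hab
    rwa [← IsScalarTower.algebraMap_apply, ← IsScalarTower.algebraMap_apply] at this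
  -- a prime over the maximal ideal
  obtain ⟨Q, -, hQp, hQc⟩ := Ideal.exists_ideal_over_prime_of_isIntegral
    (IsLocalRing.maximalIdeal R) (⊥ : Ideal ↥(integralClosure R (CyclotomicField q K)))
    (by
      rw [← RingHom.ker_eq_comap_bot, (RingHom.injective_iff_ker_eq_bot _).mp hinj]
      exact bot_le)
  have hQne : Q ≠ ⊥ := by
    rintro rfl
    rw [← RingHom.ker_eq_comap_bot, (RingHom.injective_iff_ker_eq_bot _).mp hinj] at hQc
    exact IsDiscreteValuationRing.not_a_field R hQc.symm
  let v : HeightOneSpectrum ↥(integralClosure R (CyclotomicField q K)) := ⟨Q, hQp, hQne⟩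
  let w : Valuation (CyclotomicField q K) (WithZero (Multiplicative ℤ)) :=
    v.valuation (CyclotomicField q K)
  -- valuation of the image of `R`
  have hwR : ∀ r : R, w (algebraMap R (CyclotomicField q K) r) ≤ 1 := by
    intro r
    rw [IsScalarTower.algebraMap_apply R ↥(integralClosure R (CyclotomicField q K))
      (CyclotomicField q K)]
    exact v.valuation_le_one _
  have hwπ : w (algebraMap R (CyclotomicField q K) π) < 1 := by
    rw [IsScalarTower.algebraMap_apply R ↥(integralClosure R (CyclotomicField q K))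
      (CyclotomicField q K)]
    refine (v.valuation_lt_one_iff_mem _).mpr ?_
    have hπm : π ∈ IsLocalRing.maximalIdeal R := by
      rw [IsLocalRing.mem_maximalIdeal, mem_nonunits_iff]
      exact hπ.not_isUnit
    rw [← hQc] at hπm
    exact hπm
  have hπ0 : algebraMap R (CyclotomicField q K) π ≠ 0 := by
    rw [Ne, map_eq_zero_iff _ hinjK]
    exact hπ.ne_zero
  have hwunit : ∀ c : Rˣ, w (algebraMap R (CyclotomicField q K) (c : R)) = 1 := by
    intro c
    refine le_antisymm (hwR _) ?_
    have h1 : w (algebraMap R (CyclotomicField q K) (c : R)) *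
        w (algebraMap R (CyclotomicField q K) ((c⁻¹ : Rˣ) : R)) = 1 := by
      rw [← map_mul, ← map_mul, Units.mul_inv, map_one, map_one]
    rw [← h1]
    exact mul_le_of_le_one_right' (hwR _)
  -- the uniformizer
  obtain ⟨ϖ₀, hϖ₀⟩ := v.valuation_exists_uniformizer (CyclotomicField q K)
  have hϖw : w ϖ₀ = WithZero.exp (-1 : ℤ) := hϖ₀
  have hϖ0 : ϖ₀ ≠ 0 := by
    rintro rfl
    rw [map_zero] at hϖw
    exact WithZero.exp_ne_zero hϖw.symm
  have hϖmem : ϖ₀ ∈ w.valuationSubring := by
    rw [Valuation.mem_valuationSubring_iff, hϖw, ← WithZero.exp_zero (M := ℤ),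
      WithZero.exp_le_exp]
    norm_num
  -- units of `A'`
  have hunit : ∀ r : ↥w.valuationSubring, IsUnit r ↔ w (r : CyclotomicField q K) = 1 := by
    intro r
    constructor
    · rintro ⟨u, rfl⟩
      have h1 : w ((u : ↥w.valuationSubring) : CyclotomicField q K) *
          w (((u⁻¹ : (↥w.valuationSubring)ˣ) : ↥w.valuationSubring) : CyclotomicField q K) = 1 := by
        rw [← map_mul, ← MulMemClass.coe_mul, Units.mul_inv, OneMemClass.coe_one, map_one]
      refine le_antisymm ((Valuation.mem_valuationSubring_iff w _).mp (SetLike.coe_mem _)) ?_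
      rw [← h1]
      exact mul_le_of_le_one_right'
        ((Valuation.mem_valuationSubring_iff w _).mp (SetLike.coe_mem _))
    · intro h1
      have hr0 : (r : CyclotomicField q K) ≠ 0 := by
        intro h0
        rw [h0, map_zero] at h1
        exact zero_ne_one h1
      have hinv : (r : CyclotomicField q K)⁻¹ ∈ w.valuationSubring := by
        rw [Valuation.mem_valuationSubring_iff, map_inv₀, h1, inv_one]
      exact ⟨⟨r, ⟨_, hinv⟩, Subtype.ext (mul_inv_cancel₀ hr0), Subtype.ext (inv_mul_cancel₀ hr0)⟩,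
        rfl⟩
  -- divisibility by `ϖ`
  have hdvd : ∀ (r : ↥w.valuationSubring) (n : ℕ),
      (⟨ϖ₀, hϖmem⟩ : ↥w.valuationSubring) ^ n ∣ r ↔
        w (r : CyclotomicField q K) ≤ WithZero.exp (-(n : ℤ)) := by
    intro r n
    have hpow : w (ϖ₀ ^ n) = WithZero.exp (-(n : ℤ)) := by
      rw [map_pow, hϖw, ← WithZero.exp_nsmul]
      congr 1
      simp
    constructor
    · rintro ⟨s, rfl⟩
      have hs : w (s : CyclotomicField q K) ≤ 1 :=
        (Valuation.mem_valuationSubring_iff w _).mp (SetLike.coe_mem _)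
      have : ((⟨ϖ₀, hϖmem⟩ ^ n * s : ↥w.valuationSubring) : CyclotomicField q K) =
          ϖ₀ ^ n * (s : CyclotomicField q K) := rfl
      rw [this, map_mul, hpow]
      exact mul_le_of_le_one_right' hs
    · intro h
      have hmem : (r : CyclotomicField q K) * (ϖ₀ ^ n)⁻¹ ∈ w.valuationSubring := by
        rw [Valuation.mem_valuationSubring_iff, map_mul, map_inv₀, hpow]
        exact mul_inv_le_one_of_le₀ h zero_le
      refine ⟨⟨_, hmem⟩, Subtype.ext ?_⟩
      show (r : CyclotomicField q K) = ϖ₀ ^ n * ((r : CyclotomicField q K) * (ϖ₀ ^ n)⁻¹)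
      field_simp
  -- the root of unity
  have hζ : IsPrimitiveRoot (IsCyclotomicExtension.zeta q K (CyclotomicField q K)) q :=
    IsCyclotomicExtension.zeta_spec q K (CyclotomicField q K)
  have hwζ : w (IsCyclotomicExtension.zeta q K (CyclotomicField q K)) = 1 :=
    cyc46_eq_one_of_pow hq.ne_zero (by rw [← map_pow, hζ.pow_eq_one, map_one])
  have hζmem : IsCyclotomicExtension.zeta q K (CyclotomicField q K) ∈ w.valuationSubring := by
    rw [Valuation.mem_valuationSubring_iff, hwζ]
  obtain ⟨ζ, hζu⟩ := (hunit ⟨_, hζmem⟩).mpr hwζ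
  -- the ring homomorphism `ρ`
  let ρ : R →+* ↥w.valuationSubring :=
    (algebraMap R (CyclotomicField q K)).codRestrict w.valuationSubring.toSubring fun r =>
      (Valuation.mem_valuationSubring_iff w _).mpr (hwR r)
  have hρ : ∀ r : R, ((ρ r : ↥w.valuationSubring) : CyclotomicField q K) =
      algebraMap R (CyclotomicField q K) r := fun _ => rfl
  -- the unit `u`
  obtain ⟨c, hc⟩ := hqπ
  have hwq : w (((q : ℕ) : CyclotomicField q K)) = w (algebraMap R (CyclotomicField q K) π) := by
    have h1 : ((q : ℕ) : CyclotomicField q K) =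
        algebraMap R (CyclotomicField q K) π *
          algebraMap R (CyclotomicField q K) ((c⁻¹ : Rˣ) : R) := by
      rw [← map_mul, ← hc, mul_assoc, Units.mul_inv, mul_one, map_natCast]
    rw [h1, map_mul, hwunit, mul_one]
  have hu₀ : w ((IsCyclotomicExtension.zeta q K (CyclotomicField q K) - 1) ^ (q - 1) *
      (algebraMap R (CyclotomicField q K) π)⁻¹) = 1 := by
    rw [map_mul, map_pow, cyc46_val_zeta_sub_one w hq hζ, hwq, map_inv₀]
    exact mul_inv_cancel₀ (by rw [Ne, map_eq_zero]; exact hπ0)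
  have hu₀mem : (IsCyclotomicExtension.zeta q K (CyclotomicField q K) - 1) ^ (q - 1) *
      (algebraMap R (CyclotomicField q K) π)⁻¹ ∈ w.valuationSubring := by
    rw [Valuation.mem_valuationSubring_iff, hu₀]
  obtain ⟨u, hu⟩ := (hunit ⟨_, hu₀mem⟩).mpr hu₀
  refine ⟨CyclotomicField q K, inferInstance, inferInstance, w.valuationSubring, ⟨ϖ₀, hϖmem⟩, ρ, ζ,
    ?_, ?_, ?_, ?_, ?_, ?_, ?_, u, ?_⟩
  · intro h
    exact hϖ0 (congrArg Subtype.val h)
  · intro r
    rw [IsLocalRing.residue_eq_zero_iff, IsLocalRing.mem_maximalIdeal, mem_nonunits_iff, hunit]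
    have h1 := hdvd r 1
    rw [pow_one] at h1
    rw [h1]
    have hr : w (r : CyclotomicField q K) ≤ 1 :=
      (Valuation.mem_valuationSubring_iff w _).mp (SetLike.coe_mem _)
    rw [show (-((1 : ℕ) : ℤ)) = (-1 : ℤ) by norm_num, ← cyc46_lt_one_iff]
    exact ⟨fun h => lt_of_le_of_ne hr h, fun h => h.ne⟩
  · intro r hr
    have hr0 : w (r : CyclotomicField q K) ≠ 0 := by
      rw [Ne, map_eq_zero]
      exact fun h => hr (Subtype.ext h)
    obtain ⟨k, hk⟩ : ∃ k : ℤ, w (r : CyclotomicField q K) = WithZero.exp k :=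
      ⟨_, (WithZero.exp_log hr0).symm⟩
    refine ⟨(-k).toNat, fun h => ?_⟩
    rw [hdvd, hk, WithZero.exp_le_exp] at h
    push_cast at h
    omega
  · intro r
    rfl
  · rw [IsLocalRing.residue_eq_zero_iff, IsLocalRing.mem_maximalIdeal, mem_nonunits_iff, hunit,
      hρ]
    exact hwπ.ne
  · apply Units.ext
    apply Subtype.ext
    rw [Units.val_pow_eq_pow_val, hζu]
    show (IsCyclotomicExtension.zeta q K (CyclotomicField q K)) ^ q = 1
    exact hζ.pow_eq_one
  · intro h
    have h1 := congrArg (fun x : (↥w.valuationSubring)ˣ => ((x : ↥w.valuationSubring) :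
      CyclotomicField q K)) h
    simp only [hζu] at h1
    exact hζ.ne_one hq.one_lt h1
  · apply Subtype.ext
    rw [hζu, hu]
    show (IsCyclotomicExtension.zeta q K (CyclotomicField q K) - 1) ^ (q - 1) =
      algebraMap R (CyclotomicField q K) π *
        ((IsCyclotomicExtension.zeta q K (CyclotomicField q K) - 1) ^ (q - 1) *
          (algebraMap R (CyclotomicField q K) π)⁻¹)
    field_simp

end Fermat.Agent.S36
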