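import Fermat.Agent.S36.V2Gauss64
import Fermat.Agent.S36.CycDVR46
import Fermat.Agent.S36.OnlyBind72

/-!
# S36 lab, rows B1-V2 / C-C2 (helper46): the MID clause of the third valuation `V₂`

`q` prime, `q ∤ N`, `R` a discrete valuation ring with fraction field `K` (characteristic zero),
`π` a uniformizer associated to `q`.  For EVERY valuation subring `V₂` of `F(N q²)_K` with the
three facts `hV₂ : α₂ V_∞' ⊆ V₂`, `hπ₂ : π⁻¹ ∉ V₂`, `hne : V₁ ≠ V₂` (the parameters of `ob72_ram`,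
helper72) and every `x ∈ F(N)_K` with `R`-integral `q`-expansion, the difference
`D_x = β₂ (β₁ x) - α₂ (α₁ x)` (expansion `x(Q^(q²)) - x(Q)`) satisfies

* `v2m46_mid` : `π⁻¹ * D_x ^ (q - 1) ∈ V₂`;
* `v2m46_mid_val` : `V₂.valuation D_x < 1` (`x(q²τ) = x(τ)` in the residue field of `V₂`);
* `v2m46_mid_mem` : `D_x ∈ V₂ ∧ (D_x ≠ 0 → D_x⁻¹ ∉ V₂)`;
* `v2m46_mid_div` : `s⁻¹ * D_x ∈ V₂` for every `s` with `v₂(s)^(q-1) = v₂(π)`;
* `v2m46_mid_h2`, `v2m46_mid_h3`, `v2m46_mid_J` : the cases `x = pk85_h2`, `pk85_h3`, `j`.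

Proof: `v2m46_exists_of_datum` re-runs helper64's construction (`v2g64_exists_of_datum`, Gauss
pull-back along the conjugate embedding `Θ`) and exports the fifth clause
(`Θ D_x = x(ζQ) - x(Q) = (ζ - 1) · y`, `(ζ - 1)^(q-1) = π · unit`); the only-clause of `ob72_ram`
identifies every `V₂` with the three facts with that pull-back.

All names are prefixed `v2m46_`.
-/

set_option autoImplicit false
set_option linter.unusedSectionVars false
set_option linter.style.haveILetI false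

open ModularCurve IntermediateField

namespace Fermat.Agent.S36

open Fermat.Agent.S18 Fermat.Agent.S24 Fermat.Agent.S28 Fermat.Agent.S37 Fermat.Agent.S34
open Fermat.Agent.S35

section v2m46_main

variable {R K : Type} [CommRing R] [IsDomain R] [IsDiscreteValuationRing R] [Field K] [CharZero K]
  [Algebra R K] [IsFractionRing R K]

section v2m46_datum

variable {K' : Type} [Field K'] [Algebra K K'] (A' : ValuationSubring K')
variable (φ : K →+* Kbar) (N q : ℕ) [NeZero N] [NeZero q] (hq : q.Prime) (hN : ¬ q ∣ N)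

include φ hq hN in
/-- **B1-V2 with the MID clause, from a cyclotomic datum** (helper64's `v2g64_exists_of_datum`
with a fifth clause about the same `V₂`). -/
theorem v2m46_exists_of_datum {π : R} (hπ : Irreducible π) (ϖ : A') (ρ : R →+* A') (ζ : A'ˣ)
    (hD : v2g64_Datum K A' q π ϖ ρ ζ) :
    ∃ V₂ : ValuationSubring ↥(modularFunctionFieldFullC K (N * q * q)),
      (∀ c ∈ cm85_Vinf (K := K) (N * q) hπ, al97L_alpha K (N * q) q c ∈ V₂) ∧
      (algebraMap K ↥(modularFunctionFieldFullC K (N * q * q)) (algebraMap R K π))⁻¹ ∉ V₂ ∧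
      cm85_Vinf (K := K) (N * q * q) hπ ≠ V₂ ∧
      V₂.valuation (v2g64_s K N q) ^ (q - 1) =
        V₂.valuation (algebraMap K ↥(modularFunctionFieldFullC K (N * q * q))
          (algebraMap R K π)) ∧
      ∀ (x : ↥(modularFunctionFieldFullC K N)) (y : LaurentSeries R),
        ((x : ↥(modularFunctionFieldFullC K N)) : LaurentSeries K) =
          coeffMap (algebraMap R K) y →
        (algebraMap K ↥(modularFunctionFieldFullC K (N * q * q)) (algebraMap R K π))⁻¹ *
          (al97L_beta K (N * q) q (al97L_beta K N q x) -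
            al97L_alpha K (N * q) q (al97L_alpha K N q x)) ^ (q - 1) ∈ V₂ := by
  obtain ⟨hϖ0, hres, hfin, hρ, hρπ, hζq, hζ1, u, hu⟩ := hD
  have hq0 : q ≠ 0 := hq.ne_zero
  have hζKq : (Units.map (algebraMap A' K' : A' →* K') ζ) ^ q = 1 := by
    rw [← map_pow, hζq, map_one]
  have hζK1 : Units.map (algebraMap A' K' : A' →* K') ζ ≠ 1 := by
    intro h
    apply hζ1
    have h1 := congrArg (fun z : K'ˣ => (z : K')) h
    simp only [Units.coe_map, MonoidHom.coe_coe, Units.val_one] at h1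
    ext
    exact h1
  obtain ⟨Θ, hΘα, hΘβ⟩ := v2g64_exists_Theta φ N q hq hN
    (Units.map (algebraMap A' K' : A' →* K') ζ) hζKq hζK1
  have hF := v2g64_HF A' ϖ hres hϖ0 hfin
  -- the image of `Θ` lies in the field of integral series
  have hmem : ∀ x, Θ x ∈ v2g64_F A' := by
    have hS := ce97_gen K N q hq ((v2g64_F A').toSubfield.comap Θ)
      (fun a => by
        show Θ _ ∈ v2g64_F A'
        rw [hΘα]
        exact v2g64_coeffMap_mem A' (N * q) _ a.2)
      (fun b => by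
        show Θ _ ∈ v2g64_F A'
        rw [hΘβ]
        exact v2g64_twist_coeffMap_mem A' ζ (N * q) _ (al97L_w φ N q hq hN b).2)
    intro x
    have hx : x ∈ (v2g64_F A').toSubfield.comap Θ := by rw [hS]; exact Subfield.mem_top x
    exact hx
  let Θ' : ↥(modularFunctionFieldFullC K (N * q * q)) →+* ↥(v2g64_F A') :=
    Θ.codRestrict (v2g64_F A') hmem
  have hΘ' : ∀ x, ((Θ' x : ↥(v2g64_F A')) : LaurentSeries K') = Θ x := fun _ => rfl
  -- (A) `α₂ V_∞' ⊆ V₂`
  have hA : ∀ c ∈ cm85_Vinf (K := K) (N * q) hπ, Θ' (al97L_alpha K (N * q) q c) ∈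
      gv85_V (IsLocalRing.residue A') (v2g64_F A') hF := by
    intro c hc
    obtain ⟨s, t, hs, hst⟩ := hc
    refine ⟨coeffMap ρ s, coeffMap ρ t, v2g64_res_rho A' ρ s hs, ?_⟩
    rw [hΘ', hΘα, v2g64_coeffMap_rho A' ρ hρ, v2g64_coeffMap_rho A' ρ hρ, ← hst, map_mul]
  -- (B) `π⁻¹ ∉ V₂`
  have hπ0' : algebraMap A' K' (ρ π) ≠ 0 := by
    rw [hρ]
    exact (map_ne_zero _).mpr ((map_ne_zero_iff _ (IsFractionRing.injective R K)).mpr hπ.ne_zero)
  have hπΘ : ((Θ' (algebraMap K ↥(modularFunctionFieldFullC K (N * q * q))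
      (algebraMap R K π)) : ↥(v2g64_F A')) : LaurentSeries K') =
      HahnSeries.C (algebraMap A' K' (ρ π)) := by
    rw [hΘ']
    have h1 : algebraMap K ↥(modularFunctionFieldFullC K (N * q * q)) (algebraMap R K π) =
        al97L_alpha K (N * q) q
          (algebraMap K ↥(modularFunctionFieldFullC K (N * q)) (algebraMap R K π)) :=
      ((al97L_alpha K (N * q) q).commutes _).symm
    rw [h1, hΘα, gv85_coe_algebraMap, gv85_coeffMap_C, hρ]
  have hB := v2g64_const_inv_not_mem A' hF (ρ π) hρπ hπ0' _ hπΘ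
  -- (C) `s`
  obtain ⟨y, hy, hyj⟩ := v2g64_twist_sub_j A' ζ q hq0 hζq hζ1
  have hsΘ : Θ (v2g64_s K N q) =
      coeffMap (algebraMap A' K') (HahnSeries.C ((ζ : A') - 1) * y) := by
    unfold v2g64_s
    rw [map_sub, hΘβ, hΘα, al97L_w_beta_apply φ N q hq hN (v2g64_j K N), al97L_alpha_coe]
    have hj : coeffMap (algebraMap K K')
        ((v2g64_j K N : ↥(modularFunctionFieldFullC K N)) : LaurentSeries K) =
        coeffMap (algebraMap A' K') (jqModC A') := by
      show coeffMap (algebraMap K K') (jqModC K) = _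
      rw [coeffMap_jqModC, coeffMap_jqModC]
    rw [hj, ← hyj, map_sub, coeffMap_twist]
  have hζ0 : (ζ : A') - 1 ≠ 0 := by
    intro h
    apply hζ1
    ext
    exact congrArg Subtype.val (sub_eq_zero.mp h)
  have hy0 : y ≠ 0 := fun h => hy (by rw [h, map_zero])
  have hs0 : v2g64_s K N q ≠ 0 := by
    intro h
    have h1 : coeffMap (algebraMap A' K') (HahnSeries.C ((ζ : A') - 1) * y) = 0 := by
      rw [← hsΘ, h, map_zero]
    have h2 : HahnSeries.C ((ζ : A') - 1) * y = 0 := by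
      apply gv85_emb_injective (R := A') (K := K')
      rw [h1, map_zero]
    rcases mul_eq_zero.mp h2 with h3 | h3
    · exact HahnSeries.C_ne_zero hζ0 h3
    · exact hy0 h3
  have hC0 : (HahnSeries.C (algebraMap A' K' (ρ π)) : LaurentSeries K') ≠ 0 :=
    HahnSeries.C_ne_zero hπ0'
  have hZ : ((Θ' ((algebraMap K ↥(modularFunctionFieldFullC K (N * q * q))
      (algebraMap R K π))⁻¹ * v2g64_s K N q ^ (q - 1)) : ↥(v2g64_F A')) : LaurentSeries K') =
      coeffMap (algebraMap A' K') (HahnSeries.C (u : A') * y ^ (q - 1)) := by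
    rw [hΘ', map_mul, map_inv₀, map_pow, hsΘ, ← hΘ', hπΘ, inv_mul_eq_iff_eq_mul₀ hC0,
      ← gv85_coeffMap_C (algebraMap A' K') (ρ π), ← map_pow, ← map_mul]
    congr 1
    rw [mul_pow, ← map_pow, hu, map_mul]
    ring
  have hZres : coeffMap (IsLocalRing.residue A') (HahnSeries.C (u : A') * y ^ (q - 1)) ≠ 0 := by
    rw [map_mul, map_pow, gv85_coeffMap_C]
    refine mul_ne_zero (HahnSeries.C_ne_zero ?_) (pow_ne_zero _ hy)
    intro h
    rw [IsLocalRing.residue_eq_zero_iff] at h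
    exact (IsLocalRing.mem_maximalIdeal _).mp h u.isUnit
  have hu1 := v2g64_mem_of_int A' hF _ _ hZ
  have hu2 := v2g64_inv_mem_of_int A' hF _ _ hZ hZres
  -- `s` is a unit of `V₁`
  have hsV1 : (v2g64_s K N q)⁻¹ ∈ cm85_Vinf (K := K) (N * q * q) hπ := by
    have hsR : ((v2g64_s K N q : ↥(modularFunctionFieldFullC K (N * q * q))) :
        LaurentSeries K) = coeffMap (algebraMap R K)
          (qExpand R q (qExpand R q (jqModC R)) - jqModC R) := by
      rw [v2g64_s_coe, map_sub, coeffMap_qExpand, coeffMap_qExpand, coeffMap_jqModC]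
    refine v2g64_gv_inv_mem _ _ _ _ _ hsR ?_
    intro h0
    have h1 := congrArg (fun z : LaurentSeries (IsLocalRing.ResidueField R) =>
      z.coeff ((q : ℤ) * ((q : ℤ) * (-1)))) h0
    have hlt : (q : ℤ) * ((q : ℤ) * (-1)) < -1 := by
      have h2 : (2 : ℤ) ≤ q := by exact_mod_cast hq.two_le
      nlinarith
    simp only [coeffMap_coeff, HahnSeries.coeff_sub, qExpand_coeff_mul,
      coeff_jqModC_neg_one, coeff_jqModC_of_lt R hlt, sub_zero, map_one,
      HahnSeries.coeff_zero] at h1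
    exact one_ne_zero h1
  -- (E) the MID clause
  have hE : ∀ (x : ↥(modularFunctionFieldFullC K N)) (y : LaurentSeries R),
      ((x : ↥(modularFunctionFieldFullC K N)) : LaurentSeries K) =
        coeffMap (algebraMap R K) y →
      Θ' ((algebraMap K ↥(modularFunctionFieldFullC K (N * q * q)) (algebraMap R K π))⁻¹ *
        (al97L_beta K (N * q) q (al97L_beta K N q x) -
          al97L_alpha K (N * q) q (al97L_alpha K N q x)) ^ (q - 1)) ∈
        gv85_V (IsLocalRing.residue A') (v2g64_F A') hF := by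
    intro x y hxy
    obtain ⟨y', hy'⟩ := v2g64_twist_sub A' ζ q hq0 hζq hζ1 (coeffMap ρ y)
    have hDΘ : Θ (al97L_beta K (N * q) q (al97L_beta K N q x) -
          al97L_alpha K (N * q) q (al97L_alpha K N q x)) =
        coeffMap (algebraMap A' K') (HahnSeries.C ((ζ : A') - 1) * y') := by
      rw [map_sub, hΘβ, hΘα, al97L_w_beta_apply φ N q hq hN x, al97L_alpha_coe, hxy,
        ← v2g64_coeffMap_rho A' ρ hρ y, ← hy', map_sub, coeffMap_twist]
    have hZ' : ((Θ' ((algebraMap K ↥(modularFunctionFieldFullC K (N * q * q))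
        (algebraMap R K π))⁻¹ *
        (al97L_beta K (N * q) q (al97L_beta K N q x) -
          al97L_alpha K (N * q) q (al97L_alpha K N q x)) ^ (q - 1)) : ↥(v2g64_F A')) :
          LaurentSeries K') =
        coeffMap (algebraMap A' K') (HahnSeries.C (u : A') * y' ^ (q - 1)) := by
      rw [hΘ', map_mul, map_inv₀, map_pow, hDΘ, ← hΘ', hπΘ, inv_mul_eq_iff_eq_mul₀ hC0,
        ← gv85_coeffMap_C (algebraMap A' K') (ρ π), ← map_pow, ← map_mul]
      congr 1
      rw [mul_pow, ← map_pow, hu, map_mul]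
      ring
    exact v2g64_mem_of_int A' hF _ _ hZ'
  refine ⟨(gv85_V (IsLocalRing.residue A') (v2g64_F A') hF).comap Θ', ?_, ?_, ?_, ?_, ?_⟩
  · intro c hc
    exact ValuationSubring.mem_comap.mpr (hA c hc)
  · intro h
    apply hB
    rw [← map_inv₀]
    exact ValuationSubring.mem_comap.mp h
  · intro heq
    rw [heq] at hsV1
    apply hB
    rw [← map_inv₀]
    apply ValuationSubring.mem_comap.mp
    have h1 : (algebraMap K ↥(modularFunctionFieldFullC K (N * q * q)) (algebraMap R K π))⁻¹ =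
        ((algebraMap K ↥(modularFunctionFieldFullC K (N * q * q)) (algebraMap R K π))⁻¹ *
          v2g64_s K N q ^ (q - 1)) * ((v2g64_s K N q)⁻¹) ^ (q - 1) := by
      rw [inv_pow, mul_inv_cancel_right₀ (pow_ne_zero _ hs0)]
    rw [h1]
    exact mul_mem (ValuationSubring.mem_comap.mpr hu1) (pow_mem hsV1 _)
  · refine v2g64_val_pow_eq _ _ _ ?_ (q - 1) hs0 (ValuationSubring.mem_comap.mpr hu1) ?_
    · exact (map_ne_zero _).mpr
        ((map_ne_zero_iff _ (IsFractionRing.injective R K)).mpr hπ.ne_zero)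
    · apply ValuationSubring.mem_comap.mpr
      rw [map_inv₀]
      exact hu2
  · intro x y hxy
    exact ValuationSubring.mem_comap.mpr (hE x y hxy)

end v2m46_datum

variable (φ : K →+* Kbar) (N q : ℕ) [NeZero N] [NeZero q] (hq : q.Prime) (hN : ¬ q ∣ N)

include φ hq hN in
/-- **B1-V2 with the MID clause, unconditional**: a `V₂` with the four facts of `ob72_ram` and
`π⁻¹ * D_x ^ (q-1) ∈ V₂` for every `R`-integral `x` of level `N`. -/
theorem v2m46_exists {π : R} (hπ : Irreducible π) (hqπ : Associated ((q : ℕ) : R) π) :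
    ∃ V₂ : ValuationSubring ↥(modularFunctionFieldFullC K (N * q * q)),
      (∀ c ∈ cm85_Vinf (K := K) (N * q) hπ, al97L_alpha K (N * q) q c ∈ V₂) ∧
      (algebraMap K ↥(modularFunctionFieldFullC K (N * q * q)) (algebraMap R K π))⁻¹ ∉ V₂ ∧
      cm85_Vinf (K := K) (N * q * q) hπ ≠ V₂ ∧
      V₂.valuation (v2g64_s K N q) ^ (q - 1) =
        V₂.valuation (algebraMap K ↥(modularFunctionFieldFullC K (N * q * q))
          (algebraMap R K π)) ∧
      ∀ (x : ↥(modularFunctionFieldFullC K N)) (y : LaurentSeries R),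
        ((x : ↥(modularFunctionFieldFullC K N)) : LaurentSeries K) =
          coeffMap (algebraMap R K) y →
        (algebraMap K ↥(modularFunctionFieldFullC K (N * q * q)) (algebraMap R K π))⁻¹ *
          (al97L_beta K (N * q) q (al97L_beta K N q x) -
            al97L_alpha K (N * q) q (al97L_alpha K N q x)) ^ (q - 1) ∈ V₂ := by
  obtain ⟨K', _, _, A', ϖ, ρ, ζ, hD⟩ := cyc46_exists (K := K) q hq hπ hqπ
  exact v2m46_exists_of_datum A' φ N q hq hN hπ ϖ ρ ζ hD

include φ hq hN in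
/-- **(MID) for ANY `V₂`** with the three facts `hV₂`, `hπ₂`, `hne` of `ob72_ram`:
`π⁻¹ * (x(q²τ) - x(τ)) ^ (q-1) ∈ V₂` for every `R`-integral `x` of level `N`. -/
theorem v2m46_mid {π : R} (hπ : Irreducible π) (hqπ : Associated ((q : ℕ) : R) π)
    (V₂ : ValuationSubring ↥(modularFunctionFieldFullC K (N * q * q)))
    (hV₂ : ∀ c ∈ cm85_Vinf (K := K) (N * q) hπ, al97L_alpha K (N * q) q c ∈ V₂)
    (hπ₂ : (algebraMap K ↥(modularFunctionFieldFullC K (N * q * q)) (algebraMap R K π))⁻¹ ∉ V₂)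
    (hne : cm85_Vinf (K := K) (N * q * q) hπ ≠ V₂)
    (x : ↥(modularFunctionFieldFullC K N)) (y : LaurentSeries R)
    (hxy : ((x : ↥(modularFunctionFieldFullC K N)) : LaurentSeries K) =
      coeffMap (algebraMap R K) y) :
    (algebraMap K ↥(modularFunctionFieldFullC K (N * q * q)) (algebraMap R K π))⁻¹ *
      (al97L_beta K (N * q) q (al97L_beta K N q x) -
        al97L_alpha K (N * q) q (al97L_alpha K N q x)) ^ (q - 1) ∈ V₂ := by
  obtain ⟨V₂', h1, h2, h3, h4, h5⟩ := v2m46_exists φ N q hq hN hπ hqπ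
  have honly := (ob72_ram (K := K) (N * q) q hq (dvd_mul_left q N) hπ V₂' h1 h2 h3
    (v2g64_s K N q) h4).1 V₂ hV₂ hπ₂
  rcases honly with h | h
  · exact absurd h.symm hne
  · rw [h]
    exact h5 x y hxy

include φ hq hN in
/-- **(MID), valuation form**: `x(q²τ) = x(τ)` in the residue field of `V₂`. -/
theorem v2m46_mid_val {π : R} (hπ : Irreducible π) (hqπ : Associated ((q : ℕ) : R) π)
    (V₂ : ValuationSubring ↥(modularFunctionFieldFullC K (N * q * q)))
    (hV₂ : ∀ c ∈ cm85_Vinf (K := K) (N * q) hπ, al97L_alpha K (N * q) q c ∈ V₂)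
    (hπ₂ : (algebraMap K ↥(modularFunctionFieldFullC K (N * q * q)) (algebraMap R K π))⁻¹ ∉ V₂)
    (hne : cm85_Vinf (K := K) (N * q * q) hπ ≠ V₂)
    (x : ↥(modularFunctionFieldFullC K N)) (y : LaurentSeries R)
    (hxy : ((x : ↥(modularFunctionFieldFullC K N)) : LaurentSeries K) =
      coeffMap (algebraMap R K) y) :
    V₂.valuation (al97L_beta K (N * q) q (al97L_beta K N q x) -
      al97L_alpha K (N * q) q (al97L_alpha K N q x)) < 1 := by
  have h := v2m46_mid φ N q hq hN hπ hqπ V₂ hV₂ hπ₂ hne x y hxy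
  by_contra hlt
  rw [not_lt] at hlt
  apply hπ₂
  set D := al97L_beta K (N * q) q (al97L_beta K N q x) -
      al97L_alpha K (N * q) q (al97L_alpha K N q x) with hDdef
  have hD0 : D ≠ 0 := by
    intro h0
    rw [h0, map_zero] at hlt
    exact (not_le.mpr zero_lt_one) hlt
  have hDinv : D⁻¹ ∈ V₂ := by
    rw [← ValuationSubring.valuation_le_one_iff, map_inv₀]
    exact inv_le_one_of_one_le₀ hlt
  have h1 : (algebraMap K ↥(modularFunctionFieldFullC K (N * q * q)) (algebraMap R K π))⁻¹ =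
      ((algebraMap K ↥(modularFunctionFieldFullC K (N * q * q)) (algebraMap R K π))⁻¹ *
        D ^ (q - 1)) * (D⁻¹) ^ (q - 1) := by
    rw [inv_pow, mul_inv_cancel_right₀ (pow_ne_zero _ hD0)]
  rw [h1]
  exact mul_mem h (pow_mem hDinv _)

include φ hq hN in
/-- **(MID), membership form**: `D_x` lies in the maximal ideal of `V₂`. -/
theorem v2m46_mid_mem {π : R} (hπ : Irreducible π) (hqπ : Associated ((q : ℕ) : R) π)
    (V₂ : ValuationSubring ↥(modularFunctionFieldFullC K (N * q * q)))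
    (hV₂ : ∀ c ∈ cm85_Vinf (K := K) (N * q) hπ, al97L_alpha K (N * q) q c ∈ V₂)
    (hπ₂ : (algebraMap K ↥(modularFunctionFieldFullC K (N * q * q)) (algebraMap R K π))⁻¹ ∉ V₂)
    (hne : cm85_Vinf (K := K) (N * q * q) hπ ≠ V₂)
    (x : ↥(modularFunctionFieldFullC K N)) (y : LaurentSeries R)
    (hxy : ((x : ↥(modularFunctionFieldFullC K N)) : LaurentSeries K) =
      coeffMap (algebraMap R K) y) :
    (al97L_beta K (N * q) q (al97L_beta K N q x) -
      al97L_alpha K (N * q) q (al97L_alpha K N q x)) ∈ V₂ ∧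
    ((al97L_beta K (N * q) q (al97L_beta K N q x) -
      al97L_alpha K (N * q) q (al97L_alpha K N q x)) ≠ 0 →
    (al97L_beta K (N * q) q (al97L_beta K N q x) -
      al97L_alpha K (N * q) q (al97L_alpha K N q x))⁻¹ ∉ V₂) := by
  have h := v2m46_mid_val φ N q hq hN hπ hqπ V₂ hV₂ hπ₂ hne x y hxy
  refine ⟨(V₂.valuation_le_one_iff _).mp h.le, fun h0 hinv => ?_⟩
  have h2 := (V₂.valuation_le_one_iff _).mpr hinv
  rw [map_inv₀] at h2
  have h3 : (0 : ValuationSubring.ValueGroup V₂) < V₂.valuation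
      (al97L_beta K (N * q) q (al97L_beta K N q x) -
        al97L_alpha K (N * q) q (al97L_alpha K N q x)) :=
    zero_lt_iff.mpr ((Valuation.ne_zero_iff _).mpr h0)
  have h4 := (inv_le_one₀ h3).mp h2
  exact (not_le.mpr h) h4

include φ hq hN in
/-- **(MID), uniformizer form**: `s⁻¹ * D_x ∈ V₂` for every `s` with `v₂(s)^(q-1) = v₂(π)`
(e.g. `s = v2g64_s K N q = j(q²τ) - j(τ)`). -/
theorem v2m46_mid_div {π : R} (hπ : Irreducible π) (hqπ : Associated ((q : ℕ) : R) π)
    (V₂ : ValuationSubring ↥(modularFunctionFieldFullC K (N * q * q)))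
    (hV₂ : ∀ c ∈ cm85_Vinf (K := K) (N * q) hπ, al97L_alpha K (N * q) q c ∈ V₂)
    (hπ₂ : (algebraMap K ↥(modularFunctionFieldFullC K (N * q * q)) (algebraMap R K π))⁻¹ ∉ V₂)
    (hne : cm85_Vinf (K := K) (N * q * q) hπ ≠ V₂)
    (s : ↥(modularFunctionFieldFullC K (N * q * q)))
    (hs : V₂.valuation s ^ (q - 1) =
      V₂.valuation (algebraMap K ↥(modularFunctionFieldFullC K (N * q * q)) (algebraMap R K π)))
    (x : ↥(modularFunctionFieldFullC K N)) (y : LaurentSeries R)
    (hxy : ((x : ↥(modularFunctionFieldFullC K N)) : LaurentSeries K) =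
      coeffMap (algebraMap R K) y) :
    s⁻¹ * (al97L_beta K (N * q) q (al97L_beta K N q x) -
      al97L_alpha K (N * q) q (al97L_alpha K N q x)) ∈ V₂ := by
  obtain ⟨hmem, hinv⟩ := v2m46_mid_mem φ N q hq hN hπ hqπ V₂ hV₂ hπ₂ hne x y hxy
  by_cases h0 : al97L_beta K (N * q) q (al97L_beta K N q x) -
      al97L_alpha K (N * q) q (al97L_alpha K N q x) = 0
  · rw [h0, mul_zero]
    exact zero_mem _
  · exact (ob72_ram (K := K) (N * q) q hq (dvd_mul_left q N) hπ V₂ hV₂ hπ₂ hne s hs).2.2.1 _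
      hmem (hinv h0)

include φ hq hN in
/-- (MID) for the Hauptmodul `h₂` of level `2`. -/
theorem v2m46_mid_h2 {π : R} (hπ : Irreducible π) (hqπ : Associated ((q : ℕ) : R) π) (h2 : 2 ∣ N)
    (V₂ : ValuationSubring ↥(modularFunctionFieldFullC K (N * q * q)))
    (hV₂ : ∀ c ∈ cm85_Vinf (K := K) (N * q) hπ, al97L_alpha K (N * q) q c ∈ V₂)
    (hπ₂ : (algebraMap K ↥(modularFunctionFieldFullC K (N * q * q)) (algebraMap R K π))⁻¹ ∉ V₂)
    (hne : cm85_Vinf (K := K) (N * q * q) hπ ≠ V₂) :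
    V₂.valuation (al97L_beta K (N * q) q (al97L_beta K N q (pk85_h2 K N h2)) -
      al97L_alpha K (N * q) q (al97L_alpha K N q (pk85_h2 K N h2))) < 1 :=
  v2m46_mid_val φ N q hq hN hπ hqπ V₂ hV₂ hπ₂ hne (pk85_h2 K N h2) (h70_h2 R)
    ((pk85_h2_coe K N h2).trans (h70_coeffMap_h2 (algebraMap R K)).symm)

include φ hq hN in
/-- (MID) for the Hauptmodul `h₃` of level `3`. -/
theorem v2m46_mid_h3 {π : R} (hπ : Irreducible π) (hqπ : Associated ((q : ℕ) : R) π) (h3 : 3 ∣ N)
    (V₂ : ValuationSubring ↥(modularFunctionFieldFullC K (N * q * q)))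
    (hV₂ : ∀ c ∈ cm85_Vinf (K := K) (N * q) hπ, al97L_alpha K (N * q) q c ∈ V₂)
    (hπ₂ : (algebraMap K ↥(modularFunctionFieldFullC K (N * q * q)) (algebraMap R K π))⁻¹ ∉ V₂)
    (hne : cm85_Vinf (K := K) (N * q * q) hπ ≠ V₂) :
    V₂.valuation (al97L_beta K (N * q) q (al97L_beta K N q (pk85_h3 K N h3)) -
      al97L_alpha K (N * q) q (al97L_alpha K N q (pk85_h3 K N h3))) < 1 :=
  v2m46_mid_val φ N q hq hN hπ hqπ V₂ hV₂ hπ₂ hne (pk85_h3 K N h3) (h34_h3R R)
    ((pk85_h3_coe K N h3).trans (h34_coeffMap_h3R (algebraMap R K)).symm)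

include φ hq hN in
/-- (MID) for `j` (`= v2g64_s K N q`). -/
theorem v2m46_mid_J {π : R} (hπ : Irreducible π) (hqπ : Associated ((q : ℕ) : R) π)
    (V₂ : ValuationSubring ↥(modularFunctionFieldFullC K (N * q * q)))
    (hV₂ : ∀ c ∈ cm85_Vinf (K := K) (N * q) hπ, al97L_alpha K (N * q) q c ∈ V₂)
    (hπ₂ : (algebraMap K ↥(modularFunctionFieldFullC K (N * q * q)) (algebraMap R K π))⁻¹ ∉ V₂)
    (hne : cm85_Vinf (K := K) (N * q * q) hπ ≠ V₂) :
    V₂.valuation (v2g64_s K N q) < 1 :=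
  v2m46_mid_val φ N q hq hN hπ hqπ V₂ hV₂ hπ₂ hne (v2g64_j K N) (jqModC R)
    (coeffMap_jqModC (algebraMap R K)).symm

end v2m46_main

end Fermat.Agent.S36
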