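import Fermat.Agent.S36.C2Final24
import Fermat.Agent.S36.GaussUnitW31
import Fermat.Agent.S36.V2Mid46
import Fermat.Agent.S36.MidCuspV2_8
import Fermat.Agent.S34.ModPolyDeg78
import Fermat.Agent.S34.FrameSat85

/-!
S36 lab, registry row 600 (C-C2), concrete binding, FIELD SIDE (helper31, backup of helper24).

Canonical frame of level `M' q²`: `F₂ = F_K(M' q²)`, `V₂` ANY valuation subring with the four
`ob72_ram` facts (`hV₂ hπ₂ hne hs`, e.g. `v2g64_V2`), `σ = v2g64_s K M' q = x3 - x1` with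
`x1 = α₂ α₁ j`, `J = α₂ β₁ j`, `x3 = β₂ β₁ j`.

* `c2i31_unit` : an element of `F_K(M)` with `R`-integral expansion of non-zero reduction is a
  unit of the Gauss valuation ring `cm85_Vinf M hπ`.
* `c2i31_jdata` : ALL the `j`-hypotheses of `c2f24_prinAt_two/three` (`c2e24_kron_val`):
  Kronecker polynomial, `γ1`, `e'`, `wj`, chain rule, `v₂(σ)^(q-1) = v₂(q)`, `v₂(q) < 1`.
* `c2i31_hdata2` / `c2i31_hdata3` : ALL the Hauptmodul hypotheses of `c2f24_prinAt_two/three` for
  `t1 = α₂ α₁ h`, `t2 = α₂ β₁ h`, `t3 = β₂ β₁ h`, `h = pk85_h2 K M' h2` (resp. `pk85_h3`).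
* `c2i31_prinAt_two` / `c2i31_prinAt_three` : `mc25_MidPrinAt (v2g64_s K M' q) B V₂ n` at a prime
  `n` of a chart `B` on the middle branch only, from the CHART data alone:
  `s = b (t3 - t1)` with `b ∉ n`, and `wt * tw = aw` with `aw ∉ n` for the element `wt` of
  expansion `uwh31_w K q (h70_h2 K)` (resp. `h34_h3R K`).

All names are prefixed `c2i31_`.
-/

set_option autoImplicit false
set_option linter.unusedSectionVars false
set_option linter.unusedVariables false
set_option linter.style.longLine false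

open ModularCurve AlgebraicCurve IntermediateField Polynomial

namespace Fermat.Agent.S36

open Fermat.Agent.S18 Fermat.Agent.S24 Fermat.Agent.S28 Fermat.Agent.S37 Fermat.Agent.S34
  Fermat.Agent.S42 Fermat.Agent.S35 Fermat.Agent.S36.TripleLoc71

local notation "Q̄" => AlgebraicClosure ℚ

section c2i31_gauss

variable {R K : Type} [CommRing R] [IsDomain R] [IsDiscreteValuationRing R] [Field K] [CharZero K]
  [Algebra R K] [IsFractionRing R K]

/-- **Gauss units.**  An element with `R`-integral expansion of non-zero reduction is a unit of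
`V_∞`. -/
theorem c2i31_unit (M : ℕ) [NeZero M] {π : R} (hπ : Irreducible π)
    (x : ↥(modularFunctionFieldFullC K M)) (f : LaurentSeries R)
    (hx : (x : LaurentSeries K) = coeffMap (algebraMap R K) f)
    (hf : coeffMap (IsLocalRing.residue R) f ≠ 0) :
    x ∈ cm85_Vinf (K := K) M hπ ∧ x⁻¹ ∈ cm85_Vinf (K := K) M hπ ∧ x ≠ 0 := by
  have hx0 : (x : LaurentSeries K) ≠ 0 := by
    intro h0
    apply hf
    have h1 : f = 0 := by
      apply gv85_emb_injective (R := R) (K := K)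
      rw [← hx, h0, map_zero]
    rw [h1, map_zero]
  have hmem : x ∈ cm85_Vinf (K := K) M hπ := gv85_mem_V_of_integral _ _ _ _ f hx
  refine ⟨hmem, ?_, fun h => hx0 (by rw [h]; rfl)⟩
  have e1 : coeffMap (algebraMap R K) (1 : LaurentSeries R) = 1 := map_one _
  have h1 : (((x⁻¹ : ↥(modularFunctionFieldFullC K M)) :
      ↥(modularFunctionFieldFullC K M)) : LaurentSeries K) = (x : LaurentSeries K)⁻¹ := rfl
  have h2 : coeffMap (algebraMap R K) f * (((x⁻¹ : ↥(modularFunctionFieldFullC K M)) :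
      ↥(modularFunctionFieldFullC K M)) : LaurentSeries K) =
      coeffMap (algebraMap R K) (1 : LaurentSeries R) := by
    rw [e1, h1, ← hx]
    exact mul_inv_cancel₀ hx0
  exact ⟨f, 1, hf, h2⟩

/-- Constants of `R` lie in `V_∞`. -/
theorem c2i31_const (M : ℕ) [NeZero M] {π : R} (hπ : Irreducible π) (r : R) :
    algebraMap K ↥(modularFunctionFieldFullC K M) (algebraMap R K r) ∈
      cm85_Vinf (K := K) M hπ :=
  gv85_mem_V_of_integral _ _ _ _ (HahnSeries.C r) (by rw [gv85_coe_algebraMap, gv85_coeffMap_C])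

omit [IsDomain R] [IsDiscreteValuationRing R] [Algebra R K] [IsFractionRing R K] in
/-- Non-zero natural numbers are non-zero in `F_K(M)`. -/
theorem c2i31_natCast_ne_zero (M : ℕ) (n : ℕ) (hn : n ≠ 0) :
    ((n : ℕ) : ↥(modularFunctionFieldFullC K M)) ≠ 0 := by
  intro h0
  have h1 : algebraMap K ↥(modularFunctionFieldFullC K M) ((n : ℕ) : K) = 0 := by
    rw [map_natCast]
    exact h0
  exact (Nat.cast_ne_zero (R := K)).mpr hn ((map_eq_zero _).mp h1)

/-- The residue field has characteristic `q`. -/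
theorem c2i31_expChar {q : ℕ} (hq : q.Prime) (hqR : ¬ IsUnit ((q : ℕ) : R)) :
    ExpChar (IsLocalRing.ResidueField R) q := by
  have hchar : ((q : ℕ) : IsLocalRing.ResidueField R) = 0 := by
    have h1 : IsLocalRing.residue R ((q : ℕ) : R) = 0 :=
      (IsLocalRing.residue_eq_zero_iff _).mpr ((IsLocalRing.mem_maximalIdeal _).mpr hqR)
    simpa using h1
  haveI : CharP (IsLocalRing.ResidueField R) q := (CharP.charP_iff_prime_eq_zero hq).mpr hchar
  exact ExpChar.prime hq

/-- Frobenius congruence in the Gauss ring: if `f(Q^q) ≡ f^q` modulo `π`, then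
`(q : F)⁻¹ (β x - (α x)^q) ∈ V_∞` (here for any `y` of expansion `f(Q^q) - f^q`). -/
theorem c2i31_div_q (M : ℕ) [NeZero M] {q : ℕ} {π : R} (hπ : Irreducible π)
    (hqπ : Associated ((q : ℕ) : R) π)
    (y : ↥(modularFunctionFieldFullC K M)) (f : LaurentSeries R)
    (hy : (y : LaurentSeries K) = coeffMap (algebraMap R K) f)
    (hf : coeffMap (IsLocalRing.residue R) f = 0) :
    ((q : ℕ) : ↥(modularFunctionFieldFullC K M))⁻¹ * y ∈ cm85_Vinf (K := K) M hπ := by
  have h1 : (algebraMap K ↥(modularFunctionFieldFullC K M) (algebraMap R K π))⁻¹ * y ∈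
      cm85_Vinf (K := K) M hπ :=
    (gv85_gauss (IsLocalRing.residue R) π (pk85_res_iff hπ) hπ.ne_zero _ _ y f hy).mpr hf
  obtain ⟨uu, huq⟩ := hqπ
  have hπK : algebraMap R K π ≠ 0 := fun h =>
    hπ.ne_zero (IsFractionRing.injective R K (by rw [h, map_zero]))
  have hπF : algebraMap K ↥(modularFunctionFieldFullC K M) (algebraMap R K π) ≠ 0 := fun h =>
    hπK ((map_eq_zero _).mp h)
  have e1 : algebraMap K ↥(modularFunctionFieldFullC K M) (algebraMap R K π) =
      ((q : ℕ) : ↥(modularFunctionFieldFullC K M)) *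
        algebraMap K ↥(modularFunctionFieldFullC K M) (algebraMap R K (uu : R)) := by
    rw [← huq, map_mul, map_mul, map_natCast, map_natCast]
  have hq0 : ((q : ℕ) : ↥(modularFunctionFieldFullC K M)) ≠ 0 := by
    intro h0
    rw [h0, zero_mul] at e1
    exact hπF e1
  have e2 : ((q : ℕ) : ↥(modularFunctionFieldFullC K M))⁻¹ * y =
      algebraMap K ↥(modularFunctionFieldFullC K M) (algebraMap R K (uu : R)) *
        ((algebraMap K ↥(modularFunctionFieldFullC K M) (algebraMap R K π))⁻¹ * y) := by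
    have hu0 : algebraMap K ↥(modularFunctionFieldFullC K M) (algebraMap R K (uu : R)) ≠ 0 := by
      intro h0
      rw [h0, mul_zero] at e1
      exact hπF e1
    rw [e1]
    field_simp
  rw [e2]
  exact mul_mem (c2i31_const M hπ _) h1

end c2i31_gauss

section c2i31_red

variable {κ : Type*} [Field κ]

/-- `j(Q^q)^q - j(Q) ≠ 0` in characteristic `q`. -/
theorem c2i31_red_eps (q : ℕ) [NeZero q] (hq : q.Prime) [ExpChar κ q] :
    qExpand κ q (jqModC κ) ^ q - jqModC κ ≠ 0 := by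
  intro h0
  have h1 := congrArg (fun f : LaurentSeries κ => f.coeff (-1)) h0
  simp only [HahnSeries.coeff_sub, HahnSeries.coeff_zero, coeff_jqModC_neg_one] at h1
  rw [kr50_pow_char q (qExpand κ q (jqModC κ))] at h1
  have hnd : ¬ ((q : ℕ) : ℤ) ∣ (-1 : ℤ) := by
    intro h
    have h2 : ((q : ℕ) : ℤ) ∣ ((1 : ℕ) : ℤ) := by
      have := (dvd_neg).mp h
      simpa using this
    exact hq.one_lt.ne' (Nat.dvd_one.mp (Int.natCast_dvd_natCast.mp h2))
  rw [qExpand_coeff_of_not_dvd q _ hnd] at h1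
  norm_num at h1

/-- `(h₂ + 256)² (h₂ - 512) ≠ 0` over any field. -/
theorem c2i31_red_D2 (κ : Type*) [Field κ] :
    (h70_h2 κ + 256) ^ 2 * (h70_h2 κ - 512) ≠ 0 := by
  have htr : Transcendental κ (h70_h2 κ) := h70_h2_transcendental κ
  have hc : ∀ c : κ, h70_h2 κ ≠ algebraMap κ (LaurentSeries κ) c := by
    intro c e
    apply htr
    rw [e]
    exact isAlgebraic_algebraMap c
  refine mul_ne_zero (pow_ne_zero 2 ?_) ?_
  · intro h0
    apply hc (-256)
    rw [map_neg, map_ofNat]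
    exact eq_neg_of_add_eq_zero_left h0
  · intro h0
    apply hc 512
    rw [map_ofNat]
    exact sub_eq_zero.mp h0

/-- `(h₃ + 243)² (h₃² - 486 h₃ - 19683) ≠ 0` over any field. -/
theorem c2i31_red_D3 (κ : Type*) [Field κ] :
    (h34_h3R κ + 243) ^ 2 * (h34_h3R κ ^ 2 - 486 * h34_h3R κ - 19683) ≠ 0 := by
  have htr : Transcendental κ (h34_h3R κ) := h34_h3R_transcendental κ
  refine mul_ne_zero (pow_ne_zero 2 ?_) ?_
  · intro h0
    apply htr
    have e : h34_h3R κ = algebraMap κ (LaurentSeries κ) (-243) := by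
      rw [map_neg, map_ofNat]
      exact eq_neg_of_add_eq_zero_left h0
    rw [e]
    exact isAlgebraic_algebraMap _
  · intro h0
    apply htr
    refine ⟨X ^ 2 - C (486 : κ) * X - C (19683 : κ), ?_, ?_⟩
    · intro hp
      have h2 : (X ^ 2 - C (486 : κ) * X - C (19683 : κ) : Polynomial κ).coeff 2 = 1 := by
        simp
      rw [hp, coeff_zero] at h2
      exact zero_ne_one h2
    · simp only [map_sub, map_mul, map_pow, aeval_X, map_ofNat]
      exact h0

end c2i31_red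

section c2i31_frame

variable {R K : Type} [CommRing R] [IsDomain R] [IsDiscreteValuationRing R] [Field K] [CharZero K]
  [Algebra R K] [IsFractionRing R K] [Algebra K Q̄] (M' q : ℕ) [NeZero M'] [NeZero q]

/-- Constants of `R` lie in `V₂`. -/
theorem c2i31_const_V2 {π : R} (hπ : Irreducible π)
    (V₂ : ValuationSubring ↥(modularFunctionFieldFullC K (M' * q * q)))
    (hV₂ : ∀ c ∈ cm85_Vinf (K := K) (M' * q) hπ, al97L_alpha K (M' * q) q c ∈ V₂) (r : R) :
    algebraMap K ↥(modularFunctionFieldFullC K (M' * q * q)) (algebraMap R K r) ∈ V₂ := by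
  have h := hV₂ _ (c2i31_const (K := K) (M' * q) hπ r)
  rwa [AlgHom.commutes] at h

/-- `v₂(π) = v₂(q)`. -/
theorem c2i31_val_pi_eq {π : R} (hπ : Irreducible π) (hqπ : Associated ((q : ℕ) : R) π)
    (V₂ : ValuationSubring ↥(modularFunctionFieldFullC K (M' * q * q)))
    (hV₂ : ∀ c ∈ cm85_Vinf (K := K) (M' * q) hπ, al97L_alpha K (M' * q) q c ∈ V₂) :
    V₂.valuation (algebraMap K ↥(modularFunctionFieldFullC K (M' * q * q)) (algebraMap R K π)) =
      V₂.valuation ((q : ℕ) : ↥(modularFunctionFieldFullC K (M' * q * q))) := by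
  obtain ⟨uu, huq⟩ := hqπ
  have h1 := c2i31_const_V2 M' q hπ V₂ hV₂ (uu : R)
  have h2 := c2i31_const_V2 M' q hπ V₂ hV₂ ((uu⁻¹ : Rˣ) : R)
  have h3 : algebraMap K ↥(modularFunctionFieldFullC K (M' * q * q)) (algebraMap R K (uu : R)) *
      algebraMap K ↥(modularFunctionFieldFullC K (M' * q * q))
        (algebraMap R K ((uu⁻¹ : Rˣ) : R)) = 1 := by
    rw [← map_mul, ← map_mul, ← Units.val_mul, mul_inv_cancel, Units.val_one, map_one, map_one]
  have hv1 : V₂.valuation (algebraMap K ↥(modularFunctionFieldFullC K (M' * q * q))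
      (algebraMap R K (uu : R))) ≤ 1 := (V₂.valuation_le_one_iff _).mpr h1
  have hv2 : V₂.valuation (algebraMap K ↥(modularFunctionFieldFullC K (M' * q * q))
      (algebraMap R K ((uu⁻¹ : Rˣ) : R))) ≤ 1 := (V₂.valuation_le_one_iff _).mpr h2
  have hv3 : V₂.valuation (algebraMap K ↥(modularFunctionFieldFullC K (M' * q * q))
      (algebraMap R K (uu : R))) * V₂.valuation (algebraMap K
        ↥(modularFunctionFieldFullC K (M' * q * q)) (algebraMap R K ((uu⁻¹ : Rˣ) : R))) = 1 := by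
    rw [← map_mul, h3, map_one]
  have hv : V₂.valuation (algebraMap K ↥(modularFunctionFieldFullC K (M' * q * q))
      (algebraMap R K (uu : R))) = 1 := by
    refine le_antisymm hv1 ?_
    rw [← hv3]
    exact mul_le_of_le_one_right zero_le hv2
  rw [← huq, map_mul, map_mul, map_natCast, map_natCast, map_mul, hv, mul_one]

/-- **The `j`-data**: all the `j`-hypotheses of `c2f24_prinAt_two/three` on the canonical frame
(`x1 = α₂ α₁ j`, `J = α₂ β₁ j`, `x3 = β₂ β₁ j`, so `x3 - x1 = v2g64_s K M' q`). -/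
theorem c2i31_jdata (hq : q.Prime) {π : R} (hπ : Irreducible π)
    (hqπ : Associated ((q : ℕ) : R) π)
    (V₂ : ValuationSubring ↥(modularFunctionFieldFullC K (M' * q * q)))
    (hV₂ : ∀ c ∈ cm85_Vinf (K := K) (M' * q) hπ, al97L_alpha K (M' * q) q c ∈ V₂)
    (hπ₂ : (algebraMap K ↥(modularFunctionFieldFullC K (M' * q * q)) (algebraMap R K π))⁻¹ ∉ V₂)
    (hne : cm85_Vinf (K := K) (M' * q * q) hπ ≠ V₂)
    (hs : V₂.valuation (v2g64_s K M' q) ^ (q - 1) =
      V₂.valuation (algebraMap K ↥(modularFunctionFieldFullC K (M' * q * q))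
        (algebraMap R K π))) :
    ∃ (Φ Ψ : Polynomial (Polynomial ℤ))
      (γ1 wj e' : ↥(modularFunctionFieldFullC K (M' * q * q))),
      Φ = (X - C (X ^ q)) * (X ^ q - C X) + C (C (q : ℤ)) * Ψ ∧
      al97L_alpha K (M' * q) q (al97L_alpha K M' q (v2g64_j K M')) ∈ V₂ ∧
      al97L_alpha K (M' * q) q (al97L_beta K M' q (v2g64_j K M')) ∈ V₂ ∧
      γ1 ∈ V₂ ∧ wj ∈ V₂ ∧ e' ∈ V₂ ∧
      al97L_alpha K (M' * q) q (al97L_beta K M' q (v2g64_j K M')) =
        al97L_alpha K (M' * q) q (al97L_alpha K M' q (v2g64_j K M')) ^ q +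
          ((q : ℕ) : ↥(modularFunctionFieldFullC K (M' * q * q))) * γ1 ∧
      dq56_ev (al97L_alpha K (M' * q) q (al97L_beta K M' q (v2g64_j K M')))
        (al97L_alpha K (M' * q) q (al97L_alpha K M' q (v2g64_j K M'))) Φ = 0 ∧
      dq56_ev (al97L_alpha K (M' * q) q (al97L_beta K M' q (v2g64_j K M')))
        (al97L_beta K (M' * q) q (al97L_beta K M' q (v2g64_j K M'))) Φ = 0 ∧
      (al97L_alpha K (M' * q) q (al97L_beta K M' q (v2g64_j K M')) ^ q -
        al97L_alpha K (M' * q) q (al97L_alpha K M' q (v2g64_j K M'))) * e' = 1 ∧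
      dq56_ev (al97L_alpha K (M' * q) q (al97L_beta K M' q (v2g64_j K M')))
          (al97L_alpha K (M' * q) q (al97L_alpha K M' q (v2g64_j K M'))) (dq56_dY Φ) =
        -(((q : ℕ) : ↥(modularFunctionFieldFullC K (M' * q * q))) * wj *
          dq56_ev (al97L_alpha K (M' * q) q (al97L_beta K M' q (v2g64_j K M')))
            (al97L_alpha K (M' * q) q (al97L_alpha K M' q (v2g64_j K M'))) (derivative Φ)) ∧
      (wj : LaurentSeries K) = uw31_w K q ∧
      V₂.valuation (al97L_beta K (M' * q) q (al97L_beta K M' q (v2g64_j K M')) -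
          al97L_alpha K (M' * q) q (al97L_alpha K M' q (v2g64_j K M'))) ^ (q - 1) =
        V₂.valuation ((q : ℕ) : ↥(modularFunctionFieldFullC K (M' * q * q))) ∧
      V₂.valuation ((q : ℕ) : ↥(modularFunctionFieldFullC K (M' * q * q))) < 1 := by
  have hqR : ¬ IsUnit ((q : ℕ) : R) := fun hu => hπ.not_isUnit (hqπ.isUnit hu)
  haveI : ExpChar (IsLocalRing.ResidueField R) q := c2i31_expChar hq hqR
  have hqM' : q ∣ M' * q := dvd_mul_left q M'
  have hqM : q ∣ M' * q * q := dvd_mul_left q (M' * q)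
  obtain ⟨Φ, Ψ, -, -, hm1, hm2, hΨ, -⟩ := mps78_modEq q hq
  -- the modular equation in `K((Q))`
  have hK1 : dq56_ev (JdC K q) (jqModC K) Φ = 0 := by
    have h := congrArg (coeffMap (Int.castRingHom K)) hm1
    have e : Φ.eval₂ (evJ ℤ) (JdC ℤ q) = dq56_ev (JdC ℤ q) (jqModC ℤ) Φ := rfl
    rw [e, dq56_ev_map, coeffMap_JdC, coeffMap_jqModC, map_zero] at h
    exact h
  have hK2 : dq56_ev (jqModC K) (JdC K q) Φ = 0 := by
    have h := congrArg (coeffMap (Int.castRingHom K)) hm2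
    have e : Φ.eval₂ (evJd ℤ q) (jqModC ℤ) = dq56_ev (jqModC ℤ) (JdC ℤ q) Φ := rfl
    rw [e, dq56_ev_map, coeffMap_JdC, coeffMap_jqModC, map_zero] at h
    exact h
  have hK3 : dq56_ev (JdC K q) (qExpand K q (qExpand K q (jqModC K))) Φ = 0 := by
    have h := congrArg (qExpand K q) hK2
    rw [dq56_ev_map, JdC_of_neZero, map_zero] at h
    rw [JdC_of_neZero]
    exact h
  let ι : ↥(modularFunctionFieldFullC K (M' * q * q)) →+* LaurentSeries K :=
    algebraMap ↥(modularFunctionFieldFullC K (M' * q * q)) (LaurentSeries K)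
  have hcx1 : ((al97L_alpha K (M' * q) q (al97L_alpha K M' q (v2g64_j K M')) :
      ↥(modularFunctionFieldFullC K (M' * q * q))) : LaurentSeries K) = jqModC K := by
    rw [al97L_alpha_coe, al97L_alpha_coe]
    rfl
  have hcJ : ((al97L_alpha K (M' * q) q (al97L_beta K M' q (v2g64_j K M')) :
      ↥(modularFunctionFieldFullC K (M' * q * q))) : LaurentSeries K) = JdC K q := by
    rw [al97L_alpha_coe, al97L_beta_coe, JdC_of_neZero]
    rfl
  have hcx3 : ((al97L_beta K (M' * q) q (al97L_beta K M' q (v2g64_j K M')) :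
      ↥(modularFunctionFieldFullC K (M' * q * q))) : LaurentSeries K) =
      qExpand K q (qExpand K q (jqModC K)) := by
    rw [al97L_beta_coe, al97L_beta_coe]
    rfl
  have hιx1 : ι (al97L_alpha K (M' * q) q (al97L_alpha K M' q (v2g64_j K M'))) = jqModC K := hcx1
  have hιJ : ι (al97L_alpha K (M' * q) q (al97L_beta K M' q (v2g64_j K M'))) = JdC K q := hcJ
  have hιx3 : ι (al97L_beta K (M' * q) q (al97L_beta K M' q (v2g64_j K M'))) =
      qExpand K q (qExpand K q (jqModC K)) := hcx3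
  have hΦ1 : dq56_ev (al97L_alpha K (M' * q) q (al97L_beta K M' q (v2g64_j K M')))
      (al97L_alpha K (M' * q) q (al97L_alpha K M' q (v2g64_j K M'))) Φ = 0 := by
    apply ι.injective
    rw [dq56_ev_map, hιx1, hιJ, map_zero]
    exact hK1
  have hΦ3 : dq56_ev (al97L_alpha K (M' * q) q (al97L_beta K M' q (v2g64_j K M')))
      (al97L_beta K (M' * q) q (al97L_beta K M' q (v2g64_j K M'))) Φ = 0 := by
    apply ι.injective
    rw [dq56_ev_map, hιx3, hιJ, map_zero]
    exact hK3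
  -- memberships
  have hα1j : al97L_alpha K M' q (v2g64_j K M') ∈ cm85_Vinf (K := K) (M' * q) hπ :=
    gv85_mem_V_of_integral _ _ _ _ (jqModC R) (by
      rw [al97L_alpha_coe, coeffMap_jqModC]
      rfl)
  have hβ1j : al97L_beta K M' q (v2g64_j K M') ∈ cm85_Vinf (K := K) (M' * q) hπ :=
    gv85_mem_V_of_integral _ _ _ _ (qExpand R q (jqModC R)) (by
      rw [al97L_beta_coe, kr50_coeffMap_qExpand, coeffMap_jqModC]
      rfl)
  have hx1 := hV₂ _ hα1j
  have hJ := hV₂ _ hβ1j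
  let ι' : ↥(modularFunctionFieldFullC K (M' * q)) →+* LaurentSeries K :=
    algebraMap ↥(modularFunctionFieldFullC K (M' * q)) (LaurentSeries K)
  have hι'a : ι' (al97L_alpha K M' q (v2g64_j K M')) = jqModC K := by
    show ((al97L_alpha K M' q (v2g64_j K M') : ↥(modularFunctionFieldFullC K (M' * q))) :
      LaurentSeries K) = _
    rw [al97L_alpha_coe]
    rfl
  have hι'b : ι' (al97L_beta K M' q (v2g64_j K M')) = qExpand K q (jqModC K) := by
    show ((al97L_beta K M' q (v2g64_j K M') : ↥(modularFunctionFieldFullC K (M' * q))) :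
      LaurentSeries K) = _
    rw [al97L_beta_coe]
    rfl
  -- Frobenius
  have hγ' : ((q : ℕ) : ↥(modularFunctionFieldFullC K (M' * q)))⁻¹ *
      (al97L_beta K M' q (v2g64_j K M') - al97L_alpha K M' q (v2g64_j K M') ^ q) ∈
        cm85_Vinf (K := K) (M' * q) hπ := by
    refine c2i31_div_q (M' * q) hπ hqπ _ (qExpand R q (jqModC R) - jqModC R ^ q) ?_ ?_
    · show ι' (al97L_beta K M' q (v2g64_j K M') - al97L_alpha K M' q (v2g64_j K M') ^ q) = _
      rw [map_sub, map_pow, hι'a, hι'b, map_sub, map_pow, kr50_coeffMap_qExpand, coeffMap_jqModC]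
    · rw [map_sub, map_pow, kr50_coeffMap_qExpand, coeffMap_jqModC,
        kr50_pow_char q (jqModC (IsLocalRing.ResidueField R)), coeffMap_jqModC, sub_self]
  have hq0 : ((q : ℕ) : ↥(modularFunctionFieldFullC K (M' * q * q))) ≠ 0 :=
    c2i31_natCast_ne_zero (K := K) (M' * q * q) q hq.ne_zero
  have h1' : al97L_alpha K (M' * q) q (al97L_beta K M' q (v2g64_j K M')) =
      al97L_alpha K (M' * q) q (al97L_alpha K M' q (v2g64_j K M')) ^ q +
        ((q : ℕ) : ↥(modularFunctionFieldFullC K (M' * q * q))) *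
          al97L_alpha K (M' * q) q (((q : ℕ) : ↥(modularFunctionFieldFullC K (M' * q)))⁻¹ *
            (al97L_beta K M' q (v2g64_j K M') - al97L_alpha K M' q (v2g64_j K M') ^ q)) := by
    rw [map_mul, map_inv₀, map_natCast, map_sub, map_pow, mul_inv_cancel_left₀ hq0]
    ring
  -- the unit `ε`
  have hc := c2i31_unit (K := K) (M' * q) hπ
    (al97L_beta K M' q (v2g64_j K M') ^ q - al97L_alpha K M' q (v2g64_j K M'))
    (qExpand R q (jqModC R) ^ q - jqModC R)
    (by
      show ι' (al97L_beta K M' q (v2g64_j K M') ^ q - al97L_alpha K M' q (v2g64_j K M')) = _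
      rw [map_sub, map_pow, hι'a, hι'b, map_sub, map_pow, kr50_coeffMap_qExpand,
        coeffMap_jqModC])
    (by
      rw [map_sub, map_pow, kr50_coeffMap_qExpand, coeffMap_jqModC]
      exact c2i31_red_eps q hq)
  have hε : (al97L_alpha K (M' * q) q (al97L_beta K M' q (v2g64_j K M')) ^ q -
      al97L_alpha K (M' * q) q (al97L_alpha K M' q (v2g64_j K M'))) *
      al97L_alpha K (M' * q) q
        (al97L_beta K M' q (v2g64_j K M') ^ q - al97L_alpha K M' q (v2g64_j K M'))⁻¹ = 1 := by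
    rw [← map_pow, ← map_sub, ← map_mul, mul_inv_cancel₀ hc.2.2, map_one]
  -- `w_j`
  have hwjV := guw31_wj (R := R) (K := K) (M' * q) hπ q hq hqM'
  have hwjeq : al97L_alpha K (M' * q) q (guw31_wjF (K := K) (M' * q) q hq hqM') =
      guw31_wjF (K := K) (M' * q * q) q hq hqM := Subtype.ext (by
    rw [al97L_alpha_coe]
    rfl)
  have hchain := guw31_wj_chain (K := K) (M' * q * q) q hq hqM _ _ hcx1 hcJ Φ hΦ1
  have hIs : s36f47_IsV2 M' q hπ V₂ := ⟨hV₂, hπ₂, hne, hs⟩
  have hπlt := mcv8_pi_lt M' q hπ V₂ hIs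
  have hvq := c2i31_val_pi_eq M' q hπ hqπ V₂ hV₂
  refine ⟨Φ, Ψ, _, al97L_alpha K (M' * q) q (guw31_wjF (K := K) (M' * q) q hq hqM'), _, hΨ,
    hx1, hJ, hV₂ _ hγ', hV₂ _ hwjV.1, hV₂ _ hc.2.1, h1', hΦ1, hΦ3, hε, ?_, ?_, ?_, ?_⟩
  · rw [hchain, hwjeq]
    ring
  · rw [al97L_alpha_coe]
    rfl
  · rw [← hvq]
    exact hs
  · rw [← hvq]
    exact hπlt

/-- **The Hauptmodul data, level 2**: all the `h₂`-hypotheses of `c2f24_prinAt_two` on the
canonical frame (`t1 = α₂ α₁ h`, `t2 = α₂ β₁ h`, `t3 = β₂ β₁ h`, `h = pk85_h2 K M' h2`), for the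
`wj` of `c2i31_jdata` (any element of expansion `uw31_w K q`). -/
theorem c2i31_hdata2 (hq : q.Prime) (hM' : ¬ q ∣ M') {π : R} (hπ : Irreducible π)
    (hqπ : Associated ((q : ℕ) : R) π) (h2 : 2 ∣ M')
    (V₂ : ValuationSubring ↥(modularFunctionFieldFullC K (M' * q * q)))
    (hV₂ : ∀ c ∈ cm85_Vinf (K := K) (M' * q) hπ, al97L_alpha K (M' * q) q c ∈ V₂)
    (hπ₂ : (algebraMap K ↥(modularFunctionFieldFullC K (M' * q * q)) (algebraMap R K π))⁻¹ ∉ V₂)
    (hne : cm85_Vinf (K := K) (M' * q * q) hπ ≠ V₂)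
    (wj : ↥(modularFunctionFieldFullC K (M' * q * q)))
    (hwj : (wj : LaurentSeries K) = uw31_w K q) :
    ∃ g wt : ↥(modularFunctionFieldFullC K (M' * q * q)),
      al97L_alpha K (M' * q) q (al97L_alpha K M' q (pk85_h2 K M' h2)) ∈ V₂ ∧
      (al97L_alpha K (M' * q) q (al97L_alpha K M' q (pk85_h2 K M' h2)))⁻¹ ∈ V₂ ∧
      al97L_alpha K (M' * q) q (al97L_alpha K M' q (pk85_h2 K M' h2)) ≠ 0 ∧
      al97L_alpha K (M' * q) q (al97L_beta K M' q (pk85_h2 K M' h2)) ∈ V₂ ∧
      g ∈ V₂ ∧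
      al97L_alpha K (M' * q) q (al97L_beta K M' q (pk85_h2 K M' h2)) =
        al97L_alpha K (M' * q) q (al97L_alpha K M' q (pk85_h2 K M' h2)) ^ q +
          ((q : ℕ) : ↥(modularFunctionFieldFullC K (M' * q * q))) * g ∧
      al97L_alpha K (M' * q) q (al97L_alpha K M' q (v2g64_j K M')) *
          al97L_alpha K (M' * q) q (al97L_alpha K M' q (pk85_h2 K M' h2)) ^ 2 =
        (al97L_alpha K (M' * q) q (al97L_alpha K M' q (pk85_h2 K M' h2)) + 256) ^ 3 ∧
      al97L_beta K (M' * q) q (al97L_beta K M' q (v2g64_j K M')) *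
          al97L_beta K (M' * q) q (al97L_beta K M' q (pk85_h2 K M' h2)) ^ 2 =
        (al97L_beta K (M' * q) q (al97L_beta K M' q (pk85_h2 K M' h2)) + 256) ^ 3 ∧
      V₂.valuation (al97L_beta K (M' * q) q (al97L_beta K M' q (pk85_h2 K M' h2)) -
        al97L_alpha K (M' * q) q (al97L_alpha K M' q (pk85_h2 K M' h2))) < 1 ∧
      V₂.valuation ((al97L_alpha K (M' * q) q (al97L_alpha K M' q (pk85_h2 K M' h2)) + 256) ^ 2 *
        (al97L_alpha K (M' * q) q (al97L_alpha K M' q (pk85_h2 K M' h2)) - 512)) = 1 ∧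
      V₂.valuation ((al97L_alpha K (M' * q) q (al97L_beta K M' q (pk85_h2 K M' h2)) + 256) ^ 2 *
        (al97L_alpha K (M' * q) q (al97L_beta K M' q (pk85_h2 K M' h2)) - 512)) = 1 ∧
      (wt : LaurentSeries K) = uwh31_w K q (h70_h2 K) ∧
      wt * ((al97L_alpha K (M' * q) q (al97L_beta K M' q (pk85_h2 K M' h2)) + 256) ^ 2 *
          (al97L_alpha K (M' * q) q (al97L_beta K M' q (pk85_h2 K M' h2)) - 512) *
          al97L_alpha K (M' * q) q (al97L_alpha K M' q (pk85_h2 K M' h2)) ^ 3) =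
        wj * ((al97L_alpha K (M' * q) q (al97L_alpha K M' q (pk85_h2 K M' h2)) + 256) ^ 2 *
          (al97L_alpha K (M' * q) q (al97L_alpha K M' q (pk85_h2 K M' h2)) - 512) *
          al97L_alpha K (M' * q) q (al97L_beta K M' q (pk85_h2 K M' h2)) ^ 3) := by
  have hqR : ¬ IsUnit ((q : ℕ) : R) := fun hu => hπ.not_isUnit (hqπ.isUnit hu)
  haveI : ExpChar (IsLocalRing.ResidueField R) q := c2i31_expChar hq hqR
  let ι : ↥(modularFunctionFieldFullC K (M' * q * q)) →+* LaurentSeries K :=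
    algebraMap ↥(modularFunctionFieldFullC K (M' * q * q)) (LaurentSeries K)
  let ι' : ↥(modularFunctionFieldFullC K (M' * q)) →+* LaurentSeries K :=
    algebraMap ↥(modularFunctionFieldFullC K (M' * q)) (LaurentSeries K)
  have hι'a : ι' (al97L_alpha K M' q (pk85_h2 K M' h2)) = h70_h2 K := by
    show ((al97L_alpha K M' q (pk85_h2 K M' h2) : ↥(modularFunctionFieldFullC K (M' * q))) :
      LaurentSeries K) = _
    rw [al97L_alpha_coe, pk85_h2_coe]
  have hι'b : ι' (al97L_beta K M' q (pk85_h2 K M' h2)) = qExpand K q (h70_h2 K) := by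
    show ((al97L_beta K M' q (pk85_h2 K M' h2) : ↥(modularFunctionFieldFullC K (M' * q))) :
      LaurentSeries K) = _
    rw [al97L_beta_coe, pk85_h2_coe]
  have hιt1 : ι (al97L_alpha K (M' * q) q (al97L_alpha K M' q (pk85_h2 K M' h2))) = h70_h2 K := by
    show ((al97L_alpha K (M' * q) q (al97L_alpha K M' q (pk85_h2 K M' h2)) :
      ↥(modularFunctionFieldFullC K (M' * q * q))) : LaurentSeries K) = _
    rw [al97L_alpha_coe, al97L_alpha_coe, pk85_h2_coe]
  have hιt3 : ι (al97L_beta K (M' * q) q (al97L_beta K M' q (pk85_h2 K M' h2))) =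
      qExpand K q (qExpand K q (h70_h2 K)) := by
    show ((al97L_beta K (M' * q) q (al97L_beta K M' q (pk85_h2 K M' h2)) :
      ↥(modularFunctionFieldFullC K (M' * q * q))) : LaurentSeries K) = _
    rw [al97L_beta_coe, al97L_beta_coe, pk85_h2_coe]
  have hιx1 : ι (al97L_alpha K (M' * q) q (al97L_alpha K M' q (v2g64_j K M'))) = jqModC K := by
    show ((al97L_alpha K (M' * q) q (al97L_alpha K M' q (v2g64_j K M')) :
      ↥(modularFunctionFieldFullC K (M' * q * q))) : LaurentSeries K) = _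
    rw [al97L_alpha_coe, al97L_alpha_coe]
    rfl
  have hιx3 : ι (al97L_beta K (M' * q) q (al97L_beta K M' q (v2g64_j K M'))) =
      qExpand K q (qExpand K q (jqModC K)) := by
    show ((al97L_beta K (M' * q) q (al97L_beta K M' q (v2g64_j K M')) :
      ↥(modularFunctionFieldFullC K (M' * q * q))) : LaurentSeries K) = _
    rw [al97L_beta_coe, al97L_beta_coe]
    rfl
  -- `t1` is a unit of `V_∞`
  have ht1u := c2i31_unit (K := K) (M' * q) hπ (al97L_alpha K M' q (pk85_h2 K M' h2)) (h70_h2 R)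
    (by rw [← h70_coeffMap_h2 (algebraMap R K)] at hι'a; exact hι'a)
    (by rw [h70_coeffMap_h2]; exact h70_h2_ne_zero _)
  have ht2m : al97L_beta K M' q (pk85_h2 K M' h2) ∈ cm85_Vinf (K := K) (M' * q) hπ :=
    gv85_mem_V_of_integral _ _ _ _ (qExpand R q (h70_h2 R)) (by
      rw [kr50_coeffMap_qExpand, h70_coeffMap_h2]
      exact hι'b)
  -- Frobenius
  have hg' : ((q : ℕ) : ↥(modularFunctionFieldFullC K (M' * q)))⁻¹ *
      (al97L_beta K M' q (pk85_h2 K M' h2) - al97L_alpha K M' q (pk85_h2 K M' h2) ^ q) ∈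
        cm85_Vinf (K := K) (M' * q) hπ := by
    refine c2i31_div_q (M' * q) hπ hqπ _ (qExpand R q (h70_h2 R) - h70_h2 R ^ q) ?_ ?_
    · show ι' (al97L_beta K M' q (pk85_h2 K M' h2) - al97L_alpha K M' q (pk85_h2 K M' h2) ^ q) = _
      rw [map_sub, map_pow, hι'a, hι'b, map_sub, map_pow, kr50_coeffMap_qExpand, h70_coeffMap_h2]
    · rw [map_sub, map_pow, kr50_coeffMap_qExpand, h70_coeffMap_h2,
        kr50_pow_char q (h70_h2 (IsLocalRing.ResidueField R)), h70_coeffMap_h2, sub_self]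
  have hq0 : ((q : ℕ) : ↥(modularFunctionFieldFullC K (M' * q * q))) ≠ 0 :=
    c2i31_natCast_ne_zero (K := K) (M' * q * q) q hq.ne_zero
  have ht2g : al97L_alpha K (M' * q) q (al97L_beta K M' q (pk85_h2 K M' h2)) =
      al97L_alpha K (M' * q) q (al97L_alpha K M' q (pk85_h2 K M' h2)) ^ q +
        ((q : ℕ) : ↥(modularFunctionFieldFullC K (M' * q * q))) *
          al97L_alpha K (M' * q) q (((q : ℕ) : ↥(modularFunctionFieldFullC K (M' * q)))⁻¹ *
            (al97L_beta K M' q (pk85_h2 K M' h2) - al97L_alpha K M' q (pk85_h2 K M' h2) ^ q)) := by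
    rw [map_mul, map_inv₀, map_natCast, map_sub, map_pow, mul_inv_cancel_left₀ hq0]
    ring
  -- the relations
  have hx1t : al97L_alpha K (M' * q) q (al97L_alpha K M' q (v2g64_j K M')) *
      al97L_alpha K (M' * q) q (al97L_alpha K M' q (pk85_h2 K M' h2)) ^ 2 =
      (al97L_alpha K (M' * q) q (al97L_alpha K M' q (pk85_h2 K M' h2)) + 256) ^ 3 := by
    apply ι.injective
    rw [map_mul, map_pow, map_pow, map_add, map_ofNat, hιx1, hιt1]
    exact h70_j_mul_h2_sq K
  have hx3t : al97L_beta K (M' * q) q (al97L_beta K M' q (v2g64_j K M')) *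
      al97L_beta K (M' * q) q (al97L_beta K M' q (pk85_h2 K M' h2)) ^ 2 =
      (al97L_beta K (M' * q) q (al97L_beta K M' q (pk85_h2 K M' h2)) + 256) ^ 3 := by
    apply ι.injective
    rw [map_mul, map_pow, map_pow, map_add, map_ofNat, hιx3, hιt3]
    have h := congrArg (fun f => qExpand K q (qExpand K q f)) (h70_j_mul_h2_sq K)
    simp only [map_mul, map_pow, map_add, map_ofNat] at h
    exact h
  -- the units `D`
  have hD1u := c2i31_unit (K := K) (M' * q) hπ
    ((al97L_alpha K M' q (pk85_h2 K M' h2) + 256) ^ 2 *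
      (al97L_alpha K M' q (pk85_h2 K M' h2) - 512))
    ((h70_h2 R + 256) ^ 2 * (h70_h2 R - 512))
    (by
      show ι' ((al97L_alpha K M' q (pk85_h2 K M' h2) + 256) ^ 2 *
        (al97L_alpha K M' q (pk85_h2 K M' h2) - 512)) = _
      simp only [map_mul, map_pow, map_add, map_sub, map_ofNat, hι'a, h70_coeffMap_h2])
    (by
      simp only [map_mul, map_pow, map_add, map_sub, map_ofNat, h70_coeffMap_h2]
      exact c2i31_red_D2 _)
  have hD2u := c2i31_unit (K := K) (M' * q) hπ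
    ((al97L_beta K M' q (pk85_h2 K M' h2) + 256) ^ 2 *
      (al97L_beta K M' q (pk85_h2 K M' h2) - 512))
    (qExpand R q ((h70_h2 R + 256) ^ 2 * (h70_h2 R - 512)))
    (by
      show ι' ((al97L_beta K M' q (pk85_h2 K M' h2) + 256) ^ 2 *
        (al97L_beta K M' q (pk85_h2 K M' h2) - 512)) = _
      rw [kr50_coeffMap_qExpand]
      simp only [map_mul, map_pow, map_add, map_sub, map_ofNat, hι'b, h70_coeffMap_h2])
    (by
      rw [kr50_coeffMap_qExpand]
      simp only [map_mul, map_pow, map_add, map_sub, map_ofNat, h70_coeffMap_h2]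
      have h := (map_ne_zero_iff (qExpand (IsLocalRing.ResidueField R) q)
        (qExpand_injective q)).mpr (c2i31_red_D2 (IsLocalRing.ResidueField R))
      simp only [map_mul, map_pow, map_add, map_sub, map_ofNat] at h
      exact h)
  have hval : ∀ d : ↥(modularFunctionFieldFullC K (M' * q)),
      d ∈ cm85_Vinf (K := K) (M' * q) hπ → d⁻¹ ∈ cm85_Vinf (K := K) (M' * q) hπ → d ≠ 0 →
      V₂.valuation (al97L_alpha K (M' * q) q d) = 1 := by
    intro d hd hd' hd0
    refine c2e24_val_one V₂ (hV₂ _ hd) ?_ ((_root_.map_ne_zero _).mpr hd0)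
    have := hV₂ _ hd'
    rwa [map_inv₀] at this
  have hD1 := hval _ hD1u.1 hD1u.2.1 hD1u.2.2
  have hD2 := hval _ hD2u.1 hD2u.2.1 hD2u.2.2
  simp only [map_mul, map_pow, map_add, map_sub, map_ofNat] at hD1 hD2
  -- `w_h`
  obtain ⟨wj', wh, hwj', hwh, -, -, hwh1, -, -, hch⟩ := guw31_pkg2 (R := R) (K := K) M' hπ q hq h2
    ⟨dq56_U K q, dq56_U_mem_full K q hq (M' * q) (dvd_mul_left q M')⟩ rfl
  have hwjeq : al97L_alpha K (M' * q) q wj' = wj := Subtype.ext (by
    rw [al97L_alpha_coe, hwj', hwj])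
  have hch2 := congrArg (al97L_alpha K (M' * q) q) hch
  simp only [map_mul, map_pow, map_add, map_sub, map_ofNat] at hch2
  rw [hwjeq] at hch2
  have ht1inv : (al97L_alpha K (M' * q) q (al97L_alpha K M' q (pk85_h2 K M' h2)))⁻¹ ∈ V₂ := by
    have := hV₂ _ ht1u.2.1
    rwa [map_inv₀] at this
  refine ⟨_, al97L_alpha K (M' * q) q wh, hV₂ _ ht1u.1, ht1inv, (_root_.map_ne_zero _).mpr ht1u.2.2,
    hV₂ _ ht2m, hV₂ _ hg', ht2g, hx1t, hx3t,
    v2m46_mid_h2 (algebraMap K Q̄) M' q hq hM' hπ hqπ h2 V₂ hV₂ hπ₂ hne, hD1, hD2, ?_, hch2.symm⟩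
  rw [al97L_alpha_coe, hwh]

variable [Algebra R ↥(modularFunctionFieldFullC K (M' * q * q))]
  [IsScalarTower R K ↥(modularFunctionFieldFullC K (M' * q * q))]

/-- **The middle branch is principal at a `C₂`-only point, coordinate `h₂`**: on the canonical
frame the ONLY remaining inputs are the chart data at `n`: `s = b (t3 - t1)` with `b ∉ n`, and
`wt * tw = aw` with `aw ∉ n`, where `wt` is the element of expansion `uwh31_w K q (h70_h2 K)`. -/
theorem c2i31_prinAt_two (hq : q.Prime) (hM' : ¬ q ∣ M') {π : R} (hπ : Irreducible π)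
    (hqπ : Associated ((q : ℕ) : R) π) (h2 : 2 ∣ M')
    (V₂ : ValuationSubring ↥(modularFunctionFieldFullC K (M' * q * q)))
    (hV₂ : ∀ c ∈ cm85_Vinf (K := K) (M' * q) hπ, al97L_alpha K (M' * q) q c ∈ V₂)
    (hπ₂ : (algebraMap K ↥(modularFunctionFieldFullC K (M' * q * q)) (algebraMap R K π))⁻¹ ∉ V₂)
    (hne : cm85_Vinf (K := K) (M' * q * q) hπ ≠ V₂)
    (hs : V₂.valuation (v2g64_s K M' q) ^ (q - 1) =
      V₂.valuation (algebraMap K ↥(modularFunctionFieldFullC K (M' * q * q))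
        (algebraMap R K π)))
    (B : Subalgebra R ↥(modularFunctionFieldFullC K (M' * q * q)))
    (V₁ V₃ : Subring ↥(modularFunctionFieldFullC K (M' * q * q)))
    (hB₁ : ∀ x ∈ B, x ∈ V₁) (hB₂ : ∀ x ∈ B, x ∈ V₂.toSubring) (hB₃ : ∀ x ∈ B, x ∈ V₃)
    (hsat : ∀ x ∈ B, (algebraMap R ↥(modularFunctionFieldFullC K (M' * q * q)) π)⁻¹ * x ∈ V₁ →
      (algebraMap R ↥(modularFunctionFieldFullC K (M' * q * q)) π)⁻¹ * x ∈ V₂.toSubring →
      (algebraMap R ↥(modularFunctionFieldFullC K (M' * q * q)) π)⁻¹ * x ∈ V₃ →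
      (algebraMap R ↥(modularFunctionFieldFullC K (M' * q * q)) π)⁻¹ * x ∈ B)
    (n : Ideal B) [hn : n.IsPrime]
    (hmid : tl71_OnMid (v2g64_s K M' q) B V₂.toSubring n)
    (h1 : ¬ sf79_OnBr π B V₁ n) (h3 : ¬ sf79_OnBr π B V₃ n)
    (s b : B)
    (hsb : (s : ↥(modularFunctionFieldFullC K (M' * q * q))) =
      (b : ↥(modularFunctionFieldFullC K (M' * q * q))) *
        (al97L_beta K (M' * q) q (al97L_beta K M' q (pk85_h2 K M' h2)) -
          al97L_alpha K (M' * q) q (al97L_alpha K M' q (pk85_h2 K M' h2))))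
    (hbn : b ∉ n)
    (wt : ↥(modularFunctionFieldFullC K (M' * q * q)))
    (hwt : (wt : LaurentSeries K) = uwh31_w K q (h70_h2 K))
    (aw tw : B) (haw : aw ∉ n)
    (hwtw : wt * (tw : ↥(modularFunctionFieldFullC K (M' * q * q))) =
      (aw : ↥(modularFunctionFieldFullC K (M' * q * q)))) :
    mc25_MidPrinAt (v2g64_s K M' q) B V₂.toSubring n := by
  obtain ⟨Φ, Ψ, γ1, wj, e', hΦΨ, hx1, hJ, hγ1, hwjV, he', h1', hΦ1, hΦ3, hε, hw, hwjc, hsv, hqV⟩ :=
    c2i31_jdata M' q hq hπ hqπ V₂ hV₂ hπ₂ hne hs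
  obtain ⟨g, wt', ht1, ht1', ht10, ht2, hg, ht2g, hx1t, hx3t, hΔ, hD1, hD2, hwt'c, hwtrel⟩ :=
    c2i31_hdata2 M' q hq hM' hπ hqπ h2 V₂ hV₂ hπ₂ hne wj hwjc
  have hwteq : wt' = wt := Subtype.ext (by rw [hwt'c, hwt])
  rw [hwteq] at hwtrel
  obtain ⟨uu, huq⟩ := id hqπ
  have hqu : ((q : ℕ) : R) = ((uu⁻¹ : Rˣ) : R) * π := by
    rw [← huq, mul_comm ((q : ℕ) : R), ← mul_assoc, ← Units.val_mul, inv_mul_cancel,
      Units.val_one, one_mul]
  have hIs : s36f47_IsV2 M' q hπ V₂ := ⟨hV₂, hπ₂, hne, hs⟩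
  have hb₂ : (b : ↥(modularFunctionFieldFullC K (M' * q * q)))⁻¹ ∈ V₂ := by
    have hbV : (b : ↥(modularFunctionFieldFullC K (M' * q * q))) ∈ V₂ := hB₂ _ b.2
    have hvb : V₂.valuation (b : ↥(modularFunctionFieldFullC K (M' * q * q))) = 1 := by
      refine le_antisymm ((V₂.valuation_le_one_iff _).mpr hbV) ?_
      by_contra hlt
      exact hbn (hmid b (mcv8_unif M' q hq hπ V₂ hIs _ (not_le.mp hlt)))
    exact c2e24_inv_mem V₂ hvb
  have hπ0 : algebraMap R ↥(modularFunctionFieldFullC K (M' * q * q)) π ≠ 0 := by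
    rw [IsScalarTower.algebraMap_apply R K ↥(modularFunctionFieldFullC K (M' * q * q))]
    intro h0
    have h3 : algebraMap R K π = 0 := (map_eq_zero _).mp h0
    exact hπ.ne_zero (IsFractionRing.injective R K (by rw [h3, map_zero]))
  have hq0 : ((q : ℕ) : ↥(modularFunctionFieldFullC K (M' * q * q))) ≠ 0 :=
    c2i31_natCast_ne_zero (K := K) (M' * q * q) q hq.ne_zero
  exact c2f24_prinAt_two π ((uu⁻¹ : Rˣ) : R) (uu : R)
    (by rw [← Units.val_mul, inv_mul_cancel, Units.val_one]) q hq hqu B V₁ V₃ V₂ hB₁ hB₂ hB₃ hsat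
    hπ0 n hq0 Φ Ψ hΦΨ _ _ _ γ1 wj e' hx1 hJ hγ1 hwjV he' h1' hΦ1 hΦ3 hε hw hsv hqV hmid h1 h3
    _ _ _ g wt ht1 ht1' ht10 ht2 hg ht2g hx1t hx3t hΔ hD1 hD2 hwtrel s b hsb hbn hb₂ aw tw haw hwtw

end c2i31_frame

end Fermat.Agent.S36
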