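import Fermat.Agent.S36.C2FieldInst31

/-!
S36 lab, registry row 600 (C-C2), concrete binding, FIELD SIDE, coordinate `h₃` (helper31).

Level-3 twin of `c2i31_hdata2` / `c2i31_prinAt_two` (`C2FieldInst31`):

* `c2i31_hdata3` : all the `h₃`-hypotheses of `c2f24_prinAt_three` on the canonical frame
  (`t1 = α₂ α₁ h`, `t2 = α₂ β₁ h`, `t3 = β₂ β₁ h`, `h = pk85_h3 K M' hd3`).
* `c2i31_prinAt_three` : `mc25_MidPrinAt (v2g64_s K M' q) B V₂ n` at a prime `n` of a chart `B`
  on the middle branch only, from the CHART data alone: `s = b (t3 - t1)` with `b ∉ n`, and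
  `wt * tw = aw` with `aw ∉ n` for the element `wt` of expansion `uwh31_w K q (h34_h3R K)`.

All names are prefixed `c2i31_`.
-/

set_option autoImplicit false
set_option linter.unusedSectionVars false
set_option linter.unusedVariables false
set_option linter.style.longLine false
set_option linter.style.haveILetI false

open ModularCurve AlgebraicCurve IntermediateField Polynomial

namespace Fermat.Agent.S36

open Fermat.Agent.S18 Fermat.Agent.S24 Fermat.Agent.S28 Fermat.Agent.S37 Fermat.Agent.S34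
  Fermat.Agent.S42 Fermat.Agent.S35 Fermat.Agent.S36.TripleLoc71

local notation "Q̄" => AlgebraicClosure ℚ

section c2i31_frame3

variable {R K : Type} [CommRing R] [IsDomain R] [IsDiscreteValuationRing R] [Field K] [CharZero K]
  [Algebra R K] [IsFractionRing R K] [Algebra K Q̄] (M' q : ℕ) [NeZero M'] [NeZero q]

/-- **The Hauptmodul data, level 3.** -/
theorem c2i31_hdata3 (hq : q.Prime) (hM' : ¬ q ∣ M') {π : R} (hπ : Irreducible π)
    (hqπ : Associated ((q : ℕ) : R) π) (hd3 : 3 ∣ M')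
    (V₂ : ValuationSubring ↥(modularFunctionFieldFullC K (M' * q * q)))
    (hV₂ : ∀ c ∈ cm85_Vinf (K := K) (M' * q) hπ, al97L_alpha K (M' * q) q c ∈ V₂)
    (hπ₂ : (algebraMap K ↥(modularFunctionFieldFullC K (M' * q * q)) (algebraMap R K π))⁻¹ ∉ V₂)
    (hne : cm85_Vinf (K := K) (M' * q * q) hπ ≠ V₂)
    (wj : ↥(modularFunctionFieldFullC K (M' * q * q)))
    (hwj : (wj : LaurentSeries K) = uw31_w K q) :
    ∃ g wt : ↥(modularFunctionFieldFullC K (M' * q * q)),
      al97L_alpha K (M' * q) q (al97L_alpha K M' q (pk85_h3 K M' hd3)) ∈ V₂ ∧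
      (al97L_alpha K (M' * q) q (al97L_alpha K M' q (pk85_h3 K M' hd3)))⁻¹ ∈ V₂ ∧
      al97L_alpha K (M' * q) q (al97L_alpha K M' q (pk85_h3 K M' hd3)) ≠ 0 ∧
      al97L_alpha K (M' * q) q (al97L_beta K M' q (pk85_h3 K M' hd3)) ∈ V₂ ∧
      g ∈ V₂ ∧
      al97L_alpha K (M' * q) q (al97L_beta K M' q (pk85_h3 K M' hd3)) =
        al97L_alpha K (M' * q) q (al97L_alpha K M' q (pk85_h3 K M' hd3)) ^ q +
          ((q : ℕ) : ↥(modularFunctionFieldFullC K (M' * q * q))) * g ∧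
      al97L_alpha K (M' * q) q (al97L_alpha K M' q (v2g64_j K M')) *
          al97L_alpha K (M' * q) q (al97L_alpha K M' q (pk85_h3 K M' hd3)) ^ 3 =
        (al97L_alpha K (M' * q) q (al97L_alpha K M' q (pk85_h3 K M' hd3)) + 27) *
          (al97L_alpha K (M' * q) q (al97L_alpha K M' q (pk85_h3 K M' hd3)) + 243) ^ 3 ∧
      al97L_beta K (M' * q) q (al97L_beta K M' q (v2g64_j K M')) *
          al97L_beta K (M' * q) q (al97L_beta K M' q (pk85_h3 K M' hd3)) ^ 3 =
        (al97L_beta K (M' * q) q (al97L_beta K M' q (pk85_h3 K M' hd3)) + 27) *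
          (al97L_beta K (M' * q) q (al97L_beta K M' q (pk85_h3 K M' hd3)) + 243) ^ 3 ∧
      V₂.valuation (al97L_beta K (M' * q) q (al97L_beta K M' q (pk85_h3 K M' hd3)) -
        al97L_alpha K (M' * q) q (al97L_alpha K M' q (pk85_h3 K M' hd3))) < 1 ∧
      V₂.valuation ((al97L_alpha K (M' * q) q (al97L_alpha K M' q (pk85_h3 K M' hd3)) + 243) ^ 2 *
        (al97L_alpha K (M' * q) q (al97L_alpha K M' q (pk85_h3 K M' hd3)) ^ 2 - 486 * al97L_alpha K (M' * q) q (al97L_alpha K M' q (pk85_h3 K M' hd3)) - 19683)) = 1 ∧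
      V₂.valuation ((al97L_alpha K (M' * q) q (al97L_beta K M' q (pk85_h3 K M' hd3)) + 243) ^ 2 *
        (al97L_alpha K (M' * q) q (al97L_beta K M' q (pk85_h3 K M' hd3)) ^ 2 - 486 * al97L_alpha K (M' * q) q (al97L_beta K M' q (pk85_h3 K M' hd3)) - 19683)) = 1 ∧
      (wt : LaurentSeries K) = uwh31_w K q (h34_h3R K) ∧
      wt * (((al97L_alpha K (M' * q) q (al97L_beta K M' q (pk85_h3 K M' hd3)) + 243) ^ 2 *
        (al97L_alpha K (M' * q) q (al97L_beta K M' q (pk85_h3 K M' hd3)) ^ 2 - 486 * al97L_alpha K (M' * q) q (al97L_beta K M' q (pk85_h3 K M' hd3)) - 19683)) *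
          al97L_alpha K (M' * q) q (al97L_alpha K M' q (pk85_h3 K M' hd3)) ^ 4) =
        wj * (((al97L_alpha K (M' * q) q (al97L_alpha K M' q (pk85_h3 K M' hd3)) + 243) ^ 2 *
        (al97L_alpha K (M' * q) q (al97L_alpha K M' q (pk85_h3 K M' hd3)) ^ 2 - 486 * al97L_alpha K (M' * q) q (al97L_alpha K M' q (pk85_h3 K M' hd3)) - 19683)) *
          al97L_alpha K (M' * q) q (al97L_beta K M' q (pk85_h3 K M' hd3)) ^ 4) := by
  have hqR : ¬ IsUnit ((q : ℕ) : R) := fun hu => hπ.not_isUnit (hqπ.isUnit hu)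
  haveI : ExpChar (IsLocalRing.ResidueField R) q := c2i31_expChar hq hqR
  let ι : ↥(modularFunctionFieldFullC K (M' * q * q)) →+* LaurentSeries K :=
    algebraMap ↥(modularFunctionFieldFullC K (M' * q * q)) (LaurentSeries K)
  let ι' : ↥(modularFunctionFieldFullC K (M' * q)) →+* LaurentSeries K :=
    algebraMap ↥(modularFunctionFieldFullC K (M' * q)) (LaurentSeries K)
  have hι'a : ι' (al97L_alpha K M' q (pk85_h3 K M' hd3)) = h34_h3R K := by
    show ((al97L_alpha K M' q (pk85_h3 K M' hd3) : ↥(modularFunctionFieldFullC K (M' * q))) :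
      LaurentSeries K) = _
    rw [al97L_alpha_coe, pk85_h3_coe]
  have hι'b : ι' (al97L_beta K M' q (pk85_h3 K M' hd3)) = qExpand K q (h34_h3R K) := by
    show ((al97L_beta K M' q (pk85_h3 K M' hd3) : ↥(modularFunctionFieldFullC K (M' * q))) :
      LaurentSeries K) = _
    rw [al97L_beta_coe, pk85_h3_coe]
  have hιt1 : ι (al97L_alpha K (M' * q) q (al97L_alpha K M' q (pk85_h3 K M' hd3))) = h34_h3R K := by
    show ((al97L_alpha K (M' * q) q (al97L_alpha K M' q (pk85_h3 K M' hd3)) :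
      ↥(modularFunctionFieldFullC K (M' * q * q))) : LaurentSeries K) = _
    rw [al97L_alpha_coe, al97L_alpha_coe, pk85_h3_coe]
  have hιt3 : ι (al97L_beta K (M' * q) q (al97L_beta K M' q (pk85_h3 K M' hd3))) =
      qExpand K q (qExpand K q (h34_h3R K)) := by
    show ((al97L_beta K (M' * q) q (al97L_beta K M' q (pk85_h3 K M' hd3)) :
      ↥(modularFunctionFieldFullC K (M' * q * q))) : LaurentSeries K) = _
    rw [al97L_beta_coe, al97L_beta_coe, pk85_h3_coe]
  have hιx1 : ι (al97L_alpha K (M' * q) q (al97L_alpha K M' q (v2g64_j K M'))) = jqModC K := by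
    show ((al97L_alpha K (M' * q) q (al97L_alpha K M' q (v2g64_j K M')) :
      ↥(modularFunctionFieldFullC K (M' * q * q))) : LaurentSeries K) = _
    rw [al97L_alpha_coe, al97L_alpha_coe]
    rfl
  have hιx3 : ι (al97L_beta K (M' * q) q (al97L_beta K M' q (v2g64_j K M'))) =
      qExpand K q (qExpand K q (jqModC K)) := by
    show ((al97L_beta K (M' * q) q (al97L_beta K M' q (v2g64_j K M')) :
      ↥(modularFunctionFieldFullC K (M' * q * q))) : LaurentSeries K) = _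
    rw [al97L_beta_coe, al97L_beta_coe]
    rfl
  -- `t1` is a unit of `V_∞`
  have ht1u := c2i31_unit (K := K) (M' * q) hπ (al97L_alpha K M' q (pk85_h3 K M' hd3)) (h34_h3R R)
    (by rw [← h34_coeffMap_h3R (algebraMap R K)] at hι'a; exact hι'a)
    (by rw [h34_coeffMap_h3R]; exact (uwh31_h3_ok _).1)
  have ht2m : al97L_beta K M' q (pk85_h3 K M' hd3) ∈ cm85_Vinf (K := K) (M' * q) hπ :=
    gv85_mem_V_of_integral _ _ _ _ (qExpand R q (h34_h3R R)) (by
      rw [kr50_coeffMap_qExpand, h34_coeffMap_h3R]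
      exact hι'b)
  -- Frobenius
  have hg' : ((q : ℕ) : ↥(modularFunctionFieldFullC K (M' * q)))⁻¹ *
      (al97L_beta K M' q (pk85_h3 K M' hd3) - al97L_alpha K M' q (pk85_h3 K M' hd3) ^ q) ∈
        cm85_Vinf (K := K) (M' * q) hπ := by
    refine c2i31_div_q (M' * q) hπ hqπ _ (qExpand R q (h34_h3R R) - h34_h3R R ^ q) ?_ ?_
    · show ι' (al97L_beta K M' q (pk85_h3 K M' hd3) - al97L_alpha K M' q (pk85_h3 K M' hd3) ^ q) = _
      rw [map_sub, map_pow, hι'a, hι'b, map_sub, map_pow, kr50_coeffMap_qExpand, h34_coeffMap_h3R]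
    · rw [map_sub, map_pow, kr50_coeffMap_qExpand, h34_coeffMap_h3R,
        kr50_pow_char q (h34_h3R (IsLocalRing.ResidueField R)), h34_coeffMap_h3R, sub_self]
  have hq0 : ((q : ℕ) : ↥(modularFunctionFieldFullC K (M' * q * q))) ≠ 0 :=
    c2i31_natCast_ne_zero (K := K) (M' * q * q) q hq.ne_zero
  have ht2g : al97L_alpha K (M' * q) q (al97L_beta K M' q (pk85_h3 K M' hd3)) =
      al97L_alpha K (M' * q) q (al97L_alpha K M' q (pk85_h3 K M' hd3)) ^ q +
        ((q : ℕ) : ↥(modularFunctionFieldFullC K (M' * q * q))) *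
          al97L_alpha K (M' * q) q (((q : ℕ) : ↥(modularFunctionFieldFullC K (M' * q)))⁻¹ *
            (al97L_beta K M' q (pk85_h3 K M' hd3) - al97L_alpha K M' q (pk85_h3 K M' hd3) ^ q)) := by
    rw [map_mul, map_inv₀, map_natCast, map_sub, map_pow, mul_inv_cancel_left₀ hq0]
    ring
  -- the relations
  have hx1t : al97L_alpha K (M' * q) q (al97L_alpha K M' q (v2g64_j K M')) *
      al97L_alpha K (M' * q) q (al97L_alpha K M' q (pk85_h3 K M' hd3)) ^ 3 =
      (al97L_alpha K (M' * q) q (al97L_alpha K M' q (pk85_h3 K M' hd3)) + 27) *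
        (al97L_alpha K (M' * q) q (al97L_alpha K M' q (pk85_h3 K M' hd3)) + 243) ^ 3 := by
    apply ι.injective
    simp only [map_mul, map_pow, map_add, map_ofNat, hιx1, hιt1]
    exact h34_h3R_j K
  have hx3t : al97L_beta K (M' * q) q (al97L_beta K M' q (v2g64_j K M')) *
      al97L_beta K (M' * q) q (al97L_beta K M' q (pk85_h3 K M' hd3)) ^ 3 =
      (al97L_beta K (M' * q) q (al97L_beta K M' q (pk85_h3 K M' hd3)) + 27) *
        (al97L_beta K (M' * q) q (al97L_beta K M' q (pk85_h3 K M' hd3)) + 243) ^ 3 := by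
    apply ι.injective
    simp only [map_mul, map_pow, map_add, map_ofNat, hιx3, hιt3]
    have h := congrArg (fun f => qExpand K q (qExpand K q f)) (h34_h3R_j K)
    simp only [map_mul, map_pow, map_add, map_ofNat] at h
    exact h
  -- the units `D`
  have hD1u := c2i31_unit (K := K) (M' * q) hπ
    ((al97L_alpha K M' q (pk85_h3 K M' hd3) + 243) ^ 2 *
        (al97L_alpha K M' q (pk85_h3 K M' hd3) ^ 2 - 486 * al97L_alpha K M' q (pk85_h3 K M' hd3) - 19683))
    ((h34_h3R R + 243) ^ 2 * (h34_h3R R ^ 2 - 486 * h34_h3R R - 19683))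
    (by
      show ι' ((al97L_alpha K M' q (pk85_h3 K M' hd3) + 243) ^ 2 *
        (al97L_alpha K M' q (pk85_h3 K M' hd3) ^ 2 - 486 * al97L_alpha K M' q (pk85_h3 K M' hd3) - 19683)) = _
      simp only [map_mul, map_pow, map_add, map_sub, map_ofNat, hι'a, h34_coeffMap_h3R])
    (by
      simp only [map_mul, map_pow, map_add, map_sub, map_ofNat, h34_coeffMap_h3R]
      exact c2i31_red_D3 _)
  have hD2u := c2i31_unit (K := K) (M' * q) hπ
    ((al97L_beta K M' q (pk85_h3 K M' hd3) + 243) ^ 2 *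
        (al97L_beta K M' q (pk85_h3 K M' hd3) ^ 2 - 486 * al97L_beta K M' q (pk85_h3 K M' hd3) - 19683))
    (qExpand R q ((h34_h3R R + 243) ^ 2 * (h34_h3R R ^ 2 - 486 * h34_h3R R - 19683)))
    (by
      show ι' ((al97L_beta K M' q (pk85_h3 K M' hd3) + 243) ^ 2 *
        (al97L_beta K M' q (pk85_h3 K M' hd3) ^ 2 - 486 * al97L_beta K M' q (pk85_h3 K M' hd3) - 19683)) = _
      rw [kr50_coeffMap_qExpand]
      simp only [map_mul, map_pow, map_add, map_sub, map_ofNat, hι'b, h34_coeffMap_h3R])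
    (by
      rw [kr50_coeffMap_qExpand]
      simp only [map_mul, map_pow, map_add, map_sub, map_ofNat, h34_coeffMap_h3R]
      have h := (map_ne_zero_iff (qExpand (IsLocalRing.ResidueField R) q)
        (qExpand_injective q)).mpr (c2i31_red_D3 (IsLocalRing.ResidueField R))
      simp only [map_mul, map_pow, map_add, map_sub, map_ofNat] at h
      exact h)
  have hval : ∀ d : ↥(modularFunctionFieldFullC K (M' * q)),
      d ∈ cm85_Vinf (K := K) (M' * q) hπ → d⁻¹ ∈ cm85_Vinf (K := K) (M' * q) hπ → d ≠ 0 →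
      V₂.valuation (al97L_alpha K (M' * q) q d) = 1 := by
    intro d hd hd' hd0
    refine c2e24_val_one V₂ (hV₂ _ hd) ?_ ((_root_.map_ne_zero _).mpr hd0)
    have := hV₂ _ hd'
    rwa [map_inv₀] at this
  have hD1 := hval _ hD1u.1 hD1u.2.1 hD1u.2.2
  have hD2 := hval _ hD2u.1 hD2u.2.1 hD2u.2.2
  simp only [map_mul, map_pow, map_add, map_sub, map_ofNat] at hD1 hD2
  -- `w_h`
  obtain ⟨wj', wh, hwj', hwh, -, -, hwh1, -, -, hch⟩ := guw31_pkg3 (R := R) (K := K) M' hπ q hq hd3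
    ⟨dq56_U K q, dq56_U_mem_full K q hq (M' * q) (dvd_mul_left q M')⟩ rfl
  have hwjeq : al97L_alpha K (M' * q) q wj' = wj := Subtype.ext (by
    rw [al97L_alpha_coe, hwj', hwj])
  have hch2 := congrArg (al97L_alpha K (M' * q) q) hch
  simp only [map_mul, map_pow, map_add, map_sub, map_ofNat] at hch2
  rw [hwjeq] at hch2
  have ht1inv : (al97L_alpha K (M' * q) q (al97L_alpha K M' q (pk85_h3 K M' hd3)))⁻¹ ∈ V₂ := by
    have := hV₂ _ ht1u.2.1
    rwa [map_inv₀] at this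
  refine ⟨_, al97L_alpha K (M' * q) q wh, hV₂ _ ht1u.1, ht1inv, (_root_.map_ne_zero _).mpr ht1u.2.2,
    hV₂ _ ht2m, hV₂ _ hg', ht2g, hx1t, hx3t,
    v2m46_mid_h3 (algebraMap K Q̄) M' q hq hM' hπ hqπ hd3 V₂ hV₂ hπ₂ hne, hD1, hD2, ?_, hch2.symm⟩
  rw [al97L_alpha_coe, hwh]

variable [Algebra R ↥(modularFunctionFieldFullC K (M' * q * q))]
  [IsScalarTower R K ↥(modularFunctionFieldFullC K (M' * q * q))]

/-- **The middle branch is principal at a `C₂`-only point, coordinate `h₃`**: on the canonical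
frame the ONLY remaining inputs are the chart data at `n`: `s = b (t3 - t1)` with `b ∉ n`, and
`wt * tw = aw` with `aw ∉ n`, where `wt` is the element of expansion `uwh31_w K q (h34_h3R K)`. -/
theorem c2i31_prinAt_three (hq : q.Prime) (hM' : ¬ q ∣ M') {π : R} (hπ : Irreducible π)
    (hqπ : Associated ((q : ℕ) : R) π) (hd3 : 3 ∣ M')
    (V₂ : ValuationSubring ↥(modularFunctionFieldFullC K (M' * q * q)))
    (hV₂ : ∀ c ∈ cm85_Vinf (K := K) (M' * q) hπ, al97L_alpha K (M' * q) q c ∈ V₂)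
    (hπ₂ : (algebraMap K ↥(modularFunctionFieldFullC K (M' * q * q)) (algebraMap R K π))⁻¹ ∉ V₂)
    (hne : cm85_Vinf (K := K) (M' * q * q) hπ ≠ V₂)
    (hs : V₂.valuation (v2g64_s K M' q) ^ (q - 1) =
      V₂.valuation (algebraMap K ↥(modularFunctionFieldFullC K (M' * q * q))
        (algebraMap R K π)))
    (B : Subalgebra R ↥(modularFunctionFieldFullC K (M' * q * q)))
    (V₁ V₃ : Subring ↥(modularFunctionFieldFullC K (M' * q * q)))
    (hB₁ : ∀ x ∈ B, x ∈ V₁) (hB₂ : ∀ x ∈ B, x ∈ V₂.toSubring) (hB₃ : ∀ x ∈ B, x ∈ V₃)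
    (hsat : ∀ x ∈ B, (algebraMap R ↥(modularFunctionFieldFullC K (M' * q * q)) π)⁻¹ * x ∈ V₁ →
      (algebraMap R ↥(modularFunctionFieldFullC K (M' * q * q)) π)⁻¹ * x ∈ V₂.toSubring →
      (algebraMap R ↥(modularFunctionFieldFullC K (M' * q * q)) π)⁻¹ * x ∈ V₃ →
      (algebraMap R ↥(modularFunctionFieldFullC K (M' * q * q)) π)⁻¹ * x ∈ B)
    (n : Ideal B) [hn : n.IsPrime]
    (hmid : tl71_OnMid (v2g64_s K M' q) B V₂.toSubring n)
    (h1 : ¬ sf79_OnBr π B V₁ n) (h3 : ¬ sf79_OnBr π B V₃ n)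
    (s b : B)
    (hsb : (s : ↥(modularFunctionFieldFullC K (M' * q * q))) =
      (b : ↥(modularFunctionFieldFullC K (M' * q * q))) *
        (al97L_beta K (M' * q) q (al97L_beta K M' q (pk85_h3 K M' hd3)) -
          al97L_alpha K (M' * q) q (al97L_alpha K M' q (pk85_h3 K M' hd3))))
    (hbn : b ∉ n)
    (wt : ↥(modularFunctionFieldFullC K (M' * q * q)))
    (hwt : (wt : LaurentSeries K) = uwh31_w K q (h34_h3R K))
    (aw tw : B) (haw : aw ∉ n)
    (hwtw : wt * (tw : ↥(modularFunctionFieldFullC K (M' * q * q))) =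
      (aw : ↥(modularFunctionFieldFullC K (M' * q * q)))) :
    mc25_MidPrinAt (v2g64_s K M' q) B V₂.toSubring n := by
  obtain ⟨Φ, Ψ, γ1, wj, e', hΦΨ, hx1, hJ, hγ1, hwjV, he', h1', hΦ1, hΦ3, hε, hw, hwjc, hsv, hqV⟩ :=
    c2i31_jdata M' q hq hπ hqπ V₂ hV₂ hπ₂ hne hs
  obtain ⟨g, wt', ht1, ht1', ht10, ht2, hg, ht2g, hx1t, hx3t, hΔ, hD1, hD2, hwt'c, hwtrel⟩ :=
    c2i31_hdata3 M' q hq hM' hπ hqπ hd3 V₂ hV₂ hπ₂ hne wj hwjc
  have hwteq : wt' = wt := Subtype.ext (by rw [hwt'c, hwt])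
  rw [hwteq] at hwtrel
  obtain ⟨uu, huq⟩ := id hqπ
  have hqu : ((q : ℕ) : R) = ((uu⁻¹ : Rˣ) : R) * π := by
    rw [← huq, mul_comm ((q : ℕ) : R), ← mul_assoc, ← Units.val_mul, inv_mul_cancel,
      Units.val_one, one_mul]
  have hIs : s36f47_IsV2 M' q hπ V₂ := ⟨hV₂, hπ₂, hne, hs⟩
  have hb₂ : (b : ↥(modularFunctionFieldFullC K (M' * q * q)))⁻¹ ∈ V₂ := by
    have hbV : (b : ↥(modularFunctionFieldFullC K (M' * q * q))) ∈ V₂ := hB₂ _ b.2
    have hvb : V₂.valuation (b : ↥(modularFunctionFieldFullC K (M' * q * q))) = 1 := by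
      refine le_antisymm ((V₂.valuation_le_one_iff _).mpr hbV) ?_
      by_contra hlt
      exact hbn (hmid b (mcv8_unif M' q hq hπ V₂ hIs _ (not_le.mp hlt)))
    exact c2e24_inv_mem V₂ hvb
  have hπ0 : algebraMap R ↥(modularFunctionFieldFullC K (M' * q * q)) π ≠ 0 := by
    rw [IsScalarTower.algebraMap_apply R K ↥(modularFunctionFieldFullC K (M' * q * q))]
    intro h0
    have h4 : algebraMap R K π = 0 := (map_eq_zero _).mp h0
    exact hπ.ne_zero (IsFractionRing.injective R K (by rw [h4, map_zero]))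
  have hq0 : ((q : ℕ) : ↥(modularFunctionFieldFullC K (M' * q * q))) ≠ 0 :=
    c2i31_natCast_ne_zero (K := K) (M' * q * q) q hq.ne_zero
  exact c2f24_prinAt_three π ((uu⁻¹ : Rˣ) : R) (uu : R)
    (by rw [← Units.val_mul, inv_mul_cancel, Units.val_one]) q hq hqu B V₁ V₃ V₂ hB₁ hB₂ hB₃ hsat
    hπ0 n hq0 Φ Ψ hΦΨ _ _ _ γ1 wj e' hx1 hJ hγ1 hwjV he' h1' hΦ1 hΦ3 hε hw hsv hqV hmid h1 h3
    _ _ _ g wt ht1 ht1' ht10 ht2 hg ht2g hx1t hx3t hΔ hD1 hD2 hwtrel s b hsb hbn hb₂ aw tw haw hwtw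

end c2i31_frame3

end Fermat.Agent.S36
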