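import Fermat.Agent.S36.C2CoordChart11
import Fermat.Agent.S36.GaussUnitW31
import Fermat.Agent.S18.Pack85

/-!
# S36 lab, row C-C2 (helper11): the per-point datum `G_x` for the Hauptmoduln

For the coordinate route (`c2x11_mid_dvd`, and its denominator form) at a `C₂`-only closed point
`n` where `j` is regular, the coordinate `x` is a Hauptmodul of level `2` or `3` at the good
level `N`, and `G_x = Δ/(θ x)^6` is explicit:

* `c2g11_theta_six2` : `(θ h)^6 = h^4 (h + 64)^3 Δ` for every series `h ≠ 0` with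
  `J h² = (h + 256)³`;  `c2g11_theta_six3` : `(θ h)^6 = h^3 (h + 27)^4 Δ` for every series
  `h ≠ 0` with `J h³ = (h + 27)(h + 243)³`.
* `c2g11_G2 K N h2 = (x^4 (x + 64)^3)⁻¹`, `x = pk85_h2 K N h2`, and
  `c2g11_G3 K N h3 = (x^3 (x + 27)^4)⁻¹`, `x = pk85_h3 K N h3`, with
  `c2g11_G2_mul_theta`, `c2g11_G3_mul_theta` : `G * (θ x)^6 = Δ` (the hypothesis `hg` of
  `c2x11_mid_dvd`).
* `c2g11_h2_exp`, `c2g11_h3_exp` : the `R`-integral expansion of `x` and `θ x ≢ 0` modulo the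
  maximal ideal (the hypotheses `hx`, `hθ` of `c2x11_mid_dvd`).
* `c2g11_agtg2`, `c2g11_agtg3` : in a chart `B` of level `N q²`, at a prime `n` where
  `T = α₂ α₁ x` and `T + 64` (resp. `T + 27`) are units (`e₁ = d₁ T`, `e₂ = d₂ (T + 64)` with
  `e₁, e₂ ∈ B ∖ n`) and `α₂ U` has no pole (`U' = t_U · α₂ U`, `t_U ∉ n`), the element
  `(α₂ α₁ G)^(q-1) · α₂ U` has no pole at `n` (the data `ag tg htg hgn` of `c2x11_mid_dvd`).

All names are prefixed `c2g11_`.
-/

set_option autoImplicit false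
set_option linter.unusedSectionVars false
set_option linter.style.longLine false
set_option linter.unusedVariables false

open ModularCurve IntermediateField

namespace Fermat.Agent.S36

open Fermat.Agent.S18 Fermat.Agent.S24 Fermat.Agent.S28 Fermat.Agent.S37 Fermat.Agent.S34
open Fermat.Agent.S35

section c2g11_series

variable (K : Type*) [Field K]

/-- `(θ h)^6 = h^4 (h + 64)^3 Δ` for a level-2 Hauptmodul series. -/
theorem c2g11_theta_six2 (h : LaurentSeries K) (hh0 : h ≠ 0)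
    (hrel : jqModC K * h ^ 2 = (h + 256) ^ 3) :
    partC_theta h ^ 6 = h ^ 4 * (h + 64) ^ 3 * DeltaSer K := by
  have hrel2 : (jqModC K - 1728) * h ^ 2 = (h + 64) * (h - 512) ^ 2 := by
    linear_combination hrel
  have ha : partC_theta (jqModC K) * h ^ 3 = partC_theta h * ((h + 256) ^ 2 * (h - 512)) :=
    uwh31_der2 (dq56_theta K) (dq56_theta_leibniz K) (jqModC K) h hrel
  have hb : jqModC K ^ 4 * (jqModC K - 1728) ^ 3 * (h ^ 3) ^ 6 =
      ((h + 256) ^ 2 * (h - 512)) ^ 6 * (h ^ 4 * (h + 64) ^ 3) := by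
    have e : jqModC K ^ 4 * (jqModC K - 1728) ^ 3 * (h ^ 3) ^ 6 =
        (jqModC K * h ^ 2) ^ 4 * ((jqModC K - 1728) * h ^ 2) ^ 3 * h ^ 4 := by
      ring
    rw [e, hrel, hrel2]
    ring
  have hθJ := dq56_theta_J_ne_zero K
  have hprod : partC_theta h * ((h + 256) ^ 2 * (h - 512)) ≠ 0 := by
    rw [← ha]
    exact mul_ne_zero hθJ (pow_ne_zero 3 hh0)
  have hG : (h + 256) ^ 2 * (h - 512) ≠ 0 := right_ne_zero_of_mul hprod
  have hT := dq56_theta_pow_six K
  apply mul_right_cancel₀ (pow_ne_zero 6 hG)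
  have e : (partC_theta h * ((h + 256) ^ 2 * (h - 512))) ^ 6 =
      (partC_theta (jqModC K) * h ^ 3) ^ 6 := by rw [ha]
  linear_combination e + (h ^ 3) ^ 6 * hT + DeltaSer K * hb

/-- `(θ h)^6 = h^3 (h + 27)^4 Δ` for a level-3 Hauptmodul series. -/
theorem c2g11_theta_six3 (h : LaurentSeries K) (hh0 : h ≠ 0)
    (hrel : jqModC K * h ^ 3 = (h + 27) * (h + 243) ^ 3) :
    partC_theta h ^ 6 = h ^ 3 * (h + 27) ^ 4 * DeltaSer K := by
  have hrel2 : (jqModC K - 1728) * h ^ 3 = (h ^ 2 - 486 * h - 19683) ^ 2 := by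
    linear_combination hrel
  have ha : partC_theta (jqModC K) * h ^ 4 =
      partC_theta h * ((h + 243) ^ 2 * (h ^ 2 - 486 * h - 19683)) :=
    uwh31_der3 (dq56_theta K) (dq56_theta_leibniz K) (jqModC K) h hrel
  have hb : jqModC K ^ 4 * (jqModC K - 1728) ^ 3 * (h ^ 4) ^ 6 =
      ((h + 243) ^ 2 * (h ^ 2 - 486 * h - 19683)) ^ 6 * (h ^ 3 * (h + 27) ^ 4) := by
    have e : jqModC K ^ 4 * (jqModC K - 1728) ^ 3 * (h ^ 4) ^ 6 =
        (jqModC K * h ^ 3) ^ 4 * ((jqModC K - 1728) * h ^ 3) ^ 3 * h ^ 3 := by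
      ring
    rw [e, hrel, hrel2]
    ring
  have hθJ := dq56_theta_J_ne_zero K
  have hprod : partC_theta h * ((h + 243) ^ 2 * (h ^ 2 - 486 * h - 19683)) ≠ 0 := by
    rw [← ha]
    exact mul_ne_zero hθJ (pow_ne_zero 4 hh0)
  have hG : (h + 243) ^ 2 * (h ^ 2 - 486 * h - 19683) ≠ 0 := right_ne_zero_of_mul hprod
  have hT := dq56_theta_pow_six K
  apply mul_right_cancel₀ (pow_ne_zero 6 hG)
  have e : (partC_theta h * ((h + 243) ^ 2 * (h ^ 2 - 486 * h - 19683))) ^ 6 =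
      (partC_theta (jqModC K) * h ^ 4) ^ 6 := by rw [ha]
  linear_combination e + (h ^ 4) ^ 6 * hT + DeltaSer K * hb

end c2g11_series

section c2g11_G

variable (K : Type) [Field K] [CharZero K] (M : ℕ) [NeZero M]

/-- `G_x = Δ/(θ x)^6 = (x^4 (x + 64)^3)⁻¹` for `x = pk85_h2 K M h2`. -/
noncomputable def c2g11_G2 (h2 : 2 ∣ M) : ↥(modularFunctionFieldFullC K M) :=
  (pk85_h2 K M h2 ^ 4 * (pk85_h2 K M h2 + 64) ^ 3)⁻¹

/-- `G_x = Δ/(θ x)^6 = (x^3 (x + 27)^4)⁻¹` for `x = pk85_h3 K M h3`. -/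
noncomputable def c2g11_G3 (h3 : 3 ∣ M) : ↥(modularFunctionFieldFullC K M) :=
  (pk85_h3 K M h3 ^ 3 * (pk85_h3 K M h3 + 27) ^ 4)⁻¹

theorem c2g11_G2_mul_theta (h2 : 2 ∣ M) :
    ((c2g11_G2 K M h2 : ↥(modularFunctionFieldFullC K M)) : LaurentSeries K) *
      partC_theta ((pk85_h2 K M h2 : ↥(modularFunctionFieldFullC K M)) : LaurentSeries K) ^ 6 =
        DeltaSer K := by
  have h6 := c2g11_theta_six2 K (h70_h2 K) (h70_h2_ne_zero K) (h70_j_mul_h2_sq K)
  have hθ := guw31_theta_ne_zero2 K (h70_h2 K) (h70_h2_ne_zero K) (h70_j_mul_h2_sq K)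
  have hΔ0 : DeltaSer K ≠ 0 := by
    intro h
    have h1 := DeltaSer_mul_DeltaInv K
    rw [h, zero_mul] at h1
    exact zero_ne_one h1
  have hne : h70_h2 K ^ 4 * (h70_h2 K + 64) ^ 3 ≠ 0 := by
    intro h0
    rw [h0, zero_mul] at h6
    exact pow_ne_zero 6 hθ h6
  have hcoe : ((c2g11_G2 K M h2 : ↥(modularFunctionFieldFullC K M)) : LaurentSeries K) =
      (h70_h2 K ^ 4 * (h70_h2 K + 64) ^ 3)⁻¹ := by
    have e := map_inv₀ (modularFunctionFieldFullC K M).val
      (pk85_h2 K M h2 ^ 4 * (pk85_h2 K M h2 + 64) ^ 3)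
    rw [map_mul, map_pow, map_pow, map_add, map_ofNat] at e
    exact e
  rw [hcoe, pk85_h2_coe, h6, ← mul_assoc, inv_mul_cancel₀ hne, one_mul]

theorem c2g11_G3_mul_theta (h3 : 3 ∣ M) :
    ((c2g11_G3 K M h3 : ↥(modularFunctionFieldFullC K M)) : LaurentSeries K) *
      partC_theta ((pk85_h3 K M h3 : ↥(modularFunctionFieldFullC K M)) : LaurentSeries K) ^ 6 =
        DeltaSer K := by
  obtain ⟨hh0, hrel⟩ := uwh31_h3_ok K
  have h6 := c2g11_theta_six3 K (h34_h3R K) hh0 hrel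
  have hθ := guw31_theta_ne_zero3 K (h34_h3R K) hh0 hrel
  have hne : h34_h3R K ^ 3 * (h34_h3R K + 27) ^ 4 ≠ 0 := by
    intro h0
    rw [h0, zero_mul] at h6
    exact pow_ne_zero 6 hθ h6
  have hcoe : ((c2g11_G3 K M h3 : ↥(modularFunctionFieldFullC K M)) : LaurentSeries K) =
      (h34_h3R K ^ 3 * (h34_h3R K + 27) ^ 4)⁻¹ := by
    have e := map_inv₀ (modularFunctionFieldFullC K M).val
      (pk85_h3 K M h3 ^ 3 * (pk85_h3 K M h3 + 27) ^ 4)
    rw [map_mul, map_pow, map_pow, map_add, map_ofNat] at e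
    exact e
  rw [hcoe, pk85_h3_coe, h6, ← mul_assoc, inv_mul_cancel₀ hne, one_mul]

end c2g11_G

section c2g11_exp

variable (R K : Type) [CommRing R] [IsDomain R] [IsDiscreteValuationRing R] [Field K] [CharZero K]
  [Algebra R K] [IsFractionRing R K] (M : ℕ) [NeZero M]

/-- The hypotheses `hx`, `hθ` of `c2x11_mid_dvd` for `x = pk85_h2 K M h2`, `xR = h70_h2 R`. -/
theorem c2g11_h2_exp (h2 : 2 ∣ M) :
    ((pk85_h2 K M h2 : ↥(modularFunctionFieldFullC K M)) : LaurentSeries K) =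
        coeffMap (algebraMap R K) (h70_h2 R) ∧
      partC_theta (coeffMap (IsLocalRing.residue R) (h70_h2 R)) ≠ 0 := by
  refine ⟨by rw [pk85_h2_coe, h70_coeffMap_h2], ?_⟩
  rw [h70_coeffMap_h2]
  exact guw31_theta_ne_zero2 _ _ (h70_h2_ne_zero _) (h70_j_mul_h2_sq _)

/-- The hypotheses `hx`, `hθ` of `c2x11_mid_dvd` for `x = pk85_h3 K M h3`, `xR = h34_h3R R`. -/
theorem c2g11_h3_exp (h3 : 3 ∣ M) :
    ((pk85_h3 K M h3 : ↥(modularFunctionFieldFullC K M)) : LaurentSeries K) =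
        coeffMap (algebraMap R K) (h34_h3R R) ∧
      partC_theta (coeffMap (IsLocalRing.residue R) (h34_h3R R)) ≠ 0 := by
  refine ⟨by rw [pk85_h3_coe, h34_coeffMap_h3R], ?_⟩
  rw [h34_coeffMap_h3R]
  obtain ⟨hh0, hrel⟩ := uwh31_h3_ok (IsLocalRing.ResidueField R)
  exact guw31_theta_ne_zero3 _ _ hh0 hrel

end c2g11_exp

section c2g11_agtg

/-- Generic form: `G * E = D` with `E ∉ n`, and `U' = t_U * Uα` with `t_U ∉ n`: then
`G^k * Uα` has no pole at `n`. -/
theorem c2g11_agtg_gen {R F : Type*} [CommRing R] [Field F] [Algebra R F]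
    (B : Subalgebra R F) (n : Ideal B) [hn : n.IsPrime] (G Uα : F) (k : ℕ)
    (E D : B) (hE : E ∉ n) (hED : G * (E : F) = (D : F))
    (tU U' : B) (htU : tU ∉ n) (hU' : (U' : F) = (tU : F) * Uα) :
    ∃ ag tg : B, tg ∉ n ∧ G ^ k * Uα * (tg : F) = (ag : F) := by
  refine ⟨D ^ k * U', E ^ k * tU, ?_, ?_⟩
  · intro h
    rcases hn.mem_or_mem h with h1 | h1
    · exact hE (hn.mem_of_pow_mem _ h1)
    · exact htU h1
  · push_cast
    rw [hU', ← hED]
    ring

variable {R K : Type} [CommRing R] [Field K] [CharZero K] [Algebra R K]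
  (N q : ℕ) [NeZero N] [NeZero q]
  [Algebra R ↥(modularFunctionFieldFullC K (N * q * q))]

/-- **Level 2**: `(α₂ α₁ G_x)^(q-1) * α₂ U` has no pole at a prime `n` of the chart where
`T = α₂ α₁ x` and `T + 64` are units and `α₂ U` has no pole. -/
theorem c2g11_agtg2 (h2 : 2 ∣ N)
    (B : Subalgebra R ↥(modularFunctionFieldFullC K (N * q * q))) (n : Ideal B) [hn : n.IsPrime]
    (U : ↥(modularFunctionFieldFullC K (N * q)))
    (e₁ d₁ e₂ d₂ : B) (he₁n : e₁ ∉ n) (he₂n : e₂ ∉ n)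
    (he₁ : (e₁ : ↥(modularFunctionFieldFullC K (N * q * q))) =
      (d₁ : ↥(modularFunctionFieldFullC K (N * q * q))) *
        al97L_alpha K (N * q) q (al97L_alpha K N q (pk85_h2 K N h2)))
    (he₂ : (e₂ : ↥(modularFunctionFieldFullC K (N * q * q))) =
      (d₂ : ↥(modularFunctionFieldFullC K (N * q * q))) *
        (al97L_alpha K (N * q) q (al97L_alpha K N q (pk85_h2 K N h2)) + 64))
    (tU U' : B) (htU : tU ∉ n)
    (hU' : (U' : ↥(modularFunctionFieldFullC K (N * q * q))) =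
      (tU : ↥(modularFunctionFieldFullC K (N * q * q))) * al97L_alpha K (N * q) q U) :
    ∃ ag tg : B, tg ∉ n ∧
      al97L_alpha K (N * q) q (al97L_alpha K N q (c2g11_G2 K N h2)) ^ (q - 1) *
        al97L_alpha K (N * q) q U * (tg : ↥(modularFunctionFieldFullC K (N * q * q))) =
          (ag : ↥(modularFunctionFieldFullC K (N * q * q))) := by
  have he₁0 : (e₁ : ↥(modularFunctionFieldFullC K (N * q * q))) ≠ 0 := by
    intro h0
    apply he₁n
    have : e₁ = 0 := Subtype.ext h0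
    rw [this]; exact n.zero_mem
  have he₂0 : (e₂ : ↥(modularFunctionFieldFullC K (N * q * q))) ≠ 0 := by
    intro h0
    apply he₂n
    have : e₂ = 0 := Subtype.ext h0
    rw [this]; exact n.zero_mem
  have hT0 : al97L_alpha K (N * q) q (al97L_alpha K N q (pk85_h2 K N h2)) ≠ 0 := by
    intro h0
    rw [h0, mul_zero] at he₁
    exact he₁0 he₁
  have hT640 : al97L_alpha K (N * q) q (al97L_alpha K N q (pk85_h2 K N h2)) + 64 ≠ 0 := by
    intro h0
    rw [h0, mul_zero] at he₂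
    exact he₂0 he₂
  have hG : al97L_alpha K (N * q) q (al97L_alpha K N q (c2g11_G2 K N h2)) =
      (al97L_alpha K (N * q) q (al97L_alpha K N q (pk85_h2 K N h2)) ^ 4 *
        (al97L_alpha K (N * q) q (al97L_alpha K N q (pk85_h2 K N h2)) + 64) ^ 3)⁻¹ := by
    unfold c2g11_G2
    rw [map_inv₀, map_inv₀, map_mul, map_mul, map_pow, map_pow, map_pow, map_pow, map_add,
      map_add, map_ofNat, map_ofNat]
  refine c2g11_agtg_gen B n _ _ (q - 1) (e₁ ^ 4 * e₂ ^ 3) (d₁ ^ 4 * d₂ ^ 3) ?_ ?_ tU U' htU hU'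
  · intro h
    rcases hn.mem_or_mem h with h1 | h1
    · exact he₁n (hn.mem_of_pow_mem _ h1)
    · exact he₂n (hn.mem_of_pow_mem _ h1)
  · rw [hG]
    push_cast
    rw [he₁, he₂]
    field_simp

/-- **Level 3**: `(α₂ α₁ G_x)^(q-1) * α₂ U` has no pole at a prime `n` of the chart where
`T = α₂ α₁ x` and `T + 27` are units and `α₂ U` has no pole. -/
theorem c2g11_agtg3 (h3 : 3 ∣ N)
    (B : Subalgebra R ↥(modularFunctionFieldFullC K (N * q * q))) (n : Ideal B) [hn : n.IsPrime]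
    (U : ↥(modularFunctionFieldFullC K (N * q)))
    (e₁ d₁ e₂ d₂ : B) (he₁n : e₁ ∉ n) (he₂n : e₂ ∉ n)
    (he₁ : (e₁ : ↥(modularFunctionFieldFullC K (N * q * q))) =
      (d₁ : ↥(modularFunctionFieldFullC K (N * q * q))) *
        al97L_alpha K (N * q) q (al97L_alpha K N q (pk85_h3 K N h3)))
    (he₂ : (e₂ : ↥(modularFunctionFieldFullC K (N * q * q))) =
      (d₂ : ↥(modularFunctionFieldFullC K (N * q * q))) *
        (al97L_alpha K (N * q) q (al97L_alpha K N q (pk85_h3 K N h3)) + 27))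
    (tU U' : B) (htU : tU ∉ n)
    (hU' : (U' : ↥(modularFunctionFieldFullC K (N * q * q))) =
      (tU : ↥(modularFunctionFieldFullC K (N * q * q))) * al97L_alpha K (N * q) q U) :
    ∃ ag tg : B, tg ∉ n ∧
      al97L_alpha K (N * q) q (al97L_alpha K N q (c2g11_G3 K N h3)) ^ (q - 1) *
        al97L_alpha K (N * q) q U * (tg : ↥(modularFunctionFieldFullC K (N * q * q))) =
          (ag : ↥(modularFunctionFieldFullC K (N * q * q))) := by
  have he₁0 : (e₁ : ↥(modularFunctionFieldFullC K (N * q * q))) ≠ 0 := by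
    intro h0
    apply he₁n
    have : e₁ = 0 := Subtype.ext h0
    rw [this]; exact n.zero_mem
  have he₂0 : (e₂ : ↥(modularFunctionFieldFullC K (N * q * q))) ≠ 0 := by
    intro h0
    apply he₂n
    have : e₂ = 0 := Subtype.ext h0
    rw [this]; exact n.zero_mem
  have hT0 : al97L_alpha K (N * q) q (al97L_alpha K N q (pk85_h3 K N h3)) ≠ 0 := by
    intro h0
    rw [h0, mul_zero] at he₁
    exact he₁0 he₁
  have hT270 : al97L_alpha K (N * q) q (al97L_alpha K N q (pk85_h3 K N h3)) + 27 ≠ 0 := by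
    intro h0
    rw [h0, mul_zero] at he₂
    exact he₂0 he₂
  have hG : al97L_alpha K (N * q) q (al97L_alpha K N q (c2g11_G3 K N h3)) =
      (al97L_alpha K (N * q) q (al97L_alpha K N q (pk85_h3 K N h3)) ^ 3 *
        (al97L_alpha K (N * q) q (al97L_alpha K N q (pk85_h3 K N h3)) + 27) ^ 4)⁻¹ := by
    unfold c2g11_G3
    rw [map_inv₀, map_inv₀, map_mul, map_mul, map_pow, map_pow, map_pow, map_pow, map_add,
      map_add, map_ofNat, map_ofNat]
  refine c2g11_agtg_gen B n _ _ (q - 1) (e₁ ^ 3 * e₂ ^ 4) (d₁ ^ 3 * d₂ ^ 4) ?_ ?_ tU U' htU hU'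
  · intro h
    rcases hn.mem_or_mem h with h1 | h1
    · exact he₁n (hn.mem_of_pow_mem _ h1)
    · exact he₂n (hn.mem_of_pow_mem _ h1)
  · rw [hG]
    push_cast
    rw [he₁, he₂]
    field_simp

end c2g11_agtg

end Fermat.Agent.S36
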