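import Fermat.Agent.S36.C2Den66
import Fermat.Agent.S36.C2Den74
import Fermat.Agent.S36.C2GData11
import Fermat.Agent.S36.SmallQInst75

/-!
# S36 lab, row C-C2 (helper11): the generator of the middle branch at EVERY `C₂`-only closed
point where `j` is regular (`hreg` of `mc25_hD2_level2/3(_inv)`), chart-generic

Composition of the denominator route: `c2h66_prinAt` (helper66: coordinate form with a
denominator), `c2p74_den_haupt` (helper74: denominators at a `j`-regular point),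
`c2g11_G2/G3`, `c2g11_agtg2/3` (explicit `G_x` for the Hauptmoduln), `usq75_alphaU_unit_at`
(helper75: `α^* U` is a unit of `B_n`) and `sqi75_j_unit_at` (helper75/helper65: `j` is a unit of
`B_n` for `q ∈ {2, 3}`).

* `c2f11_prin_h2`, `c2f11_prin_h3` : one coordinate (`x = pk85_h2 K M'`, resp. `pk85_h3 K M'`),
  under the hypothesis that `T + 64` (resp. `T + 27`) is a unit at `n`, `T = α₂ α₁ x`.
* `c2f11_hreg_gen` : the case split.  `B` ANY integrally closed subalgebra of `F_K(M' q²)`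
  contained in and saturated in `V₁ ⊓ V₂ ⊓ V₃` (`V₁ = cm85_Vinf`, `V₂` any valuation subring with
  the four facts of `ob72_ram`, `V₃` any), uniformizer `π = q`, level `M'` with
  `q ≠ 2 → 2 ∣ M'` and `q ≠ 3 → 3 ∣ M'`; `n` a prime on the middle branch only, `j` regular at
  `n`; `sc ∉ n` with `sc * j ∈ B` and `sc⁻¹ ∈ V₁` (`sc = h²`, `h³` on the chart `{h}`,
  `sc = h⁻¹` on `{h⁻¹}`).  Then `mc25_MidPrinAt s B V₂ n`.
  `q = 2`: `x = h₃` (`j` is a unit at `n`, so is `T₃ + 27`); `q = 3`: `x = h₂`;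
  `q ≥ 5`: `x = h₂` if `T₂ + 64` is a unit at `n`, otherwise `j ≡ 1728 ≢ 0` and `x = h₃`.

All names are prefixed `c2f11_`.
-/

set_option autoImplicit false
set_option linter.unusedSectionVars false
set_option linter.style.longLine false
set_option linter.unusedVariables false

open ModularCurve IntermediateField

namespace Fermat.Agent.S36

open Fermat.Agent.S18 Fermat.Agent.S24 Fermat.Agent.S28 Fermat.Agent.S37 Fermat.Agent.S34
open Fermat.Agent.S35 Fermat.Agent.S36.TripleLoc71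

local notation "Q̄" => AlgebraicClosure ℚ

section c2f11_ring

variable {B : Type*} [CommRing B] (n : Ideal B) [hn : n.IsPrime]

include hn in
theorem c2f11_unit2 (s' b' b X : B) (hs' : s' ∉ n) (hb : b ∉ n) (h2 : (2 : B) ∉ n)
    (hrel : b' * b * X ^ 2 = s' * (X + 256 * b) ^ 3) : X ∉ n := by
  intro hX
  have h1 : s' * (X + 256 * b) ^ 3 ∈ n := by
    rw [← hrel]
    exact n.mul_mem_left _ (n.pow_mem_of_mem hX 2 (by norm_num))
  have h2' : X + 256 * b ∈ n := hn.mem_of_pow_mem _ ((hn.mem_or_mem h1).resolve_left hs')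
  have h3 : (256 : B) * b ∈ n := by
    have := n.sub_mem h2' hX
    rwa [add_sub_cancel_left] at this
  have h4 : (256 : B) ∈ n := (hn.mem_or_mem h3).resolve_right hb
  have h5 : (2 : B) ^ 8 ∈ n := by
    have e : (2 : B) ^ 8 = 256 := by norm_num
    rw [e]; exact h4
  exact h2 (hn.mem_of_pow_mem _ h5)

include hn in
theorem c2f11_unit3 (s' b' b Y : B) (hs' : s' ∉ n) (hb : b ∉ n) (h3 : (3 : B) ∉ n)
    (hrel : b' * b * Y ^ 3 = s' * ((Y + 27 * b) * (Y + 243 * b) ^ 3)) : Y ∉ n := by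
  intro hY
  have h1 : s' * ((Y + 27 * b) * (Y + 243 * b) ^ 3) ∈ n := by
    rw [← hrel]
    exact n.mul_mem_left _ (n.pow_mem_of_mem hY 3 (by norm_num))
  have h2' : (Y + 27 * b) * (Y + 243 * b) ^ 3 ∈ n := (hn.mem_or_mem h1).resolve_left hs'
  rcases hn.mem_or_mem h2' with h | h
  · have h3' : (27 : B) * b ∈ n := by
      have := n.sub_mem h hY
      rwa [add_sub_cancel_left] at this
    have h4 : (27 : B) ∈ n := (hn.mem_or_mem h3').resolve_right hb
    have h5 : (3 : B) ^ 3 ∈ n := by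
      have e : (3 : B) ^ 3 = 27 := by norm_num
      rw [e]; exact h4
    exact h3 (hn.mem_of_pow_mem _ h5)
  · have h' := hn.mem_of_pow_mem _ h
    have h3' : (243 : B) * b ∈ n := by
      have := n.sub_mem h' hY
      rwa [add_sub_cancel_left] at this
    have h4 : (243 : B) ∈ n := (hn.mem_or_mem h3').resolve_right hb
    have h5 : (3 : B) ^ 5 ∈ n := by
      have e : (3 : B) ^ 5 = 243 := by norm_num
      rw [e]; exact h4
    exact h3 (hn.mem_of_pow_mem _ h5)

include hn in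
/-- `T + 64 ≡ 0` forces `j ≡ 1728`. -/
theorem c2f11_e2 (s' b' b X : B) (hb : b ∉ n) (hX : X ∉ n)
    (hrel : b' * b * X ^ 2 = s' * (X + 256 * b) ^ 3) (hmem : X + 64 * b ∈ n) :
    b' - 1728 * s' ∈ n := by
  have e : (b' - 1728 * s') * (b * X ^ 2) = s' * (X - 512 * b) ^ 2 * (X + 64 * b) := by
    linear_combination hrel
  have h1 : (b' - 1728 * s') * (b * X ^ 2) ∈ n := by
    rw [e]
    exact n.mul_mem_left _ hmem
  rcases hn.mem_or_mem h1 with h | h
  · exact h
  · exfalso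
    rcases hn.mem_or_mem h with h' | h'
    · exact hb h'
    · exact hX (hn.mem_of_pow_mem _ h')

include hn in
/-- `T + 27 ≡ 0` forces `j ≡ 0`. -/
theorem c2f11_e3 (s' b' b Y : B) (hb : b ∉ n) (hY : Y ∉ n)
    (hrel : b' * b * Y ^ 3 = s' * ((Y + 27 * b) * (Y + 243 * b) ^ 3)) (hmem : Y + 27 * b ∈ n) :
    b' ∈ n := by
  have h1 : b' * (b * Y ^ 3) ∈ n := by
    have e : b' * (b * Y ^ 3) = s' * (Y + 243 * b) ^ 3 * (Y + 27 * b) := by
      linear_combination hrel
    rw [e]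
    exact n.mul_mem_left _ hmem
  rcases hn.mem_or_mem h1 with h | h
  · exact h
  · exfalso
    rcases hn.mem_or_mem h with h' | h'
    · exact hb h'
    · exact hY (hn.mem_of_pow_mem _ h')

end c2f11_ring

section c2f11_nat

theorem c2f11_natCast_not_mem {R F : Type*} [CommRing R] [Field F] [Algebra R F]
    (B : Subalgebra R F) (n : Ideal B) [hn : n.IsPrime] (m : ℕ) (hm : IsUnit ((m : ℕ) : R)) :
    ((m : ℕ) : B) ∉ n := by
  intro h
  have hu : IsUnit (algebraMap R B ((m : ℕ) : R)) := hm.map _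
  rw [map_natCast] at hu
  exact hn.ne_top (Ideal.eq_top_of_isUnit_mem _ h hu)

theorem c2f11_pow_succ_mul_inv_le {Γ : Type*} [LinearOrderedCommGroupWithZero Γ] (v : Γ)
    (k : ℕ) (hv : v ≠ 0) (hv1 : v ≤ 1) : v ^ (k + 1) * v⁻¹ ≤ 1 := by
  have e : v ^ (k + 1) * v⁻¹ = v ^ k := by
    rw [pow_succ, mul_assoc, mul_inv_cancel₀ hv, mul_one]
  rw [e]
  exact pow_le_one₀ zero_le' hv1

end c2f11_nat

section c2f11_canon

variable {R K : Type} [CommRing R] [IsDomain R] [IsDiscreteValuationRing R] [Field K] [CharZero K]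
  [Algebra R K] [IsFractionRing R K] [Algebra K Q̄]
  (M' q : ℕ) [NeZero M'] [NeZero q] (hq : q.Prime) (hM' : ¬ q ∣ M')
  [Algebra R ↥(modularFunctionFieldFullC K M')]
  [IsScalarTower R K ↥(modularFunctionFieldFullC K M')]
  [Algebra R ↥(modularFunctionFieldFullC K (M' * q))]
  [IsScalarTower R K ↥(modularFunctionFieldFullC K (M' * q))]
  [Algebra R ↥(modularFunctionFieldFullC K (M' * q * q))]
  [IsScalarTower R K ↥(modularFunctionFieldFullC K (M' * q * q))]

/-- The level-2 relation `j T² = (T + 256)³`, cleared of denominators in the chart. -/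
theorem c2f11_rel2 (h2 : 2 ∣ M')
    (B : Subalgebra R ↥(modularFunctionFieldFullC K (M' * q * q))) (s' b' b t : B)
    (hsj : (s' : ↥(modularFunctionFieldFullC K (M' * q * q))) * rm90_j K (M' * q * q) =
      (b' : ↥(modularFunctionFieldFullC K (M' * q * q))))
    (ht : (t : ↥(modularFunctionFieldFullC K (M' * q * q))) =
      (b : ↥(modularFunctionFieldFullC K (M' * q * q))) *
        al97L_alpha K (M' * q) q (al97L_alpha K M' q (pk85_h2 K M' h2))) :
    b' * b * t ^ 2 = s' * (t + 256 * b) ^ 3 := by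
  have hT : al97L_alpha K (M' * q) q (al97L_alpha K M' q (pk85_h2 K M' h2)) =
      pk85_h2 K (M' * q * q) (h2.trans ((dvd_mul_right M' q).trans (dvd_mul_right (M' * q) q))) := by
    apply Subtype.ext
    rw [al97L_alpha_coe, al97L_alpha_coe, pk85_h2_coe, pk85_h2_coe]
  have hjT := pk85_h2_rel K (M' * q * q)
    (h2.trans ((dvd_mul_right M' q).trans (dvd_mul_right (M' * q) q)))
  rw [← hT] at hjT
  have c256 : ((256 : B) : ↥(modularFunctionFieldFullC K (M' * q * q))) = 256 :=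
    map_ofNat B.val 256
  apply Subtype.ext
  simp only [Subalgebra.coe_mul, Subalgebra.coe_pow, Subalgebra.coe_add, c256]
  rw [ht, ← hsj]
  linear_combination ((s' : ↥(modularFunctionFieldFullC K (M' * q * q))) *
    (b : ↥(modularFunctionFieldFullC K (M' * q * q))) ^ 3) * hjT

/-- The level-3 relation `j T³ = (T + 27)(T + 243)³`, cleared of denominators in the chart. -/
theorem c2f11_rel3 (h3 : 3 ∣ M')
    (B : Subalgebra R ↥(modularFunctionFieldFullC K (M' * q * q))) (s' b' b t : B)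
    (hsj : (s' : ↥(modularFunctionFieldFullC K (M' * q * q))) * rm90_j K (M' * q * q) =
      (b' : ↥(modularFunctionFieldFullC K (M' * q * q))))
    (ht : (t : ↥(modularFunctionFieldFullC K (M' * q * q))) =
      (b : ↥(modularFunctionFieldFullC K (M' * q * q))) *
        al97L_alpha K (M' * q) q (al97L_alpha K M' q (pk85_h3 K M' h3))) :
    b' * b * t ^ 3 = s' * ((t + 27 * b) * (t + 243 * b) ^ 3) := by
  have hT : al97L_alpha K (M' * q) q (al97L_alpha K M' q (pk85_h3 K M' h3)) =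
      pk85_h3 K (M' * q * q) (h3.trans ((dvd_mul_right M' q).trans (dvd_mul_right (M' * q) q))) := by
    apply Subtype.ext
    rw [al97L_alpha_coe, al97L_alpha_coe, pk85_h3_coe, pk85_h3_coe]
  have hjT := pk85_h3_rel K (M' * q * q)
    (h3.trans ((dvd_mul_right M' q).trans (dvd_mul_right (M' * q) q)))
  rw [← hT] at hjT
  have c27 : ((27 : B) : ↥(modularFunctionFieldFullC K (M' * q * q))) = 27 :=
    map_ofNat B.val 27
  have c243 : ((243 : B) : ↥(modularFunctionFieldFullC K (M' * q * q))) = 243 :=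
    map_ofNat B.val 243
  apply Subtype.ext
  simp only [Subalgebra.coe_mul, Subalgebra.coe_pow, Subalgebra.coe_add, c27, c243]
  rw [ht, ← hsj]
  linear_combination ((s' : ↥(modularFunctionFieldFullC K (M' * q * q))) *
    (b : ↥(modularFunctionFieldFullC K (M' * q * q))) ^ 4) * hjT

include hq hM' in
/-- **One coordinate, level 2**: `x = pk85_h2 K M'`, under `T + 64` unit at `n`. -/
theorem c2f11_prin_h2 (hπq : Irreducible ((q : ℕ) : R))
    (hunit : ∀ m : ℕ, Nat.Coprime m q → IsUnit (m : R)) (h2 : 2 ∣ M') (hq2 : q ≠ 2)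
    (V₂ V₃ : ValuationSubring ↥(modularFunctionFieldFullC K (M' * q * q)))
    (hV₂ : ∀ c ∈ cm85_Vinf (K := K) (M' * q) hπq, al97L_alpha K (M' * q) q c ∈ V₂)
    (hπ₂ : (algebraMap K ↥(modularFunctionFieldFullC K (M' * q * q))
      (algebraMap R K ((q : ℕ) : R)))⁻¹ ∉ V₂)
    (hne : cm85_Vinf (K := K) (M' * q * q) hπq ≠ V₂)
    (s : ↥(modularFunctionFieldFullC K (M' * q * q)))
    (hs : V₂.valuation s ^ (q - 1) =
      V₂.valuation (algebraMap K ↥(modularFunctionFieldFullC K (M' * q * q))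
        (algebraMap R K ((q : ℕ) : R))))
    (B : Subalgebra R ↥(modularFunctionFieldFullC K (M' * q * q)))
    (hBint : ∀ z : ↥(modularFunctionFieldFullC K (M' * q * q)), IsIntegral B z → z ∈ B)
    (hB₁ : ∀ y ∈ B, y ∈ (cm85_Vinf (K := K) (M' * q * q) hπq).toSubring)
    (hB₂ : ∀ y ∈ B, y ∈ V₂.toSubring) (hB₃ : ∀ y ∈ B, y ∈ V₃.toSubring)
    (hsat : ∀ y ∈ B,
      (algebraMap R ↥(modularFunctionFieldFullC K (M' * q * q)) ((q : ℕ) : R))⁻¹ * y ∈
        (cm85_Vinf (K := K) (M' * q * q) hπq).toSubring →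
      (algebraMap R ↥(modularFunctionFieldFullC K (M' * q * q)) ((q : ℕ) : R))⁻¹ * y ∈
        V₂.toSubring →
      (algebraMap R ↥(modularFunctionFieldFullC K (M' * q * q)) ((q : ℕ) : R))⁻¹ * y ∈
        V₃.toSubring →
      (algebraMap R ↥(modularFunctionFieldFullC K (M' * q * q)) ((q : ℕ) : R))⁻¹ * y ∈ B)
    (n : Ideal B) [hn : n.IsPrime]
    (hmid : tl71_OnMid s B V₂.toSubring n)
    (h1 : ¬ sf79_OnBr ((q : ℕ) : R) B (cm85_Vinf (K := K) (M' * q * q) hπq).toSubring n)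
    (h3 : ¬ sf79_OnBr ((q : ℕ) : R) B V₃.toSubring n)
    (s' b' : B) (hs' : s' ∉ n)
    (hsj : (s' : ↥(modularFunctionFieldFullC K (M' * q * q))) * rm90_j K (M' * q * q) =
      (b' : ↥(modularFunctionFieldFullC K (M' * q * q))))
    (sc : B) (hsc : sc ∉ n)
    (hscj : (sc : ↥(modularFunctionFieldFullC K (M' * q * q))) * rm90_j K (M' * q * q) ∈ B)
    (hsc₁ : (sc : ↥(modularFunctionFieldFullC K (M' * q * q)))⁻¹ ∈
      cm85_Vinf (K := K) (M' * q * q) hπq)
    (hE : ∀ b t : B, b ∉ n →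
      (t : ↥(modularFunctionFieldFullC K (M' * q * q))) =
        (b : ↥(modularFunctionFieldFullC K (M' * q * q))) *
          al97L_alpha K (M' * q) q (al97L_alpha K M' q (pk85_h2 K M' h2)) →
      t + 64 * b ∉ n) :
    mc25_MidPrinAt s B V₂.toSubring n := by
  have h2n : (2 : B) ∉ n := by
    have := c2f11_natCast_not_mem B n 2
      (hunit 2 ((Nat.coprime_primes Nat.prime_two hq).mpr (Ne.symm hq2)))
    simpa using this
  obtain ⟨b, sB, t1B, t3B, hb, hsB, ht1, -⟩ := c2p74_den_haupt (R := R) (K := K) M' q hq hunit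
    (pk85_h2 K M' h2) (Or.inl ⟨hq2, h2, rfl⟩) B hBint n s' b' hs' hsj
  have hrelB := c2f11_rel2 (R := R) (K := K) M' q h2 B s' b' b t1B hsj ht1
  have hX : t1B ∉ n := c2f11_unit2 n s' b' b t1B hs' hb h2n hrelB
  have he₂ : t1B + 64 * b ∉ n := hE b t1B hb ht1
  have c64 : ((64 : B) : ↥(modularFunctionFieldFullC K (M' * q * q))) = 64 :=
    map_ofNat B.val 64
  have he₂' : ((t1B + 64 * b : B) : ↥(modularFunctionFieldFullC K (M' * q * q))) =
      (b : ↥(modularFunctionFieldFullC K (M' * q * q))) *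
        (al97L_alpha K (M' * q) q (al97L_alpha K M' q (pk85_h2 K M' h2)) + 64) := by
    simp only [Subalgebra.coe_mul, Subalgebra.coe_add, c64]
    rw [ht1]
    ring
  -- separator for `V₃`
  have h3' := h3
  unfold sf79_OnBr at h3'
  push_neg at h3'
  obtain ⟨a₃, ha₃V, ha₃n⟩ := h3'
  -- `sc` is a unit of `V₂`
  have hsc₂ : (sc : ↥(modularFunctionFieldFullC K (M' * q * q)))⁻¹ ∈ V₂ := by
    by_contra hcon
    obtain ⟨-, -, hmaxs, -, -⟩ :=
      ob72_ram (K := K) (M' * q) q hq (dvd_mul_left q M') hπq V₂ hV₂ hπ₂ hne s hs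
    have h := hmaxs _ (hB₂ _ sc.2) hcon
    have e := mul_comm (s⁻¹) (sc : ↥(modularFunctionFieldFullC K (M' * q * q)))
    rw [e] at h
    exact hsc (hmid sc h)
  obtain ⟨tU, U', htU, -, hU'⟩ := usq75_alphaU_unit_at (R := R) (K := K) M' q hq hM' hπq B hBint
    V₂ V₃ hV₂ hB₁ hB₂ hB₃ hsat n sc hsc hscj hsc₁ hsc₂ a₃ ha₃n ha₃V
  unfold usq75_alphaU at hU'
  obtain ⟨ag, tg, htg, hgn⟩ := c2g11_agtg2 (R := R) (K := K) M' q h2 B n
    (dq56b_U (K := K) M' q hq) t1B b (t1B + 64 * b) b hX he₂ ht1 he₂' tU U' htU hU'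
  obtain ⟨hx, hθ⟩ := c2g11_h2_exp R K M' h2
  exact c2h66_prinAt (algebraMap K Q̄) M' q hq hM' hπq (Associated.refl _) V₂ hV₂ hπ₂ hne s hs B
    (cm85_Vinf (K := K) (M' * q * q) hπq).toSubring V₃.toSubring hB₁ hB₂ hB₃ hsat n hmid h1 h3
    (pk85_h2 K M' h2) (h70_h2 R) hx hθ b sB hb hsB (c2g11_G2 K M' h2)
    (dq56b_U (K := K) M' q hq) (c2g11_G2_mul_theta K M' h2) rfl ag tg htg hgn

include hq hM' in
/-- **One coordinate, level 3**: `x = pk85_h3 K M'`, under `T + 27` unit at `n`. -/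
theorem c2f11_prin_h3 (hπq : Irreducible ((q : ℕ) : R))
    (hunit : ∀ m : ℕ, Nat.Coprime m q → IsUnit (m : R)) (h3M : 3 ∣ M') (hq3 : q ≠ 3)
    (V₂ V₃ : ValuationSubring ↥(modularFunctionFieldFullC K (M' * q * q)))
    (hV₂ : ∀ c ∈ cm85_Vinf (K := K) (M' * q) hπq, al97L_alpha K (M' * q) q c ∈ V₂)
    (hπ₂ : (algebraMap K ↥(modularFunctionFieldFullC K (M' * q * q))
      (algebraMap R K ((q : ℕ) : R)))⁻¹ ∉ V₂)
    (hne : cm85_Vinf (K := K) (M' * q * q) hπq ≠ V₂)
    (s : ↥(modularFunctionFieldFullC K (M' * q * q)))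
    (hs : V₂.valuation s ^ (q - 1) =
      V₂.valuation (algebraMap K ↥(modularFunctionFieldFullC K (M' * q * q))
        (algebraMap R K ((q : ℕ) : R))))
    (B : Subalgebra R ↥(modularFunctionFieldFullC K (M' * q * q)))
    (hBint : ∀ z : ↥(modularFunctionFieldFullC K (M' * q * q)), IsIntegral B z → z ∈ B)
    (hB₁ : ∀ y ∈ B, y ∈ (cm85_Vinf (K := K) (M' * q * q) hπq).toSubring)
    (hB₂ : ∀ y ∈ B, y ∈ V₂.toSubring) (hB₃ : ∀ y ∈ B, y ∈ V₃.toSubring)
    (hsat : ∀ y ∈ B,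
      (algebraMap R ↥(modularFunctionFieldFullC K (M' * q * q)) ((q : ℕ) : R))⁻¹ * y ∈
        (cm85_Vinf (K := K) (M' * q * q) hπq).toSubring →
      (algebraMap R ↥(modularFunctionFieldFullC K (M' * q * q)) ((q : ℕ) : R))⁻¹ * y ∈
        V₂.toSubring →
      (algebraMap R ↥(modularFunctionFieldFullC K (M' * q * q)) ((q : ℕ) : R))⁻¹ * y ∈
        V₃.toSubring →
      (algebraMap R ↥(modularFunctionFieldFullC K (M' * q * q)) ((q : ℕ) : R))⁻¹ * y ∈ B)
    (n : Ideal B) [hn : n.IsPrime]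
    (hmid : tl71_OnMid s B V₂.toSubring n)
    (h1 : ¬ sf79_OnBr ((q : ℕ) : R) B (cm85_Vinf (K := K) (M' * q * q) hπq).toSubring n)
    (h3 : ¬ sf79_OnBr ((q : ℕ) : R) B V₃.toSubring n)
    (s' b' : B) (hs' : s' ∉ n)
    (hsj : (s' : ↥(modularFunctionFieldFullC K (M' * q * q))) * rm90_j K (M' * q * q) =
      (b' : ↥(modularFunctionFieldFullC K (M' * q * q))))
    (sc : B) (hsc : sc ∉ n)
    (hscj : (sc : ↥(modularFunctionFieldFullC K (M' * q * q))) * rm90_j K (M' * q * q) ∈ B)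
    (hsc₁ : (sc : ↥(modularFunctionFieldFullC K (M' * q * q)))⁻¹ ∈
      cm85_Vinf (K := K) (M' * q * q) hπq)
    (hE : ∀ b t : B, b ∉ n →
      (t : ↥(modularFunctionFieldFullC K (M' * q * q))) =
        (b : ↥(modularFunctionFieldFullC K (M' * q * q))) *
          al97L_alpha K (M' * q) q (al97L_alpha K M' q (pk85_h3 K M' h3M)) →
      t + 27 * b ∉ n) :
    mc25_MidPrinAt s B V₂.toSubring n := by
  have h3n : (3 : B) ∉ n := by
    have := c2f11_natCast_not_mem B n 3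
      (hunit 3 ((Nat.coprime_primes Nat.prime_three hq).mpr (Ne.symm hq3)))
    simpa using this
  obtain ⟨b, sB, t1B, t3B, hb, hsB, ht1, -⟩ := c2p74_den_haupt (R := R) (K := K) M' q hq hunit
    (pk85_h3 K M' h3M) (Or.inr ⟨hq3, h3M, rfl⟩) B hBint n s' b' hs' hsj
  have hrelB := c2f11_rel3 (R := R) (K := K) M' q h3M B s' b' b t1B hsj ht1
  have hX : t1B ∉ n := c2f11_unit3 n s' b' b t1B hs' hb h3n hrelB
  have he₂ : t1B + 27 * b ∉ n := hE b t1B hb ht1
  have c27 : ((27 : B) : ↥(modularFunctionFieldFullC K (M' * q * q))) = 27 :=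
    map_ofNat B.val 27
  have he₂' : ((t1B + 27 * b : B) : ↥(modularFunctionFieldFullC K (M' * q * q))) =
      (b : ↥(modularFunctionFieldFullC K (M' * q * q))) *
        (al97L_alpha K (M' * q) q (al97L_alpha K M' q (pk85_h3 K M' h3M)) + 27) := by
    simp only [Subalgebra.coe_mul, Subalgebra.coe_add, c27]
    rw [ht1]
    ring
  have h3' := h3
  unfold sf79_OnBr at h3'
  push_neg at h3'
  obtain ⟨a₃, ha₃V, ha₃n⟩ := h3'
  have hsc₂ : (sc : ↥(modularFunctionFieldFullC K (M' * q * q)))⁻¹ ∈ V₂ := by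
    by_contra hcon
    obtain ⟨-, -, hmaxs, -, -⟩ :=
      ob72_ram (K := K) (M' * q) q hq (dvd_mul_left q M') hπq V₂ hV₂ hπ₂ hne s hs
    have h := hmaxs _ (hB₂ _ sc.2) hcon
    have e := mul_comm (s⁻¹) (sc : ↥(modularFunctionFieldFullC K (M' * q * q)))
    rw [e] at h
    exact hsc (hmid sc h)
  obtain ⟨tU, U', htU, -, hU'⟩ := usq75_alphaU_unit_at (R := R) (K := K) M' q hq hM' hπq B hBint
    V₂ V₃ hV₂ hB₁ hB₂ hB₃ hsat n sc hsc hscj hsc₁ hsc₂ a₃ ha₃n ha₃V
  unfold usq75_alphaU at hU'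
  obtain ⟨ag, tg, htg, hgn⟩ := c2g11_agtg3 (R := R) (K := K) M' q h3M B n
    (dq56b_U (K := K) M' q hq) t1B b (t1B + 27 * b) b hX he₂ ht1 he₂' tU U' htU hU'
  obtain ⟨hx, hθ⟩ := c2g11_h3_exp R K M' h3M
  exact c2h66_prinAt (algebraMap K Q̄) M' q hq hM' hπq (Associated.refl _) V₂ hV₂ hπ₂ hne s hs B
    (cm85_Vinf (K := K) (M' * q * q) hπq).toSubring V₃.toSubring hB₁ hB₂ hB₃ hsat n hmid h1 h3
    (pk85_h3 K M' h3M) (h34_h3R R) hx hθ b sB hb hsB (c2g11_G3 K M' h3M)
    (dq56b_U (K := K) M' q hq) (c2g11_G3_mul_theta K M' h3M) rfl ag tg htg hgn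

include hq hM' in
/-- **`q ∈ {2, 3}`: `j` is a unit at `n`** (in terms of an arbitrary regularity witness
`s' * j = b'`, `s' ∉ n`). -/
theorem c2f11_j_unit (h23 : q = 2 ∨ q = 3) (hπq : Irreducible ((q : ℕ) : R))
    (V₂ V₃ : ValuationSubring ↥(modularFunctionFieldFullC K (M' * q * q)))
    (hV₂ : ∀ c ∈ cm85_Vinf (K := K) (M' * q) hπq, al97L_alpha K (M' * q) q c ∈ V₂)
    (hπ₂ : (algebraMap K ↥(modularFunctionFieldFullC K (M' * q * q))
      (algebraMap R K ((q : ℕ) : R)))⁻¹ ∉ V₂)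
    (hne : cm85_Vinf (K := K) (M' * q * q) hπq ≠ V₂)
    (s : ↥(modularFunctionFieldFullC K (M' * q * q)))
    (hs : V₂.valuation s ^ (q - 1) =
      V₂.valuation (algebraMap K ↥(modularFunctionFieldFullC K (M' * q * q))
        (algebraMap R K ((q : ℕ) : R))))
    (B : Subalgebra R ↥(modularFunctionFieldFullC K (M' * q * q)))
    (hBint : ∀ z : ↥(modularFunctionFieldFullC K (M' * q * q)), IsIntegral B z → z ∈ B)
    (hB₁ : ∀ y ∈ B, y ∈ (cm85_Vinf (K := K) (M' * q * q) hπq).toSubring)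
    (hB₂ : ∀ y ∈ B, y ∈ V₂.toSubring) (hB₃ : ∀ y ∈ B, y ∈ V₃.toSubring)
    (hsat : ∀ y ∈ B,
      (algebraMap R ↥(modularFunctionFieldFullC K (M' * q * q)) ((q : ℕ) : R))⁻¹ * y ∈
        (cm85_Vinf (K := K) (M' * q * q) hπq).toSubring →
      (algebraMap R ↥(modularFunctionFieldFullC K (M' * q * q)) ((q : ℕ) : R))⁻¹ * y ∈
        V₂.toSubring →
      (algebraMap R ↥(modularFunctionFieldFullC K (M' * q * q)) ((q : ℕ) : R))⁻¹ * y ∈
        V₃.toSubring →
      (algebraMap R ↥(modularFunctionFieldFullC K (M' * q * q)) ((q : ℕ) : R))⁻¹ * y ∈ B)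
    (n : Ideal B) [hn : n.IsPrime]
    (hmid : tl71_OnMid s B V₂.toSubring n)
    (h3 : ¬ sf79_OnBr ((q : ℕ) : R) B V₃.toSubring n)
    (s' b' : B) (hs' : s' ∉ n)
    (hsj : (s' : ↥(modularFunctionFieldFullC K (M' * q * q))) * rm90_j K (M' * q * q) =
      (b' : ↥(modularFunctionFieldFullC K (M' * q * q))))
    (sc : B) (hsc : sc ∉ n)
    (hscj : (sc : ↥(modularFunctionFieldFullC K (M' * q * q))) * rm90_j K (M' * q * q) ∈ B)
    (hsc₁ : (sc : ↥(modularFunctionFieldFullC K (M' * q * q)))⁻¹ ∈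
      cm85_Vinf (K := K) (M' * q * q) hπq) :
    b' ∉ n := by
  have hπF : algebraMap R ↥(modularFunctionFieldFullC K (M' * q * q)) ((q : ℕ) : R) =
      algebraMap K ↥(modularFunctionFieldFullC K (M' * q * q)) (algebraMap R K ((q : ℕ) : R)) :=
    IsScalarTower.algebraMap_apply R K _ _
  have hπK0 : algebraMap K ↥(modularFunctionFieldFullC K (M' * q * q))
      (algebraMap R K ((q : ℕ) : R)) ≠ 0 :=
    (map_ne_zero _).mpr ((map_ne_zero_iff _ (IsFractionRing.injective R K)).mpr hπq.ne_zero)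
  have hq1 : q - 1 ≠ 0 := by have := hq.two_le; omega
  obtain ⟨hs0, hsV, hsinv⟩ := c2h66_unif_basic V₂ s _ (q - 1) hq1 hπK0 hπ₂ hs
  have hπs : algebraMap K ↥(modularFunctionFieldFullC K (M' * q * q))
      (algebraMap R K ((q : ℕ) : R)) * s⁻¹ ∈ V₂ := by
    rw [← V₂.valuation_le_one_iff, map_mul, map_inv₀, ← hs]
    obtain ⟨k, hk⟩ : ∃ k, q - 1 = k + 1 := ⟨q - 2, by have := hq.two_le; omega⟩
    have hvs0 : V₂.valuation s ≠ 0 := (Valuation.ne_zero_iff _).mpr hs0
    rw [hk]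
    exact c2f11_pow_succ_mul_inv_le _ k hvs0 ((V₂.valuation_le_one_iff _).mpr hsV)
  have hOn₂ : ∀ x : B,
      (algebraMap R ↥(modularFunctionFieldFullC K (M' * q * q)) ((q : ℕ) : R))⁻¹ *
        (x : ↥(modularFunctionFieldFullC K (M' * q * q))) ∈ V₂ → x ∈ n := by
    intro x hx
    apply hmid
    have key : ∀ (X P S : ↥(modularFunctionFieldFullC K (M' * q * q))), P ≠ 0 →
        X * S⁻¹ = P⁻¹ * X * (P * S⁻¹) := by
      intro X P S h
      have h' : P⁻¹ * X * (P * S⁻¹) = X * S⁻¹ * (P⁻¹ * P) := by ring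
      rw [h', inv_mul_cancel₀ h, mul_one]
    rw [key _ _ s hπK0, ← hπF]
    exact mul_mem hx (by rw [hπF]; exact hπs)
  have h3' := h3
  unfold sf79_OnBr at h3'
  push_neg at h3'
  obtain ⟨a₃, ha₃V, ha₃n⟩ := h3'
  have hsc₂ : (sc : ↥(modularFunctionFieldFullC K (M' * q * q)))⁻¹ ∈ V₂ := by
    by_contra hcon
    obtain ⟨-, -, hmaxs, -, -⟩ :=
      ob72_ram (K := K) (M' * q) q hq (dvd_mul_left q M') hπq V₂ hV₂ hπ₂ hne s hs
    have h := hmaxs _ (hB₂ _ sc.2) hcon
    have e := mul_comm (s⁻¹) (sc : ↥(modularFunctionFieldFullC K (M' * q * q)))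
    rw [e] at h
    exact hsc (hmid sc h)
  have hjn := sqi75_j_unit_at (R := R) (K := K) M' q hq hM' h23 hπq B hBint V₂ V₃ hV₂ hB₁ hB₂
    hB₃ hsat n hOn₂ sc hsc hscj hsc₁ hsc₂ a₃ ha₃n ha₃V
  intro hb'
  apply hjn
  have e : s' * (⟨_, hscj⟩ : B) = sc * b' := by
    apply Subtype.ext
    simp only [Subalgebra.coe_mul]
    rw [← hsj]
    ring
  have h : s' * (⟨_, hscj⟩ : B) ∈ n := by
    rw [e]
    exact n.mul_mem_left _ hb'
  exact (hn.mem_or_mem h).resolve_left hs'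

include hq hM' in
/-- **`hreg`, chart-generic**: the middle branch is principal at every prime `n` of `B` on the
middle branch only at which `j` is regular. -/
theorem c2f11_hreg_gen (hunit : ∀ m : ℕ, Nat.Coprime m q → IsUnit (m : R))
    (h2 : q ≠ 2 → 2 ∣ M') (h3M : q ≠ 3 → 3 ∣ M') (hπq : Irreducible ((q : ℕ) : R))
    (V₂ V₃ : ValuationSubring ↥(modularFunctionFieldFullC K (M' * q * q)))
    (hV₂ : ∀ c ∈ cm85_Vinf (K := K) (M' * q) hπq, al97L_alpha K (M' * q) q c ∈ V₂)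
    (hπ₂ : (algebraMap K ↥(modularFunctionFieldFullC K (M' * q * q))
      (algebraMap R K ((q : ℕ) : R)))⁻¹ ∉ V₂)
    (hne : cm85_Vinf (K := K) (M' * q * q) hπq ≠ V₂)
    (s : ↥(modularFunctionFieldFullC K (M' * q * q)))
    (hs : V₂.valuation s ^ (q - 1) =
      V₂.valuation (algebraMap K ↥(modularFunctionFieldFullC K (M' * q * q))
        (algebraMap R K ((q : ℕ) : R))))
    (B : Subalgebra R ↥(modularFunctionFieldFullC K (M' * q * q)))
    (hBint : ∀ z : ↥(modularFunctionFieldFullC K (M' * q * q)), IsIntegral B z → z ∈ B)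
    (hB₁ : ∀ y ∈ B, y ∈ (cm85_Vinf (K := K) (M' * q * q) hπq).toSubring)
    (hB₂ : ∀ y ∈ B, y ∈ V₂.toSubring) (hB₃ : ∀ y ∈ B, y ∈ V₃.toSubring)
    (hsat : ∀ y ∈ B,
      (algebraMap R ↥(modularFunctionFieldFullC K (M' * q * q)) ((q : ℕ) : R))⁻¹ * y ∈
        (cm85_Vinf (K := K) (M' * q * q) hπq).toSubring →
      (algebraMap R ↥(modularFunctionFieldFullC K (M' * q * q)) ((q : ℕ) : R))⁻¹ * y ∈
        V₂.toSubring →
      (algebraMap R ↥(modularFunctionFieldFullC K (M' * q * q)) ((q : ℕ) : R))⁻¹ * y ∈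
        V₃.toSubring →
      (algebraMap R ↥(modularFunctionFieldFullC K (M' * q * q)) ((q : ℕ) : R))⁻¹ * y ∈ B)
    (n : Ideal B) [hn : n.IsPrime]
    (hmid : tl71_OnMid s B V₂.toSubring n)
    (hπn : algebraMap R B ((q : ℕ) : R) ∈ n)
    (h1 : ¬ sf79_OnBr ((q : ℕ) : R) B (cm85_Vinf (K := K) (M' * q * q) hπq).toSubring n)
    (h3 : ¬ sf79_OnBr ((q : ℕ) : R) B V₃.toSubring n)
    (hreg : ∃ s' b' : B, s' ∉ n ∧
      (s' : ↥(modularFunctionFieldFullC K (M' * q * q))) * rm90_j K (M' * q * q) =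
        (b' : ↥(modularFunctionFieldFullC K (M' * q * q))))
    (sc : B) (hsc : sc ∉ n)
    (hscj : (sc : ↥(modularFunctionFieldFullC K (M' * q * q))) * rm90_j K (M' * q * q) ∈ B)
    (hsc₁ : (sc : ↥(modularFunctionFieldFullC K (M' * q * q)))⁻¹ ∈
      cm85_Vinf (K := K) (M' * q * q) hπq) :
    mc25_MidPrinAt s B V₂.toSubring n := by
  obtain ⟨s', b', hs', hsj⟩ := hreg
  have hqn : ((q : ℕ) : B) ∈ n := by
    rw [← map_natCast (algebraMap R B)]
    exact hπn
  by_cases hq2 : q = 2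
  · -- `q = 2`: the coordinate `h₃`
    have hq3 : q ≠ 3 := by omega
    have hb' : b' ∉ n := c2f11_j_unit (R := R) (K := K) M' q hq hM' (Or.inl hq2) hπq V₂ V₃ hV₂
      hπ₂ hne s hs B hBint hB₁ hB₂ hB₃ hsat n hmid h3 s' b' hs' hsj sc hsc hscj hsc₁
    have h3n : (3 : B) ∉ n := by
      have := c2f11_natCast_not_mem B n 3
        (hunit 3 ((Nat.coprime_primes Nat.prime_three hq).mpr (Ne.symm hq3)))
      simpa using this
    refine c2f11_prin_h3 (R := R) (K := K) M' q hq hM' hπq hunit (h3M hq3) hq3 V₂ V₃ hV₂ hπ₂ hne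
      s hs B hBint hB₁ hB₂ hB₃ hsat n hmid h1 h3 s' b' hs' hsj sc hsc hscj hsc₁ ?_
    intro b t hb ht hmem
    have hrel := c2f11_rel3 (R := R) (K := K) M' q (h3M hq3) B s' b' b t hsj ht
    have hY := c2f11_unit3 n s' b' b t hs' hb h3n hrel
    exact hb' (c2f11_e3 n s' b' b t hb hY hrel hmem)
  · have h2n : (2 : B) ∉ n := by
      have := c2f11_natCast_not_mem B n 2
        (hunit 2 ((Nat.coprime_primes Nat.prime_two hq).mpr (Ne.symm hq2)))
      simpa using this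
    by_cases hq3 : q = 3
    · -- `q = 3`: the coordinate `h₂`
      have hb' : b' ∉ n := c2f11_j_unit (R := R) (K := K) M' q hq hM' (Or.inr hq3) hπq V₂ V₃ hV₂
        hπ₂ hne s hs B hBint hB₁ hB₂ hB₃ hsat n hmid h3 s' b' hs' hsj sc hsc hscj hsc₁
      refine c2f11_prin_h2 (R := R) (K := K) M' q hq hM' hπq hunit (h2 hq2) hq2 V₂ V₃ hV₂ hπ₂ hne
        s hs B hBint hB₁ hB₂ hB₃ hsat n hmid h1 h3 s' b' hs' hsj sc hsc hscj hsc₁ ?_
      intro b t hb ht hmem
      have hrel := c2f11_rel2 (R := R) (K := K) M' q (h2 hq2) B s' b' b t hsj ht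
      have hX := c2f11_unit2 n s' b' b t hs' hb h2n hrel
      have h1728 := c2f11_e2 n s' b' b t hb hX hrel hmem
      have h3n : (3 : B) ∈ n := by
        have e : ((q : ℕ) : B) = ((3 : ℕ) : B) := congrArg _ hq3
        rw [e] at hqn
        simpa using hqn
      apply hb'
      have e : b' = (b' - 1728 * s') + 3 * (576 * s') := by ring
      rw [e]
      exact n.add_mem h1728 (n.mul_mem_right _ h3n)
    · -- `q ≥ 5`
      have h3n : (3 : B) ∉ n := by
        have := c2f11_natCast_not_mem B n 3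
          (hunit 3 ((Nat.coprime_primes Nat.prime_three hq).mpr (Ne.symm hq3)))
        simpa using this
      by_cases hE2 : ∀ b t : B, b ∉ n →
          (t : ↥(modularFunctionFieldFullC K (M' * q * q))) =
            (b : ↥(modularFunctionFieldFullC K (M' * q * q))) *
              al97L_alpha K (M' * q) q (al97L_alpha K M' q (pk85_h2 K M' (h2 hq2))) →
          t + 64 * b ∉ n
      · exact c2f11_prin_h2 (R := R) (K := K) M' q hq hM' hπq hunit (h2 hq2) hq2 V₂ V₃ hV₂ hπ₂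
          hne s hs B hBint hB₁ hB₂ hB₃ hsat n hmid h1 h3 s' b' hs' hsj sc hsc hscj hsc₁ hE2
      · push_neg at hE2
        obtain ⟨b₂, t₂, hb₂, ht₂, hmem₂⟩ := hE2
        have hrel₂ := c2f11_rel2 (R := R) (K := K) M' q (h2 hq2) B s' b' b₂ t₂ hsj ht₂
        have hX₂ := c2f11_unit2 n s' b' b₂ t₂ hs' hb₂ h2n hrel₂
        have h1728 := c2f11_e2 n s' b' b₂ t₂ hb₂ hX₂ hrel₂ hmem₂
        refine c2f11_prin_h3 (R := R) (K := K) M' q hq hM' hπq hunit (h3M hq3) hq3 V₂ V₃ hV₂ hπ₂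
          hne s hs B hBint hB₁ hB₂ hB₃ hsat n hmid h1 h3 s' b' hs' hsj sc hsc hscj hsc₁ ?_
        intro b t hb ht hmem
        have hrel := c2f11_rel3 (R := R) (K := K) M' q (h3M hq3) B s' b' b t hsj ht
        have hY := c2f11_unit3 n s' b' b t hs' hb h3n hrel
        have hb'n := c2f11_e3 n s' b' b t hb hY hrel hmem
        have h4 : (1728 : B) * s' ∈ n := by
          have e : (1728 : B) * s' = b' - (b' - 1728 * s') := by ring
          rw [e]
          exact n.sub_mem hb'n h1728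
        have h5 : (1728 : B) ∈ n := (hn.mem_or_mem h4).resolve_right hs'
        have h6 : (2 : B) ^ 6 * (3 : B) ^ 3 ∈ n := by
          have e : (2 : B) ^ 6 * (3 : B) ^ 3 = 1728 := by norm_num
          rw [e]
          exact h5
        rcases hn.mem_or_mem h6 with h | h
        · exact h2n (hn.mem_of_pow_mem _ h)
        · exact h3n (hn.mem_of_pow_mem _ h)

end c2f11_canon

end Fermat.Agent.S36
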