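import Mathlib
import Fermat.Agent.S34.DeltaQuot56
import Fermat.Agent.S36.C2Chart24
import Fermat.Agent.S36.TripleLoc71

/-!
S36 lab (helper24), row C-C2 / C2-MID-INST: the middle component `C₂` at its one-branch closed
points, bound to the integer modular equation with its Kronecker congruence
(`kc87_exists` / `mps78_modEq`: `Φ = (X - Y^q) (X^q - Y) + q Ψ`) and to the chart lemmas
`tl71_mid_principal`, `tl71_max_two`, `tl71_maximalIdeal_eq`.

* `c2c24_psi`, `c2c24_psi_eval`, `c2c24_psi_derivative` : `Ψ(J, Y)` as a polynomial in `Y`.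
* `c2c24_kron` : in a domain `O` (application: `O = V₂`), for `x1 J x3` with
  `Φ(J, x1) = 0 = Φ(J, x3)` (in the application `(x1, J, x3) = (j(dτ), j(dqτ), j(dq²τ))`,
  `d ∣ M''`), `γ_i = (J - x_i^q)/q ∈ O`, `ε = J^q - x1` a unit of `O`, `q ∈ s O` for
  `s = x3 - x1`, and `w ∈ O` with `∂Φ/∂Y (J, x1) = - q w ∂Φ/∂X (J, x1)` (`B = - q A w`):
  `ϑ := s^(q-1)/q ∈ O` and `ϑ + w ∈ s O`.
* `c2c24_kron_field` : the same for a subring `V₂` of a field.
* `c2c24_maximalIdeal_eq` : chart form, with denominators: at a prime `n` of the saturated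
  chart `B` through which only `C₂` passes, if `w` has no zero at `n` and the branch `C₂` is
  regular at `n` with parameter `t₀`, then the maximal ideal of `B_n` is `(t₀, s)`
  (the hypothesis `hmax` of `lpa9_locPrin_at`).
-/

set_option autoImplicit false

namespace Fermat.Agent.S36

open Polynomial Fermat.Agent.S34

section psi

variable {O : Type*} [CommRing O]

/-- `Ψ(J, Y)` as a polynomial in `Y` over `O`. -/
noncomputable def c2c24_psi (J : O) (Ψ : Polynomial (Polynomial ℤ)) : Polynomial O :=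
  Ψ.eval₂ (Polynomial.mapRingHom (Int.castRingHom O)) (Polynomial.C J)

theorem c2c24_psi_eval (J y : O) (Ψ : Polynomial (Polynomial ℤ)) :
    (c2c24_psi J Ψ).eval y = dq56_ev J y Ψ := by
  unfold c2c24_psi dq56_ev
  have h := Polynomial.hom_eval₂ Ψ (Polynomial.mapRingHom (Int.castRingHom O))
    (Polynomial.evalRingHom y) (Polynomial.C J)
  rw [Polynomial.coe_evalRingHom] at h
  rw [h, Polynomial.eval_C]
  congr 1
  refine RingHom.ext fun p => ?_
  simp [Polynomial.eval_map]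

theorem c2c24_psi_add (J : O) (P Q : Polynomial (Polynomial ℤ)) :
    c2c24_psi J (P + Q) = c2c24_psi J P + c2c24_psi J Q := by
  unfold c2c24_psi
  exact Polynomial.eval₂_add _ _

theorem c2c24_psi_monomial (J : O) (n : ℕ) (P : Polynomial ℤ) :
    c2c24_psi J (monomial n P) = P.map (Int.castRingHom O) * Polynomial.C J ^ n := by
  unfold c2c24_psi
  rw [Polynomial.eval₂_monomial, Polynomial.coe_mapRingHom]

theorem c2c24_psi_derivative (J : O) (Ψ : Polynomial (Polynomial ℤ)) :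
    derivative (c2c24_psi J Ψ) = c2c24_psi J (dq56_dY Ψ) := by
  induction Ψ using Polynomial.induction_on' with
  | add P Q hP hQ =>
    rw [c2c24_psi_add, derivative_add, hP, hQ, dq56_dY_add, c2c24_psi_add]
  | monomial n P =>
    rw [dq56_dY_monomial, c2c24_psi_monomial, c2c24_psi_monomial, derivative_mul,
      Polynomial.derivative_map, ← Polynomial.C_pow, derivative_C, mul_zero, add_zero]

end psi

/-- **Kronecker form.**  `ϑ := s^(q-1)/q` lies in `O` and `ϑ + w ∈ s O`. -/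
theorem c2c24_kron {O : Type*} [CommRing O] [IsDomain O] {q : ℕ} (hq : q.Prime)
    (hq0 : (q : O) ≠ 0) (Φ Ψ : Polynomial (Polynomial ℤ))
    (hΦΨ : Φ = (X - C (X ^ q)) * (X ^ q - C X) + C (C (q : ℤ)) * Ψ)
    (x1 J x3 γ1 γ3 w e' bq : O) (hs0 : x3 ≠ x1)
    (h1 : J = x1 ^ q + q * γ1) (h3 : J = x3 ^ q + q * γ3)
    (hΦ1 : dq56_ev J x1 Φ = 0) (hΦ3 : dq56_ev J x3 Φ = 0)
    (hε : (J ^ q - x1) * e' = 1)
    (hw : dq56_ev J x1 (dq56_dY Φ) = -(q * w * dq56_ev J x1 (derivative Φ)))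
    (hqs : (q : O) = (x3 - x1) * bq) :
    ∃ ϑ y : O, (q : O) * ϑ = (x3 - x1) ^ (q - 1) ∧ ϑ + w = (x3 - x1) * y := by
  have hG : c2c24_psi J Φ = (C J - X ^ q) * (C J ^ q - X) + C (q : O) * c2c24_psi J Ψ := by
    rw [hΦΨ]
    unfold c2c24_psi
    simp [Polynomial.eval₂_add, Polynomial.eval₂_mul, Polynomial.eval₂_sub, Polynomial.eval₂_pow]
  have ev : ∀ y : O, (J - y ^ q) * (J ^ q - y) + q * (c2c24_psi J Ψ).eval y = dq56_ev J y Φ := by
    intro y
    rw [← c2c24_psi_eval, hG]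
    simp
  have r1 : (J ^ q - x1) * γ1 = - (c2c24_psi J Ψ).eval x1 := by
    have h := ev x1
    rw [hΦ1] at h
    have h0 : (q : O) * ((J ^ q - x1) * γ1 + (c2c24_psi J Ψ).eval x1) = 0 := by
      linear_combination h - (J ^ q - x1) * h1
    have := (mul_eq_zero.mp h0).resolve_left hq0
    linear_combination this
  have r3 : (J ^ q - x3) * γ3 = - (c2c24_psi J Ψ).eval x3 := by
    have h := ev x3
    rw [hΦ3] at h
    have h0 : (q : O) * ((J ^ q - x3) * γ3 + (c2c24_psi J Ψ).eval x3) = 0 := by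
      linear_combination h - (J ^ q - x3) * h3
    have := (mul_eq_zero.mp h0).resolve_left hq0
    linear_combination this
  -- the two partial derivatives
  have hB : dq56_ev J x1 (dq56_dY Φ) =
      -((q : O) * x1 ^ (q - 1)) * (J ^ q - x1) - (J - x1 ^ q)
        + q * (derivative (c2c24_psi J Ψ)).eval x1 := by
    rw [← c2c24_psi_eval, ← c2c24_psi_derivative, hG]
    have e1 : derivative (C J ^ q : Polynomial O) = 0 := by
      rw [← Polynomial.C_pow, derivative_C]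
    simp [Polynomial.derivative_X_pow, e1]
    ring
  have hA : dq56_ev J x1 (derivative Φ) =
      (J ^ q - x1) + (J - x1 ^ q) * ((q : O) * J ^ (q - 1))
        + q * dq56_ev J x1 (derivative Ψ) := by
    rw [hΦΨ]
    have e1 : derivative (C (X : Polynomial ℤ) ^ q : Polynomial (Polynomial ℤ)) = 0 := by
      rw [← Polynomial.C_pow, derivative_C]
    unfold dq56_ev
    simp [Polynomial.eval₂_add, Polynomial.eval₂_mul, Polynomial.eval₂_sub, Polynomial.eval₂_pow,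
      Polynomial.derivative_X_pow, e1]
  rw [hB, hA] at hw
  have hrel : (derivative (c2c24_psi J Ψ)).eval x1 - γ1 - (J ^ q - x1) * x1 ^ (q - 1)
      + w * (J ^ q - x1) =
      (x3 - x1) * (-(bq * w * ((q : O) * γ1 * J ^ (q - 1) + dq56_ev J x1 (derivative Ψ)))) := by
    have h0 : (q : O) * ((derivative (c2c24_psi J Ψ)).eval x1 - γ1 - (J ^ q - x1) * x1 ^ (q - 1)
        + w * (J ^ q - x1)
        + w * q * ((q : O) * γ1 * J ^ (q - 1) + dq56_ev J x1 (derivative Ψ))) = 0 := by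
      linear_combination hw + (1 - (q : O) ^ 2 * w * J ^ (q - 1)) * h1
    have := (mul_eq_zero.mp h0).resolve_left hq0
    linear_combination this
      - (w * ((q : O) * γ1 * J ^ (q - 1) + dq56_ev J x1 (derivative Ψ))) * hqs
  exact c2b24_generic hq (c2c24_psi J Ψ) x1 J x3 γ1 γ3 w e' hs0 h1 h3 r1 r3 hε ⟨_, hrel⟩

/-- The same for a subring `V₂` of a field `F`. -/
theorem c2c24_kron_field {F : Type*} [Field F] (V₂ : Subring F) {q : ℕ} (hq : q.Prime)
    (hq0 : (q : F) ≠ 0) (Φ Ψ : Polynomial (Polynomial ℤ))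
    (hΦΨ : Φ = (X - C (X ^ q)) * (X ^ q - C X) + C (C (q : ℤ)) * Ψ)
    (x1 J x3 γ1 γ3 w e' : F)
    (hx1 : x1 ∈ V₂) (hJ : J ∈ V₂) (hx3 : x3 ∈ V₂) (hγ1 : γ1 ∈ V₂) (hγ3 : γ3 ∈ V₂)
    (hw₂ : w ∈ V₂) (he' : e' ∈ V₂) (hs0 : x3 ≠ x1)
    (h1 : J = x1 ^ q + q * γ1) (h3 : J = x3 ^ q + q * γ3)
    (hΦ1 : dq56_ev J x1 Φ = 0) (hΦ3 : dq56_ev J x3 Φ = 0)
    (hε : (J ^ q - x1) * e' = 1)
    (hw : dq56_ev J x1 (dq56_dY Φ) = -(q * w * dq56_ev J x1 (derivative Φ)))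
    (hqs : (q : F) * (x3 - x1)⁻¹ ∈ V₂) :
    ∃ ϑ : F, ϑ ∈ V₂ ∧ (q : F) * ϑ = (x3 - x1) ^ (q - 1) ∧ (ϑ + w) * (x3 - x1)⁻¹ ∈ V₂ := by
  have hsne : x3 - x1 ≠ 0 := sub_ne_zero.mpr hs0
  have hinj : Function.Injective V₂.subtype := Subtype.val_injective
  have key := c2c24_kron (O := V₂) hq
    (fun h => hq0 (by simpa using congrArg V₂.subtype h)) Φ Ψ hΦΨ
    ⟨x1, hx1⟩ ⟨J, hJ⟩ ⟨x3, hx3⟩ ⟨γ1, hγ1⟩ ⟨γ3, hγ3⟩ ⟨w, hw₂⟩ ⟨e', he'⟩
    ⟨(q : F) * (x3 - x1)⁻¹, hqs⟩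
    (fun h => hs0 (congrArg Subtype.val h))
    (Subtype.ext (by simpa using h1)) (Subtype.ext (by simpa using h3))
    (hinj (by rw [dq56_ev_map, map_zero]; exact hΦ1))
    (hinj (by rw [dq56_ev_map, map_zero]; exact hΦ3))
    (Subtype.ext (by simpa using hε))
    (hinj (by
      rw [dq56_ev_map, map_neg, map_mul, map_mul, dq56_ev_map, map_natCast]
      exact hw))
    (Subtype.ext (by
      show (q : F) = (x3 - x1) * ((q : F) * (x3 - x1)⁻¹)
      field_simp))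
  obtain ⟨ϑ, y, e1, e2⟩ := key
  refine ⟨ϑ, ϑ.2, ?_, ?_⟩
  · have := congrArg V₂.subtype e1
    simpa using this
  · have h2 : (ϑ : F) + w = (x3 - x1) * (y : F) := by
      have := congrArg V₂.subtype e2
      simpa using this
    rw [h2]
    have : (x3 - x1) * (y : F) * (x3 - x1)⁻¹ = (y : F) := by field_simp
    rw [this]
    exact y.2

/-- **Chart form with denominators**: the maximal ideal of `B_n` at a `C₂`-only closed point is
`(t₀, s)`.  `s = b * sF` with `b ∉ n` (`b` clears the denominators of `sF = x3 - x1`),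
`ϑ = sF^(q-1)/q ∈ V₂`, `ϑ + w ∈ sF V₂`, `w` without zero at `n`, `s` a unit of `V₁`, `V₃`,
`C₂` through `n` (`hp2n`), `C₁`, `C₃` not through `n` (separator `a`), and the branch `C₂`
regular at `n` with parameter `t₀` (`hbr`). -/
theorem c2c24_maximalIdeal_eq {R F : Type*} [CommRing R] [Field F] [Algebra R F]
    (π u u' : R) (huu' : u * u' = 1) (q : ℕ) (hq : q.Prime) (hqπ : (q : R) = u * π)
    (B : Subalgebra R F) (V₁ V₂ V₃ : Subring F)
    (hB₁ : ∀ x ∈ B, x ∈ V₁) (hB₂ : ∀ x ∈ B, x ∈ V₂) (hB₃ : ∀ x ∈ B, x ∈ V₃)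
    (hsat : ∀ x ∈ B, (algebraMap R F π)⁻¹ * x ∈ V₁ → (algebraMap R F π)⁻¹ * x ∈ V₂ →
      (algebraMap R F π)⁻¹ * x ∈ V₃ → (algebraMap R F π)⁻¹ * x ∈ B)
    (hπ0 : algebraMap R F π ≠ 0)
    (n : Ideal B) [hn : n.IsPrime]
    (s b : B) (sF ϑ w : F) (hsb : (s : F) = (b : F) * sF) (hbn : b ∉ n)
    (hϑq : (q : F) * ϑ = sF ^ (q - 1)) (hϑ₂ : ϑ ∈ V₂) (hcong : (ϑ + w) * sF⁻¹ ∈ V₂)
    (hs₁ : (s : F)⁻¹ ∈ V₁) (hs₃ : (s : F)⁻¹ ∈ V₃)
    (hp2n : ∀ x : B, (x : F) * (s : F)⁻¹ ∈ V₂ → x ∈ n)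
    (a : B) (ha : a ∉ n) (ha₁ : (algebraMap R F π)⁻¹ * (a : F) ∈ V₁)
    (ha₃ : (algebraMap R F π)⁻¹ * (a : F) ∈ V₃)
    (aw tw : B) (haw : aw ∉ n) (hw : w * (tw : F) = (aw : F))
    (t₀ : B) (ht₀ : t₀ ∈ n)
    (hbr : ∀ x ∈ n, ∃ s' : B, s' ∉ n ∧ ∃ a' : B,
      ((s' * x - a' * t₀ : B) : F) * (s : F)⁻¹ ∈ V₂) :
    IsLocalRing.maximalIdeal (Localization.AtPrime n)
      = Ideal.span {algebraMap B (Localization.AtPrime n) t₀,
          algebraMap B (Localization.AtPrime n) s} := by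
  have hq2 := hq.two_le
  have hb0 : (b : F) ≠ 0 := by
    intro h
    apply hbn
    have : b = 0 := Subtype.ext h
    rw [this]
    exact n.zero_mem
  have hqe : q - 1 = (q - 2) + 1 := by omega
  -- the divisibility `s^(q-1) ∣ π` at `n`
  obtain ⟨c, t, htn, hsc⟩ := c2b24_mid_dvd π u u' huu' q hqπ B V₁ V₂ V₃ hB₁ hB₂ hB₃ hsat hπ0 n
    s ((b : F) ^ (q - 1) * ϑ) ((b : F) ^ (q - 1) * w)
    (by rw [hsb, mul_pow, ← hϑq]; ring)
    (V₂.mul_mem (V₂.pow_mem (hB₂ _ b.2) _) hϑ₂)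
    (by
      have : ((b : F) ^ (q - 1) * ϑ + (b : F) ^ (q - 1) * w) * (s : F)⁻¹
          = (b : F) ^ (q - 2) * ((ϑ + w) * sF⁻¹) := by
        rw [hsb, hqe, pow_succ, mul_inv]
        field_simp
      rw [this]
      exact V₂.mul_mem (V₂.pow_mem (hB₂ _ b.2) _) hcong)
    hp2n a ha ha₁ ha₃ (b ^ (q - 1) * aw) tw
    (fun h => (hn.mem_or_mem h).elim (fun h' => hbn (hn.mem_of_pow_mem _ h')) haw)
    (by push_cast; rw [← hw]; ring)
  -- `p₂ B_n = s B_n`
  have hprin : ∀ y : B, (y : F) * (s : F)⁻¹ ∈ V₂ → ∃ b' : B, t * y = b' * s := by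
    intro y hy
    exact TripleLoc71.tl71_mid_principal π B V₁ V₂ V₃ hB₁ hB₂ hB₃ hsat hπ0 s c t (q - 2)
      (by rw [← hqe]; exact hsc) hs₁ hs₃ y hy
  have hgen := TripleLoc71.tl71_max_two n (fun y : B => (y : F) * (s : F)⁻¹ ∈ V₂) t₀ s t htn
    hbr hprin
  have hsn : s ∈ n := by
    apply hp2n
    by_cases h0 : (s : F) = 0
    · rw [h0, zero_mul]; exact V₂.zero_mem
    · rw [mul_inv_cancel₀ h0]; exact V₂.one_mem
  exact TripleLoc71.tl71_maximalIdeal_eq n t₀ s ht₀ hsn hgen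

end Fermat.Agent.S36
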