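import Mathlib
import Fermat.Agent.S36.C2Kron24
import Fermat.Agent.S36.C2Coord24

/-!
S36 lab (helper24), row C-C2 / C2-MID-INST: valuation forms, for ANY valuation subring `V₂`
with the parameters of `ob72_ram` (helper72) / `v2g64_exists_of_datum` (helper64).

* `c2e24_kron_val` : from `v₂(x3 - x1)^(q-1) = v₂(q)`, `q` a nonunit of `V₂`, and the level-`q`
  data in `V₂` (`x1, J, γ1, w, ε⁻¹`; no hypothesis on `x3`, `γ3`): `ϑ = s^(q-1)/q ∈ V₂`,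
  `ϑ + w ∈ s V₂`, `q ∈ s V₂`, `x3 ∈ V₂`.
* `c2e24_coord2_val`, `c2e24_coord3_val` : the transport to the Hauptmodul `h₂` / `h₃`,
  with the ONE extra input `v₂(t3 - t1) < 1` (`h(q²τ) ≡ h(τ)` in the residue field of `V₂`).
-/

set_option autoImplicit false

namespace Fermat.Agent.S36

open Polynomial Fermat.Agent.S34

section val

variable {F : Type*} [Field F] (V : ValuationSubring F)

theorem c2e24_val_one {x : F} (hx : x ∈ V) (hx' : x⁻¹ ∈ V) (h0 : x ≠ 0) :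
    V.valuation x = 1 := by
  have h1 : V.valuation x ≤ 1 := (V.valuation_le_one_iff x).mpr hx
  have h2 : V.valuation x⁻¹ ≤ 1 := (V.valuation_le_one_iff _).mpr hx'
  rw [map_inv₀] at h2
  have hv0 : V.valuation x ≠ 0 := (V.valuation.ne_zero_iff).mpr h0
  have h3 : 1 ≤ V.valuation x := by
    have := (inv_le_one₀ (zero_lt_iff.mpr hv0)).mp h2
    exact this
  exact le_antisymm h1 h3

theorem c2e24_inv_mem {x : F} (h : V.valuation x = 1) : x⁻¹ ∈ V := by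
  rw [← V.valuation_le_one_iff, map_inv₀, h, inv_one]

theorem c2e24_mem {x : F} (h : V.valuation x = 1) : x ∈ V := by
  rw [← V.valuation_le_one_iff, h]

theorem c2e24_unit_add {x y : F} (hx : V.valuation x = 1) (hy : V.valuation y < 1) :
    V.valuation (x + y) = 1 := by
  have h := V.valuation.map_add_of_distinct_val (x := x) (y := y)
    (by rw [hx]; exact (ne_of_lt hy).symm)
  rw [h, hx]
  exact max_eq_left hy.le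

theorem c2e24_mem_of_lt {y : F} (hy : V.valuation y < 1) : y ∈ V :=
  (V.valuation_le_one_iff y).mp hy.le

end val

/-- **The `j`-identity for any `V₂` with the parameters of `ob72_ram`.** -/
theorem c2e24_kron_val {F : Type*} [Field F] (V₂ : ValuationSubring F) {q : ℕ} (hq : q.Prime)
    (hq0 : (q : F) ≠ 0) (Φ Ψ : Polynomial (Polynomial ℤ))
    (hΦΨ : Φ = (X - C (X ^ q)) * (X ^ q - C X) + C (C (q : ℤ)) * Ψ)
    (x1 J x3 γ1 w e' : F)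
    (hx1 : x1 ∈ V₂) (hJ : J ∈ V₂) (hγ1 : γ1 ∈ V₂) (hw₂ : w ∈ V₂) (he' : e' ∈ V₂)
    (h1 : J = x1 ^ q + q * γ1)
    (hΦ1 : dq56_ev J x1 Φ = 0) (hΦ3 : dq56_ev J x3 Φ = 0)
    (hε : (J ^ q - x1) * e' = 1)
    (hw : dq56_ev J x1 (dq56_dY Φ) = -(q * w * dq56_ev J x1 (derivative Φ)))
    (hs : V₂.valuation (x3 - x1) ^ (q - 1) = V₂.valuation (q : F))
    (hqV : V₂.valuation (q : F) < 1) :
    x3 ∈ V₂ ∧ (q : F) * (x3 - x1)⁻¹ ∈ V₂ ∧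
    ∃ ϑ : F, ϑ ∈ V₂ ∧ ϑ⁻¹ ∈ V₂ ∧ (q : F) * ϑ = (x3 - x1) ^ (q - 1) ∧
      (ϑ + w) * (x3 - x1)⁻¹ ∈ V₂ := by
  have hq2 := hq.two_le
  obtain ⟨m, hm⟩ : ∃ m, q - 1 = m + 1 := ⟨q - 2, by omega⟩
  have hvq0 : V₂.valuation (q : F) ≠ 0 := (V₂.valuation.ne_zero_iff).mpr hq0
  -- `v(s) < 1`, `s ≠ 0`
  have hsne : x3 - x1 ≠ 0 := by
    intro h0
    rw [h0, map_zero, hm, zero_pow (Nat.succ_ne_zero m)] at hs
    exact hvq0 hs.symm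
  have hs0 : x3 ≠ x1 := fun h => hsne (sub_eq_zero.mpr h)
  have hvs : V₂.valuation (x3 - x1) < 1 := by
    by_contra hcon
    have h1' : 1 ≤ V₂.valuation (x3 - x1) := not_lt.mp hcon
    have : 1 ≤ V₂.valuation (x3 - x1) ^ (q - 1) := one_le_pow₀ h1'
    rw [hs] at this
    exact (not_le.mpr hqV) this
  have hsV : x3 - x1 ∈ V₂ := c2e24_mem_of_lt V₂ hvs
  have hx3 : x3 ∈ V₂ := by
    have := add_mem hx1 hsV
    rwa [add_sub_cancel] at this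
  -- `q / s ∈ V₂`
  have hqs : (q : F) * (x3 - x1)⁻¹ ∈ V₂ := by
    rw [← V₂.valuation_le_one_iff, map_mul, map_inv₀, ← hs, hm, pow_succ, mul_assoc,
      mul_inv_cancel₀ ((V₂.valuation.ne_zero_iff).mpr hsne), mul_one]
    exact pow_le_one₀ zero_le hvs.le
  -- `ϑ₀ = s^(q-1)/q` is a unit
  have hϑ1 : V₂.valuation ((x3 - x1) ^ (q - 1) * (q : F)⁻¹) = 1 := by
    rw [map_mul, map_pow, hs, map_inv₀, mul_inv_cancel₀ hvq0]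
  have hϑV : (x3 - x1) ^ (q - 1) * (q : F)⁻¹ ∈ V₂ := c2e24_mem V₂ hϑ1
  -- `γ3 ∈ V₂`
  obtain ⟨r, hr⟩ := c2a24_binom (R := V₂) hq ⟨x1, hx1⟩ ⟨x3 - x1, hsV⟩
  have hr' : (x1 + (x3 - x1)) ^ q = x1 ^ q + (x3 - x1) ^ q
      + q * (x3 - x1) * (x1 ^ (q - 1) + (x3 - x1) * (r : F)) := by
    have := congrArg V₂.subtype hr
    simpa using this
  rw [add_sub_cancel] at hr'
  have hpow : (x3 - x1) ^ q = (x3 - x1) * (x3 - x1) ^ (q - 1) := by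
    rw [← pow_succ']
    congr 1
    omega
  have hγ3 : γ1 - (x3 - x1) * ((x3 - x1) ^ (q - 1) * (q : F)⁻¹)
      - (x3 - x1) * (x1 ^ (q - 1) + (x3 - x1) * (r : F)) ∈ V₂ :=
    sub_mem (sub_mem hγ1 (mul_mem hsV hϑV))
      (mul_mem hsV (add_mem (pow_mem hx1 _) (mul_mem hsV r.2)))
  have h3 : J = x3 ^ q + q * (γ1 - (x3 - x1) * ((x3 - x1) ^ (q - 1) * (q : F)⁻¹)
      - (x3 - x1) * (x1 ^ (q - 1) + (x3 - x1) * (r : F))) := by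
    have hqq : (q : F) * (q : F)⁻¹ = 1 := mul_inv_cancel₀ hq0
    rw [hr', hpow, h1]
    linear_combination ((x3 - x1) * (x3 - x1) ^ (q - 1)) * hqq
  obtain ⟨ϑ, hϑ, hϑq, hcong⟩ := c2c24_kron_field V₂.toSubring hq hq0 Φ Ψ hΦΨ x1 J x3 γ1 _ w e'
    hx1 hJ hx3 hγ1 hγ3 hw₂ he' hs0 h1 h3 hΦ1 hΦ3 hε hw hqs
  refine ⟨hx3, hqs, ϑ, hϑ, ?_, hϑq, hcong⟩
  have hϑeq : ϑ = (x3 - x1) ^ (q - 1) * (q : F)⁻¹ := by
    rw [← hϑq]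
    field_simp
  rw [hϑeq]
  exact c2e24_inv_mem V₂ hϑ1

/-- **Transport to `h₂` for any `V₂`.**  `t1 = h(τ)`, `t2 = h(qτ)`, `t3 = h(q²τ)`; the extra
input is `v₂(t3 - t1) < 1`. -/
theorem c2e24_coord2_val {F : Type*} [Field F] (V₂ : ValuationSubring F) {q : ℕ} (hq : q.Prime)
    (t1 t2 t3 x1 x3 g ϑj wj wt : F)
    (ht1 : t1 ∈ V₂) (ht1' : t1⁻¹ ∈ V₂) (ht10 : t1 ≠ 0) (ht2 : t2 ∈ V₂) (hg : g ∈ V₂)
    (ht2g : t2 = t1 ^ q + q * g)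
    (hx1 : x1 * t1 ^ 2 = (t1 + 256) ^ 3) (hx3 : x3 * t3 ^ 2 = (t3 + 256) ^ 3)
    (hΔ : V₂.valuation (t3 - t1) < 1)
    (hD1 : V₂.valuation ((t1 + 256) ^ 2 * (t1 - 512)) = 1)
    (hD2 : V₂.valuation ((t2 + 256) ^ 2 * (t2 - 512)) = 1)
    (hϑj : ϑj ∈ V₂) (hwj : wj ∈ V₂) (hx31 : x3 ≠ x1)
    (hϑ : (q : F) * ϑj = (x3 - x1) ^ (q - 1))
    (hy : (ϑj + wj) * (x3 - x1)⁻¹ ∈ V₂) (hqsj : (q : F) * (x3 - x1)⁻¹ ∈ V₂)
    (hwt : wt * ((t2 + 256) ^ 2 * (t2 - 512) * t1 ^ 3)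
      = wj * ((t1 + 256) ^ 2 * (t1 - 512) * t2 ^ 3)) :
    t3 ∈ V₂ ∧ wt ∈ V₂ ∧ ∃ ϑ : F, ϑ ∈ V₂ ∧ (q : F) * ϑ = (t3 - t1) ^ (q - 1) ∧
      (ϑ + wt) * (t3 - t1)⁻¹ ∈ V₂ := by
  have hvt1 : V₂.valuation t1 = 1 := c2e24_val_one V₂ ht1 ht1' ht10
  have hΔV : t3 - t1 ∈ V₂ := c2e24_mem_of_lt V₂ hΔ
  have hvt3 : V₂.valuation t3 = 1 := by
    have := c2e24_unit_add V₂ hvt1 hΔ
    rwa [add_sub_cancel] at this
  have ht3 : t3 ∈ V₂ := c2e24_mem V₂ hvt3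
  have ht3' : t3⁻¹ ∈ V₂ := c2e24_inv_mem V₂ hvt3
  have ht30 : t3 ≠ 0 := by
    intro h; rw [h, map_zero] at hvt3; exact zero_ne_one hvt3
  have hsne : x3 - x1 ≠ 0 := sub_ne_zero.mpr hx31
  -- `Q2(t1, t3)` is a unit
  have hQ : t1 ^ 2 * t3 ^ 2 - 196608 * t1 * t3 - 16777216 * (t1 + t3)
      = t1 * ((t1 + 256) ^ 2 * (t1 - 512))
        + (t3 - t1) * (t1 ^ 2 * (t3 + t1) - 196608 * t1 - 16777216) := by ring
  have hvQ : V₂.valuation (t1 ^ 2 * t3 ^ 2 - 196608 * t1 * t3 - 16777216 * (t1 + t3)) = 1 := by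
    rw [hQ]
    apply c2e24_unit_add V₂
    · rw [map_mul, hvt1, hD1, one_mul]
    · have hmem : t1 ^ 2 * (t3 + t1) - 196608 * t1 - 16777216 ∈ V₂ := by
        refine sub_mem (sub_mem (mul_mem (pow_mem ht1 _)
          (add_mem ht3 ht1)) (mul_mem ?_ ht1)) ?_
        · exact_mod_cast natCast_mem V₂ 196608
        · exact_mod_cast natCast_mem V₂ 16777216
      rw [map_mul]
      calc V₂.valuation (t3 - t1) * V₂.valuation (t1 ^ 2 * (t3 + t1) - 196608 * t1 - 16777216)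
          ≤ V₂.valuation (t3 - t1) * 1 :=
            mul_le_mul_right ((V₂.valuation_le_one_iff _).mpr hmem) _
        _ < 1 := by rw [mul_one]; exact hΔ
  have hQ' := c2e24_inv_mem V₂ hvQ
  have hQV := c2e24_mem V₂ hvQ
  have hQ0 : t1 ^ 2 * t3 ^ 2 - 196608 * t1 * t3 - 16777216 * (t1 + t3) ≠ 0 := by
    intro h; rw [h, map_zero] at hvQ; exact zero_ne_one hvQ
  -- `D2 * t1^3` is a unit
  have hvΥ : V₂.valuation ((t2 + 256) ^ 2 * (t2 - 512) * t1 ^ 3) = 1 := by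
    rw [map_mul, hD2, map_pow, hvt1, one_pow, one_mul]
  have hΥ' := c2e24_inv_mem V₂ hvΥ
  have hΥV := c2e24_mem V₂ hvΥ
  have hΥ0 : (t2 + 256) ^ 2 * (t2 - 512) * t1 ^ 3 ≠ 0 := by
    intro h; rw [h, map_zero] at hvΥ; exact zero_ne_one hvΥ
  have hD1V := c2e24_mem V₂ hD1
  -- `x1, x3 ∈ V₂`
  have h256 : (256 : F) ∈ V₂ := by exact_mod_cast natCast_mem V₂ 256
  have hx1e : x1 = (t1 + 256) ^ 3 * (t1⁻¹) ^ 2 := by
    rw [← hx1]; field_simp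
  have hx3e : x3 = (t3 + 256) ^ 3 * (t3⁻¹) ^ 2 := by
    rw [← hx3]; field_simp
  have hx1V : x1 ∈ V₂ := by
    rw [hx1e]
    exact mul_mem (pow_mem (add_mem ht1 h256) _) (pow_mem ht1' _)
  have hx3V : x3 ∈ V₂ := by
    rw [hx3e]
    exact mul_mem (pow_mem (add_mem ht3 h256) _) (pow_mem ht3' _)
  -- `wt ∈ V₂`
  have hwte : wt = wj * ((t1 + 256) ^ 2 * (t1 - 512) * t2 ^ 3)
      * ((t2 + 256) ^ 2 * (t2 - 512) * t1 ^ 3)⁻¹ := by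
    rw [← hwt, mul_assoc, mul_inv_cancel₀ hΥ0, mul_one]
  have hwtV : wt ∈ V₂ := by
    rw [hwte]
    exact mul_mem (mul_mem hwj (mul_mem hD1V (pow_mem ht2 _))) hΥ'
  -- `q = (t3 - t1) * bq`
  have hsT : (x3 - x1) * (t1 ^ 2 * t3 ^ 2)
      = (t3 - t1) * (t1 ^ 2 * t3 ^ 2 - 196608 * t1 * t3 - 16777216 * (t1 + t3)) := by
    linear_combination t1 ^ 2 * hx3 - t3 ^ 2 * hx1
  have hbqV : (q : F) * (x3 - x1)⁻¹ *
      ((t1 ^ 2 * t3 ^ 2 - 196608 * t1 * t3 - 16777216 * (t1 + t3)) * (t1⁻¹ ^ 2 * t3⁻¹ ^ 2)) ∈ V₂ :=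
    mul_mem hqsj (mul_mem hQV (mul_mem (pow_mem ht1' _) (pow_mem ht3' _)))
  have hqs : (q : F) = (t3 - t1) * ((q : F) * (x3 - x1)⁻¹ *
      ((t1 ^ 2 * t3 ^ 2 - 196608 * t1 * t3 - 16777216 * (t1 + t3)) * (t1⁻¹ ^ 2 * t3⁻¹ ^ 2))) := by
    have e : (t3 - t1) * (t1 ^ 2 * t3 ^ 2 - 196608 * t1 * t3 - 16777216 * (t1 + t3))
        * (t1⁻¹ ^ 2 * t3⁻¹ ^ 2) = x3 - x1 := by
      rw [← hsT]; field_simp
    calc (q : F) = (q : F) * (x3 - x1)⁻¹ * (x3 - x1) := by field_simp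
      _ = _ := by rw [← e]; ring
  -- apply the abstract transport in `V₂`
  have key := c2d24_coord2 (O := V₂) hq ⟨t1, ht1⟩ ⟨t2, ht2⟩ ⟨t3, ht3⟩ ⟨t1⁻¹, ht1'⟩ ⟨t3⁻¹, ht3'⟩
    ⟨g, hg⟩ ⟨_, hbqV⟩ ⟨x1, hx1V⟩ ⟨x3, hx3V⟩ ⟨_, hQ'⟩ ⟨_, hΥ'⟩ ⟨ϑj, hϑj⟩ ⟨wj, hwj⟩ ⟨_, hy⟩
    ⟨wt, hwtV⟩
    (Subtype.ext (by simpa using mul_inv_cancel₀ ht10))
    (Subtype.ext (by simpa using mul_inv_cancel₀ ht30))
    (Subtype.ext (by simpa using ht2g))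
    (Subtype.ext (by simpa using hqs))
    (Subtype.ext hx1)
    (Subtype.ext hx3)
    (Subtype.ext (mul_inv_cancel₀ hQ0))
    (Subtype.ext (mul_inv_cancel₀ hΥ0))
    (Subtype.ext (by simpa using hϑ))
    (Subtype.ext (by
      show ϑj + wj = (x3 - x1) * ((ϑj + wj) * (x3 - x1)⁻¹)
      field_simp))
    (Subtype.ext hwt)
  obtain ⟨ϑ, y', e1, e2⟩ := key
  refine ⟨ht3, hwtV, ϑ, ϑ.2, ?_, ?_⟩
  · have := congrArg V₂.subtype e1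
    simpa using this
  · have h2 : (ϑ : F) + wt = (t3 - t1) * (y' : F) := by
      have := congrArg V₂.subtype e2
      simpa using this
    rw [h2]
    by_cases h0 : t3 - t1 = 0
    · rw [h0, zero_mul, zero_mul]; exact V₂.zero_mem
    · have : (t3 - t1) * (y' : F) * (t3 - t1)⁻¹ = (y' : F) := by field_simp
      rw [this]
      exact y'.2

/-- **Transport to `h₃` for any `V₂`.**  `t1 = h(τ)`, `t2 = h(qτ)`, `t3 = h(q²τ)`; the extra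
input is `v₂(t3 - t1) < 1`. -/
theorem c2e24_coord3_val {F : Type*} [Field F] (V₂ : ValuationSubring F) {q : ℕ} (hq : q.Prime)
    (t1 t2 t3 x1 x3 g ϑj wj wt : F)
    (ht1 : t1 ∈ V₂) (ht1' : t1⁻¹ ∈ V₂) (ht10 : t1 ≠ 0) (ht2 : t2 ∈ V₂) (hg : g ∈ V₂)
    (ht2g : t2 = t1 ^ q + q * g)
    (hx1 : x1 * t1 ^ 3 = (t1 + 27) * (t1 + 243) ^ 3)
    (hx3 : x3 * t3 ^ 3 = (t3 + 27) * (t3 + 243) ^ 3)
    (hΔ : V₂.valuation (t3 - t1) < 1)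
    (hD1 : V₂.valuation ((t1 + 243) ^ 2 * (t1 ^ 2 - 486 * t1 - 19683)) = 1)
    (hD2 : V₂.valuation ((t2 + 243) ^ 2 * (t2 ^ 2 - 486 * t2 - 19683)) = 1)
    (hϑj : ϑj ∈ V₂) (hwj : wj ∈ V₂) (hx31 : x3 ≠ x1)
    (hϑ : (q : F) * ϑj = (x3 - x1) ^ (q - 1))
    (hy : (ϑj + wj) * (x3 - x1)⁻¹ ∈ V₂) (hqsj : (q : F) * (x3 - x1)⁻¹ ∈ V₂)
    (hwt : wt * ((t2 + 243) ^ 2 * (t2 ^ 2 - 486 * t2 - 19683) * t1 ^ 4)
      = wj * ((t1 + 243) ^ 2 * (t1 ^ 2 - 486 * t1 - 19683) * t2 ^ 4)) :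
    t3 ∈ V₂ ∧ wt ∈ V₂ ∧ ∃ ϑ : F, ϑ ∈ V₂ ∧ (q : F) * ϑ = (t3 - t1) ^ (q - 1) ∧
      (ϑ + wt) * (t3 - t1)⁻¹ ∈ V₂ := by
  have hvt1 : V₂.valuation t1 = 1 := c2e24_val_one V₂ ht1 ht1' ht10
  have hΔV : t3 - t1 ∈ V₂ := c2e24_mem_of_lt V₂ hΔ
  have hvt3 : V₂.valuation t3 = 1 := by
    have := c2e24_unit_add V₂ hvt1 hΔ
    rwa [add_sub_cancel] at this
  have ht3 : t3 ∈ V₂ := c2e24_mem V₂ hvt3
  have ht3' : t3⁻¹ ∈ V₂ := c2e24_inv_mem V₂ hvt3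
  have ht30 : t3 ≠ 0 := by
    intro h; rw [h, map_zero] at hvt3; exact zero_ne_one hvt3
  have hsne : x3 - x1 ≠ 0 := sub_ne_zero.mpr hx31
  -- `Q3(t1, t3)` is a unit
  have hQ : t1 ^ 3 * t3 ^ 3 - 196830 * t1 ^ 2 * t3 ^ 2 - 19131876 * t1 * t3 * (t1 + t3)
        - 387420489 * (t1 ^ 2 + t1 * t3 + t3 ^ 2)
      = t1 ^ 2 * ((t1 + 243) ^ 2 * (t1 ^ 2 - 486 * t1 - 19683))
        + (t3 - t1) * (t1 ^ 3 * (t3 ^ 2 + t1 * t3 + t1 ^ 2) - 196830 * t1 ^ 2 * (t3 + t1)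
          - 19131876 * t1 * (t3 + 2 * t1) - 387420489 * (t3 + 2 * t1)) := by ring
  have hvQ : V₂.valuation (t1 ^ 3 * t3 ^ 3 - 196830 * t1 ^ 2 * t3 ^ 2
      - 19131876 * t1 * t3 * (t1 + t3) - 387420489 * (t1 ^ 2 + t1 * t3 + t3 ^ 2)) = 1 := by
    rw [hQ]
    apply c2e24_unit_add V₂
    · rw [map_mul, map_pow, hvt1, hD1, one_pow, one_mul]
    · have h2 : (2 : F) ∈ V₂ := by exact_mod_cast natCast_mem V₂ 2
      have ha : (196830 : F) ∈ V₂ := by exact_mod_cast natCast_mem V₂ 196830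
      have hb : (19131876 : F) ∈ V₂ := by exact_mod_cast natCast_mem V₂ 19131876
      have hc : (387420489 : F) ∈ V₂ := by exact_mod_cast natCast_mem V₂ 387420489
      have hmem : t1 ^ 3 * (t3 ^ 2 + t1 * t3 + t1 ^ 2) - 196830 * t1 ^ 2 * (t3 + t1)
          - 19131876 * t1 * (t3 + 2 * t1) - 387420489 * (t3 + 2 * t1) ∈ V₂ :=
        sub_mem (sub_mem (sub_mem
          (mul_mem (pow_mem ht1 _) (add_mem (add_mem (pow_mem ht3 _) (mul_mem ht1 ht3))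
            (pow_mem ht1 _)))
          (mul_mem (mul_mem ha (pow_mem ht1 _)) (add_mem ht3 ht1)))
          (mul_mem (mul_mem hb ht1) (add_mem ht3 (mul_mem h2 ht1))))
          (mul_mem hc (add_mem ht3 (mul_mem h2 ht1)))
      rw [map_mul]
      calc V₂.valuation (t3 - t1) * V₂.valuation (t1 ^ 3 * (t3 ^ 2 + t1 * t3 + t1 ^ 2)
            - 196830 * t1 ^ 2 * (t3 + t1) - 19131876 * t1 * (t3 + 2 * t1)
            - 387420489 * (t3 + 2 * t1))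
          ≤ V₂.valuation (t3 - t1) * 1 :=
            mul_le_mul_right ((V₂.valuation_le_one_iff _).mpr hmem) _
        _ < 1 := by rw [mul_one]; exact hΔ
  have hQ' := c2e24_inv_mem V₂ hvQ
  have hQV := c2e24_mem V₂ hvQ
  have hQ0 : t1 ^ 3 * t3 ^ 3 - 196830 * t1 ^ 2 * t3 ^ 2 - 19131876 * t1 * t3 * (t1 + t3)
      - 387420489 * (t1 ^ 2 + t1 * t3 + t3 ^ 2) ≠ 0 := by
    intro h; rw [h, map_zero] at hvQ; exact zero_ne_one hvQ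
  -- `D2 * t1^4` is a unit
  have hvΥ : V₂.valuation ((t2 + 243) ^ 2 * (t2 ^ 2 - 486 * t2 - 19683) * t1 ^ 4) = 1 := by
    rw [map_mul, hD2, map_pow, hvt1, one_pow, one_mul]
  have hΥ' := c2e24_inv_mem V₂ hvΥ
  have hΥ0 : (t2 + 243) ^ 2 * (t2 ^ 2 - 486 * t2 - 19683) * t1 ^ 4 ≠ 0 := by
    intro h; rw [h, map_zero] at hvΥ; exact zero_ne_one hvΥ
  have hD1V := c2e24_mem V₂ hD1
  -- `x1, x3 ∈ V₂`
  have h27 : (27 : F) ∈ V₂ := by exact_mod_cast natCast_mem V₂ 27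
  have h243 : (243 : F) ∈ V₂ := by exact_mod_cast natCast_mem V₂ 243
  have hx1e : x1 = (t1 + 27) * (t1 + 243) ^ 3 * (t1⁻¹) ^ 3 := by
    rw [← hx1]; field_simp
  have hx3e : x3 = (t3 + 27) * (t3 + 243) ^ 3 * (t3⁻¹) ^ 3 := by
    rw [← hx3]; field_simp
  have hx1V : x1 ∈ V₂ := by
    rw [hx1e]
    exact mul_mem (mul_mem (add_mem ht1 h27) (pow_mem (add_mem ht1 h243) _)) (pow_mem ht1' _)
  have hx3V : x3 ∈ V₂ := by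
    rw [hx3e]
    exact mul_mem (mul_mem (add_mem ht3 h27) (pow_mem (add_mem ht3 h243) _)) (pow_mem ht3' _)
  -- `wt ∈ V₂`
  have hwte : wt = wj * ((t1 + 243) ^ 2 * (t1 ^ 2 - 486 * t1 - 19683) * t2 ^ 4)
      * ((t2 + 243) ^ 2 * (t2 ^ 2 - 486 * t2 - 19683) * t1 ^ 4)⁻¹ := by
    rw [← hwt, mul_assoc, mul_inv_cancel₀ hΥ0, mul_one]
  have hwtV : wt ∈ V₂ := by
    rw [hwte]
    exact mul_mem (mul_mem hwj (mul_mem hD1V (pow_mem ht2 _))) hΥ'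
  -- `q = (t3 - t1) * bq`
  have hsT : (x3 - x1) * (t1 ^ 3 * t3 ^ 3)
      = (t3 - t1) * (t1 ^ 3 * t3 ^ 3 - 196830 * t1 ^ 2 * t3 ^ 2 - 19131876 * t1 * t3 * (t1 + t3)
        - 387420489 * (t1 ^ 2 + t1 * t3 + t3 ^ 2)) := by
    linear_combination t1 ^ 3 * hx3 - t3 ^ 3 * hx1
  have hbqV : (q : F) * (x3 - x1)⁻¹ *
      ((t1 ^ 3 * t3 ^ 3 - 196830 * t1 ^ 2 * t3 ^ 2 - 19131876 * t1 * t3 * (t1 + t3)
        - 387420489 * (t1 ^ 2 + t1 * t3 + t3 ^ 2)) * (t1⁻¹ ^ 3 * t3⁻¹ ^ 3)) ∈ V₂ :=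
    mul_mem hqsj (mul_mem hQV (mul_mem (pow_mem ht1' _) (pow_mem ht3' _)))
  have hqs : (q : F) = (t3 - t1) * ((q : F) * (x3 - x1)⁻¹ *
      ((t1 ^ 3 * t3 ^ 3 - 196830 * t1 ^ 2 * t3 ^ 2 - 19131876 * t1 * t3 * (t1 + t3)
        - 387420489 * (t1 ^ 2 + t1 * t3 + t3 ^ 2)) * (t1⁻¹ ^ 3 * t3⁻¹ ^ 3))) := by
    have e : (t3 - t1) * (t1 ^ 3 * t3 ^ 3 - 196830 * t1 ^ 2 * t3 ^ 2
        - 19131876 * t1 * t3 * (t1 + t3) - 387420489 * (t1 ^ 2 + t1 * t3 + t3 ^ 2))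
        * (t1⁻¹ ^ 3 * t3⁻¹ ^ 3) = x3 - x1 := by
      rw [← hsT]; field_simp
    calc (q : F) = (q : F) * (x3 - x1)⁻¹ * (x3 - x1) := by field_simp
      _ = _ := by rw [← e]; ring
  -- apply the abstract transport in `V₂`
  have key := c2d24_coord3 (O := V₂) hq ⟨t1, ht1⟩ ⟨t2, ht2⟩ ⟨t3, ht3⟩ ⟨t1⁻¹, ht1'⟩ ⟨t3⁻¹, ht3'⟩
    ⟨g, hg⟩ ⟨_, hbqV⟩ ⟨x1, hx1V⟩ ⟨x3, hx3V⟩ ⟨_, hQ'⟩ ⟨_, hΥ'⟩ ⟨ϑj, hϑj⟩ ⟨wj, hwj⟩ ⟨_, hy⟩
    ⟨wt, hwtV⟩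
    (Subtype.ext (by simpa using mul_inv_cancel₀ ht10))
    (Subtype.ext (by simpa using mul_inv_cancel₀ ht30))
    (Subtype.ext (by simpa using ht2g))
    (Subtype.ext (by simpa using hqs))
    (Subtype.ext hx1)
    (Subtype.ext hx3)
    (Subtype.ext (mul_inv_cancel₀ hQ0))
    (Subtype.ext (mul_inv_cancel₀ hΥ0))
    (Subtype.ext (by simpa using hϑ))
    (Subtype.ext (by
      show ϑj + wj = (x3 - x1) * ((ϑj + wj) * (x3 - x1)⁻¹)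
      field_simp))
    (Subtype.ext hwt)
  obtain ⟨ϑ, y', e1, e2⟩ := key
  refine ⟨ht3, hwtV, ϑ, ϑ.2, ?_, ?_⟩
  · have := congrArg V₂.subtype e1
    simpa using this
  · have h2 : (ϑ : F) + wt = (t3 - t1) * (y' : F) := by
      have := congrArg V₂.subtype e2
      simpa using this
    rw [h2]
    by_cases h0 : t3 - t1 = 0
    · rw [h0, zero_mul, zero_mul]; exact V₂.zero_mem
    · have : (t3 - t1) * (y' : F) * (t3 - t1)⁻¹ = (y' : F) := by field_simp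
      rw [this]
      exact y'.2

end Fermat.Agent.S36
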