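import Mathlib
import Fermat.Agent.S36.C2Val24
import Fermat.Agent.S36.MidCuspGen25

/-!
S36 lab (helper24), row C-C2: the FINAL chart statements at a non-cuspidal closed point `n` lying
on the middle component `C₂` only, in the literal shape `mc25_MidPrinAt σ B V₂ n` consumed by
`mc25_twoGen` (helper25; `hD₂`).

* `c2f24_core` : from `ϑ = sF^(q-1)/q ∈ V₂`, `ϑ + w ∈ sF V₂`, `sF ∼ σ` in `V₂`, `s = b sF ∈ B`
  (`b ∉ n` a unit of `V₂`) and `w` without zero at `n`.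
* `c2f24_prinAt_two`   : coordinate `h₂` (`j h² = (h + 256)³`), all inputs in valuation form.
* `c2f24_prinAt_three` : coordinate `h₃` (`j h³ = (h + 27) (h + 243)³`).

Inputs of the last two (for `V₂` any valuation subring with the parameters of `ob72_ram`):
the Kronecker data of `c2e24_kron_val` for `(x1, J, x3) = (j(τ), j(qτ), j(q²τ))`, the Hauptmodul
data of `c2e24_coord2_val` / `c2e24_coord3_val` (with `v₂(h(q²τ) - h(τ)) < 1`: `v2m46_mid_h2/3`,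
`me3_E_h2/3`, `v2ml64_mid_val`), and the chart data `s = b (t3 - t1)`, `wt * tw = aw`, `aw ∉ n`
(`uwh31_nozero2/3`).
-/

set_option autoImplicit false

namespace Fermat.Agent.S36

open Polynomial Fermat.Agent.S34 TripleLoc71

/-- **Core.** -/
theorem c2f24_core {R F : Type*} [CommRing R] [Field F] [Algebra R F]
    (π u u' : R) (huu' : u * u' = 1) (q : ℕ) (hq : q.Prime) (hqπ : (q : R) = u * π)
    (B : Subalgebra R F) (V₁ V₂ V₃ : Subring F)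
    (hB₁ : ∀ x ∈ B, x ∈ V₁) (hB₂ : ∀ x ∈ B, x ∈ V₂) (hB₃ : ∀ x ∈ B, x ∈ V₃)
    (hsat : ∀ x ∈ B, (algebraMap R F π)⁻¹ * x ∈ V₁ → (algebraMap R F π)⁻¹ * x ∈ V₂ →
      (algebraMap R F π)⁻¹ * x ∈ V₃ → (algebraMap R F π)⁻¹ * x ∈ B)
    (hπ0 : algebraMap R F π ≠ 0)
    (σ : F) (hσ0 : σ ≠ 0)
    (n : Ideal B) [hn : n.IsPrime]
    (hmid : tl71_OnMid σ B V₂ n) (h1 : ¬ sf79_OnBr π B V₁ n) (h3 : ¬ sf79_OnBr π B V₃ n)
    (s b : B) (sF ϑ w : F) (hsb : (s : F) = (b : F) * sF) (hbn : b ∉ n)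
    (hb₂ : (b : F)⁻¹ ∈ V₂) (hsF0 : sF ≠ 0)
    (hϑq : (q : F) * ϑ = sF ^ (q - 1)) (hϑ₂ : ϑ ∈ V₂) (hcong : (ϑ + w) * sF⁻¹ ∈ V₂)
    (hσs : σ * sF⁻¹ ∈ V₂) (hsσ : sF * σ⁻¹ ∈ V₂)
    (aw tw : B) (haw : aw ∉ n) (hw : w * (tw : F) = (aw : F)) :
    mc25_MidPrinAt σ B V₂ n := by
  have hq2 := hq.two_le
  have hb0 : (b : F) ≠ 0 := by
    intro h
    apply hbn
    have : b = 0 := Subtype.ext h
    rw [this]
    exact n.zero_mem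
  have hs0 : (s : F) ≠ 0 := by rw [hsb]; exact mul_ne_zero hb0 hsF0
  have hqe : q - 1 = (q - 2) + 1 := by omega
  -- separator
  have hbrw : ∀ V : Subring F, ¬ sf79_OnBr π B V n →
      ∃ y : B, y ∉ n ∧ (algebraMap R F π)⁻¹ * (y : F) ∈ V := by
    intro V h
    by_contra hcon
    exact h fun x hx => by
      by_contra hxn
      exact hcon ⟨x, hxn, hx⟩
  obtain ⟨y₁, hy₁n, hy₁⟩ := hbrw V₁ h1
  obtain ⟨y₃, hy₃n, hy₃⟩ := hbrw V₃ h3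
  have ha₁ : (algebraMap R F π)⁻¹ * ((y₁ * y₃ : B) : F) ∈ V₁ := by
    have : (algebraMap R F π)⁻¹ * ((y₁ * y₃ : B) : F)
        = (algebraMap R F π)⁻¹ * (y₁ : F) * (y₃ : F) := by push_cast; ring
    rw [this]; exact V₁.mul_mem hy₁ (hB₁ _ y₃.2)
  have ha₃ : (algebraMap R F π)⁻¹ * ((y₁ * y₃ : B) : F) ∈ V₃ := by
    have : (algebraMap R F π)⁻¹ * ((y₁ * y₃ : B) : F)
        = (y₁ : F) * ((algebraMap R F π)⁻¹ * (y₃ : F)) := by push_cast; ring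
    rw [this]; exact V₃.mul_mem (hB₃ _ y₁.2) hy₃
  have han : y₁ * y₃ ∉ n := fun h => (hn.mem_or_mem h).elim hy₁n hy₃n
  -- `C₂` through `n`, in terms of `s`
  have hp2n : ∀ x : B, (x : F) * (s : F)⁻¹ ∈ V₂ → x ∈ n := by
    intro x hx
    apply hmid
    have : (x : F) * σ⁻¹ = ((x : F) * (s : F)⁻¹) * ((b : F) * (sF * σ⁻¹)) := by
      rw [hsb]
      field_simp
    rw [this]
    exact V₂.mul_mem hx (V₂.mul_mem (hB₂ _ b.2) hsσ)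
  -- the divisibility `s^(q-1) ∣ π` at `n`
  obtain ⟨c, t, htn, hsc⟩ := c2b24_mid_dvd π u u' huu' q hqπ B V₁ V₂ V₃ hB₁ hB₂ hB₃ hsat hπ0 n
    s ((b : F) ^ (q - 1) * ϑ) ((b : F) ^ (q - 1) * w)
    (by rw [hsb, mul_pow, ← hϑq]; ring)
    (V₂.mul_mem (V₂.pow_mem (hB₂ _ b.2) _) hϑ₂)
    (by
      have : ((b : F) ^ (q - 1) * ϑ + (b : F) ^ (q - 1) * w) * (s : F)⁻¹
          = (b : F) ^ (q - 2) * ((ϑ + w) * sF⁻¹) := by
        rw [hsb, hqe, pow_succ, mul_inv]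
        field_simp
      rw [this]
      exact V₂.mul_mem (V₂.pow_mem (hB₂ _ b.2) _) hcong)
    hp2n (y₁ * y₃) han ha₁ ha₃ (b ^ (q - 1) * aw) tw
    (fun h => (hn.mem_or_mem h).elim (fun h' => hbn (hn.mem_of_pow_mem _ h')) haw)
    (by push_cast; rw [← hw]; ring)
  have hsn : s ∈ n := by
    apply hp2n
    rw [mul_inv_cancel₀ hs0]
    exact V₂.one_mem
  have hσz : σ * (s : F)⁻¹ ∈ V₂ := by
    have : σ * (s : F)⁻¹ = (σ * sF⁻¹) * (b : F)⁻¹ := by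
      rw [hsb]
      field_simp
    rw [this]
    exact V₂.mul_mem hσs hb₂
  have hqB : (q : B) = algebraMap R B u * algebraMap R B π := by
    rw [← map_mul, ← hqπ, map_natCast]
  refine mc25_prinAt_of_dvd π u u' huu' q hqπ B V₁ V₂ V₃ hB₁ hB₂ hB₃ hsat hπ0 σ hσ0 n h1 h3
    s (s ^ (q - 2) * c * algebraMap R B u) t htn hsn hs0 hσz ?_
  rw [hqB]
  have hpow : s * s ^ (q - 2) = s ^ (q - 1) := by rw [hqe, pow_succ']
  calc s * (s ^ (q - 2) * c * algebraMap R B u)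
      = (s * s ^ (q - 2)) * c * algebraMap R B u := by ring
    _ = t * (algebraMap R B u * algebraMap R B π) := by rw [hpow, hsc]; ring

/-- comparison of two elements with the same `(q-1)`-st power valuation up to `V`. -/
theorem c2f24_le_of_pow {F : Type*} [Field F] (V : ValuationSubring F) {a σ ϑ p : F} {k : ℕ}
    (hk : k ≠ 0) (hσ0 : σ ≠ 0) (ha : p * ϑ = a ^ k) (hϑ : ϑ ∈ V)
    (hσ : V.valuation σ ^ k = V.valuation p) : a * σ⁻¹ ∈ V := by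
  rw [← V.valuation_le_one_iff, map_mul, map_inv₀]
  have hvσ : V.valuation σ ≠ 0 := (V.valuation.ne_zero_iff).mpr hσ0
  have hle : V.valuation a ≤ V.valuation σ := by
    by_contra hcon
    have hlt : V.valuation σ < V.valuation a := not_le.mp hcon
    have h1 : V.valuation σ ^ k < V.valuation a ^ k := pow_lt_pow_left₀ hlt zero_le hk
    have h2 : V.valuation a ^ k = V.valuation p * V.valuation ϑ := by
      rw [← map_pow, ← ha, map_mul]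
    have h3 : V.valuation p * V.valuation ϑ ≤ V.valuation p :=
      mul_le_of_le_one_right zero_le ((V.valuation_le_one_iff _).mpr hϑ)
    rw [h2, hσ] at h1
    exact (not_le.mpr h1) h3
  calc V.valuation a * (V.valuation σ)⁻¹ ≤ V.valuation σ * (V.valuation σ)⁻¹ :=
        mul_le_mul_left hle _
    _ = 1 := mul_inv_cancel₀ hvσ

/-- **Final statement, coordinate `h₂`.** -/
theorem c2f24_prinAt_two {R F : Type*} [CommRing R] [Field F] [Algebra R F]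
    (π u u' : R) (huu' : u * u' = 1) (q : ℕ) (hq : q.Prime) (hqπ : (q : R) = u * π)
    (B : Subalgebra R F) (V₁ V₃ : Subring F) (V₂ : ValuationSubring F)
    (hB₁ : ∀ x ∈ B, x ∈ V₁) (hB₂ : ∀ x ∈ B, x ∈ V₂.toSubring) (hB₃ : ∀ x ∈ B, x ∈ V₃)
    (hsat : ∀ x ∈ B, (algebraMap R F π)⁻¹ * x ∈ V₁ → (algebraMap R F π)⁻¹ * x ∈ V₂.toSubring →
      (algebraMap R F π)⁻¹ * x ∈ V₃ → (algebraMap R F π)⁻¹ * x ∈ B)
    (hπ0 : algebraMap R F π ≠ 0)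
    (n : Ideal B) [hn : n.IsPrime]
    -- the `j`-data
    (hq0 : (q : F) ≠ 0) (Φ Ψ : Polynomial (Polynomial ℤ))
    (hΦΨ : Φ = (X - C (X ^ q)) * (X ^ q - C X) + C (C (q : ℤ)) * Ψ)
    (x1 J x3 γ1 wj e' : F)
    (hx1 : x1 ∈ V₂) (hJ : J ∈ V₂) (hγ1 : γ1 ∈ V₂) (hwj : wj ∈ V₂) (he' : e' ∈ V₂)
    (h1' : J = x1 ^ q + q * γ1)
    (hΦ1 : dq56_ev J x1 Φ = 0) (hΦ3 : dq56_ev J x3 Φ = 0)
    (hε : (J ^ q - x1) * e' = 1)
    (hw : dq56_ev J x1 (dq56_dY Φ) = -(q * wj * dq56_ev J x1 (derivative Φ)))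
    (hs : V₂.valuation (x3 - x1) ^ (q - 1) = V₂.valuation (q : F))
    (hqV : V₂.valuation (q : F) < 1)
    (hmid : tl71_OnMid (x3 - x1) B V₂.toSubring n)
    (h1 : ¬ sf79_OnBr π B V₁ n) (h3 : ¬ sf79_OnBr π B V₃ n)
    -- the Hauptmodul data
    (t1 t2 t3 g wt : F)
    (ht1 : t1 ∈ V₂) (ht1' : t1⁻¹ ∈ V₂) (ht10 : t1 ≠ 0) (ht2 : t2 ∈ V₂) (hg : g ∈ V₂)
    (ht2g : t2 = t1 ^ q + q * g)
    (hx1t : x1 * t1 ^ 2 = (t1 + 256) ^ 3) (hx3t : x3 * t3 ^ 2 = (t3 + 256) ^ 3)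
    (hΔ : V₂.valuation (t3 - t1) < 1)
    (hD1 : V₂.valuation ((t1 + 256) ^ 2 * (t1 - 512)) = 1)
    (hD2 : V₂.valuation ((t2 + 256) ^ 2 * (t2 - 512)) = 1)
    (hwt : wt * ((t2 + 256) ^ 2 * (t2 - 512) * t1 ^ 3)
      = wj * ((t1 + 256) ^ 2 * (t1 - 512) * t2 ^ 3))
    -- the chart data
    (s b : B) (hsb : (s : F) = (b : F) * (t3 - t1)) (hbn : b ∉ n) (hb₂ : (b : F)⁻¹ ∈ V₂)
    (aw tw : B) (haw : aw ∉ n) (hwtw : wt * (tw : F) = (aw : F)) :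
    mc25_MidPrinAt (x3 - x1) B V₂.toSubring n := by
  have hq2 := hq.two_le
  obtain ⟨hx3V, hqsj, ϑj, hϑjV, -, hϑjq, hyj⟩ := c2e24_kron_val V₂ hq hq0 Φ Ψ hΦΨ x1 J x3 γ1 wj e'
    hx1 hJ hγ1 hwj he' h1' hΦ1 hΦ3 hε hw hs hqV
  have hvq0 : V₂.valuation (q : F) ≠ 0 := (V₂.valuation.ne_zero_iff).mpr hq0
  have hσ0 : x3 - x1 ≠ 0 := by
    intro h0
    rw [h0, map_zero, zero_pow (by omega)] at hs
    exact hvq0 hs.symm
  have hx31 : x3 ≠ x1 := fun h => hσ0 (sub_eq_zero.mpr h)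
  obtain ⟨ht3V, hwtV, ϑ, hϑV, hϑq, hcong⟩ := c2e24_coord2_val V₂ hq t1 t2 t3 x1 x3 g ϑj wj wt
    ht1 ht1' ht10 ht2 hg ht2g hx1t hx3t hΔ hD1 hD2 hϑjV hwj hx31 hϑjq hyj hqsj hwt
  -- `t3` is a unit, `t3 ≠ t1`
  have hvt1 : V₂.valuation t1 = 1 := c2e24_val_one V₂ ht1 ht1' ht10
  have hvt3 : V₂.valuation t3 = 1 := by
    have := c2e24_unit_add V₂ hvt1 hΔ
    rwa [add_sub_cancel] at this
  have ht3' : t3⁻¹ ∈ V₂ := c2e24_inv_mem V₂ hvt3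
  have ht30 : t3 ≠ 0 := by
    intro h; rw [h, map_zero] at hvt3; exact zero_ne_one hvt3
  have hsF0 : t3 - t1 ≠ 0 := by
    intro h0
    have h31 : t3 = t1 := sub_eq_zero.mp h0
    apply hx31
    have ht1sq : t1 ^ 2 ≠ 0 := pow_ne_zero _ ht10
    apply mul_right_cancel₀ ht1sq
    rw [hx1t, ← h31, hx3t]
  -- `σ / sF ∈ V₂`
  have hsT : (x3 - x1) * (t1 ^ 2 * t3 ^ 2)
      = (t3 - t1) * (t1 ^ 2 * t3 ^ 2 - 196608 * t1 * t3 - 16777216 * (t1 + t3)) := by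
    linear_combination t1 ^ 2 * hx3t - t3 ^ 2 * hx1t
  have hσs : (x3 - x1) * (t3 - t1)⁻¹ ∈ V₂ := by
    have e : (x3 - x1) * (t3 - t1)⁻¹
        = (t1 ^ 2 * t3 ^ 2 - 196608 * t1 * t3 - 16777216 * (t1 + t3)) * (t1⁻¹ ^ 2 * t3⁻¹ ^ 2) := by
      have : x3 - x1 = (t3 - t1) * (t1 ^ 2 * t3 ^ 2 - 196608 * t1 * t3 - 16777216 * (t1 + t3))
          * (t1⁻¹ ^ 2 * t3⁻¹ ^ 2) := by
        rw [← hsT]; field_simp
      rw [this]; field_simp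
    rw [e]
    have ha : (196608 : F) ∈ V₂ := by exact_mod_cast natCast_mem V₂ 196608
    have hb : (16777216 : F) ∈ V₂ := by exact_mod_cast natCast_mem V₂ 16777216
    exact mul_mem (sub_mem (sub_mem (mul_mem (pow_mem ht1 _) (pow_mem ht3V _))
      (mul_mem (mul_mem ha ht1) ht3V)) (mul_mem hb (add_mem ht1 ht3V)))
      (mul_mem (pow_mem ht1' _) (pow_mem ht3' _))
  have hsσ : (t3 - t1) * (x3 - x1)⁻¹ ∈ V₂ :=
    c2f24_le_of_pow V₂ (by omega : q - 1 ≠ 0) hσ0 hϑq hϑV hs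
  exact c2f24_core π u u' huu' q hq hqπ B V₁ V₂.toSubring V₃ hB₁ hB₂ hB₃ hsat hπ0 (x3 - x1) hσ0 n
    hmid h1 h3 s b (t3 - t1) ϑ wt hsb hbn hb₂ hsF0 hϑq hϑV hcong hσs hsσ aw tw haw hwtw

/-- **Final statement, coordinate `h₃`.** -/
theorem c2f24_prinAt_three {R F : Type*} [CommRing R] [Field F] [Algebra R F]
    (π u u' : R) (huu' : u * u' = 1) (q : ℕ) (hq : q.Prime) (hqπ : (q : R) = u * π)
    (B : Subalgebra R F) (V₁ V₃ : Subring F) (V₂ : ValuationSubring F)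
    (hB₁ : ∀ x ∈ B, x ∈ V₁) (hB₂ : ∀ x ∈ B, x ∈ V₂.toSubring) (hB₃ : ∀ x ∈ B, x ∈ V₃)
    (hsat : ∀ x ∈ B, (algebraMap R F π)⁻¹ * x ∈ V₁ → (algebraMap R F π)⁻¹ * x ∈ V₂.toSubring →
      (algebraMap R F π)⁻¹ * x ∈ V₃ → (algebraMap R F π)⁻¹ * x ∈ B)
    (hπ0 : algebraMap R F π ≠ 0)
    (n : Ideal B) [hn : n.IsPrime]
    -- the `j`-data
    (hq0 : (q : F) ≠ 0) (Φ Ψ : Polynomial (Polynomial ℤ))
    (hΦΨ : Φ = (X - C (X ^ q)) * (X ^ q - C X) + C (C (q : ℤ)) * Ψ)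
    (x1 J x3 γ1 wj e' : F)
    (hx1 : x1 ∈ V₂) (hJ : J ∈ V₂) (hγ1 : γ1 ∈ V₂) (hwj : wj ∈ V₂) (he' : e' ∈ V₂)
    (h1' : J = x1 ^ q + q * γ1)
    (hΦ1 : dq56_ev J x1 Φ = 0) (hΦ3 : dq56_ev J x3 Φ = 0)
    (hε : (J ^ q - x1) * e' = 1)
    (hw : dq56_ev J x1 (dq56_dY Φ) = -(q * wj * dq56_ev J x1 (derivative Φ)))
    (hs : V₂.valuation (x3 - x1) ^ (q - 1) = V₂.valuation (q : F))
    (hqV : V₂.valuation (q : F) < 1)
    (hmid : tl71_OnMid (x3 - x1) B V₂.toSubring n)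
    (h1 : ¬ sf79_OnBr π B V₁ n) (h3 : ¬ sf79_OnBr π B V₃ n)
    -- the Hauptmodul data
    (t1 t2 t3 g wt : F)
    (ht1 : t1 ∈ V₂) (ht1' : t1⁻¹ ∈ V₂) (ht10 : t1 ≠ 0) (ht2 : t2 ∈ V₂) (hg : g ∈ V₂)
    (ht2g : t2 = t1 ^ q + q * g)
    (hx1t : x1 * t1 ^ 3 = (t1 + 27) * (t1 + 243) ^ 3)
    (hx3t : x3 * t3 ^ 3 = (t3 + 27) * (t3 + 243) ^ 3)
    (hΔ : V₂.valuation (t3 - t1) < 1)
    (hD1 : V₂.valuation ((t1 + 243) ^ 2 * (t1 ^ 2 - 486 * t1 - 19683)) = 1)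
    (hD2 : V₂.valuation ((t2 + 243) ^ 2 * (t2 ^ 2 - 486 * t2 - 19683)) = 1)
    (hwt : wt * ((t2 + 243) ^ 2 * (t2 ^ 2 - 486 * t2 - 19683) * t1 ^ 4)
      = wj * ((t1 + 243) ^ 2 * (t1 ^ 2 - 486 * t1 - 19683) * t2 ^ 4))
    -- the chart data
    (s b : B) (hsb : (s : F) = (b : F) * (t3 - t1)) (hbn : b ∉ n) (hb₂ : (b : F)⁻¹ ∈ V₂)
    (aw tw : B) (haw : aw ∉ n) (hwtw : wt * (tw : F) = (aw : F)) :
    mc25_MidPrinAt (x3 - x1) B V₂.toSubring n := by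
  have hq2 := hq.two_le
  obtain ⟨hx3V, hqsj, ϑj, hϑjV, -, hϑjq, hyj⟩ := c2e24_kron_val V₂ hq hq0 Φ Ψ hΦΨ x1 J x3 γ1 wj e'
    hx1 hJ hγ1 hwj he' h1' hΦ1 hΦ3 hε hw hs hqV
  have hvq0 : V₂.valuation (q : F) ≠ 0 := (V₂.valuation.ne_zero_iff).mpr hq0
  have hσ0 : x3 - x1 ≠ 0 := by
    intro h0
    rw [h0, map_zero, zero_pow (by omega)] at hs
    exact hvq0 hs.symm
  have hx31 : x3 ≠ x1 := fun h => hσ0 (sub_eq_zero.mpr h)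
  obtain ⟨ht3V, hwtV, ϑ, hϑV, hϑq, hcong⟩ := c2e24_coord3_val V₂ hq t1 t2 t3 x1 x3 g ϑj wj wt
    ht1 ht1' ht10 ht2 hg ht2g hx1t hx3t hΔ hD1 hD2 hϑjV hwj hx31 hϑjq hyj hqsj hwt
  have hvt1 : V₂.valuation t1 = 1 := c2e24_val_one V₂ ht1 ht1' ht10
  have hvt3 : V₂.valuation t3 = 1 := by
    have := c2e24_unit_add V₂ hvt1 hΔ
    rwa [add_sub_cancel] at this
  have ht3' : t3⁻¹ ∈ V₂ := c2e24_inv_mem V₂ hvt3
  have ht30 : t3 ≠ 0 := by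
    intro h; rw [h, map_zero] at hvt3; exact zero_ne_one hvt3
  have hsF0 : t3 - t1 ≠ 0 := by
    intro h0
    have h31 : t3 = t1 := sub_eq_zero.mp h0
    apply hx31
    have ht1c : t1 ^ 3 ≠ 0 := pow_ne_zero _ ht10
    apply mul_right_cancel₀ ht1c
    rw [hx1t, ← h31, hx3t]
  have hsT : (x3 - x1) * (t1 ^ 3 * t3 ^ 3)
      = (t3 - t1) * (t1 ^ 3 * t3 ^ 3 - 196830 * t1 ^ 2 * t3 ^ 2 - 19131876 * t1 * t3 * (t1 + t3)
        - 387420489 * (t1 ^ 2 + t1 * t3 + t3 ^ 2)) := by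
    linear_combination t1 ^ 3 * hx3t - t3 ^ 3 * hx1t
  have hσs : (x3 - x1) * (t3 - t1)⁻¹ ∈ V₂ := by
    have e : (x3 - x1) * (t3 - t1)⁻¹
        = (t1 ^ 3 * t3 ^ 3 - 196830 * t1 ^ 2 * t3 ^ 2 - 19131876 * t1 * t3 * (t1 + t3)
          - 387420489 * (t1 ^ 2 + t1 * t3 + t3 ^ 2)) * (t1⁻¹ ^ 3 * t3⁻¹ ^ 3) := by
      have : x3 - x1 = (t3 - t1) * (t1 ^ 3 * t3 ^ 3 - 196830 * t1 ^ 2 * t3 ^ 2
          - 19131876 * t1 * t3 * (t1 + t3) - 387420489 * (t1 ^ 2 + t1 * t3 + t3 ^ 2))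
          * (t1⁻¹ ^ 3 * t3⁻¹ ^ 3) := by
        rw [← hsT]; field_simp
      rw [this]; field_simp
    rw [e]
    have ha : (196830 : F) ∈ V₂ := by exact_mod_cast natCast_mem V₂ 196830
    have hb : (19131876 : F) ∈ V₂ := by exact_mod_cast natCast_mem V₂ 19131876
    have hc : (387420489 : F) ∈ V₂ := by exact_mod_cast natCast_mem V₂ 387420489
    exact mul_mem (sub_mem (sub_mem (sub_mem (mul_mem (pow_mem ht1 _) (pow_mem ht3V _))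
      (mul_mem (mul_mem ha (pow_mem ht1 _)) (pow_mem ht3V _)))
      (mul_mem (mul_mem (mul_mem hb ht1) ht3V) (add_mem ht1 ht3V)))
      (mul_mem hc (add_mem (add_mem (pow_mem ht1 _) (mul_mem ht1 ht3V)) (pow_mem ht3V _))))
      (mul_mem (pow_mem ht1' _) (pow_mem ht3' _))
  have hsσ : (t3 - t1) * (x3 - x1)⁻¹ ∈ V₂ :=
    c2f24_le_of_pow V₂ (by omega : q - 1 ≠ 0) hσ0 hϑq hϑV hs
  exact c2f24_core π u u' huu' q hq hqπ B V₁ V₂.toSubring V₃ hB₁ hB₂ hB₃ hsat hπ0 (x3 - x1) hσ0 n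
    hmid h1 h3 s b (t3 - t1) ϑ wt hsb hbn hb₂ hsF0 hϑq hϑV hcong hσs hsσ aw tw haw hwtw

end Fermat.Agent.S36
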