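import Mathlib
import Fermat.Agent.S36.ThetaG69
import Fermat.Agent.S18.Pack85

/-!
# S36 lab, row 600 C-C2 (helper96): the function `G_x = Δ / (θ x)^6` for the Hauptmoduln

`G_x = tg69_G K N x = (D_x J)^6 / (J^4 (J - 1728)^3)` (helper69, `ThetaG69`) is the function whose
regularity at a closed point is the only point-dependent input of the coordinate form of (C2)
(`c2x11_mid_dvd`, `c2p11_mid_dvd`: "`(α₂ α₁ G_x)^(q-1) * α₂ U` has no pole at `n`").  For the two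
Hauptmoduln it is explicit:

* `gh96_G_h2` : `G_{h₂} * (h₂^4 * (h₂ + 64)^3) = 1`   (`j h₂² = (h₂ + 256)³`);
* `gh96_G_h3` : `G_{h₃} * (h₃^3 * (h₃ + 27)^4) = 1`   (`j h₃³ = (h₃ + 27)(h₃ + 243)³`);
* `gh96_theta_h2`, `gh96_theta_h3` : `θ h ≠ 0` (so `tg69_G_mul_theta` applies: `G_h (θ h)^6 = Δ`);
* `gh96_alpha_G_h2`, `gh96_alpha_G_h3` : the same identities after `α₂ ∘ α₁` (level `N q q`), with
  the Hauptmodul of level `N q q`.
Abstract part (`gh96_alg2`, `gh96_alg3`, `gh96_alg_ne2`, `gh96_alg_ne3`): a field with an additive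
Leibniz map `D` killing the natural numbers.  All names are prefixed `gh96_`.
-/

set_option autoImplicit false
set_option linter.unusedSectionVars false
set_option linter.unusedVariables false
set_option linter.style.longLine false

open Polynomial IntermediateField ModularCurve

namespace Fermat.Agent.S36

open Fermat.Agent.S18 Fermat.Agent.S28 Fermat.Agent.S34

section Abstract

variable {F : Type*} [Field F]

theorem gh96_D_zero (D : F → F) (hadd : ∀ a b, D (a + b) = D a + D b) : D 0 = 0 := by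
  have h := hadd 0 0
  rw [add_zero] at h
  linear_combination -h

theorem gh96_D_neg (D : F → F) (hadd : ∀ a b, D (a + b) = D a + D b) (a : F) :
    D (-a) = - D a := by
  have h := hadd a (-a)
  rw [add_neg_cancel, gh96_D_zero D hadd] at h
  linear_combination -h

/-- **Level 2, abstract**: `D h = 1`, `j h² = (h + 256)³`, `G j⁴ (j - 1728)³ = (D j)⁶` give
`G h⁴ (h + 64)³ = 1`. -/
theorem gh96_alg2 (D : F → F) (hadd : ∀ a b, D (a + b) = D a + D b)
    (hmul : ∀ a b, D (a * b) = a * D b + b * D a) (hc : ∀ n : ℕ, D (n : F) = 0)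
    (h j G : F) (hh : D h = 1) (hrel : j * h ^ 2 = (h + 256) ^ 3)
    (hG : G * (j ^ 4 * (j - 1728) ^ 3) = D j ^ 6) :
    G * (h ^ 4 * (h + 64) ^ 3) = 1 := by
  have hD0 : D 0 = 0 := gh96_D_zero D hadd
  have h256 : D (256 : F) = 0 := by exact_mod_cast hc 256
  have h512 : D (512 : F) = 0 := by exact_mod_cast hc 512
  have e1 : D (j * h ^ 2) = j * (2 * h) + h ^ 2 * D j := by
    rw [hmul, pow_two, hmul, hh]; ring
  have ha : D (h + 256) = 1 := by rw [hadd, hh, h256, add_zero]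
  have e2 : D ((h + 256) ^ 3) = 3 * (h + 256) ^ 2 := by
    have e : (h + 256) ^ 3 = (h + 256) * ((h + 256) * (h + 256)) := by ring
    rw [e, hmul, hmul, ha]; ring
  have e3 : j * (2 * h) + h ^ 2 * D j = 3 * (h + 256) ^ 2 := by rw [← e1, hrel, e2]
  have e4 : h ^ 3 * D j = (h + 256) ^ 2 * (h - 512) := by
    linear_combination h * e3 - 2 * hrel
  have ha0 : h + 256 ≠ 0 := by
    intro h'
    rw [h', hD0] at ha
    exact zero_ne_one ha
  have hb0 : h - 512 ≠ 0 := by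
    intro h'
    have hb : D (h - 512) = 1 := by
      rw [sub_eq_add_neg, hadd, gh96_D_neg D hadd, hh, h512, neg_zero, add_zero]
    rw [h', hD0] at hb
    exact zero_ne_one hb
  have e5 : (h + 256) ^ 3 - 1728 * h ^ 2 = (h + 64) * (h - 512) ^ 2 := by ring
  have e6 : G * (h ^ 4 * (h + 64) ^ 3) * ((h + 256) ^ 12 * (h - 512) ^ 6) =
      (h + 256) ^ 12 * (h - 512) ^ 6 := by
    have hA : (h + 256) ^ 3 = j * h ^ 2 := hrel.symm
    have hB : (h + 64) * (h - 512) ^ 2 = j * h ^ 2 - 1728 * h ^ 2 := by rw [← e5, hA]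
    calc G * (h ^ 4 * (h + 64) ^ 3) * ((h + 256) ^ 12 * (h - 512) ^ 6)
        = G * h ^ 4 * ((h + 64) * (h - 512) ^ 2) ^ 3 * ((h + 256) ^ 3) ^ 4 := by ring
      _ = G * h ^ 4 * (j * h ^ 2 - 1728 * h ^ 2) ^ 3 * (j * h ^ 2) ^ 4 := by rw [hB, hA]
      _ = (G * (j ^ 4 * (j - 1728) ^ 3)) * h ^ 18 := by ring
      _ = (h ^ 3 * D j) ^ 6 := by rw [hG]; ring
      _ = (h + 256) ^ 12 * (h - 512) ^ 6 := by rw [e4]; ring
  have hne : (h + 256) ^ 12 * (h - 512) ^ 6 ≠ 0 :=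
    mul_ne_zero (pow_ne_zero _ ha0) (pow_ne_zero _ hb0)
  exact mul_right_cancel₀ hne (by rw [e6, one_mul])

/-- **Level 3, abstract**: `D h = 1`, `j h³ = (h + 27)(h + 243)³`, `G j⁴ (j - 1728)³ = (D j)⁶`
give `G h³ (h + 27)⁴ = 1`. -/
theorem gh96_alg3 (D : F → F) (hadd : ∀ a b, D (a + b) = D a + D b)
    (hmul : ∀ a b, D (a * b) = a * D b + b * D a) (hc : ∀ n : ℕ, D (n : F) = 0)
    (h2F : (2 : F) ≠ 0)
    (h j G : F) (hh : D h = 1) (hrel : j * h ^ 3 = (h + 27) * (h + 243) ^ 3)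
    (hG : G * (j ^ 4 * (j - 1728) ^ 3) = D j ^ 6) :
    G * (h ^ 3 * (h + 27) ^ 4) = 1 := by
  have hD0 : D 0 = 0 := gh96_D_zero D hadd
  have h27 : D (27 : F) = 0 := by exact_mod_cast hc 27
  have h243 : D (243 : F) = 0 := by exact_mod_cast hc 243
  have h486 : D (486 : F) = 0 := by exact_mod_cast hc 486
  have h19683 : D (19683 : F) = 0 := by exact_mod_cast hc 19683
  have e1 : D (j * h ^ 3) = j * (3 * h ^ 2) + h ^ 3 * D j := by
    have e : h ^ 3 = h * (h * h) := by ring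
    rw [hmul, e, hmul, hmul, hh]; ring
  have ha : D (h + 27) = 1 := by rw [hadd, hh, h27, add_zero]
  have hb : D (h + 243) = 1 := by rw [hadd, hh, h243, add_zero]
  have e2 : D ((h + 27) * (h + 243) ^ 3) =
      (h + 27) * (3 * (h + 243) ^ 2) + (h + 243) ^ 3 := by
    have e : (h + 243) ^ 3 = (h + 243) * ((h + 243) * (h + 243)) := by ring
    rw [hmul, e, hmul, hmul, ha, hb]; ring
  have e3 : j * (3 * h ^ 2) + h ^ 3 * D j =
      (h + 27) * (3 * (h + 243) ^ 2) + (h + 243) ^ 3 := by rw [← e1, hrel, e2]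
  have e4 : h ^ 4 * D j = (h + 243) ^ 2 * (h ^ 2 - 486 * h - 19683) := by
    linear_combination h * e3 - 3 * hrel
  have hb0 : h + 243 ≠ 0 := by
    intro h'
    rw [h', hD0] at hb
    exact zero_ne_one hb
  have hc0 : h ^ 2 - 486 * h - 19683 ≠ 0 := by
    intro h'
    have hd : D (h ^ 2 - 486 * h - 19683) = 2 * h - 486 := by
      have e : h ^ 2 - 486 * h - 19683 = h * h + (-(486 * h) + -(19683 : F)) := by ring
      rw [e, hadd, hadd, gh96_D_neg D hadd, gh96_D_neg D hadd, hmul, hmul, hh, h486, h19683]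
      ring
    rw [h', hD0] at hd
    have h243' : h = 243 := by
      have e : (2 : F) * (h - 243) = 0 := by linear_combination -hd
      rcases mul_eq_zero.mp e with e' | e'
      · exact absurd e' h2F
      · exact sub_eq_zero.mp e'
    rw [h243', h243] at hh
    exact zero_ne_one hh
  have e5 : (h + 27) * (h + 243) ^ 3 - 1728 * h ^ 3 = (h ^ 2 - 486 * h - 19683) ^ 2 := by ring
  have e6 : G * (h ^ 3 * (h + 27) ^ 4) *
      ((h + 243) ^ 12 * (h ^ 2 - 486 * h - 19683) ^ 6) =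
      (h + 243) ^ 12 * (h ^ 2 - 486 * h - 19683) ^ 6 := by
    have hA : (h + 27) * (h + 243) ^ 3 = j * h ^ 3 := hrel.symm
    have hB : (h ^ 2 - 486 * h - 19683) ^ 2 = j * h ^ 3 - 1728 * h ^ 3 := by rw [← e5, hA]
    calc G * (h ^ 3 * (h + 27) ^ 4) * ((h + 243) ^ 12 * (h ^ 2 - 486 * h - 19683) ^ 6)
        = G * h ^ 3 * ((h ^ 2 - 486 * h - 19683) ^ 2) ^ 3 * ((h + 27) * (h + 243) ^ 3) ^ 4 := by
          ring
      _ = G * h ^ 3 * (j * h ^ 3 - 1728 * h ^ 3) ^ 3 * (j * h ^ 3) ^ 4 := by rw [hB, hA]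
      _ = (G * (j ^ 4 * (j - 1728) ^ 3)) * h ^ 24 := by ring
      _ = (h ^ 4 * D j) ^ 6 := by rw [hG]; ring
      _ = (h + 243) ^ 12 * (h ^ 2 - 486 * h - 19683) ^ 6 := by rw [e4]; ring
  have hne : (h + 243) ^ 12 * (h ^ 2 - 486 * h - 19683) ^ 6 ≠ 0 :=
    mul_ne_zero (pow_ne_zero _ hb0) (pow_ne_zero _ hc0)
  exact mul_right_cancel₀ hne (by rw [e6, one_mul])

/-- `D j = 1`, `j h² = (h + 256)³`, `h ≠ 0` force `D h ≠ 0`. -/
theorem gh96_alg_ne2 (D : F → F) (hadd : ∀ a b, D (a + b) = D a + D b)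
    (hmul : ∀ a b, D (a * b) = a * D b + b * D a) (hc : ∀ n : ℕ, D (n : F) = 0)
    (h j : F) (hj : D j = 1) (hrel : j * h ^ 2 = (h + 256) ^ 3) (h0 : h ≠ 0) : D h ≠ 0 := by
  intro hh
  have h256 : D (256 : F) = 0 := by exact_mod_cast hc 256
  have e1 : D (j * h ^ 2) = h ^ 2 := by
    rw [hmul, pow_two, hmul, hh, hj]; ring
  have ha : D (h + 256) = 0 := by rw [hadd, hh, h256, add_zero]
  have e2 : D ((h + 256) ^ 3) = 0 := by
    have e : (h + 256) ^ 3 = (h + 256) * ((h + 256) * (h + 256)) := by ring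
    rw [e, hmul, hmul, ha]; ring
  rw [hrel, e2] at e1
  exact h0 (pow_eq_zero_iff (by norm_num) |>.mp e1.symm)

/-- `D j = 1`, `j h³ = (h + 27)(h + 243)³`, `h ≠ 0` force `D h ≠ 0`. -/
theorem gh96_alg_ne3 (D : F → F) (hadd : ∀ a b, D (a + b) = D a + D b)
    (hmul : ∀ a b, D (a * b) = a * D b + b * D a) (hc : ∀ n : ℕ, D (n : F) = 0)
    (h j : F) (hj : D j = 1) (hrel : j * h ^ 3 = (h + 27) * (h + 243) ^ 3) (h0 : h ≠ 0) :
    D h ≠ 0 := by
  intro hh
  have h27 : D (27 : F) = 0 := by exact_mod_cast hc 27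
  have h243 : D (243 : F) = 0 := by exact_mod_cast hc 243
  have e1 : D (j * h ^ 3) = h ^ 3 := by
    have e : h ^ 3 = h * (h * h) := by ring
    rw [hmul, e, hmul, hmul, hh, hj]; ring
  have ha : D (h + 27) = 0 := by rw [hadd, hh, h27, add_zero]
  have hb : D (h + 243) = 0 := by rw [hadd, hh, h243, add_zero]
  have e2 : D ((h + 27) * (h + 243) ^ 3) = 0 := by
    have e : (h + 243) ^ 3 = (h + 243) * ((h + 243) * (h + 243)) := by ring
    rw [hmul, e, hmul, hmul, ha, hb]; ring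
  rw [hrel, e2] at e1
  exact h0 (pow_eq_zero_iff (by norm_num) |>.mp e1.symm)

end Abstract

section Concrete

variable (K : Type) [Field K] [CharZero K] (N : ℕ) [NeZero N]

theorem gh96_Dx_natCast (x : ↥(modularFunctionFieldFullC K N)) (n : ℕ) :
    tf69_Dx K N x (n : ↥(modularFunctionFieldFullC K N)) = 0 := by
  have h := tf69_Dx_algebraMap K N x (n : K)
  rwa [map_natCast] at h

theorem gh96_theta_J_ne :
    partC_theta ((ck11_j K N : ↥(modularFunctionFieldFullC K N)) : LaurentSeries K) ≠ 0 := by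
  rw [ck11_j_coe]
  exact dq56_theta_J_ne_zero K

theorem gh96_ne_of_Dx_ne (x f : ↥(modularFunctionFieldFullC K N))
    (h : tf69_Dx K N x f ≠ 0) : partC_theta (f : LaurentSeries K) ≠ 0 := by
  intro h0
  apply h
  apply Subtype.ext
  rw [tf69_Dx_coe, h0, zero_div]
  rfl

/-- `θ h₂ ≠ 0`. -/
theorem gh96_theta_h2 (h2 : 2 ∣ N) :
    partC_theta ((pk85_h2 K N h2 : ↥(modularFunctionFieldFullC K N)) : LaurentSeries K) ≠ 0 := by
  apply gh96_ne_of_Dx_ne K N (ck11_j K N)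
  exact gh96_alg_ne2 (tf69_Dx K N (ck11_j K N)) (tf69_Dx_add K N _) (tf69_Dx_mul K N _)
    (gh96_Dx_natCast K N _) (pk85_h2 K N h2) (ck11_j K N)
    (tf69_Dx_self K N _ (gh96_theta_J_ne K N)) (pk85_h2_rel K N h2)
    (fun h0 => pk85_h2_transcendental K N h2 (by rw [h0]; exact isAlgebraic_zero))

/-- `θ h₃ ≠ 0`. -/
theorem gh96_theta_h3 (h3 : 3 ∣ N) :
    partC_theta ((pk85_h3 K N h3 : ↥(modularFunctionFieldFullC K N)) : LaurentSeries K) ≠ 0 := by
  apply gh96_ne_of_Dx_ne K N (ck11_j K N)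
  exact gh96_alg_ne3 (tf69_Dx K N (ck11_j K N)) (tf69_Dx_add K N _) (tf69_Dx_mul K N _)
    (gh96_Dx_natCast K N _) (pk85_h3 K N h3) (ck11_j K N)
    (tf69_Dx_self K N _ (gh96_theta_J_ne K N)) (pk85_h3_rel K N h3)
    (fun h0 => pk85_h3_transcendental K N h3 (by rw [h0]; exact isAlgebraic_zero))

/-- **`G_{h₂} = 1 / (h₂⁴ (h₂ + 64)³)`.** -/
theorem gh96_G_h2 (h2 : 2 ∣ N) :
    tg69_G K N (pk85_h2 K N h2) * (pk85_h2 K N h2 ^ 4 * (pk85_h2 K N h2 + 64) ^ 3) = 1 :=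
  gh96_alg2 (tf69_Dx K N (pk85_h2 K N h2)) (tf69_Dx_add K N _) (tf69_Dx_mul K N _)
    (gh96_Dx_natCast K N _) (pk85_h2 K N h2) (ck11_j K N) _
    (tf69_Dx_self K N _ (gh96_theta_h2 K N h2)) (pk85_h2_rel K N h2)
    (tg69_G_mul_J K N (pk85_h2 K N h2))

/-- **`G_{h₃} = 1 / (h₃³ (h₃ + 27)⁴)`.** -/
theorem gh96_G_h3 (h3 : 3 ∣ N) :
    tg69_G K N (pk85_h3 K N h3) * (pk85_h3 K N h3 ^ 3 * (pk85_h3 K N h3 + 27) ^ 4) = 1 :=
  gh96_alg3 (tf69_Dx K N (pk85_h3 K N h3)) (tf69_Dx_add K N _) (tf69_Dx_mul K N _)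
    (gh96_Dx_natCast K N _)
    (by
      have h : (2 : ↥(modularFunctionFieldFullC K N)) =
          algebraMap K ↥(modularFunctionFieldFullC K N) 2 := (map_ofNat _ 2).symm
      rw [h]
      exact (_root_.map_ne_zero _).mpr two_ne_zero)
    (pk85_h3 K N h3) (ck11_j K N) _
    (tf69_Dx_self K N _ (gh96_theta_h3 K N h3)) (pk85_h3_rel K N h3)
    (tg69_G_mul_J K N (pk85_h3 K N h3))

/-- `G_{h₂} (θ h₂)⁶ = Δ` (the hypothesis `hg` of `c2x11_mid_dvd` for `x = h₂`). -/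
theorem gh96_G_theta_h2 (h2 : 2 ∣ N) :
    ((tg69_G K N (pk85_h2 K N h2) : ↥(modularFunctionFieldFullC K N)) : LaurentSeries K) *
      partC_theta ((pk85_h2 K N h2 : ↥(modularFunctionFieldFullC K N)) : LaurentSeries K) ^ 6 =
        DeltaSer K :=
  tg69_G_mul_theta K N _ (gh96_theta_h2 K N h2)

/-- `G_{h₃} (θ h₃)⁶ = Δ` (the hypothesis `hg` of `c2x11_mid_dvd` for `x = h₃`). -/
theorem gh96_G_theta_h3 (h3 : 3 ∣ N) :
    ((tg69_G K N (pk85_h3 K N h3) : ↥(modularFunctionFieldFullC K N)) : LaurentSeries K) *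
      partC_theta ((pk85_h3 K N h3 : ↥(modularFunctionFieldFullC K N)) : LaurentSeries K) ^ 6 =
        DeltaSer K :=
  tg69_G_mul_theta K N _ (gh96_theta_h3 K N h3)

variable (q : ℕ) [NeZero q]

/-- The identity of `gh96_G_h2` at level `N q q`, after `α₂ ∘ α₁`. -/
theorem gh96_alpha_G_h2 (h2 : 2 ∣ N) :
    al97L_alpha K (N * q) q (al97L_alpha K N q (tg69_G K N (pk85_h2 K N h2))) *
      (pk85_h2 K (N * q * q) ((h2.mul_right q).mul_right q) ^ 4 *
        (pk85_h2 K (N * q * q) ((h2.mul_right q).mul_right q) + 64) ^ 3) = 1 := by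
  have h := congrArg (fun y => al97L_alpha K (N * q) q (al97L_alpha K N q y)) (gh96_G_h2 K N h2)
  simp only [map_mul, map_pow, map_add, map_one, map_ofNat] at h
  have e1 : al97L_alpha K N q (pk85_h2 K N h2) = pk85_h2 K (N * q) (h2.mul_right q) := by
    apply Subtype.ext
    rw [al97L_alpha_coe, pk85_h2_coe, pk85_h2_coe]
  have e2 : al97L_alpha K (N * q) q (pk85_h2 K (N * q) (h2.mul_right q)) =
      pk85_h2 K (N * q * q) ((h2.mul_right q).mul_right q) := by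
    apply Subtype.ext
    rw [al97L_alpha_coe, pk85_h2_coe, pk85_h2_coe]
  rw [e1, e2] at h
  exact h

/-- The identity of `gh96_G_h3` at level `N q q`, after `α₂ ∘ α₁`. -/
theorem gh96_alpha_G_h3 (h3 : 3 ∣ N) :
    al97L_alpha K (N * q) q (al97L_alpha K N q (tg69_G K N (pk85_h3 K N h3))) *
      (pk85_h3 K (N * q * q) ((h3.mul_right q).mul_right q) ^ 3 *
        (pk85_h3 K (N * q * q) ((h3.mul_right q).mul_right q) + 27) ^ 4) = 1 := by
  have h := congrArg (fun y => al97L_alpha K (N * q) q (al97L_alpha K N q y)) (gh96_G_h3 K N h3)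
  simp only [map_mul, map_pow, map_add, map_one, map_ofNat] at h
  have e1 : al97L_alpha K N q (pk85_h3 K N h3) = pk85_h3 K (N * q) (h3.mul_right q) := by
    apply Subtype.ext
    rw [al97L_alpha_coe, pk85_h3_coe, pk85_h3_coe]
  have e2 : al97L_alpha K (N * q) q (pk85_h3 K (N * q) (h3.mul_right q)) =
      pk85_h3 K (N * q * q) ((h3.mul_right q).mul_right q) := by
    apply Subtype.ext
    rw [al97L_alpha_coe, pk85_h3_coe, pk85_h3_coe]
  rw [e1, e2] at h
  exact h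

end Concrete

end Fermat.Agent.S36
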