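import Fermat.Agent.S36.RigidSpecInst96

/-!
# S36 lab (helper96), row 599 complement: the instances of `rsb96_gauss` at the canonical charts
of a good level, and the Hauptmodul instances needed for `q = 2, 3`

`M` a good level (`M` a unit of `R`), `h = pk85_h3 K M h3` (`3 ∣ M`) or `pk85_h2 K M h2`
(`2 ∣ M`), charts `pk15_chart R {h}` and `pk15_chart R {h⁻¹}`, `V = cm85_Vinf M`.

* `rsh96_ord_add_const` : at a zero of `x`, the function `x + c` (`c ≠ 0` constant) is a unit.
* `rsh96_ord_h3` : if `ν₃(M) = 0`, every zero of `h₃ + 27` has order exactly `3`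
  (`J h₃³ = (h₃ + 27)(h₃ + 243)³`); `rsh96_ord_h2` : if `ν₂(M) = 0`, every zero of `h₂ + 64` has
  order exactly `2` (`(J - 1728) h₂² = (h₂ + 64)(h₂ - 512)²`).
* `rsh96_level3`, `rsh96_level2` : `rsb96_gauss` at both charts, all chart hypotheses discharged
  (`cm85_facts_level3/2`, `cm15_base_sat_level3/2`, `sm79_level3/2`).
* `rsh96_h3_unit`, `rsh96_h2_unit` : `h₃ + 27`, `h₂ + 64` are units of the Gauss valuation ring.
* `rsh96_h3`, `rsh96_h2` : `s * (h₃ + 27) = a * b ^ 3`, `s * (h₂ + 64) = a * b ^ 2` at the closed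
  points of the charts.  In residue characteristic `2`: `jbar = (hbar + 1)^4 / hbar^3`, so
  `ord_x(jbar) ≥ 12`; in residue characteristic `3`: `jbar = (hbar + 1)^3 / hbar^2`, so
  `ord_x(jbar) ≥ 6` (the values `e = 12`, `e = 6` wanted by the `U`-route when `q = 2, 3`).

All names are prefixed `rsh96_`.
-/

set_option autoImplicit false
set_option linter.unusedSectionVars false
set_option linter.style.haveILetI false

open ModularCurve AlgebraicCurve

namespace Fermat.Agent.S36

open Fermat.Agent.S18 Fermat.Agent.S24 Fermat.Agent.S34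

local notation "Qb" => AlgebraicClosure ℚ

section rsh96_ord

variable {K F : Type*} [Field K] [Field F] [Algebra K F]

/-- At a zero of `x`, the function `x + c` (`c` a nonzero constant) has order `0`. -/
theorem rsh96_ord_add_const (P : Place K F) (x : F) (hx : 0 < P.ord x) (c : K) (hc : c ≠ 0) :
    P.ord (x + algebraMap K F c) = 0 := by
  have hx0 : x ≠ 0 := by
    rintro rfl
    rw [P.ord_zero] at hx
    exact lt_irrefl _ hx
  have ha0 : algebraMap K F c ≠ 0 := (map_ne_zero (algebraMap K F)).mpr hc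
  have ha : P.ord (algebraMap K F c) = 0 := wp1_ord_algebraMap P c
  have hneg : P.ord (-x) = P.ord x := by
    have h1 : -x = x * algebraMap K F (-1) := by
      rw [map_neg, map_one]; ring
    have h2 : algebraMap K F (-1 : K) ≠ 0 := (map_ne_zero (algebraMap K F)).mpr (by norm_num)
    rw [h1, P.ord_mul hx0 h2, wp1_ord_algebraMap, add_zero]
  have hsum : x + algebraMap K F c ≠ 0 := by
    intro h0
    have h1 : x = algebraMap K F (-c) := by
      rw [map_neg]
      exact eq_neg_of_add_eq_zero_left h0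
    rw [h1, wp1_ord_algebraMap] at hx
    exact lt_irrefl _ hx
  have hlow := wp1_ord_add P x (algebraMap K F c) hsum hx0 ha0
  rw [ha] at hlow
  have hnx0 : -x ≠ 0 := neg_ne_zero.mpr hx0
  have hup := wp1_ord_add P (x + algebraMap K F c) (-x)
    (by rw [add_neg_cancel_comm]; exact ha0) hsum hnx0
  rw [add_neg_cancel_comm, ha, hneg] at hup
  have h3 : 0 ≤ P.ord (x + algebraMap K F c) := by
    rcases le_total (P.ord x) 0 with h | h
    · omega
    · rwa [min_eq_right h] at hlow
  rcases le_total (P.ord (x + algebraMap K F c)) (P.ord x) with h | h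
  · rw [min_eq_left h] at hup
    omega
  · rw [min_eq_right h] at hup
    omega

end rsh96_ord

section rsh96_char0

variable (K : Type) [Field K] [CharZero K] [Algebra K Qb] (M : ℕ) [NeZero M]

/-- If `ν₃(M) = 0`, every zero of `h₃ + 27` on `F_K(M) / K` has order exactly `3`. -/
theorem rsh96_ord_h3 (h3 : 3 ∣ M) (hν : nuThree M = 0)
    (P : Place K ↥(modularFunctionFieldFullC K M))
    (hpos : 0 < P.ord (pk85_h3 K M h3 + 27)) : P.ord (pk85_h3 K M h3 + 27) = 3 := by
  set h := pk85_h3 K M h3 with hh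
  have htr : Transcendental K h := pk85_h3_transcendental K M h3
  have hconst : ∀ c : K, h + algebraMap K ↥(modularFunctionFieldFullC K M) c ≠ 0 := by
    intro c h0
    apply htr
    have h1 : h = algebraMap K ↥(modularFunctionFieldFullC K M) (-c) := by
      rw [map_neg]
      exact eq_neg_of_add_eq_zero_left h0
    rw [h1]
    exact isAlgebraic_algebraMap _
  have hh0 : h ≠ 0 := fun h0 => htr (by rw [h0]; exact isAlgebraic_zero)
  have e1 : h = (h + 27) + algebraMap K ↥(modularFunctionFieldFullC K M) (-27) := by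
    rw [map_neg, map_ofNat]; ring
  have e2 : h + 243 = (h + 27) + algebraMap K ↥(modularFunctionFieldFullC K M) 216 := by
    rw [map_ofNat]; ring
  have o1 : P.ord h = 0 := by
    rw [e1]
    exact rsh96_ord_add_const P _ hpos (-27) (by norm_num)
  have o2 : P.ord (h + 243) = 0 := by
    rw [e2]
    exact rsh96_ord_add_const P _ hpos 216 (by norm_num)
  have h243 : h + 243 ≠ 0 := by
    have := hconst 243
    rwa [map_ofNat] at this
  have h27 : h + 27 ≠ 0 := by
    have := hconst 27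
    rwa [map_ofNat] at this
  have hJ0 : relimc_J K M ≠ 0 :=
    fun h0 => relimc_J_transcendental K M (by rw [h0]; exact isAlgebraic_zero)
  have hrel : relimc_J K M * h ^ 3 = (h + 27) * (h + 243) ^ 3 := pk85_h3_rel K M h3
  have hord := congrArg P.ord hrel
  rw [P.ord_mul hJ0 (pow_ne_zero 3 hh0), P.ord_mul h27 (pow_ne_zero 3 h243), pd69_ord_pow,
    pd69_ord_pow, o1, o2] at hord
  simp only [mul_zero, add_zero] at hord
  have hJpos : 0 < P.ord (relimc_J K M) := by rw [hord]; exact hpos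
  rw [← hord]
  exact rso96_ord_J K M hν P hJpos

/-- If `ν₂(M) = 0`, every zero of `h₂ + 64` on `F_K(M) / K` has order exactly `2`. -/
theorem rsh96_ord_h2 (h2 : 2 ∣ M) (hν : nuTwo M = 0)
    (P : Place K ↥(modularFunctionFieldFullC K M))
    (hpos : 0 < P.ord (pk85_h2 K M h2 + 64)) : P.ord (pk85_h2 K M h2 + 64) = 2 := by
  set h := pk85_h2 K M h2 with hh
  have htr : Transcendental K h := pk85_h2_transcendental K M h2
  have hconst : ∀ c : K, h + algebraMap K ↥(modularFunctionFieldFullC K M) c ≠ 0 := by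
    intro c h0
    apply htr
    have h1 : h = algebraMap K ↥(modularFunctionFieldFullC K M) (-c) := by
      rw [map_neg]
      exact eq_neg_of_add_eq_zero_left h0
    rw [h1]
    exact isAlgebraic_algebraMap _
  have hh0 : h ≠ 0 := fun h0 => htr (by rw [h0]; exact isAlgebraic_zero)
  have e1 : h = (h + 64) + algebraMap K ↥(modularFunctionFieldFullC K M) (-64) := by
    rw [map_neg, map_ofNat]; ring
  have e2 : h - 512 = (h + 64) + algebraMap K ↥(modularFunctionFieldFullC K M) (-576) := by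
    rw [map_neg, map_ofNat]; ring
  have o1 : P.ord h = 0 := by
    rw [e1]
    exact rsh96_ord_add_const P _ hpos (-64) (by norm_num)
  have o2 : P.ord (h - 512) = 0 := by
    rw [e2]
    exact rsh96_ord_add_const P _ hpos (-576) (by norm_num)
  have h512 : h - 512 ≠ 0 := by
    have := hconst (-512)
    rwa [map_neg, map_ofNat, ← sub_eq_add_neg] at this
  have h64 : h + 64 ≠ 0 := by
    have := hconst 64
    rwa [map_ofNat] at this
  have hJ0 : relimc_J K M - 1728 ≠ 0 := by
    intro h0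
    apply relimc_J_transcendental K M
    have h1 : relimc_J K M = algebraMap K ↥(modularFunctionFieldFullC K M) 1728 := by
      rw [map_ofNat]
      exact sub_eq_zero.mp h0
    rw [h1]
    exact isAlgebraic_algebraMap _
  have hrel0 : relimc_J K M * h ^ 2 = (h + 256) ^ 3 := pk85_h2_rel K M h2
  have hrel : (relimc_J K M - 1728) * h ^ 2 = (h + 64) * (h - 512) ^ 2 := by
    linear_combination hrel0
  have hord := congrArg P.ord hrel
  rw [P.ord_mul hJ0 (pow_ne_zero 2 hh0), P.ord_mul h64 (pow_ne_zero 2 h512), pd69_ord_pow,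
    pd69_ord_pow, o1, o2] at hord
  simp only [mul_zero, add_zero] at hord
  have hJpos : 0 < P.ord (relimc_J K M - 1728) := by rw [hord]; exact hpos
  rw [← hord]
  exact rso96_ord_J1728 K M hν P hJpos

end rsh96_char0

section rsh96_def

variable {R F : Type*} [CommRing R] [Field F] [Algebra R F]

/-- The conclusion of the specialisation lemma for the chart `pk15_chart R s`: at every closed
point `n` of the special fibre at which `f` is regular, `s' * f = a * b ^ m` with `s', a ∉ n`,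
and `b ∈ n` if `f` vanishes at `n`. -/
def rsh96_SpecAt (π : R) (s : Set F) (m : ℕ) (f : F) : Prop :=
  ∀ n : Ideal (pk15_chart R s), n.IsMaximal → algebraMap R (pk15_chart R s) π ∈ n →
    (∃ t : pk15_chart R s, t ∉ n ∧ (t : F) * f ∈ pk15_chart R s) →
    ∃ s' a b : pk15_chart R s, s' ∉ n ∧ a ∉ n ∧ (s' : F) * f = (a : F) * (b : F) ^ m ∧
      ((∃ t g : pk15_chart R s, t ∉ n ∧ g ∈ n ∧ (t : F) * f = g) → b ∈ n)

end rsh96_def

section rsh96_inst

variable {R K : Type} [CommRing R] [IsDomain R] [IsDiscreteValuationRing R] [Field K]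
  [NumberField K] [Algebra K Qb] [Algebra R K] [IsFractionRing R K] (M : ℕ) [NeZero M]
  [Algebra R ↥(modularFunctionFieldFullC K M)]
  [IsScalarTower R K ↥(modularFunctionFieldFullC K M)]

/-- **Level `3`, both charts**: the specialisation lemma with all chart hypotheses discharged. -/
theorem rsh96_level3 {π : R} (hπ : Irreducible π) (hMu : IsUnit (M : R)) (h3 : 3 ∣ M)
    (m : ℕ) (hm : 0 < m) (f : ↥(modularFunctionFieldFullC K M)) (hf : f ≠ 0)
    (hfV : f ∈ cm85_Vinf (K := K) M hπ) (hfV' : f⁻¹ ∈ cm85_Vinf (K := K) M hπ)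
    (hord : ∀ P : Place K ↥(modularFunctionFieldFullC K M), 0 < P.ord f → P.ord f = m) :
    rsh96_SpecAt π ({pk85_h3 K M h3} : Set ↥(modularFunctionFieldFullC K M)) m f ∧
    rsh96_SpecAt π ({(pk85_h3 K M h3)⁻¹} : Set ↥(modularFunctionFieldFullC K M)) m f := by
  haveI : Algebra.IsAlgebraic K Qb := cx_isAlgebraic_closure K
  obtain ⟨-, -, -, -, hhV, hhV', hN₁, hN₂, -, -, hfrac₁, hfrac₂, -⟩ :=
    cm85_facts_level3 (R := R) (K := K) M hπ h3
  obtain ⟨hs₁, hs₂, -⟩ := cm15_base_sat_level3 (R := R) (K := K) M hπ h3 hMu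
  obtain ⟨⟨hD₁, -⟩, ⟨hD₂, -⟩⟩ := sm79_level3 (R := R) K M hπ hMu h3
  refine ⟨fun n hn hπn hreg => ?_, fun n hn hπn hreg => ?_⟩
  · exact rsb96_gauss M hπ _ (fun g hg => by rw [Set.mem_singleton_iff.mp hg]; exact hhV)
      hN₁ hD₁ hfrac₁ hs₁ n hn hπn m hm f hf hfV hfV' hreg hord
  · exact rsb96_gauss M hπ _ (fun g hg => by rw [Set.mem_singleton_iff.mp hg]; exact hhV')
      hN₂ hD₂ hfrac₂ hs₂ n hn hπn m hm f hf hfV hfV' hreg hord

/-- **Level `2`, both charts**: the specialisation lemma with all chart hypotheses discharged. -/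
theorem rsh96_level2 {π : R} (hπ : Irreducible π) (hMu : IsUnit (M : R)) (h2 : 2 ∣ M)
    (m : ℕ) (hm : 0 < m) (f : ↥(modularFunctionFieldFullC K M)) (hf : f ≠ 0)
    (hfV : f ∈ cm85_Vinf (K := K) M hπ) (hfV' : f⁻¹ ∈ cm85_Vinf (K := K) M hπ)
    (hord : ∀ P : Place K ↥(modularFunctionFieldFullC K M), 0 < P.ord f → P.ord f = m) :
    rsh96_SpecAt π ({pk85_h2 K M h2} : Set ↥(modularFunctionFieldFullC K M)) m f ∧
    rsh96_SpecAt π ({(pk85_h2 K M h2)⁻¹} : Set ↥(modularFunctionFieldFullC K M)) m f := by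
  haveI : Algebra.IsAlgebraic K Qb := cx_isAlgebraic_closure K
  obtain ⟨-, -, -, -, hhV, hhV', hN₁, hN₂, -, -, hfrac₁, hfrac₂, -⟩ :=
    cm85_facts_level2 (R := R) (K := K) M hπ h2
  obtain ⟨hs₁, hs₂, -⟩ := cm15_base_sat_level2 (R := R) (K := K) M hπ h2 hMu
  obtain ⟨⟨hD₁, -⟩, ⟨hD₂, -⟩⟩ := sm79_level2 (R := R) K M hπ hMu h2
  refine ⟨fun n hn hπn hreg => ?_, fun n hn hπn hreg => ?_⟩
  · exact rsb96_gauss M hπ _ (fun g hg => by rw [Set.mem_singleton_iff.mp hg]; exact hhV)
      hN₁ hD₁ hfrac₁ hs₁ n hn hπn m hm f hf hfV hfV' hreg hord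
  · exact rsb96_gauss M hπ _ (fun g hg => by rw [Set.mem_singleton_iff.mp hg]; exact hhV')
      hN₂ hD₂ hfrac₂ hs₂ n hn hπn m hm f hf hfV hfV' hreg hord

/-- `J ≠ 0` and `J - 1728 ≠ 0`. -/
theorem rsh96_J_ne : relimc_J K M ≠ 0 ∧ relimc_J K M - 1728 ≠ 0 := by
  refine ⟨fun h => relimc_J_transcendental K M (by rw [h]; exact isAlgebraic_zero), fun h => ?_⟩
  apply relimc_J_transcendental K M
  have h1 : relimc_J K M = algebraMap K ↥(modularFunctionFieldFullC K M) 1728 := by
    rw [map_ofNat]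
    exact sub_eq_zero.mp h
  rw [h1]
  exact isAlgebraic_algebraMap _

/-- **`J = unit * c ^ 3`** at both charts of a good level with `3 ∣ M`, `ν₃(M) = 0`. -/
theorem rsh96_J_level3 {π : R} (hπ : Irreducible π) (hMu : IsUnit (M : R)) (h3 : 3 ∣ M)
    (hν : nuThree M = 0) :
    rsh96_SpecAt π ({pk85_h3 K M h3} : Set ↥(modularFunctionFieldFullC K M)) 3 (relimc_J K M) ∧
    rsh96_SpecAt π ({(pk85_h3 K M h3)⁻¹} : Set ↥(modularFunctionFieldFullC K M)) 3
      (relimc_J K M) :=
  rsh96_level3 (K := K) M hπ hMu h3 3 (by norm_num) (relimc_J K M) (rsh96_J_ne M).1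
    (rsb96_J_unit M hπ).1 (rsb96_J_unit M hπ).2
    (fun P hP => by rw [rso96_ord_J K M hν P hP]; rfl)

/-- **`J - 1728 = unit * c ^ 2`** at both charts of a good level with `3 ∣ M`, `ν₂(M) = 0`. -/
theorem rsh96_J1728_level3 {π : R} (hπ : Irreducible π) (hMu : IsUnit (M : R)) (h3 : 3 ∣ M)
    (hν : nuTwo M = 0) :
    rsh96_SpecAt π ({pk85_h3 K M h3} : Set ↥(modularFunctionFieldFullC K M)) 2
      (relimc_J K M - 1728) ∧
    rsh96_SpecAt π ({(pk85_h3 K M h3)⁻¹} : Set ↥(modularFunctionFieldFullC K M)) 2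
      (relimc_J K M - 1728) :=
  rsh96_level3 (K := K) M hπ hMu h3 2 (by norm_num) (relimc_J K M - 1728) (rsh96_J_ne M).2
    (rsb96_J1728_unit M hπ).1 (rsb96_J1728_unit M hπ).2
    (fun P hP => by rw [rso96_ord_J1728 K M hν P hP]; rfl)

/-- **`J = unit * c ^ 3`** at both charts of a good level with `2 ∣ M`, `ν₃(M) = 0`. -/
theorem rsh96_J_level2 {π : R} (hπ : Irreducible π) (hMu : IsUnit (M : R)) (h2 : 2 ∣ M)
    (hν : nuThree M = 0) :
    rsh96_SpecAt π ({pk85_h2 K M h2} : Set ↥(modularFunctionFieldFullC K M)) 3 (relimc_J K M) ∧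
    rsh96_SpecAt π ({(pk85_h2 K M h2)⁻¹} : Set ↥(modularFunctionFieldFullC K M)) 3
      (relimc_J K M) :=
  rsh96_level2 (K := K) M hπ hMu h2 3 (by norm_num) (relimc_J K M) (rsh96_J_ne M).1
    (rsb96_J_unit M hπ).1 (rsb96_J_unit M hπ).2
    (fun P hP => by rw [rso96_ord_J K M hν P hP]; rfl)

/-- **`J - 1728 = unit * c ^ 2`** at both charts of a good level with `2 ∣ M`, `ν₂(M) = 0`. -/
theorem rsh96_J1728_level2 {π : R} (hπ : Irreducible π) (hMu : IsUnit (M : R)) (h2 : 2 ∣ M)
    (hν : nuTwo M = 0) :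
    rsh96_SpecAt π ({pk85_h2 K M h2} : Set ↥(modularFunctionFieldFullC K M)) 2
      (relimc_J K M - 1728) ∧
    rsh96_SpecAt π ({(pk85_h2 K M h2)⁻¹} : Set ↥(modularFunctionFieldFullC K M)) 2
      (relimc_J K M - 1728) :=
  rsh96_level2 (K := K) M hπ hMu h2 2 (by norm_num) (relimc_J K M - 1728) (rsh96_J_ne M).2
    (rsb96_J1728_unit M hπ).1 (rsb96_J1728_unit M hπ).2
    (fun P hP => by rw [rso96_ord_J1728 K M hν P hP]; rfl)

/-- `h₃ + 27` is a unit of the Gauss valuation ring. -/
theorem rsh96_h3_unit {π : R} (hπ : Irreducible π) (h3 : 3 ∣ M) :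
    pk85_h3 K M h3 + 27 ∈ cm85_Vinf (K := K) M hπ ∧
      (pk85_h3 K M h3 + 27)⁻¹ ∈ cm85_Vinf (K := K) M hπ := by
  refine rsb96_gauss_unit M hπ (pk85_h3 K M h3 + 27) (h34_h3R R + 27) ?_ ?_
  · have h2 : ((27 : ↥(modularFunctionFieldFullC K M)) : LaurentSeries K) = 27 :=
      map_ofNat (algebraMap ↥(modularFunctionFieldFullC K M) (LaurentSeries K)) 27
    have h1 : ((pk85_h3 K M h3 + 27 : ↥(modularFunctionFieldFullC K M)) : LaurentSeries K) =
        h34_h3R K + 27 := by
      rw [← pk85_h3_coe K M h3, ← h2]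
      rfl
    rw [h1, map_add, h34_coeffMap_h3R, map_ofNat]
  · rw [map_add, h34_coeffMap_h3R, map_ofNat]
    intro h0
    apply h34_h3R_transcendental (IsLocalRing.ResidueField R)
    have h1 : h34_h3R (IsLocalRing.ResidueField R) =
        algebraMap (IsLocalRing.ResidueField R) (LaurentSeries (IsLocalRing.ResidueField R))
          (-27) := by
      rw [map_neg, map_ofNat]
      exact eq_neg_of_add_eq_zero_left h0
    rw [h1]
    exact isAlgebraic_algebraMap _

/-- `h₂ + 64` is a unit of the Gauss valuation ring. -/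
theorem rsh96_h2_unit {π : R} (hπ : Irreducible π) (h2 : 2 ∣ M) :
    pk85_h2 K M h2 + 64 ∈ cm85_Vinf (K := K) M hπ ∧
      (pk85_h2 K M h2 + 64)⁻¹ ∈ cm85_Vinf (K := K) M hπ := by
  refine rsb96_gauss_unit M hπ (pk85_h2 K M h2 + 64) (h70_h2 R + 64) ?_ ?_
  · have h2' : ((64 : ↥(modularFunctionFieldFullC K M)) : LaurentSeries K) = 64 :=
      map_ofNat (algebraMap ↥(modularFunctionFieldFullC K M) (LaurentSeries K)) 64
    have h1 : ((pk85_h2 K M h2 + 64 : ↥(modularFunctionFieldFullC K M)) : LaurentSeries K) =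
        h70_h2 K + 64 := by
      rw [← pk85_h2_coe K M h2, ← h2']
      rfl
    rw [h1, map_add, h70_coeffMap_h2, map_ofNat]
  · rw [map_add, h70_coeffMap_h2, map_ofNat]
    intro h0
    apply h70_h2_transcendental (IsLocalRing.ResidueField R)
    have h1 : h70_h2 (IsLocalRing.ResidueField R) =
        algebraMap (IsLocalRing.ResidueField R) (LaurentSeries (IsLocalRing.ResidueField R))
          (-64) := by
      rw [map_neg, map_ofNat]
      exact eq_neg_of_add_eq_zero_left h0
    rw [h1]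
    exact isAlgebraic_algebraMap _

/-- **`h₃ + 27 = unit * c ^ 3`** at the closed points of both charts of a good level `M`,
`3 ∣ M`, `ν₃(M) = 0`. -/
theorem rsh96_h3 {π : R} (hπ : Irreducible π) (hMu : IsUnit (M : R)) (h3 : 3 ∣ M)
    (hν : nuThree M = 0) :
    rsh96_SpecAt π ({pk85_h3 K M h3} : Set ↥(modularFunctionFieldFullC K M)) 3
      (pk85_h3 K M h3 + 27) ∧
    rsh96_SpecAt π ({(pk85_h3 K M h3)⁻¹} : Set ↥(modularFunctionFieldFullC K M)) 3
      (pk85_h3 K M h3 + 27) :=
  rsh96_level3 (K := K) M hπ hMu h3 3 (by norm_num) (pk85_h3 K M h3 + 27)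
    (fun h0 => by
      apply pk85_h3_transcendental K M h3
      have h1 : pk85_h3 K M h3 = algebraMap K ↥(modularFunctionFieldFullC K M) (-27) := by
        rw [map_neg, map_ofNat]
        exact eq_neg_of_add_eq_zero_left h0
      rw [h1]
      exact isAlgebraic_algebraMap _)
    (rsh96_h3_unit M hπ h3).1 (rsh96_h3_unit M hπ h3).2
    (fun P hP => by rw [rsh96_ord_h3 K M h3 hν P hP]; rfl)

/-- **`h₂ + 64 = unit * c ^ 2`** at the closed points of both charts of a good level `M`,
`2 ∣ M`, `ν₂(M) = 0`. -/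
theorem rsh96_h2 {π : R} (hπ : Irreducible π) (hMu : IsUnit (M : R)) (h2 : 2 ∣ M)
    (hν : nuTwo M = 0) :
    rsh96_SpecAt π ({pk85_h2 K M h2} : Set ↥(modularFunctionFieldFullC K M)) 2
      (pk85_h2 K M h2 + 64) ∧
    rsh96_SpecAt π ({(pk85_h2 K M h2)⁻¹} : Set ↥(modularFunctionFieldFullC K M)) 2
      (pk85_h2 K M h2 + 64) :=
  rsh96_level2 (K := K) M hπ hMu h2 2 (by norm_num) (pk85_h2 K M h2 + 64)
    (fun h0 => by
      apply pk85_h2_transcendental K M h2
      have h1 : pk85_h2 K M h2 = algebraMap K ↥(modularFunctionFieldFullC K M) (-64) := by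
        rw [map_neg, map_ofNat]
        exact eq_neg_of_add_eq_zero_left h0
      rw [h1]
      exact isAlgebraic_algebraMap _)
    (rsh96_h2_unit M hπ h2).1 (rsh96_h2_unit M hπ h2).2
    (fun P hP => by rw [rsh96_ord_h2 K M h2 hν P hP]; rfl)

end rsh96_inst

end Fermat.Agent.S36
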