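import Fermat.Agent.S36.FrameExists85
import Fermat.Agent.S36.CoreIface57

/-!
# S36 lab (helper85), (HF) BINDER: `ci57x_HF` on the canonical frame of level `M' q q`

Unramified base in the literal shape of `s36i62_Core` / `ci57x_pkg_core`: `π = ((q : ℕ) : R)`
irreducible, every `k` prime to `q` a unit of `R`; `q` prime, `q ∤ M'`, `p₀ ∣ M'` (`p₀ ∈ {2, 3}`).

* `hf85_HF_level2/3` : `ci57x_HF K (q : R) h V₁ V₂ V₃` for `h = pk85_h2 / pk85_h3`,
  `V₁ = cm85_Vinf (M' q q)`, `V₃ = nsb86_V3 M' q` and ANY `V₂` with the facts `hV₂`, `hπ₂`, `hs`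
  of `v2e46_exists` (outputs 1, 2, 4);
* `hf85_exists_level2/3` : there is such a `V₂` (with all four facts of `v2e46_exists`), and
  (HF) holds for it;
* `hf85_level_cast` : a level `N` with `q ∣ N`, `¬ q ^ 2 ∣ N` is `M' * q` with `q ∤ M'`
  (and `p₀ ∣ M'` for a prime `p₀ ≠ q` dividing `N`).

All names are prefixed `hf85_`.
-/

set_option autoImplicit false
set_option linter.unusedSectionVars false
set_option linter.style.haveILetI false
set_option linter.style.longLine false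

open ModularCurve IntermediateField Polynomial

namespace Fermat.Agent.S36

open Fermat.Agent.S18 Fermat.Agent.S24 Fermat.Agent.S37 Fermat.Agent.S34

local notation "Q̄" => AlgebraicClosure ℚ

/-- A level `N` with `q ∥ N` is `M' * q`, `q ∤ M'`; a prime `p₀ ≠ q` dividing `N` divides `M'`. -/
theorem hf85_level_cast (N q : ℕ) (hq : q.Prime) (hqN : q ∣ N) (hq2 : ¬ q ^ 2 ∣ N) :
    ∃ M' : ℕ, N = M' * q ∧ ¬ q ∣ M' ∧
      ∀ p₀ : ℕ, p₀.Prime → p₀ ≠ q → p₀ ∣ N → p₀ ∣ M' := by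
  obtain ⟨M', rfl⟩ := hqN
  refine ⟨M', Nat.mul_comm q M', fun hd => hq2 ?_, fun p₀ hp₀ hne hdvd => ?_⟩
  · obtain ⟨t, rfl⟩ := hd
    exact ⟨t, by ring⟩
  · rcases (Nat.Prime.dvd_mul hp₀).mp hdvd with h | h
    · exact absurd ((Nat.prime_dvd_prime_iff_eq hp₀ hq).mp h) hne
    · exact h

section hf85

variable {R K : Type} [CommRing R] [IsDomain R] [IsDiscreteValuationRing R] [Field K]
  [NumberField K] [Algebra K Q̄] [Algebra R K] [IsFractionRing R K] (M' q : ℕ) [NeZero M']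
  [NeZero q]

/-- **(HF)** on the canonical frame, Hauptmodul of level 2, `V₂` a parameter. -/
theorem hf85_HF_level2
    [Algebra R ↥(modularFunctionFieldFullC K (M' * q * q))]
    [IsScalarTower R K ↥(modularFunctionFieldFullC K (M' * q * q))]
    (hq : q.Prime) (hM' : ¬ q ∣ M') (hπ : Irreducible ((q : ℕ) : R))
    (hunit : ∀ k : ℕ, Nat.Coprime k q → IsUnit (k : R)) (h2 : 2 ∣ M')
    (V₂ : ValuationSubring ↥(modularFunctionFieldFullC K (M' * q * q)))
    (hV₂ : ∀ c ∈ cm85_Vinf (K := K) (M' * q) hπ, al97L_alpha K (M' * q) q c ∈ V₂)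
    (hπ₂ : (algebraMap K ↥(modularFunctionFieldFullC K (M' * q * q))
      (algebraMap R K ((q : ℕ) : R)))⁻¹ ∉ V₂)
    (hs : V₂.valuation (v2g64_s K M' q) ^ (q - 1) =
      V₂.valuation (algebraMap K ↥(modularFunctionFieldFullC K (M' * q * q))
        (algebraMap R K ((q : ℕ) : R)))) :
    ci57x_HF K ((q : ℕ) : R)
      (pk85_h2 K (M' * q * q) (h2.trans ((dvd_mul_right M' q).trans (dvd_mul_right (M' * q) q))))
      (cm85_Vinf (K := K) (M' * q * q) hπ) V₂ (nsb86_V3 (K := K) M' q hq hM' hπ) := by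
  haveI : Algebra.IsAlgebraic K Q̄ := fs85_isAlgebraic K
  have hMu : IsUnit (M' : R) :=
    hunit M' ((Nat.coprime_comm.mp ((Nat.Prime.coprime_iff_not_dvd hq).mpr hM')))
  have h := fb85_frameV3_level2 M' q hq hM' hπ hπ.not_isUnit hMu h2 V₂ hV₂ hπ₂ hs
  exact ⟨h.1, h.2.1⟩

/-- **(HF)** on the canonical frame, Hauptmodul of level 3, `V₂` a parameter. -/
theorem hf85_HF_level3
    [Algebra R ↥(modularFunctionFieldFullC K (M' * q * q))]
    [IsScalarTower R K ↥(modularFunctionFieldFullC K (M' * q * q))]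
    (hq : q.Prime) (hM' : ¬ q ∣ M') (hπ : Irreducible ((q : ℕ) : R))
    (hunit : ∀ k : ℕ, Nat.Coprime k q → IsUnit (k : R)) (h3 : 3 ∣ M')
    (V₂ : ValuationSubring ↥(modularFunctionFieldFullC K (M' * q * q)))
    (hV₂ : ∀ c ∈ cm85_Vinf (K := K) (M' * q) hπ, al97L_alpha K (M' * q) q c ∈ V₂)
    (hπ₂ : (algebraMap K ↥(modularFunctionFieldFullC K (M' * q * q))
      (algebraMap R K ((q : ℕ) : R)))⁻¹ ∉ V₂)
    (hs : V₂.valuation (v2g64_s K M' q) ^ (q - 1) =
      V₂.valuation (algebraMap K ↥(modularFunctionFieldFullC K (M' * q * q))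
        (algebraMap R K ((q : ℕ) : R)))) :
    ci57x_HF K ((q : ℕ) : R)
      (pk85_h3 K (M' * q * q) (h3.trans ((dvd_mul_right M' q).trans (dvd_mul_right (M' * q) q))))
      (cm85_Vinf (K := K) (M' * q * q) hπ) V₂ (nsb86_V3 (K := K) M' q hq hM' hπ) := by
  haveI : Algebra.IsAlgebraic K Q̄ := fs85_isAlgebraic K
  have hMu : IsUnit (M' : R) :=
    hunit M' ((Nat.coprime_comm.mp ((Nat.Prime.coprime_iff_not_dvd hq).mpr hM')))
  have h := fb85_frameV3_level3 M' q hq hM' hπ hπ.not_isUnit hMu h3 V₂ hV₂ hπ₂ hs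
  exact ⟨h.1, h.2.1⟩

/-- **(HF), existence**, level 2: a `V₂` with the four facts of `v2e46_exists` and (HF). -/
theorem hf85_exists_level2
    [Algebra R ↥(modularFunctionFieldFullC K (M' * q * q))]
    [IsScalarTower R K ↥(modularFunctionFieldFullC K (M' * q * q))]
    (hq : q.Prime) (hM' : ¬ q ∣ M') (hπ : Irreducible ((q : ℕ) : R))
    (hunit : ∀ k : ℕ, Nat.Coprime k q → IsUnit (k : R)) (h2 : 2 ∣ M') :
    ∃ V₂ : ValuationSubring ↥(modularFunctionFieldFullC K (M' * q * q)),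
      ((∀ c ∈ cm85_Vinf (K := K) (M' * q) hπ, al97L_alpha K (M' * q) q c ∈ V₂) ∧
        (algebraMap K ↥(modularFunctionFieldFullC K (M' * q * q))
          (algebraMap R K ((q : ℕ) : R)))⁻¹ ∉ V₂ ∧
        cm85_Vinf (K := K) (M' * q * q) hπ ≠ V₂ ∧
        V₂.valuation (v2g64_s K M' q) ^ (q - 1) =
          V₂.valuation (algebraMap K ↥(modularFunctionFieldFullC K (M' * q * q))
            (algebraMap R K ((q : ℕ) : R)))) ∧
      ci57x_HF K ((q : ℕ) : R)
        (pk85_h2 K (M' * q * q)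
          (h2.trans ((dvd_mul_right M' q).trans (dvd_mul_right (M' * q) q))))
        (cm85_Vinf (K := K) (M' * q * q) hπ) V₂ (nsb86_V3 (K := K) M' q hq hM' hπ) := by
  haveI : Algebra.IsAlgebraic K Q̄ := fs85_isAlgebraic K
  obtain ⟨V₂, hV₂, hπ₂, hne, hs⟩ :=
    v2e46_exists (K := K) (algebraMap K Q̄) M' q hq hM' hπ (Associated.refl _)
  exact ⟨V₂, ⟨hV₂, hπ₂, hne, hs⟩, hf85_HF_level2 M' q hq hM' hπ hunit h2 V₂ hV₂ hπ₂ hs⟩

/-- **(HF), existence**, level 3: a `V₂` with the four facts of `v2e46_exists` and (HF). -/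
theorem hf85_exists_level3
    [Algebra R ↥(modularFunctionFieldFullC K (M' * q * q))]
    [IsScalarTower R K ↥(modularFunctionFieldFullC K (M' * q * q))]
    (hq : q.Prime) (hM' : ¬ q ∣ M') (hπ : Irreducible ((q : ℕ) : R))
    (hunit : ∀ k : ℕ, Nat.Coprime k q → IsUnit (k : R)) (h3 : 3 ∣ M') :
    ∃ V₂ : ValuationSubring ↥(modularFunctionFieldFullC K (M' * q * q)),
      ((∀ c ∈ cm85_Vinf (K := K) (M' * q) hπ, al97L_alpha K (M' * q) q c ∈ V₂) ∧
        (algebraMap K ↥(modularFunctionFieldFullC K (M' * q * q))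
          (algebraMap R K ((q : ℕ) : R)))⁻¹ ∉ V₂ ∧
        cm85_Vinf (K := K) (M' * q * q) hπ ≠ V₂ ∧
        V₂.valuation (v2g64_s K M' q) ^ (q - 1) =
          V₂.valuation (algebraMap K ↥(modularFunctionFieldFullC K (M' * q * q))
            (algebraMap R K ((q : ℕ) : R)))) ∧
      ci57x_HF K ((q : ℕ) : R)
        (pk85_h3 K (M' * q * q)
          (h3.trans ((dvd_mul_right M' q).trans (dvd_mul_right (M' * q) q))))
        (cm85_Vinf (K := K) (M' * q * q) hπ) V₂ (nsb86_V3 (K := K) M' q hq hM' hπ) := by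
  haveI : Algebra.IsAlgebraic K Q̄ := fs85_isAlgebraic K
  obtain ⟨V₂, hV₂, hπ₂, hne, hs⟩ :=
    v2e46_exists (K := K) (algebraMap K Q̄) M' q hq hM' hπ (Associated.refl _)
  exact ⟨V₂, ⟨hV₂, hπ₂, hne, hs⟩, hf85_HF_level3 M' q hq hM' hπ hunit h3 V₂ hV₂ hπ₂ hs⟩

end hf85

end Fermat.Agent.S36
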