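import Mathlib
import Fermat.Agent.S36.CoreIface57
import Fermat.Agent.S36.LocPrinStrongThree9
import Fermat.Agent.S34.Krull65

/-!
# S36 lab, row 630 C-CANON-I6 (helper67): the strong (LP) = (I6) on the two charts of a frame
with (HF)

`lps9_strong_three` (helper9) needs, on a chart `B` of the three-valuation frame: `B ⊆ V_i`,
the saturation of `B`, `IsNoetherianRing B`, fractions, the Krull property, `hπ_i`, `hrad_i`,
the middle uniformiser data, `tl71_TwoGen π B` and the two `tl71_DivAt` clauses.  All the chart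
hypotheses are consequences of (HF) = `ci57x_HF K π h V₁ V₂ V₃` (`s34i47_WProps` +
`s34i47_ChartProps`) and `kr65_Pkg_Krull`:

* `sc67_RootAll π m B V₁ V₂ V₃ u` : the literal conclusion of `lps9_strong_three` (a local
  `m`-th root `c` of `u` at every closed point of the special fibre of `B`, a unit of every
  branch through the point);
* `sc67_Strong π B V₁ V₂ V₃` : `sc67_RootAll` for every `m > 0` and every unit `u` of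
  `V₁, V₂, V₃` with `s34i47_Ord π m u` and `s34i47_Fin π u`;
* `sc67_chart_facts` : from (HF): for both charts `pk15_chart R {h}`, `pk15_chart R {h⁻¹}`:
  `B ⊆ V_i`, saturation (three-valuation form), `IsNoetherianRing B`, fractions, `s34i47_Krull`;
* `sc67_strong_chart` / `sc67_strong_chart_inv` : (HF) + `hπ_i` + `hrad_i` + `(σ, e)` +
  `tl71_TwoGen` + `hD₁` + `hD₃` ⟹ `sc67_Strong` on the chart `{h}` / `{h⁻¹}`.

All names are prefixed `sc67_`.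
-/

set_option autoImplicit false
set_option linter.unusedSectionVars false
set_option linter.unusedVariables false
set_option linter.style.longLine false

namespace Fermat.Agent.S36

open Fermat.Agent.S18 Fermat.Agent.S34 Fermat.Agent.S36.TripleLoc71

section Defs

variable {R F : Type*} [CommRing R] [Field F] [Algebra R F]

/-- The literal conclusion of `lps9_strong_three`: at every closed point `n` of the special fibre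
of the chart `B` there is a local `m`-th root `c` of `u`, a unit of every branch through `n`. -/
def sc67_RootAll (π : R) (m : ℕ) (B : Subalgebra R F) (V₁ V₂ V₃ : ValuationSubring F) (u : F) :
    Prop :=
  ∀ n : Ideal B, n.IsMaximal → algebraMap R B π ∈ n →
    ∃ c : F, c ≠ 0 ∧
      (sf79_OnBr π B V₁.toSubring n → c ∈ V₁ ∧ c⁻¹ ∈ V₁) ∧
      (sf79_OnBr π B V₂.toSubring n → c ∈ V₂ ∧ c⁻¹ ∈ V₂) ∧
      (sf79_OnBr π B V₃.toSubring n → c ∈ V₃ ∧ c⁻¹ ∈ V₃) ∧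
      (∀ O : ValuationSubring F, s34i47_IsHoriz π O → s34i47_Through B n O →
        u / c ^ m ∈ O ∧ c ^ m / u ∈ O) ∧
      (∃ s : B, s ∉ n ∧ (s : F) * (u / c ^ m) ∈ B) ∧
      (∃ s : B, s ∉ n ∧ (s : F) * (c ^ m / u) ∈ B)

/-- **(I6)** on the chart `B`: every unit `u` of `V₁, V₂, V₃` with `m ∣ ord` and finite support
has a local `m`-th root at every closed point. -/
def sc67_Strong (π : R) (B : Subalgebra R F) (V₁ V₂ V₃ : ValuationSubring F) : Prop :=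
  ∀ m : ℕ, 0 < m → ∀ u : F, u ≠ 0 → (u ∈ V₁ ∧ u⁻¹ ∈ V₁) → (u ∈ V₂ ∧ u⁻¹ ∈ V₂) →
    (u ∈ V₃ ∧ u⁻¹ ∈ V₃) → s34i47_Ord π m u → s34i47_Fin π u → sc67_RootAll π m B V₁ V₂ V₃ u

/-- The chart facts consumed by `lps9_strong_three` / `ld55_datum_at` / `ld84_datum_at`. -/
def sc67_ChartFacts (π : R) (B : Subalgebra R F) (V₁ V₂ V₃ : ValuationSubring F) : Prop :=
  (∀ x ∈ B, x ∈ V₁) ∧ (∀ x ∈ B, x ∈ V₂) ∧ (∀ x ∈ B, x ∈ V₃) ∧
  (∀ x ∈ B, (algebraMap R F π)⁻¹ * x ∈ V₁ → (algebraMap R F π)⁻¹ * x ∈ V₂ →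
    (algebraMap R F π)⁻¹ * x ∈ V₃ → (algebraMap R F π)⁻¹ * x ∈ B) ∧
  IsNoetherianRing B ∧
  (∀ t : F, ∃ a ∈ B, ∃ b ∈ B, b ≠ 0 ∧ t * b = a) ∧
  s34i47_Krull π B

end Defs

section Abs

variable {R K F : Type} [CommRing R] [IsDomain R] [IsDiscreteValuationRing R] [Field K]
  [CharZero K] [Field F] [Algebra R K] [IsFractionRing R K] [Algebra R F] [Algebra K F]
  [IsScalarTower R K F]

/-- Fractions for the chart `{h⁻¹}` from fractions for the chart `{h}`. -/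
theorem sc67_hfrac_inv (h : F) (hh0 : h ≠ 0)
    (hfrac : ∀ x : F, ∃ a ∈ pk15_chart R ({h} : Set F), ∃ b ∈ pk15_chart R ({h} : Set F),
      b ≠ 0 ∧ x * b = a) :
    ∀ x : F, ∃ a ∈ pk15_chart R ({h⁻¹} : Set F), ∃ b ∈ pk15_chart R ({h⁻¹} : Set F),
      b ≠ 0 ∧ x * b = a := by
  intro x
  obtain ⟨a, ha, b, hb, hb0, hab⟩ := hfrac x
  have h12 : pk15_chart R ({h} : Set F) ≤ pk15_chart R ({h, h⁻¹} : Set F) :=
    pk15_chart_mono (by simp)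
  obtain ⟨k, hk⟩ := pk15_chart_loc' h hh0 a (h12 ha)
  obtain ⟨l, hl⟩ := pk15_chart_loc' h hh0 b (h12 hb)
  have hhinv : h⁻¹ ∈ pk15_chart R ({h⁻¹} : Set F) := pk15_subset_chart _ (by simp)
  refine ⟨h⁻¹ ^ l * (h⁻¹ ^ k * a), Subalgebra.mul_mem _ (Subalgebra.pow_mem _ hhinv _) hk,
    h⁻¹ ^ k * (h⁻¹ ^ l * b), Subalgebra.mul_mem _ (Subalgebra.pow_mem _ hhinv _) hl, ?_, ?_⟩
  · exact mul_ne_zero (pow_ne_zero _ (inv_ne_zero hh0))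
      (mul_ne_zero (pow_ne_zero _ (inv_ne_zero hh0)) hb0)
  · rw [← hab]; ring

/-- **The chart facts from (HF)**, for both charts. -/
theorem sc67_chart_facts {π : R} (hπ : Irreducible π) (h : F) (V₁ V₂ V₃ : ValuationSubring F)
    (hF : ci57x_HF K π h V₁ V₂ V₃) :
    sc67_ChartFacts π (pk15_chart R ({h} : Set F)) V₁ V₂ V₃ ∧
      sc67_ChartFacts π (pk15_chart R ({h⁻¹} : Set F)) V₁ V₂ V₃ := by
  obtain ⟨-, htr, hBW, hsat₁, hsat₂, -, hN₁, hN₂, hfin, hfrac⟩ := hF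
  have hh0 : h ≠ 0 := by
    rintro rfl
    exact htr isAlgebraic_zero
  have h12 : pk15_chart R ({h} : Set F) ≤ pk15_chart R ({h, h⁻¹} : Set F) :=
    pk15_chart_mono (by simp)
  have h12' : pk15_chart R ({h⁻¹} : Set F) ≤ pk15_chart R ({h, h⁻¹} : Set F) :=
    pk15_chart_mono (by simp)
  obtain ⟨hK₁, hK₂⟩ := kr65_Pkg_Krull R K F π hπ h htr hN₁ hN₂ hfin hfrac
  refine ⟨⟨fun x hx => (hBW x (h12 hx)).1.1, fun x hx => (hBW x (h12 hx)).1.2,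
      fun x hx => (hBW x (h12 hx)).2, fun x hx h1 h2 h3 => hsat₁ x hx ⟨⟨h1, h2⟩, h3⟩, hN₁,
      hfrac, hK₁⟩,
    ⟨fun x hx => (hBW x (h12' hx)).1.1, fun x hx => (hBW x (h12' hx)).1.2,
      fun x hx => (hBW x (h12' hx)).2, fun x hx h1 h2 h3 => hsat₂ x hx ⟨⟨h1, h2⟩, h3⟩, hN₂,
      sc67_hfrac_inv h hh0 hfrac, hK₂⟩⟩

/-- **(I6) on a chart with the chart facts**: `lps9_strong_three`. -/
theorem sc67_strong_of_facts {π : R} (B : Subalgebra R F) (V₁ V₂ V₃ : ValuationSubring F)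
    (hB : sc67_ChartFacts π B V₁ V₂ V₃)
    (σ : F) (e : ℕ) (hσ0 : σ ≠ 0) (hσe : (algebraMap R F π)⁻¹ * σ ^ e ∈ V₂)
    (hπ₁ : (algebraMap R F π)⁻¹ ∉ V₁) (hπ₂ : (algebraMap R F π)⁻¹ ∉ V₂)
    (hπ₃ : (algebraMap R F π)⁻¹ ∉ V₃)
    (hrad₁ : ∀ x ∈ V₁, x⁻¹ ∉ V₁ → ∃ k : ℕ, (algebraMap R F π)⁻¹ * x ^ k ∈ V₁)
    (hrad₂ : ∀ x ∈ V₂, x⁻¹ ∉ V₂ → ∃ k : ℕ, (algebraMap R F π)⁻¹ * x ^ k ∈ V₂)
    (hrad₃ : ∀ x ∈ V₃, x⁻¹ ∉ V₃ → ∃ k : ℕ, (algebraMap R F π)⁻¹ * x ^ k ∈ V₃)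
    (h2 : tl71_TwoGen π B)
    (hD₁ : ∀ n : Ideal B, n.IsMaximal → sf79_OnBr π B V₁.toSubring n →
      (tl71_OnMid σ B V₂.toSubring n ∨ sf79_OnBr π B V₃.toSubring n) →
      tl71_DivAt π B V₁.toSubring V₂.toSubring V₃.toSubring n)
    (hD₃ : ∀ n : Ideal B, n.IsMaximal → sf79_OnBr π B V₃.toSubring n →
      (tl71_OnMid σ B V₂.toSubring n ∨ sf79_OnBr π B V₁.toSubring n) →
      tl71_DivAt π B V₃.toSubring V₂.toSubring V₁.toSubring n) :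
    sc67_Strong π B V₁ V₂ V₃ := by
  obtain ⟨hB₁, hB₂, hB₃, hsat, hN, hfrac, hKr⟩ := hB
  haveI := hN
  have hπ0 : algebraMap R F π ≠ 0 := by
    intro h0
    apply hπ₁
    rw [h0, inv_zero]
    exact V₁.zero_mem
  intro m hm u hu hu₁ hu₂ hu₃ hOrd hFin
  exact lps9_strong_three π σ e B V₁ V₂ V₃ hB₁ hB₂ hB₃ hsat hπ0 hσ0 hσe hπ₁ hπ₂ hπ₃
    hrad₁ hrad₂ hrad₃ hfrac h2 hKr hD₁ hD₃ m hm u hu hu₁ hu₂ hu₃ hOrd hFin

/-- **(I6) on the chart `{h}` of a frame with (HF).** -/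
theorem sc67_strong_chart {π : R} (hπ : Irreducible π) (h : F) (V₁ V₂ V₃ : ValuationSubring F)
    (hF : ci57x_HF K π h V₁ V₂ V₃)
    (σ : F) (e : ℕ) (hσ0 : σ ≠ 0) (hσe : (algebraMap R F π)⁻¹ * σ ^ e ∈ V₂)
    (hπ₁ : (algebraMap R F π)⁻¹ ∉ V₁) (hπ₂ : (algebraMap R F π)⁻¹ ∉ V₂)
    (hπ₃ : (algebraMap R F π)⁻¹ ∉ V₃)
    (hrad₁ : ∀ x ∈ V₁, x⁻¹ ∉ V₁ → ∃ k : ℕ, (algebraMap R F π)⁻¹ * x ^ k ∈ V₁)
    (hrad₂ : ∀ x ∈ V₂, x⁻¹ ∉ V₂ → ∃ k : ℕ, (algebraMap R F π)⁻¹ * x ^ k ∈ V₂)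
    (hrad₃ : ∀ x ∈ V₃, x⁻¹ ∉ V₃ → ∃ k : ℕ, (algebraMap R F π)⁻¹ * x ^ k ∈ V₃)
    (h2 : tl71_TwoGen π (pk15_chart R ({h} : Set F)))
    (hD₁ : ∀ n : Ideal (pk15_chart R ({h} : Set F)), n.IsMaximal →
      sf79_OnBr π (pk15_chart R ({h} : Set F)) V₁.toSubring n →
      (tl71_OnMid σ (pk15_chart R ({h} : Set F)) V₂.toSubring n ∨
        sf79_OnBr π (pk15_chart R ({h} : Set F)) V₃.toSubring n) →
      tl71_DivAt π (pk15_chart R ({h} : Set F)) V₁.toSubring V₂.toSubring V₃.toSubring n)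
    (hD₃ : ∀ n : Ideal (pk15_chart R ({h} : Set F)), n.IsMaximal →
      sf79_OnBr π (pk15_chart R ({h} : Set F)) V₃.toSubring n →
      (tl71_OnMid σ (pk15_chart R ({h} : Set F)) V₂.toSubring n ∨
        sf79_OnBr π (pk15_chart R ({h} : Set F)) V₁.toSubring n) →
      tl71_DivAt π (pk15_chart R ({h} : Set F)) V₃.toSubring V₂.toSubring V₁.toSubring n) :
    sc67_Strong π (pk15_chart R ({h} : Set F)) V₁ V₂ V₃ :=
  sc67_strong_of_facts _ V₁ V₂ V₃ (sc67_chart_facts (K := K) hπ h V₁ V₂ V₃ hF).1 σ e hσ0 hσe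
    hπ₁ hπ₂ hπ₃ hrad₁ hrad₂ hrad₃ h2 hD₁ hD₃

/-- **(I6) on the chart `{h⁻¹}` of a frame with (HF).** -/
theorem sc67_strong_chart_inv {π : R} (hπ : Irreducible π) (h : F)
    (V₁ V₂ V₃ : ValuationSubring F)
    (hF : ci57x_HF K π h V₁ V₂ V₃)
    (σ : F) (e : ℕ) (hσ0 : σ ≠ 0) (hσe : (algebraMap R F π)⁻¹ * σ ^ e ∈ V₂)
    (hπ₁ : (algebraMap R F π)⁻¹ ∉ V₁) (hπ₂ : (algebraMap R F π)⁻¹ ∉ V₂)
    (hπ₃ : (algebraMap R F π)⁻¹ ∉ V₃)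
    (hrad₁ : ∀ x ∈ V₁, x⁻¹ ∉ V₁ → ∃ k : ℕ, (algebraMap R F π)⁻¹ * x ^ k ∈ V₁)
    (hrad₂ : ∀ x ∈ V₂, x⁻¹ ∉ V₂ → ∃ k : ℕ, (algebraMap R F π)⁻¹ * x ^ k ∈ V₂)
    (hrad₃ : ∀ x ∈ V₃, x⁻¹ ∉ V₃ → ∃ k : ℕ, (algebraMap R F π)⁻¹ * x ^ k ∈ V₃)
    (h2 : tl71_TwoGen π (pk15_chart R ({h⁻¹} : Set F)))
    (hD₁ : ∀ n : Ideal (pk15_chart R ({h⁻¹} : Set F)), n.IsMaximal →
      sf79_OnBr π (pk15_chart R ({h⁻¹} : Set F)) V₁.toSubring n →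
      (tl71_OnMid σ (pk15_chart R ({h⁻¹} : Set F)) V₂.toSubring n ∨
        sf79_OnBr π (pk15_chart R ({h⁻¹} : Set F)) V₃.toSubring n) →
      tl71_DivAt π (pk15_chart R ({h⁻¹} : Set F)) V₁.toSubring V₂.toSubring V₃.toSubring n)
    (hD₃ : ∀ n : Ideal (pk15_chart R ({h⁻¹} : Set F)), n.IsMaximal →
      sf79_OnBr π (pk15_chart R ({h⁻¹} : Set F)) V₃.toSubring n →
      (tl71_OnMid σ (pk15_chart R ({h⁻¹} : Set F)) V₂.toSubring n ∨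
        sf79_OnBr π (pk15_chart R ({h⁻¹} : Set F)) V₁.toSubring n) →
      tl71_DivAt π (pk15_chart R ({h⁻¹} : Set F)) V₃.toSubring V₂.toSubring V₁.toSubring n) :
    sc67_Strong π (pk15_chart R ({h⁻¹} : Set F)) V₁ V₂ V₃ :=
  sc67_strong_of_facts _ V₁ V₂ V₃ (sc67_chart_facts (K := K) hπ h V₁ V₂ V₃ hF).2 σ e hσ0 hσe
    hπ₁ hπ₂ hπ₃ hrad₁ hrad₂ hrad₃ h2 hD₁ hD₃

end Abs

end Fermat.Agent.S36
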