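import Fermat.Agent.S18.GaussVal85

/-!
# S36 lab (helper97): a valuation subring of `Ω₀((q))` dominating the Gauss local ring

`O` a valuation subring of a field `Ω₀` (for us: a valuation ring of `ℚ̄` above the DVR `R`).
`gd97_G O` is the Gauss local ring of `Ω₀((q))`: fractions `t/s` of `O`-integral Laurent series
with `s̄ ≠ 0` (reduction modulo the maximal ideal of `O`); `gd97_I O` its ideal `{t/s | t̄ = 0}`.
`gd97_V O` is a valuation subring of `Ω₀((q))` containing `gd97_G O` in which the elements of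
`gd97_I O` are non-units (it exists by `Ideal.image_subset_nonunits_valuationSubring`).

No discreteness of `O` is needed; the comaps of `gd97_V O` along the conjugate embeddings of a
modular function field are the valuation subrings `V₂`, `V₃` of the level `q²` frame.
All names are prefixed `gd97_`.
-/

set_option autoImplicit false

open ModularCurve Fermat.Agent.S18

namespace Fermat.Agent.S36

section gd97

variable {Ω₀ : Type*} [Field Ω₀] (O : ValuationSubring Ω₀)

theorem gd97_coeffMap_injective :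
    Function.Injective (coeffMap O.subtype : LaurentSeries ↥O → LaurentSeries Ω₀) := by
  intro x y h
  ext n
  have h1 := congrArg (fun z => z.coeff n) h
  simp only [coeffMap_coeff] at h1
  exact h1

/-- The Gauss local ring of `Ω₀((q))` over `O`. -/
def gd97_G : Subring (LaurentSeries Ω₀) where
  carrier := {x | ∃ s t : LaurentSeries ↥O, coeffMap (IsLocalRing.residue ↥O) s ≠ 0 ∧
    coeffMap O.subtype s * x = coeffMap O.subtype t}
  mul_mem' := by
    rintro x y ⟨s, t, hs, hst⟩ ⟨s', t', hs', hst'⟩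
    refine ⟨s * s', t * t', ?_, ?_⟩
    · rw [map_mul]; exact mul_ne_zero hs hs'
    · rw [map_mul, map_mul, ← hst, ← hst']
      ring
  one_mem' := ⟨1, 1, by rw [map_one]; exact one_ne_zero, by simp⟩
  add_mem' := by
    rintro x y ⟨s, t, hs, hst⟩ ⟨s', t', hs', hst'⟩
    refine ⟨s * s', s' * t + s * t', ?_, ?_⟩
    · rw [map_mul]; exact mul_ne_zero hs hs'
    · rw [map_mul, map_add, map_mul, map_mul, ← hst, ← hst']
      ring
  zero_mem' := ⟨1, 0, by rw [map_one]; exact one_ne_zero, by simp⟩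
  neg_mem' := by
    rintro x ⟨s, t, hs, hst⟩
    refine ⟨s, -t, hs, ?_⟩
    rw [map_neg, ← hst]
    ring

/-- The maximal ideal of the Gauss local ring: fractions `t/s` with `t̄ = 0`. -/
def gd97_I : Ideal ↥(gd97_G O) where
  carrier := {x | ∃ s t : LaurentSeries ↥O, coeffMap (IsLocalRing.residue ↥O) s ≠ 0 ∧
    coeffMap (IsLocalRing.residue ↥O) t = 0 ∧
    coeffMap O.subtype s * (x : LaurentSeries Ω₀) = coeffMap O.subtype t}
  add_mem' := by
    rintro x y ⟨s, t, hs, ht, hst⟩ ⟨s', t', hs', ht', hst'⟩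
    refine ⟨s * s', s' * t + s * t', ?_, ?_, ?_⟩
    · rw [map_mul]; exact mul_ne_zero hs hs'
    · rw [map_add, map_mul, map_mul, ht, ht', mul_zero, mul_zero, add_zero]
    · rw [map_mul, map_add, map_mul, map_mul, ← hst, ← hst']
      push_cast
      ring
  zero_mem' := ⟨1, 0, by rw [map_one]; exact one_ne_zero, by simp, by simp⟩
  smul_mem' := by
    rintro ⟨c, sc, tc, hsc, hstc⟩ x ⟨s, t, hs, ht, hst⟩
    refine ⟨sc * s, tc * t, ?_, ?_, ?_⟩
    · rw [map_mul]; exact mul_ne_zero hsc hs
    · rw [map_mul, ht, mul_zero]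
    · have e1 : ((((⟨c, sc, tc, hsc, hstc⟩ : ↥(gd97_G O)) • x : ↥(gd97_G O)) :
          LaurentSeries Ω₀)) = c * (x : LaurentSeries Ω₀) := rfl
      rw [e1, map_mul, map_mul]
      calc coeffMap O.subtype sc * coeffMap O.subtype s * (c * (x : LaurentSeries Ω₀))
          = (coeffMap O.subtype sc * c) * (coeffMap O.subtype s * (x : LaurentSeries Ω₀)) := by
            ring
        _ = coeffMap O.subtype tc * coeffMap O.subtype t := by rw [hstc, hst]

theorem gd97_I_ne_top : gd97_I O ≠ ⊤ := by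
  intro h
  have h1 : (1 : ↥(gd97_G O)) ∈ gd97_I O := by rw [h]; trivial
  obtain ⟨s, t, hs, ht, hst⟩ := h1
  have h2 : coeffMap O.subtype s = coeffMap O.subtype t := by
    rw [← hst]; simp
  rw [gd97_coeffMap_injective O h2] at hs
  exact hs ht

theorem gd97_exists :
    ∃ V : ValuationSubring (LaurentSeries Ω₀), gd97_G O ≤ V.toSubring ∧
      (gd97_G O).subtype '' (gd97_I O) ⊆ V.nonunits :=
  Ideal.image_subset_nonunits_valuationSubring (gd97_I O) (gd97_I_ne_top O)

/-- **A valuation subring of `Ω₀((q))` dominating the Gauss local ring over `O`.** -/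
noncomputable def gd97_V : ValuationSubring (LaurentSeries Ω₀) :=
  Classical.choose (gd97_exists O)

/-- fractions with `s̄ ≠ 0` lie in `gd97_V`. -/
theorem gd97_mem {x : LaurentSeries Ω₀} (s t : LaurentSeries ↥O)
    (hs : coeffMap (IsLocalRing.residue ↥O) s ≠ 0)
    (h : coeffMap O.subtype s * x = coeffMap O.subtype t) : x ∈ gd97_V O :=
  (Classical.choose_spec (gd97_exists O)).1 ⟨s, t, hs, h⟩

/-- `O`-integral series lie in `gd97_V`. -/
theorem gd97_int_mem (t : LaurentSeries ↥O) : coeffMap O.subtype t ∈ gd97_V O :=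
  gd97_mem O 1 t (by rw [map_one]; exact one_ne_zero) (by rw [map_one, one_mul])

/-- fractions with `s̄ ≠ 0`, `t̄ = 0` have valuation `< 1`. -/
theorem gd97_val_lt_one {x : LaurentSeries Ω₀} (s t : LaurentSeries ↥O)
    (hs : coeffMap (IsLocalRing.residue ↥O) s ≠ 0)
    (ht : coeffMap (IsLocalRing.residue ↥O) t = 0)
    (h : coeffMap O.subtype s * x = coeffMap O.subtype t) : (gd97_V O).valuation x < 1 := by
  have hx : x ∈ (gd97_V O).nonunits :=
    (Classical.choose_spec (gd97_exists O)).2
      ⟨⟨x, s, t, hs, h⟩, ⟨s, t, hs, ht, h⟩, rfl⟩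
  exact (ValuationSubring.mem_nonunits_iff _).mp hx

/-- fractions with `s̄ ≠ 0`, `t̄ = 0` are non-units. -/
theorem gd97_inv_not_mem {x : LaurentSeries Ω₀} (hx : x ≠ 0) (s t : LaurentSeries ↥O)
    (hs : coeffMap (IsLocalRing.residue ↥O) s ≠ 0)
    (ht : coeffMap (IsLocalRing.residue ↥O) t = 0)
    (h : coeffMap O.subtype s * x = coeffMap O.subtype t) : x⁻¹ ∉ gd97_V O := by
  intro hmem
  have h1 := gd97_val_lt_one O s t hs ht h
  have h2 : (gd97_V O).valuation x⁻¹ ≤ 1 := (ValuationSubring.valuation_le_one_iff _ _).mpr hmem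
  have h3 : (gd97_V O).valuation x * (gd97_V O).valuation x⁻¹ = 1 := by
    rw [← map_mul, mul_inv_cancel₀ hx, map_one]
  have h4 : (gd97_V O).valuation x * (gd97_V O).valuation x⁻¹ < 1 := by
    calc (gd97_V O).valuation x * (gd97_V O).valuation x⁻¹
        ≤ (gd97_V O).valuation x * 1 := mul_le_mul_right h2 _
      _ = (gd97_V O).valuation x := mul_one _
      _ < 1 := h1
  rw [h3] at h4
  exact lt_irrefl _ h4

/-- fractions with `s̄ ≠ 0`, `t̄ ≠ 0` are units. -/
theorem gd97_inv_mem {x : LaurentSeries Ω₀} (s t : LaurentSeries ↥O)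
    (_hs : coeffMap (IsLocalRing.residue ↥O) s ≠ 0)
    (ht : coeffMap (IsLocalRing.residue ↥O) t ≠ 0)
    (h : coeffMap O.subtype s * x = coeffMap O.subtype t) : x⁻¹ ∈ gd97_V O := by
  have ht0 : coeffMap O.subtype t ≠ 0 := by
    intro h0
    have : t = 0 := gd97_coeffMap_injective O (by rw [h0, map_zero])
    rw [this, map_zero] at ht
    exact ht rfl
  have hx : x ≠ 0 := by
    rintro rfl
    rw [mul_zero] at h
    exact ht0 h.symm
  refine gd97_mem O t s ht ?_
  rw [← h]
  field_simp

end gd97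

section gd97_O

variable {Ω₀ : Type*} [Field Ω₀]

/-- a valuation subring of `Ω₀` dominating the image of a local ring. -/
theorem gd97_exists_O {R : Type*} [CommRing R] [IsLocalRing R] (ψ : R →+* Ω₀) :
    ∃ (O : ValuationSubring Ω₀) (h : ∀ r, ψ r ∈ O),
      ∀ r, IsUnit (⟨ψ r, h r⟩ : ↥O) → IsUnit r := by
  obtain ⟨A, h, hloc⟩ := IsLocalRing.exists_factor_valuationRing ψ
  refine ⟨A, h, fun r hr => ?_⟩
  exact hloc.map_nonunit r hr

end gd97_O

end Fermat.Agent.S36
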