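import Fermat.Agent.S36.NormSq97
import Fermat.Agent.S36.GaussDom97
import Fermat.Agent.S34.Iface47c

/-!
# S36 lab (helper97): the valuation subrings `V₂`, `V₃` of `F(M' q²)_K`

`R` a discrete valuation ring with fraction field `K ⊆ ℚ̄`, `q` prime, `q ∤ M'`.
`O = vsq97_O R K` is a valuation subring of `ℚ̄` dominating `R`, `gd97_V O` a valuation subring
of `ℚ̄((Q))` dominating the Gauss local ring of `O((Q))`, and

* `vsq97_V2 R K M' q hq hM' ζ := (gd97_V O).comap Θ_ζ`   (`Θ_ζ = nsq97_Theta ζ`: identity on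
  `α₂ F(M' q)`, `j(Q^{q²}) ↦ j(ζ Q)`),
* `vsq97_V3 R K M' q hq hM' := (gd97_V O).comap Ξ_1`     (`Ξ_1 = nsq97_Xi 1`).

Facts: `vsq97_V2_over` (`V₂` over `V_∞(M' q)` along `α₂`), `vsq97_V2_const` (non-unit constants
of `R` stay non-units), `vsq97_V2_mid` (**(MID)**: `β₂ (w g) - α₂ g ∈ 𝔪(V₂)` for
`g ∈ V_∞(M' q)`), `vsq97_V3_over` (`V₃` over `V_0(M' q)` along `α₂`), `vsq97_V3_const`.
(The ramification statement `v₂(s)^(q-1) = v₂(π)` is in `ValSqRam97.lean`.)

All names are prefixed `vsq97_`.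
-/

set_option autoImplicit false
set_option linter.unusedSectionVars false

open ModularCurve AlgebraicCurve IntermediateField
open Fermat.Agent.S24 Fermat.Agent.S28 Fermat.Agent.S18 Fermat.Agent.S37 Fermat.Agent.S34
open Fermat.Agent.S42 Fermat.Agent.S35

namespace Fermat.Agent.S36

section vsq97_base

variable (R K : Type) [CommRing R] [IsDomain R] [IsDiscreteValuationRing R] [Field K]
  [Algebra R K] [IsFractionRing R K] [Algebra K Kbar]

/-- `ψ : R → K → ℚ̄`. -/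
noncomputable def vsq97_psi : R →+* Kbar := (algebraMap K Kbar).comp (algebraMap R K)

/-- A valuation subring `O` of `ℚ̄` dominating `R`. -/
noncomputable def vsq97_O : ValuationSubring Kbar :=
  Classical.choose (gd97_exists_O (vsq97_psi R K))

theorem vsq97_psi_mem (r : R) : vsq97_psi R K r ∈ vsq97_O R K :=
  Classical.choose (Classical.choose_spec (gd97_exists_O (vsq97_psi R K))) r

/-- `ρ : R → O`. -/
noncomputable def vsq97_rho : R →+* ↥(vsq97_O R K) :=
  (vsq97_psi R K).codRestrict (vsq97_O R K).toSubring (vsq97_psi_mem R K)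

theorem vsq97_rho_coe (r : R) : ((vsq97_rho R K r : ↥(vsq97_O R K)) : Kbar) =
    algebraMap K Kbar (algebraMap R K r) := rfl

theorem vsq97_isUnit_of_rho (r : R) (h : IsUnit (vsq97_rho R K r)) : IsUnit r :=
  Classical.choose_spec (Classical.choose_spec (gd97_exists_O (vsq97_psi R K))) r h

theorem vsq97_res_rho (r : R) :
    IsLocalRing.residue ↥(vsq97_O R K) (vsq97_rho R K r) = 0 ↔ ¬ IsUnit r := by
  rw [IsLocalRing.residue_eq_zero_iff, IsLocalRing.mem_maximalIdeal, mem_nonunits_iff]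
  exact ⟨fun h hr => h (hr.map _), fun h hr => h (vsq97_isUnit_of_rho R K r hr)⟩

theorem vsq97_red_ne_zero (s : LaurentSeries R)
    (hs : coeffMap (IsLocalRing.residue R) s ≠ 0) :
    coeffMap (IsLocalRing.residue ↥(vsq97_O R K)) (coeffMap (vsq97_rho R K) s) ≠ 0 := by
  intro h
  apply hs
  ext n
  have h1 := congrArg (fun z => z.coeff n) h
  simp only [coeffMap_coeff, HahnSeries.coeff_zero] at h1
  rw [coeffMap_coeff, HahnSeries.coeff_zero, IsLocalRing.residue_eq_zero_iff,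
    IsLocalRing.mem_maximalIdeal, mem_nonunits_iff]
  exact (vsq97_res_rho R K _).mp h1

theorem vsq97_red_eq_zero (t : LaurentSeries R)
    (ht : coeffMap (IsLocalRing.residue R) t = 0) :
    coeffMap (IsLocalRing.residue ↥(vsq97_O R K)) (coeffMap (vsq97_rho R K) t) = 0 := by
  ext n
  have h1 := congrArg (fun z => z.coeff n) ht
  simp only [coeffMap_coeff, HahnSeries.coeff_zero] at h1
  rw [coeffMap_coeff, coeffMap_coeff, HahnSeries.coeff_zero, vsq97_res_rho]
  rw [IsLocalRing.residue_eq_zero_iff, IsLocalRing.mem_maximalIdeal, mem_nonunits_iff] at h1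
  exact h1

theorem vsq97_sub_rho (s : LaurentSeries R) :
    coeffMap (vsq97_O R K).subtype (coeffMap (vsq97_rho R K) s) =
      coeffMap (algebraMap K Kbar) (coeffMap (algebraMap R K) s) := by
  ext n
  simp only [coeffMap_coeff]
  rfl

/-- roots of unity lie in `O`. -/
theorem vsq97_root_mem (ζ : Kbarˣ) (n : ℕ) (hn : 0 < n) (hζ : ζ ^ n = 1) :
    (ζ : Kbar) ∈ vsq97_O R K := by
  rcases (vsq97_O R K).mem_or_inv_mem (ζ : Kbar) with h | h
  · exact h
  · have h1 : ζ ^ (n - 1) * ζ = 1 := by rw [← pow_succ, Nat.sub_add_cancel hn, hζ]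
    have h2 : (ζ ^ (n - 1))⁻¹ = ζ := inv_eq_of_mul_eq_one_right h1
    have h3 : (ζ : Kbar) = ((ζ : Kbar)⁻¹) ^ (n - 1) := by
      rw [inv_pow, ← Units.val_pow_eq_pow_val, ← Units.val_inv_eq_inv_val, h2]
    rw [h3]
    exact pow_mem h _

/-- a root of unity of `ℚ̄` as a unit of `O`. -/
noncomputable def vsq97_zetaO (ζ : Kbarˣ) (n : ℕ) (hn : 0 < n) (hζ : ζ ^ n = 1) :
    (↥(vsq97_O R K))ˣ :=
  ⟨⟨(ζ : Kbar), vsq97_root_mem R K ζ n hn hζ⟩,
    ⟨((ζ⁻¹ : Kbarˣ) : Kbar), vsq97_root_mem R K ζ⁻¹ n hn (by rw [inv_pow, hζ, inv_one])⟩,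
    Subtype.ext (by simp), Subtype.ext (by simp)⟩

theorem vsq97_zetaO_map (ζ : Kbarˣ) (n : ℕ) (hn : 0 < n) (hζ : ζ ^ n = 1) :
    Units.map ((vsq97_O R K).subtype : ↥(vsq97_O R K) →* Kbar) (vsq97_zetaO R K ζ n hn hζ) = ζ :=
  Units.ext rfl

/-- a `q`-th root of unity reduces to `1` in residue characteristic `q`. -/
theorem vsq97_res_zetaO (q : ℕ) (hq : q.Prime) (hqR : ¬ IsUnit (q : R)) (ζ : Kbarˣ)
    (hζ : ζ ^ q = 1) :
    Units.map ((IsLocalRing.residue ↥(vsq97_O R K)) :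
      ↥(vsq97_O R K) →* IsLocalRing.ResidueField ↥(vsq97_O R K))
      (vsq97_zetaO R K ζ q hq.pos hζ) = 1 := by
  have hchar : CharP (IsLocalRing.ResidueField ↥(vsq97_O R K)) q := by
    refine (CharP.charP_iff_prime_eq_zero hq).mpr ?_
    have h1 := (vsq97_res_rho R K (q : R)).mpr hqR
    rw [map_natCast, map_natCast] at h1
    exact h1
  haveI : ExpChar (IsLocalRing.ResidueField ↥(vsq97_O R K)) q := ExpChar.prime hq
  have hpow : (vsq97_zetaO R K ζ q hq.pos hζ) ^ q = 1 := by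
    apply Units.ext
    apply Subtype.ext
    show (ζ : Kbar) ^ q = 1
    rw [← Units.val_pow_eq_pow_val, hζ, Units.val_one]
  have h1 : (Units.map ((IsLocalRing.residue ↥(vsq97_O R K)) :
      ↥(vsq97_O R K) →* IsLocalRing.ResidueField ↥(vsq97_O R K))
      (vsq97_zetaO R K ζ q hq.pos hζ)) ^ q = 1 := by
    rw [← map_pow, hpow, map_one]
  apply Units.ext
  have h2 : (((Units.map ((IsLocalRing.residue ↥(vsq97_O R K)) :
      ↥(vsq97_O R K) →* IsLocalRing.ResidueField ↥(vsq97_O R K))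
      (vsq97_zetaO R K ζ q hq.pos hζ) : (IsLocalRing.ResidueField ↥(vsq97_O R K))ˣ) :
      IsLocalRing.ResidueField ↥(vsq97_O R K)) - 1) ^ q = 0 := by
    rw [sub_pow_expChar, one_pow, ← Units.val_pow_eq_pow_val, h1, Units.val_one, sub_self]
  have h3 := pow_eq_zero_iff (hq.ne_zero) |>.mp h2
  rw [Units.val_one]
  exact sub_eq_zero.mp h3

/-- twisting by a `q`-th root of unity is trivial after reduction. -/
theorem vsq97_res_twist (q : ℕ) (hq : q.Prime) (hqR : ¬ IsUnit (q : R)) (ζ : Kbarˣ)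
    (hζ : ζ ^ q = 1) (t : LaurentSeries ↥(vsq97_O R K)) :
    coeffMap (IsLocalRing.residue ↥(vsq97_O R K)) (twist (vsq97_zetaO R K ζ q hq.pos hζ) t) =
      coeffMap (IsLocalRing.residue ↥(vsq97_O R K)) t := by
  rw [coeffMap_twist, vsq97_res_zetaO R K q hq hqR ζ hζ, twist_one]

theorem vsq97_sub_twist (ζ : Kbarˣ) (n : ℕ) (hn : 0 < n) (hζ : ζ ^ n = 1)
    (t : LaurentSeries ↥(vsq97_O R K)) :
    coeffMap (vsq97_O R K).subtype (twist (vsq97_zetaO R K ζ n hn hζ) t) =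
      twist ζ (coeffMap (vsq97_O R K).subtype t) := by
  rw [coeffMap_twist, vsq97_zetaO_map]

variable {R K}

/-- `val` maps the Gauss ring `V_∞(M)` into `gd97_V O`. -/
theorem vsq97_val_mem (M : ℕ) [NeZero M] {π : R} (hπ : Irreducible π)
    (a : ↥(modularFunctionFieldFullC K M)) (ha : a ∈ cm85_Vinf (K := K) M hπ) :
    nsq97_val (algebraMap K Kbar) M a ∈ gd97_V (vsq97_O R K) := by
  obtain ⟨s, t, hs, hst⟩ := ha
  refine gd97_mem (vsq97_O R K) (coeffMap (vsq97_rho R K) s) (coeffMap (vsq97_rho R K) t)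
    (vsq97_red_ne_zero R K s hs) ?_
  rw [vsq97_sub_rho, vsq97_sub_rho, nsq97_val_apply, ← map_mul, hst]

/-- constants of the maximal ideal of `R` are non-units of `gd97_V O`. -/
theorem vsq97_C_inv_not_mem (r : R) (hr0 : r ≠ 0) (hr : ¬ IsUnit r) :
    (HahnSeries.C (algebraMap K Kbar (algebraMap R K r)) : LaurentSeries Kbar)⁻¹ ∉
      gd97_V (vsq97_O R K) := by
  have hne : (HahnSeries.C (algebraMap K Kbar (algebraMap R K r)) : LaurentSeries Kbar) ≠ 0 := by
    apply HahnSeries.C_ne_zero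
    intro h
    have h1 : algebraMap R K r = 0 := (algebraMap K Kbar).injective (by rw [h, map_zero])
    exact hr0 (IsFractionRing.injective R K (by rw [h1, map_zero]))
  refine gd97_inv_not_mem (vsq97_O R K) hne 1 (HahnSeries.C (vsq97_rho R K r))
    (by rw [map_one]; exact one_ne_zero) ?_ ?_
  · rw [gv85_coeffMap_C, (vsq97_res_rho R K r).mpr hr, map_zero]
  · rw [map_one, one_mul, gv85_coeffMap_C]
    rfl

/-- `V ∘ val` (`Q ↦ Q^ℓ`) maps the Gauss ring `V_∞(M)` into `gd97_V O`. -/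
theorem vsq97_qExpand_val_mem (M : ℕ) [NeZero M] (ℓ : ℕ) [NeZero ℓ] {π : R} (hπ : Irreducible π)
    (a : ↥(modularFunctionFieldFullC K M)) (ha : a ∈ cm85_Vinf (K := K) M hπ) :
    qExpand Kbar ℓ (nsq97_val (algebraMap K Kbar) M a) ∈ gd97_V (vsq97_O R K) := by
  obtain ⟨s, t, hs, hst⟩ := ha
  refine gd97_mem (vsq97_O R K) (qExpand _ ℓ (coeffMap (vsq97_rho R K) s))
    (qExpand _ ℓ (coeffMap (vsq97_rho R K) t)) ?_ ?_
  · rw [coeffMap_qExpand]
    intro h
    exact vsq97_red_ne_zero R K s hs (qExpand_injective ℓ (by rw [h, map_zero]))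
  · rw [coeffMap_qExpand, coeffMap_qExpand, vsq97_sub_rho, vsq97_sub_rho, nsq97_val_apply,
      ← map_mul, ← map_mul, hst]

theorem vsq97_natCast_ne_zero (K : Type) [Field K] [Algebra K Kbar] (n : ℕ) [NeZero n] :
    ((n : ℕ) : K) ≠ 0 := by
  haveI : CharZero K := RingHom.charZero (algebraMap K Kbar)
  exact Nat.cast_ne_zero.mpr (NeZero.ne n)

end vsq97_base

section vsq97_main

variable (R K : Type) [CommRing R] [IsDomain R] [IsDiscreteValuationRing R] [Field K]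
  [Algebra R K] [IsFractionRing R K] [Algebra K Kbar]
  (M' q : ℕ) [NeZero M'] [NeZero q] (hq : q.Prime) (hM' : ¬ q ∣ M')

/-- **The middle valuation subring `V₂` of `F(M' q²)_K`**: the pull-back of `gd97_V O` along the
conjugate embedding `Θ_ζ`. -/
noncomputable def vsq97_V2 (ζ : Kbarˣ) :
    ValuationSubring ↥(modularFunctionFieldFullC K (M' * q * q)) :=
  (gd97_V (vsq97_O R K)).comap
    (nsq97_Theta (algebraMap K Kbar) M' q hq hM' (vsq97_natCast_ne_zero K (M' * q * q)) ζ)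

/-- **The third valuation subring `V₃` of `F(M' q²)_K`**: the pull-back of `gd97_V O` along
`Ξ_1`. -/
noncomputable def vsq97_V3 : ValuationSubring ↥(modularFunctionFieldFullC K (M' * q * q)) :=
  (gd97_V (vsq97_O R K)).comap
    (nsq97_Xi (algebraMap K Kbar) M' q hq hM' (vsq97_natCast_ne_zero K (M' * q * q)) 1)

theorem vsq97_mem_V2 (ζ : Kbarˣ) (x : ↥(modularFunctionFieldFullC K (M' * q * q))) :
    x ∈ vsq97_V2 R K M' q hq hM' ζ ↔
      nsq97_Theta (algebraMap K Kbar) M' q hq hM' (vsq97_natCast_ne_zero K (M' * q * q)) ζ x ∈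
        gd97_V (vsq97_O R K) := Iff.rfl

theorem vsq97_mem_V3 (x : ↥(modularFunctionFieldFullC K (M' * q * q))) :
    x ∈ vsq97_V3 R K M' q hq hM' ↔
      nsq97_Xi (algebraMap K Kbar) M' q hq hM' (vsq97_natCast_ne_zero K (M' * q * q)) 1 x ∈
        gd97_V (vsq97_O R K) := Iff.rfl

variable {R K}

theorem vsq97_val_algebraMap (M : ℕ) (c : K) :
    nsq97_val (algebraMap K Kbar) M (algebraMap K ↥(modularFunctionFieldFullC K M) c) =
      HahnSeries.C (algebraMap K Kbar c) := by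
  rw [nsq97_val_apply, gv85_coe_algebraMap, gv85_coeffMap_C]

/-- `V₂` lies over `V_∞(M' q)` along `α₂`. -/
theorem vsq97_V2_over (ζ : Kbarˣ) (hζq : ζ ^ q = 1) (hζ1 : ζ ≠ 1) {π : R} (hπ : Irreducible π)
    (a : ↥(modularFunctionFieldFullC K (M' * q))) (ha : a ∈ cm85_Vinf (K := K) (M' * q) hπ) :
    al97L_alpha K (M' * q) q a ∈ vsq97_V2 R K M' q hq hM' ζ := by
  rw [vsq97_mem_V2, nsq97_Theta_alpha _ _ _ _ _ _ ζ hζq hζ1]
  exact vsq97_val_mem (M' * q) hπ a ha

/-- non-unit constants of `R` are non-units of `V₂`. -/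
theorem vsq97_V2_const (ζ : Kbarˣ) (hζq : ζ ^ q = 1) (hζ1 : ζ ≠ 1) (r : R) (hr0 : r ≠ 0)
    (hr : ¬ IsUnit r) :
    (al97L_alpha K (M' * q) q (algebraMap K ↥(modularFunctionFieldFullC K (M' * q))
      (algebraMap R K r)))⁻¹ ∉ vsq97_V2 R K M' q hq hM' ζ := by
  rw [vsq97_mem_V2, map_inv₀, nsq97_Theta_alpha _ _ _ _ _ _ ζ hζq hζ1, vsq97_val_algebraMap]
  exact vsq97_C_inv_not_mem r hr0 hr

/-- `V₃` lies over `V_0(M' q) = w^* V_∞(M' q)` along `α₂`. -/
theorem vsq97_V3_over {π : R} (hπ : Irreducible π)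
    (c : ↥(modularFunctionFieldFullC K (M' * q)))
    (hc : c ∈ s34i47c_V0 (K := K) M' q hq hM' hπ) :
    al97L_alpha K (M' * q) q c ∈ vsq97_V3 R K M' q hq hM' := by
  rw [vsq97_mem_V3, nsq97_Xi_alpha _ _ _ _ _ _ 1 (one_pow q)]
  exact vsq97_qExpand_val_mem (M' * q) q hπ _ hc

/-- non-unit constants of `R` are non-units of `V₃`. -/
theorem vsq97_V3_const (r : R) (hr0 : r ≠ 0) (hr : ¬ IsUnit r) :
    (al97L_alpha K (M' * q) q (algebraMap K ↥(modularFunctionFieldFullC K (M' * q))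
      (algebraMap R K r)))⁻¹ ∉ vsq97_V3 R K M' q hq hM' := by
  rw [vsq97_mem_V3, map_inv₀, nsq97_Xi_alpha _ _ _ _ _ _ 1 (one_pow q), AlgEquiv.commutes,
    vsq97_val_algebraMap, qExpand_C]
  exact vsq97_C_inv_not_mem r hr0 hr

theorem vsq97_mem_nonunits_iff_inv {F : Type*} [Field F] (B : ValuationSubring F) (z : F)
    (hz : z ≠ 0) : z ∈ B.nonunits ↔ z⁻¹ ∉ B := by
  rw [ValuationSubring.mem_nonunits_iff, ← ValuationSubring.valuation_le_one_iff, map_inv₀,
    not_le]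
  have hpos : 0 < B.valuation z := by
    rw [pos_iff_ne_zero]
    exact (Valuation.ne_zero_iff _).mpr hz
  exact (one_lt_inv₀ hpos).symm

/-- non-units of a comap. -/
theorem vsq97_nonunits_comap {F₁ F₂ : Type*} [Field F₁] [Field F₂] (A : ValuationSubring F₂)
    (f : F₁ →+* F₂) (x : F₁) : x ∈ (A.comap f).nonunits ↔ f x ∈ A.nonunits := by
  by_cases hx : x = 0
  · subst hx
    rw [map_zero]
    simp
  · have hfx : f x ≠ 0 := (map_ne_zero f).mpr hx
    rw [vsq97_mem_nonunits_iff_inv _ x hx, vsq97_mem_nonunits_iff_inv _ (f x) hfx,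
      ValuationSubring.mem_comap, map_inv₀]

/-- **(MID)**: `β₂ ∘ w ≡ α₂` modulo the maximal ideal of `V₂`, on `V_∞(M' q)`. -/
theorem vsq97_V2_mid (ζ : Kbarˣ) (hζq : ζ ^ q = 1) (hζ1 : ζ ≠ 1) {π : R} (hπ : Irreducible π)
    (hqR : ¬ IsUnit (q : R))
    (g : ↥(modularFunctionFieldFullC K (M' * q))) (hg : g ∈ cm85_Vinf (K := K) (M' * q) hπ) :
    al97L_beta K (M' * q) q (al97L_w (algebraMap K Kbar) M' q hq hM' g) -
      al97L_alpha K (M' * q) q g ∈ (vsq97_V2 R K M' q hq hM' ζ).nonunits := by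
  unfold vsq97_V2
  rw [vsq97_nonunits_comap, map_sub, nsq97_Theta_alpha _ _ _ _ _ _ ζ hζq hζ1,
    nsq97_Theta_beta _ _ _ _ _ _ ζ hζq hζ1, al97L_w_w, ValuationSubring.mem_nonunits_iff]
  obtain ⟨s, t, hs, hst⟩ := hg
  set S := coeffMap (vsq97_rho R K) s with hS
  set T := coeffMap (vsq97_rho R K) t with hT
  have hST : coeffMap (vsq97_O R K).subtype S * nsq97_val (algebraMap K Kbar) (M' * q) g =
      coeffMap (vsq97_O R K).subtype T := by
    rw [hS, hT, vsq97_sub_rho, vsq97_sub_rho, nsq97_val_apply, ← map_mul, hst]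
  have hST' : twist ζ (coeffMap (vsq97_O R K).subtype S) *
      twist ζ (nsq97_val (algebraMap K Kbar) (M' * q) g) =
      twist ζ (coeffMap (vsq97_O R K).subtype T) := by
    rw [← map_mul, hST]
  refine gd97_val_lt_one (vsq97_O R K)
    (S * twist (vsq97_zetaO R K ζ q hq.pos hζq) S)
    (S * twist (vsq97_zetaO R K ζ q hq.pos hζq) T -
      twist (vsq97_zetaO R K ζ q hq.pos hζq) S * T) ?_ ?_ ?_
  · rw [map_mul, vsq97_res_twist R K q hq hqR ζ hζq]
    exact mul_ne_zero (vsq97_red_ne_zero R K s hs) (vsq97_red_ne_zero R K s hs)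
  · rw [map_sub, map_mul, map_mul, vsq97_res_twist R K q hq hqR ζ hζq,
      vsq97_res_twist R K q hq hqR ζ hζq, sub_self]
  · rw [map_mul, map_sub, map_mul, map_mul, vsq97_sub_twist, vsq97_sub_twist, ← hST', ← hST]
    ring

end vsq97_main

end Fermat.Agent.S36
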