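import Fermat.Agent.S36.ValUnitFrame1
import Fermat.Agent.S36.ValSq97
import Fermat.Agent.S36.V2Gauss64
import Fermat.Agent.S36.NormSqBeta86

/-!
# S36 lab, row B2-val (helper1): (B0) on the canonical frame `V₁`, `V₂`, `V₃ = nsb86_V3`

`s = v2g64_s K M' q = j(Q^(q²)) - j(Q)`.

* `vuc1_s_unit`  : `s` is a unit of `V₁ = cm85_Vinf (M' * q * q)`;
* `vuc1_w2_s`    : `w₂ s = - s`;
* `vuc1_V3_*`    : the facts about `V₃ = nsb86_V3 = V₁.comap w₂` needed by `vuf1_main`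
  (over `V_0'` along `α₂` and `β₂`, `π` a non-unit, `s` a unit, the inert witness `y₃ = β₂ β₁ j`);
* `vuc1_V2_eq`   : ANY valuation subring `V₂` with the three facts of `ob72_ram`
  (`α₂ V_∞' ⊆ V₂`, `π⁻¹ ∉ V₂`, `v₂(s)^(q-1) = v₂(π)`) is helper97's `vsq97_V2` (for every
  primitive `q`-th root of unity), hence
* `vuc1_V2_beta` : `β₂ V_0' ⊆ V₂` (from (MID) `vsq97_V2_mid`);
* `vuc1_main`    : (B0) for `V₁`, `V₂`, `nsb86_V3` with ONLY those three hypotheses on `V₂`.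
-/

set_option autoImplicit false
set_option linter.unusedSectionVars false
set_option linter.style.haveILetI false
set_option linter.unusedVariables false

open ModularCurve AlgebraicCurve IntermediateField Polynomial

namespace Fermat.Agent.S36

open Fermat.Agent.S18 Fermat.Agent.S24 Fermat.Agent.S28 Fermat.Agent.S37 Fermat.Agent.S34
open Fermat.Agent.S42 Fermat.Agent.S35

local notation "Q̄" => AlgebraicClosure ℚ

section vuc1

variable {R K : Type} [CommRing R] [IsDomain R] [IsDiscreteValuationRing R] [Field K] [CharZero K]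
  [Algebra R K] [IsFractionRing R K] [Algebra K Q̄] (M' q : ℕ) [NeZero M'] [NeZero q]

/-- `s = j(Q^(q²)) - j(Q)` is a unit of the Gauss ring `V₁`. -/
theorem vuc1_s_mem (hq : q.Prime) {π : R} (hπ : Irreducible π) :
    v2g64_s K M' q ∈ cm85_Vinf (K := K) (M' * q * q) hπ ∧
    (v2g64_s K M' q)⁻¹ ∈ cm85_Vinf (K := K) (M' * q * q) hπ ∧ v2g64_s K M' q ≠ 0 := by
  have hsR : ((v2g64_s K M' q : ↥(modularFunctionFieldFullC K (M' * q * q))) :
      LaurentSeries K) = coeffMap (algebraMap R K)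
        (qExpand R q (qExpand R q (jqModC R)) - jqModC R) := by
    rw [v2g64_s_coe, map_sub, coeffMap_qExpand, coeffMap_qExpand, coeffMap_jqModC]
  have hne : coeffMap (IsLocalRing.residue R)
      (qExpand R q (qExpand R q (jqModC R)) - jqModC R) ≠ 0 := by
    intro h0
    have h1 := congrArg (fun z : LaurentSeries (IsLocalRing.ResidueField R) =>
      z.coeff ((q : ℤ) * ((q : ℤ) * (-1)))) h0
    have hlt : (q : ℤ) * ((q : ℤ) * (-1)) < -1 := by
      have h2 : (2 : ℤ) ≤ q := by exact_mod_cast hq.two_le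
      nlinarith
    simp only [coeffMap_coeff, HahnSeries.coeff_sub, qExpand_coeff_mul,
      coeff_jqModC_neg_one, coeff_jqModC_of_lt R hlt, sub_zero, map_one,
      HahnSeries.coeff_zero] at h1
    exact one_ne_zero h1
  refine ⟨gv85_mem_V_of_integral _ _ _ _ _ hsR, v2g64_gv_inv_mem _ _ _ _ _ hsR hne, ?_⟩
  intro h
  apply hne
  have h2 : coeffMap (algebraMap R K) (qExpand R q (qExpand R q (jqModC R)) - jqModC R) = 0 := by
    rw [← hsR, h]; rfl
  have h3 : qExpand R q (qExpand R q (jqModC R)) - jqModC R = 0 := by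
    apply gv85_emb_injective (R := R) (K := K)
    rw [h2, map_zero]
  rw [h3, map_zero]

theorem vuc1_s_unit (hq : q.Prime) {π : R} (hπ : Irreducible π) :
    (cm85_Vinf (K := K) (M' * q * q) hπ).valuation (v2g64_s K M' q) = 1 := by
  obtain ⟨h1, h2, h3⟩ := vuc1_s_mem (K := K) M' q hq hπ
  exact (vs1_val_eq_one_iff h3).mpr ⟨h1, h2⟩

/-- `w₂ s = - s`. -/
theorem vuc1_w2_s (hq : q.Prime) (hM' : ¬ q ∣ M') :
    als86_w2 (algebraMap K Q̄) M' q hq hM' (nsb86_hL K (M' * q * q)) (v2g64_s K M' q) =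
      - v2g64_s K M' q := by
  unfold v2g64_s
  rw [map_sub, als86_w2_beta, als86_w2_alpha, al97L_w_beta_apply, al97L_w_alpha_apply]
  ring

/-- `V₃` lies over `V_0'` along `α₂`. -/
theorem vuc1_V3_alpha (hq : q.Prime) (hM' : ¬ q ∣ M') {π : R} (hπ : Irreducible π)
    (x : ↥(modularFunctionFieldFullC K (M' * q)))
    (hx : x ∈ s34i47c_V0 (K := K) M' q hq hM' hπ) :
    al97L_alpha K (M' * q) q x ∈ nsb86_V3 M' q hq hM' hπ := by
  rw [nsb86_mem_V3, als86_w2_alpha]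
  exact (al97V_beta_mem_Vinf (M' * q) q hπ _).mpr ((s34i47c_mem_V0 M' q hq hM' hπ x).mp hx)

/-- `V₃` lies over `V_0'` along `β₂`. -/
theorem vuc1_V3_beta (hq : q.Prime) (hM' : ¬ q ∣ M') {π : R} (hπ : Irreducible π)
    (x : ↥(modularFunctionFieldFullC K (M' * q)))
    (hx : x ∈ s34i47c_V0 (K := K) M' q hq hM' hπ) :
    al97L_beta K (M' * q) q x ∈ nsb86_V3 M' q hq hM' hπ := by
  rw [nsb86_mem_V3, als86_w2_beta]
  exact (al97V_alpha_mem_Vinf (M' * q) q hπ _).mpr ((s34i47c_mem_V0 M' q hq hM' hπ x).mp hx)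

/-- `π` is a non-unit of `V₃`. -/
theorem vuc1_V3_pi (hq : q.Prime) (hM' : ¬ q ∣ M') {π : R} (hπ : Irreducible π) :
    (algebraMap K ↥(modularFunctionFieldFullC K (M' * q * q)) (algebraMap R K π))⁻¹ ∉
      nsb86_V3 M' q hq hM' hπ := by
  rw [nsb86_mem_V3, map_inv₀, AlgEquiv.commutes]
  exact gv85_pi_inv_not_mem (IsLocalRing.residue R) π (pk85_res_iff hπ) hπ.ne_zero _ _

/-- `s` is a unit of `V₃`. -/
theorem vuc1_V3_s (hq : q.Prime) (hM' : ¬ q ∣ M') {π : R} (hπ : Irreducible π) :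
    (nsb86_V3 (K := K) M' q hq hM' hπ).valuation (v2g64_s K M' q) = 1 := by
  obtain ⟨h1, h2, h3⟩ := vuc1_s_mem (K := K) M' q hq hπ
  refine (vs1_val_eq_one_iff h3).mpr ⟨?_, ?_⟩
  · rw [nsb86_mem_V3, vuc1_w2_s]
    exact neg_mem h1
  · rw [nsb86_mem_V3, map_inv₀, vuc1_w2_s, inv_neg]
    exact neg_mem h2

/-- The inert witness for `V₃`: `y₃ = β₂ β₁ j`. -/
theorem vuc1_V3_wit (hq : q.Prime) (hM' : ¬ q ∣ M') {π : R} (hπ : Irreducible π)
    (hqR : ¬ IsUnit (q : R)) :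
    al97L_beta K (M' * q) q (al97L_beta K M' q (relimc_J K M')) ∈ nsb86_V3 M' q hq hM' hπ ∧
    (algebraMap K ↥(modularFunctionFieldFullC K (M' * q * q)) (algebraMap R K π))⁻¹ *
      (al97L_beta K (M' * q) q (al97L_beta K M' q (relimc_J K M')) ^ q -
        al97L_alpha K (M' * q) q (al97L_beta K M' q (relimc_J K M'))) ∈
      nsb86_V3 M' q hq hM' hπ := by
  have hJ : al97L_alpha K M' q (relimc_J K M') = relimc_J K (M' * q) := Subtype.ext rfl
  have hJ2 : al97L_alpha K (M' * q) q (relimc_J K (M' * q)) = relimc_J K (M' * q * q) :=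
    Subtype.ext rfl
  have hyV : relimc_J K (M' * q * q) ∈ cm85_Vinf (K := K) (M' * q * q) hπ :=
    gv85_mem_V_of_integral _ _ _ _ (jqModC R) (by rw [relimc_J_coe, coeffMap_jqModC])
  have hfrob := fs85_frob (K := K) (M' * q) q hq hπ hqR
  constructor
  · rw [nsb86_mem_V3, als86_w2_beta, al97L_w_beta_apply, hJ, hJ2]
    exact hyV
  · rw [nsb86_mem_V3, map_mul, map_inv₀, AlgEquiv.commutes, map_sub, map_pow, als86_w2_beta,
      als86_w2_alpha, al97L_w_beta_apply, hJ]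
    have e : (algebraMap K ↥(modularFunctionFieldFullC K (M' * q * q)) (algebraMap R K π))⁻¹ *
        (al97L_alpha K (M' * q) q (relimc_J K (M' * q)) ^ q -
          al97L_beta K (M' * q) q (relimc_J K (M' * q))) =
        -((algebraMap K ↥(modularFunctionFieldFullC K (M' * q * q)) (algebraMap R K π))⁻¹ *
          (al97L_beta K (M' * q) q (relimc_J K (M' * q)) -
            al97L_alpha K (M' * q) q (relimc_J K (M' * q) ^ q))) := by
      rw [map_pow]; ring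
    rw [e]
    exact neg_mem hfrob

/-- **Uniqueness of `V₂`**: any valuation subring with the three facts of `ob72_ram` is
helper97's `vsq97_V2` (for any `q`-th root of unity `ζ ≠ 1`). -/
theorem vuc1_V2_eq (hq : q.Prime) (hM' : ¬ q ∣ M') {π : R} (hπ : Irreducible π)
    (hqR : ¬ IsUnit (q : R))
    (V₂ : ValuationSubring ↥(modularFunctionFieldFullC K (M' * q * q)))
    (hα₂ : ∀ x ∈ cm85_Vinf (K := K) (M' * q) hπ, al97L_alpha K (M' * q) q x ∈ V₂)
    (hπ₂ : (algebraMap K ↥(modularFunctionFieldFullC K (M' * q * q)) (algebraMap R K π))⁻¹ ∉ V₂)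
    (hs : V₂.valuation (v2g64_s K M' q) ^ (q - 1) =
      V₂.valuation (algebraMap K ↥(modularFunctionFieldFullC K (M' * q * q)) (algebraMap R K π)))
    (ζ : Q̄ˣ) (hζq : ζ ^ q = 1) (hζ1 : ζ ≠ 1) :
    vsq97_V2 R K M' q hq hM' ζ = V₂ := by
  have hs1 := vuc1_s_unit (K := K) M' q hq hπ
  -- `V₁ ≠ V₂`
  have hπ2mem : algebraMap K ↥(modularFunctionFieldFullC K (M' * q * q)) (algebraMap R K π) ∈
      V₂ := by
    have h1 : algebraMap K ↥(modularFunctionFieldFullC K (M' * q * q)) (algebraMap R K π) =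
        al97L_alpha K (M' * q) q
          (algebraMap K ↥(modularFunctionFieldFullC K (M' * q)) (algebraMap R K π)) :=
      ((al97L_alpha K (M' * q) q).commutes _).symm
    rw [h1]
    exact hα₂ _ (((cm85_Vinf (K := K) (M' * q) hπ).valuation_le_one_iff _).mp
      (vuf1_disc_Vinf (K := K) (M' * q) hπ).2.1.le)
  have hπ2lt : V₂.valuation
      (algebraMap K ↥(modularFunctionFieldFullC K (M' * q * q)) (algebraMap R K π)) < 1 := by
    refine lt_of_le_of_ne ((V₂.valuation_le_one_iff _).mpr hπ2mem) ?_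
    intro h
    apply hπ₂
    rw [← V₂.valuation_le_one_iff, map_inv₀, h, inv_one]
  have hne : cm85_Vinf (K := K) (M' * q * q) hπ ≠ V₂ := by
    intro h
    have h1 : V₂.valuation (v2g64_s K M' q) = 1 := h ▸ hs1
    rw [h1, one_pow] at hs
    exact hπ2lt.ne hs.symm
  obtain ⟨honly, -, -, -, -⟩ := ob72_ram (K := K) (M' * q) q hq (dvd_mul_left q M') hπ V₂ hα₂ hπ₂
    hne (v2g64_s K M' q) hs
  -- helper97's `V₂`
  have hUα : ∀ c ∈ cm85_Vinf (K := K) (M' * q) hπ,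
      al97L_alpha K (M' * q) q c ∈ vsq97_V2 R K M' q hq hM' ζ := fun c hc =>
    vsq97_V2_over M' q hq hM' ζ hζq hζ1 hπ c hc
  have hUπ : (algebraMap K ↥(modularFunctionFieldFullC K (M' * q * q)) (algebraMap R K π))⁻¹ ∉
      vsq97_V2 R K M' q hq hM' ζ := by
    have h := vsq97_V2_const (R := R) (K := K) M' q hq hM' ζ hζq hζ1 π hπ.ne_zero hπ.not_isUnit
    rwa [AlgHom.commutes] at h
  have hjV : al97L_alpha K M' q (v2g64_j K M') ∈ cm85_Vinf (K := K) (M' * q) hπ :=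
    gv85_mem_V_of_integral _ _ _ _ (jqModC R) (by
      show (jqModC K : LaurentSeries K) = _
      rw [coeffMap_jqModC])
  have hUs : v2g64_s K M' q ∈ (vsq97_V2 R K M' q hq hM' ζ).nonunits := by
    have h := vsq97_V2_mid (R := R) (K := K) M' q hq hM' ζ hζq hζ1 hπ hqR _ hjV
    rw [al97L_w_alpha_apply] at h
    exact h
  rcases honly _ hUα hUπ with h | h
  · exfalso
    rw [h, ValuationSubring.mem_nonunits_iff] at hUs
    rw [hs1] at hUs
    exact lt_irrefl _ hUs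
  · exact h

/-- **`V₂` lies over `V_0'` along `β₂`** (from (MID) for `vsq97_V2` and uniqueness). -/
theorem vuc1_V2_beta (hq : q.Prime) (hM' : ¬ q ∣ M') {π : R} (hπ : Irreducible π)
    (hqR : ¬ IsUnit (q : R))
    (V₂ : ValuationSubring ↥(modularFunctionFieldFullC K (M' * q * q)))
    (hα₂ : ∀ x ∈ cm85_Vinf (K := K) (M' * q) hπ, al97L_alpha K (M' * q) q x ∈ V₂)
    (hπ₂ : (algebraMap K ↥(modularFunctionFieldFullC K (M' * q * q)) (algebraMap R K π))⁻¹ ∉ V₂)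
    (hs : V₂.valuation (v2g64_s K M' q) ^ (q - 1) =
      V₂.valuation (algebraMap K ↥(modularFunctionFieldFullC K (M' * q * q)) (algebraMap R K π)))
    (x : ↥(modularFunctionFieldFullC K (M' * q)))
    (hx : x ∈ s34i47c_V0 (K := K) M' q hq hM' hπ) :
    al97L_beta K (M' * q) q x ∈ V₂ := by
  obtain ⟨B, _, j, ι, k, _, _, ρ, ζB, hj, hjι, hρι, hζ, hρζ⟩ :=
    ng97_exists_red (R := R) (K := K) q hq
      ((IsLocalRing.mem_maximalIdeal _).mpr hqR)
  have hζq := hζ.pow_eq_one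
  have hζ1 := hζ.ne_one hq.one_lt
  have hU := vuc1_V2_eq (K := K) M' q hq hM' hπ hqR V₂ hα₂ hπ₂ hs _ hζq hζ1
  have hg := (s34i47c_mem_V0 M' q hq hM' hπ x).mp hx
  have hmid := vsq97_V2_mid (R := R) (K := K) M' q hq hM' _ hζq hζ1 hπ hqR _ hg
  rw [al97L_w_w, hU, ValuationSubring.mem_nonunits_iff] at hmid
  have h1 : al97L_beta K (M' * q) q x - al97L_alpha K (M' * q) q
      (al97L_w (algebraMap K Q̄) M' q hq hM' x) ∈ V₂ :=
    (V₂.valuation_le_one_iff _).mp hmid.le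
  have h2 := V₂.add_mem _ _ h1 (hα₂ _ hg)
  rwa [sub_add_cancel] at h2

/-- **(B0) on the canonical frame**: `V₁ = cm85_Vinf (M' * q * q)`, `V₃ = nsb86_V3`, and ANY
`V₂` with the three facts of `ob72_ram` for `s = v2g64_s K M' q`. -/
theorem vuc1_main (hq : q.Prime) (hM' : ¬ q ∣ M') {π : R} (hπ : Irreducible π)
    (hqR : ¬ IsUnit (q : R))
    (V₂ : ValuationSubring ↥(modularFunctionFieldFullC K (M' * q * q)))
    (hα₂ : ∀ x ∈ cm85_Vinf (K := K) (M' * q) hπ, al97L_alpha K (M' * q) q x ∈ V₂)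
    (hπ₂ : (algebraMap K ↥(modularFunctionFieldFullC K (M' * q * q)) (algebraMap R K π))⁻¹ ∉ V₂)
    (hs : V₂.valuation (v2g64_s K M' q) ^ (q - 1) =
      V₂.valuation (algebraMap K ↥(modularFunctionFieldFullC K (M' * q * q)) (algebraMap R K π)))
    (m : ℕ) (hm : 0 < m)
    (f : ↥(modularFunctionFieldFullC K (M' * q * q))) (hf : f ≠ 0)
    (ca cb : K) (hca : ca ≠ 0) (hcb : cb ≠ 0)
    (a b : ↥(modularFunctionFieldFullC K (M' * q))) (ha : a ≠ 0) (hb : b ≠ 0)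
    (hNa : s35i62_normA K (M' * q) q f =
      algebraMap K ↥(modularFunctionFieldFullC K (M' * q)) ca * a ^ m)
    (hNb : s35i62_normB K (M' * q) q f =
      algebraMap K ↥(modularFunctionFieldFullC K (M' * q)) cb * b ^ m) :
    ∃ (c0 : K) (y f2 : ↥(modularFunctionFieldFullC K (M' * q * q))), c0 ≠ 0 ∧ y ≠ 0 ∧ f2 ≠ 0 ∧
      f2 = f ^ (q + 1) * algebraMap K ↥(modularFunctionFieldFullC K (M' * q * q)) c0 * y ^ m ∧
      (f2 ∈ cm85_Vinf (K := K) (M' * q * q) hπ ∧ f2⁻¹ ∈ cm85_Vinf (K := K) (M' * q * q) hπ) ∧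
      (f2 ∈ V₂ ∧ f2⁻¹ ∈ V₂) ∧
      (f2 ∈ nsb86_V3 M' q hq hM' hπ ∧ f2⁻¹ ∈ nsb86_V3 M' q hq hM' hπ) ∧
      (∃ (cA : K) (A2 : ↥(modularFunctionFieldFullC K (M' * q))), cA ≠ 0 ∧ A2 ≠ 0 ∧
        (algebraMap K ↥(modularFunctionFieldFullC K (M' * q)) cA ∈
            cm85_Vinf (K := K) (M' * q) hπ ∧
          (algebraMap K ↥(modularFunctionFieldFullC K (M' * q)) cA)⁻¹ ∈
            cm85_Vinf (K := K) (M' * q) hπ) ∧
        (algebraMap K ↥(modularFunctionFieldFullC K (M' * q)) cA ∈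
            s34i47c_V0 (K := K) M' q hq hM' hπ ∧
          (algebraMap K ↥(modularFunctionFieldFullC K (M' * q)) cA)⁻¹ ∈
            s34i47c_V0 (K := K) M' q hq hM' hπ) ∧
        (A2 ∈ cm85_Vinf (K := K) (M' * q) hπ ∧ A2⁻¹ ∈ cm85_Vinf (K := K) (M' * q) hπ) ∧
        (A2 ∈ s34i47c_V0 (K := K) M' q hq hM' hπ ∧
          A2⁻¹ ∈ s34i47c_V0 (K := K) M' q hq hM' hπ) ∧
        s35i62_normA K (M' * q) q f2 =
          algebraMap K ↥(modularFunctionFieldFullC K (M' * q)) cA * A2 ^ m) ∧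
      (∃ (cB : K) (B2 : ↥(modularFunctionFieldFullC K (M' * q))), cB ≠ 0 ∧ B2 ≠ 0 ∧
        (algebraMap K ↥(modularFunctionFieldFullC K (M' * q)) cB ∈
            cm85_Vinf (K := K) (M' * q) hπ ∧
          (algebraMap K ↥(modularFunctionFieldFullC K (M' * q)) cB)⁻¹ ∈
            cm85_Vinf (K := K) (M' * q) hπ) ∧
        (algebraMap K ↥(modularFunctionFieldFullC K (M' * q)) cB ∈
            s34i47c_V0 (K := K) M' q hq hM' hπ ∧
          (algebraMap K ↥(modularFunctionFieldFullC K (M' * q)) cB)⁻¹ ∈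
            s34i47c_V0 (K := K) M' q hq hM' hπ) ∧
        (B2 ∈ cm85_Vinf (K := K) (M' * q) hπ ∧ B2⁻¹ ∈ cm85_Vinf (K := K) (M' * q) hπ) ∧
        (B2 ∈ s34i47c_V0 (K := K) M' q hq hM' hπ ∧
          B2⁻¹ ∈ s34i47c_V0 (K := K) M' q hq hM' hπ) ∧
        s35i62_normB K (M' * q) q f2 =
          algebraMap K ↥(modularFunctionFieldFullC K (M' * q)) cB * B2 ^ m) := by
  obtain ⟨hw1, hw2⟩ := vuc1_V3_wit (K := K) M' q hq hM' hπ hqR
  exact vuf1_main (K := K) M' q hq hM' hπ hqR V₂ (nsb86_V3 M' q hq hM' hπ) hα₂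
    (vuc1_V3_alpha M' q hq hM' hπ)
    (vuc1_V2_beta (K := K) M' q hq hM' hπ hqR V₂ hα₂ hπ₂ hs)
    (vuc1_V3_beta M' q hq hM' hπ) hπ₂ (vuc1_V3_pi M' q hq hM' hπ)
    (v2g64_s K M' q) hs (vuc1_s_unit M' q hq hπ) (vuc1_V3_s M' q hq hM' hπ)
    _ hw1 hw2 m hm f hf ca cb hca hcb a b ha hb hNa hNb

end vuc1

end Fermat.Agent.S36
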