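import Mathlib
import Fermat.Agent.S36.StrongAbs67
import Fermat.Agent.S36.TripleFrameB71
import Fermat.Agent.S36.ChartMaps71
import Fermat.Agent.S36.ValUnitCanon1
import Fermat.Agent.S36.FrameClauses73
import Fermat.Agent.S36.HFBind85

/-!
# S36 lab, row 630 C-CANON-I6 (helper67): the strong (LP) = (I6) on the CANONICAL charts of
level `M' q q`

Frame: `V₁ = cm85_Vinf (M' * q * q) hπ`, `V₂` ANY valuation subring with the four `ob72_ram`
facts (`hV₂ hπ₂ hne hs`, `σ = v2g64_s K M' q`), `V₃ = nsb86_V3 M' q hq hM' hπ`; Hauptmodul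
`h = α₂ h'` for an admissible Hauptmodul `h'` of level `M' * q` (`s34i47c_IsHaupt`); charts
`B = pk15_chart R {h}`, `{h⁻¹}` over the charts `B' = pk15_chart R {h'}`, `{h'⁻¹}` of level
`M' * q`.

* `sc67_Reg π B' U U'` : (REG-q) on a chart of level `M' q` in the literal `hr₁ ∧ hr₂` shape of
  `tf71b_hD` / `tf71b_twoGen` (output of `nf79c_divAt`).
* `sc67_sigma_facts` : `σ ≠ 0`, `π⁻¹ σ^(q-1) ∈ V₂`, `π σ⁻¹ ∈ V₂` from `hπ₂`, `hs`.
* `sc67_canon` : (HF) + (REG-q) on the two charts below + `tl71_TwoGen` on the two charts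
  ⟹ `sc67_Strong` (= the conclusion of `lps9_strong_three` for every unit `u` with `Ord`, `Fin`)
  on both charts.  Everything else is discharged inside.
* `sc67_canon_level2` / `sc67_canon_level3` : the same for `h = pk85_h2 / pk85_h3` with (HF)
  discharged (`fb85_frameV3_level2/3`).

All names are prefixed `sc67_`.
-/

set_option autoImplicit false
set_option linter.unusedSectionVars false
set_option linter.unusedVariables false
set_option linter.style.longLine false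
set_option linter.style.haveILetI false

open ModularCurve

namespace Fermat.Agent.S36

open Fermat.Agent.S18 Fermat.Agent.S24 Fermat.Agent.S34 Fermat.Agent.S36.TripleLoc71

local notation "Q̄" => AlgebraicClosure ℚ

section Defs

variable {R F : Type*} [CommRing R] [Field F] [Algebra R F]

/-- **(REG-q)** on a chart `B'` with the two reduced branches `U`, `U'`, in the literal
`hr₁ ∧ hr₂` shape of `tf71b_hD`. -/
def sc67_Reg (π : R) (B' : Subalgebra R F) (U U' : ValuationSubring F) : Prop :=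
  (∀ m' : Ideal B', m'.IsMaximal → sf79_OnBr π B' U.toSubring m' →
    sf79_OnBr π B' U'.toSubring m' →
    tl71_DivAt π B' U.toSubring U'.toSubring U'.toSubring m') ∧
  (∀ m' : Ideal B', m'.IsMaximal → sf79_OnBr π B' U'.toSubring m' →
    sf79_OnBr π B' U.toSubring m' →
    tl71_DivAt π B' U'.toSubring U.toSubring U.toSubring m')

end Defs

/-- The middle uniformiser: `σ ≠ 0`, `π⁻¹ σ^(q-1) ∈ V`, `π σ⁻¹ ∈ V` from `π⁻¹ ∉ V` and
`v(σ)^(q-1) = v(π)`. -/
theorem sc67_sigma_facts {F : Type*} [Field F] (V : ValuationSubring F) (π σ : F) (q : ℕ)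
    (hq : 2 ≤ q) (hπ : π⁻¹ ∉ V) (hs : V.valuation σ ^ (q - 1) = V.valuation π) :
    σ ≠ 0 ∧ π⁻¹ * σ ^ (q - 1) ∈ V ∧ π * σ⁻¹ ∈ V := by
  have hπ0 : π ≠ 0 := by
    rintro rfl
    exact hπ (by rw [inv_zero]; exact V.zero_mem)
  have hvπ : V.valuation π ≠ 0 := (map_ne_zero _).mpr hπ0
  have hσ0 : σ ≠ 0 := by
    rintro rfl
    rw [map_zero, zero_pow (by omega)] at hs
    exact hvπ hs.symm
  have hvσ : V.valuation σ ≠ 0 := (map_ne_zero _).mpr hσ0
  have hvπ1 : V.valuation π < 1 := by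
    have h1 := (V.valuation_le_one_iff π⁻¹).not.mpr hπ
    rw [map_inv₀, not_le] at h1
    exact (one_lt_inv₀ (zero_lt_iff.mpr hvπ)).mp h1
  have hvσ1 : V.valuation σ ≤ 1 := by
    by_contra hc
    rw [not_le] at hc
    have h1 : 1 ≤ V.valuation σ ^ (q - 1) := one_le_pow₀ hc.le
    rw [hs] at h1
    exact absurd hvπ1 (not_lt.mpr h1)
  refine ⟨hσ0, ?_, ?_⟩
  · rw [← V.valuation_le_one_iff, map_mul, map_inv₀, map_pow, hs, inv_mul_cancel₀ hvπ]
  · rw [← V.valuation_le_one_iff, map_mul, map_inv₀, ← hs]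
    have h1 : q - 1 = (q - 2) + 1 := by omega
    rw [h1, pow_succ, mul_assoc, mul_inv_cancel₀ hvσ, mul_one]
    exact pow_le_one₀ zero_le hvσ1

section Canon

variable {R K : Type} [CommRing R] [IsDomain R] [IsDiscreteValuationRing R] [Field K]
  [CharZero K] [Algebra R K] [IsFractionRing R K] [Algebra K Q̄]
  (M' q : ℕ) [NeZero M'] [NeZero q]
  [Algebra R ↥(modularFunctionFieldFullC K (M' * q))]
  [IsScalarTower R K ↥(modularFunctionFieldFullC K (M' * q))]
  [Algebra R ↥(modularFunctionFieldFullC K (M' * q * q))]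
  [IsScalarTower R K ↥(modularFunctionFieldFullC K (M' * q * q))]

/-- **(I6) on both canonical charts of level `M' q q`**, for the Hauptmodul `α₂ h'`. -/
theorem sc67_canon (hq : q.Prime) (hM' : ¬ q ∣ M') {π : R} (hπ : Irreducible π)
    (hqR : ¬ IsUnit (q : R)) (hunit : ∀ n : ℕ, Nat.Coprime n q → IsUnit (n : R))
    (V₂ : ValuationSubring ↥(modularFunctionFieldFullC K (M' * q * q)))
    (hV₂ : ∀ c ∈ cm85_Vinf (K := K) (M' * q) hπ, al97L_alpha K (M' * q) q c ∈ V₂)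
    (hπ₂ : (algebraMap K ↥(modularFunctionFieldFullC K (M' * q * q)) (algebraMap R K π))⁻¹ ∉ V₂)
    (hne : cm85_Vinf (K := K) (M' * q * q) hπ ≠ V₂)
    (hs : V₂.valuation (v2g64_s K M' q) ^ (q - 1) =
      V₂.valuation (algebraMap K ↥(modularFunctionFieldFullC K (M' * q * q)) (algebraMap R K π)))
    (h' : ↥(modularFunctionFieldFullC K (M' * q))) (hh' : s34i47c_IsHaupt K (M' * q) q h')
    (hF : ci57x_HF K π (al97L_alpha K (M' * q) q h') (cm85_Vinf (K := K) (M' * q * q) hπ) V₂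
      (nsb86_V3 (K := K) M' q hq hM' hπ))
    (hr : sc67_Reg π (pk15_chart R ({h'} : Set ↥(modularFunctionFieldFullC K (M' * q))))
      (cm85_Vinf (K := K) (M' * q) hπ) (s34i47c_V0 (K := K) M' q hq hM' hπ))
    (hr' : sc67_Reg π (pk15_chart R ({h'⁻¹} : Set ↥(modularFunctionFieldFullC K (M' * q))))
      (cm85_Vinf (K := K) (M' * q) hπ) (s34i47c_V0 (K := K) M' q hq hM' hπ))
    (h2 : tl71_TwoGen π (pk15_chart R
      ({al97L_alpha K (M' * q) q h'} : Set ↥(modularFunctionFieldFullC K (M' * q * q)))))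
    (h2' : tl71_TwoGen π (pk15_chart R
      ({(al97L_alpha K (M' * q) q h')⁻¹} : Set ↥(modularFunctionFieldFullC K (M' * q * q))))) :
    sc67_Strong π (pk15_chart R
        ({al97L_alpha K (M' * q) q h'} : Set ↥(modularFunctionFieldFullC K (M' * q * q))))
      (cm85_Vinf (K := K) (M' * q * q) hπ) V₂ (nsb86_V3 (K := K) M' q hq hM' hπ) ∧
    sc67_Strong π (pk15_chart R
        ({(al97L_alpha K (M' * q) q h')⁻¹} : Set ↥(modularFunctionFieldFullC K (M' * q * q))))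
      (cm85_Vinf (K := K) (M' * q * q) hπ) V₂ (nsb86_V3 (K := K) M' q hq hM' hπ) := by
  have e : algebraMap R ↥(modularFunctionFieldFullC K (M' * q * q)) π =
      algebraMap K ↥(modularFunctionFieldFullC K (M' * q * q)) (algebraMap R K π) :=
    IsScalarTower.algebraMap_apply R K _ π
  -- the middle uniformiser
  obtain ⟨hσ0, hσe, hπσ⟩ := sc67_sigma_facts V₂
    (algebraMap R ↥(modularFunctionFieldFullC K (M' * q * q)) π) (v2g64_s K M' q) q hq.two_le
    (by rw [e]; exact hπ₂) (by rw [e]; exact hs)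
  -- `hπ_i`, `hrad_i`
  have hpi := fc73_pi (K := K) M' q hq hM' hπ V₂ hπ₂
  have hrad := fc73_rad (K := K) M' q hq hM' hπ hqR V₂ hV₂ hπ₂ hne hs
  have hπ₁ := hpi 0
  have hπ₂' := hpi 1
  have hπ₃ := hpi 2
  have hrad₁ := hrad 0
  have hrad₂ := hrad 1
  have hrad₃ := hrad 2
  -- the lying-over facts of `tf71b_hD`
  have hα₃ : ∀ x ∈ s34i47c_V0 (K := K) M' q hq hM' hπ,
      al97L_alpha K (M' * q) q x ∈ nsb86_V3 (K := K) M' q hq hM' hπ :=
    fun x hx => vuc1_V3_alpha M' q hq hM' hπ x hx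
  have hβ₃ : ∀ x ∈ s34i47c_V0 (K := K) M' q hq hM' hπ,
      al97L_beta K (M' * q) q x ∈ nsb86_V3 (K := K) M' q hq hM' hπ :=
    fun x hx => vuc1_V3_beta M' q hq hM' hπ x hx
  have hβ₂ : ∀ x ∈ s34i47c_V0 (K := K) M' q hq hM' hπ, al97L_beta K (M' * q) q x ∈ V₂ :=
    fun x hx => vuc1_V2_beta M' q hq hM' hπ hqR V₂ hV₂ hπ₂ hs x hx
  -- the chart maps
  obtain ⟨hαB, hαB'⟩ := cm71_alpha_charts (R := R) (K := K) (M' * q) q h'
  obtain ⟨hβB, hβB'⟩ := cm71_beta_charts (R := R) (K := K) (M' * q) q hq hunit h' hh'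
  obtain ⟨hD₁, hD₃⟩ := tf71b_hD (K := K) M' q hq hM' hπ V₂ (nsb86_V3 (K := K) M' q hq hM' hπ)
    (v2g64_s K M' q) hV₂ hα₃ hβ₂ hβ₃ hπσ _ _ hαB hβB hr.1 hr.2
  obtain ⟨hD₁', hD₃'⟩ := tf71b_hD (K := K) M' q hq hM' hπ V₂
    (nsb86_V3 (K := K) M' q hq hM' hπ)
    (v2g64_s K M' q) hV₂ hα₃ hβ₂ hβ₃ hπσ _ _ hαB' hβB' hr'.1 hr'.2
  exact ⟨sc67_strong_chart (K := K) hπ _ _ V₂ _ hF (v2g64_s K M' q) (q - 1) hσ0 hσe
      hπ₁ hπ₂' hπ₃ hrad₁ hrad₂ hrad₃ h2 hD₁ hD₃,
    sc67_strong_chart_inv (K := K) hπ _ _ V₂ _ hF (v2g64_s K M' q) (q - 1) hσ0 hσe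
      hπ₁ hπ₂' hπ₃ hrad₁ hrad₂ hrad₃ h2' hD₁' hD₃'⟩

/-- **(I6) on both canonical charts, Hauptmodul of level 2** (`q ≠ 2`, `2 ∣ M'`); (HF) is
discharged inside. -/
theorem sc67_canon_level2 [Algebra.IsAlgebraic K Q̄] (hq : q.Prime) (hM' : ¬ q ∣ M') {π : R}
    (hπ : Irreducible π)
    (hqR : ¬ IsUnit (q : R)) (hunit : ∀ n : ℕ, Nat.Coprime n q → IsUnit (n : R))
    (hq2 : q ≠ 2) (h2 : 2 ∣ M')
    (V₂ : ValuationSubring ↥(modularFunctionFieldFullC K (M' * q * q)))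
    (hV₂ : ∀ c ∈ cm85_Vinf (K := K) (M' * q) hπ, al97L_alpha K (M' * q) q c ∈ V₂)
    (hπ₂ : (algebraMap K ↥(modularFunctionFieldFullC K (M' * q * q)) (algebraMap R K π))⁻¹ ∉ V₂)
    (hne : cm85_Vinf (K := K) (M' * q * q) hπ ≠ V₂)
    (hs : V₂.valuation (v2g64_s K M' q) ^ (q - 1) =
      V₂.valuation (algebraMap K ↥(modularFunctionFieldFullC K (M' * q * q)) (algebraMap R K π)))
    (hr : sc67_Reg π (pk15_chart R ({pk85_h2 K (M' * q) (h2.trans (dvd_mul_right M' q))} :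
        Set ↥(modularFunctionFieldFullC K (M' * q))))
      (cm85_Vinf (K := K) (M' * q) hπ) (s34i47c_V0 (K := K) M' q hq hM' hπ))
    (hr' : sc67_Reg π (pk15_chart R ({(pk85_h2 K (M' * q) (h2.trans (dvd_mul_right M' q)))⁻¹} :
        Set ↥(modularFunctionFieldFullC K (M' * q))))
      (cm85_Vinf (K := K) (M' * q) hπ) (s34i47c_V0 (K := K) M' q hq hM' hπ))
    (hT : tl71_TwoGen π (pk15_chart R ({pk85_h2 K (M' * q * q)
      (h2.trans ((dvd_mul_right M' q).trans (dvd_mul_right (M' * q) q)))} :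
        Set ↥(modularFunctionFieldFullC K (M' * q * q)))))
    (hT' : tl71_TwoGen π (pk15_chart R ({(pk85_h2 K (M' * q * q)
      (h2.trans ((dvd_mul_right M' q).trans (dvd_mul_right (M' * q) q))))⁻¹} :
        Set ↥(modularFunctionFieldFullC K (M' * q * q))))) :
    sc67_Strong π (pk15_chart R ({pk85_h2 K (M' * q * q)
        (h2.trans ((dvd_mul_right M' q).trans (dvd_mul_right (M' * q) q)))} :
          Set ↥(modularFunctionFieldFullC K (M' * q * q))))
      (cm85_Vinf (K := K) (M' * q * q) hπ) V₂ (nsb86_V3 (K := K) M' q hq hM' hπ) ∧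
    sc67_Strong π (pk15_chart R ({(pk85_h2 K (M' * q * q)
        (h2.trans ((dvd_mul_right M' q).trans (dvd_mul_right (M' * q) q))))⁻¹} :
          Set ↥(modularFunctionFieldFullC K (M' * q * q))))
      (cm85_Vinf (K := K) (M' * q * q) hπ) V₂ (nsb86_V3 (K := K) M' q hq hM' hπ) := by
  have e : al97L_alpha K (M' * q) q (pk85_h2 K (M' * q) (h2.trans (dvd_mul_right M' q))) =
      pk85_h2 K (M' * q * q)
        (h2.trans ((dvd_mul_right M' q).trans (dvd_mul_right (M' * q) q))) := by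
    apply Subtype.ext
    rw [al97L_alpha_coe, pk85_h2_coe, pk85_h2_coe]
  have hMu : IsUnit (M' : R) :=
    hunit M' ((Nat.coprime_comm.mp ((Nat.Prime.coprime_iff_not_dvd hq).mpr hM')))
  have hF := fb85_frameV3_level2 M' q hq hM' hπ hqR hMu h2 V₂ hV₂ hπ₂ hs
  have key := sc67_canon (K := K) M' q hq hM' hπ hqR hunit V₂ hV₂ hπ₂ hne hs
    (pk85_h2 K (M' * q) (h2.trans (dvd_mul_right M' q)))
    (Or.inl ⟨hq2, h2.trans (dvd_mul_right M' q), rfl⟩)
    (by rw [e]; exact ⟨hF.1, hF.2.1⟩) hr hr' (by rw [e]; exact hT) (by rw [e]; exact hT')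
  rw [e] at key
  exact key

/-- **(I6) on both canonical charts, Hauptmodul of level 3** (`q ≠ 3`, `3 ∣ M'`); (HF) is
discharged inside. -/
theorem sc67_canon_level3 [Algebra.IsAlgebraic K Q̄] (hq : q.Prime) (hM' : ¬ q ∣ M') {π : R}
    (hπ : Irreducible π)
    (hqR : ¬ IsUnit (q : R)) (hunit : ∀ n : ℕ, Nat.Coprime n q → IsUnit (n : R))
    (hq3 : q ≠ 3) (h3 : 3 ∣ M')
    (V₂ : ValuationSubring ↥(modularFunctionFieldFullC K (M' * q * q)))
    (hV₂ : ∀ c ∈ cm85_Vinf (K := K) (M' * q) hπ, al97L_alpha K (M' * q) q c ∈ V₂)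
    (hπ₂ : (algebraMap K ↥(modularFunctionFieldFullC K (M' * q * q)) (algebraMap R K π))⁻¹ ∉ V₂)
    (hne : cm85_Vinf (K := K) (M' * q * q) hπ ≠ V₂)
    (hs : V₂.valuation (v2g64_s K M' q) ^ (q - 1) =
      V₂.valuation (algebraMap K ↥(modularFunctionFieldFullC K (M' * q * q)) (algebraMap R K π)))
    (hr : sc67_Reg π (pk15_chart R ({pk85_h3 K (M' * q) (h3.trans (dvd_mul_right M' q))} :
        Set ↥(modularFunctionFieldFullC K (M' * q))))
      (cm85_Vinf (K := K) (M' * q) hπ) (s34i47c_V0 (K := K) M' q hq hM' hπ))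
    (hr' : sc67_Reg π (pk15_chart R ({(pk85_h3 K (M' * q) (h3.trans (dvd_mul_right M' q)))⁻¹} :
        Set ↥(modularFunctionFieldFullC K (M' * q))))
      (cm85_Vinf (K := K) (M' * q) hπ) (s34i47c_V0 (K := K) M' q hq hM' hπ))
    (hT : tl71_TwoGen π (pk15_chart R ({pk85_h3 K (M' * q * q)
      (h3.trans ((dvd_mul_right M' q).trans (dvd_mul_right (M' * q) q)))} :
        Set ↥(modularFunctionFieldFullC K (M' * q * q)))))
    (hT' : tl71_TwoGen π (pk15_chart R ({(pk85_h3 K (M' * q * q)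
      (h3.trans ((dvd_mul_right M' q).trans (dvd_mul_right (M' * q) q))))⁻¹} :
        Set ↥(modularFunctionFieldFullC K (M' * q * q))))) :
    sc67_Strong π (pk15_chart R ({pk85_h3 K (M' * q * q)
        (h3.trans ((dvd_mul_right M' q).trans (dvd_mul_right (M' * q) q)))} :
          Set ↥(modularFunctionFieldFullC K (M' * q * q))))
      (cm85_Vinf (K := K) (M' * q * q) hπ) V₂ (nsb86_V3 (K := K) M' q hq hM' hπ) ∧
    sc67_Strong π (pk15_chart R ({(pk85_h3 K (M' * q * q)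
        (h3.trans ((dvd_mul_right M' q).trans (dvd_mul_right (M' * q) q))))⁻¹} :
          Set ↥(modularFunctionFieldFullC K (M' * q * q))))
      (cm85_Vinf (K := K) (M' * q * q) hπ) V₂ (nsb86_V3 (K := K) M' q hq hM' hπ) := by
  have e : al97L_alpha K (M' * q) q (pk85_h3 K (M' * q) (h3.trans (dvd_mul_right M' q))) =
      pk85_h3 K (M' * q * q)
        (h3.trans ((dvd_mul_right M' q).trans (dvd_mul_right (M' * q) q))) := by
    apply Subtype.ext
    rw [al97L_alpha_coe, pk85_h3_coe, pk85_h3_coe]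
  have hMu : IsUnit (M' : R) :=
    hunit M' ((Nat.coprime_comm.mp ((Nat.Prime.coprime_iff_not_dvd hq).mpr hM')))
  have hF := fb85_frameV3_level3 M' q hq hM' hπ hqR hMu h3 V₂ hV₂ hπ₂ hs
  have key := sc67_canon (K := K) M' q hq hM' hπ hqR hunit V₂ hV₂ hπ₂ hne hs
    (pk85_h3 K (M' * q) (h3.trans (dvd_mul_right M' q)))
    (Or.inr ⟨hq3, h3.trans (dvd_mul_right M' q), rfl⟩)
    (by rw [e]; exact ⟨hF.1, hF.2.1⟩) hr hr' (by rw [e]; exact hT) (by rw [e]; exact hT')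
  rw [e] at key
  exact key

end Canon

end Fermat.Agent.S36
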