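import Fermat.Agent.S36.C2Den66
import Fermat.Agent.S36.C2Den74
import Fermat.Agent.S36.GHaupt96
import Fermat.Agent.S36.SmallQInst75
import Fermat.Agent.S36.RigidSpecHaupt96
import Fermat.Agent.S36.StrongCanon67

/-!
# S36 lab, row 600 C-C2 (helper67): the final `hreg` composite on the canonical charts

At every closed point `n` of the middle branch only where `j` is regular, the middle branch is
principal at `n` (`mc25_MidPrinAt`), on both canonical charts of level `M' q q`: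

* `c2f67_hreg_level2` (`q ≠ 2`, `2 ∣ M'`, `q ≠ 3 → 3 ∣ M'`) : charts `{h₂}`, `{h₂⁻¹}`;
* `c2f67_hreg_level3` (`q = 2`, `3 ∣ M'`) : charts `{h₃}`, `{h₃⁻¹}`;

in the literal shapes `hC₁ ∧ hC₂` of `tg71_final_level2/3` at `π := ((q : ℕ) : R)`.

Route: the coordinate form with a denominator `c2h66_prinAt` (helper66, on `c2x11_mid_dvd` of
helper11) for the coordinate `x = h₂` or `x = h₃` of level `M'`; denominators from
`c2p74_den_haupt` (helper74); `G_x` in closed form (`gh96_G_h2/h3`, helper96);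
`α^* U` a unit at `n` (`usq75_alphaU_unit_at`, helper75); `j` a unit at `n` for `q = 2, 3`
(`sqi75_j_unit_at`, helper75).  The units `T`, `T + 64` (resp. `T`, `T + 27`) at `n` come from
the Hauptmodul relations and the regularity of `j`; for `q ≥ 5` the points with `T + 64 ∈ n`
(`j ≡ 1728`) are treated with `x = h₃`.

All names are prefixed `c2f67_`.
-/

set_option autoImplicit false
set_option linter.unusedSectionVars false
set_option linter.unusedVariables false
set_option linter.style.haveILetI false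
set_option linter.style.longLine false

open ModularCurve

namespace Fermat.Agent.S36

open Fermat.Agent.S18 Fermat.Agent.S24 Fermat.Agent.S28 Fermat.Agent.S37 Fermat.Agent.S34
open Fermat.Agent.S35 Fermat.Agent.S36.TripleLoc71

local notation "Q̄" => AlgebraicClosure ℚ

section c2f67_abs

variable {R : Type*} [CommRing R] {F : Type*} [Field F] [Algebra R F]

/-- Level 2: `T` is a unit at `n` as soon as `j` is regular at `n`. -/
theorem c2f67_t_two (B : Subalgebra R F) (n : Ideal B) [hn : n.IsPrime] (j T : F)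
    (hrel : j * T ^ 2 = (T + 256) ^ 3) (s' b' b t : B) (hs' : s' ∉ n) (hb : b ∉ n)
    (hsj : (s' : F) * j = (b' : F)) (ht : (t : F) = (b : F) * T)
    (c : B) (hc : (c : F) = 256) (hcn : c ∉ n) : t ∉ n := by
  have key : b' * t ^ 2 * b = s' * (t + c * b) ^ 3 := by
    apply Subtype.ext
    push_cast
    rw [ht, hc]
    linear_combination (-((b : F) ^ 3 * T ^ 2)) * hsj + ((s' : F) * (b : F) ^ 3) * hrel
  intro htn
  have h1 : s' * (t + c * b) ^ 3 ∈ n := by
    rw [← key]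
    exact n.mul_mem_right _ (n.mul_mem_left _ (n.pow_mem_of_mem htn 2 (by norm_num)))
  rcases hn.mem_or_mem h1 with h | h
  · exact hs' h
  · have h2 := hn.mem_of_pow_mem 3 h
    have h3 : c * b ∈ n := by
      have h4 := n.sub_mem h2 htn
      have e : t + c * b - t = c * b := by ring
      rwa [e] at h4
    rcases hn.mem_or_mem h3 with h5 | h5
    · exact hcn h5
    · exact hb h5

/-- Level 2: if `T + 64` vanishes at `n` then `j ≡ 1728` at `n`. -/
theorem c2f67_j1728 (B : Subalgebra R F) (n : Ideal B) [hn : n.IsPrime] (j T : F)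
    (hrel : j * T ^ 2 = (T + 256) ^ 3) (s' b' b t : B) (hb : b ∉ n)
    (hsj : (s' : F) * j = (b' : F)) (ht : (t : F) = (b : F) * T) (htn : t ∉ n)
    (e c d : B) (he : (e : F) = (t : F) + 64 * (b : F)) (hen : e ∈ n)
    (hc : (c : F) = 1728) (hd : (d : F) = (t : F) - 512 * (b : F)) :
    b' - c * s' ∈ n := by
  have key : (b' - c * s') * t ^ 2 * b = e * (s' * d ^ 2) := by
    apply Subtype.ext
    push_cast
    rw [he, hc, hd, ht]
    linear_combination ((s' : F) * (b : F) ^ 3) * hrel - ((b : F) ^ 3 * T ^ 2) * hsj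
  have h1 : (b' - c * s') * t ^ 2 * b ∈ n := by
    rw [key]
    exact n.mul_mem_right _ hen
  rcases hn.mem_or_mem h1 with h | h
  · rcases hn.mem_or_mem h with h2 | h2
    · exact h2
    · exact absurd (hn.mem_of_pow_mem 2 h2) htn
  · exact absurd h hb

/-- Level 3: `T` is a unit at `n` as soon as `j` is regular at `n`. -/
theorem c2f67_t_three (B : Subalgebra R F) (n : Ideal B) [hn : n.IsPrime] (j T : F)
    (hrel : j * T ^ 3 = (T + 27) * (T + 243) ^ 3) (s' b' b t : B) (hs' : s' ∉ n) (hb : b ∉ n)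
    (hsj : (s' : F) * j = (b' : F)) (ht : (t : F) = (b : F) * T)
    (c27 c243 : B) (h27 : (c27 : F) = 27) (h243 : (c243 : F) = 243)
    (h27n : c27 ∉ n) (h243n : c243 ∉ n) : t ∉ n := by
  have key : b' * t ^ 3 * b = s' * ((t + c27 * b) * (t + c243 * b) ^ 3) := by
    apply Subtype.ext
    push_cast
    rw [ht, h27, h243]
    linear_combination (-((b : F) ^ 4 * T ^ 3)) * hsj + ((s' : F) * (b : F) ^ 4) * hrel
  intro htn
  have h1 : s' * ((t + c27 * b) * (t + c243 * b) ^ 3) ∈ n := by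
    rw [← key]
    exact n.mul_mem_right _ (n.mul_mem_left _ (n.pow_mem_of_mem htn 3 (by norm_num)))
  have aux : ∀ c : B, c ∉ n → t + c * b ∉ n := by
    intro c hcn h2
    have h3 : c * b ∈ n := by
      have h4 := n.sub_mem h2 htn
      have e : t + c * b - t = c * b := by ring
      rwa [e] at h4
    rcases hn.mem_or_mem h3 with h5 | h5
    · exact hcn h5
    · exact hb h5
  rcases hn.mem_or_mem h1 with h | h
  · exact hs' h
  · rcases hn.mem_or_mem h with h2 | h2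
    · exact aux c27 h27n h2
    · exact aux c243 h243n (hn.mem_of_pow_mem 3 h2)

/-- Level 3: `T + 27` is a unit at `n` as soon as `j` is a unit at `n`. -/
theorem c2f67_t27_three (B : Subalgebra R F) (n : Ideal B) [hn : n.IsPrime] (j T : F)
    (hrel : j * T ^ 3 = (T + 27) * (T + 243) ^ 3) (s' b' b t : B) (hb : b ∉ n)
    (hsj : (s' : F) * j = (b' : F)) (ht : (t : F) = (b : F) * T) (htn : t ∉ n)
    (hb'n : b' ∉ n) (e c243 : B) (he : (e : F) = (t : F) + 27 * (b : F))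
    (h243 : (c243 : F) = 243) : e ∉ n := by
  have key : b' * t ^ 3 * b = e * (s' * (t + c243 * b) ^ 3) := by
    apply Subtype.ext
    push_cast
    rw [he, ht, h243]
    linear_combination (-((b : F) ^ 4 * T ^ 3)) * hsj + ((s' : F) * (b : F) ^ 4) * hrel
  intro hen
  have h1 : b' * t ^ 3 * b ∈ n := by
    rw [key]
    exact n.mul_mem_right _ hen
  rcases hn.mem_or_mem h1 with h | h
  · rcases hn.mem_or_mem h with h2 | h2
    · exact hb'n h2
    · exact absurd (hn.mem_of_pow_mem 3 h2) htn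
  · exact absurd h hb

/-- A constant of `R` that is a unit gives an element of `B` outside every prime. -/
theorem c2f67_const (B : Subalgebra R F) (n : Ideal B) [hn : n.IsPrime] (r : R) (hr : IsUnit r)
    (c : F) (hc : algebraMap R F r = c) :
    ∃ cB : B, (cB : F) = c ∧ cB ∉ n := by
  refine ⟨algebraMap R B r, hc, fun h => ?_⟩
  exact hn.ne_top (Ideal.eq_top_of_isUnit_mem _ h (hr.map (algebraMap R B)))

end c2f67_abs

noncomputable section

section c2f67_point

variable {R K : Type} [CommRing R] [IsDomain R] [IsDiscreteValuationRing R] [Field K]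
  [NumberField K] [Algebra R K] [IsFractionRing R K] [Algebra K Q̄]
  (M' q : ℕ) [NeZero M'] [NeZero q] (hq : q.Prime) (hM' : ¬ q ∣ M')
  [Algebra R ↥(modularFunctionFieldFullC K M')]
  [IsScalarTower R K ↥(modularFunctionFieldFullC K M')]
  [Algebra R ↥(modularFunctionFieldFullC K (M' * q))]
  [IsScalarTower R K ↥(modularFunctionFieldFullC K (M' * q))]
  [Algebra R ↥(modularFunctionFieldFullC K (M' * q * q))]
  [IsScalarTower R K ↥(modularFunctionFieldFullC K (M' * q * q))]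

include hq hM' in
/-- **Per-point core**: a coordinate `x` of level `M'` with `G_x = 1 / P` after `α₂ α₁`, `P` a
unit at `n`, a denominator for `s_x`, and a `V₁`-unit witness `sV` of the regularity of `j`. -/
theorem c2f67_point (hπ : Irreducible ((q : ℕ) : R))
    (V₂ : ValuationSubring ↥(modularFunctionFieldFullC K (M' * q * q)))
    (hV₂ : ∀ c ∈ cm85_Vinf (K := K) (M' * q) hπ, al97L_alpha K (M' * q) q c ∈ V₂)
    (hπ₂ : (algebraMap K ↥(modularFunctionFieldFullC K (M' * q * q))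
      (algebraMap R K ((q : ℕ) : R)))⁻¹ ∉ V₂)
    (hne : cm85_Vinf (K := K) (M' * q * q) hπ ≠ V₂)
    (σ : ↥(modularFunctionFieldFullC K (M' * q * q)))
    (hs : V₂.valuation σ ^ (q - 1) =
      V₂.valuation (algebraMap K ↥(modularFunctionFieldFullC K (M' * q * q))
        (algebraMap R K ((q : ℕ) : R))))
    (V₃ : ValuationSubring ↥(modularFunctionFieldFullC K (M' * q * q)))
    (B : Subalgebra R ↥(modularFunctionFieldFullC K (M' * q * q)))
    (hBint : ∀ z : ↥(modularFunctionFieldFullC K (M' * q * q)), IsIntegral B z → z ∈ B)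
    (hB₁ : ∀ y ∈ B, y ∈ cm85_Vinf (K := K) (M' * q * q) hπ)
    (hB₂ : ∀ y ∈ B, y ∈ V₂) (hB₃ : ∀ y ∈ B, y ∈ V₃)
    (hsat : ∀ y ∈ B,
      (algebraMap R ↥(modularFunctionFieldFullC K (M' * q * q)) ((q : ℕ) : R))⁻¹ * y ∈
        cm85_Vinf (K := K) (M' * q * q) hπ →
      (algebraMap R ↥(modularFunctionFieldFullC K (M' * q * q)) ((q : ℕ) : R))⁻¹ * y ∈ V₂ →
      (algebraMap R ↥(modularFunctionFieldFullC K (M' * q * q)) ((q : ℕ) : R))⁻¹ * y ∈ V₃ →
      (algebraMap R ↥(modularFunctionFieldFullC K (M' * q * q)) ((q : ℕ) : R))⁻¹ * y ∈ B)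
    (n : Ideal B) [hn : n.IsPrime]
    (hmid : tl71_OnMid σ B V₂.toSubring n)
    (h1 : ¬ sf79_OnBr ((q : ℕ) : R) B (cm85_Vinf (K := K) (M' * q * q) hπ).toSubring n)
    (h3 : ¬ sf79_OnBr ((q : ℕ) : R) B V₃.toSubring n)
    (sV : B) (hsV : sV ∉ n)
    (hsVj : (sV : ↥(modularFunctionFieldFullC K (M' * q * q))) * rm90_j K (M' * q * q) ∈ B)
    (hsV₁ : (sV : ↥(modularFunctionFieldFullC K (M' * q * q)))⁻¹ ∈
      cm85_Vinf (K := K) (M' * q * q) hπ)
    (x : ↥(modularFunctionFieldFullC K M')) (xR : LaurentSeries R)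
    (hx : (x : LaurentSeries K) = coeffMap (algebraMap R K) xR)
    (hθ : partC_theta (coeffMap (IsLocalRing.residue R) xR) ≠ 0)
    (b sB : B) (hb : b ∉ n)
    (hsB : (sB : ↥(modularFunctionFieldFullC K (M' * q * q))) =
      (b : ↥(modularFunctionFieldFullC K (M' * q * q))) * c2x11_s K M' q x)
    (g : ↥(modularFunctionFieldFullC K M'))
    (hg : (g : LaurentSeries K) * partC_theta (x : LaurentSeries K) ^ 6 = DeltaSer K)
    (P : ↥(modularFunctionFieldFullC K (M' * q * q)))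
    (hgP : al97L_alpha K (M' * q) q (al97L_alpha K M' q g) * P = 1)
    (eP dP : B) (heP : eP ∉ n)
    (hdP : (eP : ↥(modularFunctionFieldFullC K (M' * q * q))) =
      (dP : ↥(modularFunctionFieldFullC K (M' * q * q))) * P) :
    mc25_MidPrinAt σ B V₂.toSubring n := by
  -- the separator of the third branch
  have h3' := h3
  unfold sf79_OnBr at h3'
  push Not at h3'
  obtain ⟨a, ha₃, han⟩ := h3'
  -- `sV` is a unit of `V₂`
  obtain ⟨-, -, hmaxs, -, -⟩ :=
    ob72_ram (K := K) (M' * q) q hq (dvd_mul_left q M') hπ V₂ hV₂ hπ₂ hne σ hs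
  have hs₂ : (sV : ↥(modularFunctionFieldFullC K (M' * q * q)))⁻¹ ∈ V₂ := by
    by_contra hcon
    apply hsV
    apply hmid
    have h2 := hmaxs _ (hB₂ _ sV.2) hcon
    have e2 : (sV : ↥(modularFunctionFieldFullC K (M' * q * q))) * σ⁻¹ =
        σ⁻¹ * (sV : ↥(modularFunctionFieldFullC K (M' * q * q))) := mul_comm _ _
    rw [e2]
    exact h2
  obtain ⟨t, U', ht, hU', hU'eq⟩ := usq75_alphaU_unit_at M' q hq hM' hπ B hBint V₂ V₃ hV₂
    hB₁ hB₂ hB₃ hsat n sV hsV hsVj hsV₁ hs₂ a han ha₃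
  have hπF : algebraMap R ↥(modularFunctionFieldFullC K (M' * q * q)) ((q : ℕ) : R) =
      algebraMap K ↥(modularFunctionFieldFullC K (M' * q * q)) (algebraMap R K ((q : ℕ) : R)) :=
    IsScalarTower.algebraMap_apply R K _ _
  refine c2h66_prinAt (algebraMap K Q̄) M' q hq hM' hπ (Associated.refl _) V₂ hV₂ hπ₂ hne σ hs B
    (cm85_Vinf (K := K) (M' * q * q) hπ).toSubring V₃.toSubring hB₁ hB₂ hB₃ hsat n hmid h1 h3
    x xR hx hθ b sB hb hsB g (dq56b_U (K := K) M' q hq) hg rfl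
    (dP ^ (q - 1) * U') (eP ^ (q - 1) * t) ?_ ?_
  · intro h
    rcases hn.mem_or_mem h with h' | h'
    · exact heP (hn.mem_of_pow_mem _ h')
    · exact ht h'
  · have hGP : (al97L_alpha K (M' * q) q (al97L_alpha K M' q g) * P) ^ (q - 1) = 1 := by
      rw [hgP, one_pow]
    have hU'' : (U' : ↥(modularFunctionFieldFullC K (M' * q * q))) =
        (t : ↥(modularFunctionFieldFullC K (M' * q * q))) *
          al97L_alpha K (M' * q) q (dq56b_U (K := K) M' q hq) := hU'eq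
    push_cast
    rw [hdP, hU'']
    calc al97L_alpha K (M' * q) q (al97L_alpha K M' q g) ^ (q - 1) *
          al97L_alpha K (M' * q) q (dq56b_U (K := K) M' q hq) *
          (((dP : ↥(modularFunctionFieldFullC K (M' * q * q))) * P) ^ (q - 1) *
            (t : ↥(modularFunctionFieldFullC K (M' * q * q))))
        = (al97L_alpha K (M' * q) q (al97L_alpha K M' q g) * P) ^ (q - 1) *
            ((dP : ↥(modularFunctionFieldFullC K (M' * q * q))) ^ (q - 1) *
              ((t : ↥(modularFunctionFieldFullC K (M' * q * q))) *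
                al97L_alpha K (M' * q) q (dq56b_U (K := K) M' q hq))) := by
          rw [mul_pow, mul_pow]; ring
      _ = _ := by rw [hGP, one_mul]

include hq hM' in
/-- **The coordinate `x = h_2` of level `M'`** at a point where `T`, `T + 64` are units. -/
theorem c2f67_apply2 (hπ : Irreducible ((q : ℕ) : R))
    (V₂ : ValuationSubring ↥(modularFunctionFieldFullC K (M' * q * q)))
    (hV₂ : ∀ c ∈ cm85_Vinf (K := K) (M' * q) hπ, al97L_alpha K (M' * q) q c ∈ V₂)
    (hπ₂ : (algebraMap K ↥(modularFunctionFieldFullC K (M' * q * q))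
      (algebraMap R K ((q : ℕ) : R)))⁻¹ ∉ V₂)
    (hne : cm85_Vinf (K := K) (M' * q * q) hπ ≠ V₂)
    (σ : ↥(modularFunctionFieldFullC K (M' * q * q)))
    (hs : V₂.valuation σ ^ (q - 1) =
      V₂.valuation (algebraMap K ↥(modularFunctionFieldFullC K (M' * q * q))
        (algebraMap R K ((q : ℕ) : R))))
    (V₃ : ValuationSubring ↥(modularFunctionFieldFullC K (M' * q * q)))
    (B : Subalgebra R ↥(modularFunctionFieldFullC K (M' * q * q)))
    (hBint : ∀ z : ↥(modularFunctionFieldFullC K (M' * q * q)), IsIntegral B z → z ∈ B)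
    (hB₁ : ∀ y ∈ B, y ∈ cm85_Vinf (K := K) (M' * q * q) hπ)
    (hB₂ : ∀ y ∈ B, y ∈ V₂) (hB₃ : ∀ y ∈ B, y ∈ V₃)
    (hsat : ∀ y ∈ B,
      (algebraMap R ↥(modularFunctionFieldFullC K (M' * q * q)) ((q : ℕ) : R))⁻¹ * y ∈
        cm85_Vinf (K := K) (M' * q * q) hπ →
      (algebraMap R ↥(modularFunctionFieldFullC K (M' * q * q)) ((q : ℕ) : R))⁻¹ * y ∈ V₂ →
      (algebraMap R ↥(modularFunctionFieldFullC K (M' * q * q)) ((q : ℕ) : R))⁻¹ * y ∈ V₃ →
      (algebraMap R ↥(modularFunctionFieldFullC K (M' * q * q)) ((q : ℕ) : R))⁻¹ * y ∈ B)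
    (n : Ideal B) [hn : n.IsPrime]
    (hmid : tl71_OnMid σ B V₂.toSubring n)
    (hbr1 : ¬ sf79_OnBr ((q : ℕ) : R) B (cm85_Vinf (K := K) (M' * q * q) hπ).toSubring n)
    (hbr3 : ¬ sf79_OnBr ((q : ℕ) : R) B V₃.toSubring n)
    (sV : B) (hsV : sV ∉ n)
    (hsVj : (sV : ↥(modularFunctionFieldFullC K (M' * q * q))) * rm90_j K (M' * q * q) ∈ B)
    (hsV₁ : (sV : ↥(modularFunctionFieldFullC K (M' * q * q)))⁻¹ ∈
      cm85_Vinf (K := K) (M' * q * q) hπ)
    (h2 : 2 ∣ M') (b sB t e : B) (hb : b ∉ n)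
    (hsB : (sB : ↥(modularFunctionFieldFullC K (M' * q * q))) =
      (b : ↥(modularFunctionFieldFullC K (M' * q * q))) * c2x11_s K M' q (pk85_h2 K M' h2))
    (ht : (t : ↥(modularFunctionFieldFullC K (M' * q * q))) = (b : ↥(modularFunctionFieldFullC K (M' * q * q))) * al97L_alpha K (M' * q) q (al97L_alpha K M' q (pk85_h2 K M' h2)))
    (htn : t ∉ n)
    (he : (e : ↥(modularFunctionFieldFullC K (M' * q * q))) = (t : ↥(modularFunctionFieldFullC K (M' * q * q))) + 64 * (b : ↥(modularFunctionFieldFullC K (M' * q * q))))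
    (hen : e ∉ n) :
    mc25_MidPrinAt σ B V₂.toSubring n := by
  have hx : ((pk85_h2 K M' h2 : ↥(modularFunctionFieldFullC K M')) : LaurentSeries K) =
      coeffMap (algebraMap R K) (h70_h2 R) := by
    rw [pk85_h2_coe, h70_coeffMap_h2]
  have hne0 : coeffMap (IsLocalRing.residue R) (h70_h2 R) ≠ 0 := by
    rw [h70_coeffMap_h2]
    intro h0
    exact h70_h2_transcendental (IsLocalRing.ResidueField R) (by rw [h0]; exact isAlgebraic_zero)
  have hxu := rsb96_gauss_unit M' hπ (pk85_h2 K M' h2) (h70_h2 R) hx hne0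
  have hxk := rsh96_h2_unit (K := K) M' hπ h2
  have hG := gh96_G_h2 K M' h2
  have hgV : tg69_G K M' (pk85_h2 K M' h2) ∈ cm85_Vinf (K := K) M' hπ := by
    have e1 : tg69_G K M' (pk85_h2 K M' h2) =
        ((pk85_h2 K M' h2)⁻¹) ^ 4 * ((pk85_h2 K M' h2 + 64)⁻¹) ^ 3 := by
      rw [eq_inv_of_mul_eq_one_left hG, mul_inv, inv_pow, inv_pow]
    rw [e1]
    exact mul_mem (pow_mem hxu.2 4) (pow_mem hxk.2 3)
  have hg := gh96_G_theta_h2 K M' h2
  have hθ := c2x11_theta_ne_zero M' hπ (pk85_h2 K M' h2) _ (h70_h2 R) hx hg hgV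
  have hgP : al97L_alpha K (M' * q) q (al97L_alpha K M' q (tg69_G K M' (pk85_h2 K M' h2))) *
      ((al97L_alpha K (M' * q) q (al97L_alpha K M' q (pk85_h2 K M' h2))) ^ 4 * (al97L_alpha K (M' * q) q (al97L_alpha K M' q (pk85_h2 K M' h2)) + 64) ^ 3) = 1 := by
    have h := congrArg (fun y => al97L_alpha K (M' * q) q (al97L_alpha K M' q y)) hG
    simpa only [map_mul, map_pow, map_add, map_one, map_ofNat] using h
  refine c2f67_point M' q hq hM' hπ V₂ hV₂ hπ₂ hne σ hs V₃ B hBint hB₁ hB₂ hB₃ hsat n hmid hbr1 hbr3 sV hsV hsVj hsV₁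
    (pk85_h2 K M' h2) (h70_h2 R) hx hθ b sB hb hsB _ hg _ hgP (t ^ 4 * e ^ 3) (b ^ 7) ?_ ?_
  · intro h
    rcases hn.mem_or_mem h with h' | h'
    · exact htn (hn.mem_of_pow_mem _ h')
    · exact hen (hn.mem_of_pow_mem _ h')
  · push_cast
    rw [he, ht]
    ring

include hq hM' in
/-- **The coordinate `x = h_3` of level `M'`** at a point where `T`, `T + 27` are units. -/
theorem c2f67_apply3 (hπ : Irreducible ((q : ℕ) : R))
    (V₂ : ValuationSubring ↥(modularFunctionFieldFullC K (M' * q * q)))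
    (hV₂ : ∀ c ∈ cm85_Vinf (K := K) (M' * q) hπ, al97L_alpha K (M' * q) q c ∈ V₂)
    (hπ₂ : (algebraMap K ↥(modularFunctionFieldFullC K (M' * q * q))
      (algebraMap R K ((q : ℕ) : R)))⁻¹ ∉ V₂)
    (hne : cm85_Vinf (K := K) (M' * q * q) hπ ≠ V₂)
    (σ : ↥(modularFunctionFieldFullC K (M' * q * q)))
    (hs : V₂.valuation σ ^ (q - 1) =
      V₂.valuation (algebraMap K ↥(modularFunctionFieldFullC K (M' * q * q))
        (algebraMap R K ((q : ℕ) : R))))
    (V₃ : ValuationSubring ↥(modularFunctionFieldFullC K (M' * q * q)))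
    (B : Subalgebra R ↥(modularFunctionFieldFullC K (M' * q * q)))
    (hBint : ∀ z : ↥(modularFunctionFieldFullC K (M' * q * q)), IsIntegral B z → z ∈ B)
    (hB₁ : ∀ y ∈ B, y ∈ cm85_Vinf (K := K) (M' * q * q) hπ)
    (hB₂ : ∀ y ∈ B, y ∈ V₂) (hB₃ : ∀ y ∈ B, y ∈ V₃)
    (hsat : ∀ y ∈ B,
      (algebraMap R ↥(modularFunctionFieldFullC K (M' * q * q)) ((q : ℕ) : R))⁻¹ * y ∈
        cm85_Vinf (K := K) (M' * q * q) hπ →
      (algebraMap R ↥(modularFunctionFieldFullC K (M' * q * q)) ((q : ℕ) : R))⁻¹ * y ∈ V₂ →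
      (algebraMap R ↥(modularFunctionFieldFullC K (M' * q * q)) ((q : ℕ) : R))⁻¹ * y ∈ V₃ →
      (algebraMap R ↥(modularFunctionFieldFullC K (M' * q * q)) ((q : ℕ) : R))⁻¹ * y ∈ B)
    (n : Ideal B) [hn : n.IsPrime]
    (hmid : tl71_OnMid σ B V₂.toSubring n)
    (hbr1 : ¬ sf79_OnBr ((q : ℕ) : R) B (cm85_Vinf (K := K) (M' * q * q) hπ).toSubring n)
    (hbr3 : ¬ sf79_OnBr ((q : ℕ) : R) B V₃.toSubring n)
    (sV : B) (hsV : sV ∉ n)
    (hsVj : (sV : ↥(modularFunctionFieldFullC K (M' * q * q))) * rm90_j K (M' * q * q) ∈ B)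
    (hsV₁ : (sV : ↥(modularFunctionFieldFullC K (M' * q * q)))⁻¹ ∈
      cm85_Vinf (K := K) (M' * q * q) hπ)
    (h3 : 3 ∣ M') (b sB t e : B) (hb : b ∉ n)
    (hsB : (sB : ↥(modularFunctionFieldFullC K (M' * q * q))) =
      (b : ↥(modularFunctionFieldFullC K (M' * q * q))) * c2x11_s K M' q (pk85_h3 K M' h3))
    (ht : (t : ↥(modularFunctionFieldFullC K (M' * q * q))) = (b : ↥(modularFunctionFieldFullC K (M' * q * q))) * al97L_alpha K (M' * q) q (al97L_alpha K M' q (pk85_h3 K M' h3)))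
    (htn : t ∉ n)
    (he : (e : ↥(modularFunctionFieldFullC K (M' * q * q))) = (t : ↥(modularFunctionFieldFullC K (M' * q * q))) + 27 * (b : ↥(modularFunctionFieldFullC K (M' * q * q))))
    (hen : e ∉ n) :
    mc25_MidPrinAt σ B V₂.toSubring n := by
  have hx : ((pk85_h3 K M' h3 : ↥(modularFunctionFieldFullC K M')) : LaurentSeries K) =
      coeffMap (algebraMap R K) (h34_h3R R) := by
    rw [pk85_h3_coe, h34_coeffMap_h3R]
  have hne0 : coeffMap (IsLocalRing.residue R) (h34_h3R R) ≠ 0 := by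
    rw [h34_coeffMap_h3R]
    intro h0
    exact h34_h3R_transcendental (IsLocalRing.ResidueField R) (by rw [h0]; exact isAlgebraic_zero)
  have hxu := rsb96_gauss_unit M' hπ (pk85_h3 K M' h3) (h34_h3R R) hx hne0
  have hxk := rsh96_h3_unit (K := K) M' hπ h3
  have hG := gh96_G_h3 K M' h3
  have hgV : tg69_G K M' (pk85_h3 K M' h3) ∈ cm85_Vinf (K := K) M' hπ := by
    have e1 : tg69_G K M' (pk85_h3 K M' h3) =
        ((pk85_h3 K M' h3)⁻¹) ^ 3 * ((pk85_h3 K M' h3 + 27)⁻¹) ^ 4 := by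
      rw [eq_inv_of_mul_eq_one_left hG, mul_inv, inv_pow, inv_pow]
    rw [e1]
    exact mul_mem (pow_mem hxu.2 3) (pow_mem hxk.2 4)
  have hg := gh96_G_theta_h3 K M' h3
  have hθ := c2x11_theta_ne_zero M' hπ (pk85_h3 K M' h3) _ (h34_h3R R) hx hg hgV
  have hgP : al97L_alpha K (M' * q) q (al97L_alpha K M' q (tg69_G K M' (pk85_h3 K M' h3))) *
      ((al97L_alpha K (M' * q) q (al97L_alpha K M' q (pk85_h3 K M' h3))) ^ 3 * (al97L_alpha K (M' * q) q (al97L_alpha K M' q (pk85_h3 K M' h3)) + 27) ^ 4) = 1 := by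
    have h := congrArg (fun y => al97L_alpha K (M' * q) q (al97L_alpha K M' q y)) hG
    simpa only [map_mul, map_pow, map_add, map_one, map_ofNat] using h
  refine c2f67_point M' q hq hM' hπ V₂ hV₂ hπ₂ hne σ hs V₃ B hBint hB₁ hB₂ hB₃ hsat n hmid hbr1 hbr3 sV hsV hsVj hsV₁
    (pk85_h3 K M' h3) (h34_h3R R) hx hθ b sB hb hsB _ hg _ hgP (t ^ 3 * e ^ 4) (b ^ 7) ?_ ?_
  · intro h
    rcases hn.mem_or_mem h with h' | h'
    · exact htn (hn.mem_of_pow_mem _ h')
    · exact hen (hn.mem_of_pow_mem _ h')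
  · push_cast
    rw [he, ht]
    ring

include hq hM' in
/-- **`q = 2, 3`: `j` is a unit at `n`** (`sqi75_j_unit_at` for an arbitrary regularity witness). -/
theorem c2f67_j_unit (h23 : q = 2 ∨ q = 3) (hπ : Irreducible ((q : ℕ) : R))
    (V₂ : ValuationSubring ↥(modularFunctionFieldFullC K (M' * q * q)))
    (hV₂ : ∀ c ∈ cm85_Vinf (K := K) (M' * q) hπ, al97L_alpha K (M' * q) q c ∈ V₂)
    (hπ₂ : (algebraMap K ↥(modularFunctionFieldFullC K (M' * q * q))
      (algebraMap R K ((q : ℕ) : R)))⁻¹ ∉ V₂)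
    (hne : cm85_Vinf (K := K) (M' * q * q) hπ ≠ V₂)
    (σ : ↥(modularFunctionFieldFullC K (M' * q * q)))
    (hs : V₂.valuation σ ^ (q - 1) =
      V₂.valuation (algebraMap K ↥(modularFunctionFieldFullC K (M' * q * q))
        (algebraMap R K ((q : ℕ) : R))))
    (V₃ : ValuationSubring ↥(modularFunctionFieldFullC K (M' * q * q)))
    (B : Subalgebra R ↥(modularFunctionFieldFullC K (M' * q * q)))
    (hBint : ∀ z : ↥(modularFunctionFieldFullC K (M' * q * q)), IsIntegral B z → z ∈ B)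
    (hB₁ : ∀ y ∈ B, y ∈ cm85_Vinf (K := K) (M' * q * q) hπ)
    (hB₂ : ∀ y ∈ B, y ∈ V₂) (hB₃ : ∀ y ∈ B, y ∈ V₃)
    (hsat : ∀ y ∈ B,
      (algebraMap R ↥(modularFunctionFieldFullC K (M' * q * q)) ((q : ℕ) : R))⁻¹ * y ∈
        cm85_Vinf (K := K) (M' * q * q) hπ →
      (algebraMap R ↥(modularFunctionFieldFullC K (M' * q * q)) ((q : ℕ) : R))⁻¹ * y ∈ V₂ →
      (algebraMap R ↥(modularFunctionFieldFullC K (M' * q * q)) ((q : ℕ) : R))⁻¹ * y ∈ V₃ →
      (algebraMap R ↥(modularFunctionFieldFullC K (M' * q * q)) ((q : ℕ) : R))⁻¹ * y ∈ B)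
    (n : Ideal B) [hn : n.IsPrime]
    (hmid : tl71_OnMid σ B V₂.toSubring n)
    (hbr1 : ¬ sf79_OnBr ((q : ℕ) : R) B (cm85_Vinf (K := K) (M' * q * q) hπ).toSubring n)
    (hbr3 : ¬ sf79_OnBr ((q : ℕ) : R) B V₃.toSubring n)
    (sV : B) (hsV : sV ∉ n)
    (hsVj : (sV : ↥(modularFunctionFieldFullC K (M' * q * q))) * rm90_j K (M' * q * q) ∈ B)
    (hsV₁ : (sV : ↥(modularFunctionFieldFullC K (M' * q * q)))⁻¹ ∈
      cm85_Vinf (K := K) (M' * q * q) hπ)
    (s' b' : B) (hs' : s' ∉ n)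
    (hsj : (s' : ↥(modularFunctionFieldFullC K (M' * q * q))) * rm90_j K (M' * q * q) = (b' : ↥(modularFunctionFieldFullC K (M' * q * q)))) :
    b' ∉ n := by
  have h3' := hbr3
  unfold sf79_OnBr at h3'
  push Not at h3'
  obtain ⟨a, ha₃, han⟩ := h3'
  obtain ⟨-, -, hmaxs, -, -⟩ :=
    ob72_ram (K := K) (M' * q) q hq (dvd_mul_left q M') hπ V₂ hV₂ hπ₂ hne σ hs
  have hs₂ : (sV : ↥(modularFunctionFieldFullC K (M' * q * q)))⁻¹ ∈ V₂ := by
    by_contra hcon
    apply hsV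
    apply hmid
    have h2 := hmaxs _ (hB₂ _ sV.2) hcon
    have e2 : (sV : ↥(modularFunctionFieldFullC K (M' * q * q))) * σ⁻¹ = σ⁻¹ * (sV : ↥(modularFunctionFieldFullC K (M' * q * q))) := mul_comm _ _
    rw [e2]
    exact h2
  have hπF : algebraMap R ↥(modularFunctionFieldFullC K (M' * q * q)) ((q : ℕ) : R) =
      algebraMap K ↥(modularFunctionFieldFullC K (M' * q * q)) (algebraMap R K ((q : ℕ) : R)) :=
    IsScalarTower.algebraMap_apply R K _ _
  obtain ⟨hσ0, -, hπσ⟩ := sc67_sigma_facts V₂ _ σ q hq.two_le hπ₂ hs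
  have hπ0 : algebraMap K ↥(modularFunctionFieldFullC K (M' * q * q)) (algebraMap R K ((q : ℕ) : R)) ≠ 0 := by
    intro h0
    apply hπ₂
    rw [h0, inv_zero]
    exact V₂.zero_mem
  have hOn₂ : ∀ x : B, (algebraMap R ↥(modularFunctionFieldFullC K (M' * q * q)) ((q : ℕ) : R))⁻¹ * (x : ↥(modularFunctionFieldFullC K (M' * q * q))) ∈ V₂ → x ∈ n := by
    intro x hx
    apply hmid
    rw [hπF] at hx
    have h5 := V₂.mul_mem _ _ hx hπσ
    have e5 : (algebraMap K ↥(modularFunctionFieldFullC K (M' * q * q)) (algebraMap R K ((q : ℕ) : R)))⁻¹ * (x : ↥(modularFunctionFieldFullC K (M' * q * q))) *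
        (algebraMap K ↥(modularFunctionFieldFullC K (M' * q * q)) (algebraMap R K ((q : ℕ) : R)) * σ⁻¹) = (x : ↥(modularFunctionFieldFullC K (M' * q * q))) * σ⁻¹ := by
      field_simp
    rw [e5] at h5
    exact h5
  have hj := sqi75_j_unit_at M' q hq hM' h23 hπ B hBint V₂ V₃ hV₂ hB₁ hB₂ hB₃ hsat n hOn₂
    sV hsV hsVj hsV₁ hs₂ a han ha₃
  intro hb'
  apply hj
  have key : s' * (⟨_, hsVj⟩ : B) = sV * b' := by
    apply Subtype.ext
    push_cast
    rw [← hsj]
    ring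
  have h6 : s' * (⟨_, hsVj⟩ : B) ∈ n := by
    rw [key]
    exact n.mul_mem_left _ hb'
  exact (hn.mem_or_mem h6).resolve_left hs'

include hq in
/-- Level 3: the denominator datum with `T` a unit at `n`. -/
theorem c2f67_den3 (hunit : ∀ k : ℕ, Nat.Coprime k q → IsUnit (k : R))
    (h3 : 3 ∣ M') (hq3 : q ≠ 3)
    (B : Subalgebra R ↥(modularFunctionFieldFullC K (M' * q * q)))
    (hBint : ∀ z : ↥(modularFunctionFieldFullC K (M' * q * q)), IsIntegral B z → z ∈ B)
    (n : Ideal B) [hn : n.IsPrime] (s' b' : B) (hs' : s' ∉ n)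
    (hsj : (s' : ↥(modularFunctionFieldFullC K (M' * q * q))) * rm90_j K (M' * q * q) = (b' : ↥(modularFunctionFieldFullC K (M' * q * q)))) :
    ∃ b sB t c243 : B, b ∉ n ∧
      (sB : ↥(modularFunctionFieldFullC K (M' * q * q))) = (b : ↥(modularFunctionFieldFullC K (M' * q * q))) * c2x11_s K M' q (pk85_h3 K M' h3) ∧
      (t : ↥(modularFunctionFieldFullC K (M' * q * q))) = (b : ↥(modularFunctionFieldFullC K (M' * q * q))) * al97L_alpha K (M' * q) q (al97L_alpha K M' q (pk85_h3 K M' h3)) ∧ t ∉ n ∧ (c243 : ↥(modularFunctionFieldFullC K (M' * q * q))) = 243 ∧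
      rm90_j K (M' * q * q) * (al97L_alpha K (M' * q) q (al97L_alpha K M' q (pk85_h3 K M' h3))) ^ 3 = (al97L_alpha K (M' * q) q (al97L_alpha K M' q (pk85_h3 K M' h3)) + 27) * (al97L_alpha K (M' * q) q (al97L_alpha K M' q (pk85_h3 K M' h3)) + 243) ^ 3 := by
  have h3u : IsUnit ((3 : ℕ) : R) :=
    hunit 3 ((Nat.coprime_primes Nat.prime_three hq).mpr (Ne.symm hq3))
  obtain ⟨b, sB, t, -, hb, hsB, ht, -⟩ := c2p74_den_haupt M' q hq hunit (pk85_h3 K M' h3)
    (Or.inr ⟨hq3, h3, rfl⟩) B hBint n s' b' hs' hsj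
  have eT : al97L_alpha K (M' * q) q (al97L_alpha K M' q (pk85_h3 K M' h3)) = pk85_h3 K (M' * q * q) ((h3.mul_right q).mul_right q) := by
    apply Subtype.ext
    rw [al97L_alpha_coe, al97L_alpha_coe, pk85_h3_coe, pk85_h3_coe]
  have hrel : rm90_j K (M' * q * q) * (al97L_alpha K (M' * q) q (al97L_alpha K M' q (pk85_h3 K M' h3))) ^ 3 = (al97L_alpha K (M' * q) q (al97L_alpha K M' q (pk85_h3 K M' h3)) + 27) * (al97L_alpha K (M' * q) q (al97L_alpha K M' q (pk85_h3 K M' h3)) + 243) ^ 3 := by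
    rw [eT]
    exact pk85_h3_rel K (M' * q * q) _
  obtain ⟨c27, hc27, hc27n⟩ := c2f67_const B n (27 : R)
    (by have h := h3u.pow 3; convert h using 1; norm_num) 27 (map_ofNat _ 27)
  obtain ⟨c243, hc243, hc243n⟩ := c2f67_const B n (243 : R)
    (by have h := h3u.pow 5; convert h using 1; norm_num) 243 (map_ofNat _ 243)
  have htn : t ∉ n :=
    c2f67_t_three B n _ _ hrel s' b' b t hs' hb hsj ht c27 c243 hc27 hc243 hc27n hc243n
  exact ⟨b, sB, t, c243, hb, hsB, ht, htn, hc243, hrel⟩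

include hq hM' in
/-- **The coordinate `x = h₃`** at every point where `j` is a unit (`3` a unit of `R`). -/
theorem c2f67_via3 (hπ : Irreducible ((q : ℕ) : R))
    (V₂ : ValuationSubring ↥(modularFunctionFieldFullC K (M' * q * q)))
    (hV₂ : ∀ c ∈ cm85_Vinf (K := K) (M' * q) hπ, al97L_alpha K (M' * q) q c ∈ V₂)
    (hπ₂ : (algebraMap K ↥(modularFunctionFieldFullC K (M' * q * q))
      (algebraMap R K ((q : ℕ) : R)))⁻¹ ∉ V₂)
    (hne : cm85_Vinf (K := K) (M' * q * q) hπ ≠ V₂)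
    (σ : ↥(modularFunctionFieldFullC K (M' * q * q)))
    (hs : V₂.valuation σ ^ (q - 1) =
      V₂.valuation (algebraMap K ↥(modularFunctionFieldFullC K (M' * q * q))
        (algebraMap R K ((q : ℕ) : R))))
    (V₃ : ValuationSubring ↥(modularFunctionFieldFullC K (M' * q * q)))
    (B : Subalgebra R ↥(modularFunctionFieldFullC K (M' * q * q)))
    (hBint : ∀ z : ↥(modularFunctionFieldFullC K (M' * q * q)), IsIntegral B z → z ∈ B)
    (hB₁ : ∀ y ∈ B, y ∈ cm85_Vinf (K := K) (M' * q * q) hπ)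
    (hB₂ : ∀ y ∈ B, y ∈ V₂) (hB₃ : ∀ y ∈ B, y ∈ V₃)
    (hsat : ∀ y ∈ B,
      (algebraMap R ↥(modularFunctionFieldFullC K (M' * q * q)) ((q : ℕ) : R))⁻¹ * y ∈
        cm85_Vinf (K := K) (M' * q * q) hπ →
      (algebraMap R ↥(modularFunctionFieldFullC K (M' * q * q)) ((q : ℕ) : R))⁻¹ * y ∈ V₂ →
      (algebraMap R ↥(modularFunctionFieldFullC K (M' * q * q)) ((q : ℕ) : R))⁻¹ * y ∈ V₃ →
      (algebraMap R ↥(modularFunctionFieldFullC K (M' * q * q)) ((q : ℕ) : R))⁻¹ * y ∈ B)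
    (hunit : ∀ k : ℕ, Nat.Coprime k q → IsUnit (k : R)) (h3 : 3 ∣ M') (hq3 : q ≠ 3)
    (n : Ideal B) [hn : n.IsPrime]
    (hmid : tl71_OnMid σ B V₂.toSubring n)
    (hbr1 : ¬ sf79_OnBr ((q : ℕ) : R) B (cm85_Vinf (K := K) (M' * q * q) hπ).toSubring n)
    (hbr3 : ¬ sf79_OnBr ((q : ℕ) : R) B V₃.toSubring n)
    (sV : B) (hsV : sV ∉ n)
    (hsVj : (sV : ↥(modularFunctionFieldFullC K (M' * q * q))) * rm90_j K (M' * q * q) ∈ B)
    (hsV₁ : (sV : ↥(modularFunctionFieldFullC K (M' * q * q)))⁻¹ ∈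
      cm85_Vinf (K := K) (M' * q * q) hπ)
    (s' b' : B) (hs' : s' ∉ n)
    (hsj : (s' : ↥(modularFunctionFieldFullC K (M' * q * q))) * rm90_j K (M' * q * q) = (b' : ↥(modularFunctionFieldFullC K (M' * q * q)))) (hb'n : b' ∉ n) :
    mc25_MidPrinAt σ B V₂.toSubring n := by
  obtain ⟨b, sB, t, c243, hb, hsB, ht, htn, hc243, hrel⟩ :=
    c2f67_den3 M' q hq hunit h3 hq3 B hBint n s' b' hs' hsj
  have h27 : ((algebraMap R B 27 : B) : ↥(modularFunctionFieldFullC K (M' * q * q))) = 27 := map_ofNat (algebraMap R ↥(modularFunctionFieldFullC K (M' * q * q))) 27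
  have he : ((t + algebraMap R B 27 * b : B) : ↥(modularFunctionFieldFullC K (M' * q * q))) = (t : ↥(modularFunctionFieldFullC K (M' * q * q))) + 27 * (b : ↥(modularFunctionFieldFullC K (M' * q * q))) := by
    push_cast
    rw [map_ofNat]
  have hen : t + algebraMap R B 27 * b ∉ n :=
    c2f67_t27_three B n _ _ hrel s' b' b t hb hsj ht htn hb'n _ c243 he hc243
  exact c2f67_apply3 M' q hq hM' hπ V₂ hV₂ hπ₂ hne σ hs V₃ B hBint hB₁ hB₂ hB₃ hsat n hmid hbr1 hbr3 sV hsV hsVj hsV₁ h3 b sB t _ hb hsB ht htn he hen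

include hq hM' in
/-- **`hreg` on a chart of level-2 type** (`q ≠ 2`, `2 ∣ M'`, `q ≠ 3 → 3 ∣ M'`), given the
chart-specific `V₁`-unit witness of the regularity of `j`. -/
theorem c2f67_chart2 (hπ : Irreducible ((q : ℕ) : R))
    (V₂ : ValuationSubring ↥(modularFunctionFieldFullC K (M' * q * q)))
    (hV₂ : ∀ c ∈ cm85_Vinf (K := K) (M' * q) hπ, al97L_alpha K (M' * q) q c ∈ V₂)
    (hπ₂ : (algebraMap K ↥(modularFunctionFieldFullC K (M' * q * q))
      (algebraMap R K ((q : ℕ) : R)))⁻¹ ∉ V₂)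
    (hne : cm85_Vinf (K := K) (M' * q * q) hπ ≠ V₂)
    (σ : ↥(modularFunctionFieldFullC K (M' * q * q)))
    (hs : V₂.valuation σ ^ (q - 1) =
      V₂.valuation (algebraMap K ↥(modularFunctionFieldFullC K (M' * q * q))
        (algebraMap R K ((q : ℕ) : R))))
    (V₃ : ValuationSubring ↥(modularFunctionFieldFullC K (M' * q * q)))
    (B : Subalgebra R ↥(modularFunctionFieldFullC K (M' * q * q)))
    (hBint : ∀ z : ↥(modularFunctionFieldFullC K (M' * q * q)), IsIntegral B z → z ∈ B)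
    (hB₁ : ∀ y ∈ B, y ∈ cm85_Vinf (K := K) (M' * q * q) hπ)
    (hB₂ : ∀ y ∈ B, y ∈ V₂) (hB₃ : ∀ y ∈ B, y ∈ V₃)
    (hsat : ∀ y ∈ B,
      (algebraMap R ↥(modularFunctionFieldFullC K (M' * q * q)) ((q : ℕ) : R))⁻¹ * y ∈
        cm85_Vinf (K := K) (M' * q * q) hπ →
      (algebraMap R ↥(modularFunctionFieldFullC K (M' * q * q)) ((q : ℕ) : R))⁻¹ * y ∈ V₂ →
      (algebraMap R ↥(modularFunctionFieldFullC K (M' * q * q)) ((q : ℕ) : R))⁻¹ * y ∈ V₃ →
      (algebraMap R ↥(modularFunctionFieldFullC K (M' * q * q)) ((q : ℕ) : R))⁻¹ * y ∈ B)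
    (hunit : ∀ k : ℕ, Nat.Coprime k q → IsUnit (k : R))
    (h2 : 2 ∣ M') (hq2 : q ≠ 2) (h3 : q ≠ 3 → 3 ∣ M')
    (hsVc : ∀ (n : Ideal B) [n.IsPrime] (b t : B), b ∉ n → t ∉ n →
      (t : ↥(modularFunctionFieldFullC K (M' * q * q))) = (b : ↥(modularFunctionFieldFullC K (M' * q * q))) * al97L_alpha K (M' * q) q (al97L_alpha K M' q (pk85_h2 K M' h2)) →
      ∃ sV : B, sV ∉ n ∧ (sV : ↥(modularFunctionFieldFullC K (M' * q * q))) * rm90_j K (M' * q * q) ∈ B ∧
        (sV : ↥(modularFunctionFieldFullC K (M' * q * q)))⁻¹ ∈ cm85_Vinf (K := K) (M' * q * q) hπ)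
    (n : Ideal B) (hn : n.IsMaximal)
    (hπn : algebraMap R B ((q : ℕ) : R) ∈ n)
    (hmid : tl71_OnMid σ B V₂.toSubring n)
    (hbr1 : ¬ sf79_OnBr ((q : ℕ) : R) B (cm85_Vinf (K := K) (M' * q * q) hπ).toSubring n)
    (hbr3 : ¬ sf79_OnBr ((q : ℕ) : R) B V₃.toSubring n)
    (hreg : ∃ s' b' : B, s' ∉ n ∧
      (s' : ↥(modularFunctionFieldFullC K (M' * q * q))) * rm90_j K (M' * q * q) = (b' : ↥(modularFunctionFieldFullC K (M' * q * q)))) :
    mc25_MidPrinAt σ B V₂.toSubring n := by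
  haveI hnp : n.IsPrime := hn.isPrime
  obtain ⟨s', b', hs', hsj⟩ := hreg
  have h2u : IsUnit ((2 : ℕ) : R) :=
    hunit 2 ((Nat.coprime_primes Nat.prime_two hq).mpr (Ne.symm hq2))
  obtain ⟨b, sB, t, -, hb, hsB, ht, -⟩ := c2p74_den_haupt M' q hq hunit (pk85_h2 K M' h2)
    (Or.inl ⟨hq2, h2, rfl⟩) B hBint n s' b' hs' hsj
  have eT : al97L_alpha K (M' * q) q (al97L_alpha K M' q (pk85_h2 K M' h2)) = pk85_h2 K (M' * q * q) ((h2.mul_right q).mul_right q) := by
    apply Subtype.ext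
    rw [al97L_alpha_coe, al97L_alpha_coe, pk85_h2_coe, pk85_h2_coe]
  have hrel : rm90_j K (M' * q * q) * (al97L_alpha K (M' * q) q (al97L_alpha K M' q (pk85_h2 K M' h2))) ^ 2 = (al97L_alpha K (M' * q) q (al97L_alpha K M' q (pk85_h2 K M' h2)) + 256) ^ 3 := by
    rw [eT]
    exact pk85_h2_rel K (M' * q * q) _
  obtain ⟨c256, hc256, hc256n⟩ := c2f67_const B n (256 : R)
    (by have h := h2u.pow 8; convert h using 1; norm_num) 256 (map_ofNat _ 256)
  have htn : t ∉ n := c2f67_t_two B n _ _ hrel s' b' b t hs' hb hsj ht c256 hc256 hc256n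
  obtain ⟨sV, hsV, hsVj, hsV₁⟩ := hsVc n b t hb htn ht
  have h64 : ((algebraMap R B 64 : B) : ↥(modularFunctionFieldFullC K (M' * q * q))) = 64 := map_ofNat (algebraMap R ↥(modularFunctionFieldFullC K (M' * q * q))) 64
  have he : ((t + algebraMap R B 64 * b : B) : ↥(modularFunctionFieldFullC K (M' * q * q))) = (t : ↥(modularFunctionFieldFullC K (M' * q * q))) + 64 * (b : ↥(modularFunctionFieldFullC K (M' * q * q))) := by
    push_cast
    rw [map_ofNat]
  by_cases hen : t + algebraMap R B 64 * b ∈ n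
  · have h1728 : ((algebraMap R B 1728 : B) : ↥(modularFunctionFieldFullC K (M' * q * q))) = 1728 :=
      map_ofNat (algebraMap R ↥(modularFunctionFieldFullC K (M' * q * q))) 1728
    have h512 : ((algebraMap R B 512 : B) : ↥(modularFunctionFieldFullC K (M' * q * q))) = 512 := map_ofNat (algebraMap R ↥(modularFunctionFieldFullC K (M' * q * q))) 512
    have hd : ((t - algebraMap R B 512 * b : B) : ↥(modularFunctionFieldFullC K (M' * q * q))) = (t : ↥(modularFunctionFieldFullC K (M' * q * q))) - 512 * (b : ↥(modularFunctionFieldFullC K (M' * q * q))) := by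
      push_cast
      rw [map_ofNat]
    have hj := c2f67_j1728 B n _ _ hrel s' b' b t hb hsj ht htn _ (algebraMap R B 1728) _
      he hen h1728 hd
    by_cases hq3 : q = 3
    · exfalso
      have hc : algebraMap R B 1728 ∈ n := by
        have e : (1728 : R) = ((q : ℕ) : R) * 576 := by
          rw [hq3]
          norm_num
        rw [e, map_mul]
        exact n.mul_mem_right _ hπn
      have hb' : b' ∈ n := by
        have h5 := n.add_mem hj (n.mul_mem_right s' hc)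
        have e : b' - algebraMap R B 1728 * s' + algebraMap R B 1728 * s' = b' := by ring
        rwa [e] at h5
      exact c2f67_j_unit M' q hq hM' (Or.inr hq3) hπ V₂ hV₂ hπ₂ hne σ hs V₃ B hBint hB₁ hB₂ hB₃ hsat n hmid hbr1 hbr3 sV hsV hsVj hsV₁ s' b' hs' hsj hb'
    · have h3' := h3 hq3
      have h3u : IsUnit ((3 : ℕ) : R) :=
        hunit 3 ((Nat.coprime_primes Nat.prime_three hq).mpr (Ne.symm hq3))
      have hb'n : b' ∉ n := by
        intro hb'
        have h5 := n.sub_mem hb' hj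
        have e : b' - (b' - algebraMap R B 1728 * s') = algebraMap R B 1728 * s' := by ring
        rw [e] at h5
        rcases hnp.mem_or_mem h5 with h6 | h6
        · have hu : IsUnit (1728 : R) := by
            have h := (h2u.pow 6).mul (h3u.pow 3)
            convert h using 1
            norm_num
          exact hnp.ne_top (Ideal.eq_top_of_isUnit_mem _ h6 (hu.map (algebraMap R B)))
        · exact hs' h6
      exact c2f67_via3 M' q hq hM' hπ V₂ hV₂ hπ₂ hne σ hs V₃ B hBint hB₁ hB₂ hB₃ hsat hunit h3' hq3 n hmid hbr1 hbr3 sV hsV hsVj hsV₁ s' b' hs' hsj hb'n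
  · exact c2f67_apply2 M' q hq hM' hπ V₂ hV₂ hπ₂ hne σ hs V₃ B hBint hB₁ hB₂ hB₃ hsat n hmid hbr1 hbr3 sV hsV hsVj hsV₁ h2 b sB t _ hb hsB ht htn he hen

include hq hM' in
/-- **`hreg` on a chart of level-3 type** (`q = 2`, `3 ∣ M'`), given the chart-specific
`V₁`-unit witness of the regularity of `j`. -/
theorem c2f67_chart3 (hπ : Irreducible ((q : ℕ) : R))
    (V₂ : ValuationSubring ↥(modularFunctionFieldFullC K (M' * q * q)))
    (hV₂ : ∀ c ∈ cm85_Vinf (K := K) (M' * q) hπ, al97L_alpha K (M' * q) q c ∈ V₂)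
    (hπ₂ : (algebraMap K ↥(modularFunctionFieldFullC K (M' * q * q))
      (algebraMap R K ((q : ℕ) : R)))⁻¹ ∉ V₂)
    (hne : cm85_Vinf (K := K) (M' * q * q) hπ ≠ V₂)
    (σ : ↥(modularFunctionFieldFullC K (M' * q * q)))
    (hs : V₂.valuation σ ^ (q - 1) =
      V₂.valuation (algebraMap K ↥(modularFunctionFieldFullC K (M' * q * q))
        (algebraMap R K ((q : ℕ) : R))))
    (V₃ : ValuationSubring ↥(modularFunctionFieldFullC K (M' * q * q)))
    (B : Subalgebra R ↥(modularFunctionFieldFullC K (M' * q * q)))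
    (hBint : ∀ z : ↥(modularFunctionFieldFullC K (M' * q * q)), IsIntegral B z → z ∈ B)
    (hB₁ : ∀ y ∈ B, y ∈ cm85_Vinf (K := K) (M' * q * q) hπ)
    (hB₂ : ∀ y ∈ B, y ∈ V₂) (hB₃ : ∀ y ∈ B, y ∈ V₃)
    (hsat : ∀ y ∈ B,
      (algebraMap R ↥(modularFunctionFieldFullC K (M' * q * q)) ((q : ℕ) : R))⁻¹ * y ∈
        cm85_Vinf (K := K) (M' * q * q) hπ →
      (algebraMap R ↥(modularFunctionFieldFullC K (M' * q * q)) ((q : ℕ) : R))⁻¹ * y ∈ V₂ →
      (algebraMap R ↥(modularFunctionFieldFullC K (M' * q * q)) ((q : ℕ) : R))⁻¹ * y ∈ V₃ →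
      (algebraMap R ↥(modularFunctionFieldFullC K (M' * q * q)) ((q : ℕ) : R))⁻¹ * y ∈ B)
    (hunit : ∀ k : ℕ, Nat.Coprime k q → IsUnit (k : R))
    (h3 : 3 ∣ M') (hq2 : q = 2)
    (hsVc : ∀ (n : Ideal B) [n.IsPrime] (b t : B), b ∉ n → t ∉ n →
      (t : ↥(modularFunctionFieldFullC K (M' * q * q))) = (b : ↥(modularFunctionFieldFullC K (M' * q * q))) * al97L_alpha K (M' * q) q (al97L_alpha K M' q (pk85_h3 K M' h3)) →
      ∃ sV : B, sV ∉ n ∧ (sV : ↥(modularFunctionFieldFullC K (M' * q * q))) * rm90_j K (M' * q * q) ∈ B ∧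
        (sV : ↥(modularFunctionFieldFullC K (M' * q * q)))⁻¹ ∈ cm85_Vinf (K := K) (M' * q * q) hπ)
    (n : Ideal B) (hn : n.IsMaximal)
    (hπn : algebraMap R B ((q : ℕ) : R) ∈ n)
    (hmid : tl71_OnMid σ B V₂.toSubring n)
    (hbr1 : ¬ sf79_OnBr ((q : ℕ) : R) B (cm85_Vinf (K := K) (M' * q * q) hπ).toSubring n)
    (hbr3 : ¬ sf79_OnBr ((q : ℕ) : R) B V₃.toSubring n)
    (hreg : ∃ s' b' : B, s' ∉ n ∧
      (s' : ↥(modularFunctionFieldFullC K (M' * q * q))) * rm90_j K (M' * q * q) = (b' : ↥(modularFunctionFieldFullC K (M' * q * q)))) :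
    mc25_MidPrinAt σ B V₂.toSubring n := by
  haveI hnp : n.IsPrime := hn.isPrime
  obtain ⟨s', b', hs', hsj⟩ := hreg
  have hq3 : q ≠ 3 := by omega
  obtain ⟨b, sB, t, c243, hb, hsB, ht, htn, hc243, hrel⟩ :=
    c2f67_den3 M' q hq hunit h3 hq3 B hBint n s' b' hs' hsj
  obtain ⟨sV, hsV, hsVj, hsV₁⟩ := hsVc n b t hb htn ht
  have hb'n := c2f67_j_unit M' q hq hM' (Or.inl hq2) hπ V₂ hV₂ hπ₂ hne σ hs V₃ B hBint hB₁ hB₂ hB₃ hsat n hmid hbr1 hbr3 sV hsV hsVj hsV₁ s' b' hs' hsj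
  exact c2f67_via3 M' q hq hM' hπ V₂ hV₂ hπ₂ hne σ hs V₃ B hBint hB₁ hB₂ hB₃ hsat hunit h3 hq3 n hmid hbr1 hbr3 sV hsV hsVj hsV₁ s' b' hs' hsj hb'n

section c2f67_canon

/-- The `V₁`-unit witnesses of the regularity of `j` on the two canonical charts of level 2. -/
theorem c2f67_sV_level2 (hπ : Irreducible ((q : ℕ) : R)) (h2 : 2 ∣ M') :
    (∀ (n : Ideal ↥(pk15_chart R ({pk85_h2 K (M' * q * q) (h2.trans ((dvd_mul_right M' q).trans (dvd_mul_right (M' * q) q)))} : Set ↥(modularFunctionFieldFullC K (M' * q * q))))) [n.IsPrime] (b t : ↥(pk15_chart R ({pk85_h2 K (M' * q * q) (h2.trans ((dvd_mul_right M' q).trans (dvd_mul_right (M' * q) q)))} : Set ↥(modularFunctionFieldFullC K (M' * q * q))))), b ∉ n → t ∉ n →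
      (t : ↥(modularFunctionFieldFullC K (M' * q * q))) = (b : ↥(modularFunctionFieldFullC K (M' * q * q))) * al97L_alpha K (M' * q) q (al97L_alpha K M' q (pk85_h2 K M' h2)) →
      ∃ sV : ↥(pk15_chart R ({pk85_h2 K (M' * q * q) (h2.trans ((dvd_mul_right M' q).trans (dvd_mul_right (M' * q) q)))} : Set ↥(modularFunctionFieldFullC K (M' * q * q)))), sV ∉ n ∧ (sV : ↥(modularFunctionFieldFullC K (M' * q * q))) * rm90_j K (M' * q * q) ∈ (pk15_chart R ({pk85_h2 K (M' * q * q) (h2.trans ((dvd_mul_right M' q).trans (dvd_mul_right (M' * q) q)))} : Set ↥(modularFunctionFieldFullC K (M' * q * q)))) ∧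
        (sV : ↥(modularFunctionFieldFullC K (M' * q * q)))⁻¹ ∈ cm85_Vinf (K := K) (M' * q * q) hπ) ∧
    (∀ (n : Ideal ↥(pk15_chart R ({(pk85_h2 K (M' * q * q) (h2.trans ((dvd_mul_right M' q).trans (dvd_mul_right (M' * q) q))))⁻¹} : Set ↥(modularFunctionFieldFullC K (M' * q * q))))) [n.IsPrime] (b t : ↥(pk15_chart R ({(pk85_h2 K (M' * q * q) (h2.trans ((dvd_mul_right M' q).trans (dvd_mul_right (M' * q) q))))⁻¹} : Set ↥(modularFunctionFieldFullC K (M' * q * q))))), b ∉ n → t ∉ n →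
      (t : ↥(modularFunctionFieldFullC K (M' * q * q))) = (b : ↥(modularFunctionFieldFullC K (M' * q * q))) * al97L_alpha K (M' * q) q (al97L_alpha K M' q (pk85_h2 K M' h2)) →
      ∃ sV : ↥(pk15_chart R ({(pk85_h2 K (M' * q * q) (h2.trans ((dvd_mul_right M' q).trans (dvd_mul_right (M' * q) q))))⁻¹} : Set ↥(modularFunctionFieldFullC K (M' * q * q)))), sV ∉ n ∧ (sV : ↥(modularFunctionFieldFullC K (M' * q * q))) * rm90_j K (M' * q * q) ∈ (pk15_chart R ({(pk85_h2 K (M' * q * q) (h2.trans ((dvd_mul_right M' q).trans (dvd_mul_right (M' * q) q))))⁻¹} : Set ↥(modularFunctionFieldFullC K (M' * q * q)))) ∧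
        (sV : ↥(modularFunctionFieldFullC K (M' * q * q)))⁻¹ ∈ cm85_Vinf (K := K) (M' * q * q) hπ) := by
  have eT : al97L_alpha K (M' * q) q (al97L_alpha K M' q (pk85_h2 K M' h2)) = pk85_h2 K (M' * q * q) (h2.trans ((dvd_mul_right M' q).trans (dvd_mul_right (M' * q) q))) := by
    apply Subtype.ext
    rw [al97L_alpha_coe, al97L_alpha_coe, pk85_h2_coe, pk85_h2_coe]
  have hrel := pk85_h2_rel K (M' * q * q) (h2.trans ((dvd_mul_right M' q).trans (dvd_mul_right (M' * q) q)))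
  have hx : ((pk85_h2 K (M' * q * q) (h2.trans ((dvd_mul_right M' q).trans (dvd_mul_right (M' * q) q))) : ↥(modularFunctionFieldFullC K (M' * q * q))) : LaurentSeries K) = coeffMap (algebraMap R K) (h70_h2 R) := by
    rw [pk85_h2_coe, h70_coeffMap_h2]
  have hne0 : coeffMap (IsLocalRing.residue R) (h70_h2 R) ≠ 0 := by
    rw [h70_coeffMap_h2]
    intro h0
    exact h70_h2_transcendental (IsLocalRing.ResidueField R) (by rw [h0]; exact isAlgebraic_zero)
  have hHu := rsb96_gauss_unit (M' * q * q) hπ (pk85_h2 K (M' * q * q) (h2.trans ((dvd_mul_right M' q).trans (dvd_mul_right (M' * q) q)))) (h70_h2 R) hx hne0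
  constructor
  · intro n hn b t hb ht htb
    have hH : pk85_h2 K (M' * q * q) (h2.trans ((dvd_mul_right M' q).trans (dvd_mul_right (M' * q) q))) ∈ (pk15_chart R ({pk85_h2 K (M' * q * q) (h2.trans ((dvd_mul_right M' q).trans (dvd_mul_right (M' * q) q)))} : Set ↥(modularFunctionFieldFullC K (M' * q * q)))) := pk15_subset_chart _ (Set.mem_singleton _)
    have hc : ∀ r : ℕ, ((r : ℕ) : ↥(modularFunctionFieldFullC K (M' * q * q))) ∈ (pk15_chart R ({pk85_h2 K (M' * q * q) (h2.trans ((dvd_mul_right M' q).trans (dvd_mul_right (M' * q) q)))} : Set ↥(modularFunctionFieldFullC K (M' * q * q)))) := fun r => natCast_mem _ r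
    refine ⟨⟨_, hH⟩ ^ 2, ?_, ?_, ?_⟩
    · intro h
      have h' := hn.mem_of_pow_mem _ h
      apply ht
      have e : t = b * ⟨_, hH⟩ := Subtype.ext (by rw [htb, eT]; rfl)
      rw [e]
      exact n.mul_mem_left _ h'
    · have e : ((⟨_, hH⟩ ^ 2 : ↥(pk15_chart R ({pk85_h2 K (M' * q * q) (h2.trans ((dvd_mul_right M' q).trans (dvd_mul_right (M' * q) q)))} : Set ↥(modularFunctionFieldFullC K (M' * q * q))))) : ↥(modularFunctionFieldFullC K (M' * q * q))) * rm90_j K (M' * q * q) = (pk85_h2 K (M' * q * q) (h2.trans ((dvd_mul_right M' q).trans (dvd_mul_right (M' * q) q))) + 256) ^ 3 := by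
        push_cast
        rw [← hrel]
        ring
      rw [e]
      have h := pow_mem (add_mem hH (hc 256)) 3
      exact_mod_cast h
    · push_cast
      rw [← inv_pow]
      exact pow_mem hHu.2 2
  · intro n hn b t hb ht htb
    have hk : (pk85_h2 K (M' * q * q) (h2.trans ((dvd_mul_right M' q).trans (dvd_mul_right (M' * q) q))))⁻¹ ∈ (pk15_chart R ({(pk85_h2 K (M' * q * q) (h2.trans ((dvd_mul_right M' q).trans (dvd_mul_right (M' * q) q))))⁻¹} : Set ↥(modularFunctionFieldFullC K (M' * q * q)))) := pk15_subset_chart _ (Set.mem_singleton _)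
    have hc' : ∀ r : ℕ, ((r : ℕ) : ↥(modularFunctionFieldFullC K (M' * q * q))) ∈ (pk15_chart R ({(pk85_h2 K (M' * q * q) (h2.trans ((dvd_mul_right M' q).trans (dvd_mul_right (M' * q) q))))⁻¹} : Set ↥(modularFunctionFieldFullC K (M' * q * q)))) := fun r => natCast_mem _ r
    have hH0 : pk85_h2 K (M' * q * q) (h2.trans ((dvd_mul_right M' q).trans (dvd_mul_right (M' * q) q))) ≠ 0 := fun h0 =>
      pk85_h2_transcendental K (M' * q * q) _ (by rw [h0]; exact isAlgebraic_zero)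
    have aux : ∀ (x y z : ↥(modularFunctionFieldFullC K (M' * q * q))), z ≠ 0 → x = y * z → y = x * z⁻¹ := fun x y z hz h => by
      rw [h, mul_assoc y z z⁻¹, mul_inv_cancel₀ hz, mul_one]
    refine ⟨⟨_, hk⟩, ?_, ?_, ?_⟩
    · intro h
      apply hb
      have e : b = t * ⟨_, hk⟩ := Subtype.ext (aux _ _ _ hH0 (by rw [htb, eT]))
      rw [e]
      exact n.mul_mem_left _ h
    · have e : (pk85_h2 K (M' * q * q) (h2.trans ((dvd_mul_right M' q).trans (dvd_mul_right (M' * q) q))))⁻¹ * rm90_j K (M' * q * q) = (1 + 256 * (pk85_h2 K (M' * q * q) (h2.trans ((dvd_mul_right M' q).trans (dvd_mul_right (M' * q) q))))⁻¹) ^ 3 := by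
        field_simp
        linear_combination hrel
      show (pk85_h2 K (M' * q * q) (h2.trans ((dvd_mul_right M' q).trans (dvd_mul_right (M' * q) q))))⁻¹ * rm90_j K (M' * q * q) ∈ (pk15_chart R ({(pk85_h2 K (M' * q * q) (h2.trans ((dvd_mul_right M' q).trans (dvd_mul_right (M' * q) q))))⁻¹} : Set ↥(modularFunctionFieldFullC K (M' * q * q))))
      rw [e]
      have h := pow_mem (add_mem (one_mem _) (mul_mem (hc' 256) hk)) 3
      exact_mod_cast h
    · show ((pk85_h2 K (M' * q * q) (h2.trans ((dvd_mul_right M' q).trans (dvd_mul_right (M' * q) q))))⁻¹)⁻¹ ∈ cm85_Vinf (K := K) (M' * q * q) hπ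
      rw [inv_inv]
      exact hHu.1

/-- The `V₁`-unit witnesses of the regularity of `j` on the two canonical charts of level 3. -/
theorem c2f67_sV_level3 (hπ : Irreducible ((q : ℕ) : R)) (h3 : 3 ∣ M') :
    (∀ (n : Ideal ↥(pk15_chart R ({pk85_h3 K (M' * q * q) (h3.trans ((dvd_mul_right M' q).trans (dvd_mul_right (M' * q) q)))} : Set ↥(modularFunctionFieldFullC K (M' * q * q))))) [n.IsPrime] (b t : ↥(pk15_chart R ({pk85_h3 K (M' * q * q) (h3.trans ((dvd_mul_right M' q).trans (dvd_mul_right (M' * q) q)))} : Set ↥(modularFunctionFieldFullC K (M' * q * q))))), b ∉ n → t ∉ n →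
      (t : ↥(modularFunctionFieldFullC K (M' * q * q))) = (b : ↥(modularFunctionFieldFullC K (M' * q * q))) * al97L_alpha K (M' * q) q (al97L_alpha K M' q (pk85_h3 K M' h3)) →
      ∃ sV : ↥(pk15_chart R ({pk85_h3 K (M' * q * q) (h3.trans ((dvd_mul_right M' q).trans (dvd_mul_right (M' * q) q)))} : Set ↥(modularFunctionFieldFullC K (M' * q * q)))), sV ∉ n ∧ (sV : ↥(modularFunctionFieldFullC K (M' * q * q))) * rm90_j K (M' * q * q) ∈ (pk15_chart R ({pk85_h3 K (M' * q * q) (h3.trans ((dvd_mul_right M' q).trans (dvd_mul_right (M' * q) q)))} : Set ↥(modularFunctionFieldFullC K (M' * q * q)))) ∧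
        (sV : ↥(modularFunctionFieldFullC K (M' * q * q)))⁻¹ ∈ cm85_Vinf (K := K) (M' * q * q) hπ) ∧
    (∀ (n : Ideal ↥(pk15_chart R ({(pk85_h3 K (M' * q * q) (h3.trans ((dvd_mul_right M' q).trans (dvd_mul_right (M' * q) q))))⁻¹} : Set ↥(modularFunctionFieldFullC K (M' * q * q))))) [n.IsPrime] (b t : ↥(pk15_chart R ({(pk85_h3 K (M' * q * q) (h3.trans ((dvd_mul_right M' q).trans (dvd_mul_right (M' * q) q))))⁻¹} : Set ↥(modularFunctionFieldFullC K (M' * q * q))))), b ∉ n → t ∉ n →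
      (t : ↥(modularFunctionFieldFullC K (M' * q * q))) = (b : ↥(modularFunctionFieldFullC K (M' * q * q))) * al97L_alpha K (M' * q) q (al97L_alpha K M' q (pk85_h3 K M' h3)) →
      ∃ sV : ↥(pk15_chart R ({(pk85_h3 K (M' * q * q) (h3.trans ((dvd_mul_right M' q).trans (dvd_mul_right (M' * q) q))))⁻¹} : Set ↥(modularFunctionFieldFullC K (M' * q * q)))), sV ∉ n ∧ (sV : ↥(modularFunctionFieldFullC K (M' * q * q))) * rm90_j K (M' * q * q) ∈ (pk15_chart R ({(pk85_h3 K (M' * q * q) (h3.trans ((dvd_mul_right M' q).trans (dvd_mul_right (M' * q) q))))⁻¹} : Set ↥(modularFunctionFieldFullC K (M' * q * q)))) ∧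
        (sV : ↥(modularFunctionFieldFullC K (M' * q * q)))⁻¹ ∈ cm85_Vinf (K := K) (M' * q * q) hπ) := by
  have eT : al97L_alpha K (M' * q) q (al97L_alpha K M' q (pk85_h3 K M' h3)) = pk85_h3 K (M' * q * q) (h3.trans ((dvd_mul_right M' q).trans (dvd_mul_right (M' * q) q))) := by
    apply Subtype.ext
    rw [al97L_alpha_coe, al97L_alpha_coe, pk85_h3_coe, pk85_h3_coe]
  have hrel := pk85_h3_rel K (M' * q * q) (h3.trans ((dvd_mul_right M' q).trans (dvd_mul_right (M' * q) q)))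
  have hx : ((pk85_h3 K (M' * q * q) (h3.trans ((dvd_mul_right M' q).trans (dvd_mul_right (M' * q) q))) : ↥(modularFunctionFieldFullC K (M' * q * q))) : LaurentSeries K) = coeffMap (algebraMap R K) (h34_h3R R) := by
    rw [pk85_h3_coe, h34_coeffMap_h3R]
  have hne0 : coeffMap (IsLocalRing.residue R) (h34_h3R R) ≠ 0 := by
    rw [h34_coeffMap_h3R]
    intro h0
    exact h34_h3R_transcendental (IsLocalRing.ResidueField R) (by rw [h0]; exact isAlgebraic_zero)
  have hHu := rsb96_gauss_unit (M' * q * q) hπ (pk85_h3 K (M' * q * q) (h3.trans ((dvd_mul_right M' q).trans (dvd_mul_right (M' * q) q)))) (h34_h3R R) hx hne0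
  constructor
  · intro n hn b t hb ht htb
    have hH : pk85_h3 K (M' * q * q) (h3.trans ((dvd_mul_right M' q).trans (dvd_mul_right (M' * q) q))) ∈ (pk15_chart R ({pk85_h3 K (M' * q * q) (h3.trans ((dvd_mul_right M' q).trans (dvd_mul_right (M' * q) q)))} : Set ↥(modularFunctionFieldFullC K (M' * q * q)))) := pk15_subset_chart _ (Set.mem_singleton _)
    have hc : ∀ r : ℕ, ((r : ℕ) : ↥(modularFunctionFieldFullC K (M' * q * q))) ∈ (pk15_chart R ({pk85_h3 K (M' * q * q) (h3.trans ((dvd_mul_right M' q).trans (dvd_mul_right (M' * q) q)))} : Set ↥(modularFunctionFieldFullC K (M' * q * q)))) := fun r => natCast_mem _ r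
    refine ⟨⟨_, hH⟩ ^ 3, ?_, ?_, ?_⟩
    · intro h
      have h' := hn.mem_of_pow_mem _ h
      apply ht
      have e : t = b * ⟨_, hH⟩ := Subtype.ext (by rw [htb, eT]; rfl)
      rw [e]
      exact n.mul_mem_left _ h'
    · have e : ((⟨_, hH⟩ ^ 3 : ↥(pk15_chart R ({pk85_h3 K (M' * q * q) (h3.trans ((dvd_mul_right M' q).trans (dvd_mul_right (M' * q) q)))} : Set ↥(modularFunctionFieldFullC K (M' * q * q))))) : ↥(modularFunctionFieldFullC K (M' * q * q))) * rm90_j K (M' * q * q) = (pk85_h3 K (M' * q * q) (h3.trans ((dvd_mul_right M' q).trans (dvd_mul_right (M' * q) q))) + 27) * (pk85_h3 K (M' * q * q) (h3.trans ((dvd_mul_right M' q).trans (dvd_mul_right (M' * q) q))) + 243) ^ 3 := by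
        push_cast
        rw [← hrel]
        ring
      rw [e]
      have h := mul_mem (add_mem hH (hc 27)) (pow_mem (add_mem hH (hc 243)) 3)
      exact_mod_cast h
    · push_cast
      rw [← inv_pow]
      exact pow_mem hHu.2 3
  · intro n hn b t hb ht htb
    have hk : (pk85_h3 K (M' * q * q) (h3.trans ((dvd_mul_right M' q).trans (dvd_mul_right (M' * q) q))))⁻¹ ∈ (pk15_chart R ({(pk85_h3 K (M' * q * q) (h3.trans ((dvd_mul_right M' q).trans (dvd_mul_right (M' * q) q))))⁻¹} : Set ↥(modularFunctionFieldFullC K (M' * q * q)))) := pk15_subset_chart _ (Set.mem_singleton _)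
    have hc' : ∀ r : ℕ, ((r : ℕ) : ↥(modularFunctionFieldFullC K (M' * q * q))) ∈ (pk15_chart R ({(pk85_h3 K (M' * q * q) (h3.trans ((dvd_mul_right M' q).trans (dvd_mul_right (M' * q) q))))⁻¹} : Set ↥(modularFunctionFieldFullC K (M' * q * q)))) := fun r => natCast_mem _ r
    have hH0 : pk85_h3 K (M' * q * q) (h3.trans ((dvd_mul_right M' q).trans (dvd_mul_right (M' * q) q))) ≠ 0 := fun h0 =>
      pk85_h3_transcendental K (M' * q * q) _ (by rw [h0]; exact isAlgebraic_zero)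
    have aux : ∀ (x y z : ↥(modularFunctionFieldFullC K (M' * q * q))), z ≠ 0 → x = y * z → y = x * z⁻¹ := fun x y z hz h => by
      rw [h, mul_assoc y z z⁻¹, mul_inv_cancel₀ hz, mul_one]
    refine ⟨⟨_, hk⟩, ?_, ?_, ?_⟩
    · intro h
      apply hb
      have e : b = t * ⟨_, hk⟩ := Subtype.ext (aux _ _ _ hH0 (by rw [htb, eT]))
      rw [e]
      exact n.mul_mem_left _ h
    · have e : (pk85_h3 K (M' * q * q) (h3.trans ((dvd_mul_right M' q).trans (dvd_mul_right (M' * q) q))))⁻¹ * rm90_j K (M' * q * q) = (1 + 27 * (pk85_h3 K (M' * q * q) (h3.trans ((dvd_mul_right M' q).trans (dvd_mul_right (M' * q) q))))⁻¹) * (1 + 243 * (pk85_h3 K (M' * q * q) (h3.trans ((dvd_mul_right M' q).trans (dvd_mul_right (M' * q) q))))⁻¹) ^ 3 := by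
        field_simp
        linear_combination hrel
      show (pk85_h3 K (M' * q * q) (h3.trans ((dvd_mul_right M' q).trans (dvd_mul_right (M' * q) q))))⁻¹ * rm90_j K (M' * q * q) ∈ (pk15_chart R ({(pk85_h3 K (M' * q * q) (h3.trans ((dvd_mul_right M' q).trans (dvd_mul_right (M' * q) q))))⁻¹} : Set ↥(modularFunctionFieldFullC K (M' * q * q))))
      rw [e]
      have h := mul_mem (add_mem (one_mem _) (mul_mem (hc' 27) hk)) (pow_mem (add_mem (one_mem _) (mul_mem (hc' 243) hk)) 3)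
      exact_mod_cast h
    · show ((pk85_h3 K (M' * q * q) (h3.trans ((dvd_mul_right M' q).trans (dvd_mul_right (M' * q) q))))⁻¹)⁻¹ ∈ cm85_Vinf (K := K) (M' * q * q) hπ
      rw [inv_inv]
      exact hHu.1

include hq hM' in
/-- **`hreg` on both canonical charts of level `M' q q`, Hauptmodul of level 2**: the literal
`hC₁ ∧ hC₂` of `tg71_final_level2` at `π := ((q : ℕ) : R)` (= `hreg` of
`mc25_hD2_level2` / `_inv`, `mc25_tg_level2`), NO hypothesis left. -/
theorem c2f67_hreg_level2 [Algebra.IsAlgebraic K Q̄] (hπ : Irreducible ((q : ℕ) : R))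
    (hunit : ∀ k : ℕ, Nat.Coprime k q → IsUnit (k : R))
    (h2 : 2 ∣ M') (hq2 : q ≠ 2) (h3 : q ≠ 3 → 3 ∣ M')
    (V₂ : ValuationSubring ↥(modularFunctionFieldFullC K (M' * q * q)))
    (hV₂ : ∀ c ∈ cm85_Vinf (K := K) (M' * q) hπ, al97L_alpha K (M' * q) q c ∈ V₂)
    (hπ₂ : (algebraMap K ↥(modularFunctionFieldFullC K (M' * q * q)) (algebraMap R K ((q : ℕ) : R)))⁻¹ ∉ V₂)
    (hne : cm85_Vinf (K := K) (M' * q * q) hπ ≠ V₂)
    (hs : V₂.valuation (v2g64_s K M' q) ^ (q - 1) =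
      V₂.valuation (algebraMap K ↥(modularFunctionFieldFullC K (M' * q * q)) (algebraMap R K ((q : ℕ) : R)))) :
    (∀ n : Ideal ↥(pk15_chart R ({pk85_h2 K (M' * q * q) (h2.trans ((dvd_mul_right M' q).trans (dvd_mul_right (M' * q) q)))} : Set ↥(modularFunctionFieldFullC K (M' * q * q)))), n.IsMaximal → algebraMap R ↥(pk15_chart R ({pk85_h2 K (M' * q * q) (h2.trans ((dvd_mul_right M' q).trans (dvd_mul_right (M' * q) q)))} : Set ↥(modularFunctionFieldFullC K (M' * q * q)))) ((q : ℕ) : R) ∈ n →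
        tl71_OnMid (v2g64_s K M' q) (pk15_chart R ({pk85_h2 K (M' * q * q) (h2.trans ((dvd_mul_right M' q).trans (dvd_mul_right (M' * q) q)))} : Set ↥(modularFunctionFieldFullC K (M' * q * q)))) V₂.toSubring n →
        ¬ sf79_OnBr ((q : ℕ) : R) (pk15_chart R ({pk85_h2 K (M' * q * q) (h2.trans ((dvd_mul_right M' q).trans (dvd_mul_right (M' * q) q)))} : Set ↥(modularFunctionFieldFullC K (M' * q * q)))) (cm85_Vinf (K := K) (M' * q * q) hπ).toSubring n →
        ¬ sf79_OnBr ((q : ℕ) : R) (pk15_chart R ({pk85_h2 K (M' * q * q) (h2.trans ((dvd_mul_right M' q).trans (dvd_mul_right (M' * q) q)))} : Set ↥(modularFunctionFieldFullC K (M' * q * q)))) (nsb86_V3 (K := K) M' q hq hM' hπ).toSubring n →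
        (∃ s' b : ↥(pk15_chart R ({pk85_h2 K (M' * q * q) (h2.trans ((dvd_mul_right M' q).trans (dvd_mul_right (M' * q) q)))} : Set ↥(modularFunctionFieldFullC K (M' * q * q)))), s' ∉ n ∧
          (s' : ↥(modularFunctionFieldFullC K (M' * q * q))) * rm90_j K (M' * q * q) = (b : ↥(modularFunctionFieldFullC K (M' * q * q)))) →
        mc25_MidPrinAt (v2g64_s K M' q) (pk15_chart R ({pk85_h2 K (M' * q * q) (h2.trans ((dvd_mul_right M' q).trans (dvd_mul_right (M' * q) q)))} : Set ↥(modularFunctionFieldFullC K (M' * q * q)))) V₂.toSubring n) ∧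
    (∀ n : Ideal ↥(pk15_chart R ({(pk85_h2 K (M' * q * q) (h2.trans ((dvd_mul_right M' q).trans (dvd_mul_right (M' * q) q))))⁻¹} : Set ↥(modularFunctionFieldFullC K (M' * q * q)))), n.IsMaximal → algebraMap R ↥(pk15_chart R ({(pk85_h2 K (M' * q * q) (h2.trans ((dvd_mul_right M' q).trans (dvd_mul_right (M' * q) q))))⁻¹} : Set ↥(modularFunctionFieldFullC K (M' * q * q)))) ((q : ℕ) : R) ∈ n →
        tl71_OnMid (v2g64_s K M' q) (pk15_chart R ({(pk85_h2 K (M' * q * q) (h2.trans ((dvd_mul_right M' q).trans (dvd_mul_right (M' * q) q))))⁻¹} : Set ↥(modularFunctionFieldFullC K (M' * q * q)))) V₂.toSubring n →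
        ¬ sf79_OnBr ((q : ℕ) : R) (pk15_chart R ({(pk85_h2 K (M' * q * q) (h2.trans ((dvd_mul_right M' q).trans (dvd_mul_right (M' * q) q))))⁻¹} : Set ↥(modularFunctionFieldFullC K (M' * q * q)))) (cm85_Vinf (K := K) (M' * q * q) hπ).toSubring n →
        ¬ sf79_OnBr ((q : ℕ) : R) (pk15_chart R ({(pk85_h2 K (M' * q * q) (h2.trans ((dvd_mul_right M' q).trans (dvd_mul_right (M' * q) q))))⁻¹} : Set ↥(modularFunctionFieldFullC K (M' * q * q)))) (nsb86_V3 (K := K) M' q hq hM' hπ).toSubring n →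
        (∃ s' b : ↥(pk15_chart R ({(pk85_h2 K (M' * q * q) (h2.trans ((dvd_mul_right M' q).trans (dvd_mul_right (M' * q) q))))⁻¹} : Set ↥(modularFunctionFieldFullC K (M' * q * q)))), s' ∉ n ∧
          (s' : ↥(modularFunctionFieldFullC K (M' * q * q))) * rm90_j K (M' * q * q) = (b : ↥(modularFunctionFieldFullC K (M' * q * q)))) →
        mc25_MidPrinAt (v2g64_s K M' q) (pk15_chart R ({(pk85_h2 K (M' * q * q) (h2.trans ((dvd_mul_right M' q).trans (dvd_mul_right (M' * q) q))))⁻¹} : Set ↥(modularFunctionFieldFullC K (M' * q * q)))) V₂.toSubring n) := by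
  have hqR : ¬ IsUnit ((q : ℕ) : R) := hπ.not_isUnit
  have hMu : IsUnit ((M' : ℕ) : R) :=
    hunit M' (Nat.coprime_comm.mp ((Nat.Prime.coprime_iff_not_dvd hq).mpr hM'))
  have hF := fb85_frameV3_level2 M' q hq hM' hπ hqR hMu h2 V₂ hV₂ hπ₂ hs
  obtain ⟨c1, c2⟩ := sc67_chart_facts (K := K) hπ (pk85_h2 K (M' * q * q) (h2.trans ((dvd_mul_right M' q).trans (dvd_mul_right (M' * q) q))))
    (cm85_Vinf (K := K) (M' * q * q) hπ) V₂ (nsb86_V3 (K := K) M' q hq hM' hπ) ⟨hF.1, hF.2.1⟩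
  obtain ⟨hB₁, hB₂, hB₃, hsat, -⟩ := c1
  obtain ⟨hB₁', hB₂', hB₃', hsat', -⟩ := c2
  obtain ⟨sV1, sV2⟩ := c2f67_sV_level2 (K := K) M' q hπ h2
  refine ⟨fun n hn hπn hmid hb1 hb3 hreg => ?_, fun n hn hπn hmid hb1 hb3 hreg => ?_⟩
  · exact c2f67_chart2 M' q hq hM' hπ V₂ hV₂ hπ₂ hne (v2g64_s K M' q) hs
      (nsb86_V3 (K := K) M' q hq hM' hπ) _ (fun z hz => ci22_chart_closed _ z hz)
      hB₁ hB₂ hB₃ hsat hunit h2 hq2 h3 sV1 n hn hπn hmid hb1 hb3 hreg
  · exact c2f67_chart2 M' q hq hM' hπ V₂ hV₂ hπ₂ hne (v2g64_s K M' q) hs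
      (nsb86_V3 (K := K) M' q hq hM' hπ) _ (fun z hz => ci22_chart_closed _ z hz)
      hB₁' hB₂' hB₃' hsat' hunit h2 hq2 h3 sV2 n hn hπn hmid hb1 hb3 hreg

include hq hM' in
/-- **`hreg` on both canonical charts of level `M' q q`, Hauptmodul of level 3**: the literal
`hC₁ ∧ hC₂` of `tg71_final_level3` at `π := ((q : ℕ) : R)` (= `hreg` of
`mc25_hD2_level3` / `_inv`, `mc25_tg_level3`), NO hypothesis left. -/
theorem c2f67_hreg_level3 [Algebra.IsAlgebraic K Q̄] (hπ : Irreducible ((q : ℕ) : R))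
    (hunit : ∀ k : ℕ, Nat.Coprime k q → IsUnit (k : R))
    (h3 : 3 ∣ M') (hq2 : q = 2)
    (V₂ : ValuationSubring ↥(modularFunctionFieldFullC K (M' * q * q)))
    (hV₂ : ∀ c ∈ cm85_Vinf (K := K) (M' * q) hπ, al97L_alpha K (M' * q) q c ∈ V₂)
    (hπ₂ : (algebraMap K ↥(modularFunctionFieldFullC K (M' * q * q)) (algebraMap R K ((q : ℕ) : R)))⁻¹ ∉ V₂)
    (hne : cm85_Vinf (K := K) (M' * q * q) hπ ≠ V₂)
    (hs : V₂.valuation (v2g64_s K M' q) ^ (q - 1) =
      V₂.valuation (algebraMap K ↥(modularFunctionFieldFullC K (M' * q * q)) (algebraMap R K ((q : ℕ) : R)))) :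
    (∀ n : Ideal ↥(pk15_chart R ({pk85_h3 K (M' * q * q) (h3.trans ((dvd_mul_right M' q).trans (dvd_mul_right (M' * q) q)))} : Set ↥(modularFunctionFieldFullC K (M' * q * q)))), n.IsMaximal → algebraMap R ↥(pk15_chart R ({pk85_h3 K (M' * q * q) (h3.trans ((dvd_mul_right M' q).trans (dvd_mul_right (M' * q) q)))} : Set ↥(modularFunctionFieldFullC K (M' * q * q)))) ((q : ℕ) : R) ∈ n →
        tl71_OnMid (v2g64_s K M' q) (pk15_chart R ({pk85_h3 K (M' * q * q) (h3.trans ((dvd_mul_right M' q).trans (dvd_mul_right (M' * q) q)))} : Set ↥(modularFunctionFieldFullC K (M' * q * q)))) V₂.toSubring n →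
        ¬ sf79_OnBr ((q : ℕ) : R) (pk15_chart R ({pk85_h3 K (M' * q * q) (h3.trans ((dvd_mul_right M' q).trans (dvd_mul_right (M' * q) q)))} : Set ↥(modularFunctionFieldFullC K (M' * q * q)))) (cm85_Vinf (K := K) (M' * q * q) hπ).toSubring n →
        ¬ sf79_OnBr ((q : ℕ) : R) (pk15_chart R ({pk85_h3 K (M' * q * q) (h3.trans ((dvd_mul_right M' q).trans (dvd_mul_right (M' * q) q)))} : Set ↥(modularFunctionFieldFullC K (M' * q * q)))) (nsb86_V3 (K := K) M' q hq hM' hπ).toSubring n →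
        (∃ s' b : ↥(pk15_chart R ({pk85_h3 K (M' * q * q) (h3.trans ((dvd_mul_right M' q).trans (dvd_mul_right (M' * q) q)))} : Set ↥(modularFunctionFieldFullC K (M' * q * q)))), s' ∉ n ∧
          (s' : ↥(modularFunctionFieldFullC K (M' * q * q))) * rm90_j K (M' * q * q) = (b : ↥(modularFunctionFieldFullC K (M' * q * q)))) →
        mc25_MidPrinAt (v2g64_s K M' q) (pk15_chart R ({pk85_h3 K (M' * q * q) (h3.trans ((dvd_mul_right M' q).trans (dvd_mul_right (M' * q) q)))} : Set ↥(modularFunctionFieldFullC K (M' * q * q)))) V₂.toSubring n) ∧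
    (∀ n : Ideal ↥(pk15_chart R ({(pk85_h3 K (M' * q * q) (h3.trans ((dvd_mul_right M' q).trans (dvd_mul_right (M' * q) q))))⁻¹} : Set ↥(modularFunctionFieldFullC K (M' * q * q)))), n.IsMaximal → algebraMap R ↥(pk15_chart R ({(pk85_h3 K (M' * q * q) (h3.trans ((dvd_mul_right M' q).trans (dvd_mul_right (M' * q) q))))⁻¹} : Set ↥(modularFunctionFieldFullC K (M' * q * q)))) ((q : ℕ) : R) ∈ n →
        tl71_OnMid (v2g64_s K M' q) (pk15_chart R ({(pk85_h3 K (M' * q * q) (h3.trans ((dvd_mul_right M' q).trans (dvd_mul_right (M' * q) q))))⁻¹} : Set ↥(modularFunctionFieldFullC K (M' * q * q)))) V₂.toSubring n →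
        ¬ sf79_OnBr ((q : ℕ) : R) (pk15_chart R ({(pk85_h3 K (M' * q * q) (h3.trans ((dvd_mul_right M' q).trans (dvd_mul_right (M' * q) q))))⁻¹} : Set ↥(modularFunctionFieldFullC K (M' * q * q)))) (cm85_Vinf (K := K) (M' * q * q) hπ).toSubring n →
        ¬ sf79_OnBr ((q : ℕ) : R) (pk15_chart R ({(pk85_h3 K (M' * q * q) (h3.trans ((dvd_mul_right M' q).trans (dvd_mul_right (M' * q) q))))⁻¹} : Set ↥(modularFunctionFieldFullC K (M' * q * q)))) (nsb86_V3 (K := K) M' q hq hM' hπ).toSubring n →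
        (∃ s' b : ↥(pk15_chart R ({(pk85_h3 K (M' * q * q) (h3.trans ((dvd_mul_right M' q).trans (dvd_mul_right (M' * q) q))))⁻¹} : Set ↥(modularFunctionFieldFullC K (M' * q * q)))), s' ∉ n ∧
          (s' : ↥(modularFunctionFieldFullC K (M' * q * q))) * rm90_j K (M' * q * q) = (b : ↥(modularFunctionFieldFullC K (M' * q * q)))) →
        mc25_MidPrinAt (v2g64_s K M' q) (pk15_chart R ({(pk85_h3 K (M' * q * q) (h3.trans ((dvd_mul_right M' q).trans (dvd_mul_right (M' * q) q))))⁻¹} : Set ↥(modularFunctionFieldFullC K (M' * q * q)))) V₂.toSubring n) := by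
  have hqR : ¬ IsUnit ((q : ℕ) : R) := hπ.not_isUnit
  have hMu : IsUnit ((M' : ℕ) : R) :=
    hunit M' (Nat.coprime_comm.mp ((Nat.Prime.coprime_iff_not_dvd hq).mpr hM'))
  have hF := fb85_frameV3_level3 M' q hq hM' hπ hqR hMu h3 V₂ hV₂ hπ₂ hs
  obtain ⟨c1, c2⟩ := sc67_chart_facts (K := K) hπ (pk85_h3 K (M' * q * q) (h3.trans ((dvd_mul_right M' q).trans (dvd_mul_right (M' * q) q))))
    (cm85_Vinf (K := K) (M' * q * q) hπ) V₂ (nsb86_V3 (K := K) M' q hq hM' hπ) ⟨hF.1, hF.2.1⟩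
  obtain ⟨hB₁, hB₂, hB₃, hsat, -⟩ := c1
  obtain ⟨hB₁', hB₂', hB₃', hsat', -⟩ := c2
  obtain ⟨sV1, sV2⟩ := c2f67_sV_level3 (K := K) M' q hπ h3
  refine ⟨fun n hn hπn hmid hb1 hb3 hreg => ?_, fun n hn hπn hmid hb1 hb3 hreg => ?_⟩
  · exact c2f67_chart3 M' q hq hM' hπ V₂ hV₂ hπ₂ hne (v2g64_s K M' q) hs
      (nsb86_V3 (K := K) M' q hq hM' hπ) _ (fun z hz => ci22_chart_closed _ z hz)
      hB₁ hB₂ hB₃ hsat hunit h3 hq2 sV1 n hn hπn hmid hb1 hb3 hreg
  · exact c2f67_chart3 M' q hq hM' hπ V₂ hV₂ hπ₂ hne (v2g64_s K M' q) hs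
      (nsb86_V3 (K := K) M' q hq hM' hπ) _ (fun z hz => ci22_chart_closed _ z hz)
      hB₁' hB₂' hB₃' hsat' hunit h3 hq2 sV2 n hn hπn hmid hb1 hb3 hreg

end c2f67_canon

end c2f67_point

end

end Fermat.Agent.S36
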