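import Fermat.Agent.S36.C2Final11
import Fermat.Agent.S36.FrameBind85
import Fermat.Agent.S34.CuspInst22
import Fermat.Agent.S34.ChartM85

/-!
# S36 lab, row C-C2 (helper11): `hreg` on the four canonical charts of level `M' q²`

The four instances of `c2f11_hreg_gen` (file `C2Final11`) in the LITERAL shape of the hypothesis
`hreg` of `mc25_hD2_level2/3(_inv)` = `hC₁`, `hC₂` of `tg71_final_level2/3`, at the uniformizer
`π = (q : R)`: canonical frame `V₁ = cm85_Vinf (M' q q)`, `V₃ = nsb86_V3`, `V₂` ANY valuation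
subring with the four facts of `ob72_ram` (`s = v2g64_s`), charts `pk15_chart R {h}`, `{h⁻¹}`,
`h = pk85_h2 K (M' q q) _` (`2 ∣ M'`; extra hypothesis `q ≠ 3 → 3 ∣ M'`) resp.
`h = pk85_h3 K (M' q q) _` (`3 ∣ M'`; extra hypothesis `q ≠ 2 → 2 ∣ M'`):

* `c2f11_hreg_level2`, `c2f11_hreg_level2_inv`, `c2f11_hreg_level3`, `c2f11_hreg_level3_inv`.

The chart element `sc` of `c2f11_hreg_gen` is `h²` (resp. `h³`) on `{h}` and `h⁻¹` on `{h⁻¹}`.

All names are prefixed `c2f11_`.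
-/

set_option autoImplicit false
set_option linter.unusedSectionVars false
set_option linter.style.longLine false
set_option linter.unusedVariables false
set_option maxHeartbeats 800000

open ModularCurve IntermediateField

namespace Fermat.Agent.S36

open Fermat.Agent.S18 Fermat.Agent.S24 Fermat.Agent.S28 Fermat.Agent.S37 Fermat.Agent.S34
open Fermat.Agent.S35 Fermat.Agent.S36.TripleLoc71

local notation "Q̄" => AlgebraicClosure ℚ

section c2f11_inst

variable {R K : Type} [CommRing R] [IsDomain R] [IsDiscreteValuationRing R] [Field K]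
  [NumberField K] [Algebra R K] [IsFractionRing R K] [Algebra K Q̄] [Algebra.IsAlgebraic K Q̄]
  (M' q : ℕ) [NeZero M'] [NeZero q] (hq : q.Prime) (hM' : ¬ q ∣ M')
  [Algebra R ↥(modularFunctionFieldFullC K M')]
  [IsScalarTower R K ↥(modularFunctionFieldFullC K M')]
  [Algebra R ↥(modularFunctionFieldFullC K (M' * q))]
  [IsScalarTower R K ↥(modularFunctionFieldFullC K (M' * q))]
  [Algebra R ↥(modularFunctionFieldFullC K (M' * q * q))]
  [IsScalarTower R K ↥(modularFunctionFieldFullC K (M' * q * q))]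

include hq hM' in
/-- **`hreg` on the canonical chart `{h}`, Hauptmodul of level 2.** -/
theorem c2f11_hreg_level2 (hπq : Irreducible ((q : ℕ) : R))
    (hunit : ∀ n : ℕ, Nat.Coprime n q → IsUnit (n : R)) (hMu : IsUnit (M' : R))
    (h2 : 2 ∣ M') (h3M : q ≠ 3 → 3 ∣ M')
    (V₂ : ValuationSubring ↥(modularFunctionFieldFullC K (M' * q * q)))
    (hV₂ : ∀ c ∈ cm85_Vinf (K := K) (M' * q) hπq, al97L_alpha K (M' * q) q c ∈ V₂)
    (hπ₂ : (algebraMap K ↥(modularFunctionFieldFullC K (M' * q * q)) (algebraMap R K ((q : ℕ) : R)))⁻¹ ∉ V₂)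
    (hne : cm85_Vinf (K := K) (M' * q * q) hπq ≠ V₂)
    (hs : V₂.valuation (v2g64_s K M' q) ^ (q - 1) =
      V₂.valuation (algebraMap K ↥(modularFunctionFieldFullC K (M' * q * q)) (algebraMap R K ((q : ℕ) : R)))) :
    ∀ n : Ideal ↥(pk15_chart R ({pk85_h2 K (M' * q * q) (h2.trans ((dvd_mul_right M' q).trans (dvd_mul_right (M' * q) q)))} : Set ↥(modularFunctionFieldFullC K (M' * q * q)))), n.IsMaximal →
      algebraMap R ↥(pk15_chart R ({pk85_h2 K (M' * q * q) (h2.trans ((dvd_mul_right M' q).trans (dvd_mul_right (M' * q) q)))} : Set ↥(modularFunctionFieldFullC K (M' * q * q)))) ((q : ℕ) : R) ∈ n →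
      tl71_OnMid (v2g64_s K M' q) (pk15_chart R ({pk85_h2 K (M' * q * q) (h2.trans ((dvd_mul_right M' q).trans (dvd_mul_right (M' * q) q)))} : Set ↥(modularFunctionFieldFullC K (M' * q * q)))) V₂.toSubring n →
      ¬ sf79_OnBr ((q : ℕ) : R) (pk15_chart R ({pk85_h2 K (M' * q * q) (h2.trans ((dvd_mul_right M' q).trans (dvd_mul_right (M' * q) q)))} : Set ↥(modularFunctionFieldFullC K (M' * q * q)))) (cm85_Vinf (K := K) (M' * q * q) hπq).toSubring n →
      ¬ sf79_OnBr ((q : ℕ) : R) (pk15_chart R ({pk85_h2 K (M' * q * q) (h2.trans ((dvd_mul_right M' q).trans (dvd_mul_right (M' * q) q)))} : Set ↥(modularFunctionFieldFullC K (M' * q * q)))) (nsb86_V3 (K := K) M' q hq hM' hπq).toSubring n →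
      (∃ s' b : ↥(pk15_chart R ({pk85_h2 K (M' * q * q) (h2.trans ((dvd_mul_right M' q).trans (dvd_mul_right (M' * q) q)))} : Set ↥(modularFunctionFieldFullC K (M' * q * q)))), s' ∉ n ∧
        (s' : ↥(modularFunctionFieldFullC K (M' * q * q))) * rm90_j K (M' * q * q) = (b : ↥(modularFunctionFieldFullC K (M' * q * q)))) →
      mc25_MidPrinAt (v2g64_s K M' q) (pk15_chart R ({pk85_h2 K (M' * q * q) (h2.trans ((dvd_mul_right M' q).trans (dvd_mul_right (M' * q) q)))} : Set ↥(modularFunctionFieldFullC K (M' * q * q)))) V₂.toSubring n := by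
  intro n hn hπn hmid h1 h3' hreg
  haveI : n.IsPrime := hn.isPrime
  have hqp : q ≠ 2 := by
    intro h
    apply hM'
    rw [h]
    exact h2
  obtain ⟨-, hC, -⟩ := fb85_frameV3_level2 (R := R) (K := K) M' q hq hM' hπq hπq.not_isUnit hMu h2
    V₂ hV₂ hπ₂ hs
  obtain ⟨-, h12W, hsat1, hsat2, -⟩ := hC
  have hsub : ({pk85_h2 K (M' * q * q) (h2.trans ((dvd_mul_right M' q).trans (dvd_mul_right (M' * q) q)))} : Set ↥(modularFunctionFieldFullC K (M' * q * q))) ⊆
      {pk85_h2 K (M' * q * q) (h2.trans ((dvd_mul_right M' q).trans (dvd_mul_right (M' * q) q))), (pk85_h2 K (M' * q * q) (h2.trans ((dvd_mul_right M' q).trans (dvd_mul_right (M' * q) q))))⁻¹} := by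
    intro x hx
    rw [Set.mem_singleton_iff.mp hx]
    exact Set.mem_insert _ _
  have hBW : ∀ x ∈ (pk15_chart R ({pk85_h2 K (M' * q * q) (h2.trans ((dvd_mul_right M' q).trans (dvd_mul_right (M' * q) q)))} : Set ↥(modularFunctionFieldFullC K (M' * q * q)))), x ∈ (cm85_Vinf (K := K) (M' * q * q) hπq).toSubring ⊓ V₂.toSubring ⊓
      (nsb86_V3 (K := K) M' q hq hM' hπq).toSubring :=
    fun x hx => h12W x (pk15_chart_mono hsub hx)
  obtain ⟨s', b', hs', hsj⟩ := hreg
  have hrel := pk85_h2_rel K (M' * q * q)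
    (h2.trans ((dvd_mul_right M' q).trans (dvd_mul_right (M' * q) q)))
  obtain ⟨-, -, -, -, hhV, hhinvV, -⟩ := cm85_facts_level2 (R := R) (K := K) (M' * q * q) hπq
    (h2.trans ((dvd_mul_right M' q).trans (dvd_mul_right (M' * q) q)))
  have h1n : (1 : ↥(pk15_chart R ({pk85_h2 K (M' * q * q) (h2.trans ((dvd_mul_right M' q).trans (dvd_mul_right (M' * q) q)))} : Set ↥(modularFunctionFieldFullC K (M' * q * q))))) ∉ n := fun h => hn.isPrime.ne_top ((Ideal.eq_top_iff_one n).mpr h)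
  have hpn : (2 : ↥(pk15_chart R ({pk85_h2 K (M' * q * q) (h2.trans ((dvd_mul_right M' q).trans (dvd_mul_right (M' * q) q)))} : Set ↥(modularFunctionFieldFullC K (M' * q * q))))) ∉ n := by
    have := c2f11_natCast_not_mem (pk15_chart R ({pk85_h2 K (M' * q * q) (h2.trans ((dvd_mul_right M' q).trans (dvd_mul_right (M' * q) q)))} : Set ↥(modularFunctionFieldFullC K (M' * q * q)))) n 2
      (hunit 2 ((Nat.coprime_primes Nat.prime_two hq).mpr (Ne.symm hqp)))
    simpa using this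
  have hh : pk85_h2 K (M' * q * q) (h2.trans ((dvd_mul_right M' q).trans (dvd_mul_right (M' * q) q))) ∈ (pk15_chart R ({pk85_h2 K (M' * q * q) (h2.trans ((dvd_mul_right M' q).trans (dvd_mul_right (M' * q) q)))} : Set ↥(modularFunctionFieldFullC K (M' * q * q)))) := pk15_subset_chart _ (Set.mem_singleton _)
  have c256 : ((256 : ↥(pk15_chart R ({pk85_h2 K (M' * q * q) (h2.trans ((dvd_mul_right M' q).trans (dvd_mul_right (M' * q) q)))} : Set ↥(modularFunctionFieldFullC K (M' * q * q))))) : ↥(modularFunctionFieldFullC K (M' * q * q))) = 256 := map_ofNat ((pk15_chart R ({pk85_h2 K (M' * q * q) (h2.trans ((dvd_mul_right M' q).trans (dvd_mul_right (M' * q) q)))} : Set ↥(modularFunctionFieldFullC K (M' * q * q))))).val 256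
  have hscj : (((⟨_, hh⟩ : ↥(pk15_chart R ({pk85_h2 K (M' * q * q) (h2.trans ((dvd_mul_right M' q).trans (dvd_mul_right (M' * q) q)))} : Set ↥(modularFunctionFieldFullC K (M' * q * q))))) ^ 2 : ↥(pk15_chart R ({pk85_h2 K (M' * q * q) (h2.trans ((dvd_mul_right M' q).trans (dvd_mul_right (M' * q) q)))} : Set ↥(modularFunctionFieldFullC K (M' * q * q))))) : ↥(modularFunctionFieldFullC K (M' * q * q))) * rm90_j K (M' * q * q) ∈ (pk15_chart R ({pk85_h2 K (M' * q * q) (h2.trans ((dvd_mul_right M' q).trans (dvd_mul_right (M' * q) q)))} : Set ↥(modularFunctionFieldFullC K (M' * q * q)))) := by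
    have e : (((⟨_, hh⟩ : ↥(pk15_chart R ({pk85_h2 K (M' * q * q) (h2.trans ((dvd_mul_right M' q).trans (dvd_mul_right (M' * q) q)))} : Set ↥(modularFunctionFieldFullC K (M' * q * q))))) ^ 2 : ↥(pk15_chart R ({pk85_h2 K (M' * q * q) (h2.trans ((dvd_mul_right M' q).trans (dvd_mul_right (M' * q) q)))} : Set ↥(modularFunctionFieldFullC K (M' * q * q))))) : ↥(modularFunctionFieldFullC K (M' * q * q))) * rm90_j K (M' * q * q) =
        ((((⟨_, hh⟩ : ↥(pk15_chart R ({pk85_h2 K (M' * q * q) (h2.trans ((dvd_mul_right M' q).trans (dvd_mul_right (M' * q) q)))} : Set ↥(modularFunctionFieldFullC K (M' * q * q))))) + 256) ^ 3 : ↥(pk15_chart R ({pk85_h2 K (M' * q * q) (h2.trans ((dvd_mul_right M' q).trans (dvd_mul_right (M' * q) q)))} : Set ↥(modularFunctionFieldFullC K (M' * q * q))))) : ↥(modularFunctionFieldFullC K (M' * q * q))) := by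
      simp only [Subalgebra.coe_pow, Subalgebra.coe_add, c256]
      linear_combination hrel
    rw [e]
    exact SetLike.coe_mem _
  have hsc : (⟨_, hh⟩ : ↥(pk15_chart R ({pk85_h2 K (M' * q * q) (h2.trans ((dvd_mul_right M' q).trans (dvd_mul_right (M' * q) q)))} : Set ↥(modularFunctionFieldFullC K (M' * q * q))))) ^ 2 ∉ n := by
    intro hmem
    have hX := hn.isPrime.mem_of_pow_mem _ hmem
    have hrelB : b' * 1 * (⟨_, hh⟩ : ↥(pk15_chart R ({pk85_h2 K (M' * q * q) (h2.trans ((dvd_mul_right M' q).trans (dvd_mul_right (M' * q) q)))} : Set ↥(modularFunctionFieldFullC K (M' * q * q))))) ^ 2 = s' * ((⟨_, hh⟩ : ↥(pk15_chart R ({pk85_h2 K (M' * q * q) (h2.trans ((dvd_mul_right M' q).trans (dvd_mul_right (M' * q) q)))} : Set ↥(modularFunctionFieldFullC K (M' * q * q))))) + 256 * 1) ^ 3 := by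
      apply Subtype.ext
      simp only [Subalgebra.coe_mul, Subalgebra.coe_pow, Subalgebra.coe_add, Subalgebra.coe_one,
        c256]
      rw [← hsj]
      linear_combination (s' : ↥(modularFunctionFieldFullC K (M' * q * q))) * hrel
    exact c2f11_unit2 n s' b' 1 _ hs' h1n hpn hrelB hX
  have hsc₁ : ((((⟨_, hh⟩ : ↥(pk15_chart R ({pk85_h2 K (M' * q * q) (h2.trans ((dvd_mul_right M' q).trans (dvd_mul_right (M' * q) q)))} : Set ↥(modularFunctionFieldFullC K (M' * q * q))))) ^ 2 : ↥(pk15_chart R ({pk85_h2 K (M' * q * q) (h2.trans ((dvd_mul_right M' q).trans (dvd_mul_right (M' * q) q)))} : Set ↥(modularFunctionFieldFullC K (M' * q * q)))))) : ↥(modularFunctionFieldFullC K (M' * q * q)))⁻¹ ∈ cm85_Vinf (K := K) (M' * q * q) hπq := by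
    simp only [Subalgebra.coe_pow]
    rw [← inv_pow]
    exact pow_mem hhinvV 2
  exact c2f11_hreg_gen (R := R) (K := K) M' q hq hM' hunit (fun _ => h2) h3M hπq V₂
    (nsb86_V3 (K := K) M' q hq hM' hπq) hV₂ hπ₂ hne (v2g64_s K M' q) hs (pk15_chart R ({pk85_h2 K (M' * q * q) (h2.trans ((dvd_mul_right M' q).trans (dvd_mul_right (M' * q) q)))} : Set ↥(modularFunctionFieldFullC K (M' * q * q))))
    (fun x hx => ci22_chart_closed _ x hx)
    (fun x hx => (Subring.mem_inf.mp (Subring.mem_inf.mp (hBW x hx)).1).1)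
    (fun x hx => (Subring.mem_inf.mp (Subring.mem_inf.mp (hBW x hx)).1).2)
    (fun x hx => (Subring.mem_inf.mp (hBW x hx)).2)
    (fun x hx k1 k2 k3 => hsat1 x hx (Subring.mem_inf.mpr ⟨Subring.mem_inf.mpr ⟨k1, k2⟩, k3⟩))
    n hmid hπn h1 h3' ⟨s', b', hs', hsj⟩ _ hsc hscj hsc₁

include hq hM' in
/-- **`hreg` on the canonical chart `{h⁻¹}`, Hauptmodul of level 2.** -/
theorem c2f11_hreg_level2_inv (hπq : Irreducible ((q : ℕ) : R))
    (hunit : ∀ n : ℕ, Nat.Coprime n q → IsUnit (n : R)) (hMu : IsUnit (M' : R))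
    (h2 : 2 ∣ M') (h3M : q ≠ 3 → 3 ∣ M')
    (V₂ : ValuationSubring ↥(modularFunctionFieldFullC K (M' * q * q)))
    (hV₂ : ∀ c ∈ cm85_Vinf (K := K) (M' * q) hπq, al97L_alpha K (M' * q) q c ∈ V₂)
    (hπ₂ : (algebraMap K ↥(modularFunctionFieldFullC K (M' * q * q)) (algebraMap R K ((q : ℕ) : R)))⁻¹ ∉ V₂)
    (hne : cm85_Vinf (K := K) (M' * q * q) hπq ≠ V₂)
    (hs : V₂.valuation (v2g64_s K M' q) ^ (q - 1) =
      V₂.valuation (algebraMap K ↥(modularFunctionFieldFullC K (M' * q * q)) (algebraMap R K ((q : ℕ) : R)))) :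
    ∀ n : Ideal ↥(pk15_chart R ({(pk85_h2 K (M' * q * q) (h2.trans ((dvd_mul_right M' q).trans (dvd_mul_right (M' * q) q))))⁻¹} : Set ↥(modularFunctionFieldFullC K (M' * q * q)))), n.IsMaximal →
      algebraMap R ↥(pk15_chart R ({(pk85_h2 K (M' * q * q) (h2.trans ((dvd_mul_right M' q).trans (dvd_mul_right (M' * q) q))))⁻¹} : Set ↥(modularFunctionFieldFullC K (M' * q * q)))) ((q : ℕ) : R) ∈ n →
      tl71_OnMid (v2g64_s K M' q) (pk15_chart R ({(pk85_h2 K (M' * q * q) (h2.trans ((dvd_mul_right M' q).trans (dvd_mul_right (M' * q) q))))⁻¹} : Set ↥(modularFunctionFieldFullC K (M' * q * q)))) V₂.toSubring n →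
      ¬ sf79_OnBr ((q : ℕ) : R) (pk15_chart R ({(pk85_h2 K (M' * q * q) (h2.trans ((dvd_mul_right M' q).trans (dvd_mul_right (M' * q) q))))⁻¹} : Set ↥(modularFunctionFieldFullC K (M' * q * q)))) (cm85_Vinf (K := K) (M' * q * q) hπq).toSubring n →
      ¬ sf79_OnBr ((q : ℕ) : R) (pk15_chart R ({(pk85_h2 K (M' * q * q) (h2.trans ((dvd_mul_right M' q).trans (dvd_mul_right (M' * q) q))))⁻¹} : Set ↥(modularFunctionFieldFullC K (M' * q * q)))) (nsb86_V3 (K := K) M' q hq hM' hπq).toSubring n →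
      (∃ s' b : ↥(pk15_chart R ({(pk85_h2 K (M' * q * q) (h2.trans ((dvd_mul_right M' q).trans (dvd_mul_right (M' * q) q))))⁻¹} : Set ↥(modularFunctionFieldFullC K (M' * q * q)))), s' ∉ n ∧
        (s' : ↥(modularFunctionFieldFullC K (M' * q * q))) * rm90_j K (M' * q * q) = (b : ↥(modularFunctionFieldFullC K (M' * q * q)))) →
      mc25_MidPrinAt (v2g64_s K M' q) (pk15_chart R ({(pk85_h2 K (M' * q * q) (h2.trans ((dvd_mul_right M' q).trans (dvd_mul_right (M' * q) q))))⁻¹} : Set ↥(modularFunctionFieldFullC K (M' * q * q)))) V₂.toSubring n := by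
  intro n hn hπn hmid h1 h3' hreg
  haveI : n.IsPrime := hn.isPrime
  have hqp : q ≠ 2 := by
    intro h
    apply hM'
    rw [h]
    exact h2
  obtain ⟨-, hC, -⟩ := fb85_frameV3_level2 (R := R) (K := K) M' q hq hM' hπq hπq.not_isUnit hMu h2
    V₂ hV₂ hπ₂ hs
  obtain ⟨-, h12W, hsat1, hsat2, -⟩ := hC
  have hsub : ({(pk85_h2 K (M' * q * q) (h2.trans ((dvd_mul_right M' q).trans (dvd_mul_right (M' * q) q))))⁻¹} : Set ↥(modularFunctionFieldFullC K (M' * q * q))) ⊆
      {pk85_h2 K (M' * q * q) (h2.trans ((dvd_mul_right M' q).trans (dvd_mul_right (M' * q) q))), (pk85_h2 K (M' * q * q) (h2.trans ((dvd_mul_right M' q).trans (dvd_mul_right (M' * q) q))))⁻¹} := by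
    intro x hx
    rw [Set.mem_singleton_iff.mp hx]
    exact Set.mem_insert_of_mem _ rfl
  have hBW : ∀ x ∈ (pk15_chart R ({(pk85_h2 K (M' * q * q) (h2.trans ((dvd_mul_right M' q).trans (dvd_mul_right (M' * q) q))))⁻¹} : Set ↥(modularFunctionFieldFullC K (M' * q * q)))), x ∈ (cm85_Vinf (K := K) (M' * q * q) hπq).toSubring ⊓ V₂.toSubring ⊓
      (nsb86_V3 (K := K) M' q hq hM' hπq).toSubring :=
    fun x hx => h12W x (pk15_chart_mono hsub hx)
  obtain ⟨s', b', hs', hsj⟩ := hreg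
  have hrel := pk85_h2_rel K (M' * q * q)
    (h2.trans ((dvd_mul_right M' q).trans (dvd_mul_right (M' * q) q)))
  obtain ⟨-, -, -, -, hhV, hhinvV, -⟩ := cm85_facts_level2 (R := R) (K := K) (M' * q * q) hπq
    (h2.trans ((dvd_mul_right M' q).trans (dvd_mul_right (M' * q) q)))
  have h1n : (1 : ↥(pk15_chart R ({(pk85_h2 K (M' * q * q) (h2.trans ((dvd_mul_right M' q).trans (dvd_mul_right (M' * q) q))))⁻¹} : Set ↥(modularFunctionFieldFullC K (M' * q * q))))) ∉ n := fun h => hn.isPrime.ne_top ((Ideal.eq_top_iff_one n).mpr h)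
  have hh : (pk85_h2 K (M' * q * q) (h2.trans ((dvd_mul_right M' q).trans (dvd_mul_right (M' * q) q))))⁻¹ ∈ (pk15_chart R ({(pk85_h2 K (M' * q * q) (h2.trans ((dvd_mul_right M' q).trans (dvd_mul_right (M' * q) q))))⁻¹} : Set ↥(modularFunctionFieldFullC K (M' * q * q)))) := pk15_subset_chart _ (Set.mem_singleton _)
  have c256 : ((256 : ↥(pk15_chart R ({(pk85_h2 K (M' * q * q) (h2.trans ((dvd_mul_right M' q).trans (dvd_mul_right (M' * q) q))))⁻¹} : Set ↥(modularFunctionFieldFullC K (M' * q * q))))) : ↥(modularFunctionFieldFullC K (M' * q * q))) = 256 := map_ofNat ((pk15_chart R ({(pk85_h2 K (M' * q * q) (h2.trans ((dvd_mul_right M' q).trans (dvd_mul_right (M' * q) q))))⁻¹} : Set ↥(modularFunctionFieldFullC K (M' * q * q))))).val 256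
  have hH0 : pk85_h2 K (M' * q * q) (h2.trans ((dvd_mul_right M' q).trans (dvd_mul_right (M' * q) q))) ≠ 0 := by
    intro h0
    apply h70_h2_ne_zero K
    rw [← pk85_h2_coe K (M' * q * q)
      (h2.trans ((dvd_mul_right M' q).trans (dvd_mul_right (M' * q) q))), h0]
    rfl
  have hgen : ∀ (v j H : ↥(modularFunctionFieldFullC K (M' * q * q))), v * H = 1 → j * H ^ 2 = (H + 256) ^ 3 → v * j = (1 + 256 * v) ^ 3 := by
    intro v j H hu1 hrel
    linear_combination (v ^ 3) * hrel + (-(v * j * (v * H + 1)) + (v * H + 256 * v) ^ 2 + (v * H + 256 * v) * (1 + 256 * v) + (1 + 256 * v) ^ 2) * hu1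
  have hE := hgen _ (rm90_j K (M' * q * q)) _ (inv_mul_cancel₀ hH0) hrel
  have hscj : ((⟨_, hh⟩ : ↥(pk15_chart R ({(pk85_h2 K (M' * q * q) (h2.trans ((dvd_mul_right M' q).trans (dvd_mul_right (M' * q) q))))⁻¹} : Set ↥(modularFunctionFieldFullC K (M' * q * q))))) : ↥(modularFunctionFieldFullC K (M' * q * q))) * rm90_j K (M' * q * q) ∈ (pk15_chart R ({(pk85_h2 K (M' * q * q) (h2.trans ((dvd_mul_right M' q).trans (dvd_mul_right (M' * q) q))))⁻¹} : Set ↥(modularFunctionFieldFullC K (M' * q * q)))) := by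
    have e : ((⟨_, hh⟩ : ↥(pk15_chart R ({(pk85_h2 K (M' * q * q) (h2.trans ((dvd_mul_right M' q).trans (dvd_mul_right (M' * q) q))))⁻¹} : Set ↥(modularFunctionFieldFullC K (M' * q * q))))) : ↥(modularFunctionFieldFullC K (M' * q * q))) * rm90_j K (M' * q * q) =
        (((1 + 256 * (⟨_, hh⟩ : ↥(pk15_chart R ({(pk85_h2 K (M' * q * q) (h2.trans ((dvd_mul_right M' q).trans (dvd_mul_right (M' * q) q))))⁻¹} : Set ↥(modularFunctionFieldFullC K (M' * q * q)))))) ^ 3 : ↥(pk15_chart R ({(pk85_h2 K (M' * q * q) (h2.trans ((dvd_mul_right M' q).trans (dvd_mul_right (M' * q) q))))⁻¹} : Set ↥(modularFunctionFieldFullC K (M' * q * q))))) : ↥(modularFunctionFieldFullC K (M' * q * q))) := by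
      simp only [Subalgebra.coe_mul, Subalgebra.coe_pow, Subalgebra.coe_add, Subalgebra.coe_one,
        c256]
      exact hE
    rw [e]
    exact SetLike.coe_mem _
  have hsc : (⟨_, hh⟩ : ↥(pk15_chart R ({(pk85_h2 K (M' * q * q) (h2.trans ((dvd_mul_right M' q).trans (dvd_mul_right (M' * q) q))))⁻¹} : Set ↥(modularFunctionFieldFullC K (M' * q * q))))) ∉ n := by
    intro hmem
    have hrelB : b' * (⟨_, hh⟩ : ↥(pk15_chart R ({(pk85_h2 K (M' * q * q) (h2.trans ((dvd_mul_right M' q).trans (dvd_mul_right (M' * q) q))))⁻¹} : Set ↥(modularFunctionFieldFullC K (M' * q * q))))) = s' * (1 + 256 * (⟨_, hh⟩ : ↥(pk15_chart R ({(pk85_h2 K (M' * q * q) (h2.trans ((dvd_mul_right M' q).trans (dvd_mul_right (M' * q) q))))⁻¹} : Set ↥(modularFunctionFieldFullC K (M' * q * q)))))) ^ 3 := by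
      apply Subtype.ext
      simp only [Subalgebra.coe_mul, Subalgebra.coe_pow, Subalgebra.coe_add, Subalgebra.coe_one,
        c256]
      rw [← hsj, ← hE]
      ring
    have h3x : s' * (1 + 256 * (⟨_, hh⟩ : ↥(pk15_chart R ({(pk85_h2 K (M' * q * q) (h2.trans ((dvd_mul_right M' q).trans (dvd_mul_right (M' * q) q))))⁻¹} : Set ↥(modularFunctionFieldFullC K (M' * q * q)))))) ^ 3 ∈ n := by
      rw [← hrelB]
      exact n.mul_mem_left _ hmem
    have h4 : 1 + 256 * (⟨_, hh⟩ : ↥(pk15_chart R ({(pk85_h2 K (M' * q * q) (h2.trans ((dvd_mul_right M' q).trans (dvd_mul_right (M' * q) q))))⁻¹} : Set ↥(modularFunctionFieldFullC K (M' * q * q))))) ∈ n := hn.isPrime.mem_of_pow_mem _ ((hn.isPrime.mem_or_mem h3x).resolve_left hs')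
    have h5 : (256 : ↥(pk15_chart R ({(pk85_h2 K (M' * q * q) (h2.trans ((dvd_mul_right M' q).trans (dvd_mul_right (M' * q) q))))⁻¹} : Set ↥(modularFunctionFieldFullC K (M' * q * q))))) * (⟨_, hh⟩ : ↥(pk15_chart R ({(pk85_h2 K (M' * q * q) (h2.trans ((dvd_mul_right M' q).trans (dvd_mul_right (M' * q) q))))⁻¹} : Set ↥(modularFunctionFieldFullC K (M' * q * q))))) ∈ n := n.mul_mem_left _ hmem
    have h6 : (1 : ↥(pk15_chart R ({(pk85_h2 K (M' * q * q) (h2.trans ((dvd_mul_right M' q).trans (dvd_mul_right (M' * q) q))))⁻¹} : Set ↥(modularFunctionFieldFullC K (M' * q * q))))) ∈ n := by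
      have := n.sub_mem h4 h5
      rwa [add_sub_cancel_right] at this
    exact h1n h6
  have hsc₁ : ((⟨_, hh⟩ : ↥(pk15_chart R ({(pk85_h2 K (M' * q * q) (h2.trans ((dvd_mul_right M' q).trans (dvd_mul_right (M' * q) q))))⁻¹} : Set ↥(modularFunctionFieldFullC K (M' * q * q))))) : ↥(modularFunctionFieldFullC K (M' * q * q)))⁻¹ ∈ cm85_Vinf (K := K) (M' * q * q) hπq := by
    show ((pk85_h2 K (M' * q * q) (h2.trans ((dvd_mul_right M' q).trans (dvd_mul_right (M' * q) q))))⁻¹)⁻¹ ∈ cm85_Vinf (K := K) (M' * q * q) hπq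
    rw [inv_inv]
    exact hhV
  exact c2f11_hreg_gen (R := R) (K := K) M' q hq hM' hunit (fun _ => h2) h3M hπq V₂
    (nsb86_V3 (K := K) M' q hq hM' hπq) hV₂ hπ₂ hne (v2g64_s K M' q) hs (pk15_chart R ({(pk85_h2 K (M' * q * q) (h2.trans ((dvd_mul_right M' q).trans (dvd_mul_right (M' * q) q))))⁻¹} : Set ↥(modularFunctionFieldFullC K (M' * q * q))))
    (fun x hx => ci22_chart_closed _ x hx)
    (fun x hx => (Subring.mem_inf.mp (Subring.mem_inf.mp (hBW x hx)).1).1)
    (fun x hx => (Subring.mem_inf.mp (Subring.mem_inf.mp (hBW x hx)).1).2)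
    (fun x hx => (Subring.mem_inf.mp (hBW x hx)).2)
    (fun x hx k1 k2 k3 => hsat2 x hx (Subring.mem_inf.mpr ⟨Subring.mem_inf.mpr ⟨k1, k2⟩, k3⟩))
    n hmid hπn h1 h3' ⟨s', b', hs', hsj⟩ _ hsc hscj hsc₁

include hq hM' in
/-- **`hreg` on the canonical chart `{h}`, Hauptmodul of level 3.** -/
theorem c2f11_hreg_level3 (hπq : Irreducible ((q : ℕ) : R))
    (hunit : ∀ n : ℕ, Nat.Coprime n q → IsUnit (n : R)) (hMu : IsUnit (M' : R))
    (h3 : 3 ∣ M') (h2M : q ≠ 2 → 2 ∣ M')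
    (V₂ : ValuationSubring ↥(modularFunctionFieldFullC K (M' * q * q)))
    (hV₂ : ∀ c ∈ cm85_Vinf (K := K) (M' * q) hπq, al97L_alpha K (M' * q) q c ∈ V₂)
    (hπ₂ : (algebraMap K ↥(modularFunctionFieldFullC K (M' * q * q)) (algebraMap R K ((q : ℕ) : R)))⁻¹ ∉ V₂)
    (hne : cm85_Vinf (K := K) (M' * q * q) hπq ≠ V₂)
    (hs : V₂.valuation (v2g64_s K M' q) ^ (q - 1) =
      V₂.valuation (algebraMap K ↥(modularFunctionFieldFullC K (M' * q * q)) (algebraMap R K ((q : ℕ) : R)))) :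
    ∀ n : Ideal ↥(pk15_chart R ({pk85_h3 K (M' * q * q) (h3.trans ((dvd_mul_right M' q).trans (dvd_mul_right (M' * q) q)))} : Set ↥(modularFunctionFieldFullC K (M' * q * q)))), n.IsMaximal →
      algebraMap R ↥(pk15_chart R ({pk85_h3 K (M' * q * q) (h3.trans ((dvd_mul_right M' q).trans (dvd_mul_right (M' * q) q)))} : Set ↥(modularFunctionFieldFullC K (M' * q * q)))) ((q : ℕ) : R) ∈ n →
      tl71_OnMid (v2g64_s K M' q) (pk15_chart R ({pk85_h3 K (M' * q * q) (h3.trans ((dvd_mul_right M' q).trans (dvd_mul_right (M' * q) q)))} : Set ↥(modularFunctionFieldFullC K (M' * q * q)))) V₂.toSubring n →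
      ¬ sf79_OnBr ((q : ℕ) : R) (pk15_chart R ({pk85_h3 K (M' * q * q) (h3.trans ((dvd_mul_right M' q).trans (dvd_mul_right (M' * q) q)))} : Set ↥(modularFunctionFieldFullC K (M' * q * q)))) (cm85_Vinf (K := K) (M' * q * q) hπq).toSubring n →
      ¬ sf79_OnBr ((q : ℕ) : R) (pk15_chart R ({pk85_h3 K (M' * q * q) (h3.trans ((dvd_mul_right M' q).trans (dvd_mul_right (M' * q) q)))} : Set ↥(modularFunctionFieldFullC K (M' * q * q)))) (nsb86_V3 (K := K) M' q hq hM' hπq).toSubring n →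
      (∃ s' b : ↥(pk15_chart R ({pk85_h3 K (M' * q * q) (h3.trans ((dvd_mul_right M' q).trans (dvd_mul_right (M' * q) q)))} : Set ↥(modularFunctionFieldFullC K (M' * q * q)))), s' ∉ n ∧
        (s' : ↥(modularFunctionFieldFullC K (M' * q * q))) * rm90_j K (M' * q * q) = (b : ↥(modularFunctionFieldFullC K (M' * q * q)))) →
      mc25_MidPrinAt (v2g64_s K M' q) (pk15_chart R ({pk85_h3 K (M' * q * q) (h3.trans ((dvd_mul_right M' q).trans (dvd_mul_right (M' * q) q)))} : Set ↥(modularFunctionFieldFullC K (M' * q * q)))) V₂.toSubring n := by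
  intro n hn hπn hmid h1 h3' hreg
  haveI : n.IsPrime := hn.isPrime
  have hqp : q ≠ 3 := by
    intro h
    apply hM'
    rw [h]
    exact h3
  obtain ⟨-, hC, -⟩ := fb85_frameV3_level3 (R := R) (K := K) M' q hq hM' hπq hπq.not_isUnit hMu h3
    V₂ hV₂ hπ₂ hs
  obtain ⟨-, h12W, hsat1, hsat2, -⟩ := hC
  have hsub : ({pk85_h3 K (M' * q * q) (h3.trans ((dvd_mul_right M' q).trans (dvd_mul_right (M' * q) q)))} : Set ↥(modularFunctionFieldFullC K (M' * q * q))) ⊆
      {pk85_h3 K (M' * q * q) (h3.trans ((dvd_mul_right M' q).trans (dvd_mul_right (M' * q) q))), (pk85_h3 K (M' * q * q) (h3.trans ((dvd_mul_right M' q).trans (dvd_mul_right (M' * q) q))))⁻¹} := by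
    intro x hx
    rw [Set.mem_singleton_iff.mp hx]
    exact Set.mem_insert _ _
  have hBW : ∀ x ∈ (pk15_chart R ({pk85_h3 K (M' * q * q) (h3.trans ((dvd_mul_right M' q).trans (dvd_mul_right (M' * q) q)))} : Set ↥(modularFunctionFieldFullC K (M' * q * q)))), x ∈ (cm85_Vinf (K := K) (M' * q * q) hπq).toSubring ⊓ V₂.toSubring ⊓
      (nsb86_V3 (K := K) M' q hq hM' hπq).toSubring :=
    fun x hx => h12W x (pk15_chart_mono hsub hx)
  obtain ⟨s', b', hs', hsj⟩ := hreg
  have hrel := pk85_h3_rel K (M' * q * q)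
    (h3.trans ((dvd_mul_right M' q).trans (dvd_mul_right (M' * q) q)))
  obtain ⟨-, -, -, -, hhV, hhinvV, -⟩ := cm85_facts_level3 (R := R) (K := K) (M' * q * q) hπq
    (h3.trans ((dvd_mul_right M' q).trans (dvd_mul_right (M' * q) q)))
  have h1n : (1 : ↥(pk15_chart R ({pk85_h3 K (M' * q * q) (h3.trans ((dvd_mul_right M' q).trans (dvd_mul_right (M' * q) q)))} : Set ↥(modularFunctionFieldFullC K (M' * q * q))))) ∉ n := fun h => hn.isPrime.ne_top ((Ideal.eq_top_iff_one n).mpr h)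
  have hpn : (3 : ↥(pk15_chart R ({pk85_h3 K (M' * q * q) (h3.trans ((dvd_mul_right M' q).trans (dvd_mul_right (M' * q) q)))} : Set ↥(modularFunctionFieldFullC K (M' * q * q))))) ∉ n := by
    have := c2f11_natCast_not_mem (pk15_chart R ({pk85_h3 K (M' * q * q) (h3.trans ((dvd_mul_right M' q).trans (dvd_mul_right (M' * q) q)))} : Set ↥(modularFunctionFieldFullC K (M' * q * q)))) n 3
      (hunit 3 ((Nat.coprime_primes Nat.prime_three hq).mpr (Ne.symm hqp)))
    simpa using this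
  have hh : pk85_h3 K (M' * q * q) (h3.trans ((dvd_mul_right M' q).trans (dvd_mul_right (M' * q) q))) ∈ (pk15_chart R ({pk85_h3 K (M' * q * q) (h3.trans ((dvd_mul_right M' q).trans (dvd_mul_right (M' * q) q)))} : Set ↥(modularFunctionFieldFullC K (M' * q * q)))) := pk15_subset_chart _ (Set.mem_singleton _)
  have c27 : ((27 : ↥(pk15_chart R ({pk85_h3 K (M' * q * q) (h3.trans ((dvd_mul_right M' q).trans (dvd_mul_right (M' * q) q)))} : Set ↥(modularFunctionFieldFullC K (M' * q * q))))) : ↥(modularFunctionFieldFullC K (M' * q * q))) = 27 := map_ofNat ((pk15_chart R ({pk85_h3 K (M' * q * q) (h3.trans ((dvd_mul_right M' q).trans (dvd_mul_right (M' * q) q)))} : Set ↥(modularFunctionFieldFullC K (M' * q * q))))).val 27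
  have c243 : ((243 : ↥(pk15_chart R ({pk85_h3 K (M' * q * q) (h3.trans ((dvd_mul_right M' q).trans (dvd_mul_right (M' * q) q)))} : Set ↥(modularFunctionFieldFullC K (M' * q * q))))) : ↥(modularFunctionFieldFullC K (M' * q * q))) = 243 := map_ofNat ((pk15_chart R ({pk85_h3 K (M' * q * q) (h3.trans ((dvd_mul_right M' q).trans (dvd_mul_right (M' * q) q)))} : Set ↥(modularFunctionFieldFullC K (M' * q * q))))).val 243
  have hscj : (((⟨_, hh⟩ : ↥(pk15_chart R ({pk85_h3 K (M' * q * q) (h3.trans ((dvd_mul_right M' q).trans (dvd_mul_right (M' * q) q)))} : Set ↥(modularFunctionFieldFullC K (M' * q * q))))) ^ 3 : ↥(pk15_chart R ({pk85_h3 K (M' * q * q) (h3.trans ((dvd_mul_right M' q).trans (dvd_mul_right (M' * q) q)))} : Set ↥(modularFunctionFieldFullC K (M' * q * q))))) : ↥(modularFunctionFieldFullC K (M' * q * q))) * rm90_j K (M' * q * q) ∈ (pk15_chart R ({pk85_h3 K (M' * q * q) (h3.trans ((dvd_mul_right M' q).trans (dvd_mul_right (M' *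 q) q)))} : Set ↥(modularFunctionFieldFullC K (M' * q * q)))) := by
    have e : (((⟨_, hh⟩ : ↥(pk15_chart R ({pk85_h3 K (M' * q * q) (h3.trans ((dvd_mul_right M' q).trans (dvd_mul_right (M' * q) q)))} : Set ↥(modularFunctionFieldFullC K (M' * q * q))))) ^ 3 : ↥(pk15_chart R ({pk85_h3 K (M' * q * q) (h3.trans ((dvd_mul_right M' q).trans (dvd_mul_right (M' * q) q)))} : Set ↥(modularFunctionFieldFullC K (M' * q * q))))) : ↥(modularFunctionFieldFullC K (M' * q * q))) * rm90_j K (M' * q * q) =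
        (((((⟨_, hh⟩ : ↥(pk15_chart R ({pk85_h3 K (M' * q * q) (h3.trans ((dvd_mul_right M' q).trans (dvd_mul_right (M' * q) q)))} : Set ↥(modularFunctionFieldFullC K (M' * q * q))))) + 27) * ((⟨_, hh⟩ : ↥(pk15_chart R ({pk85_h3 K (M' * q * q) (h3.trans ((dvd_mul_right M' q).trans (dvd_mul_right (M' * q) q)))} : Set ↥(modularFunctionFieldFullC K (M' * q * q))))) + 243) ^ 3) : ↥(pk15_chart R ({pk85_h3 K (M' * q * q) (h3.trans ((dvd_mul_right M' q).trans (dvd_mul_right (M' * q) q)))} : Set ↥(modularFunctionFieldFullC K (M' * q * q))))) : ↥(modularFunctionFieldFullC K (M' * q * q))) := by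
      simp only [Subalgebra.coe_mul, Subalgebra.coe_pow, Subalgebra.coe_add, c27, c243]
      linear_combination hrel
    rw [e]
    exact SetLike.coe_mem _
  have hsc : (⟨_, hh⟩ : ↥(pk15_chart R ({pk85_h3 K (M' * q * q) (h3.trans ((dvd_mul_right M' q).trans (dvd_mul_right (M' * q) q)))} : Set ↥(modularFunctionFieldFullC K (M' * q * q))))) ^ 3 ∉ n := by
    intro hmem
    have hX := hn.isPrime.mem_of_pow_mem _ hmem
    have hrelB : b' * 1 * (⟨_, hh⟩ : ↥(pk15_chart R ({pk85_h3 K (M' * q * q) (h3.trans ((dvd_mul_right M' q).trans (dvd_mul_right (M' * q) q)))} : Set ↥(modularFunctionFieldFullC K (M' * q * q))))) ^ 3 =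
        s' * (((⟨_, hh⟩ : ↥(pk15_chart R ({pk85_h3 K (M' * q * q) (h3.trans ((dvd_mul_right M' q).trans (dvd_mul_right (M' * q) q)))} : Set ↥(modularFunctionFieldFullC K (M' * q * q))))) + 27 * 1) * ((⟨_, hh⟩ : ↥(pk15_chart R ({pk85_h3 K (M' * q * q) (h3.trans ((dvd_mul_right M' q).trans (dvd_mul_right (M' * q) q)))} : Set ↥(modularFunctionFieldFullC K (M' * q * q))))) + 243 * 1) ^ 3) := by
      apply Subtype.ext
      simp only [Subalgebra.coe_mul, Subalgebra.coe_pow, Subalgebra.coe_add, Subalgebra.coe_one,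
        c27, c243]
      rw [← hsj]
      linear_combination (s' : ↥(modularFunctionFieldFullC K (M' * q * q))) * hrel
    exact c2f11_unit3 n s' b' 1 _ hs' h1n hpn hrelB hX
  have hsc₁ : ((((⟨_, hh⟩ : ↥(pk15_chart R ({pk85_h3 K (M' * q * q) (h3.trans ((dvd_mul_right M' q).trans (dvd_mul_right (M' * q) q)))} : Set ↥(modularFunctionFieldFullC K (M' * q * q))))) ^ 3 : ↥(pk15_chart R ({pk85_h3 K (M' * q * q) (h3.trans ((dvd_mul_right M' q).trans (dvd_mul_right (M' * q) q)))} : Set ↥(modularFunctionFieldFullC K (M' * q * q)))))) : ↥(modularFunctionFieldFullC K (M' * q * q)))⁻¹ ∈ cm85_Vinf (K := K) (M' * q * q) hπq := by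
    simp only [Subalgebra.coe_pow]
    rw [← inv_pow]
    exact pow_mem hhinvV 3
  exact c2f11_hreg_gen (R := R) (K := K) M' q hq hM' hunit h2M (fun _ => h3) hπq V₂
    (nsb86_V3 (K := K) M' q hq hM' hπq) hV₂ hπ₂ hne (v2g64_s K M' q) hs (pk15_chart R ({pk85_h3 K (M' * q * q) (h3.trans ((dvd_mul_right M' q).trans (dvd_mul_right (M' * q) q)))} : Set ↥(modularFunctionFieldFullC K (M' * q * q))))
    (fun x hx => ci22_chart_closed _ x hx)
    (fun x hx => (Subring.mem_inf.mp (Subring.mem_inf.mp (hBW x hx)).1).1)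
    (fun x hx => (Subring.mem_inf.mp (Subring.mem_inf.mp (hBW x hx)).1).2)
    (fun x hx => (Subring.mem_inf.mp (hBW x hx)).2)
    (fun x hx k1 k2 k3 => hsat1 x hx (Subring.mem_inf.mpr ⟨Subring.mem_inf.mpr ⟨k1, k2⟩, k3⟩))
    n hmid hπn h1 h3' ⟨s', b', hs', hsj⟩ _ hsc hscj hsc₁

include hq hM' in
/-- **`hreg` on the canonical chart `{h⁻¹}`, Hauptmodul of level 3.** -/
theorem c2f11_hreg_level3_inv (hπq : Irreducible ((q : ℕ) : R))
    (hunit : ∀ n : ℕ, Nat.Coprime n q → IsUnit (n : R)) (hMu : IsUnit (M' : R))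
    (h3 : 3 ∣ M') (h2M : q ≠ 2 → 2 ∣ M')
    (V₂ : ValuationSubring ↥(modularFunctionFieldFullC K (M' * q * q)))
    (hV₂ : ∀ c ∈ cm85_Vinf (K := K) (M' * q) hπq, al97L_alpha K (M' * q) q c ∈ V₂)
    (hπ₂ : (algebraMap K ↥(modularFunctionFieldFullC K (M' * q * q)) (algebraMap R K ((q : ℕ) : R)))⁻¹ ∉ V₂)
    (hne : cm85_Vinf (K := K) (M' * q * q) hπq ≠ V₂)
    (hs : V₂.valuation (v2g64_s K M' q) ^ (q - 1) =
      V₂.valuation (algebraMap K ↥(modularFunctionFieldFullC K (M' * q * q)) (algebraMap R K ((q : ℕ) : R)))) :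
    ∀ n : Ideal ↥(pk15_chart R ({(pk85_h3 K (M' * q * q) (h3.trans ((dvd_mul_right M' q).trans (dvd_mul_right (M' * q) q))))⁻¹} : Set ↥(modularFunctionFieldFullC K (M' * q * q)))), n.IsMaximal →
      algebraMap R ↥(pk15_chart R ({(pk85_h3 K (M' * q * q) (h3.trans ((dvd_mul_right M' q).trans (dvd_mul_right (M' * q) q))))⁻¹} : Set ↥(modularFunctionFieldFullC K (M' * q * q)))) ((q : ℕ) : R) ∈ n →
      tl71_OnMid (v2g64_s K M' q) (pk15_chart R ({(pk85_h3 K (M' * q * q) (h3.trans ((dvd_mul_right M' q).trans (dvd_mul_right (M' * q) q))))⁻¹} : Set ↥(modularFunctionFieldFullC K (M' * q * q)))) V₂.toSubring n →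
      ¬ sf79_OnBr ((q : ℕ) : R) (pk15_chart R ({(pk85_h3 K (M' * q * q) (h3.trans ((dvd_mul_right M' q).trans (dvd_mul_right (M' * q) q))))⁻¹} : Set ↥(modularFunctionFieldFullC K (M' * q * q)))) (cm85_Vinf (K := K) (M' * q * q) hπq).toSubring n →
      ¬ sf79_OnBr ((q : ℕ) : R) (pk15_chart R ({(pk85_h3 K (M' * q * q) (h3.trans ((dvd_mul_right M' q).trans (dvd_mul_right (M' * q) q))))⁻¹} : Set ↥(modularFunctionFieldFullC K (M' * q * q)))) (nsb86_V3 (K := K) M' q hq hM' hπq).toSubring n →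
      (∃ s' b : ↥(pk15_chart R ({(pk85_h3 K (M' * q * q) (h3.trans ((dvd_mul_right M' q).trans (dvd_mul_right (M' * q) q))))⁻¹} : Set ↥(modularFunctionFieldFullC K (M' * q * q)))), s' ∉ n ∧
        (s' : ↥(modularFunctionFieldFullC K (M' * q * q))) * rm90_j K (M' * q * q) = (b : ↥(modularFunctionFieldFullC K (M' * q * q)))) →
      mc25_MidPrinAt (v2g64_s K M' q) (pk15_chart R ({(pk85_h3 K (M' * q * q) (h3.trans ((dvd_mul_right M' q).trans (dvd_mul_right (M' * q) q))))⁻¹} : Set ↥(modularFunctionFieldFullC K (M' * q * q)))) V₂.toSubring n := by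
  intro n hn hπn hmid h1 h3' hreg
  haveI : n.IsPrime := hn.isPrime
  have hqp : q ≠ 3 := by
    intro h
    apply hM'
    rw [h]
    exact h3
  obtain ⟨-, hC, -⟩ := fb85_frameV3_level3 (R := R) (K := K) M' q hq hM' hπq hπq.not_isUnit hMu h3
    V₂ hV₂ hπ₂ hs
  obtain ⟨-, h12W, hsat1, hsat2, -⟩ := hC
  have hsub : ({(pk85_h3 K (M' * q * q) (h3.trans ((dvd_mul_right M' q).trans (dvd_mul_right (M' * q) q))))⁻¹} : Set ↥(modularFunctionFieldFullC K (M' * q * q))) ⊆
      {pk85_h3 K (M' * q * q) (h3.trans ((dvd_mul_right M' q).trans (dvd_mul_right (M' * q) q))), (pk85_h3 K (M' * q * q) (h3.trans ((dvd_mul_right M' q).trans (dvd_mul_right (M' * q) q))))⁻¹} := by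
    intro x hx
    rw [Set.mem_singleton_iff.mp hx]
    exact Set.mem_insert_of_mem _ rfl
  have hBW : ∀ x ∈ (pk15_chart R ({(pk85_h3 K (M' * q * q) (h3.trans ((dvd_mul_right M' q).trans (dvd_mul_right (M' * q) q))))⁻¹} : Set ↥(modularFunctionFieldFullC K (M' * q * q)))), x ∈ (cm85_Vinf (K := K) (M' * q * q) hπq).toSubring ⊓ V₂.toSubring ⊓
      (nsb86_V3 (K := K) M' q hq hM' hπq).toSubring :=
    fun x hx => h12W x (pk15_chart_mono hsub hx)
  obtain ⟨s', b', hs', hsj⟩ := hreg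
  have hrel := pk85_h3_rel K (M' * q * q)
    (h3.trans ((dvd_mul_right M' q).trans (dvd_mul_right (M' * q) q)))
  obtain ⟨-, -, -, -, hhV, hhinvV, -⟩ := cm85_facts_level3 (R := R) (K := K) (M' * q * q) hπq
    (h3.trans ((dvd_mul_right M' q).trans (dvd_mul_right (M' * q) q)))
  have h1n : (1 : ↥(pk15_chart R ({(pk85_h3 K (M' * q * q) (h3.trans ((dvd_mul_right M' q).trans (dvd_mul_right (M' * q) q))))⁻¹} : Set ↥(modularFunctionFieldFullC K (M' * q * q))))) ∉ n := fun h => hn.isPrime.ne_top ((Ideal.eq_top_iff_one n).mpr h)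
  have hh : (pk85_h3 K (M' * q * q) (h3.trans ((dvd_mul_right M' q).trans (dvd_mul_right (M' * q) q))))⁻¹ ∈ (pk15_chart R ({(pk85_h3 K (M' * q * q) (h3.trans ((dvd_mul_right M' q).trans (dvd_mul_right (M' * q) q))))⁻¹} : Set ↥(modularFunctionFieldFullC K (M' * q * q)))) := pk15_subset_chart _ (Set.mem_singleton _)
  have c27 : ((27 : ↥(pk15_chart R ({(pk85_h3 K (M' * q * q) (h3.trans ((dvd_mul_right M' q).trans (dvd_mul_right (M' * q) q))))⁻¹} : Set ↥(modularFunctionFieldFullC K (M' * q * q))))) : ↥(modularFunctionFieldFullC K (M' * q * q))) = 27 := map_ofNat ((pk15_chart R ({(pk85_h3 K (M' * q * q) (h3.trans ((dvd_mul_right M' q).trans (dvd_mul_right (M' * q) q))))⁻¹} : Set ↥(modularFunctionFieldFullC K (M' * q * q))))).val 27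
  have c243 : ((243 : ↥(pk15_chart R ({(pk85_h3 K (M' * q * q) (h3.trans ((dvd_mul_right M' q).trans (dvd_mul_right (M' * q) q))))⁻¹} : Set ↥(modularFunctionFieldFullC K (M' * q * q))))) : ↥(modularFunctionFieldFullC K (M' * q * q))) = 243 := map_ofNat ((pk15_chart R ({(pk85_h3 K (M' * q * q) (h3.trans ((dvd_mul_right M' q).trans (dvd_mul_right (M' * q) q))))⁻¹} : Set ↥(modularFunctionFieldFullC K (M' * q * q))))).val 243
  have hH0 : pk85_h3 K (M' * q * q) (h3.trans ((dvd_mul_right M' q).trans (dvd_mul_right (M' * q) q))) ≠ 0 := by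
    intro h0
    apply (uwh31_h3_ok K).1
    rw [← pk85_h3_coe K (M' * q * q)
      (h3.trans ((dvd_mul_right M' q).trans (dvd_mul_right (M' * q) q))), h0]
    rfl
  have hgen : ∀ (v j H : ↥(modularFunctionFieldFullC K (M' * q * q))), v * H = 1 → j * H ^ 3 = (H + 27) * (H + 243) ^ 3 → v * j = (1 + 27 * v) * (1 + 243 * v) ^ 3 := by
    intro v j H hu1 hrel
    linear_combination (v ^ 4) * hrel + (-(v * j * (v ^ 2 * H ^ 2 + v * H + 1)) + (v * H + 243 * v) ^ 3 + (1 + 27 * v) * ((v * H + 243 * v) ^ 2 + (v * H + 243 * v) * (1 + 243 * v) + (1 + 243 * v) ^ 2)) * hu1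
  have hE := hgen _ (rm90_j K (M' * q * q)) _ (inv_mul_cancel₀ hH0) hrel
  have hscj : ((⟨_, hh⟩ : ↥(pk15_chart R ({(pk85_h3 K (M' * q * q) (h3.trans ((dvd_mul_right M' q).trans (dvd_mul_right (M' * q) q))))⁻¹} : Set ↥(modularFunctionFieldFullC K (M' * q * q))))) : ↥(modularFunctionFieldFullC K (M' * q * q))) * rm90_j K (M' * q * q) ∈ (pk15_chart R ({(pk85_h3 K (M' * q * q) (h3.trans ((dvd_mul_right M' q).trans (dvd_mul_right (M' * q) q))))⁻¹} : Set ↥(modularFunctionFieldFullC K (M' * q * q)))) := by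
    have e : ((⟨_, hh⟩ : ↥(pk15_chart R ({(pk85_h3 K (M' * q * q) (h3.trans ((dvd_mul_right M' q).trans (dvd_mul_right (M' * q) q))))⁻¹} : Set ↥(modularFunctionFieldFullC K (M' * q * q))))) : ↥(modularFunctionFieldFullC K (M' * q * q))) * rm90_j K (M' * q * q) =
        ((((1 + 27 * (⟨_, hh⟩ : ↥(pk15_chart R ({(pk85_h3 K (M' * q * q) (h3.trans ((dvd_mul_right M' q).trans (dvd_mul_right (M' * q) q))))⁻¹} : Set ↥(modularFunctionFieldFullC K (M' * q * q)))))) * (1 + 243 * (⟨_, hh⟩ : ↥(pk15_chart R ({(pk85_h3 K (M' * q * q) (h3.trans ((dvd_mul_right M' q).trans (dvd_mul_right (M' * q) q))))⁻¹} : Set ↥(modularFunctionFieldFullC K (M' * q * q)))))) ^ 3) : ↥(pk15_chart R ({(pk85_h3 K (M' * q * q) (h3.trans ((dvd_mul_right M' q).trans (dvd_mul_right (M' * q) q))))⁻¹} : Set ↥(modularFunctionFieldFullC K (M' * q * q))))) : ↥(modularFunctionFieldFullC K (M' * q * q))) := by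
      simp only [Subalgebra.coe_mul, Subalgebra.coe_pow, Subalgebra.coe_add, Subalgebra.coe_one,
        c27, c243]
      exact hE
    rw [e]
    exact SetLike.coe_mem _
  have hsc : (⟨_, hh⟩ : ↥(pk15_chart R ({(pk85_h3 K (M' * q * q) (h3.trans ((dvd_mul_right M' q).trans (dvd_mul_right (M' * q) q))))⁻¹} : Set ↥(modularFunctionFieldFullC K (M' * q * q))))) ∉ n := by
    intro hmem
    have hrelB : b' * (⟨_, hh⟩ : ↥(pk15_chart R ({(pk85_h3 K (M' * q * q) (h3.trans ((dvd_mul_right M' q).trans (dvd_mul_right (M' * q) q))))⁻¹} : Set ↥(modularFunctionFieldFullC K (M' * q * q))))) = s' * ((1 + 27 * (⟨_, hh⟩ : ↥(pk15_chart R ({(pk85_h3 K (M' * q * q) (h3.trans ((dvd_mul_right M' q).trans (dvd_mul_right (M' * q) q))))⁻¹} : Set ↥(modularFunctionFieldFullC K (M' * q * q)))))) * (1 + 243 * (⟨_, hh⟩ : ↥(pk15_chart R ({(pk85_h3 K (M' * q * q) (h3.trans ((dvd_mul_right M' q).trans (dvd_mul_right (M' * q) q))))⁻¹} : Set ↥(modularFunctionFieldFullC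 K (M' * q * q)))))) ^ 3) := by
      apply Subtype.ext
      simp only [Subalgebra.coe_mul, Subalgebra.coe_pow, Subalgebra.coe_add, Subalgebra.coe_one,
        c27, c243]
      rw [← hsj, ← hE]
      ring
    have h3x : s' * ((1 + 27 * (⟨_, hh⟩ : ↥(pk15_chart R ({(pk85_h3 K (M' * q * q) (h3.trans ((dvd_mul_right M' q).trans (dvd_mul_right (M' * q) q))))⁻¹} : Set ↥(modularFunctionFieldFullC K (M' * q * q)))))) * (1 + 243 * (⟨_, hh⟩ : ↥(pk15_chart R ({(pk85_h3 K (M' * q * q) (h3.trans ((dvd_mul_right M' q).trans (dvd_mul_right (M' * q) q))))⁻¹} : Set ↥(modularFunctionFieldFullC K (M' * q * q)))))) ^ 3) ∈ n := by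
      rw [← hrelB]
      exact n.mul_mem_left _ hmem
    have h4 : (1 + 27 * (⟨_, hh⟩ : ↥(pk15_chart R ({(pk85_h3 K (M' * q * q) (h3.trans ((dvd_mul_right M' q).trans (dvd_mul_right (M' * q) q))))⁻¹} : Set ↥(modularFunctionFieldFullC K (M' * q * q)))))) * (1 + 243 * (⟨_, hh⟩ : ↥(pk15_chart R ({(pk85_h3 K (M' * q * q) (h3.trans ((dvd_mul_right M' q).trans (dvd_mul_right (M' * q) q))))⁻¹} : Set ↥(modularFunctionFieldFullC K (M' * q * q)))))) ^ 3 ∈ n := (hn.isPrime.mem_or_mem h3x).resolve_left hs'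
    rcases hn.isPrime.mem_or_mem h4 with h4a | h4b
    · have h5 : (27 : ↥(pk15_chart R ({(pk85_h3 K (M' * q * q) (h3.trans ((dvd_mul_right M' q).trans (dvd_mul_right (M' * q) q))))⁻¹} : Set ↥(modularFunctionFieldFullC K (M' * q * q))))) * (⟨_, hh⟩ : ↥(pk15_chart R ({(pk85_h3 K (M' * q * q) (h3.trans ((dvd_mul_right M' q).trans (dvd_mul_right (M' * q) q))))⁻¹} : Set ↥(modularFunctionFieldFullC K (M' * q * q))))) ∈ n := n.mul_mem_left _ hmem
      have h6 : (1 : ↥(pk15_chart R ({(pk85_h3 K (M' * q * q) (h3.trans ((dvd_mul_right M' q).trans (dvd_mul_right (M' * q) q))))⁻¹} : Set ↥(modularFunctionFieldFullC K (M' * q * q))))) ∈ n := by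
        have := n.sub_mem h4a h5
        rwa [add_sub_cancel_right] at this
      exact h1n h6
    · have h4c := hn.isPrime.mem_of_pow_mem _ h4b
      have h5 : (243 : ↥(pk15_chart R ({(pk85_h3 K (M' * q * q) (h3.trans ((dvd_mul_right M' q).trans (dvd_mul_right (M' * q) q))))⁻¹} : Set ↥(modularFunctionFieldFullC K (M' * q * q))))) * (⟨_, hh⟩ : ↥(pk15_chart R ({(pk85_h3 K (M' * q * q) (h3.trans ((dvd_mul_right M' q).trans (dvd_mul_right (M' * q) q))))⁻¹} : Set ↥(modularFunctionFieldFullC K (M' * q * q))))) ∈ n := n.mul_mem_left _ hmem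
      have h6 : (1 : ↥(pk15_chart R ({(pk85_h3 K (M' * q * q) (h3.trans ((dvd_mul_right M' q).trans (dvd_mul_right (M' * q) q))))⁻¹} : Set ↥(modularFunctionFieldFullC K (M' * q * q))))) ∈ n := by
        have := n.sub_mem h4c h5
        rwa [add_sub_cancel_right] at this
      exact h1n h6
  have hsc₁ : ((⟨_, hh⟩ : ↥(pk15_chart R ({(pk85_h3 K (M' * q * q) (h3.trans ((dvd_mul_right M' q).trans (dvd_mul_right (M' * q) q))))⁻¹} : Set ↥(modularFunctionFieldFullC K (M' * q * q))))) : ↥(modularFunctionFieldFullC K (M' * q * q)))⁻¹ ∈ cm85_Vinf (K := K) (M' * q * q) hπq := by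
    show ((pk85_h3 K (M' * q * q) (h3.trans ((dvd_mul_right M' q).trans (dvd_mul_right (M' * q) q))))⁻¹)⁻¹ ∈ cm85_Vinf (K := K) (M' * q * q) hπq
    rw [inv_inv]
    exact hhV
  exact c2f11_hreg_gen (R := R) (K := K) M' q hq hM' hunit h2M (fun _ => h3) hπq V₂
    (nsb86_V3 (K := K) M' q hq hM' hπq) hV₂ hπ₂ hne (v2g64_s K M' q) hs (pk15_chart R ({(pk85_h3 K (M' * q * q) (h3.trans ((dvd_mul_right M' q).trans (dvd_mul_right (M' * q) q))))⁻¹} : Set ↥(modularFunctionFieldFullC K (M' * q * q))))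
    (fun x hx => ci22_chart_closed _ x hx)
    (fun x hx => (Subring.mem_inf.mp (Subring.mem_inf.mp (hBW x hx)).1).1)
    (fun x hx => (Subring.mem_inf.mp (Subring.mem_inf.mp (hBW x hx)).1).2)
    (fun x hx => (Subring.mem_inf.mp (hBW x hx)).2)
    (fun x hx k1 k2 k3 => hsat2 x hx (Subring.mem_inf.mpr ⟨Subring.mem_inf.mpr ⟨k1, k2⟩, k3⟩))
    n hmid hπn h1 h3' ⟨s', b', hs', hsj⟩ _ hsc hscj hsc₁

end c2f11_inst

end Fermat.Agent.S36
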