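import Fermat.Agent.S36.C2CoordChart11
import Fermat.Agent.S36.GHaupt96
import Fermat.Agent.S36.C2MidDiv74

/-!
# S36 lab, row 600 C-C2 (helper96): (C2) in the Hauptmodul coordinates, denominator form

* `c2h96_theta_res_h2`, `c2h96_theta_res_h3` : `θ h ≠ 0` over ANY field (in particular over the
  residue field: the hypothesis `hθ` of `c2x11_coord` / `c2x11_mid_dvd` for `x = h₂, h₃`);
* `c2h96_mid_dvd_den` : `c2x11_mid_dvd` (helper11) in DENOMINATOR FORM: `sx = b * s_x` with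
  `b ∉ n` (needed as soon as `s_x = x(Q^(q²)) - x(Q)` is only in the local ring `B_n`, e.g.
  `x = h₃` on the chart of `h₂`, or `x = h` on the chart of `h⁻¹`);
* `c2h96_mid_dvd_h2`, `c2h96_mid_dvd_h3` : ONE CALL per Hauptmodul coordinate.  No rigidity, no
  derivation on `B_n`, no Kronecker relation: the only point-dependent inputs are that `H` and
  `H + 64` (resp. `H`, `H + 27`) are units at `n` (presentations `H * tH = aH`,
  `(H + 64) * tH = aH'` with `tH, aH, aH' ∉ n`) and a presentation `U' = t * α₂ U`, `t ∉ n`, of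
  the modular unit (`usq75_alphaU_unit_at`).  Conclusion: `sx ^ (q - 1) * c = t * π`, `t ∉ n`;
* `c2h96_midDivAt` : the literal `tl71_MidDivAt π σ B V₁ V₂ V₃ n` (through `c2m74_midDivAt`)
  from the conclusion above when `b` and `s_x` are units along `V₁`, `V₃`.

All names are prefixed `c2h96_`.
-/

set_option autoImplicit false
set_option linter.unusedSectionVars false
set_option linter.style.haveILetI false
set_option linter.style.longLine false
set_option linter.unusedVariables false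

open ModularCurve IntermediateField

namespace Fermat.Agent.S36

open Fermat.Agent.S18 Fermat.Agent.S24 Fermat.Agent.S28 Fermat.Agent.S37 Fermat.Agent.S34
open Fermat.Agent.S35 Fermat.Agent.S36.TripleLoc71

section c2h96_theta

variable (κ : Type*) [Field κ]

theorem c2h96_D_natCast (n : ℕ) : partC_theta ((n : ℕ) : LaurentSeries κ) = 0 := by
  have h := (partC_theta (k := κ)).map_algebraMap (n : κ)
  rwa [map_natCast] at h

/-- `θ h₂ ≠ 0` over any field. -/
theorem c2h96_theta_res_h2 : partC_theta (h70_h2 κ) ≠ 0 := by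
  have hJ : partC_theta (jqModC κ) ≠ 0 := dq56_theta_J_ne_zero κ
  have h0 : h70_h2 κ ≠ 0 := left_ne_zero_of_mul_eq_one (h70_h2_mul_inv κ)
  have h := gh96_alg_ne2 (F := LaurentSeries κ)
    (fun f => partC_theta f / partC_theta (jqModC κ))
    (fun a b => by simp only [map_add, add_div])
    (fun a b => by
      simp only [Derivation.leibniz, smul_eq_mul]
      ring)
    (fun n => by simp only [c2h96_D_natCast, zero_div])
    (h70_h2 κ) (jqModC κ) (div_self hJ) (h70_j_mul_h2_sq κ) h0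
  intro h0'
  apply h
  show partC_theta (h70_h2 κ) / _ = 0
  rw [h0', zero_div]

/-- `θ h₃ ≠ 0` over any field. -/
theorem c2h96_theta_res_h3 : partC_theta (h34_h3R κ) ≠ 0 := by
  have hJ : partC_theta (jqModC κ) ≠ 0 := dq56_theta_J_ne_zero κ
  have h0 : h34_h3R κ ≠ 0 := left_ne_zero_of_mul_eq_one (h34_h3R_mul_inv κ)
  have h := gh96_alg_ne3 (F := LaurentSeries κ)
    (fun f => partC_theta f / partC_theta (jqModC κ))
    (fun a b => by simp only [map_add, add_div])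
    (fun a b => by
      simp only [Derivation.leibniz, smul_eq_mul]
      ring)
    (fun n => by simp only [c2h96_D_natCast, zero_div])
    (h34_h3R κ) (jqModC κ) (div_self hJ) (h34_h3R_j κ) h0
  intro h0'
  apply h
  show partC_theta (h34_h3R κ) / _ = 0
  rw [h0', zero_div]

end c2h96_theta

section c2h96_chart

variable {R K : Type} [CommRing R] [IsDomain R] [IsDiscreteValuationRing R] [Field K] [CharZero K]
  [Algebra R K] [IsFractionRing R K]
variable (φ : K →+* Kbar) (N q : ℕ) [NeZero N] [NeZero q] (hq : q.Prime) (hN : ¬ q ∣ N)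
  [Algebra R ↥(modularFunctionFieldFullC K (N * q * q))]
  [IsScalarTower R K ↥(modularFunctionFieldFullC K (N * q * q))]

include φ hq hN in
/-- **(C2) in an arbitrary coordinate, chart form with a denominator**: `sx = b * s_x`,
`b ∉ n`. -/
theorem c2h96_mid_dvd_den {π : R} (hπ : Irreducible π) (hqπ : Associated ((q : ℕ) : R) π)
    (V₂ : ValuationSubring ↥(modularFunctionFieldFullC K (N * q * q)))
    (hV₂ : ∀ c ∈ cm85_Vinf (K := K) (N * q) hπ, al97L_alpha K (N * q) q c ∈ V₂)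
    (hπ₂ : (algebraMap K ↥(modularFunctionFieldFullC K (N * q * q)) (algebraMap R K π))⁻¹ ∉ V₂)
    (hne : cm85_Vinf (K := K) (N * q * q) hπ ≠ V₂)
    (s : ↥(modularFunctionFieldFullC K (N * q * q)))
    (hs : V₂.valuation s ^ (q - 1) =
      V₂.valuation (algebraMap K ↥(modularFunctionFieldFullC K (N * q * q)) (algebraMap R K π)))
    (B : Subalgebra R ↥(modularFunctionFieldFullC K (N * q * q)))
    (V₁ V₃ : Subring ↥(modularFunctionFieldFullC K (N * q * q)))
    (hB₁ : ∀ y ∈ B, y ∈ V₁) (hB₂ : ∀ y ∈ B, y ∈ V₂) (hB₃ : ∀ y ∈ B, y ∈ V₃)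
    (hsat : ∀ y ∈ B,
      (algebraMap R ↥(modularFunctionFieldFullC K (N * q * q)) π)⁻¹ * y ∈ V₁ →
      (algebraMap R ↥(modularFunctionFieldFullC K (N * q * q)) π)⁻¹ * y ∈ V₂ →
      (algebraMap R ↥(modularFunctionFieldFullC K (N * q * q)) π)⁻¹ * y ∈ V₃ →
      (algebraMap R ↥(modularFunctionFieldFullC K (N * q * q)) π)⁻¹ * y ∈ B)
    (n : Ideal B) [hn : n.IsPrime]
    (hp2n : ∀ y : B, (y : ↥(modularFunctionFieldFullC K (N * q * q))) * s⁻¹ ∈ V₂ → y ∈ n)
    (a : B) (ha : a ∉ n)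
    (ha₁ : (algebraMap R ↥(modularFunctionFieldFullC K (N * q * q)) π)⁻¹ *
      (a : ↥(modularFunctionFieldFullC K (N * q * q))) ∈ V₁)
    (ha₃ : (algebraMap R ↥(modularFunctionFieldFullC K (N * q * q)) π)⁻¹ *
      (a : ↥(modularFunctionFieldFullC K (N * q * q))) ∈ V₃)
    (x : ↥(modularFunctionFieldFullC K N)) (xR : LaurentSeries R)
    (hx : (x : LaurentSeries K) = coeffMap (algebraMap R K) xR)
    (hθ : partC_theta (coeffMap (IsLocalRing.residue R) xR) ≠ 0)
    (sx b : B) (hb : b ∉ n)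
    (hsx : (sx : ↥(modularFunctionFieldFullC K (N * q * q))) =
      (b : ↥(modularFunctionFieldFullC K (N * q * q))) * c2x11_s K N q x)
    (g : ↥(modularFunctionFieldFullC K N)) (U : ↥(modularFunctionFieldFullC K (N * q)))
    (hg : (g : LaurentSeries K) * partC_theta (x : LaurentSeries K) ^ 6 = DeltaSer K)
    (hU : (U : LaurentSeries K) = dq56_U K q)
    (ag tg : B) (htg : tg ∉ n)
    (hgn : al97L_alpha K (N * q) q (al97L_alpha K N q g) ^ (q - 1) *
      al97L_alpha K (N * q) q U * (tg : ↥(modularFunctionFieldFullC K (N * q * q))) =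
        (ag : ↥(modularFunctionFieldFullC K (N * q * q)))) :
    ∃ c t : B, t ∉ n ∧ sx ^ (q - 1) * c = t * algebraMap R B π := by
  obtain ⟨hsxv, hvt1, hvt2, hmaxx, hP⟩ :=
    c2x11_coord φ N q hq hN hπ hqπ V₂ hV₂ hπ₂ hne s hs x xR hx hθ
  obtain ⟨-, -, hmaxs, -, -⟩ :=
    ob72_ram (K := K) (N * q) q hq (dvd_mul_left q N) hπ V₂ hV₂ hπ₂ hne s hs
  have hπF : algebraMap R ↥(modularFunctionFieldFullC K (N * q * q)) π =
      algebraMap K ↥(modularFunctionFieldFullC K (N * q * q)) (algebraMap R K π) :=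
    IsScalarTower.algebraMap_apply R K _ π
  have hπK0 : algebraMap K ↥(modularFunctionFieldFullC K (N * q * q)) (algebraMap R K π) ≠ 0 :=
    (map_ne_zero _).mpr ((map_ne_zero_iff _ (IsFractionRing.injective R K)).mpr hπ.ne_zero)
  have hπ0 : algebraMap R ↥(modularFunctionFieldFullC K (N * q * q)) π ≠ 0 := by
    rw [hπF]; exact hπK0
  have hvπ : V₂.valuation (algebraMap K ↥(modularFunctionFieldFullC K (N * q * q))
      (algebraMap R K π)) ≠ 0 := (Valuation.ne_zero_iff _).2 hπK0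
  have hq1 : q - 1 ≠ 0 := by have := hq.two_le; omega
  have hsx0 : c2x11_s K N q x ≠ 0 := by
    intro h
    rw [h, map_zero, zero_pow hq1] at hsxv
    exact hvπ hsxv.symm
  have hsxinv : (c2x11_s K N q x)⁻¹ ∉ V₂ := by
    intro h
    apply hπ₂
    have h1 : (algebraMap K ↥(modularFunctionFieldFullC K (N * q * q)) (algebraMap R K π))⁻¹ *
        c2x11_s K N q x ^ (q - 1) ∈ V₂ := by
      rw [← V₂.valuation_le_one_iff, map_mul, map_inv₀, map_pow, hsxv, inv_mul_cancel₀ hvπ]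
    have h2 : (algebraMap K ↥(modularFunctionFieldFullC K (N * q * q)) (algebraMap R K π))⁻¹ =
        ((c2x11_s K N q x)⁻¹) ^ (q - 1) *
          ((algebraMap K ↥(modularFunctionFieldFullC K (N * q * q)) (algebraMap R K π))⁻¹ *
            c2x11_s K N q x ^ (q - 1)) := by
      rw [inv_pow, mul_left_comm, inv_mul_cancel₀ (pow_ne_zero _ hsx0), mul_one]
    rw [h2]
    exact mul_mem (pow_mem h _) h1
  -- `b` is a unit of `V₂`
  have hbV : (b : ↥(modularFunctionFieldFullC K (N * q * q))) ∈ V₂ := hB₂ _ b.2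
  have hbinv : (b : ↥(modularFunctionFieldFullC K (N * q * q)))⁻¹ ∈ V₂ := by
    by_contra hcon
    apply hb
    apply hp2n
    have e : (b : ↥(modularFunctionFieldFullC K (N * q * q))) * s⁻¹ =
        s⁻¹ * (b : ↥(modularFunctionFieldFullC K (N * q * q))) := mul_comm _ _
    rw [e]
    exact hmaxs _ hbV hcon
  have hb0 : (b : ↥(modularFunctionFieldFullC K (N * q * q))) ≠ 0 := by
    intro h0
    apply hb
    have e : b = 0 := Subtype.ext h0
    rw [e]
    exact n.zero_mem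
  have hsxV : c2x11_s K N q x ∈ V₂ := by
    have e : c2x11_s K N q x = (b : ↥(modularFunctionFieldFullC K (N * q * q)))⁻¹ *
        (sx : ↥(modularFunctionFieldFullC K (N * q * q))) := by
      rw [hsx, inv_mul_cancel_left₀ hb0]
    rw [e]
    exact mul_mem hbinv (hB₂ _ sx.2)
  have hss : s⁻¹ * c2x11_s K N q x ∈ V₂ := hmaxs _ hsxV hsxinv
  obtain ⟨u, hu⟩ := hqπ
  have hqπ' : ((q : ℕ) : R) = ((u⁻¹ : Rˣ) : R) * π := by
    rw [← hu, mul_comm ((q : ℕ) : R), ← mul_assoc, Units.inv_mul, one_mul]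
  have hq0F : ((q : ℕ) : ↥(modularFunctionFieldFullC K (N * q * q))) ≠ 0 :=
    Nat.cast_ne_zero.mpr hq.ne_zero
  have hsxb0 : (b : ↥(modularFunctionFieldFullC K (N * q * q))) * c2x11_s K N q x ≠ 0 :=
    mul_ne_zero hb0 hsx0
  have hϑq : ((q : ℕ) : ↥(modularFunctionFieldFullC K (N * q * q))) *
      ((b : ↥(modularFunctionFieldFullC K (N * q * q))) ^ (q - 1) * c2x11_vt K N q x) =
      (sx : ↥(modularFunctionFieldFullC K (N * q * q))) ^ (q - 1) := by
    unfold c2x11_vt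
    rw [hsx, mul_pow]
    linear_combination ((b : ↥(modularFunctionFieldFullC K (N * q * q))) ^ (q - 1) *
      c2x11_s K N q x ^ (q - 1)) * (mul_inv_cancel₀ hq0F)
  have hϑ₂ : (b : ↥(modularFunctionFieldFullC K (N * q * q))) ^ (q - 1) * c2x11_vt K N q x ∈ V₂ :=
    mul_mem (pow_mem hbV _) hvt1
  have hbb : (b : ↥(modularFunctionFieldFullC K (N * q * q))) ^ (6 * (q - 1)) *
      ((b : ↥(modularFunctionFieldFullC K (N * q * q)))⁻¹) ^ (6 * (q - 1)) = 1 := by
    rw [← mul_pow, mul_inv_cancel₀ hb0, one_pow]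
  have hcong : (((b : ↥(modularFunctionFieldFullC K (N * q * q))) ^ (q - 1) *
        c2x11_vt K N q x) ^ 6 *
      (al97L_alpha K (N * q) q (al97L_alpha K N q g) ^ (q - 1) * al97L_alpha K (N * q) q U *
        ((b : ↥(modularFunctionFieldFullC K (N * q * q)))⁻¹) ^ (6 * (q - 1))) - 1) *
      (sx : ↥(modularFunctionFieldFullC K (N * q * q)))⁻¹ ∈ V₂ := by
    have e1 : ((b : ↥(modularFunctionFieldFullC K (N * q * q))) ^ (q - 1) *
          c2x11_vt K N q x) ^ 6 *
        (al97L_alpha K (N * q) q (al97L_alpha K N q g) ^ (q - 1) * al97L_alpha K (N * q) q U *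
          ((b : ↥(modularFunctionFieldFullC K (N * q * q)))⁻¹) ^ (6 * (q - 1))) =
        c2x11_P K N q x g U := by
      unfold c2x11_P
      calc ((b : ↥(modularFunctionFieldFullC K (N * q * q))) ^ (q - 1) *
            c2x11_vt K N q x) ^ 6 *
          (al97L_alpha K (N * q) q (al97L_alpha K N q g) ^ (q - 1) * al97L_alpha K (N * q) q U *
            ((b : ↥(modularFunctionFieldFullC K (N * q * q)))⁻¹) ^ (6 * (q - 1)))
          = c2x11_vt K N q x ^ 6 * al97L_alpha K (N * q) q (al97L_alpha K N q g) ^ (q - 1) *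
              al97L_alpha K (N * q) q U *
              ((b : ↥(modularFunctionFieldFullC K (N * q * q))) ^ (6 * (q - 1)) *
                ((b : ↥(modularFunctionFieldFullC K (N * q * q)))⁻¹) ^ (6 * (q - 1))) := by
            ring
        _ = c2x11_vt K N q x ^ 6 * al97L_alpha K (N * q) q (al97L_alpha K N q g) ^ (q - 1) *
              al97L_alpha K (N * q) q U := by rw [hbb, mul_one]
    have e2 : (sx : ↥(modularFunctionFieldFullC K (N * q * q)))⁻¹ =
        (c2x11_s K N q x)⁻¹ * (b : ↥(modularFunctionFieldFullC K (N * q * q)))⁻¹ := by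
      rw [hsx, mul_inv]
      exact mul_comm _ _
    rw [e1, e2, ← mul_assoc]
    exact mul_mem (hP g U hg hU) hbinv
  have hp2n' : ∀ y : B, (y : ↥(modularFunctionFieldFullC K (N * q * q))) *
      (sx : ↥(modularFunctionFieldFullC K (N * q * q)))⁻¹ ∈ V₂ → y ∈ n := by
    intro y hy
    apply hp2n
    have h1 : (sx : ↥(modularFunctionFieldFullC K (N * q * q)))⁻¹ *
        ((b : ↥(modularFunctionFieldFullC K (N * q * q))) * c2x11_s K N q x) = 1 := by
      rw [hsx]
      exact inv_mul_cancel₀ hsxb0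
    have e : (y : ↥(modularFunctionFieldFullC K (N * q * q))) * s⁻¹ =
        (y : ↥(modularFunctionFieldFullC K (N * q * q))) *
          (sx : ↥(modularFunctionFieldFullC K (N * q * q)))⁻¹ *
          ((b : ↥(modularFunctionFieldFullC K (N * q * q))) * (s⁻¹ * c2x11_s K N q x)) := by
      linear_combination (-((y : ↥(modularFunctionFieldFullC K (N * q * q))) * s⁻¹)) * h1
    rw [e]
    exact mul_mem hy (mul_mem hbV hss)
  have htg' : tg * b ^ (6 * (q - 1)) ∉ n := fun h =>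
    (hn.mem_or_mem h).elim htg (fun h' => hb (hn.mem_of_pow_mem _ h'))
  have hgn' : al97L_alpha K (N * q) q (al97L_alpha K N q g) ^ (q - 1) *
      al97L_alpha K (N * q) q U *
      ((b : ↥(modularFunctionFieldFullC K (N * q * q)))⁻¹) ^ (6 * (q - 1)) *
      ((tg * b ^ (6 * (q - 1)) : B) : ↥(modularFunctionFieldFullC K (N * q * q))) =
      (ag : ↥(modularFunctionFieldFullC K (N * q * q))) := by
    have e : ((tg * b ^ (6 * (q - 1)) : B) : ↥(modularFunctionFieldFullC K (N * q * q))) =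
        (tg : ↥(modularFunctionFieldFullC K (N * q * q))) *
          (b : ↥(modularFunctionFieldFullC K (N * q * q))) ^ (6 * (q - 1)) := by
      push_cast
      rfl
    rw [e, ← hgn]
    linear_combination (al97L_alpha K (N * q) q (al97L_alpha K N q g) ^ (q - 1) *
      al97L_alpha K (N * q) q U * (tg : ↥(modularFunctionFieldFullC K (N * q * q)))) * hbb
  exact c2p11_mid_dvd π ((u⁻¹ : Rˣ) : R) (u : R) (by rw [Units.inv_mul]) q hqπ' B V₁
    V₂.toSubring V₃ hB₁ hB₂ hB₃ hsat hπ0 n sx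
    ((b : ↥(modularFunctionFieldFullC K (N * q * q))) ^ (q - 1) * c2x11_vt K N q x)
    (al97L_alpha K (N * q) q (al97L_alpha K N q g) ^ (q - 1) * al97L_alpha K (N * q) q U *
      ((b : ↥(modularFunctionFieldFullC K (N * q * q)))⁻¹) ^ (6 * (q - 1))) 6
    (by norm_num) hϑq hϑ₂ hcong hp2n' a ha ha₁ ha₃ ag (tg * b ^ (6 * (q - 1))) htg' hgn'


include φ hq hN in
/-- **(C2) in the coordinate `x = h_2`, ONE CALL**: at a prime `n` of the chart `B` on `C₂`
only where `H` and `H + 64` are units (`H * tH = aH`, `(H + 64) * tH = aH'`, `tH, aH, aH' ∉ n`),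
with `sx = b * (h(Q^(q²)) - h(Q))`, `b ∉ n`, and `U' = t * α₂ U`, `t ∉ n`:
`sx ^ (q - 1)` divides `π` at `n`. -/
theorem c2h96_mid_dvd_h2 {π : R} (hπ : Irreducible π) (hqπ : Associated ((q : ℕ) : R) π)
    (V₂ : ValuationSubring ↥(modularFunctionFieldFullC K (N * q * q)))
    (hV₂ : ∀ c ∈ cm85_Vinf (K := K) (N * q) hπ, al97L_alpha K (N * q) q c ∈ V₂)
    (hπ₂ : (algebraMap K ↥(modularFunctionFieldFullC K (N * q * q)) (algebraMap R K π))⁻¹ ∉ V₂)
    (hne : cm85_Vinf (K := K) (N * q * q) hπ ≠ V₂)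
    (s : ↥(modularFunctionFieldFullC K (N * q * q)))
    (hs : V₂.valuation s ^ (q - 1) =
      V₂.valuation (algebraMap K ↥(modularFunctionFieldFullC K (N * q * q)) (algebraMap R K π)))
    (B : Subalgebra R ↥(modularFunctionFieldFullC K (N * q * q)))
    (V₁ V₃ : Subring ↥(modularFunctionFieldFullC K (N * q * q)))
    (hB₁ : ∀ y ∈ B, y ∈ V₁) (hB₂ : ∀ y ∈ B, y ∈ V₂) (hB₃ : ∀ y ∈ B, y ∈ V₃)
    (hsat : ∀ y ∈ B,
      (algebraMap R ↥(modularFunctionFieldFullC K (N * q * q)) π)⁻¹ * y ∈ V₁ →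
      (algebraMap R ↥(modularFunctionFieldFullC K (N * q * q)) π)⁻¹ * y ∈ V₂ →
      (algebraMap R ↥(modularFunctionFieldFullC K (N * q * q)) π)⁻¹ * y ∈ V₃ →
      (algebraMap R ↥(modularFunctionFieldFullC K (N * q * q)) π)⁻¹ * y ∈ B)
    (n : Ideal B) [hn : n.IsPrime]
    (hp2n : ∀ y : B, (y : ↥(modularFunctionFieldFullC K (N * q * q))) * s⁻¹ ∈ V₂ → y ∈ n)
    (a : B) (ha : a ∉ n)
    (ha₁ : (algebraMap R ↥(modularFunctionFieldFullC K (N * q * q)) π)⁻¹ *
      (a : ↥(modularFunctionFieldFullC K (N * q * q))) ∈ V₁)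
    (ha₃ : (algebraMap R ↥(modularFunctionFieldFullC K (N * q * q)) π)⁻¹ *
      (a : ↥(modularFunctionFieldFullC K (N * q * q))) ∈ V₃)
    (h2 : 2 ∣ N)
    (aH aH' tH : B) (htH : tH ∉ n) (haH : aH ∉ n) (haH' : aH' ∉ n)
    (hH : pk85_h2 K (N * q * q) ((h2.mul_right q).mul_right q) * (tH : ↥(modularFunctionFieldFullC K (N * q * q))) = (aH : ↥(modularFunctionFieldFullC K (N * q * q))))
    (hH' : (pk85_h2 K (N * q * q) ((h2.mul_right q).mul_right q) + 64) * (tH : ↥(modularFunctionFieldFullC K (N * q * q))) = (aH' : ↥(modularFunctionFieldFullC K (N * q * q))))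
    (sx b : B) (hb : b ∉ n)
    (hsx : (sx : ↥(modularFunctionFieldFullC K (N * q * q))) = (b : ↥(modularFunctionFieldFullC K (N * q * q))) * c2x11_s K N q (pk85_h2 K N h2))
    (U : ↥(modularFunctionFieldFullC K (N * q)))
    (hU : (U : LaurentSeries K) = dq56_U K q)
    (t U' : B) (ht : t ∉ n)
    (hU' : (U' : ↥(modularFunctionFieldFullC K (N * q * q))) = (t : ↥(modularFunctionFieldFullC K (N * q * q))) * al97L_alpha K (N * q) q U) :
    ∃ c t : B, t ∉ n ∧ sx ^ (q - 1) * c = t * algebraMap R B π := by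
  have hθ : partC_theta (coeffMap (IsLocalRing.residue R) (h70_h2 R)) ≠ 0 := by
    rw [h70_coeffMap_h2]
    exact c2h96_theta_res_h2 _
  have htg : (aH ^ 4 * aH' ^ 3) ^ (q - 1) * t ∉ n := fun h =>
    (hn.mem_or_mem h).elim
      (fun h' => (hn.mem_or_mem (hn.mem_of_pow_mem _ h')).elim
        (fun h'' => haH (hn.mem_of_pow_mem _ h''))
        (fun h'' => haH' (hn.mem_of_pow_mem _ h''))) ht
  have hA := gh96_alpha_G_h2 K N q h2
  have hgn : al97L_alpha K (N * q) q (al97L_alpha K N q (tg69_G K N (pk85_h2 K N h2))) ^ (q - 1) *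
      al97L_alpha K (N * q) q U *
      (((aH ^ 4 * aH' ^ 3) ^ (q - 1) * t : B) : ↥(modularFunctionFieldFullC K (N * q * q))) =
      ((tH ^ (7 * (q - 1)) * U' : B) : ↥(modularFunctionFieldFullC K (N * q * q))) := by
    have e1 : (((aH ^ 4 * aH' ^ 3) ^ (q - 1) * t : B) : ↥(modularFunctionFieldFullC K (N * q * q))) =
        ((aH : ↥(modularFunctionFieldFullC K (N * q * q))) ^ 4 * (aH' : ↥(modularFunctionFieldFullC K (N * q * q))) ^ 3) ^ (q - 1) * (t : ↥(modularFunctionFieldFullC K (N * q * q))) := by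
      push_cast
      rfl
    have e2 : ((tH ^ (7 * (q - 1)) * U' : B) : ↥(modularFunctionFieldFullC K (N * q * q))) =
        (tH : ↥(modularFunctionFieldFullC K (N * q * q))) ^ (7 * (q - 1)) * (U' : ↥(modularFunctionFieldFullC K (N * q * q))) := by
      push_cast
      rfl
    rw [e1, e2, ← hH, ← hH', hU']
    have key : ∀ (A U0 X Y T t₀ : ↥(modularFunctionFieldFullC K (N * q * q))),
        A ^ (q - 1) * U0 * (((X * T) ^ 4 * (Y * T) ^ 3) ^ (q - 1) * t₀) =
          (A * (X ^ 4 * Y ^ 3)) ^ (q - 1) * (T ^ (7 * (q - 1)) * (t₀ * U0)) := by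
      intro A U0 X Y T t₀
      ring
    rw [key, hA, one_pow, one_mul]
  exact c2h96_mid_dvd_den φ N q hq hN hπ hqπ V₂ hV₂ hπ₂ hne s hs B V₁ V₃ hB₁ hB₂ hB₃ hsat n hp2n
    a ha ha₁ ha₃ (pk85_h2 K N h2) (h70_h2 R)
    ((pk85_h2_coe K N h2).trans (h70_coeffMap_h2 (algebraMap R K)).symm) hθ sx b hb hsx
    (tg69_G K N (pk85_h2 K N h2)) U (gh96_G_theta_h2 K N h2) hU
    (tH ^ (7 * (q - 1)) * U') ((aH ^ 4 * aH' ^ 3) ^ (q - 1) * t) htg hgn

include φ hq hN in
/-- **(C2) in the coordinate `x = h_3`, ONE CALL**: at a prime `n` of the chart `B` on `C₂`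
only where `H` and `H + 27` are units (`H * tH = aH`, `(H + 27) * tH = aH'`, `tH, aH, aH' ∉ n`),
with `sx = b * (h(Q^(q²)) - h(Q))`, `b ∉ n`, and `U' = t * α₂ U`, `t ∉ n`:
`sx ^ (q - 1)` divides `π` at `n`. -/
theorem c2h96_mid_dvd_h3 {π : R} (hπ : Irreducible π) (hqπ : Associated ((q : ℕ) : R) π)
    (V₂ : ValuationSubring ↥(modularFunctionFieldFullC K (N * q * q)))
    (hV₂ : ∀ c ∈ cm85_Vinf (K := K) (N * q) hπ, al97L_alpha K (N * q) q c ∈ V₂)
    (hπ₂ : (algebraMap K ↥(modularFunctionFieldFullC K (N * q * q)) (algebraMap R K π))⁻¹ ∉ V₂)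
    (hne : cm85_Vinf (K := K) (N * q * q) hπ ≠ V₂)
    (s : ↥(modularFunctionFieldFullC K (N * q * q)))
    (hs : V₂.valuation s ^ (q - 1) =
      V₂.valuation (algebraMap K ↥(modularFunctionFieldFullC K (N * q * q)) (algebraMap R K π)))
    (B : Subalgebra R ↥(modularFunctionFieldFullC K (N * q * q)))
    (V₁ V₃ : Subring ↥(modularFunctionFieldFullC K (N * q * q)))
    (hB₁ : ∀ y ∈ B, y ∈ V₁) (hB₂ : ∀ y ∈ B, y ∈ V₂) (hB₃ : ∀ y ∈ B, y ∈ V₃)
    (hsat : ∀ y ∈ B,
      (algebraMap R ↥(modularFunctionFieldFullC K (N * q * q)) π)⁻¹ * y ∈ V₁ →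
      (algebraMap R ↥(modularFunctionFieldFullC K (N * q * q)) π)⁻¹ * y ∈ V₂ →
      (algebraMap R ↥(modularFunctionFieldFullC K (N * q * q)) π)⁻¹ * y ∈ V₃ →
      (algebraMap R ↥(modularFunctionFieldFullC K (N * q * q)) π)⁻¹ * y ∈ B)
    (n : Ideal B) [hn : n.IsPrime]
    (hp2n : ∀ y : B, (y : ↥(modularFunctionFieldFullC K (N * q * q))) * s⁻¹ ∈ V₂ → y ∈ n)
    (a : B) (ha : a ∉ n)
    (ha₁ : (algebraMap R ↥(modularFunctionFieldFullC K (N * q * q)) π)⁻¹ *
      (a : ↥(modularFunctionFieldFullC K (N * q * q))) ∈ V₁)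
    (ha₃ : (algebraMap R ↥(modularFunctionFieldFullC K (N * q * q)) π)⁻¹ *
      (a : ↥(modularFunctionFieldFullC K (N * q * q))) ∈ V₃)
    (h3 : 3 ∣ N)
    (aH aH' tH : B) (htH : tH ∉ n) (haH : aH ∉ n) (haH' : aH' ∉ n)
    (hH : pk85_h3 K (N * q * q) ((h3.mul_right q).mul_right q) * (tH : ↥(modularFunctionFieldFullC K (N * q * q))) = (aH : ↥(modularFunctionFieldFullC K (N * q * q))))
    (hH' : (pk85_h3 K (N * q * q) ((h3.mul_right q).mul_right q) + 27) * (tH : ↥(modularFunctionFieldFullC K (N * q * q))) = (aH' : ↥(modularFunctionFieldFullC K (N * q * q))))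
    (sx b : B) (hb : b ∉ n)
    (hsx : (sx : ↥(modularFunctionFieldFullC K (N * q * q))) = (b : ↥(modularFunctionFieldFullC K (N * q * q))) * c2x11_s K N q (pk85_h3 K N h3))
    (U : ↥(modularFunctionFieldFullC K (N * q)))
    (hU : (U : LaurentSeries K) = dq56_U K q)
    (t U' : B) (ht : t ∉ n)
    (hU' : (U' : ↥(modularFunctionFieldFullC K (N * q * q))) = (t : ↥(modularFunctionFieldFullC K (N * q * q))) * al97L_alpha K (N * q) q U) :
    ∃ c t : B, t ∉ n ∧ sx ^ (q - 1) * c = t * algebraMap R B π := by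
  have hθ : partC_theta (coeffMap (IsLocalRing.residue R) (h34_h3R R)) ≠ 0 := by
    rw [h34_coeffMap_h3R]
    exact c2h96_theta_res_h3 _
  have htg : (aH ^ 3 * aH' ^ 4) ^ (q - 1) * t ∉ n := fun h =>
    (hn.mem_or_mem h).elim
      (fun h' => (hn.mem_or_mem (hn.mem_of_pow_mem _ h')).elim
        (fun h'' => haH (hn.mem_of_pow_mem _ h''))
        (fun h'' => haH' (hn.mem_of_pow_mem _ h''))) ht
  have hA := gh96_alpha_G_h3 K N q h3
  have hgn : al97L_alpha K (N * q) q (al97L_alpha K N q (tg69_G K N (pk85_h3 K N h3))) ^ (q - 1) *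
      al97L_alpha K (N * q) q U *
      (((aH ^ 3 * aH' ^ 4) ^ (q - 1) * t : B) : ↥(modularFunctionFieldFullC K (N * q * q))) =
      ((tH ^ (7 * (q - 1)) * U' : B) : ↥(modularFunctionFieldFullC K (N * q * q))) := by
    have e1 : (((aH ^ 3 * aH' ^ 4) ^ (q - 1) * t : B) : ↥(modularFunctionFieldFullC K (N * q * q))) =
        ((aH : ↥(modularFunctionFieldFullC K (N * q * q))) ^ 3 * (aH' : ↥(modularFunctionFieldFullC K (N * q * q))) ^ 4) ^ (q - 1) * (t : ↥(modularFunctionFieldFullC K (N * q * q))) := by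
      push_cast
      rfl
    have e2 : ((tH ^ (7 * (q - 1)) * U' : B) : ↥(modularFunctionFieldFullC K (N * q * q))) =
        (tH : ↥(modularFunctionFieldFullC K (N * q * q))) ^ (7 * (q - 1)) * (U' : ↥(modularFunctionFieldFullC K (N * q * q))) := by
      push_cast
      rfl
    rw [e1, e2, ← hH, ← hH', hU']
    have key : ∀ (A U0 X Y T t₀ : ↥(modularFunctionFieldFullC K (N * q * q))),
        A ^ (q - 1) * U0 * (((X * T) ^ 3 * (Y * T) ^ 4) ^ (q - 1) * t₀) =
          (A * (X ^ 3 * Y ^ 4)) ^ (q - 1) * (T ^ (7 * (q - 1)) * (t₀ * U0)) := by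
      intro A U0 X Y T t₀
      ring
    rw [key, hA, one_pow, one_mul]
  exact c2h96_mid_dvd_den φ N q hq hN hπ hqπ V₂ hV₂ hπ₂ hne s hs B V₁ V₃ hB₁ hB₂ hB₃ hsat n hp2n
    a ha ha₁ ha₃ (pk85_h3 K N h3) (h34_h3R R)
    ((pk85_h3_coe K N h3).trans (h34_coeffMap_h3R (algebraMap R K)).symm) hθ sx b hb hsx
    (tg69_G K N (pk85_h3 K N h3)) U (gh96_G_theta_h3 K N h3) hU
    (tH ^ (7 * (q - 1)) * U') ((aH ^ 3 * aH' ^ 4) ^ (q - 1) * t) htg hgn

end c2h96_chart

section c2h96_adapter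

/-- **Adapter to `tl71_MidDivAt`** (`c2m74_midDivAt`): a generator `sx = b * sF` of the middle
branch at `n` (`sx ^ (q-1) * c = t * π`, `t ∉ n`) with `b ∉ n`, `sF` a non-unit of `V₂`, and
`b`, `sF` units along `V₁`, `V₃`. -/
theorem c2h96_midDivAt {R F : Type*} [CommRing R] [Field F] [Algebra R F]
    (π : R) (σ : F) (B : Subalgebra R F) (V₁ V₃ : Subring F)
    (V₂ : ValuationSubring F) (hB₂ : ∀ x ∈ B, x ∈ V₂) (q : ℕ) (hq : 2 ≤ q)
    (hσ : ∀ x ∈ V₂, x⁻¹ ∉ V₂ → σ⁻¹ * x ∈ V₂)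
    (hs : V₂.valuation σ ^ (q - 1) = V₂.valuation (algebraMap R F π))
    (hπ0 : algebraMap R F π ≠ 0)
    (n : Ideal B) (hon : tl71_OnMid σ B V₂.toSubring n)
    (sx b c t : B) (sF : F) (hsx : (sx : F) = (b : F) * sF) (ht : t ∉ n)
    (hgc : sx ^ (q - 1) * c = t * algebraMap R B π)
    (hsF : sF ∈ V₂) (hsFinv : sF⁻¹ ∉ V₂)
    (hb₁ : (b : F)⁻¹ ∈ V₁) (hb₃ : (b : F)⁻¹ ∈ V₃) (hs₁ : sF⁻¹ ∈ V₁) (hs₃ : sF⁻¹ ∈ V₃) :
    tl71_MidDivAt π σ B V₁ V₂.toSubring V₃ n := by
  have hgσ : (sx : F) * σ⁻¹ ∈ V₂ := by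
    have e : (sx : F) * σ⁻¹ = (b : F) * (σ⁻¹ * sF) := by rw [hsx]; ring
    rw [e]
    exact mul_mem (hB₂ _ b.2) (hσ sF hsF hsFinv)
  have hg₁ : (sx : F)⁻¹ ∈ V₁ := by
    rw [hsx, mul_inv]
    exact mul_mem hb₁ hs₁
  have hg₃ : (sx : F)⁻¹ ∈ V₃ := by
    rw [hsx, mul_inv]
    exact mul_mem hb₃ hs₃
  exact c2m74_midDivAt π σ B V₁ V₃ V₂ hB₂ q hq hσ hs hπ0 n hon sx c t ht hgc hgσ hg₁ hg₃

end c2h96_adapter

end Fermat.Agent.S36
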