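import Fermat.Agent.S36.C2Den66
import Fermat.Agent.S36.C2Den74
import Fermat.Agent.S36.C2GData11
import Fermat.Agent.S36.SmallQInst75
import Fermat.Agent.S36.TwoGenCanonB71

/-!
# S36 lab, row C-C2 (helper18): the pointwise statement (C2) on the canonical charts

At a closed point `n` of a canonical chart of level `M' q q` lying on the middle branch only and
at which `j` is regular, the middle branch is principal (`mc25_MidPrinAt`): the hypothesis `hreg`
of `mc25_hD2_level2/3(_inv)`, i.e. `hC₁`, `hC₂` of `tg71_final_level2/3`.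

Route (denominator form of the coordinate route): `c2h66_prinAt` with the coordinate
`x = pk85_h2 K M'` or `x = pk85_h3 K M'`, the denominators of `c2p74_den_haupt`, `G_x` of
`c2g11_agtg2/3`, and `α^* U` a unit at `n` (`usq75_alphaU_unit_at`).  The unit conditions
(`T`, `T + 64` resp. `T + 27` units at `n`, `T = α₂ α₁ x`) are read off the Hauptmodul relations:
`q = 3` / `q = 2` through `sqi75_j_unit_at`, `q ≥ 5` through the cover argument
(`j = 1728` and `j = 0` cannot hold together).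

* `c2r18_unit2`, `c2r18_unit3`, `c2r18_add64`, `c2r18_add27`, `c2r18_cover` : ideal arithmetic.
* `c2r18_data2`, `c2r18_data3` : denominators and the Hauptmodul relations inside the chart.
* `c2r18_route2`, `c2r18_route3` : `c2h66_prinAt` for `x = pk85_h2 K M'`, `pk85_h3 K M'`.
* `c2r18_prin` : any integrally closed saturated chart, regularity datum `s_j`.
* `c2r18_hC_level2`, `c2r18_hC_level3` : the four canonical charts, literal `hC₁ ∧ hC₂`.

All names are prefixed `c2r18_`.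
-/

set_option autoImplicit false
set_option linter.unusedSectionVars false
set_option linter.unusedVariables false
set_option linter.style.haveILetI false
set_option linter.style.longLine false

open ModularCurve IntermediateField

namespace Fermat.Agent.S36

open Fermat.Agent.S18 Fermat.Agent.S24 Fermat.Agent.S28 Fermat.Agent.S37 Fermat.Agent.S34
open Fermat.Agent.S35 Fermat.Agent.S36.TripleLoc71

local notation "Q̄" => AlgebraicClosure ℚ

section c2r18_alg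

variable {B : Type*} [CommRing B] (n : Ideal B) [hn : n.IsPrime]

/-- Level 2: `T` is a unit at `n`. -/
theorem c2r18_unit2 (b' sj t b : B) (hrel : b' * t ^ 2 * b = sj * (t + 256 * b) ^ 3)
    (hsj : sj ∉ n) (hb : b ∉ n) (h2 : (2 : B) ∉ n) : t ∉ n := by
  intro ht
  have h1 : sj * (t + 256 * b) ^ 3 ∈ n := by
    rw [← hrel]
    exact n.mul_mem_right _ (n.mul_mem_left _ (n.pow_mem_of_mem ht 2 (by norm_num)))
  have h2' : t + 256 * b ∈ n := hn.mem_of_pow_mem 3 ((hn.mem_or_mem h1).resolve_left hsj)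
  have h3 : (2 : B) ^ 8 * b ∈ n := by
    have e : (2 : B) ^ 8 * b = (t + 256 * b) - t := by ring
    rw [e]
    exact n.sub_mem h2' ht
  rcases hn.mem_or_mem h3 with h | h
  · exact h2 (hn.mem_of_pow_mem 8 h)
  · exact hb h

/-- Level 3: `T` is a unit at `n`. -/
theorem c2r18_unit3 (b' sj t b : B)
    (hrel : b' * t ^ 3 * b = sj * ((t + 27 * b) * (t + 243 * b) ^ 3))
    (hsj : sj ∉ n) (hb : b ∉ n) (h3 : (3 : B) ∉ n) : t ∉ n := by
  intro ht
  have h1 : sj * ((t + 27 * b) * (t + 243 * b) ^ 3) ∈ n := by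
    rw [← hrel]
    exact n.mul_mem_right _ (n.mul_mem_left _ (n.pow_mem_of_mem ht 3 (by norm_num)))
  have h2' : (t + 27 * b) * (t + 243 * b) ^ 3 ∈ n := (hn.mem_or_mem h1).resolve_left hsj
  rcases hn.mem_or_mem h2' with h | h
  · have h4 : (3 : B) ^ 3 * b ∈ n := by
      have e : (3 : B) ^ 3 * b = (t + 27 * b) - t := by ring
      rw [e]
      exact n.sub_mem h ht
    rcases hn.mem_or_mem h4 with h5 | h5
    · exact h3 (hn.mem_of_pow_mem 3 h5)
    · exact hb h5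
  · have h' : t + 243 * b ∈ n := hn.mem_of_pow_mem 3 h
    have h4 : (3 : B) ^ 5 * b ∈ n := by
      have e : (3 : B) ^ 5 * b = (t + 243 * b) - t := by ring
      rw [e]
      exact n.sub_mem h' ht
    rcases hn.mem_or_mem h4 with h5 | h5
    · exact h3 (hn.mem_of_pow_mem 5 h5)
    · exact hb h5

/-- Level 2, residue characteristic 3: `T + 64` is a unit at `n` as soon as `j` is. -/
theorem c2r18_add64 (b' sj t b : B) (hrel : b' * t ^ 2 * b = sj * (t + 256 * b) ^ 3)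
    (h3 : (3 : B) ∈ n) (ht : t ∉ n) (hb : b ∉ n) (hb' : b' ∉ n) : t + 64 * b ∉ n := by
  intro h
  have h1 : t + 256 * b ∈ n := by
    have e : t + 256 * b = (t + 64 * b) + 3 * (64 * b) := by ring
    rw [e]
    exact n.add_mem h (n.mul_mem_right _ h3)
  have h2 : b' * t ^ 2 * b ∈ n := by
    rw [hrel]
    exact n.mul_mem_left _ (n.pow_mem_of_mem h1 3 (by norm_num))
  rcases hn.mem_or_mem h2 with h4 | h4
  · rcases hn.mem_or_mem h4 with h5 | h5
    · exact hb' h5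
    · exact ht (hn.mem_of_pow_mem 2 h5)
  · exact hb h4

/-- Level 3: `T + 27` is a unit at `n` as soon as `j` is. -/
theorem c2r18_add27 (b' sj t b : B)
    (hrel : b' * t ^ 3 * b = sj * ((t + 27 * b) * (t + 243 * b) ^ 3))
    (ht : t ∉ n) (hb : b ∉ n) (hb' : b' ∉ n) : t + 27 * b ∉ n := by
  intro h
  have h2 : b' * t ^ 3 * b ∈ n := by
    rw [hrel]
    exact n.mul_mem_left _ (n.mul_mem_right _ h)
  rcases hn.mem_or_mem h2 with h4 | h4
  · rcases hn.mem_or_mem h4 with h5 | h5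
    · exact hb' h5
    · exact ht (hn.mem_of_pow_mem 3 h5)
  · exact hb h4

/-- The cover: `j = 1728` and `j = 0` cannot hold together at `n` when `1728 ∉ n`. -/
theorem c2r18_cover (b' sj t2 b2 t3 b3 : B)
    (hrel2 : (b' - 1728 * sj) * t2 ^ 2 * b2 = sj * ((t2 + 64 * b2) * (t2 - 512 * b2) ^ 2))
    (hrel3 : b' * t3 ^ 3 * b3 = sj * ((t3 + 27 * b3) * (t3 + 243 * b3) ^ 3))
    (hsj : sj ∉ n) (ht2 : t2 ∉ n) (hb2 : b2 ∉ n) (ht3 : t3 ∉ n) (hb3 : b3 ∉ n)
    (h1728 : (1728 : B) ∉ n) : t2 + 64 * b2 ∉ n ∨ t3 + 27 * b3 ∉ n := by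
  by_contra hcon
  obtain ⟨ha', hb'⟩ := not_or.mp hcon
  have ha : t2 + 64 * b2 ∈ n := not_not.mp ha'
  have hb : t3 + 27 * b3 ∈ n := not_not.mp hb'
  have h1 : b' ∈ n := by
    by_contra hb'n
    exact c2r18_add27 n b' sj t3 b3 hrel3 ht3 hb3 hb'n hb
  have h2 : (b' - 1728 * sj) * t2 ^ 2 * b2 ∈ n := by
    rw [hrel2]
    exact n.mul_mem_left _ (n.mul_mem_right _ ha)
  have h3 : b' - 1728 * sj ∈ n := by
    rcases hn.mem_or_mem h2 with h4 | h4
    · rcases hn.mem_or_mem h4 with h5 | h5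
      · exact h5
      · exact absurd (hn.mem_of_pow_mem 2 h5) ht2
    · exact absurd h4 hb2
  have h4 : 1728 * sj ∈ n := by
    have e : 1728 * sj = b' - (b' - 1728 * sj) := by ring
    rw [e]
    exact n.sub_mem h1 h3
  rcases hn.mem_or_mem h4 with h5 | h5
  · exact h1728 h5
  · exact hsj h5

end c2r18_alg

section c2r18_main

variable {R K : Type} [CommRing R] [IsDomain R] [IsDiscreteValuationRing R] [Field K]
  [NumberField K] [Algebra R K] [IsFractionRing R K] [Algebra K Q̄] [Algebra.IsAlgebraic K Q̄]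
  (M' q : ℕ) [NeZero M'] [NeZero q] (hq : q.Prime) (hM' : ¬ q ∣ M')
  [Algebra R ↥(modularFunctionFieldFullC K M')]
  [IsScalarTower R K ↥(modularFunctionFieldFullC K M')]
  [Algebra R ↥(modularFunctionFieldFullC K (M' * q))]
  [IsScalarTower R K ↥(modularFunctionFieldFullC K (M' * q))]
  [Algebra R ↥(modularFunctionFieldFullC K (M' * q * q))]
  [IsScalarTower R K ↥(modularFunctionFieldFullC K (M' * q * q))]

/-- `α₂ α₁ h₂ = h₂` at level `M' q q`. -/
theorem c2r18_alpha_h2 (h2 : 2 ∣ M') :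
    al97L_alpha K (M' * q) q (al97L_alpha K M' q (pk85_h2 K M' h2)) =
      pk85_h2 K (M' * q * q) (h2.trans ((dvd_mul_right M' q).trans (dvd_mul_right (M' * q) q))) := by
  apply Subtype.ext
  rw [al97L_alpha_coe, al97L_alpha_coe, pk85_h2_coe, pk85_h2_coe]

/-- `α₂ α₁ h₃ = h₃` at level `M' q q`. -/
theorem c2r18_alpha_h3 (h3 : 3 ∣ M') :
    al97L_alpha K (M' * q) q (al97L_alpha K M' q (pk85_h3 K M' h3)) =
      pk85_h3 K (M' * q * q) (h3.trans ((dvd_mul_right M' q).trans (dvd_mul_right (M' * q) q))) := by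
  apply Subtype.ext
  rw [al97L_alpha_coe, al97L_alpha_coe, pk85_h3_coe, pk85_h3_coe]

include hq in
/-- Denominators and relations, level 2. -/
theorem c2r18_data2 (hunit : ∀ k : ℕ, Nat.Coprime k q → IsUnit (k : R)) (h2 : 2 ∣ M')
    (hq2 : q ≠ 2)
    (B : Subalgebra R ↥(modularFunctionFieldFullC K (M' * q * q)))
    (hBint : ∀ z : ↥(modularFunctionFieldFullC K (M' * q * q)), IsIntegral B z → z ∈ B)
    (n : Ideal B) [hn : n.IsPrime] (sj : B) (hsjn : sj ∉ n)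
    (hsjJ : (sj : ↥(modularFunctionFieldFullC K (M' * q * q))) * rm90_j K (M' * q * q) ∈ B) :
    ∃ b sB t1B : B, b ∉ n ∧
      (sB : ↥(modularFunctionFieldFullC K (M' * q * q))) =
        (b : ↥(modularFunctionFieldFullC K (M' * q * q))) * c2x11_s K M' q (pk85_h2 K M' h2) ∧
      (t1B : ↥(modularFunctionFieldFullC K (M' * q * q))) =
        (b : ↥(modularFunctionFieldFullC K (M' * q * q))) *
          al97L_alpha K (M' * q) q (al97L_alpha K M' q (pk85_h2 K M' h2)) ∧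
      (⟨_, hsjJ⟩ : B) * t1B ^ 2 * b = sj * (t1B + 256 * b) ^ 3 ∧
      ((⟨_, hsjJ⟩ : B) - 1728 * sj) * t1B ^ 2 * b =
        sj * ((t1B + 64 * b) * (t1B - 512 * b) ^ 2) := by
  obtain ⟨b, sB, t1B, -, hb, hsB, ht1B, -⟩ := c2p74_den_haupt (R := R) (K := K) M' q hq hunit
    (pk85_h2 K M' h2) (Or.inl ⟨hq2, h2, rfl⟩) B hBint n sj ⟨_, hsjJ⟩ hsjn rfl
  have hrelF := pk85_h2_rel K (M' * q * q)
    (h2.trans ((dvd_mul_right M' q).trans (dvd_mul_right (M' * q) q)))
  rw [← c2r18_alpha_h2 (K := K) M' q h2] at hrelF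
  refine ⟨b, sB, t1B, hb, hsB, ht1B, ?_, ?_⟩
  · apply Subtype.ext
    show (sj : ↥(modularFunctionFieldFullC K (M' * q * q))) * rm90_j K (M' * q * q) *
        (t1B : ↥(modularFunctionFieldFullC K (M' * q * q))) ^ 2 *
        (b : ↥(modularFunctionFieldFullC K (M' * q * q))) =
      (sj : ↥(modularFunctionFieldFullC K (M' * q * q))) *
        ((t1B : ↥(modularFunctionFieldFullC K (M' * q * q))) +
          256 * (b : ↥(modularFunctionFieldFullC K (M' * q * q)))) ^ 3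
    rw [ht1B]
    linear_combination ((sj : ↥(modularFunctionFieldFullC K (M' * q * q))) *
      (b : ↥(modularFunctionFieldFullC K (M' * q * q))) ^ 3) * hrelF
  · apply Subtype.ext
    show ((sj : ↥(modularFunctionFieldFullC K (M' * q * q))) * rm90_j K (M' * q * q) -
        1728 * (sj : ↥(modularFunctionFieldFullC K (M' * q * q)))) *
        (t1B : ↥(modularFunctionFieldFullC K (M' * q * q))) ^ 2 *
        (b : ↥(modularFunctionFieldFullC K (M' * q * q))) =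
      (sj : ↥(modularFunctionFieldFullC K (M' * q * q))) *
        (((t1B : ↥(modularFunctionFieldFullC K (M' * q * q))) +
          64 * (b : ↥(modularFunctionFieldFullC K (M' * q * q)))) *
        ((t1B : ↥(modularFunctionFieldFullC K (M' * q * q))) -
          512 * (b : ↥(modularFunctionFieldFullC K (M' * q * q)))) ^ 2)
    rw [ht1B]
    linear_combination ((sj : ↥(modularFunctionFieldFullC K (M' * q * q))) *
      (b : ↥(modularFunctionFieldFullC K (M' * q * q))) ^ 3) * hrelF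

include hq in
/-- Denominators and relation, level 3. -/
theorem c2r18_data3 (hunit : ∀ k : ℕ, Nat.Coprime k q → IsUnit (k : R)) (h3 : 3 ∣ M')
    (hq3 : q ≠ 3)
    (B : Subalgebra R ↥(modularFunctionFieldFullC K (M' * q * q)))
    (hBint : ∀ z : ↥(modularFunctionFieldFullC K (M' * q * q)), IsIntegral B z → z ∈ B)
    (n : Ideal B) [hn : n.IsPrime] (sj : B) (hsjn : sj ∉ n)
    (hsjJ : (sj : ↥(modularFunctionFieldFullC K (M' * q * q))) * rm90_j K (M' * q * q) ∈ B) :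
    ∃ b sB t1B : B, b ∉ n ∧
      (sB : ↥(modularFunctionFieldFullC K (M' * q * q))) =
        (b : ↥(modularFunctionFieldFullC K (M' * q * q))) * c2x11_s K M' q (pk85_h3 K M' h3) ∧
      (t1B : ↥(modularFunctionFieldFullC K (M' * q * q))) =
        (b : ↥(modularFunctionFieldFullC K (M' * q * q))) *
          al97L_alpha K (M' * q) q (al97L_alpha K M' q (pk85_h3 K M' h3)) ∧
      (⟨_, hsjJ⟩ : B) * t1B ^ 3 * b = sj * ((t1B + 27 * b) * (t1B + 243 * b) ^ 3) := by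
  obtain ⟨b, sB, t1B, -, hb, hsB, ht1B, -⟩ := c2p74_den_haupt (R := R) (K := K) M' q hq hunit
    (pk85_h3 K M' h3) (Or.inr ⟨hq3, h3, rfl⟩) B hBint n sj ⟨_, hsjJ⟩ hsjn rfl
  have hrelF := pk85_h3_rel K (M' * q * q)
    (h3.trans ((dvd_mul_right M' q).trans (dvd_mul_right (M' * q) q)))
  rw [← c2r18_alpha_h3 (K := K) M' q h3] at hrelF
  refine ⟨b, sB, t1B, hb, hsB, ht1B, ?_⟩
  apply Subtype.ext
  show (sj : ↥(modularFunctionFieldFullC K (M' * q * q))) * rm90_j K (M' * q * q) *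
      (t1B : ↥(modularFunctionFieldFullC K (M' * q * q))) ^ 3 *
      (b : ↥(modularFunctionFieldFullC K (M' * q * q))) =
    (sj : ↥(modularFunctionFieldFullC K (M' * q * q))) *
      (((t1B : ↥(modularFunctionFieldFullC K (M' * q * q))) +
        27 * (b : ↥(modularFunctionFieldFullC K (M' * q * q)))) *
      ((t1B : ↥(modularFunctionFieldFullC K (M' * q * q))) +
        243 * (b : ↥(modularFunctionFieldFullC K (M' * q * q)))) ^ 3)
  rw [ht1B]
  linear_combination ((sj : ↥(modularFunctionFieldFullC K (M' * q * q))) *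
    (b : ↥(modularFunctionFieldFullC K (M' * q * q))) ^ 4) * hrelF


include hq hM' in
/-- The coordinate route for `x = pk85_h2 K M'`. -/
theorem c2r18_route2 (hπq : Irreducible ((q : ℕ) : R)) (h2 : 2 ∣ M')
    (V₂ : ValuationSubring ↥(modularFunctionFieldFullC K (M' * q * q)))
    (hV₂ : ∀ c ∈ cm85_Vinf (K := K) (M' * q) hπq, al97L_alpha K (M' * q) q c ∈ V₂)
    (hπ₂ : (algebraMap K ↥(modularFunctionFieldFullC K (M' * q * q)) (algebraMap R K ((q : ℕ) : R)))⁻¹ ∉ V₂)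
    (hne : cm85_Vinf (K := K) (M' * q * q) hπq ≠ V₂)
    (s : ↥(modularFunctionFieldFullC K (M' * q * q)))
    (hs : V₂.valuation s ^ (q - 1) =
      V₂.valuation (algebraMap K ↥(modularFunctionFieldFullC K (M' * q * q)) (algebraMap R K ((q : ℕ) : R))))
    (B : Subalgebra R ↥(modularFunctionFieldFullC K (M' * q * q))) (V₁ V₃ : Subring ↥(modularFunctionFieldFullC K (M' * q * q)))
    (hB₁ : ∀ y ∈ B, y ∈ V₁) (hB₂ : ∀ y ∈ B, y ∈ V₂.toSubring) (hB₃ : ∀ y ∈ B, y ∈ V₃)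
    (hsat : ∀ y ∈ B,
      (algebraMap R ↥(modularFunctionFieldFullC K (M' * q * q)) ((q : ℕ) : R))⁻¹ * y ∈ V₁ →
      (algebraMap R ↥(modularFunctionFieldFullC K (M' * q * q)) ((q : ℕ) : R))⁻¹ * y ∈ V₂.toSubring →
      (algebraMap R ↥(modularFunctionFieldFullC K (M' * q * q)) ((q : ℕ) : R))⁻¹ * y ∈ V₃ →
      (algebraMap R ↥(modularFunctionFieldFullC K (M' * q * q)) ((q : ℕ) : R))⁻¹ * y ∈ B)
    (n : Ideal B) [hn : n.IsPrime]
    (hmid : tl71_OnMid s B V₂.toSubring n)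
    (h1 : ¬ sf79_OnBr ((q : ℕ) : R) B V₁ n) (h3 : ¬ sf79_OnBr ((q : ℕ) : R) B V₃ n)
    (b sB t1B : B) (hb : b ∉ n)
    (hsB : (sB : ↥(modularFunctionFieldFullC K (M' * q * q))) = (b : ↥(modularFunctionFieldFullC K (M' * q * q))) * c2x11_s K M' q (pk85_h2 K M' h2))
    (ht1B : (t1B : ↥(modularFunctionFieldFullC K (M' * q * q))) = (b : ↥(modularFunctionFieldFullC K (M' * q * q))) *
      al97L_alpha K (M' * q) q (al97L_alpha K M' q (pk85_h2 K M' h2)))
    (he₁ : t1B ∉ n) (he₂ : t1B + 64 * b ∉ n)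
    (tU U' : B) (htU : tU ∉ n)
    (hU' : (U' : ↥(modularFunctionFieldFullC K (M' * q * q))) = (tU : ↥(modularFunctionFieldFullC K (M' * q * q))) * al97L_alpha K (M' * q) q (dq56b_U (K := K) M' q hq)) :
    mc25_MidPrinAt s B V₂.toSubring n := by
  obtain ⟨hx, hθ⟩ := c2g11_h2_exp R K M' h2
  have he₂' : ((t1B + 64 * b : B) : ↥(modularFunctionFieldFullC K (M' * q * q))) = (b : ↥(modularFunctionFieldFullC K (M' * q * q))) *
      (al97L_alpha K (M' * q) q (al97L_alpha K M' q (pk85_h2 K M' h2)) + 64) := by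
    show (t1B : ↥(modularFunctionFieldFullC K (M' * q * q))) + 64 * (b : ↥(modularFunctionFieldFullC K (M' * q * q))) = _
    rw [ht1B]
    ring
  obtain ⟨ag, tg, htg, hgn⟩ := c2g11_agtg2 (R := R) (K := K) M' q h2 B n
    (dq56b_U (K := K) M' q hq) t1B b (t1B + 64 * b) b he₁ he₂ ht1B he₂' tU U' htU hU'
  exact c2h66_prinAt (algebraMap K Q̄) M' q hq hM' hπq (Associated.refl _) V₂ hV₂ hπ₂ hne s hs
    B V₁ V₃ hB₁ hB₂ hB₃ hsat n hmid h1 h3 (pk85_h2 K M' h2) (h70_h2 R) hx hθ b sB hb hsB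
    (c2g11_G2 K M' h2) (dq56b_U (K := K) M' q hq) (c2g11_G2_mul_theta K M' h2) rfl
    ag tg htg hgn

include hq hM' in
/-- The coordinate route for `x = pk85_h3 K M'`. -/
theorem c2r18_route3 (hπq : Irreducible ((q : ℕ) : R)) (h3M : 3 ∣ M')
    (V₂ : ValuationSubring ↥(modularFunctionFieldFullC K (M' * q * q)))
    (hV₂ : ∀ c ∈ cm85_Vinf (K := K) (M' * q) hπq, al97L_alpha K (M' * q) q c ∈ V₂)
    (hπ₂ : (algebraMap K ↥(modularFunctionFieldFullC K (M' * q * q)) (algebraMap R K ((q : ℕ) : R)))⁻¹ ∉ V₂)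
    (hne : cm85_Vinf (K := K) (M' * q * q) hπq ≠ V₂)
    (s : ↥(modularFunctionFieldFullC K (M' * q * q)))
    (hs : V₂.valuation s ^ (q - 1) =
      V₂.valuation (algebraMap K ↥(modularFunctionFieldFullC K (M' * q * q)) (algebraMap R K ((q : ℕ) : R))))
    (B : Subalgebra R ↥(modularFunctionFieldFullC K (M' * q * q))) (V₁ V₃ : Subring ↥(modularFunctionFieldFullC K (M' * q * q)))
    (hB₁ : ∀ y ∈ B, y ∈ V₁) (hB₂ : ∀ y ∈ B, y ∈ V₂.toSubring) (hB₃ : ∀ y ∈ B, y ∈ V₃)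
    (hsat : ∀ y ∈ B,
      (algebraMap R ↥(modularFunctionFieldFullC K (M' * q * q)) ((q : ℕ) : R))⁻¹ * y ∈ V₁ →
      (algebraMap R ↥(modularFunctionFieldFullC K (M' * q * q)) ((q : ℕ) : R))⁻¹ * y ∈ V₂.toSubring →
      (algebraMap R ↥(modularFunctionFieldFullC K (M' * q * q)) ((q : ℕ) : R))⁻¹ * y ∈ V₃ →
      (algebraMap R ↥(modularFunctionFieldFullC K (M' * q * q)) ((q : ℕ) : R))⁻¹ * y ∈ B)
    (n : Ideal B) [hn : n.IsPrime]
    (hmid : tl71_OnMid s B V₂.toSubring n)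
    (h1 : ¬ sf79_OnBr ((q : ℕ) : R) B V₁ n) (h3 : ¬ sf79_OnBr ((q : ℕ) : R) B V₃ n)
    (b sB t1B : B) (hb : b ∉ n)
    (hsB : (sB : ↥(modularFunctionFieldFullC K (M' * q * q))) = (b : ↥(modularFunctionFieldFullC K (M' * q * q))) * c2x11_s K M' q (pk85_h3 K M' h3M))
    (ht1B : (t1B : ↥(modularFunctionFieldFullC K (M' * q * q))) = (b : ↥(modularFunctionFieldFullC K (M' * q * q))) *
      al97L_alpha K (M' * q) q (al97L_alpha K M' q (pk85_h3 K M' h3M)))
    (he₁ : t1B ∉ n) (he₂ : t1B + 27 * b ∉ n)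
    (tU U' : B) (htU : tU ∉ n)
    (hU' : (U' : ↥(modularFunctionFieldFullC K (M' * q * q))) = (tU : ↥(modularFunctionFieldFullC K (M' * q * q))) * al97L_alpha K (M' * q) q (dq56b_U (K := K) M' q hq)) :
    mc25_MidPrinAt s B V₂.toSubring n := by
  obtain ⟨hx, hθ⟩ := c2g11_h3_exp R K M' h3M
  have he₂' : ((t1B + 27 * b : B) : ↥(modularFunctionFieldFullC K (M' * q * q))) = (b : ↥(modularFunctionFieldFullC K (M' * q * q))) *
      (al97L_alpha K (M' * q) q (al97L_alpha K M' q (pk85_h3 K M' h3M)) + 27) := by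
    show (t1B : ↥(modularFunctionFieldFullC K (M' * q * q))) + 27 * (b : ↥(modularFunctionFieldFullC K (M' * q * q))) = _
    rw [ht1B]
    ring
  obtain ⟨ag, tg, htg, hgn⟩ := c2g11_agtg3 (R := R) (K := K) M' q h3M B n
    (dq56b_U (K := K) M' q hq) t1B b (t1B + 27 * b) b he₁ he₂ ht1B he₂' tU U' htU hU'
  exact c2h66_prinAt (algebraMap K Q̄) M' q hq hM' hπq (Associated.refl _) V₂ hV₂ hπ₂ hne s hs
    B V₁ V₃ hB₁ hB₂ hB₃ hsat n hmid h1 h3 (pk85_h3 K M' h3M) (h34_h3R R) hx hθ b sB hb hsB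
    (c2g11_G3 K M' h3M) (dq56b_U (K := K) M' q hq) (c2g11_G3_mul_theta K M' h3M) rfl
    ag tg htg hgn

include hq hM' in
/-- **(C2) at a `j`-regular point on the middle branch only**, any integrally closed saturated
chart inside `V₁ = cm85_Vinf`, `V₂`, `V₃`, with a regularity datum `s_j` (a unit of `V₁`). -/
theorem c2r18_prin (hπq : Irreducible ((q : ℕ) : R))
    (hunit : ∀ k : ℕ, Nat.Coprime k q → IsUnit (k : R))
    (h2 : q ≠ 2 → 2 ∣ M') (h3 : q ≠ 3 → 3 ∣ M')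
    (V₂ : ValuationSubring ↥(modularFunctionFieldFullC K (M' * q * q)))
    (hV₂ : ∀ c ∈ cm85_Vinf (K := K) (M' * q) hπq, al97L_alpha K (M' * q) q c ∈ V₂)
    (hπ₂ : (algebraMap K ↥(modularFunctionFieldFullC K (M' * q * q)) (algebraMap R K ((q : ℕ) : R)))⁻¹ ∉ V₂)
    (hne : cm85_Vinf (K := K) (M' * q * q) hπq ≠ V₂)
    (s : ↥(modularFunctionFieldFullC K (M' * q * q)))
    (hs : V₂.valuation s ^ (q - 1) =
      V₂.valuation (algebraMap K ↥(modularFunctionFieldFullC K (M' * q * q)) (algebraMap R K ((q : ℕ) : R))))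
    (V₃ : ValuationSubring ↥(modularFunctionFieldFullC K (M' * q * q)))
    (B : Subalgebra R ↥(modularFunctionFieldFullC K (M' * q * q)))
    (hBint : ∀ z : ↥(modularFunctionFieldFullC K (M' * q * q)), IsIntegral B z → z ∈ B)
    (hB₁ : ∀ y ∈ B, y ∈ (cm85_Vinf (K := K) (M' * q * q) hπq).toSubring)
    (hB₂ : ∀ y ∈ B, y ∈ V₂.toSubring) (hB₃ : ∀ y ∈ B, y ∈ V₃.toSubring)
    (hsat : ∀ y ∈ B,
      (algebraMap R ↥(modularFunctionFieldFullC K (M' * q * q)) ((q : ℕ) : R))⁻¹ * y ∈ (cm85_Vinf (K := K) (M' * q * q) hπq).toSubring →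
      (algebraMap R ↥(modularFunctionFieldFullC K (M' * q * q)) ((q : ℕ) : R))⁻¹ * y ∈ V₂.toSubring →
      (algebraMap R ↥(modularFunctionFieldFullC K (M' * q * q)) ((q : ℕ) : R))⁻¹ * y ∈ V₃.toSubring →
      (algebraMap R ↥(modularFunctionFieldFullC K (M' * q * q)) ((q : ℕ) : R))⁻¹ * y ∈ B)
    (n : Ideal B) [hn : n.IsPrime] (hπn : algebraMap R B ((q : ℕ) : R) ∈ n)
    (hmid : tl71_OnMid s B V₂.toSubring n)
    (h1 : ¬ sf79_OnBr ((q : ℕ) : R) B (cm85_Vinf (K := K) (M' * q * q) hπq).toSubring n)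
    (h3' : ¬ sf79_OnBr ((q : ℕ) : R) B V₃.toSubring n)
    (sj : B) (hsjn : sj ∉ n)
    (hsjJ : (sj : ↥(modularFunctionFieldFullC K (M' * q * q))) * rm90_j K (M' * q * q) ∈ B)
    (hsj₁ : (sj : ↥(modularFunctionFieldFullC K (M' * q * q)))⁻¹ ∈ cm85_Vinf (K := K) (M' * q * q) hπq) :
    mc25_MidPrinAt s B V₂.toSubring n := by
  classical
  have hq2 := hq.two_le
  -- numerals prime to `q` are units at `n`
  have hcop : ∀ k : ℕ, Nat.Coprime k q → ((k : ℕ) : B) ∉ n := by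
    intro k hk hkn
    have hu : IsUnit (algebraMap R B ((k : ℕ) : R)) := (hunit k hk).map (algebraMap R B)
    rw [map_natCast] at hu
    exact hn.ne_top (Ideal.eq_top_of_isUnit_mem _ hkn hu)
  have hqn : ((q : ℕ) : B) ∈ n := by
    have h := hπn
    rwa [map_natCast] at h
  -- units of `V₂`
  obtain ⟨-, -, hmaxs, -, -⟩ :=
    ob72_ram (K := K) (M' * q) q hq (dvd_mul_left q M') hπq V₂ hV₂ hπ₂ hne s hs
  have hunitV₂ : ∀ y : B, y ∉ n → (y : ↥(modularFunctionFieldFullC K (M' * q * q)))⁻¹ ∈ V₂ := by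
    intro y hy
    by_contra hcon
    apply hy
    apply hmid
    have h2' := hmaxs _ (hB₂ _ y.2) hcon
    have e : (y : ↥(modularFunctionFieldFullC K (M' * q * q))) * s⁻¹ = s⁻¹ * (y : ↥(modularFunctionFieldFullC K (M' * q * q))) := mul_comm _ _
    rw [e]
    exact h2'
  have hsj₂ : (sj : ↥(modularFunctionFieldFullC K (M' * q * q)))⁻¹ ∈ V₂ := hunitV₂ sj hsjn
  -- `n` is on the `V₂`-branch in the `π`-form
  have hπK0 : algebraMap K ↥(modularFunctionFieldFullC K (M' * q * q)) (algebraMap R K ((q : ℕ) : R)) ≠ 0 :=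
    (map_ne_zero _).mpr ((map_ne_zero_iff _ (IsFractionRing.injective R K)).mpr hπq.ne_zero)
  have hπF : algebraMap R ↥(modularFunctionFieldFullC K (M' * q * q)) ((q : ℕ) : R) = algebraMap K ↥(modularFunctionFieldFullC K (M' * q * q)) (algebraMap R K ((q : ℕ) : R)) :=
    IsScalarTower.algebraMap_apply R K _ _
  have hπ0 : algebraMap R ↥(modularFunctionFieldFullC K (M' * q * q)) ((q : ℕ) : R) ≠ 0 := by rw [hπF]; exact hπK0
  have hq1 : q - 1 ≠ 0 := by omega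
  obtain ⟨hs0, hsV, hsinv⟩ := c2h66_unif_basic V₂ s _ (q - 1) hq1 hπK0 hπ₂ hs
  have hπσ : algebraMap R ↥(modularFunctionFieldFullC K (M' * q * q)) ((q : ℕ) : R) * s⁻¹ ∈ V₂.toSubring := by
    show algebraMap R ↥(modularFunctionFieldFullC K (M' * q * q)) ((q : ℕ) : R) * s⁻¹ ∈ V₂
    rw [← V₂.valuation_le_one_iff, map_mul, map_inv₀, hπF, ← hs]
    have hvs0 : V₂.valuation s ≠ 0 := (Valuation.ne_zero_iff _).mpr hs0
    have hvs1 : V₂.valuation s ≤ 1 := (V₂.valuation_le_one_iff s).mpr hsV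
    have hqe : q - 1 = (q - 2) + 1 := by omega
    have e := pow_succ (V₂.valuation s) (q - 2)
    rw [← hqe] at e
    rw [e, mul_inv_cancel_right₀ hvs0]
    exact pow_le_one₀ zero_le' hvs1
  have hOn₂ : sf79_OnBr ((q : ℕ) : R) B V₂.toSubring n :=
    lps9_onBr_of_onMid ((q : ℕ) : R) s B V₂.toSubring hπ0 hπσ n hmid
  -- separator for `V₃`
  obtain ⟨a, ha, ha₃⟩ : ∃ a : B, a ∉ n ∧
      (algebraMap R ↥(modularFunctionFieldFullC K (M' * q * q)) ((q : ℕ) : R))⁻¹ * (a : ↥(modularFunctionFieldFullC K (M' * q * q))) ∈ V₃ := by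
    by_contra hcon
    exact h3' fun x hx => by
      by_contra hxn
      exact hcon ⟨x, hxn, hx⟩
  -- `α^* U` is a unit at `n`
  obtain ⟨tU, U', htU, hU'n, hU'⟩ := usq75_alphaU_unit_at (K := K) M' q hq hM' hπq B hBint V₂ V₃
    hV₂ hB₁ hB₂ hB₃ hsat n sj hsjn hsjJ hsj₁ hsj₂ a ha ha₃
  by_cases hq2' : q = 2
  · -- `q = 2`: level 3
    have h3M : 3 ∣ M' := h3 (by omega)
    obtain ⟨b, sB, t1B, hb, hsB, ht1B, hrel⟩ := c2r18_data3 (R := R) (K := K) M' q hq hunit h3M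
      (by omega) B hBint n sj hsjn hsjJ
    have h3n : (3 : B) ∉ n := by
      have h := hcop 3 (by rw [hq2']; decide)
      simpa using h
    have he₁ : t1B ∉ n := c2r18_unit3 n _ sj t1B b hrel hsjn hb h3n
    have hb'n : (⟨_, hsjJ⟩ : B) ∉ n := sqi75_j_unit_at (K := K) M' q hq hM' (Or.inl hq2') hπq B
      hBint V₂ V₃ hV₂ hB₁ hB₂ hB₃ hsat n hOn₂ sj hsjn hsjJ hsj₁ hsj₂ a ha ha₃
    have he₂ : t1B + 27 * b ∉ n := c2r18_add27 n _ sj t1B b hrel he₁ hb hb'n
    exact c2r18_route3 (R := R) (K := K) M' q hq hM' hπq h3M V₂ hV₂ hπ₂ hne s hs B _ _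
      hB₁ hB₂ hB₃ hsat n hmid h1 h3' b sB t1B hb hsB ht1B he₁ he₂ tU U' htU hU'
  · have h2M : 2 ∣ M' := h2 hq2'
    obtain ⟨b, sB, t1B, hb, hsB, ht1B, hrel, hrel'⟩ := c2r18_data2 (R := R) (K := K) M' q hq
      hunit h2M hq2' B hBint n sj hsjn hsjJ
    have h2n : (2 : B) ∉ n := by
      have h := hcop 2 ((Nat.coprime_primes Nat.prime_two hq).mpr (Ne.symm hq2'))
      simpa using h
    have he₁ : t1B ∉ n := c2r18_unit2 n _ sj t1B b hrel hsjn hb h2n
    by_cases hq3' : q = 3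
    · -- `q = 3`: level 2
      have h3n : (3 : B) ∈ n := by
        have e : ((q : ℕ) : B) = ((3 : ℕ) : B) := congrArg (fun k : ℕ => (k : B)) hq3'
        have h := hqn
        rw [e] at h
        simpa using h
      have hb'n : (⟨_, hsjJ⟩ : B) ∉ n := sqi75_j_unit_at (K := K) M' q hq hM' (Or.inr hq3') hπq B
        hBint V₂ V₃ hV₂ hB₁ hB₂ hB₃ hsat n hOn₂ sj hsjn hsjJ hsj₁ hsj₂ a ha ha₃
      have he₂ : t1B + 64 * b ∉ n := c2r18_add64 n _ sj t1B b hrel h3n he₁ hb hb'n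
      exact c2r18_route2 (R := R) (K := K) M' q hq hM' hπq h2M V₂ hV₂ hπ₂ hne s hs B _ _
        hB₁ hB₂ hB₃ hsat n hmid h1 h3' b sB t1B hb hsB ht1B he₁ he₂ tU U' htU hU'
    · -- `q ≥ 5`: cover
      have h3M : 3 ∣ M' := h3 hq3'
      obtain ⟨b3, sB3, t1B3, hb3, hsB3, ht1B3, hrel3⟩ := c2r18_data3 (R := R) (K := K) M' q hq
        hunit h3M hq3' B hBint n sj hsjn hsjJ
      have h3n : (3 : B) ∉ n := by
        have h := hcop 3 ((Nat.coprime_primes Nat.prime_three hq).mpr (Ne.symm hq3'))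
        simpa using h
      have he₁3 : t1B3 ∉ n := c2r18_unit3 n _ sj t1B3 b3 hrel3 hsjn hb3 h3n
      have h1728 : (1728 : B) ∉ n := by
        intro h
        have e : (1728 : B) = 2 ^ 6 * 3 ^ 3 := by norm_num
        rw [e] at h
        rcases hn.mem_or_mem h with h5 | h5
        · exact h2n (hn.mem_of_pow_mem 6 h5)
        · exact h3n (hn.mem_of_pow_mem 3 h5)
      rcases c2r18_cover n _ sj t1B b t1B3 b3 hrel' hrel3 hsjn he₁ hb he₁3 hb3 h1728 with he₂ | he₂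
      · exact c2r18_route2 (R := R) (K := K) M' q hq hM' hπq h2M V₂ hV₂ hπ₂ hne s hs B _ _
          hB₁ hB₂ hB₃ hsat n hmid h1 h3' b sB t1B hb hsB ht1B he₁ he₂ tU U' htU hU'
      · exact c2r18_route3 (R := R) (K := K) M' q hq hM' hπq h3M V₂ hV₂ hπ₂ hne s hs B _ _
          hB₁ hB₂ hB₃ hsat n hmid h1 h3' b3 sB3 t1B3 hb3 hsB3 ht1B3 he₁3 he₂ tU U' htU hU'

end c2r18_main

section c2r18_sj

variable {R K : Type} [CommRing R] [IsDomain R] [IsDiscreteValuationRing R] [Field K] [CharZero K]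
  [Algebra R K] [IsFractionRing R K] (M : ℕ) [NeZero M]
  [Algebra R ↥(modularFunctionFieldFullC K M)]
  [IsScalarTower R K ↥(modularFunctionFieldFullC K M)]

/-- Regularity datum on the chart `{h}`, level 2: `s_j = h ^ 2`. -/
theorem c2r18_sj_h2 {π : R} (hπ : Irreducible π) (h2 : 2 ∣ M)
    (n : Ideal ↥(pk15_chart R ({pk85_h2 K M h2} : Set ↥(modularFunctionFieldFullC K M))))
    [hn : n.IsPrime]
    (h2n : (2 : ↥(pk15_chart R ({pk85_h2 K M h2} : Set ↥(modularFunctionFieldFullC K M)))) ∉ n)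
    (hreg : ∃ s' b : ↥(pk15_chart R ({pk85_h2 K M h2} : Set ↥(modularFunctionFieldFullC K M))),
      s' ∉ n ∧ (s' : ↥(modularFunctionFieldFullC K M)) * rm90_j K M =
        (b : ↥(modularFunctionFieldFullC K M))) :
    ∃ sj : ↥(pk15_chart R ({pk85_h2 K M h2} : Set ↥(modularFunctionFieldFullC K M))), sj ∉ n ∧
      (sj : ↥(modularFunctionFieldFullC K M)) * rm90_j K M ∈
        pk15_chart R ({pk85_h2 K M h2} : Set ↥(modularFunctionFieldFullC K M)) ∧
      (sj : ↥(modularFunctionFieldFullC K M))⁻¹ ∈ cm85_Vinf (K := K) M hπ := by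
  obtain ⟨s', b, hs', hsb⟩ := hreg
  have hhB : pk85_h2 K M h2 ∈
      pk15_chart R ({pk85_h2 K M h2} : Set ↥(modularFunctionFieldFullC K M)) :=
    pk15_subset_chart _ (Set.mem_singleton _)
  have hrel := pk85_h2_rel K M h2
  have hinv : (pk85_h2 K M h2)⁻¹ ∈ cm85_Vinf (K := K) M hπ :=
    (cm85_facts_level2 (R := R) (K := K) M hπ h2).2.2.2.2.2.1
  have hBn : (⟨_, hhB⟩ :
      ↥(pk15_chart R ({pk85_h2 K M h2} : Set ↥(modularFunctionFieldFullC K M)))) ∉ n := by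
    intro hmem
    have e : s' * ((⟨_, hhB⟩ :
        ↥(pk15_chart R ({pk85_h2 K M h2} : Set ↥(modularFunctionFieldFullC K M)))) + 256) ^ 3 =
        b * (⟨_, hhB⟩ :
          ↥(pk15_chart R ({pk85_h2 K M h2} : Set ↥(modularFunctionFieldFullC K M)))) ^ 2 := by
      apply Subtype.ext
      show (s' : ↥(modularFunctionFieldFullC K M)) * (pk85_h2 K M h2 + 256) ^ 3 =
        (b : ↥(modularFunctionFieldFullC K M)) * pk85_h2 K M h2 ^ 2
      rw [← hsb, ← hrel]
      ring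
    have h1 : s' * ((⟨_, hhB⟩ :
        ↥(pk15_chart R ({pk85_h2 K M h2} : Set ↥(modularFunctionFieldFullC K M)))) + 256) ^ 3
        ∈ n := by
      rw [e]
      exact n.mul_mem_left _ (n.pow_mem_of_mem hmem 2 (by norm_num))
    have h2' := hn.mem_of_pow_mem 3 ((hn.mem_or_mem h1).resolve_left hs')
    have h3 : (2 : ↥(pk15_chart R ({pk85_h2 K M h2} : Set ↥(modularFunctionFieldFullC K M)))) ^ 8
        ∈ n := by
      have e2 : (2 : ↥(pk15_chart R ({pk85_h2 K M h2} : Set ↥(modularFunctionFieldFullC K M)))) ^ 8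
          = ((⟨_, hhB⟩ : ↥(pk15_chart R ({pk85_h2 K M h2} :
            Set ↥(modularFunctionFieldFullC K M)))) + 256) - ⟨_, hhB⟩ := by ring
      rw [e2]
      exact n.sub_mem h2' hmem
    exact h2n (hn.mem_of_pow_mem 8 h3)
  refine ⟨⟨_, hhB⟩ ^ 2, fun hmem => hBn (hn.mem_of_pow_mem 2 hmem), ?_, ?_⟩
  · have e : pk85_h2 K M h2 ^ 2 * rm90_j K M = (pk85_h2 K M h2 + 256) ^ 3 := by
      rw [← hrel]
      exact mul_comm _ _
    show pk85_h2 K M h2 ^ 2 * rm90_j K M ∈ _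
    rw [e]
    exact Subalgebra.pow_mem _ (Subalgebra.add_mem _ hhB (ofNat_mem _ 256)) 3
  · show (pk85_h2 K M h2 ^ 2)⁻¹ ∈ _
    rw [← inv_pow]
    exact pow_mem hinv 2

/-- Regularity datum on the chart `{h⁻¹}`, level 2: `s_j = h⁻¹`. -/
theorem c2r18_sj_h2_inv {π : R} (hπ : Irreducible π) (h2 : 2 ∣ M)
    (n : Ideal ↥(pk15_chart R ({(pk85_h2 K M h2)⁻¹} : Set ↥(modularFunctionFieldFullC K M))))
    [hn : n.IsPrime]
    (hreg : ∃ s' b : ↥(pk15_chart R ({(pk85_h2 K M h2)⁻¹} :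
        Set ↥(modularFunctionFieldFullC K M))),
      s' ∉ n ∧ (s' : ↥(modularFunctionFieldFullC K M)) * rm90_j K M =
        (b : ↥(modularFunctionFieldFullC K M))) :
    ∃ sj : ↥(pk15_chart R ({(pk85_h2 K M h2)⁻¹} : Set ↥(modularFunctionFieldFullC K M))),
      sj ∉ n ∧
      (sj : ↥(modularFunctionFieldFullC K M)) * rm90_j K M ∈
        pk15_chart R ({(pk85_h2 K M h2)⁻¹} : Set ↥(modularFunctionFieldFullC K M)) ∧
      (sj : ↥(modularFunctionFieldFullC K M))⁻¹ ∈ cm85_Vinf (K := K) M hπ := by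
  obtain ⟨s', b, hs', hsb⟩ := hreg
  have hkB : (pk85_h2 K M h2)⁻¹ ∈
      pk15_chart R ({(pk85_h2 K M h2)⁻¹} : Set ↥(modularFunctionFieldFullC K M)) :=
    pk15_subset_chart _ (Set.mem_singleton _)
  have hrel := pk85_h2_rel K M h2
  have hfac := cm85_facts_level2 (R := R) (K := K) M hπ h2
  have hh0 : pk85_h2 K M h2 ≠ 0 := cap87_ne_zero _ hfac.1
  have hmem : pk85_h2 K M h2 ∈ cm85_Vinf (K := K) M hπ := hfac.2.2.2.2.1
  have hrelk : (pk85_h2 K M h2)⁻¹ * rm90_j K M = (1 + 256 * (pk85_h2 K M h2)⁻¹) ^ 3 := by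
    have e1 : (1 + 256 * (pk85_h2 K M h2)⁻¹) ^ 3 =
        (pk85_h2 K M h2 + 256) ^ 3 * ((pk85_h2 K M h2)⁻¹) ^ 3 := by
      field_simp
    rw [e1, ← hrel]
    field_simp
  have hBn : (⟨_, hkB⟩ :
      ↥(pk15_chart R ({(pk85_h2 K M h2)⁻¹} : Set ↥(modularFunctionFieldFullC K M)))) ∉ n := by
    intro hmem'
    have e : s' * (1 + 256 * (⟨_, hkB⟩ :
        ↥(pk15_chart R ({(pk85_h2 K M h2)⁻¹} : Set ↥(modularFunctionFieldFullC K M))))) ^ 3 =
        b * (⟨_, hkB⟩ :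
          ↥(pk15_chart R ({(pk85_h2 K M h2)⁻¹} : Set ↥(modularFunctionFieldFullC K M)))) := by
      apply Subtype.ext
      show (s' : ↥(modularFunctionFieldFullC K M)) * (1 + 256 * (pk85_h2 K M h2)⁻¹) ^ 3 =
        (b : ↥(modularFunctionFieldFullC K M)) * (pk85_h2 K M h2)⁻¹
      rw [← hsb, ← hrelk]
      ring
    have h1 : s' * (1 + 256 * (⟨_, hkB⟩ :
        ↥(pk15_chart R ({(pk85_h2 K M h2)⁻¹} : Set ↥(modularFunctionFieldFullC K M))))) ^ 3
        ∈ n := by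
      rw [e]
      exact n.mul_mem_left _ hmem'
    have h2' := hn.mem_of_pow_mem 3 ((hn.mem_or_mem h1).resolve_left hs')
    apply hn.ne_top
    rw [Ideal.eq_top_iff_one]
    have e2 : (1 : ↥(pk15_chart R ({(pk85_h2 K M h2)⁻¹} : Set ↥(modularFunctionFieldFullC K M))))
        = (1 + 256 * (⟨_, hkB⟩ : ↥(pk15_chart R ({(pk85_h2 K M h2)⁻¹} :
            Set ↥(modularFunctionFieldFullC K M))))) - 256 * ⟨_, hkB⟩ := by ring
    rw [e2]
    exact n.sub_mem h2' (n.mul_mem_left _ hmem')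
  refine ⟨⟨_, hkB⟩, hBn, ?_, ?_⟩
  · show (pk85_h2 K M h2)⁻¹ * rm90_j K M ∈ _
    rw [hrelk]
    exact Subalgebra.pow_mem _ (Subalgebra.add_mem _ (Subalgebra.one_mem _)
      (Subalgebra.mul_mem _ (ofNat_mem _ 256) hkB)) 3
  · show ((pk85_h2 K M h2)⁻¹)⁻¹ ∈ _
    rw [inv_inv]
    exact hmem

/-- Regularity datum on the chart `{h}`, level 3: `s_j = h ^ 3`. -/
theorem c2r18_sj_h3 {π : R} (hπ : Irreducible π) (h3 : 3 ∣ M)
    (n : Ideal ↥(pk15_chart R ({pk85_h3 K M h3} : Set ↥(modularFunctionFieldFullC K M))))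
    [hn : n.IsPrime]
    (h3n : (3 : ↥(pk15_chart R ({pk85_h3 K M h3} : Set ↥(modularFunctionFieldFullC K M)))) ∉ n)
    (hreg : ∃ s' b : ↥(pk15_chart R ({pk85_h3 K M h3} : Set ↥(modularFunctionFieldFullC K M))),
      s' ∉ n ∧ (s' : ↥(modularFunctionFieldFullC K M)) * rm90_j K M =
        (b : ↥(modularFunctionFieldFullC K M))) :
    ∃ sj : ↥(pk15_chart R ({pk85_h3 K M h3} : Set ↥(modularFunctionFieldFullC K M))), sj ∉ n ∧
      (sj : ↥(modularFunctionFieldFullC K M)) * rm90_j K M ∈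
        pk15_chart R ({pk85_h3 K M h3} : Set ↥(modularFunctionFieldFullC K M)) ∧
      (sj : ↥(modularFunctionFieldFullC K M))⁻¹ ∈ cm85_Vinf (K := K) M hπ := by
  obtain ⟨s', b, hs', hsb⟩ := hreg
  have hhB : pk85_h3 K M h3 ∈
      pk15_chart R ({pk85_h3 K M h3} : Set ↥(modularFunctionFieldFullC K M)) :=
    pk15_subset_chart _ (Set.mem_singleton _)
  have hrel := pk85_h3_rel K M h3
  have hinv : (pk85_h3 K M h3)⁻¹ ∈ cm85_Vinf (K := K) M hπ :=
    (cm85_facts_level3 (R := R) (K := K) M hπ h3).2.2.2.2.2.1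
  have hBn : (⟨_, hhB⟩ :
      ↥(pk15_chart R ({pk85_h3 K M h3} : Set ↥(modularFunctionFieldFullC K M)))) ∉ n := by
    intro hmem
    have e : s' * (((⟨_, hhB⟩ :
        ↥(pk15_chart R ({pk85_h3 K M h3} : Set ↥(modularFunctionFieldFullC K M)))) + 27) *
        ((⟨_, hhB⟩ :
        ↥(pk15_chart R ({pk85_h3 K M h3} : Set ↥(modularFunctionFieldFullC K M)))) + 243) ^ 3) =
        b * (⟨_, hhB⟩ :
          ↥(pk15_chart R ({pk85_h3 K M h3} : Set ↥(modularFunctionFieldFullC K M)))) ^ 3 := by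
      apply Subtype.ext
      show (s' : ↥(modularFunctionFieldFullC K M)) *
          ((pk85_h3 K M h3 + 27) * (pk85_h3 K M h3 + 243) ^ 3) =
        (b : ↥(modularFunctionFieldFullC K M)) * pk85_h3 K M h3 ^ 3
      rw [← hsb, ← hrel]
      ring
    have h1 : s' * (((⟨_, hhB⟩ :
        ↥(pk15_chart R ({pk85_h3 K M h3} : Set ↥(modularFunctionFieldFullC K M)))) + 27) *
        ((⟨_, hhB⟩ :
        ↥(pk15_chart R ({pk85_h3 K M h3} : Set ↥(modularFunctionFieldFullC K M)))) + 243) ^ 3)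
        ∈ n := by
      rw [e]
      exact n.mul_mem_left _ (n.pow_mem_of_mem hmem 3 (by norm_num))
    rcases hn.mem_or_mem ((hn.mem_or_mem h1).resolve_left hs') with h | h
    · have h4 : (3 : ↥(pk15_chart R ({pk85_h3 K M h3} :
          Set ↥(modularFunctionFieldFullC K M)))) ^ 3 ∈ n := by
        have e2 : (3 : ↥(pk15_chart R ({pk85_h3 K M h3} :
            Set ↥(modularFunctionFieldFullC K M)))) ^ 3
            = ((⟨_, hhB⟩ : ↥(pk15_chart R ({pk85_h3 K M h3} :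
              Set ↥(modularFunctionFieldFullC K M)))) + 27) - ⟨_, hhB⟩ := by ring
        rw [e2]
        exact n.sub_mem h hmem
      exact h3n (hn.mem_of_pow_mem 3 h4)
    · have h' := hn.mem_of_pow_mem 3 h
      have h4 : (3 : ↥(pk15_chart R ({pk85_h3 K M h3} :
          Set ↥(modularFunctionFieldFullC K M)))) ^ 5 ∈ n := by
        have e2 : (3 : ↥(pk15_chart R ({pk85_h3 K M h3} :
            Set ↥(modularFunctionFieldFullC K M)))) ^ 5
            = ((⟨_, hhB⟩ : ↥(pk15_chart R ({pk85_h3 K M h3} :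
              Set ↥(modularFunctionFieldFullC K M)))) + 243) - ⟨_, hhB⟩ := by ring
        rw [e2]
        exact n.sub_mem h' hmem
      exact h3n (hn.mem_of_pow_mem 5 h4)
  refine ⟨⟨_, hhB⟩ ^ 3, fun hmem => hBn (hn.mem_of_pow_mem 3 hmem), ?_, ?_⟩
  · have e : pk85_h3 K M h3 ^ 3 * rm90_j K M =
        (pk85_h3 K M h3 + 27) * (pk85_h3 K M h3 + 243) ^ 3 := by
      rw [← hrel]
      exact mul_comm _ _
    show pk85_h3 K M h3 ^ 3 * rm90_j K M ∈ _
    rw [e]
    exact Subalgebra.mul_mem _ (Subalgebra.add_mem _ hhB (ofNat_mem _ 27))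
      (Subalgebra.pow_mem _ (Subalgebra.add_mem _ hhB (ofNat_mem _ 243)) 3)
  · show (pk85_h3 K M h3 ^ 3)⁻¹ ∈ _
    rw [← inv_pow]
    exact pow_mem hinv 3

/-- Regularity datum on the chart `{h⁻¹}`, level 3: `s_j = h⁻¹`. -/
theorem c2r18_sj_h3_inv {π : R} (hπ : Irreducible π) (h3 : 3 ∣ M)
    (n : Ideal ↥(pk15_chart R ({(pk85_h3 K M h3)⁻¹} : Set ↥(modularFunctionFieldFullC K M))))
    [hn : n.IsPrime]
    (hreg : ∃ s' b : ↥(pk15_chart R ({(pk85_h3 K M h3)⁻¹} :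
        Set ↥(modularFunctionFieldFullC K M))),
      s' ∉ n ∧ (s' : ↥(modularFunctionFieldFullC K M)) * rm90_j K M =
        (b : ↥(modularFunctionFieldFullC K M))) :
    ∃ sj : ↥(pk15_chart R ({(pk85_h3 K M h3)⁻¹} : Set ↥(modularFunctionFieldFullC K M))),
      sj ∉ n ∧
      (sj : ↥(modularFunctionFieldFullC K M)) * rm90_j K M ∈
        pk15_chart R ({(pk85_h3 K M h3)⁻¹} : Set ↥(modularFunctionFieldFullC K M)) ∧
      (sj : ↥(modularFunctionFieldFullC K M))⁻¹ ∈ cm85_Vinf (K := K) M hπ := by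
  obtain ⟨s', b, hs', hsb⟩ := hreg
  have hkB : (pk85_h3 K M h3)⁻¹ ∈
      pk15_chart R ({(pk85_h3 K M h3)⁻¹} : Set ↥(modularFunctionFieldFullC K M)) :=
    pk15_subset_chart _ (Set.mem_singleton _)
  have hrel := pk85_h3_rel K M h3
  have hfac := cm85_facts_level3 (R := R) (K := K) M hπ h3
  have hh0 : pk85_h3 K M h3 ≠ 0 := cap87_ne_zero _ hfac.1
  have hmem : pk85_h3 K M h3 ∈ cm85_Vinf (K := K) M hπ := hfac.2.2.2.2.1
  have hrelk : (pk85_h3 K M h3)⁻¹ * rm90_j K M =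
      (1 + 27 * (pk85_h3 K M h3)⁻¹) * (1 + 243 * (pk85_h3 K M h3)⁻¹) ^ 3 := by
    have e1 : (1 + 27 * (pk85_h3 K M h3)⁻¹) * (1 + 243 * (pk85_h3 K M h3)⁻¹) ^ 3 =
        ((pk85_h3 K M h3 + 27) * (pk85_h3 K M h3 + 243) ^ 3) * ((pk85_h3 K M h3)⁻¹) ^ 4 := by
      field_simp
    rw [e1, ← hrel]
    field_simp
  have hBn : (⟨_, hkB⟩ :
      ↥(pk15_chart R ({(pk85_h3 K M h3)⁻¹} : Set ↥(modularFunctionFieldFullC K M)))) ∉ n := by
    intro hmem'
    have e : s' * ((1 + 27 * (⟨_, hkB⟩ :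
        ↥(pk15_chart R ({(pk85_h3 K M h3)⁻¹} : Set ↥(modularFunctionFieldFullC K M))))) *
        (1 + 243 * (⟨_, hkB⟩ :
        ↥(pk15_chart R ({(pk85_h3 K M h3)⁻¹} : Set ↥(modularFunctionFieldFullC K M))))) ^ 3) =
        b * (⟨_, hkB⟩ :
          ↥(pk15_chart R ({(pk85_h3 K M h3)⁻¹} : Set ↥(modularFunctionFieldFullC K M)))) := by
      apply Subtype.ext
      show (s' : ↥(modularFunctionFieldFullC K M)) *
          ((1 + 27 * (pk85_h3 K M h3)⁻¹) * (1 + 243 * (pk85_h3 K M h3)⁻¹) ^ 3) =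
        (b : ↥(modularFunctionFieldFullC K M)) * (pk85_h3 K M h3)⁻¹
      rw [← hsb, ← hrelk]
      ring
    have h1 : s' * ((1 + 27 * (⟨_, hkB⟩ :
        ↥(pk15_chart R ({(pk85_h3 K M h3)⁻¹} : Set ↥(modularFunctionFieldFullC K M))))) *
        (1 + 243 * (⟨_, hkB⟩ :
        ↥(pk15_chart R ({(pk85_h3 K M h3)⁻¹} : Set ↥(modularFunctionFieldFullC K M))))) ^ 3)
        ∈ n := by
      rw [e]
      exact n.mul_mem_left _ hmem'
    apply hn.ne_top
    rw [Ideal.eq_top_iff_one]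
    rcases hn.mem_or_mem ((hn.mem_or_mem h1).resolve_left hs') with h | h
    · have e2 : (1 : ↥(pk15_chart R ({(pk85_h3 K M h3)⁻¹} :
          Set ↥(modularFunctionFieldFullC K M))))
          = (1 + 27 * (⟨_, hkB⟩ : ↥(pk15_chart R ({(pk85_h3 K M h3)⁻¹} :
              Set ↥(modularFunctionFieldFullC K M))))) - 27 * ⟨_, hkB⟩ := by ring
      rw [e2]
      exact n.sub_mem h (n.mul_mem_left _ hmem')
    · have h' := hn.mem_of_pow_mem 3 h
      have e2 : (1 : ↥(pk15_chart R ({(pk85_h3 K M h3)⁻¹} :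
          Set ↥(modularFunctionFieldFullC K M))))
          = (1 + 243 * (⟨_, hkB⟩ : ↥(pk15_chart R ({(pk85_h3 K M h3)⁻¹} :
              Set ↥(modularFunctionFieldFullC K M))))) - 243 * ⟨_, hkB⟩ := by ring
      rw [e2]
      exact n.sub_mem h' (n.mul_mem_left _ hmem')
  refine ⟨⟨_, hkB⟩, hBn, ?_, ?_⟩
  · show (pk85_h3 K M h3)⁻¹ * rm90_j K M ∈ _
    rw [hrelk]
    exact Subalgebra.mul_mem _ (Subalgebra.add_mem _ (Subalgebra.one_mem _)
        (Subalgebra.mul_mem _ (ofNat_mem _ 27) hkB))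
      (Subalgebra.pow_mem _ (Subalgebra.add_mem _ (Subalgebra.one_mem _)
        (Subalgebra.mul_mem _ (ofNat_mem _ 243) hkB)) 3)
  · show ((pk85_h3 K M h3)⁻¹)⁻¹ ∈ _
    rw [inv_inv]
    exact hmem

end c2r18_sj

section c2r18_canon

variable {R K : Type} [CommRing R] [IsDomain R] [IsDiscreteValuationRing R] [Field K]
  [NumberField K] [Algebra R K] [IsFractionRing R K] [Algebra K Q̄] [Algebra.IsAlgebraic K Q̄]
  (M' q : ℕ) [NeZero M'] [NeZero q] (hq : q.Prime) (hM' : ¬ q ∣ M')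
  [Algebra R ↥(modularFunctionFieldFullC K M')]
  [IsScalarTower R K ↥(modularFunctionFieldFullC K M')]
  [Algebra R ↥(modularFunctionFieldFullC K (M' * q))]
  [IsScalarTower R K ↥(modularFunctionFieldFullC K (M' * q))]
  [Algebra R ↥(modularFunctionFieldFullC K (M' * q * q))]
  [IsScalarTower R K ↥(modularFunctionFieldFullC K (M' * q * q))]

include hq hM' in
/-- **(C2) on a chart of the canonical frame**, given the regularity datum at every prime. -/
theorem c2r18_chart (hπ : Irreducible ((q : ℕ) : R))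
    (hunit : ∀ k : ℕ, Nat.Coprime k q → IsUnit (k : R))
    (h2 : q ≠ 2 → 2 ∣ M') (h3 : q ≠ 3 → 3 ∣ M')
    (V₂ : ValuationSubring ↥(modularFunctionFieldFullC K (M' * q * q)))
    (hV₂ : ∀ c ∈ cm85_Vinf (K := K) (M' * q) hπ, al97L_alpha K (M' * q) q c ∈ V₂)
    (hπ₂ : (algebraMap K ↥(modularFunctionFieldFullC K (M' * q * q)) (algebraMap R K ((q : ℕ) : R)))⁻¹ ∉ V₂)
    (hne : cm85_Vinf (K := K) (M' * q * q) hπ ≠ V₂)
    (hs : V₂.valuation (v2g64_s K M' q) ^ (q - 1) =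
      V₂.valuation (algebraMap K ↥(modularFunctionFieldFullC K (M' * q * q)) (algebraMap R K ((q : ℕ) : R))))
    (B : Subalgebra R ↥(modularFunctionFieldFullC K (M' * q * q)))
    (hBint : ∀ z : ↥(modularFunctionFieldFullC K (M' * q * q)), IsIntegral B z → z ∈ B)
    (hBW : ∀ x ∈ B, x ∈ (cm85_Vinf (K := K) (M' * q * q) hπ).toSubring ⊓ V₂.toSubring ⊓ (nsb86_V3 (K := K) M' q hq hM' hπ).toSubring)
    (hsatW : ∀ x ∈ B, (algebraMap R ↥(modularFunctionFieldFullC K (M' * q * q)) ((q : ℕ) : R))⁻¹ * x ∈ (cm85_Vinf (K := K) (M' * q * q) hπ).toSubring ⊓ V₂.toSubring ⊓ (nsb86_V3 (K := K) M' q hq hM' hπ).toSubring →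
      (algebraMap R ↥(modularFunctionFieldFullC K (M' * q * q)) ((q : ℕ) : R))⁻¹ * x ∈ B)
    (hsj : ∀ n : Ideal B, n.IsPrime → (∀ k : ℕ, Nat.Coprime k q → ((k : ℕ) : B) ∉ n) →
      (∃ s' b : B, s' ∉ n ∧ (s' : ↥(modularFunctionFieldFullC K (M' * q * q))) * rm90_j K (M' * q * q) = (b : ↥(modularFunctionFieldFullC K (M' * q * q)))) →
      ∃ sj : B, sj ∉ n ∧ (sj : ↥(modularFunctionFieldFullC K (M' * q * q))) * rm90_j K (M' * q * q) ∈ B ∧
        (sj : ↥(modularFunctionFieldFullC K (M' * q * q)))⁻¹ ∈ cm85_Vinf (K := K) (M' * q * q) hπ) :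
    ∀ n : Ideal B, n.IsMaximal → algebraMap R B ((q : ℕ) : R) ∈ n →
      tl71_OnMid (v2g64_s K M' q) B V₂.toSubring n →
      ¬ sf79_OnBr ((q : ℕ) : R) B (cm85_Vinf (K := K) (M' * q * q) hπ).toSubring n →
      ¬ sf79_OnBr ((q : ℕ) : R) B (nsb86_V3 (K := K) M' q hq hM' hπ).toSubring n →
      (∃ s' b : B, s' ∉ n ∧ (s' : ↥(modularFunctionFieldFullC K (M' * q * q))) * rm90_j K (M' * q * q) = (b : ↥(modularFunctionFieldFullC K (M' * q * q)))) →
      mc25_MidPrinAt (v2g64_s K M' q) B V₂.toSubring n := by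
  intro n hn hπn hmid h1 h3' hreg
  haveI := hn.isPrime
  have hB₁ : ∀ x ∈ B, x ∈ (cm85_Vinf (K := K) (M' * q * q) hπ).toSubring := fun x hx =>
    (Subring.mem_inf.mp (Subring.mem_inf.mp (hBW x hx)).1).1
  have hB₂ : ∀ x ∈ B, x ∈ V₂.toSubring := fun x hx =>
    (Subring.mem_inf.mp (Subring.mem_inf.mp (hBW x hx)).1).2
  have hB₃ : ∀ x ∈ B, x ∈ (nsb86_V3 (K := K) M' q hq hM' hπ).toSubring := fun x hx =>
    (Subring.mem_inf.mp (hBW x hx)).2
  have hsat : ∀ x ∈ B,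
      (algebraMap R ↥(modularFunctionFieldFullC K (M' * q * q)) ((q : ℕ) : R))⁻¹ * x ∈ (cm85_Vinf (K := K) (M' * q * q) hπ).toSubring →
      (algebraMap R ↥(modularFunctionFieldFullC K (M' * q * q)) ((q : ℕ) : R))⁻¹ * x ∈ V₂.toSubring →
      (algebraMap R ↥(modularFunctionFieldFullC K (M' * q * q)) ((q : ℕ) : R))⁻¹ * x ∈ (nsb86_V3 (K := K) M' q hq hM' hπ).toSubring →
      (algebraMap R ↥(modularFunctionFieldFullC K (M' * q * q)) ((q : ℕ) : R))⁻¹ * x ∈ B := fun x hx h1 h2 h3 =>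
    hsatW x hx (Subring.mem_inf.mpr ⟨Subring.mem_inf.mpr ⟨h1, h2⟩, h3⟩)
  have hcop : ∀ k : ℕ, Nat.Coprime k q → ((k : ℕ) : B) ∉ n := by
    intro k hk hkn
    have hu : IsUnit (algebraMap R B ((k : ℕ) : R)) := (hunit k hk).map (algebraMap R B)
    rw [map_natCast] at hu
    exact hn.ne_top (Ideal.eq_top_of_isUnit_mem _ hkn hu)
  obtain ⟨sj, hsjn, hsjJ, hsj₁⟩ := hsj n hn.isPrime hcop hreg
  exact c2r18_prin (R := R) (K := K) M' q hq hM' hπ hunit h2 h3 V₂ hV₂ hπ₂ hne (v2g64_s K M' q) hs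
    (nsb86_V3 (K := K) M' q hq hM' hπ) B hBint hB₁ hB₂ hB₃ hsat n hπn hmid h1 h3' sj hsjn hsjJ hsj₁

include hq hM' in
/-- **(C2), Hauptmodul of level 2**: `hC₁ ∧ hC₂` of `tg71_final_level2` for `π = (q : R)`. -/
theorem c2r18_hC_level2 (hπ : Irreducible ((q : ℕ) : R))
    (hunit : ∀ k : ℕ, Nat.Coprime k q → IsUnit (k : R))
    (hqR : ¬ IsUnit (q : R)) (hMu : IsUnit (M' : R)) (h2 : 2 ∣ M') (h3 : q ≠ 3 → 3 ∣ M')
    (V₂ : ValuationSubring ↥(modularFunctionFieldFullC K (M' * q * q)))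
    (hV₂ : ∀ c ∈ cm85_Vinf (K := K) (M' * q) hπ, al97L_alpha K (M' * q) q c ∈ V₂)
    (hπ₂ : (algebraMap K ↥(modularFunctionFieldFullC K (M' * q * q)) (algebraMap R K ((q : ℕ) : R)))⁻¹ ∉ V₂)
    (hne : cm85_Vinf (K := K) (M' * q * q) hπ ≠ V₂)
    (hs : V₂.valuation (v2g64_s K M' q) ^ (q - 1) =
      V₂.valuation (algebraMap K ↥(modularFunctionFieldFullC K (M' * q * q)) (algebraMap R K ((q : ℕ) : R)))) :
    (∀ n : Ideal ↥(pk15_chart R ({pk85_h2 K (M' * q * q) (h2.trans ((dvd_mul_right M' q).trans (dvd_mul_right (M' * q) q)))} : Set ↥(modularFunctionFieldFullC K (M' * q * q)))), n.IsMaximal →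
        algebraMap R ↥(pk15_chart R ({pk85_h2 K (M' * q * q) (h2.trans ((dvd_mul_right M' q).trans (dvd_mul_right (M' * q) q)))} : Set ↥(modularFunctionFieldFullC K (M' * q * q)))) ((q : ℕ) : R) ∈ n →
        tl71_OnMid (v2g64_s K M' q) (pk15_chart R ({pk85_h2 K (M' * q * q) (h2.trans ((dvd_mul_right M' q).trans (dvd_mul_right (M' * q) q)))} : Set ↥(modularFunctionFieldFullC K (M' * q * q)))) V₂.toSubring n →
        ¬ sf79_OnBr ((q : ℕ) : R) (pk15_chart R ({pk85_h2 K (M' * q * q) (h2.trans ((dvd_mul_right M' q).trans (dvd_mul_right (M' * q) q)))} : Set ↥(modularFunctionFieldFullC K (M' * q * q)))) (cm85_Vinf (K := K) (M' * q * q) hπ).toSubring n →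
        ¬ sf79_OnBr ((q : ℕ) : R) (pk15_chart R ({pk85_h2 K (M' * q * q) (h2.trans ((dvd_mul_right M' q).trans (dvd_mul_right (M' * q) q)))} : Set ↥(modularFunctionFieldFullC K (M' * q * q)))) (nsb86_V3 (K := K) M' q hq hM' hπ).toSubring n →
        (∃ s' b : ↥(pk15_chart R ({pk85_h2 K (M' * q * q) (h2.trans ((dvd_mul_right M' q).trans (dvd_mul_right (M' * q) q)))} : Set ↥(modularFunctionFieldFullC K (M' * q * q)))), s' ∉ n ∧
          (s' : ↥(modularFunctionFieldFullC K (M' * q * q))) * rm90_j K (M' * q * q) = (b : ↥(modularFunctionFieldFullC K (M' * q * q)))) →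
        mc25_MidPrinAt (v2g64_s K M' q) (pk15_chart R ({pk85_h2 K (M' * q * q) (h2.trans ((dvd_mul_right M' q).trans (dvd_mul_right (M' * q) q)))} : Set ↥(modularFunctionFieldFullC K (M' * q * q)))) V₂.toSubring n) ∧
    (∀ n : Ideal ↥(pk15_chart R ({(pk85_h2 K (M' * q * q) (h2.trans ((dvd_mul_right M' q).trans (dvd_mul_right (M' * q) q))))⁻¹} : Set ↥(modularFunctionFieldFullC K (M' * q * q)))), n.IsMaximal →
        algebraMap R ↥(pk15_chart R ({(pk85_h2 K (M' * q * q) (h2.trans ((dvd_mul_right M' q).trans (dvd_mul_right (M' * q) q))))⁻¹} : Set ↥(modularFunctionFieldFullC K (M' * q * q)))) ((q : ℕ) : R) ∈ n →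
        tl71_OnMid (v2g64_s K M' q) (pk15_chart R ({(pk85_h2 K (M' * q * q) (h2.trans ((dvd_mul_right M' q).trans (dvd_mul_right (M' * q) q))))⁻¹} : Set ↥(modularFunctionFieldFullC K (M' * q * q)))) V₂.toSubring n →
        ¬ sf79_OnBr ((q : ℕ) : R) (pk15_chart R ({(pk85_h2 K (M' * q * q) (h2.trans ((dvd_mul_right M' q).trans (dvd_mul_right (M' * q) q))))⁻¹} : Set ↥(modularFunctionFieldFullC K (M' * q * q)))) (cm85_Vinf (K := K) (M' * q * q) hπ).toSubring n →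
        ¬ sf79_OnBr ((q : ℕ) : R) (pk15_chart R ({(pk85_h2 K (M' * q * q) (h2.trans ((dvd_mul_right M' q).trans (dvd_mul_right (M' * q) q))))⁻¹} : Set ↥(modularFunctionFieldFullC K (M' * q * q)))) (nsb86_V3 (K := K) M' q hq hM' hπ).toSubring n →
        (∃ s' b : ↥(pk15_chart R ({(pk85_h2 K (M' * q * q) (h2.trans ((dvd_mul_right M' q).trans (dvd_mul_right (M' * q) q))))⁻¹} : Set ↥(modularFunctionFieldFullC K (M' * q * q)))), s' ∉ n ∧
          (s' : ↥(modularFunctionFieldFullC K (M' * q * q))) * rm90_j K (M' * q * q) = (b : ↥(modularFunctionFieldFullC K (M' * q * q)))) →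
        mc25_MidPrinAt (v2g64_s K M' q) (pk15_chart R ({(pk85_h2 K (M' * q * q) (h2.trans ((dvd_mul_right M' q).trans (dvd_mul_right (M' * q) q))))⁻¹} : Set ↥(modularFunctionFieldFullC K (M' * q * q)))) V₂.toSubring n) := by
  have hqp : q ≠ 2 := by
    intro h
    apply hM'
    rw [h]
    exact h2
  obtain ⟨-, hC, -⟩ := fb85_frameV3_level2 M' q hq hM' hπ hqR hMu h2 V₂ hV₂ hπ₂ hs
  obtain ⟨-, h12W, hsat1, hsat2, -⟩ := hC
  have hsub1 : ({pk85_h2 K (M' * q * q) (h2.trans ((dvd_mul_right M' q).trans (dvd_mul_right (M' * q) q)))} : Set ↥(modularFunctionFieldFullC K (M' * q * q))) ⊆ {pk85_h2 K (M' * q * q) (h2.trans ((dvd_mul_right M' q).trans (dvd_mul_right (M' * q) q))), (pk85_h2 K (M' * q * q) (h2.trans ((dvd_mul_right M' q).trans (dvd_mul_right (M' * q) q))))⁻¹} := by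
    intro x hx
    rw [Set.mem_singleton_iff.mp hx]
    exact Set.mem_insert _ _
  have hsub2 : ({(pk85_h2 K (M' * q * q) (h2.trans ((dvd_mul_right M' q).trans (dvd_mul_right (M' * q) q))))⁻¹} : Set ↥(modularFunctionFieldFullC K (M' * q * q))) ⊆ {pk85_h2 K (M' * q * q) (h2.trans ((dvd_mul_right M' q).trans (dvd_mul_right (M' * q) q))), (pk85_h2 K (M' * q * q) (h2.trans ((dvd_mul_right M' q).trans (dvd_mul_right (M' * q) q))))⁻¹} := by
    intro x hx
    rw [Set.mem_singleton_iff.mp hx]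
    exact Set.mem_insert_of_mem _ rfl
  refine ⟨?_, ?_⟩
  · refine c2r18_chart (R := R) (K := K) M' q hq hM' hπ hunit (fun _ => h2) h3 V₂ hV₂ hπ₂ hne hs _
      (fun z hz => ci22_chart_closed _ z hz) (fun x hx => h12W x (pk15_chart_mono hsub1 hx))
      hsat1 ?_
    intro n hn hcop hreg
    haveI := hn
    refine c2r18_sj_h2 (R := R) (K := K) (M' * q * q) hπ _ n ?_ hreg
    have h := hcop 2 ((Nat.coprime_primes Nat.prime_two hq).mpr (Ne.symm hqp))
    simpa using h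
  · refine c2r18_chart (R := R) (K := K) M' q hq hM' hπ hunit (fun _ => h2) h3 V₂ hV₂ hπ₂ hne hs _
      (fun z hz => ci22_chart_closed _ z hz) (fun x hx => h12W x (pk15_chart_mono hsub2 hx))
      hsat2 ?_
    intro n hn hcop hreg
    haveI := hn
    exact c2r18_sj_h2_inv (R := R) (K := K) (M' * q * q) hπ _ n hreg

include hq hM' in
/-- **(C2), Hauptmodul of level 3**: `hC₁ ∧ hC₂` of `tg71_final_level3` for `π = (q : R)`. -/
theorem c2r18_hC_level3 (hπ : Irreducible ((q : ℕ) : R))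
    (hunit : ∀ k : ℕ, Nat.Coprime k q → IsUnit (k : R))
    (hqR : ¬ IsUnit (q : R)) (hMu : IsUnit (M' : R)) (h3 : 3 ∣ M') (h2 : q ≠ 2 → 2 ∣ M')
    (V₂ : ValuationSubring ↥(modularFunctionFieldFullC K (M' * q * q)))
    (hV₂ : ∀ c ∈ cm85_Vinf (K := K) (M' * q) hπ, al97L_alpha K (M' * q) q c ∈ V₂)
    (hπ₂ : (algebraMap K ↥(modularFunctionFieldFullC K (M' * q * q)) (algebraMap R K ((q : ℕ) : R)))⁻¹ ∉ V₂)
    (hne : cm85_Vinf (K := K) (M' * q * q) hπ ≠ V₂)
    (hs : V₂.valuation (v2g64_s K M' q) ^ (q - 1) =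
      V₂.valuation (algebraMap K ↥(modularFunctionFieldFullC K (M' * q * q)) (algebraMap R K ((q : ℕ) : R)))) :
    (∀ n : Ideal ↥(pk15_chart R ({pk85_h3 K (M' * q * q) (h3.trans ((dvd_mul_right M' q).trans (dvd_mul_right (M' * q) q)))} : Set ↥(modularFunctionFieldFullC K (M' * q * q)))), n.IsMaximal →
        algebraMap R ↥(pk15_chart R ({pk85_h3 K (M' * q * q) (h3.trans ((dvd_mul_right M' q).trans (dvd_mul_right (M' * q) q)))} : Set ↥(modularFunctionFieldFullC K (M' * q * q)))) ((q : ℕ) : R) ∈ n →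
        tl71_OnMid (v2g64_s K M' q) (pk15_chart R ({pk85_h3 K (M' * q * q) (h3.trans ((dvd_mul_right M' q).trans (dvd_mul_right (M' * q) q)))} : Set ↥(modularFunctionFieldFullC K (M' * q * q)))) V₂.toSubring n →
        ¬ sf79_OnBr ((q : ℕ) : R) (pk15_chart R ({pk85_h3 K (M' * q * q) (h3.trans ((dvd_mul_right M' q).trans (dvd_mul_right (M' * q) q)))} : Set ↥(modularFunctionFieldFullC K (M' * q * q)))) (cm85_Vinf (K := K) (M' * q * q) hπ).toSubring n →
        ¬ sf79_OnBr ((q : ℕ) : R) (pk15_chart R ({pk85_h3 K (M' * q * q) (h3.trans ((dvd_mul_right M' q).trans (dvd_mul_right (M' * q) q)))} : Set ↥(modularFunctionFieldFullC K (M' * q * q)))) (nsb86_V3 (K := K) M' q hq hM' hπ).toSubring n →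
        (∃ s' b : ↥(pk15_chart R ({pk85_h3 K (M' * q * q) (h3.trans ((dvd_mul_right M' q).trans (dvd_mul_right (M' * q) q)))} : Set ↥(modularFunctionFieldFullC K (M' * q * q)))), s' ∉ n ∧
          (s' : ↥(modularFunctionFieldFullC K (M' * q * q))) * rm90_j K (M' * q * q) = (b : ↥(modularFunctionFieldFullC K (M' * q * q)))) →
        mc25_MidPrinAt (v2g64_s K M' q) (pk15_chart R ({pk85_h3 K (M' * q * q) (h3.trans ((dvd_mul_right M' q).trans (dvd_mul_right (M' * q) q)))} : Set ↥(modularFunctionFieldFullC K (M' * q * q)))) V₂.toSubring n) ∧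
    (∀ n : Ideal ↥(pk15_chart R ({(pk85_h3 K (M' * q * q) (h3.trans ((dvd_mul_right M' q).trans (dvd_mul_right (M' * q) q))))⁻¹} : Set ↥(modularFunctionFieldFullC K (M' * q * q)))), n.IsMaximal →
        algebraMap R ↥(pk15_chart R ({(pk85_h3 K (M' * q * q) (h3.trans ((dvd_mul_right M' q).trans (dvd_mul_right (M' * q) q))))⁻¹} : Set ↥(modularFunctionFieldFullC K (M' * q * q)))) ((q : ℕ) : R) ∈ n →
        tl71_OnMid (v2g64_s K M' q) (pk15_chart R ({(pk85_h3 K (M' * q * q) (h3.trans ((dvd_mul_right M' q).trans (dvd_mul_right (M' * q) q))))⁻¹} : Set ↥(modularFunctionFieldFullC K (M' * q * q)))) V₂.toSubring n →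
        ¬ sf79_OnBr ((q : ℕ) : R) (pk15_chart R ({(pk85_h3 K (M' * q * q) (h3.trans ((dvd_mul_right M' q).trans (dvd_mul_right (M' * q) q))))⁻¹} : Set ↥(modularFunctionFieldFullC K (M' * q * q)))) (cm85_Vinf (K := K) (M' * q * q) hπ).toSubring n →
        ¬ sf79_OnBr ((q : ℕ) : R) (pk15_chart R ({(pk85_h3 K (M' * q * q) (h3.trans ((dvd_mul_right M' q).trans (dvd_mul_right (M' * q) q))))⁻¹} : Set ↥(modularFunctionFieldFullC K (M' * q * q)))) (nsb86_V3 (K := K) M' q hq hM' hπ).toSubring n →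
        (∃ s' b : ↥(pk15_chart R ({(pk85_h3 K (M' * q * q) (h3.trans ((dvd_mul_right M' q).trans (dvd_mul_right (M' * q) q))))⁻¹} : Set ↥(modularFunctionFieldFullC K (M' * q * q)))), s' ∉ n ∧
          (s' : ↥(modularFunctionFieldFullC K (M' * q * q))) * rm90_j K (M' * q * q) = (b : ↥(modularFunctionFieldFullC K (M' * q * q)))) →
        mc25_MidPrinAt (v2g64_s K M' q) (pk15_chart R ({(pk85_h3 K (M' * q * q) (h3.trans ((dvd_mul_right M' q).trans (dvd_mul_right (M' * q) q))))⁻¹} : Set ↥(modularFunctionFieldFullC K (M' * q * q)))) V₂.toSubring n) := by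
  have hqp : q ≠ 3 := by
    intro h
    apply hM'
    rw [h]
    exact h3
  obtain ⟨-, hC, -⟩ := fb85_frameV3_level3 M' q hq hM' hπ hqR hMu h3 V₂ hV₂ hπ₂ hs
  obtain ⟨-, h12W, hsat1, hsat2, -⟩ := hC
  have hsub1 : ({pk85_h3 K (M' * q * q) (h3.trans ((dvd_mul_right M' q).trans (dvd_mul_right (M' * q) q)))} : Set ↥(modularFunctionFieldFullC K (M' * q * q))) ⊆ {pk85_h3 K (M' * q * q) (h3.trans ((dvd_mul_right M' q).trans (dvd_mul_right (M' * q) q))), (pk85_h3 K (M' * q * q) (h3.trans ((dvd_mul_right M' q).trans (dvd_mul_right (M' * q) q))))⁻¹} := by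
    intro x hx
    rw [Set.mem_singleton_iff.mp hx]
    exact Set.mem_insert _ _
  have hsub2 : ({(pk85_h3 K (M' * q * q) (h3.trans ((dvd_mul_right M' q).trans (dvd_mul_right (M' * q) q))))⁻¹} : Set ↥(modularFunctionFieldFullC K (M' * q * q))) ⊆ {pk85_h3 K (M' * q * q) (h3.trans ((dvd_mul_right M' q).trans (dvd_mul_right (M' * q) q))), (pk85_h3 K (M' * q * q) (h3.trans ((dvd_mul_right M' q).trans (dvd_mul_right (M' * q) q))))⁻¹} := by
    intro x hx
    rw [Set.mem_singleton_iff.mp hx]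
    exact Set.mem_insert_of_mem _ rfl
  refine ⟨?_, ?_⟩
  · refine c2r18_chart (R := R) (K := K) M' q hq hM' hπ hunit h2 (fun _ => h3) V₂ hV₂ hπ₂ hne hs _
      (fun z hz => ci22_chart_closed _ z hz) (fun x hx => h12W x (pk15_chart_mono hsub1 hx))
      hsat1 ?_
    intro n hn hcop hreg
    haveI := hn
    refine c2r18_sj_h3 (R := R) (K := K) (M' * q * q) hπ _ n ?_ hreg
    have h := hcop 3 ((Nat.coprime_primes Nat.prime_three hq).mpr (Ne.symm hqp))
    simpa using h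
  · refine c2r18_chart (R := R) (K := K) M' q hq hM' hπ hunit h2 (fun _ => h3) V₂ hV₂ hπ₂ hne hs _
      (fun z hz => ci22_chart_closed _ z hz) (fun x hx => h12W x (pk15_chart_mono hsub2 hx))
      hsat2 ?_
    intro n hn hcop hreg
    haveI := hn
    exact c2r18_sj_h3_inv (R := R) (K := K) (M' * q * q) hπ _ n hreg

end c2r18_canon

end Fermat.Agent.S36
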