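import Fermat.Agent.S36.C2Hreg66

/-!
# S36 lab, row C-C2 (helper66): `hreg` on the four canonical charts of level `M' q²`

`c2rc66_hreg_level2`, `c2rc66_hreg_level2_inv`, `c2rc66_hreg_level3`, `c2rc66_hreg_level3_inv` :
for `B = pk15_chart R {h}`, `{h⁻¹}`, `h = pk85_h2 K (M' q q) _` resp. `pk85_h3 K (M' q q) _`,
`π = (q : R)`, `V₁ = cm85_Vinf (M' q q)`, ANY `V₂` with the four facts of `ob72_ram`
(uniformizer datum `s`), any valuation subring `V₃`, `B ⊆ V₁ ⊓ V₂ ⊓ V₃` saturated: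
at every maximal ideal `n ∋ π` on the middle branch only where `j` is regular
(`∃ s' b, s' ∉ n ∧ s' * j = b`), the middle branch is principal: `mc25_MidPrinAt s B V₂ n`
(the hypothesis `hreg` of `mc25_hD2_level2/3(_inv)`, `mc25_tg_level2/3`, `tg71_one_level2/3`).

All names are prefixed `c2rc66_`.
-/

set_option autoImplicit false
set_option linter.unusedSectionVars false
set_option linter.style.haveILetI false
set_option linter.style.longLine false
set_option linter.unusedVariables false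
set_option linter.unusedSimpArgs false

open ModularCurve IntermediateField

namespace Fermat.Agent.S36

open Fermat.Agent.S18 Fermat.Agent.S24 Fermat.Agent.S28 Fermat.Agent.S37 Fermat.Agent.S34
open Fermat.Agent.S35 Fermat.Agent.S36.TripleLoc71

local notation "Q̄" => AlgebraicClosure ℚ

section c2rc66_abs

variable {R F : Type*} [CommRing R] [Field F] [Algebra R F]

/-- Chart `{H}`, level 2: `sc = H²`. -/
theorem c2rc66_sc_two (B : Subalgebra R F) (n : Ideal B) [hn : n.IsPrime] (j H : F)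
    (hrel : j * H ^ 2 = (H + 256) ^ 3) (Hb : B) (hHb : (Hb : F) = H)
    (s' b' : B) (hs' : s' ∉ n) (hsj : (s' : F) * j = (b' : F))
    (h2 : ((2 : ℕ) : B) ∉ n) :
    Hb ^ 2 ∉ n ∧ ((Hb ^ 2 : B) : F) * j ∈ B := by
  have hc : ∀ k : ℕ, (((k : ℕ) : B) : F) = (k : F) := fun k => SubringClass.coe_natCast B k
  refine ⟨fun h => ?_, ?_⟩
  · have hHn : Hb ∈ n := hn.mem_of_pow_mem 2 h
    have key : b' * Hb ^ 2 = s' * (Hb + ((256 : ℕ) : B)) ^ 3 := by
      apply Subtype.ext
      simp only [Subalgebra.coe_add, Subalgebra.coe_mul, Subalgebra.coe_pow, hc]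
      simp only [Nat.cast_ofNat]
      rw [← hsj, hHb]
      linear_combination (s' : F) * hrel
    have h1 : s' * (Hb + ((256 : ℕ) : B)) ^ 3 ∈ n := by
      rw [← key]
      exact n.mul_mem_left _ h
    have h2' : Hb + ((256 : ℕ) : B) ∈ n :=
      hn.mem_of_pow_mem 3 ((hn.mem_or_mem h1).resolve_left hs')
    have h3 : ((256 : ℕ) : B) ∈ n := by
      have := n.sub_mem h2' hHn
      simpa using this
    apply h2
    have e : ((256 : ℕ) : B) = ((2 : ℕ) : B) ^ 8 := by push_cast; norm_num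
    rw [e] at h3
    exact hn.mem_of_pow_mem 8 h3
  · have e : ((Hb ^ 2 : B) : F) * j = (((Hb + ((256 : ℕ) : B)) ^ 3 : B) : F) := by
      simp only [Subalgebra.coe_add, Subalgebra.coe_pow, hc]
      simp only [Nat.cast_ofNat]
      rw [hHb]
      linear_combination hrel
    rw [e]
    exact Subtype.mem _

/-- Chart `{H⁻¹}`, level 2: `sc = H⁻¹`. -/
theorem c2rc66_sc_two_inv (B : Subalgebra R F) (n : Ideal B) [hn : n.IsPrime] (j H : F)
    (hH0 : H ≠ 0) (hrel : j * H ^ 2 = (H + 256) ^ 3) (kb : B) (hkb : (kb : F) = H⁻¹)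
    (s' b' : B) (hs' : s' ∉ n) (hsj : (s' : F) * j = (b' : F)) :
    kb ∉ n ∧ (kb : F) * j ∈ B := by
  have hc : ∀ k : ℕ, (((k : ℕ) : B) : F) = (k : F) := fun k => SubringClass.coe_natCast B k
  have hjk : H⁻¹ * j = (1 + 256 * H⁻¹) ^ 3 := by
    have h3 : H ^ 3 ≠ 0 := pow_ne_zero 3 hH0
    field_simp
    linear_combination hrel
  refine ⟨fun h => ?_, ?_⟩
  · have key : b' * kb = s' * (1 + ((256 : ℕ) : B) * kb) ^ 3 := by
      apply Subtype.ext
      simp only [Subalgebra.coe_add, Subalgebra.coe_mul, Subalgebra.coe_pow, Subalgebra.coe_one,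
        hc]
      simp only [Nat.cast_ofNat]
      rw [← hsj, hkb]
      linear_combination (s' : F) * hjk
    have h1 : s' * (1 + ((256 : ℕ) : B) * kb) ^ 3 ∈ n := by
      rw [← key]
      exact n.mul_mem_left _ h
    have h2' : 1 + ((256 : ℕ) : B) * kb ∈ n :=
      hn.mem_of_pow_mem 3 ((hn.mem_or_mem h1).resolve_left hs')
    apply hn.ne_top
    rw [Ideal.eq_top_iff_one]
    have := n.sub_mem h2' (n.mul_mem_left ((256 : ℕ) : B) h)
    simpa using this
  · have e : (kb : F) * j = (((1 + ((256 : ℕ) : B) * kb) ^ 3 : B) : F) := by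
      simp only [Subalgebra.coe_add, Subalgebra.coe_mul, Subalgebra.coe_pow, Subalgebra.coe_one,
        hc]
      simp only [Nat.cast_ofNat]
      rw [hkb]
      exact hjk
    rw [e]
    exact Subtype.mem _

/-- Chart `{H}`, level 3: `sc = H³`. -/
theorem c2rc66_sc_three (B : Subalgebra R F) (n : Ideal B) [hn : n.IsPrime] (j H : F)
    (hrel : j * H ^ 3 = (H + 27) * (H + 243) ^ 3) (Hb : B) (hHb : (Hb : F) = H)
    (s' b' : B) (hs' : s' ∉ n) (hsj : (s' : F) * j = (b' : F))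
    (h3 : ((3 : ℕ) : B) ∉ n) :
    Hb ^ 3 ∉ n ∧ ((Hb ^ 3 : B) : F) * j ∈ B := by
  have hc : ∀ k : ℕ, (((k : ℕ) : B) : F) = (k : F) := fun k => SubringClass.coe_natCast B k
  refine ⟨fun h => ?_, ?_⟩
  · have hHn : Hb ∈ n := hn.mem_of_pow_mem 3 h
    have key : b' * Hb ^ 3 =
        s' * ((Hb + ((27 : ℕ) : B)) * (Hb + ((243 : ℕ) : B)) ^ 3) := by
      apply Subtype.ext
      simp only [Subalgebra.coe_add, Subalgebra.coe_mul, Subalgebra.coe_pow, hc]
      simp only [Nat.cast_ofNat]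
      rw [← hsj, hHb]
      linear_combination (s' : F) * hrel
    have h1 : s' * ((Hb + ((27 : ℕ) : B)) * (Hb + ((243 : ℕ) : B)) ^ 3) ∈ n := by
      rw [← key]
      exact n.mul_mem_left _ h
    have h1' := (hn.mem_or_mem h1).resolve_left hs'
    rcases hn.mem_or_mem h1' with h | h
    · apply h3
      have h27 : ((27 : ℕ) : B) ∈ n := by
        have := n.sub_mem h hHn
        simpa using this
      have e : ((27 : ℕ) : B) = ((3 : ℕ) : B) ^ 3 := by push_cast; norm_num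
      rw [e] at h27
      exact hn.mem_of_pow_mem 3 h27
    · apply h3
      have h243 : ((243 : ℕ) : B) ∈ n := by
        have := n.sub_mem (hn.mem_of_pow_mem 3 h) hHn
        simpa using this
      have e : ((243 : ℕ) : B) = ((3 : ℕ) : B) ^ 5 := by push_cast; norm_num
      rw [e] at h243
      exact hn.mem_of_pow_mem 5 h243
  · have e : ((Hb ^ 3 : B) : F) * j =
        ((((Hb + ((27 : ℕ) : B)) * (Hb + ((243 : ℕ) : B)) ^ 3 : B)) : F) := by
      simp only [Subalgebra.coe_add, Subalgebra.coe_mul, Subalgebra.coe_pow, hc]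
      simp only [Nat.cast_ofNat]
      rw [hHb]
      linear_combination hrel
    rw [e]
    exact Subtype.mem _

/-- Chart `{H⁻¹}`, level 3: `sc = H⁻¹`. -/
theorem c2rc66_sc_three_inv (B : Subalgebra R F) (n : Ideal B) [hn : n.IsPrime] (j H : F)
    (hH0 : H ≠ 0) (hrel : j * H ^ 3 = (H + 27) * (H + 243) ^ 3) (kb : B)
    (hkb : (kb : F) = H⁻¹)
    (s' b' : B) (hs' : s' ∉ n) (hsj : (s' : F) * j = (b' : F)) :
    kb ∉ n ∧ (kb : F) * j ∈ B := by
  have hc : ∀ k : ℕ, (((k : ℕ) : B) : F) = (k : F) := fun k => SubringClass.coe_natCast B k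
  have hjk : H⁻¹ * j = (1 + 27 * H⁻¹) * (1 + 243 * H⁻¹) ^ 3 := by
    have h3 : H ^ 4 ≠ 0 := pow_ne_zero 4 hH0
    field_simp
    linear_combination hrel
  refine ⟨fun h => ?_, ?_⟩
  · have key : b' * kb =
        s' * ((1 + ((27 : ℕ) : B) * kb) * (1 + ((243 : ℕ) : B) * kb) ^ 3) := by
      apply Subtype.ext
      simp only [Subalgebra.coe_add, Subalgebra.coe_mul, Subalgebra.coe_pow, Subalgebra.coe_one,
        hc]
      simp only [Nat.cast_ofNat]
      rw [← hsj, hkb]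
      linear_combination (s' : F) * hjk
    have h1 : s' * ((1 + ((27 : ℕ) : B) * kb) * (1 + ((243 : ℕ) : B) * kb) ^ 3) ∈ n := by
      rw [← key]
      exact n.mul_mem_left _ h
    have h1' := (hn.mem_or_mem h1).resolve_left hs'
    apply hn.ne_top
    rw [Ideal.eq_top_iff_one]
    rcases hn.mem_or_mem h1' with h' | h'
    · have := n.sub_mem h' (n.mul_mem_left ((27 : ℕ) : B) h)
      simpa using this
    · have := n.sub_mem (hn.mem_of_pow_mem 3 h') (n.mul_mem_left ((243 : ℕ) : B) h)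
      simpa using this
  · have e : (kb : F) * j =
        ((((1 + ((27 : ℕ) : B) * kb) * (1 + ((243 : ℕ) : B) * kb) ^ 3 : B)) : F) := by
      simp only [Subalgebra.coe_add, Subalgebra.coe_mul, Subalgebra.coe_pow, Subalgebra.coe_one,
        hc]
      simp only [Nat.cast_ofNat]
      rw [hkb]
      exact hjk
    rw [e]
    exact Subtype.mem _

end c2rc66_abs

section c2rc66_gauss

variable {R K : Type} [CommRing R] [IsDomain R] [IsDiscreteValuationRing R] [Field K] [CharZero K]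
  [Algebra R K] [IsFractionRing R K] (M : ℕ) [NeZero M]
  [Algebra R ↥(modularFunctionFieldFullC K M)]
  [IsScalarTower R K ↥(modularFunctionFieldFullC K M)]

/-- The level-2 Hauptmodul is a unit of the Gauss ring. -/
theorem c2rc66_h2_gauss {π : R} (hπ : Irreducible π) (h2 : 2 ∣ M) :
    pk85_h2 K M h2 ∈ cm85_Vinf (K := K) M hπ ∧ (pk85_h2 K M h2)⁻¹ ∈ cm85_Vinf (K := K) M hπ := by
  refine ⟨(pk85_gauss M hπ _ (h70_h2 R) (h70_coeffMap_h2 (algebraMap R K)).symm).1,
    (pk85_gauss M hπ _ (h70_h2inv R) ?_).1⟩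
  rw [h70_coeffMap_h2inv]
  have h1 : ((pk85_h2 K M h2 : ↥(modularFunctionFieldFullC K M)) : LaurentSeries K) *
      h70_h2inv K = 1 := h70_h2_mul_h2inv K
  have h0 : ((pk85_h2 K M h2 : ↥(modularFunctionFieldFullC K M)) : LaurentSeries K) ≠ 0 :=
    left_ne_zero_of_mul_eq_one h1
  push_cast
  exact inv_eq_of_mul_eq_one_right h1

/-- The level-3 Hauptmodul is a unit of the Gauss ring. -/
theorem c2rc66_h3_gauss {π : R} (hπ : Irreducible π) (h3 : 3 ∣ M) :
    pk85_h3 K M h3 ∈ cm85_Vinf (K := K) M hπ ∧ (pk85_h3 K M h3)⁻¹ ∈ cm85_Vinf (K := K) M hπ := by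
  refine ⟨(pk85_gauss M hπ _ (h34_h3R R) (h34_coeffMap_h3R (algebraMap R K)).symm).1,
    (pk85_gauss M hπ _ (h34_h3Rinv R) ?_).1⟩
  rw [h34_coeffMap_h3Rinv]
  have h1 : ((pk85_h3 K M h3 : ↥(modularFunctionFieldFullC K M)) : LaurentSeries K) *
      h34_h3Rinv K = 1 := h34_h3R_mul_inv K
  push_cast
  exact inv_eq_of_mul_eq_one_right h1

end c2rc66_gauss

section c2rc66_charts

variable {R K : Type} [CommRing R] [IsDomain R] [IsDiscreteValuationRing R] [Field K] [CharZero K]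
  [Algebra R K] [IsFractionRing R K] [Algebra K Q̄]
  (M' q : ℕ) [NeZero M'] [NeZero q] (hq : q.Prime) (hM' : ¬ q ∣ M')
  [Algebra R ↥(modularFunctionFieldFullC K (M' * q))]
  [IsScalarTower R K ↥(modularFunctionFieldFullC K (M' * q))]
  [Algebra R ↥(modularFunctionFieldFullC K (M' * q * q))]
  [IsScalarTower R K ↥(modularFunctionFieldFullC K (M' * q * q))]

omit [IsDomain R] [IsDiscreteValuationRing R] [IsFractionRing R K] [Algebra K Q̄]
  [CommRing R] [Algebra R K]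
  [Algebra R ↥(modularFunctionFieldFullC K (M' * q))]
  [IsScalarTower R K ↥(modularFunctionFieldFullC K (M' * q))]
  [Algebra R ↥(modularFunctionFieldFullC K (M' * q * q))]
  [IsScalarTower R K ↥(modularFunctionFieldFullC K (M' * q * q))] in
theorem c2rc66_alpha_h2 (h2 : 2 ∣ M' * q) (h2' : 2 ∣ M' * q * q) :
    al97L_alpha K (M' * q) q (pk85_h2 K (M' * q) h2) = pk85_h2 K (M' * q * q) h2' := by
  apply Subtype.ext
  rw [al97L_alpha_coe]
  rfl

omit [IsDomain R] [IsDiscreteValuationRing R] [IsFractionRing R K] [Algebra K Q̄]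
  [CommRing R] [Algebra R K]
  [Algebra R ↥(modularFunctionFieldFullC K (M' * q))]
  [IsScalarTower R K ↥(modularFunctionFieldFullC K (M' * q))]
  [Algebra R ↥(modularFunctionFieldFullC K (M' * q * q))]
  [IsScalarTower R K ↥(modularFunctionFieldFullC K (M' * q * q))] in
theorem c2rc66_alpha_h3 (h3 : 3 ∣ M' * q) (h3' : 3 ∣ M' * q * q) :
    al97L_alpha K (M' * q) q (pk85_h3 K (M' * q) h3) = pk85_h3 K (M' * q * q) h3' := by
  apply Subtype.ext
  rw [al97L_alpha_coe]
  rfl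

include hq hM' in
/-- **`hreg` on the chart `{h}`, Hauptmodul of level 2.** -/
theorem c2rc66_hreg_level2 (hπq : Irreducible ((q : ℕ) : R))
    (hunit : ∀ n : ℕ, Nat.Coprime n q → IsUnit (n : R)) (h2 : 2 ∣ M') (h3o : q ≠ 3 → 3 ∣ M')
    (V₂ : ValuationSubring ↥(modularFunctionFieldFullC K (M' * q * q)))
    (hV₂ : ∀ c ∈ cm85_Vinf (K := K) (M' * q) hπq, al97L_alpha K (M' * q) q c ∈ V₂)
    (hπ₂ : (algebraMap K ↥(modularFunctionFieldFullC K (M' * q * q))
      (algebraMap R K ((q : ℕ) : R)))⁻¹ ∉ V₂)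
    (hne : cm85_Vinf (K := K) (M' * q * q) hπq ≠ V₂)
    (s : ↥(modularFunctionFieldFullC K (M' * q * q)))
    (hs : V₂.valuation s ^ (q - 1) =
      V₂.valuation (algebraMap K ↥(modularFunctionFieldFullC K (M' * q * q))
        (algebraMap R K ((q : ℕ) : R))))
    (V₃ : ValuationSubring ↥(modularFunctionFieldFullC K (M' * q * q)))
    (hB₁ : ∀ x ∈ (pk15_chart R ({pk85_h2 K (M' * q * q) (h2.trans ((dvd_mul_right M' q).trans (dvd_mul_right (M' * q) q)))} : Set ↥(modularFunctionFieldFullC K (M' * q * q)))), x ∈ cm85_Vinf (K := K) (M' * q * q) hπq)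
    (hB₂ : ∀ x ∈ (pk15_chart R ({pk85_h2 K (M' * q * q) (h2.trans ((dvd_mul_right M' q).trans (dvd_mul_right (M' * q) q)))} : Set ↥(modularFunctionFieldFullC K (M' * q * q)))), x ∈ V₂)
    (hB₃ : ∀ x ∈ (pk15_chart R ({pk85_h2 K (M' * q * q) (h2.trans ((dvd_mul_right M' q).trans (dvd_mul_right (M' * q) q)))} : Set ↥(modularFunctionFieldFullC K (M' * q * q)))), x ∈ V₃)
    (hsat : ∀ x ∈ (pk15_chart R ({pk85_h2 K (M' * q * q) (h2.trans ((dvd_mul_right M' q).trans (dvd_mul_right (M' * q) q)))} : Set ↥(modularFunctionFieldFullC K (M' * q * q)))),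
      (algebraMap R ↥(modularFunctionFieldFullC K (M' * q * q)) ((q : ℕ) : R))⁻¹ * x ∈
        cm85_Vinf (K := K) (M' * q * q) hπq →
      (algebraMap R ↥(modularFunctionFieldFullC K (M' * q * q)) ((q : ℕ) : R))⁻¹ * x ∈ V₂ →
      (algebraMap R ↥(modularFunctionFieldFullC K (M' * q * q)) ((q : ℕ) : R))⁻¹ * x ∈ V₃ →
      (algebraMap R ↥(modularFunctionFieldFullC K (M' * q * q)) ((q : ℕ) : R))⁻¹ * x ∈ (pk15_chart R ({pk85_h2 K (M' * q * q) (h2.trans ((dvd_mul_right M' q).trans (dvd_mul_right (M' * q) q)))} : Set ↥(modularFunctionFieldFullC K (M' * q * q)))))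
    (n : Ideal (pk15_chart R ({pk85_h2 K (M' * q * q) (h2.trans ((dvd_mul_right M' q).trans (dvd_mul_right (M' * q) q)))} : Set ↥(modularFunctionFieldFullC K (M' * q * q))))) (hn : n.IsMaximal)
    (hπn : algebraMap R (pk15_chart R ({pk85_h2 K (M' * q * q) (h2.trans ((dvd_mul_right M' q).trans (dvd_mul_right (M' * q) q)))} : Set ↥(modularFunctionFieldFullC K (M' * q * q)))) ((q : ℕ) : R) ∈ n)
    (hmid : tl71_OnMid s (pk15_chart R ({pk85_h2 K (M' * q * q) (h2.trans ((dvd_mul_right M' q).trans (dvd_mul_right (M' * q) q)))} : Set ↥(modularFunctionFieldFullC K (M' * q * q)))) V₂.toSubring n)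
    (h1 : ¬ sf79_OnBr ((q : ℕ) : R) (pk15_chart R ({pk85_h2 K (M' * q * q) (h2.trans ((dvd_mul_right M' q).trans (dvd_mul_right (M' * q) q)))} : Set ↥(modularFunctionFieldFullC K (M' * q * q))))
      (cm85_Vinf (K := K) (M' * q * q) hπq).toSubring n)
    (h3 : ¬ sf79_OnBr ((q : ℕ) : R) (pk15_chart R ({pk85_h2 K (M' * q * q) (h2.trans ((dvd_mul_right M' q).trans (dvd_mul_right (M' * q) q)))} : Set ↥(modularFunctionFieldFullC K (M' * q * q)))) V₃.toSubring n)
    (hreg : ∃ s' b : (pk15_chart R ({pk85_h2 K (M' * q * q) (h2.trans ((dvd_mul_right M' q).trans (dvd_mul_right (M' * q) q)))} : Set ↥(modularFunctionFieldFullC K (M' * q * q)))), s' ∉ n ∧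
      (s' : ↥(modularFunctionFieldFullC K (M' * q * q))) * rm90_j K (M' * q * q) = (b : ↥(modularFunctionFieldFullC K (M' * q * q)))) :
    mc25_MidPrinAt s (pk15_chart R ({pk85_h2 K (M' * q * q) (h2.trans ((dvd_mul_right M' q).trans (dvd_mul_right (M' * q) q)))} : Set ↥(modularFunctionFieldFullC K (M' * q * q)))) V₂.toSubring n := by
  haveI := hn.isPrime
  letI : Algebra R ↥(modularFunctionFieldFullC K M') :=
    ((algebraMap K ↥(modularFunctionFieldFullC K M')).comp (algebraMap R K)).toAlgebra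
  haveI : IsScalarTower R K ↥(modularFunctionFieldFullC K M') :=
    IsScalarTower.of_algebraMap_eq (fun _ => rfl)
  obtain ⟨s', b', hs', hsj⟩ := hreg
  have hq2 : q ≠ 2 := by
    rintro rfl
    exact hM' h2
  have hqn : ((q : ℕ) : (pk15_chart R ({pk85_h2 K (M' * q * q) (h2.trans ((dvd_mul_right M' q).trans (dvd_mul_right (M' * q) q)))} : Set ↥(modularFunctionFieldFullC K (M' * q * q))))) ∈ n := by
    rw [← map_natCast (algebraMap R (pk15_chart R ({pk85_h2 K (M' * q * q) (h2.trans ((dvd_mul_right M' q).trans (dvd_mul_right (M' * q) q)))} : Set ↥(modularFunctionFieldFullC K (M' * q * q)))))]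
    exact hπn
  have hpn := c2r66_prime_not_mem (pk15_chart R ({pk85_h2 K (M' * q * q) (h2.trans ((dvd_mul_right M' q).trans (dvd_mul_right (M' * q) q)))} : Set ↥(modularFunctionFieldFullC K (M' * q * q)))) n q 2 hq Nat.prime_two (Ne.symm hq2) hqn
  have hg1 := c2rc66_h2_gauss (K := K) (M' * q * q) hπq (h2.trans ((dvd_mul_right M' q).trans (dvd_mul_right (M' * q) q)))
  have hg0 := c2rc66_h2_gauss (K := K) (M' * q) hπq (h2.trans (dvd_mul_right M' q))
  have hα := c2rc66_alpha_h2 (K := K) M' q (h2.trans (dvd_mul_right M' q)) (h2.trans ((dvd_mul_right M' q).trans (dvd_mul_right (M' * q) q)))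
  have hHB : pk85_h2 K (M' * q * q) (h2.trans ((dvd_mul_right M' q).trans (dvd_mul_right (M' * q) q))) ∈ (pk15_chart R ({pk85_h2 K (M' * q * q) (h2.trans ((dvd_mul_right M' q).trans (dvd_mul_right (M' * q) q)))} : Set ↥(modularFunctionFieldFullC K (M' * q * q)))) := pk15_subset_chart _ (Set.mem_singleton _)
  obtain ⟨hsc, hscj⟩ := c2rc66_sc_two (pk15_chart R ({pk85_h2 K (M' * q * q) (h2.trans ((dvd_mul_right M' q).trans (dvd_mul_right (M' * q) q)))} : Set ↥(modularFunctionFieldFullC K (M' * q * q)))) n (rm90_j K (M' * q * q)) (pk85_h2 K (M' * q * q) (h2.trans ((dvd_mul_right M' q).trans (dvd_mul_right (M' * q) q)))) (pk85_h2_rel K (M' * q * q) (h2.trans ((dvd_mul_right M' q).trans (dvd_mul_right (M' * q) q))))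
    ⟨_, hHB⟩ rfl s' b' hs' hsj hpn
  have hsc₁ : (((⟨_, hHB⟩ : (pk15_chart R ({pk85_h2 K (M' * q * q) (h2.trans ((dvd_mul_right M' q).trans (dvd_mul_right (M' * q) q)))} : Set ↥(modularFunctionFieldFullC K (M' * q * q))))) ^ 2 : (pk15_chart R ({pk85_h2 K (M' * q * q) (h2.trans ((dvd_mul_right M' q).trans (dvd_mul_right (M' * q) q)))} : Set ↥(modularFunctionFieldFullC K (M' * q * q))))) : ↥(modularFunctionFieldFullC K (M' * q * q)))⁻¹ ∈
      cm85_Vinf (K := K) (M' * q * q) hπq := by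
    have e : (((⟨_, hHB⟩ : (pk15_chart R ({pk85_h2 K (M' * q * q) (h2.trans ((dvd_mul_right M' q).trans (dvd_mul_right (M' * q) q)))} : Set ↥(modularFunctionFieldFullC K (M' * q * q))))) ^ 2 : (pk15_chart R ({pk85_h2 K (M' * q * q) (h2.trans ((dvd_mul_right M' q).trans (dvd_mul_right (M' * q) q)))} : Set ↥(modularFunctionFieldFullC K (M' * q * q))))) : ↥(modularFunctionFieldFullC K (M' * q * q)))⁻¹ = ((pk85_h2 K (M' * q * q) (h2.trans ((dvd_mul_right M' q).trans (dvd_mul_right (M' * q) q))))⁻¹) ^ 2 := by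
      rw [Subalgebra.coe_pow, inv_pow]
    rw [e]
    exact pow_mem hg1.2 2
  have hsc₂ : (((⟨_, hHB⟩ : (pk15_chart R ({pk85_h2 K (M' * q * q) (h2.trans ((dvd_mul_right M' q).trans (dvd_mul_right (M' * q) q)))} : Set ↥(modularFunctionFieldFullC K (M' * q * q))))) ^ 2 : (pk15_chart R ({pk85_h2 K (M' * q * q) (h2.trans ((dvd_mul_right M' q).trans (dvd_mul_right (M' * q) q)))} : Set ↥(modularFunctionFieldFullC K (M' * q * q))))) : ↥(modularFunctionFieldFullC K (M' * q * q)))⁻¹ ∈ V₂ := by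
    have e : (((⟨_, hHB⟩ : (pk15_chart R ({pk85_h2 K (M' * q * q) (h2.trans ((dvd_mul_right M' q).trans (dvd_mul_right (M' * q) q)))} : Set ↥(modularFunctionFieldFullC K (M' * q * q))))) ^ 2 : (pk15_chart R ({pk85_h2 K (M' * q * q) (h2.trans ((dvd_mul_right M' q).trans (dvd_mul_right (M' * q) q)))} : Set ↥(modularFunctionFieldFullC K (M' * q * q))))) : ↥(modularFunctionFieldFullC K (M' * q * q)))⁻¹ =
        (al97L_alpha K (M' * q) q (pk85_h2 K (M' * q) (h2.trans (dvd_mul_right M' q)))⁻¹) ^ 2 := by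
      rw [Subalgebra.coe_pow, map_inv₀, hα, inv_pow]
    rw [e]
    exact pow_mem (hV₂ _ hg0.2) 2
  exact c2r66_core M' q hq hM' hπq hunit (fun _ => h2) h3o V₂ hV₂ hπ₂ hne s hs (pk15_chart R ({pk85_h2 K (M' * q * q) (h2.trans ((dvd_mul_right M' q).trans (dvd_mul_right (M' * q) q)))} : Set ↥(modularFunctionFieldFullC K (M' * q * q))))
    (fun z hz => uv17_chart_intClosed _ z hz) V₃ hB₁ hB₂ hB₃ hsat n hqn hmid h1 h3
    ((⟨_, hHB⟩ : (pk15_chart R ({pk85_h2 K (M' * q * q) (h2.trans ((dvd_mul_right M' q).trans (dvd_mul_right (M' * q) q)))} : Set ↥(modularFunctionFieldFullC K (M' * q * q))))) ^ 2) hsc hscj hsc₁ hsc₂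

include hq hM' in
/-- **`hreg` on the chart `{h⁻¹}`, Hauptmodul of level 2.** -/
theorem c2rc66_hreg_level2_inv (hπq : Irreducible ((q : ℕ) : R))
    (hunit : ∀ n : ℕ, Nat.Coprime n q → IsUnit (n : R)) (h2 : 2 ∣ M') (h3o : q ≠ 3 → 3 ∣ M')
    (V₂ : ValuationSubring ↥(modularFunctionFieldFullC K (M' * q * q)))
    (hV₂ : ∀ c ∈ cm85_Vinf (K := K) (M' * q) hπq, al97L_alpha K (M' * q) q c ∈ V₂)
    (hπ₂ : (algebraMap K ↥(modularFunctionFieldFullC K (M' * q * q))
      (algebraMap R K ((q : ℕ) : R)))⁻¹ ∉ V₂)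
    (hne : cm85_Vinf (K := K) (M' * q * q) hπq ≠ V₂)
    (s : ↥(modularFunctionFieldFullC K (M' * q * q)))
    (hs : V₂.valuation s ^ (q - 1) =
      V₂.valuation (algebraMap K ↥(modularFunctionFieldFullC K (M' * q * q))
        (algebraMap R K ((q : ℕ) : R))))
    (V₃ : ValuationSubring ↥(modularFunctionFieldFullC K (M' * q * q)))
    (hB₁ : ∀ x ∈ (pk15_chart R ({(pk85_h2 K (M' * q * q) (h2.trans ((dvd_mul_right M' q).trans (dvd_mul_right (M' * q) q))))⁻¹} : Set ↥(modularFunctionFieldFullC K (M' * q * q)))), x ∈ cm85_Vinf (K := K) (M' * q * q) hπq)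
    (hB₂ : ∀ x ∈ (pk15_chart R ({(pk85_h2 K (M' * q * q) (h2.trans ((dvd_mul_right M' q).trans (dvd_mul_right (M' * q) q))))⁻¹} : Set ↥(modularFunctionFieldFullC K (M' * q * q)))), x ∈ V₂)
    (hB₃ : ∀ x ∈ (pk15_chart R ({(pk85_h2 K (M' * q * q) (h2.trans ((dvd_mul_right M' q).trans (dvd_mul_right (M' * q) q))))⁻¹} : Set ↥(modularFunctionFieldFullC K (M' * q * q)))), x ∈ V₃)
    (hsat : ∀ x ∈ (pk15_chart R ({(pk85_h2 K (M' * q * q) (h2.trans ((dvd_mul_right M' q).trans (dvd_mul_right (M' * q) q))))⁻¹} : Set ↥(modularFunctionFieldFullC K (M' * q * q)))),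
      (algebraMap R ↥(modularFunctionFieldFullC K (M' * q * q)) ((q : ℕ) : R))⁻¹ * x ∈
        cm85_Vinf (K := K) (M' * q * q) hπq →
      (algebraMap R ↥(modularFunctionFieldFullC K (M' * q * q)) ((q : ℕ) : R))⁻¹ * x ∈ V₂ →
      (algebraMap R ↥(modularFunctionFieldFullC K (M' * q * q)) ((q : ℕ) : R))⁻¹ * x ∈ V₃ →
      (algebraMap R ↥(modularFunctionFieldFullC K (M' * q * q)) ((q : ℕ) : R))⁻¹ * x ∈ (pk15_chart R ({(pk85_h2 K (M' * q * q) (h2.trans ((dvd_mul_right M' q).trans (dvd_mul_right (M' * q) q))))⁻¹} : Set ↥(modularFunctionFieldFullC K (M' * q * q)))))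
    (n : Ideal (pk15_chart R ({(pk85_h2 K (M' * q * q) (h2.trans ((dvd_mul_right M' q).trans (dvd_mul_right (M' * q) q))))⁻¹} : Set ↥(modularFunctionFieldFullC K (M' * q * q))))) (hn : n.IsMaximal)
    (hπn : algebraMap R (pk15_chart R ({(pk85_h2 K (M' * q * q) (h2.trans ((dvd_mul_right M' q).trans (dvd_mul_right (M' * q) q))))⁻¹} : Set ↥(modularFunctionFieldFullC K (M' * q * q)))) ((q : ℕ) : R) ∈ n)
    (hmid : tl71_OnMid s (pk15_chart R ({(pk85_h2 K (M' * q * q) (h2.trans ((dvd_mul_right M' q).trans (dvd_mul_right (M' * q) q))))⁻¹} : Set ↥(modularFunctionFieldFullC K (M' * q * q)))) V₂.toSubring n)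
    (h1 : ¬ sf79_OnBr ((q : ℕ) : R) (pk15_chart R ({(pk85_h2 K (M' * q * q) (h2.trans ((dvd_mul_right M' q).trans (dvd_mul_right (M' * q) q))))⁻¹} : Set ↥(modularFunctionFieldFullC K (M' * q * q))))
      (cm85_Vinf (K := K) (M' * q * q) hπq).toSubring n)
    (h3 : ¬ sf79_OnBr ((q : ℕ) : R) (pk15_chart R ({(pk85_h2 K (M' * q * q) (h2.trans ((dvd_mul_right M' q).trans (dvd_mul_right (M' * q) q))))⁻¹} : Set ↥(modularFunctionFieldFullC K (M' * q * q)))) V₃.toSubring n)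
    (hreg : ∃ s' b : (pk15_chart R ({(pk85_h2 K (M' * q * q) (h2.trans ((dvd_mul_right M' q).trans (dvd_mul_right (M' * q) q))))⁻¹} : Set ↥(modularFunctionFieldFullC K (M' * q * q)))), s' ∉ n ∧
      (s' : ↥(modularFunctionFieldFullC K (M' * q * q))) * rm90_j K (M' * q * q) = (b : ↥(modularFunctionFieldFullC K (M' * q * q)))) :
    mc25_MidPrinAt s (pk15_chart R ({(pk85_h2 K (M' * q * q) (h2.trans ((dvd_mul_right M' q).trans (dvd_mul_right (M' * q) q))))⁻¹} : Set ↥(modularFunctionFieldFullC K (M' * q * q)))) V₂.toSubring n := by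
  haveI := hn.isPrime
  letI : Algebra R ↥(modularFunctionFieldFullC K M') :=
    ((algebraMap K ↥(modularFunctionFieldFullC K M')).comp (algebraMap R K)).toAlgebra
  haveI : IsScalarTower R K ↥(modularFunctionFieldFullC K M') :=
    IsScalarTower.of_algebraMap_eq (fun _ => rfl)
  obtain ⟨s', b', hs', hsj⟩ := hreg
  have hq2 : q ≠ 2 := by
    rintro rfl
    exact hM' h2
  have hqn : ((q : ℕ) : (pk15_chart R ({(pk85_h2 K (M' * q * q) (h2.trans ((dvd_mul_right M' q).trans (dvd_mul_right (M' * q) q))))⁻¹} : Set ↥(modularFunctionFieldFullC K (M' * q * q))))) ∈ n := by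
    rw [← map_natCast (algebraMap R (pk15_chart R ({(pk85_h2 K (M' * q * q) (h2.trans ((dvd_mul_right M' q).trans (dvd_mul_right (M' * q) q))))⁻¹} : Set ↥(modularFunctionFieldFullC K (M' * q * q)))))]
    exact hπn
  have hpn := c2r66_prime_not_mem (pk15_chart R ({(pk85_h2 K (M' * q * q) (h2.trans ((dvd_mul_right M' q).trans (dvd_mul_right (M' * q) q))))⁻¹} : Set ↥(modularFunctionFieldFullC K (M' * q * q)))) n q 2 hq Nat.prime_two (Ne.symm hq2) hqn
  have hg1 := c2rc66_h2_gauss (K := K) (M' * q * q) hπq (h2.trans ((dvd_mul_right M' q).trans (dvd_mul_right (M' * q) q)))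
  have hg0 := c2rc66_h2_gauss (K := K) (M' * q) hπq (h2.trans (dvd_mul_right M' q))
  have hα := c2rc66_alpha_h2 (K := K) M' q (h2.trans (dvd_mul_right M' q)) (h2.trans ((dvd_mul_right M' q).trans (dvd_mul_right (M' * q) q)))
  have hkB : (pk85_h2 K (M' * q * q) (h2.trans ((dvd_mul_right M' q).trans (dvd_mul_right (M' * q) q))))⁻¹ ∈ (pk15_chart R ({(pk85_h2 K (M' * q * q) (h2.trans ((dvd_mul_right M' q).trans (dvd_mul_right (M' * q) q))))⁻¹} : Set ↥(modularFunctionFieldFullC K (M' * q * q)))) := pk15_subset_chart _ (Set.mem_singleton _)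
  have hH0 : pk85_h2 K (M' * q * q) (h2.trans ((dvd_mul_right M' q).trans (dvd_mul_right (M' * q) q))) ≠ 0 := by
    intro h0
    have h0' := congrArg (fun y : ↥(modularFunctionFieldFullC K (M' * q * q)) => (y : LaurentSeries K)) h0
    exact (h70_h2_ne_zero K) h0'
  obtain ⟨hsc, hscj⟩ := c2rc66_sc_two_inv (pk15_chart R ({(pk85_h2 K (M' * q * q) (h2.trans ((dvd_mul_right M' q).trans (dvd_mul_right (M' * q) q))))⁻¹} : Set ↥(modularFunctionFieldFullC K (M' * q * q)))) n (rm90_j K (M' * q * q)) (pk85_h2 K (M' * q * q) (h2.trans ((dvd_mul_right M' q).trans (dvd_mul_right (M' * q) q)))) hH0 (pk85_h2_rel K (M' * q * q) (h2.trans ((dvd_mul_right M' q).trans (dvd_mul_right (M' * q) q))))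
    ⟨_, hkB⟩ rfl s' b' hs' hsj
  have hsc₁ : ((⟨_, hkB⟩ : (pk15_chart R ({(pk85_h2 K (M' * q * q) (h2.trans ((dvd_mul_right M' q).trans (dvd_mul_right (M' * q) q))))⁻¹} : Set ↥(modularFunctionFieldFullC K (M' * q * q))))) : ↥(modularFunctionFieldFullC K (M' * q * q)))⁻¹ ∈
      cm85_Vinf (K := K) (M' * q * q) hπq := by
    have e : ((⟨_, hkB⟩ : (pk15_chart R ({(pk85_h2 K (M' * q * q) (h2.trans ((dvd_mul_right M' q).trans (dvd_mul_right (M' * q) q))))⁻¹} : Set ↥(modularFunctionFieldFullC K (M' * q * q))))) : ↥(modularFunctionFieldFullC K (M' * q * q)))⁻¹ = pk85_h2 K (M' * q * q) (h2.trans ((dvd_mul_right M' q).trans (dvd_mul_right (M' * q) q))) := inv_inv _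
    rw [e]
    exact hg1.1
  have hsc₂ : ((⟨_, hkB⟩ : (pk15_chart R ({(pk85_h2 K (M' * q * q) (h2.trans ((dvd_mul_right M' q).trans (dvd_mul_right (M' * q) q))))⁻¹} : Set ↥(modularFunctionFieldFullC K (M' * q * q))))) : ↥(modularFunctionFieldFullC K (M' * q * q)))⁻¹ ∈ V₂ := by
    have e : ((⟨_, hkB⟩ : (pk15_chart R ({(pk85_h2 K (M' * q * q) (h2.trans ((dvd_mul_right M' q).trans (dvd_mul_right (M' * q) q))))⁻¹} : Set ↥(modularFunctionFieldFullC K (M' * q * q))))) : ↥(modularFunctionFieldFullC K (M' * q * q)))⁻¹ =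
        al97L_alpha K (M' * q) q (pk85_h2 K (M' * q) (h2.trans (dvd_mul_right M' q))) := by
      rw [hα]
      exact inv_inv _
    rw [e]
    exact hV₂ _ hg0.1
  exact c2r66_core M' q hq hM' hπq hunit (fun _ => h2) h3o V₂ hV₂ hπ₂ hne s hs (pk15_chart R ({(pk85_h2 K (M' * q * q) (h2.trans ((dvd_mul_right M' q).trans (dvd_mul_right (M' * q) q))))⁻¹} : Set ↥(modularFunctionFieldFullC K (M' * q * q))))
    (fun z hz => uv17_chart_intClosed _ z hz) V₃ hB₁ hB₂ hB₃ hsat n hqn hmid h1 h3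
    (⟨_, hkB⟩ : (pk15_chart R ({(pk85_h2 K (M' * q * q) (h2.trans ((dvd_mul_right M' q).trans (dvd_mul_right (M' * q) q))))⁻¹} : Set ↥(modularFunctionFieldFullC K (M' * q * q))))) hsc hscj hsc₁ hsc₂

include hq hM' in
/-- **`hreg` on the chart `{h}`, Hauptmodul of level 3.** -/
theorem c2rc66_hreg_level3 (hπq : Irreducible ((q : ℕ) : R))
    (hunit : ∀ n : ℕ, Nat.Coprime n q → IsUnit (n : R)) (h3d : 3 ∣ M') (h2o : q ≠ 2 → 2 ∣ M')
    (V₂ : ValuationSubring ↥(modularFunctionFieldFullC K (M' * q * q)))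
    (hV₂ : ∀ c ∈ cm85_Vinf (K := K) (M' * q) hπq, al97L_alpha K (M' * q) q c ∈ V₂)
    (hπ₂ : (algebraMap K ↥(modularFunctionFieldFullC K (M' * q * q))
      (algebraMap R K ((q : ℕ) : R)))⁻¹ ∉ V₂)
    (hne : cm85_Vinf (K := K) (M' * q * q) hπq ≠ V₂)
    (s : ↥(modularFunctionFieldFullC K (M' * q * q)))
    (hs : V₂.valuation s ^ (q - 1) =
      V₂.valuation (algebraMap K ↥(modularFunctionFieldFullC K (M' * q * q))
        (algebraMap R K ((q : ℕ) : R))))
    (V₃ : ValuationSubring ↥(modularFunctionFieldFullC K (M' * q * q)))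
    (hB₁ : ∀ x ∈ (pk15_chart R ({pk85_h3 K (M' * q * q) (h3d.trans ((dvd_mul_right M' q).trans (dvd_mul_right (M' * q) q)))} : Set ↥(modularFunctionFieldFullC K (M' * q * q)))), x ∈ cm85_Vinf (K := K) (M' * q * q) hπq)
    (hB₂ : ∀ x ∈ (pk15_chart R ({pk85_h3 K (M' * q * q) (h3d.trans ((dvd_mul_right M' q).trans (dvd_mul_right (M' * q) q)))} : Set ↥(modularFunctionFieldFullC K (M' * q * q)))), x ∈ V₂)
    (hB₃ : ∀ x ∈ (pk15_chart R ({pk85_h3 K (M' * q * q) (h3d.trans ((dvd_mul_right M' q).trans (dvd_mul_right (M' * q) q)))} : Set ↥(modularFunctionFieldFullC K (M' * q * q)))), x ∈ V₃)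
    (hsat : ∀ x ∈ (pk15_chart R ({pk85_h3 K (M' * q * q) (h3d.trans ((dvd_mul_right M' q).trans (dvd_mul_right (M' * q) q)))} : Set ↥(modularFunctionFieldFullC K (M' * q * q)))),
      (algebraMap R ↥(modularFunctionFieldFullC K (M' * q * q)) ((q : ℕ) : R))⁻¹ * x ∈
        cm85_Vinf (K := K) (M' * q * q) hπq →
      (algebraMap R ↥(modularFunctionFieldFullC K (M' * q * q)) ((q : ℕ) : R))⁻¹ * x ∈ V₂ →
      (algebraMap R ↥(modularFunctionFieldFullC K (M' * q * q)) ((q : ℕ) : R))⁻¹ * x ∈ V₃ →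
      (algebraMap R ↥(modularFunctionFieldFullC K (M' * q * q)) ((q : ℕ) : R))⁻¹ * x ∈ (pk15_chart R ({pk85_h3 K (M' * q * q) (h3d.trans ((dvd_mul_right M' q).trans (dvd_mul_right (M' * q) q)))} : Set ↥(modularFunctionFieldFullC K (M' * q * q)))))
    (n : Ideal (pk15_chart R ({pk85_h3 K (M' * q * q) (h3d.trans ((dvd_mul_right M' q).trans (dvd_mul_right (M' * q) q)))} : Set ↥(modularFunctionFieldFullC K (M' * q * q))))) (hn : n.IsMaximal)
    (hπn : algebraMap R (pk15_chart R ({pk85_h3 K (M' * q * q) (h3d.trans ((dvd_mul_right M' q).trans (dvd_mul_right (M' * q) q)))} : Set ↥(modularFunctionFieldFullC K (M' * q * q)))) ((q : ℕ) : R) ∈ n)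
    (hmid : tl71_OnMid s (pk15_chart R ({pk85_h3 K (M' * q * q) (h3d.trans ((dvd_mul_right M' q).trans (dvd_mul_right (M' * q) q)))} : Set ↥(modularFunctionFieldFullC K (M' * q * q)))) V₂.toSubring n)
    (h1 : ¬ sf79_OnBr ((q : ℕ) : R) (pk15_chart R ({pk85_h3 K (M' * q * q) (h3d.trans ((dvd_mul_right M' q).trans (dvd_mul_right (M' * q) q)))} : Set ↥(modularFunctionFieldFullC K (M' * q * q))))
      (cm85_Vinf (K := K) (M' * q * q) hπq).toSubring n)
    (h3 : ¬ sf79_OnBr ((q : ℕ) : R) (pk15_chart R ({pk85_h3 K (M' * q * q) (h3d.trans ((dvd_mul_right M' q).trans (dvd_mul_right (M' * q) q)))} : Set ↥(modularFunctionFieldFullC K (M' * q * q)))) V₃.toSubring n)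
    (hreg : ∃ s' b : (pk15_chart R ({pk85_h3 K (M' * q * q) (h3d.trans ((dvd_mul_right M' q).trans (dvd_mul_right (M' * q) q)))} : Set ↥(modularFunctionFieldFullC K (M' * q * q)))), s' ∉ n ∧
      (s' : ↥(modularFunctionFieldFullC K (M' * q * q))) * rm90_j K (M' * q * q) = (b : ↥(modularFunctionFieldFullC K (M' * q * q)))) :
    mc25_MidPrinAt s (pk15_chart R ({pk85_h3 K (M' * q * q) (h3d.trans ((dvd_mul_right M' q).trans (dvd_mul_right (M' * q) q)))} : Set ↥(modularFunctionFieldFullC K (M' * q * q)))) V₂.toSubring n := by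
  haveI := hn.isPrime
  letI : Algebra R ↥(modularFunctionFieldFullC K M') :=
    ((algebraMap K ↥(modularFunctionFieldFullC K M')).comp (algebraMap R K)).toAlgebra
  haveI : IsScalarTower R K ↥(modularFunctionFieldFullC K M') :=
    IsScalarTower.of_algebraMap_eq (fun _ => rfl)
  obtain ⟨s', b', hs', hsj⟩ := hreg
  have hq3 : q ≠ 3 := by
    rintro rfl
    exact hM' h3d
  have hqn : ((q : ℕ) : (pk15_chart R ({pk85_h3 K (M' * q * q) (h3d.trans ((dvd_mul_right M' q).trans (dvd_mul_right (M' * q) q)))} : Set ↥(modularFunctionFieldFullC K (M' * q * q))))) ∈ n := by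
    rw [← map_natCast (algebraMap R (pk15_chart R ({pk85_h3 K (M' * q * q) (h3d.trans ((dvd_mul_right M' q).trans (dvd_mul_right (M' * q) q)))} : Set ↥(modularFunctionFieldFullC K (M' * q * q)))))]
    exact hπn
  have hpn := c2r66_prime_not_mem (pk15_chart R ({pk85_h3 K (M' * q * q) (h3d.trans ((dvd_mul_right M' q).trans (dvd_mul_right (M' * q) q)))} : Set ↥(modularFunctionFieldFullC K (M' * q * q)))) n q 3 hq Nat.prime_three (Ne.symm hq3) hqn
  have hg1 := c2rc66_h3_gauss (K := K) (M' * q * q) hπq (h3d.trans ((dvd_mul_right M' q).trans (dvd_mul_right (M' * q) q)))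
  have hg0 := c2rc66_h3_gauss (K := K) (M' * q) hπq (h3d.trans (dvd_mul_right M' q))
  have hα := c2rc66_alpha_h3 (K := K) M' q (h3d.trans (dvd_mul_right M' q)) (h3d.trans ((dvd_mul_right M' q).trans (dvd_mul_right (M' * q) q)))
  have hHB : pk85_h3 K (M' * q * q) (h3d.trans ((dvd_mul_right M' q).trans (dvd_mul_right (M' * q) q))) ∈ (pk15_chart R ({pk85_h3 K (M' * q * q) (h3d.trans ((dvd_mul_right M' q).trans (dvd_mul_right (M' * q) q)))} : Set ↥(modularFunctionFieldFullC K (M' * q * q)))) := pk15_subset_chart _ (Set.mem_singleton _)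
  obtain ⟨hsc, hscj⟩ := c2rc66_sc_three (pk15_chart R ({pk85_h3 K (M' * q * q) (h3d.trans ((dvd_mul_right M' q).trans (dvd_mul_right (M' * q) q)))} : Set ↥(modularFunctionFieldFullC K (M' * q * q)))) n (rm90_j K (M' * q * q)) (pk85_h3 K (M' * q * q) (h3d.trans ((dvd_mul_right M' q).trans (dvd_mul_right (M' * q) q)))) (pk85_h3_rel K (M' * q * q) (h3d.trans ((dvd_mul_right M' q).trans (dvd_mul_right (M' * q) q))))
    ⟨_, hHB⟩ rfl s' b' hs' hsj hpn
  have hsc₁ : (((⟨_, hHB⟩ : (pk15_chart R ({pk85_h3 K (M' * q * q) (h3d.trans ((dvd_mul_right M' q).trans (dvd_mul_right (M' * q) q)))} : Set ↥(modularFunctionFieldFullC K (M' * q * q))))) ^ 3 : (pk15_chart R ({pk85_h3 K (M' * q * q) (h3d.trans ((dvd_mul_right M' q).trans (dvd_mul_right (M' * q) q)))} : Set ↥(modularFunctionFieldFullC K (M' * q * q))))) : ↥(modularFunctionFieldFullC K (M' * q * q)))⁻¹ ∈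
      cm85_Vinf (K := K) (M' * q * q) hπq := by
    have e : (((⟨_, hHB⟩ : (pk15_chart R ({pk85_h3 K (M' * q * q) (h3d.trans ((dvd_mul_right M' q).trans (dvd_mul_right (M' * q) q)))} : Set ↥(modularFunctionFieldFullC K (M' * q * q))))) ^ 3 : (pk15_chart R ({pk85_h3 K (M' * q * q) (h3d.trans ((dvd_mul_right M' q).trans (dvd_mul_right (M' * q) q)))} : Set ↥(modularFunctionFieldFullC K (M' * q * q))))) : ↥(modularFunctionFieldFullC K (M' * q * q)))⁻¹ = ((pk85_h3 K (M' * q * q) (h3d.trans ((dvd_mul_right M' q).trans (dvd_mul_right (M' * q) q))))⁻¹) ^ 3 := by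
      rw [Subalgebra.coe_pow, inv_pow]
    rw [e]
    exact pow_mem hg1.2 3
  have hsc₂ : (((⟨_, hHB⟩ : (pk15_chart R ({pk85_h3 K (M' * q * q) (h3d.trans ((dvd_mul_right M' q).trans (dvd_mul_right (M' * q) q)))} : Set ↥(modularFunctionFieldFullC K (M' * q * q))))) ^ 3 : (pk15_chart R ({pk85_h3 K (M' * q * q) (h3d.trans ((dvd_mul_right M' q).trans (dvd_mul_right (M' * q) q)))} : Set ↥(modularFunctionFieldFullC K (M' * q * q))))) : ↥(modularFunctionFieldFullC K (M' * q * q)))⁻¹ ∈ V₂ := by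
    have e : (((⟨_, hHB⟩ : (pk15_chart R ({pk85_h3 K (M' * q * q) (h3d.trans ((dvd_mul_right M' q).trans (dvd_mul_right (M' * q) q)))} : Set ↥(modularFunctionFieldFullC K (M' * q * q))))) ^ 3 : (pk15_chart R ({pk85_h3 K (M' * q * q) (h3d.trans ((dvd_mul_right M' q).trans (dvd_mul_right (M' * q) q)))} : Set ↥(modularFunctionFieldFullC K (M' * q * q))))) : ↥(modularFunctionFieldFullC K (M' * q * q)))⁻¹ =
        (al97L_alpha K (M' * q) q (pk85_h3 K (M' * q) (h3d.trans (dvd_mul_right M' q)))⁻¹) ^ 3 := by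
      rw [Subalgebra.coe_pow, map_inv₀, hα, inv_pow]
    rw [e]
    exact pow_mem (hV₂ _ hg0.2) 3
  exact c2r66_core M' q hq hM' hπq hunit h2o (fun _ => h3d) V₂ hV₂ hπ₂ hne s hs (pk15_chart R ({pk85_h3 K (M' * q * q) (h3d.trans ((dvd_mul_right M' q).trans (dvd_mul_right (M' * q) q)))} : Set ↥(modularFunctionFieldFullC K (M' * q * q))))
    (fun z hz => uv17_chart_intClosed _ z hz) V₃ hB₁ hB₂ hB₃ hsat n hqn hmid h1 h3
    ((⟨_, hHB⟩ : (pk15_chart R ({pk85_h3 K (M' * q * q) (h3d.trans ((dvd_mul_right M' q).trans (dvd_mul_right (M' * q) q)))} : Set ↥(modularFunctionFieldFullC K (M' * q * q))))) ^ 3) hsc hscj hsc₁ hsc₂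

include hq hM' in
/-- **`hreg` on the chart `{h⁻¹}`, Hauptmodul of level 3.** -/
theorem c2rc66_hreg_level3_inv (hπq : Irreducible ((q : ℕ) : R))
    (hunit : ∀ n : ℕ, Nat.Coprime n q → IsUnit (n : R)) (h3d : 3 ∣ M') (h2o : q ≠ 2 → 2 ∣ M')
    (V₂ : ValuationSubring ↥(modularFunctionFieldFullC K (M' * q * q)))
    (hV₂ : ∀ c ∈ cm85_Vinf (K := K) (M' * q) hπq, al97L_alpha K (M' * q) q c ∈ V₂)
    (hπ₂ : (algebraMap K ↥(modularFunctionFieldFullC K (M' * q * q))
      (algebraMap R K ((q : ℕ) : R)))⁻¹ ∉ V₂)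
    (hne : cm85_Vinf (K := K) (M' * q * q) hπq ≠ V₂)
    (s : ↥(modularFunctionFieldFullC K (M' * q * q)))
    (hs : V₂.valuation s ^ (q - 1) =
      V₂.valuation (algebraMap K ↥(modularFunctionFieldFullC K (M' * q * q))
        (algebraMap R K ((q : ℕ) : R))))
    (V₃ : ValuationSubring ↥(modularFunctionFieldFullC K (M' * q * q)))
    (hB₁ : ∀ x ∈ (pk15_chart R ({(pk85_h3 K (M' * q * q) (h3d.trans ((dvd_mul_right M' q).trans (dvd_mul_right (M' * q) q))))⁻¹} : Set ↥(modularFunctionFieldFullC K (M' * q * q)))), x ∈ cm85_Vinf (K := K) (M' * q * q) hπq)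
    (hB₂ : ∀ x ∈ (pk15_chart R ({(pk85_h3 K (M' * q * q) (h3d.trans ((dvd_mul_right M' q).trans (dvd_mul_right (M' * q) q))))⁻¹} : Set ↥(modularFunctionFieldFullC K (M' * q * q)))), x ∈ V₂)
    (hB₃ : ∀ x ∈ (pk15_chart R ({(pk85_h3 K (M' * q * q) (h3d.trans ((dvd_mul_right M' q).trans (dvd_mul_right (M' * q) q))))⁻¹} : Set ↥(modularFunctionFieldFullC K (M' * q * q)))), x ∈ V₃)
    (hsat : ∀ x ∈ (pk15_chart R ({(pk85_h3 K (M' * q * q) (h3d.trans ((dvd_mul_right M' q).trans (dvd_mul_right (M' * q) q))))⁻¹} : Set ↥(modularFunctionFieldFullC K (M' * q * q)))),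
      (algebraMap R ↥(modularFunctionFieldFullC K (M' * q * q)) ((q : ℕ) : R))⁻¹ * x ∈
        cm85_Vinf (K := K) (M' * q * q) hπq →
      (algebraMap R ↥(modularFunctionFieldFullC K (M' * q * q)) ((q : ℕ) : R))⁻¹ * x ∈ V₂ →
      (algebraMap R ↥(modularFunctionFieldFullC K (M' * q * q)) ((q : ℕ) : R))⁻¹ * x ∈ V₃ →
      (algebraMap R ↥(modularFunctionFieldFullC K (M' * q * q)) ((q : ℕ) : R))⁻¹ * x ∈ (pk15_chart R ({(pk85_h3 K (M' * q * q) (h3d.trans ((dvd_mul_right M' q).trans (dvd_mul_right (M' * q) q))))⁻¹} : Set ↥(modularFunctionFieldFullC K (M' * q * q)))))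
    (n : Ideal (pk15_chart R ({(pk85_h3 K (M' * q * q) (h3d.trans ((dvd_mul_right M' q).trans (dvd_mul_right (M' * q) q))))⁻¹} : Set ↥(modularFunctionFieldFullC K (M' * q * q))))) (hn : n.IsMaximal)
    (hπn : algebraMap R (pk15_chart R ({(pk85_h3 K (M' * q * q) (h3d.trans ((dvd_mul_right M' q).trans (dvd_mul_right (M' * q) q))))⁻¹} : Set ↥(modularFunctionFieldFullC K (M' * q * q)))) ((q : ℕ) : R) ∈ n)
    (hmid : tl71_OnMid s (pk15_chart R ({(pk85_h3 K (M' * q * q) (h3d.trans ((dvd_mul_right M' q).trans (dvd_mul_right (M' * q) q))))⁻¹} : Set ↥(modularFunctionFieldFullC K (M' * q * q)))) V₂.toSubring n)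
    (h1 : ¬ sf79_OnBr ((q : ℕ) : R) (pk15_chart R ({(pk85_h3 K (M' * q * q) (h3d.trans ((dvd_mul_right M' q).trans (dvd_mul_right (M' * q) q))))⁻¹} : Set ↥(modularFunctionFieldFullC K (M' * q * q))))
      (cm85_Vinf (K := K) (M' * q * q) hπq).toSubring n)
    (h3 : ¬ sf79_OnBr ((q : ℕ) : R) (pk15_chart R ({(pk85_h3 K (M' * q * q) (h3d.trans ((dvd_mul_right M' q).trans (dvd_mul_right (M' * q) q))))⁻¹} : Set ↥(modularFunctionFieldFullC K (M' * q * q)))) V₃.toSubring n)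
    (hreg : ∃ s' b : (pk15_chart R ({(pk85_h3 K (M' * q * q) (h3d.trans ((dvd_mul_right M' q).trans (dvd_mul_right (M' * q) q))))⁻¹} : Set ↥(modularFunctionFieldFullC K (M' * q * q)))), s' ∉ n ∧
      (s' : ↥(modularFunctionFieldFullC K (M' * q * q))) * rm90_j K (M' * q * q) = (b : ↥(modularFunctionFieldFullC K (M' * q * q)))) :
    mc25_MidPrinAt s (pk15_chart R ({(pk85_h3 K (M' * q * q) (h3d.trans ((dvd_mul_right M' q).trans (dvd_mul_right (M' * q) q))))⁻¹} : Set ↥(modularFunctionFieldFullC K (M' * q * q)))) V₂.toSubring n := by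
  haveI := hn.isPrime
  letI : Algebra R ↥(modularFunctionFieldFullC K M') :=
    ((algebraMap K ↥(modularFunctionFieldFullC K M')).comp (algebraMap R K)).toAlgebra
  haveI : IsScalarTower R K ↥(modularFunctionFieldFullC K M') :=
    IsScalarTower.of_algebraMap_eq (fun _ => rfl)
  obtain ⟨s', b', hs', hsj⟩ := hreg
  have hq3 : q ≠ 3 := by
    rintro rfl
    exact hM' h3d
  have hqn : ((q : ℕ) : (pk15_chart R ({(pk85_h3 K (M' * q * q) (h3d.trans ((dvd_mul_right M' q).trans (dvd_mul_right (M' * q) q))))⁻¹} : Set ↥(modularFunctionFieldFullC K (M' * q * q))))) ∈ n := by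
    rw [← map_natCast (algebraMap R (pk15_chart R ({(pk85_h3 K (M' * q * q) (h3d.trans ((dvd_mul_right M' q).trans (dvd_mul_right (M' * q) q))))⁻¹} : Set ↥(modularFunctionFieldFullC K (M' * q * q)))))]
    exact hπn
  have hpn := c2r66_prime_not_mem (pk15_chart R ({(pk85_h3 K (M' * q * q) (h3d.trans ((dvd_mul_right M' q).trans (dvd_mul_right (M' * q) q))))⁻¹} : Set ↥(modularFunctionFieldFullC K (M' * q * q)))) n q 3 hq Nat.prime_three (Ne.symm hq3) hqn
  have hg1 := c2rc66_h3_gauss (K := K) (M' * q * q) hπq (h3d.trans ((dvd_mul_right M' q).trans (dvd_mul_right (M' * q) q)))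
  have hg0 := c2rc66_h3_gauss (K := K) (M' * q) hπq (h3d.trans (dvd_mul_right M' q))
  have hα := c2rc66_alpha_h3 (K := K) M' q (h3d.trans (dvd_mul_right M' q)) (h3d.trans ((dvd_mul_right M' q).trans (dvd_mul_right (M' * q) q)))
  have hkB : (pk85_h3 K (M' * q * q) (h3d.trans ((dvd_mul_right M' q).trans (dvd_mul_right (M' * q) q))))⁻¹ ∈ (pk15_chart R ({(pk85_h3 K (M' * q * q) (h3d.trans ((dvd_mul_right M' q).trans (dvd_mul_right (M' * q) q))))⁻¹} : Set ↥(modularFunctionFieldFullC K (M' * q * q)))) := pk15_subset_chart _ (Set.mem_singleton _)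
  have hH0 : pk85_h3 K (M' * q * q) (h3d.trans ((dvd_mul_right M' q).trans (dvd_mul_right (M' * q) q))) ≠ 0 := by
    intro h0
    have h0' := congrArg (fun y : ↥(modularFunctionFieldFullC K (M' * q * q)) => (y : LaurentSeries K)) h0
    exact ((uwh31_h3_ok K).1) h0'
  obtain ⟨hsc, hscj⟩ := c2rc66_sc_three_inv (pk15_chart R ({(pk85_h3 K (M' * q * q) (h3d.trans ((dvd_mul_right M' q).trans (dvd_mul_right (M' * q) q))))⁻¹} : Set ↥(modularFunctionFieldFullC K (M' * q * q)))) n (rm90_j K (M' * q * q)) (pk85_h3 K (M' * q * q) (h3d.trans ((dvd_mul_right M' q).trans (dvd_mul_right (M' * q) q)))) hH0 (pk85_h3_rel K (M' * q * q) (h3d.trans ((dvd_mul_right M' q).trans (dvd_mul_right (M' * q) q))))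
    ⟨_, hkB⟩ rfl s' b' hs' hsj
  have hsc₁ : ((⟨_, hkB⟩ : (pk15_chart R ({(pk85_h3 K (M' * q * q) (h3d.trans ((dvd_mul_right M' q).trans (dvd_mul_right (M' * q) q))))⁻¹} : Set ↥(modularFunctionFieldFullC K (M' * q * q))))) : ↥(modularFunctionFieldFullC K (M' * q * q)))⁻¹ ∈
      cm85_Vinf (K := K) (M' * q * q) hπq := by
    have e : ((⟨_, hkB⟩ : (pk15_chart R ({(pk85_h3 K (M' * q * q) (h3d.trans ((dvd_mul_right M' q).trans (dvd_mul_right (M' * q) q))))⁻¹} : Set ↥(modularFunctionFieldFullC K (M' * q * q))))) : ↥(modularFunctionFieldFullC K (M' * q * q)))⁻¹ = pk85_h3 K (M' * q * q) (h3d.trans ((dvd_mul_right M' q).trans (dvd_mul_right (M' * q) q))) := inv_inv _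
    rw [e]
    exact hg1.1
  have hsc₂ : ((⟨_, hkB⟩ : (pk15_chart R ({(pk85_h3 K (M' * q * q) (h3d.trans ((dvd_mul_right M' q).trans (dvd_mul_right (M' * q) q))))⁻¹} : Set ↥(modularFunctionFieldFullC K (M' * q * q))))) : ↥(modularFunctionFieldFullC K (M' * q * q)))⁻¹ ∈ V₂ := by
    have e : ((⟨_, hkB⟩ : (pk15_chart R ({(pk85_h3 K (M' * q * q) (h3d.trans ((dvd_mul_right M' q).trans (dvd_mul_right (M' * q) q))))⁻¹} : Set ↥(modularFunctionFieldFullC K (M' * q * q))))) : ↥(modularFunctionFieldFullC K (M' * q * q)))⁻¹ =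
        al97L_alpha K (M' * q) q (pk85_h3 K (M' * q) (h3d.trans (dvd_mul_right M' q))) := by
      rw [hα]
      exact inv_inv _
    rw [e]
    exact hV₂ _ hg0.1
  exact c2r66_core M' q hq hM' hπq hunit h2o (fun _ => h3d) V₂ hV₂ hπ₂ hne s hs (pk15_chart R ({(pk85_h3 K (M' * q * q) (h3d.trans ((dvd_mul_right M' q).trans (dvd_mul_right (M' * q) q))))⁻¹} : Set ↥(modularFunctionFieldFullC K (M' * q * q))))
    (fun z hz => uv17_chart_intClosed _ z hz) V₃ hB₁ hB₂ hB₃ hsat n hqn hmid h1 h3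
    (⟨_, hkB⟩ : (pk15_chart R ({(pk85_h3 K (M' * q * q) (h3d.trans ((dvd_mul_right M' q).trans (dvd_mul_right (M' * q) q))))⁻¹} : Set ↥(modularFunctionFieldFullC K (M' * q * q))))) hsc hscj hsc₁ hsc₂

end c2rc66_charts

end Fermat.Agent.S36
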