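import Fermat.Agent.S36.C2Inst24

/-!
S36 lab (helper24), row C-C2: the level-3 twin of `c2h24_prinAt_two` (`C2Inst24`).

* `c2h24_D_unit3` : `(t + 243)² (t² - 486 t - 19683)` is a unit when `x`, `x - 1728`, `t` are and
  `x t³ = (t + 27) (t + 243)³`.
* `c2h24_prinAt_three` : on the concrete frame of level `M' q²` (binder block of `mc25_hD2_sq`),
  `3 ∣ M'`, at a prime `n` of an integrally closed saturated chart `B` lying on `C₂` only:
  `mc25_MidPrinAt s B V₂ n` from the chart-side data alone (Hauptmodul `h₃`):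
  `d ∉ n` with `d h(τ), d h(q²τ) ∈ B`, and `e` with `e X ∈ B ∖ n`, `e Y ∈ B` for
  `X = h(qτ)³ (h(qτ) + 27)⁴`, `Y = h(τ)³ (h(τ) + 27)⁴ U`.
-/

set_option autoImplicit false
set_option linter.unusedSectionVars false
set_option linter.style.haveILetI false
set_option linter.unusedVariables false

open ModularCurve AlgebraicCurve

namespace Fermat.Agent.S36

open Fermat.Agent.S18 Fermat.Agent.S24 Fermat.Agent.S28 Fermat.Agent.S34 Fermat.Agent.S37
open Fermat.Agent.S36.TripleLoc71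

/-- `(t + 243)² (t² - 486 t - 19683)` is a unit when `x`, `x - 1728`, `t` are and
`x t³ = (t + 27) (t + 243)³`. -/
theorem c2h24_D_unit3 {F : Type*} [Field F] (V : ValuationSubring F) (x t : F)
    (hx' : x⁻¹ ∈ V) (hx0 : x ≠ 0) (hy' : (x - 1728)⁻¹ ∈ V) (hy0 : x - 1728 ≠ 0)
    (ht : t ∈ V) (ht' : t⁻¹ ∈ V) (ht0 : t ≠ 0)
    (hrel : x * t ^ 3 = (t + 27) * (t + 243) ^ 3) :
    V.valuation ((t + 243) ^ 2 * (t ^ 2 - 486 * t - 19683)) = 1 := by
  have h243 : (243 : F) ∈ V := by exact_mod_cast natCast_mem V 243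
  have h27 : (27 : F) ∈ V := by exact_mod_cast natCast_mem V 27
  have h486 : (486 : F) ∈ V := by exact_mod_cast natCast_mem V 486
  have h19683 : (19683 : F) ∈ V := by exact_mod_cast natCast_mem V 19683
  have ht3 : t ^ 3 ≠ 0 := pow_ne_zero _ ht0
  have hrel2 : (x - 1728) * t ^ 3 = (t ^ 2 - 486 * t - 19683) ^ 2 := by linear_combination hrel
  have hA0 : t + 243 ≠ 0 := by
    intro h
    rw [h, zero_pow (by norm_num), mul_zero] at hrel
    exact mul_ne_zero hx0 ht3 hrel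
  have hB0 : t ^ 2 - 486 * t - 19683 ≠ 0 := by
    intro h
    rw [h, zero_pow (by norm_num)] at hrel2
    exact mul_ne_zero hy0 ht3 hrel2
  have hAV : t + 243 ∈ V := V.add_mem _ _ ht h243
  have hBV : t ^ 2 - 486 * t - 19683 ∈ V :=
    sub_mem (sub_mem (pow_mem ht 2) (V.mul_mem _ _ h486 ht)) h19683
  have hA' : (t + 243)⁻¹ ∈ V := by
    have e : (t + 243)⁻¹ = (t + 27) * (t + 243) ^ 2 * x⁻¹ * t⁻¹ ^ 3 := by
      apply inv_eq_of_mul_eq_one_right
      have : (t + 243) * ((t + 27) * (t + 243) ^ 2 * x⁻¹ * t⁻¹ ^ 3)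
          = ((t + 27) * (t + 243) ^ 3) * x⁻¹ * t⁻¹ ^ 3 := by ring
      rw [this, ← hrel]
      field_simp
    rw [e]
    exact V.mul_mem _ _ (V.mul_mem _ _ (V.mul_mem _ _ (V.add_mem _ _ ht h27) (pow_mem hAV 2)) hx')
      (pow_mem ht' 3)
  have hB' : (t ^ 2 - 486 * t - 19683)⁻¹ ∈ V := by
    have e : (t ^ 2 - 486 * t - 19683)⁻¹
        = (t ^ 2 - 486 * t - 19683) * (x - 1728)⁻¹ * t⁻¹ ^ 3 := by
      apply inv_eq_of_mul_eq_one_right
      have : (t ^ 2 - 486 * t - 19683) * ((t ^ 2 - 486 * t - 19683) * (x - 1728)⁻¹ * t⁻¹ ^ 3)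
          = (t ^ 2 - 486 * t - 19683) ^ 2 * (x - 1728)⁻¹ * t⁻¹ ^ 3 := by ring
      rw [this, ← hrel2]
      field_simp
    rw [e]
    exact V.mul_mem _ _ (V.mul_mem _ _ hBV hy') (pow_mem ht' 3)
  rw [map_mul, map_pow, c2e24_val_one V hAV hA' hA0, c2e24_val_one V hBV hB' hB0, one_pow,
    one_mul]

section c2h24_main3

variable {R K : Type} [CommRing R] [IsDomain R] [IsDiscreteValuationRing R] [Field K]
  [CharZero K] [Algebra R K] [IsFractionRing R K] [Algebra K Kbar] [Algebra.IsAlgebraic K Kbar]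
  (M' q : ℕ) [NeZero M'] [NeZero q] (hq : q.Prime) (hM' : ¬ q ∣ M')
  [Algebra R ↥(modularFunctionFieldFullC K M')]
  [IsScalarTower R K ↥(modularFunctionFieldFullC K M')]
  [Algebra R ↥(modularFunctionFieldFullC K (M' * q))]
  [IsScalarTower R K ↥(modularFunctionFieldFullC K (M' * q))]
  [Algebra R ↥(modularFunctionFieldFullC K (M' * q * q))]
  [IsScalarTower R K ↥(modularFunctionFieldFullC K (M' * q * q))]

set_option maxHeartbeats 1600000 in
include hq hM' in
/-- **Level 3 coordinate, concrete frame.** -/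
theorem c2h24_prinAt_three {π : R} (hπ : Irreducible π) (hqR : ¬ IsUnit (q : R))
    (h3M : 3 ∣ M')
    (u u' : R) (huu' : u * u' = 1) (hqπ : (q : R) = u * π)
    (V₂ : ValuationSubring ↥(modularFunctionFieldFullC K (M' * q * q)))
    (hV₂ : ∀ c ∈ cm85_Vinf (K := K) (M' * q) hπ,
      cm15_incl K (M' * q) (M' * q * q) (dvd_mul_right (M' * q) q) c ∈ V₂)
    (hπ₂ : (algebraMap R ↥(modularFunctionFieldFullC K (M' * q * q)) π)⁻¹ ∉ V₂)
    (hne : cm85_Vinf (K := K) (M' * q * q) hπ ≠ V₂)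
    (s : ↥(modularFunctionFieldFullC K (M' * q * q)))
    (hs : V₂.valuation s ^ (q - 1) =
      V₂.valuation (algebraMap R ↥(modularFunctionFieldFullC K (M' * q * q)) π))
    (hsc : (s : LaurentSeries K) = qExpand K q (qExpand K q (jqModC K)) - jqModC K)
    (V₁ V₃ : Subring ↥(modularFunctionFieldFullC K (M' * q * q)))
    (B : Subalgebra R ↥(modularFunctionFieldFullC K (M' * q * q)))
    (hBcl : ∀ x : ↥(modularFunctionFieldFullC K (M' * q * q)), IsIntegral B x → x ∈ B)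
    (hB₁ : ∀ x ∈ B, x ∈ V₁) (hB₂ : ∀ x ∈ B, x ∈ V₂) (hB₃ : ∀ x ∈ B, x ∈ V₃)
    (hsat : ∀ x ∈ B,
      (algebraMap R ↥(modularFunctionFieldFullC K (M' * q * q)) π)⁻¹ * x ∈ V₁ →
      (algebraMap R ↥(modularFunctionFieldFullC K (M' * q * q)) π)⁻¹ * x ∈ V₂.toSubring →
      (algebraMap R ↥(modularFunctionFieldFullC K (M' * q * q)) π)⁻¹ * x ∈ V₃ →
      (algebraMap R ↥(modularFunctionFieldFullC K (M' * q * q)) π)⁻¹ * x ∈ B)
    (n : Ideal B) [hn : n.IsPrime]
    (hmid : tl71_OnMid s B V₂.toSubring n)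
    (h1 : ¬ sf79_OnBr π B V₁ n) (h3 : ¬ sf79_OnBr π B V₃ n)
    (T1 T2 T3 Uu : ↥(modularFunctionFieldFullC K (M' * q * q)))
    (hT1 : (T1 : LaurentSeries K) = h34_h3R K)
    (hT2 : (T2 : LaurentSeries K) = qExpand K q (h34_h3R K))
    (hT3 : (T3 : LaurentSeries K) = qExpand K q (qExpand K q (h34_h3R K)))
    (hUu : (Uu : LaurentSeries K) = dq56_U K q)
    (d a1 a3 : B) (hd : d ∉ n)
    (ha1 : (a1 : ↥(modularFunctionFieldFullC K (M' * q * q))) = (d : ↥(modularFunctionFieldFullC K (M' * q * q))) * T1)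
    (ha3 : (a3 : ↥(modularFunctionFieldFullC K (M' * q * q))) = (d : ↥(modularFunctionFieldFullC K (M' * q * q))) * T3)
    (e aX aY : B)
    (haX : (aX : ↥(modularFunctionFieldFullC K (M' * q * q))) = (e : ↥(modularFunctionFieldFullC K (M' * q * q))) * (T2 ^ 3 * (T2 + 27) ^ 4))
    (haXn : aX ∉ n)
    (haY : (aY : ↥(modularFunctionFieldFullC K (M' * q * q))) = (e : ↥(modularFunctionFieldFullC K (M' * q * q))) * (T1 ^ 3 * (T1 + 27) ^ 4 * Uu)) :
    mc25_MidPrinAt s B V₂.toSubring n := by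
  classical
  haveI : NeZero (q * q) := ⟨mul_ne_zero hq.ne_zero hq.ne_zero⟩
  haveI : ExpChar (IsLocalRing.ResidueField R) q := ci22_expChar q hq hqR
  have hq2 := hq.two_le
  have hqM1 : q ∣ M' * q := dvd_mul_left q M'
  have hqM2 : q ∣ M' * q * q := dvd_mul_left q (M' * q)
  obtain ⟨f1, f2, f3, f4, f5⟩ := sm7_mid_facts (R := R) (K := K) M' q hq hM' hπ hqR V₂ hV₂ hπ₂
    hne s hs
  have hc2 : Function.Injective (algebraMap ↥(modularFunctionFieldFullC K (M' * q * q))
      (LaurentSeries K)) := (algebraMap ↥(modularFunctionFieldFullC K (M' * q * q))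
      (LaurentSeries K)).injective
  have hιinj : Function.Injective (cm15_incl K (M' * q) (M' * q * q)
      (dvd_mul_right (M' * q) q)) :=
    (cm15_incl K (M' * q) (M' * q * q) (dvd_mul_right (M' * q) q)).toRingHom.injective
  have hπ0 : algebraMap R ↥(modularFunctionFieldFullC K (M' * q * q)) π ≠ 0 := by
    intro h0
    apply hπ₂
    rw [h0, inv_zero]
    exact V₂.zero_mem
  have hs0 : s ≠ 0 := by
    rintro rfl
    apply f2
    rw [inv_zero]
    exact V₂.zero_mem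
  have hπV : algebraMap R ↥(modularFunctionFieldFullC K (M' * q * q)) π ∈ V₂ :=
    (V₂.mem_or_inv_mem _).resolve_right hπ₂
  have hπval : V₂.valuation (algebraMap R ↥(modularFunctionFieldFullC K (M' * q * q)) π) < 1 :=
    ci22_val_lt_one V₂ _ _ hπV hπ₂ (by rw [inv_mul_cancel₀ hπ0]; exact V₂.one_mem)
  have hιπ : cm15_incl K (M' * q) (M' * q * q) (dvd_mul_right (M' * q) q)
      (algebraMap R ↥(modularFunctionFieldFullC K (M' * q)) π)
      = algebraMap R ↥(modularFunctionFieldFullC K (M' * q * q)) π := by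
    rw [IsScalarTower.algebraMap_apply R K ↥(modularFunctionFieldFullC K (M' * q)),
      IsScalarTower.algebraMap_apply R K ↥(modularFunctionFieldFullC K (M' * q * q)),
      AlgHom.commutes]
  -- units of `R`
  have huF : algebraMap R ↥(modularFunctionFieldFullC K (M' * q * q)) u *
      algebraMap R ↥(modularFunctionFieldFullC K (M' * q * q)) u' = 1 := by
    rw [← map_mul, huu', map_one]
  have huV : algebraMap R ↥(modularFunctionFieldFullC K (M' * q * q)) u ∈ V₂ :=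
    hB₂ _ (B.algebraMap_mem u)
  have hu'V : algebraMap R ↥(modularFunctionFieldFullC K (M' * q * q)) u' ∈ V₂ :=
    hB₂ _ (B.algebraMap_mem u')
  have hqF : ((q : ℕ) : ↥(modularFunctionFieldFullC K (M' * q * q))) =
      algebraMap R ↥(modularFunctionFieldFullC K (M' * q * q)) u *
        algebraMap R ↥(modularFunctionFieldFullC K (M' * q * q)) π := by
    rw [← map_mul, ← hqπ, map_natCast]
  have hu0 : algebraMap R ↥(modularFunctionFieldFullC K (M' * q * q)) u ≠ 0 :=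
    left_ne_zero_of_mul_eq_one huF
  have huval : V₂.valuation (algebraMap R ↥(modularFunctionFieldFullC K (M' * q * q)) u) = 1 :=
    c2e24_val_one V₂ huV (by rw [inv_eq_of_mul_eq_one_right huF]; exact hu'V) hu0
  have hq0 : ((q : ℕ) : ↥(modularFunctionFieldFullC K (M' * q * q))) ≠ 0 := by
    rw [hqF]; exact mul_ne_zero hu0 hπ0
  have hqval : V₂.valuation ((q : ℕ) : ↥(modularFunctionFieldFullC K (M' * q * q))) =
      V₂.valuation (algebraMap R ↥(modularFunctionFieldFullC K (M' * q * q)) π) := by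
    rw [hqF, map_mul, huval, one_mul]
  have hqV : V₂.valuation ((q : ℕ) : ↥(modularFunctionFieldFullC K (M' * q * q))) < 1 := by
    rw [hqval]; exact hπval
  -- the three `j`-functions
  obtain ⟨a, ha_def⟩ : ∃ a : ↥(modularFunctionFieldFullC K (M' * q * q)),
      a = rm90_j K (M' * q * q) := ⟨_, rfl⟩
  obtain ⟨b, hb_def⟩ : ∃ b : ↥(modularFunctionFieldFullC K (M' * q * q)),
      b = ci22_y K (M' * q * q) q hqM2 := ⟨_, rfl⟩
  have hac : (a : LaurentSeries K) = jqModC K := by rw [ha_def]; rfl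
  have hbc : (b : LaurentSeries K) = qExpand K q (jqModC K) := by rw [hb_def]; rfl
  have ha : (a : LaurentSeries K) = JdC K 1 := by rw [JdC_one]; exact hac
  have hb : (b : LaurentSeries K) = JdC K q := by rw [JdC_of_neZero]; exact hbc
  have hsac : ((s + a : ↥(modularFunctionFieldFullC K (M' * q * q))) : LaurentSeries K)
      = qExpand K q (qExpand K q (jqModC K)) := by
    have : ((s + a : ↥(modularFunctionFieldFullC K (M' * q * q))) : LaurentSeries K)
        = (s : LaurentSeries K) + (a : LaurentSeries K) := rfl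
    rw [this, hsc, hac]
    ring
  have ha₃ : ((s + a : ↥(modularFunctionFieldFullC K (M' * q * q))) : LaurentSeries K)
      = JdC K (q * q) := by
    rw [JdC_of_neZero, ← qExpand_qExpand]
    exact hsac
  have hincl_a : cm15_incl K (M' * q) (M' * q * q) (dvd_mul_right (M' * q) q)
      (rm90_j K (M' * q)) = a := Subtype.ext (by rw [cm15_incl_coe, hac]; rfl)
  have hincl_b : cm15_incl K (M' * q) (M' * q * q) (dvd_mul_right (M' * q) q)
      (ci22_y K (M' * q) q hqM1) = b := Subtype.ext (by rw [cm15_incl_coe, hbc]; rfl)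
  have haV : a ∈ V₂ := by
    rw [← hincl_a]
    exact hV₂ _ (ci22_Vinf_j (K := K) (M' * q) hπ).1
  have haiV : a⁻¹ ∈ V₂ := by
    rw [← hincl_a, ← map_inv₀]
    exact hV₂ _ (ci22_Vinf_j (K := K) (M' * q) hπ).2
  have ha0 : a ≠ 0 := by rw [ha_def]; exact ci22_j_ne_zero K (M' * q * q)
  -- Kronecker along `V₂`
  have hkron0 := hV₂ _ (ci22_Vinf_kron (K := K) (M' * q) q hπ hq hqR hqM1)
  have hkron1 : (algebraMap R ↥(modularFunctionFieldFullC K (M' * q * q)) π)⁻¹ * (a ^ q - b)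
      ∈ V₂ := by
    have e : cm15_incl K (M' * q) (M' * q * q) (dvd_mul_right (M' * q) q)
        ((algebraMap R ↥(modularFunctionFieldFullC K (M' * q)) π)⁻¹ *
          (rm90_j K (M' * q) ^ q - ci22_y K (M' * q) q hqM1))
        = (algebraMap R ↥(modularFunctionFieldFullC K (M' * q * q)) π)⁻¹ * (a ^ q - b) := by
      rw [map_mul, map_inv₀, hιπ, map_sub, map_pow, hincl_a, hincl_b]
    rw [← e]
    exact hkron0
  obtain ⟨γ1, hγ1_def⟩ : ∃ γ1 : ↥(modularFunctionFieldFullC K (M' * q * q)),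
      γ1 = -(algebraMap R ↥(modularFunctionFieldFullC K (M' * q * q)) u' *
        ((algebraMap R ↥(modularFunctionFieldFullC K (M' * q * q)) π)⁻¹ * (a ^ q - b))) :=
    ⟨_, rfl⟩
  have hγ1V : γ1 ∈ V₂ := by
    rw [hγ1_def]
    exact V₂.neg_mem _ (V₂.mul_mem _ _ hu'V hkron1)
  have h1' : b = a ^ q + (q : ↥(modularFunctionFieldFullC K (M' * q * q))) * γ1 := by
    rw [hγ1_def]
    exact c2h24_frob_alg _ _ _ _ _ _ huF hπ0 hqF
  -- the modular equation
  obtain ⟨Φ, Ψ, -, -, hΦ1', hΦ2', hΨ, -⟩ := mps78_modEq q hq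
  have haev : ∀ x : ↥(modularFunctionFieldFullC K (M' * q * q)),
      ((Polynomial.aeval x : Polynomial ℤ →ₐ[ℤ] ↥(modularFunctionFieldFullC K (M' * q * q))) :
        Polynomial ℤ →+* ↥(modularFunctionFieldFullC K (M' * q * q)))
      = Polynomial.eval₂RingHom (Int.castRingHom ↥(modularFunctionFieldFullC K (M' * q * q))) x :=
    fun x => Polynomial.ringHom_ext' (RingHom.ext_int _ _) (by simp)
  have hΦ1 : dq56_ev b a Φ = 0 := by
    have r := mps78_rel_fullC q hq.ne_zero Φ hΦ1' K (M' * q * q) 1 one_ne_zero a b ha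
      (by rw [one_mul]; exact hb)
    rw [haev] at r
    exact r
  have hΦ3 : dq56_ev b (s + a) Φ = 0 := by
    have r := mps78_rel_fullC_swap q hq.ne_zero Φ hΦ2' K (M' * q * q) q hq.ne_zero b (s + a) hb
      ha₃
    rw [haev] at r
    exact r
  -- `w_j`
  obtain ⟨wj, hwj_def⟩ : ∃ wj : ↥(modularFunctionFieldFullC K (M' * q * q)),
      wj = guw31_wjF (K := K) (M' * q * q) q hq hqM2 := ⟨_, rfl⟩
  have hwjc : (wj : LaurentSeries K) = uw31_w K q := by rw [hwj_def, guw31_wjF_coe]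
  have hwj_incl : cm15_incl K (M' * q) (M' * q * q) (dvd_mul_right (M' * q) q)
      (guw31_wjF (K := K) (M' * q) q hq hqM1) = wj :=
    Subtype.ext (by rw [cm15_incl_coe, guw31_wjF_coe, hwjc])
  have hwjV : wj ∈ V₂ := by
    rw [← hwj_incl]
    exact hV₂ _ (guw31_wj (K := K) (M' * q) hπ q hq hqM1).1
  have hw : dq56_ev b a (dq56_dY Φ) =
      -((q : ↥(modularFunctionFieldFullC K (M' * q * q))) * wj *
        dq56_ev b a (Polynomial.derivative Φ)) := by
    have h := guw31_wj_chain (K := K) (M' * q * q) q hq hqM2 a b hac hb Φ hΦ1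
    rw [h, hwj_def]
    ring
  -- `ε = j(qτ)^q - j(τ)` is a unit
  obtain ⟨hE1, hE2, hE0⟩ := c2h24_unit (K := K) (M' * q) hπ
    (ci22_y K (M' * q) q hqM1 ^ q - rm90_j K (M' * q))
    ((qExpand R q (jqModC R)) ^ q - jqModC R)
    (by
      rw [map_sub, map_pow, coeffMap_qExpand, coeffMap_jqModC]
      rfl)
    (by
      rw [map_sub, map_pow, coeffMap_qExpand, coeffMap_jqModC]
      exact c2h24_jbar_pow_ne _ q hq2 _)
  have hEincl : cm15_incl K (M' * q) (M' * q * q) (dvd_mul_right (M' * q) q)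
      ((ci22_y K (M' * q) q hqM1 ^ q - rm90_j K (M' * q))⁻¹) = (b ^ q - a)⁻¹ := by
    rw [map_inv₀, map_sub, map_pow, hincl_a, hincl_b]
  have he'V : (b ^ q - a)⁻¹ ∈ V₂ := by
    rw [← hEincl]
    exact hV₂ _ hE2
  have hE0' : b ^ q - a ≠ 0 := by
    intro h0
    apply hE0
    apply hιinj
    rw [map_sub, map_pow, hincl_a, hincl_b, h0, map_zero]
  have hε : (b ^ q - a) * (b ^ q - a)⁻¹ = 1 := mul_inv_cancel₀ hE0'
  -- `j(τ) - 1728`, `j(qτ)`, `j(qτ) - 1728` are units
  obtain ⟨-, hj1', hj10⟩ := c2h24_unit (K := K) (M' * q) hπ (rm90_j K (M' * q) - 1728)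
    (jqModC R - 1728)
    (by rw [map_sub, map_ofNat, coeffMap_jqModC]; rfl)
    (by rw [map_sub, map_ofNat, coeffMap_jqModC]; exact c2h24_jbar_sub_ne _)
  obtain ⟨-, hj2', hj20⟩ := c2h24_unit (K := K) (M' * q) hπ
    (ci22_y K (M' * q) q hqM1 - 1728) (qExpand R q (jqModC R) - 1728)
    (by rw [map_sub, map_ofNat, coeffMap_qExpand, coeffMap_jqModC]; rfl)
    (by
      rw [map_sub, map_ofNat, coeffMap_qExpand, coeffMap_jqModC]
      have e : qExpand (IsLocalRing.ResidueField R) q (jqModC (IsLocalRing.ResidueField R)) - 1728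
          = qExpand (IsLocalRing.ResidueField R) q (jqModC (IsLocalRing.ResidueField R) - 1728) := by
        rw [map_sub, map_ofNat]
      rw [e]
      exact (map_ne_zero _).mpr (c2h24_jbar_sub_ne _))
  obtain ⟨hy1, hy1', hy10⟩ := c2h24_unit (K := K) (M' * q) hπ
    (ci22_y K (M' * q) q hqM1) (qExpand R q (jqModC R))
    (by rw [coeffMap_qExpand, coeffMap_jqModC]; rfl)
    (by
      rw [coeffMap_qExpand, coeffMap_jqModC]
      exact (map_ne_zero _).mpr (c2h24_jbar_ne _))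
  have hbV : b ∈ V₂ := by rw [← hincl_b]; exact hV₂ _ hy1
  have hbiV : b⁻¹ ∈ V₂ := by rw [← hincl_b, ← map_inv₀]; exact hV₂ _ hy1'
  have hb0 : b ≠ 0 := by
    intro h0
    apply hy10
    apply hιinj
    rw [hincl_b, h0, map_zero]
  have ha1728 : (a - 1728)⁻¹ ∈ V₂ ∧ a - 1728 ≠ 0 := by
    have e : cm15_incl K (M' * q) (M' * q * q) (dvd_mul_right (M' * q) q)
        (rm90_j K (M' * q) - 1728) = a - 1728 := by rw [map_sub, map_ofNat, hincl_a]
    refine ⟨?_, ?_⟩
    · rw [← e, ← map_inv₀]; exact hV₂ _ hj1'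
    · intro h0
      apply hj10
      apply hιinj
      rw [e, h0, map_zero]
  have hb1728 : (b - 1728)⁻¹ ∈ V₂ ∧ b - 1728 ≠ 0 := by
    have e : cm15_incl K (M' * q) (M' * q * q) (dvd_mul_right (M' * q) q)
        (ci22_y K (M' * q) q hqM1 - 1728) = b - 1728 := by rw [map_sub, map_ofNat, hincl_b]
    refine ⟨?_, ?_⟩
    · rw [← e, ← map_inv₀]; exact hV₂ _ hj2'
    · intro h0
      apply hj20
      apply hιinj
      rw [e, h0, map_zero]
  -- the Hauptmodul at level `M' q`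
  obtain ⟨A1, hA1⟩ : ∃ A1 : ↥(modularFunctionFieldFullC K (M' * q)),
      A1 = al97L_alpha K M' q (pk85_h3 K M' h3M) := ⟨_, rfl⟩
  obtain ⟨A2, hA2⟩ : ∃ A2 : ↥(modularFunctionFieldFullC K (M' * q)),
      A2 = al97L_beta K M' q (pk85_h3 K M' h3M) := ⟨_, rfl⟩
  have hA1c : (A1 : LaurentSeries K) = h34_h3R K := by rw [hA1, al97L_alpha_coe, pk85_h3_coe]
  have hA2c : (A2 : LaurentSeries K) = qExpand K q (h34_h3R K) := by
    rw [hA2, al97L_beta_coe, pk85_h3_coe]
  have hιA1 : cm15_incl K (M' * q) (M' * q * q) (dvd_mul_right (M' * q) q) A1 = T1 :=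
    Subtype.ext (by rw [cm15_incl_coe, hA1c, hT1])
  have hιA2 : cm15_incl K (M' * q) (M' * q * q) (dvd_mul_right (M' * q) q) A2 = T2 :=
    Subtype.ext (by rw [cm15_incl_coe, hA2c, hT2])
  obtain ⟨hA1V, hA1V', hA10⟩ := c2h24_unit (K := K) (M' * q) hπ A1 (h34_h3R R)
    (by rw [hA1c, h34_coeffMap_h3R])
    (by rw [h34_coeffMap_h3R]; exact (uwh31_h3_ok _).1)
  obtain ⟨hA2V, hA2V', hA20⟩ := c2h24_unit (K := K) (M' * q) hπ A2 (qExpand R q (h34_h3R R))
    (by rw [hA2c, coeffMap_qExpand, h34_coeffMap_h3R])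
    (by
      rw [coeffMap_qExpand, h34_coeffMap_h3R]
      exact (map_ne_zero _).mpr ((uwh31_h3_ok _).1))
  have hT1V : T1 ∈ V₂ := by rw [← hιA1]; exact hV₂ _ hA1V
  have hT1V' : T1⁻¹ ∈ V₂ := by rw [← hιA1, ← map_inv₀]; exact hV₂ _ hA1V'
  have hT10 : T1 ≠ 0 := by
    intro h0
    apply hA10
    apply hιinj
    rw [hιA1, h0, map_zero]
  have hT2V : T2 ∈ V₂ := by rw [← hιA2]; exact hV₂ _ hA2V
  have hT2V' : T2⁻¹ ∈ V₂ := by rw [← hιA2, ← map_inv₀]; exact hV₂ _ hA2V'
  have hT20 : T2 ≠ 0 := by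
    intro h0
    apply hA20
    apply hιinj
    rw [hιA2, h0, map_zero]
  -- Frobenius congruence of the Hauptmodul
  have hgG : (algebraMap R ↥(modularFunctionFieldFullC K (M' * q)) π)⁻¹ * (A1 ^ q - A2)
      ∈ cm85_Vinf (K := K) (M' * q) hπ := by
    have hcoe : ((A1 ^ q - A2 : ↥(modularFunctionFieldFullC K (M' * q))) : LaurentSeries K) =
        coeffMap (algebraMap R K) (h34_h3R R ^ q - qExpand R q (h34_h3R R)) := by
      rw [map_sub, map_pow, coeffMap_qExpand, h34_coeffMap_h3R, ← hA2c, ← hA1c]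
      rfl
    refine ((pk85_gauss (M' * q) hπ _ _ hcoe).2).mpr ?_
    rw [map_sub, map_pow, coeffMap_qExpand, h34_coeffMap_h3R,
      kn97_frobenius q (h34_h3R (IsLocalRing.ResidueField R)), h34_coeffMap_h3R, sub_self]
  have hg1 : (algebraMap R ↥(modularFunctionFieldFullC K (M' * q * q)) π)⁻¹ * (T1 ^ q - T2)
      ∈ V₂ := by
    have e : cm15_incl K (M' * q) (M' * q * q) (dvd_mul_right (M' * q) q)
        ((algebraMap R ↥(modularFunctionFieldFullC K (M' * q)) π)⁻¹ * (A1 ^ q - A2))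
        = (algebraMap R ↥(modularFunctionFieldFullC K (M' * q * q)) π)⁻¹ * (T1 ^ q - T2) := by
      rw [map_mul, map_inv₀, hιπ, map_sub, map_pow, hιA1, hιA2]
    rw [← e]
    exact hV₂ _ hgG
  obtain ⟨g, hg_def⟩ : ∃ g : ↥(modularFunctionFieldFullC K (M' * q * q)),
      g = -(algebraMap R ↥(modularFunctionFieldFullC K (M' * q * q)) u' *
        ((algebraMap R ↥(modularFunctionFieldFullC K (M' * q * q)) π)⁻¹ * (T1 ^ q - T2))) :=
    ⟨_, rfl⟩
  have hgV : g ∈ V₂ := by
    rw [hg_def]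
    exact V₂.neg_mem _ (V₂.mul_mem _ _ hu'V hg1)
  have ht2g : T2 = T1 ^ q + (q : ↥(modularFunctionFieldFullC K (M' * q * q))) * g := by
    rw [hg_def]
    exact c2h24_frob_alg _ _ _ _ _ _ huF hπ0 hqF
  -- the relations `j h³ = (h + 27) (h + 243)³`
  have hx1t : a * T1 ^ 3 = (T1 + 27) * (T1 + 243) ^ 3 := by
    apply hc2
    have e1 : algebraMap ↥(modularFunctionFieldFullC K (M' * q * q)) (LaurentSeries K)
        (a * T1 ^ 3) = (a : LaurentSeries K) * (T1 : LaurentSeries K) ^ 3 := by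
      rw [map_mul, map_pow]; rfl
    have e2 : algebraMap ↥(modularFunctionFieldFullC K (M' * q * q)) (LaurentSeries K)
        ((T1 + 27) * (T1 + 243) ^ 3)
        = ((T1 : LaurentSeries K) + 27) * ((T1 : LaurentSeries K) + 243) ^ 3 := by
      simp only [map_mul, map_pow, map_add, map_ofNat]; rfl
    rw [e1, e2, hT1, hac]
    exact (uwh31_h3_ok K).2
  have hx2t : b * T2 ^ 3 = (T2 + 27) * (T2 + 243) ^ 3 := by
    apply hc2
    have e1 : algebraMap ↥(modularFunctionFieldFullC K (M' * q * q)) (LaurentSeries K)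
        (b * T2 ^ 3) = (b : LaurentSeries K) * (T2 : LaurentSeries K) ^ 3 := by
      rw [map_mul, map_pow]; rfl
    have e2 : algebraMap ↥(modularFunctionFieldFullC K (M' * q * q)) (LaurentSeries K)
        ((T2 + 27) * (T2 + 243) ^ 3)
        = ((T2 : LaurentSeries K) + 27) * ((T2 : LaurentSeries K) + 243) ^ 3 := by
      simp only [map_mul, map_pow, map_add, map_ofNat]; rfl
    rw [e1, e2, hT2, hbc]
    have h := congrArg (qExpand K q) ((uwh31_h3_ok K).2)
    simp only [map_mul, map_pow, map_add, map_ofNat] at h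
    exact h
  have hx3t : (s + a) * T3 ^ 3 = (T3 + 27) * (T3 + 243) ^ 3 := by
    apply hc2
    have e1 : algebraMap ↥(modularFunctionFieldFullC K (M' * q * q)) (LaurentSeries K)
        ((s + a) * T3 ^ 3) = ((s + a : ↥(modularFunctionFieldFullC K (M' * q * q))) :
          LaurentSeries K) * (T3 : LaurentSeries K) ^ 3 := by
      rw [map_mul, map_pow]; rfl
    have e2 : algebraMap ↥(modularFunctionFieldFullC K (M' * q * q)) (LaurentSeries K)
        ((T3 + 27) * (T3 + 243) ^ 3)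
        = ((T3 : LaurentSeries K) + 27) * ((T3 : LaurentSeries K) + 243) ^ 3 := by
      simp only [map_mul, map_pow, map_add, map_ofNat]; rfl
    rw [e1, e2, hT3, hsac]
    have h := congrArg (fun f => qExpand K q (qExpand K q f)) ((uwh31_h3_ok K).2)
    simp only [map_mul, map_pow, map_add, map_ofNat] at h
    exact h
  -- (E)
  have hΔ : V₂.valuation (T3 - T1) < 1 := by
    have hAss : Associated ((q : ℕ) : R) π :=
      ⟨Units.mkOfMulEqOne u' u (by rw [mul_comm]; exact huu'), by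
        rw [Units.val_mkOfMulEqOne, hqπ]
        have : u * π * u' = (u * u') * π := by ring
        rw [this, huu', one_mul]⟩
    have h := v2m46_mid_h3 (algebraMap K Kbar) M' q hq hM' hπ hAss h3M V₂
      (fun c hc => hV₂ c hc)
      (by rw [← IsScalarTower.algebraMap_apply R K]; exact hπ₂) hne
    have e3 : al97L_beta K (M' * q) q (al97L_beta K M' q (pk85_h3 K M' h3M)) = T3 :=
      Subtype.ext (by rw [al97L_beta_coe, al97L_beta_coe, pk85_h3_coe, hT3])
    have e1 : al97L_alpha K (M' * q) q (al97L_alpha K M' q (pk85_h3 K M' h3M)) = T1 :=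
      Subtype.ext (by rw [al97L_alpha_coe, al97L_alpha_coe, pk85_h3_coe, hT1])
    rw [e3, e1] at h
    exact h
  -- the discriminant units
  have hD1 : V₂.valuation ((T1 + 243) ^ 2 * (T1 ^ 2 - 486 * T1 - 19683)) = 1 :=
    c2h24_D_unit3 V₂ a T1 haiV ha0 ha1728.1 ha1728.2 hT1V hT1V' hT10 hx1t
  have hD2 : V₂.valuation ((T2 + 243) ^ 2 * (T2 ^ 2 - 486 * T2 - 19683)) = 1 :=
    c2h24_D_unit3 V₂ b T2 hbiV hb0 hb1728.1 hb1728.2 hT2V hT2V' hT20 hx2t
  -- `w_h`
  obtain ⟨wj0, wh0, hwj0, -, -, -, hwh0V, -, h6, hch⟩ := guw31_pkg3 (K := K) M' hπ q hq h3M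
    (dq56b_U (K := K) M' q hq) rfl
  rw [← hA1, ← hA2] at h6 hch
  obtain ⟨wt, hwt_def⟩ : ∃ wt : ↥(modularFunctionFieldFullC K (M' * q * q)),
      wt = cm15_incl K (M' * q) (M' * q * q) (dvd_mul_right (M' * q) q) wh0 := ⟨_, rfl⟩
  have hιwj0 : cm15_incl K (M' * q) (M' * q * q) (dvd_mul_right (M' * q) q) wj0 = wj :=
    Subtype.ext (by rw [cm15_incl_coe, hwj0, hwjc])
  have hιU : cm15_incl K (M' * q) (M' * q * q) (dvd_mul_right (M' * q) q)
      (dq56b_U (K := K) M' q hq) = Uu :=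
    Subtype.ext (by rw [cm15_incl_coe, hUu]; rfl)
  have h6' : wt ^ 6 * (T1 ^ 3 * (T1 + 27) ^ 4 * Uu) = T2 ^ 3 * (T2 + 27) ^ 4 := by
    have h := congrArg (cm15_incl K (M' * q) (M' * q * q) (dvd_mul_right (M' * q) q)) h6
    simp only [map_mul, map_pow, map_add, map_ofNat] at h
    rw [hιA1, hιA2, hιU, ← hwt_def] at h
    exact h
  have hwt : wt * ((T2 + 243) ^ 2 * (T2 ^ 2 - 486 * T2 - 19683) * T1 ^ 4)
      = wj * ((T1 + 243) ^ 2 * (T1 ^ 2 - 486 * T1 - 19683) * T2 ^ 4) := by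
    have h := congrArg (cm15_incl K (M' * q) (M' * q * q) (dvd_mul_right (M' * q) q)) hch
    simp only [map_mul, map_pow, map_add, map_sub, map_ofNat] at h
    rw [hιA1, hιA2, hιwj0, ← hwt_def] at h
    exact h.symm
  -- the chart side
  have hdV : ((d : B) : ↥(modularFunctionFieldFullC K (M' * q * q)))⁻¹ ∈ V₂ := by
    by_contra hcon
    apply hd
    apply hmid
    have h := f3 (d : ↥(modularFunctionFieldFullC K (M' * q * q))) (hB₂ _ d.2) hcon
    have e : (d : ↥(modularFunctionFieldFullC K (M' * q * q))) * s⁻¹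
        = s⁻¹ * (d : ↥(modularFunctionFieldFullC K (M' * q * q))) := mul_comm _ _
    rw [e]
    exact h
  have hroot : ∀ x : ↥(modularFunctionFieldFullC K (M' * q * q)), x ^ 6 ∈ B → x ∈ B := by
    intro x hx
    apply hBcl
    refine ⟨Polynomial.X ^ 6 - Polynomial.C ⟨x ^ 6, hx⟩,
      Polynomial.monic_X_pow_sub_C _ (by norm_num), ?_⟩
    rw [Polynomial.eval₂_sub, Polynomial.eval₂_X_pow, Polynomial.eval₂_C]
    exact sub_self _
  have h6B : wt ^ 6 * (aY : ↥(modularFunctionFieldFullC K (M' * q * q)))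
      = (aX : ↥(modularFunctionFieldFullC K (M' * q * q))) := by
    rw [haY, haX, ← h6']
    ring
  obtain ⟨aw, tw, haw, hwtw⟩ := uw31_nozero B 6 (by norm_num) hroot n wt aX aY haXn h6B
  have hsub : s + a - a = s := by ring
  have key := c2f24_prinAt_three π u u' huu' q hq hqπ B V₁ V₃ V₂ hB₁ hB₂ hB₃ hsat hπ0 n hq0 Φ Ψ hΨ
    a b (s + a) γ1 wj (b ^ q - a)⁻¹ haV hbV hγ1V hwjV he'V h1' hΦ1 hΦ3 hε hw
    (by rw [hsub, hqval]; exact hs) hqV (by rw [hsub]; exact hmid) h1 h3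
    T1 T2 T3 g wt hT1V hT1V' hT10 hT2V hgV ht2g hx1t hx3t hΔ hD1 hD2 hwt
    (a3 - a1) d (by
      show ((a3 : ↥(modularFunctionFieldFullC K (M' * q * q))) -
        (a1 : ↥(modularFunctionFieldFullC K (M' * q * q)))) = _
      rw [ha3, ha1]; ring) hd hdV aw tw haw hwtw
  rw [hsub] at key
  exact key

end c2h24_main3

end Fermat.Agent.S36
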