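import Fermat.Agent.S34.BetaChart95
import Fermat.Agent.S18.Pack85

/-!
# S36 lab, row 600 C-C2 binder (helper75): `h(τ), h(qτ), h(q²τ)` are integral over `R[h]`
at level `M' q q`

`h' = pk85_h2 K M'` (resp. `pk85_h3 K M'`), `α₁ β₁ : F(M') → F(M' q)`,
`α₂ β₂ : F(M' q) → F(M' q q)` (`al97L_alpha`, `al97L_beta`), `h = pk85_h2 K (M' q q)`:

* `c2i75_t1_two`     : `α₂ (α₁ h') = h`;
* `c2i75_t2_two`     : `α₂ (β₁ h')` is integral over `R[h]` (`hi70_level2_full`);
* `c2i75_t3_two`     : `β₂ (β₁ h')` is integral over `R[h]` (`hi70_level2_full` at both levels +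
  `bc95_map_mem`);
* `c2i75_t1_three`, `c2i75_t2_three`, `c2i75_t3_three` : the same for the level-3 Hauptmodul.

These are the inputs `ht1 ht2 ht3` of `c2b75_chart` with `j := h` (`s' = 1` on the chart `{h}`,
`s' = h⁻¹` on the chart `{h⁻¹}`).

All names are prefixed `c2i75_`.
-/

set_option autoImplicit false
set_option linter.unusedSectionVars false

open ModularCurve

namespace Fermat.Agent.S36

open Fermat.Agent.S18 Fermat.Agent.S34

section

variable {R K : Type} [CommRing R] [Field K] [CharZero K] [Algebra R K]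
  (M' q : ℕ) [NeZero M'] [NeZero q]
  [Algebra R ↥(modularFunctionFieldFullC K (M' * q))]
  [IsScalarTower R K ↥(modularFunctionFieldFullC K (M' * q))]
  [Algebra R ↥(modularFunctionFieldFullC K (M' * q * q))]
  [IsScalarTower R K ↥(modularFunctionFieldFullC K (M' * q * q))]

theorem c2i75_dvd (p₀ : ℕ) (h : p₀ ∣ M') : p₀ ∣ M' * q * q :=
  h.trans ((dvd_mul_right M' q).trans (dvd_mul_right (M' * q) q))

theorem c2i75_dvd1 (p₀ : ℕ) (h : p₀ ∣ M') : p₀ ∣ M' * q :=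
  h.trans (dvd_mul_right M' q)

/-! ### Level 2 -/

theorem c2i75_t1_two (h2 : 2 ∣ M') :
    al97L_alpha K (M' * q) q (al97L_alpha K M' q (pk85_h2 K M' h2)) =
      pk85_h2 K (M' * q * q) (c2i75_dvd M' q 2 h2) := by
  apply Subtype.ext
  rw [al97L_alpha_coe, al97L_alpha_coe]
  rfl

theorem c2i75_t2_two (hq : q.Prime) (hq2 : q ≠ 2) (h2R : IsUnit (2 : R)) (h2 : 2 ∣ M') :
    IsIntegral (Algebra.adjoin R ({pk85_h2 K (M' * q * q) (c2i75_dvd M' q 2 h2)} :
      Set ↥(modularFunctionFieldFullC K (M' * q * q))))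
      (al97L_alpha K (M' * q) q (al97L_beta K M' q (pk85_h2 K M' h2))) := by
  have hM : 2 * q ∣ M' * q * q := by
    obtain ⟨a, rfl⟩ := h2
    exact ⟨a * q, by ring⟩
  refine (hi70_level2_full (R := R) (M' * q * q) q hq hq2 h2R hM _ _ rfl ?_).1
  rw [al97L_alpha_coe, al97L_beta_coe]
  rfl

theorem c2i75_t3_two (hq : q.Prime) (hq2 : q ≠ 2) (h2R : IsUnit (2 : R)) (h2 : 2 ∣ M') :
    IsIntegral (Algebra.adjoin R ({pk85_h2 K (M' * q * q) (c2i75_dvd M' q 2 h2)} :
      Set ↥(modularFunctionFieldFullC K (M' * q * q))))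
      (al97L_beta K (M' * q) q (al97L_beta K M' q (pk85_h2 K M' h2))) := by
  have hM1 : 2 * q ∣ M' * q := Nat.mul_dvd_mul h2 (dvd_refl q)
  have hM2 : 2 * q ∣ M' * q * q := by
    obtain ⟨a, rfl⟩ := h2
    exact ⟨a * q, by ring⟩
  have h1 : al97L_beta K M' q (pk85_h2 K M' h2) ∈
      pk15_chart R ({pk85_h2 K (M' * q) (c2i75_dvd1 M' q 2 h2)} :
        Set ↥(modularFunctionFieldFullC K (M' * q))) := by
    refine (hi70_level2_full (R := R) (M' * q) q hq hq2 h2R hM1 _ _ rfl ?_).1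
    rw [al97L_beta_coe]
    rfl
  have h2' : al97L_beta K (M' * q) q (pk85_h2 K (M' * q) (c2i75_dvd1 M' q 2 h2)) ∈
      pk15_chart R ({pk85_h2 K (M' * q * q) (c2i75_dvd M' q 2 h2)} :
        Set ↥(modularFunctionFieldFullC K (M' * q * q))) := by
    refine (hi70_level2_full (R := R) (M' * q * q) q hq hq2 h2R hM2 _ _ rfl ?_).1
    rw [al97L_beta_coe]
    rfl
  exact bc95_map_mem (bc95_betaR (R := R) (M' * q) q) _ _ h2' _ h1

/-! ### Level 3 -/

theorem c2i75_t1_three (h3 : 3 ∣ M') :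
    al97L_alpha K (M' * q) q (al97L_alpha K M' q (pk85_h3 K M' h3)) =
      pk85_h3 K (M' * q * q) (c2i75_dvd M' q 3 h3) := by
  apply Subtype.ext
  rw [al97L_alpha_coe, al97L_alpha_coe]
  rfl

theorem c2i75_t2_three (hq : q.Prime) (hq3 : q ≠ 3) (h3R : IsUnit (3 : R)) (h3 : 3 ∣ M') :
    IsIntegral (Algebra.adjoin R ({pk85_h3 K (M' * q * q) (c2i75_dvd M' q 3 h3)} :
      Set ↥(modularFunctionFieldFullC K (M' * q * q))))
      (al97L_alpha K (M' * q) q (al97L_beta K M' q (pk85_h3 K M' h3))) := by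
  have hM : 3 * q ∣ M' * q * q := by
    obtain ⟨a, rfl⟩ := h3
    exact ⟨a * q, by ring⟩
  refine (hi70_level3_full (R := R) (M' * q * q) q hq hq3 h3R hM _ _ rfl ?_).1
  rw [al97L_alpha_coe, al97L_beta_coe]
  rfl

theorem c2i75_t3_three (hq : q.Prime) (hq3 : q ≠ 3) (h3R : IsUnit (3 : R)) (h3 : 3 ∣ M') :
    IsIntegral (Algebra.adjoin R ({pk85_h3 K (M' * q * q) (c2i75_dvd M' q 3 h3)} :
      Set ↥(modularFunctionFieldFullC K (M' * q * q))))
      (al97L_beta K (M' * q) q (al97L_beta K M' q (pk85_h3 K M' h3))) := by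
  have hM1 : 3 * q ∣ M' * q := Nat.mul_dvd_mul h3 (dvd_refl q)
  have hM2 : 3 * q ∣ M' * q * q := by
    obtain ⟨a, rfl⟩ := h3
    exact ⟨a * q, by ring⟩
  have h1 : al97L_beta K M' q (pk85_h3 K M' h3) ∈
      pk15_chart R ({pk85_h3 K (M' * q) (c2i75_dvd1 M' q 3 h3)} :
        Set ↥(modularFunctionFieldFullC K (M' * q))) := by
    refine (hi70_level3_full (R := R) (M' * q) q hq hq3 h3R hM1 _ _ rfl ?_).1
    rw [al97L_beta_coe]
    rfl
  have h2' : al97L_beta K (M' * q) q (pk85_h3 K (M' * q) (c2i75_dvd1 M' q 3 h3)) ∈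
      pk15_chart R ({pk85_h3 K (M' * q * q) (c2i75_dvd M' q 3 h3)} :
        Set ↥(modularFunctionFieldFullC K (M' * q * q))) := by
    refine (hi70_level3_full (R := R) (M' * q * q) q hq hq3 h3R hM2 _ _ rfl ?_).1
    rw [al97L_beta_coe]
    rfl
  exact bc95_map_mem (bc95_betaR (R := R) (M' * q) q) _ _ h2' _ h1

end

end Fermat.Agent.S36
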