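import Mathlib
import Fermat.Agent.S34.DeltaQuot56
import Fermat.Agent.S34.BranchZero7

/-!
S36 lab (helper25), row 600 (C-C2), integrality input of the chart side (B).

At a closed point `n` of a chart `B` where `x1 = j(τ)` is regular, the chart side of
`c2f24_prinAt_two` / `c2f24_prinAt_three` needs `t1 = h(τ)`, `t2 = h(qτ)`, `t3 = h(q²τ)`
(and `J = j(qτ)`, `x3 = j(q²τ)`) to be regular at `n`; by `uv17_clear` this follows from
integrality over `R[x1]`.  This file derives that integrality from the field-level hypotheses of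
`c2f24_prinAt_two/three` alone:

* the two Kronecker relations `dq56_ev J x1 Φ = 0`, `dq56_ev J x3 Φ = 0` for a monic,
  swap-symmetric (up to sign) `Φ` (both are conjuncts of `mps78_modEq`);
* the Hauptmodul relations `x t² = (t + 256)³` (level 2) resp. `x t³ = (t + 27) (t + 243)³`
  (level 3) for the three pairs `(x1, t1)`, `(J, t2)`, `(x3, t3)`.

Main statements: `c2i25_int_two`, `c2i25_int_three`.
-/

set_option autoImplicit false

namespace Fermat.Agent.S36

open Polynomial Polynomial.Bivariate Fermat.Agent.S34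

section

variable {R F : Type*} [CommRing R] [Field F] [Algebra R F]

/-- `dq56_ev a b Φ` is `aevalAeval b a Φ` (inner variable `↦ b`, outer variable `↦ a`). -/
theorem c2i25_ev_eq (a b : F) (Φ : Polynomial (Polynomial ℤ)) :
    dq56_ev a b Φ = aevalAeval b a Φ := by
  have h : ((aevalAeval b a : Polynomial (Polynomial ℤ) →ₐ[ℤ] F) :
      Polynomial (Polynomial ℤ) →+* F)
      = Polynomial.eval₂RingHom (Polynomial.eval₂RingHom (Int.castRingHom F) b) a := by
    refine Polynomial.ringHom_ext' ?_ ?_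
    · refine Polynomial.ringHom_ext' (RingHom.ext_int _ _) ?_
      simp
    · simp
  have h2 := congrArg (fun f : Polynomial (Polynomial ℤ) →+* F => f Φ) h
  exact h2.symm

/-- Swap symmetry (up to sign) exchanges the two variables of a vanishing evaluation. -/
theorem c2i25_ev_swap (Φ : Polynomial (Polynomial ℤ)) (hsw : swap Φ = Φ ∨ swap Φ = -Φ)
    (a b : F) (h : dq56_ev a b Φ = 0) : dq56_ev b a Φ = 0 := by
  rw [c2i25_ev_eq] at h ⊢
  have h1 : aevalAeval a b Φ = aevalAeval b a (swap Φ) := (aevalAeval_swap b a Φ).symm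
  rcases hsw with hs | hs
  · rw [h1, hs, h]
  · rw [h1, hs, map_neg, h, neg_zero]

/-- A root (outer variable) of a monic `Φ ∈ ℤ[X][Y]` evaluated at `b` (inner variable) is
integral over `R[b]`. -/
theorem c2i25_int_of_ev (Φ : Polynomial (Polynomial ℤ)) (hΦm : Φ.Monic) (a b : F)
    (h : dq56_ev a b Φ = 0) : IsIntegral (Algebra.adjoin R ({b} : Set F)) a := by
  let bA : Algebra.adjoin R ({b} : Set F) := ⟨b, Algebra.subset_adjoin (Set.mem_singleton _)⟩
  let φ : Polynomial ℤ →+* Algebra.adjoin R ({b} : Set F) :=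
    Polynomial.eval₂RingHom (Int.castRingHom _) bA
  refine ⟨Φ.map φ, hΦm.map φ, ?_⟩
  rw [Polynomial.eval₂_map]
  have hcomp : (algebraMap (Algebra.adjoin R ({b} : Set F)) F).comp φ =
      Polynomial.eval₂RingHom (Int.castRingHom F) b := by
    refine Polynomial.ringHom_ext' (RingHom.ext_int _ _) ?_
    simp [φ, bA]
  rw [hcomp]
  exact h

/-- Level 2 Hauptmodul relation: `t` is integral over `R[x]`. -/
theorem c2i25_int_rel_two (x t : F) (h : x * t ^ 2 = (t + 256) ^ 3) :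
    IsIntegral (Algebra.adjoin R ({x} : Set F)) t := by
  let xA : Algebra.adjoin R ({x} : Set F) := ⟨x, Algebra.subset_adjoin (Set.mem_singleton _)⟩
  refine ⟨(X + C (256 : Algebra.adjoin R ({x} : Set F))) ^ 3 - C xA * X ^ 2, ?_, ?_⟩
  · have hdeg : (C xA * X ^ 2 : Polynomial (Algebra.adjoin R ({x} : Set F))).degree
        < ((X + C (256 : Algebra.adjoin R ({x} : Set F))) ^ 3).degree := by
      rw [degree_pow, degree_X_add_C]
      calc (C xA * X ^ 2 : Polynomial (Algebra.adjoin R ({x} : Set F))).degree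
          ≤ 2 := by
            refine (degree_C_mul_X_pow_le 2 xA).trans ?_
            exact le_rfl
        _ < 3 • (1 : WithBot ℕ) := by decide
    exact ((monic_X_add_C _).pow 3).sub_of_left hdeg
  · rw [eval₂_sub, eval₂_pow, eval₂_add, eval₂_X, eval₂_C, eval₂_mul, eval₂_C, eval₂_pow,
      eval₂_X, map_ofNat]
    show (t + 256) ^ 3 - x * t ^ 2 = 0
    rw [h, sub_self]

/-- Level 3 Hauptmodul relation: `t` is integral over `R[x]`. -/
theorem c2i25_int_rel_three (x t : F) (h : x * t ^ 3 = (t + 27) * (t + 243) ^ 3) :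
    IsIntegral (Algebra.adjoin R ({x} : Set F)) t := by
  let xA : Algebra.adjoin R ({x} : Set F) := ⟨x, Algebra.subset_adjoin (Set.mem_singleton _)⟩
  refine ⟨(X + C (27 : Algebra.adjoin R ({x} : Set F))) *
      (X + C (243 : Algebra.adjoin R ({x} : Set F))) ^ 3 - C xA * X ^ 3, ?_, ?_⟩
  · have hm : ((X + C (27 : Algebra.adjoin R ({x} : Set F))) *
        (X + C (243 : Algebra.adjoin R ({x} : Set F))) ^ 3).Monic :=
      (monic_X_add_C _).mul ((monic_X_add_C _).pow 3)
    have hdeg : (C xA * X ^ 3 : Polynomial (Algebra.adjoin R ({x} : Set F))).degree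
        < ((X + C (27 : Algebra.adjoin R ({x} : Set F))) *
          (X + C (243 : Algebra.adjoin R ({x} : Set F))) ^ 3).degree := by
      have hnd : ((X + C (27 : Algebra.adjoin R ({x} : Set F))) *
          (X + C (243 : Algebra.adjoin R ({x} : Set F))) ^ 3).natDegree = 4 := by
        rw [Monic.natDegree_mul (monic_X_add_C _) ((monic_X_add_C _).pow 3),
          Monic.natDegree_pow (monic_X_add_C _), natDegree_X_add_C, natDegree_X_add_C]
      refine degree_lt_degree ?_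
      rw [hnd]
      exact (natDegree_C_mul_X_pow_le xA 3).trans_lt (by norm_num)
    exact hm.sub_of_left hdeg
  · rw [eval₂_sub, eval₂_mul, eval₂_pow, eval₂_add, eval₂_add, eval₂_X, eval₂_C, eval₂_C,
      eval₂_mul, eval₂_C, eval₂_pow, eval₂_X, map_ofNat, map_ofNat]
    show (t + 27) * (t + 243) ^ 3 - x * t ^ 3 = 0
    rw [h, sub_self]

/-- Transitivity over singletons. -/
theorem c2i25_trans (x y z : F) (hy : IsIntegral (Algebra.adjoin R ({x} : Set F)) y)
    (hz : IsIntegral (Algebra.adjoin R ({y} : Set F)) z) :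
    IsIntegral (Algebra.adjoin R ({x} : Set F)) z := by
  refine bz7_isIntegral_trans ({x} : Set F) ({y} : Set F) ?_ z hz
  intro w hw
  rw [Set.mem_singleton_iff] at hw
  rw [hw]
  exact hy

/-- **Integrality over `R[x1]`, level 2.**  `(x1, J, x3) = (j(τ), j(qτ), j(q²τ))` with the two
Kronecker relations, `(t1, t2, t3) = (h(τ), h(qτ), h(q²τ))` with the three Hauptmodul
relations: `J, x3, t1, t2, t3` are integral over `R[x1]`. -/
theorem c2i25_int_two (Φ : Polynomial (Polynomial ℤ)) (hΦm : Φ.Monic)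
    (hsw : swap Φ = Φ ∨ swap Φ = -Φ) (x1 J x3 t1 t2 t3 : F)
    (hΦ1 : dq56_ev J x1 Φ = 0) (hΦ3 : dq56_ev J x3 Φ = 0)
    (hx1t : x1 * t1 ^ 2 = (t1 + 256) ^ 3) (hJt : J * t2 ^ 2 = (t2 + 256) ^ 3)
    (hx3t : x3 * t3 ^ 2 = (t3 + 256) ^ 3) :
    IsIntegral (Algebra.adjoin R ({x1} : Set F)) J ∧
    IsIntegral (Algebra.adjoin R ({x1} : Set F)) x3 ∧
    IsIntegral (Algebra.adjoin R ({x1} : Set F)) t1 ∧
    IsIntegral (Algebra.adjoin R ({x1} : Set F)) t2 ∧
    IsIntegral (Algebra.adjoin R ({x1} : Set F)) t3 := by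
  have hJ : IsIntegral (Algebra.adjoin R ({x1} : Set F)) J := c2i25_int_of_ev Φ hΦm J x1 hΦ1
  have hx3J : IsIntegral (Algebra.adjoin R ({J} : Set F)) x3 :=
    c2i25_int_of_ev Φ hΦm x3 J (c2i25_ev_swap Φ hsw J x3 hΦ3)
  have hx3 : IsIntegral (Algebra.adjoin R ({x1} : Set F)) x3 := c2i25_trans x1 J x3 hJ hx3J
  exact ⟨hJ, hx3, c2i25_int_rel_two x1 t1 hx1t,
    c2i25_trans x1 J t2 hJ (c2i25_int_rel_two J t2 hJt),
    c2i25_trans x1 x3 t3 hx3 (c2i25_int_rel_two x3 t3 hx3t)⟩

/-- **Integrality over `R[x1]`, level 3.** -/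
theorem c2i25_int_three (Φ : Polynomial (Polynomial ℤ)) (hΦm : Φ.Monic)
    (hsw : swap Φ = Φ ∨ swap Φ = -Φ) (x1 J x3 t1 t2 t3 : F)
    (hΦ1 : dq56_ev J x1 Φ = 0) (hΦ3 : dq56_ev J x3 Φ = 0)
    (hx1t : x1 * t1 ^ 3 = (t1 + 27) * (t1 + 243) ^ 3)
    (hJt : J * t2 ^ 3 = (t2 + 27) * (t2 + 243) ^ 3)
    (hx3t : x3 * t3 ^ 3 = (t3 + 27) * (t3 + 243) ^ 3) :
    IsIntegral (Algebra.adjoin R ({x1} : Set F)) J ∧
    IsIntegral (Algebra.adjoin R ({x1} : Set F)) x3 ∧
    IsIntegral (Algebra.adjoin R ({x1} : Set F)) t1 ∧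
    IsIntegral (Algebra.adjoin R ({x1} : Set F)) t2 ∧
    IsIntegral (Algebra.adjoin R ({x1} : Set F)) t3 := by
  have hJ : IsIntegral (Algebra.adjoin R ({x1} : Set F)) J := c2i25_int_of_ev Φ hΦm J x1 hΦ1
  have hx3J : IsIntegral (Algebra.adjoin R ({J} : Set F)) x3 :=
    c2i25_int_of_ev Φ hΦm x3 J (c2i25_ev_swap Φ hsw J x3 hΦ3)
  have hx3 : IsIntegral (Algebra.adjoin R ({x1} : Set F)) x3 := c2i25_trans x1 J x3 hJ hx3J
  exact ⟨hJ, hx3, c2i25_int_rel_three x1 t1 hx1t,
    c2i25_trans x1 J t2 hJ (c2i25_int_rel_three J t2 hJt),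
    c2i25_trans x1 x3 t3 hx3 (c2i25_int_rel_three x3 t3 hx3t)⟩

end

end Fermat.Agent.S36
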