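import Mathlib
import Fermat.Agent.S34.UVAt17
import Fermat.Agent.S34.SpecFibre79
import Fermat.Agent.S36.C2Final24
import Fermat.Agent.S36.C2Integral25

/-!
S36 lab (helper25), row 600 (C-C2): `c2f24_prinAt_two` / `c2f24_prinAt_three` (helper24) WITHOUT
chart data.

At a closed point `n` of an integrally closed chart `B` lying on the middle component only, where
`x1 = j(τ)` is regular (`s' * x1 ∈ B`, `s' ∉ n`), the chart data `(s, b)` and `(aw, tw)` of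
`c2f24_prinAt_two/three` are produced from field-level facts:

* `J, x3, t1, t2, t3` are integral over `R[x1]` (`c2i25_int_two/three`), hence lie in the local
  ring `sf79_loc B n` (`uv17_clear`);
* `b ∉ n` is a unit of `V₂` because `x3 - x1` is a uniformiser of `V₂` (third clause of
  `ob72_ram`) and `n` lies on the middle branch;
* `t2 ≡ t1^q` modulo `n B_n`, so `t2`, `t2 + 64` (resp. `t2 + 27`) are units of `B_n` as soon as
  `t1`, `t1 + 64` (resp. `t1 + 27`) are, and the sixth-power identity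
  `wt^6 · t1^4 (t1 + 64)^3 u = t2^4 (t2 + 64)^3` (resp. `wt^6 · t1^3 (t1 + 27)^4 u =
  t2^3 (t2 + 27)^4`) shows that `wt` has no zero at `n`;
* `t1` is a unit of `B_n` when `2 ∉ n` (resp. `3 ∉ n`).

Main statements: `c2x25_prinAt_two`, `c2x25_prinAt_three` (remaining point hypothesis:
`¬ sf79_nmem B n (t1 + 64)` resp. `¬ sf79_nmem B n (t1 + 27)`), and the case split
`c2x25_cover` (`2, 3 ∉ n`), `c2x25_small_two` (`1728 ∈ n B_n`, `j` a unit at `n`),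
`c2x25_small_three` (`j` a unit at `n`).
-/

set_option autoImplicit false

namespace Fermat.Agent.S36

open Polynomial Polynomial.Bivariate Fermat.Agent.S34 TripleLoc71

section Local

variable {R F : Type*} [CommRing R] [Field F] [Algebra R F]
variable (B : Subalgebra R F) (n : Ideal B) [hn : n.IsPrime]

theorem c2x25_nmem_zero : sf79_nmem B n (0 : F) :=
  ⟨1, (Ideal.ne_top_iff_one n).mp hn.ne_top, 0, n.zero_mem, by simp⟩

/-- The local ring of an integrally closed chart is closed under roots. -/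
theorem c2x25_root_loc (hBint : ∀ z : F, IsIntegral B z → z ∈ B) (m : ℕ) (hm : 0 < m) (x : F)
    (hx : x ^ m ∈ sf79_loc B n) : x ∈ sf79_loc B n := by
  obtain ⟨c, hc, hcx⟩ := hx
  have hpow : ((c : F) * x) ^ m ∈ B := by
    obtain ⟨k, rfl⟩ : ∃ k, m = k + 1 := ⟨m - 1, by omega⟩
    have e : ((c : F) * x) ^ (k + 1) = (c : F) ^ k * ((c : F) * x ^ (k + 1)) := by ring
    rw [e]
    exact B.mul_mem (B.pow_mem c.2 k) hcx
  have hint : IsIntegral B ((c : F) * x) := by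
    refine ⟨X ^ m - C (⟨((c : F) * x) ^ m, hpow⟩ : B), monic_X_pow_sub_C _ hm.ne', ?_⟩
    rw [eval₂_sub, eval₂_pow, eval₂_X, eval₂_C]
    show ((c : F) * x) ^ m - ((c : F) * x) ^ m = 0
    exact sub_self _
  exact ⟨c, hc, hBint _ hint⟩

/-- Integral over `R[j]` and `j` regular at `n`: regular at `n`. -/
theorem c2x25_loc_of_integral (hBint : ∀ z : F, IsIntegral B z → z ∈ B) (j x : F)
    (hx : IsIntegral (Algebra.adjoin R ({j} : Set F)) x) (s' : B) (hs' : s' ∉ n)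
    (hs'j : (s' : F) * j ∈ B) : x ∈ sf79_loc B n := by
  obtain ⟨k, hk⟩ := uv17_clear B hBint j x hx (s' : F) s'.2 hs'j
  refine ⟨s' ^ k, fun h => hs' (hn.mem_of_pow_mem k h), ?_⟩
  push_cast
  exact hk

theorem c2x25_ne_zero (x : F) (hN : ¬ sf79_nmem B n x) : x ≠ 0 := by
  rintro rfl
  exact hN (c2x25_nmem_zero B n)

/-- Elements of `B_n` outside `n B_n` are units of `B_n`. -/
theorem c2x25_inv_loc (x : F) (hx : x ∈ sf79_loc B n) (hN : ¬ sf79_nmem B n x) :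
    x⁻¹ ∈ sf79_loc B n := by
  obtain ⟨s, hs, hsx⟩ := hx
  have hb : (⟨(s : F) * x, hsx⟩ : B) ∉ n := fun hb => hN ⟨s, hs, ⟨(s : F) * x, hsx⟩, hb, rfl⟩
  have hx0 : x ≠ 0 := c2x25_ne_zero B n x hN
  refine ⟨⟨(s : F) * x, hsx⟩, hb, ?_⟩
  show (s : F) * x * x⁻¹ ∈ B
  rw [mul_assoc, mul_inv_cancel₀ hx0, mul_one]
  exact s.2

theorem c2x25_nmem_of_pow (x : F) (hx : x ∈ sf79_loc B n) (k : ℕ)
    (h : sf79_nmem B n (x ^ k)) : sf79_nmem B n x := by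
  by_contra hN
  have hinv := c2x25_inv_loc B n x hx hN
  have hx0 : x ≠ 0 := c2x25_ne_zero B n x hN
  have h1 := sf79_nmem_mul B n (x⁻¹ ^ k) (x ^ k) ((sf79_loc B n).pow_mem hinv k) h
  rw [← mul_pow, inv_mul_cancel₀ hx0, one_pow] at h1
  exact sf79_not_nmem_one B n h1

theorem c2x25_nmem_of_mul (a x : F) (ha : a ∈ sf79_loc B n) (haN : ¬ sf79_nmem B n a)
    (h : sf79_nmem B n (a * x)) : sf79_nmem B n x := by
  have hinv := c2x25_inv_loc B n a ha haN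
  have ha0 : a ≠ 0 := c2x25_ne_zero B n a haN
  have h1 := sf79_nmem_mul B n a⁻¹ (a * x) hinv h
  rwa [← mul_assoc, inv_mul_cancel₀ ha0, one_mul] at h1

theorem c2x25_nmem_neg (x : F) (h : sf79_nmem B n x) : sf79_nmem B n (-x) := by
  have := sf79_nmem_mul B n (-1) x ((sf79_loc B n).neg_mem (sf79_loc B n).one_mem) h
  rwa [neg_one_mul] at this

theorem c2x25_nmem_sub (x y : F) (hx : sf79_nmem B n x) (hy : sf79_nmem B n y) :
    sf79_nmem B n (x - y) := by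
  rw [sub_eq_add_neg]
  exact sf79_nmem_add B n _ _ hx (c2x25_nmem_neg B n y hy)

theorem c2x25_natCast_mem (k : ℕ) (h : sf79_nmem B n ((k : ℕ) : F)) : ((k : ℕ) : B) ∈ n := by
  apply sf79_mem_of_nmem B n
  have e : (((k : ℕ) : B) : F) = ((k : ℕ) : F) := by simp
  rw [e]
  exact h

/-- A regular element divisible by the uniformiser of the middle branch lies in `n B_n`. -/
theorem c2x25_nmem_mid (σ : F) (V₂ : Subring F) (hmid : tl71_OnMid σ B V₂ n)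
    (hB₂ : ∀ x ∈ B, x ∈ V₂) (x : F) (hx : x ∈ sf79_loc B n) (hxσ : x * σ⁻¹ ∈ V₂) :
    sf79_nmem B n x := by
  obtain ⟨s, hs, hsx⟩ := hx
  refine ⟨s, hs, ⟨(s : F) * x, hsx⟩, hmid ⟨(s : F) * x, hsx⟩ ?_, rfl⟩
  show (s : F) * x * σ⁻¹ ∈ V₂
  rw [mul_assoc]
  exact V₂.mul_mem (hB₂ _ s.2) hxσ

theorem c2x25_fermat (q : ℕ) (hq : q.Prime) (c : ℕ) : ∃ m : ℕ, c ^ q = c + q * m := by
  have : Fact q.Prime := Fact.mk hq
  have h : ((c ^ q : ℕ) : ZMod q) = ((c : ℕ) : ZMod q) := by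
    push_cast
    exact ZMod.pow_card _
  have hmod : c ^ q ≡ c [MOD q] := (ZMod.natCast_eq_natCast_iff _ _ _).mp h
  have hle : c ≤ c ^ q := Nat.le_self_pow hq.ne_zero c
  obtain ⟨m, hm⟩ := (Nat.modEq_iff_dvd' hle).mp hmod.symm
  exact ⟨m, by omega⟩

/-- **Frobenius at `n`.** -/
theorem c2x25_frob (q : ℕ) (hq : q.Prime) (hqN : sf79_nmem B n ((q : ℕ) : F)) (t1 t2 : F)
    (ht1 : t1 ∈ sf79_loc B n) (h21 : sf79_nmem B n (t2 - t1 ^ q)) (c : ℕ)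
    (h : sf79_nmem B n (t2 + (c : F))) : sf79_nmem B n (t1 + (c : F)) := by
  have hcA : ((c : ℕ) : F) ∈ sf79_loc B n := natCast_mem (sf79_loc B n) c
  obtain ⟨r, hr⟩ := exists_add_pow_prime_eq hq (⟨t1, ht1⟩ : sf79_loc B n)
    (⟨(c : F), hcA⟩ : sf79_loc B n)
  have hr' : (t1 + (c : F)) ^ q = t1 ^ q + (c : F) ^ q + (q : F) * t1 * (c : F) * (r : F) := by
    have := congrArg (fun z : sf79_loc B n => (z : F)) hr
    simpa using this
  obtain ⟨m, hm⟩ := c2x25_fermat q hq c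
  have hm' : ((c : ℕ) : F) ^ q = (c : F) + (q : F) * (m : F) := by
    exact_mod_cast congrArg (fun z : ℕ => (z : F)) hm
  have key : (t1 + (c : F)) ^ q
      = (t2 + (c : F)) - (t2 - t1 ^ q) + (t1 * (c : F) * (r : F) + (m : F)) * (q : F) := by
    rw [hr', hm']; ring
  apply c2x25_nmem_of_pow B n _ ((sf79_loc B n).add_mem ht1 hcA) q
  rw [key]
  refine sf79_nmem_add B n _ _ (c2x25_nmem_sub B n _ _ h h21) ?_
  exact sf79_nmem_mul B n _ _ ((sf79_loc B n).add_mem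
    ((sf79_loc B n).mul_mem ((sf79_loc B n).mul_mem ht1 hcA) r.2)
    (natCast_mem (sf79_loc B n) m)) hqN

/-- Level 2: `t` is a unit at `n` when `2 ∉ n`. -/
theorem c2x25_unit_two (x t : F) (hxA : x ∈ sf79_loc B n) (htA : t ∈ sf79_loc B n)
    (hrel : x * t ^ 2 = (t + 256) ^ 3) (h2n : ((2 : ℕ) : B) ∉ n) : ¬ sf79_nmem B n t := by
  intro hN
  have h256A : ((256 : ℕ) : F) ∈ sf79_loc B n := natCast_mem (sf79_loc B n) 256
  have h3 : sf79_nmem B n ((t + ((256 : ℕ) : F)) ^ 3) := by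
    have e : (t + ((256 : ℕ) : F)) ^ 3 = (x * t) * t := by
      push_cast
      rw [← hrel]; ring
    rw [e]
    exact sf79_nmem_mul B n (x * t) t ((sf79_loc B n).mul_mem hxA htA) hN
  have h4 := c2x25_nmem_of_pow B n _ ((sf79_loc B n).add_mem htA h256A) 3 h3
  have h5 : sf79_nmem B n ((256 : ℕ) : F) := by
    have e : ((256 : ℕ) : F) = (t + ((256 : ℕ) : F)) - t := by ring
    rw [e]
    exact c2x25_nmem_sub B n _ _ h4 hN
  have h6 := c2x25_natCast_mem B n 256 h5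
  have e : ((256 : ℕ) : B) = ((2 : ℕ) : B) ^ 8 := by norm_num
  rw [e] at h6
  exact h2n (hn.mem_of_pow_mem 8 h6)

/-- Level 3: `t` is a unit at `n` when `3 ∉ n`. -/
theorem c2x25_unit_three (x t : F) (hxA : x ∈ sf79_loc B n) (htA : t ∈ sf79_loc B n)
    (hrel : x * t ^ 3 = (t + 27) * (t + 243) ^ 3) (h3n : ((3 : ℕ) : B) ∉ n) :
    ¬ sf79_nmem B n t := by
  intro hN
  have h27A : ((27 : ℕ) : F) ∈ sf79_loc B n := natCast_mem (sf79_loc B n) 27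
  have h243A : ((243 : ℕ) : F) ∈ sf79_loc B n := natCast_mem (sf79_loc B n) 243
  have hprod : sf79_nmem B n ((t + ((27 : ℕ) : F)) * (t + ((243 : ℕ) : F)) ^ 3) := by
    have e : (t + ((27 : ℕ) : F)) * (t + ((243 : ℕ) : F)) ^ 3 = (x * t ^ 2) * t := by
      push_cast
      rw [← hrel]; ring
    rw [e]
    exact sf79_nmem_mul B n (x * t ^ 2) t
      ((sf79_loc B n).mul_mem hxA ((sf79_loc B n).pow_mem htA 2)) hN
  by_cases h27 : sf79_nmem B n (t + ((27 : ℕ) : F))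
  · have h5 : sf79_nmem B n ((27 : ℕ) : F) := by
      have e : ((27 : ℕ) : F) = (t + ((27 : ℕ) : F)) - t := by ring
      rw [e]
      exact c2x25_nmem_sub B n _ _ h27 hN
    have h6 := c2x25_natCast_mem B n 27 h5
    have e : ((27 : ℕ) : B) = ((3 : ℕ) : B) ^ 3 := by norm_num
    rw [e] at h6
    exact h3n (hn.mem_of_pow_mem 3 h6)
  · have h3 := c2x25_nmem_of_mul B n _ _ ((sf79_loc B n).add_mem htA h27A) h27 hprod
    have h4 := c2x25_nmem_of_pow B n _ ((sf79_loc B n).add_mem htA h243A) 3 h3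
    have h5 : sf79_nmem B n ((243 : ℕ) : F) := by
      have e : ((243 : ℕ) : F) = (t + ((243 : ℕ) : F)) - t := by ring
      rw [e]
      exact c2x25_nmem_sub B n _ _ h4 hN
    have h6 := c2x25_natCast_mem B n 243 h5
    have e : ((243 : ℕ) : B) = ((3 : ℕ) : B) ^ 5 := by norm_num
    rw [e] at h6
    exact h3n (hn.mem_of_pow_mem 5 h6)

/-- Level 2: `t + 64 ∈ n B_n` forces `j - 1728 ∈ n B_n` (`t` a unit at `n`). -/
theorem c2x25_nmem_1728 (x t : F) (hxA : x ∈ sf79_loc B n) (htA : t ∈ sf79_loc B n)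
    (hrel : x * t ^ 2 = (t + 256) ^ 3) (htN : ¬ sf79_nmem B n t)
    (h : sf79_nmem B n (t + 64)) : sf79_nmem B n (x - 1728) := by
  have e : t ^ 2 * (x - 1728) = (t - 512) ^ 2 * (t + 64) := by linear_combination hrel
  have h512A : (512 : F) ∈ sf79_loc B n := by
    have := natCast_mem (sf79_loc B n) 512
    simpa using this
  have h1 : sf79_nmem B n (t ^ 2 * (x - 1728)) := by
    rw [e]
    exact sf79_nmem_mul B n _ _ ((sf79_loc B n).pow_mem ((sf79_loc B n).sub_mem htA h512A) 2) h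
  exact c2x25_nmem_of_mul B n _ _ ((sf79_loc B n).pow_mem htA 2)
    (fun h2 => htN (c2x25_nmem_of_pow B n t htA 2 h2)) h1

/-- Level 3: `t + 27 ∈ n B_n` forces `j ∈ n B_n` (`t` a unit at `n`). -/
theorem c2x25_nmem_j (x t : F) (htA : t ∈ sf79_loc B n)
    (hrel : x * t ^ 3 = (t + 27) * (t + 243) ^ 3) (htN : ¬ sf79_nmem B n t)
    (h : sf79_nmem B n (t + 27)) : sf79_nmem B n x := by
  have e : t ^ 3 * x = (t + 243) ^ 3 * (t + 27) := by linear_combination hrel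
  have h243A : (243 : F) ∈ sf79_loc B n := by
    have := natCast_mem (sf79_loc B n) 243
    simpa using this
  have h1 : sf79_nmem B n (t ^ 3 * x) := by
    rw [e]
    exact sf79_nmem_mul B n _ _ ((sf79_loc B n).pow_mem ((sf79_loc B n).add_mem htA h243A) 3) h
  exact c2x25_nmem_of_mul B n _ _ ((sf79_loc B n).pow_mem htA 3)
    (fun h2 => htN (c2x25_nmem_of_pow B n t htA 3 h2)) h1

/-- **Case split, residue characteristic `≥ 5`.**  With both Hauptmoduln regular at `n` and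
`2, 3 ∉ n`: `t + 64` or `t' + 27` is a unit at `n`. -/
theorem c2x25_cover (x t t' : F) (hxA : x ∈ sf79_loc B n) (htA : t ∈ sf79_loc B n)
    (ht'A : t' ∈ sf79_loc B n) (hrel2 : x * t ^ 2 = (t + 256) ^ 3)
    (hrel3 : x * t' ^ 3 = (t' + 27) * (t' + 243) ^ 3)
    (h2n : ((2 : ℕ) : B) ∉ n) (h3n : ((3 : ℕ) : B) ∉ n) :
    ¬ sf79_nmem B n (t + 64) ∨ ¬ sf79_nmem B n (t' + 27) := by
  by_contra hcon
  rw [not_or, not_not, not_not] at hcon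
  obtain ⟨ha, hb⟩ := hcon
  have htN := c2x25_unit_two B n x t hxA htA hrel2 h2n
  have ht'N := c2x25_unit_three B n x t' hxA ht'A hrel3 h3n
  have h1 := c2x25_nmem_1728 B n x t hxA htA hrel2 htN ha
  have h2 := c2x25_nmem_j B n x t' ht'A hrel3 ht'N hb
  have h3 : sf79_nmem B n ((1728 : ℕ) : F) := by
    have e : ((1728 : ℕ) : F) = x - (x - 1728) := by push_cast; ring
    rw [e]
    exact c2x25_nmem_sub B n _ _ h2 h1
  have h4 := c2x25_natCast_mem B n 1728 h3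
  have e : ((1728 : ℕ) : B) = ((2 : ℕ) : B) ^ 6 * ((3 : ℕ) : B) ^ 3 := by norm_num
  rw [e] at h4
  rcases hn.mem_or_mem h4 with h | h
  · exact h2n (hn.mem_of_pow_mem 6 h)
  · exact h3n (hn.mem_of_pow_mem 3 h)

/-- **Case split, `q = 3`.**  `1728 ∈ n B_n` and `j` a unit at `n`: `t + 64` is a unit. -/
theorem c2x25_small_two (x t : F) (hxA : x ∈ sf79_loc B n) (htA : t ∈ sf79_loc B n)
    (hrel2 : x * t ^ 2 = (t + 256) ^ 3) (h2n : ((2 : ℕ) : B) ∉ n)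
    (h1728 : sf79_nmem B n (1728 : F)) (hxN : ¬ sf79_nmem B n x) :
    ¬ sf79_nmem B n (t + 64) := by
  intro ha
  have htN := c2x25_unit_two B n x t hxA htA hrel2 h2n
  have h1 := c2x25_nmem_1728 B n x t hxA htA hrel2 htN ha
  apply hxN
  have e : x = (x - 1728) + 1728 := by ring
  rw [e]
  exact sf79_nmem_add B n _ _ h1 h1728

/-- **Case split, `q = 2`.**  `j` a unit at `n` and `3 ∉ n`: `t' + 27` is a unit. -/
theorem c2x25_small_three (x t' : F) (hxA : x ∈ sf79_loc B n) (ht'A : t' ∈ sf79_loc B n)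
    (hrel3 : x * t' ^ 3 = (t' + 27) * (t' + 243) ^ 3) (h3n : ((3 : ℕ) : B) ∉ n)
    (hxN : ¬ sf79_nmem B n x) : ¬ sf79_nmem B n (t' + 27) := by
  intro hb
  have ht'N := c2x25_unit_three B n x t' hxA ht'A hrel3 h3n
  exact hxN (c2x25_nmem_j B n x t' ht'A hrel3 ht'N hb)

end Local

section Main

/-- `q ∈ n B_n`. -/
theorem c2x25_q_nmem {R F : Type*} [CommRing R] [Field F] [Algebra R F]
    (π u : R) (q : ℕ) (hqπ : (q : R) = u * π) (B : Subalgebra R F) (n : Ideal B) [hn : n.IsPrime]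
    (hπn : algebraMap R B π ∈ n) : sf79_nmem B n ((q : ℕ) : F) := by
  have e : ((q : ℕ) : F) = algebraMap R F u * ((algebraMap R B π : B) : F) := by
    have e1 : ((q : ℕ) : F) = algebraMap R F ((q : ℕ) : R) := (map_natCast (algebraMap R F) q).symm
    rw [e1, hqπ, map_mul]
    rfl
  rw [e]
  exact sf79_nmem_mul B n _ _ (sf79_le_loc B n _ (B.algebraMap_mem u)) (sf79_nmem_of_mem B n _ hπn)

/-- The chart data `(s, b)` of `c2f24_prinAt_two/three`. -/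
theorem c2x25_sb {R F : Type*} [CommRing R] [Field F] [Algebra R F]
    (B : Subalgebra R F) (V₂ : ValuationSubring F) (hB₂ : ∀ x ∈ B, x ∈ V₂.toSubring)
    (n : Ideal B) [hn : n.IsPrime] (σ : F)
    (huni : ∀ x ∈ V₂, x⁻¹ ∉ V₂ → σ⁻¹ * x ∈ V₂)
    (hmid : tl71_OnMid σ B V₂.toSubring n) (d : F) (hd : d ∈ sf79_loc B n) :
    ∃ s b : B, (s : F) = (b : F) * d ∧ b ∉ n ∧ (b : F)⁻¹ ∈ V₂ := by
  obtain ⟨b, hbn, hbB⟩ := hd
  refine ⟨⟨(b : F) * d, hbB⟩, b, rfl, hbn, ?_⟩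
  by_contra hcon
  have h1 := huni (b : F) (hB₂ _ b.2) hcon
  apply hbn
  apply hmid b
  show (b : F) * σ⁻¹ ∈ V₂
  rw [mul_comm]
  exact h1

/-- The chart data `(aw, tw)` of `c2f24_prinAt_two/three` from `wt⁻¹ ∈ B_n`. -/
theorem c2x25_awtw {R F : Type*} [CommRing R] [Field F] [Algebra R F]
    (B : Subalgebra R F) (n : Ideal B) [hn : n.IsPrime] (wt : F) (hwt0 : wt ≠ 0)
    (hw : wt⁻¹ ∈ sf79_loc B n) : ∃ aw tw : B, aw ∉ n ∧ wt * (tw : F) = (aw : F) := by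
  obtain ⟨aw, haw, hawB⟩ := hw
  refine ⟨aw, ⟨(aw : F) * wt⁻¹, hawB⟩, haw, ?_⟩
  show wt * ((aw : F) * wt⁻¹) = (aw : F)
  field_simp

/-- **`c2f24_prinAt_two` without chart data.** -/
theorem c2x25_prinAt_two {R F : Type*} [CommRing R] [Field F] [Algebra R F]
    (π u u' : R) (huu' : u * u' = 1) (q : ℕ) (hq : q.Prime) (hqπ : (q : R) = u * π)
    (B : Subalgebra R F) (hBint : ∀ z : F, IsIntegral B z → z ∈ B)
    (V₁ V₃ : Subring F) (V₂ : ValuationSubring F)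
    (hB₁ : ∀ x ∈ B, x ∈ V₁) (hB₂ : ∀ x ∈ B, x ∈ V₂.toSubring) (hB₃ : ∀ x ∈ B, x ∈ V₃)
    (hsat : ∀ x ∈ B, (algebraMap R F π)⁻¹ * x ∈ V₁ → (algebraMap R F π)⁻¹ * x ∈ V₂.toSubring →
      (algebraMap R F π)⁻¹ * x ∈ V₃ → (algebraMap R F π)⁻¹ * x ∈ B)
    (hπ0 : algebraMap R F π ≠ 0)
    (n : Ideal B) [hn : n.IsPrime] (hπn : algebraMap R B π ∈ n)
    -- the `j`-data
    (hq0 : (q : F) ≠ 0) (Φ Ψ : Polynomial (Polynomial ℤ)) (hΦm : Φ.Monic)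
    (hsw : swap Φ = Φ ∨ swap Φ = -Φ)
    (hΦΨ : Φ = (X - C (X ^ q)) * (X ^ q - C X) + C (C (q : ℤ)) * Ψ)
    (x1 J x3 γ1 wj e' : F)
    (hx1 : x1 ∈ V₂) (hJ : J ∈ V₂) (hγ1 : γ1 ∈ V₂) (hwj : wj ∈ V₂) (he' : e' ∈ V₂)
    (h1' : J = x1 ^ q + q * γ1)
    (hΦ1 : dq56_ev J x1 Φ = 0) (hΦ3 : dq56_ev J x3 Φ = 0)
    (hε : (J ^ q - x1) * e' = 1)
    (hw : dq56_ev J x1 (dq56_dY Φ) = -(q * wj * dq56_ev J x1 (derivative Φ)))
    (hs : V₂.valuation (x3 - x1) ^ (q - 1) = V₂.valuation (q : F))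
    (hqV : V₂.valuation (q : F) < 1)
    (huni : ∀ x ∈ V₂, x⁻¹ ∉ V₂ → (x3 - x1)⁻¹ * x ∈ V₂)
    (hmid : tl71_OnMid (x3 - x1) B V₂.toSubring n)
    (h1 : ¬ sf79_OnBr π B V₁ n) (h3 : ¬ sf79_OnBr π B V₃ n)
    -- the Hauptmodul data
    (t1 t2 t3 g wt uF : F)
    (ht1 : t1 ∈ V₂) (ht1' : t1⁻¹ ∈ V₂) (ht10 : t1 ≠ 0) (ht2 : t2 ∈ V₂) (hg : g ∈ V₂)
    (ht2g : t2 = t1 ^ q + q * g)
    (hx1t : x1 * t1 ^ 2 = (t1 + 256) ^ 3) (hJt : J * t2 ^ 2 = (t2 + 256) ^ 3)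
    (hx3t : x3 * t3 ^ 2 = (t3 + 256) ^ 3)
    (hΔ : V₂.valuation (t3 - t1) < 1)
    (hD1 : V₂.valuation ((t1 + 256) ^ 2 * (t1 - 512)) = 1)
    (hD2 : V₂.valuation ((t2 + 256) ^ 2 * (t2 - 512)) = 1)
    (hwt : wt * ((t2 + 256) ^ 2 * (t2 - 512) * t1 ^ 3)
      = wj * ((t1 + 256) ^ 2 * (t1 - 512) * t2 ^ 3))
    (huF : IsIntegral (Algebra.adjoin R ({x1} : Set F)) uF)
    (h6 : wt ^ 6 * (t1 ^ 4 * (t1 + 64) ^ 3 * uF) = t2 ^ 4 * (t2 + 64) ^ 3)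
    -- the point
    (s' : B) (hs' : s' ∉ n) (hs'j : (s' : F) * x1 ∈ B)
    (h2n : ((2 : ℕ) : B) ∉ n) (h64 : ¬ sf79_nmem B n (t1 + 64)) :
    mc25_MidPrinAt (x3 - x1) B V₂.toSubring n := by
  obtain ⟨-, hqsj, -⟩ := c2e24_kron_val V₂ hq hq0 Φ Ψ hΦΨ x1 J x3 γ1 wj e'
    hx1 hJ hγ1 hwj he' h1' hΦ1 hΦ3 hε hw hs hqV
  obtain ⟨-, -, hi1, hi2, hi3⟩ := c2i25_int_two (R := R) Φ hΦm hsw x1 J x3 t1 t2 t3 hΦ1 hΦ3
    hx1t hJt hx3t
  have hx1A : x1 ∈ sf79_loc B n := ⟨s', hs', hs'j⟩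
  have ht1A : t1 ∈ sf79_loc B n := c2x25_loc_of_integral B n hBint x1 t1 hi1 s' hs' hs'j
  have ht2A : t2 ∈ sf79_loc B n := c2x25_loc_of_integral B n hBint x1 t2 hi2 s' hs' hs'j
  have ht3A : t3 ∈ sf79_loc B n := c2x25_loc_of_integral B n hBint x1 t3 hi3 s' hs' hs'j
  have huA : uF ∈ sf79_loc B n := c2x25_loc_of_integral B n hBint x1 uF huF s' hs' hs'j
  have h64A : (64 : F) ∈ sf79_loc B n := by
    have := natCast_mem (sf79_loc B n) 64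
    simpa using this
  have hqN : sf79_nmem B n ((q : ℕ) : F) := c2x25_q_nmem π u q hqπ B n hπn
  have h21 : sf79_nmem B n (t2 - t1 ^ q) := by
    apply c2x25_nmem_mid B n (x3 - x1) V₂.toSubring hmid hB₂ _
      ((sf79_loc B n).sub_mem ht2A ((sf79_loc B n).pow_mem ht1A q))
    have e : (t2 - t1 ^ q) * (x3 - x1)⁻¹ = g * ((q : F) * (x3 - x1)⁻¹) := by rw [ht2g]; ring
    rw [e]
    show g * ((q : F) * (x3 - x1)⁻¹) ∈ V₂
    exact mul_mem hg hqsj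
  have ht1N : ¬ sf79_nmem B n t1 := c2x25_unit_two B n x1 t1 hx1A ht1A hx1t h2n
  have ht2N : ¬ sf79_nmem B n t2 := by
    intro hN
    apply ht1N
    have := c2x25_frob B n q hq hqN t1 t2 ht1A h21 0 (by simpa using hN)
    simpa using this
  have ht2N' : ¬ sf79_nmem B n (t2 + 64) := by
    intro hN
    apply h64
    have := c2x25_frob B n q hq hqN t1 t2 ht1A h21 64 (by simpa using hN)
    simpa using this
  have hinv2 := c2x25_inv_loc B n t2 ht2A ht2N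
  have hinv2' := c2x25_inv_loc B n (t2 + 64) ((sf79_loc B n).add_mem ht2A h64A) ht2N'
  have ht20 : t2 ≠ 0 := c2x25_ne_zero B n t2 ht2N
  have ht264 : t2 + 64 ≠ 0 := c2x25_ne_zero B n _ ht2N'
  have hwt0 : wt ≠ 0 := by
    intro h0
    rw [h0, zero_pow (by norm_num), zero_mul] at h6
    exact (mul_ne_zero (pow_ne_zero 4 ht20) (pow_ne_zero 3 ht264)) h6.symm
  have hwinv : wt⁻¹ ∈ sf79_loc B n := by
    apply c2x25_root_loc B n hBint 6 (by norm_num)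
    have e : wt⁻¹ ^ 6 = (t1 ^ 4 * (t1 + 64) ^ 3 * uF) * (t2⁻¹ ^ 4 * (t2 + 64)⁻¹ ^ 3) := by
      have h6' : t1 ^ 4 * (t1 + 64) ^ 3 * uF = wt⁻¹ ^ 6 * (t2 ^ 4 * (t2 + 64) ^ 3) := by
        rw [← h6]
        field_simp
      rw [h6']
      field_simp
    rw [e]
    exact (sf79_loc B n).mul_mem
      ((sf79_loc B n).mul_mem ((sf79_loc B n).mul_mem ((sf79_loc B n).pow_mem ht1A 4)
        ((sf79_loc B n).pow_mem ((sf79_loc B n).add_mem ht1A h64A) 3)) huA)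
      ((sf79_loc B n).mul_mem ((sf79_loc B n).pow_mem hinv2 4) ((sf79_loc B n).pow_mem hinv2' 3))
  obtain ⟨aw, tw, haw, hwtw⟩ := c2x25_awtw B n wt hwt0 hwinv
  obtain ⟨s, b, hsb, hbn, hb₂⟩ := c2x25_sb B V₂ hB₂ n (x3 - x1) huni hmid (t3 - t1)
    ((sf79_loc B n).sub_mem ht3A ht1A)
  exact c2f24_prinAt_two π u u' huu' q hq hqπ B V₁ V₃ V₂ hB₁ hB₂ hB₃ hsat hπ0 n hq0 Φ Ψ hΦΨ
    x1 J x3 γ1 wj e' hx1 hJ hγ1 hwj he' h1' hΦ1 hΦ3 hε hw hs hqV hmid h1 h3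
    t1 t2 t3 g wt ht1 ht1' ht10 ht2 hg ht2g hx1t hx3t hΔ hD1 hD2 hwt
    s b hsb hbn hb₂ aw tw haw hwtw

/-- **`c2f24_prinAt_three` without chart data.** -/
theorem c2x25_prinAt_three {R F : Type*} [CommRing R] [Field F] [Algebra R F]
    (π u u' : R) (huu' : u * u' = 1) (q : ℕ) (hq : q.Prime) (hqπ : (q : R) = u * π)
    (B : Subalgebra R F) (hBint : ∀ z : F, IsIntegral B z → z ∈ B)
    (V₁ V₃ : Subring F) (V₂ : ValuationSubring F)
    (hB₁ : ∀ x ∈ B, x ∈ V₁) (hB₂ : ∀ x ∈ B, x ∈ V₂.toSubring) (hB₃ : ∀ x ∈ B, x ∈ V₃)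
    (hsat : ∀ x ∈ B, (algebraMap R F π)⁻¹ * x ∈ V₁ → (algebraMap R F π)⁻¹ * x ∈ V₂.toSubring →
      (algebraMap R F π)⁻¹ * x ∈ V₃ → (algebraMap R F π)⁻¹ * x ∈ B)
    (hπ0 : algebraMap R F π ≠ 0)
    (n : Ideal B) [hn : n.IsPrime] (hπn : algebraMap R B π ∈ n)
    -- the `j`-data
    (hq0 : (q : F) ≠ 0) (Φ Ψ : Polynomial (Polynomial ℤ)) (hΦm : Φ.Monic)
    (hsw : swap Φ = Φ ∨ swap Φ = -Φ)
    (hΦΨ : Φ = (X - C (X ^ q)) * (X ^ q - C X) + C (C (q : ℤ)) * Ψ)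
    (x1 J x3 γ1 wj e' : F)
    (hx1 : x1 ∈ V₂) (hJ : J ∈ V₂) (hγ1 : γ1 ∈ V₂) (hwj : wj ∈ V₂) (he' : e' ∈ V₂)
    (h1' : J = x1 ^ q + q * γ1)
    (hΦ1 : dq56_ev J x1 Φ = 0) (hΦ3 : dq56_ev J x3 Φ = 0)
    (hε : (J ^ q - x1) * e' = 1)
    (hw : dq56_ev J x1 (dq56_dY Φ) = -(q * wj * dq56_ev J x1 (derivative Φ)))
    (hs : V₂.valuation (x3 - x1) ^ (q - 1) = V₂.valuation (q : F))
    (hqV : V₂.valuation (q : F) < 1)
    (huni : ∀ x ∈ V₂, x⁻¹ ∉ V₂ → (x3 - x1)⁻¹ * x ∈ V₂)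
    (hmid : tl71_OnMid (x3 - x1) B V₂.toSubring n)
    (h1 : ¬ sf79_OnBr π B V₁ n) (h3 : ¬ sf79_OnBr π B V₃ n)
    -- the Hauptmodul data
    (t1 t2 t3 g wt uF : F)
    (ht1 : t1 ∈ V₂) (ht1' : t1⁻¹ ∈ V₂) (ht10 : t1 ≠ 0) (ht2 : t2 ∈ V₂) (hg : g ∈ V₂)
    (ht2g : t2 = t1 ^ q + q * g)
    (hx1t : x1 * t1 ^ 3 = (t1 + 27) * (t1 + 243) ^ 3)
    (hJt : J * t2 ^ 3 = (t2 + 27) * (t2 + 243) ^ 3)
    (hx3t : x3 * t3 ^ 3 = (t3 + 27) * (t3 + 243) ^ 3)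
    (hΔ : V₂.valuation (t3 - t1) < 1)
    (hD1 : V₂.valuation ((t1 + 243) ^ 2 * (t1 ^ 2 - 486 * t1 - 19683)) = 1)
    (hD2 : V₂.valuation ((t2 + 243) ^ 2 * (t2 ^ 2 - 486 * t2 - 19683)) = 1)
    (hwt : wt * ((t2 + 243) ^ 2 * (t2 ^ 2 - 486 * t2 - 19683) * t1 ^ 4)
      = wj * ((t1 + 243) ^ 2 * (t1 ^ 2 - 486 * t1 - 19683) * t2 ^ 4))
    (huF : IsIntegral (Algebra.adjoin R ({x1} : Set F)) uF)
    (h6 : wt ^ 6 * (t1 ^ 3 * (t1 + 27) ^ 4 * uF) = t2 ^ 3 * (t2 + 27) ^ 4)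
    -- the point
    (s' : B) (hs' : s' ∉ n) (hs'j : (s' : F) * x1 ∈ B)
    (h3n : ((3 : ℕ) : B) ∉ n) (h27 : ¬ sf79_nmem B n (t1 + 27)) :
    mc25_MidPrinAt (x3 - x1) B V₂.toSubring n := by
  obtain ⟨-, hqsj, -⟩ := c2e24_kron_val V₂ hq hq0 Φ Ψ hΦΨ x1 J x3 γ1 wj e'
    hx1 hJ hγ1 hwj he' h1' hΦ1 hΦ3 hε hw hs hqV
  obtain ⟨-, -, hi1, hi2, hi3⟩ := c2i25_int_three (R := R) Φ hΦm hsw x1 J x3 t1 t2 t3 hΦ1 hΦ3
    hx1t hJt hx3t
  have hx1A : x1 ∈ sf79_loc B n := ⟨s', hs', hs'j⟩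
  have ht1A : t1 ∈ sf79_loc B n := c2x25_loc_of_integral B n hBint x1 t1 hi1 s' hs' hs'j
  have ht2A : t2 ∈ sf79_loc B n := c2x25_loc_of_integral B n hBint x1 t2 hi2 s' hs' hs'j
  have ht3A : t3 ∈ sf79_loc B n := c2x25_loc_of_integral B n hBint x1 t3 hi3 s' hs' hs'j
  have huA : uF ∈ sf79_loc B n := c2x25_loc_of_integral B n hBint x1 uF huF s' hs' hs'j
  have h27A : (27 : F) ∈ sf79_loc B n := by
    have := natCast_mem (sf79_loc B n) 27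
    simpa using this
  have hqN : sf79_nmem B n ((q : ℕ) : F) := c2x25_q_nmem π u q hqπ B n hπn
  have h21 : sf79_nmem B n (t2 - t1 ^ q) := by
    apply c2x25_nmem_mid B n (x3 - x1) V₂.toSubring hmid hB₂ _
      ((sf79_loc B n).sub_mem ht2A ((sf79_loc B n).pow_mem ht1A q))
    have e : (t2 - t1 ^ q) * (x3 - x1)⁻¹ = g * ((q : F) * (x3 - x1)⁻¹) := by rw [ht2g]; ring
    rw [e]
    show g * ((q : F) * (x3 - x1)⁻¹) ∈ V₂
    exact mul_mem hg hqsj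
  have ht1N : ¬ sf79_nmem B n t1 := c2x25_unit_three B n x1 t1 hx1A ht1A hx1t h3n
  have ht2N : ¬ sf79_nmem B n t2 := by
    intro hN
    apply ht1N
    have := c2x25_frob B n q hq hqN t1 t2 ht1A h21 0 (by simpa using hN)
    simpa using this
  have ht2N' : ¬ sf79_nmem B n (t2 + 27) := by
    intro hN
    apply h27
    have := c2x25_frob B n q hq hqN t1 t2 ht1A h21 27 (by simpa using hN)
    simpa using this
  have hinv2 := c2x25_inv_loc B n t2 ht2A ht2N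
  have hinv2' := c2x25_inv_loc B n (t2 + 27) ((sf79_loc B n).add_mem ht2A h27A) ht2N'
  have ht20 : t2 ≠ 0 := c2x25_ne_zero B n t2 ht2N
  have ht227 : t2 + 27 ≠ 0 := c2x25_ne_zero B n _ ht2N'
  have hwt0 : wt ≠ 0 := by
    intro h0
    rw [h0, zero_pow (by norm_num), zero_mul] at h6
    exact (mul_ne_zero (pow_ne_zero 3 ht20) (pow_ne_zero 4 ht227)) h6.symm
  have hwinv : wt⁻¹ ∈ sf79_loc B n := by
    apply c2x25_root_loc B n hBint 6 (by norm_num)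
    have e : wt⁻¹ ^ 6 = (t1 ^ 3 * (t1 + 27) ^ 4 * uF) * (t2⁻¹ ^ 3 * (t2 + 27)⁻¹ ^ 4) := by
      have h6' : t1 ^ 3 * (t1 + 27) ^ 4 * uF = wt⁻¹ ^ 6 * (t2 ^ 3 * (t2 + 27) ^ 4) := by
        rw [← h6]
        field_simp
      rw [h6']
      field_simp
    rw [e]
    exact (sf79_loc B n).mul_mem
      ((sf79_loc B n).mul_mem ((sf79_loc B n).mul_mem ((sf79_loc B n).pow_mem ht1A 3)
        ((sf79_loc B n).pow_mem ((sf79_loc B n).add_mem ht1A h27A) 4)) huA)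
      ((sf79_loc B n).mul_mem ((sf79_loc B n).pow_mem hinv2 3) ((sf79_loc B n).pow_mem hinv2' 4))
  obtain ⟨aw, tw, haw, hwtw⟩ := c2x25_awtw B n wt hwt0 hwinv
  obtain ⟨s, b, hsb, hbn, hb₂⟩ := c2x25_sb B V₂ hB₂ n (x3 - x1) huni hmid (t3 - t1)
    ((sf79_loc B n).sub_mem ht3A ht1A)
  exact c2f24_prinAt_three π u u' huu' q hq hqπ B V₁ V₃ V₂ hB₁ hB₂ hB₃ hsat hπ0 n hq0 Φ Ψ hΦΨ
    x1 J x3 γ1 wj e' hx1 hJ hγ1 hwj he' h1' hΦ1 hΦ3 hε hw hs hqV hmid h1 h3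
    t1 t2 t3 g wt ht1 ht1' ht10 ht2 hg ht2g hx1t hx3t hΔ hD1 hD2 hwt
    s b hsb hbn hb₂ aw tw haw hwtw

end Main

end Fermat.Agent.S36
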