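import Fermat.Agent.S36.SmallQC2x75
import Fermat.Agent.S34.UVAt17
import Fermat.Agent.S34.DeltaQuot56b

/-!
# S36 lab, row 600 C-C2 binder (helper75): `α^* U` is a unit of `B_n` at every closed point
off the third branch where `j` is regular

`U = Δ(Q)/Δ(Q^q)` is NOT in the charts `pk15_chart R {h}`, `{h⁻¹}` (poles at cusps), only
integral over `R[j]`.  At a closed point `n` where `j` is regular (`s j ∈ B`, `s ∉ n`) a multiple
`t U` (`t = s ^ k ∉ n`) lies in `B`, and it is not in `n` as soon as `n` is off the third branch.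

* `usq75_unit_at`        : abstract chart form (`uv17_clear` + `sqc75_U_not_mem`);
* `usq75_alphaU`, `usq75_alphaV` : `α^* U`, `α^* V` in `F_K(M' q q)` (`α = al97L_alpha`), with
  `usq75_mul`, `usq75_U_integral`, `usq75_V_integral`, `usq75_Uinv_mem_Vinf`;
* `usq75_alphaU_unit_at` : the canonical frame: `V₁ = cm85_Vinf (M' q q)`, ANY `V₂` containing
  `α (cm85_Vinf (M' q))` (fact `hV₂` of `v2e46_exists` / `hf85_HF_level2`), any `V₃`, any
  integrally closed `B` saturated in `V₁ ⊓ V₂ ⊓ V₃`: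
  `∃ t U' : B, t ∉ n ∧ U' ∉ n ∧ U' = t * α^* U`.

All names are prefixed `usq75_`.
-/

set_option autoImplicit false
set_option linter.unusedSectionVars false

open ModularCurve AlgebraicCurve

namespace Fermat.Agent.S36

open Fermat.Agent.S18 Fermat.Agent.S28 Fermat.Agent.S34

local notation "Q̄" => AlgebraicClosure ℚ

section Abs

universe u v

variable {R : Type v} {F : Type u} [CommRing R] [Field F] [Algebra R F]

/-- **`U` is a unit of `B_n`** at a point off the third branch where `j` is regular. -/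
theorem usq75_unit_at (π : R) (hπ0 : algebraMap R F π ≠ 0) (B : Subalgebra R F)
    (hBint : ∀ z : F, IsIntegral B z → z ∈ B) (V₁ V₂ V₃ : Subring F)
    (hB₁ : ∀ x ∈ B, x ∈ V₁) (hB₂ : ∀ x ∈ B, x ∈ V₂) (hB₃ : ∀ x ∈ B, x ∈ V₃)
    (hsat : ∀ x ∈ B, (algebraMap R F π)⁻¹ * x ∈ V₁ → (algebraMap R F π)⁻¹ * x ∈ V₂ →
      (algebraMap R F π)⁻¹ * x ∈ V₃ → (algebraMap R F π)⁻¹ * x ∈ B)
    (n : Ideal B) [hn : n.IsPrime] (j U V : F)
    (hU : IsIntegral (Algebra.adjoin R ({j} : Set F)) U)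
    (hV : IsIntegral (Algebra.adjoin R ({j} : Set F)) V)
    (hUV : U * V = algebraMap R F π ^ 12) (hU₁ : U⁻¹ ∈ V₁) (hU₂ : U⁻¹ ∈ V₂)
    (s : B) (hs : s ∉ n) (hsj : (s : F) * j ∈ B) (hs₁ : (s : F)⁻¹ ∈ V₁) (hs₂ : (s : F)⁻¹ ∈ V₂)
    (a : B) (ha : a ∉ n) (ha₃ : (algebraMap R F π)⁻¹ * (a : F) ∈ V₃) :
    ∃ t U' : B, t ∉ n ∧ U' ∉ n ∧ (U' : F) = (t : F) * U := by
  obtain ⟨k₁, hk₁⟩ := uv17_clear B hBint j U hU (s : F) s.2 hsj
  obtain ⟨k₂, hk₂⟩ := uv17_clear B hBint j V hV (s : F) s.2 hsj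
  have hspow : ∀ k : ℕ, s ^ k ∉ n := fun k h => hs (hn.mem_of_pow_mem k h)
  have hUV' : (((⟨_, hk₁⟩ : B) : F)) * ((⟨_, hk₂⟩ : B) : F) =
      algebraMap R F π ^ 12 * ((s ^ (k₁ + k₂) : B) : F) := by
    show (s : F) ^ k₁ * U * ((s : F) ^ k₂ * V) = _
    push_cast
    rw [pow_add]
    linear_combination ((s : F) ^ k₁ * (s : F) ^ k₂) * hUV
  have hinv : ∀ W : Subring F, (s : F)⁻¹ ∈ W → U⁻¹ ∈ W →
      (((⟨_, hk₁⟩ : B) : F))⁻¹ ∈ W := by
    intro W h1 h2
    show ((s : F) ^ k₁ * U)⁻¹ ∈ W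
    rw [mul_inv, ← inv_pow]
    exact W.mul_mem (W.pow_mem h1 k₁) h2
  refine ⟨s ^ k₁, ⟨_, hk₁⟩, hspow k₁, ?_, ?_⟩
  · exact sqc75_U_not_mem π hπ0 B V₁ V₂ V₃ hB₁ hB₂ hB₃ hsat n ⟨_, hk₁⟩ ⟨_, hk₂⟩
      (s ^ (k₁ + k₂)) (hspow _) hUV' (hinv V₁ hs₁ hU₁) (hinv V₂ hs₂ hU₂) a ha ha₃
  · push_cast
    rfl

end Abs

noncomputable section

section Canon

variable {R K : Type} [CommRing R] [IsDomain R] [IsDiscreteValuationRing R] [Field K] [CharZero K]
  [Algebra R K] [IsFractionRing R K] [Algebra K Q̄]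
  (M' q : ℕ) [NeZero M'] [NeZero q] (hq : q.Prime) (hM' : ¬ q ∣ M')

/-- `α^* U` in `F_K(M' q q)`. -/
def usq75_alphaU : ↥(modularFunctionFieldFullC K (M' * q * q)) :=
  al97L_alpha K (M' * q) q (dq56b_U (K := K) M' q hq)

/-- `α^* V` in `F_K(M' q q)`. -/
def usq75_alphaV : ↥(modularFunctionFieldFullC K (M' * q * q)) :=
  al97L_alpha K (M' * q) q (dq56b_V (K := K) M' q hq hM')

theorem usq75_mul :
    usq75_alphaU (K := K) M' q hq * usq75_alphaV (K := K) M' q hq hM' =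
      (q : ↥(modularFunctionFieldFullC K (M' * q * q))) ^ 12 := by
  unfold usq75_alphaU usq75_alphaV
  rw [← map_mul, dq56b_mul, map_pow, map_natCast]

variable [Algebra R ↥(modularFunctionFieldFullC K (M' * q * q))]
  [IsScalarTower R K ↥(modularFunctionFieldFullC K (M' * q * q))]
  [Algebra R ↥(modularFunctionFieldFullC K (M' * q))]
  [IsScalarTower R K ↥(modularFunctionFieldFullC K (M' * q))] {π : R} (hπ : Irreducible π)

theorem usq75_U_integral :
    IsIntegral (Algebra.adjoin R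
      ({rm90_j K (M' * q * q)} : Set ↥(modularFunctionFieldFullC K (M' * q * q))))
      (usq75_alphaU (K := K) M' q hq) :=
  uvi75_isIntegral_j_U K (M' * q * q) q hq _
    ((al97L_alpha_coe K (M' * q) q _).trans (dq56b_U_coe M' q hq (Int.castRingHom K)))

theorem usq75_V_integral :
    IsIntegral (Algebra.adjoin R
      ({rm90_j K (M' * q * q)} : Set ↥(modularFunctionFieldFullC K (M' * q * q))))
      (usq75_alphaV (K := K) M' q hq hM') :=
  uvi75_isIntegral_j_V K (M' * q * q) q hq _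
    ((al97L_alpha_coe K (M' * q) q _).trans (dq56b_V_coe M' q hq hM'))

theorem usq75_Uinv_mem_Vinf :
    (usq75_alphaU (K := K) M' q hq)⁻¹ ∈ cm85_Vinf (K := K) (M' * q * q) hπ := by
  refine (pk85_gauss (M' * q * q) hπ _ (dq56_Uinv R q) ?_).1
  unfold usq75_alphaU
  rw [← map_inv₀, al97L_alpha_coe]
  exact dq56b_Uinv_coe M' q hq (algebraMap R K)

omit [IsFractionRing R K] in
theorem usq75_natCast_ne_zero :
    (q : ↥(modularFunctionFieldFullC K (M' * q * q))) ≠ 0 := by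
  have hinj : Function.Injective
      (algebraMap K ↥(modularFunctionFieldFullC K (M' * q * q))) :=
    (algebraMap K ↥(modularFunctionFieldFullC K (M' * q * q))).injective
  have h : algebraMap K ↥(modularFunctionFieldFullC K (M' * q * q)) (q : K) ≠ 0 := by
    rw [Ne, map_eq_zero_iff _ hinj]
    exact Nat.cast_ne_zero.mpr (NeZero.ne q)
  rwa [map_natCast] at h

include hM' in
/-- **The canonical frame of level `M' q q`: `α^* U` is a unit of `B_n`** at every closed point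
`n` off the third branch where `j` is regular (`s j ∈ B`, `s ∉ n`, `s` a unit of `V₁`, `V₂`;
e.g. `s = h ^ 2` resp. `h ^ 3` on the chart `{h}`, `s = h⁻¹` on the chart `{h⁻¹}`). -/
theorem usq75_alphaU_unit_at (hπq : Irreducible ((q : ℕ) : R))
    (B : Subalgebra R ↥(modularFunctionFieldFullC K (M' * q * q)))
    (hBint : ∀ z : ↥(modularFunctionFieldFullC K (M' * q * q)), IsIntegral B z → z ∈ B)
    (V₂ V₃ : ValuationSubring ↥(modularFunctionFieldFullC K (M' * q * q)))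
    (hV₂ : ∀ c ∈ cm85_Vinf (K := K) (M' * q) hπq, al97L_alpha K (M' * q) q c ∈ V₂)
    (hB₁ : ∀ x ∈ B, x ∈ cm85_Vinf (K := K) (M' * q * q) hπq)
    (hB₂ : ∀ x ∈ B, x ∈ V₂) (hB₃ : ∀ x ∈ B, x ∈ V₃)
    (hsat : ∀ x ∈ B,
      (algebraMap R ↥(modularFunctionFieldFullC K (M' * q * q)) ((q : ℕ) : R))⁻¹ * x ∈
        cm85_Vinf (K := K) (M' * q * q) hπq →
      (algebraMap R ↥(modularFunctionFieldFullC K (M' * q * q)) ((q : ℕ) : R))⁻¹ * x ∈ V₂ →
      (algebraMap R ↥(modularFunctionFieldFullC K (M' * q * q)) ((q : ℕ) : R))⁻¹ * x ∈ V₃ →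
      (algebraMap R ↥(modularFunctionFieldFullC K (M' * q * q)) ((q : ℕ) : R))⁻¹ * x ∈ B)
    (n : Ideal B) [hn : n.IsPrime]
    (s : B) (hs : s ∉ n)
    (hsj : (s : ↥(modularFunctionFieldFullC K (M' * q * q))) * rm90_j K (M' * q * q) ∈ B)
    (hs₁ : (s : ↥(modularFunctionFieldFullC K (M' * q * q)))⁻¹ ∈
      cm85_Vinf (K := K) (M' * q * q) hπq)
    (hs₂ : (s : ↥(modularFunctionFieldFullC K (M' * q * q)))⁻¹ ∈ V₂)
    (a : B) (ha : a ∉ n)
    (ha₃ : (algebraMap R ↥(modularFunctionFieldFullC K (M' * q * q)) ((q : ℕ) : R))⁻¹ *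
      (a : ↥(modularFunctionFieldFullC K (M' * q * q))) ∈ V₃) :
    ∃ t U' : B, t ∉ n ∧ U' ∉ n ∧
      (U' : ↥(modularFunctionFieldFullC K (M' * q * q))) =
        (t : ↥(modularFunctionFieldFullC K (M' * q * q))) * usq75_alphaU (K := K) M' q hq := by
  have hcast : algebraMap R ↥(modularFunctionFieldFullC K (M' * q * q)) ((q : ℕ) : R) =
      (q : ↥(modularFunctionFieldFullC K (M' * q * q))) := map_natCast _ q
  have hπ0 : algebraMap R ↥(modularFunctionFieldFullC K (M' * q * q)) ((q : ℕ) : R) ≠ 0 := by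
    rw [hcast]
    exact usq75_natCast_ne_zero M' q
  have hUV : usq75_alphaU (K := K) M' q hq * usq75_alphaV (K := K) M' q hq hM' =
      algebraMap R ↥(modularFunctionFieldFullC K (M' * q * q)) ((q : ℕ) : R) ^ 12 := by
    rw [hcast]
    exact usq75_mul M' q hq hM'
  have hU₂ : (usq75_alphaU (K := K) M' q hq)⁻¹ ∈ V₂ := by
    unfold usq75_alphaU
    rw [← map_inv₀]
    exact hV₂ _ (dq56b_Uinv_mem_Vinf M' q hq hπq)
  exact usq75_unit_at ((q : ℕ) : R) hπ0 B hBint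
    (cm85_Vinf (K := K) (M' * q * q) hπq).toSubring V₂.toSubring V₃.toSubring hB₁ hB₂ hB₃ hsat n
    (rm90_j K (M' * q * q)) (usq75_alphaU (K := K) M' q hq) (usq75_alphaV (K := K) M' q hq hM')
    (usq75_U_integral M' q hq) (usq75_V_integral M' q hq hM') hUV
    (usq75_Uinv_mem_Vinf M' q hq hπq) hU₂ s hs hsj hs₁ hs₂ a ha ha₃

end Canon

end

end Fermat.Agent.S36
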