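import Fermat.Agent.S36.C2Den66
import Fermat.Agent.S36.C2Den74
import Fermat.Agent.S36.GHaupt67
import Fermat.Agent.S36.UnitAtSq75
import Fermat.Agent.S36.MidCusp8

/-!
# S36 lab (helper8), row C-C2: the `j`-regular points of `C₂` only, in local-ring language

Frame of level `M' q²`, `V₂` ANY valuation subring with the four facts of `ob72_ram`, `B` ANY
integrally closed saturated chart inside `V₁, V₂, V₃`, `n` a prime of `B` on the middle branch
only at which `J = rm90_j K (M' q²)` is regular (`s' * J = b'`, `s' ∉ n`).  With the local ring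
`O = mc8_loc B n` (`MidCusp8`):

* `c2n8_mem_loc_of_int` : integral over `R[J]` ⟹ in `O`;
* `c2n8_inv_two`, `c2n8_inv_three` : in a local subring, the Hauptmodul relation makes
  `h⁴ (h + 64)³` (if `2` and `J - 1728` are units) resp. `h³ (h + 27)⁴` (if `3` and `J` are units)
  a unit;
* `c2n8_nopole_two`, `c2n8_nopole_three` : the function `(α₂α₁ G_x)^(q-1) * α₂ U`
  (`G_x = tg69_G K M' x`, `x = pk85_h2 K M'` resp. `pk85_h3 K M'`, `U = dq56b_U`) has no pole at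
  `n` : `∃ ag tg : B, tg ∉ n ∧ … * tg = ag` (the input `hgn` of `c2h66_prinAt` / `c2x11_mid_dvd`);
* `c2n8_prinAt_two`, `c2n8_prinAt_three` : `mc25_MidPrinAt s B V₂ n` at such a point
  (`c2h66_prinAt` of helper66 fed with `c2p74_den_haupt` of helper74 and the above);
* `c2n8_prinAt_six` : `q ≠ 2, 3`, `2 ∣ M'`, `3 ∣ M'` : EVERY `j`-regular point of `C₂` only
  (`J` a unit at `n` : coordinate `h₃`; otherwise `J - 1728` is a unit : coordinate `h₂`);
* `c2n8_prinAt_two_unit` : `q = 3` form (`J` a unit at `n`, `π ∈ n`).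

All names are prefixed `c2n8_`.
-/

set_option autoImplicit false
set_option linter.unusedSectionVars false
set_option linter.unusedVariables false
set_option linter.style.longLine false

open ModularCurve IntermediateField Polynomial

namespace Fermat.Agent.S36

open Fermat.Agent.S18 Fermat.Agent.S24 Fermat.Agent.S28 Fermat.Agent.S37 Fermat.Agent.S34
open Fermat.Agent.S35 Fermat.Agent.S36.TripleLoc71

local notation "Q̄" => AlgebraicClosure ℚ

section c2n8_abs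

variable {R : Type*} [CommRing R] {F : Type*} [Field F] [Algebra R F]

/-- Integral over `R[j]`, `j` regular at `n` ⟹ in the local ring at `n`. -/
theorem c2n8_mem_loc_of_int (B : Subalgebra R F) (hBint : ∀ z : F, IsIntegral B z → z ∈ B)
    (n : Ideal B) [hn : n.IsPrime] (j y : F)
    (hy : IsIntegral (Algebra.adjoin R ({j} : Set F)) y)
    (s' b' : B) (hs' : s' ∉ n) (hsj : (s' : F) * j = (b' : F)) : y ∈ mc8_loc B n := by
  have hsjB : (s' : F) * j ∈ B := by rw [hsj]; exact b'.2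
  obtain ⟨k, hk⟩ := uv17_clear B hBint j y hy (s' : F) s'.2 hsjB
  exact ⟨s' ^ k, ⟨_, hk⟩, fun h => hs' (hn.mem_of_pow_mem _ h), by push_cast; rfl⟩

/-- Elements of the chart are in the local ring. -/
theorem c2n8_mem_loc_of_mem (B : Subalgebra R F) (n : Ideal B) [hn : n.IsPrime] (y : F)
    (hy : y ∈ B) : y ∈ mc8_loc B n :=
  ⟨1, ⟨y, hy⟩, fun h => hn.ne_top ((Ideal.eq_top_iff_one n).mpr h), by simp⟩

/-- In a local subring: an element outside the maximal ideal has its inverse in the ring. -/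
theorem c2n8_inv_mem (O : Subring F) [IsLocalRing O] (x : F) (hx : x ∈ O)
    (hnm : (⟨x, hx⟩ : O) ∉ IsLocalRing.maximalIdeal O) : x⁻¹ ∈ O := by
  have hu : IsUnit (⟨x, hx⟩ : O) := IsLocalRing.notMem_maximalIdeal.mp hnm
  obtain ⟨v, hv⟩ := isUnit_iff_exists_inv.mp hu
  have hF : x * (v : F) = 1 := congrArg Subtype.val hv
  have : (v : F) = x⁻¹ := eq_inv_of_mul_eq_one_right hF
  rw [← this]
  exact v.2

/-- In a local subring: an element with inverse in the ring is outside the maximal ideal. -/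
theorem c2n8_not_mem_max (O : Subring F) [IsLocalRing O] (x v : F) (hx : x ∈ O) (hv : v ∈ O)
    (hxv : x * v = 1) : (⟨x, hx⟩ : O) ∉ IsLocalRing.maximalIdeal O := by
  apply IsLocalRing.notMem_maximalIdeal.mpr
  exact isUnit_iff_exists_inv.mpr ⟨⟨v, hv⟩, Subtype.ext hxv⟩

/-- **Level 2.**  `j h² = (h + 256)³`, `2` and `j - 1728` units of the local ring `O`:
`(h⁴ (h + 64)³)⁻¹ ∈ O`. -/
theorem c2n8_inv_two (O : Subring F) [IsLocalRing O] (j h v w : F) (hj : j ∈ O) (hh : h ∈ O)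
    (hrel : j * h ^ 2 = (h + 256) ^ 3)
    (hv : v ∈ O) (h2v : (2 : F) * v = 1)
    (hw : w ∈ O) (hjw : (j - 1728) * w = 1) :
    (h ^ 4 * (h + 64) ^ 3)⁻¹ ∈ O := by
  set m := IsLocalRing.maximalIdeal O with hm
  have hmp : m.IsPrime := (IsLocalRing.maximalIdeal.isMaximal O).isPrime
  have h256 : (⟨256, ofNat_mem O 256⟩ : O) ∉ m := by
    refine c2n8_not_mem_max O 256 (v ^ 8) _ (O.pow_mem hv 8) ?_
    have : (256 : F) * v ^ 8 = ((2 : F) * v) ^ 8 := by ring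
    rw [this, h2v, one_pow]
  have hj1 : (⟨j - 1728, O.sub_mem hj (ofNat_mem O 1728)⟩ : O) ∉ m :=
    c2n8_not_mem_max O (j - 1728) w _ hw hjw
  have hhm : (⟨h, hh⟩ : O) ∉ m := by
    intro hmem
    have e : (⟨h, hh⟩ + ⟨256, ofNat_mem O 256⟩ : O) ^ 3 = ⟨j, hj⟩ * ⟨h, hh⟩ ^ 2 := by
      apply Subtype.ext
      push_cast
      exact hrel.symm
    have h1 : (⟨h, hh⟩ + ⟨256, ofNat_mem O 256⟩ : O) ^ 3 ∈ m := by
      rw [e]
      exact m.mul_mem_left _ (m.pow_mem_of_mem hmem 2 (by norm_num))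
    have h2 : (⟨h, hh⟩ + ⟨256, ofNat_mem O 256⟩ : O) ∈ m := hmp.mem_of_pow_mem 3 h1
    have h3 : (⟨256, ofNat_mem O 256⟩ : O) ∈ m := by
      have := m.sub_mem h2 hmem
      rwa [add_sub_cancel_left] at this
    exact h256 h3
  have hh64 : (⟨h + 64, O.add_mem hh (ofNat_mem O 64)⟩ : O) ∉ m := by
    intro hmem
    have e : (⟨h + 64, O.add_mem hh (ofNat_mem O 64)⟩ : O) *
        (⟨h, hh⟩ - ⟨512, ofNat_mem O 512⟩) ^ 2 =
        ⟨j - 1728, O.sub_mem hj (ofNat_mem O 1728)⟩ * ⟨h, hh⟩ ^ 2 := by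
      apply Subtype.ext
      push_cast
      linear_combination -hrel
    have h1 : (⟨j - 1728, O.sub_mem hj (ofNat_mem O 1728)⟩ : O) * ⟨h, hh⟩ ^ 2 ∈ m := by
      rw [← e]
      exact m.mul_mem_right _ hmem
    rcases hmp.mem_or_mem h1 with h2 | h2
    · exact hj1 h2
    · exact hhm (hmp.mem_of_pow_mem 2 h2)
  have hi1 : h⁻¹ ∈ O := c2n8_inv_mem O h hh hhm
  have hi2 : (h + 64)⁻¹ ∈ O := c2n8_inv_mem O (h + 64) _ hh64
  have : (h ^ 4 * (h + 64) ^ 3)⁻¹ = h⁻¹ ^ 4 * (h + 64)⁻¹ ^ 3 := by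
    rw [mul_inv, inv_pow, inv_pow]
  rw [this]
  exact O.mul_mem (O.pow_mem hi1 4) (O.pow_mem hi2 3)

/-- **Level 3.**  `j h³ = (h + 27) (h + 243)³`, `3` and `j` units of the local ring `O`:
`(h³ (h + 27)⁴)⁻¹ ∈ O`. -/
theorem c2n8_inv_three (O : Subring F) [IsLocalRing O] (j h v w : F) (hj : j ∈ O) (hh : h ∈ O)
    (hrel : j * h ^ 3 = (h + 27) * (h + 243) ^ 3)
    (hv : v ∈ O) (h3v : (3 : F) * v = 1)
    (hw : w ∈ O) (hjw : j * w = 1) :
    (h ^ 3 * (h + 27) ^ 4)⁻¹ ∈ O := by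
  set m := IsLocalRing.maximalIdeal O with hm
  have hmp : m.IsPrime := (IsLocalRing.maximalIdeal.isMaximal O).isPrime
  have h27 : (⟨27, ofNat_mem O 27⟩ : O) ∉ m := by
    refine c2n8_not_mem_max O 27 (v ^ 3) _ (O.pow_mem hv 3) ?_
    have : (27 : F) * v ^ 3 = ((3 : F) * v) ^ 3 := by ring
    rw [this, h3v, one_pow]
  have h243 : (⟨243, ofNat_mem O 243⟩ : O) ∉ m := by
    refine c2n8_not_mem_max O 243 (v ^ 5) _ (O.pow_mem hv 5) ?_
    have : (243 : F) * v ^ 5 = ((3 : F) * v) ^ 5 := by ring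
    rw [this, h3v, one_pow]
  have hj1 : (⟨j, hj⟩ : O) ∉ m := c2n8_not_mem_max O j w _ hw hjw
  have hhm : (⟨h, hh⟩ : O) ∉ m := by
    intro hmem
    have e : (⟨h, hh⟩ + ⟨27, ofNat_mem O 27⟩ : O) * (⟨h, hh⟩ + ⟨243, ofNat_mem O 243⟩) ^ 3 =
        ⟨j, hj⟩ * ⟨h, hh⟩ ^ 3 := by
      apply Subtype.ext
      push_cast
      exact hrel.symm
    have h1 : (⟨h, hh⟩ + ⟨27, ofNat_mem O 27⟩ : O) *
        (⟨h, hh⟩ + ⟨243, ofNat_mem O 243⟩) ^ 3 ∈ m := by
      rw [e]
      exact m.mul_mem_left _ (m.pow_mem_of_mem hmem 3 (by norm_num))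
    rcases hmp.mem_or_mem h1 with h2 | h2
    · have := m.sub_mem h2 hmem
      rw [add_sub_cancel_left] at this
      exact h27 this
    · have h3 := hmp.mem_of_pow_mem 3 h2
      have := m.sub_mem h3 hmem
      rw [add_sub_cancel_left] at this
      exact h243 this
  have hh27 : (⟨h + 27, O.add_mem hh (ofNat_mem O 27)⟩ : O) ∉ m := by
    intro hmem
    have e : (⟨h + 27, O.add_mem hh (ofNat_mem O 27)⟩ : O) *
        (⟨h, hh⟩ + ⟨243, ofNat_mem O 243⟩) ^ 3 = ⟨j, hj⟩ * ⟨h, hh⟩ ^ 3 := by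
      apply Subtype.ext
      push_cast
      exact hrel.symm
    have h1 : (⟨j, hj⟩ : O) * ⟨h, hh⟩ ^ 3 ∈ m := by
      rw [← e]
      exact m.mul_mem_right _ hmem
    rcases hmp.mem_or_mem h1 with h2 | h2
    · exact hj1 h2
    · exact hhm (hmp.mem_of_pow_mem 3 h2)
  have hi1 : h⁻¹ ∈ O := c2n8_inv_mem O h hh hhm
  have hi2 : (h + 27)⁻¹ ∈ O := c2n8_inv_mem O (h + 27) _ hh27
  have : (h ^ 3 * (h + 27) ^ 4)⁻¹ = h⁻¹ ^ 3 * (h + 27)⁻¹ ^ 4 := by
    rw [mul_inv, inv_pow, inv_pow]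
  rw [this]
  exact O.mul_mem (O.pow_mem hi1 3) (O.pow_mem hi2 4)

end c2n8_abs

section c2n8_concrete

variable {R K : Type} [CommRing R] [IsDomain R] [IsDiscreteValuationRing R] [Field K] [CharZero K]
  [Algebra R K] [IsFractionRing R K] [Algebra K Q̄]
  (M' q : ℕ) [NeZero M'] [NeZero q] (hq : q.Prime) (hM' : ¬ q ∣ M')
  [Algebra R ↥(modularFunctionFieldFullC K M')]
  [IsScalarTower R K ↥(modularFunctionFieldFullC K M')]
  [Algebra R ↥(modularFunctionFieldFullC K (M' * q))]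
  [IsScalarTower R K ↥(modularFunctionFieldFullC K (M' * q))]
  [Algebra R ↥(modularFunctionFieldFullC K (M' * q * q))]
  [IsScalarTower R K ↥(modularFunctionFieldFullC K (M' * q * q))]

/-- `α₂ U` is in the local ring at a `j`-regular point. -/
theorem c2n8_U_mem (B : Subalgebra R ↥(modularFunctionFieldFullC K (M' * q * q)))
    (hBint : ∀ z : ↥(modularFunctionFieldFullC K (M' * q * q)), IsIntegral B z → z ∈ B)
    (n : Ideal B) [hn : n.IsPrime] (s' b' : B) (hs' : s' ∉ n)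
    (hsj : (s' : ↥(modularFunctionFieldFullC K (M' * q * q))) * rm90_j K (M' * q * q) =
      (b' : ↥(modularFunctionFieldFullC K (M' * q * q)))) :
    al97L_alpha K (M' * q) q (dq56b_U (K := K) M' q hq) ∈ mc8_loc B n :=
  c2n8_mem_loc_of_int B hBint n (rm90_j K (M' * q * q)) _
    (usq75_U_integral (R := R) (K := K) M' q hq) s' b' hs' hsj

/-- **No pole, level 2.** -/
theorem c2n8_nopole_two (h2 : 2 ∣ M') (h2u : IsUnit (2 : R))
    (B : Subalgebra R ↥(modularFunctionFieldFullC K (M' * q * q)))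
    (hBint : ∀ z : ↥(modularFunctionFieldFullC K (M' * q * q)), IsIntegral B z → z ∈ B)
    (n : Ideal B) [hn : n.IsPrime] (s' b' : B) (hs' : s' ∉ n)
    (hsj : (s' : ↥(modularFunctionFieldFullC K (M' * q * q))) * rm90_j K (M' * q * q) =
      (b' : ↥(modularFunctionFieldFullC K (M' * q * q))))
    (s₁ b₁ : B) (hs₁ : s₁ ∉ n) (hb₁ : b₁ ∉ n)
    (hj1 : (s₁ : ↥(modularFunctionFieldFullC K (M' * q * q))) *
      (rm90_j K (M' * q * q) - 1728) = (b₁ : ↥(modularFunctionFieldFullC K (M' * q * q)))) :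
    ∃ ag tg : B, tg ∉ n ∧
      al97L_alpha K (M' * q) q (al97L_alpha K M' q (tg69_G K M' (pk85_h2 K M' h2))) ^ (q - 1) *
        al97L_alpha K (M' * q) q (dq56b_U (K := K) M' q hq) *
          (tg : ↥(modularFunctionFieldFullC K (M' * q * q))) =
        (ag : ↥(modularFunctionFieldFullC K (M' * q * q))) := by
  have h2'' : 2 ∣ M' * q * q := (h2.mul_right q).mul_right q
  have hHeq : al97L_alpha K (M' * q) q (al97L_alpha K M' q (pk85_h2 K M' h2)) =
      pk85_h2 K (M' * q * q) h2'' := by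
    apply Subtype.ext
    rw [al97L_alpha_coe, al97L_alpha_coe, pk85_h2_coe, pk85_h2_coe]
  have hrel := pk85_h2_rel K (M' * q * q) h2''
  have hJO : rm90_j K (M' * q * q) ∈ mc8_loc B n := ⟨s', b', hs', hsj⟩
  have hHO : pk85_h2 K (M' * q * q) h2'' ∈ mc8_loc B n :=
    c2n8_mem_loc_of_int B hBint n _ _ (c2p74_int_rel2 _ _ hrel) s' b' hs' hsj
  obtain ⟨r, hr⟩ := h2u.exists_right_inv
  have hv : algebraMap R ↥(modularFunctionFieldFullC K (M' * q * q)) r ∈ mc8_loc B n :=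
    c2n8_mem_loc_of_mem B n _ (B.algebraMap_mem r)
  have h2v : (2 : ↥(modularFunctionFieldFullC K (M' * q * q))) *
      algebraMap R ↥(modularFunctionFieldFullC K (M' * q * q)) r = 1 := by
    have := congrArg (algebraMap R ↥(modularFunctionFieldFullC K (M' * q * q))) hr
    rwa [map_mul, map_ofNat, map_one] at this
  have hb₁0 : (b₁ : ↥(modularFunctionFieldFullC K (M' * q * q))) ≠ 0 :=
    mc8_coe_ne_zero B n b₁ hb₁
  have hw : (s₁ : ↥(modularFunctionFieldFullC K (M' * q * q))) *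
      (b₁ : ↥(modularFunctionFieldFullC K (M' * q * q)))⁻¹ ∈ mc8_loc B n :=
    ⟨b₁, s₁, hb₁, by field_simp⟩
  have hjw : (rm90_j K (M' * q * q) - 1728) *
      ((s₁ : ↥(modularFunctionFieldFullC K (M' * q * q))) *
        (b₁ : ↥(modularFunctionFieldFullC K (M' * q * q)))⁻¹) = 1 := by
    rw [← mul_assoc, mul_comm (rm90_j K (M' * q * q) - 1728), hj1, mul_inv_cancel₀ hb₁0]
  have hinv := c2n8_inv_two (mc8_loc B n) _ _ _ _ hJO hHO hrel hv h2v hw hjw
  have hG : al97L_alpha K (M' * q) q (al97L_alpha K M' q (tg69_G K M' (pk85_h2 K M' h2))) =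
      (pk85_h2 K (M' * q * q) h2'' ^ 4 * (pk85_h2 K (M' * q * q) h2'' + 64) ^ 3)⁻¹ := by
    have h1 := congrArg (fun y => al97L_alpha K (M' * q) q (al97L_alpha K M' q y))
      (gh67_h2 K M' h2)
    simp only [map_mul, map_pow, map_add, map_one, map_ofNat, hHeq] at h1
    exact eq_inv_of_mul_eq_one_left h1
  have hU := c2n8_U_mem (R := R) (K := K) M' q hq B hBint n s' b' hs' hsj
  have hX : al97L_alpha K (M' * q) q (al97L_alpha K M' q (tg69_G K M' (pk85_h2 K M' h2))) ^ (q - 1) *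
      al97L_alpha K (M' * q) q (dq56b_U (K := K) M' q hq) ∈ mc8_loc B n := by
    rw [hG]
    exact (mc8_loc B n).mul_mem ((mc8_loc B n).pow_mem hinv _) hU
  obtain ⟨tg, ag, htg, h⟩ := hX
  exact ⟨ag, tg, htg, (mul_comm _ _).trans h⟩

/-- **No pole, level 3.** -/
theorem c2n8_nopole_three (h3' : 3 ∣ M') (h3u : IsUnit (3 : R))
    (B : Subalgebra R ↥(modularFunctionFieldFullC K (M' * q * q)))
    (hBint : ∀ z : ↥(modularFunctionFieldFullC K (M' * q * q)), IsIntegral B z → z ∈ B)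
    (n : Ideal B) [hn : n.IsPrime] (s' b' : B) (hs' : s' ∉ n) (hb' : b' ∉ n)
    (hsj : (s' : ↥(modularFunctionFieldFullC K (M' * q * q))) * rm90_j K (M' * q * q) =
      (b' : ↥(modularFunctionFieldFullC K (M' * q * q)))) :
    ∃ ag tg : B, tg ∉ n ∧
      al97L_alpha K (M' * q) q (al97L_alpha K M' q (tg69_G K M' (pk85_h3 K M' h3'))) ^ (q - 1) *
        al97L_alpha K (M' * q) q (dq56b_U (K := K) M' q hq) *
          (tg : ↥(modularFunctionFieldFullC K (M' * q * q))) =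
        (ag : ↥(modularFunctionFieldFullC K (M' * q * q))) := by
  have h3'' : 3 ∣ M' * q * q := (h3'.mul_right q).mul_right q
  have hHeq : al97L_alpha K (M' * q) q (al97L_alpha K M' q (pk85_h3 K M' h3')) =
      pk85_h3 K (M' * q * q) h3'' := by
    apply Subtype.ext
    rw [al97L_alpha_coe, al97L_alpha_coe, pk85_h3_coe, pk85_h3_coe]
  have hrel := pk85_h3_rel K (M' * q * q) h3''
  have hJO : rm90_j K (M' * q * q) ∈ mc8_loc B n := ⟨s', b', hs', hsj⟩
  have hHO : pk85_h3 K (M' * q * q) h3'' ∈ mc8_loc B n :=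
    c2n8_mem_loc_of_int B hBint n _ _ (c2p74_int_rel3 _ _ hrel) s' b' hs' hsj
  obtain ⟨r, hr⟩ := h3u.exists_right_inv
  have hv : algebraMap R ↥(modularFunctionFieldFullC K (M' * q * q)) r ∈ mc8_loc B n :=
    c2n8_mem_loc_of_mem B n _ (B.algebraMap_mem r)
  have h3v : (3 : ↥(modularFunctionFieldFullC K (M' * q * q))) *
      algebraMap R ↥(modularFunctionFieldFullC K (M' * q * q)) r = 1 := by
    have := congrArg (algebraMap R ↥(modularFunctionFieldFullC K (M' * q * q))) hr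
    rwa [map_mul, map_ofNat, map_one] at this
  have hb'0 : (b' : ↥(modularFunctionFieldFullC K (M' * q * q))) ≠ 0 :=
    mc8_coe_ne_zero B n b' hb'
  have hw : (s' : ↥(modularFunctionFieldFullC K (M' * q * q))) *
      (b' : ↥(modularFunctionFieldFullC K (M' * q * q)))⁻¹ ∈ mc8_loc B n :=
    ⟨b', s', hb', by field_simp⟩
  have hjw : rm90_j K (M' * q * q) *
      ((s' : ↥(modularFunctionFieldFullC K (M' * q * q))) *
        (b' : ↥(modularFunctionFieldFullC K (M' * q * q)))⁻¹) = 1 := by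
    rw [← mul_assoc, mul_comm (rm90_j K (M' * q * q)), hsj, mul_inv_cancel₀ hb'0]
  have hinv := c2n8_inv_three (mc8_loc B n) _ _ _ _ hJO hHO hrel hv h3v hw hjw
  have hG : al97L_alpha K (M' * q) q (al97L_alpha K M' q (tg69_G K M' (pk85_h3 K M' h3'))) =
      (pk85_h3 K (M' * q * q) h3'' ^ 3 * (pk85_h3 K (M' * q * q) h3'' + 27) ^ 4)⁻¹ := by
    have h1 := congrArg (fun y => al97L_alpha K (M' * q) q (al97L_alpha K M' q y))
      (gh67_h3 K M' h3')
    simp only [map_mul, map_pow, map_add, map_one, map_ofNat, hHeq] at h1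
    exact eq_inv_of_mul_eq_one_left h1
  have hU := c2n8_U_mem (R := R) (K := K) M' q hq B hBint n s' b' hs' hsj
  have hX : al97L_alpha K (M' * q) q (al97L_alpha K M' q (tg69_G K M' (pk85_h3 K M' h3'))) ^ (q - 1) *
      al97L_alpha K (M' * q) q (dq56b_U (K := K) M' q hq) ∈ mc8_loc B n := by
    rw [hG]
    exact (mc8_loc B n).mul_mem ((mc8_loc B n).pow_mem hinv _) hU
  obtain ⟨tg, ag, htg, h⟩ := hX
  exact ⟨ag, tg, htg, (mul_comm _ _).trans h⟩

include hq hM' in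
/-- **Level-2 coordinate**: `mc25_MidPrinAt` at a point of `C₂` only where `J` is regular and
`J - 1728` is a unit (`q ≠ 2`, `2 ∣ M'`). -/
theorem c2n8_prinAt_two {π : R} (hπ : Irreducible π) (hqπ : Associated ((q : ℕ) : R) π)
    (hunit : ∀ n : ℕ, Nat.Coprime n q → IsUnit (n : R))
    (h2 : 2 ∣ M') (hq2 : q ≠ 2)
    (V₂ : ValuationSubring ↥(modularFunctionFieldFullC K (M' * q * q)))
    (hV₂ : ∀ c ∈ cm85_Vinf (K := K) (M' * q) hπ, al97L_alpha K (M' * q) q c ∈ V₂)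
    (hπ₂ : (algebraMap K ↥(modularFunctionFieldFullC K (M' * q * q)) (algebraMap R K π))⁻¹ ∉ V₂)
    (hne : cm85_Vinf (K := K) (M' * q * q) hπ ≠ V₂)
    (s : ↥(modularFunctionFieldFullC K (M' * q * q)))
    (hs : V₂.valuation s ^ (q - 1) =
      V₂.valuation (algebraMap K ↥(modularFunctionFieldFullC K (M' * q * q)) (algebraMap R K π)))
    (B : Subalgebra R ↥(modularFunctionFieldFullC K (M' * q * q)))
    (hBint : ∀ z : ↥(modularFunctionFieldFullC K (M' * q * q)), IsIntegral B z → z ∈ B)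
    (V₁ V₃ : Subring ↥(modularFunctionFieldFullC K (M' * q * q)))
    (hB₁ : ∀ y ∈ B, y ∈ V₁) (hB₂ : ∀ y ∈ B, y ∈ V₂.toSubring) (hB₃ : ∀ y ∈ B, y ∈ V₃)
    (hsat : ∀ y ∈ B,
      (algebraMap R ↥(modularFunctionFieldFullC K (M' * q * q)) π)⁻¹ * y ∈ V₁ →
      (algebraMap R ↥(modularFunctionFieldFullC K (M' * q * q)) π)⁻¹ * y ∈ V₂.toSubring →
      (algebraMap R ↥(modularFunctionFieldFullC K (M' * q * q)) π)⁻¹ * y ∈ V₃ →
      (algebraMap R ↥(modularFunctionFieldFullC K (M' * q * q)) π)⁻¹ * y ∈ B)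
    (n : Ideal B) [hn : n.IsPrime]
    (hmid : tl71_OnMid s B V₂.toSubring n)
    (h1 : ¬ sf79_OnBr π B V₁ n) (h3 : ¬ sf79_OnBr π B V₃ n)
    (s' b' : B) (hs' : s' ∉ n)
    (hsj : (s' : ↥(modularFunctionFieldFullC K (M' * q * q))) * rm90_j K (M' * q * q) = (b' : ↥(modularFunctionFieldFullC K (M' * q * q))))
    (s₁ b₁ : B) (hs₁ : s₁ ∉ n) (hb₁ : b₁ ∉ n)
    (hj1 : (s₁ : ↥(modularFunctionFieldFullC K (M' * q * q))) * (rm90_j K (M' * q * q) - 1728) = (b₁ : ↥(modularFunctionFieldFullC K (M' * q * q)))) :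
    mc25_MidPrinAt s B V₂.toSubring n := by
  have h2u : IsUnit (2 : R) := by
    have := hunit 2 ((Nat.coprime_primes Nat.prime_two hq).mpr (Ne.symm hq2))
    simpa using this
  have hh' : s34i47c_IsHaupt K M' q (pk85_h2 K M' h2) := Or.inl ⟨hq2, h2, rfl⟩
  obtain ⟨b, sB, -, -, hb, hsB, -, -⟩ :=
    c2p74_den_haupt (R := R) M' q hq hunit _ hh' B hBint n s' b' hs' hsj
  obtain ⟨ag, tg, htg, hgn⟩ :=
    c2n8_nopole_two (R := R) (K := K) M' q hq h2 h2u B hBint n s' b' hs' hsj s₁ b₁ hs₁ hb₁ hj1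
  exact c2h66_prinAt (algebraMap K Q̄) M' q hq hM' hπ hqπ V₂ hV₂ hπ₂ hne s hs B V₁ V₃ hB₁ hB₂ hB₃ hsat n hmid h1 h3
    (pk85_h2 K M' h2) (h70_h2 R)
    (by rw [pk85_h2_coe, h70_coeffMap_h2])
    (by rw [h70_coeffMap_h2]
        exact guw31_theta_ne_zero2 _ _ (h70_h2_ne_zero _) (h70_j_mul_h2_sq _))
    b sB hb hsB (tg69_G K M' (pk85_h2 K M' h2)) (dq56b_U (K := K) M' q hq)
    (tg69_G_mul_theta K M' _ (gh67_theta_h2 K M' h2)) rfl ag tg htg hgn

include hq hM' in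
/-- **Level-3 coordinate**: `mc25_MidPrinAt` at a point of `C₂` only where `J` is a unit
(`q ≠ 3`, `3 ∣ M'`). -/
theorem c2n8_prinAt_three {π : R} (hπ : Irreducible π) (hqπ : Associated ((q : ℕ) : R) π)
    (hunit : ∀ n : ℕ, Nat.Coprime n q → IsUnit (n : R))
    (h3' : 3 ∣ M') (hq3 : q ≠ 3)
    (V₂ : ValuationSubring ↥(modularFunctionFieldFullC K (M' * q * q)))
    (hV₂ : ∀ c ∈ cm85_Vinf (K := K) (M' * q) hπ, al97L_alpha K (M' * q) q c ∈ V₂)
    (hπ₂ : (algebraMap K ↥(modularFunctionFieldFullC K (M' * q * q)) (algebraMap R K π))⁻¹ ∉ V₂)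
    (hne : cm85_Vinf (K := K) (M' * q * q) hπ ≠ V₂)
    (s : ↥(modularFunctionFieldFullC K (M' * q * q)))
    (hs : V₂.valuation s ^ (q - 1) =
      V₂.valuation (algebraMap K ↥(modularFunctionFieldFullC K (M' * q * q)) (algebraMap R K π)))
    (B : Subalgebra R ↥(modularFunctionFieldFullC K (M' * q * q)))
    (hBint : ∀ z : ↥(modularFunctionFieldFullC K (M' * q * q)), IsIntegral B z → z ∈ B)
    (V₁ V₃ : Subring ↥(modularFunctionFieldFullC K (M' * q * q)))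
    (hB₁ : ∀ y ∈ B, y ∈ V₁) (hB₂ : ∀ y ∈ B, y ∈ V₂.toSubring) (hB₃ : ∀ y ∈ B, y ∈ V₃)
    (hsat : ∀ y ∈ B,
      (algebraMap R ↥(modularFunctionFieldFullC K (M' * q * q)) π)⁻¹ * y ∈ V₁ →
      (algebraMap R ↥(modularFunctionFieldFullC K (M' * q * q)) π)⁻¹ * y ∈ V₂.toSubring →
      (algebraMap R ↥(modularFunctionFieldFullC K (M' * q * q)) π)⁻¹ * y ∈ V₃ →
      (algebraMap R ↥(modularFunctionFieldFullC K (M' * q * q)) π)⁻¹ * y ∈ B)
    (n : Ideal B) [hn : n.IsPrime]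
    (hmid : tl71_OnMid s B V₂.toSubring n)
    (h1 : ¬ sf79_OnBr π B V₁ n) (h3 : ¬ sf79_OnBr π B V₃ n)
    (s' b' : B) (hs' : s' ∉ n)
    (hsj : (s' : ↥(modularFunctionFieldFullC K (M' * q * q))) * rm90_j K (M' * q * q) = (b' : ↥(modularFunctionFieldFullC K (M' * q * q)))) (hb' : b' ∉ n) :
    mc25_MidPrinAt s B V₂.toSubring n := by
  have h3u : IsUnit (3 : R) := by
    have := hunit 3 ((Nat.coprime_primes Nat.prime_three hq).mpr (Ne.symm hq3))
    simpa using this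
  have hh' : s34i47c_IsHaupt K M' q (pk85_h3 K M' h3') := Or.inr ⟨hq3, h3', rfl⟩
  obtain ⟨b, sB, -, -, hb, hsB, -, -⟩ :=
    c2p74_den_haupt (R := R) M' q hq hunit _ hh' B hBint n s' b' hs' hsj
  obtain ⟨ag, tg, htg, hgn⟩ :=
    c2n8_nopole_three (R := R) (K := K) M' q hq h3' h3u B hBint n s' b' hs' hb' hsj
  exact c2h66_prinAt (algebraMap K Q̄) M' q hq hM' hπ hqπ V₂ hV₂ hπ₂ hne s hs B V₁ V₃ hB₁ hB₂ hB₃ hsat n hmid h1 h3
    (pk85_h3 K M' h3') (h34_h3R R)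
    (by rw [pk85_h3_coe, h34_coeffMap_h3R])
    (by rw [h34_coeffMap_h3R]
        exact guw31_theta_ne_zero3 _ _ (uwh31_h3_ok _).1 (uwh31_h3_ok _).2)
    b sB hb hsB (tg69_G K M' (pk85_h3 K M' h3')) (dq56b_U (K := K) M' q hq)
    (tg69_G_mul_theta K M' _ (gh67_theta_h3 K M' h3')) rfl ag tg htg hgn

include hq hM' in
/-- **`q = 3` form of the level-2 coordinate**: `J` a unit at `n` and `q ∈ n`. -/
theorem c2n8_prinAt_two_unit {π : R} (hπ : Irreducible π) (hqπ : Associated ((q : ℕ) : R) π)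
    (hunit : ∀ n : ℕ, Nat.Coprime n q → IsUnit (n : R))
    (h2 : 2 ∣ M') (hq2 : q ≠ 2)
    (V₂ : ValuationSubring ↥(modularFunctionFieldFullC K (M' * q * q)))
    (hV₂ : ∀ c ∈ cm85_Vinf (K := K) (M' * q) hπ, al97L_alpha K (M' * q) q c ∈ V₂)
    (hπ₂ : (algebraMap K ↥(modularFunctionFieldFullC K (M' * q * q)) (algebraMap R K π))⁻¹ ∉ V₂)
    (hne : cm85_Vinf (K := K) (M' * q * q) hπ ≠ V₂)
    (s : ↥(modularFunctionFieldFullC K (M' * q * q)))
    (hs : V₂.valuation s ^ (q - 1) =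
      V₂.valuation (algebraMap K ↥(modularFunctionFieldFullC K (M' * q * q)) (algebraMap R K π)))
    (B : Subalgebra R ↥(modularFunctionFieldFullC K (M' * q * q)))
    (hBint : ∀ z : ↥(modularFunctionFieldFullC K (M' * q * q)), IsIntegral B z → z ∈ B)
    (V₁ V₃ : Subring ↥(modularFunctionFieldFullC K (M' * q * q)))
    (hB₁ : ∀ y ∈ B, y ∈ V₁) (hB₂ : ∀ y ∈ B, y ∈ V₂.toSubring) (hB₃ : ∀ y ∈ B, y ∈ V₃)
    (hsat : ∀ y ∈ B,
      (algebraMap R ↥(modularFunctionFieldFullC K (M' * q * q)) π)⁻¹ * y ∈ V₁ →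
      (algebraMap R ↥(modularFunctionFieldFullC K (M' * q * q)) π)⁻¹ * y ∈ V₂.toSubring →
      (algebraMap R ↥(modularFunctionFieldFullC K (M' * q * q)) π)⁻¹ * y ∈ V₃ →
      (algebraMap R ↥(modularFunctionFieldFullC K (M' * q * q)) π)⁻¹ * y ∈ B)
    (n : Ideal B) [hn : n.IsPrime]
    (hmid : tl71_OnMid s B V₂.toSubring n)
    (h1 : ¬ sf79_OnBr π B V₁ n) (h3 : ¬ sf79_OnBr π B V₃ n)
    (s' b' : B) (hs' : s' ∉ n)
    (hsj : (s' : ↥(modularFunctionFieldFullC K (M' * q * q))) * rm90_j K (M' * q * q) = (b' : ↥(modularFunctionFieldFullC K (M' * q * q)))) (hq3 : q = 3)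
    (hqn : algebraMap R B ((q : ℕ) : R) ∈ n) (hb' : b' ∉ n) :
    mc25_MidPrinAt s B V₂.toSubring n := by
  have h1728 : algebraMap R B (1728 : R) ∈ n := by
    have e : (1728 : R) = ((q : ℕ) : R) * 576 := by
      rw [hq3]; norm_num
    rw [e, map_mul]
    exact n.mul_mem_right _ hqn
  refine c2n8_prinAt_two (R := R) (K := K) M' q hq hM' hπ hqπ hunit h2 hq2 V₂ hV₂ hπ₂ hne s hs
    B hBint V₁ V₃ hB₁ hB₂ hB₃ hsat n hmid h1 h3 s' b' hs' hsj
    s' (b' - algebraMap R B (1728 : R) * s') hs' ?_ ?_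
  · intro hmem
    apply hb'
    have := n.add_mem hmem (n.mul_mem_right s' h1728)
    rwa [sub_add_cancel] at this
  · have e : algebraMap R ↥(modularFunctionFieldFullC K (M' * q * q)) (1728 : R) = 1728 := map_ofNat _ 1728
    push_cast
    rw [e, mul_sub, hsj]
    ring

include hq hM' in
/-- **`q ≠ 2, 3`, `2 ∣ M'`, `3 ∣ M'`: EVERY `j`-regular point of `C₂` only.**  This is the
hypothesis `hreg` of `mc25_hD2_level2/3(_inv)` / `hC` of `tg71_final_level2/3` for any chart `B`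
with the frame facts. -/
theorem c2n8_prinAt_six {π : R} (hπ : Irreducible π) (hqπ : Associated ((q : ℕ) : R) π)
    (hunit : ∀ n : ℕ, Nat.Coprime n q → IsUnit (n : R))
    (h2 : 2 ∣ M') (h3' : 3 ∣ M') (hq2 : q ≠ 2) (hq3 : q ≠ 3)
    (V₂ : ValuationSubring ↥(modularFunctionFieldFullC K (M' * q * q)))
    (hV₂ : ∀ c ∈ cm85_Vinf (K := K) (M' * q) hπ, al97L_alpha K (M' * q) q c ∈ V₂)
    (hπ₂ : (algebraMap K ↥(modularFunctionFieldFullC K (M' * q * q)) (algebraMap R K π))⁻¹ ∉ V₂)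
    (hne : cm85_Vinf (K := K) (M' * q * q) hπ ≠ V₂)
    (s : ↥(modularFunctionFieldFullC K (M' * q * q)))
    (hs : V₂.valuation s ^ (q - 1) =
      V₂.valuation (algebraMap K ↥(modularFunctionFieldFullC K (M' * q * q)) (algebraMap R K π)))
    (B : Subalgebra R ↥(modularFunctionFieldFullC K (M' * q * q)))
    (hBint : ∀ z : ↥(modularFunctionFieldFullC K (M' * q * q)), IsIntegral B z → z ∈ B)
    (V₁ V₃ : Subring ↥(modularFunctionFieldFullC K (M' * q * q)))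
    (hB₁ : ∀ y ∈ B, y ∈ V₁) (hB₂ : ∀ y ∈ B, y ∈ V₂.toSubring) (hB₃ : ∀ y ∈ B, y ∈ V₃)
    (hsat : ∀ y ∈ B,
      (algebraMap R ↥(modularFunctionFieldFullC K (M' * q * q)) π)⁻¹ * y ∈ V₁ →
      (algebraMap R ↥(modularFunctionFieldFullC K (M' * q * q)) π)⁻¹ * y ∈ V₂.toSubring →
      (algebraMap R ↥(modularFunctionFieldFullC K (M' * q * q)) π)⁻¹ * y ∈ V₃ →
      (algebraMap R ↥(modularFunctionFieldFullC K (M' * q * q)) π)⁻¹ * y ∈ B)
    (n : Ideal B) [hn : n.IsPrime]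
    (hmid : tl71_OnMid s B V₂.toSubring n)
    (h1 : ¬ sf79_OnBr π B V₁ n) (h3 : ¬ sf79_OnBr π B V₃ n)
    (s' b' : B) (hs' : s' ∉ n)
    (hsj : (s' : ↥(modularFunctionFieldFullC K (M' * q * q))) * rm90_j K (M' * q * q) = (b' : ↥(modularFunctionFieldFullC K (M' * q * q)))) :
    mc25_MidPrinAt s B V₂.toSubring n := by
  by_cases hb' : b' ∈ n
  · have hcop : Nat.Coprime 1728 q := by
      apply Nat.Coprime.symm
      rw [Nat.Prime.coprime_iff_not_dvd hq]
      intro hd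
      have e : (1728 : ℕ) = 2 ^ 6 * 3 ^ 3 := by norm_num
      rw [e] at hd
      rcases (Nat.Prime.dvd_mul hq).mp hd with h | h
      · exact hq2 ((Nat.prime_dvd_prime_iff_eq hq Nat.prime_two).mp (hq.dvd_of_dvd_pow h))
      · exact hq3 ((Nat.prime_dvd_prime_iff_eq hq Nat.prime_three).mp (hq.dvd_of_dvd_pow h))
    have hu : IsUnit (1728 : R) := by
      have := hunit 1728 hcop
      simpa using this
    have huB : IsUnit (algebraMap R B (1728 : R)) := hu.map _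
    refine c2n8_prinAt_two (R := R) (K := K) M' q hq hM' hπ hqπ hunit h2 hq2 V₂ hV₂ hπ₂ hne s hs
      B hBint V₁ V₃ hB₁ hB₂ hB₃ hsat n hmid h1 h3 s' b' hs' hsj
      s' (b' - algebraMap R B (1728 : R) * s') hs' ?_ ?_
    · intro hmem
      have h5 : algebraMap R B (1728 : R) * s' ∈ n := by
        have := n.sub_mem hb' hmem
        rwa [sub_sub_cancel] at this
      rcases hn.mem_or_mem h5 with h | h
      · exact hn.ne_top (Ideal.eq_top_of_isUnit_mem n h huB)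
      · exact hs' h
    · have e : algebraMap R ↥(modularFunctionFieldFullC K (M' * q * q)) (1728 : R) = 1728 := map_ofNat _ 1728
      push_cast
      rw [e, mul_sub, hsj]
      ring
  · exact c2n8_prinAt_three (R := R) (K := K) M' q hq hM' hπ hqπ hunit h3' hq3 V₂ hV₂ hπ₂ hne s hs
      B hBint V₁ V₃ hB₁ hB₂ hB₃ hsat n hmid h1 h3 s' b' hs' hsj hb'

end c2n8_concrete

end Fermat.Agent.S36
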