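import Mathlib
import Fermat.Agent.S34.SpecFibre79
import Fermat.Agent.S36.RigidTransfer79

/-!
# S36 lab, row 599 (helper79): the rigidity clauses in a DVR `O` receiving the chart

`B` a chart, `n` a prime, `φ : B →+* O` a ring hom inverting `B ∖ n` (the reduction to the DVR of
a branch at `n`: `rh19_Red`, `bd40_exists_dvr`, `NodeDVR13`).

* `rr79_map_root` : if `f = ε * c ^ m` with `ε` a unit of `B_n` and `c ∈ B_n` (`sf79_loc` shape),
  then for ANY presentation `s * f = a` (`s ∉ n`, `a ∈ B`) the element `x = φ a / φ s` of `O`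
  (given as `φ s * x = φ a`) is `u * d ^ m` with `u` a unit of `O`.
* `rr79_rootAt_map` : the same from `rt79_RootAt` at a closed point of the special fibre where
  `j` is regular.
* `rr79_pow_dvd` : in a DVR, `x = u * d ^ m` non-unit ⟹ `ϖ ^ m ∣ x`.
* `rr79_six_dvd` : in a DVR, `x = u * c ^ 3 = u' * d ^ 2` non-unit ⟹ `ϖ ^ 6 ∣ x`.
* `rr79_sub_presentation` : the presentation of `f - r` (`r ∈ R`) from that of `f`.
* `rr79_ext` : **the extension `Φ : sf79_loc B n →+* O` of `φ`** (`rr79_ext_spec`: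
  `φ s * Φ x = φ a` for every presentation `s * x = a`; `rr79_ext_coe`, `rr79_ext_algebraMap`,
  `rr79_ext_isUnit`), and `rr79_rootAt_ext` : `Φ f = u * d ^ m`.

Mathlib + `S34/SpecFibre79` + `S36/RigidTransfer79` only.  All names are prefixed `rr79_`.
-/

set_option autoImplicit false

namespace Fermat.Agent.S36

open Fermat.Agent.S34

section RR79

variable {R F : Type*} [CommRing R] [Field F] [Algebra R F]

/-- **The image in `O` of a local `m`-th root structure.** -/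
theorem rr79_map_root (B : Subalgebra R F) (n : Ideal B) [hn : n.IsPrime] {O : Type*}
    [CommRing O] (φ : B →+* O) (hφ : ∀ b : B, b ∉ n → IsUnit (φ b))
    (f c ε : F) (m : ℕ) (hf0 : f ≠ 0) (hf : f = ε * c ^ m)
    (hε : ∃ s : B, s ∉ n ∧ (s : F) * ε ∈ B) (hε' : ∃ s : B, s ∉ n ∧ (s : F) * ε⁻¹ ∈ B)
    (hc : ∃ s : B, s ∉ n ∧ (s : F) * c ∈ B)
    (s a : B) (hs : s ∉ n) (hsa : (s : F) * f = (a : F)) (x : O) (hx : φ s * x = φ a) :
    ∃ u d : O, IsUnit u ∧ x = u * d ^ m := by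
  obtain ⟨s₁, hs₁, h1⟩ := hε
  obtain ⟨s₂, hs₂, h2⟩ := hε'
  obtain ⟨s₃, hs₃, h3⟩ := hc
  have hε0 : ε ≠ 0 := by
    rintro rfl
    exact hf0 (by rw [hf, zero_mul])
  -- `e = s₁ ε`, `e' = s₂ ε⁻¹`, `c₀ = s₃ c`
  have hee' : (⟨(s₁ : F) * ε, h1⟩ : B) * ⟨(s₂ : F) * ε⁻¹, h2⟩ = s₁ * s₂ := by
    apply Subtype.ext
    show (s₁ : F) * ε * ((s₂ : F) * ε⁻¹) = (s₁ : F) * (s₂ : F)
    field_simp
  have heu : IsUnit (φ ⟨(s₁ : F) * ε, h1⟩) := by
    have h := congrArg φ hee'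
    rw [map_mul, map_mul] at h
    exact isUnit_of_mul_isUnit_left (by rw [h]; exact (hφ _ hs₁).mul (hφ _ hs₂))
  have hrel : s₁ * s₃ ^ m * a = s * ⟨(s₁ : F) * ε, h1⟩ * ⟨(s₃ : F) * c, h3⟩ ^ m := by
    apply Subtype.ext
    show (s₁ : F) * ((s₃ ^ m : B) : F) * (a : F) =
      (s : F) * ((s₁ : F) * ε) * (((⟨(s₃ : F) * c, h3⟩ : B) ^ m : B) : F)
    rw [← hsa, hf]
    push_cast
    ring
  have hφrel := congrArg φ hrel
  simp only [map_mul, map_pow] at hφrel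
  obtain ⟨v₁, hv₁⟩ := hφ _ hs₁
  obtain ⟨v₃, hv₃⟩ := hφ _ hs₃
  obtain ⟨v, hv⟩ := hφ _ hs
  obtain ⟨ve, hve⟩ := heu
  refine ⟨ve * v₁⁻¹, φ ⟨(s₃ : F) * c, h3⟩ * v₃⁻¹, (ve * v₁⁻¹).isUnit, ?_⟩
  -- cancel the units `φ s`, `φ s₁`, `φ s₃ ^ m`
  have hcancel : (v : O) * ((v₁ : O) * (v₃ : O) ^ m * x) =
      (v : O) * ((v₁ : O) * (v₃ : O) ^ m *
        (((ve * v₁⁻¹ : Oˣ) : O) * (φ ⟨(s₃ : F) * c, h3⟩ * ((v₃⁻¹ : Oˣ) : O)) ^ m)) := by
    have e1 : (v : O) * ((v₁ : O) * (v₃ : O) ^ m * x) = φ s₁ * φ s₃ ^ m * φ a := by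
      rw [← hx, hv₁, hv₃, hv]
      ring
    have e2 : (v : O) * ((v₁ : O) * (v₃ : O) ^ m *
        (((ve * v₁⁻¹ : Oˣ) : O) * (φ ⟨(s₃ : F) * c, h3⟩ * ((v₃⁻¹ : Oˣ) : O)) ^ m)) =
        φ s * φ ⟨(s₁ : F) * ε, h1⟩ * φ ⟨(s₃ : F) * c, h3⟩ ^ m := by
      rw [← hv, ← hve]
      have hv1 : (v₁ : O) * ((v₁⁻¹ : Oˣ) : O) = 1 := by
        rw [← Units.val_mul, mul_inv_cancel, Units.val_one]
      have hv3 : ((v₃ : O) * ((v₃⁻¹ : Oˣ) : O)) ^ m = 1 := by
        rw [← Units.val_mul, mul_inv_cancel, Units.val_one, one_pow]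
      calc (v : O) * ((v₁ : O) * (v₃ : O) ^ m *
            (((ve * v₁⁻¹ : Oˣ) : O) * (φ ⟨(s₃ : F) * c, h3⟩ * ((v₃⁻¹ : Oˣ) : O)) ^ m))
          = (v : O) * (ve : O) * φ ⟨(s₃ : F) * c, h3⟩ ^ m *
              ((v₁ : O) * ((v₁⁻¹ : Oˣ) : O)) * ((v₃ : O) * ((v₃⁻¹ : Oˣ) : O)) ^ m := by
            rw [Units.val_mul]
            ring
        _ = (v : O) * (ve : O) * φ ⟨(s₃ : F) * c, h3⟩ ^ m := by
            rw [hv1, hv3, mul_one, mul_one]
    rw [e1, e2]
    exact hφrel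
  have h4 := v.isUnit.mul_left_cancel hcancel
  have hu13 : IsUnit ((v₁ : O) * (v₃ : O) ^ m) := v₁.isUnit.mul (v₃.isUnit.pow m)
  exact hu13.mul_left_cancel h4

/-- The presentation of `f - r` from a presentation of `f`. -/
theorem rr79_sub_presentation (B : Subalgebra R F) {O : Type*} [CommRing O] (φ : B →+* O)
    (f : F) (r : R) (s a : B) (hsa : (s : F) * f = (a : F)) (x : O) (hx : φ s * x = φ a) :
    (s : F) * (f - algebraMap R F r) = ((a - s * algebraMap R B r : B) : F) ∧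
      φ s * (x - φ (algebraMap R B r)) = φ (a - s * algebraMap R B r) := by
  refine ⟨?_, ?_⟩
  · rw [mul_sub, hsa]
    rfl
  · rw [mul_sub, hx, map_sub, map_mul]

/-- **`rt79_RootAt` read in `O`.** -/
theorem rr79_rootAt_map (π : R) (B : Subalgebra R F) (j f : F) (m : ℕ) (hf0 : f ≠ 0)
    (hroot : rt79_RootAt π B j f m)
    (n : Ideal B) (hn : n.IsMaximal) (hπn : algebraMap R B π ∈ n)
    (hreg : ∃ s : B, s ∉ n ∧ (s : F) * j ∈ B)
    {O : Type*} [CommRing O] (φ : B →+* O) (hφ : ∀ b : B, b ∉ n → IsUnit (φ b))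
    (s a : B) (hs : s ∉ n) (hsa : (s : F) * f = (a : F)) (x : O) (hx : φ s * x = φ a) :
    ∃ u d : O, IsUnit u ∧ x = u * d ^ m := by
  haveI := hn.isPrime
  obtain ⟨c, ε, -, hf, hε, hε', hc⟩ := hroot n hn hπn hreg
  exact rr79_map_root B n φ hφ f c ε m hf0 hf hε hε' hc s a hs hsa x hx

/-! ### The extension of `φ` to the local ring `sf79_loc B n` -/

/-- A presentation `s * x ∈ B`, `s ∉ n`, of an element of the local ring. -/
theorem rr79_pres (B : Subalgebra R F) (n : Ideal B) [hn : n.IsPrime] (x : sf79_loc B n) :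
    ∃ s : B, s ∉ n ∧ (s : F) * (x : F) ∈ B := x.2

/-- The value at `x ∈ B_n` of the extension of `φ`: `φ a / φ s` for a chosen presentation
`s * x = a`. -/
noncomputable def rr79_extFun (B : Subalgebra R F) (n : Ideal B) [hn : n.IsPrime] {O : Type*}
    [CommRing O] (φ : B →+* O) (hφ : ∀ b : B, b ∉ n → IsUnit (φ b)) (x : sf79_loc B n) : O :=
  φ ⟨((rr79_pres B n x).choose : F) * (x : F), (rr79_pres B n x).choose_spec.2⟩ *
    ((hφ _ (rr79_pres B n x).choose_spec.1).unit⁻¹ : Oˣ)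

/-- The defining property: `φ s * Φ x = φ a` for EVERY presentation `s * x = a`. -/
theorem rr79_extFun_spec (B : Subalgebra R F) (n : Ideal B) [hn : n.IsPrime] {O : Type*}
    [CommRing O] (φ : B →+* O) (hφ : ∀ b : B, b ∉ n → IsUnit (φ b)) (x : sf79_loc B n)
    (s a : B) (hsa : (s : F) * (x : F) = (a : F)) :
    φ s * rr79_extFun B n φ hφ x = φ a := by
  have hB : s * ⟨((rr79_pres B n x).choose : F) * (x : F), (rr79_pres B n x).choose_spec.2⟩ =
      (rr79_pres B n x).choose * a := by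
    apply Subtype.ext
    show (s : F) * (((rr79_pres B n x).choose : F) * (x : F)) =
      ((rr79_pres B n x).choose : F) * (a : F)
    rw [← hsa]
    ring
  have h1 := congrArg φ hB
  rw [map_mul, map_mul] at h1
  show φ s * (φ ⟨((rr79_pres B n x).choose : F) * (x : F), (rr79_pres B n x).choose_spec.2⟩ *
    ((hφ _ (rr79_pres B n x).choose_spec.1).unit⁻¹ : Oˣ)) = φ a
  rw [← mul_assoc, Units.mul_inv_eq_iff_eq_mul, h1, IsUnit.unit_spec, mul_comm]

/-- Uniqueness: an element `y` of `O` with `φ s * y = φ a` for one presentation with `s ∉ n`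
is the value of the extension. -/
theorem rr79_extFun_unique (B : Subalgebra R F) (n : Ideal B) [hn : n.IsPrime] {O : Type*}
    [CommRing O] (φ : B →+* O) (hφ : ∀ b : B, b ∉ n → IsUnit (φ b)) (x : sf79_loc B n)
    (s a : B) (hs : s ∉ n) (hsa : (s : F) * (x : F) = (a : F)) (y : O) (hy : φ s * y = φ a) :
    y = rr79_extFun B n φ hφ x :=
  (hφ s hs).mul_left_cancel (hy.trans (rr79_extFun_spec B n φ hφ x s a hsa).symm)

/-- **The extension of `φ : B →+* O` (inverting `B ∖ n`) to the local ring `sf79_loc B n`.** -/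
noncomputable def rr79_ext (B : Subalgebra R F) (n : Ideal B) [hn : n.IsPrime] {O : Type*}
    [CommRing O] (φ : B →+* O) (hφ : ∀ b : B, b ∉ n → IsUnit (φ b)) : sf79_loc B n →+* O where
  toFun := rr79_extFun B n φ hφ
  map_one' := by
    refine (rr79_extFun_unique B n φ hφ 1 1 1 ((Ideal.ne_top_iff_one n).mp hn.ne_top) ?_ 1
      (by rw [mul_one])).symm
    show ((1 : B) : F) * ((1 : sf79_loc B n) : F) = ((1 : B) : F)
    simp
  map_mul' x y := by
    obtain ⟨s, hs, hsx⟩ := x.2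
    obtain ⟨t, ht, hty⟩ := y.2
    refine (rr79_extFun_unique B n φ hφ (x * y) (s * t) (⟨_, hsx⟩ * ⟨_, hty⟩)
      (fun h => (hn.mem_or_mem h).elim hs ht) ?_ _ ?_).symm
    · show ((s * t : B) : F) * ((x : F) * (y : F)) = (s : F) * (x : F) * ((t : F) * (y : F))
      push_cast
      ring
    · have e1 := rr79_extFun_spec B n φ hφ x s ⟨_, hsx⟩ rfl
      have e2 := rr79_extFun_spec B n φ hφ y t ⟨_, hty⟩ rfl
      rw [map_mul, map_mul, ← e1, ← e2]
      ring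
  map_zero' := by
    refine (rr79_extFun_unique B n φ hφ 0 1 0 ((Ideal.ne_top_iff_one n).mp hn.ne_top) ?_ 0
      (by rw [mul_zero, map_zero])).symm
    show ((1 : B) : F) * ((0 : sf79_loc B n) : F) = ((0 : B) : F)
    simp
  map_add' x y := by
    obtain ⟨s, hs, hsx⟩ := x.2
    obtain ⟨t, ht, hty⟩ := y.2
    refine (rr79_extFun_unique B n φ hφ (x + y) (s * t) (t * ⟨_, hsx⟩ + s * ⟨_, hty⟩)
      (fun h => (hn.mem_or_mem h).elim hs ht) ?_ _ ?_).symm
    · show ((s * t : B) : F) * ((x : F) + (y : F)) =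
        (t : F) * ((s : F) * (x : F)) + (s : F) * ((t : F) * (y : F))
      push_cast
      ring
    · have e1 := rr79_extFun_spec B n φ hφ x s ⟨_, hsx⟩ rfl
      have e2 := rr79_extFun_spec B n φ hφ y t ⟨_, hty⟩ rfl
      rw [map_add, map_mul, map_mul, map_mul, ← e1, ← e2]
      ring

theorem rr79_ext_spec (B : Subalgebra R F) (n : Ideal B) [hn : n.IsPrime] {O : Type*}
    [CommRing O] (φ : B →+* O) (hφ : ∀ b : B, b ∉ n → IsUnit (φ b)) (x : sf79_loc B n)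
    (s a : B) (hsa : (s : F) * (x : F) = (a : F)) :
    φ s * rr79_ext B n φ hφ x = φ a :=
  rr79_extFun_spec B n φ hφ x s a hsa

/-- The extension restricts to `φ` on `B`. -/
theorem rr79_ext_coe (B : Subalgebra R F) (n : Ideal B) [hn : n.IsPrime] {O : Type*}
    [CommRing O] (φ : B →+* O) (hφ : ∀ b : B, b ∉ n → IsUnit (φ b)) (b : B)
    (hb : (b : F) ∈ sf79_loc B n) : rr79_ext B n φ hφ ⟨b, hb⟩ = φ b := by
  have h := rr79_ext_spec B n φ hφ ⟨b, hb⟩ 1 b (by simp)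
  rwa [map_one, one_mul] at h

/-- The extension commutes with the constants of `R`. -/
theorem rr79_ext_algebraMap (B : Subalgebra R F) (n : Ideal B) [hn : n.IsPrime] {O : Type*}
    [CommRing O] (φ : B →+* O) (hφ : ∀ b : B, b ∉ n → IsUnit (φ b)) (r : R)
    (hr : algebraMap R F r ∈ sf79_loc B n) :
    rr79_ext B n φ hφ ⟨algebraMap R F r, hr⟩ = φ (algebraMap R B r) :=
  rr79_ext_coe B n φ hφ (algebraMap R B r) hr

/-- Units of `B_n` go to units of `O`. -/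
theorem rr79_ext_isUnit (B : Subalgebra R F) (n : Ideal B) [hn : n.IsPrime] {O : Type*}
    [CommRing O] (φ : B →+* O) (hφ : ∀ b : B, b ∉ n → IsUnit (φ b)) (x : sf79_loc B n)
    (hx0 : (x : F) ≠ 0) (hx' : (x : F)⁻¹ ∈ sf79_loc B n) : IsUnit (rr79_ext B n φ hφ x) := by
  have h1 : x * ⟨(x : F)⁻¹, hx'⟩ = 1 := by
    apply Subtype.ext
    show (x : F) * (x : F)⁻¹ = 1
    exact mul_inv_cancel₀ hx0
  have h2 := congrArg (rr79_ext B n φ hφ) h1
  rw [map_mul, map_one] at h2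
  exact IsUnit.of_mul_eq_one _ h2

/-- **`rt79_RootAt` read through the extension `Φ`**: `Φ f = u * d ^ m`, `u` a unit. -/
theorem rr79_rootAt_ext (π : R) (B : Subalgebra R F) (j f : F) (m : ℕ) (hf0 : f ≠ 0)
    (hroot : rt79_RootAt π B j f m)
    (n : Ideal B) (hn : n.IsMaximal) (hπn : algebraMap R B π ∈ n)
    (hreg : ∃ s : B, s ∉ n ∧ (s : F) * j ∈ B)
    {O : Type*} [CommRing O] (φ : B →+* O) (hφ : ∀ b : B, b ∉ n → IsUnit (φ b))
    (hfmem : f ∈ @sf79_loc R F _ _ _ B n hn.isPrime) :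
    ∃ u d : O, IsUnit u ∧ @rr79_ext R F _ _ _ B n hn.isPrime O _ φ hφ ⟨f, hfmem⟩ = u * d ^ m := by
  haveI := hn.isPrime
  obtain ⟨s, hs, hsf⟩ := hfmem
  exact rr79_rootAt_map π B j f m hf0 hroot n hn hπn hreg φ hφ s ⟨_, hsf⟩ hs rfl _
    (rr79_ext_spec B n φ hφ ⟨f, s, hs, hsf⟩ s ⟨_, hsf⟩ rfl)

end RR79

section RR79DVR

variable {O : Type*} [CommRing O] [IsDomain O] [IsDiscreteValuationRing O]

/-- In a DVR a non-unit is divisible by the uniformiser. -/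
theorem rr79_dvd_of_not_isUnit (ϖ : O) (hϖ : Irreducible ϖ) (d : O) (hd : ¬ IsUnit d) :
    ϖ ∣ d := by
  have h1 : d ∈ IsLocalRing.maximalIdeal O := (IsLocalRing.mem_maximalIdeal d).mpr hd
  rw [(IsDiscreteValuationRing.irreducible_iff_uniformizer ϖ).mp hϖ,
    Ideal.mem_span_singleton] at h1
  exact h1

/-- `x = u * d ^ m` non-unit ⟹ `ϖ ^ m ∣ x`. -/
theorem rr79_pow_dvd (ϖ : O) (hϖ : Irreducible ϖ) (x u d : O) (m : ℕ) (hx : x = u * d ^ m)
    (hu : IsUnit u) (hxu : ¬ IsUnit x) : ϖ ^ m ∣ x := by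
  have hd : ¬ IsUnit d := fun h => hxu (by rw [hx]; exact hu.mul (h.pow m))
  rw [hx]
  exact Dvd.dvd.mul_left (pow_dvd_pow_of_dvd (rr79_dvd_of_not_isUnit ϖ hϖ d hd) m) u

/-- `x = u * c ^ 3 = u' * d ^ 2` non-unit ⟹ `ϖ ^ 6 ∣ x`. -/
theorem rr79_six_dvd (ϖ : O) (hϖ : Irreducible ϖ) (x u c u' d : O) (hx3 : x = u * c ^ 3)
    (hu : IsUnit u) (hx2 : x = u' * d ^ 2) (hu' : IsUnit u') (hxu : ¬ IsUnit x) : ϖ ^ 6 ∣ x := by
  by_cases hx0 : x = 0
  · rw [hx0]
    exact dvd_zero _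
  have hc0 : c ≠ 0 := by
    rintro rfl
    exact hx0 (by rw [hx3]; ring)
  have hd0 : d ≠ 0 := by
    rintro rfl
    exact hx0 (by rw [hx2]; ring)
  obtain ⟨a, ha⟩ := IsDiscreteValuationRing.associated_pow_irreducible hc0 hϖ
  obtain ⟨b, hb⟩ := IsDiscreteValuationRing.associated_pow_irreducible hd0 hϖ
  have h3 : Associated x (ϖ ^ (a * 3)) := by
    rw [hx3, pow_mul]
    exact (associated_unit_mul_left _ u hu).trans ha.pow_pow
  have h2 : Associated x (ϖ ^ (b * 2)) := by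
    rw [hx2, pow_mul]
    exact (associated_unit_mul_left _ u' hu').trans hb.pow_pow
  have hab : a * 3 = b * 2 := by
    obtain ⟨w, hw⟩ := h3.symm.trans h2
    exact IsDiscreteValuationRing.unit_mul_pow_congr_pow hϖ hϖ w 1 (a * 3) (b * 2)
      (by rw [Units.val_one, one_mul, ← hw, mul_comm])
  have ha0 : a ≠ 0 := by
    rintro rfl
    apply hxu
    rw [zero_mul, pow_zero] at h3
    exact associated_one_iff_isUnit.mp h3
  have h6 : 6 ≤ a * 3 := by omega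
  exact (pow_dvd_pow ϖ h6).trans h3.symm.dvd

end RR79DVR

end Fermat.Agent.S36
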