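import Mathlib
import Fermat.Agent.S34.SpecFibre79
import Fermat.Agent.S34.UVAt17
import Fermat.Agent.S34.BranchZero7
import Fermat.Agent.S34.BranchQuot8
import Fermat.Agent.S34.HauptInt70
import Fermat.Agent.S36.RigidRed79
import Fermat.Agent.S36.C2Coord11
import Fermat.Agent.S36.UnitAtSq75

/-!
# S36 lab (helper47), row 600 (C-C2), piece (P3): the CHART HALF of the per-point data

At a closed point `n` of a chart `B` of level `M' q q` where `j` is regular, the data consumed by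
`c2x11_mid_dvd` (helper11) / the den-form composite (helper66), for the coordinate
`x = pk85_h2 K M' h2` or `x = pk85_h3 K M' h3` of level `M'`:

* a denominator `b ∉ n` with `b * s_x ∈ B`, `s_x = c2x11_s K M' q x = x(q²τ) - x(τ)`;
* `(ag, tg)`, `tg ∉ n`, with `(α₂ α₁ g_x)^(q-1) * α₂ U * tg = ag`, where
  `g_x = (x^4 (x+64)^3)⁻¹` resp. `(x^3 (x+27)^4)⁻¹` and `U = dq56b_U M' q hq`.

The chart `B` is ANY `R`-subalgebra of `F(M' q q)_K` integrally closed in it
(`uv17_chart_intClosed` for the charts `pk15_chart R s`), `n` ANY prime ideal which is the kernel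
of a ring hom `φ : B →+* O` into a field (`O = B ⧸ n` for `n` maximal: `c2p47_point_*`); no
valuation ring of the frame occurs.

* `c2p47_point_big` : `2 ∣ M'`, `3 ∣ M'`, `2` and `3` units of `R` (`q ≥ 5`): the data for `h2` OR
  the data for `h3` (case split `h2 + 64` unit at `n` or not, in the residue field);
* `c2p47_point_two` : the data for `h2` when `j - 1728` is a unit at `n`, in the form
  `(3 : B) ∈ n`, `j` a unit at `n` (`q = 3`);
* `c2p47_point_three` : the data for `h3` when `j` is a unit at `n` (`q = 2`, or any `q ≠ 3`).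

Inside: `x(τ)`, `x(q²τ)`, `α₂ U` are integral over `R[j]` (`pk85_h2_rel`, `pk85_h3_rel`,
`hi70_level2_full`, `hi70_level3_full`, `usq75_U_integral`), hence lie in `sf79_loc B n`
(`uv17_clear`); the units are detected in the residue field through `rr79_ext` (helper79).

All names are prefixed `c2p47_`.
-/

set_option autoImplicit false
set_option linter.unusedSectionVars false
set_option linter.unusedVariables false
set_option linter.style.longLine false
set_option linter.style.haveILetI false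

open ModularCurve Polynomial

namespace Fermat.Agent.S36

open Fermat.Agent.S18 Fermat.Agent.S34 Fermat.Agent.S35

local notation "Q̄" => AlgebraicClosure ℚ

/-! ### Field identities -/

section c2p47_field

variable {O : Type*} [Field O]

theorem c2p47_fld_two (J T : O) (h : J * T ^ 2 = (T + 256) ^ 3) (h2 : (2 : O) ≠ 0) : T ≠ 0 := by
  rintro rfl
  have e : (2 : O) ^ 24 = 0 := by linear_combination -h
  exact h2 ((pow_eq_zero_iff (by norm_num)).mp e)

theorem c2p47_fld_three (J S : O) (h : J * S ^ 3 = (S + 27) * (S + 243) ^ 3) (h3 : (3 : O) ≠ 0) :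
    S ≠ 0 := by
  rintro rfl
  have e : (3 : O) ^ 18 = 0 := by linear_combination -h
  exact h3 ((pow_eq_zero_iff (by norm_num)).mp e)

/-- `h₂ = -64` forces `j = 1728 ≠ 0`. -/
theorem c2p47_fld_J (J T : O) (hT : J * T ^ 2 = (T + 256) ^ 3) (h2 : (2 : O) ≠ 0)
    (h3 : (3 : O) ≠ 0) (h64 : T + 64 = 0) : J ≠ 0 := by
  intro hJ
  have hT' : T = -64 := by linear_combination h64
  rw [hT', hJ] at hT
  have e : (2 : O) ^ 18 * 3 ^ 3 = 0 := by linear_combination -hT
  exact (mul_ne_zero (pow_ne_zero _ h2) (pow_ne_zero _ h3)) e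

/-- `j ≠ 0` forces `h₃ + 27 ≠ 0`. -/
theorem c2p47_fld_S (J S : O) (hS : J * S ^ 3 = (S + 27) * (S + 243) ^ 3) (h3 : (3 : O) ≠ 0)
    (hJ : J ≠ 0) : S + 27 ≠ 0 := by
  intro h27
  have hS' : S = -27 := by linear_combination h27
  rw [hS'] at hS
  have e : J * (3 : O) ^ 9 = 0 := by linear_combination -hS
  rcases mul_eq_zero.mp e with h | h
  · exact hJ h
  · exact h3 ((pow_eq_zero_iff (by norm_num)).mp h)

/-- In characteristic `3`, `j ≠ 0` forces `h₂ + 64 ≠ 0`. -/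
theorem c2p47_fld_T (J T : O) (hT : J * T ^ 2 = (T + 256) ^ 3) (h2 : (2 : O) ≠ 0)
    (h3 : (3 : O) = 0) (hJ : J ≠ 0) : T + 64 ≠ 0 := by
  intro h64
  have hT' : T = -64 := by linear_combination h64
  rw [hT'] at hT
  have e : J * (2 : O) ^ 12 = 0 := by linear_combination hT + (2 : O) ^ 18 * 9 * h3
  rcases mul_eq_zero.mp e with h | h
  · exact hJ h
  · exact h2 ((pow_eq_zero_iff (by norm_num)).mp h)

end c2p47_field

/-! ### Integrality over `R[j]` from the two Hauptmodul relations -/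

section c2p47_int

variable {R F : Type*} [CommRing R] [Field F] [Algebra R F]

theorem c2p47_integral_two (j t : F) (h : j * t ^ 2 = (t + 256) ^ 3) :
    IsIntegral (Algebra.adjoin R ({j} : Set F)) t := by
  refine ⟨X ^ 3 + (C ((768 : Algebra.adjoin R ({j} : Set F)) -
      ⟨j, Algebra.subset_adjoin (Set.mem_singleton _)⟩) * X ^ 2 + C 196608 * X + C 16777216),
    Polynomial.monic_X_pow_add (lt_of_le_of_lt Polynomial.degree_quadratic_le (by norm_num)), ?_⟩
  simp only [eval₂_add, eval₂_mul, eval₂_pow, eval₂_C, eval₂_X]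
  simp only [map_sub, map_ofNat]
  show t ^ 3 + (((768 : F) - j) * t ^ 2 + 196608 * t + 16777216) = 0
  linear_combination -h

theorem c2p47_integral_three (j k : F) (h : j * k ^ 3 = (k + 27) * (k + 243) ^ 3) :
    IsIntegral (Algebra.adjoin R ({j} : Set F)) k := by
  refine ⟨X ^ 4 + (C ((756 : Algebra.adjoin R ({j} : Set F)) -
      ⟨j, Algebra.subset_adjoin (Set.mem_singleton _)⟩) * X ^ 3 + C 196830 * X ^ 2 +
        C 19131876 * X + C 387420489),
    Polynomial.monic_X_pow_add (lt_of_le_of_lt Polynomial.degree_cubic_le (by norm_num)), ?_⟩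
  simp only [eval₂_add, eval₂_mul, eval₂_pow, eval₂_C, eval₂_X]
  simp only [map_sub, map_ofNat]
  show k ^ 4 + (((756 : F) - j) * k ^ 3 + 196830 * k ^ 2 + 19131876 * k + 387420489) = 0
  linear_combination -h

end c2p47_int

/-! ### The local ring `sf79_loc B n` and its residue map -/

section c2p47_loc

variable {R F : Type*} [CommRing R] [Field F] [Algebra R F]

theorem c2p47_isUnit (B : Subalgebra R F) (n : Ideal B) {O : Type*} [Field O] (φ : B →+* O)
    (hφ : ∀ b : B, φ b = 0 ↔ b ∈ n) : ∀ b : B, b ∉ n → IsUnit (φ b) :=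
  fun b hb => isUnit_iff_ne_zero.mpr (fun h => hb ((hφ b).mp h))

/-- An element of `B_n` with non-zero residue is a unit of `B_n`. -/
theorem c2p47_inv_mem (B : Subalgebra R F) (n : Ideal B) [hn : n.IsPrime] {O : Type*} [Field O]
    (φ : B →+* O) (hφ : ∀ b : B, φ b = 0 ↔ b ∈ n) (y : F) (hy : y ∈ sf79_loc B n)
    (hρ : rr79_ext B n φ (c2p47_isUnit B n φ hφ) ⟨y, hy⟩ ≠ 0) : y⁻¹ ∈ sf79_loc B n := by
  obtain ⟨s, hs, hsy⟩ := hy
  have h1 := rr79_ext_spec B n φ (c2p47_isUnit B n φ hφ) ⟨y, ⟨s, hs, hsy⟩⟩ s ⟨_, hsy⟩ rfl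
  have hc : (⟨(s : F) * y, hsy⟩ : B) ∉ n := by
    intro hmem
    have h0 : φ ⟨(s : F) * y, hsy⟩ = 0 := (hφ _).mpr hmem
    rw [h0] at h1
    rcases mul_eq_zero.mp h1 with h | h
    · exact hs ((hφ s).mp h)
    · exact hρ h
  have hy0 : y ≠ 0 := by
    intro h0
    apply hc
    have e : (⟨(s : F) * y, hsy⟩ : B) = 0 := Subtype.ext (by
      show (s : F) * y = 0
      rw [h0, mul_zero])
    rw [e]
    exact n.zero_mem
  refine ⟨⟨(s : F) * y, hsy⟩, hc, ?_⟩
  show (s : F) * y * y⁻¹ ∈ B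
  rw [mul_assoc, mul_inv_cancel₀ hy0, mul_one]
  exact s.2

/-- Elements integral over `R[j]` lie in `B_n` when `j` does (`B` integrally closed). -/
theorem c2p47_mem_of_integral (B : Subalgebra R F) (hBint : ∀ z : F, IsIntegral B z → z ∈ B)
    (n : Ideal B) [hn : n.IsPrime] (j : F) (hj : j ∈ sf79_loc B n) (x : F)
    (hx : IsIntegral (Algebra.adjoin R ({j} : Set F)) x) : x ∈ sf79_loc B n := by
  obtain ⟨s, hs, hsj⟩ := hj
  obtain ⟨k, hk⟩ := uv17_clear B hBint j x hx (s : F) s.2 hsj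
  refine ⟨s ^ k, fun h => hs (hn.mem_of_pow_mem k h), ?_⟩
  show ((s ^ k : B) : F) * x ∈ B
  rw [SubmonoidClass.coe_pow]
  exact hk

/-- The `B`-form of two memberships in `B_n`. -/
theorem c2p47_data_of_mem (B : Subalgebra R F) (n : Ideal B) [hn : n.IsPrime] (D E : F)
    (hD : D ∈ sf79_loc B n) (hE : E ∈ sf79_loc B n) :
    ∃ b sB ag tg : B, b ∉ n ∧ (sB : F) = (b : F) * D ∧ tg ∉ n ∧ E * (tg : F) = (ag : F) := by
  obtain ⟨b, hb, hbD⟩ := hD
  obtain ⟨t, ht, htE⟩ := hE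
  exact ⟨b, ⟨_, hbD⟩, ⟨_, htE⟩, t, hb, rfl, ht, mul_comm _ _⟩

/-- **Level 2, abstract**: `t₁` with `j t₁² = (t₁ + 256)³`, `t₃` integral over `R[t₁]`, `U`
integral over `R[j]`, `j` regular at `n`, `2` and `t₁ + 64` units at `n`. -/
theorem c2p47_abs_two (B : Subalgebra R F) (hBint : ∀ z : F, IsIntegral B z → z ∈ B)
    (n : Ideal B) [hn : n.IsPrime] {O : Type*} [Field O]
    (φ : B →+* O) (hφ : ∀ b : B, φ b = 0 ↔ b ∈ n)
    (j t1 t3 U : F) (hj : j ∈ sf79_loc B n)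
    (hrel : j * t1 ^ 2 = (t1 + 256) ^ 3)
    (ht3 : IsIntegral (Algebra.adjoin R ({t1} : Set F)) t3)
    (hU : IsIntegral (Algebra.adjoin R ({j} : Set F)) U)
    (h2 : (2 : O) ≠ 0)
    (ht1 : t1 ∈ sf79_loc B n)
    (h64 : rr79_ext B n φ (c2p47_isUnit B n φ hφ) ⟨t1, ht1⟩ + 64 ≠ 0) (e : ℕ) :
    t3 - t1 ∈ sf79_loc B n ∧ ((t1 ^ 4 * (t1 + 64) ^ 3)⁻¹) ^ e * U ∈ sf79_loc B n := by
  set ρ := rr79_ext B n φ (c2p47_isUnit B n φ hφ) with hρ
  have ht3A : t3 ∈ sf79_loc B n :=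
    c2p47_mem_of_integral B hBint n j hj t3
      (bz7_isIntegral_trans ({j} : Set F) ({t1} : Set F)
        (fun y hy => by
          rw [Set.mem_singleton_iff.mp hy]
          exact c2p47_integral_two j t1 hrel) t3 ht3)
  have hUA : U ∈ sf79_loc B n := c2p47_mem_of_integral B hBint n j hj U hU
  -- the relation in the residue field
  have hrelA : (⟨j, hj⟩ : sf79_loc B n) * ⟨t1, ht1⟩ ^ 2 = (⟨t1, ht1⟩ + 256) ^ 3 := by
    apply Subtype.ext
    push_cast
    exact hrel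
  have hrelO : ρ ⟨j, hj⟩ * ρ ⟨t1, ht1⟩ ^ 2 = (ρ ⟨t1, ht1⟩ + 256) ^ 3 := by
    have h := congrArg ρ hrelA
    rwa [map_mul, map_pow, map_pow, map_add, map_ofNat] at h
  have hT0 : ρ ⟨t1, ht1⟩ ≠ 0 := c2p47_fld_two _ _ hrelO h2
  have ht1inv : t1⁻¹ ∈ sf79_loc B n := c2p47_inv_mem B n φ hφ t1 ht1 hT0
  have h64A : t1 + 64 ∈ sf79_loc B n := (⟨t1, ht1⟩ + 64 : sf79_loc B n).2
  have h64inv : (t1 + 64)⁻¹ ∈ sf79_loc B n := by
    refine c2p47_inv_mem B n φ hφ (t1 + 64) h64A ?_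
    have e1 : (⟨t1 + 64, h64A⟩ : sf79_loc B n) = ⟨t1, ht1⟩ + 64 := Subtype.ext (by push_cast; rfl)
    rw [e1, map_add, map_ofNat]
    exact h64
  refine ⟨(sf79_loc B n).sub_mem ht3A ht1, (sf79_loc B n).mul_mem ((sf79_loc B n).pow_mem ?_ e) hUA⟩
  rw [mul_inv, ← inv_pow, ← inv_pow]
  exact (sf79_loc B n).mul_mem ((sf79_loc B n).pow_mem ht1inv 4) ((sf79_loc B n).pow_mem h64inv 3)

/-- **Level 3, abstract**: `k₁` with `j k₁³ = (k₁ + 27)(k₁ + 243)³`, `k₃` integral over `R[k₁]`,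
`U` integral over `R[j]`, `j` and `3` units at `n`. -/
theorem c2p47_abs_three (B : Subalgebra R F) (hBint : ∀ z : F, IsIntegral B z → z ∈ B)
    (n : Ideal B) [hn : n.IsPrime] {O : Type*} [Field O]
    (φ : B →+* O) (hφ : ∀ b : B, φ b = 0 ↔ b ∈ n)
    (j k1 k3 U : F) (hj : j ∈ sf79_loc B n)
    (hrel : j * k1 ^ 3 = (k1 + 27) * (k1 + 243) ^ 3)
    (hk3 : IsIntegral (Algebra.adjoin R ({k1} : Set F)) k3)
    (hU : IsIntegral (Algebra.adjoin R ({j} : Set F)) U)
    (h3 : (3 : O) ≠ 0)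
    (hJ : rr79_ext B n φ (c2p47_isUnit B n φ hφ) ⟨j, hj⟩ ≠ 0) (e : ℕ) :
    k3 - k1 ∈ sf79_loc B n ∧ ((k1 ^ 3 * (k1 + 27) ^ 4)⁻¹) ^ e * U ∈ sf79_loc B n := by
  set ρ := rr79_ext B n φ (c2p47_isUnit B n φ hφ) with hρ
  have hk1 : k1 ∈ sf79_loc B n :=
    c2p47_mem_of_integral B hBint n j hj k1 (c2p47_integral_three j k1 hrel)
  have hk3A : k3 ∈ sf79_loc B n :=
    c2p47_mem_of_integral B hBint n j hj k3
      (bz7_isIntegral_trans ({j} : Set F) ({k1} : Set F)
        (fun y hy => by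
          rw [Set.mem_singleton_iff.mp hy]
          exact c2p47_integral_three j k1 hrel) k3 hk3)
  have hUA : U ∈ sf79_loc B n := c2p47_mem_of_integral B hBint n j hj U hU
  have hrelA : (⟨j, hj⟩ : sf79_loc B n) * ⟨k1, hk1⟩ ^ 3 =
      (⟨k1, hk1⟩ + 27) * (⟨k1, hk1⟩ + 243) ^ 3 := by
    apply Subtype.ext
    push_cast
    exact hrel
  have hrelO : ρ ⟨j, hj⟩ * ρ ⟨k1, hk1⟩ ^ 3 = (ρ ⟨k1, hk1⟩ + 27) * (ρ ⟨k1, hk1⟩ + 243) ^ 3 := by
    have h := congrArg ρ hrelA
    rwa [map_mul, map_pow, map_mul, map_pow, map_add, map_add, map_ofNat, map_ofNat] at h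
  have hS0 : ρ ⟨k1, hk1⟩ ≠ 0 := c2p47_fld_three _ _ hrelO h3
  have hS27 : ρ ⟨k1, hk1⟩ + 27 ≠ 0 := c2p47_fld_S _ _ hrelO h3 hJ
  have hk1inv : k1⁻¹ ∈ sf79_loc B n := c2p47_inv_mem B n φ hφ k1 hk1 hS0
  have h27A : k1 + 27 ∈ sf79_loc B n := (⟨k1, hk1⟩ + 27 : sf79_loc B n).2
  have h27inv : (k1 + 27)⁻¹ ∈ sf79_loc B n := by
    refine c2p47_inv_mem B n φ hφ (k1 + 27) h27A ?_
    have e1 : (⟨k1 + 27, h27A⟩ : sf79_loc B n) = ⟨k1, hk1⟩ + 27 := Subtype.ext (by push_cast; rfl)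
    rw [e1, map_add, map_ofNat]
    exact hS27
  refine ⟨(sf79_loc B n).sub_mem hk3A hk1, (sf79_loc B n).mul_mem ((sf79_loc B n).pow_mem ?_ e) hUA⟩
  rw [mul_inv, ← inv_pow, ← inv_pow]
  exact (sf79_loc B n).mul_mem ((sf79_loc B n).pow_mem hk1inv 3) ((sf79_loc B n).pow_mem h27inv 4)

/-- The residue of `t₁` from `j t₁² = (t₁ + 256)³`: membership of `t₁` in `B_n`. -/
theorem c2p47_t1_mem (B : Subalgebra R F) (hBint : ∀ z : F, IsIntegral B z → z ∈ B)
    (n : Ideal B) [hn : n.IsPrime] (j t1 : F) (hj : j ∈ sf79_loc B n)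
    (hrel : j * t1 ^ 2 = (t1 + 256) ^ 3) : t1 ∈ sf79_loc B n :=
  c2p47_mem_of_integral B hBint n j hj t1 (c2p47_integral_two j t1 hrel)

/-- **`q ≥ 5`, abstract**: level 2 data or level 3 data. -/
theorem c2p47_abs_big (B : Subalgebra R F) (hBint : ∀ z : F, IsIntegral B z → z ∈ B)
    (n : Ideal B) [hn : n.IsPrime] {O : Type*} [Field O]
    (φ : B →+* O) (hφ : ∀ b : B, φ b = 0 ↔ b ∈ n)
    (j t1 t3 k1 k3 U : F) (hj : j ∈ sf79_loc B n)
    (hrel2 : j * t1 ^ 2 = (t1 + 256) ^ 3)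
    (hrel3 : j * k1 ^ 3 = (k1 + 27) * (k1 + 243) ^ 3)
    (ht3 : IsIntegral (Algebra.adjoin R ({t1} : Set F)) t3)
    (hk3 : IsIntegral (Algebra.adjoin R ({k1} : Set F)) k3)
    (hU : IsIntegral (Algebra.adjoin R ({j} : Set F)) U)
    (h2 : (2 : O) ≠ 0) (h3 : (3 : O) ≠ 0) (e : ℕ) :
    (t3 - t1 ∈ sf79_loc B n ∧ ((t1 ^ 4 * (t1 + 64) ^ 3)⁻¹) ^ e * U ∈ sf79_loc B n) ∨
    (k3 - k1 ∈ sf79_loc B n ∧ ((k1 ^ 3 * (k1 + 27) ^ 4)⁻¹) ^ e * U ∈ sf79_loc B n) := by
  have ht1 : t1 ∈ sf79_loc B n := c2p47_t1_mem B hBint n j t1 hj hrel2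
  by_cases h64 : rr79_ext B n φ (c2p47_isUnit B n φ hφ) ⟨t1, ht1⟩ + 64 = 0
  · right
    refine c2p47_abs_three B hBint n φ hφ j k1 k3 U hj hrel3 hk3 hU h3 ?_ e
    have hrelA : (⟨j, hj⟩ : sf79_loc B n) * ⟨t1, ht1⟩ ^ 2 = (⟨t1, ht1⟩ + 256) ^ 3 := by
      apply Subtype.ext
      push_cast
      exact hrel2
    have hrelO := congrArg (rr79_ext B n φ (c2p47_isUnit B n φ hφ)) hrelA
    rw [map_mul, map_pow, map_pow, map_add, map_ofNat] at hrelO
    exact c2p47_fld_J _ _ hrelO h2 h3 h64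
  · left
    exact c2p47_abs_two B hBint n φ hφ j t1 t3 U hj hrel2 ht3 hU h2 ht1 h64 e

/-- **Characteristic 3, abstract**: level 2 data when `j` is a unit at `n`. -/
theorem c2p47_abs_two_char3 (B : Subalgebra R F) (hBint : ∀ z : F, IsIntegral B z → z ∈ B)
    (n : Ideal B) [hn : n.IsPrime] {O : Type*} [Field O]
    (φ : B →+* O) (hφ : ∀ b : B, φ b = 0 ↔ b ∈ n)
    (j t1 t3 U : F) (hj : j ∈ sf79_loc B n)
    (hrel : j * t1 ^ 2 = (t1 + 256) ^ 3)
    (ht3 : IsIntegral (Algebra.adjoin R ({t1} : Set F)) t3)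
    (hU : IsIntegral (Algebra.adjoin R ({j} : Set F)) U)
    (h2 : (2 : O) ≠ 0) (h3 : (3 : O) = 0)
    (hJ : rr79_ext B n φ (c2p47_isUnit B n φ hφ) ⟨j, hj⟩ ≠ 0) (e : ℕ) :
    t3 - t1 ∈ sf79_loc B n ∧ ((t1 ^ 4 * (t1 + 64) ^ 3)⁻¹) ^ e * U ∈ sf79_loc B n := by
  have ht1 : t1 ∈ sf79_loc B n := c2p47_t1_mem B hBint n j t1 hj hrel
  refine c2p47_abs_two B hBint n φ hφ j t1 t3 U hj hrel ht3 hU h2 ht1 ?_ e
  have hrelA : (⟨j, hj⟩ : sf79_loc B n) * ⟨t1, ht1⟩ ^ 2 = (⟨t1, ht1⟩ + 256) ^ 3 := by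
    apply Subtype.ext
    push_cast
    exact hrel
  have hrelO := congrArg (rr79_ext B n φ (c2p47_isUnit B n φ hφ)) hrelA
  rw [map_mul, map_pow, map_pow, map_add, map_ofNat] at hrelO
  exact c2p47_fld_T _ _ hrelO h2 h3 hJ

/-- `j` a unit at `n` in the `B`-form ⟹ non-zero residue. -/
theorem c2p47_res_ne_zero (B : Subalgebra R F) (n : Ideal B) [hn : n.IsPrime] {O : Type*}
    [Field O] (φ : B →+* O) (hφ : ∀ b : B, φ b = 0 ↔ b ∈ n) (j : F) (hj : j ∈ sf79_loc B n)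
    (s b : B) (hs : s ∉ n) (hb : b ∉ n) (hsj : (s : F) * j = (b : F)) :
    rr79_ext B n φ (c2p47_isUnit B n φ hφ) ⟨j, hj⟩ ≠ 0 := by
  intro h0
  have h1 := rr79_ext_spec B n φ (c2p47_isUnit B n φ hφ) ⟨j, hj⟩ s b hsj
  rw [h0, mul_zero] at h1
  exact hb ((hφ b).mp h1.symm)

end c2p47_loc

/-! ### The canonical data at level `M' q q` -/

section c2p47_canon

variable {R K : Type} [CommRing R] [IsDomain R] [IsDiscreteValuationRing R] [Field K] [CharZero K]
  [Algebra R K] [IsFractionRing R K] [Algebra K Q̄]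
  (M' q : ℕ) [NeZero M'] [NeZero q] (hq : q.Prime)
  [Algebra R ↥(modularFunctionFieldFullC K (M' * q))]
  [IsScalarTower R K ↥(modularFunctionFieldFullC K (M' * q))]
  [Algebra R ↥(modularFunctionFieldFullC K (M' * q * q))]
  [IsScalarTower R K ↥(modularFunctionFieldFullC K (M' * q * q))]

omit [IsDomain R] [IsDiscreteValuationRing R] [IsFractionRing R K] [Algebra R K] [Algebra K Q̄]
  [Algebra R ↥(modularFunctionFieldFullC K (M' * q))]
  [IsScalarTower R K ↥(modularFunctionFieldFullC K (M' * q))]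
  [Algebra R ↥(modularFunctionFieldFullC K (M' * q * q))]
  [IsScalarTower R K ↥(modularFunctionFieldFullC K (M' * q * q))] in
/-- `α₂ α₁ j = j`. -/
theorem c2p47_alpha_j :
    al97L_alpha K (M' * q) q (al97L_alpha K M' q (rm90_j K M')) = rm90_j K (M' * q * q) := by
  apply Subtype.ext
  rw [al97L_alpha_coe, al97L_alpha_coe]
  rfl

omit [IsDomain R] [IsDiscreteValuationRing R] [IsFractionRing R K] [Algebra R K] [Algebra K Q̄]
  [Algebra R ↥(modularFunctionFieldFullC K (M' * q))]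
  [IsScalarTower R K ↥(modularFunctionFieldFullC K (M' * q))]
  [Algebra R ↥(modularFunctionFieldFullC K (M' * q * q))]
  [IsScalarTower R K ↥(modularFunctionFieldFullC K (M' * q * q))] in
/-- The level 2 relation for `t₁ = α₂ α₁ h₂`. -/
theorem c2p47_rel_two (h2 : 2 ∣ M') :
    rm90_j K (M' * q * q) *
        al97L_alpha K (M' * q) q (al97L_alpha K M' q (pk85_h2 K M' h2)) ^ 2 =
      (al97L_alpha K (M' * q) q (al97L_alpha K M' q (pk85_h2 K M' h2)) + 256) ^ 3 := by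
  have h := congrArg (fun z => al97L_alpha K (M' * q) q (al97L_alpha K M' q z))
    (pk85_h2_rel K M' h2)
  simp only [map_mul, map_pow, map_add, map_ofNat] at h
  rw [c2p47_alpha_j] at h
  exact h

omit [IsDomain R] [IsDiscreteValuationRing R] [IsFractionRing R K] [Algebra R K] [Algebra K Q̄]
  [Algebra R ↥(modularFunctionFieldFullC K (M' * q))]
  [IsScalarTower R K ↥(modularFunctionFieldFullC K (M' * q))]
  [Algebra R ↥(modularFunctionFieldFullC K (M' * q * q))]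
  [IsScalarTower R K ↥(modularFunctionFieldFullC K (M' * q * q))] in
/-- The level 3 relation for `k₁ = α₂ α₁ h₃`. -/
theorem c2p47_rel_three (h3 : 3 ∣ M') :
    rm90_j K (M' * q * q) *
        al97L_alpha K (M' * q) q (al97L_alpha K M' q (pk85_h3 K M' h3)) ^ 3 =
      (al97L_alpha K (M' * q) q (al97L_alpha K M' q (pk85_h3 K M' h3)) + 27) *
        (al97L_alpha K (M' * q) q (al97L_alpha K M' q (pk85_h3 K M' h3)) + 243) ^ 3 := by
  have h := congrArg (fun z => al97L_alpha K (M' * q) q (al97L_alpha K M' q z))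
    (pk85_h3_rel K M' h3)
  simp only [map_mul, map_pow, map_add, map_ofNat] at h
  rw [c2p47_alpha_j] at h
  exact h

omit [IsDomain R] [IsDiscreteValuationRing R] [IsFractionRing R K] [Algebra K Q̄] in
include hq in
/-- `h₂(q²τ)` is integral over `R[h₂(τ)]` at level `M' q q`. -/
theorem c2p47_int_two (hq2 : q ≠ 2) (hu2 : IsUnit (2 : R)) (h2 : 2 ∣ M') :
    IsIntegral (Algebra.adjoin R
      ({al97L_alpha K (M' * q) q (al97L_alpha K M' q (pk85_h2 K M' h2))} :
        Set ↥(modularFunctionFieldFullC K (M' * q * q))))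
      (al97L_beta K (M' * q) q (al97L_beta K M' q (pk85_h2 K M' h2))) := by
  have hM1 : 2 * q ∣ M' * q := Nat.mul_dvd_mul_right h2 q
  have hM2 : 2 * q ∣ M' * q * q := hM1.trans (dvd_mul_right _ _)
  have s1 := (hi70_level2_full (K := K) (M' * q) (R := R) q hq hq2 hu2 hM1
    (al97L_alpha K M' q (pk85_h2 K M' h2)) (al97L_beta K M' q (pk85_h2 K M' h2))
    (by rw [al97L_alpha_coe, pk85_h2_coe]) (by rw [al97L_beta_coe, pk85_h2_coe])).1
  have s2 := bq8_isIntegral_map ((al97L_beta K (M' * q) q).restrictScalars R) _ _ s1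
  rw [Set.image_singleton] at s2
  have s3 := (hi70_level2_full (K := K) (M' * q * q) (R := R) q hq hq2 hu2 hM2
    (al97L_alpha K (M' * q) q (al97L_alpha K M' q (pk85_h2 K M' h2)))
    (al97L_beta K (M' * q) q (al97L_alpha K M' q (pk85_h2 K M' h2)))
    (by rw [al97L_alpha_coe, al97L_alpha_coe, pk85_h2_coe])
    (by rw [al97L_beta_coe, al97L_alpha_coe, pk85_h2_coe])).1
  exact bz7_isIntegral_trans _
    ({al97L_beta K (M' * q) q (al97L_alpha K M' q (pk85_h2 K M' h2))} :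
      Set ↥(modularFunctionFieldFullC K (M' * q * q)))
    (fun y hy => by rw [Set.mem_singleton_iff.mp hy]; exact s3) _ s2

omit [IsDomain R] [IsDiscreteValuationRing R] [IsFractionRing R K] [Algebra K Q̄] in
include hq in
/-- `h₃(q²τ)` is integral over `R[h₃(τ)]` at level `M' q q`. -/
theorem c2p47_int_three (hq3 : q ≠ 3) (hu3 : IsUnit (3 : R)) (h3 : 3 ∣ M') :
    IsIntegral (Algebra.adjoin R
      ({al97L_alpha K (M' * q) q (al97L_alpha K M' q (pk85_h3 K M' h3))} :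
        Set ↥(modularFunctionFieldFullC K (M' * q * q))))
      (al97L_beta K (M' * q) q (al97L_beta K M' q (pk85_h3 K M' h3))) := by
  have hM1 : 3 * q ∣ M' * q := Nat.mul_dvd_mul_right h3 q
  have hM2 : 3 * q ∣ M' * q * q := hM1.trans (dvd_mul_right _ _)
  have s1 := (hi70_level3_full (K := K) (M' * q) (R := R) q hq hq3 hu3 hM1
    (al97L_alpha K M' q (pk85_h3 K M' h3)) (al97L_beta K M' q (pk85_h3 K M' h3))
    (by rw [al97L_alpha_coe, pk85_h3_coe]) (by rw [al97L_beta_coe, pk85_h3_coe])).1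
  have s2 := bq8_isIntegral_map ((al97L_beta K (M' * q) q).restrictScalars R) _ _ s1
  rw [Set.image_singleton] at s2
  have s3 := (hi70_level3_full (K := K) (M' * q * q) (R := R) q hq hq3 hu3 hM2
    (al97L_alpha K (M' * q) q (al97L_alpha K M' q (pk85_h3 K M' h3)))
    (al97L_beta K (M' * q) q (al97L_alpha K M' q (pk85_h3 K M' h3)))
    (by rw [al97L_alpha_coe, al97L_alpha_coe, pk85_h3_coe])
    (by rw [al97L_beta_coe, al97L_alpha_coe, pk85_h3_coe])).1
  exact bz7_isIntegral_trans _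
    ({al97L_beta K (M' * q) q (al97L_alpha K M' q (pk85_h3 K M' h3))} :
      Set ↥(modularFunctionFieldFullC K (M' * q * q)))
    (fun y hy => by rw [Set.mem_singleton_iff.mp hy]; exact s3) _ s2

/-- The per-point data for the level 2 coordinate. -/
def c2p47_Data2 (h2 : 2 ∣ M') (B : Subalgebra R ↥(modularFunctionFieldFullC K (M' * q * q)))
    (n : Ideal B) : Prop :=
  ∃ b sB ag tg : B, b ∉ n ∧
    (sB : ↥(modularFunctionFieldFullC K (M' * q * q))) =
      (b : ↥(modularFunctionFieldFullC K (M' * q * q))) * c2x11_s K M' q (pk85_h2 K M' h2) ∧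
    tg ∉ n ∧
    al97L_alpha K (M' * q) q (al97L_alpha K M' q
        ((pk85_h2 K M' h2 ^ 4 * (pk85_h2 K M' h2 + 64) ^ 3)⁻¹)) ^ (q - 1) *
      al97L_alpha K (M' * q) q (dq56b_U (K := K) M' q hq) *
        (tg : ↥(modularFunctionFieldFullC K (M' * q * q))) =
      (ag : ↥(modularFunctionFieldFullC K (M' * q * q)))

/-- The per-point data for the level 3 coordinate. -/
def c2p47_Data3 (h3 : 3 ∣ M') (B : Subalgebra R ↥(modularFunctionFieldFullC K (M' * q * q)))
    (n : Ideal B) : Prop :=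
  ∃ b sB ag tg : B, b ∉ n ∧
    (sB : ↥(modularFunctionFieldFullC K (M' * q * q))) =
      (b : ↥(modularFunctionFieldFullC K (M' * q * q))) * c2x11_s K M' q (pk85_h3 K M' h3) ∧
    tg ∉ n ∧
    al97L_alpha K (M' * q) q (al97L_alpha K M' q
        ((pk85_h3 K M' h3 ^ 3 * (pk85_h3 K M' h3 + 27) ^ 4)⁻¹)) ^ (q - 1) *
      al97L_alpha K (M' * q) q (dq56b_U (K := K) M' q hq) *
        (tg : ↥(modularFunctionFieldFullC K (M' * q * q))) =
      (ag : ↥(modularFunctionFieldFullC K (M' * q * q)))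

omit [IsDomain R] [IsDiscreteValuationRing R] [IsFractionRing R K]
  [Algebra R ↥(modularFunctionFieldFullC K (M' * q))]
  [IsScalarTower R K ↥(modularFunctionFieldFullC K (M' * q))]
  [IsScalarTower R K ↥(modularFunctionFieldFullC K (M' * q * q))] in
/-- `Data2` from the two memberships in `B_n`. -/
theorem c2p47_data2_of_mem (h2 : 2 ∣ M')
    (B : Subalgebra R ↥(modularFunctionFieldFullC K (M' * q * q))) (n : Ideal B) [hn : n.IsPrime]
    (h : al97L_beta K (M' * q) q (al97L_beta K M' q (pk85_h2 K M' h2)) -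
          al97L_alpha K (M' * q) q (al97L_alpha K M' q (pk85_h2 K M' h2)) ∈ sf79_loc B n ∧
        ((al97L_alpha K (M' * q) q (al97L_alpha K M' q (pk85_h2 K M' h2)) ^ 4 *
          (al97L_alpha K (M' * q) q (al97L_alpha K M' q (pk85_h2 K M' h2)) + 64) ^ 3)⁻¹) ^ (q - 1) *
          al97L_alpha K (M' * q) q (dq56b_U (K := K) M' q hq) ∈ sf79_loc B n) :
    c2p47_Data2 (K := K) M' q hq h2 B n := by
  obtain ⟨b, sB, ag, tg, hb, hsB, htg, hag⟩ := c2p47_data_of_mem B n _ _ h.1 h.2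
  refine ⟨b, sB, ag, tg, hb, hsB, htg, ?_⟩
  rw [← hag]
  simp only [map_inv₀, map_mul, map_pow, map_add, map_ofNat]

omit [IsDomain R] [IsDiscreteValuationRing R] [IsFractionRing R K]
  [Algebra R ↥(modularFunctionFieldFullC K (M' * q))]
  [IsScalarTower R K ↥(modularFunctionFieldFullC K (M' * q))]
  [IsScalarTower R K ↥(modularFunctionFieldFullC K (M' * q * q))] in
/-- `Data3` from the two memberships in `B_n`. -/
theorem c2p47_data3_of_mem (h3 : 3 ∣ M')
    (B : Subalgebra R ↥(modularFunctionFieldFullC K (M' * q * q))) (n : Ideal B) [hn : n.IsPrime]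
    (h : al97L_beta K (M' * q) q (al97L_beta K M' q (pk85_h3 K M' h3)) -
          al97L_alpha K (M' * q) q (al97L_alpha K M' q (pk85_h3 K M' h3)) ∈ sf79_loc B n ∧
        ((al97L_alpha K (M' * q) q (al97L_alpha K M' q (pk85_h3 K M' h3)) ^ 3 *
          (al97L_alpha K (M' * q) q (al97L_alpha K M' q (pk85_h3 K M' h3)) + 27) ^ 4)⁻¹) ^ (q - 1) *
          al97L_alpha K (M' * q) q (dq56b_U (K := K) M' q hq) ∈ sf79_loc B n) :
    c2p47_Data3 (K := K) M' q hq h3 B n := by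
  obtain ⟨b, sB, ag, tg, hb, hsB, htg, hag⟩ := c2p47_data_of_mem B n _ _ h.1 h.2
  refine ⟨b, sB, ag, tg, hb, hsB, htg, ?_⟩
  rw [← hag]
  simp only [map_inv₀, map_mul, map_pow, map_add, map_ofNat]

include hq in
/-- **`q ≥ 5`** (`2`, `3` units of `R`, `6 ∣ M'`): at every closed point `n` of an integrally
closed chart `B` of level `M' q q` where `j` is regular, the data for `h₂` or the data for `h₃`. -/
theorem c2p47_point_big (hq2 : q ≠ 2) (hq3 : q ≠ 3) (hu2 : IsUnit (2 : R)) (hu3 : IsUnit (3 : R))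
    (h2 : 2 ∣ M') (h3 : 3 ∣ M')
    (B : Subalgebra R ↥(modularFunctionFieldFullC K (M' * q * q)))
    (hBint : ∀ z : ↥(modularFunctionFieldFullC K (M' * q * q)), IsIntegral B z → z ∈ B)
    (n : Ideal B) (hn : n.IsMaximal)
    (hj : ∃ s' b : B, s' ∉ n ∧
      (s' : ↥(modularFunctionFieldFullC K (M' * q * q))) * rm90_j K (M' * q * q) =
        (b : ↥(modularFunctionFieldFullC K (M' * q * q)))) :
    c2p47_Data2 (K := K) M' q hq h2 B n ∨ c2p47_Data3 (K := K) M' q hq h3 B n := by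
  haveI : n.IsPrime := hn.isPrime
  letI : Field (B ⧸ n) := Ideal.Quotient.field n
  have hφ : ∀ b : B, Ideal.Quotient.mk n b = 0 ↔ b ∈ n := fun b => Ideal.Quotient.eq_zero_iff_mem
  obtain ⟨s', b, hs', hsb⟩ := hj
  have hjA : rm90_j K (M' * q * q) ∈ sf79_loc B n := ⟨s', hs', by rw [hsb]; exact b.2⟩
  have h2O : (2 : B ⧸ n) ≠ 0 := by
    have h := ((hu2.map (algebraMap R B)).map (Ideal.Quotient.mk n)).ne_zero
    rwa [map_ofNat, map_ofNat] at h
  have h3O : (3 : B ⧸ n) ≠ 0 := by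
    have h := ((hu3.map (algebraMap R B)).map (Ideal.Quotient.mk n)).ne_zero
    rwa [map_ofNat, map_ofNat] at h
  rcases c2p47_abs_big B hBint n (Ideal.Quotient.mk n) hφ (rm90_j K (M' * q * q))
    (al97L_alpha K (M' * q) q (al97L_alpha K M' q (pk85_h2 K M' h2)))
    (al97L_beta K (M' * q) q (al97L_beta K M' q (pk85_h2 K M' h2)))
    (al97L_alpha K (M' * q) q (al97L_alpha K M' q (pk85_h3 K M' h3)))
    (al97L_beta K (M' * q) q (al97L_beta K M' q (pk85_h3 K M' h3)))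
    (al97L_alpha K (M' * q) q (dq56b_U (K := K) M' q hq)) hjA
    (c2p47_rel_two M' q h2) (c2p47_rel_three M' q h3)
    (c2p47_int_two M' q hq hq2 hu2 h2) (c2p47_int_three M' q hq hq3 hu3 h3)
    (usq75_U_integral M' q hq) h2O h3O (q - 1) with h | h
  · exact Or.inl (c2p47_data2_of_mem M' q hq h2 B n h)
  · exact Or.inr (c2p47_data3_of_mem M' q hq h3 B n h)

include hq in
/-- **Level 3 data whenever `j` is a unit at `n`** (`q ≠ 3`; in particular `q = 2`). -/
theorem c2p47_point_three (hq3 : q ≠ 3) (hu3 : IsUnit (3 : R)) (h3 : 3 ∣ M')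
    (B : Subalgebra R ↥(modularFunctionFieldFullC K (M' * q * q)))
    (hBint : ∀ z : ↥(modularFunctionFieldFullC K (M' * q * q)), IsIntegral B z → z ∈ B)
    (n : Ideal B) (hn : n.IsMaximal)
    (hj : ∃ s' b : B, s' ∉ n ∧ b ∉ n ∧
      (s' : ↥(modularFunctionFieldFullC K (M' * q * q))) * rm90_j K (M' * q * q) =
        (b : ↥(modularFunctionFieldFullC K (M' * q * q)))) :
    c2p47_Data3 (K := K) M' q hq h3 B n := by
  haveI : n.IsPrime := hn.isPrime
  letI : Field (B ⧸ n) := Ideal.Quotient.field n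
  have hφ : ∀ b : B, Ideal.Quotient.mk n b = 0 ↔ b ∈ n := fun b => Ideal.Quotient.eq_zero_iff_mem
  obtain ⟨s', b, hs', hb, hsb⟩ := hj
  have hjA : rm90_j K (M' * q * q) ∈ sf79_loc B n := ⟨s', hs', by rw [hsb]; exact b.2⟩
  have h3O : (3 : B ⧸ n) ≠ 0 := by
    have h := ((hu3.map (algebraMap R B)).map (Ideal.Quotient.mk n)).ne_zero
    rwa [map_ofNat, map_ofNat] at h
  exact c2p47_data3_of_mem M' q hq h3 B n
    (c2p47_abs_three B hBint n (Ideal.Quotient.mk n) hφ (rm90_j K (M' * q * q))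
      (al97L_alpha K (M' * q) q (al97L_alpha K M' q (pk85_h3 K M' h3)))
      (al97L_beta K (M' * q) q (al97L_beta K M' q (pk85_h3 K M' h3)))
      (al97L_alpha K (M' * q) q (dq56b_U (K := K) M' q hq)) hjA
      (c2p47_rel_three M' q h3) (c2p47_int_three M' q hq hq3 hu3 h3)
      (usq75_U_integral M' q hq) h3O
      (c2p47_res_ne_zero B n (Ideal.Quotient.mk n) hφ _ hjA s' b hs' hb hsb) (q - 1))

include hq in
/-- **Level 2 data in residue characteristic 3** (`q = 3`) when `j` is a unit at `n`. -/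
theorem c2p47_point_two (hq2 : q ≠ 2) (hu2 : IsUnit (2 : R)) (h2 : 2 ∣ M')
    (B : Subalgebra R ↥(modularFunctionFieldFullC K (M' * q * q)))
    (hBint : ∀ z : ↥(modularFunctionFieldFullC K (M' * q * q)), IsIntegral B z → z ∈ B)
    (n : Ideal B) (hn : n.IsMaximal) (h3n : (3 : B) ∈ n)
    (hj : ∃ s' b : B, s' ∉ n ∧ b ∉ n ∧
      (s' : ↥(modularFunctionFieldFullC K (M' * q * q))) * rm90_j K (M' * q * q) =
        (b : ↥(modularFunctionFieldFullC K (M' * q * q)))) :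
    c2p47_Data2 (K := K) M' q hq h2 B n := by
  haveI : n.IsPrime := hn.isPrime
  letI : Field (B ⧸ n) := Ideal.Quotient.field n
  have hφ : ∀ b : B, Ideal.Quotient.mk n b = 0 ↔ b ∈ n := fun b => Ideal.Quotient.eq_zero_iff_mem
  obtain ⟨s', b, hs', hb, hsb⟩ := hj
  have hjA : rm90_j K (M' * q * q) ∈ sf79_loc B n := ⟨s', hs', by rw [hsb]; exact b.2⟩
  have h2O : (2 : B ⧸ n) ≠ 0 := by
    have h := ((hu2.map (algebraMap R B)).map (Ideal.Quotient.mk n)).ne_zero
    rwa [map_ofNat, map_ofNat] at h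
  have h3O : (3 : B ⧸ n) = 0 := by
    have h := (hφ 3).mpr h3n
    rwa [map_ofNat] at h
  exact c2p47_data2_of_mem M' q hq h2 B n
    (c2p47_abs_two_char3 B hBint n (Ideal.Quotient.mk n) hφ (rm90_j K (M' * q * q))
      (al97L_alpha K (M' * q) q (al97L_alpha K M' q (pk85_h2 K M' h2)))
      (al97L_beta K (M' * q) q (al97L_beta K M' q (pk85_h2 K M' h2)))
      (al97L_alpha K (M' * q) q (dq56b_U (K := K) M' q hq)) hjA
      (c2p47_rel_two M' q h2) (c2p47_int_two M' q hq hq2 hu2 h2)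
      (usq75_U_integral M' q hq) h2O h3O
      (c2p47_res_ne_zero B n (Ideal.Quotient.mk n) hφ _ hjA s' b hs' hb hsb) (q - 1))

end c2p47_canon

end Fermat.Agent.S36
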