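import Mathlib
import Fermat.Agent.S36.BranchDVR40

/-!
# S36 lab, row 599 C-REGq (helper40): the regular node from `ϖ ^ 12 ∣ Ū`, chart language

Abstract (Mathlib + `bd40_exists_dvr`).  `B` a noetherian chart inside the function field `F`,
`V₁`, `V₂` the two vertical valuation rings, `P = {x ∈ B | π⁻¹ x ∈ V₁}` the first branch (prime),
`n ⊇ P` a closed point, `y ∈ n` a function vanishing along the second branch (`π⁻¹ y ∈ V₂`), a unit
along the first (`y⁻¹ ∈ V₁`) and a local coordinate of the first branch at `n`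
(`∀ x ∈ n, ∃ s ∉ n, ∃ a, s x - a y ∈ P`); `U, Vv ∈ B` with `U Vv = π ^ 12 s₀`, `s₀ ∉ n`, `U` a unit
along `V₁` (the `Δ`-quotient and its Atkin–Lehner transform).

`nf40_node` : if in the discrete valuation ring `O = (B ⧸ P)_n` the residue of `U` is divisible by
the twelfth power of the uniformiser (stated for every `(O, ι)` as produced by `bd40_exists_dvr`),
then the node is REGULAR: there are `z, z' ∈ B`, `s, s' ∉ n` with `π⁻¹ z ∈ V₁`, `π⁻¹ z' ∈ V₂` and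
`s z z' = π s'` (the hypothesis `hnode` of `tl71_reg_of_nodes`).

No `κ`, no Krull property, no horizontal valuation: only the saturation of `B` in `V₁ ∩ V₂` and
`x ^ 12 ∈ B → x ∈ B` (the chart is integrally closed).  Proof: `c' := π⁻¹² y¹² Vv ∈ B` by
saturation, `s₀ y¹² = c' U`; in `O`: `ϖ¹² ∣ Ū` forces `c'` to be a unit at `n`; then
`(c' π / y)¹² = c'¹¹ Vv ∈ B`, so `z := c' π / y ∈ B` and `z y = π c'`.

All names are prefixed `nf40_`.
-/

set_option autoImplicit false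

namespace Fermat.Agent.S36

universe u v

section

variable {R : Type v} {F : Type u} [CommRing R] [Field F] [Algebra R F]

/-- Iterated saturation: `π⁻ᵏ x ∈ B` as soon as `π⁻ʲ x ∈ V₁ ∩ V₂` for `1 ≤ j ≤ k`. -/
theorem nf40_sat_pow (π : R) (B : Subalgebra R F) (V₁ V₂ : Subring F)
    (hsat : ∀ x ∈ B, (algebraMap R F π)⁻¹ * x ∈ V₁ → (algebraMap R F π)⁻¹ * x ∈ V₂ →
      (algebraMap R F π)⁻¹ * x ∈ B) (x : F) (hx : x ∈ B) :
    ∀ k : ℕ, (∀ j : ℕ, 1 ≤ j → j ≤ k →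
        ((algebraMap R F π)⁻¹) ^ j * x ∈ V₁ ∧ ((algebraMap R F π)⁻¹) ^ j * x ∈ V₂) →
      ((algebraMap R F π)⁻¹) ^ k * x ∈ B := by
  intro k
  induction k with
  | zero => intro _; simpa using hx
  | succ k ih =>
    intro h
    have hk : ((algebraMap R F π)⁻¹) ^ k * x ∈ B := ih (fun j h1 h2 => h j h1 (by omega))
    have e : ((algebraMap R F π)⁻¹) ^ (k + 1) * x =
        (algebraMap R F π)⁻¹ * (((algebraMap R F π)⁻¹) ^ k * x) := by ring
    obtain ⟨h1, h2⟩ := h (k + 1) (by omega) le_rfl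
    rw [e] at h1 h2 ⊢
    exact hsat _ hk h1 h2

/-- **The regular node from `ϖ ^ 12 ∣ Ū`.** -/
theorem nf40_node (π : R) (B : Subalgebra R F) [IsNoetherianRing B] (V₁ V₂ : Subring F)
    (hB₁ : ∀ x ∈ B, x ∈ V₁) (hB₂ : ∀ x ∈ B, x ∈ V₂)
    (hπ0 : algebraMap R F π ≠ 0)
    (hsat : ∀ x ∈ B, (algebraMap R F π)⁻¹ * x ∈ V₁ → (algebraMap R F π)⁻¹ * x ∈ V₂ →
      (algebraMap R F π)⁻¹ * x ∈ B)
    (hroot : ∀ x : F, x ^ 12 ∈ B → x ∈ B)
    (P : Ideal B) [hPp : P.IsPrime]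
    (hP : ∀ x : B, x ∈ P ↔ (algebraMap R F π)⁻¹ * (x : F) ∈ V₁)
    (n : Ideal B) [hn : n.IsPrime] (hPn : P ≤ n)
    (y : B) (hyn : y ∈ n) (hy₂ : (algebraMap R F π)⁻¹ * (y : F) ∈ V₂)
    (hyP : (algebraMap R F π)⁻¹ * (y : F) ∉ V₁) (hy₁ : (y : F)⁻¹ ∈ V₁)
    (hunif : ∀ x ∈ n, ∃ s : B, s ∉ n ∧ ∃ a : B, s * x - a * y ∈ P)
    (U Vv s₀ : B) (hs₀ : s₀ ∉ n) (hUV : U * Vv = algebraMap R B π ^ 12 * s₀)
    (hU₁ : (U : F)⁻¹ ∈ V₁)
    (hdata : ∀ (O : Type u) [CommRing O] [IsDomain O] [IsDiscreteValuationRing O] (ι : B →+* O),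
      (∀ x : B, ι x = 0 ↔ x ∈ P) → (∀ s : B, IsUnit (ι s) ↔ s ∉ n) → Irreducible (ι y) →
        ι y ^ 12 ∣ ι U) :
    ∃ z z' s s' : B, s ∉ n ∧ s' ∉ n ∧ (algebraMap R F π)⁻¹ * (z : F) ∈ V₁ ∧
      (algebraMap R F π)⁻¹ * (z' : F) ∈ V₂ ∧ s * z * z' = algebraMap R B π * s' := by
  classical
  set p : F := algebraMap R F π with hp
  have hpB : p ∈ B := B.algebraMap_mem π
  have hyP' : y ∉ P := fun h => hyP ((hP y).mp h)
  have hy0 : (y : F) ≠ 0 := by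
    intro h0
    apply hyP
    rw [h0, mul_zero]
    exact V₁.zero_mem
  have hs₀0 : (s₀ : F) ≠ 0 := by
    intro h0
    apply hs₀
    have : s₀ = 0 := Subtype.ext h0
    rw [this]
    exact n.zero_mem
  have hUVF : (U : F) * (Vv : F) = p ^ 12 * (s₀ : F) := by
    have := congrArg (fun b : B => (b : F)) hUV
    simpa using this
  have hU0 : (U : F) ≠ 0 := by
    intro h0
    rw [h0, zero_mul] at hUVF
    exact (mul_ne_zero (pow_ne_zero 12 hπ0) hs₀0) hUVF.symm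
  have hV : (Vv : F) = p ^ 12 * (s₀ : F) * (U : F)⁻¹ := by
    rw [← hUVF]
    field_simp
  -- step 1: `c' := π⁻¹² y¹² Vv ∈ B`
  have hc'B : (p⁻¹) ^ 12 * ((y : F) ^ 12 * (Vv : F)) ∈ B := by
    apply nf40_sat_pow π B V₁ V₂ hsat _ (B.mul_mem (B.pow_mem y.2 12) Vv.2) 12
    intro j hj1 hj12
    constructor
    · have e : (p⁻¹) ^ j * ((y : F) ^ 12 * (Vv : F)) =
          (y : F) ^ 12 * (p ^ (12 - j) * (s₀ : F) * (U : F)⁻¹) := by
        have hp12 : p ^ 12 = p ^ j * p ^ (12 - j) := by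
          rw [← pow_add]
          congr 1
          omega
        rw [hV, hp12, inv_pow]
        have hpj : p ^ j ≠ 0 := pow_ne_zero j hπ0
        field_simp
      rw [e]
      exact V₁.mul_mem (V₁.pow_mem (hB₁ _ y.2) 12)
        (V₁.mul_mem (V₁.mul_mem (V₁.pow_mem (hB₁ _ hpB) _) (hB₁ _ s₀.2)) hU₁)
    · have e : (p⁻¹) ^ j * ((y : F) ^ 12 * (Vv : F)) =
          (p⁻¹ * (y : F)) ^ j * ((y : F) ^ (12 - j) * (Vv : F)) := by
        have hy12 : (y : F) ^ 12 = (y : F) ^ j * (y : F) ^ (12 - j) := by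
          rw [← pow_add]
          congr 1
          omega
        rw [hy12, mul_pow]
        ring
      rw [e]
      exact V₂.mul_mem (V₂.pow_mem hy₂ j) (V₂.mul_mem (V₂.pow_mem (hB₂ _ y.2) _) (hB₂ _ Vv.2))
  obtain ⟨c', hc'⟩ : ∃ c' : B, (c' : F) = (p⁻¹) ^ 12 * ((y : F) ^ 12 * (Vv : F)) := ⟨⟨_, hc'B⟩, rfl⟩
  -- step 2: `s₀ y¹² = c' U`
  have hrelB : s₀ * y ^ 12 = c' * U := by
    apply Subtype.ext
    show (s₀ : F) * (y : F) ^ 12 = (c' : F) * (U : F)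
    rw [hc', hV, inv_pow]
    have hp12 : p ^ 12 ≠ 0 := pow_ne_zero 12 hπ0
    field_simp
  -- step 3: `c'` is a unit at `n`
  obtain ⟨O, iCR, iDom, iDVR, ι, h0, hunit, hirr⟩ := bd40_exists_dvr P n hPn y hyn hyP' hunif
  obtain ⟨d, hd⟩ := hdata O ι h0 hunit hirr
  have hc'n : c' ∉ n := by
    have h1 : ι s₀ * ι y ^ 12 = ι c' * ι U := by
      rw [← map_pow, ← map_mul, ← map_mul, hrelB]
    rw [hd] at h1
    have hy12 : ι y ^ 12 ≠ 0 := pow_ne_zero 12 hirr.ne_zero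
    have h2 : ι s₀ = ι c' * d := by
      apply mul_right_cancel₀ hy12
      rw [h1]
      ring
    have hu : IsUnit (ι c' * d) := h2 ▸ (hunit s₀).mpr hs₀
    exact (hunit c').mp (isUnit_of_mul_isUnit_left hu)
  -- step 4: `z := c' π / y ∈ B`
  have hzB : (c' : F) * p * (y : F)⁻¹ ∈ B := by
    apply hroot
    have h3 : (c' : F) * p ^ 12 * ((y : F)⁻¹) ^ 12 = (Vv : F) := by
      rw [hc', inv_pow, inv_pow]
      have hp12 : p ^ 12 ≠ 0 := pow_ne_zero 12 hπ0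
      have hy12 : (y : F) ^ 12 ≠ 0 := pow_ne_zero 12 hy0
      field_simp
    have e : ((c' : F) * p * (y : F)⁻¹) ^ 12 = (c' : F) ^ 11 * (Vv : F) := by
      calc ((c' : F) * p * (y : F)⁻¹) ^ 12
          = (c' : F) ^ 11 * ((c' : F) * p ^ 12 * ((y : F)⁻¹) ^ 12) := by ring
        _ = (c' : F) ^ 11 * (Vv : F) := by rw [h3]
    rw [e]
    exact B.mul_mem (B.pow_mem c'.2 11) Vv.2
  refine ⟨⟨_, hzB⟩, y, 1, c', ?_, hc'n, ?_, hy₂, ?_⟩
  · exact fun h => hn.ne_top ((Ideal.eq_top_iff_one _).mpr h)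
  · show p⁻¹ * ((c' : F) * p * (y : F)⁻¹) ∈ V₁
    have e : p⁻¹ * ((c' : F) * p * (y : F)⁻¹) = (c' : F) * (y : F)⁻¹ := by
      field_simp
    rw [e]
    exact V₁.mul_mem (hB₁ _ c'.2) hy₁
  · apply Subtype.ext
    show ((1 : B) : F) * ((c' : F) * p * (y : F)⁻¹) * (y : F) = p * (c' : F)
    rw [show ((1 : B) : F) = 1 from rfl]
    field_simp

end

end Fermat.Agent.S36
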