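import Fermat.Agent.S36.C2ChartB75
import Fermat.Agent.S36.NodeFinal40
import Fermat.Agent.S34.SpecFibre79

/-!
# S36 lab, row 600 C-C2 (helper75): the chart half of `hreg`, abstract, in the LITERAL hypotheses
of `hreg` (`mc25_hD2_level2/3`)

`n` a prime of the integrally closed chart `B`, off the third branch
(`h3 : ¬ sf79_OnBr π B V₃ n`), `j` regular at `n`
(`hjreg : ∃ s' b : B, s' ∉ n ∧ s' * j = b`).

* `c2r75_sep`      : the separator `a ∉ n`, `π⁻¹ a ∈ V₃`;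
* `c2r75_unit_at`  : `U, V` integral over `R[j]`, `U V = π ^ 12`, `U⁻¹ ∈ V₁, V₂` ⟹
  `∃ t U' : B, t ∉ n ∧ U' ∉ n ∧ U' = t * U` (NO unit condition on the denominator `s'`:
  improves `usq75_unit_at`);
* `c2r75_unit_of_witness` : one witness `c₀ ∉ n`, `c₀ x ∈ B ∖ n` gives the form
  `∀ c, c x ∈ B → c ∉ n → c x ∉ n` (`hu1`, `huκ` of `c2b75_chart`);
* `c2r75_chart`    : `c2b75_chart` with `hU` discharged by `c2r75_unit_at`: the chart data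
  `(s b hsb hbn hb₂) (aw tw haw hwtw)` of `c2f24_prinAt_two/three` from field-level data only
  (+ the two unit conditions at `n`).

All names are prefixed `c2r75_`.
-/

set_option autoImplicit false

namespace Fermat.Agent.S36

open Fermat.Agent.S34

section

universe u v

variable {R : Type v} {F : Type u} [CommRing R] [Field F] [Algebra R F]

/-- The separator of a point off the branch `V`. -/
theorem c2r75_sep (π : R) (B : Subalgebra R F) (V : Subring F) (n : Ideal B)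
    (h : ¬ sf79_OnBr π B V n) :
    ∃ a : B, a ∉ n ∧ (algebraMap R F π)⁻¹ * (a : F) ∈ V := by
  by_contra hcon
  apply h
  intro x hx
  by_contra hxn
  exact hcon ⟨x, hxn, hx⟩

/-- **`U` is a unit of `B_n`** at a point off the third branch where `j` is regular. -/
theorem c2r75_unit_at (π : R) (hπ0 : algebraMap R F π ≠ 0) (B : Subalgebra R F)
    (hBint : ∀ z : F, IsIntegral B z → z ∈ B) (V₁ V₂ V₃ : Subring F)
    (hB₁ : ∀ x ∈ B, x ∈ V₁) (hB₂ : ∀ x ∈ B, x ∈ V₂) (hB₃ : ∀ x ∈ B, x ∈ V₃)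
    (hsat : ∀ x ∈ B, (algebraMap R F π)⁻¹ * x ∈ V₁ → (algebraMap R F π)⁻¹ * x ∈ V₂ →
      (algebraMap R F π)⁻¹ * x ∈ V₃ → (algebraMap R F π)⁻¹ * x ∈ B)
    (n : Ideal B) [hn : n.IsPrime] (h3 : ¬ sf79_OnBr π B V₃ n)
    (j U V : F)
    (hU : IsIntegral (Algebra.adjoin R ({j} : Set F)) U)
    (hV : IsIntegral (Algebra.adjoin R ({j} : Set F)) V)
    (hUV : U * V = algebraMap R F π ^ 12) (hU₁ : U⁻¹ ∈ V₁) (hU₂ : U⁻¹ ∈ V₂)
    (hjreg : ∃ s' b : B, s' ∉ n ∧ (s' : F) * j = (b : F)) :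
    ∃ t U' : B, t ∉ n ∧ U' ∉ n ∧ (U' : F) = (t : F) * U := by
  obtain ⟨s, b, hs, hsb⟩ := hjreg
  have hsj : (s : F) * j ∈ B := by rw [hsb]; exact b.2
  obtain ⟨a, ha, ha₃⟩ := c2r75_sep π B V₃ n h3
  obtain ⟨k₁, hk₁⟩ := uv17_clear B hBint j U hU (s : F) s.2 hsj
  obtain ⟨k₂, hk₂⟩ := uv17_clear B hBint j V hV (s : F) s.2 hsj
  have hπB : algebraMap R F π ∈ B := B.algebraMap_mem π
  have hU0 : U ≠ 0 := by
    intro h
    rw [h, zero_mul] at hUV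
    exact pow_ne_zero 12 hπ0 hUV.symm
  have hVeq : V = algebraMap R F π ^ 12 * U⁻¹ := by
    rw [← hUV]
    field_simp
  have hspow : ∀ k : ℕ, s ^ k ∉ n := fun k h => hs (hn.mem_of_pow_mem k h)
  have hx : (a : F) ^ 12 * ((s : F) ^ k₂ * V) ∈ B := B.mul_mem (B.pow_mem a.2 12) hk₂
  have hsat' : ∀ x ∈ B, (algebraMap R F π)⁻¹ * x ∈ V₁ ⊓ V₂ → (algebraMap R F π)⁻¹ * x ∈ V₃ →
      (algebraMap R F π)⁻¹ * x ∈ B := fun x hx h12 h3 =>
    hsat x hx (Subring.mem_inf.mp h12).1 (Subring.mem_inf.mp h12).2 h3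
  have hc : ((algebraMap R F π)⁻¹) ^ 12 * ((a : F) ^ 12 * ((s : F) ^ k₂ * V)) ∈ B := by
    refine nf40_sat_pow π B (V₁ ⊓ V₂) V₃ hsat' _ hx 12 ?_
    intro i h1 h2
    obtain ⟨l, hl⟩ : ∃ l : ℕ, 12 = i + l := ⟨12 - i, by omega⟩
    have hii : ((algebraMap R F π)⁻¹) ^ i * algebraMap R F π ^ i = 1 := by
      rw [← mul_pow, inv_mul_cancel₀ hπ0, one_pow]
    constructor
    · have e : ((algebraMap R F π)⁻¹) ^ i * ((a : F) ^ 12 * ((s : F) ^ k₂ * V)) =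
          (a : F) ^ 12 * ((s : F) ^ k₂ * (algebraMap R F π ^ l * U⁻¹)) := by
        rw [hVeq, hl, pow_add]
        linear_combination
          ((a : F) ^ (i + l) * (s : F) ^ k₂ * algebraMap R F π ^ l * U⁻¹) * hii
      rw [e]
      refine Subring.mem_inf.mpr ⟨?_, ?_⟩
      · exact V₁.mul_mem (V₁.pow_mem (hB₁ _ a.2) 12)
          (V₁.mul_mem (V₁.pow_mem (hB₁ _ s.2) k₂) (V₁.mul_mem (V₁.pow_mem (hB₁ _ hπB) l) hU₁))
      · exact V₂.mul_mem (V₂.pow_mem (hB₂ _ a.2) 12)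
          (V₂.mul_mem (V₂.pow_mem (hB₂ _ s.2) k₂) (V₂.mul_mem (V₂.pow_mem (hB₂ _ hπB) l) hU₂))
    · have e : ((algebraMap R F π)⁻¹) ^ i * ((a : F) ^ 12 * ((s : F) ^ k₂ * V)) =
          ((algebraMap R F π)⁻¹ * (a : F)) ^ i * ((a : F) ^ l * ((s : F) ^ k₂ * V)) := by
        rw [hl, pow_add]
        ring
      rw [e]
      exact V₃.mul_mem (V₃.pow_mem ha₃ i) (V₃.mul_mem (V₃.pow_mem (hB₃ _ a.2) l) (hB₃ _ hk₂))
  refine ⟨s ^ k₁, ⟨_, hk₁⟩, hspow k₁, ?_, ?_⟩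
  · intro hUn
    have h12 : a ^ 12 * s ^ (k₁ + k₂) ∈ n := by
      have e : a ^ 12 * s ^ (k₁ + k₂) = ⟨_, hc⟩ * (⟨_, hk₁⟩ : B) := by
        apply Subtype.ext
        show ((a ^ 12 * s ^ (k₁ + k₂) : B) : F) =
          ((algebraMap R F π)⁻¹) ^ 12 * ((a : F) ^ 12 * ((s : F) ^ k₂ * V)) * ((s : F) ^ k₁ * U)
        have h1 : ((algebraMap R F π)⁻¹) ^ 12 * algebraMap R F π ^ 12 = 1 := by
          rw [← mul_pow, inv_mul_cancel₀ hπ0, one_pow]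
        push_cast
        rw [pow_add]
        linear_combination (-((a : F) ^ 12 * (s : F) ^ k₁ * (s : F) ^ k₂)) * h1 -
          (((algebraMap R F π)⁻¹) ^ 12 * (a : F) ^ 12 * (s : F) ^ k₁ * (s : F) ^ k₂) * hUV
      rw [e]
      exact n.mul_mem_left _ hUn
    rcases hn.mem_or_mem h12 with h | h
    · exact ha (hn.mem_of_pow_mem 12 h)
    · exact hspow _ h
  · push_cast
    rfl

/-- One witness gives the uniform unit condition (`hu1`, `huκ` of `c2b75_chart`). -/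
theorem c2r75_unit_of_witness (B : Subalgebra R F) (n : Ideal B) [hn : n.IsPrime] (x : F)
    (c₀ : B) (hc₀ : (c₀ : F) * x ∈ B) (hx : (⟨_, hc₀⟩ : B) ∉ n) :
    ∀ c : B, ∀ hc : (c : F) * x ∈ B, c ∉ n → (⟨_, hc⟩ : B) ∉ n := by
  intro c hc hcn hmem
  have e : c₀ * (⟨_, hc⟩ : B) = c * (⟨_, hc₀⟩ : B) := by
    apply Subtype.ext
    push_cast
    ring
  have h1 : c * (⟨_, hc₀⟩ : B) ∈ n := by
    rw [← e]
    exact n.mul_mem_left _ hmem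
  rcases hn.mem_or_mem h1 with h | h
  · exact hcn h
  · exact hx h

/-- **The chart data of `c2f24_prinAt_two/three` from field-level data**, at a prime `n` on the
middle branch, off the third branch, with `j` regular at `n`; `jj` the Hauptmodul over which
`t1, t2, t3` are integral (`jj` regular at `n`: `s' jj ∈ B`, `s' ∉ n`). -/
theorem c2r75_chart (π : R) (hπ0 : algebraMap R F π ≠ 0) (B : Subalgebra R F)
    (hBint : ∀ z : F, IsIntegral B z → z ∈ B) (V₁ V₃ : Subring F) (V₂ : ValuationSubring F)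
    (hB₁ : ∀ x ∈ B, x ∈ V₁) (hB₂ : ∀ x ∈ B, x ∈ V₂.toSubring) (hB₃ : ∀ x ∈ B, x ∈ V₃)
    (hsat : ∀ x ∈ B, (algebraMap R F π)⁻¹ * x ∈ V₁ → (algebraMap R F π)⁻¹ * x ∈ V₂.toSubring →
      (algebraMap R F π)⁻¹ * x ∈ V₃ → (algebraMap R F π)⁻¹ * x ∈ B)
    (σ : F) (huni : ∀ x : F, V₂.valuation x < 1 → x * σ⁻¹ ∈ V₂)
    (n : Ideal B) [hn : n.IsPrime] (hmid : ∀ x : B, (x : F) * σ⁻¹ ∈ V₂ → x ∈ n)
    (h3 : ¬ sf79_OnBr π B V₃ n)
    (q : ℕ) (hq : q.Prime) (hqσ : (q : F) * σ⁻¹ ∈ V₂)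
    (j U V : F)
    (hU : IsIntegral (Algebra.adjoin R ({j} : Set F)) U)
    (hV : IsIntegral (Algebra.adjoin R ({j} : Set F)) V)
    (hUV : U * V = algebraMap R F π ^ 12) (hU₁ : U⁻¹ ∈ V₁) (hU₂ : U⁻¹ ∈ V₂)
    (hjreg : ∃ s' b : B, s' ∉ n ∧ (s' : F) * j = (b : F))
    (jj : F) (s' : B) (hs' : s' ∉ n) (hs'j : (s' : F) * jj ∈ B)
    (t1 t2 t3 g wt : F) (κ e₁ e₂ : ℕ)
    (ht1 : IsIntegral (Algebra.adjoin R ({jj} : Set F)) t1)
    (ht2 : IsIntegral (Algebra.adjoin R ({jj} : Set F)) t2)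
    (ht3 : IsIntegral (Algebra.adjoin R ({jj} : Set F)) t3)
    (hg : g ∈ V₂) (ht2g : t2 = t1 ^ q + q * g)
    (h6 : wt ^ 6 * (t1 ^ e₁ * (t1 + κ) ^ e₂ * U) = t2 ^ e₁ * (t2 + κ) ^ e₂)
    (hu1 : ∀ c : B, ∀ hc : (c : F) * t1 ∈ B, c ∉ n → (⟨_, hc⟩ : B) ∉ n)
    (huκ : ∀ c : B, ∀ hc : (c : F) * (t1 + κ) ∈ B, c ∉ n → (⟨_, hc⟩ : B) ∉ n) :
    (∃ s b : B, (s : F) = (b : F) * (t3 - t1) ∧ b ∉ n ∧ (b : F)⁻¹ ∈ V₂) ∧
      ∃ aw tw : B, aw ∉ n ∧ wt * (tw : F) = (aw : F) :=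
  c2b75_chart B hBint V₂ hB₂ σ huni n hmid q hq hqσ jj s' hs' hs'j t1 t2 t3 g wt U κ e₁ e₂
    ht1 ht2 ht3 hg ht2g
    (c2r75_unit_at π hπ0 B hBint V₁ V₂.toSubring V₃ hB₁ hB₂ hB₃ hsat n h3 j U V hU hV hUV
      hU₁ hU₂ hjreg)
    h6 hu1 huκ

end

end Fermat.Agent.S36
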