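import Fermat.Agent.S36.EisDK85

/-!
# S36 lab (helper85): the Frobenius / Eisenstein shape gives the Dedekind–Kummer data

`ek85_kummer`: `Va`, `Vb` valuation subrings of `E` with uniformizer `π`, `V₁ V₂` over `Va`,
`V₃` over `Vb`, `q` prime, `y ∈ F` with

* `y ≡ a₁` modulo `π V₁`;
* `v₂(y - a₂) ^ (q - 1) = v₂(π)` (the ramified middle valuation; shape of `ob72_ram`);
* `y ^ q ≡ a₃` modulo `π V₃` (shape of `obi72_inert`);
* `a₁ ≢ a₂` modulo `π Va`, and `a₃` is not a `q`-th power modulo `π Vb`.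

Then `ek85_Data Va Vb π V₁ V₂ V₃ y (X - C a₁) (X - C a₂) (X ^ q - C a₃) (q - 1)` and the length
`q` is admissible (`ek85_Adm`).  All names are prefixed `ek85_`.
-/

set_option autoImplicit false
set_option linter.style.haveILetI false

namespace Fermat.Agent.S36

open Polynomial Fermat.Agent.S34

section ek85_kum

variable {E F : Type*} [Field E] [Field F] [Algebra E F]

/-- **Frobenius / Eisenstein shape ⟹ (DK) data for three valuations.** -/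
theorem ek85_kummer (Va Vb : ValuationSubring E) (π : E) (hπa : π ∈ Va) (hπb : π ∈ Vb)
    (hmaxa : ∀ x ∈ Va, x⁻¹ ∉ Va → π⁻¹ * x ∈ Va) (hmaxb : ∀ x ∈ Vb, x⁻¹ ∉ Vb → π⁻¹ * x ∈ Vb)
    (harcha : ∀ x : E, x ≠ 0 → ∃ n : ℕ, (π ^ n)⁻¹ * x ∉ Va)
    (harchb : ∀ x : E, x ≠ 0 → ∃ n : ℕ, (π ^ n)⁻¹ * x ∉ Vb)
    (V₁ V₂ V₃ : ValuationSubring F)
    (hV₁ : ∀ c ∈ Va, algebraMap E F c ∈ V₁) (hV₂ : ∀ c ∈ Va, algebraMap E F c ∈ V₂)
    (hV₃ : ∀ c ∈ Vb, algebraMap E F c ∈ V₃)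
    (hπ₁ : (algebraMap E F π)⁻¹ ∉ V₁) (hπ₂ : (algebraMap E F π)⁻¹ ∉ V₂)
    (hπ₃ : (algebraMap E F π)⁻¹ ∉ V₃)
    (q : ℕ) (hq : q.Prime) (y : F) (a₁ a₂ : ↥Va) (a₃ : ↥Vb)
    (hy₁ : (algebraMap E F π)⁻¹ * (y - algebraMap E F (a₁ : E)) ∈ V₁)
    (hs : V₂.valuation (y - algebraMap E F (a₂ : E)) ^ (q - 1) =
      V₂.valuation (algebraMap E F π))
    (hy₃ : y ∈ V₃)
    (hy₃' : (algebraMap E F π)⁻¹ * (y ^ q - algebraMap E F (a₃ : E)) ∈ V₃)
    (hne : π⁻¹ * ((a₁ : E) - (a₂ : E)) ∉ Va)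
    (hpow : ∀ b ∈ Vb, π⁻¹ * (b ^ q - (a₃ : E)) ∉ Vb) :
    ek85_Data Va Vb π V₁ V₂ V₃ y (X - C a₁) (X - C a₂) (X ^ q - C a₃) (q - 1) ∧
      ek85_Adm Va Vb (X - C a₁) (X - C a₂) (X ^ q - C a₃) (q - 1) q := by
  have hq2 := hq.two_le
  have hπF0 : algebraMap E F π ≠ 0 := by
    intro h
    exact hπ₁ (by rw [h]; simp)
  have hπV₁ : algebraMap E F π ∈ V₁ := hV₁ _ hπa
  have hyV₁ : y ∈ V₁ := by
    have h1 : y = algebraMap E F π * ((algebraMap E F π)⁻¹ * (y - algebraMap E F (a₁ : E)))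
        + algebraMap E F (a₁ : E) := by field_simp; ring
    rw [h1]
    exact V₁.add_mem _ _ (V₁.mul_mem _ _ hπV₁ hy₁) (hV₁ _ a₁.2)
  -- the middle valuation
  have hvπ : V₂.valuation (algebraMap E F π) < 1 := tv2_val_lt_one_of_inv_notMem V₂ hπ₂
  have hvπ0 : V₂.valuation (algebraMap E F π) ≠ 0 := (Valuation.ne_zero_iff _).mpr hπF0
  have hvs : V₂.valuation (y - algebraMap E F (a₂ : E)) < 1 := by
    by_contra hge
    rw [not_lt] at hge
    have h1 : (1 : _) ≤ V₂.valuation (y - algebraMap E F (a₂ : E)) ^ (q - 1) := one_le_pow₀ hge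
    rw [hs] at h1
    exact absurd hvπ (not_lt.mpr h1)
  have hsV₂ : y - algebraMap E F (a₂ : E) ∈ V₂ :=
    (ValuationSubring.valuation_le_one_iff V₂ _).mp hvs.le
  have hyV₂ : y ∈ V₂ := by
    have h1 : y = (y - algebraMap E F (a₂ : E)) + algebraMap E F (a₂ : E) := by ring
    rw [h1]
    exact V₂.add_mem _ _ hsV₂ (hV₂ _ a₂.2)
  have hsq0 : (y - algebraMap E F (a₂ : E)) ^ (q - 1) ≠ 0 := by
    intro h0
    apply hvπ0
    rw [← hs, ← map_pow, h0, map_zero]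
  have hw : algebraMap E F π * ((y - algebraMap E F (a₂ : E)) ^ (q - 1))⁻¹ ∈ V₂ := by
    rw [← ValuationSubring.valuation_le_one_iff, map_mul, map_inv₀, map_pow, hs,
      mul_inv_cancel₀ hvπ0]
  have hmap₁ : (X - C a₁ : (↥Va)[X]).map (IsLocalRing.residue ↥Va)
      = X - C (IsLocalRing.residue ↥Va a₁) := by
    rw [Polynomial.map_sub, map_X, map_C]
  have hmap₂ : (X - C a₂ : (↥Va)[X]).map (IsLocalRing.residue ↥Va)
      = X - C (IsLocalRing.residue ↥Va a₂) := by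
    rw [Polynomial.map_sub, map_X, map_C]
  have hmap₃ : (X ^ q - C a₃ : (↥Vb)[X]).map (IsLocalRing.residue ↥Vb)
      = X ^ q - C (IsLocalRing.residue ↥Vb a₃) := by
    rw [Polynomial.map_sub, Polynomial.map_pow, map_X, map_C]
  have hnotpow : ∀ β : IsLocalRing.ResidueField ↥Vb, β ^ q ≠ IsLocalRing.residue ↥Vb a₃ := by
    intro β hβ
    obtain ⟨b, rfl⟩ := IsLocalRing.residue_surjective β
    have h1 : IsLocalRing.residue ↥Vb (b ^ q - a₃) = 0 := by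
      rw [map_sub, map_pow, hβ, sub_self]
    rw [IsLocalRing.residue_eq_zero_iff, IsLocalRing.mem_maximalIdeal] at h1
    exact hpow b b.2 (ek85_nonunit_dvd Vb π hmaxb (b ^ q - a₃) h1)
  have hres : IsLocalRing.residue ↥Va a₁ ≠ IsLocalRing.residue ↥Va a₂ := by
    intro heq
    have h1 : IsLocalRing.residue ↥Va (a₁ - a₂) = 0 := by
      rw [map_sub, heq, sub_self]
    rw [IsLocalRing.residue_eq_zero_iff, IsLocalRing.mem_maximalIdeal] at h1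
    exact hne (ek85_nonunit_dvd Va π hmaxa (a₁ - a₂) h1)
  have hdeg₁ : ((X - C a₁ : (↥Va)[X]).map (IsLocalRing.residue ↥Va)).natDegree = 1 := by
    rw [hmap₁, natDegree_X_sub_C]
  have hdeg₂ : ((X - C a₂ : (↥Va)[X]).map (IsLocalRing.residue ↥Va)).natDegree = 1 := by
    rw [hmap₂, natDegree_X_sub_C]
  have hdeg₃ : ((X ^ q - C a₃ : (↥Vb)[X]).map (IsLocalRing.residue ↥Vb)).natDegree = q := by
    rw [hmap₃, natDegree_X_pow_sub_C]
  refine ⟨⟨hπa, hπb, hmaxa, hmaxb, harcha, harchb, hV₁, hV₂, hV₃, hπ₁, hπ₂, hπ₃, hyV₁, hyV₂, hy₃,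
    ?_, ?_, ?_, ?_, ?_, ?_, ?_, ?_⟩, ?_, ?_⟩
  · rw [eval₂_sub, eval₂_X, eval₂_C]
    exact tv2_val_lt_one V₁ hπ₁ hy₁
  · rw [eval₂_sub, eval₂_X, eval₂_C]
    exact hvs
  · rw [eval₂_sub, eval₂_X_pow, eval₂_C]
    exact tv2_val_lt_one V₃ hπ₃ hy₃'
  · rw [hmap₁]; exact irreducible_X_sub_C _
  · rw [hmap₂]; exact irreducible_X_sub_C _
  · rw [hmap₃]; exact X_pow_sub_C_irreducible_of_prime hq hnotpow
  · intro hass
    rw [hmap₁, hmap₂] at hass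
    have h1 := eq_of_monic_of_associated (monic_X_sub_C _) (monic_X_sub_C _) hass
    have h2 : C (IsLocalRing.residue ↥Va a₁) = C (IsLocalRing.residue ↥Va a₂) :=
      sub_right_injective h1
    exact hres (C_injective h2)
  · refine ⟨algebraMap E F π * ((y - algebraMap E F (a₂ : E)) ^ (q - 1))⁻¹, hw, ?_⟩
    rw [eval₂_sub, eval₂_X, eval₂_C]
    simp only [tv2_incl, RingHom.comp_apply, ValuationSubring.subtype_apply]
    field_simp
  · rw [hdeg₁, hdeg₂]; omega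
  · rw [hdeg₃]

end ek85_kum

end Fermat.Agent.S36
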