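import Fermat.Agent.S36.ChartSq85
import Fermat.Agent.S36.EisKum85
import Fermat.Agent.S36.OnlyBindInert72

/-!
# S36 lab (helper85), row B1-W: (W) + (C) at level `M' q q` from the parameters of `ob72_ram`
and `obi72_inert`

Level `M' q q` (`q` prime, `q ∤ M'`), `y = j(Q^(q²))` (`fq85_y`), `V₁ = cm85_Vinf (M' q q)` the
Gauss valuation ring.  For ANY valuation subrings `V₂`, `V₃` of `F(M' q q)_K` with

* `V₂` over `V_∞ = cm85_Vinf (M' q)` along `α`, `π` a nonunit, and
  `v₂(y - J) ^ (q - 1) = v₂(π)` (the parameters `hV₂`, `hπ₂`, `hs` of `ob72_ram`, `s = y - J`);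
* `V₃` over `V_0 = s34i47c_V0 M' q` along `α`, `π` a nonunit, `y ∈ V₃`, `y ^ q ≡ α (β J)` modulo
  `π V₃` (the parameters of `obi72_inert`),

the ring `W = V₁ ⊓ V₂ ⊓ V₃` (literal `Subring` infimum) satisfies:

* `fq85_data`  : the Dedekind–Kummer data `ek85_Data` (power basis of `y`, length `q`);
* `fq85_WInt`  : `cm15_WInt` — every element of `W` is integral over the Gauss ring of level `M'`;
* `fq85_frame_level2/3` : `s34i47_WProps π W ∧ s34i47_ChartProps K π W h ∧ ∀ σ, σ h = h`.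

Inputs on main: `fs85_frob` (Frobenius congruence), `fs85_hpow`, `obi72_hnp` (not a `q`-th power),
`obi72_V0_dvr`, `ob72_finrank`.  All names are prefixed `fq85_`.
-/

set_option autoImplicit false
set_option linter.unusedSectionVars false
set_option linter.style.haveILetI false

open ModularCurve IntermediateField Polynomial

namespace Fermat.Agent.S36

open Fermat.Agent.S18 Fermat.Agent.S24 Fermat.Agent.S37 Fermat.Agent.S34

local notation "Q̄" => AlgebraicClosure ℚ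

/-- `y = j(Q^(q²))` as an element of `F(M' q q)_K`. -/
noncomputable def fq85_y (K : Type) [Field K] [CharZero K] (M' q : ℕ) [NeZero M'] [NeZero q] :
    ↥(modularFunctionFieldFullC K (M' * q * q)) :=
  al97L_beta K (M' * q) q (al97L_beta K M' q (relimc_J K M'))

section fq85

variable {R K : Type} [CommRing R] [IsDomain R] [IsDiscreteValuationRing R] [Field K] [CharZero K]
  [Algebra R K] [IsFractionRing R K] [Algebra K Q̄] (M' q : ℕ) [NeZero M'] [NeZero q]

/-- `β ∘ α = α ∘ β` on `F(M')`. -/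
theorem fq85_beta_alpha (x : ↥(modularFunctionFieldFullC K M')) :
    al97L_beta K (M' * q) q (al97L_alpha K M' q x) =
      al97L_alpha K (M' * q) q (al97L_beta K M' q x) := by
  apply Subtype.ext
  rw [al97L_beta_coe, al97L_alpha_coe, al97L_alpha_coe, al97L_beta_coe]

set_option maxHeartbeats 2000000 in
/-- **the Dedekind–Kummer data at level `M' q q`** from the parameters of `ob72_ram` /
`obi72_inert`. -/
theorem fq85_data (hq : q.Prime) (hM' : ¬ q ∣ M') {π : R} (hπ : Irreducible π)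
    (hqR : ¬ IsUnit (q : R))
    (V₂ V₃ : ValuationSubring ↥(modularFunctionFieldFullC K (M' * q * q)))
    (hV₂ : ∀ c ∈ cm85_Vinf (K := K) (M' * q) hπ, al97L_alpha K (M' * q) q c ∈ V₂)
    (hπ₂ : (algebraMap K ↥(modularFunctionFieldFullC K (M' * q * q)) (algebraMap R K π))⁻¹ ∉ V₂)
    (hs : V₂.valuation (fq85_y K M' q - al97L_alpha K (M' * q) q (relimc_J K (M' * q))) ^ (q - 1) =
      V₂.valuation (algebraMap K ↥(modularFunctionFieldFullC K (M' * q * q)) (algebraMap R K π)))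
    (hV₃ : ∀ c ∈ s34i47c_V0 (K := K) M' q hq hM' hπ, al97L_alpha K (M' * q) q c ∈ V₃)
    (hπ₃ : (algebraMap K ↥(modularFunctionFieldFullC K (M' * q * q)) (algebraMap R K π))⁻¹ ∉ V₃)
    (hy₃ : fq85_y K M' q ∈ V₃)
    (hya : (algebraMap K ↥(modularFunctionFieldFullC K (M' * q * q)) (algebraMap R K π))⁻¹ *
      (fq85_y K M' q ^ q - al97L_alpha K (M' * q) q (al97L_beta K M' q (relimc_J K M'))) ∈ V₃) :
    letI : Algebra ↥(modularFunctionFieldFullC K (M' * q))
        ↥(modularFunctionFieldFullC K (M' * q * q)) :=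
      (cm15_incl K (M' * q) (M' * q * q) (dvd_mul_right (M' * q) q)).toRingHom.toAlgebra
    ∃ (g₁ g₂ : (↥(cm85_Vinf (K := K) (M' * q) hπ))[X])
      (g₃ : (↥(s34i47c_V0 (K := K) M' q hq hM' hπ))[X]),
      ek85_Data (cm85_Vinf (K := K) (M' * q) hπ) (s34i47c_V0 (K := K) M' q hq hM' hπ)
        (algebraMap K ↥(modularFunctionFieldFullC K (M' * q)) (algebraMap R K π))
        (cm85_Vinf (K := K) (M' * q * q) hπ) V₂ V₃ (fq85_y K M' q) g₁ g₂ g₃ (q - 1) ∧
      ek85_Adm (cm85_Vinf (K := K) (M' * q) hπ) (s34i47c_V0 (K := K) M' q hq hM' hπ)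
        g₁ g₂ g₃ (q - 1) q := by
  letI alg : Algebra ↥(modularFunctionFieldFullC K (M' * q))
      ↥(modularFunctionFieldFullC K (M' * q * q)) :=
    (cm15_incl K (M' * q) (M' * q * q) (dvd_mul_right (M' * q) q)).toRingHom.toAlgebra
  have hπEF : algebraMap ↥(modularFunctionFieldFullC K (M' * q))
      ↥(modularFunctionFieldFullC K (M' * q * q))
      (algebraMap K ↥(modularFunctionFieldFullC K (M' * q)) (algebraMap R K π)) =
      algebraMap K ↥(modularFunctionFieldFullC K (M' * q * q)) (algebraMap R K π) :=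
    (cm15_incl K (M' * q) (M' * q * q) (dvd_mul_right (M' * q) q)).commutes _
  have hπVa : algebraMap K ↥(modularFunctionFieldFullC K (M' * q)) (algebraMap R K π) ∈
      cm85_Vinf (K := K) (M' * q) hπ :=
    gv85_mem_V_of_integral _ _ _ _ (HahnSeries.C π) (by rw [gv85_coe_algebraMap, gv85_coeffMap_C])
  have hmaxa : ∀ x ∈ cm85_Vinf (K := K) (M' * q) hπ, x⁻¹ ∉ cm85_Vinf (K := K) (M' * q) hπ →
      (algebraMap K ↥(modularFunctionFieldFullC K (M' * q)) (algebraMap R K π))⁻¹ * x ∈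
        cm85_Vinf (K := K) (M' * q) hπ := fun x hx hx' =>
    gv85_hmax (IsLocalRing.residue R) π (pk85_res_iff hπ) hπ.ne_zero _ _ x hx hx'
  have harcha := fs85_harch (K := K) (M' * q) hπ
  obtain ⟨d1, d2, d3, d4⟩ := obi72_V0_dvr (K := K) M' q hq hM' hπ
  have hV₁ : ∀ c ∈ cm85_Vinf (K := K) (M' * q) hπ,
      algebraMap ↥(modularFunctionFieldFullC K (M' * q))
        ↥(modularFunctionFieldFullC K (M' * q * q)) c ∈
        cm85_Vinf (K := K) (M' * q * q) hπ := fun c hc =>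
    (al97V_alpha_mem_Vinf (M' * q) q hπ c).mpr hc
  have hπ₁ : (algebraMap ↥(modularFunctionFieldFullC K (M' * q))
      ↥(modularFunctionFieldFullC K (M' * q * q))
      (algebraMap K ↥(modularFunctionFieldFullC K (M' * q)) (algebraMap R K π)))⁻¹ ∉
        cm85_Vinf (K := K) (M' * q * q) hπ := by
    rw [hπEF]
    exact gv85_pi_inv_not_mem (IsLocalRing.residue R) π (pk85_res_iff hπ) hπ.ne_zero _ _
  have hJV' : relimc_J K M' ∈ cm85_Vinf (K := K) M' hπ :=
    gv85_mem_V_of_integral _ _ _ _ (jqModC R) (by rw [relimc_J_coe, coeffMap_jqModC])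
  have hJVa : relimc_J K (M' * q) ∈ cm85_Vinf (K := K) (M' * q) hπ :=
    gv85_mem_V_of_integral _ _ _ _ (jqModC R) (by rw [relimc_J_coe, coeffMap_jqModC])
  have hJqVa : al97L_beta K M' q (relimc_J K M') ∈ cm85_Vinf (K := K) (M' * q) hπ :=
    (al97V_beta_mem_Vinf M' q hπ _).mpr hJV'
  have hJqVb : al97L_beta K M' q (relimc_J K M') ∈ s34i47c_V0 (K := K) M' q hq hM' hπ := by
    rw [s34i47c_mem_V0, al97L_w_beta_apply]
    have hJ : al97L_alpha K M' q (relimc_J K M') = relimc_J K (M' * q) := Subtype.ext rfl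
    rw [hJ]
    exact hJVa
  -- the Frobenius congruence on `V₁`
  have hy₁a : (algebraMap K ↥(modularFunctionFieldFullC K (M' * q * q)) (algebraMap R K π))⁻¹ *
      (fq85_y K M' q - al97L_alpha K (M' * q) q (al97L_beta K M' q (relimc_J K M') ^ q)) ∈
        cm85_Vinf (K := K) (M' * q * q) hπ := by
    have h1 := (al97V_beta_mem_Vinf (M' * q) q hπ _).mpr (fs85_frob (K := K) M' q hq hπ hqR)
    have h2 : al97L_beta K (M' * q) q
        ((algebraMap K ↥(modularFunctionFieldFullC K (M' * q)) (algebraMap R K π))⁻¹ *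
          (al97L_beta K M' q (relimc_J K M') - al97L_alpha K M' q (relimc_J K M' ^ q)))
        = (algebraMap K ↥(modularFunctionFieldFullC K (M' * q * q)) (algebraMap R K π))⁻¹ *
          (fq85_y K M' q -
            al97L_alpha K (M' * q) q (al97L_beta K M' q (relimc_J K M') ^ q)) := by
      have h3 : al97L_beta K M' q (relimc_J K M' ^ q) = al97L_beta K M' q (relimc_J K M') ^ q :=
        map_pow _ _ _
      rw [map_mul, map_inv₀, AlgHom.commutes, map_sub, fq85_beta_alpha, h3]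
      rfl
    rw [h2] at h1
    exact h1
  have hy₁ : (algebraMap ↥(modularFunctionFieldFullC K (M' * q))
      ↥(modularFunctionFieldFullC K (M' * q * q))
      (algebraMap K ↥(modularFunctionFieldFullC K (M' * q)) (algebraMap R K π)))⁻¹ *
      (fq85_y K M' q - algebraMap ↥(modularFunctionFieldFullC K (M' * q))
        ↥(modularFunctionFieldFullC K (M' * q * q))
        (al97L_beta K M' q (relimc_J K M') ^ q)) ∈ cm85_Vinf (K := K) (M' * q * q) hπ := by
    rw [hπEF]
    exact hy₁a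
  have hs' : V₂.valuation (fq85_y K M' q - algebraMap ↥(modularFunctionFieldFullC K (M' * q))
      ↥(modularFunctionFieldFullC K (M' * q * q)) (relimc_J K (M' * q))) ^ (q - 1) =
      V₂.valuation (algebraMap ↥(modularFunctionFieldFullC K (M' * q))
        ↥(modularFunctionFieldFullC K (M' * q * q))
        (algebraMap K ↥(modularFunctionFieldFullC K (M' * q)) (algebraMap R K π))) := by
    rw [hπEF]; exact hs
  have hya' : (algebraMap ↥(modularFunctionFieldFullC K (M' * q))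
      ↥(modularFunctionFieldFullC K (M' * q * q))
      (algebraMap K ↥(modularFunctionFieldFullC K (M' * q)) (algebraMap R K π)))⁻¹ *
      (fq85_y K M' q ^ q - algebraMap ↥(modularFunctionFieldFullC K (M' * q))
        ↥(modularFunctionFieldFullC K (M' * q * q)) (al97L_beta K M' q (relimc_J K M'))) ∈ V₃ := by
    rw [hπEF]; exact hya
  have hπ₂' : (algebraMap ↥(modularFunctionFieldFullC K (M' * q))
      ↥(modularFunctionFieldFullC K (M' * q * q))
      (algebraMap K ↥(modularFunctionFieldFullC K (M' * q)) (algebraMap R K π)))⁻¹ ∉ V₂ := by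
    rw [hπEF]; exact hπ₂
  have hπ₃' : (algebraMap ↥(modularFunctionFieldFullC K (M' * q))
      ↥(modularFunctionFieldFullC K (M' * q * q))
      (algebraMap K ↥(modularFunctionFieldFullC K (M' * q)) (algebraMap R K π)))⁻¹ ∉ V₃ := by
    rw [hπEF]; exact hπ₃
  have hV₂' : ∀ c ∈ cm85_Vinf (K := K) (M' * q) hπ,
      algebraMap ↥(modularFunctionFieldFullC K (M' * q))
        ↥(modularFunctionFieldFullC K (M' * q * q)) c ∈ V₂ := hV₂
  have hV₃' : ∀ c ∈ s34i47c_V0 (K := K) M' q hq hM' hπ,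
      algebraMap ↥(modularFunctionFieldFullC K (M' * q))
        ↥(modularFunctionFieldFullC K (M' * q * q)) c ∈ V₃ := hV₃
  have hne := fs85_hpow (K := K) (M' * q) hπ q hq.two_le _ hJqVa
  have hpow := fun b hb => obi72_hnp (K := K) M' q hq hM' hπ b hb
  have key := ek85_kummer (cm85_Vinf (K := K) (M' * q) hπ)
    (s34i47c_V0 (K := K) M' q hq hM' hπ)
    (algebraMap K ↥(modularFunctionFieldFullC K (M' * q)) (algebraMap R K π)) hπVa d1 hmaxa d3
    harcha d4 (cm85_Vinf (K := K) (M' * q * q) hπ) V₂ V₃ hV₁ hV₂' hV₃' hπ₁ hπ₂' hπ₃' q hq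
    (fq85_y K M' q)
    ⟨al97L_beta K M' q (relimc_J K M') ^ q, pow_mem hJqVa q⟩ ⟨relimc_J K (M' * q), hJVa⟩
    ⟨al97L_beta K M' q (relimc_J K M'), hJqVb⟩ hy₁ hs' hy₃ hya' hne hpow
  exact ⟨_, _, _, key⟩

set_option maxHeartbeats 2000000 in
/-- **(WInt) at level `M' q q`**: every element of `W = V₁ ⊓ V₂ ⊓ V₃` is integral over the Gauss
ring of the level `M'`. -/
theorem fq85_WInt (hq : q.Prime) (hM' : ¬ q ∣ M') {π : R} (hπ : Irreducible π)
    (hqR : ¬ IsUnit (q : R))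
    (V₂ V₃ : ValuationSubring ↥(modularFunctionFieldFullC K (M' * q * q)))
    (hV₂ : ∀ c ∈ cm85_Vinf (K := K) (M' * q) hπ, al97L_alpha K (M' * q) q c ∈ V₂)
    (hπ₂ : (algebraMap K ↥(modularFunctionFieldFullC K (M' * q * q)) (algebraMap R K π))⁻¹ ∉ V₂)
    (hs : V₂.valuation (fq85_y K M' q - al97L_alpha K (M' * q) q (relimc_J K (M' * q))) ^ (q - 1) =
      V₂.valuation (algebraMap K ↥(modularFunctionFieldFullC K (M' * q * q)) (algebraMap R K π)))
    (hV₃ : ∀ c ∈ s34i47c_V0 (K := K) M' q hq hM' hπ, al97L_alpha K (M' * q) q c ∈ V₃)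
    (hπ₃ : (algebraMap K ↥(modularFunctionFieldFullC K (M' * q * q)) (algebraMap R K π))⁻¹ ∉ V₃)
    (hy₃ : fq85_y K M' q ∈ V₃)
    (hya : (algebraMap K ↥(modularFunctionFieldFullC K (M' * q * q)) (algebraMap R K π))⁻¹ *
      (fq85_y K M' q ^ q - al97L_alpha K (M' * q) q (al97L_beta K M' q (relimc_J K M'))) ∈ V₃) :
    cm15_WInt R K M' (M' * q * q) ((dvd_mul_right M' q).trans (dvd_mul_right (M' * q) q)) hπ
      ((cm85_Vinf (K := K) (M' * q * q) hπ).toSubring ⊓ V₂.toSubring ⊓ V₃.toSubring) := by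
  obtain ⟨g₁, g₂, g₃, H, hn⟩ := fq85_data M' q hq hM' hπ hqR V₂ V₃ hV₂ hπ₂ hs hV₃ hπ₃ hy₃ hya
  exact wq85_WInt M' q hq hM' hπ hqR (M' * q * q) (dvd_mul_right (M' * q) q)
    (cm85_Vinf (K := K) (M' * q * q) hπ) V₂ V₃ (fq85_y K M' q) g₁ g₂ g₃ (q - 1) q hq.pos H hn
    (ob72_finrank K (M' * q) q hq (dvd_mul_left q M'))

set_option maxHeartbeats 2000000 in
/-- **(W) + (C) + `σ h = h` at level `M' q q`, Hauptmodul of level 2.** -/
theorem fq85_frame_level2 [Algebra.IsAlgebraic K Q̄]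
    [Algebra R ↥(modularFunctionFieldFullC K (M' * q * q))]
    [IsScalarTower R K ↥(modularFunctionFieldFullC K (M' * q * q))]
    (hq : q.Prime) (hM' : ¬ q ∣ M') {π : R} (hπ : Irreducible π)
    (hqR : ¬ IsUnit (q : R))
    (hMu : IsUnit (M' : R)) (h2 : 2 ∣ M')
    (V₂ V₃ : ValuationSubring ↥(modularFunctionFieldFullC K (M' * q * q)))
    (hV₂ : ∀ c ∈ cm85_Vinf (K := K) (M' * q) hπ, al97L_alpha K (M' * q) q c ∈ V₂)
    (hπ₂ : (algebraMap K ↥(modularFunctionFieldFullC K (M' * q * q)) (algebraMap R K π))⁻¹ ∉ V₂)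
    (hs : V₂.valuation (fq85_y K M' q - al97L_alpha K (M' * q) q (relimc_J K (M' * q))) ^ (q - 1) =
      V₂.valuation (algebraMap K ↥(modularFunctionFieldFullC K (M' * q * q)) (algebraMap R K π)))
    (hV₃ : ∀ c ∈ s34i47c_V0 (K := K) M' q hq hM' hπ, al97L_alpha K (M' * q) q c ∈ V₃)
    (hπ₃ : (algebraMap K ↥(modularFunctionFieldFullC K (M' * q * q)) (algebraMap R K π))⁻¹ ∉ V₃)
    (hy₃ : fq85_y K M' q ∈ V₃)
    (hya : (algebraMap K ↥(modularFunctionFieldFullC K (M' * q * q)) (algebraMap R K π))⁻¹ *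
      (fq85_y K M' q ^ q - al97L_alpha K (M' * q) q (al97L_beta K M' q (relimc_J K M'))) ∈ V₃) :
    s34i47_WProps π ((cm85_Vinf (K := K) (M' * q * q) hπ).toSubring ⊓ V₂.toSubring ⊓ V₃.toSubring) ∧
      s34i47_ChartProps K π ((cm85_Vinf (K := K) (M' * q * q) hπ).toSubring ⊓ V₂.toSubring ⊓ V₃.toSubring)
        (pk85_h2 K (M' * q * q)
          (h2.trans ((dvd_mul_right M' q).trans (dvd_mul_right (M' * q) q)))) ∧
      ∀ σ : K ≃+* K, s34i47_coeffEquiv σ (M' * q * q)
          (pk85_h2 K (M' * q * q)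
            (h2.trans ((dvd_mul_right M' q).trans (dvd_mul_right (M' * q) q)))) =
        pk85_h2 K (M' * q * q)
          (h2.trans ((dvd_mul_right M' q).trans (dvd_mul_right (M' * q) q))) := by
  obtain ⟨g₁, g₂, g₃, H, hn⟩ := fq85_data M' q hq hM' hπ hqR V₂ V₃ hV₂ hπ₂ hs hV₃ hπ₃ hy₃ hya
  exact cq85_frame_level2 M' q (M' * q * q) hq hM' hπ hqR hMu h2 (dvd_mul_right (M' * q) q)
    V₂ V₃ (fq85_y K M' q) g₁ g₂ g₃ (q - 1) q hq.pos H hn
    (ob72_finrank K (M' * q) q hq (dvd_mul_left q M'))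

set_option maxHeartbeats 2000000 in
/-- **(W) + (C) + `σ h = h` at level `M' q q`, Hauptmodul of level 3.** -/
theorem fq85_frame_level3 [Algebra.IsAlgebraic K Q̄]
    [Algebra R ↥(modularFunctionFieldFullC K (M' * q * q))]
    [IsScalarTower R K ↥(modularFunctionFieldFullC K (M' * q * q))]
    (hq : q.Prime) (hM' : ¬ q ∣ M') {π : R} (hπ : Irreducible π)
    (hqR : ¬ IsUnit (q : R))
    (hMu : IsUnit (M' : R)) (h3 : 3 ∣ M')
    (V₂ V₃ : ValuationSubring ↥(modularFunctionFieldFullC K (M' * q * q)))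
    (hV₂ : ∀ c ∈ cm85_Vinf (K := K) (M' * q) hπ, al97L_alpha K (M' * q) q c ∈ V₂)
    (hπ₂ : (algebraMap K ↥(modularFunctionFieldFullC K (M' * q * q)) (algebraMap R K π))⁻¹ ∉ V₂)
    (hs : V₂.valuation (fq85_y K M' q - al97L_alpha K (M' * q) q (relimc_J K (M' * q))) ^ (q - 1) =
      V₂.valuation (algebraMap K ↥(modularFunctionFieldFullC K (M' * q * q)) (algebraMap R K π)))
    (hV₃ : ∀ c ∈ s34i47c_V0 (K := K) M' q hq hM' hπ, al97L_alpha K (M' * q) q c ∈ V₃)
    (hπ₃ : (algebraMap K ↥(modularFunctionFieldFullC K (M' * q * q)) (algebraMap R K π))⁻¹ ∉ V₃)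
    (hy₃ : fq85_y K M' q ∈ V₃)
    (hya : (algebraMap K ↥(modularFunctionFieldFullC K (M' * q * q)) (algebraMap R K π))⁻¹ *
      (fq85_y K M' q ^ q - al97L_alpha K (M' * q) q (al97L_beta K M' q (relimc_J K M'))) ∈ V₃) :
    s34i47_WProps π ((cm85_Vinf (K := K) (M' * q * q) hπ).toSubring ⊓ V₂.toSubring ⊓ V₃.toSubring) ∧
      s34i47_ChartProps K π ((cm85_Vinf (K := K) (M' * q * q) hπ).toSubring ⊓ V₂.toSubring ⊓ V₃.toSubring)
        (pk85_h3 K (M' * q * q)
          (h3.trans ((dvd_mul_right M' q).trans (dvd_mul_right (M' * q) q)))) ∧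
      ∀ σ : K ≃+* K, s34i47_coeffEquiv σ (M' * q * q)
          (pk85_h3 K (M' * q * q)
            (h3.trans ((dvd_mul_right M' q).trans (dvd_mul_right (M' * q) q)))) =
        pk85_h3 K (M' * q * q)
          (h3.trans ((dvd_mul_right M' q).trans (dvd_mul_right (M' * q) q))) := by
  obtain ⟨g₁, g₂, g₃, H, hn⟩ := fq85_data M' q hq hM' hπ hqR V₂ V₃ hV₂ hπ₂ hs hV₃ hπ₃ hy₃ hya
  exact cq85_frame_level3 M' q (M' * q * q) hq hM' hπ hqR hMu h3 (dvd_mul_right (M' * q) q)
    V₂ V₃ (fq85_y K M' q) g₁ g₂ g₃ (q - 1) q hq.pos H hn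
    (ob72_finrank K (M' * q) q hq (dvd_mul_left q M'))

end fq85

end Fermat.Agent.S36
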