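import Mathlib
import Fermat.Agent.S36.C2Point47
import Fermat.Agent.S36.C2Den66
import Fermat.Agent.S36.C2Data42
import Fermat.Agent.S36.C2RegHalf75
import Fermat.Agent.S36.UnitJSmall65
import Fermat.Agent.S36.StrongAbs67
import Fermat.Agent.S36.FrameBind85
import Fermat.Agent.S36.FrameSq85
import Fermat.Agent.S36.V2Final64
import Fermat.Agent.S36.GateCofinal67

/-!
# S36 lab (helper47), row 600 (C-C2): THE FINAL `hreg` ON THE CANONICAL FRAME

At every closed point `n` of a canonical chart of level `M' q q` lying on the middle branch only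
at which `j` is regular, the middle branch is principal (`mc25_MidPrinAt`), at a strongly rigid
level (`s36c67_Rigid6`: `2 ∣ M' q` unless `q = 2`, `3 ∣ M' q` unless `q = 3`).

* `c2r47_prinAt` : `mc25_MidPrinAt` from the per-point data `c2p47_Data2` / `c2p47_Data3`
  (`C2Point47`) through the den-form composite `c2h66_prinAt` (helper66) and the field half
  `c2dt42_*` (helper42);
* `c2r47_j_unit` : `q ∈ {2, 3}`: `j` is a unit at every point of the middle branch off the third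
  branch where `j` is regular (`uj65_U_cong`, helper65 + `c2r75_unit_at`, helper75);
* `c2r47_chart` : the `hreg` clause on ANY integrally closed saturated chart, all `q`;
* **`c2r47_Reg2`, `c2r47_Reg3`** : LITERALLY the statements `s36i62j_Reg2`, `s36i62j_Reg3` of
  `MidBind62` (helper62), i.e. the two row-600 hypotheses of `s36i62j_top`.

All names are prefixed `c2r47_`.
-/

set_option autoImplicit false
set_option linter.unusedSectionVars false
set_option linter.unusedVariables false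
set_option linter.style.haveILetI false
set_option linter.style.longLine false

open ModularCurve AlgebraicCurve CongruenceSubgroup Polynomial

namespace Fermat.Agent.S36

open Fermat.Agent.S34 Fermat.Agent.S18 Fermat.Agent.S24 Fermat.Agent.S35
open Fermat.Agent.S36.TripleLoc71

local notation "Q̄" => AlgebraicClosure ℚ

section c2r47_chart

variable {R K : Type} [CommRing R] [IsDomain R] [IsDiscreteValuationRing R] [Field K] [CharZero K]
  [Algebra R K] [IsFractionRing R K] [Algebra K Q̄]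
  (M' q : ℕ) [NeZero M'] [NeZero q] (hq : q.Prime) (hM' : ¬ q ∣ M')
  [Algebra R ↥(modularFunctionFieldFullC K (M' * q))]
  [IsScalarTower R K ↥(modularFunctionFieldFullC K (M' * q))]
  [Algebra R ↥(modularFunctionFieldFullC K (M' * q * q))]
  [IsScalarTower R K ↥(modularFunctionFieldFullC K (M' * q * q))]

include hM' in
/-- **`mc25_MidPrinAt` from the per-point data** (`c2h66_prinAt` + `C2Data42`). -/
theorem c2r47_prinAt {π : R} (hπ : Irreducible π) (hqπ : Associated ((q : ℕ) : R) π)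
    (V₂ : ValuationSubring ↥(modularFunctionFieldFullC K (M' * q * q)))
    (hV₂ : ∀ c ∈ cm85_Vinf (K := K) (M' * q) hπ, al97L_alpha K (M' * q) q c ∈ V₂)
    (hπ₂ : (algebraMap K ↥(modularFunctionFieldFullC K (M' * q * q)) (algebraMap R K π))⁻¹ ∉ V₂)
    (hne : cm85_Vinf (K := K) (M' * q * q) hπ ≠ V₂)
    (s : ↥(modularFunctionFieldFullC K (M' * q * q)))
    (hs : V₂.valuation s ^ (q - 1) =
      V₂.valuation (algebraMap K ↥(modularFunctionFieldFullC K (M' * q * q)) (algebraMap R K π)))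
    (B : Subalgebra R ↥(modularFunctionFieldFullC K (M' * q * q)))
    (V₁ V₃ : Subring ↥(modularFunctionFieldFullC K (M' * q * q)))
    (hB₁ : ∀ y ∈ B, y ∈ V₁) (hB₂ : ∀ y ∈ B, y ∈ V₂.toSubring) (hB₃ : ∀ y ∈ B, y ∈ V₃)
    (hsat : ∀ y ∈ B,
      (algebraMap R ↥(modularFunctionFieldFullC K (M' * q * q)) π)⁻¹ * y ∈ V₁ →
      (algebraMap R ↥(modularFunctionFieldFullC K (M' * q * q)) π)⁻¹ * y ∈ V₂.toSubring →
      (algebraMap R ↥(modularFunctionFieldFullC K (M' * q * q)) π)⁻¹ * y ∈ V₃ →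
      (algebraMap R ↥(modularFunctionFieldFullC K (M' * q * q)) π)⁻¹ * y ∈ B)
    (n : Ideal B) [hn : n.IsPrime]
    (hmid : tl71_OnMid s B V₂.toSubring n)
    (h1 : ¬ sf79_OnBr π B V₁ n) (h3 : ¬ sf79_OnBr π B V₃ n)
    (hdata : (∃ h2 : 2 ∣ M', c2p47_Data2 (K := K) M' q hq h2 B n) ∨
      (∃ h3' : 3 ∣ M', c2p47_Data3 (K := K) M' q hq h3' B n)) :
    mc25_MidPrinAt s B V₂.toSubring n := by
  rcases hdata with ⟨h2, b, sB, ag, tg, hb, hsB, htg, hgn⟩ | ⟨h3', b, sB, ag, tg, hb, hsB, htg, hgn⟩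
  · exact c2h66_prinAt (algebraMap K Q̄) M' q hq hM' hπ hqπ V₂ hV₂ hπ₂ hne s hs B V₁ V₃
      hB₁ hB₂ hB₃ hsat n hmid h1 h3 (pk85_h2 K M' h2) (h70_h2 R) (c2dt42_h2_int K M' h2)
      (c2dt42_h2_theta R) b sB hb hsB (c2dt42_g2 K M' h2) (dq56b_U (K := K) M' q hq)
      (c2dt42_g2_theta K M' h2) rfl ag tg htg hgn
  · exact c2h66_prinAt (algebraMap K Q̄) M' q hq hM' hπ hqπ V₂ hV₂ hπ₂ hne s hs B V₁ V₃
      hB₁ hB₂ hB₃ hsat n hmid h1 h3 (pk85_h3 K M' h3') (h34_h3R R) (c2dt42_h3_int K M' h3')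
      (c2dt42_h3_theta R) b sB hb hsB (c2dt42_g3 K M' h3') (dq56b_U (K := K) M' q hq)
      (c2dt42_g3_theta K M' h3') rfl ag tg htg hgn

include hq hM' in
/-- **`q ∈ {2, 3}`: `j` is a unit at `n`** on the middle branch, off the third branch, where `j`
is regular (no condition on the denominator). -/
theorem c2r47_j_unit (h23 : q = 2 ∨ q = 3) (hπq : Irreducible ((q : ℕ) : R))
    (B : Subalgebra R ↥(modularFunctionFieldFullC K (M' * q * q)))
    (hBint : ∀ z : ↥(modularFunctionFieldFullC K (M' * q * q)), IsIntegral B z → z ∈ B)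
    (V₂ V₃ : ValuationSubring ↥(modularFunctionFieldFullC K (M' * q * q)))
    (hV₂ : ∀ c ∈ cm85_Vinf (K := K) (M' * q) hπq, al97L_alpha K (M' * q) q c ∈ V₂)
    (hB₁ : ∀ x ∈ B, x ∈ cm85_Vinf (K := K) (M' * q * q) hπq)
    (hB₂ : ∀ x ∈ B, x ∈ V₂) (hB₃ : ∀ x ∈ B, x ∈ V₃)
    (hsat : ∀ x ∈ B,
      (algebraMap R ↥(modularFunctionFieldFullC K (M' * q * q)) ((q : ℕ) : R))⁻¹ * x ∈
        cm85_Vinf (K := K) (M' * q * q) hπq →
      (algebraMap R ↥(modularFunctionFieldFullC K (M' * q * q)) ((q : ℕ) : R))⁻¹ * x ∈ V₂ →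
      (algebraMap R ↥(modularFunctionFieldFullC K (M' * q * q)) ((q : ℕ) : R))⁻¹ * x ∈ V₃ →
      (algebraMap R ↥(modularFunctionFieldFullC K (M' * q * q)) ((q : ℕ) : R))⁻¹ * x ∈ B)
    (n : Ideal B) [hn : n.IsPrime]
    (hOn₂ : ∀ x : B,
      (algebraMap R ↥(modularFunctionFieldFullC K (M' * q * q)) ((q : ℕ) : R))⁻¹ *
        (x : ↥(modularFunctionFieldFullC K (M' * q * q))) ∈ V₂ → x ∈ n)
    (h3 : ¬ sf79_OnBr ((q : ℕ) : R) B V₃.toSubring n)
    (hj : ∃ s' b : B, s' ∉ n ∧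
      (s' : ↥(modularFunctionFieldFullC K (M' * q * q))) * rm90_j K (M' * q * q) =
        (b : ↥(modularFunctionFieldFullC K (M' * q * q)))) :
    ∃ s' b : B, s' ∉ n ∧ b ∉ n ∧
      (s' : ↥(modularFunctionFieldFullC K (M' * q * q))) * rm90_j K (M' * q * q) =
        (b : ↥(modularFunctionFieldFullC K (M' * q * q))) := by
  have hcast : algebraMap R ↥(modularFunctionFieldFullC K (M' * q * q)) ((q : ℕ) : R) =
      (q : ↥(modularFunctionFieldFullC K (M' * q * q))) := map_natCast _ q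
  have hπ0 : algebraMap R ↥(modularFunctionFieldFullC K (M' * q * q)) ((q : ℕ) : R) ≠ 0 := by
    rw [hcast]
    exact usq75_natCast_ne_zero M' q
  have hUV : usq75_alphaU (K := K) M' q hq * usq75_alphaV (K := K) M' q hq hM' =
      algebraMap R ↥(modularFunctionFieldFullC K (M' * q * q)) ((q : ℕ) : R) ^ 12 := by
    rw [hcast]
    exact usq75_mul M' q hq hM'
  have hU₂ : (usq75_alphaU (K := K) M' q hq)⁻¹ ∈ V₂ := by
    unfold usq75_alphaU
    rw [← map_inv₀]
    exact hV₂ _ (dq56b_Uinv_mem_Vinf M' q hq hπq)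
  obtain ⟨t, U', ht, hU', hU'eq⟩ := c2r75_unit_at ((q : ℕ) : R) hπ0 B hBint
    (cm85_Vinf (K := K) (M' * q * q) hπq).toSubring V₂.toSubring V₃.toSubring hB₁ hB₂ hB₃ hsat n h3
    (rm90_j K (M' * q * q)) (usq75_alphaU (K := K) M' q hq) (usq75_alphaV (K := K) M' q hq hM')
    (usq75_U_integral M' q hq) (usq75_V_integral M' q hq hM') hUV
    (usq75_Uinv_mem_Vinf M' q hq hπq) hU₂ hj
  obtain ⟨s', b, hs', hsb⟩ := hj
  refine ⟨s', b, hs', ?_, hsb⟩
  -- the congruence at level `M' q`, pushed to `V₂`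
  have hc := uj65_U_cong (K := K) M' q hq h23 hπq hπq.not_isUnit (rm90_j K (M' * q)) rfl
  have hc2 := hV₂ _ hc
  have hαj : al97L_alpha K (M' * q) q (rm90_j K (M' * q)) = rm90_j K (M' * q * q) := by
    apply Subtype.ext
    rw [al97L_alpha_coe]
    rfl
  have hαπ : al97L_alpha K (M' * q) q
      (algebraMap K ↥(modularFunctionFieldFullC K (M' * q)) (algebraMap R K ((q : ℕ) : R))) =
      algebraMap R ↥(modularFunctionFieldFullC K (M' * q * q)) ((q : ℕ) : R) := by
    rw [IsScalarTower.algebraMap_apply R K ↥(modularFunctionFieldFullC K (M' * q * q))]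
    exact (al97L_alpha K (M' * q) q).commutes _
  rw [map_mul, map_inv₀, hαπ, map_sub, map_pow, hαj] at hc2
  have hX : s' ^ (q - 1) * U' - t * b ^ (q - 1) ∈ n := by
    apply hOn₂
    have e : (algebraMap R ↥(modularFunctionFieldFullC K (M' * q * q)) ((q : ℕ) : R))⁻¹ *
        ((s' ^ (q - 1) * U' - t * b ^ (q - 1) : B) :
          ↥(modularFunctionFieldFullC K (M' * q * q))) =
        ((t : ↥(modularFunctionFieldFullC K (M' * q * q))) *
          (s' : ↥(modularFunctionFieldFullC K (M' * q * q))) ^ (q - 1)) *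
        ((algebraMap R ↥(modularFunctionFieldFullC K (M' * q * q)) ((q : ℕ) : R))⁻¹ *
          (al97L_alpha K (M' * q) q (dq56b_U (K := K) M' q hq) -
            rm90_j K (M' * q * q) ^ (q - 1))) := by
      push_cast
      rw [hU'eq, ← hsb]
      unfold usq75_alphaU
      ring
    rw [e]
    exact mul_mem (mul_mem (hB₂ _ t.2) (pow_mem (hB₂ _ s'.2) _)) hc2
  intro hb
  have h1 : t * b ^ (q - 1) ∈ n := by
    obtain ⟨k, hk⟩ : ∃ k, q - 1 = k + 1 := ⟨q - 2, by rcases h23 with rfl | rfl <;> norm_num⟩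
    rw [hk, pow_succ]
    exact n.mul_mem_left _ (n.mul_mem_left _ hb)
  have h2 : s' ^ (q - 1) * U' ∈ n := by
    have e : s' ^ (q - 1) * U' = (s' ^ (q - 1) * U' - t * b ^ (q - 1)) + t * b ^ (q - 1) := by
      ring
    rw [e]
    exact n.add_mem hX h1
  rcases hn.mem_or_mem h2 with h | h
  · exact hs' (hn.mem_of_pow_mem _ h)
  · exact hU' h

include hq hM' in
/-- **The `hreg` clause on an integrally closed saturated chart of the canonical frame**, all
`q`, `π = q`. -/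
theorem c2r47_chart (hπ : Irreducible ((q : ℕ) : R))
    (hunit : ∀ k : ℕ, Nat.Coprime k q → IsUnit (k : R))
    (hl2 : q ≠ 2 → 2 ∣ M') (hl3 : q ≠ 3 → 3 ∣ M')
    (V₂ V₃ : ValuationSubring ↥(modularFunctionFieldFullC K (M' * q * q)))
    (hV₂ : ∀ c ∈ cm85_Vinf (K := K) (M' * q) hπ, al97L_alpha K (M' * q) q c ∈ V₂)
    (hπ₂ : (algebraMap K ↥(modularFunctionFieldFullC K (M' * q * q))
      (algebraMap R K ((q : ℕ) : R)))⁻¹ ∉ V₂)
    (hne : cm85_Vinf (K := K) (M' * q * q) hπ ≠ V₂)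
    (s : ↥(modularFunctionFieldFullC K (M' * q * q)))
    (hs : V₂.valuation s ^ (q - 1) =
      V₂.valuation (algebraMap K ↥(modularFunctionFieldFullC K (M' * q * q))
        (algebraMap R K ((q : ℕ) : R))))
    (B : Subalgebra R ↥(modularFunctionFieldFullC K (M' * q * q)))
    (hBint : ∀ z : ↥(modularFunctionFieldFullC K (M' * q * q)), IsIntegral B z → z ∈ B)
    (hB₁ : ∀ x ∈ B, x ∈ cm85_Vinf (K := K) (M' * q * q) hπ)
    (hB₂ : ∀ x ∈ B, x ∈ V₂) (hB₃ : ∀ x ∈ B, x ∈ V₃)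
    (hsat : ∀ x ∈ B,
      (algebraMap R ↥(modularFunctionFieldFullC K (M' * q * q)) ((q : ℕ) : R))⁻¹ * x ∈
        cm85_Vinf (K := K) (M' * q * q) hπ →
      (algebraMap R ↥(modularFunctionFieldFullC K (M' * q * q)) ((q : ℕ) : R))⁻¹ * x ∈ V₂ →
      (algebraMap R ↥(modularFunctionFieldFullC K (M' * q * q)) ((q : ℕ) : R))⁻¹ * x ∈ V₃ →
      (algebraMap R ↥(modularFunctionFieldFullC K (M' * q * q)) ((q : ℕ) : R))⁻¹ * x ∈ B)
    (n : Ideal B) (hn : n.IsMaximal) (hπn : algebraMap R B ((q : ℕ) : R) ∈ n)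
    (hmid : tl71_OnMid s B V₂.toSubring n)
    (h1 : ¬ sf79_OnBr ((q : ℕ) : R) B (cm85_Vinf (K := K) (M' * q * q) hπ).toSubring n)
    (h3 : ¬ sf79_OnBr ((q : ℕ) : R) B V₃.toSubring n)
    (hj : ∃ s' b : B, s' ∉ n ∧
      (s' : ↥(modularFunctionFieldFullC K (M' * q * q))) * rm90_j K (M' * q * q) =
        (b : ↥(modularFunctionFieldFullC K (M' * q * q)))) :
    mc25_MidPrinAt s B V₂.toSubring n := by
  haveI : n.IsPrime := hn.isPrime
  refine c2r47_prinAt M' q hq hM' hπ (Associated.refl _) V₂ hV₂ hπ₂ hne s hs B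
    (cm85_Vinf (K := K) (M' * q * q) hπ).toSubring V₃.toSubring hB₁ hB₂ hB₃ hsat n hmid h1 h3 ?_
  by_cases h23 : q = 2 ∨ q = 3
  · -- small residue characteristic: `j` is a unit at `n`
    have hπF : algebraMap R ↥(modularFunctionFieldFullC K (M' * q * q)) ((q : ℕ) : R) =
        algebraMap K ↥(modularFunctionFieldFullC K (M' * q * q)) (algebraMap R K ((q : ℕ) : R)) :=
      IsScalarTower.algebraMap_apply R K _ _
    have hπK0 : algebraMap K ↥(modularFunctionFieldFullC K (M' * q * q))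
        (algebraMap R K ((q : ℕ) : R)) ≠ 0 :=
      (_root_.map_ne_zero _).mpr ((map_ne_zero_iff _ (IsFractionRing.injective R K)).mpr hπ.ne_zero)
    have hq1 : q - 1 ≠ 0 := by have := hq.two_le; omega
    obtain ⟨hs0, hsV, -⟩ := c2h66_unif_basic V₂ s _ (q - 1) hq1 hπK0 hπ₂ hs
    have hvs0 : V₂.valuation s ≠ 0 := (Valuation.ne_zero_iff _).mpr hs0
    have hπs : algebraMap R ↥(modularFunctionFieldFullC K (M' * q * q)) ((q : ℕ) : R) * s⁻¹ ∈
        V₂ := by
      rw [hπF, ← V₂.valuation_le_one_iff, map_mul, map_inv₀, ← hs]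
      obtain ⟨k, hk⟩ : ∃ k, q - 1 = k + 1 := ⟨q - 2, by have := hq.two_le; omega⟩
      rw [hk, pow_succ, mul_inv_cancel_right₀ hvs0]
      exact pow_le_one₀ zero_le' ((V₂.valuation_le_one_iff _).mpr hsV)
    have hOn₂ : ∀ x : B,
        (algebraMap R ↥(modularFunctionFieldFullC K (M' * q * q)) ((q : ℕ) : R))⁻¹ *
          (x : ↥(modularFunctionFieldFullC K (M' * q * q))) ∈ V₂ → x ∈ n := by
      intro x hx
      apply hmid
      have e : (x : ↥(modularFunctionFieldFullC K (M' * q * q))) * s⁻¹ =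
          ((algebraMap R ↥(modularFunctionFieldFullC K (M' * q * q)) ((q : ℕ) : R))⁻¹ *
            (x : ↥(modularFunctionFieldFullC K (M' * q * q)))) *
          (algebraMap R ↥(modularFunctionFieldFullC K (M' * q * q)) ((q : ℕ) : R) * s⁻¹) := by
        rw [hπF]
        field_simp
      rw [e]
      exact mul_mem hx hπs
    obtain ⟨s', b, hs', hb, hsb⟩ := c2r47_j_unit M' q hq hM' h23 hπ B hBint V₂ V₃ hV₂ hB₁ hB₂ hB₃
      hsat n hOn₂ h3 hj
    rcases h23 with h2q | h3q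
    · have hq3 : q ≠ 3 := by omega
      have h3' : 3 ∣ M' := hl3 hq3
      have hu3 : IsUnit (3 : R) := by
        have := hunit 3 ((Nat.coprime_primes Nat.prime_three hq).mpr (Ne.symm hq3))
        simpa using this
      exact Or.inr ⟨h3', c2p47_point_three M' q hq hq3 hu3 h3' B hBint n hn ⟨s', b, hs', hb, hsb⟩⟩
    · have hq2 : q ≠ 2 := by omega
      have h2' : 2 ∣ M' := hl2 hq2
      have hu2 : IsUnit (2 : R) := by
        have := hunit 2 ((Nat.coprime_primes Nat.prime_two hq).mpr (Ne.symm hq2))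
        simpa using this
      have h3n : (3 : B) ∈ n := by
        have e0 : ((q : ℕ) : R) = 3 := by
          rw [h3q]
          norm_num
        have e : algebraMap R B ((q : ℕ) : R) = 3 := by
          rw [e0, map_ofNat]
        rwa [e] at hπn
      exact Or.inl ⟨h2', c2p47_point_two M' q hq hq2 hu2 h2' B hBint n hn h3n
        ⟨s', b, hs', hb, hsb⟩⟩
  · push_neg at h23
    obtain ⟨hq2, hq3⟩ := h23
    have h2' : 2 ∣ M' := hl2 hq2
    have h3' : 3 ∣ M' := hl3 hq3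
    have hu2 : IsUnit (2 : R) := by
      have := hunit 2 ((Nat.coprime_primes Nat.prime_two hq).mpr (Ne.symm hq2))
      simpa using this
    have hu3 : IsUnit (3 : R) := by
      have := hunit 3 ((Nat.coprime_primes Nat.prime_three hq).mpr (Ne.symm hq3))
      simpa using this
    rcases c2p47_point_big M' q hq hq2 hq3 hu2 hu3 h2' h3' B hBint n hn hj with h | h
    · exact Or.inl ⟨h2', h⟩
    · exact Or.inr ⟨h3', h⟩

end c2r47_chart

/-- **Row 600 on the canonical frame, Hauptmodul of level 2** = `s36i62j_Reg2` (`MidBind62`),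
literally. -/
theorem c2r47_Reg2 :
  ∀ (M' q r : ℕ) [NeZero M'] [NeZero q] (hq : q.Prime) (hM' : ¬ q ∣ M'),
    s36c67_Rigid6 (M' * q) q r → ∀ (h2 : 2 ∣ M'),
    ∀ (R K : Type) [CommRing R] [IsDomain R] [IsDiscreteValuationRing R] [Field K]
      [NumberField K] [Algebra K Q̄] [Algebra R K] [IsFractionRing R K]
      [Algebra R ↥(modularFunctionFieldFullC K (M' * q * q))]
      [IsScalarTower R K ↥(modularFunctionFieldFullC K (M' * q * q))]
      (hπ : Irreducible ((q : ℕ) : R)), (∀ k : ℕ, Nat.Coprime k q → IsUnit (k : R)) →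
      (∀ n : Ideal ↥(pk15_chart R ({pk85_h2 K (M' * q * q) (h2.trans ((dvd_mul_right M' q).trans (dvd_mul_right (M' * q) q)))} : Set ↥(modularFunctionFieldFullC K (M' * q * q)))), n.IsMaximal → algebraMap R ↥(pk15_chart R ({pk85_h2 K (M' * q * q) (h2.trans ((dvd_mul_right M' q).trans (dvd_mul_right (M' * q) q)))} : Set ↥(modularFunctionFieldFullC K (M' * q * q)))) ((q : ℕ) : R) ∈ n →
        tl71_OnMid (v2g64_s K M' q) (pk15_chart R ({pk85_h2 K (M' * q * q) (h2.trans ((dvd_mul_right M' q).trans (dvd_mul_right (M' * q) q)))} : Set ↥(modularFunctionFieldFullC K (M' * q * q)))) (v2g64_V2 (algebraMap K Q̄) M' q hq hM' hπ (Associated.refl _)).toSubring n →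
        ¬ sf79_OnBr ((q : ℕ) : R) (pk15_chart R ({pk85_h2 K (M' * q * q) (h2.trans ((dvd_mul_right M' q).trans (dvd_mul_right (M' * q) q)))} : Set ↥(modularFunctionFieldFullC K (M' * q * q)))) (cm85_Vinf (K := K) (M' * q * q) hπ).toSubring n →
        ¬ sf79_OnBr ((q : ℕ) : R) (pk15_chart R ({pk85_h2 K (M' * q * q) (h2.trans ((dvd_mul_right M' q).trans (dvd_mul_right (M' * q) q)))} : Set ↥(modularFunctionFieldFullC K (M' * q * q)))) (nsb86_V3 (K := K) M' q hq hM' hπ).toSubring n →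
        (∃ s' b : ↥(pk15_chart R ({pk85_h2 K (M' * q * q) (h2.trans ((dvd_mul_right M' q).trans (dvd_mul_right (M' * q) q)))} : Set ↥(modularFunctionFieldFullC K (M' * q * q)))), s' ∉ n ∧
          (s' : ↥(modularFunctionFieldFullC K (M' * q * q))) * rm90_j K (M' * q * q) = (b : ↥(modularFunctionFieldFullC K (M' * q * q)))) →
        mc25_MidPrinAt (v2g64_s K M' q) (pk15_chart R ({pk85_h2 K (M' * q * q) (h2.trans ((dvd_mul_right M' q).trans (dvd_mul_right (M' * q) q)))} : Set ↥(modularFunctionFieldFullC K (M' * q * q)))) (v2g64_V2 (algebraMap K Q̄) M' q hq hM' hπ (Associated.refl _)).toSubring n) ∧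
      (∀ n : Ideal ↥(pk15_chart R ({(pk85_h2 K (M' * q * q) (h2.trans ((dvd_mul_right M' q).trans (dvd_mul_right (M' * q) q))))⁻¹} : Set ↥(modularFunctionFieldFullC K (M' * q * q)))), n.IsMaximal → algebraMap R ↥(pk15_chart R ({(pk85_h2 K (M' * q * q) (h2.trans ((dvd_mul_right M' q).trans (dvd_mul_right (M' * q) q))))⁻¹} : Set ↥(modularFunctionFieldFullC K (M' * q * q)))) ((q : ℕ) : R) ∈ n →
        tl71_OnMid (v2g64_s K M' q) (pk15_chart R ({(pk85_h2 K (M' * q * q) (h2.trans ((dvd_mul_right M' q).trans (dvd_mul_right (M' * q) q))))⁻¹} : Set ↥(modularFunctionFieldFullC K (M' * q * q)))) (v2g64_V2 (algebraMap K Q̄) M' q hq hM' hπ (Associated.refl _)).toSubring n →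
        ¬ sf79_OnBr ((q : ℕ) : R) (pk15_chart R ({(pk85_h2 K (M' * q * q) (h2.trans ((dvd_mul_right M' q).trans (dvd_mul_right (M' * q) q))))⁻¹} : Set ↥(modularFunctionFieldFullC K (M' * q * q)))) (cm85_Vinf (K := K) (M' * q * q) hπ).toSubring n →
        ¬ sf79_OnBr ((q : ℕ) : R) (pk15_chart R ({(pk85_h2 K (M' * q * q) (h2.trans ((dvd_mul_right M' q).trans (dvd_mul_right (M' * q) q))))⁻¹} : Set ↥(modularFunctionFieldFullC K (M' * q * q)))) (nsb86_V3 (K := K) M' q hq hM' hπ).toSubring n →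
        (∃ s' b : ↥(pk15_chart R ({(pk85_h2 K (M' * q * q) (h2.trans ((dvd_mul_right M' q).trans (dvd_mul_right (M' * q) q))))⁻¹} : Set ↥(modularFunctionFieldFullC K (M' * q * q)))), s' ∉ n ∧
          (s' : ↥(modularFunctionFieldFullC K (M' * q * q))) * rm90_j K (M' * q * q) = (b : ↥(modularFunctionFieldFullC K (M' * q * q)))) →
        mc25_MidPrinAt (v2g64_s K M' q) (pk15_chart R ({(pk85_h2 K (M' * q * q) (h2.trans ((dvd_mul_right M' q).trans (dvd_mul_right (M' * q) q))))⁻¹} : Set ↥(modularFunctionFieldFullC K (M' * q * q)))) (v2g64_V2 (algebraMap K Q̄) M' q hq hM' hπ (Associated.refl _)).toSubring n) := by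
  intro M' q r _ _ hq hM' hrig h2 R K _ _ _ _ _ _ _ _ _ _ hπ hunit
  obtain ⟨-, hr3, -⟩ := hrig
  haveI : Algebra.IsAlgebraic K Q̄ := fs85_isAlgebraic K
  letI a1 : Algebra R ↥(modularFunctionFieldFullC K (M' * q)) :=
    ((algebraMap K ↥(modularFunctionFieldFullC K (M' * q))).comp (algebraMap R K)).toAlgebra
  haveI t1 : IsScalarTower R K ↥(modularFunctionFieldFullC K (M' * q)) :=
    IsScalarTower.of_algebraMap_eq (fun _ => rfl)
  have hqR : ¬ IsUnit ((q : ℕ) : R) := hπ.not_isUnit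
  have hMu : IsUnit ((M' : ℕ) : R) :=
    hunit M' (Nat.Coprime.symm ((Nat.Prime.coprime_iff_not_dvd hq).mpr hM'))
  have hV₂ := v2g64_V2_alpha (algebraMap K Q̄) M' q hq hM' hπ (Associated.refl _)
  have hπ₂ := v2g64_V2_pi (algebraMap K Q̄) M' q hq hM' hπ (Associated.refl _)
  have hne := v2g64_V2_ne (algebraMap K Q̄) M' q hq hM' hπ (Associated.refl _)
  have hs := v2g64_V2_val (algebraMap K Q̄) M' q hq hM' hπ (Associated.refl _)
  obtain ⟨hW, hC, -⟩ := fb85_frameV3_level2 M' q hq hM' hπ hqR hMu h2 _ hV₂ hπ₂ hs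
  obtain ⟨hF1, hF2⟩ := sc67_chart_facts hπ _ _ _ _
    (⟨hW, hC⟩ : ci57x_HF K ((q : ℕ) : R) _ _ _ _)
  have hl2 : q ≠ 2 → 2 ∣ M' := fun _ => h2
  have hl3 : q ≠ 3 → 3 ∣ M' := by
    intro hq3
    rcases (Nat.Prime.dvd_mul Nat.prime_three).mp (hr3 hq3) with h | h
    · exact h
    · exact absurd ((Nat.prime_dvd_prime_iff_eq Nat.prime_three hq).mp h).symm hq3
  constructor
  · intro n hn hπn hmid h1 h3 hj
    obtain ⟨hB₁, hB₂, hB₃, hsat, -, -, -⟩ := hF1
    exact c2r47_chart M' q hq hM' hπ hunit hl2 hl3 _ _ hV₂ hπ₂ hne _ hs _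
      (uv17_chart_intClosed _) hB₁ hB₂ hB₃ hsat n hn hπn hmid h1 h3 hj
  · intro n hn hπn hmid h1 h3 hj
    obtain ⟨hB₁, hB₂, hB₃, hsat, -, -, -⟩ := hF2
    exact c2r47_chart M' q hq hM' hπ hunit hl2 hl3 _ _ hV₂ hπ₂ hne _ hs _
      (uv17_chart_intClosed _) hB₁ hB₂ hB₃ hsat n hn hπn hmid h1 h3 hj

/-- **Row 600 on the canonical frame, Hauptmodul of level 3** (`q = 2`) = `s36i62j_Reg3`
(`MidBind62`), literally. -/
theorem c2r47_Reg3 :
  ∀ (M' q r : ℕ) [NeZero M'] [NeZero q] (hq : q.Prime) (hM' : ¬ q ∣ M'),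
    s36c67_Rigid6 (M' * q) q r → q = 2 → ∀ (h3 : 3 ∣ M'),
    ∀ (R K : Type) [CommRing R] [IsDomain R] [IsDiscreteValuationRing R] [Field K]
      [NumberField K] [Algebra K Q̄] [Algebra R K] [IsFractionRing R K]
      [Algebra R ↥(modularFunctionFieldFullC K (M' * q * q))]
      [IsScalarTower R K ↥(modularFunctionFieldFullC K (M' * q * q))]
      (hπ : Irreducible ((q : ℕ) : R)), (∀ k : ℕ, Nat.Coprime k q → IsUnit (k : R)) →
      (∀ n : Ideal ↥(pk15_chart R ({pk85_h3 K (M' * q * q) (h3.trans ((dvd_mul_right M' q).trans (dvd_mul_right (M' * q) q)))} : Set ↥(modularFunctionFieldFullC K (M' * q * q)))), n.IsMaximal → algebraMap R ↥(pk15_chart R ({pk85_h3 K (M' * q * q) (h3.trans ((dvd_mul_right M' q).trans (dvd_mul_right (M' * q) q)))} : Set ↥(modularFunctionFieldFullC K (M' * q * q)))) ((q : ℕ) : R) ∈ n →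
        tl71_OnMid (v2g64_s K M' q) (pk15_chart R ({pk85_h3 K (M' * q * q) (h3.trans ((dvd_mul_right M' q).trans (dvd_mul_right (M' * q) q)))} : Set ↥(modularFunctionFieldFullC K (M' * q * q)))) (v2g64_V2 (algebraMap K Q̄) M' q hq hM' hπ (Associated.refl _)).toSubring n →
        ¬ sf79_OnBr ((q : ℕ) : R) (pk15_chart R ({pk85_h3 K (M' * q * q) (h3.trans ((dvd_mul_right M' q).trans (dvd_mul_right (M' * q) q)))} : Set ↥(modularFunctionFieldFullC K (M' * q * q)))) (cm85_Vinf (K := K) (M' * q * q) hπ).toSubring n →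
        ¬ sf79_OnBr ((q : ℕ) : R) (pk15_chart R ({pk85_h3 K (M' * q * q) (h3.trans ((dvd_mul_right M' q).trans (dvd_mul_right (M' * q) q)))} : Set ↥(modularFunctionFieldFullC K (M' * q * q)))) (nsb86_V3 (K := K) M' q hq hM' hπ).toSubring n →
        (∃ s' b : ↥(pk15_chart R ({pk85_h3 K (M' * q * q) (h3.trans ((dvd_mul_right M' q).trans (dvd_mul_right (M' * q) q)))} : Set ↥(modularFunctionFieldFullC K (M' * q * q)))), s' ∉ n ∧
          (s' : ↥(modularFunctionFieldFullC K (M' * q * q))) * rm90_j K (M' * q * q) = (b : ↥(modularFunctionFieldFullC K (M' * q * q)))) →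
        mc25_MidPrinAt (v2g64_s K M' q) (pk15_chart R ({pk85_h3 K (M' * q * q) (h3.trans ((dvd_mul_right M' q).trans (dvd_mul_right (M' * q) q)))} : Set ↥(modularFunctionFieldFullC K (M' * q * q)))) (v2g64_V2 (algebraMap K Q̄) M' q hq hM' hπ (Associated.refl _)).toSubring n) ∧
      (∀ n : Ideal ↥(pk15_chart R ({(pk85_h3 K (M' * q * q) (h3.trans ((dvd_mul_right M' q).trans (dvd_mul_right (M' * q) q))))⁻¹} : Set ↥(modularFunctionFieldFullC K (M' * q * q)))), n.IsMaximal → algebraMap R ↥(pk15_chart R ({(pk85_h3 K (M' * q * q) (h3.trans ((dvd_mul_right M' q).trans (dvd_mul_right (M' * q) q))))⁻¹} : Set ↥(modularFunctionFieldFullC K (M' * q * q)))) ((q : ℕ) : R) ∈ n →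
        tl71_OnMid (v2g64_s K M' q) (pk15_chart R ({(pk85_h3 K (M' * q * q) (h3.trans ((dvd_mul_right M' q).trans (dvd_mul_right (M' * q) q))))⁻¹} : Set ↥(modularFunctionFieldFullC K (M' * q * q)))) (v2g64_V2 (algebraMap K Q̄) M' q hq hM' hπ (Associated.refl _)).toSubring n →
        ¬ sf79_OnBr ((q : ℕ) : R) (pk15_chart R ({(pk85_h3 K (M' * q * q) (h3.trans ((dvd_mul_right M' q).trans (dvd_mul_right (M' * q) q))))⁻¹} : Set ↥(modularFunctionFieldFullC K (M' * q * q)))) (cm85_Vinf (K := K) (M' * q * q) hπ).toSubring n →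
        ¬ sf79_OnBr ((q : ℕ) : R) (pk15_chart R ({(pk85_h3 K (M' * q * q) (h3.trans ((dvd_mul_right M' q).trans (dvd_mul_right (M' * q) q))))⁻¹} : Set ↥(modularFunctionFieldFullC K (M' * q * q)))) (nsb86_V3 (K := K) M' q hq hM' hπ).toSubring n →
        (∃ s' b : ↥(pk15_chart R ({(pk85_h3 K (M' * q * q) (h3.trans ((dvd_mul_right M' q).trans (dvd_mul_right (M' * q) q))))⁻¹} : Set ↥(modularFunctionFieldFullC K (M' * q * q)))), s' ∉ n ∧
          (s' : ↥(modularFunctionFieldFullC K (M' * q * q))) * rm90_j K (M' * q * q) = (b : ↥(modularFunctionFieldFullC K (M' * q * q)))) →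
        mc25_MidPrinAt (v2g64_s K M' q) (pk15_chart R ({(pk85_h3 K (M' * q * q) (h3.trans ((dvd_mul_right M' q).trans (dvd_mul_right (M' * q) q))))⁻¹} : Set ↥(modularFunctionFieldFullC K (M' * q * q)))) (v2g64_V2 (algebraMap K Q̄) M' q hq hM' hπ (Associated.refl _)).toSubring n) := by
  intro M' q r _ _ hq hM' hrig hq2 h3 R K _ _ _ _ _ _ _ _ _ _ hπ hunit
  haveI : Algebra.IsAlgebraic K Q̄ := fs85_isAlgebraic K
  letI a1 : Algebra R ↥(modularFunctionFieldFullC K (M' * q)) :=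
    ((algebraMap K ↥(modularFunctionFieldFullC K (M' * q))).comp (algebraMap R K)).toAlgebra
  haveI t1 : IsScalarTower R K ↥(modularFunctionFieldFullC K (M' * q)) :=
    IsScalarTower.of_algebraMap_eq (fun _ => rfl)
  have hqR : ¬ IsUnit ((q : ℕ) : R) := hπ.not_isUnit
  have hMu : IsUnit ((M' : ℕ) : R) :=
    hunit M' (Nat.Coprime.symm ((Nat.Prime.coprime_iff_not_dvd hq).mpr hM'))
  have hV₂ := v2g64_V2_alpha (algebraMap K Q̄) M' q hq hM' hπ (Associated.refl _)
  have hπ₂ := v2g64_V2_pi (algebraMap K Q̄) M' q hq hM' hπ (Associated.refl _)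
  have hne := v2g64_V2_ne (algebraMap K Q̄) M' q hq hM' hπ (Associated.refl _)
  have hs := v2g64_V2_val (algebraMap K Q̄) M' q hq hM' hπ (Associated.refl _)
  obtain ⟨hW, hC, -⟩ := fb85_frameV3_level3 M' q hq hM' hπ hqR hMu h3 _ hV₂ hπ₂ hs
  obtain ⟨hF1, hF2⟩ := sc67_chart_facts hπ _ _ _ _
    (⟨hW, hC⟩ : ci57x_HF K ((q : ℕ) : R) _ _ _ _)
  have hl2 : q ≠ 2 → 2 ∣ M' := fun h => absurd hq2 h
  have hl3 : q ≠ 3 → 3 ∣ M' := fun _ => h3
  constructor
  · intro n hn hπn hmid h1 h3' hj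
    obtain ⟨hB₁, hB₂, hB₃, hsat, -, -, -⟩ := hF1
    exact c2r47_chart M' q hq hM' hπ hunit hl2 hl3 _ _ hV₂ hπ₂ hne _ hs _
      (uv17_chart_intClosed _) hB₁ hB₂ hB₃ hsat n hn hπn hmid h1 h3' hj
  · intro n hn hπn hmid h1 h3' hj
    obtain ⟨hB₁, hB₂, hB₃, hsat, -, -, -⟩ := hF2
    exact c2r47_chart M' q hq hM' hπ hunit hl2 hl3 _ _ hV₂ hπ₂ hne _ hs _
      (uv17_chart_intClosed _) hB₁ hB₂ hB₃ hsat n hn hπn hmid h1 h3' hj

end Fermat.Agent.S36
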