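import Fermat.Agent.S36.MidBind62
import Fermat.Agent.S36.C2Final11
import Fermat.Agent.S36.C2JUnit88

/-!
# S36 lab, row 600 C-C2 (helper90): the closed statement `s36i62j_Reg2`

`c2r90_Reg2 : s36i62j_Reg2` (`MidBind62`, helper62) = the middle branch is principal
(`mc25_MidPrinAt`) at every `j`-regular closed point of the two canonical charts of the
Hauptmodul of level 2 (level `M' q q`, `π = q`, `V₂ = v2g64_V2`) lying on the middle branch only.

Thin binder: helper11's chart-generic `c2f11_hreg_gen` (`C2Final11`) with the chart element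
`sc = H²` on the chart `{H}` and `sc = H⁻¹` on the chart `{H⁻¹}` (`H = pk85_h2 K (M' q q)`;
helper88's `c2j88_not_mem2`, `c2j88_not_mem2_inv`, `c2j88_h2_mem_Vinf`), the frame facts of
`fb85_frameV3_level2` as in `s36i62j_mid_level2`, and `3 ∣ M'` for `q ≠ 3` from `s36c67_Rigid6`.

With `mid2x55_Reg3 : s36i62j_Reg3` (helper55) and `s36i62m_top` (`TopReg62`, helper62) this
gives the frozen statement.

* `c2r90_gen`, `c2r90_gen_inv` : chart-generic forms (any integrally closed saturated chart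
  containing `H`, resp. `H⁻¹`).
* `c2r90_Reg2 : s36i62j_Reg2`.

All names are prefixed `c2r90_`.
-/

set_option autoImplicit false
set_option linter.unusedSectionVars false
set_option linter.style.longLine false
set_option linter.unusedVariables false

open ModularCurve IntermediateField

namespace Fermat.Agent.S36

open Fermat.Agent.S18 Fermat.Agent.S24 Fermat.Agent.S28 Fermat.Agent.S37 Fermat.Agent.S34
open Fermat.Agent.S35 Fermat.Agent.S36.TripleLoc71

local notation "Q̄" => AlgebraicClosure ℚ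

section c2r90_canon

variable {R K : Type} [CommRing R] [IsDomain R] [IsDiscreteValuationRing R] [Field K] [CharZero K]
  [Algebra R K] [IsFractionRing R K] [Algebra K Q̄]
  (M' q : ℕ) [NeZero M'] [NeZero q] (hq : q.Prime) (hM' : ¬ q ∣ M')
  [Algebra R ↥(modularFunctionFieldFullC K M')]
  [IsScalarTower R K ↥(modularFunctionFieldFullC K M')]
  [Algebra R ↥(modularFunctionFieldFullC K (M' * q))]
  [IsScalarTower R K ↥(modularFunctionFieldFullC K (M' * q))]
  [Algebra R ↥(modularFunctionFieldFullC K (M' * q * q))]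
  [IsScalarTower R K ↥(modularFunctionFieldFullC K (M' * q * q))]

include hq hM' in
/-- **Row 600, any chart containing the Hauptmodul `H` of level 2.** -/
theorem c2r90_gen (hunit : ∀ m : ℕ, Nat.Coprime m q → IsUnit (m : R))
    (h2 : 2 ∣ M') (h2N : 2 ∣ M' * q * q) (h3M : q ≠ 3 → 3 ∣ M')
    (hπq : Irreducible ((q : ℕ) : R))
    (V₂ V₃ : ValuationSubring ↥(modularFunctionFieldFullC K (M' * q * q)))
    (hV₂ : ∀ c ∈ cm85_Vinf (K := K) (M' * q) hπq, al97L_alpha K (M' * q) q c ∈ V₂)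
    (hπ₂ : (algebraMap K ↥(modularFunctionFieldFullC K (M' * q * q))
      (algebraMap R K ((q : ℕ) : R)))⁻¹ ∉ V₂)
    (hne : cm85_Vinf (K := K) (M' * q * q) hπq ≠ V₂)
    (s : ↥(modularFunctionFieldFullC K (M' * q * q)))
    (hs : V₂.valuation s ^ (q - 1) =
      V₂.valuation (algebraMap K ↥(modularFunctionFieldFullC K (M' * q * q))
        (algebraMap R K ((q : ℕ) : R))))
    (B : Subalgebra R ↥(modularFunctionFieldFullC K (M' * q * q)))
    (hBint : ∀ z : ↥(modularFunctionFieldFullC K (M' * q * q)), IsIntegral B z → z ∈ B)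
    (hB₁ : ∀ y ∈ B, y ∈ (cm85_Vinf (K := K) (M' * q * q) hπq).toSubring)
    (hB₂ : ∀ y ∈ B, y ∈ V₂.toSubring) (hB₃ : ∀ y ∈ B, y ∈ V₃.toSubring)
    (hsat : ∀ y ∈ B,
      (algebraMap R ↥(modularFunctionFieldFullC K (M' * q * q)) ((q : ℕ) : R))⁻¹ * y ∈
        (cm85_Vinf (K := K) (M' * q * q) hπq).toSubring →
      (algebraMap R ↥(modularFunctionFieldFullC K (M' * q * q)) ((q : ℕ) : R))⁻¹ * y ∈
        V₂.toSubring →
      (algebraMap R ↥(modularFunctionFieldFullC K (M' * q * q)) ((q : ℕ) : R))⁻¹ * y ∈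
        V₃.toSubring →
      (algebraMap R ↥(modularFunctionFieldFullC K (M' * q * q)) ((q : ℕ) : R))⁻¹ * y ∈ B)
    (n : Ideal B) [hn : n.IsPrime]
    (hmid : tl71_OnMid s B V₂.toSubring n)
    (hπn : algebraMap R B ((q : ℕ) : R) ∈ n)
    (h1 : ¬ sf79_OnBr ((q : ℕ) : R) B (cm85_Vinf (K := K) (M' * q * q) hπq).toSubring n)
    (h3 : ¬ sf79_OnBr ((q : ℕ) : R) B V₃.toSubring n)
    (hreg : ∃ s' b' : B, s' ∉ n ∧
      (s' : ↥(modularFunctionFieldFullC K (M' * q * q))) * rm90_j K (M' * q * q) =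
        (b' : ↥(modularFunctionFieldFullC K (M' * q * q))))
    (hH : pk85_h2 K (M' * q * q) h2N ∈ B) :
    mc25_MidPrinAt s B V₂.toSubring n := by
  have hqp : q ≠ 2 := by
    intro h
    apply hM'
    rw [h]
    exact h2
  have hpu : IsUnit ((2 : ℕ) : R) :=
    hunit 2 ((Nat.coprime_primes Nat.prime_two hq).mpr (Ne.symm hqp))
  have h2u : IsUnit (2 : R) := by
    simpa using hpu
  obtain ⟨s', b', hs', hb'⟩ := hreg
  have hrel := pk85_h2_rel K (M' * q * q) h2N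
  obtain ⟨hv1, hv1'⟩ := c2j88_h2_mem_Vinf (R := R) (K := K) (M' * q * q) hπq h2N
  have ht : (⟨_, hH⟩ : B) ∉ n :=
    c2j88_not_mem2 B n (rm90_j K (M' * q * q)) ⟨_, hH⟩ hrel h2u s' b' hs' hb'
  refine c2f11_hreg_gen (R := R) (K := K) M' q hq hM' hunit (fun _ => h2) h3M hπq V₂ V₃ hV₂ hπ₂
    hne s hs B hBint hB₁ hB₂ hB₃ hsat n hmid hπn h1 h3 ⟨s', b', hs', hb'⟩
    ((⟨_, hH⟩ : B) ^ 2) (fun h => ht (hn.mem_of_pow_mem _ h)) ?_ ?_
  · have e : pk85_h2 K (M' * q * q) h2N ^ 2 * rm90_j K (M' * q * q) =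
        (pk85_h2 K (M' * q * q) h2N + 256) ^ 3 := (mul_comm _ _).trans hrel
    show pk85_h2 K (M' * q * q) h2N ^ 2 * rm90_j K (M' * q * q) ∈ B
    rw [e]
    exact pow_mem (add_mem hH (ofNat_mem _ 256)) 3
  · show (pk85_h2 K (M' * q * q) h2N ^ 2)⁻¹ ∈ cm85_Vinf (K := K) (M' * q * q) hπq
    rw [← inv_pow]
    exact pow_mem hv1' 2

include hq hM' in
/-- **Row 600, any chart containing the inverse `H⁻¹` of the Hauptmodul of level 2.** -/
theorem c2r90_gen_inv (hunit : ∀ m : ℕ, Nat.Coprime m q → IsUnit (m : R))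
    (h2 : 2 ∣ M') (h2N : 2 ∣ M' * q * q) (h3M : q ≠ 3 → 3 ∣ M')
    (hπq : Irreducible ((q : ℕ) : R))
    (V₂ V₃ : ValuationSubring ↥(modularFunctionFieldFullC K (M' * q * q)))
    (hV₂ : ∀ c ∈ cm85_Vinf (K := K) (M' * q) hπq, al97L_alpha K (M' * q) q c ∈ V₂)
    (hπ₂ : (algebraMap K ↥(modularFunctionFieldFullC K (M' * q * q))
      (algebraMap R K ((q : ℕ) : R)))⁻¹ ∉ V₂)
    (hne : cm85_Vinf (K := K) (M' * q * q) hπq ≠ V₂)
    (s : ↥(modularFunctionFieldFullC K (M' * q * q)))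
    (hs : V₂.valuation s ^ (q - 1) =
      V₂.valuation (algebraMap K ↥(modularFunctionFieldFullC K (M' * q * q))
        (algebraMap R K ((q : ℕ) : R))))
    (B : Subalgebra R ↥(modularFunctionFieldFullC K (M' * q * q)))
    (hBint : ∀ z : ↥(modularFunctionFieldFullC K (M' * q * q)), IsIntegral B z → z ∈ B)
    (hB₁ : ∀ y ∈ B, y ∈ (cm85_Vinf (K := K) (M' * q * q) hπq).toSubring)
    (hB₂ : ∀ y ∈ B, y ∈ V₂.toSubring) (hB₃ : ∀ y ∈ B, y ∈ V₃.toSubring)
    (hsat : ∀ y ∈ B,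
      (algebraMap R ↥(modularFunctionFieldFullC K (M' * q * q)) ((q : ℕ) : R))⁻¹ * y ∈
        (cm85_Vinf (K := K) (M' * q * q) hπq).toSubring →
      (algebraMap R ↥(modularFunctionFieldFullC K (M' * q * q)) ((q : ℕ) : R))⁻¹ * y ∈
        V₂.toSubring →
      (algebraMap R ↥(modularFunctionFieldFullC K (M' * q * q)) ((q : ℕ) : R))⁻¹ * y ∈
        V₃.toSubring →
      (algebraMap R ↥(modularFunctionFieldFullC K (M' * q * q)) ((q : ℕ) : R))⁻¹ * y ∈ B)
    (n : Ideal B) [hn : n.IsPrime]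
    (hmid : tl71_OnMid s B V₂.toSubring n)
    (hπn : algebraMap R B ((q : ℕ) : R) ∈ n)
    (h1 : ¬ sf79_OnBr ((q : ℕ) : R) B (cm85_Vinf (K := K) (M' * q * q) hπq).toSubring n)
    (h3 : ¬ sf79_OnBr ((q : ℕ) : R) B V₃.toSubring n)
    (hreg : ∃ s' b' : B, s' ∉ n ∧
      (s' : ↥(modularFunctionFieldFullC K (M' * q * q))) * rm90_j K (M' * q * q) =
        (b' : ↥(modularFunctionFieldFullC K (M' * q * q))))
    (hH : (pk85_h2 K (M' * q * q) h2N)⁻¹ ∈ B) :
    mc25_MidPrinAt s B V₂.toSubring n := by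
  obtain ⟨s', b', hs', hb'⟩ := hreg
  have hrel := pk85_h2_rel K (M' * q * q) h2N
  obtain ⟨hv1, hv1'⟩ := c2j88_h2_mem_Vinf (R := R) (K := K) (M' * q * q) hπq h2N
  have hh0 : pk85_h2 K (M' * q * q) h2N ≠ 0 :=
    fun h0 => pk85_h2_transcendental K (M' * q * q) _ (by rw [h0]; exact isAlgebraic_zero)
  have hrel' : rm90_j K (M' * q * q) * (pk85_h2 K (M' * q * q) h2N)⁻¹ =
      (1 + 256 * (pk85_h2 K (M' * q * q) h2N)⁻¹) ^ 3 := by
    have hj : rm90_j K (M' * q * q) =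
        (pk85_h2 K (M' * q * q) h2N + 256) ^ 3 / pk85_h2 K (M' * q * q) h2N ^ 2 := by
      rw [eq_div_iff (pow_ne_zero 2 hh0)]
      exact hrel
    rw [hj]
    field_simp
  have ht : (⟨_, hH⟩ : B) ∉ n :=
    c2j88_not_mem2_inv B n (rm90_j K (M' * q * q)) ⟨_, hH⟩ hrel' s' b' hs' hb'
  refine c2f11_hreg_gen (R := R) (K := K) M' q hq hM' hunit (fun _ => h2) h3M hπq V₂ V₃ hV₂ hπ₂
    hne s hs B hBint hB₁ hB₂ hB₃ hsat n hmid hπn h1 h3 ⟨s', b', hs', hb'⟩
    (⟨_, hH⟩ : B) ht ?_ ?_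
  · have e : (pk85_h2 K (M' * q * q) h2N)⁻¹ * rm90_j K (M' * q * q) =
        (1 + 256 * (pk85_h2 K (M' * q * q) h2N)⁻¹) ^ 3 := (mul_comm _ _).trans hrel'
    show (pk85_h2 K (M' * q * q) h2N)⁻¹ * rm90_j K (M' * q * q) ∈ B
    rw [e]
    exact pow_mem (add_mem (one_mem _) (mul_mem (ofNat_mem _ 256) hH)) 3
  · show ((pk85_h2 K (M' * q * q) h2N)⁻¹)⁻¹ ∈ cm85_Vinf (K := K) (M' * q * q) hπq
    rw [inv_inv]
    exact hv1

end c2r90_canon

/-- **Row 600 on the canonical frame, Hauptmodul of level 2: `s36i62j_Reg2` is a theorem.** -/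
theorem c2r90_Reg2 : s36i62j_Reg2 := by
  intro M' q r _ _ hq hM' hrig h2 R K _ _ _ _ _ _ _ _ _ _ hπ hunit
  haveI : Algebra.IsAlgebraic K Q̄ := fs85_isAlgebraic K
  letI a0 : Algebra R ↥(modularFunctionFieldFullC K M') :=
    ((algebraMap K ↥(modularFunctionFieldFullC K M')).comp (algebraMap R K)).toAlgebra
  haveI t0 : IsScalarTower R K ↥(modularFunctionFieldFullC K M') :=
    IsScalarTower.of_algebraMap_eq (fun _ => rfl)
  letI a1 : Algebra R ↥(modularFunctionFieldFullC K (M' * q)) :=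
    ((algebraMap K ↥(modularFunctionFieldFullC K (M' * q))).comp (algebraMap R K)).toAlgebra
  haveI t1 : IsScalarTower R K ↥(modularFunctionFieldFullC K (M' * q)) :=
    IsScalarTower.of_algebraMap_eq (fun _ => rfl)
  have hqR : ¬ IsUnit ((q : ℕ) : R) := hπ.not_isUnit
  have hMu : IsUnit ((M' : ℕ) : R) :=
    hunit M' (Nat.Coprime.symm ((Nat.Prime.coprime_iff_not_dvd hq).mpr hM'))
  have h3M : q ≠ 3 → 3 ∣ M' := by
    intro hq3
    obtain ⟨-, h3N, -⟩ := hrig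
    exact (Nat.Coprime.dvd_mul_right
      ((Nat.coprime_primes Nat.prime_three hq).mpr (Ne.symm hq3))).mp (h3N hq3)
  have hV₂ := v2g64_V2_alpha (algebraMap K Q̄) M' q hq hM' hπ (Associated.refl _)
  have hπ₂ := v2g64_V2_pi (algebraMap K Q̄) M' q hq hM' hπ (Associated.refl _)
  have hne := v2g64_V2_ne (algebraMap K Q̄) M' q hq hM' hπ (Associated.refl _)
  have hs := v2g64_V2_val (algebraMap K Q̄) M' q hq hM' hπ (Associated.refl _)
  obtain ⟨-, hC, -⟩ := fb85_frameV3_level2 M' q hq hM' hπ hqR hMu h2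
    (v2g64_V2 (algebraMap K Q̄) M' q hq hM' hπ (Associated.refl _)) hV₂ hπ₂ hs
  obtain ⟨-, h12W, hsat1, hsat2, -⟩ := hC
  have hsub1 : ({pk85_h2 K (M' * q * q) (h2.trans ((dvd_mul_right M' q).trans (dvd_mul_right (M' * q) q)))} : Set ↥(modularFunctionFieldFullC K (M' * q * q))) ⊆
      {pk85_h2 K (M' * q * q) (h2.trans ((dvd_mul_right M' q).trans (dvd_mul_right (M' * q) q))), (pk85_h2 K (M' * q * q) (h2.trans ((dvd_mul_right M' q).trans (dvd_mul_right (M' * q) q))))⁻¹} := by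
    intro x hx
    rw [Set.mem_singleton_iff.mp hx]
    exact Set.mem_insert _ _
  have hsub2 : ({(pk85_h2 K (M' * q * q) (h2.trans ((dvd_mul_right M' q).trans (dvd_mul_right (M' * q) q))))⁻¹} : Set ↥(modularFunctionFieldFullC K (M' * q * q))) ⊆
      {pk85_h2 K (M' * q * q) (h2.trans ((dvd_mul_right M' q).trans (dvd_mul_right (M' * q) q))), (pk85_h2 K (M' * q * q) (h2.trans ((dvd_mul_right M' q).trans (dvd_mul_right (M' * q) q))))⁻¹} := by
    intro x hx
    rw [Set.mem_singleton_iff.mp hx]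
    exact Set.mem_insert_of_mem _ rfl
  have hBW1 : ∀ x ∈ (pk15_chart R ({pk85_h2 K (M' * q * q) (h2.trans ((dvd_mul_right M' q).trans (dvd_mul_right (M' * q) q)))} : Set ↥(modularFunctionFieldFullC K (M' * q * q)))), x ∈ (cm85_Vinf (K := K) (M' * q * q) hπ).toSubring ⊓ (v2g64_V2 (algebraMap K Q̄) M' q hq hM' hπ (Associated.refl _)).toSubring ⊓ (nsb86_V3 (K := K) M' q hq hM' hπ).toSubring :=
    fun x hx => h12W x (pk15_chart_mono hsub1 hx)
  have hBW2 : ∀ x ∈ (pk15_chart R ({(pk85_h2 K (M' * q * q) (h2.trans ((dvd_mul_right M' q).trans (dvd_mul_right (M' * q) q))))⁻¹} : Set ↥(modularFunctionFieldFullC K (M' * q * q)))), x ∈ (cm85_Vinf (K := K) (M' * q * q) hπ).toSubring ⊓ (v2g64_V2 (algebraMap K Q̄) M' q hq hM' hπ (Associated.refl _)).toSubring ⊓ (nsb86_V3 (K := K) M' q hq hM' hπ).toSubring :=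
    fun x hx => h12W x (pk15_chart_mono hsub2 hx)
  refine ⟨fun n hn hπn hmid hn1 hn3 hreg => ?_, fun n hn hπn hmid hn1 hn3 hreg => ?_⟩
  · haveI := hn.isPrime
    exact c2r90_gen (R := R) (K := K) M' q hq hM' hunit h2 _ h3M hπ
      (v2g64_V2 (algebraMap K Q̄) M' q hq hM' hπ (Associated.refl _))
      (nsb86_V3 (K := K) M' q hq hM' hπ) hV₂ hπ₂ hne (v2g64_s K M' q) hs _
      (fun z hz => uv17_chart_intClosed _ z hz)
      (fun x hx => (Subring.mem_inf.mp (Subring.mem_inf.mp (hBW1 x hx)).1).1)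
      (fun x hx => (Subring.mem_inf.mp (Subring.mem_inf.mp (hBW1 x hx)).1).2)
      (fun x hx => (Subring.mem_inf.mp (hBW1 x hx)).2)
      (fun x hx h1 h2 h3 => hsat1 x hx (Subring.mem_inf.mpr ⟨Subring.mem_inf.mpr ⟨h1, h2⟩, h3⟩))
      n hmid hπn hn1 hn3 hreg (pk15_subset_chart _ (Set.mem_singleton _))
  · haveI := hn.isPrime
    exact c2r90_gen_inv (R := R) (K := K) M' q hq hM' hunit h2 _ h3M hπ
      (v2g64_V2 (algebraMap K Q̄) M' q hq hM' hπ (Associated.refl _))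
      (nsb86_V3 (K := K) M' q hq hM' hπ) hV₂ hπ₂ hne (v2g64_s K M' q) hs _
      (fun z hz => uv17_chart_intClosed _ z hz)
      (fun x hx => (Subring.mem_inf.mp (Subring.mem_inf.mp (hBW2 x hx)).1).1)
      (fun x hx => (Subring.mem_inf.mp (Subring.mem_inf.mp (hBW2 x hx)).1).2)
      (fun x hx => (Subring.mem_inf.mp (hBW2 x hx)).2)
      (fun x hx h1 h2 h3 => hsat2 x hx (Subring.mem_inf.mpr ⟨Subring.mem_inf.mpr ⟨h1, h2⟩, h3⟩))
      n hmid hπn hn1 hn3 hreg (pk15_subset_chart _ (Set.mem_singleton _))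

end Fermat.Agent.S36
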