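import Fermat.Agent.S36.C2RegHalf75
import Fermat.Agent.S36.UnitAtSq75
import Fermat.Agent.S36.UnitJSmall65

/-!
# S36 lab, row 600 C-C2 (helper75): `α^* U` and (for `q = 2, 3`) `j` are units of `B_n`, on the
canonical frame of level `M' q q`, in the LITERAL hypotheses of `hreg` / `s36i62j_Reg2/3`

`B` ANY integrally closed subalgebra of `F_K(M' q q)` (all four canonical charts) contained in
`V₁ = cm85_Vinf (M' q q)`, `V₂` (any valuation subring with fact 1 of `v2e46_exists`,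
`al97L_alpha` form), `V₃` (any subring), saturated; `n` a prime of `B` with
`h3 : ¬ sf79_OnBr π B V₃ n` and `hjreg : ∃ s' b : B, s' ∉ n ∧ s' * rm90_j = b`.

* `c2rc75_alphaU` : `∃ t U' : B, t ∉ n ∧ U' ∉ n ∧ U' = t * usq75_alphaU M' q hq`
  (chart-generic: NO Hauptmodul, NO unit condition on the denominator of `j`);
* `c2rc75_j_unit` : `q ∈ {2, 3}`, `n` on the middle branch (`hmid`, `σ` with `q σ⁻¹ ∈ V₂`):
  `∀ s' b' : B, s' ∉ n → s' * rm90_j = b' → b' ∉ n` (`j` is a unit of `B_n`).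

All names are prefixed `c2rc75_`.
-/

set_option autoImplicit false
set_option linter.unusedSectionVars false

open ModularCurve AlgebraicCurve

namespace Fermat.Agent.S36

open Fermat.Agent.S18 Fermat.Agent.S28 Fermat.Agent.S34

local notation "Q̄" => AlgebraicClosure ℚ

section Canon

variable {R K : Type} [CommRing R] [IsDomain R] [IsDiscreteValuationRing R] [Field K] [CharZero K]
  [Algebra R K] [IsFractionRing R K] [Algebra K Q̄]
  (M' q : ℕ) [NeZero M'] [NeZero q] (hq : q.Prime) (hM' : ¬ q ∣ M')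
  [Algebra R ↥(modularFunctionFieldFullC K (M' * q * q))]
  [IsScalarTower R K ↥(modularFunctionFieldFullC K (M' * q * q))]
  [Algebra R ↥(modularFunctionFieldFullC K (M' * q))]
  [IsScalarTower R K ↥(modularFunctionFieldFullC K (M' * q))]

include hM' in
/-- **`α^* U` is a unit of `B_n`** (literal `hreg` hypotheses, chart-generic). -/
theorem c2rc75_alphaU (hπq : Irreducible ((q : ℕ) : R))
    (B : Subalgebra R ↥(modularFunctionFieldFullC K (M' * q * q)))
    (hBint : ∀ z : ↥(modularFunctionFieldFullC K (M' * q * q)), IsIntegral B z → z ∈ B)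
    (V₂ : ValuationSubring ↥(modularFunctionFieldFullC K (M' * q * q)))
    (V₃ : Subring ↥(modularFunctionFieldFullC K (M' * q * q)))
    (hV₂ : ∀ c ∈ cm85_Vinf (K := K) (M' * q) hπq, al97L_alpha K (M' * q) q c ∈ V₂)
    (hB₁ : ∀ x ∈ B, x ∈ (cm85_Vinf (K := K) (M' * q * q) hπq).toSubring)
    (hB₂ : ∀ x ∈ B, x ∈ V₂.toSubring) (hB₃ : ∀ x ∈ B, x ∈ V₃)
    (hsat : ∀ x ∈ B,
      (algebraMap R ↥(modularFunctionFieldFullC K (M' * q * q)) ((q : ℕ) : R))⁻¹ * x ∈
        (cm85_Vinf (K := K) (M' * q * q) hπq).toSubring →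
      (algebraMap R ↥(modularFunctionFieldFullC K (M' * q * q)) ((q : ℕ) : R))⁻¹ * x ∈
        V₂.toSubring →
      (algebraMap R ↥(modularFunctionFieldFullC K (M' * q * q)) ((q : ℕ) : R))⁻¹ * x ∈ V₃ →
      (algebraMap R ↥(modularFunctionFieldFullC K (M' * q * q)) ((q : ℕ) : R))⁻¹ * x ∈ B)
    (n : Ideal B) [hn : n.IsPrime]
    (h3 : ¬ sf79_OnBr ((q : ℕ) : R) B V₃ n)
    (hjreg : ∃ s' b : B, s' ∉ n ∧
      (s' : ↥(modularFunctionFieldFullC K (M' * q * q))) * rm90_j K (M' * q * q) =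
        (b : ↥(modularFunctionFieldFullC K (M' * q * q)))) :
    ∃ t U' : B, t ∉ n ∧ U' ∉ n ∧
      (U' : ↥(modularFunctionFieldFullC K (M' * q * q))) =
        (t : ↥(modularFunctionFieldFullC K (M' * q * q))) * usq75_alphaU (K := K) M' q hq := by
  have hcast : algebraMap R ↥(modularFunctionFieldFullC K (M' * q * q)) ((q : ℕ) : R) =
      (q : ↥(modularFunctionFieldFullC K (M' * q * q))) := map_natCast _ q
  have hπ0 : algebraMap R ↥(modularFunctionFieldFullC K (M' * q * q)) ((q : ℕ) : R) ≠ 0 := by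
    rw [hcast]
    exact usq75_natCast_ne_zero M' q
  have hUV : usq75_alphaU (K := K) M' q hq * usq75_alphaV (K := K) M' q hq hM' =
      algebraMap R ↥(modularFunctionFieldFullC K (M' * q * q)) ((q : ℕ) : R) ^ 12 := by
    rw [hcast]
    exact usq75_mul M' q hq hM'
  have hU₂ : (usq75_alphaU (K := K) M' q hq)⁻¹ ∈ V₂.toSubring := by
    unfold usq75_alphaU
    rw [← map_inv₀]
    exact hV₂ _ (dq56b_Uinv_mem_Vinf M' q hq hπq)
  exact c2r75_unit_at ((q : ℕ) : R) hπ0 B hBint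
    (cm85_Vinf (K := K) (M' * q * q) hπq).toSubring V₂.toSubring V₃ hB₁ hB₂ hB₃ hsat n h3
    (rm90_j K (M' * q * q)) (usq75_alphaU (K := K) M' q hq) (usq75_alphaV (K := K) M' q hq hM')
    (usq75_U_integral M' q hq) (usq75_V_integral M' q hq hM') hUV
    (usq75_Uinv_mem_Vinf M' q hq hπq) hU₂ hjreg

include hq hM' in
/-- **`q ∈ {2, 3}`: `j` is a unit of `B_n`** at every prime of the middle branch off the third
branch where `j` is regular (literal `hreg` hypotheses, chart-generic). -/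
theorem c2rc75_j_unit (h23 : q = 2 ∨ q = 3) (hπq : Irreducible ((q : ℕ) : R))
    (B : Subalgebra R ↥(modularFunctionFieldFullC K (M' * q * q)))
    (hBint : ∀ z : ↥(modularFunctionFieldFullC K (M' * q * q)), IsIntegral B z → z ∈ B)
    (V₂ : ValuationSubring ↥(modularFunctionFieldFullC K (M' * q * q)))
    (V₃ : Subring ↥(modularFunctionFieldFullC K (M' * q * q)))
    (hV₂ : ∀ c ∈ cm85_Vinf (K := K) (M' * q) hπq, al97L_alpha K (M' * q) q c ∈ V₂)
    (hB₁ : ∀ x ∈ B, x ∈ (cm85_Vinf (K := K) (M' * q * q) hπq).toSubring)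
    (hB₂ : ∀ x ∈ B, x ∈ V₂.toSubring) (hB₃ : ∀ x ∈ B, x ∈ V₃)
    (hsat : ∀ x ∈ B,
      (algebraMap R ↥(modularFunctionFieldFullC K (M' * q * q)) ((q : ℕ) : R))⁻¹ * x ∈
        (cm85_Vinf (K := K) (M' * q * q) hπq).toSubring →
      (algebraMap R ↥(modularFunctionFieldFullC K (M' * q * q)) ((q : ℕ) : R))⁻¹ * x ∈
        V₂.toSubring →
      (algebraMap R ↥(modularFunctionFieldFullC K (M' * q * q)) ((q : ℕ) : R))⁻¹ * x ∈ V₃ →
      (algebraMap R ↥(modularFunctionFieldFullC K (M' * q * q)) ((q : ℕ) : R))⁻¹ * x ∈ B)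
    (n : Ideal B) [hn : n.IsPrime]
    (σ : ↥(modularFunctionFieldFullC K (M' * q * q)))
    (hqσ : (q : ↥(modularFunctionFieldFullC K (M' * q * q))) * σ⁻¹ ∈ V₂)
    (hmid : ∀ x : B, (x : ↥(modularFunctionFieldFullC K (M' * q * q))) * σ⁻¹ ∈ V₂ → x ∈ n)
    (h3 : ¬ sf79_OnBr ((q : ℕ) : R) B V₃ n)
    (hjreg : ∃ s' b : B, s' ∉ n ∧
      (s' : ↥(modularFunctionFieldFullC K (M' * q * q))) * rm90_j K (M' * q * q) =
        (b : ↥(modularFunctionFieldFullC K (M' * q * q)))) :
    ∀ s' b' : B, s' ∉ n →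
      (s' : ↥(modularFunctionFieldFullC K (M' * q * q))) * rm90_j K (M' * q * q) =
        (b' : ↥(modularFunctionFieldFullC K (M' * q * q))) → b' ∉ n := by
  obtain ⟨t, U', ht, hU', hU'eq⟩ := c2rc75_alphaU M' q hq hM' hπq B hBint V₂ V₃ hV₂
    hB₁ hB₂ hB₃ hsat n h3 hjreg
  have hcast : algebraMap R ↥(modularFunctionFieldFullC K (M' * q * q)) ((q : ℕ) : R) =
      (q : ↥(modularFunctionFieldFullC K (M' * q * q))) := map_natCast _ q
  have hq0 : (q : ↥(modularFunctionFieldFullC K (M' * q * q))) ≠ 0 :=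
    usq75_natCast_ne_zero M' q
  -- the congruence at level `M' q`, pushed to `V₂`
  have hc := uj65_U_cong (K := K) M' q hq h23 hπq hπq.not_isUnit (rm90_j K (M' * q)) rfl
  have hc2 := hV₂ _ hc
  have hαj : al97L_alpha K (M' * q) q (rm90_j K (M' * q)) = rm90_j K (M' * q * q) := by
    apply Subtype.ext
    rw [al97L_alpha_coe]
    rfl
  have hαπ : al97L_alpha K (M' * q) q
      (algebraMap K ↥(modularFunctionFieldFullC K (M' * q)) (algebraMap R K ((q : ℕ) : R))) =
      (q : ↥(modularFunctionFieldFullC K (M' * q * q))) := by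
    rw [← hcast, IsScalarTower.algebraMap_apply R K ↥(modularFunctionFieldFullC K (M' * q * q))]
    exact (al97L_alpha K (M' * q) q).commutes _
  rw [map_mul, map_inv₀, hαπ, map_sub, map_pow, hαj] at hc2
  intro s' b' hs' hsb hb'
  have hq1 : 1 ≤ q - 1 := by rcases h23 with rfl | rfl <;> norm_num
  have hX : s' ^ (q - 1) * U' - t * b' ^ (q - 1) ∈ n := by
    apply hmid
    have e : ((s' ^ (q - 1) * U' - t * b' ^ (q - 1) : B) :
          ↥(modularFunctionFieldFullC K (M' * q * q))) * σ⁻¹ =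
        ((t : ↥(modularFunctionFieldFullC K (M' * q * q))) *
          (s' : ↥(modularFunctionFieldFullC K (M' * q * q))) ^ (q - 1)) *
        (((q : ↥(modularFunctionFieldFullC K (M' * q * q))))⁻¹ *
          (al97L_alpha K (M' * q) q (dq56b_U (K := K) M' q hq) -
            rm90_j K (M' * q * q) ^ (q - 1))) *
        ((q : ↥(modularFunctionFieldFullC K (M' * q * q))) * σ⁻¹) := by
      push_cast
      rw [hU'eq, ← hsb, mul_pow]
      unfold usq75_alphaU
      field_simp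
    rw [e]
    exact mul_mem (mul_mem (mul_mem (hB₂ _ t.2) (pow_mem (hB₂ _ s'.2) _)) hc2) hqσ
  have h1 : t * b' ^ (q - 1) ∈ n := by
    obtain ⟨k, hk⟩ : ∃ k, q - 1 = k + 1 := ⟨q - 2, by omega⟩
    rw [hk, pow_succ]
    exact n.mul_mem_left _ (n.mul_mem_left _ hb')
  have h2 : s' ^ (q - 1) * U' ∈ n := by
    have e : s' ^ (q - 1) * U' =
        (s' ^ (q - 1) * U' - t * b' ^ (q - 1)) + t * b' ^ (q - 1) := by ring
    rw [e]
    exact n.add_mem hX h1
  rcases hn.mem_or_mem h2 with h | h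
  · exact hs' (hn.mem_of_pow_mem _ h)
  · exact hU' h

end Canon

end Fermat.Agent.S36
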