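import Fermat.Agent.S36.C2FieldInst3_31
import Fermat.Agent.S36.C2NoChart25
import Fermat.Agent.S34.UVIntegral75

/-!
S36 lab, registry row 600 (C-C2), concrete binding: (A) field side [helper31, `C2FieldInst31`,
`C2FieldInst3_31`] composed with (B) chart side + case split [helper25, `C2NoChart25`].

* `c2i31_jdata_ms` : `c2i31_jdata` with `Φ.Monic` and `swap Φ = Φ ∨ swap Φ = -Φ` exposed
  (request of helper25; the `Φ` of `mps78_modEq`).
* `c2i31_hJt_two/three` : the Hauptmodul relation at `q τ` (`J * t2² = (t2 + 256)³`, resp.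
  `J * t2³ = (t2 + 27)(t2 + 243)³`).
* `c2i31_h6_two/three` : the sixth-power identity of `wt` with `uF = α₂ U`.
* `c2i31_reg_two/three` : **`mc25_MidPrinAt (v2g64_s K M' q) B V₂ n` at a `j`-regular `C₂`-only
  point with NO chart data**: inputs = the frame (`V₂` any with the four `ob72_ram` facts, `B` any
  integrally closed saturated chart), `π ∈ n`, `hmid`, `h1`, `h3`, `s' * rm90_j ∈ B` with
  `s' ∉ n`, and the unit condition `2 ∉ n`, `¬ sf79_nmem B n (t1 + 64)` (resp. `3 ∉ n`,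
  `¬ sf79_nmem B n (t1 + 27)`), `t1 = α₂ α₁ (pk85_h2 K M' h2)` (resp. `pk85_h3`).

All names are prefixed `c2i31_`.
-/

set_option autoImplicit false
set_option linter.unusedSectionVars false
set_option linter.unusedVariables false
set_option linter.style.longLine false
set_option linter.style.haveILetI false

open ModularCurve AlgebraicCurve IntermediateField Polynomial Polynomial.Bivariate

namespace Fermat.Agent.S36

open Fermat.Agent.S18 Fermat.Agent.S24 Fermat.Agent.S28 Fermat.Agent.S37 Fermat.Agent.S34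
  Fermat.Agent.S42 Fermat.Agent.S35 Fermat.Agent.S36.TripleLoc71

local notation "Q̄" => AlgebraicClosure ℚ

section c2i31_reg

variable {R K : Type} [CommRing R] [IsDomain R] [IsDiscreteValuationRing R] [Field K] [CharZero K]
  [Algebra R K] [IsFractionRing R K] [Algebra K Q̄] (M' q : ℕ) [NeZero M'] [NeZero q]

/-- **The `j`-data with `Φ.Monic` and the swap symmetry exposed** (twin of `c2i31_jdata`): all the `j`-hypotheses of `c2x25_prinAt_two/three` on the canonical frame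
(`x1 = α₂ α₁ j`, `J = α₂ β₁ j`, `x3 = β₂ β₁ j`, so `x3 - x1 = v2g64_s K M' q`). -/
theorem c2i31_jdata_ms (hq : q.Prime) {π : R} (hπ : Irreducible π)
    (hqπ : Associated ((q : ℕ) : R) π)
    (V₂ : ValuationSubring ↥(modularFunctionFieldFullC K (M' * q * q)))
    (hV₂ : ∀ c ∈ cm85_Vinf (K := K) (M' * q) hπ, al97L_alpha K (M' * q) q c ∈ V₂)
    (hπ₂ : (algebraMap K ↥(modularFunctionFieldFullC K (M' * q * q)) (algebraMap R K π))⁻¹ ∉ V₂)
    (hne : cm85_Vinf (K := K) (M' * q * q) hπ ≠ V₂)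
    (hs : V₂.valuation (v2g64_s K M' q) ^ (q - 1) =
      V₂.valuation (algebraMap K ↥(modularFunctionFieldFullC K (M' * q * q))
        (algebraMap R K π))) :
    ∃ (Φ Ψ : Polynomial (Polynomial ℤ))
      (γ1 wj e' : ↥(modularFunctionFieldFullC K (M' * q * q))),
      Φ.Monic ∧ (swap Φ = Φ ∨ swap Φ = -Φ) ∧
      Φ = (X - C (X ^ q)) * (X ^ q - C X) + C (C (q : ℤ)) * Ψ ∧
      al97L_alpha K (M' * q) q (al97L_alpha K M' q (v2g64_j K M')) ∈ V₂ ∧
      al97L_alpha K (M' * q) q (al97L_beta K M' q (v2g64_j K M')) ∈ V₂ ∧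
      γ1 ∈ V₂ ∧ wj ∈ V₂ ∧ e' ∈ V₂ ∧
      al97L_alpha K (M' * q) q (al97L_beta K M' q (v2g64_j K M')) =
        al97L_alpha K (M' * q) q (al97L_alpha K M' q (v2g64_j K M')) ^ q +
          ((q : ℕ) : ↥(modularFunctionFieldFullC K (M' * q * q))) * γ1 ∧
      dq56_ev (al97L_alpha K (M' * q) q (al97L_beta K M' q (v2g64_j K M')))
        (al97L_alpha K (M' * q) q (al97L_alpha K M' q (v2g64_j K M'))) Φ = 0 ∧
      dq56_ev (al97L_alpha K (M' * q) q (al97L_beta K M' q (v2g64_j K M')))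
        (al97L_beta K (M' * q) q (al97L_beta K M' q (v2g64_j K M'))) Φ = 0 ∧
      (al97L_alpha K (M' * q) q (al97L_beta K M' q (v2g64_j K M')) ^ q -
        al97L_alpha K (M' * q) q (al97L_alpha K M' q (v2g64_j K M'))) * e' = 1 ∧
      dq56_ev (al97L_alpha K (M' * q) q (al97L_beta K M' q (v2g64_j K M')))
          (al97L_alpha K (M' * q) q (al97L_alpha K M' q (v2g64_j K M'))) (dq56_dY Φ) =
        -(((q : ℕ) : ↥(modularFunctionFieldFullC K (M' * q * q))) * wj *
          dq56_ev (al97L_alpha K (M' * q) q (al97L_beta K M' q (v2g64_j K M')))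
            (al97L_alpha K (M' * q) q (al97L_alpha K M' q (v2g64_j K M'))) (derivative Φ)) ∧
      (wj : LaurentSeries K) = uw31_w K q ∧
      V₂.valuation (al97L_beta K (M' * q) q (al97L_beta K M' q (v2g64_j K M')) -
          al97L_alpha K (M' * q) q (al97L_alpha K M' q (v2g64_j K M'))) ^ (q - 1) =
        V₂.valuation ((q : ℕ) : ↥(modularFunctionFieldFullC K (M' * q * q))) ∧
      V₂.valuation ((q : ℕ) : ↥(modularFunctionFieldFullC K (M' * q * q))) < 1 := by
  have hqR : ¬ IsUnit ((q : ℕ) : R) := fun hu => hπ.not_isUnit (hqπ.isUnit hu)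
  haveI : ExpChar (IsLocalRing.ResidueField R) q := c2i31_expChar hq hqR
  have hqM' : q ∣ M' * q := dvd_mul_left q M'
  have hqM : q ∣ M' * q * q := dvd_mul_left q (M' * q)
  obtain ⟨Φ, Ψ, hmon, -, hm1, hm2, hΨ, hsw, -⟩ := mps78_modEq q hq
  -- the modular equation in `K((Q))`
  have hK1 : dq56_ev (JdC K q) (jqModC K) Φ = 0 := by
    have h := congrArg (coeffMap (Int.castRingHom K)) hm1
    have e : Φ.eval₂ (evJ ℤ) (JdC ℤ q) = dq56_ev (JdC ℤ q) (jqModC ℤ) Φ := rfl
    rw [e, dq56_ev_map, coeffMap_JdC, coeffMap_jqModC, map_zero] at h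
    exact h
  have hK2 : dq56_ev (jqModC K) (JdC K q) Φ = 0 := by
    have h := congrArg (coeffMap (Int.castRingHom K)) hm2
    have e : Φ.eval₂ (evJd ℤ q) (jqModC ℤ) = dq56_ev (jqModC ℤ) (JdC ℤ q) Φ := rfl
    rw [e, dq56_ev_map, coeffMap_JdC, coeffMap_jqModC, map_zero] at h
    exact h
  have hK3 : dq56_ev (JdC K q) (qExpand K q (qExpand K q (jqModC K))) Φ = 0 := by
    have h := congrArg (qExpand K q) hK2
    rw [dq56_ev_map, JdC_of_neZero, map_zero] at h
    rw [JdC_of_neZero]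
    exact h
  let ι : ↥(modularFunctionFieldFullC K (M' * q * q)) →+* LaurentSeries K :=
    algebraMap ↥(modularFunctionFieldFullC K (M' * q * q)) (LaurentSeries K)
  have hcx1 : ((al97L_alpha K (M' * q) q (al97L_alpha K M' q (v2g64_j K M')) :
      ↥(modularFunctionFieldFullC K (M' * q * q))) : LaurentSeries K) = jqModC K := by
    rw [al97L_alpha_coe, al97L_alpha_coe]
    rfl
  have hcJ : ((al97L_alpha K (M' * q) q (al97L_beta K M' q (v2g64_j K M')) :
      ↥(modularFunctionFieldFullC K (M' * q * q))) : LaurentSeries K) = JdC K q := by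
    rw [al97L_alpha_coe, al97L_beta_coe, JdC_of_neZero]
    rfl
  have hcx3 : ((al97L_beta K (M' * q) q (al97L_beta K M' q (v2g64_j K M')) :
      ↥(modularFunctionFieldFullC K (M' * q * q))) : LaurentSeries K) =
      qExpand K q (qExpand K q (jqModC K)) := by
    rw [al97L_beta_coe, al97L_beta_coe]
    rfl
  have hιx1 : ι (al97L_alpha K (M' * q) q (al97L_alpha K M' q (v2g64_j K M'))) = jqModC K := hcx1
  have hιJ : ι (al97L_alpha K (M' * q) q (al97L_beta K M' q (v2g64_j K M'))) = JdC K q := hcJ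
  have hιx3 : ι (al97L_beta K (M' * q) q (al97L_beta K M' q (v2g64_j K M'))) =
      qExpand K q (qExpand K q (jqModC K)) := hcx3
  have hΦ1 : dq56_ev (al97L_alpha K (M' * q) q (al97L_beta K M' q (v2g64_j K M')))
      (al97L_alpha K (M' * q) q (al97L_alpha K M' q (v2g64_j K M'))) Φ = 0 := by
    apply ι.injective
    rw [dq56_ev_map, hιx1, hιJ, map_zero]
    exact hK1
  have hΦ3 : dq56_ev (al97L_alpha K (M' * q) q (al97L_beta K M' q (v2g64_j K M')))
      (al97L_beta K (M' * q) q (al97L_beta K M' q (v2g64_j K M'))) Φ = 0 := by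
    apply ι.injective
    rw [dq56_ev_map, hιx3, hιJ, map_zero]
    exact hK3
  -- memberships
  have hα1j : al97L_alpha K M' q (v2g64_j K M') ∈ cm85_Vinf (K := K) (M' * q) hπ :=
    gv85_mem_V_of_integral _ _ _ _ (jqModC R) (by
      rw [al97L_alpha_coe, coeffMap_jqModC]
      rfl)
  have hβ1j : al97L_beta K M' q (v2g64_j K M') ∈ cm85_Vinf (K := K) (M' * q) hπ :=
    gv85_mem_V_of_integral _ _ _ _ (qExpand R q (jqModC R)) (by
      rw [al97L_beta_coe, kr50_coeffMap_qExpand, coeffMap_jqModC]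
      rfl)
  have hx1 := hV₂ _ hα1j
  have hJ := hV₂ _ hβ1j
  let ι' : ↥(modularFunctionFieldFullC K (M' * q)) →+* LaurentSeries K :=
    algebraMap ↥(modularFunctionFieldFullC K (M' * q)) (LaurentSeries K)
  have hι'a : ι' (al97L_alpha K M' q (v2g64_j K M')) = jqModC K := by
    show ((al97L_alpha K M' q (v2g64_j K M') : ↥(modularFunctionFieldFullC K (M' * q))) :
      LaurentSeries K) = _
    rw [al97L_alpha_coe]
    rfl
  have hι'b : ι' (al97L_beta K M' q (v2g64_j K M')) = qExpand K q (jqModC K) := by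
    show ((al97L_beta K M' q (v2g64_j K M') : ↥(modularFunctionFieldFullC K (M' * q))) :
      LaurentSeries K) = _
    rw [al97L_beta_coe]
    rfl
  -- Frobenius
  have hγ' : ((q : ℕ) : ↥(modularFunctionFieldFullC K (M' * q)))⁻¹ *
      (al97L_beta K M' q (v2g64_j K M') - al97L_alpha K M' q (v2g64_j K M') ^ q) ∈
        cm85_Vinf (K := K) (M' * q) hπ := by
    refine c2i31_div_q (M' * q) hπ hqπ _ (qExpand R q (jqModC R) - jqModC R ^ q) ?_ ?_
    · show ι' (al97L_beta K M' q (v2g64_j K M') - al97L_alpha K M' q (v2g64_j K M') ^ q) = _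
      rw [map_sub, map_pow, hι'a, hι'b, map_sub, map_pow, kr50_coeffMap_qExpand, coeffMap_jqModC]
    · rw [map_sub, map_pow, kr50_coeffMap_qExpand, coeffMap_jqModC,
        kr50_pow_char q (jqModC (IsLocalRing.ResidueField R)), coeffMap_jqModC, sub_self]
  have hq0 : ((q : ℕ) : ↥(modularFunctionFieldFullC K (M' * q * q))) ≠ 0 :=
    c2i31_natCast_ne_zero (K := K) (M' * q * q) q hq.ne_zero
  have h1' : al97L_alpha K (M' * q) q (al97L_beta K M' q (v2g64_j K M')) =
      al97L_alpha K (M' * q) q (al97L_alpha K M' q (v2g64_j K M')) ^ q +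
        ((q : ℕ) : ↥(modularFunctionFieldFullC K (M' * q * q))) *
          al97L_alpha K (M' * q) q (((q : ℕ) : ↥(modularFunctionFieldFullC K (M' * q)))⁻¹ *
            (al97L_beta K M' q (v2g64_j K M') - al97L_alpha K M' q (v2g64_j K M') ^ q)) := by
    rw [map_mul, map_inv₀, map_natCast, map_sub, map_pow, mul_inv_cancel_left₀ hq0]
    ring
  -- the unit `ε`
  have hc := c2i31_unit (K := K) (M' * q) hπ
    (al97L_beta K M' q (v2g64_j K M') ^ q - al97L_alpha K M' q (v2g64_j K M'))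
    (qExpand R q (jqModC R) ^ q - jqModC R)
    (by
      show ι' (al97L_beta K M' q (v2g64_j K M') ^ q - al97L_alpha K M' q (v2g64_j K M')) = _
      rw [map_sub, map_pow, hι'a, hι'b, map_sub, map_pow, kr50_coeffMap_qExpand,
        coeffMap_jqModC])
    (by
      rw [map_sub, map_pow, kr50_coeffMap_qExpand, coeffMap_jqModC]
      exact c2i31_red_eps q hq)
  have hε : (al97L_alpha K (M' * q) q (al97L_beta K M' q (v2g64_j K M')) ^ q -
      al97L_alpha K (M' * q) q (al97L_alpha K M' q (v2g64_j K M'))) *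
      al97L_alpha K (M' * q) q
        (al97L_beta K M' q (v2g64_j K M') ^ q - al97L_alpha K M' q (v2g64_j K M'))⁻¹ = 1 := by
    rw [← map_pow, ← map_sub, ← map_mul, mul_inv_cancel₀ hc.2.2, map_one]
  -- `w_j`
  have hwjV := guw31_wj (R := R) (K := K) (M' * q) hπ q hq hqM'
  have hwjeq : al97L_alpha K (M' * q) q (guw31_wjF (K := K) (M' * q) q hq hqM') =
      guw31_wjF (K := K) (M' * q * q) q hq hqM := Subtype.ext (by
    rw [al97L_alpha_coe]
    rfl)
  have hchain := guw31_wj_chain (K := K) (M' * q * q) q hq hqM _ _ hcx1 hcJ Φ hΦ1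
  have hIs : s36f47_IsV2 M' q hπ V₂ := ⟨hV₂, hπ₂, hne, hs⟩
  have hπlt := mcv8_pi_lt M' q hπ V₂ hIs
  have hvq := c2i31_val_pi_eq M' q hπ hqπ V₂ hV₂
  refine ⟨Φ, Ψ, _, al97L_alpha K (M' * q) q (guw31_wjF (K := K) (M' * q) q hq hqM'), _, hmon, hsw, hΨ,
    hx1, hJ, hV₂ _ hγ', hV₂ _ hwjV.1, hV₂ _ hc.2.1, h1', hΦ1, hΦ3, hε, ?_, ?_, ?_, ?_⟩
  · rw [hchain, hwjeq]
    ring
  · rw [al97L_alpha_coe]
    rfl
  · rw [← hvq]
    exact hs
  · rw [← hvq]
    exact hπlt

omit [IsDomain R] [IsDiscreteValuationRing R] [Algebra R K] [IsFractionRing R K] [Algebra K Q̄] in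
/-- `J * t2^.. = ..`: the Hauptmodul relation at `q τ`, coordinate `two`. -/
theorem c2i31_hJt_two (h2 : 2 ∣ M') :
    al97L_alpha K (M' * q) q (al97L_beta K M' q (v2g64_j K M')) * al97L_alpha K (M' * q) q (al97L_beta K M' q (pk85_h2 K M' h2)) ^ 2 =
      (al97L_alpha K (M' * q) q (al97L_beta K M' q (pk85_h2 K M' h2)) + 256) ^ 3 := by
  let ι : ↥(modularFunctionFieldFullC K (M' * q * q)) →+* LaurentSeries K :=
    algebraMap ↥(modularFunctionFieldFullC K (M' * q * q)) (LaurentSeries K)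
  have hιJ : ι (al97L_alpha K (M' * q) q (al97L_beta K M' q (v2g64_j K M'))) = qExpand K q (jqModC K) := by
    show ((al97L_alpha K (M' * q) q (al97L_beta K M' q (v2g64_j K M')) :
      ↥(modularFunctionFieldFullC K (M' * q * q))) : LaurentSeries K) = _
    rw [al97L_alpha_coe, al97L_beta_coe]
    rfl
  have hιt2 : ι (al97L_alpha K (M' * q) q (al97L_beta K M' q (pk85_h2 K M' h2))) = qExpand K q (h70_h2 K) := by
    show ((al97L_alpha K (M' * q) q (al97L_beta K M' q (pk85_h2 K M' h2)) :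
      ↥(modularFunctionFieldFullC K (M' * q * q))) : LaurentSeries K) = _
    rw [al97L_alpha_coe, al97L_beta_coe, pk85_h2_coe]
  apply ι.injective
  simp only [map_mul, map_pow, map_add, map_ofNat, hιJ, hιt2]
  have h := congrArg (qExpand K q) (h70_j_mul_h2_sq K)
  simp only [map_mul, map_pow, map_add, map_ofNat] at h
  exact h

omit [IsDomain R] [IsDiscreteValuationRing R] [Algebra R K] [IsFractionRing R K] [Algebra K Q̄] in
/-- The sixth-power identity of `wt` on the canonical frame, coordinate `two`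
(`uF = α₂ U`, `U = Δ(Q)/Δ(Q^q)`). -/
theorem c2i31_h6_two (hq : q.Prime) (h2 : 2 ∣ M')
    (wt : ↥(modularFunctionFieldFullC K (M' * q * q)))
    (hwt : (wt : LaurentSeries K) = uwh31_w K q (h70_h2 K)) :
    wt ^ 6 * (al97L_alpha K (M' * q) q (al97L_alpha K M' q (pk85_h2 K M' h2)) ^ 4 *
        (al97L_alpha K (M' * q) q (al97L_alpha K M' q (pk85_h2 K M' h2)) + 64) ^ 3 *
        al97L_alpha K (M' * q) q
        (⟨dq56_U K q, dq56_U_mem_full K q hq (M' * q) (dvd_mul_left q M')⟩ :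
          ↥(modularFunctionFieldFullC K (M' * q)))) =
      al97L_alpha K (M' * q) q (al97L_beta K M' q (pk85_h2 K M' h2)) ^ 4 *
        (al97L_alpha K (M' * q) q (al97L_beta K M' q (pk85_h2 K M' h2)) + 64) ^ 3 := by
  let ι : ↥(modularFunctionFieldFullC K (M' * q * q)) →+* LaurentSeries K :=
    algebraMap ↥(modularFunctionFieldFullC K (M' * q * q)) (LaurentSeries K)
  have hιwt : ι wt = uwh31_w K q (h70_h2 K) := hwt
  have hιt1 : ι (al97L_alpha K (M' * q) q (al97L_alpha K M' q (pk85_h2 K M' h2))) = h70_h2 K := by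
    show ((al97L_alpha K (M' * q) q (al97L_alpha K M' q (pk85_h2 K M' h2)) :
      ↥(modularFunctionFieldFullC K (M' * q * q))) : LaurentSeries K) = _
    rw [al97L_alpha_coe, al97L_alpha_coe, pk85_h2_coe]
  have hιt2 : ι (al97L_alpha K (M' * q) q (al97L_beta K M' q (pk85_h2 K M' h2))) = qExpand K q (h70_h2 K) := by
    show ((al97L_alpha K (M' * q) q (al97L_beta K M' q (pk85_h2 K M' h2)) :
      ↥(modularFunctionFieldFullC K (M' * q * q))) : LaurentSeries K) = _
    rw [al97L_alpha_coe, al97L_beta_coe, pk85_h2_coe]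
  have hιu : ι (al97L_alpha K (M' * q) q
        (⟨dq56_U K q, dq56_U_mem_full K q hq (M' * q) (dvd_mul_left q M')⟩ :
          ↥(modularFunctionFieldFullC K (M' * q)))) = dq56_U K q := by
    show ((al97L_alpha K (M' * q) q
        (⟨dq56_U K q, dq56_U_mem_full K q hq (M' * q) (dvd_mul_left q M')⟩ :
          ↥(modularFunctionFieldFullC K (M' * q))) :
      ↥(modularFunctionFieldFullC K (M' * q * q))) : LaurentSeries K) = _
    rw [al97L_alpha_coe]
  apply ι.injective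
  simp only [map_mul, map_pow, map_add, map_ofNat, hιwt, hιt1, hιt2, hιu]
  exact (uwh31_level2_gen K q (h70_h2 K) (h70_h2_ne_zero K) (h70_j_mul_h2_sq K)).1

omit [IsDomain R] [IsDiscreteValuationRing R] [Algebra R K] [IsFractionRing R K] [Algebra K Q̄] in
/-- `J * t2^.. = ..`: the Hauptmodul relation at `q τ`, coordinate `three`. -/
theorem c2i31_hJt_three (hd3 : 3 ∣ M') :
    al97L_alpha K (M' * q) q (al97L_beta K M' q (v2g64_j K M')) * al97L_alpha K (M' * q) q (al97L_beta K M' q (pk85_h3 K M' hd3)) ^ 3 =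
      (al97L_alpha K (M' * q) q (al97L_beta K M' q (pk85_h3 K M' hd3)) + 27) *
        (al97L_alpha K (M' * q) q (al97L_beta K M' q (pk85_h3 K M' hd3)) + 243) ^ 3 := by
  let ι : ↥(modularFunctionFieldFullC K (M' * q * q)) →+* LaurentSeries K :=
    algebraMap ↥(modularFunctionFieldFullC K (M' * q * q)) (LaurentSeries K)
  have hιJ : ι (al97L_alpha K (M' * q) q (al97L_beta K M' q (v2g64_j K M'))) = qExpand K q (jqModC K) := by
    show ((al97L_alpha K (M' * q) q (al97L_beta K M' q (v2g64_j K M')) :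
      ↥(modularFunctionFieldFullC K (M' * q * q))) : LaurentSeries K) = _
    rw [al97L_alpha_coe, al97L_beta_coe]
    rfl
  have hιt2 : ι (al97L_alpha K (M' * q) q (al97L_beta K M' q (pk85_h3 K M' hd3))) = qExpand K q (h34_h3R K) := by
    show ((al97L_alpha K (M' * q) q (al97L_beta K M' q (pk85_h3 K M' hd3)) :
      ↥(modularFunctionFieldFullC K (M' * q * q))) : LaurentSeries K) = _
    rw [al97L_alpha_coe, al97L_beta_coe, pk85_h3_coe]
  apply ι.injective
  simp only [map_mul, map_pow, map_add, map_ofNat, hιJ, hιt2]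
  have h := congrArg (qExpand K q) (h34_h3R_j K)
  simp only [map_mul, map_pow, map_add, map_ofNat] at h
  exact h

omit [IsDomain R] [IsDiscreteValuationRing R] [Algebra R K] [IsFractionRing R K] [Algebra K Q̄] in
/-- The sixth-power identity of `wt` on the canonical frame, coordinate `three`
(`uF = α₂ U`, `U = Δ(Q)/Δ(Q^q)`). -/
theorem c2i31_h6_three (hq : q.Prime) (hd3 : 3 ∣ M')
    (wt : ↥(modularFunctionFieldFullC K (M' * q * q)))
    (hwt : (wt : LaurentSeries K) = uwh31_w K q (h34_h3R K)) :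
    wt ^ 6 * (al97L_alpha K (M' * q) q (al97L_alpha K M' q (pk85_h3 K M' hd3)) ^ 3 *
        (al97L_alpha K (M' * q) q (al97L_alpha K M' q (pk85_h3 K M' hd3)) + 27) ^ 4 *
        al97L_alpha K (M' * q) q
        (⟨dq56_U K q, dq56_U_mem_full K q hq (M' * q) (dvd_mul_left q M')⟩ :
          ↥(modularFunctionFieldFullC K (M' * q)))) =
      al97L_alpha K (M' * q) q (al97L_beta K M' q (pk85_h3 K M' hd3)) ^ 3 *
        (al97L_alpha K (M' * q) q (al97L_beta K M' q (pk85_h3 K M' hd3)) + 27) ^ 4 := by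
  let ι : ↥(modularFunctionFieldFullC K (M' * q * q)) →+* LaurentSeries K :=
    algebraMap ↥(modularFunctionFieldFullC K (M' * q * q)) (LaurentSeries K)
  have hιwt : ι wt = uwh31_w K q (h34_h3R K) := hwt
  have hιt1 : ι (al97L_alpha K (M' * q) q (al97L_alpha K M' q (pk85_h3 K M' hd3))) = h34_h3R K := by
    show ((al97L_alpha K (M' * q) q (al97L_alpha K M' q (pk85_h3 K M' hd3)) :
      ↥(modularFunctionFieldFullC K (M' * q * q))) : LaurentSeries K) = _
    rw [al97L_alpha_coe, al97L_alpha_coe, pk85_h3_coe]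
  have hιt2 : ι (al97L_alpha K (M' * q) q (al97L_beta K M' q (pk85_h3 K M' hd3))) = qExpand K q (h34_h3R K) := by
    show ((al97L_alpha K (M' * q) q (al97L_beta K M' q (pk85_h3 K M' hd3)) :
      ↥(modularFunctionFieldFullC K (M' * q * q))) : LaurentSeries K) = _
    rw [al97L_alpha_coe, al97L_beta_coe, pk85_h3_coe]
  have hιu : ι (al97L_alpha K (M' * q) q
        (⟨dq56_U K q, dq56_U_mem_full K q hq (M' * q) (dvd_mul_left q M')⟩ :
          ↥(modularFunctionFieldFullC K (M' * q)))) = dq56_U K q := by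
    show ((al97L_alpha K (M' * q) q
        (⟨dq56_U K q, dq56_U_mem_full K q hq (M' * q) (dvd_mul_left q M')⟩ :
          ↥(modularFunctionFieldFullC K (M' * q))) :
      ↥(modularFunctionFieldFullC K (M' * q * q))) : LaurentSeries K) = _
    rw [al97L_alpha_coe]
  apply ι.injective
  simp only [map_mul, map_pow, map_add, map_ofNat, hιwt, hιt1, hιt2, hιu]
  exact (uwh31_level3_gen K q (h34_h3R K) ((uwh31_h3_ok K).1) (h34_h3R_j K)).1

variable [Algebra R ↥(modularFunctionFieldFullC K (M' * q * q))]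
  [IsScalarTower R K ↥(modularFunctionFieldFullC K (M' * q * q))]

/-- **Row 600 at a `j`-regular `C₂`-only point, coordinate `two`, no chart data**
(`c2x25_prin_two` of helper25 with every field-level input discharged): `B` any integrally
closed saturated chart of the canonical frame, `n` a prime containing `π` on the middle branch
only, `j` regular at `n`, `2 ∉ n` and `t1 + 64` a unit at `n`. -/
theorem c2i31_reg_two (hq : q.Prime) (hM' : ¬ q ∣ M') {π : R} (hπ : Irreducible π)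
    (hqπ : Associated ((q : ℕ) : R) π) (h2 : 2 ∣ M')
    (V₂ : ValuationSubring ↥(modularFunctionFieldFullC K (M' * q * q)))
    (hV₂ : ∀ c ∈ cm85_Vinf (K := K) (M' * q) hπ, al97L_alpha K (M' * q) q c ∈ V₂)
    (hπ₂ : (algebraMap K ↥(modularFunctionFieldFullC K (M' * q * q)) (algebraMap R K π))⁻¹ ∉ V₂)
    (hne : cm85_Vinf (K := K) (M' * q * q) hπ ≠ V₂)
    (hs : V₂.valuation (v2g64_s K M' q) ^ (q - 1) =
      V₂.valuation (algebraMap K ↥(modularFunctionFieldFullC K (M' * q * q))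
        (algebraMap R K π)))
    (B : Subalgebra R ↥(modularFunctionFieldFullC K (M' * q * q)))
    (hBint : ∀ z : ↥(modularFunctionFieldFullC K (M' * q * q)), IsIntegral B z → z ∈ B)
    (V₁ V₃ : Subring ↥(modularFunctionFieldFullC K (M' * q * q)))
    (hB₁ : ∀ x ∈ B, x ∈ V₁) (hB₂ : ∀ x ∈ B, x ∈ V₂.toSubring) (hB₃ : ∀ x ∈ B, x ∈ V₃)
    (hsat : ∀ x ∈ B, (algebraMap R ↥(modularFunctionFieldFullC K (M' * q * q)) π)⁻¹ * x ∈ V₁ →
      (algebraMap R ↥(modularFunctionFieldFullC K (M' * q * q)) π)⁻¹ * x ∈ V₂.toSubring →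
      (algebraMap R ↥(modularFunctionFieldFullC K (M' * q * q)) π)⁻¹ * x ∈ V₃ →
      (algebraMap R ↥(modularFunctionFieldFullC K (M' * q * q)) π)⁻¹ * x ∈ B)
    (n : Ideal B) [hn : n.IsPrime] (hπn : algebraMap R B π ∈ n)
    (hmid : tl71_OnMid (v2g64_s K M' q) B V₂.toSubring n)
    (h1 : ¬ sf79_OnBr π B V₁ n) (h3 : ¬ sf79_OnBr π B V₃ n)
    (s' : B) (hs' : s' ∉ n)
    (hs'j : (s' : ↥(modularFunctionFieldFullC K (M' * q * q))) * rm90_j K (M' * q * q) ∈ B)
    (h2n : ((2 : ℕ) : B) ∉ n)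
    (h64 : ¬ sf79_nmem B n
      (al97L_alpha K (M' * q) q (al97L_alpha K M' q (pk85_h2 K M' h2)) + 64)) :
    mc25_MidPrinAt (v2g64_s K M' q) B V₂.toSubring n := by
  obtain ⟨Φ, Ψ, γ1, wj, e', hΦm, hsw, hΦΨ, hx1, hJ, hγ1, hwjV, he', h1', hΦ1, hΦ3, hε, hw, hwjc,
    hsv, hqV⟩ := c2i31_jdata_ms M' q hq hπ hqπ V₂ hV₂ hπ₂ hne hs
  obtain ⟨g, wt, ht1, ht1', ht10, ht2, hg, ht2g, hx1t, hx3t, hΔ, hD1, hD2, hwtc, hwtrel⟩ :=
    c2i31_hdata2 M' q hq hM' hπ hqπ h2 V₂ hV₂ hπ₂ hne wj hwjc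
  have hJt := c2i31_hJt_two (K := K) M' q h2
  have h6 := c2i31_h6_two (K := K) M' q hq h2 wt hwtc
  have huni : ∀ x ∈ V₂, x⁻¹ ∉ V₂ → (v2g64_s K M' q)⁻¹ * x ∈ V₂ :=
    (ob72_ram (K := K) (M' * q) q hq (dvd_mul_left q M') hπ V₂ hV₂ hπ₂ hne
      (v2g64_s K M' q) hs).2.2.1
  have hx1eq : al97L_alpha K (M' * q) q (al97L_alpha K M' q (v2g64_j K M')) =
      rm90_j K (M' * q * q) := Subtype.ext rfl
  have huF : IsIntegral (Algebra.adjoin R
      ({al97L_alpha K (M' * q) q (al97L_alpha K M' q (v2g64_j K M'))} :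
        Set ↥(modularFunctionFieldFullC K (M' * q * q))))
      (al97L_alpha K (M' * q) q
        (⟨dq56_U K q, dq56_U_mem_full K q hq (M' * q) (dvd_mul_left q M')⟩ :
          ↥(modularFunctionFieldFullC K (M' * q)))) := by
    rw [hx1eq]
    exact uvi75_isIntegral_j_U K (M' * q * q) q hq _
      ((al97L_alpha_coe K (M' * q) q _).trans (dq56_coeffMap_U q (Int.castRingHom K)).symm)
  obtain ⟨uu, huq⟩ := id hqπ
  have hqu : ((q : ℕ) : R) = ((uu⁻¹ : Rˣ) : R) * π := by
    rw [← huq, mul_comm ((q : ℕ) : R), ← mul_assoc, ← Units.val_mul, inv_mul_cancel,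
      Units.val_one, one_mul]
  have hπ0 : algebraMap R ↥(modularFunctionFieldFullC K (M' * q * q)) π ≠ 0 := by
    rw [IsScalarTower.algebraMap_apply R K ↥(modularFunctionFieldFullC K (M' * q * q))]
    intro h0
    have h4 : algebraMap R K π = 0 := (map_eq_zero _).mp h0
    exact hπ.ne_zero (IsFractionRing.injective R K (by rw [h4, map_zero]))
  have hq0 : ((q : ℕ) : ↥(modularFunctionFieldFullC K (M' * q * q))) ≠ 0 :=
    c2i31_natCast_ne_zero (K := K) (M' * q * q) q hq.ne_zero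
  have hs'j' : (s' : ↥(modularFunctionFieldFullC K (M' * q * q))) *
      al97L_alpha K (M' * q) q (al97L_alpha K M' q (v2g64_j K M')) ∈ B := by
    rw [hx1eq]
    exact hs'j
  exact c2x25_prinAt_two π ((uu⁻¹ : Rˣ) : R) (uu : R)
    (by rw [← Units.val_mul, inv_mul_cancel, Units.val_one]) q hq hqu B hBint V₁ V₃ V₂ hB₁ hB₂ hB₃
    hsat hπ0 n hπn hq0 Φ Ψ hΦm hsw hΦΨ _ _ _ γ1 wj e' hx1 hJ hγ1 hwjV he' h1' hΦ1 hΦ3 hε hw hsv
    hqV huni hmid h1 h3 _ _ _ g wt _ ht1 ht1' ht10 ht2 hg ht2g hx1t hJt hx3t hΔ hD1 hD2 hwtrel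
    huF h6 s' hs' hs'j' h2n h64

/-- **Row 600 at a `j`-regular `C₂`-only point, coordinate `three`, no chart data**
(`c2x25_prin_three` of helper25 with every field-level input discharged): `B` any integrally
closed saturated chart of the canonical frame, `n` a prime containing `π` on the middle branch
only, `j` regular at `n`, `3 ∉ n` and `t1 + 27` a unit at `n`. -/
theorem c2i31_reg_three (hq : q.Prime) (hM' : ¬ q ∣ M') {π : R} (hπ : Irreducible π)
    (hqπ : Associated ((q : ℕ) : R) π) (hd3 : 3 ∣ M')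
    (V₂ : ValuationSubring ↥(modularFunctionFieldFullC K (M' * q * q)))
    (hV₂ : ∀ c ∈ cm85_Vinf (K := K) (M' * q) hπ, al97L_alpha K (M' * q) q c ∈ V₂)
    (hπ₂ : (algebraMap K ↥(modularFunctionFieldFullC K (M' * q * q)) (algebraMap R K π))⁻¹ ∉ V₂)
    (hne : cm85_Vinf (K := K) (M' * q * q) hπ ≠ V₂)
    (hs : V₂.valuation (v2g64_s K M' q) ^ (q - 1) =
      V₂.valuation (algebraMap K ↥(modularFunctionFieldFullC K (M' * q * q))
        (algebraMap R K π)))
    (B : Subalgebra R ↥(modularFunctionFieldFullC K (M' * q * q)))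
    (hBint : ∀ z : ↥(modularFunctionFieldFullC K (M' * q * q)), IsIntegral B z → z ∈ B)
    (V₁ V₃ : Subring ↥(modularFunctionFieldFullC K (M' * q * q)))
    (hB₁ : ∀ x ∈ B, x ∈ V₁) (hB₂ : ∀ x ∈ B, x ∈ V₂.toSubring) (hB₃ : ∀ x ∈ B, x ∈ V₃)
    (hsat : ∀ x ∈ B, (algebraMap R ↥(modularFunctionFieldFullC K (M' * q * q)) π)⁻¹ * x ∈ V₁ →
      (algebraMap R ↥(modularFunctionFieldFullC K (M' * q * q)) π)⁻¹ * x ∈ V₂.toSubring →
      (algebraMap R ↥(modularFunctionFieldFullC K (M' * q * q)) π)⁻¹ * x ∈ V₃ →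
      (algebraMap R ↥(modularFunctionFieldFullC K (M' * q * q)) π)⁻¹ * x ∈ B)
    (n : Ideal B) [hn : n.IsPrime] (hπn : algebraMap R B π ∈ n)
    (hmid : tl71_OnMid (v2g64_s K M' q) B V₂.toSubring n)
    (h1 : ¬ sf79_OnBr π B V₁ n) (h3 : ¬ sf79_OnBr π B V₃ n)
    (s' : B) (hs' : s' ∉ n)
    (hs'j : (s' : ↥(modularFunctionFieldFullC K (M' * q * q))) * rm90_j K (M' * q * q) ∈ B)
    (h3n : ((3 : ℕ) : B) ∉ n)
    (h27 : ¬ sf79_nmem B n
      (al97L_alpha K (M' * q) q (al97L_alpha K M' q (pk85_h3 K M' hd3)) + 27)) :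
    mc25_MidPrinAt (v2g64_s K M' q) B V₂.toSubring n := by
  obtain ⟨Φ, Ψ, γ1, wj, e', hΦm, hsw, hΦΨ, hx1, hJ, hγ1, hwjV, he', h1', hΦ1, hΦ3, hε, hw, hwjc,
    hsv, hqV⟩ := c2i31_jdata_ms M' q hq hπ hqπ V₂ hV₂ hπ₂ hne hs
  obtain ⟨g, wt, ht1, ht1', ht10, ht2, hg, ht2g, hx1t, hx3t, hΔ, hD1, hD2, hwtc, hwtrel⟩ :=
    c2i31_hdata3 M' q hq hM' hπ hqπ hd3 V₂ hV₂ hπ₂ hne wj hwjc
  have hJt := c2i31_hJt_three (K := K) M' q hd3
  have h6 := c2i31_h6_three (K := K) M' q hq hd3 wt hwtc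
  have huni : ∀ x ∈ V₂, x⁻¹ ∉ V₂ → (v2g64_s K M' q)⁻¹ * x ∈ V₂ :=
    (ob72_ram (K := K) (M' * q) q hq (dvd_mul_left q M') hπ V₂ hV₂ hπ₂ hne
      (v2g64_s K M' q) hs).2.2.1
  have hx1eq : al97L_alpha K (M' * q) q (al97L_alpha K M' q (v2g64_j K M')) =
      rm90_j K (M' * q * q) := Subtype.ext rfl
  have huF : IsIntegral (Algebra.adjoin R
      ({al97L_alpha K (M' * q) q (al97L_alpha K M' q (v2g64_j K M'))} :
        Set ↥(modularFunctionFieldFullC K (M' * q * q))))
      (al97L_alpha K (M' * q) q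
        (⟨dq56_U K q, dq56_U_mem_full K q hq (M' * q) (dvd_mul_left q M')⟩ :
          ↥(modularFunctionFieldFullC K (M' * q)))) := by
    rw [hx1eq]
    exact uvi75_isIntegral_j_U K (M' * q * q) q hq _
      ((al97L_alpha_coe K (M' * q) q _).trans (dq56_coeffMap_U q (Int.castRingHom K)).symm)
  obtain ⟨uu, huq⟩ := id hqπ
  have hqu : ((q : ℕ) : R) = ((uu⁻¹ : Rˣ) : R) * π := by
    rw [← huq, mul_comm ((q : ℕ) : R), ← mul_assoc, ← Units.val_mul, inv_mul_cancel,
      Units.val_one, one_mul]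
  have hπ0 : algebraMap R ↥(modularFunctionFieldFullC K (M' * q * q)) π ≠ 0 := by
    rw [IsScalarTower.algebraMap_apply R K ↥(modularFunctionFieldFullC K (M' * q * q))]
    intro h0
    have h4 : algebraMap R K π = 0 := (map_eq_zero _).mp h0
    exact hπ.ne_zero (IsFractionRing.injective R K (by rw [h4, map_zero]))
  have hq0 : ((q : ℕ) : ↥(modularFunctionFieldFullC K (M' * q * q))) ≠ 0 :=
    c2i31_natCast_ne_zero (K := K) (M' * q * q) q hq.ne_zero
  have hs'j' : (s' : ↥(modularFunctionFieldFullC K (M' * q * q))) *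
      al97L_alpha K (M' * q) q (al97L_alpha K M' q (v2g64_j K M')) ∈ B := by
    rw [hx1eq]
    exact hs'j
  exact c2x25_prinAt_three π ((uu⁻¹ : Rˣ) : R) (uu : R)
    (by rw [← Units.val_mul, inv_mul_cancel, Units.val_one]) q hq hqu B hBint V₁ V₃ V₂ hB₁ hB₂ hB₃
    hsat hπ0 n hπn hq0 Φ Ψ hΦm hsw hΦΨ _ _ _ γ1 wj e' hx1 hJ hγ1 hwjV he' h1' hΦ1 hΦ3 hε hw hsv
    hqV huni hmid h1 h3 _ _ _ g wt _ ht1 ht1' ht10 ht2 hg ht2g hx1t hJt hx3t hΔ hD1 hD2 hwtrel
    huF h6 s' hs' hs'j' h3n h27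

end c2i31_reg

end Fermat.Agent.S36
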