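import Fermat.Agent.S36.MidBind62
import Fermat.Agent.S36.C2RegInst31
import Fermat.Agent.S36.C2RegCanon75

/-!
S36 lab (helper25), row 600 (C-C2), FINAL: `c2f25_Reg2 : s36i62j_Reg2`.

At every closed point `n` of the two canonical charts of the Hauptmodul of level 2 (level
`M' q²`, `q ≠ 2`) lying on the middle branch only at which `j` is regular, the middle branch is
principal (`mc25_MidPrinAt`).

* `c2f25_reg_gen` : chart-generic core (`B` any integrally closed saturated chart of the canonical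
  frame at `π = q`): the case split
  - `q = 3`: `j` is a unit at `n` (`c2rc75_j_unit`, helper75), hence `h₂ + 64` is a unit at `n`
    (`c2x25_small_two`) and `c2i31_reg_two` (helper31) applies;
  - `q ≥ 5` (`3 ∣ M'`): `h₂ + 64` or `h₃ + 27` is a unit at `n` (`c2x25_cover`), and
    `c2i31_reg_two` resp. `c2i31_reg_three` applies.
* `c2f25_Reg2` : the closed statement `s36i62j_Reg2` of `MidBind62` (helper62).
-/

set_option autoImplicit false
set_option linter.unusedSectionVars false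
set_option linter.unusedVariables false
set_option linter.style.longLine false
set_option linter.style.haveILetI false

open ModularCurve AlgebraicCurve CongruenceSubgroup Polynomial

namespace Fermat.Agent.S36

open Fermat.Agent.S34 Fermat.Agent.S18 Fermat.Agent.S24 Fermat.Agent.S28 Fermat.Agent.S35
open Fermat.Agent.S36.TripleLoc71

local notation "Q̄" => AlgebraicClosure ℚ

section c2f25

variable {R K : Type} [CommRing R] [IsDomain R] [IsDiscreteValuationRing R] [Field K]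
  [CharZero K] [Algebra R K] [IsFractionRing R K] [Algebra K Q̄]
  (M' q : ℕ) [NeZero M'] [NeZero q] (hq : q.Prime) (hM' : ¬ q ∣ M')
  [Algebra R ↥(modularFunctionFieldFullC K (M' * q))]
  [IsScalarTower R K ↥(modularFunctionFieldFullC K (M' * q))]
  [Algebra R ↥(modularFunctionFieldFullC K (M' * q * q))]
  [IsScalarTower R K ↥(modularFunctionFieldFullC K (M' * q * q))]

omit [IsDomain R] [IsDiscreteValuationRing R] [IsFractionRing R K] [Algebra K Q̄]
  [Algebra R ↥(modularFunctionFieldFullC K (M' * q))]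
  [IsScalarTower R K ↥(modularFunctionFieldFullC K (M' * q))]
  [Algebra R ↥(modularFunctionFieldFullC K (M' * q * q))]
  [IsScalarTower R K ↥(modularFunctionFieldFullC K (M' * q * q))] [Algebra R K] in
/-- The Hauptmodul relation of level 2 for `α₂ α₁ h₂` at level `M' q²`. -/
theorem c2f25_rel_two (h2 : 2 ∣ M') :
    rm90_j K (M' * q * q) *
        al97L_alpha K (M' * q) q (al97L_alpha K M' q (pk85_h2 K M' h2)) ^ 2 =
      (al97L_alpha K (M' * q) q (al97L_alpha K M' q (pk85_h2 K M' h2)) + 256) ^ 3 := by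
  let ι : ↥(modularFunctionFieldFullC K (M' * q * q)) →+* LaurentSeries K :=
    algebraMap ↥(modularFunctionFieldFullC K (M' * q * q)) (LaurentSeries K)
  have hιt1 : ι (al97L_alpha K (M' * q) q (al97L_alpha K M' q (pk85_h2 K M' h2))) = h70_h2 K := by
    show ((al97L_alpha K (M' * q) q (al97L_alpha K M' q (pk85_h2 K M' h2)) :
      ↥(modularFunctionFieldFullC K (M' * q * q))) : LaurentSeries K) = _
    rw [al97L_alpha_coe, al97L_alpha_coe, pk85_h2_coe]
  have hιj : ι (rm90_j K (M' * q * q)) = jqModC K := rfl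
  apply ι.injective
  rw [map_mul, map_pow, map_pow, map_add, map_ofNat, hιj, hιt1]
  exact h70_j_mul_h2_sq K

omit [IsDomain R] [IsDiscreteValuationRing R] [IsFractionRing R K] [Algebra K Q̄]
  [Algebra R ↥(modularFunctionFieldFullC K (M' * q))]
  [IsScalarTower R K ↥(modularFunctionFieldFullC K (M' * q))]
  [Algebra R ↥(modularFunctionFieldFullC K (M' * q * q))]
  [IsScalarTower R K ↥(modularFunctionFieldFullC K (M' * q * q))] [Algebra R K] in
/-- The Hauptmodul relation of level 3 for `α₂ α₁ h₃` at level `M' q²`. -/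
theorem c2f25_rel_three (h3 : 3 ∣ M') :
    rm90_j K (M' * q * q) *
        al97L_alpha K (M' * q) q (al97L_alpha K M' q (pk85_h3 K M' h3)) ^ 3 =
      (al97L_alpha K (M' * q) q (al97L_alpha K M' q (pk85_h3 K M' h3)) + 27) *
        (al97L_alpha K (M' * q) q (al97L_alpha K M' q (pk85_h3 K M' h3)) + 243) ^ 3 := by
  let ι : ↥(modularFunctionFieldFullC K (M' * q * q)) →+* LaurentSeries K :=
    algebraMap ↥(modularFunctionFieldFullC K (M' * q * q)) (LaurentSeries K)
  have hιt1 : ι (al97L_alpha K (M' * q) q (al97L_alpha K M' q (pk85_h3 K M' h3))) =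
      h34_h3R K := by
    show ((al97L_alpha K (M' * q) q (al97L_alpha K M' q (pk85_h3 K M' h3)) :
      ↥(modularFunctionFieldFullC K (M' * q * q))) : LaurentSeries K) = _
    rw [al97L_alpha_coe, al97L_alpha_coe, pk85_h3_coe]
  have hιj : ι (rm90_j K (M' * q * q)) = jqModC K := rfl
  apply ι.injective
  rw [map_mul, map_pow, map_mul, map_pow, map_add, map_add, map_ofNat, map_ofNat, hιj, hιt1]
  exact h34_h3R_j K

include hq hM' in
/-- **Row 600, chart-generic core at `π = q`, `q ≠ 2`.** -/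
theorem c2f25_reg_gen (hunit : ∀ k : ℕ, Nat.Coprime k q → IsUnit (k : R))
    (h2 : 2 ∣ M') (h3M : q ≠ 3 → 3 ∣ M') (hπ : Irreducible ((q : ℕ) : R))
    (V₂ : ValuationSubring ↥(modularFunctionFieldFullC K (M' * q * q)))
    (hV₂ : ∀ c ∈ cm85_Vinf (K := K) (M' * q) hπ, al97L_alpha K (M' * q) q c ∈ V₂)
    (hπ₂ : (algebraMap K ↥(modularFunctionFieldFullC K (M' * q * q))
      (algebraMap R K ((q : ℕ) : R)))⁻¹ ∉ V₂)
    (hne : cm85_Vinf (K := K) (M' * q * q) hπ ≠ V₂)
    (hs : V₂.valuation (v2g64_s K M' q) ^ (q - 1) =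
      V₂.valuation (algebraMap K ↥(modularFunctionFieldFullC K (M' * q * q))
        (algebraMap R K ((q : ℕ) : R))))
    (B : Subalgebra R ↥(modularFunctionFieldFullC K (M' * q * q)))
    (hBint : ∀ z : ↥(modularFunctionFieldFullC K (M' * q * q)), IsIntegral B z → z ∈ B)
    (V₃ : Subring ↥(modularFunctionFieldFullC K (M' * q * q)))
    (hB₁ : ∀ x ∈ B, x ∈ (cm85_Vinf (K := K) (M' * q * q) hπ).toSubring)
    (hB₂ : ∀ x ∈ B, x ∈ V₂.toSubring) (hB₃ : ∀ x ∈ B, x ∈ V₃)
    (hsat : ∀ x ∈ B,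
      (algebraMap R ↥(modularFunctionFieldFullC K (M' * q * q)) ((q : ℕ) : R))⁻¹ * x ∈
        (cm85_Vinf (K := K) (M' * q * q) hπ).toSubring →
      (algebraMap R ↥(modularFunctionFieldFullC K (M' * q * q)) ((q : ℕ) : R))⁻¹ * x ∈
        V₂.toSubring →
      (algebraMap R ↥(modularFunctionFieldFullC K (M' * q * q)) ((q : ℕ) : R))⁻¹ * x ∈ V₃ →
      (algebraMap R ↥(modularFunctionFieldFullC K (M' * q * q)) ((q : ℕ) : R))⁻¹ * x ∈ B)
    (n : Ideal B) (hn : n.IsMaximal) (hπn : algebraMap R B ((q : ℕ) : R) ∈ n)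
    (hmid : tl71_OnMid (v2g64_s K M' q) B V₂.toSubring n)
    (h1 : ¬ sf79_OnBr ((q : ℕ) : R) B (cm85_Vinf (K := K) (M' * q * q) hπ).toSubring n)
    (h3 : ¬ sf79_OnBr ((q : ℕ) : R) B V₃ n)
    (hjreg : ∃ s' b : B, s' ∉ n ∧
      (s' : ↥(modularFunctionFieldFullC K (M' * q * q))) * rm90_j K (M' * q * q) =
        (b : ↥(modularFunctionFieldFullC K (M' * q * q)))) :
    mc25_MidPrinAt (v2g64_s K M' q) B V₂.toSubring n := by
  haveI : n.IsPrime := hn.isPrime
  have hq2 : q ≠ 2 := by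
    intro h
    apply hM'
    rw [h]
    exact h2
  obtain ⟨s', b', hs', hsb⟩ := hjreg
  have hs'j : (s' : ↥(modularFunctionFieldFullC K (M' * q * q))) * rm90_j K (M' * q * q) ∈ B := by
    rw [hsb]
    exact b'.2
  have hunitB : ∀ k : ℕ, Nat.Coprime k q → ((k : ℕ) : B) ∉ n := by
    intro k hk hmem
    have hu : IsUnit ((k : ℕ) : B) := by
      have := (hunit k hk).map (algebraMap R B)
      rwa [map_natCast] at this
    exact hn.isPrime.ne_top (Ideal.eq_top_of_isUnit_mem _ hmem hu)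
  have h2n : ((2 : ℕ) : B) ∉ n :=
    hunitB 2 ((Nat.coprime_primes Nat.prime_two hq).mpr (Ne.symm hq2))
  have hjA : rm90_j K (M' * q * q) ∈ sf79_loc B n := ⟨s', hs', hs'j⟩
  have hrel2 := c2f25_rel_two (K := K) M' q h2
  have htA : al97L_alpha K (M' * q) q (al97L_alpha K M' q (pk85_h2 K M' h2)) ∈ sf79_loc B n :=
    c2x25_loc_of_integral B n hBint _ _ (c2i25_int_rel_two _ _ hrel2) s' hs' hs'j
  by_cases hq3 : q = 3
  · -- `q = 3`: `j` is a unit at `n`
    obtain ⟨Φ, Ψ, γ1, wj, e', hΦΨ, hx1, hJ, hγ1, hwjV, he', h1', hΦ1, hΦ3, hε, hw, hwjc, hsv,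
      hqV⟩ := c2i31_jdata M' q hq hπ (Associated.refl _) V₂ hV₂ hπ₂ hne hs
    have hq0 : ((q : ℕ) : ↥(modularFunctionFieldFullC K (M' * q * q))) ≠ 0 :=
      c2i31_natCast_ne_zero (K := K) (M' * q * q) q hq.ne_zero
    obtain ⟨-, hqsj, -⟩ := c2e24_kron_val V₂ hq hq0 Φ Ψ hΦΨ _ _ _ γ1 wj e'
      hx1 hJ hγ1 hwjV he' h1' hΦ1 hΦ3 hε hw hsv hqV
    have hju := c2rc75_j_unit M' q hq hM' (Or.inr hq3) hπ B hBint V₂ V₃ hV₂ hB₁ hB₂ hB₃ hsat n
      (v2g64_s K M' q) hqsj hmid h3 ⟨s', b', hs', hsb⟩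
    have hjN : ¬ sf79_nmem B n (rm90_j K (M' * q * q)) := by
      rintro ⟨c, hc, d, hd, e⟩
      exact hju c d hc e hd
    have hqN : sf79_nmem B n ((q : ℕ) : ↥(modularFunctionFieldFullC K (M' * q * q))) :=
      c2x25_q_nmem ((q : ℕ) : R) 1 q (one_mul _).symm B n hπn
    have h576 : (576 : ↥(modularFunctionFieldFullC K (M' * q * q))) ∈ sf79_loc B n := by
      have := natCast_mem (sf79_loc B n) 576
      simpa using this
    have h1728 : sf79_nmem B n (1728 : ↥(modularFunctionFieldFullC K (M' * q * q))) := by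
      have e : (1728 : ↥(modularFunctionFieldFullC K (M' * q * q))) =
          (576 : ↥(modularFunctionFieldFullC K (M' * q * q))) *
            ((q : ℕ) : ↥(modularFunctionFieldFullC K (M' * q * q))) := by
        rw [hq3]
        norm_num
      rw [e]
      exact sf79_nmem_mul B n _ _ h576 hqN
    have h64 := c2x25_small_two B n _ _ hjA htA hrel2 h2n h1728 hjN
    exact c2i31_reg_two M' q hq hM' hπ (Associated.refl _) h2 V₂ hV₂ hπ₂ hne hs B hBint _ V₃
      hB₁ hB₂ hB₃ hsat n hπn hmid h1 h3 s' hs' hs'j h2n h64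
  · -- `q ≥ 5`: both Hauptmoduln
    have h3' : 3 ∣ M' := h3M hq3
    have h3n : ((3 : ℕ) : B) ∉ n :=
      hunitB 3 ((Nat.coprime_primes Nat.prime_three hq).mpr (Ne.symm hq3))
    have hrel3 := c2f25_rel_three (K := K) M' q h3'
    have ht'A : al97L_alpha K (M' * q) q (al97L_alpha K M' q (pk85_h3 K M' h3')) ∈
        sf79_loc B n :=
      c2x25_loc_of_integral B n hBint _ _ (c2i25_int_rel_three _ _ hrel3) s' hs' hs'j
    rcases c2x25_cover B n _ _ _ hjA htA ht'A hrel2 hrel3 h2n h3n with h64 | h27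
    · exact c2i31_reg_two M' q hq hM' hπ (Associated.refl _) h2 V₂ hV₂ hπ₂ hne hs B hBint _ V₃
        hB₁ hB₂ hB₃ hsat n hπn hmid h1 h3 s' hs' hs'j h2n h64
    · exact c2i31_reg_three M' q hq hM' hπ (Associated.refl _) h3' V₂ hV₂ hπ₂ hne hs B hBint _ V₃
        hB₁ hB₂ hB₃ hsat n hπn hmid h1 h3 s' hs' hs'j h3n h27

end c2f25

/-- **Row 600 on the canonical frame, Hauptmodul of level 2** (`s36i62j_Reg2` of `MidBind62`). -/
theorem c2f25_Reg2 : s36i62j_Reg2 := by
  intro M' q r _ _ hq hM' hrig h2 R K _ _ _ _ _ _ _ _ _ _ hπ hunit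
  haveI : Algebra.IsAlgebraic K Q̄ := fs85_isAlgebraic K
  letI a1 : Algebra R ↥(modularFunctionFieldFullC K (M' * q)) :=
    ((algebraMap K ↥(modularFunctionFieldFullC K (M' * q))).comp (algebraMap R K)).toAlgebra
  haveI t1 : IsScalarTower R K ↥(modularFunctionFieldFullC K (M' * q)) :=
    IsScalarTower.of_algebraMap_eq (fun _ => rfl)
  have hqR : ¬ IsUnit ((q : ℕ) : R) := hπ.not_isUnit
  have hMu : IsUnit ((M' : ℕ) : R) :=
    hunit M' (Nat.Coprime.symm ((Nat.Prime.coprime_iff_not_dvd hq).mpr hM'))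
  have h3M : q ≠ 3 → 3 ∣ M' := by
    intro hq3
    obtain ⟨-, h3, -⟩ := hrig
    exact (Nat.Coprime.dvd_mul_right
      ((Nat.coprime_primes Nat.prime_three hq).mpr (Ne.symm hq3))).mp (h3 hq3)
  have hV₂ := v2g64_V2_alpha (algebraMap K Q̄) M' q hq hM' hπ (Associated.refl _)
  have hπ₂ := v2g64_V2_pi (algebraMap K Q̄) M' q hq hM' hπ (Associated.refl _)
  have hne := v2g64_V2_ne (algebraMap K Q̄) M' q hq hM' hπ (Associated.refl _)
  have hs := v2g64_V2_val (algebraMap K Q̄) M' q hq hM' hπ (Associated.refl _)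
  obtain ⟨-, hC, -⟩ := fb85_frameV3_level2 M' q hq hM' hπ hqR hMu h2
    (v2g64_V2 (algebraMap K Q̄) M' q hq hM' hπ (Associated.refl _)) hV₂ hπ₂ hs
  obtain ⟨-, h12W, hsat1, hsat2, -⟩ := hC
  have hsub1 : ({pk85_h2 K (M' * q * q) (h2.trans ((dvd_mul_right M' q).trans (dvd_mul_right (M' * q) q)))} : Set ↥(modularFunctionFieldFullC K (M' * q * q))) ⊆
      {pk85_h2 K (M' * q * q) (h2.trans ((dvd_mul_right M' q).trans (dvd_mul_right (M' * q) q))), (pk85_h2 K (M' * q * q) (h2.trans ((dvd_mul_right M' q).trans (dvd_mul_right (M' * q) q))))⁻¹} := by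
    intro x hx
    rw [Set.mem_singleton_iff.mp hx]
    exact Set.mem_insert _ _
  have hsub2 : ({(pk85_h2 K (M' * q * q) (h2.trans ((dvd_mul_right M' q).trans (dvd_mul_right (M' * q) q))))⁻¹} : Set ↥(modularFunctionFieldFullC K (M' * q * q))) ⊆
      {pk85_h2 K (M' * q * q) (h2.trans ((dvd_mul_right M' q).trans (dvd_mul_right (M' * q) q))), (pk85_h2 K (M' * q * q) (h2.trans ((dvd_mul_right M' q).trans (dvd_mul_right (M' * q) q))))⁻¹} := by
    intro x hx
    rw [Set.mem_singleton_iff.mp hx]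
    exact Set.mem_insert_of_mem _ rfl
  have hBW1 : ∀ x ∈ (pk15_chart R ({pk85_h2 K (M' * q * q) (h2.trans ((dvd_mul_right M' q).trans (dvd_mul_right (M' * q) q)))} : Set ↥(modularFunctionFieldFullC K (M' * q * q)))), x ∈ (cm85_Vinf (K := K) (M' * q * q) hπ).toSubring ⊓ (v2g64_V2 (algebraMap K Q̄) M' q hq hM' hπ (Associated.refl _)).toSubring ⊓ (nsb86_V3 (K := K) M' q hq hM' hπ).toSubring :=
    fun x hx => h12W x (pk15_chart_mono hsub1 hx)
  have hBW2 : ∀ x ∈ (pk15_chart R ({(pk85_h2 K (M' * q * q) (h2.trans ((dvd_mul_right M' q).trans (dvd_mul_right (M' * q) q))))⁻¹} : Set ↥(modularFunctionFieldFullC K (M' * q * q)))), x ∈ (cm85_Vinf (K := K) (M' * q * q) hπ).toSubring ⊓ (v2g64_V2 (algebraMap K Q̄) M' q hq hM' hπ (Associated.refl _)).toSubring ⊓ (nsb86_V3 (K := K) M' q hq hM' hπ).toSubring :=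
    fun x hx => h12W x (pk15_chart_mono hsub2 hx)
  refine ⟨fun n hn hπn hmid h1 h3 hj => ?_, fun n hn hπn hmid h1 h3 hj => ?_⟩
  · exact c2f25_reg_gen (K := K) M' q hq hM' hunit h2 h3M hπ _ hV₂ hπ₂ hne hs _
      (fun z hz => uv17_chart_intClosed _ z hz) _
      (fun x hx => (Subring.mem_inf.mp (Subring.mem_inf.mp (hBW1 x hx)).1).1)
      (fun x hx => (Subring.mem_inf.mp (Subring.mem_inf.mp (hBW1 x hx)).1).2)
      (fun x hx => (Subring.mem_inf.mp (hBW1 x hx)).2)
      (fun x hx h1 h2 h3 => hsat1 x hx (Subring.mem_inf.mpr ⟨Subring.mem_inf.mpr ⟨h1, h2⟩, h3⟩))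
      n hn hπn hmid h1 h3 hj
  · exact c2f25_reg_gen (K := K) M' q hq hM' hunit h2 h3M hπ _ hV₂ hπ₂ hne hs _
      (fun z hz => uv17_chart_intClosed _ z hz) _
      (fun x hx => (Subring.mem_inf.mp (Subring.mem_inf.mp (hBW2 x hx)).1).1)
      (fun x hx => (Subring.mem_inf.mp (Subring.mem_inf.mp (hBW2 x hx)).1).2)
      (fun x hx => (Subring.mem_inf.mp (hBW2 x hx)).2)
      (fun x hx h1 h2 h3 => hsat2 x hx (Subring.mem_inf.mpr ⟨Subring.mem_inf.mpr ⟨h1, h2⟩, h3⟩))
      n hn hπn hmid h1 h3 hj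

end Fermat.Agent.S36
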