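import Fermat.Agent.S36.C2Hreg66
import Fermat.Agent.S36.MidBind62
import Fermat.Agent.S36.FrameBind85
import Fermat.Agent.S34.CuspInst22

/-!
# S36 lab (helper36), row 600 (C-C2): the FINAL composition — `s36i62j_Reg2`, `s36i62j_Reg3`

`s36i62j_Reg2`, `s36i62j_Reg3` (MidBind62, helper62: at every closed point of the two canonical
charts of level `M' q q` lying on the middle branch only at which `j` is regular, the middle
branch is principal) from helper66's per-point theorem `c2r66_core` (C2Hreg66).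

The chart datum `sc` of `c2r66_core` (`sc ∈ B`, `sc ∉ n`, `sc * j ∈ B`, `sc` a unit of `V₁`, `V₂`):
* chart `{h}`, `h = pk85_h2` : `sc = h ^ 2` (`j h² = (h + 256)³`; `h ∉ n` since `j` is regular
  at `n` and `2 ∉ n`);
* chart `{h⁻¹}` : `sc = h⁻¹` (`j h⁻¹ = (1 + 256 h⁻¹)³`; `h⁻¹ ∉ n` since `j` is regular at `n`);
* `h = pk85_h3` : `sc = h ^ 3` (`j h³ = (h + 27)(h + 243)³`, `3 ∉ n`), resp. `sc = h⁻¹`
  (`j h⁻¹ = (1 + 27 h⁻¹)(1 + 243 h⁻¹)³`);
`h, h⁻¹ ∈ W = V₁ ⊓ V₂ ⊓ V₃` by (C) (`fb85_frameV3_level2/3`).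

* `c2f36_chart` : `c2r66_core` at every closed point of a chart with the frame facts and `sc`;
* `c2f36_not_mem_two / _inv_two / _three / _inv_three` : `sc ∉ n` (abstract);
* **`c2f36_Reg2 : s36i62j_Reg2`**, **`c2f36_Reg3 : s36i62j_Reg3`** (no hypothesis).

All names are prefixed `c2f36_`.
-/

set_option autoImplicit false
set_option linter.unusedSectionVars false
set_option linter.unusedVariables false
set_option linter.style.haveILetI false
set_option linter.style.longLine false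

open ModularCurve AlgebraicCurve

namespace Fermat.Agent.S36

open Fermat.Agent.S34 Fermat.Agent.S18 Fermat.Agent.S24 Fermat.Agent.S28 Fermat.Agent.S35
open Fermat.Agent.S36.TripleLoc71

local notation "Q̄" => AlgebraicClosure ℚ

section c2f36_abs

variable {R F : Type*} [CommRing R] [Field F] [Algebra R F]

/-- Level 2, chart of `h`: `h ∉ n` where `j` is regular and `2 ∉ n`. -/
theorem c2f36_not_mem_two (B : Subalgebra R F) (n : Ideal B) [hn : n.IsPrime] (j : F) (h : B)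
    (hrel : j * (h : F) ^ 2 = ((h : F) + 256) ^ 3) (s' b : B) (hs' : s' ∉ n)
    (hsj : (s' : F) * j = (b : F)) (h2 : ((2 : ℕ) : B) ∉ n) : h ∉ n := by
  intro hh
  have hc : ∀ k : ℕ, (((k : ℕ) : B) : F) = (k : F) := fun k => SubringClass.coe_natCast B k
  have key : s' * (h + ((256 : ℕ) : B)) ^ 3 = b * h ^ 2 := by
    apply Subtype.ext
    simp only [Subalgebra.coe_add, Subalgebra.coe_mul, Subalgebra.coe_pow, hc]
    push_cast
    linear_combination (-(s' : F)) * hrel + (h : F) ^ 2 * hsj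
  have h1 : s' * (h + ((256 : ℕ) : B)) ^ 3 ∈ n := by
    rw [key]
    exact n.mul_mem_left _ (n.pow_mem_of_mem hh 2 (by norm_num))
  have h3 : h + ((256 : ℕ) : B) ∈ n := hn.mem_of_pow_mem 3 ((hn.mem_or_mem h1).resolve_left hs')
  have h4 : ((256 : ℕ) : B) ∈ n := by
    have := n.sub_mem h3 hh
    rwa [add_sub_cancel_left] at this
  have h5 : ((2 : ℕ) : B) ^ 8 ∈ n := by
    have e : ((2 : ℕ) : B) ^ 8 = ((256 : ℕ) : B) := by norm_cast
    rw [e]
    exact h4
  exact h2 (hn.mem_of_pow_mem 8 h5)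

/-- Level 2, chart of `h⁻¹`: `k = h⁻¹ ∉ n` where `j` is regular. -/
theorem c2f36_not_mem_inv_two (B : Subalgebra R F) (n : Ideal B) [hn : n.IsPrime] (j : F) (k : B)
    (hrel : (k : F) * j = (1 + 256 * (k : F)) ^ 3) (s' b : B) (hs' : s' ∉ n)
    (hsj : (s' : F) * j = (b : F)) : k ∉ n := by
  intro hk
  have hc : ∀ k : ℕ, (((k : ℕ) : B) : F) = (k : F) := fun k => SubringClass.coe_natCast B k
  have key : s' * (1 + ((256 : ℕ) : B) * k) ^ 3 = b * k := by
    apply Subtype.ext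
    simp only [Subalgebra.coe_add, Subalgebra.coe_mul, Subalgebra.coe_pow, Subalgebra.coe_one, hc]
    push_cast
    linear_combination (s' : F) * (-hrel) + (k : F) * hsj
  have h1 : s' * (1 + ((256 : ℕ) : B) * k) ^ 3 ∈ n := by
    rw [key]
    exact n.mul_mem_left _ hk
  have h3 : 1 + ((256 : ℕ) : B) * k ∈ n :=
    hn.mem_of_pow_mem 3 ((hn.mem_or_mem h1).resolve_left hs')
  have h4 : (1 : B) ∈ n := by
    have := n.sub_mem h3 (n.mul_mem_left ((256 : ℕ) : B) hk)
    rwa [add_sub_cancel_right] at this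
  exact hn.ne_top ((Ideal.eq_top_iff_one n).mpr h4)

/-- Level 3, chart of `h`: `h ∉ n` where `j` is regular and `3 ∉ n`. -/
theorem c2f36_not_mem_three (B : Subalgebra R F) (n : Ideal B) [hn : n.IsPrime] (j : F) (h : B)
    (hrel : j * (h : F) ^ 3 = ((h : F) + 27) * ((h : F) + 243) ^ 3) (s' b : B) (hs' : s' ∉ n)
    (hsj : (s' : F) * j = (b : F)) (h3n : ((3 : ℕ) : B) ∉ n) : h ∉ n := by
  intro hh
  have hc : ∀ k : ℕ, (((k : ℕ) : B) : F) = (k : F) := fun k => SubringClass.coe_natCast B k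
  have key : s' * ((h + ((27 : ℕ) : B)) * (h + ((243 : ℕ) : B)) ^ 3) = b * h ^ 3 := by
    apply Subtype.ext
    simp only [Subalgebra.coe_add, Subalgebra.coe_mul, Subalgebra.coe_pow, hc]
    push_cast
    linear_combination (-(s' : F)) * hrel + (h : F) ^ 3 * hsj
  have h1 : s' * ((h + ((27 : ℕ) : B)) * (h + ((243 : ℕ) : B)) ^ 3) ∈ n := by
    rw [key]
    exact n.mul_mem_left _ (n.pow_mem_of_mem hh 3 (by norm_num))
  rcases hn.mem_or_mem ((hn.mem_or_mem h1).resolve_left hs') with h2 | h2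
  · have h4 : ((27 : ℕ) : B) ∈ n := by
      have := n.sub_mem h2 hh
      rwa [add_sub_cancel_left] at this
    have h5 : ((3 : ℕ) : B) ^ 3 ∈ n := by
      have e : ((3 : ℕ) : B) ^ 3 = ((27 : ℕ) : B) := by norm_cast
      rw [e]
      exact h4
    exact h3n (hn.mem_of_pow_mem 3 h5)
  · have h2' : h + ((243 : ℕ) : B) ∈ n := hn.mem_of_pow_mem 3 h2
    have h4 : ((243 : ℕ) : B) ∈ n := by
      have := n.sub_mem h2' hh
      rwa [add_sub_cancel_left] at this
    have h5 : ((3 : ℕ) : B) ^ 5 ∈ n := by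
      have e : ((3 : ℕ) : B) ^ 5 = ((243 : ℕ) : B) := by norm_cast
      rw [e]
      exact h4
    exact h3n (hn.mem_of_pow_mem 5 h5)

/-- Level 3, chart of `h⁻¹`: `k = h⁻¹ ∉ n` where `j` is regular. -/
theorem c2f36_not_mem_inv_three (B : Subalgebra R F) (n : Ideal B) [hn : n.IsPrime] (j : F)
    (k : B) (hrel : (k : F) * j = (1 + 27 * (k : F)) * (1 + 243 * (k : F)) ^ 3) (s' b : B)
    (hs' : s' ∉ n) (hsj : (s' : F) * j = (b : F)) : k ∉ n := by
  intro hk
  have hc : ∀ k : ℕ, (((k : ℕ) : B) : F) = (k : F) := fun k => SubringClass.coe_natCast B k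
  have key : s' * ((1 + ((27 : ℕ) : B) * k) * (1 + ((243 : ℕ) : B) * k) ^ 3) = b * k := by
    apply Subtype.ext
    simp only [Subalgebra.coe_add, Subalgebra.coe_mul, Subalgebra.coe_pow, Subalgebra.coe_one, hc]
    push_cast
    linear_combination (s' : F) * (-hrel) + (k : F) * hsj
  have h1 : s' * ((1 + ((27 : ℕ) : B) * k) * (1 + ((243 : ℕ) : B) * k) ^ 3) ∈ n := by
    rw [key]
    exact n.mul_mem_left _ hk
  have hone : ∀ c : B, 1 + c * k ∈ n → False := by
    intro c hc'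
    have h4 : (1 : B) ∈ n := by
      have := n.sub_mem hc' (n.mul_mem_left c hk)
      rwa [add_sub_cancel_right] at this
    exact hn.ne_top ((Ideal.eq_top_iff_one n).mpr h4)
  rcases hn.mem_or_mem ((hn.mem_or_mem h1).resolve_left hs') with h2 | h2
  · exact hone _ h2
  · exact hone _ (hn.mem_of_pow_mem 3 h2)

end c2f36_abs

section c2f36_chart

variable {R K : Type} [CommRing R] [IsDomain R] [IsDiscreteValuationRing R] [Field K]
  [NumberField K] [Algebra R K] [IsFractionRing R K] [Algebra K Q̄] [Algebra.IsAlgebraic K Q̄]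
  (M' q : ℕ) [NeZero M'] [NeZero q] (hq : q.Prime) (hM' : ¬ q ∣ M')
  [Algebra R ↥(modularFunctionFieldFullC K M')]
  [IsScalarTower R K ↥(modularFunctionFieldFullC K M')]
  [Algebra R ↥(modularFunctionFieldFullC K (M' * q))]
  [IsScalarTower R K ↥(modularFunctionFieldFullC K (M' * q))]
  [Algebra R ↥(modularFunctionFieldFullC K (M' * q * q))]
  [IsScalarTower R K ↥(modularFunctionFieldFullC K (M' * q * q))]

include hq hM' in
/-- **Row 600 at every `j`-regular `C₂`-only closed point of a chart `B` with the frame facts**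
(`B` integrally closed, `B ⊆ W = V₁ ⊓ V₂ ⊓ V₃`, saturated in `W`) and a chart datum `sc`
(`sc * j ∈ B`, `sc⁻¹ ∈ W`, `sc ∉ n` at the `j`-regular primes `n ∋ q`): `c2r66_core` (helper66). -/
theorem c2f36_chart (hπ : Irreducible ((q : ℕ) : R))
    (hunit : ∀ n : ℕ, Nat.Coprime n q → IsUnit (n : R))
    (h2o : q ≠ 2 → 2 ∣ M') (h3o : q ≠ 3 → 3 ∣ M')
    (V₂ : ValuationSubring ↥(modularFunctionFieldFullC K (M' * q * q)))
    (hV₂ : ∀ c ∈ cm85_Vinf (K := K) (M' * q) hπ, al97L_alpha K (M' * q) q c ∈ V₂)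
    (hπ₂ : (algebraMap K ↥(modularFunctionFieldFullC K (M' * q * q)) (algebraMap R K ((q : ℕ) : R)))⁻¹ ∉ V₂)
    (hne : cm85_Vinf (K := K) (M' * q * q) hπ ≠ V₂)
    (hs : V₂.valuation (v2g64_s K M' q) ^ (q - 1) =
      V₂.valuation (algebraMap K ↥(modularFunctionFieldFullC K (M' * q * q)) (algebraMap R K ((q : ℕ) : R))))
    (B : Subalgebra R ↥(modularFunctionFieldFullC K (M' * q * q)))
    (hBint : ∀ z : ↥(modularFunctionFieldFullC K (M' * q * q)), IsIntegral B z → z ∈ B)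
    (hBW : ∀ x ∈ B, x ∈ (cm85_Vinf (K := K) (M' * q * q) hπ).toSubring ⊓ V₂.toSubring ⊓
      (nsb86_V3 (K := K) M' q hq hM' hπ).toSubring)
    (hsatW : ∀ x ∈ B, (algebraMap R ↥(modularFunctionFieldFullC K (M' * q * q)) ((q : ℕ) : R))⁻¹ * x ∈
        (cm85_Vinf (K := K) (M' * q * q) hπ).toSubring ⊓ V₂.toSubring ⊓ (nsb86_V3 (K := K) M' q hq hM' hπ).toSubring →
      (algebraMap R ↥(modularFunctionFieldFullC K (M' * q * q)) ((q : ℕ) : R))⁻¹ * x ∈ B)
    (sc : B) (hscj : (sc : ↥(modularFunctionFieldFullC K (M' * q * q))) * rm90_j K (M' * q * q) ∈ B)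
    (hscW : (sc : ↥(modularFunctionFieldFullC K (M' * q * q)))⁻¹ ∈ (cm85_Vinf (K := K) (M' * q * q) hπ).toSubring ⊓ V₂.toSubring ⊓
      (nsb86_V3 (K := K) M' q hq hM' hπ).toSubring)
    (hscn : ∀ n : Ideal B, n.IsPrime → ((q : ℕ) : B) ∈ n →
      (∃ s' b : B, s' ∉ n ∧ (s' : ↥(modularFunctionFieldFullC K (M' * q * q))) * rm90_j K (M' * q * q) = (b : ↥(modularFunctionFieldFullC K (M' * q * q)))) → sc ∉ n) :
    ∀ n : Ideal B, n.IsMaximal → algebraMap R B ((q : ℕ) : R) ∈ n →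
      tl71_OnMid (v2g64_s K M' q) B V₂.toSubring n →
      ¬ sf79_OnBr ((q : ℕ) : R) B (cm85_Vinf (K := K) (M' * q * q) hπ).toSubring n →
      ¬ sf79_OnBr ((q : ℕ) : R) B (nsb86_V3 (K := K) M' q hq hM' hπ).toSubring n →
      (∃ s' b : B, s' ∉ n ∧ (s' : ↥(modularFunctionFieldFullC K (M' * q * q))) * rm90_j K (M' * q * q) = (b : ↥(modularFunctionFieldFullC K (M' * q * q)))) →
      mc25_MidPrinAt (v2g64_s K M' q) B V₂.toSubring n := by
  intro n hn hπn hmid h1 h3 hreg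
  haveI : n.IsPrime := hn.isPrime
  have hqn : ((q : ℕ) : B) ∈ n := by
    have e : algebraMap R B ((q : ℕ) : R) = ((q : ℕ) : B) := map_natCast (algebraMap R B) q
    rw [← e]
    exact hπn
  exact c2r66_core (K := K) M' q hq hM' hπ hunit h2o h3o V₂ hV₂ hπ₂ hne (v2g64_s K M' q) hs B hBint
    (nsb86_V3 (K := K) M' q hq hM' hπ)
    (fun x hx => (hBW x hx).1.1) (fun x hx => (hBW x hx).1.2) (fun x hx => (hBW x hx).2)
    (fun x hx a1 a2 a3 => hsatW x hx ⟨⟨a1, a2⟩, a3⟩)
    n hqn hmid h1 h3 sc (hscn n hn.isPrime hqn hreg) hscj hscW.1.1 hscW.1.2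

end c2f36_chart

section c2f36_final

/-- **Row 600 on the canonical frame, Hauptmodul of level 2: `s36i62j_Reg2` (MidBind62).** -/
theorem c2f36_Reg2 : s36i62j_Reg2 := by
  intro M' q r _ _ hq hM' hrig h2 R K _ _ _ _ _ _ _ _ _ _ hπ hunit
  haveI : Algebra.IsAlgebraic K Q̄ := fs85_isAlgebraic K
  letI a1 : Algebra R ↥(modularFunctionFieldFullC K M') :=
    ((algebraMap K ↥(modularFunctionFieldFullC K M')).comp (algebraMap R K)).toAlgebra
  haveI : IsScalarTower R K ↥(modularFunctionFieldFullC K M') :=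
    IsScalarTower.of_algebraMap_eq (fun _ => rfl)
  letI a2 : Algebra R ↥(modularFunctionFieldFullC K (M' * q)) :=
    ((algebraMap K ↥(modularFunctionFieldFullC K (M' * q))).comp (algebraMap R K)).toAlgebra
  haveI : IsScalarTower R K ↥(modularFunctionFieldFullC K (M' * q)) :=
    IsScalarTower.of_algebraMap_eq (fun _ => rfl)
  have hqR : ¬ IsUnit ((q : ℕ) : R) := hπ.not_isUnit
  have hMu : IsUnit (M' : R) := hunit M' ((Nat.Prime.coprime_iff_not_dvd hq).mpr hM').symm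
  have hqk : q ≠ 2 := by
    rintro rfl
    exact hM' h2
  have h2o : q ≠ 2 → 2 ∣ M' := fun _ => h2
  have h3o : q ≠ 3 → 3 ∣ M' := by
    intro hq3
    have h3 := hrig.2.1 hq3
    rcases (Nat.Prime.dvd_mul Nat.prime_three).mp h3 with h | h
    · exact h
    · exact absurd ((Nat.prime_dvd_prime_iff_eq Nat.prime_three hq).mp h).symm hq3
  have hV₂ := v2g64_V2_alpha (algebraMap K Q̄) M' q hq hM' hπ (Associated.refl _)
  have hπ₂ := v2g64_V2_pi (algebraMap K Q̄) M' q hq hM' hπ (Associated.refl _)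
  have hne := v2g64_V2_ne (algebraMap K Q̄) M' q hq hM' hπ (Associated.refl _)
  have hs := v2g64_V2_val (algebraMap K Q̄) M' q hq hM' hπ (Associated.refl _)
  obtain ⟨-, hC, -⟩ := fb85_frameV3_level2 M' q hq hM' hπ hqR hMu h2
    (v2g64_V2 (algebraMap K Q̄) M' q hq hM' hπ (Associated.refl _)) hV₂ hπ₂ hs
  obtain ⟨htr, h12W, hsat1, hsat2, -⟩ := hC
  have hh0 : pk85_h2 K (M' * q * q) (h2.trans ((dvd_mul_right M' q).trans (dvd_mul_right (M' * q) q))) ≠ 0 := by
    intro h0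
    rw [h0] at htr
    exact htr isAlgebraic_zero
  have hrel : rm90_j K (M' * q * q) * (pk85_h2 K (M' * q * q) (h2.trans ((dvd_mul_right M' q).trans (dvd_mul_right (M' * q) q)))) ^ 2 = (pk85_h2 K (M' * q * q) (h2.trans ((dvd_mul_right M' q).trans (dvd_mul_right (M' * q) q))) + 256) ^ 3 :=
    pk85_h2_rel K (M' * q * q) (h2.trans ((dvd_mul_right M' q).trans (dvd_mul_right (M' * q) q)))
  have hrelk : (pk85_h2 K (M' * q * q) (h2.trans ((dvd_mul_right M' q).trans (dvd_mul_right (M' * q) q))))⁻¹ * rm90_j K (M' * q * q) = (1 + 256 * (pk85_h2 K (M' * q * q) (h2.trans ((dvd_mul_right M' q).trans (dvd_mul_right (M' * q) q))))⁻¹) ^ 3 := by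
    have e0 : (1 : ↥(modularFunctionFieldFullC K (M' * q * q))) + 256 * (pk85_h2 K (M' * q * q) (h2.trans ((dvd_mul_right M' q).trans (dvd_mul_right (M' * q) q))))⁻¹ = (pk85_h2 K (M' * q * q) (h2.trans ((dvd_mul_right M' q).trans (dvd_mul_right (M' * q) q))) + 256) * (pk85_h2 K (M' * q * q) (h2.trans ((dvd_mul_right M' q).trans (dvd_mul_right (M' * q) q))))⁻¹ := by
      rw [add_mul, mul_inv_cancel₀ hh0]
    rw [e0, mul_pow, ← hrel]
    field_simp
  have hmem1 : pk85_h2 K (M' * q * q) (h2.trans ((dvd_mul_right M' q).trans (dvd_mul_right (M' * q) q))) ∈ pk15_chart R ({pk85_h2 K (M' * q * q) (h2.trans ((dvd_mul_right M' q).trans (dvd_mul_right (M' * q) q))), (pk85_h2 K (M' * q * q) (h2.trans ((dvd_mul_right M' q).trans (dvd_mul_right (M' * q) q))))⁻¹} : Set ↥(modularFunctionFieldFullC K (M' * q * q))) :=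
    pk15_subset_chart _ (Set.mem_insert _ _)
  have hmem2 : (pk85_h2 K (M' * q * q) (h2.trans ((dvd_mul_right M' q).trans (dvd_mul_right (M' * q) q))))⁻¹ ∈ pk15_chart R ({pk85_h2 K (M' * q * q) (h2.trans ((dvd_mul_right M' q).trans (dvd_mul_right (M' * q) q))), (pk85_h2 K (M' * q * q) (h2.trans ((dvd_mul_right M' q).trans (dvd_mul_right (M' * q) q))))⁻¹} : Set ↥(modularFunctionFieldFullC K (M' * q * q))) :=
    pk15_subset_chart _ (Set.mem_insert_of_mem _ rfl)
  have hsub1 : ({pk85_h2 K (M' * q * q) (h2.trans ((dvd_mul_right M' q).trans (dvd_mul_right (M' * q) q)))} : Set ↥(modularFunctionFieldFullC K (M' * q * q))) ⊆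
      {pk85_h2 K (M' * q * q) (h2.trans ((dvd_mul_right M' q).trans (dvd_mul_right (M' * q) q))), (pk85_h2 K (M' * q * q) (h2.trans ((dvd_mul_right M' q).trans (dvd_mul_right (M' * q) q))))⁻¹} := by
    intro x hx
    rw [Set.mem_singleton_iff.mp hx]
    exact Set.mem_insert _ _
  have hsub2 : ({(pk85_h2 K (M' * q * q) (h2.trans ((dvd_mul_right M' q).trans (dvd_mul_right (M' * q) q))))⁻¹} : Set ↥(modularFunctionFieldFullC K (M' * q * q))) ⊆
      {pk85_h2 K (M' * q * q) (h2.trans ((dvd_mul_right M' q).trans (dvd_mul_right (M' * q) q))), (pk85_h2 K (M' * q * q) (h2.trans ((dvd_mul_right M' q).trans (dvd_mul_right (M' * q) q))))⁻¹} := by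
    intro x hx
    rw [Set.mem_singleton_iff.mp hx]
    exact Set.mem_insert_of_mem _ rfl
  have hhm₁ : pk85_h2 K (M' * q * q) (h2.trans ((dvd_mul_right M' q).trans (dvd_mul_right (M' * q) q))) ∈ (pk15_chart R ({pk85_h2 K (M' * q * q) (h2.trans ((dvd_mul_right M' q).trans (dvd_mul_right (M' * q) q)))} : Set ↥(modularFunctionFieldFullC K (M' * q * q)))) := pk15_subset_chart _ (Set.mem_singleton _)
  have hkm₂ : (pk85_h2 K (M' * q * q) (h2.trans ((dvd_mul_right M' q).trans (dvd_mul_right (M' * q) q))))⁻¹ ∈ (pk15_chart R ({(pk85_h2 K (M' * q * q) (h2.trans ((dvd_mul_right M' q).trans (dvd_mul_right (M' * q) q))))⁻¹} : Set ↥(modularFunctionFieldFullC K (M' * q * q)))) := pk15_subset_chart _ (Set.mem_singleton _)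
  have hnum₁ : ∀ c : ℕ, ((c : ℕ) : ↥(modularFunctionFieldFullC K (M' * q * q))) ∈ (pk15_chart R ({pk85_h2 K (M' * q * q) (h2.trans ((dvd_mul_right M' q).trans (dvd_mul_right (M' * q) q)))} : Set ↥(modularFunctionFieldFullC K (M' * q * q)))) := fun c => Subalgebra.natCast_mem _ c
  have hnum₂ : ∀ c : ℕ, ((c : ℕ) : ↥(modularFunctionFieldFullC K (M' * q * q))) ∈ (pk15_chart R ({(pk85_h2 K (M' * q * q) (h2.trans ((dvd_mul_right M' q).trans (dvd_mul_right (M' * q) q))))⁻¹} : Set ↥(modularFunctionFieldFullC K (M' * q * q)))) := fun c => Subalgebra.natCast_mem _ c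
  constructor
  · -- the chart of `h`
    have hscj : (((⟨pk85_h2 K (M' * q * q) (h2.trans ((dvd_mul_right M' q).trans (dvd_mul_right (M' * q) q))), hhm₁⟩ : ↥(pk15_chart R ({pk85_h2 K (M' * q * q) (h2.trans ((dvd_mul_right M' q).trans (dvd_mul_right (M' * q) q)))} : Set ↥(modularFunctionFieldFullC K (M' * q * q))))) ^ 2 : ↥(pk15_chart R ({pk85_h2 K (M' * q * q) (h2.trans ((dvd_mul_right M' q).trans (dvd_mul_right (M' * q) q)))} : Set ↥(modularFunctionFieldFullC K (M' * q * q))))) : ↥(modularFunctionFieldFullC K (M' * q * q))) * rm90_j K (M' * q * q) ∈ (pk15_chart R ({pk85_h2 K (M' * q * q) (h2.trans ((dvd_mul_right M' q).trans (dvd_mul_right (M' * q) q)))} : Set ↥(modularFunctionFieldFullC K (M' * q * q)))) := by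
      have e : (((⟨pk85_h2 K (M' * q * q) (h2.trans ((dvd_mul_right M' q).trans (dvd_mul_right (M' * q) q))), hhm₁⟩ : ↥(pk15_chart R ({pk85_h2 K (M' * q * q) (h2.trans ((dvd_mul_right M' q).trans (dvd_mul_right (M' * q) q)))} : Set ↥(modularFunctionFieldFullC K (M' * q * q))))) ^ 2 : ↥(pk15_chart R ({pk85_h2 K (M' * q * q) (h2.trans ((dvd_mul_right M' q).trans (dvd_mul_right (M' * q) q)))} : Set ↥(modularFunctionFieldFullC K (M' * q * q))))) : ↥(modularFunctionFieldFullC K (M' * q * q))) * rm90_j K (M' * q * q) = (pk85_h2 K (M' * q * q) (h2.trans ((dvd_mul_right M' q).trans (dvd_mul_right (M' * q) q))) + 256) ^ 3 := by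
        rw [Subalgebra.coe_pow]
        exact (mul_comm _ _).trans hrel
      rw [e]
      have hm := (Subalgebra.pow_mem _ (Subalgebra.add_mem _ hhm₁ (hnum₁ 256)) 3)
      simpa using hm
    have hscW : (((⟨pk85_h2 K (M' * q * q) (h2.trans ((dvd_mul_right M' q).trans (dvd_mul_right (M' * q) q))), hhm₁⟩ : ↥(pk15_chart R ({pk85_h2 K (M' * q * q) (h2.trans ((dvd_mul_right M' q).trans (dvd_mul_right (M' * q) q)))} : Set ↥(modularFunctionFieldFullC K (M' * q * q))))) ^ 2 : ↥(pk15_chart R ({pk85_h2 K (M' * q * q) (h2.trans ((dvd_mul_right M' q).trans (dvd_mul_right (M' * q) q)))} : Set ↥(modularFunctionFieldFullC K (M' * q * q))))) : ↥(modularFunctionFieldFullC K (M' * q * q)))⁻¹ ∈ (cm85_Vinf (K := K) (M' * q * q) hπ).toSubring ⊓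
        (v2g64_V2 (algebraMap K Q̄) M' q hq hM' hπ (Associated.refl _)).toSubring ⊓ (nsb86_V3 (K := K) M' q hq hM' hπ).toSubring := by
      have e : (((⟨pk85_h2 K (M' * q * q) (h2.trans ((dvd_mul_right M' q).trans (dvd_mul_right (M' * q) q))), hhm₁⟩ : ↥(pk15_chart R ({pk85_h2 K (M' * q * q) (h2.trans ((dvd_mul_right M' q).trans (dvd_mul_right (M' * q) q)))} : Set ↥(modularFunctionFieldFullC K (M' * q * q))))) ^ 2 : ↥(pk15_chart R ({pk85_h2 K (M' * q * q) (h2.trans ((dvd_mul_right M' q).trans (dvd_mul_right (M' * q) q)))} : Set ↥(modularFunctionFieldFullC K (M' * q * q))))) : ↥(modularFunctionFieldFullC K (M' * q * q)))⁻¹ = ((pk85_h2 K (M' * q * q) (h2.trans ((dvd_mul_right M' q).trans (dvd_mul_right (M' * q) q))))⁻¹) ^ 2 := by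
        rw [Subalgebra.coe_pow, ← inv_pow]
      rw [e]
      exact pow_mem (h12W _ hmem2) _
    refine c2f36_chart (K := K) M' q hq hM' hπ hunit h2o h3o _ hV₂ hπ₂ hne hs (pk15_chart R ({pk85_h2 K (M' * q * q) (h2.trans ((dvd_mul_right M' q).trans (dvd_mul_right (M' * q) q)))} : Set ↥(modularFunctionFieldFullC K (M' * q * q))))
      (fun z hz => ci22_chart_closed _ z hz)
      (fun x hx => h12W x (pk15_chart_mono hsub1 hx)) hsat1 ((⟨pk85_h2 K (M' * q * q) (h2.trans ((dvd_mul_right M' q).trans (dvd_mul_right (M' * q) q))), hhm₁⟩ : ↥(pk15_chart R ({pk85_h2 K (M' * q * q) (h2.trans ((dvd_mul_right M' q).trans (dvd_mul_right (M' * q) q)))} : Set ↥(modularFunctionFieldFullC K (M' * q * q))))) ^ 2) hscj hscW ?_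
    intro n hnp hqn hreg
    obtain ⟨s', b, hs', hsb⟩ := hreg
    haveI := hnp
    have hpn : ((2 : ℕ) : ↥(pk15_chart R ({pk85_h2 K (M' * q * q) (h2.trans ((dvd_mul_right M' q).trans (dvd_mul_right (M' * q) q)))} : Set ↥(modularFunctionFieldFullC K (M' * q * q))))) ∉ n :=
      c2r66_prime_not_mem (pk15_chart R ({pk85_h2 K (M' * q * q) (h2.trans ((dvd_mul_right M' q).trans (dvd_mul_right (M' * q) q)))} : Set ↥(modularFunctionFieldFullC K (M' * q * q)))) n q 2 hq Nat.prime_two (Ne.symm hqk) hqn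
    have hh := c2f36_not_mem_two (pk15_chart R ({pk85_h2 K (M' * q * q) (h2.trans ((dvd_mul_right M' q).trans (dvd_mul_right (M' * q) q)))} : Set ↥(modularFunctionFieldFullC K (M' * q * q)))) n (rm90_j K (M' * q * q)) ⟨pk85_h2 K (M' * q * q) (h2.trans ((dvd_mul_right M' q).trans (dvd_mul_right (M' * q) q))), hhm₁⟩ hrel s' b hs' hsb hpn
    exact fun hc => hh (hnp.mem_of_pow_mem 2 hc)
  · -- the chart of `h⁻¹`
    have hscj : ((⟨(pk85_h2 K (M' * q * q) (h2.trans ((dvd_mul_right M' q).trans (dvd_mul_right (M' * q) q))))⁻¹, hkm₂⟩ : ↥(pk15_chart R ({(pk85_h2 K (M' * q * q) (h2.trans ((dvd_mul_right M' q).trans (dvd_mul_right (M' * q) q))))⁻¹} : Set ↥(modularFunctionFieldFullC K (M' * q * q))))) : ↥(modularFunctionFieldFullC K (M' * q * q))) * rm90_j K (M' * q * q) ∈ (pk15_chart R ({(pk85_h2 K (M' * q * q) (h2.trans ((dvd_mul_right M' q).trans (dvd_mul_right (M' * q) q))))⁻¹} : Set ↥(modularFunctionFieldFullC K (M' * q * q)))) := by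
      have e : ((⟨(pk85_h2 K (M' * q * q) (h2.trans ((dvd_mul_right M' q).trans (dvd_mul_right (M' * q) q))))⁻¹, hkm₂⟩ : ↥(pk15_chart R ({(pk85_h2 K (M' * q * q) (h2.trans ((dvd_mul_right M' q).trans (dvd_mul_right (M' * q) q))))⁻¹} : Set ↥(modularFunctionFieldFullC K (M' * q * q))))) : ↥(modularFunctionFieldFullC K (M' * q * q))) * rm90_j K (M' * q * q) = _ := hrelk
      rw [e]
      have hm := (Subalgebra.pow_mem _ (Subalgebra.add_mem _ (Subalgebra.one_mem _) (Subalgebra.mul_mem _ (hnum₂ 256) hkm₂)) 3)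
      simpa using hm
    have hscW : ((⟨(pk85_h2 K (M' * q * q) (h2.trans ((dvd_mul_right M' q).trans (dvd_mul_right (M' * q) q))))⁻¹, hkm₂⟩ : ↥(pk15_chart R ({(pk85_h2 K (M' * q * q) (h2.trans ((dvd_mul_right M' q).trans (dvd_mul_right (M' * q) q))))⁻¹} : Set ↥(modularFunctionFieldFullC K (M' * q * q))))) : ↥(modularFunctionFieldFullC K (M' * q * q)))⁻¹ ∈ (cm85_Vinf (K := K) (M' * q * q) hπ).toSubring ⊓
        (v2g64_V2 (algebraMap K Q̄) M' q hq hM' hπ (Associated.refl _)).toSubring ⊓ (nsb86_V3 (K := K) M' q hq hM' hπ).toSubring := by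
      have e : ((⟨(pk85_h2 K (M' * q * q) (h2.trans ((dvd_mul_right M' q).trans (dvd_mul_right (M' * q) q))))⁻¹, hkm₂⟩ : ↥(pk15_chart R ({(pk85_h2 K (M' * q * q) (h2.trans ((dvd_mul_right M' q).trans (dvd_mul_right (M' * q) q))))⁻¹} : Set ↥(modularFunctionFieldFullC K (M' * q * q))))) : ↥(modularFunctionFieldFullC K (M' * q * q)))⁻¹ = pk85_h2 K (M' * q * q) (h2.trans ((dvd_mul_right M' q).trans (dvd_mul_right (M' * q) q))) := inv_inv _
      rw [e]
      exact h12W _ hmem1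
    refine c2f36_chart (K := K) M' q hq hM' hπ hunit h2o h3o _ hV₂ hπ₂ hne hs (pk15_chart R ({(pk85_h2 K (M' * q * q) (h2.trans ((dvd_mul_right M' q).trans (dvd_mul_right (M' * q) q))))⁻¹} : Set ↥(modularFunctionFieldFullC K (M' * q * q))))
      (fun z hz => ci22_chart_closed _ z hz)
      (fun x hx => h12W x (pk15_chart_mono hsub2 hx)) hsat2 (⟨(pk85_h2 K (M' * q * q) (h2.trans ((dvd_mul_right M' q).trans (dvd_mul_right (M' * q) q))))⁻¹, hkm₂⟩ : ↥(pk15_chart R ({(pk85_h2 K (M' * q * q) (h2.trans ((dvd_mul_right M' q).trans (dvd_mul_right (M' * q) q))))⁻¹} : Set ↥(modularFunctionFieldFullC K (M' * q * q))))) hscj hscW ?_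
    intro n hnp hqn hreg
    obtain ⟨s', b, hs', hsb⟩ := hreg
    haveI := hnp
    exact c2f36_not_mem_inv_two (pk15_chart R ({(pk85_h2 K (M' * q * q) (h2.trans ((dvd_mul_right M' q).trans (dvd_mul_right (M' * q) q))))⁻¹} : Set ↥(modularFunctionFieldFullC K (M' * q * q)))) n (rm90_j K (M' * q * q)) ⟨(pk85_h2 K (M' * q * q) (h2.trans ((dvd_mul_right M' q).trans (dvd_mul_right (M' * q) q))))⁻¹, hkm₂⟩ hrelk s' b hs' hsb

/-- **Row 600 on the canonical frame, Hauptmodul of level 3: `s36i62j_Reg3` (MidBind62).** -/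
theorem c2f36_Reg3 : s36i62j_Reg3 := by
  intro M' q r _ _ hq hM' hrig hq2 h3 R K _ _ _ _ _ _ _ _ _ _ hπ hunit
  haveI : Algebra.IsAlgebraic K Q̄ := fs85_isAlgebraic K
  letI a1 : Algebra R ↥(modularFunctionFieldFullC K M') :=
    ((algebraMap K ↥(modularFunctionFieldFullC K M')).comp (algebraMap R K)).toAlgebra
  haveI : IsScalarTower R K ↥(modularFunctionFieldFullC K M') :=
    IsScalarTower.of_algebraMap_eq (fun _ => rfl)
  letI a2 : Algebra R ↥(modularFunctionFieldFullC K (M' * q)) :=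
    ((algebraMap K ↥(modularFunctionFieldFullC K (M' * q))).comp (algebraMap R K)).toAlgebra
  haveI : IsScalarTower R K ↥(modularFunctionFieldFullC K (M' * q)) :=
    IsScalarTower.of_algebraMap_eq (fun _ => rfl)
  have hqR : ¬ IsUnit ((q : ℕ) : R) := hπ.not_isUnit
  have hMu : IsUnit (M' : R) := hunit M' ((Nat.Prime.coprime_iff_not_dvd hq).mpr hM').symm
  have hqk : q ≠ 3 := by
    rintro rfl
    exact hM' h3
  have h2o : q ≠ 2 → 2 ∣ M' := fun h => absurd hq2 h
  have h3o : q ≠ 3 → 3 ∣ M' := fun _ => h3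
  have hV₂ := v2g64_V2_alpha (algebraMap K Q̄) M' q hq hM' hπ (Associated.refl _)
  have hπ₂ := v2g64_V2_pi (algebraMap K Q̄) M' q hq hM' hπ (Associated.refl _)
  have hne := v2g64_V2_ne (algebraMap K Q̄) M' q hq hM' hπ (Associated.refl _)
  have hs := v2g64_V2_val (algebraMap K Q̄) M' q hq hM' hπ (Associated.refl _)
  obtain ⟨-, hC, -⟩ := fb85_frameV3_level3 M' q hq hM' hπ hqR hMu h3
    (v2g64_V2 (algebraMap K Q̄) M' q hq hM' hπ (Associated.refl _)) hV₂ hπ₂ hs
  obtain ⟨htr, h12W, hsat1, hsat2, -⟩ := hC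
  have hh0 : pk85_h3 K (M' * q * q) (h3.trans ((dvd_mul_right M' q).trans (dvd_mul_right (M' * q) q))) ≠ 0 := by
    intro h0
    rw [h0] at htr
    exact htr isAlgebraic_zero
  have hrel : rm90_j K (M' * q * q) * (pk85_h3 K (M' * q * q) (h3.trans ((dvd_mul_right M' q).trans (dvd_mul_right (M' * q) q)))) ^ 3 = (pk85_h3 K (M' * q * q) (h3.trans ((dvd_mul_right M' q).trans (dvd_mul_right (M' * q) q))) + 27) * (pk85_h3 K (M' * q * q) (h3.trans ((dvd_mul_right M' q).trans (dvd_mul_right (M' * q) q))) + 243) ^ 3 :=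
    pk85_h3_rel K (M' * q * q) (h3.trans ((dvd_mul_right M' q).trans (dvd_mul_right (M' * q) q)))
  have hrelk : (pk85_h3 K (M' * q * q) (h3.trans ((dvd_mul_right M' q).trans (dvd_mul_right (M' * q) q))))⁻¹ * rm90_j K (M' * q * q) = (1 + 27 * (pk85_h3 K (M' * q * q) (h3.trans ((dvd_mul_right M' q).trans (dvd_mul_right (M' * q) q))))⁻¹) * (1 + 243 * (pk85_h3 K (M' * q * q) (h3.trans ((dvd_mul_right M' q).trans (dvd_mul_right (M' * q) q))))⁻¹) ^ 3 := by
    have e0 : (1 : ↥(modularFunctionFieldFullC K (M' * q * q))) + 27 * (pk85_h3 K (M' * q * q) (h3.trans ((dvd_mul_right M' q).trans (dvd_mul_right (M' * q) q))))⁻¹ = (pk85_h3 K (M' * q * q) (h3.trans ((dvd_mul_right M' q).trans (dvd_mul_right (M' * q) q))) + 27) * (pk85_h3 K (M' * q * q) (h3.trans ((dvd_mul_right M' q).trans (dvd_mul_right (M' * q) q))))⁻¹ := by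
      rw [add_mul, mul_inv_cancel₀ hh0]
    have e1 : (1 : ↥(modularFunctionFieldFullC K (M' * q * q))) + 243 * (pk85_h3 K (M' * q * q) (h3.trans ((dvd_mul_right M' q).trans (dvd_mul_right (M' * q) q))))⁻¹ = (pk85_h3 K (M' * q * q) (h3.trans ((dvd_mul_right M' q).trans (dvd_mul_right (M' * q) q))) + 243) * (pk85_h3 K (M' * q * q) (h3.trans ((dvd_mul_right M' q).trans (dvd_mul_right (M' * q) q))))⁻¹ := by
      rw [add_mul, mul_inv_cancel₀ hh0]
    have e2 : (pk85_h3 K (M' * q * q) (h3.trans ((dvd_mul_right M' q).trans (dvd_mul_right (M' * q) q))) + 27) * (pk85_h3 K (M' * q * q) (h3.trans ((dvd_mul_right M' q).trans (dvd_mul_right (M' * q) q))))⁻¹ * ((pk85_h3 K (M' * q * q) (h3.trans ((dvd_mul_right M' q).trans (dvd_mul_right (M' * q) q))) + 243) * (pk85_h3 K (M' * q * q) (h3.trans ((dvd_mul_right M' q).trans (dvd_mul_right (M' * q) q))))⁻¹) ^ 3 =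
        ((pk85_h3 K (M' * q * q) (h3.trans ((dvd_mul_right M' q).trans (dvd_mul_right (M' * q) q))) + 27) * (pk85_h3 K (M' * q * q) (h3.trans ((dvd_mul_right M' q).trans (dvd_mul_right (M' * q) q))) + 243) ^ 3) * ((pk85_h3 K (M' * q * q) (h3.trans ((dvd_mul_right M' q).trans (dvd_mul_right (M' * q) q))))⁻¹) ^ 4 := by ring
    rw [e0, e1, e2, ← hrel]
    field_simp
  have hmem1 : pk85_h3 K (M' * q * q) (h3.trans ((dvd_mul_right M' q).trans (dvd_mul_right (M' * q) q))) ∈ pk15_chart R ({pk85_h3 K (M' * q * q) (h3.trans ((dvd_mul_right M' q).trans (dvd_mul_right (M' * q) q))), (pk85_h3 K (M' * q * q) (h3.trans ((dvd_mul_right M' q).trans (dvd_mul_right (M' * q) q))))⁻¹} : Set ↥(modularFunctionFieldFullC K (M' * q * q))) :=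
    pk15_subset_chart _ (Set.mem_insert _ _)
  have hmem2 : (pk85_h3 K (M' * q * q) (h3.trans ((dvd_mul_right M' q).trans (dvd_mul_right (M' * q) q))))⁻¹ ∈ pk15_chart R ({pk85_h3 K (M' * q * q) (h3.trans ((dvd_mul_right M' q).trans (dvd_mul_right (M' * q) q))), (pk85_h3 K (M' * q * q) (h3.trans ((dvd_mul_right M' q).trans (dvd_mul_right (M' * q) q))))⁻¹} : Set ↥(modularFunctionFieldFullC K (M' * q * q))) :=
    pk15_subset_chart _ (Set.mem_insert_of_mem _ rfl)
  have hsub1 : ({pk85_h3 K (M' * q * q) (h3.trans ((dvd_mul_right M' q).trans (dvd_mul_right (M' * q) q)))} : Set ↥(modularFunctionFieldFullC K (M' * q * q))) ⊆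
      {pk85_h3 K (M' * q * q) (h3.trans ((dvd_mul_right M' q).trans (dvd_mul_right (M' * q) q))), (pk85_h3 K (M' * q * q) (h3.trans ((dvd_mul_right M' q).trans (dvd_mul_right (M' * q) q))))⁻¹} := by
    intro x hx
    rw [Set.mem_singleton_iff.mp hx]
    exact Set.mem_insert _ _
  have hsub2 : ({(pk85_h3 K (M' * q * q) (h3.trans ((dvd_mul_right M' q).trans (dvd_mul_right (M' * q) q))))⁻¹} : Set ↥(modularFunctionFieldFullC K (M' * q * q))) ⊆
      {pk85_h3 K (M' * q * q) (h3.trans ((dvd_mul_right M' q).trans (dvd_mul_right (M' * q) q))), (pk85_h3 K (M' * q * q) (h3.trans ((dvd_mul_right M' q).trans (dvd_mul_right (M' * q) q))))⁻¹} := by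
    intro x hx
    rw [Set.mem_singleton_iff.mp hx]
    exact Set.mem_insert_of_mem _ rfl
  have hhm₁ : pk85_h3 K (M' * q * q) (h3.trans ((dvd_mul_right M' q).trans (dvd_mul_right (M' * q) q))) ∈ (pk15_chart R ({pk85_h3 K (M' * q * q) (h3.trans ((dvd_mul_right M' q).trans (dvd_mul_right (M' * q) q)))} : Set ↥(modularFunctionFieldFullC K (M' * q * q)))) := pk15_subset_chart _ (Set.mem_singleton _)
  have hkm₂ : (pk85_h3 K (M' * q * q) (h3.trans ((dvd_mul_right M' q).trans (dvd_mul_right (M' * q) q))))⁻¹ ∈ (pk15_chart R ({(pk85_h3 K (M' * q * q) (h3.trans ((dvd_mul_right M' q).trans (dvd_mul_right (M' * q) q))))⁻¹} : Set ↥(modularFunctionFieldFullC K (M' * q * q)))) := pk15_subset_chart _ (Set.mem_singleton _)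
  have hnum₁ : ∀ c : ℕ, ((c : ℕ) : ↥(modularFunctionFieldFullC K (M' * q * q))) ∈ (pk15_chart R ({pk85_h3 K (M' * q * q) (h3.trans ((dvd_mul_right M' q).trans (dvd_mul_right (M' * q) q)))} : Set ↥(modularFunctionFieldFullC K (M' * q * q)))) := fun c => Subalgebra.natCast_mem _ c
  have hnum₂ : ∀ c : ℕ, ((c : ℕ) : ↥(modularFunctionFieldFullC K (M' * q * q))) ∈ (pk15_chart R ({(pk85_h3 K (M' * q * q) (h3.trans ((dvd_mul_right M' q).trans (dvd_mul_right (M' * q) q))))⁻¹} : Set ↥(modularFunctionFieldFullC K (M' * q * q)))) := fun c => Subalgebra.natCast_mem _ c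
  constructor
  · -- the chart of `h`
    have hscj : (((⟨pk85_h3 K (M' * q * q) (h3.trans ((dvd_mul_right M' q).trans (dvd_mul_right (M' * q) q))), hhm₁⟩ : ↥(pk15_chart R ({pk85_h3 K (M' * q * q) (h3.trans ((dvd_mul_right M' q).trans (dvd_mul_right (M' * q) q)))} : Set ↥(modularFunctionFieldFullC K (M' * q * q))))) ^ 3 : ↥(pk15_chart R ({pk85_h3 K (M' * q * q) (h3.trans ((dvd_mul_right M' q).trans (dvd_mul_right (M' * q) q)))} : Set ↥(modularFunctionFieldFullC K (M' * q * q))))) : ↥(modularFunctionFieldFullC K (M' * q * q))) * rm90_j K (M' * q * q) ∈ (pk15_chart R ({pk85_h3 K (M' * q * q) (h3.trans ((dvd_mul_right M' q).trans (dvd_mul_right (M' * q) q)))} : Set ↥(modularFunctionFieldFullC K (M' * q * q)))) := by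
      have e : (((⟨pk85_h3 K (M' * q * q) (h3.trans ((dvd_mul_right M' q).trans (dvd_mul_right (M' * q) q))), hhm₁⟩ : ↥(pk15_chart R ({pk85_h3 K (M' * q * q) (h3.trans ((dvd_mul_right M' q).trans (dvd_mul_right (M' * q) q)))} : Set ↥(modularFunctionFieldFullC K (M' * q * q))))) ^ 3 : ↥(pk15_chart R ({pk85_h3 K (M' * q * q) (h3.trans ((dvd_mul_right M' q).trans (dvd_mul_right (M' * q) q)))} : Set ↥(modularFunctionFieldFullC K (M' * q * q))))) : ↥(modularFunctionFieldFullC K (M' * q * q))) * rm90_j K (M' * q * q) = (pk85_h3 K (M' * q * q) (h3.trans ((dvd_mul_right M' q).trans (dvd_mul_right (M' * q) q))) + 27) * (pk85_h3 K (M' * q * q) (h3.trans ((dvd_mul_right M' q).trans (dvd_mul_right (M' * q) q))) + 243) ^ 3 := by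
        rw [Subalgebra.coe_pow]
        exact (mul_comm _ _).trans hrel
      rw [e]
      have hm := (Subalgebra.mul_mem _ (Subalgebra.add_mem _ hhm₁ (hnum₁ 27)) (Subalgebra.pow_mem _ (Subalgebra.add_mem _ hhm₁ (hnum₁ 243)) 3))
      simpa using hm
    have hscW : (((⟨pk85_h3 K (M' * q * q) (h3.trans ((dvd_mul_right M' q).trans (dvd_mul_right (M' * q) q))), hhm₁⟩ : ↥(pk15_chart R ({pk85_h3 K (M' * q * q) (h3.trans ((dvd_mul_right M' q).trans (dvd_mul_right (M' * q) q)))} : Set ↥(modularFunctionFieldFullC K (M' * q * q))))) ^ 3 : ↥(pk15_chart R ({pk85_h3 K (M' * q * q) (h3.trans ((dvd_mul_right M' q).trans (dvd_mul_right (M' * q) q)))} : Set ↥(modularFunctionFieldFullC K (M' * q * q))))) : ↥(modularFunctionFieldFullC K (M' * q * q)))⁻¹ ∈ (cm85_Vinf (K := K) (M' * q * q) hπ).toSubring ⊓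
        (v2g64_V2 (algebraMap K Q̄) M' q hq hM' hπ (Associated.refl _)).toSubring ⊓ (nsb86_V3 (K := K) M' q hq hM' hπ).toSubring := by
      have e : (((⟨pk85_h3 K (M' * q * q) (h3.trans ((dvd_mul_right M' q).trans (dvd_mul_right (M' * q) q))), hhm₁⟩ : ↥(pk15_chart R ({pk85_h3 K (M' * q * q) (h3.trans ((dvd_mul_right M' q).trans (dvd_mul_right (M' * q) q)))} : Set ↥(modularFunctionFieldFullC K (M' * q * q))))) ^ 3 : ↥(pk15_chart R ({pk85_h3 K (M' * q * q) (h3.trans ((dvd_mul_right M' q).trans (dvd_mul_right (M' * q) q)))} : Set ↥(modularFunctionFieldFullC K (M' * q * q))))) : ↥(modularFunctionFieldFullC K (M' * q * q)))⁻¹ = ((pk85_h3 K (M' * q * q) (h3.trans ((dvd_mul_right M' q).trans (dvd_mul_right (M' * q) q))))⁻¹) ^ 3 := by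
        rw [Subalgebra.coe_pow, ← inv_pow]
      rw [e]
      exact pow_mem (h12W _ hmem2) _
    refine c2f36_chart (K := K) M' q hq hM' hπ hunit h2o h3o _ hV₂ hπ₂ hne hs (pk15_chart R ({pk85_h3 K (M' * q * q) (h3.trans ((dvd_mul_right M' q).trans (dvd_mul_right (M' * q) q)))} : Set ↥(modularFunctionFieldFullC K (M' * q * q))))
      (fun z hz => ci22_chart_closed _ z hz)
      (fun x hx => h12W x (pk15_chart_mono hsub1 hx)) hsat1 ((⟨pk85_h3 K (M' * q * q) (h3.trans ((dvd_mul_right M' q).trans (dvd_mul_right (M' * q) q))), hhm₁⟩ : ↥(pk15_chart R ({pk85_h3 K (M' * q * q) (h3.trans ((dvd_mul_right M' q).trans (dvd_mul_right (M' * q) q)))} : Set ↥(modularFunctionFieldFullC K (M' * q * q))))) ^ 3) hscj hscW ?_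
    intro n hnp hqn hreg
    obtain ⟨s', b, hs', hsb⟩ := hreg
    haveI := hnp
    have hpn : ((3 : ℕ) : ↥(pk15_chart R ({pk85_h3 K (M' * q * q) (h3.trans ((dvd_mul_right M' q).trans (dvd_mul_right (M' * q) q)))} : Set ↥(modularFunctionFieldFullC K (M' * q * q))))) ∉ n :=
      c2r66_prime_not_mem (pk15_chart R ({pk85_h3 K (M' * q * q) (h3.trans ((dvd_mul_right M' q).trans (dvd_mul_right (M' * q) q)))} : Set ↥(modularFunctionFieldFullC K (M' * q * q)))) n q 3 hq Nat.prime_three (Ne.symm hqk) hqn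
    have hh := c2f36_not_mem_three (pk15_chart R ({pk85_h3 K (M' * q * q) (h3.trans ((dvd_mul_right M' q).trans (dvd_mul_right (M' * q) q)))} : Set ↥(modularFunctionFieldFullC K (M' * q * q)))) n (rm90_j K (M' * q * q)) ⟨pk85_h3 K (M' * q * q) (h3.trans ((dvd_mul_right M' q).trans (dvd_mul_right (M' * q) q))), hhm₁⟩ hrel s' b hs' hsb hpn
    exact fun hc => hh (hnp.mem_of_pow_mem 3 hc)
  · -- the chart of `h⁻¹`
    have hscj : ((⟨(pk85_h3 K (M' * q * q) (h3.trans ((dvd_mul_right M' q).trans (dvd_mul_right (M' * q) q))))⁻¹, hkm₂⟩ : ↥(pk15_chart R ({(pk85_h3 K (M' * q * q) (h3.trans ((dvd_mul_right M' q).trans (dvd_mul_right (M' * q) q))))⁻¹} : Set ↥(modularFunctionFieldFullC K (M' * q * q))))) : ↥(modularFunctionFieldFullC K (M' * q * q))) * rm90_j K (M' * q * q) ∈ (pk15_chart R ({(pk85_h3 K (M' * q * q) (h3.trans ((dvd_mul_right M' q).trans (dvd_mul_right (M' * q) q))))⁻¹} : Set ↥(modularFunctionFieldFullC K (M' * q * q)))) := by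
      have e : ((⟨(pk85_h3 K (M' * q * q) (h3.trans ((dvd_mul_right M' q).trans (dvd_mul_right (M' * q) q))))⁻¹, hkm₂⟩ : ↥(pk15_chart R ({(pk85_h3 K (M' * q * q) (h3.trans ((dvd_mul_right M' q).trans (dvd_mul_right (M' * q) q))))⁻¹} : Set ↥(modularFunctionFieldFullC K (M' * q * q))))) : ↥(modularFunctionFieldFullC K (M' * q * q))) * rm90_j K (M' * q * q) = _ := hrelk
      rw [e]
      have hm := (Subalgebra.mul_mem _ (Subalgebra.add_mem _ (Subalgebra.one_mem _) (Subalgebra.mul_mem _ (hnum₂ 27) hkm₂)) (Subalgebra.pow_mem _ (Subalgebra.add_mem _ (Subalgebra.one_mem _) (Subalgebra.mul_mem _ (hnum₂ 243) hkm₂)) 3))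
      simpa using hm
    have hscW : ((⟨(pk85_h3 K (M' * q * q) (h3.trans ((dvd_mul_right M' q).trans (dvd_mul_right (M' * q) q))))⁻¹, hkm₂⟩ : ↥(pk15_chart R ({(pk85_h3 K (M' * q * q) (h3.trans ((dvd_mul_right M' q).trans (dvd_mul_right (M' * q) q))))⁻¹} : Set ↥(modularFunctionFieldFullC K (M' * q * q))))) : ↥(modularFunctionFieldFullC K (M' * q * q)))⁻¹ ∈ (cm85_Vinf (K := K) (M' * q * q) hπ).toSubring ⊓
        (v2g64_V2 (algebraMap K Q̄) M' q hq hM' hπ (Associated.refl _)).toSubring ⊓ (nsb86_V3 (K := K) M' q hq hM' hπ).toSubring := by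
      have e : ((⟨(pk85_h3 K (M' * q * q) (h3.trans ((dvd_mul_right M' q).trans (dvd_mul_right (M' * q) q))))⁻¹, hkm₂⟩ : ↥(pk15_chart R ({(pk85_h3 K (M' * q * q) (h3.trans ((dvd_mul_right M' q).trans (dvd_mul_right (M' * q) q))))⁻¹} : Set ↥(modularFunctionFieldFullC K (M' * q * q))))) : ↥(modularFunctionFieldFullC K (M' * q * q)))⁻¹ = pk85_h3 K (M' * q * q) (h3.trans ((dvd_mul_right M' q).trans (dvd_mul_right (M' * q) q))) := inv_inv _
      rw [e]
      exact h12W _ hmem1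
    refine c2f36_chart (K := K) M' q hq hM' hπ hunit h2o h3o _ hV₂ hπ₂ hne hs (pk15_chart R ({(pk85_h3 K (M' * q * q) (h3.trans ((dvd_mul_right M' q).trans (dvd_mul_right (M' * q) q))))⁻¹} : Set ↥(modularFunctionFieldFullC K (M' * q * q))))
      (fun z hz => ci22_chart_closed _ z hz)
      (fun x hx => h12W x (pk15_chart_mono hsub2 hx)) hsat2 (⟨(pk85_h3 K (M' * q * q) (h3.trans ((dvd_mul_right M' q).trans (dvd_mul_right (M' * q) q))))⁻¹, hkm₂⟩ : ↥(pk15_chart R ({(pk85_h3 K (M' * q * q) (h3.trans ((dvd_mul_right M' q).trans (dvd_mul_right (M' * q) q))))⁻¹} : Set ↥(modularFunctionFieldFullC K (M' * q * q))))) hscj hscW ?_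
    intro n hnp hqn hreg
    obtain ⟨s', b, hs', hsb⟩ := hreg
    haveI := hnp
    exact c2f36_not_mem_inv_three (pk15_chart R ({(pk85_h3 K (M' * q * q) (h3.trans ((dvd_mul_right M' q).trans (dvd_mul_right (M' * q) q))))⁻¹} : Set ↥(modularFunctionFieldFullC K (M' * q * q)))) n (rm90_j K (M' * q * q)) ⟨(pk85_h3 K (M' * q * q) (h3.trans ((dvd_mul_right M' q).trans (dvd_mul_right (M' * q) q))))⁻¹, hkm₂⟩ hrelk s' b hs' hsb

end c2f36_final

end Fermat.Agent.S36
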