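import Fermat.Agent.S36.HP1Final84
import Fermat.Agent.S36.C2NoPole8

/-!
# S36 lab (helper8), rows 600/605: `hp84f_Reg` on the canonical charts for `q ≠ 2, 3`

`hp84f_Reg` (helper84, `HP1Final84`) = the principal middle branch at the `j`-regular closed
points of a chart lying on the middle branch only = the ONLY hypothesis of `hp84f_level2`,
`hp84f_final2` (the body of `s36i62g_HP1c2`).

* `c2r8_reg_level2` : `hp84f_Reg` on BOTH charts of `pk85_h2 K (M' q q)` for `q ≠ 2, 3`,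
  `2 ∣ M'`, `3 ∣ M'`, any `V₂` with `hV₂ hπ₂ hs` (from `c2n8_prinAt_six`);
* `c2r8_HP1_level2` : hence `cp57_HP1` on both charts (any uniformiser `π` associated to `q`);
* `c2r8_HP1_final2` : the body of `s36i62g_HP1c2` at a level with `3 ∣ M'` (i.e. `q ≠ 3`), no
  hypothesis left.

All names are prefixed `c2r8_`.
-/

set_option autoImplicit false
set_option linter.unusedSectionVars false
set_option linter.unusedVariables false
set_option linter.style.haveILetI false
set_option linter.style.longLine false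

open ModularCurve

namespace Fermat.Agent.S36

open Fermat.Agent.S18 Fermat.Agent.S24 Fermat.Agent.S34 Fermat.Agent.S35
open Fermat.Agent.S36.TripleLoc71

local notation "Q̄" => AlgebraicClosure ℚ

section c2r8

variable {R K : Type} [CommRing R] [IsDomain R] [IsDiscreteValuationRing R] [Field K]
  [NumberField K] [Algebra R K] [IsFractionRing R K] [Algebra K Q̄] [Algebra.IsAlgebraic K Q̄]
  (M' q : ℕ) [NeZero M'] [NeZero q] (hq : q.Prime) (hM' : ¬ q ∣ M')
  {π : R} (hπ : Irreducible π)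
  [Algebra R ↥(modularFunctionFieldFullC K M')]
  [IsScalarTower R K ↥(modularFunctionFieldFullC K M')]
  [Algebra R ↥(modularFunctionFieldFullC K (M' * q))]
  [IsScalarTower R K ↥(modularFunctionFieldFullC K (M' * q))]
  [Algebra R ↥(modularFunctionFieldFullC K (M' * q * q))]
  [IsScalarTower R K ↥(modularFunctionFieldFullC K (M' * q * q))]

include hq hM' in
/-- **`hp84f_Reg` on both charts of the level-2 Hauptmodul, `q ≠ 2, 3`, `2 ∣ M'`, `3 ∣ M'`.** -/
theorem c2r8_reg_level2 (hqR : ¬ IsUnit (q : R)) (hMu : IsUnit (M' : R)) (h2 : 2 ∣ M')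
    (h3' : 3 ∣ M') (hq2 : q ≠ 2) (hq3 : q ≠ 3)
    (hqπ : Associated ((q : ℕ) : R) π) (hunit : ∀ n : ℕ, Nat.Coprime n q → IsUnit (n : R))
    (V₂ : ValuationSubring ↥(modularFunctionFieldFullC K (M' * q * q)))
    (hV₂ : ∀ c ∈ cm85_Vinf (K := K) (M' * q) hπ, al97L_alpha K (M' * q) q c ∈ V₂)
    (hπ₂ : (algebraMap K ↥(modularFunctionFieldFullC K (M' * q * q)) (algebraMap R K π))⁻¹ ∉ V₂)
    (hs : V₂.valuation (v2g64_s K M' q) ^ (q - 1) =
      V₂.valuation (algebraMap K ↥(modularFunctionFieldFullC K (M' * q * q)) (algebraMap R K π))) :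
    hp84f_Reg (K := K) M' q hq hM' hπ V₂ (pk15_chart R ({(pk85_h2 K (M' * q * q) (h2.trans ((dvd_mul_right M' q).trans (dvd_mul_right (M' * q) q))))} : Set ↥(modularFunctionFieldFullC K (M' * q * q)))) ∧
    hp84f_Reg (K := K) M' q hq hM' hπ V₂ (pk15_chart R ({(pk85_h2 K (M' * q * q) (h2.trans ((dvd_mul_right M' q).trans (dvd_mul_right (M' * q) q))))⁻¹} : Set ↥(modularFunctionFieldFullC K (M' * q * q)))) := by
  have hne := hp84c_ne (K := K) M' q hq hπ V₂ hπ₂ hs
  obtain ⟨-, hC, -⟩ := fb85_frameV3_level2 M' q hq hM' hπ hqR hMu h2 V₂ hV₂ hπ₂ hs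
  obtain ⟨htr, h12W, hsat1, hsat2, -, hN₁, hN₂, hfin, hfrac⟩ := hC
  have hsub1 : ({(pk85_h2 K (M' * q * q) (h2.trans ((dvd_mul_right M' q).trans (dvd_mul_right (M' * q) q))))} : Set ↥(modularFunctionFieldFullC K (M' * q * q))) ⊆ {(pk85_h2 K (M' * q * q) (h2.trans ((dvd_mul_right M' q).trans (dvd_mul_right (M' * q) q)))), (pk85_h2 K (M' * q * q) (h2.trans ((dvd_mul_right M' q).trans (dvd_mul_right (M' * q) q))))⁻¹} := by
    intro x hx
    rw [Set.mem_singleton_iff.mp hx]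
    exact Set.mem_insert _ _
  have hsub2 : ({(pk85_h2 K (M' * q * q) (h2.trans ((dvd_mul_right M' q).trans (dvd_mul_right (M' * q) q))))⁻¹} : Set ↥(modularFunctionFieldFullC K (M' * q * q))) ⊆ {(pk85_h2 K (M' * q * q) (h2.trans ((dvd_mul_right M' q).trans (dvd_mul_right (M' * q) q)))), (pk85_h2 K (M' * q * q) (h2.trans ((dvd_mul_right M' q).trans (dvd_mul_right (M' * q) q))))⁻¹} := by
    intro x hx
    rw [Set.mem_singleton_iff.mp hx]
    exact Set.mem_insert_of_mem _ rfl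
  have hBW₁ := fun x hx => h12W x (pk15_chart_mono hsub1 hx)
  have hBW₂ := fun x hx => h12W x (pk15_chart_mono hsub2 hx)
  refine ⟨?_, ?_⟩
  · rintro n hn hπn hmid h1 h3 ⟨s', b', hs', hsj⟩
    haveI := hn.isPrime
    exact c2n8_prinAt_six (R := R) (K := K) M' q hq hM' hπ hqπ hunit h2 h3' hq2 hq3 V₂ hV₂ hπ₂
      hne (v2g64_s K M' q) hs _ (fun x hx => ci22_chart_closed _ x hx) _ _
      (fun x hx => (Subring.mem_inf.mp (Subring.mem_inf.mp (hBW₁ x hx)).1).1)
      (fun x hx => (Subring.mem_inf.mp (Subring.mem_inf.mp (hBW₁ x hx)).1).2)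
      (fun x hx => (Subring.mem_inf.mp (hBW₁ x hx)).2)
      (fun x hx h1 h2 h3 =>
        hsat1 x hx (Subring.mem_inf.mpr ⟨Subring.mem_inf.mpr ⟨h1, h2⟩, h3⟩))
      n hmid h1 h3 s' b' hs' hsj
  · rintro n hn hπn hmid h1 h3 ⟨s', b', hs', hsj⟩
    haveI := hn.isPrime
    exact c2n8_prinAt_six (R := R) (K := K) M' q hq hM' hπ hqπ hunit h2 h3' hq2 hq3 V₂ hV₂ hπ₂
      hne (v2g64_s K M' q) hs _ (fun x hx => ci22_chart_closed _ x hx) _ _
      (fun x hx => (Subring.mem_inf.mp (Subring.mem_inf.mp (hBW₂ x hx)).1).1)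
      (fun x hx => (Subring.mem_inf.mp (Subring.mem_inf.mp (hBW₂ x hx)).1).2)
      (fun x hx => (Subring.mem_inf.mp (hBW₂ x hx)).2)
      (fun x hx h1 h2 h3 =>
        hsat2 x hx (Subring.mem_inf.mpr ⟨Subring.mem_inf.mpr ⟨h1, h2⟩, h3⟩))
      n hmid h1 h3 s' b' hs' hsj

end c2r8

section c2r8_final

/-- **(HP-1), canonical, Hauptmodul of level 2, `3 ∣ M'` (i.e. `q ≠ 2, 3`): NO hypothesis left.**
The body of `s36i62g_HP1c2` (HPSplit62) at a level `M'` with `2 ∣ M'` and `3 ∣ M'`. -/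
theorem c2r8_HP1_final2 (M' q p : ℕ) [NeZero M'] [NeZero q] (hq : q.Prime) (hM' : ¬ q ∣ M')
    (h2 : 2 ∣ M') (h3' : 3 ∣ M') (hp : p.Prime) (hpq : p ≠ q) (n : ℕ)
    (R K : Type) [CommRing R] [IsDomain R] [IsDiscreteValuationRing R] [Field K]
    [NumberField K] [Algebra K Q̄] [Algebra R K] [IsFractionRing R K]
    [Algebra R ↥(modularFunctionFieldFullC K (M' * q * q))]
    [IsScalarTower R K ↥(modularFunctionFieldFullC K (M' * q * q))]
    (hπ : Irreducible ((q : ℕ) : R)) (hunit : ∀ k : ℕ, Nat.Coprime k q → IsUnit (k : R)) :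
    cp57_HP1 (K := K) ((q : ℕ) : R) q (p ^ n) (pk15_chart R ({(pk85_h2 K (M' * q * q) (h2.trans ((dvd_mul_right M' q).trans (dvd_mul_right (M' * q) q))))} : Set ↥(modularFunctionFieldFullC K (M' * q * q))))
        (al97L_alpha K (M' * q) q).toRingHom
        (al97L_beta K (M' * q) q).toRingHom (s35i62_normA K (M' * q) q)
        (s35i62_normB K (M' * q) q) (cm85_Vinf (K := K) (M' * q * q) hπ) (v2g64_V2 (algebraMap K Q̄) M' q hq hM' hπ (Associated.refl _))
        (nsb86_V3 (K := K) M' q hq hM' hπ) (cm85_Vinf (K := K) (M' * q) hπ)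
        (s34i47c_V0 (K := K) M' q hq hM' hπ) ∧
    cp57_HP1 (K := K) ((q : ℕ) : R) q (p ^ n) (pk15_chart R ({(pk85_h2 K (M' * q * q) (h2.trans ((dvd_mul_right M' q).trans (dvd_mul_right (M' * q) q))))⁻¹} : Set ↥(modularFunctionFieldFullC K (M' * q * q))))
        (al97L_alpha K (M' * q) q).toRingHom
        (al97L_beta K (M' * q) q).toRingHom (s35i62_normA K (M' * q) q)
        (s35i62_normB K (M' * q) q) (cm85_Vinf (K := K) (M' * q * q) hπ) (v2g64_V2 (algebraMap K Q̄) M' q hq hM' hπ (Associated.refl _))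
        (nsb86_V3 (K := K) M' q hq hM' hπ) (cm85_Vinf (K := K) (M' * q) hπ)
        (s34i47c_V0 (K := K) M' q hq hM' hπ) := by
  haveI : Algebra.IsAlgebraic K Q̄ := cx_isAlgebraic_closure K
  letI a1 : Algebra R ↥(modularFunctionFieldFullC K M') :=
    ((algebraMap K ↥(modularFunctionFieldFullC K M')).comp (algebraMap R K)).toAlgebra
  haveI : IsScalarTower R K ↥(modularFunctionFieldFullC K M') :=
    IsScalarTower.of_algebraMap_eq (fun _ => rfl)
  letI a2 : Algebra R ↥(modularFunctionFieldFullC K (M' * q)) :=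
    ((algebraMap K ↥(modularFunctionFieldFullC K (M' * q))).comp (algebraMap R K)).toAlgebra
  haveI : IsScalarTower R K ↥(modularFunctionFieldFullC K (M' * q)) :=
    IsScalarTower.of_algebraMap_eq (fun _ => rfl)
  have hqR : ¬ IsUnit ((q : ℕ) : R) := hπ.not_isUnit
  have hMu : IsUnit (M' : R) :=
    hunit M' (Nat.coprime_comm.mp ((Nat.Prime.coprime_iff_not_dvd hq).mpr hM'))
  have hq2 : q ≠ 2 := fun h => hM' (h ▸ h2)
  have hq3 : q ≠ 3 := fun h => hM' (h ▸ h3')
  obtain ⟨r1, r2⟩ := c2r8_reg_level2 (R := R) (K := K) M' q hq hM' hπ hqR hMu h2 h3' hq2 hq3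
    (Associated.refl _) hunit (v2g64_V2 (algebraMap K Q̄) M' q hq hM' hπ (Associated.refl _))
    (v2g64_V2_alpha (algebraMap K Q̄) M' q hq hM' hπ (Associated.refl _))
    (v2g64_V2_pi (algebraMap K Q̄) M' q hq hM' hπ (Associated.refl _))
    (v2g64_V2_val (algebraMap K Q̄) M' q hq hM' hπ (Associated.refl _))
  exact hp84f_final2 M' q p hq hM' h2 hp hpq n R K hπ hunit r1 r2

end c2r8_final

end Fermat.Agent.S36
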