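import Fermat.Agent.S36.C2RegFinal8
import Fermat.Agent.S36.C2JUnit88
import Fermat.Agent.S36.HPSplit62

/-!
# S36 lab (helper8), rows 600/605: `hp84f_Reg` for `q = 3` (level-2 charts) and `q = 2`
(level-3 charts), and the two closed statements `s36i62g_HP1c2`, `s36i62g_HP1c3`

* `c2r8_reg_level2_q3` : `q = 3`, `2 ∣ M'` : `hp84f_Reg` on both charts of `pk85_h2 K (M' q q)`
  (`J` is a unit at the `j`-regular points of `C₂` only: `c2j88_level2(_inv)` of helper88 /
  `sqi75_j_unit_at` of helper75; then `c2n8_prinAt_two_unit`);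
* `c2r8_reg_level3_q2` : `q = 2`, `3 ∣ M'` : `hp84f_Reg` on both charts of `pk85_h3 K (M' q q)`
  (`c2j88_level3(_inv)`; then `c2n8_prinAt_three`);
* `c2r8_HP1_final2_q3`, `c2r8_HP1_final3_q2` : the bodies of `s36i62g_HP1c2` (`q = 3`) and
  `s36i62g_HP1c3` (`q = 2`) with no hypothesis left (through `hp84f_final2/3` of helper84);
* **`c2r8_HP1c2 : s36i62g_HP1c2`**, **`c2r8_HP1c3 : s36i62g_HP1c3`** (HPSplit62, helper62).

All names are prefixed `c2r8_`.
-/

set_option autoImplicit false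
set_option linter.unusedSectionVars false
set_option linter.unusedVariables false
set_option linter.style.haveILetI false
set_option linter.style.longLine false

open ModularCurve

namespace Fermat.Agent.S36

open Fermat.Agent.S18 Fermat.Agent.S24 Fermat.Agent.S34 Fermat.Agent.S35
open Fermat.Agent.S36.TripleLoc71

local notation "Q̄" => AlgebraicClosure ℚ

section c2r8s

variable {R K : Type} [CommRing R] [IsDomain R] [IsDiscreteValuationRing R] [Field K]
  [NumberField K] [Algebra R K] [IsFractionRing R K] [Algebra K Q̄] [Algebra.IsAlgebraic K Q̄]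
  (M' q : ℕ) [NeZero M'] [NeZero q] (hq : q.Prime) (hM' : ¬ q ∣ M')
  [Algebra R ↥(modularFunctionFieldFullC K M')]
  [IsScalarTower R K ↥(modularFunctionFieldFullC K M')]
  [Algebra R ↥(modularFunctionFieldFullC K (M' * q))]
  [IsScalarTower R K ↥(modularFunctionFieldFullC K (M' * q))]
  [Algebra R ↥(modularFunctionFieldFullC K (M' * q * q))]
  [IsScalarTower R K ↥(modularFunctionFieldFullC K (M' * q * q))]

include hq hM' in
/-- **`hp84f_Reg` on both charts of the level-2 Hauptmodul, `q = 3`.** -/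
theorem c2r8_reg_level2_q3 (hq3 : q = 3) (hπ : Irreducible ((q : ℕ) : R)) (hMu : IsUnit (M' : R))
    (h2 : 2 ∣ M') (hunit : ∀ n : ℕ, Nat.Coprime n q → IsUnit (n : R))
    (V₂ : ValuationSubring ↥(modularFunctionFieldFullC K (M' * q * q)))
    (hV₂ : ∀ c ∈ cm85_Vinf (K := K) (M' * q) hπ, al97L_alpha K (M' * q) q c ∈ V₂)
    (hπ₂ : (algebraMap K ↥(modularFunctionFieldFullC K (M' * q * q)) (algebraMap R K ((q : ℕ) : R)))⁻¹ ∉ V₂)
    (hs : V₂.valuation (v2g64_s K M' q) ^ (q - 1) =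
      V₂.valuation (algebraMap K ↥(modularFunctionFieldFullC K (M' * q * q)) (algebraMap R K ((q : ℕ) : R)))) :
    hp84f_Reg (K := K) M' q hq hM' hπ V₂ (pk15_chart R ({(pk85_h2 K (M' * q * q) (h2.trans ((dvd_mul_right M' q).trans (dvd_mul_right (M' * q) q))))} : Set ↥(modularFunctionFieldFullC K (M' * q * q)))) ∧
    hp84f_Reg (K := K) M' q hq hM' hπ V₂ (pk15_chart R ({(pk85_h2 K (M' * q * q) (h2.trans ((dvd_mul_right M' q).trans (dvd_mul_right (M' * q) q))))⁻¹} : Set ↥(modularFunctionFieldFullC K (M' * q * q)))) := by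
  have hqR : ¬ IsUnit ((q : ℕ) : R) := hπ.not_isUnit
  have hqne : q ≠ 2 := by rw [hq3]; norm_num
  have hq1 : q - 1 ≠ 0 := by have := hq.two_le; omega
  have h2u : IsUnit (2 : R) := by
    have h := hunit 2 (by rw [hq3]; norm_num)
    simpa using h
  have hne := hp84c_ne (K := K) M' q hq hπ V₂ hπ₂ hs
  obtain ⟨-, hC, -⟩ := fb85_frameV3_level2 M' q hq hM' hπ hqR hMu h2 V₂ hV₂ hπ₂ hs
  obtain ⟨htr, h12W, hsat1, hsat2, -, hN₁, hN₂, hfin, hfrac⟩ := hC
  have e : algebraMap R ↥(modularFunctionFieldFullC K (M' * q * q)) ((q : ℕ) : R) = (algebraMap K ↥(modularFunctionFieldFullC K (M' * q * q)) (algebraMap R K ((q : ℕ) : R))) :=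
    IsScalarTower.algebraMap_apply R K _ _
  have hπ₂' : (algebraMap R ↥(modularFunctionFieldFullC K (M' * q * q)) ((q : ℕ) : R))⁻¹ ∉ V₂ := by
    rw [e]
    exact hπ₂
  have hsR : V₂.valuation (v2g64_s K M' q) ^ (q - 1) =
      V₂.valuation (algebraMap R ↥(modularFunctionFieldFullC K (M' * q * q)) ((q : ℕ) : R)) := by
    rw [e]
    exact hs
  have hsub1 : ({(pk85_h2 K (M' * q * q) (h2.trans ((dvd_mul_right M' q).trans (dvd_mul_right (M' * q) q))))} : Set ↥(modularFunctionFieldFullC K (M' * q * q))) ⊆ {(pk85_h2 K (M' * q * q) (h2.trans ((dvd_mul_right M' q).trans (dvd_mul_right (M' * q) q)))), (pk85_h2 K (M' * q * q) (h2.trans ((dvd_mul_right M' q).trans (dvd_mul_right (M' * q) q))))⁻¹} := by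
    intro x hx
    rw [Set.mem_singleton_iff.mp hx]
    exact Set.mem_insert _ _
  have hsub2 : ({(pk85_h2 K (M' * q * q) (h2.trans ((dvd_mul_right M' q).trans (dvd_mul_right (M' * q) q))))⁻¹} : Set ↥(modularFunctionFieldFullC K (M' * q * q))) ⊆ {(pk85_h2 K (M' * q * q) (h2.trans ((dvd_mul_right M' q).trans (dvd_mul_right (M' * q) q)))), (pk85_h2 K (M' * q * q) (h2.trans ((dvd_mul_right M' q).trans (dvd_mul_right (M' * q) q))))⁻¹} := by
    intro x hx
    rw [Set.mem_singleton_iff.mp hx]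
    exact Set.mem_insert_of_mem _ rfl
  have hBW₁ := fun x hx => h12W x (pk15_chart_mono hsub1 hx)
  have hBW₂ := fun x hx => h12W x (pk15_chart_mono hsub2 hx)
  refine ⟨?_, ?_⟩
  · rintro n hn hπn hmid hbr1 hbr3 ⟨s', b', hs', hsj⟩
    haveI := hn.isPrime
    have hb' : b' ∉ n := c2j88_level2 (R := R) (K := K) M' q hq hM' (Or.inr hq3) hπ h2 h2u V₂
      (nsb86_V3 (K := K) M' q hq hM' hπ) hV₂
      (fun x hx => (Subring.mem_inf.mp (Subring.mem_inf.mp (hBW₁ x hx)).1).1)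
      (fun x hx => (Subring.mem_inf.mp (Subring.mem_inf.mp (hBW₁ x hx)).1).2)
      (fun x hx => (Subring.mem_inf.mp (hBW₁ x hx)).2)
      (fun x hx h1 h2 h3 =>
        hsat1 x hx (Subring.mem_inf.mpr ⟨Subring.mem_inf.mpr ⟨h1, h2⟩, h3⟩))
      n (c2j88_onBr_of_onMid _ _ V₂ (v2g64_s K M' q) (q - 1) hq1 hsR hπ₂' n hmid) hbr3 s' b' hs' hsj
    exact c2n8_prinAt_two_unit (R := R) (K := K) M' q hq hM' hπ (Associated.refl _) hunit h2 hqne
      V₂ hV₂ hπ₂ hne (v2g64_s K M' q) hs _ (fun x hx => ci22_chart_closed _ x hx) _ _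
      (fun x hx => (Subring.mem_inf.mp (Subring.mem_inf.mp (hBW₁ x hx)).1).1)
      (fun x hx => (Subring.mem_inf.mp (Subring.mem_inf.mp (hBW₁ x hx)).1).2)
      (fun x hx => (Subring.mem_inf.mp (hBW₁ x hx)).2)
      (fun x hx h1 h2 h3 =>
        hsat1 x hx (Subring.mem_inf.mpr ⟨Subring.mem_inf.mpr ⟨h1, h2⟩, h3⟩))
      n hmid hbr1 hbr3 s' b' hs' hsj hq3 hπn hb'
  · rintro n hn hπn hmid hbr1 hbr3 ⟨s', b', hs', hsj⟩
    haveI := hn.isPrime
    have hb' : b' ∉ n := c2j88_level2_inv (R := R) (K := K) M' q hq hM' (Or.inr hq3) hπ h2 V₂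
      (nsb86_V3 (K := K) M' q hq hM' hπ) hV₂
      (fun x hx => (Subring.mem_inf.mp (Subring.mem_inf.mp (hBW₂ x hx)).1).1)
      (fun x hx => (Subring.mem_inf.mp (Subring.mem_inf.mp (hBW₂ x hx)).1).2)
      (fun x hx => (Subring.mem_inf.mp (hBW₂ x hx)).2)
      (fun x hx h1 h2 h3 =>
        hsat2 x hx (Subring.mem_inf.mpr ⟨Subring.mem_inf.mpr ⟨h1, h2⟩, h3⟩))
      n (c2j88_onBr_of_onMid _ _ V₂ (v2g64_s K M' q) (q - 1) hq1 hsR hπ₂' n hmid) hbr3 s' b' hs' hsj
    exact c2n8_prinAt_two_unit (R := R) (K := K) M' q hq hM' hπ (Associated.refl _) hunit h2 hqne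
      V₂ hV₂ hπ₂ hne (v2g64_s K M' q) hs _ (fun x hx => ci22_chart_closed _ x hx) _ _
      (fun x hx => (Subring.mem_inf.mp (Subring.mem_inf.mp (hBW₂ x hx)).1).1)
      (fun x hx => (Subring.mem_inf.mp (Subring.mem_inf.mp (hBW₂ x hx)).1).2)
      (fun x hx => (Subring.mem_inf.mp (hBW₂ x hx)).2)
      (fun x hx h1 h2 h3 =>
        hsat2 x hx (Subring.mem_inf.mpr ⟨Subring.mem_inf.mpr ⟨h1, h2⟩, h3⟩))
      n hmid hbr1 hbr3 s' b' hs' hsj hq3 hπn hb'

include hq hM' in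
/-- **`hp84f_Reg` on both charts of the level-3 Hauptmodul, `q = 2`.** -/
theorem c2r8_reg_level3_q2 (hq2 : q = 2) (hπ : Irreducible ((q : ℕ) : R)) (hMu : IsUnit (M' : R))
    (h3 : 3 ∣ M') (hunit : ∀ n : ℕ, Nat.Coprime n q → IsUnit (n : R))
    (V₂ : ValuationSubring ↥(modularFunctionFieldFullC K (M' * q * q)))
    (hV₂ : ∀ c ∈ cm85_Vinf (K := K) (M' * q) hπ, al97L_alpha K (M' * q) q c ∈ V₂)
    (hπ₂ : (algebraMap K ↥(modularFunctionFieldFullC K (M' * q * q)) (algebraMap R K ((q : ℕ) : R)))⁻¹ ∉ V₂)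
    (hs : V₂.valuation (v2g64_s K M' q) ^ (q - 1) =
      V₂.valuation (algebraMap K ↥(modularFunctionFieldFullC K (M' * q * q)) (algebraMap R K ((q : ℕ) : R)))) :
    hp84f_Reg (K := K) M' q hq hM' hπ V₂ (pk15_chart R ({(pk85_h3 K (M' * q * q) (h3.trans ((dvd_mul_right M' q).trans (dvd_mul_right (M' * q) q))))} : Set ↥(modularFunctionFieldFullC K (M' * q * q)))) ∧
    hp84f_Reg (K := K) M' q hq hM' hπ V₂ (pk15_chart R ({(pk85_h3 K (M' * q * q) (h3.trans ((dvd_mul_right M' q).trans (dvd_mul_right (M' * q) q))))⁻¹} : Set ↥(modularFunctionFieldFullC K (M' * q * q)))) := by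
  have hqR : ¬ IsUnit ((q : ℕ) : R) := hπ.not_isUnit
  have hqne : q ≠ 3 := by rw [hq2]; norm_num
  have hq1 : q - 1 ≠ 0 := by have := hq.two_le; omega
  have h3u : IsUnit (3 : R) := by
    have h := hunit 3 (by rw [hq2]; norm_num)
    simpa using h
  have hne := hp84c_ne (K := K) M' q hq hπ V₂ hπ₂ hs
  obtain ⟨-, hC, -⟩ := fb85_frameV3_level3 M' q hq hM' hπ hqR hMu h3 V₂ hV₂ hπ₂ hs
  obtain ⟨htr, h12W, hsat1, hsat2, -, hN₁, hN₂, hfin, hfrac⟩ := hC
  have e : algebraMap R ↥(modularFunctionFieldFullC K (M' * q * q)) ((q : ℕ) : R) = (algebraMap K ↥(modularFunctionFieldFullC K (M' * q * q)) (algebraMap R K ((q : ℕ) : R))) :=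
    IsScalarTower.algebraMap_apply R K _ _
  have hπ₂' : (algebraMap R ↥(modularFunctionFieldFullC K (M' * q * q)) ((q : ℕ) : R))⁻¹ ∉ V₂ := by
    rw [e]
    exact hπ₂
  have hsR : V₂.valuation (v2g64_s K M' q) ^ (q - 1) =
      V₂.valuation (algebraMap R ↥(modularFunctionFieldFullC K (M' * q * q)) ((q : ℕ) : R)) := by
    rw [e]
    exact hs
  have hsub1 : ({(pk85_h3 K (M' * q * q) (h3.trans ((dvd_mul_right M' q).trans (dvd_mul_right (M' * q) q))))} : Set ↥(modularFunctionFieldFullC K (M' * q * q))) ⊆ {(pk85_h3 K (M' * q * q) (h3.trans ((dvd_mul_right M' q).trans (dvd_mul_right (M' * q) q)))), (pk85_h3 K (M' * q * q) (h3.trans ((dvd_mul_right M' q).trans (dvd_mul_right (M' * q) q))))⁻¹} := by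
    intro x hx
    rw [Set.mem_singleton_iff.mp hx]
    exact Set.mem_insert _ _
  have hsub2 : ({(pk85_h3 K (M' * q * q) (h3.trans ((dvd_mul_right M' q).trans (dvd_mul_right (M' * q) q))))⁻¹} : Set ↥(modularFunctionFieldFullC K (M' * q * q))) ⊆ {(pk85_h3 K (M' * q * q) (h3.trans ((dvd_mul_right M' q).trans (dvd_mul_right (M' * q) q)))), (pk85_h3 K (M' * q * q) (h3.trans ((dvd_mul_right M' q).trans (dvd_mul_right (M' * q) q))))⁻¹} := by
    intro x hx
    rw [Set.mem_singleton_iff.mp hx]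
    exact Set.mem_insert_of_mem _ rfl
  have hBW₁ := fun x hx => h12W x (pk15_chart_mono hsub1 hx)
  have hBW₂ := fun x hx => h12W x (pk15_chart_mono hsub2 hx)
  refine ⟨?_, ?_⟩
  · rintro n hn hπn hmid hbr1 hbr3 ⟨s', b', hs', hsj⟩
    haveI := hn.isPrime
    have hb' : b' ∉ n := c2j88_level3 (R := R) (K := K) M' q hq hM' (Or.inl hq2) hπ h3 h3u V₂
      (nsb86_V3 (K := K) M' q hq hM' hπ) hV₂
      (fun x hx => (Subring.mem_inf.mp (Subring.mem_inf.mp (hBW₁ x hx)).1).1)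
      (fun x hx => (Subring.mem_inf.mp (Subring.mem_inf.mp (hBW₁ x hx)).1).2)
      (fun x hx => (Subring.mem_inf.mp (hBW₁ x hx)).2)
      (fun x hx h1 h2 h3 =>
        hsat1 x hx (Subring.mem_inf.mpr ⟨Subring.mem_inf.mpr ⟨h1, h2⟩, h3⟩))
      n (c2j88_onBr_of_onMid _ _ V₂ (v2g64_s K M' q) (q - 1) hq1 hsR hπ₂' n hmid) hbr3 s' b' hs' hsj
    exact c2n8_prinAt_three (R := R) (K := K) M' q hq hM' hπ (Associated.refl _) hunit h3 hqne
      V₂ hV₂ hπ₂ hne (v2g64_s K M' q) hs _ (fun x hx => ci22_chart_closed _ x hx) _ _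
      (fun x hx => (Subring.mem_inf.mp (Subring.mem_inf.mp (hBW₁ x hx)).1).1)
      (fun x hx => (Subring.mem_inf.mp (Subring.mem_inf.mp (hBW₁ x hx)).1).2)
      (fun x hx => (Subring.mem_inf.mp (hBW₁ x hx)).2)
      (fun x hx h1 h2 h3 =>
        hsat1 x hx (Subring.mem_inf.mpr ⟨Subring.mem_inf.mpr ⟨h1, h2⟩, h3⟩))
      n hmid hbr1 hbr3 s' b' hs' hsj hb'
  · rintro n hn hπn hmid hbr1 hbr3 ⟨s', b', hs', hsj⟩
    haveI := hn.isPrime
    have hb' : b' ∉ n := c2j88_level3_inv (R := R) (K := K) M' q hq hM' (Or.inl hq2) hπ h3 V₂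
      (nsb86_V3 (K := K) M' q hq hM' hπ) hV₂
      (fun x hx => (Subring.mem_inf.mp (Subring.mem_inf.mp (hBW₂ x hx)).1).1)
      (fun x hx => (Subring.mem_inf.mp (Subring.mem_inf.mp (hBW₂ x hx)).1).2)
      (fun x hx => (Subring.mem_inf.mp (hBW₂ x hx)).2)
      (fun x hx h1 h2 h3 =>
        hsat2 x hx (Subring.mem_inf.mpr ⟨Subring.mem_inf.mpr ⟨h1, h2⟩, h3⟩))
      n (c2j88_onBr_of_onMid _ _ V₂ (v2g64_s K M' q) (q - 1) hq1 hsR hπ₂' n hmid) hbr3 s' b' hs' hsj
    exact c2n8_prinAt_three (R := R) (K := K) M' q hq hM' hπ (Associated.refl _) hunit h3 hqne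
      V₂ hV₂ hπ₂ hne (v2g64_s K M' q) hs _ (fun x hx => ci22_chart_closed _ x hx) _ _
      (fun x hx => (Subring.mem_inf.mp (Subring.mem_inf.mp (hBW₂ x hx)).1).1)
      (fun x hx => (Subring.mem_inf.mp (Subring.mem_inf.mp (hBW₂ x hx)).1).2)
      (fun x hx => (Subring.mem_inf.mp (hBW₂ x hx)).2)
      (fun x hx h1 h2 h3 =>
        hsat2 x hx (Subring.mem_inf.mpr ⟨Subring.mem_inf.mpr ⟨h1, h2⟩, h3⟩))
      n hmid hbr1 hbr3 s' b' hs' hsj hb'

end c2r8s

section c2r8s_final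

/-- **(HP-1), canonical, Hauptmodul of level 2, `q = 3`: NO hypothesis left.** -/
theorem c2r8_HP1_final2_q3 (M' q p : ℕ) [NeZero M'] [NeZero q] (hq : q.Prime) (hM' : ¬ q ∣ M')
    (hq3 : q = 3) (h2 : 2 ∣ M') (hp : p.Prime) (hpq : p ≠ q) (n : ℕ)
    (R K : Type) [CommRing R] [IsDomain R] [IsDiscreteValuationRing R] [Field K]
    [NumberField K] [Algebra K Q̄] [Algebra R K] [IsFractionRing R K]
    [Algebra R ↥(modularFunctionFieldFullC K (M' * q * q))]
    [IsScalarTower R K ↥(modularFunctionFieldFullC K (M' * q * q))]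
    (hπ : Irreducible ((q : ℕ) : R)) (hunit : ∀ k : ℕ, Nat.Coprime k q → IsUnit (k : R)) :
    cp57_HP1 (K := K) ((q : ℕ) : R) q (p ^ n) (pk15_chart R ({(pk85_h2 K (M' * q * q) (h2.trans ((dvd_mul_right M' q).trans (dvd_mul_right (M' * q) q))))} : Set ↥(modularFunctionFieldFullC K (M' * q * q))))
        (al97L_alpha K (M' * q) q).toRingHom
        (al97L_beta K (M' * q) q).toRingHom (s35i62_normA K (M' * q) q)
        (s35i62_normB K (M' * q) q) (cm85_Vinf (K := K) (M' * q * q) hπ) (v2g64_V2 (algebraMap K Q̄) M' q hq hM' hπ (Associated.refl _))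
        (nsb86_V3 (K := K) M' q hq hM' hπ) (cm85_Vinf (K := K) (M' * q) hπ)
        (s34i47c_V0 (K := K) M' q hq hM' hπ) ∧
    cp57_HP1 (K := K) ((q : ℕ) : R) q (p ^ n) (pk15_chart R ({(pk85_h2 K (M' * q * q) (h2.trans ((dvd_mul_right M' q).trans (dvd_mul_right (M' * q) q))))⁻¹} : Set ↥(modularFunctionFieldFullC K (M' * q * q))))
        (al97L_alpha K (M' * q) q).toRingHom
        (al97L_beta K (M' * q) q).toRingHom (s35i62_normA K (M' * q) q)
        (s35i62_normB K (M' * q) q) (cm85_Vinf (K := K) (M' * q * q) hπ) (v2g64_V2 (algebraMap K Q̄) M' q hq hM' hπ (Associated.refl _))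
        (nsb86_V3 (K := K) M' q hq hM' hπ) (cm85_Vinf (K := K) (M' * q) hπ)
        (s34i47c_V0 (K := K) M' q hq hM' hπ) := by
  haveI : Algebra.IsAlgebraic K Q̄ := cx_isAlgebraic_closure K
  letI a1 : Algebra R ↥(modularFunctionFieldFullC K M') :=
    ((algebraMap K ↥(modularFunctionFieldFullC K M')).comp (algebraMap R K)).toAlgebra
  haveI : IsScalarTower R K ↥(modularFunctionFieldFullC K M') :=
    IsScalarTower.of_algebraMap_eq (fun _ => rfl)
  letI a2 : Algebra R ↥(modularFunctionFieldFullC K (M' * q)) :=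
    ((algebraMap K ↥(modularFunctionFieldFullC K (M' * q))).comp (algebraMap R K)).toAlgebra
  haveI : IsScalarTower R K ↥(modularFunctionFieldFullC K (M' * q)) :=
    IsScalarTower.of_algebraMap_eq (fun _ => rfl)
  have hMu : IsUnit (M' : R) :=
    hunit M' (Nat.coprime_comm.mp ((Nat.Prime.coprime_iff_not_dvd hq).mpr hM'))
  obtain ⟨r1, r2⟩ := c2r8_reg_level2_q3 (R := R) (K := K) M' q hq hM' hq3 hπ hMu h2 hunit
    (v2g64_V2 (algebraMap K Q̄) M' q hq hM' hπ (Associated.refl _))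
    (v2g64_V2_alpha (algebraMap K Q̄) M' q hq hM' hπ (Associated.refl _))
    (v2g64_V2_pi (algebraMap K Q̄) M' q hq hM' hπ (Associated.refl _))
    (v2g64_V2_val (algebraMap K Q̄) M' q hq hM' hπ (Associated.refl _))
  exact hp84f_final2 M' q p hq hM' h2 hp hpq n R K hπ hunit r1 r2

/-- **(HP-1), canonical, Hauptmodul of level 3, `q = 2`: NO hypothesis left.** -/
theorem c2r8_HP1_final3_q2 (M' q p : ℕ) [NeZero M'] [NeZero q] (hq : q.Prime) (hM' : ¬ q ∣ M')
    (hq2 : q = 2) (h3 : 3 ∣ M') (hp : p.Prime) (hpq : p ≠ q) (n : ℕ)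
    (R K : Type) [CommRing R] [IsDomain R] [IsDiscreteValuationRing R] [Field K]
    [NumberField K] [Algebra K Q̄] [Algebra R K] [IsFractionRing R K]
    [Algebra R ↥(modularFunctionFieldFullC K (M' * q * q))]
    [IsScalarTower R K ↥(modularFunctionFieldFullC K (M' * q * q))]
    (hπ : Irreducible ((q : ℕ) : R)) (hunit : ∀ k : ℕ, Nat.Coprime k q → IsUnit (k : R)) :
    cp57_HP1 (K := K) ((q : ℕ) : R) q (p ^ n) (pk15_chart R ({(pk85_h3 K (M' * q * q) (h3.trans ((dvd_mul_right M' q).trans (dvd_mul_right (M' * q) q))))} : Set ↥(modularFunctionFieldFullC K (M' * q * q))))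
        (al97L_alpha K (M' * q) q).toRingHom
        (al97L_beta K (M' * q) q).toRingHom (s35i62_normA K (M' * q) q)
        (s35i62_normB K (M' * q) q) (cm85_Vinf (K := K) (M' * q * q) hπ) (v2g64_V2 (algebraMap K Q̄) M' q hq hM' hπ (Associated.refl _))
        (nsb86_V3 (K := K) M' q hq hM' hπ) (cm85_Vinf (K := K) (M' * q) hπ)
        (s34i47c_V0 (K := K) M' q hq hM' hπ) ∧
    cp57_HP1 (K := K) ((q : ℕ) : R) q (p ^ n) (pk15_chart R ({(pk85_h3 K (M' * q * q) (h3.trans ((dvd_mul_right M' q).trans (dvd_mul_right (M' * q) q))))⁻¹} : Set ↥(modularFunctionFieldFullC K (M' * q * q))))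
        (al97L_alpha K (M' * q) q).toRingHom
        (al97L_beta K (M' * q) q).toRingHom (s35i62_normA K (M' * q) q)
        (s35i62_normB K (M' * q) q) (cm85_Vinf (K := K) (M' * q * q) hπ) (v2g64_V2 (algebraMap K Q̄) M' q hq hM' hπ (Associated.refl _))
        (nsb86_V3 (K := K) M' q hq hM' hπ) (cm85_Vinf (K := K) (M' * q) hπ)
        (s34i47c_V0 (K := K) M' q hq hM' hπ) := by
  haveI : Algebra.IsAlgebraic K Q̄ := cx_isAlgebraic_closure K
  letI a1 : Algebra R ↥(modularFunctionFieldFullC K M') :=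
    ((algebraMap K ↥(modularFunctionFieldFullC K M')).comp (algebraMap R K)).toAlgebra
  haveI : IsScalarTower R K ↥(modularFunctionFieldFullC K M') :=
    IsScalarTower.of_algebraMap_eq (fun _ => rfl)
  letI a2 : Algebra R ↥(modularFunctionFieldFullC K (M' * q)) :=
    ((algebraMap K ↥(modularFunctionFieldFullC K (M' * q))).comp (algebraMap R K)).toAlgebra
  haveI : IsScalarTower R K ↥(modularFunctionFieldFullC K (M' * q)) :=
    IsScalarTower.of_algebraMap_eq (fun _ => rfl)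
  have hMu : IsUnit (M' : R) :=
    hunit M' (Nat.coprime_comm.mp ((Nat.Prime.coprime_iff_not_dvd hq).mpr hM'))
  obtain ⟨r1, r2⟩ := c2r8_reg_level3_q2 (R := R) (K := K) M' q hq hM' hq2 hπ hMu h3 hunit
    (v2g64_V2 (algebraMap K Q̄) M' q hq hM' hπ (Associated.refl _))
    (v2g64_V2_alpha (algebraMap K Q̄) M' q hq hM' hπ (Associated.refl _))
    (v2g64_V2_pi (algebraMap K Q̄) M' q hq hM' hπ (Associated.refl _))
    (v2g64_V2_val (algebraMap K Q̄) M' q hq hM' hπ (Associated.refl _))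
  exact hp84f_final3 M' q p hq hM' h3 hp hpq n R K hπ hunit r1 r2

/-- **(HP-1) on the canonical level-2 charts: the closed statement of HPSplit62.** -/
theorem c2r8_HP1c2 : s36i62g_HP1c2 := by
  intro M' q p r _ _ hq hM' hR hp hpq h2 n R K _ _ _ _ _ _ _ _ _ _ hπ hunit
  by_cases hq3 : q = 3
  · exact c2r8_HP1_final2_q3 M' q p hq hM' hq3 h2 hp hpq n R K hπ hunit
  · have h3q : 3 ∣ M' * q := hR.2.1 hq3
    have h3' : 3 ∣ M' := by
      rcases (Nat.Prime.dvd_mul Nat.prime_three).mp h3q with h | h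
      · exact h
      · exact absurd ((Nat.prime_dvd_prime_iff_eq Nat.prime_three hq).mp h).symm hq3
    exact c2r8_HP1_final2 M' q p hq hM' h2 h3' hp hpq n R K hπ hunit

/-- **(HP-1) on the canonical level-3 charts (`q = 2`): the closed statement of HPSplit62.** -/
theorem c2r8_HP1c3 : s36i62g_HP1c3 := by
  intro M' q p r _ _ hq hM' hR hp hpq hq2 h3 n R K _ _ _ _ _ _ _ _ _ _ hπ hunit
  exact c2r8_HP1_final3_q2 M' q p hq hM' hq2 h3 hp hpq n R K hπ hunit

end c2r8s_final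

end Fermat.Agent.S36
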