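import Fermat.Agent.S36.C2Reg24
import Fermat.Agent.S36.C2ChartSide91
import Fermat.Agent.S36.SmallQInst75
import Fermat.Agent.S36.MidBind62

/-!
S36 lab (helper24), row C-C2: the `j`-regular `C₂`-only points on the canonical frame
(`π = q`), for a chart `B` given with its frame facts and a "conductor" pair `(sJ, cJ)` of `j`
(`sJ * j = cJ`, `sJ` a unit of `V₁`, `sJ ∈ n → cJ ∉ n`).

* `c2t24_hreg_two` : `q ≠ 2` (`2 ∣ M'`, `2` a unit; `q ≠ 3 → 3 ∣ M'`, `3` a unit):
  coordinate `h₂` where `h₂ + 64` is a unit at `n`, else (`q ≥ 5`) coordinate `h₃`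
  (`c2s91_cover`); for `q = 3` the point is ordinary (`sqi75_j_unit_at`, `c2s91_small_two`).
* `c2t24_hreg_three` : `q = 2` (`3 ∣ M'`, `3` a unit): coordinate `h₃`
  (`sqi75_j_unit_at`, `c2s91_small_three`).
-/

set_option autoImplicit false
set_option linter.unusedSectionVars false
set_option linter.style.haveILetI false
set_option linter.unusedVariables false

open ModularCurve AlgebraicCurve

namespace Fermat.Agent.S36

open Fermat.Agent.S18 Fermat.Agent.S24 Fermat.Agent.S28 Fermat.Agent.S34 Fermat.Agent.S37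
open Fermat.Agent.S35 Fermat.Agent.S36.TripleLoc71

local notation "Q̄" => AlgebraicClosure ℚ

section c2t24_chart

variable {R K : Type} [CommRing R] [IsDomain R] [IsDiscreteValuationRing R] [Field K]
  [CharZero K] [Algebra R K] [IsFractionRing R K] [Algebra K Q̄] [Algebra.IsAlgebraic K Q̄]
  (M' q : ℕ) [NeZero M'] [NeZero q] (hq : q.Prime) (hM' : ¬ q ∣ M')
  [Algebra R ↥(modularFunctionFieldFullC K M')]
  [IsScalarTower R K ↥(modularFunctionFieldFullC K M')]
  [Algebra R ↥(modularFunctionFieldFullC K (M' * q))]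
  [IsScalarTower R K ↥(modularFunctionFieldFullC K (M' * q))]
  [Algebra R ↥(modularFunctionFieldFullC K (M' * q * q))]
  [IsScalarTower R K ↥(modularFunctionFieldFullC K (M' * q * q))]

/-- a natural number which is a unit of `R` is not in a prime of `B`. -/
theorem c2t24_unit_nmem (B : Subalgebra R ↥(modularFunctionFieldFullC K (M' * q * q)))
    (n : Ideal B) (hn : n.IsPrime) (k : ℕ) (hk : IsUnit ((k : ℕ) : R)) : ((k : ℕ) : B) ∉ n := by
  intro h
  apply hn.ne_top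
  have hu : IsUnit ((k : ℕ) : B) := by
    have := hk.map (algebraMap R B)
    rwa [map_natCast] at this
  exact Ideal.eq_top_of_isUnit_mem _ h hu

include hq hM' in
/-- **`j` is a unit at the points of `C₂` off `C₃` when `q ∈ {2, 3}`** (localised form of
`sqi75_j_unit_at`). -/
theorem c2t24_j_unit (h23 : q = 2 ∨ q = 3) (hπ : Irreducible ((q : ℕ) : R))
    (V₂ V₃ : ValuationSubring ↥(modularFunctionFieldFullC K (M' * q * q)))
    (hV₂ : ∀ c ∈ cm85_Vinf (K := K) (M' * q) hπ, al97L_alpha K (M' * q) q c ∈ V₂)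
    (hπ₂ : (algebraMap R ↥(modularFunctionFieldFullC K (M' * q * q)) ((q : ℕ) : R))⁻¹ ∉ V₂)
    (hne : cm85_Vinf (K := K) (M' * q * q) hπ ≠ V₂)
    (hs : V₂.valuation (v2g64_s K M' q) ^ (q - 1) =
      V₂.valuation (algebraMap R ↥(modularFunctionFieldFullC K (M' * q * q)) ((q : ℕ) : R)))
    (B : Subalgebra R ↥(modularFunctionFieldFullC K (M' * q * q)))
    (hBcl : ∀ x : ↥(modularFunctionFieldFullC K (M' * q * q)), IsIntegral B x → x ∈ B)
    (hB₁ : ∀ x ∈ B, x ∈ cm85_Vinf (K := K) (M' * q * q) hπ)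
    (hB₂ : ∀ x ∈ B, x ∈ V₂) (hB₃ : ∀ x ∈ B, x ∈ V₃)
    (hsat : ∀ x ∈ B,
      (algebraMap R ↥(modularFunctionFieldFullC K (M' * q * q)) ((q : ℕ) : R))⁻¹ * x ∈
        cm85_Vinf (K := K) (M' * q * q) hπ →
      (algebraMap R ↥(modularFunctionFieldFullC K (M' * q * q)) ((q : ℕ) : R))⁻¹ * x ∈ V₂ →
      (algebraMap R ↥(modularFunctionFieldFullC K (M' * q * q)) ((q : ℕ) : R))⁻¹ * x ∈ V₃ →
      (algebraMap R ↥(modularFunctionFieldFullC K (M' * q * q)) ((q : ℕ) : R))⁻¹ * x ∈ B)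
    (sJ cJ : B)
    (hsJ : (sJ : ↥(modularFunctionFieldFullC K (M' * q * q))) * rm90_j K (M' * q * q) =
      (cJ : ↥(modularFunctionFieldFullC K (M' * q * q))))
    (hsJ₁ : (sJ : ↥(modularFunctionFieldFullC K (M' * q * q)))⁻¹ ∈
      cm85_Vinf (K := K) (M' * q * q) hπ)
    (hsJc : ∀ n : Ideal B, n.IsPrime → sJ ∈ n → cJ ∉ n)
    (n : Ideal B) [hnp : n.IsPrime]
    (hmid : tl71_OnMid (v2g64_s K M' q) B V₂.toSubring n)
    (h3 : ¬ sf79_OnBr ((q : ℕ) : R) B V₃.toSubring n)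
    (s' b' : B) (hs' : s' ∉ n)
    (hs'j : (s' : ↥(modularFunctionFieldFullC K (M' * q * q))) * rm90_j K (M' * q * q) =
      (b' : ↥(modularFunctionFieldFullC K (M' * q * q)))) :
    ¬ sf79_nmem B n (rm90_j K (M' * q * q)) := by
  have hqR : ¬ IsUnit ((q : ℕ) : R) := hπ.not_isUnit
  have hV₂c : ∀ c ∈ cm85_Vinf (K := K) (M' * q) hπ,
      cm15_incl K (M' * q) (M' * q * q) (dvd_mul_right (M' * q) q) c ∈ V₂ := fun c hc => hV₂ c hc
  obtain ⟨f1, f2, f3, f4, f5⟩ := sm7_mid_facts (R := R) (K := K) M' q hq hM' hπ hqR V₂ hV₂c hπ₂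
    hne (v2g64_s K M' q) hs
  have hπ0 : algebraMap R ↥(modularFunctionFieldFullC K (M' * q * q)) ((q : ℕ) : R) ≠ 0 := by
    intro h0
    apply hπ₂
    rw [h0, inv_zero]
    exact V₂.zero_mem
  have hσ0 : v2g64_s K M' q ≠ 0 := by
    intro h0
    apply f2
    rw [h0, inv_zero]
    exact V₂.zero_mem
  have hsJn : sJ ∉ n := by
    intro hmem
    have hc := hsJc n hnp hmem
    have e : s' * cJ = sJ * b' := Subtype.ext (by
      show (s' : ↥(modularFunctionFieldFullC K (M' * q * q))) *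
        (cJ : ↥(modularFunctionFieldFullC K (M' * q * q))) =
        (sJ : ↥(modularFunctionFieldFullC K (M' * q * q))) *
        (b' : ↥(modularFunctionFieldFullC K (M' * q * q)))
      rw [← hsJ, ← hs'j]; ring)
    have hmem2 : s' * cJ ∈ n := by rw [e]; exact n.mul_mem_right _ hmem
    rcases hnp.mem_or_mem hmem2 with h | h
    · exact hs' h
    · exact hc h
  have hsJ₂ : (sJ : ↥(modularFunctionFieldFullC K (M' * q * q)))⁻¹ ∈ V₂ := by
    by_contra hcon
    apply hsJn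
    apply hmid
    have h := f3 (sJ : ↥(modularFunctionFieldFullC K (M' * q * q))) (hB₂ _ sJ.2) hcon
    have e : (sJ : ↥(modularFunctionFieldFullC K (M' * q * q))) * (v2g64_s K M' q)⁻¹
        = (v2g64_s K M' q)⁻¹ * (sJ : ↥(modularFunctionFieldFullC K (M' * q * q))) := mul_comm _ _
    rw [e]
    exact h
  have hOn₂ : ∀ x : B,
      (algebraMap R ↥(modularFunctionFieldFullC K (M' * q * q)) ((q : ℕ) : R))⁻¹ *
        (x : ↥(modularFunctionFieldFullC K (M' * q * q))) ∈ V₂ → x ∈ n := by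
    intro x hx
    apply hmid
    have e : (x : ↥(modularFunctionFieldFullC K (M' * q * q))) * (v2g64_s K M' q)⁻¹
        = ((algebraMap R ↥(modularFunctionFieldFullC K (M' * q * q)) ((q : ℕ) : R))⁻¹ *
          (x : ↥(modularFunctionFieldFullC K (M' * q * q)))) *
          ((v2g64_s K M' q)⁻¹ *
            algebraMap R ↥(modularFunctionFieldFullC K (M' * q * q)) ((q : ℕ) : R)) := by
      field_simp
    rw [e]
    exact V₂.mul_mem _ _ hx f4
  obtain ⟨a, ha₃, ha⟩ : ∃ a : B,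
      (algebraMap R ↥(modularFunctionFieldFullC K (M' * q * q)) ((q : ℕ) : R))⁻¹ *
        (a : ↥(modularFunctionFieldFullC K (M' * q * q))) ∈ V₃ ∧ a ∉ n := by
    by_contra hcon
    apply h3
    intro x hx
    by_contra hxn
    exact hcon ⟨x, hx, hxn⟩
  have hsJjB : (sJ : ↥(modularFunctionFieldFullC K (M' * q * q))) * rm90_j K (M' * q * q) ∈ B := by
    rw [hsJ]; exact cJ.2
  have hju0 := sqi75_j_unit_at (K := K) M' q hq hM' h23 hπ B hBcl V₂ V₃ hV₂ hB₁ hB₂ hB₃ hsat n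
    hOn₂ sJ hsJn hsJjB hsJ₁ hsJ₂ a ha ha₃
  rintro ⟨t, ht, bb, hbb, hEq⟩
  apply hju0
  have e : t * (⟨_, hsJjB⟩ : B) = sJ * bb := Subtype.ext (by
    show (t : ↥(modularFunctionFieldFullC K (M' * q * q))) *
      ((sJ : ↥(modularFunctionFieldFullC K (M' * q * q))) * rm90_j K (M' * q * q)) =
      (sJ : ↥(modularFunctionFieldFullC K (M' * q * q))) *
      (bb : ↥(modularFunctionFieldFullC K (M' * q * q)))
    rw [← hEq]; ring)
  have hmem : t * (⟨_, hsJjB⟩ : B) ∈ n := by rw [e]; exact n.mul_mem_left _ hbb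
  rcases hnp.mem_or_mem hmem with h | h
  · exact absurd h ht
  · exact h

include hq hM' in
/-- **Row C-C2 at a `j`-regular point, `q ≠ 2`** (coordinate `h₂`, or `h₃` over `j = 1728`). -/
theorem c2t24_hreg_two (hπ : Irreducible ((q : ℕ) : R))
    (h2 : 2 ∣ M') (h2u : IsUnit ((2 : ℕ) : R)) (h3q : q ≠ 3 → 3 ∣ M' ∧ IsUnit ((3 : ℕ) : R))
    (V₂ V₃ : ValuationSubring ↥(modularFunctionFieldFullC K (M' * q * q)))
    (hV₂ : ∀ c ∈ cm85_Vinf (K := K) (M' * q) hπ, al97L_alpha K (M' * q) q c ∈ V₂)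
    (hπ₂ : (algebraMap R ↥(modularFunctionFieldFullC K (M' * q * q)) ((q : ℕ) : R))⁻¹ ∉ V₂)
    (hne : cm85_Vinf (K := K) (M' * q * q) hπ ≠ V₂)
    (hs : V₂.valuation (v2g64_s K M' q) ^ (q - 1) =
      V₂.valuation (algebraMap R ↥(modularFunctionFieldFullC K (M' * q * q)) ((q : ℕ) : R)))
    (B : Subalgebra R ↥(modularFunctionFieldFullC K (M' * q * q)))
    (hBcl : ∀ x : ↥(modularFunctionFieldFullC K (M' * q * q)), IsIntegral B x → x ∈ B)
    (hB₁ : ∀ x ∈ B, x ∈ cm85_Vinf (K := K) (M' * q * q) hπ)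
    (hB₂ : ∀ x ∈ B, x ∈ V₂) (hB₃ : ∀ x ∈ B, x ∈ V₃)
    (hsat : ∀ x ∈ B,
      (algebraMap R ↥(modularFunctionFieldFullC K (M' * q * q)) ((q : ℕ) : R))⁻¹ * x ∈
        cm85_Vinf (K := K) (M' * q * q) hπ →
      (algebraMap R ↥(modularFunctionFieldFullC K (M' * q * q)) ((q : ℕ) : R))⁻¹ * x ∈ V₂ →
      (algebraMap R ↥(modularFunctionFieldFullC K (M' * q * q)) ((q : ℕ) : R))⁻¹ * x ∈ V₃ →
      (algebraMap R ↥(modularFunctionFieldFullC K (M' * q * q)) ((q : ℕ) : R))⁻¹ * x ∈ B)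
    (sJ cJ : B)
    (hsJ : (sJ : ↥(modularFunctionFieldFullC K (M' * q * q))) * rm90_j K (M' * q * q) =
      (cJ : ↥(modularFunctionFieldFullC K (M' * q * q))))
    (hsJ₁ : (sJ : ↥(modularFunctionFieldFullC K (M' * q * q)))⁻¹ ∈
      cm85_Vinf (K := K) (M' * q * q) hπ)
    (hsJc : ∀ n : Ideal B, n.IsPrime → sJ ∈ n → cJ ∉ n)
    (n : Ideal B) (hn : n.IsMaximal)
    (hπn : algebraMap R B ((q : ℕ) : R) ∈ n)
    (hmid : tl71_OnMid (v2g64_s K M' q) B V₂.toSubring n)
    (h1 : ¬ sf79_OnBr ((q : ℕ) : R) B (cm85_Vinf (K := K) (M' * q * q) hπ).toSubring n)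
    (h3 : ¬ sf79_OnBr ((q : ℕ) : R) B V₃.toSubring n)
    (hreg : ∃ s' b : B, s' ∉ n ∧
      (s' : ↥(modularFunctionFieldFullC K (M' * q * q))) * rm90_j K (M' * q * q) = (b : ↥(modularFunctionFieldFullC K (M' * q * q)))) :
    mc25_MidPrinAt (v2g64_s K M' q) B V₂.toSubring n := by
  classical
  haveI hnp : n.IsPrime := hn.isPrime
  have hqR : ¬ IsUnit ((q : ℕ) : R) := hπ.not_isUnit
  obtain ⟨s', b', hs', hs'j⟩ := hreg
  have hs'jB : (s' : ↥(modularFunctionFieldFullC K (M' * q * q))) * rm90_j K (M' * q * q) ∈ B := by rw [hs'j]; exact b'.2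
  have hV₂c : ∀ c ∈ cm85_Vinf (K := K) (M' * q) hπ,
      cm15_incl K (M' * q) (M' * q * q) (dvd_mul_right (M' * q) q) c ∈ V₂ := fun c hc => hV₂ c hc
  have hc2inj : Function.Injective (algebraMap ↥(modularFunctionFieldFullC K (M' * q * q)) (LaurentSeries K)) :=
    (algebraMap ↥(modularFunctionFieldFullC K (M' * q * q)) (LaurentSeries K)).injective
  have hjloc : rm90_j K (M' * q * q) ∈ sf79_loc B n := ⟨s', hs', hs'jB⟩
  have h2n : ((2 : ℕ) : B) ∉ n := c2t24_unit_nmem M' q B n hnp 2 h2u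
  have h2'' : 2 ∣ M' * q * q := h2.trans ((dvd_mul_right M' q).trans (dvd_mul_right (M' * q) q))
  obtain ⟨T1, hT1d⟩ : ∃ T1 : ↥(modularFunctionFieldFullC K (M' * q * q)), T1 = pk85_h2 K (M' * q * q) h2'' := ⟨_, rfl⟩
  have hT1 : (T1 : LaurentSeries K) = h70_h2 K := by rw [hT1d, pk85_h2_coe]
  have hT2 : ((al97L_alpha K (M' * q) q (al97L_beta K M' q (pk85_h2 K M' h2)) : ↥(modularFunctionFieldFullC K (M' * q * q))) :
      LaurentSeries K) = qExpand K q (h70_h2 K) := by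
    rw [al97L_alpha_coe, al97L_beta_coe, pk85_h2_coe]
  have hT3 : ((al97L_beta K (M' * q) q (al97L_beta K M' q (pk85_h2 K M' h2)) : ↥(modularFunctionFieldFullC K (M' * q * q))) :
      LaurentSeries K) = qExpand K q (qExpand K q (h70_h2 K)) := by
    rw [al97L_beta_coe, al97L_beta_coe, pk85_h2_coe]
  have hrel2 : rm90_j K (M' * q * q) * T1 ^ 2 = (T1 + 256) ^ 3 := by
    apply hc2inj
    have e1 : algebraMap ↥(modularFunctionFieldFullC K (M' * q * q)) (LaurentSeries K) (rm90_j K (M' * q * q) * T1 ^ 2)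
        = jqModC K * (T1 : LaurentSeries K) ^ 2 := by
      rw [map_mul, map_pow]; rfl
    have e2 : algebraMap ↥(modularFunctionFieldFullC K (M' * q * q)) (LaurentSeries K) ((T1 + 256) ^ 3)
        = ((T1 : LaurentSeries K) + 256) ^ 3 := by
      rw [map_pow, map_add, map_ofNat]; rfl
    rw [e1, e2, hT1]
    exact h70_j_mul_h2_sq K
  have hT1loc : T1 ∈ sf79_loc B n :=
    c2x25_loc_of_integral B n hBcl _ T1 (c2i25_int_rel_two _ T1 hrel2) s' hs' hs'jB
  by_cases h64 : sf79_nmem B n (T1 + 64)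
  · by_cases hq3 : q = 3
    · exfalso
      have hju := c2t24_j_unit (K := K) M' q hq hM' (Or.inr hq3) hπ V₂ V₃ hV₂ hπ₂ hne hs B hBcl
        hB₁ hB₂ hB₃ hsat sJ cJ hsJ hsJ₁ hsJc n hmid h3 s' b' hs' hs'j
      have h3n : ((3 : ℕ) : B) ∈ n := by
        have e0 : ((q : ℕ) : R) = ((3 : ℕ) : R) := by rw [hq3]
        have e : ((3 : ℕ) : B) = algebraMap R B ((q : ℕ) : R) := by
          rw [e0, map_natCast]
        rw [e]; exact hπn
      exact (c2s91_small_two B n _ T1 hjloc hT1loc h3n hju hrel2).2 h64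
    · obtain ⟨h3M, h3u⟩ := h3q hq3
      have h3'' : 3 ∣ M' * q * q :=
        h3M.trans ((dvd_mul_right M' q).trans (dvd_mul_right (M' * q) q))
      obtain ⟨S1, hS1d⟩ : ∃ S1 : ↥(modularFunctionFieldFullC K (M' * q * q)), S1 = pk85_h3 K (M' * q * q) h3'' := ⟨_, rfl⟩
      have hS1 : (S1 : LaurentSeries K) = h34_h3R K := by rw [hS1d, pk85_h3_coe]
      have hS2 : ((al97L_alpha K (M' * q) q (al97L_beta K M' q (pk85_h3 K M' h3M)) : ↥(modularFunctionFieldFullC K (M' * q * q))) :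
          LaurentSeries K) = qExpand K q (h34_h3R K) := by
        rw [al97L_alpha_coe, al97L_beta_coe, pk85_h3_coe]
      have hS3 : ((al97L_beta K (M' * q) q (al97L_beta K M' q (pk85_h3 K M' h3M)) : ↥(modularFunctionFieldFullC K (M' * q * q))) :
          LaurentSeries K) = qExpand K q (qExpand K q (h34_h3R K)) := by
        rw [al97L_beta_coe, al97L_beta_coe, pk85_h3_coe]
      have hrel3 : rm90_j K (M' * q * q) * S1 ^ 3 = (S1 + 27) * (S1 + 243) ^ 3 := by
        apply hc2inj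
        have e1 : algebraMap ↥(modularFunctionFieldFullC K (M' * q * q)) (LaurentSeries K) (rm90_j K (M' * q * q) * S1 ^ 3)
            = jqModC K * (S1 : LaurentSeries K) ^ 3 := by
          rw [map_mul, map_pow]; rfl
        have e2 : algebraMap ↥(modularFunctionFieldFullC K (M' * q * q)) (LaurentSeries K) ((S1 + 27) * (S1 + 243) ^ 3)
            = ((S1 : LaurentSeries K) + 27) * ((S1 : LaurentSeries K) + 243) ^ 3 := by
          simp only [map_mul, map_pow, map_add, map_ofNat]; rfl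
        rw [e1, e2, hS1]
        exact (uwh31_h3_ok K).2
      have hS1loc : S1 ∈ sf79_loc B n :=
        c2x25_loc_of_integral B n hBcl _ S1 (c2i25_int_rel_three _ S1 hrel3) s' hs' hs'jB
      have h3n : ((3 : ℕ) : B) ∉ n := c2t24_unit_nmem M' q B n hnp 3 h3u
      have h6n : ((6 : ℕ) : B) ∉ n := by
        apply c2t24_unit_nmem M' q B n hnp 6
        have e : ((6 : ℕ) : R) = ((2 : ℕ) : R) * ((3 : ℕ) : R) := by norm_num
        rw [e]; exact h2u.mul h3u
      have h27 : ¬ sf79_nmem B n (S1 + 27) :=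
        (c2s91_cover B n _ T1 S1 hT1loc hS1loc hrel2 hrel3 h6n).resolve_left (fun h => h h64)
      exact c2r24_prinAt_three (R := R) (K := K) M' q hq hM' hπ hqR h3M 1 1 (one_mul 1)
        (one_mul _).symm V₂ hV₂c hπ₂ hne (v2g64_s K M' q) hs rfl
        (cm85_Vinf (K := K) (M' * q * q) hπ).toSubring V₃.toSubring B hBcl hB₁ hB₂ hB₃ hsat n
        hmid h1 h3 S1 _ _ hS1 hS2 hS3 hπn s' hs' hs'jB h3n h27
  · exact c2r24_prinAt_two (R := R) (K := K) M' q hq hM' hπ hqR h2 1 1 (one_mul 1)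
      (one_mul _).symm V₂ hV₂c hπ₂ hne (v2g64_s K M' q) hs rfl
      (cm85_Vinf (K := K) (M' * q * q) hπ).toSubring V₃.toSubring B hBcl hB₁ hB₂ hB₃ hsat n
      hmid h1 h3 T1 _ _ hT1 hT2 hT3 hπn s' hs' hs'jB h2n h64

include hq hM' in
/-- **Row C-C2 at a `j`-regular point, `q = 2`** (coordinate `h₃`). -/
theorem c2t24_hreg_three (hπ : Irreducible ((q : ℕ) : R)) (hq2 : q = 2)
    (h3M : 3 ∣ M') (h3u : IsUnit ((3 : ℕ) : R))
    (V₂ V₃ : ValuationSubring ↥(modularFunctionFieldFullC K (M' * q * q)))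
    (hV₂ : ∀ c ∈ cm85_Vinf (K := K) (M' * q) hπ, al97L_alpha K (M' * q) q c ∈ V₂)
    (hπ₂ : (algebraMap R ↥(modularFunctionFieldFullC K (M' * q * q)) ((q : ℕ) : R))⁻¹ ∉ V₂)
    (hne : cm85_Vinf (K := K) (M' * q * q) hπ ≠ V₂)
    (hs : V₂.valuation (v2g64_s K M' q) ^ (q - 1) =
      V₂.valuation (algebraMap R ↥(modularFunctionFieldFullC K (M' * q * q)) ((q : ℕ) : R)))
    (B : Subalgebra R ↥(modularFunctionFieldFullC K (M' * q * q)))
    (hBcl : ∀ x : ↥(modularFunctionFieldFullC K (M' * q * q)), IsIntegral B x → x ∈ B)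
    (hB₁ : ∀ x ∈ B, x ∈ cm85_Vinf (K := K) (M' * q * q) hπ)
    (hB₂ : ∀ x ∈ B, x ∈ V₂) (hB₃ : ∀ x ∈ B, x ∈ V₃)
    (hsat : ∀ x ∈ B,
      (algebraMap R ↥(modularFunctionFieldFullC K (M' * q * q)) ((q : ℕ) : R))⁻¹ * x ∈
        cm85_Vinf (K := K) (M' * q * q) hπ →
      (algebraMap R ↥(modularFunctionFieldFullC K (M' * q * q)) ((q : ℕ) : R))⁻¹ * x ∈ V₂ →
      (algebraMap R ↥(modularFunctionFieldFullC K (M' * q * q)) ((q : ℕ) : R))⁻¹ * x ∈ V₃ →
      (algebraMap R ↥(modularFunctionFieldFullC K (M' * q * q)) ((q : ℕ) : R))⁻¹ * x ∈ B)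
    (sJ cJ : B)
    (hsJ : (sJ : ↥(modularFunctionFieldFullC K (M' * q * q))) * rm90_j K (M' * q * q) =
      (cJ : ↥(modularFunctionFieldFullC K (M' * q * q))))
    (hsJ₁ : (sJ : ↥(modularFunctionFieldFullC K (M' * q * q)))⁻¹ ∈
      cm85_Vinf (K := K) (M' * q * q) hπ)
    (hsJc : ∀ n : Ideal B, n.IsPrime → sJ ∈ n → cJ ∉ n)
    (n : Ideal B) (hn : n.IsMaximal)
    (hπn : algebraMap R B ((q : ℕ) : R) ∈ n)
    (hmid : tl71_OnMid (v2g64_s K M' q) B V₂.toSubring n)
    (h1 : ¬ sf79_OnBr ((q : ℕ) : R) B (cm85_Vinf (K := K) (M' * q * q) hπ).toSubring n)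
    (h3 : ¬ sf79_OnBr ((q : ℕ) : R) B V₃.toSubring n)
    (hreg : ∃ s' b : B, s' ∉ n ∧
      (s' : ↥(modularFunctionFieldFullC K (M' * q * q))) * rm90_j K (M' * q * q) = (b : ↥(modularFunctionFieldFullC K (M' * q * q)))) :
    mc25_MidPrinAt (v2g64_s K M' q) B V₂.toSubring n := by
  classical
  haveI hnp : n.IsPrime := hn.isPrime
  have hqR : ¬ IsUnit ((q : ℕ) : R) := hπ.not_isUnit
  obtain ⟨s', b', hs', hs'j⟩ := hreg
  have hs'jB : (s' : ↥(modularFunctionFieldFullC K (M' * q * q))) * rm90_j K (M' * q * q) ∈ B := by rw [hs'j]; exact b'.2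
  have hV₂c : ∀ c ∈ cm85_Vinf (K := K) (M' * q) hπ,
      cm15_incl K (M' * q) (M' * q * q) (dvd_mul_right (M' * q) q) c ∈ V₂ := fun c hc => hV₂ c hc
  have hc2inj : Function.Injective (algebraMap ↥(modularFunctionFieldFullC K (M' * q * q)) (LaurentSeries K)) :=
    (algebraMap ↥(modularFunctionFieldFullC K (M' * q * q)) (LaurentSeries K)).injective
  have hjloc : rm90_j K (M' * q * q) ∈ sf79_loc B n := ⟨s', hs', hs'jB⟩
  have h3n : ((3 : ℕ) : B) ∉ n := c2t24_unit_nmem M' q B n hnp 3 h3u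
  have h3'' : 3 ∣ M' * q * q :=
    h3M.trans ((dvd_mul_right M' q).trans (dvd_mul_right (M' * q) q))
  obtain ⟨S1, hS1d⟩ : ∃ S1 : ↥(modularFunctionFieldFullC K (M' * q * q)), S1 = pk85_h3 K (M' * q * q) h3'' := ⟨_, rfl⟩
  have hS1 : (S1 : LaurentSeries K) = h34_h3R K := by rw [hS1d, pk85_h3_coe]
  have hS2 : ((al97L_alpha K (M' * q) q (al97L_beta K M' q (pk85_h3 K M' h3M)) : ↥(modularFunctionFieldFullC K (M' * q * q))) :
      LaurentSeries K) = qExpand K q (h34_h3R K) := by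
    rw [al97L_alpha_coe, al97L_beta_coe, pk85_h3_coe]
  have hS3 : ((al97L_beta K (M' * q) q (al97L_beta K M' q (pk85_h3 K M' h3M)) : ↥(modularFunctionFieldFullC K (M' * q * q))) :
      LaurentSeries K) = qExpand K q (qExpand K q (h34_h3R K)) := by
    rw [al97L_beta_coe, al97L_beta_coe, pk85_h3_coe]
  have hrel3 : rm90_j K (M' * q * q) * S1 ^ 3 = (S1 + 27) * (S1 + 243) ^ 3 := by
    apply hc2inj
    have e1 : algebraMap ↥(modularFunctionFieldFullC K (M' * q * q)) (LaurentSeries K) (rm90_j K (M' * q * q) * S1 ^ 3)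
        = jqModC K * (S1 : LaurentSeries K) ^ 3 := by
      rw [map_mul, map_pow]; rfl
    have e2 : algebraMap ↥(modularFunctionFieldFullC K (M' * q * q)) (LaurentSeries K) ((S1 + 27) * (S1 + 243) ^ 3)
        = ((S1 : LaurentSeries K) + 27) * ((S1 : LaurentSeries K) + 243) ^ 3 := by
      simp only [map_mul, map_pow, map_add, map_ofNat]; rfl
    rw [e1, e2, hS1]
    exact (uwh31_h3_ok K).2
  have hS1loc : S1 ∈ sf79_loc B n :=
    c2x25_loc_of_integral B n hBcl _ S1 (c2i25_int_rel_three _ S1 hrel3) s' hs' hs'jB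
  have hju := c2t24_j_unit (K := K) M' q hq hM' (Or.inl hq2) hπ V₂ V₃ hV₂ hπ₂ hne hs B hBcl
    hB₁ hB₂ hB₃ hsat sJ cJ hsJ hsJ₁ hsJc n hmid h3 s' b' hs' hs'j
  have h2n : ((2 : ℕ) : B) ∈ n := by
    have e0 : ((q : ℕ) : R) = ((2 : ℕ) : R) := by rw [hq2]
    have e : ((2 : ℕ) : B) = algebraMap R B ((q : ℕ) : R) := by
      rw [e0, map_natCast]
    rw [e]; exact hπn
  have h27 : ¬ sf79_nmem B n (S1 + 27) :=
    (c2s91_small_three B n _ S1 hjloc hS1loc h2n hju hrel3).2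
  exact c2r24_prinAt_three (R := R) (K := K) M' q hq hM' hπ hqR h3M 1 1 (one_mul 1)
    (one_mul _).symm V₂ hV₂c hπ₂ hne (v2g64_s K M' q) hs rfl
    (cm85_Vinf (K := K) (M' * q * q) hπ).toSubring V₃.toSubring B hBcl hB₁ hB₂ hB₃ hsat n
    hmid h1 h3 S1 _ _ hS1 hS2 hS3 hπn s' hs' hs'jB h3n h27

end c2t24_chart

/-- **Row 600 on the canonical frame** (`s36i62j_Reg2`, `MidBind62`). -/
theorem c2t24_Reg2 : s36i62j_Reg2 := by
  intro M' q r _ _ hq hM' hrig h2 R K _ _ _ _ _ _ _ _ _ _ hπ hunit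
  haveI : Algebra.IsAlgebraic K Q̄ := fs85_isAlgebraic K
  letI a0 : Algebra R ↥(modularFunctionFieldFullC K M') :=
    ((algebraMap K ↥(modularFunctionFieldFullC K M')).comp (algebraMap R K)).toAlgebra
  haveI t0 : IsScalarTower R K ↥(modularFunctionFieldFullC K M') :=
    IsScalarTower.of_algebraMap_eq (fun _ => rfl)
  letI a1 : Algebra R ↥(modularFunctionFieldFullC K (M' * q)) :=
    ((algebraMap K ↥(modularFunctionFieldFullC K (M' * q))).comp (algebraMap R K)).toAlgebra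
  haveI t1 : IsScalarTower R K ↥(modularFunctionFieldFullC K (M' * q)) :=
    IsScalarTower.of_algebraMap_eq (fun _ => rfl)
  have hqR : ¬ IsUnit ((q : ℕ) : R) := hπ.not_isUnit
  have hMu : IsUnit ((M' : ℕ) : R) :=
    hunit M' (Nat.Coprime.symm ((Nat.Prime.coprime_iff_not_dvd hq).mpr hM'))
  have hq2 : q ≠ 2 := by
    intro h
    apply hM'
    rw [h]
    exact h2
  have h2u : IsUnit ((2 : ℕ) : R) :=
    hunit 2 ((Nat.coprime_primes Nat.prime_two hq).mpr (Ne.symm hq2))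
  have h3q : q ≠ 3 → 3 ∣ M' ∧ IsUnit ((3 : ℕ) : R) := by
    intro hq3
    refine ⟨?_, hunit 3 ((Nat.coprime_primes Nat.prime_three hq).mpr (Ne.symm hq3))⟩
    have h := hrig.2.1 hq3
    rcases (Nat.Prime.dvd_mul Nat.prime_three).mp h with h | h
    · exact h
    · exact absurd ((Nat.prime_dvd_prime_iff_eq Nat.prime_three hq).mp h).symm hq3
  have hV₂ := v2g64_V2_alpha (algebraMap K Q̄) M' q hq hM' hπ (Associated.refl _)
  have hπ₂ := v2g64_V2_pi (algebraMap K Q̄) M' q hq hM' hπ (Associated.refl _)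
  have hne := v2g64_V2_ne (algebraMap K Q̄) M' q hq hM' hπ (Associated.refl _)
  have hs := v2g64_V2_val (algebraMap K Q̄) M' q hq hM' hπ (Associated.refl _)
  obtain ⟨-, hC, -⟩ := fb85_frameV3_level2 M' q hq hM' hπ hqR hMu h2 _ hV₂ hπ₂ hs
  obtain ⟨-, h12W, hsat1, hsat2, -⟩ := hC
  have e : algebraMap R ↥(modularFunctionFieldFullC K (M' * q * q)) ((q : ℕ) : R) =
      algebraMap K ↥(modularFunctionFieldFullC K (M' * q * q)) (algebraMap R K ((q : ℕ) : R)) :=
    IsScalarTower.algebraMap_apply R K _ _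
  have hπ₂' : (algebraMap R ↥(modularFunctionFieldFullC K (M' * q * q)) ((q : ℕ) : R))⁻¹ ∉
      v2g64_V2 (algebraMap K Q̄) M' q hq hM' hπ (Associated.refl _) := by
    rw [e]
    exact hπ₂
  have hs' : (v2g64_V2 (algebraMap K Q̄) M' q hq hM' hπ (Associated.refl _)).valuation
      (v2g64_s K M' q) ^ (q - 1) =
      (v2g64_V2 (algebraMap K Q̄) M' q hq hM' hπ (Associated.refl _)).valuation
        (algebraMap R ↥(modularFunctionFieldFullC K (M' * q * q)) ((q : ℕ) : R)) := by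
    rw [e]
    exact hs
  have hc2inj : Function.Injective (algebraMap ↥(modularFunctionFieldFullC K (M' * q * q)) (LaurentSeries K)) :=
    (algebraMap ↥(modularFunctionFieldFullC K (M' * q * q)) (LaurentSeries K)).injective
  have hfacts := cm85_facts_level2 (R := R) (K := K) (M' * q * q) hπ
    (h2.trans ((dvd_mul_right M' q).trans (dvd_mul_right (M' * q) q)))
  obtain ⟨hh, hhd⟩ : ∃ hh : ↥(modularFunctionFieldFullC K (M' * q * q)), hh = pk85_h2 K (M' * q * q)
      (h2.trans ((dvd_mul_right M' q).trans (dvd_mul_right (M' * q) q))) := ⟨_, rfl⟩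
  rw [← hhd] at hfacts h12W hsat1 hsat2 ⊢
  have hhc : (hh : LaurentSeries K) = h70_h2 K := by rw [hhd, pk85_h2_coe]
  have hh0 : hh ≠ 0 := by
    intro h0
    apply h70_h2_ne_zero K
    rw [← hhc, h0]
    rfl
  have hhV : hh ∈ cm85_Vinf (K := K) (M' * q * q) hπ := hfacts.2.2.2.2.1
  have hhV' : hh⁻¹ ∈ cm85_Vinf (K := K) (M' * q * q) hπ := hfacts.2.2.2.2.2.1
  have hrel : rm90_j K (M' * q * q) * hh ^ 2 = (hh + 256) ^ 3 := by
    apply hc2inj
    have e1 : algebraMap ↥(modularFunctionFieldFullC K (M' * q * q)) (LaurentSeries K) (rm90_j K (M' * q * q) * hh ^ 2)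
        = jqModC K * (hh : LaurentSeries K) ^ 2 := by
      rw [map_mul, map_pow]; rfl
    have e2 : algebraMap ↥(modularFunctionFieldFullC K (M' * q * q)) (LaurentSeries K) ((hh + 256) ^ 3)
        = ((hh : LaurentSeries K) + 256) ^ 3 := by
      rw [map_pow, map_add, map_ofNat]; rfl
    rw [e1, e2, hhc]
    exact h70_j_mul_h2_sq K
  have hsub1 : ({hh} : Set ↥(modularFunctionFieldFullC K (M' * q * q))) ⊆ {hh, hh⁻¹} := by
    intro x hx
    rw [Set.mem_singleton_iff.mp hx]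
    exact Set.mem_insert _ _
  have hsub2 : ({hh⁻¹} : Set ↥(modularFunctionFieldFullC K (M' * q * q))) ⊆ {hh, hh⁻¹} := by
    intro x hx
    rw [Set.mem_singleton_iff.mp hx]
    exact Set.mem_insert_of_mem _ rfl
  have hBW1 : ∀ x ∈ pk15_chart R ({hh} : Set ↥(modularFunctionFieldFullC K (M' * q * q))),
      x ∈ (cm85_Vinf (K := K) (M' * q * q) hπ).toSubring ⊓
        (v2g64_V2 (algebraMap K Q̄) M' q hq hM' hπ (Associated.refl _)).toSubring ⊓
        (nsb86_V3 (K := K) M' q hq hM' hπ).toSubring :=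
    fun x hx => h12W x (pk15_chart_mono hsub1 hx)
  have hBW2 : ∀ x ∈ pk15_chart R ({hh⁻¹} : Set ↥(modularFunctionFieldFullC K (M' * q * q))),
      x ∈ (cm85_Vinf (K := K) (M' * q * q) hπ).toSubring ⊓
        (v2g64_V2 (algebraMap K Q̄) M' q hq hM' hπ (Associated.refl _)).toSubring ⊓
        (nsb86_V3 (K := K) M' q hq hM' hπ).toSubring :=
    fun x hx => h12W x (pk15_chart_mono hsub2 hx)
  have hmem : hh ∈ pk15_chart R ({hh} : Set ↥(modularFunctionFieldFullC K (M' * q * q))) := pk15_subset_chart _ (Set.mem_singleton _)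
  have hmemk : hh⁻¹ ∈ pk15_chart R ({hh⁻¹} : Set ↥(modularFunctionFieldFullC K (M' * q * q))) :=
    pk15_subset_chart _ (Set.mem_singleton _)
  refine ⟨fun n hn hπn hmid h1 h3 hreg => ?_, fun n hn hπn hmid h1 h3 hreg => ?_⟩
  · exact c2t24_hreg_two (K := K) M' q hq hM' hπ h2 h2u h3q
      (v2g64_V2 (algebraMap K Q̄) M' q hq hM' hπ (Associated.refl _))
      (nsb86_V3 (K := K) M' q hq hM' hπ) hV₂ hπ₂' hne hs' _
      (fun x hx => ci22_chart_closed _ x hx)
      (fun x hx => (Subring.mem_inf.mp (Subring.mem_inf.mp (hBW1 x hx)).1).1)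
      (fun x hx => (Subring.mem_inf.mp (Subring.mem_inf.mp (hBW1 x hx)).1).2)
      (fun x hx => (Subring.mem_inf.mp (hBW1 x hx)).2)
      (fun x hx h1 h2 h3 => hsat1 x hx (Subring.mem_inf.mpr ⟨Subring.mem_inf.mpr ⟨h1, h2⟩, h3⟩))
      (⟨hh, hmem⟩ ^ 2) ((⟨hh, hmem⟩ + ((256 : ℕ) : ↥(pk15_chart R ({hh} : Set ↥(modularFunctionFieldFullC K (M' * q * q)))))) ^ 3)
      (by push_cast; exact (mul_comm _ _).trans hrel)
      (by push_cast; rw [← inv_pow]; exact pow_mem hhV' 2)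
      (by
        intro n' hn' hs hc
        have h1 := hn'.mem_of_pow_mem 2 hs
        have h2' := hn'.mem_of_pow_mem 3 hc
        have h256 : ((256 : ℕ) : ↥(pk15_chart R ({hh} : Set ↥(modularFunctionFieldFullC K (M' * q * q))))) ∈ n' := by
          have := n'.sub_mem h2' h1
          rwa [add_sub_cancel_left] at this
        have e : ((256 : ℕ) : ↥(pk15_chart R ({hh} : Set ↥(modularFunctionFieldFullC K (M' * q * q)))))
            = ((2 : ℕ) : ↥(pk15_chart R ({hh} : Set ↥(modularFunctionFieldFullC K (M' * q * q))))) ^ 8 := by norm_num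
        rw [e] at h256
        exact c2t24_unit_nmem M' q _ n' hn' 2 h2u (hn'.mem_of_pow_mem 8 h256))
      n hn hπn hmid h1 h3 hreg
  · exact c2t24_hreg_two (K := K) M' q hq hM' hπ h2 h2u h3q
      (v2g64_V2 (algebraMap K Q̄) M' q hq hM' hπ (Associated.refl _))
      (nsb86_V3 (K := K) M' q hq hM' hπ) hV₂ hπ₂' hne hs' _
      (fun x hx => ci22_chart_closed _ x hx)
      (fun x hx => (Subring.mem_inf.mp (Subring.mem_inf.mp (hBW2 x hx)).1).1)
      (fun x hx => (Subring.mem_inf.mp (Subring.mem_inf.mp (hBW2 x hx)).1).2)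
      (fun x hx => (Subring.mem_inf.mp (hBW2 x hx)).2)
      (fun x hx h1 h2 h3 => hsat2 x hx (Subring.mem_inf.mpr ⟨Subring.mem_inf.mpr ⟨h1, h2⟩, h3⟩))
      ⟨hh⁻¹, hmemk⟩ ((1 + ((256 : ℕ) : ↥(pk15_chart R ({hh⁻¹} : Set ↥(modularFunctionFieldFullC K (M' * q * q))))) * ⟨hh⁻¹, hmemk⟩) ^ 3)
      (by
        show hh⁻¹ * rm90_j K (M' * q * q) = (1 + ((256 : ℕ) : ↥(modularFunctionFieldFullC K (M' * q * q))) * hh⁻¹) ^ 3
        rw [Nat.cast_ofNat]
        have e : hh⁻¹ * rm90_j K (M' * q * q) = (rm90_j K (M' * q * q) * hh ^ 2) * hh⁻¹ ^ 3 := by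
          field_simp
        rw [e, hrel]
        field_simp)
      (by show (hh⁻¹)⁻¹ ∈ _; rw [inv_inv]; exact hhV)
      (by
        intro n' hn' hs hc
        have h1 := hn'.mem_of_pow_mem 3 hc
        have h1' : (1 : ↥(pk15_chart R ({hh⁻¹} : Set ↥(modularFunctionFieldFullC K (M' * q * q))))) ∈ n' := by
          have := n'.sub_mem h1 (n'.mul_mem_left ((256 : ℕ) : ↥(pk15_chart R ({hh⁻¹} : Set ↥(modularFunctionFieldFullC K (M' * q * q))))) hs)
          rwa [add_sub_cancel_right] at this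
        exact hn'.ne_top ((Ideal.eq_top_iff_one _).mpr h1'))
      n hn hπn hmid h1 h3 hreg

/-- **Row 600 on the canonical frame** (`s36i62j_Reg3`, `MidBind62`). -/
theorem c2t24_Reg3 : s36i62j_Reg3 := by
  intro M' q r _ _ hq hM' hrig hq2 h3M R K _ _ _ _ _ _ _ _ _ _ hπ hunit
  haveI : Algebra.IsAlgebraic K Q̄ := fs85_isAlgebraic K
  letI a0 : Algebra R ↥(modularFunctionFieldFullC K M') :=
    ((algebraMap K ↥(modularFunctionFieldFullC K M')).comp (algebraMap R K)).toAlgebra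
  haveI t0 : IsScalarTower R K ↥(modularFunctionFieldFullC K M') :=
    IsScalarTower.of_algebraMap_eq (fun _ => rfl)
  letI a1 : Algebra R ↥(modularFunctionFieldFullC K (M' * q)) :=
    ((algebraMap K ↥(modularFunctionFieldFullC K (M' * q))).comp (algebraMap R K)).toAlgebra
  haveI t1 : IsScalarTower R K ↥(modularFunctionFieldFullC K (M' * q)) :=
    IsScalarTower.of_algebraMap_eq (fun _ => rfl)
  have hqR : ¬ IsUnit ((q : ℕ) : R) := hπ.not_isUnit
  have hMu : IsUnit ((M' : ℕ) : R) :=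
    hunit M' (Nat.Coprime.symm ((Nat.Prime.coprime_iff_not_dvd hq).mpr hM'))
  have h3u : IsUnit ((3 : ℕ) : R) := by
    apply hunit 3
    rw [hq2]
    decide
  have hV₂ := v2g64_V2_alpha (algebraMap K Q̄) M' q hq hM' hπ (Associated.refl _)
  have hπ₂ := v2g64_V2_pi (algebraMap K Q̄) M' q hq hM' hπ (Associated.refl _)
  have hne := v2g64_V2_ne (algebraMap K Q̄) M' q hq hM' hπ (Associated.refl _)
  have hs := v2g64_V2_val (algebraMap K Q̄) M' q hq hM' hπ (Associated.refl _)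
  obtain ⟨-, hC, -⟩ := fb85_frameV3_level3 M' q hq hM' hπ hqR hMu h3M _ hV₂ hπ₂ hs
  obtain ⟨-, h12W, hsat1, hsat2, -⟩ := hC
  have e : algebraMap R ↥(modularFunctionFieldFullC K (M' * q * q)) ((q : ℕ) : R) =
      algebraMap K ↥(modularFunctionFieldFullC K (M' * q * q)) (algebraMap R K ((q : ℕ) : R)) :=
    IsScalarTower.algebraMap_apply R K _ _
  have hπ₂' : (algebraMap R ↥(modularFunctionFieldFullC K (M' * q * q)) ((q : ℕ) : R))⁻¹ ∉
      v2g64_V2 (algebraMap K Q̄) M' q hq hM' hπ (Associated.refl _) := by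
    rw [e]
    exact hπ₂
  have hs' : (v2g64_V2 (algebraMap K Q̄) M' q hq hM' hπ (Associated.refl _)).valuation
      (v2g64_s K M' q) ^ (q - 1) =
      (v2g64_V2 (algebraMap K Q̄) M' q hq hM' hπ (Associated.refl _)).valuation
        (algebraMap R ↥(modularFunctionFieldFullC K (M' * q * q)) ((q : ℕ) : R)) := by
    rw [e]
    exact hs
  have hc2inj : Function.Injective (algebraMap ↥(modularFunctionFieldFullC K (M' * q * q)) (LaurentSeries K)) :=
    (algebraMap ↥(modularFunctionFieldFullC K (M' * q * q)) (LaurentSeries K)).injective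
  have hfacts := cm85_facts_level3 (R := R) (K := K) (M' * q * q) hπ
    (h3M.trans ((dvd_mul_right M' q).trans (dvd_mul_right (M' * q) q)))
  obtain ⟨hh, hhd⟩ : ∃ hh : ↥(modularFunctionFieldFullC K (M' * q * q)), hh = pk85_h3 K (M' * q * q)
      (h3M.trans ((dvd_mul_right M' q).trans (dvd_mul_right (M' * q) q))) := ⟨_, rfl⟩
  rw [← hhd] at hfacts h12W hsat1 hsat2 ⊢
  have hhc : (hh : LaurentSeries K) = h34_h3R K := by rw [hhd, pk85_h3_coe]
  have hh0 : hh ≠ 0 := by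
    intro h0
    apply (uwh31_h3_ok K).1
    rw [← hhc, h0]
    rfl
  have hhV : hh ∈ cm85_Vinf (K := K) (M' * q * q) hπ := hfacts.2.2.2.2.1
  have hhV' : hh⁻¹ ∈ cm85_Vinf (K := K) (M' * q * q) hπ := hfacts.2.2.2.2.2.1
  have hrel : rm90_j K (M' * q * q) * hh ^ 3 = (hh + 27) * (hh + 243) ^ 3 := by
    apply hc2inj
    have e1 : algebraMap ↥(modularFunctionFieldFullC K (M' * q * q)) (LaurentSeries K) (rm90_j K (M' * q * q) * hh ^ 3)
        = jqModC K * (hh : LaurentSeries K) ^ 3 := by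
      rw [map_mul, map_pow]; rfl
    have e2 : algebraMap ↥(modularFunctionFieldFullC K (M' * q * q)) (LaurentSeries K) ((hh + 27) * (hh + 243) ^ 3)
        = ((hh : LaurentSeries K) + 27) * ((hh : LaurentSeries K) + 243) ^ 3 := by
      simp only [map_mul, map_pow, map_add, map_ofNat]; rfl
    rw [e1, e2, hhc]
    exact (uwh31_h3_ok K).2
  have hsub1 : ({hh} : Set ↥(modularFunctionFieldFullC K (M' * q * q))) ⊆ {hh, hh⁻¹} := by
    intro x hx
    rw [Set.mem_singleton_iff.mp hx]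
    exact Set.mem_insert _ _
  have hsub2 : ({hh⁻¹} : Set ↥(modularFunctionFieldFullC K (M' * q * q))) ⊆ {hh, hh⁻¹} := by
    intro x hx
    rw [Set.mem_singleton_iff.mp hx]
    exact Set.mem_insert_of_mem _ rfl
  have hBW1 : ∀ x ∈ pk15_chart R ({hh} : Set ↥(modularFunctionFieldFullC K (M' * q * q))),
      x ∈ (cm85_Vinf (K := K) (M' * q * q) hπ).toSubring ⊓
        (v2g64_V2 (algebraMap K Q̄) M' q hq hM' hπ (Associated.refl _)).toSubring ⊓
        (nsb86_V3 (K := K) M' q hq hM' hπ).toSubring :=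
    fun x hx => h12W x (pk15_chart_mono hsub1 hx)
  have hBW2 : ∀ x ∈ pk15_chart R ({hh⁻¹} : Set ↥(modularFunctionFieldFullC K (M' * q * q))),
      x ∈ (cm85_Vinf (K := K) (M' * q * q) hπ).toSubring ⊓
        (v2g64_V2 (algebraMap K Q̄) M' q hq hM' hπ (Associated.refl _)).toSubring ⊓
        (nsb86_V3 (K := K) M' q hq hM' hπ).toSubring :=
    fun x hx => h12W x (pk15_chart_mono hsub2 hx)
  have hmem : hh ∈ pk15_chart R ({hh} : Set ↥(modularFunctionFieldFullC K (M' * q * q))) := pk15_subset_chart _ (Set.mem_singleton _)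
  have hmemk : hh⁻¹ ∈ pk15_chart R ({hh⁻¹} : Set ↥(modularFunctionFieldFullC K (M' * q * q))) :=
    pk15_subset_chart _ (Set.mem_singleton _)
  refine ⟨fun n hn hπn hmid h1 h3 hreg => ?_, fun n hn hπn hmid h1 h3 hreg => ?_⟩
  · exact c2t24_hreg_three (K := K) M' q hq hM' hπ hq2 h3M h3u
      (v2g64_V2 (algebraMap K Q̄) M' q hq hM' hπ (Associated.refl _))
      (nsb86_V3 (K := K) M' q hq hM' hπ) hV₂ hπ₂' hne hs' _
      (fun x hx => ci22_chart_closed _ x hx)
      (fun x hx => (Subring.mem_inf.mp (Subring.mem_inf.mp (hBW1 x hx)).1).1)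
      (fun x hx => (Subring.mem_inf.mp (Subring.mem_inf.mp (hBW1 x hx)).1).2)
      (fun x hx => (Subring.mem_inf.mp (hBW1 x hx)).2)
      (fun x hx h1 h2 h3 => hsat1 x hx (Subring.mem_inf.mpr ⟨Subring.mem_inf.mpr ⟨h1, h2⟩, h3⟩))
      (⟨hh, hmem⟩ ^ 3) ((⟨hh, hmem⟩ + ((27 : ℕ) : ↥(pk15_chart R ({hh} : Set ↥(modularFunctionFieldFullC K (M' * q * q)))))) * (⟨hh, hmem⟩ + ((243 : ℕ) : ↥(pk15_chart R ({hh} : Set ↥(modularFunctionFieldFullC K (M' * q * q)))))) ^ 3)
      (by push_cast; exact (mul_comm _ _).trans hrel)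
      (by push_cast; rw [← inv_pow]; exact pow_mem hhV' 3)
      (by
        intro n' hn' hs hc
        have h1 := hn'.mem_of_pow_mem 3 hs
        have h3' : ((3 : ℕ) : ↥(pk15_chart R ({hh} : Set ↥(modularFunctionFieldFullC K (M' * q * q))))) ∈ n' := by
          rcases hn'.mem_or_mem hc with h | h
          · have h27 : ((27 : ℕ) : ↥(pk15_chart R ({hh} : Set ↥(modularFunctionFieldFullC K (M' * q * q))))) ∈ n' := by
              have := n'.sub_mem h h1
              rwa [add_sub_cancel_left] at this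
            have e : ((27 : ℕ) : ↥(pk15_chart R ({hh} : Set ↥(modularFunctionFieldFullC K (M' * q * q)))))
                = ((3 : ℕ) : ↥(pk15_chart R ({hh} : Set ↥(modularFunctionFieldFullC K (M' * q * q))))) ^ 3 := by norm_num
            rw [e] at h27
            exact hn'.mem_of_pow_mem 3 h27
          · have h243 : ((243 : ℕ) : ↥(pk15_chart R ({hh} : Set ↥(modularFunctionFieldFullC K (M' * q * q))))) ∈ n' := by
              have := n'.sub_mem (hn'.mem_of_pow_mem 3 h) h1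
              rwa [add_sub_cancel_left] at this
            have e : ((243 : ℕ) : ↥(pk15_chart R ({hh} : Set ↥(modularFunctionFieldFullC K (M' * q * q)))))
                = ((3 : ℕ) : ↥(pk15_chart R ({hh} : Set ↥(modularFunctionFieldFullC K (M' * q * q))))) ^ 5 := by norm_num
            rw [e] at h243
            exact hn'.mem_of_pow_mem 5 h243
        exact c2t24_unit_nmem M' q _ n' hn' 3 h3u h3')
      n hn hπn hmid h1 h3 hreg
  · exact c2t24_hreg_three (K := K) M' q hq hM' hπ hq2 h3M h3u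
      (v2g64_V2 (algebraMap K Q̄) M' q hq hM' hπ (Associated.refl _))
      (nsb86_V3 (K := K) M' q hq hM' hπ) hV₂ hπ₂' hne hs' _
      (fun x hx => ci22_chart_closed _ x hx)
      (fun x hx => (Subring.mem_inf.mp (Subring.mem_inf.mp (hBW2 x hx)).1).1)
      (fun x hx => (Subring.mem_inf.mp (Subring.mem_inf.mp (hBW2 x hx)).1).2)
      (fun x hx => (Subring.mem_inf.mp (hBW2 x hx)).2)
      (fun x hx h1 h2 h3 => hsat2 x hx (Subring.mem_inf.mpr ⟨Subring.mem_inf.mpr ⟨h1, h2⟩, h3⟩))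
      ⟨hh⁻¹, hmemk⟩ ((1 + ((27 : ℕ) : ↥(pk15_chart R ({hh⁻¹} : Set ↥(modularFunctionFieldFullC K (M' * q * q))))) * ⟨hh⁻¹, hmemk⟩) * (1 + ((243 : ℕ) : ↥(pk15_chart R ({hh⁻¹} : Set ↥(modularFunctionFieldFullC K (M' * q * q))))) * ⟨hh⁻¹, hmemk⟩) ^ 3)
      (by
        show hh⁻¹ * rm90_j K (M' * q * q) =
          (1 + ((27 : ℕ) : ↥(modularFunctionFieldFullC K (M' * q * q))) * hh⁻¹) * (1 + ((243 : ℕ) : ↥(modularFunctionFieldFullC K (M' * q * q))) * hh⁻¹) ^ 3
        rw [Nat.cast_ofNat, Nat.cast_ofNat]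
        have e : hh⁻¹ * rm90_j K (M' * q * q) = (rm90_j K (M' * q * q) * hh ^ 3) * hh⁻¹ ^ 4 := by
          field_simp
        rw [e, hrel]
        field_simp)
      (by show (hh⁻¹)⁻¹ ∈ _; rw [inv_inv]; exact hhV)
      (by
        intro n' hn' hs hc
        have h1' : (1 : ↥(pk15_chart R ({hh⁻¹} : Set ↥(modularFunctionFieldFullC K (M' * q * q))))) ∈ n' := by
          rcases hn'.mem_or_mem hc with h | h
          · have := n'.sub_mem h (n'.mul_mem_left ((27 : ℕ) : ↥(pk15_chart R ({hh⁻¹} : Set ↥(modularFunctionFieldFullC K (M' * q * q))))) hs)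
            rwa [add_sub_cancel_right] at this
          · have := n'.sub_mem (hn'.mem_of_pow_mem 3 h) (n'.mul_mem_left ((243 : ℕ) : ↥(pk15_chart R ({hh⁻¹} : Set ↥(modularFunctionFieldFullC K (M' * q * q))))) hs)
            rwa [add_sub_cancel_right] at this
        exact hn'.ne_top ((Ideal.eq_top_iff_one _).mpr h1'))
      n hn hπn hmid h1 h3 hreg

end Fermat.Agent.S36
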