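import Mathlib
import Fermat.Agent.S34.UVAt17
import Fermat.Agent.S34.CuspChart1
import Fermat.Agent.S34.AtkinLehnerL97

/-!
# S36 lab, row 600 (C-C2), helper97: the CASE-SPLIT FACTS at a `j`-regular closed point, DEN FORM

Setting: `B` an integrally closed subalgebra of a field `F` (any chart), `n` a prime of `B` at
which `j` is regular (`s' * j = b`, `s' ∉ n`: the literal hypothesis of `hreg` of
`mc25_hD2_level2/3`), `h₂`, `h₃ ∈ F` with the Hauptmodul relations
`j h₂² = (h₂ + 256)³`, `j h₃³ = (h₃ + 27) (h₃ + 243)³` (NOT assumed to lie in `B`).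
An element `x ∈ F` is a *unit at `n` in den form* if `∃ e d : B, d ∉ n ∧ e ∉ n ∧ e = d * x`
(the shape `(e1 d1)`, `(e2 d2)` of the no-pole inputs of the den-form composite).

* `c2sp97_integral_two`, `c2sp97_integral_three` : `h₂`, `h₃` are integral over `R[j]`;
* `c2sp97_unit_two`, `c2sp97_unit_three` : `h₂` (`2 ∉ n`), `h₃` (`3 ∉ n`) are units at `n`;
* `c2sp97_cover` : `2, 3 ∉ n` ⟹ `h₂ + 64` or `h₃ + 27` is a unit at `n` (`q ≥ 5`);
* `c2sp97_small_three` : `3 ∈ n`, `2 ∉ n`, `j` a unit at `n` ⟹ `h₂ + 64` is a unit at `n`;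
* `c2sp97_small_two` : `3 ∉ n`, `j` a unit at `n` ⟹ `h₃ + 27` is a unit at `n`;
* `c2sp97_T_two`, `c2sp97_T_three` : `α₂ (α₁ (pk85_h2 K M')) = pk85_h2 K (M' q q)` (same for `h₃`),
  so the statements apply with `j = rm90_j K (M' q q)`, `pk85_h2_rel`, `pk85_h3_rel`;
* `c2sp97_two_canon`, `c2sp97_three_canon`, `c2sp97_cover_canon`, `c2sp97_small_three_canon`,
  `c2sp97_small_two_canon` : the same facts for `T = α₂ (α₁ (pk85_h2/h3 K M'))` at level `M' q q`.

All names are prefixed `c2sp97_`.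
-/

set_option autoImplicit false
set_option linter.unusedSectionVars false
set_option linter.unusedVariables false
set_option linter.unusedSimpArgs false

open Polynomial ModularCurve

namespace Fermat.Agent.S36

open Fermat.Agent.S18 Fermat.Agent.S34

section Abs

variable {R F : Type*} [CommRing R] [Field F] [Algebra R F]

/-- The coercion `B → F` commutes with the numerals used below. -/
theorem c2sp97_c256 (B : Subalgebra R F) : ((256 : B) : F) = 256 := map_ofNat B.val 256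

theorem c2sp97_c27 (B : Subalgebra R F) : ((27 : B) : F) = 27 := map_ofNat B.val 27

theorem c2sp97_c243 (B : Subalgebra R F) : ((243 : B) : F) = 243 := map_ofNat B.val 243

theorem c2sp97_c64 (B : Subalgebra R F) : ((64 : B) : F) = 64 := map_ofNat B.val 64

/-- `h₂` is integral over `R[j]`: `h³ + (768 - j) h² + 196608 h + 16777216 = 0`. -/
theorem c2sp97_integral_two (j h : F) (hrel : j * h ^ 2 = (h + 256) ^ 3) :
    IsIntegral (Algebra.adjoin R ({j} : Set F)) h := by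
  refine ⟨X ^ 3 + (C (768 - (⟨j, Algebra.subset_adjoin (Set.mem_singleton j)⟩ :
      Algebra.adjoin R ({j} : Set F))) * X ^ 2 + C 196608 * X + C 16777216), ?_, ?_⟩
  · exact Polynomial.monic_X_pow_add
      (lt_of_le_of_lt Polynomial.degree_quadratic_le (by exact_mod_cast (by norm_num : (2 : ℕ) < 3)))
  · have hj : algebraMap (Algebra.adjoin R ({j} : Set F)) F
        ⟨j, Algebra.subset_adjoin (Set.mem_singleton j)⟩ = j := rfl
    simp only [eval₂_add, eval₂_mul, eval₂_pow, eval₂_X, eval₂_C]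
    simp only [map_sub, map_ofNat, hj]
    linear_combination (-1 : F) * hrel

/-- `h₃` is integral over `R[j]`. -/
theorem c2sp97_integral_three (j h : F) (hrel : j * h ^ 3 = (h + 27) * (h + 243) ^ 3) :
    IsIntegral (Algebra.adjoin R ({j} : Set F)) h := by
  refine ⟨X ^ 4 + (C (756 - (⟨j, Algebra.subset_adjoin (Set.mem_singleton j)⟩ :
      Algebra.adjoin R ({j} : Set F))) * X ^ 3 + C 196830 * X ^ 2 + C 19131876 * X
      + C 387420489), ?_, ?_⟩
  · exact Polynomial.monic_X_pow_add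
      (lt_of_le_of_lt Polynomial.degree_cubic_le (by exact_mod_cast (by norm_num : (3 : ℕ) < 4)))
  · have hj : algebraMap (Algebra.adjoin R ({j} : Set F)) F
        ⟨j, Algebra.subset_adjoin (Set.mem_singleton j)⟩ = j := rfl
    simp only [eval₂_add, eval₂_mul, eval₂_pow, eval₂_X, eval₂_C]
    simp only [map_sub, map_ofNat, hj]
    linear_combination (-1 : F) * hrel

/-- Core, level 2: `e = S h₂` is not in `n`. -/
theorem c2sp97_core_two (B : Subalgebra R F) (n : Ideal B) [hn : n.IsPrime] (j h : F)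
    (hrel : j * h ^ 2 = (h + 256) ^ 3) (s' b S e : B) (hs' : s' ∉ n)
    (hsj : (s' : F) * j = (b : F)) (hS : S ∉ n) (he : (e : F) = (S : F) * h)
    (h2n : (2 : B) ∉ n) : e ∉ n := by
  intro hen
  have key : b * e ^ 2 * S = s' * (e + 256 * S) ^ 3 := by
    apply Subtype.ext
    push_cast
    simp only [c2sp97_c256, c2sp97_c27, c2sp97_c243, c2sp97_c64]
    rw [he, ← hsj]
    linear_combination (s' : F) * (S : F) ^ 3 * hrel
  have h1 : s' * (e + 256 * S) ^ 3 ∈ n := by
    rw [← key]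
    exact n.mul_mem_right _ (n.mul_mem_left _ (Ideal.pow_mem_of_mem n hen 2 (by norm_num)))
  have h2 : e + 256 * S ∈ n := hn.mem_of_pow_mem 3 ((hn.mem_or_mem h1).resolve_left hs')
  have h3 : 256 * S ∈ n := by
    have := n.sub_mem h2 hen
    simpa using this
  rcases hn.mem_or_mem h3 with h | h
  · have e8 : (256 : B) = 2 ^ 8 := by norm_num
    rw [e8] at h
    exact h2n (hn.mem_of_pow_mem 8 h)
  · exact hS h

/-- Core, level 3: `e = S h₃` is not in `n`. -/
theorem c2sp97_core_three (B : Subalgebra R F) (n : Ideal B) [hn : n.IsPrime] (j h : F)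
    (hrel : j * h ^ 3 = (h + 27) * (h + 243) ^ 3) (s' b S e : B) (hs' : s' ∉ n)
    (hsj : (s' : F) * j = (b : F)) (hS : S ∉ n) (he : (e : F) = (S : F) * h)
    (h3n : (3 : B) ∉ n) : e ∉ n := by
  intro hen
  have key : b * e ^ 3 * S = s' * ((e + 27 * S) * (e + 243 * S) ^ 3) := by
    apply Subtype.ext
    push_cast
    simp only [c2sp97_c256, c2sp97_c27, c2sp97_c243, c2sp97_c64]
    rw [he, ← hsj]
    linear_combination (s' : F) * (S : F) ^ 4 * hrel
  have h1 : s' * ((e + 27 * S) * (e + 243 * S) ^ 3) ∈ n := by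
    rw [← key]
    exact n.mul_mem_right _ (n.mul_mem_left _ (Ideal.pow_mem_of_mem n hen 3 (by norm_num)))
  have h3S : ∀ k : ℕ, (3 : B) ^ k * S ∉ n := by
    intro k hk
    rcases hn.mem_or_mem hk with h | h
    · exact h3n (hn.mem_of_pow_mem k h)
    · exact hS h
  rcases hn.mem_or_mem ((hn.mem_or_mem h1).resolve_left hs') with h | h
  · have := n.sub_mem h hen
    have e3 : e + 27 * S - e = 3 ^ 3 * S := by ring
    rw [e3] at this
    exact h3S 3 this
  · have h' := hn.mem_of_pow_mem 3 h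
    have := n.sub_mem h' hen
    have e5 : e + 243 * S - e = 3 ^ 5 * S := by ring
    rw [e5] at this
    exact h3S 5 this

/-- Core, cover: with `2, 3 ∉ n`, one of `S (h₂ + 64)`, `S (h₃ + 27)` is not in `n`. -/
theorem c2sp97_core_cover (B : Subalgebra R F) (n : Ideal B) [hn : n.IsPrime] (j h2 h3 : F)
    (hrel2 : j * h2 ^ 2 = (h2 + 256) ^ 3) (hrel3 : j * h3 ^ 3 = (h3 + 27) * (h3 + 243) ^ 3)
    (S e2 e3 : B) (hS : S ∉ n) (he2 : (e2 : F) = (S : F) * h2) (he3 : (e3 : F) = (S : F) * h3)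
    (h2n : (2 : B) ∉ n) (h3n : (3 : B) ∉ n) :
    e2 + 64 * S ∉ n ∨ e3 + 27 * S ∉ n := by
  by_contra hcon
  rw [not_or, not_not, not_not] at hcon
  obtain ⟨ha, hc⟩ := hcon
  have key : (e2 + 256 * S) ^ 3 * e3 ^ 3 = (e3 + 27 * S) * ((e3 + 243 * S) ^ 3 * e2 ^ 2) := by
    apply Subtype.ext
    push_cast
    simp only [c2sp97_c256, c2sp97_c27, c2sp97_c243, c2sp97_c64]
    rw [he2, he3]
    linear_combination (S : F) ^ 6 * (-(h3 ^ 3) * hrel2 + h2 ^ 2 * hrel3)
  have h1 : (e2 + 256 * S) ^ 3 * e3 ^ 3 ∈ n := by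
    rw [key]
    exact n.mul_mem_right _ hc
  rcases hn.mem_or_mem h1 with h | h
  · have h' := hn.mem_of_pow_mem 3 h
    have := n.sub_mem h' ha
    have e1 : e2 + 256 * S - (e2 + 64 * S) = 2 ^ 6 * (3 * S) := by ring
    rw [e1] at this
    rcases hn.mem_or_mem this with h6 | h6
    · exact h2n (hn.mem_of_pow_mem 6 h6)
    · rcases hn.mem_or_mem h6 with h7 | h7
      · exact h3n h7
      · exact hS h7
  · have h' := hn.mem_of_pow_mem 3 h
    have := n.sub_mem hc h'
    have e1 : e3 + 27 * S - e3 = 3 ^ 3 * S := by ring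
    rw [e1] at this
    rcases hn.mem_or_mem this with h6 | h6
    · exact h3n (hn.mem_of_pow_mem 3 h6)
    · exact hS h6

/-- Core, `q = 3`: `3 ∈ n`, `j` a unit at `n` (`b ∉ n`) ⟹ `S (h₂ + 64) ∉ n`. -/
theorem c2sp97_core_small_three (B : Subalgebra R F) (n : Ideal B) [hn : n.IsPrime] (j h : F)
    (hrel : j * h ^ 2 = (h + 256) ^ 3) (s' b S e : B)
    (hsj : (s' : F) * j = (b : F)) (hbn : b ∉ n) (hS : S ∉ n) (he : (e : F) = (S : F) * h)
    (hen : e ∉ n) (h3n : (3 : B) ∈ n) : e + 64 * S ∉ n := by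
  intro ha
  have key : b * e ^ 2 * S = s' * (e + 256 * S) ^ 3 := by
    apply Subtype.ext
    push_cast
    simp only [c2sp97_c256, c2sp97_c27, c2sp97_c243, c2sp97_c64]
    rw [he, ← hsj]
    linear_combination (s' : F) * (S : F) ^ 3 * hrel
  have h256 : e + 256 * S ∈ n := by
    have e1 : e + 256 * S = (e + 64 * S) + 3 * (64 * S) := by ring
    rw [e1]
    exact n.add_mem ha (n.mul_mem_right _ h3n)
  have h1 : b * e ^ 2 * S ∈ n := by
    rw [key]
    exact n.mul_mem_left _ (Ideal.pow_mem_of_mem n h256 3 (by norm_num))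
  rcases hn.mem_or_mem h1 with h | h
  · rcases hn.mem_or_mem h with h' | h'
    · exact hbn h'
    · exact hen (hn.mem_of_pow_mem 2 h')
  · exact hS h

/-- Core, `q = 2`: `j` a unit at `n` (`b ∉ n`) ⟹ `S (h₃ + 27) ∉ n`. -/
theorem c2sp97_core_small_two (B : Subalgebra R F) (n : Ideal B) [hn : n.IsPrime] (j h : F)
    (hrel : j * h ^ 3 = (h + 27) * (h + 243) ^ 3) (s' b S e : B)
    (hsj : (s' : F) * j = (b : F)) (hbn : b ∉ n) (hS : S ∉ n) (he : (e : F) = (S : F) * h)
    (hen : e ∉ n) : e + 27 * S ∉ n := by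
  intro hc
  have key : b * e ^ 3 * S = s' * ((e + 27 * S) * (e + 243 * S) ^ 3) := by
    apply Subtype.ext
    push_cast
    simp only [c2sp97_c256, c2sp97_c27, c2sp97_c243, c2sp97_c64]
    rw [he, ← hsj]
    linear_combination (s' : F) * (S : F) ^ 4 * hrel
  have h1 : b * e ^ 3 * S ∈ n := by
    rw [key]
    exact n.mul_mem_left _ (n.mul_mem_right _ hc)
  rcases hn.mem_or_mem h1 with h | h
  · rcases hn.mem_or_mem h with h' | h'
    · exact hbn h'
    · exact hen (hn.mem_of_pow_mem 3 h')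
  · exact hS h

/-- Clearing the denominators of two elements integral over `R[j]` with ONE power of `s'`. -/
theorem c2sp97_clear_two (B : Subalgebra R F) (hBint : ∀ z : F, IsIntegral B z → z ∈ B)
    (n : Ideal B) [hn : n.IsPrime] (j x y : F)
    (hx : IsIntegral (Algebra.adjoin R ({j} : Set F)) x)
    (hy : IsIntegral (Algebra.adjoin R ({j} : Set F)) y)
    (s' b : B) (hs' : s' ∉ n) (hsj : (s' : F) * j = (b : F)) :
    ∃ S ex ey : B, S ∉ n ∧ (ex : F) = (S : F) * x ∧ (ey : F) = (S : F) * y := by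
  have hsjB : (s' : F) * j ∈ B := by rw [hsj]; exact b.2
  obtain ⟨k, hk⟩ := uv17_clear B hBint j x hx (s' : F) s'.2 hsjB
  obtain ⟨l, hl⟩ := uv17_clear B hBint j y hy (s' : F) s'.2 hsjB
  refine ⟨s' ^ (k + l), ⟨(s' : F) ^ l * ((s' : F) ^ k * x), B.mul_mem (B.pow_mem s'.2 l) hk⟩,
    ⟨(s' : F) ^ k * ((s' : F) ^ l * y), B.mul_mem (B.pow_mem s'.2 k) hl⟩, ?_, ?_, ?_⟩
  · exact fun h => hs' (hn.mem_of_pow_mem _ h)
  · push_cast; ring
  · push_cast; ring

/-- **`h₂` is a unit at a `j`-regular prime `n` with `2 ∉ n`** (den form). -/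
theorem c2sp97_unit_two (B : Subalgebra R F) (hBint : ∀ z : F, IsIntegral B z → z ∈ B)
    (n : Ideal B) [hn : n.IsPrime] (j h : F) (hrel : j * h ^ 2 = (h + 256) ^ 3)
    (s' b : B) (hs' : s' ∉ n) (hsj : (s' : F) * j = (b : F)) (h2n : (2 : B) ∉ n) :
    ∃ e d : B, d ∉ n ∧ e ∉ n ∧ (e : F) = (d : F) * h := by
  obtain ⟨S, e, -, hS, he, -⟩ := c2sp97_clear_two B hBint n j h h
    (c2sp97_integral_two j h hrel) (c2sp97_integral_two j h hrel) s' b hs' hsj
  exact ⟨e, S, hS, c2sp97_core_two B n j h hrel s' b S e hs' hsj hS he h2n, he⟩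

/-- **`h₃` is a unit at a `j`-regular prime `n` with `3 ∉ n`** (den form). -/
theorem c2sp97_unit_three (B : Subalgebra R F) (hBint : ∀ z : F, IsIntegral B z → z ∈ B)
    (n : Ideal B) [hn : n.IsPrime] (j h : F) (hrel : j * h ^ 3 = (h + 27) * (h + 243) ^ 3)
    (s' b : B) (hs' : s' ∉ n) (hsj : (s' : F) * j = (b : F)) (h3n : (3 : B) ∉ n) :
    ∃ e d : B, d ∉ n ∧ e ∉ n ∧ (e : F) = (d : F) * h := by
  obtain ⟨S, e, -, hS, he, -⟩ := c2sp97_clear_two B hBint n j h h
    (c2sp97_integral_three j h hrel) (c2sp97_integral_three j h hrel) s' b hs' hsj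
  exact ⟨e, S, hS, c2sp97_core_three B n j h hrel s' b S e hs' hsj hS he h3n, he⟩

/-- **Cover (`q ≥ 5`)**: at a `j`-regular prime with `2, 3 ∉ n`, `h₂ + 64` or `h₃ + 27` is a
unit at `n` (den form). -/
theorem c2sp97_cover (B : Subalgebra R F) (hBint : ∀ z : F, IsIntegral B z → z ∈ B)
    (n : Ideal B) [hn : n.IsPrime] (j h2 h3 : F)
    (hrel2 : j * h2 ^ 2 = (h2 + 256) ^ 3) (hrel3 : j * h3 ^ 3 = (h3 + 27) * (h3 + 243) ^ 3)
    (s' b : B) (hs' : s' ∉ n) (hsj : (s' : F) * j = (b : F))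
    (h2n : (2 : B) ∉ n) (h3n : (3 : B) ∉ n) :
    (∃ e d : B, d ∉ n ∧ e ∉ n ∧ (e : F) = (d : F) * (h2 + 64)) ∨
      (∃ e d : B, d ∉ n ∧ e ∉ n ∧ (e : F) = (d : F) * (h3 + 27)) := by
  obtain ⟨S, e2, e3, hS, he2, he3⟩ := c2sp97_clear_two B hBint n j h2 h3
    (c2sp97_integral_two j h2 hrel2) (c2sp97_integral_three j h3 hrel3) s' b hs' hsj
  rcases c2sp97_core_cover B n j h2 h3 hrel2 hrel3 S e2 e3 hS he2 he3 h2n h3n with h | h
  · left
    refine ⟨e2 + 64 * S, S, hS, h, ?_⟩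
    push_cast
    simp only [c2sp97_c256, c2sp97_c27, c2sp97_c243, c2sp97_c64]
    rw [he2]
    ring
  · right
    refine ⟨e3 + 27 * S, S, hS, h, ?_⟩
    push_cast
    simp only [c2sp97_c256, c2sp97_c27, c2sp97_c243, c2sp97_c64]
    rw [he3]
    ring

/-- **`q = 3`**: at a prime `n ∋ 3` with `2 ∉ n` where `j` is a unit (`s' * j = b`, `s', b ∉ n`),
`h₂ + 64` is a unit at `n` (den form). -/
theorem c2sp97_small_three (B : Subalgebra R F) (hBint : ∀ z : F, IsIntegral B z → z ∈ B)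
    (n : Ideal B) [hn : n.IsPrime] (j h : F) (hrel : j * h ^ 2 = (h + 256) ^ 3)
    (s' b : B) (hs' : s' ∉ n) (hsj : (s' : F) * j = (b : F)) (hbn : b ∉ n)
    (h2n : (2 : B) ∉ n) (h3n : (3 : B) ∈ n) :
    ∃ e d : B, d ∉ n ∧ e ∉ n ∧ (e : F) = (d : F) * (h + 64) := by
  obtain ⟨S, e, -, hS, he, -⟩ := c2sp97_clear_two B hBint n j h h
    (c2sp97_integral_two j h hrel) (c2sp97_integral_two j h hrel) s' b hs' hsj
  have hen := c2sp97_core_two B n j h hrel s' b S e hs' hsj hS he h2n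
  refine ⟨e + 64 * S, S, hS,
    c2sp97_core_small_three B n j h hrel s' b S e hsj hbn hS he hen h3n, ?_⟩
  push_cast
  simp only [c2sp97_c256, c2sp97_c27, c2sp97_c243, c2sp97_c64]
  rw [he]
  ring

/-- **`q = 2`**: at a prime `n` with `3 ∉ n` where `j` is a unit (`s' * j = b`, `s', b ∉ n`),
`h₃ + 27` is a unit at `n` (den form). -/
theorem c2sp97_small_two (B : Subalgebra R F) (hBint : ∀ z : F, IsIntegral B z → z ∈ B)
    (n : Ideal B) [hn : n.IsPrime] (j h : F) (hrel : j * h ^ 3 = (h + 27) * (h + 243) ^ 3)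
    (s' b : B) (hs' : s' ∉ n) (hsj : (s' : F) * j = (b : F)) (hbn : b ∉ n)
    (h3n : (3 : B) ∉ n) :
    ∃ e d : B, d ∉ n ∧ e ∉ n ∧ (e : F) = (d : F) * (h + 27) := by
  obtain ⟨S, e, -, hS, he, -⟩ := c2sp97_clear_two B hBint n j h h
    (c2sp97_integral_three j h hrel) (c2sp97_integral_three j h hrel) s' b hs' hsj
  have hen := c2sp97_core_three B n j h hrel s' b S e hs' hsj hS he h3n
  refine ⟨e + 27 * S, S, hS,
    c2sp97_core_small_two B n j h hrel s' b S e hsj hbn hS he hen, ?_⟩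
  push_cast
  simp only [c2sp97_c256, c2sp97_c27, c2sp97_c243, c2sp97_c64]
  rw [he]
  ring

end Abs

section Canon

variable (K : Type) [Field K] [CharZero K] (M' q : ℕ) [NeZero M'] [NeZero q]

/-- `α₂ (α₁ h₂) = h₂` at level `M' q q`. -/
theorem c2sp97_T_two (h2 : 2 ∣ M') :
    al97L_alpha K (M' * q) q (al97L_alpha K M' q (pk85_h2 K M' h2)) =
      pk85_h2 K (M' * q * q) (h2.trans ((dvd_mul_right M' q).trans (dvd_mul_right (M' * q) q))) := by
  apply Subtype.ext
  rw [al97L_alpha_coe, al97L_alpha_coe]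
  rfl

/-- `α₂ (α₁ h₃) = h₃` at level `M' q q`. -/
theorem c2sp97_T_three (h3 : 3 ∣ M') :
    al97L_alpha K (M' * q) q (al97L_alpha K M' q (pk85_h3 K M' h3)) =
      pk85_h3 K (M' * q * q) (h3.trans ((dvd_mul_right M' q).trans (dvd_mul_right (M' * q) q))) := by
  apply Subtype.ext
  rw [al97L_alpha_coe, al97L_alpha_coe]
  rfl

variable {R : Type*} [CommRing R] [Algebra R ↥(modularFunctionFieldFullC K (M' * q * q))]

/-- **`T₂ = α₂ (α₁ (pk85_h2 K M'))` is a unit at a `j`-regular prime** (`2` a unit of `R`). -/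
theorem c2sp97_two_canon (h2 : 2 ∣ M') (h2u : IsUnit (2 : R))
    (B : Subalgebra R ↥(modularFunctionFieldFullC K (M' * q * q)))
    (hBint : ∀ z : ↥(modularFunctionFieldFullC K (M' * q * q)), IsIntegral B z → z ∈ B)
    (n : Ideal B) [hn : n.IsPrime]
    (hj : ∃ s' b : B, s' ∉ n ∧
      (s' : ↥(modularFunctionFieldFullC K (M' * q * q))) * rm90_j K (M' * q * q) =
        (b : ↥(modularFunctionFieldFullC K (M' * q * q)))) :
    ∃ e d : B, d ∉ n ∧ e ∉ n ∧ (e : ↥(modularFunctionFieldFullC K (M' * q * q))) =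
      (d : ↥(modularFunctionFieldFullC K (M' * q * q))) *
        al97L_alpha K (M' * q) q (al97L_alpha K M' q (pk85_h2 K M' h2)) := by
  obtain ⟨s', b, hs', hsj⟩ := hj
  have h2n : (2 : B) ∉ n := by
    have := cc1_unit_not_mem n hn (2 : R) h2u
    rwa [map_ofNat] at this
  rw [c2sp97_T_two]
  exact c2sp97_unit_two B hBint n _ _ (pk85_h2_rel K (M' * q * q) _) s' b hs' hsj h2n

/-- **`T₃ = α₂ (α₁ (pk85_h3 K M'))` is a unit at a `j`-regular prime** (`3` a unit of `R`). -/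
theorem c2sp97_three_canon (h3 : 3 ∣ M') (h3u : IsUnit (3 : R))
    (B : Subalgebra R ↥(modularFunctionFieldFullC K (M' * q * q)))
    (hBint : ∀ z : ↥(modularFunctionFieldFullC K (M' * q * q)), IsIntegral B z → z ∈ B)
    (n : Ideal B) [hn : n.IsPrime]
    (hj : ∃ s' b : B, s' ∉ n ∧
      (s' : ↥(modularFunctionFieldFullC K (M' * q * q))) * rm90_j K (M' * q * q) =
        (b : ↥(modularFunctionFieldFullC K (M' * q * q)))) :
    ∃ e d : B, d ∉ n ∧ e ∉ n ∧ (e : ↥(modularFunctionFieldFullC K (M' * q * q))) =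
      (d : ↥(modularFunctionFieldFullC K (M' * q * q))) *
        al97L_alpha K (M' * q) q (al97L_alpha K M' q (pk85_h3 K M' h3)) := by
  obtain ⟨s', b, hs', hsj⟩ := hj
  have h3n : (3 : B) ∉ n := by
    have := cc1_unit_not_mem n hn (3 : R) h3u
    rwa [map_ofNat] at this
  rw [c2sp97_T_three]
  exact c2sp97_unit_three B hBint n _ _ (pk85_h3_rel K (M' * q * q) _) s' b hs' hsj h3n

/-- **Cover on the canonical frame (`q ≥ 5`: `2`, `3` units of `R`)**: `T₂ + 64` or `T₃ + 27` is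
a unit at every `j`-regular prime. -/
theorem c2sp97_cover_canon (h2 : 2 ∣ M') (h3 : 3 ∣ M') (h2u : IsUnit (2 : R))
    (h3u : IsUnit (3 : R))
    (B : Subalgebra R ↥(modularFunctionFieldFullC K (M' * q * q)))
    (hBint : ∀ z : ↥(modularFunctionFieldFullC K (M' * q * q)), IsIntegral B z → z ∈ B)
    (n : Ideal B) [hn : n.IsPrime]
    (hj : ∃ s' b : B, s' ∉ n ∧
      (s' : ↥(modularFunctionFieldFullC K (M' * q * q))) * rm90_j K (M' * q * q) =
        (b : ↥(modularFunctionFieldFullC K (M' * q * q)))) :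
    (∃ e d : B, d ∉ n ∧ e ∉ n ∧ (e : ↥(modularFunctionFieldFullC K (M' * q * q))) =
      (d : ↥(modularFunctionFieldFullC K (M' * q * q))) *
        (al97L_alpha K (M' * q) q (al97L_alpha K M' q (pk85_h2 K M' h2)) + 64)) ∨
    (∃ e d : B, d ∉ n ∧ e ∉ n ∧ (e : ↥(modularFunctionFieldFullC K (M' * q * q))) =
      (d : ↥(modularFunctionFieldFullC K (M' * q * q))) *
        (al97L_alpha K (M' * q) q (al97L_alpha K M' q (pk85_h3 K M' h3)) + 27)) := by
  obtain ⟨s', b, hs', hsj⟩ := hj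
  have h2n : (2 : B) ∉ n := by
    have := cc1_unit_not_mem n hn (2 : R) h2u
    rwa [map_ofNat] at this
  have h3n : (3 : B) ∉ n := by
    have := cc1_unit_not_mem n hn (3 : R) h3u
    rwa [map_ofNat] at this
  rw [c2sp97_T_two, c2sp97_T_three]
  exact c2sp97_cover B hBint n _ _ _ (pk85_h2_rel K (M' * q * q) _)
    (pk85_h3_rel K (M' * q * q) _) s' b hs' hsj h2n h3n

/-- **`q = 3` on the canonical frame**: `T₂ + 64` is a unit at every prime `n ∋ 3` where `j` is
a unit (`s' * j = b`, `s' ∉ n`, `b ∉ n`; `sqi75_j_unit_at`). -/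
theorem c2sp97_small_three_canon (h2 : 2 ∣ M') (h2u : IsUnit (2 : R))
    (B : Subalgebra R ↥(modularFunctionFieldFullC K (M' * q * q)))
    (hBint : ∀ z : ↥(modularFunctionFieldFullC K (M' * q * q)), IsIntegral B z → z ∈ B)
    (n : Ideal B) [hn : n.IsPrime] (h3n : (3 : B) ∈ n)
    (hj : ∃ s' b : B, s' ∉ n ∧ b ∉ n ∧
      (s' : ↥(modularFunctionFieldFullC K (M' * q * q))) * rm90_j K (M' * q * q) =
        (b : ↥(modularFunctionFieldFullC K (M' * q * q)))) :
    ∃ e d : B, d ∉ n ∧ e ∉ n ∧ (e : ↥(modularFunctionFieldFullC K (M' * q * q))) =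
      (d : ↥(modularFunctionFieldFullC K (M' * q * q))) *
        (al97L_alpha K (M' * q) q (al97L_alpha K M' q (pk85_h2 K M' h2)) + 64) := by
  obtain ⟨s', b, hs', hbn, hsj⟩ := hj
  have h2n : (2 : B) ∉ n := by
    have := cc1_unit_not_mem n hn (2 : R) h2u
    rwa [map_ofNat] at this
  rw [c2sp97_T_two]
  exact c2sp97_small_three B hBint n _ _ (pk85_h2_rel K (M' * q * q) _) s' b hs' hsj hbn h2n h3n

/-- **`q = 2` on the canonical frame**: `T₃ + 27` is a unit at every prime where `j` is a unit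
(`3` a unit of `R`). -/
theorem c2sp97_small_two_canon (h3 : 3 ∣ M') (h3u : IsUnit (3 : R))
    (B : Subalgebra R ↥(modularFunctionFieldFullC K (M' * q * q)))
    (hBint : ∀ z : ↥(modularFunctionFieldFullC K (M' * q * q)), IsIntegral B z → z ∈ B)
    (n : Ideal B) [hn : n.IsPrime]
    (hj : ∃ s' b : B, s' ∉ n ∧ b ∉ n ∧
      (s' : ↥(modularFunctionFieldFullC K (M' * q * q))) * rm90_j K (M' * q * q) =
        (b : ↥(modularFunctionFieldFullC K (M' * q * q)))) :
    ∃ e d : B, d ∉ n ∧ e ∉ n ∧ (e : ↥(modularFunctionFieldFullC K (M' * q * q))) =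
      (d : ↥(modularFunctionFieldFullC K (M' * q * q))) *
        (al97L_alpha K (M' * q) q (al97L_alpha K M' q (pk85_h3 K M' h3)) + 27) := by
  obtain ⟨s', b, hs', hbn, hsj⟩ := hj
  have h3n : (3 : B) ∉ n := by
    have := cc1_unit_not_mem n hn (3 : R) h3u
    rwa [map_ofNat] at this
  rw [c2sp97_T_three]
  exact c2sp97_small_two B hBint n _ _ (pk85_h3_rel K (M' * q * q) _) s' b hs' hsj hbn h3n

end Canon

end Fermat.Agent.S36
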