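import Mathlib
import Fermat.Agent.S28.Defs
import Fermat.Agent.S28.CTools

/-!
# S36 lab, row 600 (C-C2) / row 589, uniform routes (helper69): the twist congruence

`A` any commutative ring, `ζ : Aˣ`, `f ∈ A((Q))`, `twist ζ f = f(ζ Q)`, `theta f = Q df/dQ`.

* `tt69_zpow_sub_one` : `ζ^n - 1 = (ζ - 1) · (n + (ζ - 1) · c)` for every `n : ℤ`, some `c ∈ A`;
* `tt69_twist_sub` : **`f(ζ Q) - f(Q) = (ζ - 1) · (θ f + (ζ - 1) · y)`** for some `y ∈ A((Q))`
  (coefficients in `A`, support inside the support of `f`):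
  the difference of the two "extreme" conjugates of a function is `(ζ - 1)` times its
  logarithmic derivative, modulo `(ζ - 1)^2`.  (With `f` the expansion of a coordinate `x`:
  `Θ(s_x) = (ζ - 1)(θ x + (ζ - 1) y)` in the `Θ`-model of `V₂`, so `s_x` is a uniformizer of `V₂`
  as soon as `θ x` is a Gauss unit, and `s_x^(q-1) / (ζ-1)^(q-1) ≡ (θ x)^(q-1)`.)
* `tt69_twist_sub_pow` : `(f(ζ Q) - f(Q))^k = (ζ - 1)^k · ((θ f)^k + (ζ - 1) · y)`.
* `tt69_twist_sub_field` : the same over a field `k`, with `partC_theta`.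
* `tt69_twist_sub_map` : for `φ : A →+* S` and `f = coeffMap φ f₀`:
  `twist (φ ζ) f - f = (φ ζ - 1) · (θ f + (φ ζ - 1) · coeffMap φ y)` — integral remainder.

All names are prefixed `tt69_`.
-/

set_option autoImplicit false
set_option linter.unusedSectionVars false
set_option linter.unusedVariables false
set_option linter.style.longLine false

open ModularCurve

namespace Fermat.Agent.S36

noncomputable section

open Fermat.Agent.S28

section Ring

variable {A : Type*} [CommRing A]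

/-- `ζ^n - 1 = (ζ - 1) · (n + (ζ - 1) · c)` for every integer `n`. -/
theorem tt69_zpow_sub_one (ζ : Aˣ) (n : ℤ) :
    ∃ c : A, ((ζ ^ n : Aˣ) : A) - 1 = ((ζ : A) - 1) * ((n : A) + ((ζ : A) - 1) * c) := by
  induction n using Int.induction_on with
  | zero => exact ⟨0, by simp⟩
  | succ n ih =>
    obtain ⟨c, hc⟩ := ih
    refine ⟨(n : A) + (ζ : A) * c, ?_⟩
    have h1 : ((ζ ^ ((n : ℤ) + 1) : Aˣ) : A) = ((ζ ^ (n : ℤ) : Aˣ) : A) * (ζ : A) := by
      rw [zpow_add_one, Units.val_mul]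
    rw [h1]
    push_cast at hc ⊢
    linear_combination (ζ : A) * hc
  | pred n ih =>
    obtain ⟨c, hc⟩ := ih
    refine ⟨((ζ⁻¹ : Aˣ) : A) * (c + (n : A) + 1), ?_⟩
    have h1 : ((ζ ^ (-(n : ℤ) - 1) : Aˣ) : A) = ((ζ ^ (-(n : ℤ)) : Aˣ) : A) * ((ζ⁻¹ : Aˣ) : A) := by
      rw [zpow_sub_one, Units.val_mul]
    have h2 : (ζ : A) * ((ζ⁻¹ : Aˣ) : A) = 1 := by
      rw [← Units.val_mul, mul_inv_cancel, Units.val_one]
    rw [h1]
    push_cast at hc ⊢
    linear_combination ((ζ⁻¹ : Aˣ) : A) * hc +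
      (1 - ((n : A) + 1) * ((ζ : A) - 1)) * h2

/-- A choice of the second-order coefficients. -/
def tt69_c (ζ : Aˣ) (n : ℤ) : A := (tt69_zpow_sub_one ζ n).choose

theorem tt69_c_spec (ζ : Aˣ) (n : ℤ) :
    ((ζ ^ n : Aˣ) : A) - 1 = ((ζ : A) - 1) * ((n : A) + ((ζ : A) - 1) * tt69_c ζ n) :=
  (tt69_zpow_sub_one ζ n).choose_spec

/-- The remainder series `y` of the twist congruence. -/
def tt69_rem (ζ : Aˣ) (f : LaurentSeries A) : LaurentSeries A where
  coeff n := tt69_c ζ n * f.coeff n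
  isPWO_support' := f.isPWO_support.mono fun n hn => by
    simp only [Function.mem_support, ne_eq] at hn ⊢
    intro h
    exact hn (by rw [h, mul_zero])

@[simp] theorem tt69_rem_coeff (ζ : Aˣ) (f : LaurentSeries A) (n : ℤ) :
    (tt69_rem ζ f).coeff n = tt69_c ζ n * f.coeff n := rfl

theorem tt69_rem_support (ζ : Aˣ) (f : LaurentSeries A) :
    (tt69_rem ζ f).support ⊆ f.support := fun n hn => by
  simp only [HahnSeries.mem_support, tt69_rem_coeff, ne_eq] at hn ⊢
  intro h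
  exact hn (by rw [h, mul_zero])

/-- **The twist congruence**: `f(ζ Q) - f(Q) = (ζ - 1) · (θ f + (ζ - 1) · y)`. -/
theorem tt69_twist_sub_rem (ζ : Aˣ) (f : LaurentSeries A) :
    twist ζ f - f =
      HahnSeries.C ((ζ : A) - 1) * (theta f + HahnSeries.C ((ζ : A) - 1) * tt69_rem ζ f) := by
  ext n
  rw [HahnSeries.coeff_sub, twist_coeff, HahnSeries.C_mul_eq_smul, HahnSeries.coeff_smul,
    HahnSeries.coeff_add, HahnSeries.C_mul_eq_smul, HahnSeries.coeff_smul, theta_coeff,
    tt69_rem_coeff, smul_eq_mul, smul_eq_mul]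
  linear_combination f.coeff n * tt69_c_spec ζ n

theorem tt69_twist_sub (ζ : Aˣ) (f : LaurentSeries A) :
    ∃ y : LaurentSeries A, y.support ⊆ f.support ∧ twist ζ f - f =
      HahnSeries.C ((ζ : A) - 1) * (theta f + HahnSeries.C ((ζ : A) - 1) * y) :=
  ⟨tt69_rem ζ f, tt69_rem_support ζ f, tt69_twist_sub_rem ζ f⟩

/-- Powers: `(f(ζ Q) - f(Q))^k = (ζ - 1)^k · ((θ f)^k + (ζ - 1) · y)`. -/
theorem tt69_twist_sub_pow (ζ : Aˣ) (f : LaurentSeries A) (k : ℕ) :
    ∃ y : LaurentSeries A, (twist ζ f - f) ^ k =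
      HahnSeries.C (((ζ : A) - 1) ^ k) * (theta f ^ k + HahnSeries.C ((ζ : A) - 1) * y) := by
  obtain ⟨y, hy⟩ : ∃ y : LaurentSeries A,
      (theta f + HahnSeries.C ((ζ : A) - 1) * tt69_rem ζ f) ^ k =
        theta f ^ k + HahnSeries.C ((ζ : A) - 1) * y := by
    induction k with
    | zero => exact ⟨0, by simp⟩
    | succ k ih =>
      obtain ⟨y, hy⟩ := ih
      refine ⟨theta f ^ k * tt69_rem ζ f + y * theta f +
        HahnSeries.C ((ζ : A) - 1) * (y * tt69_rem ζ f), ?_⟩
      rw [pow_succ, hy]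
      ring
  refine ⟨y, ?_⟩
  rw [tt69_twist_sub_rem, mul_pow, hy, map_pow]

/-- Base change: for `φ : A →+* S`, the twist congruence of `coeffMap φ f₀` has the integral
remainder `coeffMap φ y`. -/
theorem tt69_twist_sub_map {S : Type*} [CommRing S] (φ : A →+* S) (ζ : Aˣ)
    (f₀ : LaurentSeries A) :
    twist (Units.map (φ : A →* S) ζ) (coeffMap φ f₀) - coeffMap φ f₀ =
      HahnSeries.C (φ ((ζ : A) - 1)) *
        (theta (coeffMap φ f₀) + HahnSeries.C (φ ((ζ : A) - 1)) * coeffMap φ (tt69_rem ζ f₀)) := by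
  have h := congrArg (coeffMap φ) (tt69_twist_sub_rem ζ f₀)
  rw [map_sub, coeffMap_twist, map_mul, map_add, map_mul, coeffMap_theta] at h
  have hC : ∀ a : A, coeffMap φ (HahnSeries.C a : LaurentSeries A) = HahnSeries.C (φ a) := by
    intro a
    ext n
    rw [coeffMap_coeff, HahnSeries.C_apply, HahnSeries.C_apply, HahnSeries.coeff_single,
      HahnSeries.coeff_single]
    split_ifs with h0
    · rfl
    · exact map_zero φ
  rw [hC] at h
  exact h

end Ring

section Field

variable {k : Type*} [Field k]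

theorem tt69_theta_eq (f : LaurentSeries k) : theta f = partC_theta f := by
  ext n
  rw [theta_coeff, partC_theta_coeff]

/-- The twist congruence over a field, with `partC_theta`. -/
theorem tt69_twist_sub_field (ζ : kˣ) (f : LaurentSeries k) :
    ∃ y : LaurentSeries k, y.support ⊆ f.support ∧ twist ζ f - f =
      HahnSeries.C ((ζ : k) - 1) * (partC_theta f + HahnSeries.C ((ζ : k) - 1) * y) := by
  obtain ⟨y, hy, h⟩ := tt69_twist_sub ζ f
  exact ⟨y, hy, by rw [h, tt69_theta_eq]⟩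

end Field

end

end Fermat.Agent.S36
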