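import Mathlib
import Fermat.Agent.S36.ValSq97
import Fermat.Agent.S36.TwistTheta69
import Fermat.Agent.S36.C2Pow11
import Fermat.Agent.S34.DeltaQuot56
import Fermat.Agent.S37.KroneckerNorm97

/-!
# S36 lab, row 600 (C-C2), uniform route (helper69): the `ϑ`-congruence in the `Θ`-model of `V₂`

`V₂ = vsq97_V2 R K M' q hq hM' ζ` (pull-back of the Gauss valuation ring of `O((Q))` along the
conjugate embedding `Θ_ζ`).  For `g ∈ F_K(M' q)` with `R`-integral expansion `g₀` put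
`s_g := β₂ (w g) - α₂ g` (`= g(q²τ) - g(τ)` when `g = α₁ x`).  Then `Θ(s_g) = g(ζ Q) - g(Q)
= (ζ - 1)(θ g + (ζ - 1) y)` (`TwistTheta69`), `(ζ - 1)^(q-1) = -q (1 + (ζ - 1) r)` and
`Δ^q ≡ Δ(Q^q)` modulo `q` give, for every `G ∈ V_∞(M' q)` with `G · (θ g)^6 = Δ`
(e.g. `tg69_G K (M' q) g`) and `u` with expansion `U = Δ(Q)/Δ(Q^q)`:

* `cth69_main` : `∃ ϑ, q ϑ = s_g^(q-1) ∧ ϑ ∈ V₂ ∧ (ϑ^6 (α₂ G^(q-1) α₂ u) - 1) s_g⁻¹ ∈ V₂`
  (`θ g₀` nonzero modulo `π`) = `hϑq`, `hϑ₂`, `hcong` of `c2p11_mid_dvd` with `k = 6`;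
* `cth69_ratio` : `s_{g'} s_g⁻¹ ∈ V₂` for every integral `g'` (`θ g₀` nonzero modulo `π`);
* `cth69_s_nonunit` : `s_g⁻¹ ∉ V₂`.

Series lemmas: `cth69_int_dvd`, `cth69_delta_frob` (`Δ^q Δ(Q^q)⁻¹ = 1 + q W` over `ℤ`),
`cth69_delta_frob_ring`, `cth69_core` (the computation over any domain).

All names are prefixed `cth69_`.
-/

set_option autoImplicit false
set_option linter.unusedSectionVars false
set_option linter.unusedVariables false
set_option linter.style.longLine false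

open ModularCurve AlgebraicCurve IntermediateField
open Fermat.Agent.S24 Fermat.Agent.S28 Fermat.Agent.S18 Fermat.Agent.S37 Fermat.Agent.S34
open Fermat.Agent.S42 Fermat.Agent.S35

namespace Fermat.Agent.S36

section cth69_series

/-- A Laurent series over `ℤ` vanishing modulo `q` is `q` times a Laurent series. -/
theorem cth69_int_dvd (q : ℕ) [NeZero q] (T : LaurentSeries ℤ)
    (h : coeffMap (Int.castRingHom (ZMod q)) T = 0) :
    ∃ W : LaurentSeries ℤ, T = HahnSeries.C (q : ℤ) * W := by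
  refine ⟨⟨fun n => T.coeff n / (q : ℤ), T.isPWO_support.mono fun n hn => ?_⟩, ?_⟩
  · simp only [Function.mem_support, ne_eq] at hn ⊢
    intro h0
    exact hn (by rw [h0, Int.zero_ediv])
  · ext n
    rw [HahnSeries.C_mul_eq_smul, HahnSeries.coeff_smul, smul_eq_mul]
    have h1 := congrArg (fun z => z.coeff n) h
    simp only [coeffMap_coeff, HahnSeries.coeff_zero, eq_intCast] at h1
    have h2 : (q : ℤ) ∣ T.coeff n := (ZMod.intCast_zmod_eq_zero_iff_dvd _ _).mp h1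
    exact (Int.mul_ediv_cancel' h2).symm

/-- Frobenius for `Δ` over `ℤ`: `Δ^q · Δ(Q^q)⁻¹ = 1 + q W`. -/
theorem cth69_delta_frob (q : ℕ) [NeZero q] (hq : q.Prime) :
    ∃ W : LaurentSeries ℤ,
      DeltaSer ℤ ^ q * qE ℤ q (DeltaInv ℤ) - 1 = HahnSeries.C (q : ℤ) * W := by
  apply cth69_int_dvd
  haveI : Fact q.Prime := ⟨hq⟩
  haveI : ExpChar (ZMod q) q := ExpChar.prime hq
  rw [map_sub, map_mul, map_pow, map_one, coeffMap_qE, coeffMap_DeltaSer, coeffMap_DeltaInv,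
    kn97_frobenius q (DeltaSer (ZMod q)), coeffMap_DeltaSer, qE_of_neZero, ← map_mul,
    DeltaSer_mul_DeltaInv, map_one, sub_self]

theorem cth69_delta_frob_ring (A : Type*) [CommRing A] (q : ℕ) [NeZero q] (hq : q.Prime) :
    ∃ W : LaurentSeries A,
      DeltaSer A ^ q * qE A q (DeltaInv A) - 1 = HahnSeries.C (q : A) * W := by
  obtain ⟨W, hW⟩ := cth69_delta_frob q hq
  refine ⟨coeffMap (Int.castRingHom A) W, ?_⟩
  have h := congrArg (coeffMap (Int.castRingHom A)) hW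
  rw [map_sub, map_mul, map_pow, map_one, coeffMap_qE, coeffMap_DeltaSer, coeffMap_DeltaInv,
    map_mul, gv85_coeffMap_C, map_natCast] at h
  exact h

theorem cth69_pow_add {A : Type*} [CommRing A] (c b Y : A) (k : ℕ) :
    ∃ Z : A, (b + c * Y) ^ k = b ^ k + c * Z := by
  induction k with
  | zero => exact ⟨0, by simp⟩
  | succ k ih =>
    obtain ⟨Z, hZ⟩ := ih
    refine ⟨b ^ k * Y + Z * b + c * (Z * Y), ?_⟩
    rw [pow_succ, hZ]
    ring

/-- **The computation over a domain `A`** (`A = O`, a valuation ring of `ℚ̄` over `R`). -/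
theorem cth69_core {A : Type*} [CommRing A] [IsDomain A] (q : ℕ) [NeZero q] (hq : q.Prime)
    (ζ : Aˣ) (hζq : (ζ : A) ^ q = 1) (hζ1 : (ζ : A) ≠ 1) (q' : A)
    (hq' : (q : A) = ((ζ : A) - 1) * q')
    (X S T : LaurentSeries A) (hrel : T * theta X ^ 6 = S * DeltaSer A) :
    ∃ E N₁ : LaurentSeries A,
      (twist ζ X - X) ^ (q - 1) = HahnSeries.C (q : A) * E ∧
      E ^ 6 * T ^ (q - 1) * dq56_U A q - S ^ (q - 1) = HahnSeries.C ((ζ : A) - 1) * N₁ := by
  obtain ⟨r, hr⟩ := c2p11_const hq (ζ : A) hζq hζ1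
  obtain ⟨Y₁, hY₁⟩ := tt69_twist_sub_pow ζ X (q - 1)
  obtain ⟨W, hW⟩ := cth69_delta_frob_ring A q hq
  obtain ⟨Y₃, hY₃⟩ := cth69_pow_add (HahnSeries.C ((ζ : A) - 1) : LaurentSeries A)
    (-(theta X ^ (q - 1)))
    (-(Y₁ + HahnSeries.C r * theta X ^ (q - 1) +
      HahnSeries.C ((ζ : A) - 1) * (HahnSeries.C r * Y₁))) 6
  refine ⟨-(theta X ^ (q - 1)) + HahnSeries.C ((ζ : A) - 1) *
      (-(Y₁ + HahnSeries.C r * theta X ^ (q - 1) +
        HahnSeries.C ((ζ : A) - 1) * (HahnSeries.C r * Y₁))),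
    S ^ (q - 1) * (HahnSeries.C q' * W) + Y₃ * T ^ (q - 1) * dq56_U A q, ?_, ?_⟩
  · rw [hY₁, hr, map_neg, map_mul, map_add, map_one, map_mul]
    ring
  · have hq1 : q - 1 + 1 = q := Nat.sub_add_cancel hq.pos
    have hU : DeltaSer A ^ (q - 1) * dq56_U A q = 1 + HahnSeries.C (q : A) * W := by
      have h0 : DeltaSer A ^ (q - 1) * dq56_U A q = DeltaSer A ^ q * qE A q (DeltaInv A) := by
        unfold dq56_U
        rw [← mul_assoc, ← pow_succ, hq1]
      rw [h0, ← hW]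
      ring
    have hCq : (HahnSeries.C (q : A) : LaurentSeries A) =
        HahnSeries.C ((ζ : A) - 1) * HahnSeries.C q' := by
      rw [← map_mul, ← hq']
    have ha6 : (-(theta X ^ (q - 1))) ^ 6 = (theta X ^ 6) ^ (q - 1) := by
      rw [Even.neg_pow (by decide), ← pow_mul, ← pow_mul, mul_comm]
    have h2 : (theta X ^ 6) ^ (q - 1) * T ^ (q - 1) = S ^ (q - 1) * DeltaSer A ^ (q - 1) := by
      rw [← mul_pow, mul_comm, hrel, mul_pow]
    rw [hY₃, ha6]
    linear_combination (dq56_U A q) * h2 + S ^ (q - 1) * hU + (S ^ (q - 1) * W) * hCq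

end cth69_series

section cth69_main

variable (R K : Type) [CommRing R] [IsDomain R] [IsDiscreteValuationRing R] [Field K]
  [Algebra R K] [IsFractionRing R K] [Algebra K Kbar]
  (M' q : ℕ) [NeZero M'] [NeZero q] (hq : q.Prime) (hM' : ¬ q ∣ M')

/-- `y = ζ - 1` in `O`. -/
noncomputable def cth69_y (ζ : Kbarˣ) (hζq : ζ ^ q = 1) : ↥(vsq97_O R K) :=
  ((vsq97_zetaO R K ζ q hq.pos hζq : (↥(vsq97_O R K))ˣ) : ↥(vsq97_O R K)) - 1

/-- `H = θ g + (ζ - 1) · y'`: the cofactor of `ζ - 1` in `g(ζ Q) - g(Q)`, over `O`. -/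
noncomputable def cth69_H (ζ : Kbarˣ) (hζq : ζ ^ q = 1) (g₀ : LaurentSeries R) :
    LaurentSeries ↥(vsq97_O R K) :=
  theta (coeffMap (vsq97_rho R K) g₀) + HahnSeries.C (cth69_y R K q hq ζ hζq) *
    tt69_rem (vsq97_zetaO R K ζ q hq.pos hζq) (coeffMap (vsq97_rho R K) g₀)

theorem cth69_zeta_pow (ζ : Kbarˣ) (hζq : ζ ^ q = 1) :
    ((vsq97_zetaO R K ζ q hq.pos hζq : (↥(vsq97_O R K))ˣ) : ↥(vsq97_O R K)) ^ q = 1 := by
  apply Subtype.ext
  show (ζ : Kbar) ^ q = 1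
  rw [← Units.val_pow_eq_pow_val, hζq, Units.val_one]

theorem cth69_zeta_ne (ζ : Kbarˣ) (hζq : ζ ^ q = 1) (hζ1 : ζ ≠ 1) :
    ((vsq97_zetaO R K ζ q hq.pos hζq : (↥(vsq97_O R K))ˣ) : ↥(vsq97_O R K)) ≠ 1 := by
  intro h
  apply hζ1
  apply Units.ext
  have h1 := congrArg Subtype.val h
  exact h1

theorem cth69_y_ne (ζ : Kbarˣ) (hζq : ζ ^ q = 1) (hζ1 : ζ ≠ 1) :
    cth69_y R K q hq ζ hζq ≠ 0 := by
  unfold cth69_y
  exact sub_ne_zero.mpr (cth69_zeta_ne R K q hq ζ hζq hζ1)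

theorem cth69_res_y (hqR : ¬ IsUnit (q : R)) (ζ : Kbarˣ) (hζq : ζ ^ q = 1) :
    IsLocalRing.residue ↥(vsq97_O R K) (cth69_y R K q hq ζ hζq) = 0 := by
  have h := congrArg Units.val (vsq97_res_zetaO R K q hq hqR ζ hζq)
  unfold cth69_y
  rw [map_sub, map_one, sub_eq_zero]
  simpa using h

theorem cth69_res_H (hqR : ¬ IsUnit (q : R)) (ζ : Kbarˣ) (hζq : ζ ^ q = 1)
    (g₀ : LaurentSeries R) :
    coeffMap (IsLocalRing.residue ↥(vsq97_O R K)) (cth69_H R K q hq ζ hζq g₀) =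
      coeffMap (IsLocalRing.residue ↥(vsq97_O R K)) (coeffMap (vsq97_rho R K) (theta g₀)) := by
  unfold cth69_H
  rw [map_add, map_mul, gv85_coeffMap_C, cth69_res_y R K q hq hqR ζ hζq, map_zero, zero_mul,
    add_zero]
  simp only [coeffMap_theta]

/-- `q = (ζ - 1) · q'` in `O`. -/
theorem cth69_exists_q' (hqR : ¬ IsUnit (q : R)) (ζ : Kbarˣ) (hζq : ζ ^ q = 1) (hζ1 : ζ ≠ 1) :
    ∃ q' : ↥(vsq97_O R K), ((q : ℕ) : ↥(vsq97_O R K)) =
      (((vsq97_zetaO R K ζ q hq.pos hζq : (↥(vsq97_O R K))ˣ) : ↥(vsq97_O R K)) - 1) * q' := by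
  obtain ⟨r, hr⟩ := c2p11_const hq
    ((vsq97_zetaO R K ζ q hq.pos hζq : (↥(vsq97_O R K))ˣ) : ↥(vsq97_O R K))
    (cth69_zeta_pow R K q hq ζ hζq) (cth69_zeta_ne R K q hq ζ hζq hζ1)
  have hres := cth69_res_y R K q hq hqR ζ hζq
  unfold cth69_y at hres
  have hunit : IsUnit (1 + (((vsq97_zetaO R K ζ q hq.pos hζq : (↥(vsq97_O R K))ˣ) :
      ↥(vsq97_O R K)) - 1) * r) := by
    rw [← IsLocalRing.residue_ne_zero_iff_isUnit, map_add, map_one, map_mul, hres, zero_mul,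
      add_zero]
    exact one_ne_zero
  obtain ⟨v, hv⟩ := hunit.exists_right_inv
  refine ⟨-((((vsq97_zetaO R K ζ q hq.pos hζq : (↥(vsq97_O R K))ˣ) : ↥(vsq97_O R K)) - 1) ^
    (q - 2) * v), ?_⟩
  have h2 : (((vsq97_zetaO R K ζ q hq.pos hζq : (↥(vsq97_O R K))ˣ) : ↥(vsq97_O R K)) - 1) *
      (((vsq97_zetaO R K ζ q hq.pos hζq : (↥(vsq97_O R K))ˣ) : ↥(vsq97_O R K)) - 1) ^ (q - 2) =
      (((vsq97_zetaO R K ζ q hq.pos hζq : (↥(vsq97_O R K))ˣ) : ↥(vsq97_O R K)) - 1) ^ (q - 1) := by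
    rw [← pow_succ']
    congr 1
    have := hq.two_le
    omega
  linear_combination v * h2 + v * hr - ((q : ℕ) : ↥(vsq97_O R K)) * hv

variable {R K}

/-- `Θ(s_g) = (ζ - 1) · H`. -/
theorem cth69_Theta_s (ζ : Kbarˣ) (hζq : ζ ^ q = 1) (hζ1 : ζ ≠ 1)
    (g : ↥(modularFunctionFieldFullC K (M' * q))) (g₀ : LaurentSeries R)
    (hg : (g : LaurentSeries K) = coeffMap (algebraMap R K) g₀) :
    nsq97_Theta (algebraMap K Kbar) M' q hq hM' (vsq97_natCast_ne_zero K (M' * q * q)) ζ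
      (al97L_beta K (M' * q) q (al97L_w (algebraMap K Kbar) M' q hq hM' g) -
        al97L_alpha K (M' * q) q g) =
      HahnSeries.C ((cth69_y R K q hq ζ hζq : ↥(vsq97_O R K)) : Kbar) *
        coeffMap (vsq97_O R K).subtype (cth69_H R K q hq ζ hζq g₀) := by
  have h1 : coeffMap (vsq97_O R K).subtype (HahnSeries.C (cth69_y R K q hq ζ hζq) *
      cth69_H R K q hq ζ hζq g₀) =
      HahnSeries.C ((cth69_y R K q hq ζ hζq : ↥(vsq97_O R K)) : Kbar) *
        coeffMap (vsq97_O R K).subtype (cth69_H R K q hq ζ hζq g₀) := by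
    rw [map_mul, gv85_coeffMap_C]
    rfl
  rw [← h1]
  unfold cth69_H cth69_y
  rw [map_sub, nsq97_Theta_alpha _ _ _ _ _ _ ζ hζq hζ1, nsq97_Theta_beta _ _ _ _ _ _ ζ hζq hζ1,
    al97L_w_w, ← tt69_twist_sub_rem, map_sub, vsq97_sub_twist, vsq97_sub_rho, nsq97_val_apply, hg]

theorem cth69_H_res_ne (hqR : ¬ IsUnit (q : R)) (ζ : Kbarˣ) (hζq : ζ ^ q = 1)
    (g₀ : LaurentSeries R) (hθ : coeffMap (IsLocalRing.residue R) (theta g₀) ≠ 0) :
    coeffMap (IsLocalRing.residue ↥(vsq97_O R K)) (cth69_H R K q hq ζ hζq g₀) ≠ 0 := by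
  rw [cth69_res_H R K q hq hqR ζ hζq]
  exact vsq97_red_ne_zero R K (theta g₀) hθ

theorem cth69_H_ne (hqR : ¬ IsUnit (q : R)) (ζ : Kbarˣ) (hζq : ζ ^ q = 1)
    (g₀ : LaurentSeries R) (hθ : coeffMap (IsLocalRing.residue R) (theta g₀) ≠ 0) :
    coeffMap (vsq97_O R K).subtype (cth69_H R K q hq ζ hζq g₀) ≠ 0 := by
  intro h
  apply cth69_H_res_ne (R := R) (K := K) q hq hqR ζ hζq g₀ hθ
  have h1 : cth69_H R K q hq ζ hζq g₀ = 0 :=
    gd97_coeffMap_injective (vsq97_O R K) (by rw [h, map_zero])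
  rw [h1, map_zero]

theorem cth69_Cy_ne (ζ : Kbarˣ) (hζq : ζ ^ q = 1) (hζ1 : ζ ≠ 1) :
    (HahnSeries.C ((cth69_y R K q hq ζ hζq : ↥(vsq97_O R K)) : Kbar) : LaurentSeries Kbar) ≠ 0 := by
  apply HahnSeries.C_ne_zero
  intro h
  exact cth69_y_ne R K q hq ζ hζq hζ1 (Subtype.ext h)

/-- **Ratio**: `s_{g'} · s_g⁻¹ ∈ V₂` for integral `g'`, when `θ g` is nonzero modulo `π`. -/
theorem cth69_ratio (ζ : Kbarˣ) (hζq : ζ ^ q = 1) (hζ1 : ζ ≠ 1) (hqR : ¬ IsUnit (q : R))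
    (g g' : ↥(modularFunctionFieldFullC K (M' * q))) (g₀ g₀' : LaurentSeries R)
    (hg : (g : LaurentSeries K) = coeffMap (algebraMap R K) g₀)
    (hg' : (g' : LaurentSeries K) = coeffMap (algebraMap R K) g₀')
    (hθ : coeffMap (IsLocalRing.residue R) (theta g₀) ≠ 0) :
    (al97L_beta K (M' * q) q (al97L_w (algebraMap K Kbar) M' q hq hM' g') -
        al97L_alpha K (M' * q) q g') *
      (al97L_beta K (M' * q) q (al97L_w (algebraMap K Kbar) M' q hq hM' g) -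
        al97L_alpha K (M' * q) q g)⁻¹ ∈ vsq97_V2 R K M' q hq hM' ζ := by
  rw [vsq97_mem_V2, map_mul, map_inv₀, cth69_Theta_s M' q hq hM' ζ hζq hζ1 g g₀ hg,
    cth69_Theta_s M' q hq hM' ζ hζq hζ1 g' g₀' hg']
  have hH := cth69_H_ne (R := R) (K := K) q hq hqR ζ hζq g₀ hθ
  have hy := cth69_Cy_ne (R := R) (K := K) q hq ζ hζq hζ1
  refine gd97_mem (vsq97_O R K) (cth69_H R K q hq ζ hζq g₀) (cth69_H R K q hq ζ hζq g₀')
    (cth69_H_res_ne (R := R) (K := K) q hq hqR ζ hζq g₀ hθ) ?_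
  field_simp

/-- `s_g` is a non-unit of `V₂`. -/
theorem cth69_s_nonunit (ζ : Kbarˣ) (hζq : ζ ^ q = 1) (hζ1 : ζ ≠ 1) (hqR : ¬ IsUnit (q : R))
    (g : ↥(modularFunctionFieldFullC K (M' * q))) (g₀ : LaurentSeries R)
    (hg : (g : LaurentSeries K) = coeffMap (algebraMap R K) g₀)
    (hθ : coeffMap (IsLocalRing.residue R) (theta g₀) ≠ 0) :
    (al97L_beta K (M' * q) q (al97L_w (algebraMap K Kbar) M' q hq hM' g) -
        al97L_alpha K (M' * q) q g)⁻¹ ∉ vsq97_V2 R K M' q hq hM' ζ := by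
  rw [vsq97_mem_V2, map_inv₀, cth69_Theta_s M' q hq hM' ζ hζq hζ1 g g₀ hg]
  have hH := cth69_H_ne (R := R) (K := K) q hq hqR ζ hζq g₀ hθ
  have hy := cth69_Cy_ne (R := R) (K := K) q hq ζ hζq hζ1
  refine gd97_inv_not_mem (vsq97_O R K) (mul_ne_zero hy hH) 1
    (HahnSeries.C (cth69_y R K q hq ζ hζq) * cth69_H R K q hq ζ hζq g₀)
    (by rw [map_one]; exact one_ne_zero) ?_ ?_
  · rw [map_mul, gv85_coeffMap_C, cth69_res_y R K q hq hqR ζ hζq, map_zero, zero_mul]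
  · rw [map_one, one_mul, map_mul, gv85_coeffMap_C]
    rfl

/-- **The `ϑ`-congruence in the `Θ`-model of `V₂`.**  `g ∈ F_K(M' q)` with integral expansion
`g₀`, `θ g₀` nonzero modulo `π`; `G ∈ V_∞(M' q)` with `G · (θ g)^6 = Δ`; `u` with expansion
`U = Δ(Q)/Δ(Q^q)`; `s = β₂ (w g) - α₂ g`.  Then `ϑ = s^(q-1)/q ∈ V₂` and
`ϑ^6 · (α₂ G^(q-1) · α₂ u) ≡ 1` modulo `s V₂`. -/
theorem cth69_main (ζ : Kbarˣ) (hζq : ζ ^ q = 1) (hζ1 : ζ ≠ 1) {π : R} (hπ : Irreducible π)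
    (hqR : ¬ IsUnit (q : R))
    (g : ↥(modularFunctionFieldFullC K (M' * q))) (g₀ : LaurentSeries R)
    (hg : (g : LaurentSeries K) = coeffMap (algebraMap R K) g₀)
    (hθ : coeffMap (IsLocalRing.residue R) (theta g₀) ≠ 0)
    (G : ↥(modularFunctionFieldFullC K (M' * q))) (hG : G ∈ cm85_Vinf (K := K) (M' * q) hπ)
    (hGθ : (G : LaurentSeries K) * partC_theta (g : LaurentSeries K) ^ 6 = DeltaSer K)
    (u : ↥(modularFunctionFieldFullC K (M' * q))) (hu : (u : LaurentSeries K) = dq56_U K q) :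
    ∃ ϑ : ↥(modularFunctionFieldFullC K (M' * q * q)),
      ((q : ℕ) : ↥(modularFunctionFieldFullC K (M' * q * q))) * ϑ =
        (al97L_beta K (M' * q) q (al97L_w (algebraMap K Kbar) M' q hq hM' g) -
          al97L_alpha K (M' * q) q g) ^ (q - 1) ∧
      ϑ ∈ vsq97_V2 R K M' q hq hM' ζ ∧
      (ϑ ^ 6 * (al97L_alpha K (M' * q) q G ^ (q - 1) * al97L_alpha K (M' * q) q u) - 1) *
        (al97L_beta K (M' * q) q (al97L_w (algebraMap K Kbar) M' q hq hM' g) -
          al97L_alpha K (M' * q) q g)⁻¹ ∈ vsq97_V2 R K M' q hq hM' ζ := by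
  obtain ⟨sG, tG, hsG, hstG⟩ := hG
  -- the relation `t · (θ g₀)^6 = s · Δ` over `R`, then over `O`
  have hrelR : tG * theta g₀ ^ 6 = sG * DeltaSer R := by
    apply kn97_coeffMap_injective (algebraMap R K) (IsFractionRing.injective R K)
    rw [map_mul, map_mul, map_pow, coeffMap_theta, ← hg, tt69_theta_eq, ← hstG,
      coeffMap_DeltaSer, ← hGθ]
    ring
  have hrelO : coeffMap (vsq97_rho R K) tG * theta (coeffMap (vsq97_rho R K) g₀) ^ 6 =
      coeffMap (vsq97_rho R K) sG * DeltaSer ↥(vsq97_O R K) := by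
    have h := congrArg (coeffMap (vsq97_rho R K)) hrelR
    rw [map_mul, map_pow, coeffMap_theta, map_mul, coeffMap_DeltaSer] at h
    exact h
  obtain ⟨q', hq'⟩ := cth69_exists_q' R K q hq hqR ζ hζq hζ1
  obtain ⟨E, N₁, hE, hN⟩ := cth69_core q hq (vsq97_zetaO R K ζ q hq.pos hζq)
    (cth69_zeta_pow R K q hq ζ hζq) (cth69_zeta_ne R K q hq ζ hζq hζ1) q' hq'
    (coeffMap (vsq97_rho R K) g₀) (coeffMap (vsq97_rho R K) sG) (coeffMap (vsq97_rho R K) tG)
    hrelO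
  have hΘs := cth69_Theta_s M' q hq hM' ζ hζq hζ1 g g₀ hg
  have hH := cth69_H_ne (R := R) (K := K) q hq hqR ζ hζq g₀ hθ
  have hy := cth69_Cy_ne (R := R) (K := K) q hq ζ hζq hζ1
  have hCq : (HahnSeries.C ((q : ℕ) : Kbar) : LaurentSeries Kbar) ≠ 0 :=
    HahnSeries.C_ne_zero (Nat.cast_ne_zero.mpr hq.ne_zero)
  have hΘq : nsq97_Theta (algebraMap K Kbar) M' q hq hM'
      (vsq97_natCast_ne_zero K (M' * q * q)) ζ
      ((q : ℕ) : ↥(modularFunctionFieldFullC K (M' * q * q))) =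
      HahnSeries.C ((q : ℕ) : Kbar) := by
    rw [map_natCast, map_natCast]
  have hqF : ((q : ℕ) : ↥(modularFunctionFieldFullC K (M' * q * q))) ≠ 0 := by
    intro h
    apply hCq
    rw [← hΘq, h, map_zero]
  -- `Θ(s)^(q-1) = q · E`
  have hpow : (HahnSeries.C ((cth69_y R K q hq ζ hζq : ↥(vsq97_O R K)) : Kbar) *
      coeffMap (vsq97_O R K).subtype (cth69_H R K q hq ζ hζq g₀)) ^ (q - 1) =
      HahnSeries.C ((q : ℕ) : Kbar) * coeffMap (vsq97_O R K).subtype E := by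
    have h1 : coeffMap (vsq97_O R K).subtype (HahnSeries.C (cth69_y R K q hq ζ hζq) *
        cth69_H R K q hq ζ hζq g₀) =
        HahnSeries.C ((cth69_y R K q hq ζ hζq : ↥(vsq97_O R K)) : Kbar) *
          coeffMap (vsq97_O R K).subtype (cth69_H R K q hq ζ hζq g₀) := by
      rw [map_mul, gv85_coeffMap_C]
      rfl
    have h2 : HahnSeries.C (cth69_y R K q hq ζ hζq) * cth69_H R K q hq ζ hζq g₀ =
        twist (vsq97_zetaO R K ζ q hq.pos hζq) (coeffMap (vsq97_rho R K) g₀) -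
          coeffMap (vsq97_rho R K) g₀ := by
      unfold cth69_H cth69_y
      rw [← tt69_twist_sub_rem]
    rw [← h1, h2, ← map_pow, hE, map_mul, gv85_coeffMap_C]
    congr 1
  set s := al97L_beta K (M' * q) q (al97L_w (algebraMap K Kbar) M' q hq hM' g) -
    al97L_alpha K (M' * q) q g with hs
  have hΘϑ : nsq97_Theta (algebraMap K Kbar) M' q hq hM'
      (vsq97_natCast_ne_zero K (M' * q * q)) ζ
      (s ^ (q - 1) * ((q : ℕ) : ↥(modularFunctionFieldFullC K (M' * q * q)))⁻¹) =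
      coeffMap (vsq97_O R K).subtype E := by
    rw [map_mul, map_pow, map_inv₀, hΘq, hΘs, hpow]
    field_simp
  refine ⟨s ^ (q - 1) * ((q : ℕ) : ↥(modularFunctionFieldFullC K (M' * q * q)))⁻¹, ?_, ?_, ?_⟩
  · field_simp
  · rw [vsq97_mem_V2, hΘϑ]
    exact gd97_int_mem (vsq97_O R K) E
  · rw [vsq97_mem_V2]
    refine gd97_mem (vsq97_O R K)
      (coeffMap (vsq97_rho R K) sG ^ (q - 1) * cth69_H R K q hq ζ hζq g₀) N₁ ?_ ?_
    · rw [map_mul, map_pow]
      exact mul_ne_zero (pow_ne_zero _ (vsq97_red_ne_zero R K sG hsG))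
        (cth69_H_res_ne (R := R) (K := K) q hq hqR ζ hζq g₀ hθ)
    · have hαG : coeffMap (vsq97_O R K).subtype (coeffMap (vsq97_rho R K) sG) *
          nsq97_Theta (algebraMap K Kbar) M' q hq hM'
            (vsq97_natCast_ne_zero K (M' * q * q)) ζ (al97L_alpha K (M' * q) q G) =
          coeffMap (vsq97_O R K).subtype (coeffMap (vsq97_rho R K) tG) := by
        rw [nsq97_Theta_alpha _ _ _ _ _ _ ζ hζq hζ1, vsq97_sub_rho, vsq97_sub_rho,
          nsq97_val_apply, ← map_mul, hstG]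
      have hαu : nsq97_Theta (algebraMap K Kbar) M' q hq hM'
            (vsq97_natCast_ne_zero K (M' * q * q)) ζ (al97L_alpha K (M' * q) q u) =
          coeffMap (vsq97_O R K).subtype (dq56_U ↥(vsq97_O R K) q) := by
        rw [nsq97_Theta_alpha _ _ _ _ _ _ ζ hζq hζ1, nsq97_val_apply, hu, dq56_coeffMap_U,
          dq56_coeffMap_U]
      have hN' : coeffMap (vsq97_O R K).subtype E ^ 6 *
          coeffMap (vsq97_O R K).subtype (coeffMap (vsq97_rho R K) tG) ^ (q - 1) *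
          coeffMap (vsq97_O R K).subtype (dq56_U ↥(vsq97_O R K) q) -
          coeffMap (vsq97_O R K).subtype (coeffMap (vsq97_rho R K) sG) ^ (q - 1) =
          HahnSeries.C ((cth69_y R K q hq ζ hζq : ↥(vsq97_O R K)) : Kbar) *
            coeffMap (vsq97_O R K).subtype N₁ := by
        have h := congrArg (coeffMap (vsq97_O R K).subtype) hN
        rw [map_sub, map_mul, map_mul, map_pow, map_pow, map_pow, map_mul, gv85_coeffMap_C] at h
        exact h
      have key : coeffMap (vsq97_O R K).subtype (coeffMap (vsq97_rho R K) sG) ^ (q - 1) *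
          (coeffMap (vsq97_O R K).subtype E ^ 6 *
            (nsq97_Theta (algebraMap K Kbar) M' q hq hM'
              (vsq97_natCast_ne_zero K (M' * q * q)) ζ (al97L_alpha K (M' * q) q G) ^ (q - 1) *
              coeffMap (vsq97_O R K).subtype (dq56_U ↥(vsq97_O R K) q)) - 1) =
          HahnSeries.C ((cth69_y R K q hq ζ hζq : ↥(vsq97_O R K)) : Kbar) *
            coeffMap (vsq97_O R K).subtype N₁ := by
        rw [← hN', ← hαG]
        ring
      have hexpr : nsq97_Theta (algebraMap K Kbar) M' q hq hM'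
            (vsq97_natCast_ne_zero K (M' * q * q)) ζ
            (((s ^ (q - 1) * ((q : ℕ) : ↥(modularFunctionFieldFullC K (M' * q * q)))⁻¹) ^ 6 *
              (al97L_alpha K (M' * q) q G ^ (q - 1) * al97L_alpha K (M' * q) q u) - 1) * s⁻¹) =
          (coeffMap (vsq97_O R K).subtype E ^ 6 *
            (nsq97_Theta (algebraMap K Kbar) M' q hq hM'
              (vsq97_natCast_ne_zero K (M' * q * q)) ζ (al97L_alpha K (M' * q) q G) ^ (q - 1) *
              coeffMap (vsq97_O R K).subtype (dq56_U ↥(vsq97_O R K) q)) - 1) *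
            (HahnSeries.C ((cth69_y R K q hq ζ hζq : ↥(vsq97_O R K)) : Kbar) *
              coeffMap (vsq97_O R K).subtype (cth69_H R K q hq ζ hζq g₀))⁻¹ := by
        have hΘϑ' : nsq97_Theta (algebraMap K Kbar) M' q hq hM'
            (vsq97_natCast_ne_zero K (M' * q * q)) ζ s ^ (q - 1) *
            (nsq97_Theta (algebraMap K Kbar) M' q hq hM'
              (vsq97_natCast_ne_zero K (M' * q * q)) ζ
              ((q : ℕ) : ↥(modularFunctionFieldFullC K (M' * q * q))))⁻¹ =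
            coeffMap (vsq97_O R K).subtype E := by
          rw [← hΘϑ, map_mul, map_pow, map_inv₀]
        simp only [map_mul, map_sub, map_one, map_pow, map_inv₀]
        rw [hΘϑ', hαu, hΘs]
      rw [hexpr, map_mul, map_pow]
      calc coeffMap (vsq97_O R K).subtype (coeffMap (vsq97_rho R K) sG) ^ (q - 1) *
            coeffMap (vsq97_O R K).subtype (cth69_H R K q hq ζ hζq g₀) *
            ((coeffMap (vsq97_O R K).subtype E ^ 6 *
              (nsq97_Theta (algebraMap K Kbar) M' q hq hM'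
                (vsq97_natCast_ne_zero K (M' * q * q)) ζ (al97L_alpha K (M' * q) q G) ^ (q - 1) *
                coeffMap (vsq97_O R K).subtype (dq56_U ↥(vsq97_O R K) q)) - 1) *
              (HahnSeries.C ((cth69_y R K q hq ζ hζq : ↥(vsq97_O R K)) : Kbar) *
                coeffMap (vsq97_O R K).subtype (cth69_H R K q hq ζ hζq g₀))⁻¹)
          = (coeffMap (vsq97_O R K).subtype (coeffMap (vsq97_rho R K) sG) ^ (q - 1) *
            (coeffMap (vsq97_O R K).subtype E ^ 6 *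
              (nsq97_Theta (algebraMap K Kbar) M' q hq hM'
                (vsq97_natCast_ne_zero K (M' * q * q)) ζ (al97L_alpha K (M' * q) q G) ^ (q - 1) *
                coeffMap (vsq97_O R K).subtype (dq56_U ↥(vsq97_O R K) q)) - 1)) *
            (coeffMap (vsq97_O R K).subtype (cth69_H R K q hq ζ hζq g₀) *
              (HahnSeries.C ((cth69_y R K q hq ζ hζq : ↥(vsq97_O R K)) : Kbar) *
                coeffMap (vsq97_O R K).subtype (cth69_H R K q hq ζ hζq g₀))⁻¹) := by ring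
        _ = coeffMap (vsq97_O R K).subtype N₁ := by
          rw [key]
          field_simp

end cth69_main

end Fermat.Agent.S36
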