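import Fermat.Agent.S36.TwoGenCanon7
import Fermat.Agent.S36.MidCuspFrame25

/-!
# S36 lab (helper25), rows 600/601/629: two generators on the canonical charts of level `M' q²`
with the `C₂`-only input reduced to the points where `j` is regular

`tg7_twoGen_level2/3` (helper7, `TwoGenCanon7`) ask for `hD₂ : tl71_MidDivAt` at ALL closed points
on `C₂` only.  At the cusps of `C₂` no generator which is a unit along `V₁`, `V₃` is available
(the generator of `mc8_chart` is local), so this file restates the canonical theorems with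

* `mc25_tg_core` : `tg7_twoGen_core` with `hD₂` in the principal form `mc25_MidPrinAt`
  (through `tf71b_hD` + `mc25_twoGen`);
* `mc25_tg_level2`, `mc25_tg_level3` : the canonical instance (`V₂ = v2g64_V2`, `s = v2g64_s`), both
  affine charts: `hr₁ → hr₂ → hreg → tl71_TwoGen π B`, where `hreg` is the principal form at the
  `C₂`-only points WHERE `j` IS REGULAR (`∃ s' b, s' ∉ n ∧ s' * j = b`; row C-C2).  The cusps of
  `C₂` are discharged by `mc25_hD2_level2/3(_inv)` (`MidCuspFrame25`).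
-/

set_option autoImplicit false
set_option linter.unusedSectionVars false
set_option linter.style.haveILetI false
set_option linter.style.longLine false

open ModularCurve AlgebraicCurve

namespace Fermat.Agent.S36

open Fermat.Agent.S18 Fermat.Agent.S24 Fermat.Agent.S28 Fermat.Agent.S34
open Fermat.Agent.S36.TripleLoc71

section mc25_tg

variable {R K : Type} [CommRing R] [IsDomain R] [IsDiscreteValuationRing R] [Field K]
  [CharZero K] [Algebra R K] [IsFractionRing R K] [Algebra K Kbar] [Algebra.IsAlgebraic K Kbar]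
  (M' q : ℕ) [NeZero M'] [NeZero q] (hq : q.Prime) (hM' : ¬ q ∣ M')
  [Algebra R ↥(modularFunctionFieldFullC K M')]
  [IsScalarTower R K ↥(modularFunctionFieldFullC K M')]
  [Algebra R ↥(modularFunctionFieldFullC K (M' * q))]
  [IsScalarTower R K ↥(modularFunctionFieldFullC K (M' * q))]
  [Algebra R ↥(modularFunctionFieldFullC K (M' * q * q))]
  [IsScalarTower R K ↥(modularFunctionFieldFullC K (M' * q * q))]

/-- **Core**: `tf71b_twoGen` with all valuation inclusions and the `σ`-bookkeeping discharged. -/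
theorem mc25_tg_core {π : R} (hπ : Irreducible π) (hqR : ¬ IsUnit (q : R))
    (V₂ : ValuationSubring ↥(modularFunctionFieldFullC K (M' * q * q)))
    (hV₂ : ∀ c ∈ cm85_Vinf (K := K) (M' * q) hπ, al97L_alpha K (M' * q) q c ∈ V₂)
    (hπ₂ : (algebraMap K ↥(modularFunctionFieldFullC K (M' * q * q)) (algebraMap R K π))⁻¹ ∉ V₂)
    (hne : cm85_Vinf (K := K) (M' * q * q) hπ ≠ V₂)
    (s : ↥(modularFunctionFieldFullC K (M' * q * q)))
    (hs : V₂.valuation s ^ (q - 1) =
      V₂.valuation (algebraMap K ↥(modularFunctionFieldFullC K (M' * q * q))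
        (algebraMap R K π)))
    (B' : Subalgebra R ↥(modularFunctionFieldFullC K (M' * q)))
    (B : Subalgebra R ↥(modularFunctionFieldFullC K (M' * q * q)))
    (hαB : ∀ x ∈ B', al97L_alpha K (M' * q) q x ∈ B)
    (hβB : ∀ x ∈ B', al97L_beta K (M' * q) q x ∈ B)
    (hBW : ∀ x ∈ B, x ∈ (cm85_Vinf (K := K) (M' * q * q) hπ).toSubring ⊓ V₂.toSubring ⊓
      (nsb86_V3 (K := K) M' q hq hM' hπ).toSubring)
    (hsat : ∀ x ∈ B, (algebraMap R ↥(modularFunctionFieldFullC K (M' * q * q)) π)⁻¹ * x ∈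
        (cm85_Vinf (K := K) (M' * q * q) hπ).toSubring ⊓ V₂.toSubring ⊓
          (nsb86_V3 (K := K) M' q hq hM' hπ).toSubring →
      (algebraMap R ↥(modularFunctionFieldFullC K (M' * q * q)) π)⁻¹ * x ∈ B)
    (hS₁ : sf79_Smooth π B (cm85_Vinf (K := K) (M' * q * q) hπ).toSubring)
    (hS₃ : sf79_Smooth π B (nsb86_V3 (K := K) M' q hq hM' hπ).toSubring)
    (hS₂ : tl71_MidSmooth π s B V₂.toSubring)
    (hr₁ : ∀ m' : Ideal B', m'.IsMaximal →
      sf79_OnBr π B' (cm85_Vinf (K := K) (M' * q) hπ).toSubring m' →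
      sf79_OnBr π B' (s34i47c_V0 (K := K) M' q hq hM' hπ).toSubring m' →
      tl71_DivAt π B' (cm85_Vinf (K := K) (M' * q) hπ).toSubring
        (s34i47c_V0 (K := K) M' q hq hM' hπ).toSubring
        (s34i47c_V0 (K := K) M' q hq hM' hπ).toSubring m')
    (hr₂ : ∀ m' : Ideal B', m'.IsMaximal →
      sf79_OnBr π B' (s34i47c_V0 (K := K) M' q hq hM' hπ).toSubring m' →
      sf79_OnBr π B' (cm85_Vinf (K := K) (M' * q) hπ).toSubring m' →
      tl71_DivAt π B' (s34i47c_V0 (K := K) M' q hq hM' hπ).toSubring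
        (cm85_Vinf (K := K) (M' * q) hπ).toSubring
        (cm85_Vinf (K := K) (M' * q) hπ).toSubring m')
    (hD₂ : ∀ n : Ideal B, n.IsMaximal → algebraMap R B π ∈ n → tl71_OnMid s B V₂.toSubring n →
      ¬ sf79_OnBr π B (cm85_Vinf (K := K) (M' * q * q) hπ).toSubring n →
      ¬ sf79_OnBr π B (nsb86_V3 (K := K) M' q hq hM' hπ).toSubring n →
      mc25_MidPrinAt s B V₂.toSubring n) :
    tl71_TwoGen π B := by
  have e : algebraMap R ↥(modularFunctionFieldFullC K (M' * q * q)) π =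
      algebraMap K ↥(modularFunctionFieldFullC K (M' * q * q)) (algebraMap R K π) :=
    IsScalarTower.algebraMap_apply R K _ π
  have hL := nsb86_hL K (M' * q * q)
  have hα₃ : ∀ x ∈ s34i47c_V0 (K := K) M' q hq hM' hπ,
      al97L_alpha K (M' * q) q x ∈ nsb86_V3 (K := K) M' q hq hM' hπ := fun c hc =>
    o3x72_V3_over M' q hq hM' hπ hL _ (nsb86_mem_V3 M' q hq hM' hπ) c hc
  have hβ₂ : ∀ x ∈ s34i47c_V0 (K := K) M' q hq hM' hπ, al97L_beta K (M' * q) q x ∈ V₂ :=
    fun x hx => (bv66_beta_mem_V2 (K := K) M' q hq hM' hπ hqR hL V₂ hV₂ hπ₂ hne x).mpr hx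
  have hβ₃ : ∀ x ∈ s34i47c_V0 (K := K) M' q hq hM' hπ,
      al97L_beta K (M' * q) q x ∈ nsb86_V3 (K := K) M' q hq hM' hπ := by
    intro x hx
    rw [nsb86_mem_V3, als86_w2_beta]
    exact (al97V_alpha_mem_Vinf (M' * q) q hπ _).mpr ((s34i47c_mem_V0 M' q hq hM' hπ x).1 hx)
  -- `σ`-bookkeeping
  have hπ₂' : (algebraMap R ↥(modularFunctionFieldFullC K (M' * q * q)) π)⁻¹ ∉ V₂ := by
    rw [e]; exact hπ₂
  have hs' : V₂.valuation s ^ (q - 1) =
      V₂.valuation (algebraMap R ↥(modularFunctionFieldFullC K (M' * q * q)) π) := by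
    rw [e]; exact hs
  have hϖ0 : algebraMap R ↥(modularFunctionFieldFullC K (M' * q * q)) π ≠ 0 := by
    intro h0
    apply hπ₂'
    rw [h0, inv_zero]
    exact V₂.zero_mem
  have hvϖ0 : V₂.valuation (algebraMap R ↥(modularFunctionFieldFullC K (M' * q * q)) π) ≠ 0 :=
    (Valuation.ne_zero_iff _).mpr hϖ0
  have hvϖ : V₂.valuation (algebraMap R ↥(modularFunctionFieldFullC K (M' * q * q)) π) < 1 := by
    by_contra hcon
    apply hπ₂'
    rw [← ValuationSubring.valuation_le_one_iff, map_inv₀]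
    exact inv_le_one_of_one_le₀ (not_lt.mp hcon)
  obtain ⟨hvs0, -, hvsπ⟩ := sm7_aux_val _ _ q hq.two_le hvϖ0 hvϖ hs'
  have hσ0 : s ≠ 0 := (Valuation.ne_zero_iff _).mp hvs0
  have hπσ : algebraMap R ↥(modularFunctionFieldFullC K (M' * q * q)) π * s⁻¹ ∈ V₂ := by
    rw [← ValuationSubring.valuation_le_one_iff, map_mul, map_inv₀]
    exact (mul_comm _ _).trans_le hvsπ
  have hσe : (algebraMap R ↥(modularFunctionFieldFullC K (M' * q * q)) π)⁻¹ * s ^ (q - 1) ∈
      V₂ := by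
    rw [← ValuationSubring.valuation_le_one_iff, map_mul, map_inv₀, map_pow, hs',
      inv_mul_cancel₀ hvϖ0]
  obtain ⟨hD₁, hD₃⟩ := tf71b_hD (K := K) M' q hq hM' hπ V₂ (nsb86_V3 (K := K) M' q hq hM' hπ) s
    hV₂ hα₃ hβ₂ hβ₃ hπσ B' B hαB hβB hr₁ hr₂
  exact mc25_twoGen π s (q - 1) B _ _ _
    (fun x hx => (hBW x hx).1.1) (fun x hx => (hBW x hx).1.2) (fun x hx => (hBW x hx).2)
    (fun x hx h1 h2 h3 => hsat x hx ⟨⟨h1, h2⟩, h3⟩) hϖ0 hσ0 hσe hS₁ hS₃ hS₂ hD₁ hD₃ hD₂


/-- **Two generators at every closed point of the two canonical charts of level `M' q²`,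
Hauptmodul of level 2**: the only inputs are (REG-q) on the charts of level `M' q` (`hr₁`, `hr₂`)
and the local generator of the middle branch at the `C₂`-only points (`hD₂`). -/
theorem mc25_tg_level2 {π : R} (hπ : Irreducible π) (hqπ : Associated ((q : ℕ) : R) π)
    (hunit : ∀ n : ℕ, Nat.Coprime n q → IsUnit (n : R)) (h2 : 2 ∣ M') :
    ((∀ m' : Ideal (pk15_chart R {pk85_h2 K (M' * q) (h2.trans (dvd_mul_right M' q))}), m'.IsMaximal →
        sf79_OnBr π (pk15_chart R {pk85_h2 K (M' * q) (h2.trans (dvd_mul_right M' q))}) (cm85_Vinf (K := K) (M' * q) hπ).toSubring m' →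
        sf79_OnBr π (pk15_chart R {pk85_h2 K (M' * q) (h2.trans (dvd_mul_right M' q))}) (s34i47c_V0 (K := K) M' q hq hM' hπ).toSubring m' →
        tl71_DivAt π (pk15_chart R {pk85_h2 K (M' * q) (h2.trans (dvd_mul_right M' q))}) (cm85_Vinf (K := K) (M' * q) hπ).toSubring
          (s34i47c_V0 (K := K) M' q hq hM' hπ).toSubring (s34i47c_V0 (K := K) M' q hq hM' hπ).toSubring m') →
      (∀ m' : Ideal (pk15_chart R {pk85_h2 K (M' * q) (h2.trans (dvd_mul_right M' q))}), m'.IsMaximal →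
        sf79_OnBr π (pk15_chart R {pk85_h2 K (M' * q) (h2.trans (dvd_mul_right M' q))}) (s34i47c_V0 (K := K) M' q hq hM' hπ).toSubring m' →
        sf79_OnBr π (pk15_chart R {pk85_h2 K (M' * q) (h2.trans (dvd_mul_right M' q))}) (cm85_Vinf (K := K) (M' * q) hπ).toSubring m' →
        tl71_DivAt π (pk15_chart R {pk85_h2 K (M' * q) (h2.trans (dvd_mul_right M' q))}) (s34i47c_V0 (K := K) M' q hq hM' hπ).toSubring
          (cm85_Vinf (K := K) (M' * q) hπ).toSubring (cm85_Vinf (K := K) (M' * q) hπ).toSubring m') →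
      (∀ n : Ideal (pk15_chart R {pk85_h2 K (M' * q * q)
          (h2.trans ((dvd_mul_right M' q).trans (dvd_mul_right (M' * q) q)))}), n.IsMaximal →
        algebraMap R (pk15_chart R {pk85_h2 K (M' * q * q)
          (h2.trans ((dvd_mul_right M' q).trans (dvd_mul_right (M' * q) q)))}) π ∈ n →
        tl71_OnMid (v2g64_s K M' q) (pk15_chart R {pk85_h2 K (M' * q * q)
          (h2.trans ((dvd_mul_right M' q).trans (dvd_mul_right (M' * q) q)))})
          (v2g64_V2 (algebraMap K Kbar) M' q hq hM' hπ hqπ).toSubring n →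
        ¬ sf79_OnBr π (pk15_chart R {pk85_h2 K (M' * q * q)
          (h2.trans ((dvd_mul_right M' q).trans (dvd_mul_right (M' * q) q)))})
          (cm85_Vinf (K := K) (M' * q * q) hπ).toSubring n →
        ¬ sf79_OnBr π (pk15_chart R {pk85_h2 K (M' * q * q)
          (h2.trans ((dvd_mul_right M' q).trans (dvd_mul_right (M' * q) q)))})
          (nsb86_V3 (K := K) M' q hq hM' hπ).toSubring n →
        (∃ s' b : ↥(pk15_chart R {pk85_h2 K (M' * q * q)
          (h2.trans ((dvd_mul_right M' q).trans (dvd_mul_right (M' * q) q)))}), s' ∉ n ∧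
          (s' : ↥(modularFunctionFieldFullC K (M' * q * q))) * rm90_j K (M' * q * q) = (b : ↥(modularFunctionFieldFullC K (M' * q * q)))) →
        mc25_MidPrinAt (v2g64_s K M' q) (pk15_chart R {pk85_h2 K (M' * q * q)
          (h2.trans ((dvd_mul_right M' q).trans (dvd_mul_right (M' * q) q)))})
          (v2g64_V2 (algebraMap K Kbar) M' q hq hM' hπ hqπ).toSubring n) →
      tl71_TwoGen π (pk15_chart R {pk85_h2 K (M' * q * q)
          (h2.trans ((dvd_mul_right M' q).trans (dvd_mul_right (M' * q) q)))})) ∧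
    ((∀ m' : Ideal (pk15_chart R {(pk85_h2 K (M' * q) (h2.trans (dvd_mul_right M' q)))⁻¹}), m'.IsMaximal →
        sf79_OnBr π (pk15_chart R {(pk85_h2 K (M' * q) (h2.trans (dvd_mul_right M' q)))⁻¹}) (cm85_Vinf (K := K) (M' * q) hπ).toSubring m' →
        sf79_OnBr π (pk15_chart R {(pk85_h2 K (M' * q) (h2.trans (dvd_mul_right M' q)))⁻¹}) (s34i47c_V0 (K := K) M' q hq hM' hπ).toSubring m' →
        tl71_DivAt π (pk15_chart R {(pk85_h2 K (M' * q) (h2.trans (dvd_mul_right M' q)))⁻¹}) (cm85_Vinf (K := K) (M' * q) hπ).toSubring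
          (s34i47c_V0 (K := K) M' q hq hM' hπ).toSubring (s34i47c_V0 (K := K) M' q hq hM' hπ).toSubring m') →
      (∀ m' : Ideal (pk15_chart R {(pk85_h2 K (M' * q) (h2.trans (dvd_mul_right M' q)))⁻¹}), m'.IsMaximal →
        sf79_OnBr π (pk15_chart R {(pk85_h2 K (M' * q) (h2.trans (dvd_mul_right M' q)))⁻¹}) (s34i47c_V0 (K := K) M' q hq hM' hπ).toSubring m' →
        sf79_OnBr π (pk15_chart R {(pk85_h2 K (M' * q) (h2.trans (dvd_mul_right M' q)))⁻¹}) (cm85_Vinf (K := K) (M' * q) hπ).toSubring m' →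
        tl71_DivAt π (pk15_chart R {(pk85_h2 K (M' * q) (h2.trans (dvd_mul_right M' q)))⁻¹}) (s34i47c_V0 (K := K) M' q hq hM' hπ).toSubring
          (cm85_Vinf (K := K) (M' * q) hπ).toSubring (cm85_Vinf (K := K) (M' * q) hπ).toSubring m') →
      (∀ n : Ideal (pk15_chart R {(pk85_h2 K (M' * q * q)
          (h2.trans ((dvd_mul_right M' q).trans (dvd_mul_right (M' * q) q))))⁻¹}), n.IsMaximal →
        algebraMap R (pk15_chart R {(pk85_h2 K (M' * q * q)
          (h2.trans ((dvd_mul_right M' q).trans (dvd_mul_right (M' * q) q))))⁻¹}) π ∈ n →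
        tl71_OnMid (v2g64_s K M' q) (pk15_chart R {(pk85_h2 K (M' * q * q)
          (h2.trans ((dvd_mul_right M' q).trans (dvd_mul_right (M' * q) q))))⁻¹})
          (v2g64_V2 (algebraMap K Kbar) M' q hq hM' hπ hqπ).toSubring n →
        ¬ sf79_OnBr π (pk15_chart R {(pk85_h2 K (M' * q * q)
          (h2.trans ((dvd_mul_right M' q).trans (dvd_mul_right (M' * q) q))))⁻¹})
          (cm85_Vinf (K := K) (M' * q * q) hπ).toSubring n →
        ¬ sf79_OnBr π (pk15_chart R {(pk85_h2 K (M' * q * q)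
          (h2.trans ((dvd_mul_right M' q).trans (dvd_mul_right (M' * q) q))))⁻¹})
          (nsb86_V3 (K := K) M' q hq hM' hπ).toSubring n →
        (∃ s' b : ↥(pk15_chart R {(pk85_h2 K (M' * q * q)
          (h2.trans ((dvd_mul_right M' q).trans (dvd_mul_right (M' * q) q))))⁻¹}), s' ∉ n ∧
          (s' : ↥(modularFunctionFieldFullC K (M' * q * q))) * rm90_j K (M' * q * q) = (b : ↥(modularFunctionFieldFullC K (M' * q * q)))) →
        mc25_MidPrinAt (v2g64_s K M' q) (pk15_chart R {(pk85_h2 K (M' * q * q)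
          (h2.trans ((dvd_mul_right M' q).trans (dvd_mul_right (M' * q) q))))⁻¹})
          (v2g64_V2 (algebraMap K Kbar) M' q hq hM' hπ hqπ).toSubring n) →
      tl71_TwoGen π (pk15_chart R {(pk85_h2 K (M' * q * q)
          (h2.trans ((dvd_mul_right M' q).trans (dvd_mul_right (M' * q) q))))⁻¹})) := by
  have hqR : ¬ IsUnit (q : R) := fun hu => hπ.not_isUnit (hqπ.isUnit hu)
  have hMu : IsUnit (M' : R) := hunit M' ((Nat.Prime.coprime_iff_not_dvd hq).mpr hM').symm
  have hq2 : q ≠ 2 := by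
    rintro rfl
    exact hM' h2
  have hV₂ := v2g64_V2_alpha (algebraMap K Kbar) M' q hq hM' hπ hqπ
  have hπ₂ := v2g64_V2_pi (algebraMap K Kbar) M' q hq hM' hπ hqπ
  have hne := v2g64_V2_ne (algebraMap K Kbar) M' q hq hM' hπ hqπ
  have hs := v2g64_V2_val (algebraMap K Kbar) M' q hq hM' hπ hqπ
  obtain ⟨-, ⟨-, hW, hsat1, hsat2, -⟩, -⟩ := fb85_frameV3_level2 (K := K) M' q hq hM' hπ hqR hMu
    h2 _ hV₂ hπ₂ hs
  obtain ⟨⟨a1, a2, a3⟩, ⟨b1, b2, b3⟩⟩ :=
    sm7_three_smooth_canon_level2 (R := R) (K := K) M' q hq hM' hπ hqπ h2 hMu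
  have eh : al97L_alpha K (M' * q) q (pk85_h2 K (M' * q) (h2.trans (dvd_mul_right M' q))) =
      pk85_h2 K (M' * q * q)
        (h2.trans ((dvd_mul_right M' q).trans (dvd_mul_right (M' * q) q))) :=
    Subtype.ext (by rw [al97L_alpha_coe, pk85_h2_coe, pk85_h2_coe])
  obtain ⟨ha1, ha2⟩ := cm71_alpha_charts (R := R) (K := K) (M' * q) q
    (pk85_h2 K (M' * q) (h2.trans (dvd_mul_right M' q)))
  obtain ⟨hb1, hb2⟩ := cm71_beta_charts (R := R) (K := K) (M' * q) q hq hunit
    (pk85_h2 K (M' * q) (h2.trans (dvd_mul_right M' q)))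
    (Or.inl ⟨hq2, h2.trans (dvd_mul_right M' q), rfl⟩)
  rw [eh] at ha1 ha2 hb1 hb2
  have eR : algebraMap R ↥(modularFunctionFieldFullC K (M' * q * q)) π =
      algebraMap K ↥(modularFunctionFieldFullC K (M' * q * q)) (algebraMap R K π) :=
    IsScalarTower.algebraMap_apply R K _ π
  obtain ⟨uu, huq⟩ := id hqπ
  have hqu : ((q : ℕ) : R) = ((uu⁻¹ : Rˣ) : R) * π := by
    rw [← huq, mul_comm ((q : ℕ) : R), ← mul_assoc, ← Units.val_mul, inv_mul_cancel,
      Units.val_one, one_mul]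
  have hu2 : IsUnit (2 : R) := by
    have := hunit 2 ((Nat.coprime_primes Nat.prime_two hq).mpr (Ne.symm hq2))
    simpa using this
  constructor
  · intro hr₁ hr₂ hreg
    exact mc25_tg_core (R := R) (K := K) M' q hq hM' hπ hqR _ hV₂ hπ₂ hne _ hs _ _ ha1 hb1
      (fun x hx => hW x (bz7_isIntegral_mono (fun y hy => Or.inl hy) x hx)) hsat1 a1 a3 a2
      hr₁ hr₂
      (mc25_hD2_level2 (R := R) (K := K) M' q hq hM' hπ hqR h2 hu2 ((uu⁻¹ : Rˣ) : R) (uu : R)
        (by rw [← Units.val_mul, inv_mul_cancel, Units.val_one]) hqu _ (fun c hc => hV₂ c hc)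
        (by rw [eR]; exact hπ₂) hne _ (by rw [eR]; exact hs) (v2g64_s_coe K M' q) _ _
        (fun x hx => (hW x (bz7_isIntegral_mono (fun y hy => Or.inl hy) x hx)).1.1)
        (fun x hx => (hW x (bz7_isIntegral_mono (fun y hy => Or.inl hy) x hx)).1.2)
        (fun x hx => (hW x (bz7_isIntegral_mono (fun y hy => Or.inl hy) x hx)).2)
        (fun x hx h1 h2 h3 => hsat1 x hx ⟨⟨h1, h2⟩, h3⟩) hreg)
  · intro hr₁ hr₂ hreg
    exact mc25_tg_core (R := R) (K := K) M' q hq hM' hπ hqR _ hV₂ hπ₂ hne _ hs _ _ ha2 hb2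
      (fun x hx => hW x (bz7_isIntegral_mono (fun y hy => Or.inr hy) x hx)) hsat2 b1 b3 b2
      hr₁ hr₂
      (mc25_hD2_level2_inv (R := R) (K := K) M' q hq hM' hπ hqR h2 ((uu⁻¹ : Rˣ) : R) (uu : R)
        (by rw [← Units.val_mul, inv_mul_cancel, Units.val_one]) hqu _ (fun c hc => hV₂ c hc)
        (by rw [eR]; exact hπ₂) hne _ (by rw [eR]; exact hs) (v2g64_s_coe K M' q) _ _
        (fun x hx => (hW x (bz7_isIntegral_mono (fun y hy => Or.inr hy) x hx)).1.1)
        (fun x hx => (hW x (bz7_isIntegral_mono (fun y hy => Or.inr hy) x hx)).1.2)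
        (fun x hx => (hW x (bz7_isIntegral_mono (fun y hy => Or.inr hy) x hx)).2)
        (fun x hx h1 h2 h3 => hsat2 x hx ⟨⟨h1, h2⟩, h3⟩) hreg)

/-- **Two generators at every closed point of the two canonical charts of level `M' q²`,
Hauptmodul of level 3**: the only inputs are (REG-q) on the charts of level `M' q` (`hr₁`, `hr₂`)
and the local generator of the middle branch at the `C₂`-only points (`hD₂`). -/
theorem mc25_tg_level3 {π : R} (hπ : Irreducible π) (hqπ : Associated ((q : ℕ) : R) π)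
    (hunit : ∀ n : ℕ, Nat.Coprime n q → IsUnit (n : R)) (h3 : 3 ∣ M') :
    ((∀ m' : Ideal (pk15_chart R {pk85_h3 K (M' * q) (h3.trans (dvd_mul_right M' q))}), m'.IsMaximal →
        sf79_OnBr π (pk15_chart R {pk85_h3 K (M' * q) (h3.trans (dvd_mul_right M' q))}) (cm85_Vinf (K := K) (M' * q) hπ).toSubring m' →
        sf79_OnBr π (pk15_chart R {pk85_h3 K (M' * q) (h3.trans (dvd_mul_right M' q))}) (s34i47c_V0 (K := K) M' q hq hM' hπ).toSubring m' →
        tl71_DivAt π (pk15_chart R {pk85_h3 K (M' * q) (h3.trans (dvd_mul_right M' q))}) (cm85_Vinf (K := K) (M' * q) hπ).toSubring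
          (s34i47c_V0 (K := K) M' q hq hM' hπ).toSubring (s34i47c_V0 (K := K) M' q hq hM' hπ).toSubring m') →
      (∀ m' : Ideal (pk15_chart R {pk85_h3 K (M' * q) (h3.trans (dvd_mul_right M' q))}), m'.IsMaximal →
        sf79_OnBr π (pk15_chart R {pk85_h3 K (M' * q) (h3.trans (dvd_mul_right M' q))}) (s34i47c_V0 (K := K) M' q hq hM' hπ).toSubring m' →
        sf79_OnBr π (pk15_chart R {pk85_h3 K (M' * q) (h3.trans (dvd_mul_right M' q))}) (cm85_Vinf (K := K) (M' * q) hπ).toSubring m' →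
        tl71_DivAt π (pk15_chart R {pk85_h3 K (M' * q) (h3.trans (dvd_mul_right M' q))}) (s34i47c_V0 (K := K) M' q hq hM' hπ).toSubring
          (cm85_Vinf (K := K) (M' * q) hπ).toSubring (cm85_Vinf (K := K) (M' * q) hπ).toSubring m') →
      (∀ n : Ideal (pk15_chart R {pk85_h3 K (M' * q * q)
          (h3.trans ((dvd_mul_right M' q).trans (dvd_mul_right (M' * q) q)))}), n.IsMaximal →
        algebraMap R (pk15_chart R {pk85_h3 K (M' * q * q)
          (h3.trans ((dvd_mul_right M' q).trans (dvd_mul_right (M' * q) q)))}) π ∈ n →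
        tl71_OnMid (v2g64_s K M' q) (pk15_chart R {pk85_h3 K (M' * q * q)
          (h3.trans ((dvd_mul_right M' q).trans (dvd_mul_right (M' * q) q)))})
          (v2g64_V2 (algebraMap K Kbar) M' q hq hM' hπ hqπ).toSubring n →
        ¬ sf79_OnBr π (pk15_chart R {pk85_h3 K (M' * q * q)
          (h3.trans ((dvd_mul_right M' q).trans (dvd_mul_right (M' * q) q)))})
          (cm85_Vinf (K := K) (M' * q * q) hπ).toSubring n →
        ¬ sf79_OnBr π (pk15_chart R {pk85_h3 K (M' * q * q)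
          (h3.trans ((dvd_mul_right M' q).trans (dvd_mul_right (M' * q) q)))})
          (nsb86_V3 (K := K) M' q hq hM' hπ).toSubring n →
        (∃ s' b : ↥(pk15_chart R {pk85_h3 K (M' * q * q)
          (h3.trans ((dvd_mul_right M' q).trans (dvd_mul_right (M' * q) q)))}), s' ∉ n ∧
          (s' : ↥(modularFunctionFieldFullC K (M' * q * q))) * rm90_j K (M' * q * q) = (b : ↥(modularFunctionFieldFullC K (M' * q * q)))) →
        mc25_MidPrinAt (v2g64_s K M' q) (pk15_chart R {pk85_h3 K (M' * q * q)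
          (h3.trans ((dvd_mul_right M' q).trans (dvd_mul_right (M' * q) q)))})
          (v2g64_V2 (algebraMap K Kbar) M' q hq hM' hπ hqπ).toSubring n) →
      tl71_TwoGen π (pk15_chart R {pk85_h3 K (M' * q * q)
          (h3.trans ((dvd_mul_right M' q).trans (dvd_mul_right (M' * q) q)))})) ∧
    ((∀ m' : Ideal (pk15_chart R {(pk85_h3 K (M' * q) (h3.trans (dvd_mul_right M' q)))⁻¹}), m'.IsMaximal →
        sf79_OnBr π (pk15_chart R {(pk85_h3 K (M' * q) (h3.trans (dvd_mul_right M' q)))⁻¹}) (cm85_Vinf (K := K) (M' * q) hπ).toSubring m' →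
        sf79_OnBr π (pk15_chart R {(pk85_h3 K (M' * q) (h3.trans (dvd_mul_right M' q)))⁻¹}) (s34i47c_V0 (K := K) M' q hq hM' hπ).toSubring m' →
        tl71_DivAt π (pk15_chart R {(pk85_h3 K (M' * q) (h3.trans (dvd_mul_right M' q)))⁻¹}) (cm85_Vinf (K := K) (M' * q) hπ).toSubring
          (s34i47c_V0 (K := K) M' q hq hM' hπ).toSubring (s34i47c_V0 (K := K) M' q hq hM' hπ).toSubring m') →
      (∀ m' : Ideal (pk15_chart R {(pk85_h3 K (M' * q) (h3.trans (dvd_mul_right M' q)))⁻¹}), m'.IsMaximal →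
        sf79_OnBr π (pk15_chart R {(pk85_h3 K (M' * q) (h3.trans (dvd_mul_right M' q)))⁻¹}) (s34i47c_V0 (K := K) M' q hq hM' hπ).toSubring m' →
        sf79_OnBr π (pk15_chart R {(pk85_h3 K (M' * q) (h3.trans (dvd_mul_right M' q)))⁻¹}) (cm85_Vinf (K := K) (M' * q) hπ).toSubring m' →
        tl71_DivAt π (pk15_chart R {(pk85_h3 K (M' * q) (h3.trans (dvd_mul_right M' q)))⁻¹}) (s34i47c_V0 (K := K) M' q hq hM' hπ).toSubring
          (cm85_Vinf (K := K) (M' * q) hπ).toSubring (cm85_Vinf (K := K) (M' * q) hπ).toSubring m') →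
      (∀ n : Ideal (pk15_chart R {(pk85_h3 K (M' * q * q)
          (h3.trans ((dvd_mul_right M' q).trans (dvd_mul_right (M' * q) q))))⁻¹}), n.IsMaximal →
        algebraMap R (pk15_chart R {(pk85_h3 K (M' * q * q)
          (h3.trans ((dvd_mul_right M' q).trans (dvd_mul_right (M' * q) q))))⁻¹}) π ∈ n →
        tl71_OnMid (v2g64_s K M' q) (pk15_chart R {(pk85_h3 K (M' * q * q)
          (h3.trans ((dvd_mul_right M' q).trans (dvd_mul_right (M' * q) q))))⁻¹})
          (v2g64_V2 (algebraMap K Kbar) M' q hq hM' hπ hqπ).toSubring n →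
        ¬ sf79_OnBr π (pk15_chart R {(pk85_h3 K (M' * q * q)
          (h3.trans ((dvd_mul_right M' q).trans (dvd_mul_right (M' * q) q))))⁻¹})
          (cm85_Vinf (K := K) (M' * q * q) hπ).toSubring n →
        ¬ sf79_OnBr π (pk15_chart R {(pk85_h3 K (M' * q * q)
          (h3.trans ((dvd_mul_right M' q).trans (dvd_mul_right (M' * q) q))))⁻¹})
          (nsb86_V3 (K := K) M' q hq hM' hπ).toSubring n →
        (∃ s' b : ↥(pk15_chart R {(pk85_h3 K (M' * q * q)
          (h3.trans ((dvd_mul_right M' q).trans (dvd_mul_right (M' * q) q))))⁻¹}), s' ∉ n ∧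
          (s' : ↥(modularFunctionFieldFullC K (M' * q * q))) * rm90_j K (M' * q * q) = (b : ↥(modularFunctionFieldFullC K (M' * q * q)))) →
        mc25_MidPrinAt (v2g64_s K M' q) (pk15_chart R {(pk85_h3 K (M' * q * q)
          (h3.trans ((dvd_mul_right M' q).trans (dvd_mul_right (M' * q) q))))⁻¹})
          (v2g64_V2 (algebraMap K Kbar) M' q hq hM' hπ hqπ).toSubring n) →
      tl71_TwoGen π (pk15_chart R {(pk85_h3 K (M' * q * q)
          (h3.trans ((dvd_mul_right M' q).trans (dvd_mul_right (M' * q) q))))⁻¹})) := by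
  have hqR : ¬ IsUnit (q : R) := fun hu => hπ.not_isUnit (hqπ.isUnit hu)
  have hMu : IsUnit (M' : R) := hunit M' ((Nat.Prime.coprime_iff_not_dvd hq).mpr hM').symm
  have hq3 : q ≠ 3 := by
    rintro rfl
    exact hM' h3
  have hV₂ := v2g64_V2_alpha (algebraMap K Kbar) M' q hq hM' hπ hqπ
  have hπ₂ := v2g64_V2_pi (algebraMap K Kbar) M' q hq hM' hπ hqπ
  have hne := v2g64_V2_ne (algebraMap K Kbar) M' q hq hM' hπ hqπ
  have hs := v2g64_V2_val (algebraMap K Kbar) M' q hq hM' hπ hqπ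
  obtain ⟨-, ⟨-, hW, hsat1, hsat2, -⟩, -⟩ := fb85_frameV3_level3 (K := K) M' q hq hM' hπ hqR hMu
    h3 _ hV₂ hπ₂ hs
  obtain ⟨⟨a1, a2, a3⟩, ⟨b1, b2, b3⟩⟩ :=
    sm7_three_smooth_canon_level3 (R := R) (K := K) M' q hq hM' hπ hqπ h3 hMu
  have eh : al97L_alpha K (M' * q) q (pk85_h3 K (M' * q) (h3.trans (dvd_mul_right M' q))) =
      pk85_h3 K (M' * q * q)
        (h3.trans ((dvd_mul_right M' q).trans (dvd_mul_right (M' * q) q))) :=
    Subtype.ext (by rw [al97L_alpha_coe, pk85_h3_coe, pk85_h3_coe])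
  obtain ⟨ha1, ha2⟩ := cm71_alpha_charts (R := R) (K := K) (M' * q) q
    (pk85_h3 K (M' * q) (h3.trans (dvd_mul_right M' q)))
  obtain ⟨hb1, hb2⟩ := cm71_beta_charts (R := R) (K := K) (M' * q) q hq hunit
    (pk85_h3 K (M' * q) (h3.trans (dvd_mul_right M' q)))
    (Or.inr ⟨hq3, h3.trans (dvd_mul_right M' q), rfl⟩)
  rw [eh] at ha1 ha2 hb1 hb2
  have eR : algebraMap R ↥(modularFunctionFieldFullC K (M' * q * q)) π =
      algebraMap K ↥(modularFunctionFieldFullC K (M' * q * q)) (algebraMap R K π) :=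
    IsScalarTower.algebraMap_apply R K _ π
  obtain ⟨uu, huq⟩ := id hqπ
  have hqu : ((q : ℕ) : R) = ((uu⁻¹ : Rˣ) : R) * π := by
    rw [← huq, mul_comm ((q : ℕ) : R), ← mul_assoc, ← Units.val_mul, inv_mul_cancel,
      Units.val_one, one_mul]
  have hu3 : IsUnit (3 : R) := by
    have := hunit 3 ((Nat.coprime_primes Nat.prime_three hq).mpr (Ne.symm hq3))
    simpa using this
  constructor
  · intro hr₁ hr₂ hreg
    exact mc25_tg_core (R := R) (K := K) M' q hq hM' hπ hqR _ hV₂ hπ₂ hne _ hs _ _ ha1 hb1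
      (fun x hx => hW x (bz7_isIntegral_mono (fun y hy => Or.inl hy) x hx)) hsat1 a1 a3 a2
      hr₁ hr₂
      (mc25_hD2_level3 (R := R) (K := K) M' q hq hM' hπ hqR h3 hu3 ((uu⁻¹ : Rˣ) : R) (uu : R)
        (by rw [← Units.val_mul, inv_mul_cancel, Units.val_one]) hqu _ (fun c hc => hV₂ c hc)
        (by rw [eR]; exact hπ₂) hne _ (by rw [eR]; exact hs) (v2g64_s_coe K M' q) _ _
        (fun x hx => (hW x (bz7_isIntegral_mono (fun y hy => Or.inl hy) x hx)).1.1)
        (fun x hx => (hW x (bz7_isIntegral_mono (fun y hy => Or.inl hy) x hx)).1.2)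
        (fun x hx => (hW x (bz7_isIntegral_mono (fun y hy => Or.inl hy) x hx)).2)
        (fun x hx h1 h2 h3 => hsat1 x hx ⟨⟨h1, h2⟩, h3⟩) hreg)
  · intro hr₁ hr₂ hreg
    exact mc25_tg_core (R := R) (K := K) M' q hq hM' hπ hqR _ hV₂ hπ₂ hne _ hs _ _ ha2 hb2
      (fun x hx => hW x (bz7_isIntegral_mono (fun y hy => Or.inr hy) x hx)) hsat2 b1 b3 b2
      hr₁ hr₂
      (mc25_hD2_level3_inv (R := R) (K := K) M' q hq hM' hπ hqR h3 ((uu⁻¹ : Rˣ) : R) (uu : R)
        (by rw [← Units.val_mul, inv_mul_cancel, Units.val_one]) hqu _ (fun c hc => hV₂ c hc)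
        (by rw [eR]; exact hπ₂) hne _ (by rw [eR]; exact hs) (v2g64_s_coe K M' q) _ _
        (fun x hx => (hW x (bz7_isIntegral_mono (fun y hy => Or.inr hy) x hx)).1.1)
        (fun x hx => (hW x (bz7_isIntegral_mono (fun y hy => Or.inr hy) x hx)).1.2)
        (fun x hx => (hW x (bz7_isIntegral_mono (fun y hy => Or.inr hy) x hx)).2)
        (fun x hx h1 h2 h3 => hsat2 x hx ⟨⟨h1, h2⟩, h3⟩) hreg)

end mc25_tg

end Fermat.Agent.S36
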