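import Fermat.Agent.S36.C2HregChart66
import Fermat.Agent.S36.TwoGenMid25

/-!
# S36 lab, row C-C2 (helper66): the hypothesis `hreg` of `mc25_tg_level2/3`, PROVED

`c2tg66_hreg_level2`, `c2tg66_hreg_level3` : on the canonical frame of level `M' q²`
(`π = (q : R)`, `V₁ = cm85_Vinf (M' q q)`, `V₂ = v2g64_V2`, `σ = v2g64_s`, `V₃ = nsb86_V3`), for
both charts `{h}`, `{h⁻¹}` (`h = pk85_h2` resp. `pk85_h3`): the third hypothesis of each conjunct
of `mc25_tg_level2` / `mc25_tg_level3` (helper25), literally — the middle branch is principal at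
every closed point on the middle branch only where `j` is regular.

`c2tg66_apply` : the plumbing lemma, so that
`c2tg66_apply (mc25_tg_level2 M' q hq hM' hπq (Associated.refl _) hunit h2)
  (c2tg66_hreg_level2 M' q hq hM' hπq hunit h2 h3o)`
is `(hr₁ → hr₂ → tl71_TwoGen (q : R) B) ∧ (hr₁' → hr₂' → tl71_TwoGen (q : R) B⁻)`:
two generators at every closed point of both canonical charts from (REG-q) alone.

All names are prefixed `c2tg66_`.
-/

set_option autoImplicit false
set_option linter.unusedSectionVars false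
set_option linter.style.haveILetI false
set_option linter.style.longLine false
set_option linter.unusedVariables false

open ModularCurve AlgebraicCurve

namespace Fermat.Agent.S36

open Fermat.Agent.S18 Fermat.Agent.S24 Fermat.Agent.S28 Fermat.Agent.S34
open Fermat.Agent.S36.TripleLoc71

/-- Plumbing: discharge the third hypothesis of both conjuncts. -/
theorem c2tg66_apply {A B C D A' B' C' D' : Prop}
    (h : (A → B → C → D) ∧ (A' → B' → C' → D')) (hc : C ∧ C') :
    (A → B → D) ∧ (A' → B' → D') :=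
  ⟨fun a b => h.1 a b hc.1, fun a b => h.2 a b hc.2⟩

section c2tg66

variable {R K : Type} [CommRing R] [IsDomain R] [IsDiscreteValuationRing R] [Field K]
  [CharZero K] [Algebra R K] [IsFractionRing R K] [Algebra K Kbar] [Algebra.IsAlgebraic K Kbar]
  (M' q : ℕ) [NeZero M'] [NeZero q] (hq : q.Prime) (hM' : ¬ q ∣ M')
  [Algebra R ↥(modularFunctionFieldFullC K (M' * q))]
  [IsScalarTower R K ↥(modularFunctionFieldFullC K (M' * q))]
  [Algebra R ↥(modularFunctionFieldFullC K (M' * q * q))]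
  [IsScalarTower R K ↥(modularFunctionFieldFullC K (M' * q * q))]

include hq hM' in
/-- **`hreg` of `mc25_tg_level2`, both charts.** -/
theorem c2tg66_hreg_level2 (hπq : Irreducible ((q : ℕ) : R))
    (hunit : ∀ n : ℕ, Nat.Coprime n q → IsUnit (n : R)) (h2 : 2 ∣ M') (h3o : q ≠ 3 → 3 ∣ M') :
      (∀ n : Ideal (pk15_chart R {pk85_h2 K (M' * q * q)
          (h2.trans ((dvd_mul_right M' q).trans (dvd_mul_right (M' * q) q)))}), n.IsMaximal →
        algebraMap R (pk15_chart R {pk85_h2 K (M' * q * q)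
          (h2.trans ((dvd_mul_right M' q).trans (dvd_mul_right (M' * q) q)))}) ((q : ℕ) : R) ∈ n →
        tl71_OnMid (v2g64_s K M' q) (pk15_chart R {pk85_h2 K (M' * q * q)
          (h2.trans ((dvd_mul_right M' q).trans (dvd_mul_right (M' * q) q)))})
          (v2g64_V2 (algebraMap K Kbar) M' q hq hM' hπq (Associated.refl _)).toSubring n →
        ¬ sf79_OnBr ((q : ℕ) : R) (pk15_chart R {pk85_h2 K (M' * q * q)
          (h2.trans ((dvd_mul_right M' q).trans (dvd_mul_right (M' * q) q)))})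
          (cm85_Vinf (K := K) (M' * q * q) hπq).toSubring n →
        ¬ sf79_OnBr ((q : ℕ) : R) (pk15_chart R {pk85_h2 K (M' * q * q)
          (h2.trans ((dvd_mul_right M' q).trans (dvd_mul_right (M' * q) q)))})
          (nsb86_V3 (K := K) M' q hq hM' hπq).toSubring n →
        (∃ s' b : ↥(pk15_chart R {pk85_h2 K (M' * q * q)
          (h2.trans ((dvd_mul_right M' q).trans (dvd_mul_right (M' * q) q)))}), s' ∉ n ∧
          (s' : ↥(modularFunctionFieldFullC K (M' * q * q))) * rm90_j K (M' * q * q) = (b : ↥(modularFunctionFieldFullC K (M' * q * q)))) →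
        mc25_MidPrinAt (v2g64_s K M' q) (pk15_chart R {pk85_h2 K (M' * q * q)
          (h2.trans ((dvd_mul_right M' q).trans (dvd_mul_right (M' * q) q)))})
          (v2g64_V2 (algebraMap K Kbar) M' q hq hM' hπq (Associated.refl _)).toSubring n) ∧
      (∀ n : Ideal (pk15_chart R {(pk85_h2 K (M' * q * q)
          (h2.trans ((dvd_mul_right M' q).trans (dvd_mul_right (M' * q) q))))⁻¹}), n.IsMaximal →
        algebraMap R (pk15_chart R {(pk85_h2 K (M' * q * q)
          (h2.trans ((dvd_mul_right M' q).trans (dvd_mul_right (M' * q) q))))⁻¹}) ((q : ℕ) : R) ∈ n →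
        tl71_OnMid (v2g64_s K M' q) (pk15_chart R {(pk85_h2 K (M' * q * q)
          (h2.trans ((dvd_mul_right M' q).trans (dvd_mul_right (M' * q) q))))⁻¹})
          (v2g64_V2 (algebraMap K Kbar) M' q hq hM' hπq (Associated.refl _)).toSubring n →
        ¬ sf79_OnBr ((q : ℕ) : R) (pk15_chart R {(pk85_h2 K (M' * q * q)
          (h2.trans ((dvd_mul_right M' q).trans (dvd_mul_right (M' * q) q))))⁻¹})
          (cm85_Vinf (K := K) (M' * q * q) hπq).toSubring n →
        ¬ sf79_OnBr ((q : ℕ) : R) (pk15_chart R {(pk85_h2 K (M' * q * q)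
          (h2.trans ((dvd_mul_right M' q).trans (dvd_mul_right (M' * q) q))))⁻¹})
          (nsb86_V3 (K := K) M' q hq hM' hπq).toSubring n →
        (∃ s' b : ↥(pk15_chart R {(pk85_h2 K (M' * q * q)
          (h2.trans ((dvd_mul_right M' q).trans (dvd_mul_right (M' * q) q))))⁻¹}), s' ∉ n ∧
          (s' : ↥(modularFunctionFieldFullC K (M' * q * q))) * rm90_j K (M' * q * q) = (b : ↥(modularFunctionFieldFullC K (M' * q * q)))) →
        mc25_MidPrinAt (v2g64_s K M' q) (pk15_chart R {(pk85_h2 K (M' * q * q)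
          (h2.trans ((dvd_mul_right M' q).trans (dvd_mul_right (M' * q) q))))⁻¹})
          (v2g64_V2 (algebraMap K Kbar) M' q hq hM' hπq (Associated.refl _)).toSubring n) := by
  have hqR : ¬ IsUnit ((q : ℕ) : R) := hπq.not_isUnit
  have hMu : IsUnit (M' : R) := hunit M' ((Nat.Prime.coprime_iff_not_dvd hq).mpr hM').symm
  have hV₂ := v2g64_V2_alpha (algebraMap K Kbar) M' q hq hM' hπq (Associated.refl _)
  have hπ₂ := v2g64_V2_pi (algebraMap K Kbar) M' q hq hM' hπq (Associated.refl _)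
  have hne := v2g64_V2_ne (algebraMap K Kbar) M' q hq hM' hπq (Associated.refl _)
  have hs := v2g64_V2_val (algebraMap K Kbar) M' q hq hM' hπq (Associated.refl _)
  obtain ⟨-, ⟨-, hW, hsat1, hsat2, -⟩, -⟩ := fb85_frameV3_level2 (K := K) M' q hq hM' hπq hqR hMu
    h2 _ hV₂ hπ₂ hs
  constructor
  · intro n hn hπn hmid h1 h3' hreg
    exact c2rc66_hreg_level2 (R := R) (K := K) M' q hq hM' hπq hunit h2 h3o _
      (fun c hc => hV₂ c hc) hπ₂ hne _ hs (nsb86_V3 (K := K) M' q hq hM' hπq)
      (fun x hx => (hW x (bz7_isIntegral_mono (fun y hy => Or.inl hy) x hx)).1.1)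
      (fun x hx => (hW x (bz7_isIntegral_mono (fun y hy => Or.inl hy) x hx)).1.2)
      (fun x hx => (hW x (bz7_isIntegral_mono (fun y hy => Or.inl hy) x hx)).2)
      (fun x hx h1 h2 h3 => hsat1 x hx ⟨⟨h1, h2⟩, h3⟩) n hn hπn hmid h1 h3' hreg
  · intro n hn hπn hmid h1 h3' hreg
    exact c2rc66_hreg_level2_inv (R := R) (K := K) M' q hq hM' hπq hunit h2 h3o _
      (fun c hc => hV₂ c hc) hπ₂ hne _ hs (nsb86_V3 (K := K) M' q hq hM' hπq)
      (fun x hx => (hW x (bz7_isIntegral_mono (fun y hy => Or.inr hy) x hx)).1.1)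
      (fun x hx => (hW x (bz7_isIntegral_mono (fun y hy => Or.inr hy) x hx)).1.2)
      (fun x hx => (hW x (bz7_isIntegral_mono (fun y hy => Or.inr hy) x hx)).2)
      (fun x hx h1 h2 h3 => hsat2 x hx ⟨⟨h1, h2⟩, h3⟩) n hn hπn hmid h1 h3' hreg

include hq hM' in
/-- **`hreg` of `mc25_tg_level3`, both charts.** -/
theorem c2tg66_hreg_level3 (hπq : Irreducible ((q : ℕ) : R))
    (hunit : ∀ n : ℕ, Nat.Coprime n q → IsUnit (n : R)) (h3 : 3 ∣ M') (h2o : q ≠ 2 → 2 ∣ M') :
      (∀ n : Ideal (pk15_chart R {pk85_h3 K (M' * q * q)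
          (h3.trans ((dvd_mul_right M' q).trans (dvd_mul_right (M' * q) q)))}), n.IsMaximal →
        algebraMap R (pk15_chart R {pk85_h3 K (M' * q * q)
          (h3.trans ((dvd_mul_right M' q).trans (dvd_mul_right (M' * q) q)))}) ((q : ℕ) : R) ∈ n →
        tl71_OnMid (v2g64_s K M' q) (pk15_chart R {pk85_h3 K (M' * q * q)
          (h3.trans ((dvd_mul_right M' q).trans (dvd_mul_right (M' * q) q)))})
          (v2g64_V2 (algebraMap K Kbar) M' q hq hM' hπq (Associated.refl _)).toSubring n →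
        ¬ sf79_OnBr ((q : ℕ) : R) (pk15_chart R {pk85_h3 K (M' * q * q)
          (h3.trans ((dvd_mul_right M' q).trans (dvd_mul_right (M' * q) q)))})
          (cm85_Vinf (K := K) (M' * q * q) hπq).toSubring n →
        ¬ sf79_OnBr ((q : ℕ) : R) (pk15_chart R {pk85_h3 K (M' * q * q)
          (h3.trans ((dvd_mul_right M' q).trans (dvd_mul_right (M' * q) q)))})
          (nsb86_V3 (K := K) M' q hq hM' hπq).toSubring n →
        (∃ s' b : ↥(pk15_chart R {pk85_h3 K (M' * q * q)
          (h3.trans ((dvd_mul_right M' q).trans (dvd_mul_right (M' * q) q)))}), s' ∉ n ∧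
          (s' : ↥(modularFunctionFieldFullC K (M' * q * q))) * rm90_j K (M' * q * q) = (b : ↥(modularFunctionFieldFullC K (M' * q * q)))) →
        mc25_MidPrinAt (v2g64_s K M' q) (pk15_chart R {pk85_h3 K (M' * q * q)
          (h3.trans ((dvd_mul_right M' q).trans (dvd_mul_right (M' * q) q)))})
          (v2g64_V2 (algebraMap K Kbar) M' q hq hM' hπq (Associated.refl _)).toSubring n) ∧
      (∀ n : Ideal (pk15_chart R {(pk85_h3 K (M' * q * q)
          (h3.trans ((dvd_mul_right M' q).trans (dvd_mul_right (M' * q) q))))⁻¹}), n.IsMaximal →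
        algebraMap R (pk15_chart R {(pk85_h3 K (M' * q * q)
          (h3.trans ((dvd_mul_right M' q).trans (dvd_mul_right (M' * q) q))))⁻¹}) ((q : ℕ) : R) ∈ n →
        tl71_OnMid (v2g64_s K M' q) (pk15_chart R {(pk85_h3 K (M' * q * q)
          (h3.trans ((dvd_mul_right M' q).trans (dvd_mul_right (M' * q) q))))⁻¹})
          (v2g64_V2 (algebraMap K Kbar) M' q hq hM' hπq (Associated.refl _)).toSubring n →
        ¬ sf79_OnBr ((q : ℕ) : R) (pk15_chart R {(pk85_h3 K (M' * q * q)
          (h3.trans ((dvd_mul_right M' q).trans (dvd_mul_right (M' * q) q))))⁻¹})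
          (cm85_Vinf (K := K) (M' * q * q) hπq).toSubring n →
        ¬ sf79_OnBr ((q : ℕ) : R) (pk15_chart R {(pk85_h3 K (M' * q * q)
          (h3.trans ((dvd_mul_right M' q).trans (dvd_mul_right (M' * q) q))))⁻¹})
          (nsb86_V3 (K := K) M' q hq hM' hπq).toSubring n →
        (∃ s' b : ↥(pk15_chart R {(pk85_h3 K (M' * q * q)
          (h3.trans ((dvd_mul_right M' q).trans (dvd_mul_right (M' * q) q))))⁻¹}), s' ∉ n ∧
          (s' : ↥(modularFunctionFieldFullC K (M' * q * q))) * rm90_j K (M' * q * q) = (b : ↥(modularFunctionFieldFullC K (M' * q * q)))) →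
        mc25_MidPrinAt (v2g64_s K M' q) (pk15_chart R {(pk85_h3 K (M' * q * q)
          (h3.trans ((dvd_mul_right M' q).trans (dvd_mul_right (M' * q) q))))⁻¹})
          (v2g64_V2 (algebraMap K Kbar) M' q hq hM' hπq (Associated.refl _)).toSubring n) := by
  have hqR : ¬ IsUnit ((q : ℕ) : R) := hπq.not_isUnit
  have hMu : IsUnit (M' : R) := hunit M' ((Nat.Prime.coprime_iff_not_dvd hq).mpr hM').symm
  have hV₂ := v2g64_V2_alpha (algebraMap K Kbar) M' q hq hM' hπq (Associated.refl _)
  have hπ₂ := v2g64_V2_pi (algebraMap K Kbar) M' q hq hM' hπq (Associated.refl _)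
  have hne := v2g64_V2_ne (algebraMap K Kbar) M' q hq hM' hπq (Associated.refl _)
  have hs := v2g64_V2_val (algebraMap K Kbar) M' q hq hM' hπq (Associated.refl _)
  obtain ⟨-, ⟨-, hW, hsat1, hsat2, -⟩, -⟩ := fb85_frameV3_level3 (K := K) M' q hq hM' hπq hqR hMu
    h3 _ hV₂ hπ₂ hs
  constructor
  · intro n hn hπn hmid h1 h3' hreg
    exact c2rc66_hreg_level3 (R := R) (K := K) M' q hq hM' hπq hunit h3 h2o _
      (fun c hc => hV₂ c hc) hπ₂ hne _ hs (nsb86_V3 (K := K) M' q hq hM' hπq)
      (fun x hx => (hW x (bz7_isIntegral_mono (fun y hy => Or.inl hy) x hx)).1.1)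
      (fun x hx => (hW x (bz7_isIntegral_mono (fun y hy => Or.inl hy) x hx)).1.2)
      (fun x hx => (hW x (bz7_isIntegral_mono (fun y hy => Or.inl hy) x hx)).2)
      (fun x hx h1 h2 h3 => hsat1 x hx ⟨⟨h1, h2⟩, h3⟩) n hn hπn hmid h1 h3' hreg
  · intro n hn hπn hmid h1 h3' hreg
    exact c2rc66_hreg_level3_inv (R := R) (K := K) M' q hq hM' hπq hunit h3 h2o _
      (fun c hc => hV₂ c hc) hπ₂ hne _ hs (nsb86_V3 (K := K) M' q hq hM' hπq)
      (fun x hx => (hW x (bz7_isIntegral_mono (fun y hy => Or.inr hy) x hx)).1.1)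
      (fun x hx => (hW x (bz7_isIntegral_mono (fun y hy => Or.inr hy) x hx)).1.2)
      (fun x hx => (hW x (bz7_isIntegral_mono (fun y hy => Or.inr hy) x hx)).2)
      (fun x hx h1 h2 h3 => hsat2 x hx ⟨⟨h1, h2⟩, h3⟩) n hn hπn hmid h1 h3' hreg

end c2tg66

end Fermat.Agent.S36
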