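import Mathlib

/-!
# S36 lab (helper74): the middle component at ALL its one-branch points, uniformly

Row 600 (C-C2), the flagged gap "ordinary points of `C₂` over `j = 0, 1728`".  Mathlib only.

`A` is (a chart of) the level-`M''` model, `B` a chart of the level-`q² M''` model,
`φ₁ φ₃ : A →+* B` the two extreme degeneracy maps (`f(τ) ↦ f(τ)`, `f(τ) ↦ f(q² τ)`), `n` a prime
of `B` on the middle component only, `z` the smooth coordinate of `A` at the image `x` of `n`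
(`𝔪_x = (z, π)`).  Write `d f = φ₃ f - φ₁ f` (it lies in `𝔭₂ ⊆ n`).

* `c2u74_diag` (diagonal Nakayama): `d f ∈ (d z) B_n` for every `f`, elementwise:
  `∃ t ∉ n, ∃ b, t * d f = b * d z`.
* `c2u74_mid_dvd` : the chart lemma `c2b24_mid_dvd` (helper24) with the hypothesis on the unit `w`
  replaced by a congruence `ϑ ^ k * g ≡ r mod σ V₂`, `r ∉ n` (`ϑ = s^(q-1)/q`).
* `c2u74_leibniz` : if `t₁ * j = w * c ^ k` in `A` with `t₁, w` units at `x`, then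
  `τ * d j = (φ₁ c ^ (k-1) * E + d z * y) * d z` with `τ ∉ n`.
* `c2u74_cancel` : from the sixth-power identity `ϑ_J ^ 6 * U * L ≡ L ^ q mod σ V₂` and
  `L * τL = ω * κ ^ 6` the pair `(g, r)` for `c2u74_mid_dvd`.

All names are prefixed `c2u74_`.
-/

set_option autoImplicit false

namespace Fermat.Agent.S36

open IsLocalRing

section diag

variable {A B : Type*} [CommRing A] [CommRing B]

/-- `Σ_{i<k} x^i y^(k-1-i) = k y^(k-1) + (x - y) * S'`. -/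
theorem c2u74_geom (x y : B) (k : ℕ) :
    ∃ S' : B, (∑ i ∈ Finset.range k, x ^ i * y ^ (k - 1 - i)) = k * y ^ (k - 1) + (x - y) * S' := by
  have h : ∀ i ∈ Finset.range k, ∃ c : B, x ^ i * y ^ (k - 1 - i) = y ^ (k - 1) + (x - y) * c := by
    intro i hi
    obtain ⟨c, hc⟩ := sub_dvd_pow_sub_pow x y i
    refine ⟨c * y ^ (k - 1 - i), ?_⟩
    have hik : i + (k - 1 - i) = k - 1 := by
      have := Finset.mem_range.mp hi
      omega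
    have hy : y ^ (k - 1) = y ^ i * y ^ (k - 1 - i) := by rw [← pow_add, hik]
    rw [hy]
    linear_combination (y ^ (k - 1 - i)) * hc
  choose! c hc using h
  refine ⟨∑ i ∈ Finset.range k, c i, ?_⟩
  rw [Finset.mul_sum, Finset.sum_congr rfl hc, Finset.sum_add_distrib, Finset.sum_const,
    Finset.card_range, nsmul_eq_mul]

/-- **Diagonal Nakayama.**  `φ₁, φ₃ : A →+* B` agree modulo the prime `n` of the noetherian ring
`B`; the prime `x = φ₁⁻¹ n` of `A` is generated by `z, π` locally, `φ₃ π = φ₁ π`, `q ∈ n`, and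
every residue class of `A / x` is a `q`-th power.  Then `φ₃ f - φ₁ f ∈ (φ₃ z - φ₁ z) B_n` for
every `f`. -/
theorem c2u74_diag [IsNoetherianRing B] (φ₁ φ₃ : A →+* B) (n : Ideal B) [hn : n.IsPrime]
    (q : ℕ) (z π : A)
    (hd : ∀ f : A, φ₃ f - φ₁ f ∈ n) (hπ : φ₃ π = φ₁ π) (hqn : (q : B) ∈ n)
    (hz : φ₁ z ∈ n) (hπn : φ₁ π ∈ n)
    (hgen : ∀ v : A, φ₁ v ∈ n → ∃ s a b : A, φ₁ s ∉ n ∧ s * v = a * z + b * π)
    (hperf : ∀ f : A, ∃ a : A, φ₁ (f - a ^ q) ∈ n) (f : A) :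
    ∃ t : B, t ∉ n ∧ ∃ b : B, t * (φ₃ f - φ₁ f) = b * (φ₃ z - φ₁ z) := by
  classical
  let Bn := Localization.AtPrime n
  let ι : B →+* Bn := algebraMap B Bn
  have hBn : IsNoetherianRing Bn := IsLocalization.isNoetherianRing n.primeCompl Bn inferInstance
  let I : Ideal Bn := Ideal.span (Set.range fun g : A => ι (φ₃ g - φ₁ g))
  let J : Ideal Bn := Ideal.span {ι (φ₃ z - φ₁ z)}
  have hIgen : ∀ g : A, ι (φ₃ g - φ₁ g) ∈ I := fun g => Ideal.subset_span ⟨g, rfl⟩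
  have hm : ∀ b : B, b ∈ n → ι b ∈ maximalIdeal Bn := by
    intro b hb
    rw [← Localization.AtPrime.map_eq_maximalIdeal]
    exact Ideal.mem_map_of_mem _ hb
  have hmI : ∀ (b : B) (g : A), b ∈ n → ι b * ι (φ₃ g - φ₁ g) ∈ J ⊔ maximalIdeal Bn • I := by
    intro b g hb
    refine Ideal.mem_sup_right ?_
    rw [smul_eq_mul]
    exact Ideal.mul_mem_mul (hm b hb) (hIgen g)
  have hle : I ≤ J ⊔ maximalIdeal Bn • I := by
    rw [Ideal.span_le]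
    rintro _ ⟨g, rfl⟩
    obtain ⟨a, ha⟩ := hperf g
    obtain ⟨s, a', b', hs, hsv⟩ := hgen (g - a ^ q) ha
    -- the `q`-th power part
    obtain ⟨S', hS'⟩ := c2u74_geom (φ₃ a) (φ₁ a) q
    have hpow : φ₃ (a ^ q) - φ₁ (a ^ q) =
        (∑ i ∈ Finset.range q, φ₃ a ^ i * φ₁ a ^ (q - 1 - i)) * (φ₃ a - φ₁ a) := by
      rw [map_pow, map_pow]
      exact (geom_sum₂_mul (φ₃ a) (φ₁ a) q).symm
    have hSn : (∑ i ∈ Finset.range q, φ₃ a ^ i * φ₁ a ^ (q - 1 - i)) ∈ n := by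
      rw [hS']
      exact n.add_mem (n.mul_mem_right _ hqn) (n.mul_mem_right _ (hd a))
    have h1 : ι (φ₃ (a ^ q) - φ₁ (a ^ q)) ∈ J ⊔ maximalIdeal Bn • I := by
      rw [hpow, map_mul]
      exact hmI _ a hSn
    -- the part in `x`
    set v : A := g - a ^ q with hv
    have hs3 : φ₃ s ∉ n := by
      intro h
      apply hs
      have := n.sub_mem h (hd s)
      simpa using this
    have hunit : IsUnit (ι (φ₃ s)) :=
      IsLocalization.map_units Bn (⟨φ₃ s, hs3⟩ : n.primeCompl)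
    have hkey : φ₃ s * (φ₃ v - φ₁ v) =
        φ₃ a' * (φ₃ z - φ₁ z) + φ₁ z * (φ₃ a' - φ₁ a') + φ₁ π * (φ₃ b' - φ₁ b')
          - φ₁ v * (φ₃ s - φ₁ s) := by
      have e3 := congrArg φ₃ hsv
      have e1 := congrArg φ₁ hsv
      simp only [map_mul, map_add] at e3 e1
      rw [hπ] at e3
      linear_combination e3 - e1
    have h2' : ι (φ₃ s) * ι (φ₃ v - φ₁ v) ∈ J ⊔ maximalIdeal Bn • I := by
      rw [← map_mul, hkey, map_sub, map_add, map_add, map_mul, map_mul, map_mul, map_mul]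
      refine Ideal.sub_mem _ (Ideal.add_mem _ (Ideal.add_mem _ ?_ ?_) ?_) ?_
      · exact Ideal.mem_sup_left (Ideal.mul_mem_left _ _ (Ideal.subset_span rfl))
      · exact hmI _ a' hz
      · exact hmI _ b' hπn
      · exact hmI _ s ha
    have h2 : ι (φ₃ v - φ₁ v) ∈ J ⊔ maximalIdeal Bn • I := by
      obtain ⟨w, hw⟩ := hunit.exists_left_inv
      have : ι (φ₃ v - φ₁ v) = w * (ι (φ₃ s) * ι (φ₃ v - φ₁ v)) := by
        rw [← mul_assoc, hw, one_mul]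
      rw [this]
      exact Ideal.mul_mem_left _ _ h2'
    have hsplit : φ₃ g - φ₁ g = (φ₃ (a ^ q) - φ₁ (a ^ q)) + (φ₃ v - φ₁ v) := by
      rw [hv, map_sub, map_sub]
      ring
    show ι (φ₃ g - φ₁ g) ∈ J ⊔ maximalIdeal Bn • I
    rw [hsplit, map_add]
    exact Ideal.add_mem _ h1 h2
  have hIJ : I ≤ J := by
    refine Submodule.le_of_le_smul_of_le_jacobson_bot (IsNoetherian.noetherian I) ?_ hle
    exact IsLocalRing.maximalIdeal_le_jacobson ⊥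
  have hf : ι (φ₃ f - φ₁ f) ∈ J := hIJ (hIgen f)
  obtain ⟨c, hc⟩ := Ideal.mem_span_singleton'.mp hf
  obtain ⟨b, t, hbt⟩ := IsLocalization.exists_mk'_eq n.primeCompl c
  have h3 : ι (t * (φ₃ f - φ₁ f)) = ι (b * (φ₃ z - φ₁ z)) := by
    rw [map_mul, map_mul, ← hc, ← hbt]
    have := IsLocalization.mk'_spec Bn b t
    linear_combination (ι (φ₃ z - φ₁ z)) * this
  obtain ⟨u, hu⟩ := (IsLocalization.eq_iff_exists n.primeCompl Bn).mp h3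
  refine ⟨u * t, fun h => (hn.mem_or_mem h).elim u.2 t.2, u * b, ?_⟩
  linear_combination hu

end diag

section leibniz

variable {A B : Type*} [CommRing A] [CommRing B]

/-- **Leibniz modulo the diagonal.**  If every difference `φ₃ f - φ₁ f` is a multiple of
`s = φ₃ z - φ₁ z` at `n` and `t₁ * j = w * c ^ k` in `A` with `φ₁ t₁ ∉ n`, then
`τ * (φ₃ j - φ₁ j) = (φ₁ c ^ (k-1) * E + s * y) * s` with `τ ∉ n`. -/
theorem c2u74_leibniz (φ₁ φ₃ : A →+* B) (n : Ideal B) [hn : n.IsPrime] (z : A)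
    (hd : ∀ f : A, φ₃ f - φ₁ f ∈ n)
    (hD : ∀ f : A, ∃ t : B, t ∉ n ∧ ∃ b : B, t * (φ₃ f - φ₁ f) = b * (φ₃ z - φ₁ z))
    (j t₁ w c : A) (k : ℕ) (hk : 0 < k) (hrel : t₁ * j = w * c ^ k) (ht₁ : φ₁ t₁ ∉ n) :
    ∃ τ E y : B, τ ∉ n ∧
      τ * (φ₃ j - φ₁ j) = (φ₁ c ^ (k - 1) * E + (φ₃ z - φ₁ z) * y) * (φ₃ z - φ₁ z) := by
  obtain ⟨tw, htw, bw, hw⟩ := hD w
  obtain ⟨tc, htc, bc, hc⟩ := hD c
  obtain ⟨tt, htt, bt, ht⟩ := hD t₁
  have ht₃ : φ₃ t₁ ∉ n := by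
    intro h
    apply ht₁
    have := n.sub_mem h (hd t₁)
    simpa using this
  have e3 : φ₃ t₁ * φ₃ j = φ₃ w * φ₃ c ^ k := by
    have := congrArg φ₃ hrel
    simpa only [map_mul, map_pow] using this
  have e1 : φ₁ t₁ * φ₁ j = φ₁ w * φ₁ c ^ k := by
    have := congrArg φ₁ hrel
    simpa only [map_mul, map_pow] using this
  have hS : (∑ i ∈ Finset.range k, φ₃ c ^ i * φ₁ c ^ (k - 1 - i)) * (φ₃ c - φ₁ c) =
      φ₃ c ^ k - φ₁ c ^ k := geom_sum₂_mul (φ₃ c) (φ₁ c) k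
  obtain ⟨S', hS'⟩ := c2u74_geom (φ₃ c) (φ₁ c) k
  set S : B := ∑ i ∈ Finset.range k, φ₃ c ^ i * φ₁ c ^ (k - 1 - i) with hSdef
  have hck : φ₁ c ^ k = φ₁ c ^ (k - 1) * φ₁ c := by
    rw [← pow_succ]
    congr 1
    omega
  have h1 : φ₁ t₁ * φ₃ t₁ * (φ₃ j - φ₁ j) =
      φ₁ t₁ * ((φ₃ w - φ₁ w) * φ₃ c ^ k + φ₁ w * (φ₃ c ^ k - φ₁ c ^ k))
        - (φ₃ t₁ - φ₁ t₁) * φ₁ w * φ₁ c ^ k := by
    linear_combination φ₁ t₁ * e3 - φ₃ t₁ * e1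
  refine ⟨tc * (tw * tc * tt) * φ₁ t₁ * φ₃ t₁,
    tc * (φ₁ t₁ * tc * tt * bw * φ₁ c + φ₁ t₁ * φ₁ w * tw * tt * bc * k - tw * tc * bt * φ₁ w * φ₁ c),
    bc * (φ₁ t₁ * tc * tt * bw * S + φ₁ t₁ * φ₁ w * tw * tt * bc * S'), ?_, ?_⟩
  · intro h
    rcases hn.mem_or_mem h with h | h
    · rcases hn.mem_or_mem h with h | h
      · rcases hn.mem_or_mem h with h | h
        · exact htc h
        · rcases hn.mem_or_mem h with h | h
          · rcases hn.mem_or_mem h with h | h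
            · exact htw h
            · exact htc h
          · exact htt h
      · exact ht₁ h
    · exact ht₃ h
  · linear_combination (tc * (tw * tc * tt)) * h1
      + (tc * tc * tt * φ₁ t₁ * φ₃ c ^ k) * hw
      + (-(tc * tc * tt * φ₁ t₁ * bw * (φ₃ z - φ₁ z)) - tc * tc * tw * tt * φ₁ t₁ * φ₁ w) * hS
      + (tc * tt * φ₁ t₁ * bw * (φ₃ z - φ₁ z) * S + tc * tw * tt * φ₁ t₁ * φ₁ w * S
          + tw * tt * φ₁ t₁ * φ₁ w * bc * (φ₃ z - φ₁ z) * S') * hc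
      + (tc * tw * tt * φ₁ t₁ * φ₁ w * bc * (φ₃ z - φ₁ z)) * hS'
      + (-(tc * tc * tw * φ₁ w * φ₁ c ^ k)) * ht
      + (tc * tc * tt * φ₁ t₁ * bw * (φ₃ z - φ₁ z)
          - tc * tc * tw * φ₁ w * bt * (φ₃ z - φ₁ z)) * hck

end leibniz

section cancel

variable {F : Type*} [Field F]

/-- `x ^ N - y ^ N ∈ (x - y) V` for `x, y ∈ V`. -/
theorem c2u74_pow_sub (V : Subring F) (x y : F) (hx : x ∈ V) (hy : y ∈ V) (N : ℕ) :
    ∃ c ∈ V, x ^ N - y ^ N = (x - y) * c :=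
  ⟨∑ i ∈ Finset.range N, x ^ i * y ^ (N - 1 - i),
    V.sum_mem fun i _ => V.mul_mem (V.pow_mem hx _) (V.pow_mem hy _),
    by rw [mul_comm]; exact (geom_sum₂_mul x y N).symm⟩

/-- **Cancellation.**  From `ϑ_J ^ 6 * U * L ≡ L ^ q` modulo `σ V₂`, `τ s_J = (κ E + s y) s`,
`L τ_L = ω κ ^ 6` and `L, κ` units of `V₂`:  `ϑ ^ 6 * (E ^ (6 (q-1)) U τ_L ^ (q-1)) ≡
ω ^ (q-1) τ ^ (6 (q-1))` modulo `σ V₂`. -/
theorem c2u74_cancel (V₂ : Subring F) (q : ℕ) (hq : 0 < q) (hq0 : (q : F) ≠ 0)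
    (s sJ ϑ ϑJ σ τ κ E y U L τL ω : F)
    (hϑq : (q : F) * ϑ = s ^ (q - 1)) (hϑJq : (q : F) * ϑJ = sJ ^ (q - 1))
    (hτ : τ * sJ = (κ * E + s * y) * s)
    (hid : (ϑJ ^ 6 * U * L - L ^ q) * σ⁻¹ ∈ V₂)
    (hL : L * τL = ω * κ ^ 6)
    (hsσ : s * σ⁻¹ ∈ V₂)
    (hτV : τ ∈ V₂) (hκV : κ ∈ V₂) (hEV : E ∈ V₂) (hyV : y ∈ V₂) (hUV : U ∈ V₂) (hLV : L ∈ V₂)
    (hτLV : τL ∈ V₂) (hϑV : ϑ ∈ V₂) (hsV : s ∈ V₂)
    (hLinv : L⁻¹ ∈ V₂) (hκinv : κ⁻¹ ∈ V₂) (hL0 : L ≠ 0) (hκ0 : κ ≠ 0) :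
    (ϑ ^ 6 * (E ^ (6 * (q - 1)) * U * τL ^ (q - 1)) - ω ^ (q - 1) * τ ^ (6 * (q - 1))) * σ⁻¹
      ∈ V₂ := by
  set m := q - 1 with hm
  set N := 6 * m with hN
  set P := κ * E + s * y with hP
  have hPV : P ∈ V₂ := V₂.add_mem (V₂.mul_mem hκV hEV) (V₂.mul_mem hsV hyV)
  -- ϑJ τ^m = ϑ P^m
  have h0 : ϑJ * τ ^ m = ϑ * P ^ m := by
    apply mul_left_cancel₀ hq0
    calc (q : F) * (ϑJ * τ ^ m) = ((q : F) * ϑJ) * τ ^ m := by ring
      _ = (τ * sJ) ^ m := by rw [hϑJq, mul_pow]; ring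
      _ = (P * s) ^ m := by rw [hτ]
      _ = (q : F) * (ϑ * P ^ m) := by rw [mul_pow, ← hϑq]; ring
  -- step 1
  have hX1 : (ϑ ^ 6 * P ^ N * U * L - L ^ q * τ ^ N) * σ⁻¹ ∈ V₂ := by
    have e : (ϑ ^ 6 * P ^ N * U * L - L ^ q * τ ^ N) * σ⁻¹ =
        τ ^ N * ((ϑJ ^ 6 * U * L - L ^ q) * σ⁻¹) := by
      have h6 : (ϑJ * τ ^ m) ^ 6 = (ϑ * P ^ m) ^ 6 := by rw [h0]
      have h6' : ϑJ ^ 6 * τ ^ N = ϑ ^ 6 * P ^ N := by
        rw [hN, mul_comm 6 m, pow_mul, pow_mul, ← mul_pow, ← mul_pow]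
        exact h6
      linear_combination (-(U * L * σ⁻¹)) * h6'
    rw [e]
    exact V₂.mul_mem (V₂.pow_mem hτV _) hid
  -- step 2: replace P by κ E
  obtain ⟨c, hcV, hc⟩ := c2u74_pow_sub V₂ P (κ * E) hPV (V₂.mul_mem hκV hEV) N
  have hX2 : (ϑ ^ 6 * (κ * E) ^ N * U * L - L ^ q * τ ^ N) * σ⁻¹ ∈ V₂ := by
    have e : (ϑ ^ 6 * (κ * E) ^ N * U * L - L ^ q * τ ^ N) * σ⁻¹ =
        (ϑ ^ 6 * P ^ N * U * L - L ^ q * τ ^ N) * σ⁻¹
          - ϑ ^ 6 * U * L * (y * c) * (s * σ⁻¹) := by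
      have hPk : P - κ * E = s * y := by rw [hP]; ring
      rw [hPk] at hc
      linear_combination (-(ϑ ^ 6 * U * L * σ⁻¹)) * hc
    rw [e]
    refine V₂.sub_mem hX1 (V₂.mul_mem (V₂.mul_mem ?_ (V₂.mul_mem hyV hcV)) hsσ)
    exact V₂.mul_mem (V₂.mul_mem (V₂.pow_mem hϑV _) hUV) hLV
  -- step 3: cancel
  have h1 : κ ^ N * (κ⁻¹) ^ N = 1 := by rw [← mul_pow, mul_inv_cancel₀ hκ0, one_pow]
  have h2 : L * L⁻¹ = 1 := mul_inv_cancel₀ hL0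
  have hLq : L ^ q = L ^ m * L := by
    rw [← pow_succ]
    congr 1
    omega
  have h3 : L ^ m * τL ^ m = ω ^ m * κ ^ N := by
    rw [← mul_pow, hL, mul_pow, ← pow_mul, hN]
  have key : (ϑ ^ 6 * (E ^ N * U * τL ^ m) - ω ^ m * τ ^ N) * σ⁻¹ =
      (L⁻¹ * τL ^ m * (κ⁻¹) ^ N) * ((ϑ ^ 6 * (κ * E) ^ N * U * L - L ^ q * τ ^ N) * σ⁻¹) := by
    rw [mul_pow]
    linear_combination (-(σ⁻¹ * (ϑ ^ 6 * E ^ N * U * τL ^ m * L * L⁻¹ - ω ^ m * τ ^ N))) * h1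
      + (-(σ⁻¹ * (ϑ ^ 6 * E ^ N * U * τL ^ m - L ^ m * τL ^ m * τ ^ N * (κ⁻¹) ^ N))) * h2
      + (σ⁻¹ * (L⁻¹ * τL ^ m * τ ^ N * (κ⁻¹) ^ N)) * hLq
      + (σ⁻¹ * (τ ^ N * (κ⁻¹) ^ N)) * h3
  rw [key]
  exact V₂.mul_mem (V₂.mul_mem (V₂.mul_mem hLinv (V₂.pow_mem hτLV _)) (V₂.pow_mem hκinv _)) hX2

end cancel

section chart

variable {R F : Type*} [CommRing R] [Field F] [Algebra R F]

/-- **Chart form** (`c2b24_mid_dvd` of helper24 with the unit `w` replaced by a congruence).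
`B ⊆ V₁ ⊓ V₂ ⊓ V₃` saturated; `n` a prime of `B` with `C₂` through `n` (`hp2n`, `σ` a uniformiser
of `V₂`) and `C₁`, `C₃` not through `n` (`a ∉ n`, `π⁻¹ a ∈ V₁ ⊓ V₃`); `ϑ = s^(q-1)/q ∈ V₂` and
`ϑ ^ k * g ≡ r` modulo `σ V₂` with `g, r ∈ B`, `r ∉ n`.  Then `s^(q-1)` divides `π` at `n`. -/
theorem c2u74_mid_dvd (π u u' : R) (huu' : u * u' = 1) (q : ℕ) (hqπ : (q : R) = u * π)
    (B : Subalgebra R F) (V₁ V₂ V₃ : Subring F)
    (hB₁ : ∀ x ∈ B, x ∈ V₁) (hB₂ : ∀ x ∈ B, x ∈ V₂) (hB₃ : ∀ x ∈ B, x ∈ V₃)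
    (hsat : ∀ x ∈ B, (algebraMap R F π)⁻¹ * x ∈ V₁ → (algebraMap R F π)⁻¹ * x ∈ V₂ →
      (algebraMap R F π)⁻¹ * x ∈ V₃ → (algebraMap R F π)⁻¹ * x ∈ B)
    (hπ0 : algebraMap R F π ≠ 0)
    (n : Ideal B) [hn : n.IsPrime]
    (s : B) (ϑ σ : F)
    (hϑq : (q : F) * ϑ = (s : F) ^ (q - 1)) (hϑ₂ : ϑ ∈ V₂)
    (hp2n : ∀ x : B, (x : F) * σ⁻¹ ∈ V₂ → x ∈ n)
    (a : B) (ha : a ∉ n) (ha₁ : (algebraMap R F π)⁻¹ * (a : F) ∈ V₁)
    (ha₃ : (algebraMap R F π)⁻¹ * (a : F) ∈ V₃)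
    (k : ℕ) (hk : 0 < k) (g r : B) (hr : r ∉ n)
    (hgr : (ϑ ^ k * (g : F) - (r : F)) * σ⁻¹ ∈ V₂) :
    ∃ c t : B, t ∉ n ∧ s ^ (q - 1) * c = t * algebraMap R B π := by
  have hqF : (q : F) = algebraMap R F u * algebraMap R F π := by
    have := congrArg (algebraMap R F) hqπ
    simpa using this
  have huF : algebraMap R F u * algebraMap R F u' = 1 := by
    rw [← map_mul, huu', map_one]
  have hx0B : algebraMap R F u' * (s : F) ^ (q - 1) * (a : F) ∈ B :=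
    B.mul_mem (B.mul_mem (B.algebraMap_mem u') (B.pow_mem s.2 _)) a.2
  have hval : (algebraMap R F π)⁻¹ * (algebraMap R F u' * (s : F) ^ (q - 1) * (a : F)) = ϑ * a := by
    rw [← hϑq, hqF]
    have : algebraMap R F u' * algebraMap R F u = 1 := by rw [mul_comm]; exact huF
    have hπ1 : (algebraMap R F π)⁻¹ * algebraMap R F π = 1 := inv_mul_cancel₀ hπ0
    linear_combination (algebraMap R F u' * algebraMap R F u * ϑ * (a : F)) * hπ1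
      + (ϑ * (a : F)) * this
  have hV₁ : (algebraMap R F π)⁻¹ * (algebraMap R F u' * (s : F) ^ (q - 1) * (a : F)) ∈ V₁ := by
    have : (algebraMap R F π)⁻¹ * (algebraMap R F u' * (s : F) ^ (q - 1) * (a : F))
        = algebraMap R F u' * (s : F) ^ (q - 1) * ((algebraMap R F π)⁻¹ * (a : F)) := by ring
    rw [this]
    exact V₁.mul_mem (V₁.mul_mem (hB₁ _ (B.algebraMap_mem u')) (V₁.pow_mem (hB₁ _ s.2) _)) ha₁
  have hV₃ : (algebraMap R F π)⁻¹ * (algebraMap R F u' * (s : F) ^ (q - 1) * (a : F)) ∈ V₃ := by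
    have : (algebraMap R F π)⁻¹ * (algebraMap R F u' * (s : F) ^ (q - 1) * (a : F))
        = algebraMap R F u' * (s : F) ^ (q - 1) * ((algebraMap R F π)⁻¹ * (a : F)) := by ring
    rw [this]
    exact V₃.mul_mem (V₃.mul_mem (hB₃ _ (B.algebraMap_mem u')) (V₃.pow_mem (hB₃ _ s.2) _)) ha₃
  have hV₂ : (algebraMap R F π)⁻¹ * (algebraMap R F u' * (s : F) ^ (q - 1) * (a : F)) ∈ V₂ := by
    rw [hval]
    exact V₂.mul_mem hϑ₂ (hB₂ _ a.2)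
  have hϑaB : ϑ * (a : F) ∈ B := by
    rw [← hval]
    exact hsat _ hx0B hV₁ hV₂ hV₃
  set aϑ : B := ⟨ϑ * (a : F), hϑaB⟩ with haϑ
  have hy : aϑ ^ k * g - a ^ k * r ∈ n := by
    apply hp2n
    have : ((aϑ ^ k * g - a ^ k * r : B) : F) * σ⁻¹
        = (a : F) ^ k * ((ϑ ^ k * (g : F) - (r : F)) * σ⁻¹) := by
      push_cast
      rw [haϑ]
      simp only []
      ring
    rw [this]
    exact V₂.mul_mem (V₂.pow_mem (hB₂ _ a.2) _) hgr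
  have haϑn : aϑ ∉ n := by
    intro h
    have h1 : aϑ ^ k * g ∈ n := n.mul_mem_right _ (n.pow_mem_of_mem h k hk)
    have h2 : a ^ k * r ∈ n := by
      have := n.sub_mem h1 hy
      simpa using this
    rcases hn.mem_or_mem h2 with h3 | h3
    · exact ha (hn.mem_of_pow_mem k h3)
    · exact hr h3
  refine ⟨algebraMap R B u' * a, aϑ, haϑn, Subtype.ext ?_⟩
  push_cast
  rw [haϑ]
  show (s : F) ^ (q - 1) * (algebraMap R F u' * (a : F)) = ϑ * (a : F) * algebraMap R F π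
  rw [← hϑq, hqF]
  have : algebraMap R F u' * algebraMap R F u = 1 := by rw [mul_comm]; exact huF
  linear_combination (algebraMap R F π * ϑ * (a : F)) * this

end chart

end Fermat.Agent.S36
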