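import Mathlib
import Fermat.Agent.S36.C2Unif74

/-!
# S36 lab (helper74): the middle component at ALL its one-branch points — the composite

Row 600 (C-C2).  Composition of the four lemmas of `C2Unif74.lean` in the chart setting of
`c2b24_mid_dvd` (helper24): `B ⊆ V₁ ⊓ V₂ ⊓ V₃` a saturated chart of the level-`q² M''` model, `A` a
chart of the level-`M''` model, `φ₁ φ₃ : A →+* B` the two extreme maps, `n` a prime of `B` on the
middle component only, `z` a smooth coordinate of `A` at the image of `n`.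

* `c2u74x_perf` : `hperf` of `c2u74_diag` when the residue ring `A / x` is a finite field of
  characteristic `q` (`x = φ₁⁻¹ n` maximal).
* `c2u74x_hgen` : `hgen` of `c2u74_diag` from
  `maximalIdeal (A_x) = span {z, π}` (the smooth local structure of the good-level model).
* `c2u74x_main` : `(φ₃ z - φ₁ z) ^ (q-1)` divides `π` at `n`.

All names are prefixed `c2u74x_`.
-/

set_option autoImplicit false

namespace Fermat.Agent.S36

section perf

variable {A B : Type*} [CommRing A] [CommRing B]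

/-- Every residue class modulo a maximal ideal with finite residue field of characteristic `q`
is a `q`-th power. -/
theorem c2u74x_perf_ideal (x : Ideal A) [hx : x.IsMaximal] [Finite (A ⧸ x)] (q : ℕ)
    [hq : Fact q.Prime] (hqx : (q : A) ∈ x) (f : A) : ∃ a : A, f - a ^ q ∈ x := by
  classical
  let _ : Field (A ⧸ x) := Ideal.Quotient.field x
  have : CharP (A ⧸ x) q := by
    have h0 : ((q : ℕ) : A ⧸ x) = 0 := by
      have : Ideal.Quotient.mk x (q : A) = 0 := Ideal.Quotient.eq_zero_iff_mem.mpr hqx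
      simpa using this
    exact (CharP.charP_iff_prime_eq_zero hq.out).mpr h0
  obtain ⟨b, hb⟩ := surjective_frobenius (A ⧸ x) q (Ideal.Quotient.mk x f)
  obtain ⟨a, rfl⟩ := Ideal.Quotient.mk_surjective b
  refine ⟨a, ?_⟩
  rw [← Ideal.Quotient.eq_zero_iff_mem, map_sub, map_pow, sub_eq_zero]
  exact hb.symm

/-- `hperf` of `c2u74_diag`. -/
theorem c2u74x_perf (φ₁ : A →+* B) (n : Ideal B) [(n.comap φ₁).IsMaximal]
    [Finite (A ⧸ n.comap φ₁)] (q : ℕ) [Fact q.Prime] (hqn : (q : B) ∈ n) (f : A) :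
    ∃ a : A, φ₁ (f - a ^ q) ∈ n := by
  have hqx : (q : A) ∈ n.comap φ₁ := by
    rw [Ideal.mem_comap, map_natCast]
    exact hqn
  obtain ⟨a, ha⟩ := c2u74x_perf_ideal (n.comap φ₁) q hqx f
  exact ⟨a, ha⟩

/-- `hgen` of `c2u74_diag` from the smooth local structure at `x = φ₁⁻¹ n`. -/
theorem c2u74x_hgen (φ₁ : A →+* B) (n : Ideal B) [hn : n.IsPrime] (z π : A)
    (hm : IsLocalRing.maximalIdeal (Localization.AtPrime (n.comap φ₁)) =
      Ideal.span {algebraMap A (Localization.AtPrime (n.comap φ₁)) z,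
        algebraMap A (Localization.AtPrime (n.comap φ₁)) π}) (v : A) (hv : φ₁ v ∈ n) :
    ∃ s a b : A, φ₁ s ∉ n ∧ s * v = a * z + b * π := by
  set x : Ideal A := n.comap φ₁ with hx
  set L := Localization.AtPrime x with hL
  have hv' : algebraMap A L v ∈ IsLocalRing.maximalIdeal L :=
    (IsLocalization.AtPrime.to_map_mem_maximal_iff L x v).mpr hv
  rw [hm] at hv'
  obtain ⟨a', b', hab⟩ := Ideal.mem_span_pair.mp hv'
  obtain ⟨a, s₁, rfl⟩ := IsLocalization.exists_mk'_eq x.primeCompl a'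
  obtain ⟨b, s₂, rfl⟩ := IsLocalization.exists_mk'_eq x.primeCompl b'
  have e1 : algebraMap A L (s₁ : A) * IsLocalization.mk' L a s₁ = algebraMap A L a := by
    rw [mul_comm]; exact IsLocalization.mk'_spec _ a s₁
  have e2 : algebraMap A L (s₂ : A) * IsLocalization.mk' L b s₂ = algebraMap A L b := by
    rw [mul_comm]; exact IsLocalization.mk'_spec _ b s₂
  have h1 : algebraMap A L ((s₁ : A) * (s₂ : A) * v) =
      algebraMap A L ((s₂ : A) * a * z + (s₁ : A) * b * π) := by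
    simp only [map_mul, map_add]
    rw [← hab]
    linear_combination (algebraMap A L (s₂ : A) * algebraMap A L z) * e1
      + (algebraMap A L (s₁ : A) * algebraMap A L π) * e2
  obtain ⟨c, hc⟩ := (IsLocalization.eq_iff_exists x.primeCompl L).mp h1
  refine ⟨(c : A) * ((s₁ : A) * (s₂ : A)), (c : A) * ((s₂ : A) * a), (c : A) * ((s₁ : A) * b),
    ?_, ?_⟩
  · have hmem : (c : A) * ((s₁ : A) * (s₂ : A)) ∈ x.primeCompl :=
      x.primeCompl.mul_mem c.2 (x.primeCompl.mul_mem s₁.2 s₂.2)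
    exact hmem
  · linear_combination hc

end perf

section main

variable {R F A : Type*} [CommRing R] [Field F] [Algebra R F] [CommRing A]

/-- **The middle component at a one-branch point, uniformly.**  Chart data as in
`c2b24_mid_dvd`; `φ₁ φ₃ : A →+* B` with all differences in `σ V₂` (`hdσ`), `z, πA` local
generators at `x = φ₁⁻¹ n` (`hgen`), residue classes `q`-th powers (`hperf`);
`ϑ = s^(q-1)/q ∈ V₂` for `s = φ₃ z - φ₁ z`; a function `j` with `t₁ j = w c^k` at `x`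
(rigid divisibility) whose `ϑ_J = s_J^(q-1)/q` satisfies the sixth-power identity
`ϑ_J^6 U L ≡ L^q` modulo `σ V₂` with `L τ_L = ω (φ₁ c^(k-1))^6`, `ω ∉ n`, and `L`, `φ₁ c^(k-1)`
units of `V₂`.  Then `s^(q-1)` divides `π` at `n`. -/
theorem c2u74x_main (π u u' : R) (huu' : u * u' = 1) (q : ℕ) (hq : 0 < q)
    (hqπ : (q : R) = u * π)
    (B : Subalgebra R F) [IsNoetherianRing B] (V₁ V₂ V₃ : Subring F)
    (hB₁ : ∀ x ∈ B, x ∈ V₁) (hB₂ : ∀ x ∈ B, x ∈ V₂) (hB₃ : ∀ x ∈ B, x ∈ V₃)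
    (hsat : ∀ x ∈ B, (algebraMap R F π)⁻¹ * x ∈ V₁ → (algebraMap R F π)⁻¹ * x ∈ V₂ →
      (algebraMap R F π)⁻¹ * x ∈ V₃ → (algebraMap R F π)⁻¹ * x ∈ B)
    (hπ0 : algebraMap R F π ≠ 0)
    (n : Ideal B) [hn : n.IsPrime] (hπn : algebraMap R B π ∈ n)
    (φ₁ φ₃ : A →+* B) (z πA : A) (σ : F)
    (hdσ : ∀ f : A, ((φ₃ f - φ₁ f : B) : F) * σ⁻¹ ∈ V₂)
    (hp2n : ∀ x : B, (x : F) * σ⁻¹ ∈ V₂ → x ∈ n)
    (hπ₁ : φ₁ πA = algebraMap R B π) (hπ₃ : φ₃ πA = algebraMap R B π)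
    (hz : φ₁ z ∈ n)
    (hgen : ∀ v : A, φ₁ v ∈ n → ∃ s a b : A, φ₁ s ∉ n ∧ s * v = a * z + b * πA)
    (hperf : ∀ f : A, ∃ a : A, φ₁ (f - a ^ q) ∈ n)
    (ϑ : F) (hϑq : (q : F) * ϑ = ((φ₃ z - φ₁ z : B) : F) ^ (q - 1)) (hϑ₂ : ϑ ∈ V₂)
    (a : B) (ha : a ∉ n) (ha₁ : (algebraMap R F π)⁻¹ * (a : F) ∈ V₁)
    (ha₃ : (algebraMap R F π)⁻¹ * (a : F) ∈ V₃)
    (j t₁ w c : A) (k : ℕ) (hk : 0 < k) (hrel : t₁ * j = w * c ^ k) (ht₁ : φ₁ t₁ ∉ n)
    (ϑJ : F) (hϑJq : (q : F) * ϑJ = ((φ₃ j - φ₁ j : B) : F) ^ (q - 1))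
    (U L τL ω : B)
    (hid : (ϑJ ^ 6 * (U : F) * (L : F) - (L : F) ^ q) * σ⁻¹ ∈ V₂)
    (hL : L * τL = ω * (φ₁ c ^ (k - 1)) ^ 6) (hω : ω ∉ n)
    (hLinv : (L : F)⁻¹ ∈ V₂) (hL0 : (L : F) ≠ 0)
    (hκinv : (((φ₁ c ^ (k - 1) : B)) : F)⁻¹ ∈ V₂) (hκ0 : (((φ₁ c ^ (k - 1) : B)) : F) ≠ 0) :
    ∃ c' t : B, t ∉ n ∧ (φ₃ z - φ₁ z) ^ (q - 1) * c' = t * algebraMap R B π := by
  have hqF : (q : F) = algebraMap R F u * algebraMap R F π := by
    have := congrArg (algebraMap R F) hqπ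
    simpa using this
  have huF : algebraMap R F u * algebraMap R F u' = 1 := by
    rw [← map_mul, huu', map_one]
  have hu0 : algebraMap R F u ≠ 0 := left_ne_zero_of_mul_eq_one huF
  have hq0 : (q : F) ≠ 0 := by
    rw [hqF]
    exact mul_ne_zero hu0 hπ0
  have hqn : (q : B) ∈ n := by
    have h1 : (q : B) = algebraMap R B u * algebraMap R B π := by
      have := congrArg (algebraMap R B) hqπ
      simpa using this
    rw [h1]
    exact n.mul_mem_left _ hπn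
  have hd : ∀ f : A, φ₃ f - φ₁ f ∈ n := fun f => hp2n _ (hdσ f)
  have hD := c2u74_diag φ₁ φ₃ n q z πA hd (hπ₃.trans hπ₁.symm) hqn hz (hπ₁ ▸ hπn) hgen hperf
  obtain ⟨τ, E, y, hτn, hτ⟩ := c2u74_leibniz φ₁ φ₃ n z hd hD j t₁ w c k hk hrel ht₁
  have hτF : (τ : F) * ((φ₃ j - φ₁ j : B) : F) =
      (((φ₁ c ^ (k - 1) : B) : F) * (E : F) + ((φ₃ z - φ₁ z : B) : F) * (y : F)) *
        ((φ₃ z - φ₁ z : B) : F) := by
    have := congrArg (fun b : B => (b : F)) hτ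
    simpa only [Subalgebra.coe_mul, Subalgebra.coe_add] using this
  have hLF : (L : F) * (τL : F) = (ω : F) * ((φ₁ c ^ (k - 1) : B) : F) ^ 6 := by
    have := congrArg (fun b : B => (b : F)) hL
    simpa only [Subalgebra.coe_mul, Subalgebra.coe_pow] using this
  have hcancel := c2u74_cancel V₂ q hq hq0 ((φ₃ z - φ₁ z : B) : F) ((φ₃ j - φ₁ j : B) : F)
    ϑ ϑJ σ (τ : F) ((φ₁ c ^ (k - 1) : B) : F) (E : F) (y : F) (U : F) (L : F) (τL : F) (ω : F)
    hϑq hϑJq hτF hid hLF (hdσ z) (hB₂ _ τ.2) (hB₂ _ (φ₁ c ^ (k - 1) : B).2) (hB₂ _ E.2)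
    (hB₂ _ y.2) (hB₂ _ U.2) (hB₂ _ L.2) (hB₂ _ τL.2) hϑ₂ (hB₂ _ (φ₃ z - φ₁ z : B).2)
    hLinv hκinv hL0 hκ0
  have hr : ω ^ (q - 1) * τ ^ (6 * (q - 1)) ∉ n := by
    intro h
    rcases hn.mem_or_mem h with h | h
    · exact hω (hn.mem_of_pow_mem _ h)
    · exact hτn (hn.mem_of_pow_mem _ h)
  refine c2u74_mid_dvd π u u' huu' q hqπ B V₁ V₂ V₃ hB₁ hB₂ hB₃ hsat hπ0 n (φ₃ z - φ₁ z) ϑ σ
    hϑq hϑ₂ hp2n a ha ha₁ ha₃ 6 (by norm_num) (E ^ (6 * (q - 1)) * U * τL ^ (q - 1))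
    (ω ^ (q - 1) * τ ^ (6 * (q - 1))) hr ?_
  simpa only [Subalgebra.coe_mul, Subalgebra.coe_pow] using hcancel

end main

end Fermat.Agent.S36
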