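import Mathlib
import Fermat.Agent.S36.ThetaG69

/-!
# S36 lab, row 600, uniform route (helper69): the bridge `G_x (D_x J form) = Δ/(θ x)^6`

`gxp95_unit` / `gxv95_unit_coord` (helper95) are stated for
`G = tf69_Dx K N x J ^ 6 / (J ^ 4 * (J - 1728) ^ 3)` with ANY `J` of expansion `j`;
`c2x11_mid_dvd` / `cth69_main` ask for `g` with `g · (θ x)^6 = Δ` (`DeltaSer K`).

* `gxb69_eq` : that `G` is `tg69_G K N x`;
* `gxb69_mul_theta` : `G · (θ x)^6 = DeltaSer K` (`θ x ≠ 0`).

All names are prefixed `gxb69_`.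
-/

set_option autoImplicit false
set_option linter.unusedSectionVars false

open ModularCurve Fermat.Agent.S18 Fermat.Agent.S28 Fermat.Agent.S34

namespace Fermat.Agent.S36

section gxb69

variable (K : Type*) [Field K] [CharZero K] (N : ℕ) [NeZero N]

theorem gxb69_eq (J : ↥(modularFunctionFieldFullC K N)) (hJ : (J : LaurentSeries K) = jqModC K)
    (x : ↥(modularFunctionFieldFullC K N)) :
    tf69_Dx K N x J ^ 6 / (J ^ 4 * (J - 1728) ^ 3) = tg69_G K N x := by
  have h : J = ck11_j K N := Subtype.ext (by rw [hJ, ck11_j_coe])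
  rw [h]
  rfl

/-- **Bridge**: `G · (θ x)^6 = Δ` for `G = (D_x J)^6 / (J^4 (J - 1728)^3)`. -/
theorem gxb69_mul_theta (J : ↥(modularFunctionFieldFullC K N))
    (hJ : (J : LaurentSeries K) = jqModC K) (x : ↥(modularFunctionFieldFullC K N))
    (hθx : partC_theta (x : LaurentSeries K) ≠ 0) :
    ((tf69_Dx K N x J ^ 6 / (J ^ 4 * (J - 1728) ^ 3) : ↥(modularFunctionFieldFullC K N)) :
      LaurentSeries K) * partC_theta (x : LaurentSeries K) ^ 6 = DeltaSer K := by
  rw [gxb69_eq K N J hJ x]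
  exact tg69_G_mul_theta K N x hθx

end gxb69

end Fermat.Agent.S36
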