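import Fermat.Agent.S36.GxPlace95
import Fermat.Agent.S36.RigidBind68
import Fermat.Agent.S34.ChartM85
import Fermat.Agent.S36.DerivChart93

/-!
# S36 lab, rows 599 / 600 (helper95): `G_x` is a unit of the Gauss valuation ring — the vertical
hypothesis of `gxp95_unit`, and `G_x` a unit of the local ring from the chart block

`V = cm85_Vinf M hπ` (Gauss valuation ring of the `q`-expansion on `F_K(M)`), `D_x = tf69_Dx K M x
= θ(·)/θ(x)`.

* `gxv95_theta` : `θ` on `R`-integral series; `gxv95_theta_coeffMap`.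
* `gxv95_theta_bdd` : for `x ∈ V`: `s · θ x = t` with `s, t` `R`-integral, `s` primitive.
* `gxv95_J_inv_mem`, `gxv95_Jc_inv_mem` : `J`, `J - 1728` are units of `V`.
* `gxv95_DJ_inv_mem` : `(D_x J)⁻¹ = θ x / θ J ∈ V` for `x ∈ V` (`θ J = -Q⁻¹ + …` is primitive).
* `gxv95_unit` : **`G_x = (D_x J)^6 / (J^4 (J - 1728)^3)` and `G_x⁻¹` lie in `sf79_loc B n`** for a
  chart block `rrb68_Block π B (cm85_Vinf M hπ)` (`rrb68_block_level2/3`) at a level with
  `ν₂ = ν₃ = 0`, a closed point `n ∋ π`, `x, J ∈ sf79_loc B n`, `θ x ≠ 0` and `D_x` preserving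
  `sf79_loc B n` (`dl93c_deriv_loc`).  No hypothesis left on the horizontal or vertical side.
-/

set_option autoImplicit false
set_option linter.style.haveILetI false
set_option linter.unusedSectionVars false

open ModularCurve AlgebraicCurve MatrixGroups IntermediateField Polynomial

namespace Fermat.Agent.S36

open Fermat.Agent.S24 Fermat.Agent.S18 Fermat.Agent.S34 Fermat.Agent.S28

section Theta

variable {R : Type*} [CommRing R]

/-- `θ = Q d/dQ` on series with coefficients in a commutative ring. -/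
def gxv95_theta (y : LaurentSeries R) : LaurentSeries R where
  coeff n := (n : R) * y.coeff n
  isPWO_support' := y.isPWO_support.mono (fun n hn => by
    simp only [Function.mem_support, ne_eq] at hn ⊢
    exact fun h => hn (by rw [h, mul_zero]))

theorem gxv95_theta_coeff (y : LaurentSeries R) (n : ℤ) :
    (gxv95_theta y).coeff n = (n : R) * y.coeff n := rfl

theorem gxv95_theta_coeffMap {K : Type*} [Field K] (φ : R →+* K) (y : LaurentSeries R) :
    coeffMap φ (gxv95_theta y) = partC_theta (coeffMap φ y) := by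
  ext n
  rw [coeffMap_coeff, partC_theta_coeff, coeffMap_coeff, gxv95_theta_coeff, map_mul,
    map_intCast]

end Theta

section Vert

variable {R K : Type} [CommRing R] [IsDomain R] [IsDiscreteValuationRing R] [Field K] [CharZero K]
  [Algebra R K] [IsFractionRing R K] (M : ℕ) [NeZero M]

/-- `θ` of an element of the Gauss ring has bounded denominators: `s · θ x = t`. -/
theorem gxv95_theta_bdd {π : R} (hπ : Irreducible π) (x : ↥(modularFunctionFieldFullC K M))
    (hx : x ∈ cm85_Vinf (K := K) M hπ) :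
    ∃ s t : LaurentSeries R, coeffMap (IsLocalRing.residue R) s ≠ 0 ∧
      coeffMap (algebraMap R K) s * partC_theta (x : LaurentSeries K) =
        coeffMap (algebraMap R K) t := by
  obtain ⟨s, t, hs, hst⟩ := hx
  refine ⟨s * s, s * gxv95_theta t - gxv95_theta s * t, ?_, ?_⟩
  · rw [map_mul]; exact mul_ne_zero hs hs
  · have h1 := congrArg partC_theta hst
    rw [Derivation.leibniz, smul_eq_mul, smul_eq_mul, ← gxv95_theta_coeffMap,
      ← gxv95_theta_coeffMap] at h1
    rw [map_sub, map_mul, map_mul, map_mul, ← h1, ← hst]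
    ring

/-- `J⁻¹ ∈ V`. -/
theorem gxv95_J_inv_mem {π : R} (hπ : Irreducible π) (J : ↥(modularFunctionFieldFullC K M))
    (hJ : (J : LaurentSeries K) = jqModC K) : J⁻¹ ∈ cm85_Vinf (K := K) M hπ := by
  refine ⟨jqModC R, 1, ?_, ?_⟩
  · rw [coeffMap_jqModC]; exact jqModC_ne_zero_of_nontrivial _
  · have h1 : ((J⁻¹ : ↥(modularFunctionFieldFullC K M)) : LaurentSeries K) =
        (J : LaurentSeries K)⁻¹ := rfl
    rw [h1, hJ, coeffMap_jqModC, map_one]
    exact mul_inv_cancel₀ (jqModC_ne_zero_of_nontrivial K)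

/-- `J ∈ V`. -/
theorem gxv95_J_mem {π : R} (hπ : Irreducible π) (J : ↥(modularFunctionFieldFullC K M))
    (hJ : (J : LaurentSeries K) = jqModC K) : J ∈ cm85_Vinf (K := K) M hπ :=
  gv85_mem_V_of_integral _ _ _ J (jqModC R) (by rw [hJ, coeffMap_jqModC])

theorem gxv95_Jc_coe (J : ↥(modularFunctionFieldFullC K M))
    (hJ : (J : LaurentSeries K) = jqModC K) :
    ((J - 1728 : ↥(modularFunctionFieldFullC K M)) : LaurentSeries K) =
      coeffMap (algebraMap R K) (jqModC R - HahnSeries.C (1728 : R)) := by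
  rw [map_sub, coeffMap_jqModC, gv85_coeffMap_C, map_ofNat, ← hJ]
  have h1 : (1728 : ↥(modularFunctionFieldFullC K M)) =
      algebraMap K ↥(modularFunctionFieldFullC K M) (1728 : K) := (map_ofNat _ 1728).symm
  rw [h1]
  show (J : LaurentSeries K) - ((algebraMap K ↥(modularFunctionFieldFullC K M) (1728 : K) :
    ↥(modularFunctionFieldFullC K M)) : LaurentSeries K) = _
  rw [gv85_coe_algebraMap]

theorem gxv95_Jc_red_ne_zero :
    coeffMap (IsLocalRing.residue R) (jqModC R - HahnSeries.C (1728 : R)) ≠ 0 := by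
  intro h0
  have h1 := congrArg (fun z : LaurentSeries (IsLocalRing.ResidueField R) => z.coeff (-1)) h0
  simp only [map_sub, coeffMap_jqModC, gv85_coeffMap_C, HahnSeries.coeff_sub,
    coeff_jqModC_neg_one, HahnSeries.coeff_zero] at h1
  rw [HahnSeries.C_apply, HahnSeries.coeff_single_of_ne (by norm_num), sub_zero] at h1
  exact one_ne_zero h1

/-- `J - 1728 ∈ V`. -/
theorem gxv95_Jc_mem {π : R} (hπ : Irreducible π) (J : ↥(modularFunctionFieldFullC K M))
    (hJ : (J : LaurentSeries K) = jqModC K) : J - 1728 ∈ cm85_Vinf (K := K) M hπ :=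
  gv85_mem_V_of_integral _ _ _ _ _ (gxv95_Jc_coe M J hJ)

/-- `(J - 1728)⁻¹ ∈ V`. -/
theorem gxv95_Jc_inv_mem {π : R} (hπ : Irreducible π) (J : ↥(modularFunctionFieldFullC K M))
    (hJ : (J : LaurentSeries K) = jqModC K) : (J - 1728)⁻¹ ∈ cm85_Vinf (K := K) M hπ := by
  refine ⟨jqModC R - HahnSeries.C (1728 : R), 1, gxv95_Jc_red_ne_zero, ?_⟩
  have h1 : (((J - 1728)⁻¹ : ↥(modularFunctionFieldFullC K M)) : LaurentSeries K) =
      ((J - 1728 : ↥(modularFunctionFieldFullC K M)) : LaurentSeries K)⁻¹ := rfl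
  rw [h1, gxv95_Jc_coe (R := R) M J hJ, map_one]
  apply mul_inv_cancel₀
  intro h0
  apply gxv95_Jc_red_ne_zero (R := R)
  have h2 := gv85_emb_injective (R := R) (K := K) (h0.trans (map_zero _).symm)
  rw [h2, map_zero]

/-- `θ J` is the image of a primitive integral series. -/
theorem gxv95_thetaJ_red_ne_zero :
    coeffMap (IsLocalRing.residue R) (gxv95_theta (jqModC R)) ≠ 0 := by
  intro h0
  have h1 := congrArg (fun z : LaurentSeries (IsLocalRing.ResidueField R) => z.coeff (-1)) h0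
  simp only [coeffMap_coeff, gxv95_theta_coeff, coeff_jqModC_neg_one, HahnSeries.coeff_zero,
    mul_one] at h1
  have h2 : IsLocalRing.residue R ((-1 : ℤ) : R) = -1 := by
    rw [Int.cast_neg, Int.cast_one, map_neg, map_one]
  rw [h2] at h1
  exact one_ne_zero (neg_eq_zero.mp h1)

/-- **`(D_x J)⁻¹ ∈ V`** for `x ∈ V`. -/
theorem gxv95_DJ_inv_mem {π : R} (hπ : Irreducible π) (x : ↥(modularFunctionFieldFullC K M))
    (hx : x ∈ cm85_Vinf (K := K) M hπ) (J : ↥(modularFunctionFieldFullC K M))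
    (hJ : (J : LaurentSeries K) = jqModC K) :
    (tf69_Dx K M x J)⁻¹ ∈ cm85_Vinf (K := K) M hπ := by
  obtain ⟨s, t, hs, hst⟩ := gxv95_theta_bdd M hπ x hx
  have hθJ : partC_theta (J : LaurentSeries K) =
      coeffMap (algebraMap R K) (gxv95_theta (jqModC R)) := by
    rw [gxv95_theta_coeffMap, coeffMap_jqModC, hJ]
  have hθJ0 : partC_theta (J : LaurentSeries K) ≠ 0 := by
    rw [hθJ]
    intro h0
    apply gxv95_thetaJ_red_ne_zero (R := R)
    have h2 := gv85_emb_injective (R := R) (K := K) (h0.trans (map_zero _).symm)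
    rw [h2, map_zero]
  refine ⟨s * gxv95_theta (jqModC R), t, ?_, ?_⟩
  · rw [map_mul]; exact mul_ne_zero hs gxv95_thetaJ_red_ne_zero
  · have h1 : (((tf69_Dx K M x J)⁻¹ : ↥(modularFunctionFieldFullC K M)) : LaurentSeries K) =
        (partC_theta (J : LaurentSeries K) / partC_theta (x : LaurentSeries K))⁻¹ := rfl
    rw [h1, inv_div, map_mul, ← hθJ, ← hst]
    field_simp

end Vert

section Final

variable {R K : Type} [CommRing R] [IsDomain R] [IsDiscreteValuationRing R] [Field K] [CharZero K]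
  [Algebra R K] [IsFractionRing R K] [Algebra K (AlgebraicClosure ℚ)] (M : ℕ) [NeZero M]
  [Algebra R ↥(modularFunctionFieldFullC K M)]
  [IsScalarTower R K ↥(modularFunctionFieldFullC K M)]

/-- **`G_x = (D_x J)^6 / (J^4 (J - 1728)^3)` is a unit of the local ring `sf79_loc B n`** at every
closed point `n ∋ π` of a chart block of `F_K(M)` with the Gauss valuation ring, at a level with
`ν₂ = ν₃ = 0`; `x, J ∈ sf79_loc B n`, `θ x ≠ 0`, `D_x = tf69_Dx K M x` preserves `sf79_loc B n`. -/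
theorem gxv95_unit {π : R} (hπ : Irreducible π) (h2M : nuTwo M = 0) (h3M : nuThree M = 0)
    (B : Subalgebra R ↥(modularFunctionFieldFullC K M))
    (hblk : rrb68_Block π B (cm85_Vinf (K := K) M hπ))
    (n : Ideal B) [hn : n.IsMaximal] (hπn : algebraMap R B π ∈ n)
    (x : ↥(modularFunctionFieldFullC K M)) (hxA : x ∈ sf79_loc B n)
    (hθx : partC_theta (x : LaurentSeries K) ≠ 0)
    (hDA : ∀ y ∈ sf79_loc B n, tf69_Dx K M x y ∈ sf79_loc B n)
    (J : ↥(modularFunctionFieldFullC K M)) (hJ : (J : LaurentSeries K) = jqModC K)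
    (hJA : J ∈ sf79_loc B n) :
    tf69_Dx K M x J ^ 6 / (J ^ 4 * (J - 1728) ^ 3) ∈ sf79_loc B n ∧
      (tf69_Dx K M x J ^ 6 / (J ^ 4 * (J - 1728) ^ 3))⁻¹ ∈ sf79_loc B n := by
  obtain ⟨hN, hfrac, hBV, hsat, hmax, -, hdisc, hpt⟩ := hblk
  haveI := hN
  obtain ⟨h2, hKr⟩ := hpt n hn hπn
  set V := cm85_Vinf (K := K) M hπ with hV
  have hπ0 : algebraMap R ↥(modularFunctionFieldFullC K M) π ≠ 0 :=
    gxp95_hR0 K M π hπ.ne_zero
  have hAV := gx95_loc_le_V π hπ0 B n hπn V hBV hmax hsat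
  have hxV := hAV x hxA
  have hDJV : tf69_Dx K M x J ∈ V := hAV _ (hDA J hJA)
  have hDJV' : (tf69_Dx K M x J)⁻¹ ∈ V := gxv95_DJ_inv_mem M hπ x hxV J hJ
  refine gxp95_unit K M π hπ h2M h3M B hfrac n hπn h2 V hBV hmax hdisc hsat hKr x hxA hθx hDA
    J hJ hJA ?_ ?_
  · rw [div_eq_mul_inv, mul_inv, ← inv_pow, ← inv_pow]
    exact V.mul_mem _ _ (V.pow_mem hDJV 6)
      (V.mul_mem _ _ (V.pow_mem (gxv95_J_inv_mem M hπ J hJ) 4)
        (V.pow_mem (gxv95_Jc_inv_mem M hπ J hJ) 3))
  · rw [inv_div, div_eq_mul_inv, ← inv_pow]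
    exact V.mul_mem _ _
      (V.mul_mem _ _ (V.pow_mem (gxv95_J_mem M hπ J hJ) 4)
        (V.pow_mem (gxv95_Jc_mem M hπ J hJ) 3))
      (V.pow_mem hDJV' 6)

/-- **`G_t` is a unit at a smooth point with coordinate `t`**: `gxv95_unit` with `D_t` preserving
the local ring by `dl93c_deriv_loc` (`n B_n = (t, π)`, perfect residue field, finite generation
of the chart). -/
theorem gxv95_unit_coord {π : R} (hπ : Irreducible π) (h2M : nuTwo M = 0) (h3M : nuThree M = 0)
    (B : Subalgebra R ↥(modularFunctionFieldFullC K M))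
    (hblk : rrb68_Block π B (cm85_Vinf (K := K) M hπ))
    (n : Ideal B) [hn : n.IsMaximal] (hπn : algebraMap R B π ∈ n)
    (q : ℕ) (hq : ∃ u₀ : R, (q : R) = π * u₀)
    (t : B) (ht : t ∈ n)
    (hgen : ∀ x ∈ n, ∃ s : B, s ∉ n ∧ ∃ a b : B, s * x = a * t + b * algebraMap R B π)
    (hperf : ∀ x : B, ∃ c : B, x - c ^ q ∈ n)
    (hθt : partC_theta ((t : ↥(modularFunctionFieldFullC K M)) : LaurentSeries K) ≠ 0)
    (h : ↥(modularFunctionFieldFullC K M)) (hh : h ∈ B)
    (G₀ : Finset ↥(modularFunctionFieldFullC K M))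
    (hG₀ : ∀ x ∈ B, x ∈ Submodule.span
      (Algebra.adjoin R ({h} : Set ↥(modularFunctionFieldFullC K M)))
      (G₀ : Set ↥(modularFunctionFieldFullC K M)))
    (J : ↥(modularFunctionFieldFullC K M)) (hJ : (J : LaurentSeries K) = jqModC K)
    (hJA : J ∈ sf79_loc B n) :
    tf69_Dx K M (t : ↥(modularFunctionFieldFullC K M)) J ^ 6 / (J ^ 4 * (J - 1728) ^ 3) ∈
        sf79_loc B n ∧
      (tf69_Dx K M (t : ↥(modularFunctionFieldFullC K M)) J ^ 6 /
        (J ^ 4 * (J - 1728) ^ 3))⁻¹ ∈ sf79_loc B n := by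
  haveI : IsNoetherianRing B := hblk.1
  have hDR : ∀ r : R, tf69_Dx K M (t : ↥(modularFunctionFieldFullC K M))
      (algebraMap R ↥(modularFunctionFieldFullC K M) r) = 0 := by
    intro r
    rw [IsScalarTower.algebraMap_apply R K ↥(modularFunctionFieldFullC K M)]
    exact tf69_Dx_algebraMap K M _ _
  have hDA := dl93c_deriv_loc π B n q hq (tf69_Dx K M (t : ↥(modularFunctionFieldFullC K M)))
    (tf69_Dx_add K M _) (tf69_Dx_mul K M _) hDR t ht hπn hgen hperf
    (by rw [tf69_Dx_self K M _ hθt]; exact (sf79_loc B n).one_mem) h hh G₀ hG₀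
  exact gxv95_unit M hπ h2M h3M B hblk n hπn (t : ↥(modularFunctionFieldFullC K M))
    (sf79_le_loc B n _ t.2) hθt hDA J hJ hJA

end Final

end Fermat.Agent.S36
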