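import Fermat.Agent.S36.C2Den66
import Fermat.Agent.S36.GxVert95
import Fermat.Agent.S36.GxBridge69
import Fermat.Agent.S36.RigidTransferInst79
import Fermat.Agent.S36.RigidBind68
import Fermat.Agent.S36.TwoGenMid25
import Fermat.Agent.S36.C2Den74
import Fermat.Agent.S36.UnitAtSq75
import Fermat.Agent.S34.BranchInf46

/-!
# S36 lab, row 600 (C-C2), helper16: the ROUTE-B COMPOSITE (uniform coordinate route)

The literal `hreg` of `mc25_tg_level2` / `mc25_tg_level3` (`TwoGenMid25`) on all four canonical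
charts of level `M' q²` -- `mc25_MidPrinAt (v2g64_s K M' q) B V₂ n` at every closed point `n ∋ π`
on the middle branch only where `j` is regular -- from ONE remaining input per chart: the
coordinate package `c2u16_Coord M' π B₀` at the chart `B₀` of the GOOD level `M'`
(`∀ n₀ ∋ π` maximal, `∃ x ∈ B₀`, `θ x ≠ 0`, `D_x = tf69_Dx K M' x` preserves `sf79_loc B₀ n₀`;
a literal weakening of the conclusion of `cg27`, `CoordGood27`).

Route (no case split on `j`, `h₂ + 64`, `h₃ + 27`; no Kronecker relation):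

* `n₀ :=` contraction of `n` along `α₂ α₁` (`c2u16_alpha`); it is maximal, contains `π`
  (`rt79_isMaximal_comap`, `rt79_pi_mem_comap`, `c2u16_integral`) and `j` is regular at `n₀`
  (`rt79_reg_down` + the chart dichotomy `ci22_dich_level2/3(_inv)`);
* `x` from the coordinate package at `n₀`; `G_x = (D_x j)^6 / (j^4 (j - 1728)^3)` lies in
  `sf79_loc B₀ n₀` (`gxv95_unit`, helper95) and `G_x (θ x)^6 = Δ` (`gxb69_mul_theta`, helper69);
* `x` has an `R`-integral expansion (`c2u16_xR`: chart elements are integral over `R[j]`,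
  `qx46_integral_expansion'`; on the charts `{h⁻¹}` by `c2u16_inv_int2/3`), and `θ (x mod π) ≠ 0`
  (`c2x11_theta_ne_zero`, helper11, with `G_x ∈ cm85_Vinf` by `gx95_loc_le_V`);
* `s_x = β₂ β₁ x - α₂ α₁ x ∈ B` (`cm71_alpha_charts`, `cm71_beta_charts`), so the denominator of
  `c2h66_prinAt` is `b = 1`; `α₂ α₁ G_x` has no pole at `n` (`rt79_loc_map`), `α₂ U` has no pole at
  `n` (`usq75_U_integral` + `uv17_clear` with the `s'` of `hreg`);
* conclude with `c2h66_prinAt` (helper66, den form of `c2x11_mid_dvd`).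

Main statements:

* `c2u16_core` : abstract charts `B₀` (level `M'`), `B` (level `M' q²`);
* `c2u16_chart` : charts `{g'}`, `{α₂ α₁ g'}`;
* `c2u16_hreg_level2`, `c2u16_hreg_level2_inv`, `c2u16_hreg_level3`, `c2u16_hreg_level3_inv` :
  the LITERAL third hypothesis (`hreg`) of the four implications of `mc25_tg_level2/3`, from
  `c2u16_Coord M' π (pk15_chart R {h})` resp. `{h⁻¹}`, `h = pk85_h2 K M' h2` / `pk85_h3 K M' h3`,
  at a level with `nuTwo M' = 0`, `nuThree M' = 0`.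

All names are prefixed `c2u16_`.
-/

set_option autoImplicit false
set_option linter.unusedSectionVars false
set_option linter.style.haveILetI false
set_option linter.style.longLine false
set_option linter.unusedVariables false

open ModularCurve AlgebraicCurve IntermediateField

namespace Fermat.Agent.S36

open Fermat.Agent.S18 Fermat.Agent.S24 Fermat.Agent.S28 Fermat.Agent.S37 Fermat.Agent.S34
open Fermat.Agent.S35 Fermat.Agent.S36.TripleLoc71

section c2u16_core

variable {R K : Type} [CommRing R] [IsDomain R] [IsDiscreteValuationRing R] [Field K]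
  [CharZero K] [Algebra R K] [IsFractionRing R K] [Algebra K Kbar] [Algebra.IsAlgebraic K Kbar]
  (M' q : ℕ) [NeZero M'] [NeZero q] (hq : q.Prime) (hM' : ¬ q ∣ M')
  [Algebra R ↥(modularFunctionFieldFullC K M')]
  [IsScalarTower R K ↥(modularFunctionFieldFullC K M')]
  [Algebra R ↥(modularFunctionFieldFullC K (M' * q))]
  [IsScalarTower R K ↥(modularFunctionFieldFullC K (M' * q))]
  [Algebra R ↥(modularFunctionFieldFullC K (M' * q * q))]
  [IsScalarTower R K ↥(modularFunctionFieldFullC K (M' * q * q))]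

/-- The composite `α₂ ∘ α₁ : F(M')_K → F(M' q²)_K` as a ring homomorphism. -/
noncomputable def c2u16_alpha (K : Type) [Field K] (M' q : ℕ) [NeZero M'] [NeZero q] :
    ↥(modularFunctionFieldFullC K M') →+* ↥(modularFunctionFieldFullC K (M' * q * q)) :=
  ((al97L_alpha K (M' * q) q : ↥(modularFunctionFieldFullC K (M' * q)) →+*
      ↥(modularFunctionFieldFullC K (M' * q * q)))).comp
    (al97L_alpha K M' q : ↥(modularFunctionFieldFullC K M') →+*
      ↥(modularFunctionFieldFullC K (M' * q)))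

theorem c2u16_alpha_apply (K : Type) [Field K] (M' q : ℕ) [NeZero M'] [NeZero q]
    (x : ↥(modularFunctionFieldFullC K M')) :
    c2u16_alpha K M' q x = al97L_alpha K (M' * q) q (al97L_alpha K M' q x) := rfl

/-- An element of `F(M)_K` integral over `R[j]` has an `R`-integral `q`-expansion. -/
theorem c2u16_xR (M : ℕ) [NeZero M] [Algebra R ↥(modularFunctionFieldFullC K M)]
    [IsScalarTower R K ↥(modularFunctionFieldFullC K M)]
    (x : ↥(modularFunctionFieldFullC K M))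
    (hx : IsIntegral (Algebra.adjoin R ({rm90_j K M} : Set ↥(modularFunctionFieldFullC K M))) x) :
    ∃ xR : LaurentSeries R, (x : LaurentSeries K) = coeffMap (algebraMap R K) xR := by
  have h1 : x ∈ bi46_A R K M :=
    (bi46_mem_A_iff_chart R K M x).mpr ((pk85_mem_chart R _ x).mpr hx)
  obtain ⟨y, hy⟩ := qx46_integral_expansion' (R := R) M (jqModC ℤ) _ (SetLike.coe_mem x)
    ((bi46_isIntegralElem_iff R K M x).mp h1)
  exact ⟨y, hy.symm⟩

/-- **The coordinate package at a chart `B₀` of the good level `M'`** (a literal weakening of the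
conclusion of `cg27`): at every closed point `n₀ ∋ π` of `B₀` there is `x ∈ B₀` with `θ x ≠ 0`
whose derivation `D_x = tf69_Dx K M' x` preserves the local ring `sf79_loc B₀ n₀`. -/
def c2u16_Coord (π : R) (B₀ : Subalgebra R ↥(modularFunctionFieldFullC K M')) : Prop :=
  ∀ (n₀ : Ideal B₀) (hn₀ : n₀.IsMaximal), algebraMap R B₀ π ∈ n₀ →
    ∃ x : B₀, partC_theta (((x : ↥(modularFunctionFieldFullC K M')) : LaurentSeries K)) ≠ 0 ∧
      ∀ y ∈ sf79_loc B₀ n₀ (hn := hn₀.isPrime),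
        tf69_Dx K M' (x : ↥(modularFunctionFieldFullC K M')) y ∈
          sf79_loc B₀ n₀ (hn := hn₀.isPrime)

include hq hM' in
/-- **Route B composite, abstract charts.** -/
theorem c2u16_core {π : R} (hπ : Irreducible π) (hqπ : Associated ((q : ℕ) : R) π)
    (h2M : nuTwo M' = 0) (h3M : nuThree M' = 0)
    (B₀ : Subalgebra R ↥(modularFunctionFieldFullC K M'))
    (B : Subalgebra R ↥(modularFunctionFieldFullC K (M' * q * q)))
    (hblk : rrb68_Block π B₀ (cm85_Vinf (K := K) M' hπ))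
    (hαB : ∀ x ∈ B₀, c2u16_alpha K M' q x ∈ B)
    (hβB : ∀ x ∈ B₀, al97L_beta K (M' * q) q (al97L_beta K M' q x) ∈ B)
    (hBint : ∀ x ∈ B, ((c2u16_alpha K M' q).comp
      (algebraMap B₀ ↥(modularFunctionFieldFullC K M'))).IsIntegralElem x)
    (hBcl : ∀ z : ↥(modularFunctionFieldFullC K (M' * q * q)), IsIntegral B z → z ∈ B)
    (hdich : ∀ n' : Ideal B₀, n'.IsPrime →
      (∃ s b : B₀, s ∉ n' ∧ (s : ↥(modularFunctionFieldFullC K M')) * rm90_j K M' =
          (b : ↥(modularFunctionFieldFullC K M'))) ∨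
        (∃ a₀ c₀ : B₀, a₀ ∈ n' ∧ c₀ ∉ n' ∧
          rm90_j K M' * (a₀ : ↥(modularFunctionFieldFullC K M')) =
            (c₀ : ↥(modularFunctionFieldFullC K M'))))
    (hxR : ∀ x ∈ B₀, ∃ xR : LaurentSeries R,
      ((x : ↥(modularFunctionFieldFullC K M')) : LaurentSeries K) = coeffMap (algebraMap R K) xR)
    (hcoord : c2u16_Coord M' π B₀)
    (hB₁ : ∀ y ∈ B, y ∈ (cm85_Vinf (K := K) (M' * q * q) hπ).toSubring)
    (hB₂ : ∀ y ∈ B, y ∈ (v2g64_V2 (algebraMap K Kbar) M' q hq hM' hπ hqπ).toSubring)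
    (hB₃ : ∀ y ∈ B, y ∈ (nsb86_V3 (K := K) M' q hq hM' hπ).toSubring)
    (hsat : ∀ y ∈ B,
      (algebraMap R ↥(modularFunctionFieldFullC K (M' * q * q)) π)⁻¹ * y ∈
        (cm85_Vinf (K := K) (M' * q * q) hπ).toSubring →
      (algebraMap R ↥(modularFunctionFieldFullC K (M' * q * q)) π)⁻¹ * y ∈
        (v2g64_V2 (algebraMap K Kbar) M' q hq hM' hπ hqπ).toSubring →
      (algebraMap R ↥(modularFunctionFieldFullC K (M' * q * q)) π)⁻¹ * y ∈
        (nsb86_V3 (K := K) M' q hq hM' hπ).toSubring →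
      (algebraMap R ↥(modularFunctionFieldFullC K (M' * q * q)) π)⁻¹ * y ∈ B)
    (n : Ideal B) (hn : n.IsMaximal) (hπn : algebraMap R B π ∈ n)
    (hmid : tl71_OnMid (v2g64_s K M' q) B
      (v2g64_V2 (algebraMap K Kbar) M' q hq hM' hπ hqπ).toSubring n)
    (h1 : ¬ sf79_OnBr π B (cm85_Vinf (K := K) (M' * q * q) hπ).toSubring n)
    (h3 : ¬ sf79_OnBr π B (nsb86_V3 (K := K) M' q hq hM' hπ).toSubring n)
    (hreg : ∃ s' b : B, s' ∉ n ∧
      (s' : ↥(modularFunctionFieldFullC K (M' * q * q))) * rm90_j K (M' * q * q) =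
        (b : ↥(modularFunctionFieldFullC K (M' * q * q)))) :
    mc25_MidPrinAt (v2g64_s K M' q) B
      (v2g64_V2 (algebraMap K Kbar) M' q hq hM' hπ hqπ).toSubring n := by
  haveI hnp : n.IsPrime := hn.isPrime
  have hπα : c2u16_alpha K M' q (algebraMap R ↥(modularFunctionFieldFullC K M') π) =
      algebraMap R ↥(modularFunctionFieldFullC K (M' * q * q)) π := by
    rw [c2u16_alpha_apply, rt79c_alpha_algebraMap (R := R) (K := K) M' q π,
      rt79c_alpha_algebraMap (R := R) (K := K) (M' * q) q π]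
  have hαj : c2u16_alpha K M' q (rm90_j K M') = rm90_j K (M' * q * q) := by
    rw [c2u16_alpha_apply, rt79c_alpha_j (K := K) M' q, rt79c_alpha_j (K := K) (M' * q) q]
  have hn₀ : (n.comap (bk63_res (c2u16_alpha K M' q) B₀ B hαB)).IsMaximal :=
    rt79_isMaximal_comap (c2u16_alpha K M' q) B₀ B hαB hBint n hn
  have hπn₀ : algebraMap R B₀ π ∈ n.comap (bk63_res (c2u16_alpha K M' q) B₀ B hαB) :=
    rt79_pi_mem_comap (c2u16_alpha K M' q) π hπα B₀ B hαB n hπn
  haveI hn₀p : (n.comap (bk63_res (c2u16_alpha K M' q) B₀ B hαB)).IsPrime := hn₀.isPrime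
  obtain ⟨s', b', hs', hs'j⟩ := hreg
  have hs'jB : (s' : ↥(modularFunctionFieldFullC K (M' * q * q))) * rm90_j K (M' * q * q) ∈ B := by
    rw [hs'j]; exact b'.2
  have hJA : rm90_j K M' ∈ sf79_loc B₀ (n.comap (bk63_res (c2u16_alpha K M' q) B₀ B hαB)) :=
    rt79_reg_down (c2u16_alpha K M' q) B₀ B hαB n (rm90_j K M') (hdich _ hn₀p)
      ⟨s', hs', by rw [hαj]; exact hs'jB⟩
  obtain ⟨x, hθx, hDA⟩ := hcoord _ hn₀ hπn₀
  obtain ⟨xR, hx⟩ := hxR x x.2
  have hxA : (x : ↥(modularFunctionFieldFullC K M')) ∈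
      sf79_loc B₀ (n.comap (bk63_res (c2u16_alpha K M' q) B₀ B hαB)) :=
    ⟨1, (Ideal.ne_top_iff_one _).mp hn₀p.ne_top, by
      rw [OneMemClass.coe_one, one_mul]; exact x.2⟩
  obtain ⟨hG, -⟩ := gxv95_unit M' hπ h2M h3M B₀ hblk
    (n.comap (bk63_res (c2u16_alpha K M' q) B₀ B hαB)) hπn₀
    (x : ↥(modularFunctionFieldFullC K M')) hxA hθx hDA (rm90_j K M') rfl hJA
  have hgθ := gxb69_mul_theta K M' (rm90_j K M') rfl (x : ↥(modularFunctionFieldFullC K M')) hθx
  obtain ⟨-, -, hBV, hsat₀, hmax, -, -, -⟩ := hblk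
  have hgV := gx95_loc_le_V π (gxp95_hR0 K M' π hπ.ne_zero) B₀
    (n.comap (bk63_res (c2u16_alpha K M' q) B₀ B hαB)) hπn₀ _ hBV hmax hsat₀ _ hG
  have hθ := c2x11_theta_ne_zero M' hπ (x : ↥(modularFunctionFieldFullC K M')) _ xR hx hgθ hgV
  obtain ⟨s₁, hs₁, hs₁g⟩ := rt79_loc_map (c2u16_alpha K M' q) B₀ B hαB n _ hG
  obtain ⟨k, hk⟩ := uv17_clear B hBcl (rm90_j K (M' * q * q)) _
    (usq75_U_integral (R := R) (K := K) M' q hq)
    (s' : ↥(modularFunctionFieldFullC K (M' * q * q))) s'.2 hs'jB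
  have hsxB : c2x11_s K M' q (x : ↥(modularFunctionFieldFullC K M')) ∈ B :=
    B.sub_mem (hβB x x.2) (hαB x x.2)
  have h1n : (1 : B) ∉ n := (Ideal.ne_top_iff_one n).mp hnp.ne_top
  refine c2h66_prinAt (algebraMap K Kbar) M' q hq hM' hπ hqπ _
    (v2g64_V2_alpha (algebraMap K Kbar) M' q hq hM' hπ hqπ)
    (v2g64_V2_pi (algebraMap K Kbar) M' q hq hM' hπ hqπ)
    (v2g64_V2_ne (algebraMap K Kbar) M' q hq hM' hπ hqπ) _
    (v2g64_V2_val (algebraMap K Kbar) M' q hq hM' hπ hqπ) B _ _ hB₁ hB₂ hB₃ hsat n hmid h1 h3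
    (x : ↥(modularFunctionFieldFullC K M')) xR hx hθ 1 ⟨_, hsxB⟩ h1n
    (by rw [OneMemClass.coe_one, one_mul]) _ (dq56b_U (K := K) M' q hq) hgθ rfl
    (⟨_, hs₁g⟩ ^ (q - 1) * ⟨_, hk⟩) (s₁ ^ (q - 1) * s' ^ k) ?_ ?_
  · intro h
    rcases hnp.mem_or_mem h with h | h
    · exact hs₁ (hnp.mem_of_pow_mem _ h)
    · exact hs' (hnp.mem_of_pow_mem _ h)
  · push_cast
    unfold usq75_alphaU
    rw [c2u16_alpha_apply]
    ring

end c2u16_core

section c2u16_inv

open Polynomial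

variable {R : Type*} [CommRing R] {F : Type*} [Field F] [Algebra R F]

/-- `j h² = (h + 256)³`, `h ≠ 0`, `2` a unit of `R` ⟹ `h⁻¹` is integral over `R[j]`. -/
theorem c2u16_inv_int2 (hu2 : IsUnit (2 : R)) (j h : F) (h0 : h ≠ 0)
    (hrel : j * h ^ 2 = (h + 256) ^ 3) :
    IsIntegral (Algebra.adjoin R ({j} : Set F)) h⁻¹ := by
  obtain ⟨u, hu⟩ := hu2.exists_right_inv
  let jA : Algebra.adjoin R ({j} : Set F) := ⟨j, Algebra.subset_adjoin (Set.mem_singleton j)⟩
  let uA : Algebra.adjoin R ({j} : Set F) := algebraMap R _ u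
  have hmon : ((X + C (uA ^ 8)) ^ 3 - C (uA ^ 24 * jA) * X).Monic := by
    have h1 : ((X + C (uA ^ 8)) ^ 3).Monic := (monic_X_add_C _).pow 3
    refine h1.sub_of_left ?_
    have h2 : ((X + C (uA ^ 8)) ^ 3).degree = 3 := by
      rw [degree_pow, degree_X_add_C]
      rfl
    rw [h2]
    exact lt_of_le_of_lt (degree_C_mul_X_le _) (by norm_num)
  refine ⟨_, hmon, ?_⟩
  have hj : algebraMap (Algebra.adjoin R ({j} : Set F)) F jA = j := rfl
  have huA : algebraMap (Algebra.adjoin R ({j} : Set F)) F uA = algebraMap R F u := rfl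
  have hU : (2 : F) * algebraMap R F u = 1 := by
    rw [← map_ofNat (algebraMap R F) 2, ← map_mul, hu, map_one]
  simp only [eval₂_sub, eval₂_pow, eval₂_add, eval₂_mul, eval₂_X, eval₂_C, map_mul, map_pow,
    hj, huA]
  generalize algebraMap R F u = U at hU
  have e8 : 256 * U ^ 8 = 1 := by
    have : 256 * U ^ 8 = (2 * U) ^ 8 := by ring
    rw [this, hU, one_pow]
  have e1 : h⁻¹ + U ^ 8 = h⁻¹ * U ^ 8 * (h + 256) := by
    have : h⁻¹ * U ^ 8 * (h + 256) = U ^ 8 * (h⁻¹ * h) + h⁻¹ * (256 * U ^ 8) := by ring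
    rw [this, inv_mul_cancel₀ h0, e8]
    ring
  have e2 : U ^ 24 * j * h⁻¹ = h⁻¹ ^ 3 * U ^ 24 * (j * h ^ 2) := by
    field_simp
  rw [e1, e2, hrel]
  ring

/-- `j h³ = (h + 27) (h + 243)³`, `h ≠ 0`, `3` a unit of `R` ⟹ `h⁻¹` is integral over `R[j]`. -/
theorem c2u16_inv_int3 (hu3 : IsUnit (3 : R)) (j h : F) (h0 : h ≠ 0)
    (hrel : j * h ^ 3 = (h + 27) * (h + 243) ^ 3) :
    IsIntegral (Algebra.adjoin R ({j} : Set F)) h⁻¹ := by
  obtain ⟨u, hu⟩ := hu3.exists_right_inv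
  let jA : Algebra.adjoin R ({j} : Set F) := ⟨j, Algebra.subset_adjoin (Set.mem_singleton j)⟩
  let uA : Algebra.adjoin R ({j} : Set F) := algebraMap R _ u
  have hmon : ((X + C (uA ^ 3)) * (X + C (uA ^ 5)) ^ 3 - C (uA ^ 18 * jA) * X).Monic := by
    have h1 : ((X + C (uA ^ 3)) * (X + C (uA ^ 5)) ^ 3).Monic :=
      (monic_X_add_C _).mul ((monic_X_add_C _).pow 3)
    refine h1.sub_of_left ?_
    have h2 : ((X + C (uA ^ 3)) * (X + C (uA ^ 5)) ^ 3).degree = 4 := by
      rw [degree_mul, degree_pow, degree_X_add_C, degree_X_add_C]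
      rfl
    rw [h2]
    exact lt_of_le_of_lt (degree_C_mul_X_le _) (by norm_num)
  refine ⟨_, hmon, ?_⟩
  have hj : algebraMap (Algebra.adjoin R ({j} : Set F)) F jA = j := rfl
  have huA : algebraMap (Algebra.adjoin R ({j} : Set F)) F uA = algebraMap R F u := rfl
  have hU : (3 : F) * algebraMap R F u = 1 := by
    rw [← map_ofNat (algebraMap R F) 3, ← map_mul, hu, map_one]
  simp only [eval₂_sub, eval₂_pow, eval₂_add, eval₂_mul, eval₂_X, eval₂_C, map_mul, map_pow,
    hj, huA]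
  generalize algebraMap R F u = U at hU
  have e27 : 27 * U ^ 3 = 1 := by
    have : 27 * U ^ 3 = (3 * U) ^ 3 := by ring
    rw [this, hU, one_pow]
  have e243 : 243 * U ^ 5 = 1 := by
    have : 243 * U ^ 5 = (3 * U) ^ 5 := by ring
    rw [this, hU, one_pow]
  have e1 : h⁻¹ + U ^ 3 = h⁻¹ * U ^ 3 * (h + 27) := by
    have : h⁻¹ * U ^ 3 * (h + 27) = U ^ 3 * (h⁻¹ * h) + h⁻¹ * (27 * U ^ 3) := by ring
    rw [this, inv_mul_cancel₀ h0, e27]
    ring
  have e1' : h⁻¹ + U ^ 5 = h⁻¹ * U ^ 5 * (h + 243) := by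
    have : h⁻¹ * U ^ 5 * (h + 243) = U ^ 5 * (h⁻¹ * h) + h⁻¹ * (243 * U ^ 5) := by ring
    rw [this, inv_mul_cancel₀ h0, e243]
    ring
  have e2 : U ^ 18 * j * h⁻¹ = h⁻¹ ^ 4 * U ^ 18 * (j * h ^ 3) := by
    field_simp
  rw [e1, e1', e2, hrel]
  ring

end c2u16_inv

section c2u16_chart

variable {R K : Type} [CommRing R] [IsDomain R] [IsDiscreteValuationRing R] [Field K]
  [CharZero K] [Algebra R K] [IsFractionRing R K] [Algebra K Kbar] [Algebra.IsAlgebraic K Kbar]
  (M' q : ℕ) [NeZero M'] [NeZero q] (hq : q.Prime) (hM' : ¬ q ∣ M')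
  [Algebra R ↥(modularFunctionFieldFullC K M')]
  [IsScalarTower R K ↥(modularFunctionFieldFullC K M')]
  [Algebra R ↥(modularFunctionFieldFullC K (M' * q))]
  [IsScalarTower R K ↥(modularFunctionFieldFullC K (M' * q))]
  [Algebra R ↥(modularFunctionFieldFullC K (M' * q * q))]
  [IsScalarTower R K ↥(modularFunctionFieldFullC K (M' * q * q))]

/-- The chart of level `M' q²` is integral over the image of the chart of level `M'`. -/
theorem c2u16_integral (g' : ↥(modularFunctionFieldFullC K M')) (x : ↥(modularFunctionFieldFullC K (M' * q * q)))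
    (hx : x ∈ pk15_chart R ({c2u16_alpha K M' q g'} : Set ↥(modularFunctionFieldFullC K (M' * q * q)))) :
    ((c2u16_alpha K M' q).comp (algebraMap ↥(pk15_chart R ({g'} : Set ↥(modularFunctionFieldFullC K M'))) ↥(modularFunctionFieldFullC K M'))).IsIntegralElem x := by
  refine rt79_integral_of_adjoin _ _
    (Algebra.adjoin R ({c2u16_alpha K M' q g'} : Set ↥(modularFunctionFieldFullC K (M' * q * q)))) ?_ x ((pk15_mem_chart _ _).mp hx)
  intro a ha
  have hmap : (Algebra.adjoin R ({g'} : Set ↥(modularFunctionFieldFullC K M'))).map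
      (((al97L_alpha K (M' * q) q).restrictScalars R).comp
        ((al97L_alpha K M' q).restrictScalars R)) =
      Algebra.adjoin R ({c2u16_alpha K M' q g'} : Set ↥(modularFunctionFieldFullC K (M' * q * q))) :=
    AlgHom.map_adjoin_singleton _ g'
  rw [← hmap] at ha
  obtain ⟨b, hb, hba⟩ := ha
  refine ⟨b, ?_, hba⟩
  rw [pk15_mem_chart]
  exact isIntegral_algebraMap (R := Algebra.adjoin R ({g'} : Set ↥(modularFunctionFieldFullC K M'))) (x := ⟨b, hb⟩)

include hq hM' in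
/-- **Route B composite on a pair of charts `{g'}` (level `M'`), `{α₂ α₁ g'}` (level `M' q²`).** -/
theorem c2u16_chart {π : R} (hπ : Irreducible π) (hqπ : Associated ((q : ℕ) : R) π)
    (h2M : nuTwo M' = 0) (h3M : nuThree M' = 0)
    (g' : ↥(modularFunctionFieldFullC K M')) (g : ↥(modularFunctionFieldFullC K (M' * q * q))) (hg : c2u16_alpha K M' q g' = g)
    (hgint : IsIntegral (Algebra.adjoin R ({rm90_j K M'} : Set ↥(modularFunctionFieldFullC K M'))) g')
    (hblk : rrb68_Block π (pk15_chart R ({g'} : Set ↥(modularFunctionFieldFullC K M'))) (cm85_Vinf (K := K) M' hπ))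
    (hβB : ∀ x ∈ pk15_chart R ({g'} : Set ↥(modularFunctionFieldFullC K M')), al97L_beta K (M' * q) q (al97L_beta K M' q x) ∈ pk15_chart R ({g} : Set ↥(modularFunctionFieldFullC K (M' * q * q))))
    (hdich : ∀ n' : Ideal ↥(pk15_chart R ({g'} : Set ↥(modularFunctionFieldFullC K M'))), n'.IsPrime →
      (∃ s b : ↥(pk15_chart R ({g'} : Set ↥(modularFunctionFieldFullC K M'))), s ∉ n' ∧ (s : ↥(modularFunctionFieldFullC K M')) * rm90_j K M' = (b : ↥(modularFunctionFieldFullC K M'))) ∨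
        (∃ a₀ c₀ : ↥(pk15_chart R ({g'} : Set ↥(modularFunctionFieldFullC K M'))), a₀ ∈ n' ∧ c₀ ∉ n' ∧ rm90_j K M' * (a₀ : ↥(modularFunctionFieldFullC K M')) = (c₀ : ↥(modularFunctionFieldFullC K M'))))
    (hcoord : c2u16_Coord M' π (pk15_chart R ({g'} : Set ↥(modularFunctionFieldFullC K M'))))
    (hB₁ : ∀ y ∈ pk15_chart R ({g} : Set ↥(modularFunctionFieldFullC K (M' * q * q))), y ∈ (cm85_Vinf (K := K) (M' * q * q) hπ).toSubring)
    (hB₂ : ∀ y ∈ pk15_chart R ({g} : Set ↥(modularFunctionFieldFullC K (M' * q * q))), y ∈ (v2g64_V2 (algebraMap K Kbar) M' q hq hM' hπ hqπ).toSubring)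
    (hB₃ : ∀ y ∈ pk15_chart R ({g} : Set ↥(modularFunctionFieldFullC K (M' * q * q))), y ∈ (nsb86_V3 (K := K) M' q hq hM' hπ).toSubring)
    (hsat : ∀ y ∈ pk15_chart R ({g} : Set ↥(modularFunctionFieldFullC K (M' * q * q))),
      (algebraMap R ↥(modularFunctionFieldFullC K (M' * q * q)) π)⁻¹ * y ∈ (cm85_Vinf (K := K) (M' * q * q) hπ).toSubring →
      (algebraMap R ↥(modularFunctionFieldFullC K (M' * q * q)) π)⁻¹ * y ∈
        (v2g64_V2 (algebraMap K Kbar) M' q hq hM' hπ hqπ).toSubring →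
      (algebraMap R ↥(modularFunctionFieldFullC K (M' * q * q)) π)⁻¹ * y ∈ (nsb86_V3 (K := K) M' q hq hM' hπ).toSubring →
      (algebraMap R ↥(modularFunctionFieldFullC K (M' * q * q)) π)⁻¹ * y ∈ pk15_chart R ({g} : Set ↥(modularFunctionFieldFullC K (M' * q * q)))) :
    ∀ n : Ideal (pk15_chart R ({g} : Set ↥(modularFunctionFieldFullC K (M' * q * q)))), n.IsMaximal →
      algebraMap R (pk15_chart R ({g} : Set ↥(modularFunctionFieldFullC K (M' * q * q)))) π ∈ n →
      tl71_OnMid (v2g64_s K M' q) (pk15_chart R ({g} : Set ↥(modularFunctionFieldFullC K (M' * q * q))))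
        (v2g64_V2 (algebraMap K Kbar) M' q hq hM' hπ hqπ).toSubring n →
      ¬ sf79_OnBr π (pk15_chart R ({g} : Set ↥(modularFunctionFieldFullC K (M' * q * q))))
        (cm85_Vinf (K := K) (M' * q * q) hπ).toSubring n →
      ¬ sf79_OnBr π (pk15_chart R ({g} : Set ↥(modularFunctionFieldFullC K (M' * q * q))))
        (nsb86_V3 (K := K) M' q hq hM' hπ).toSubring n →
      (∃ s' b : ↥(pk15_chart R ({g} : Set ↥(modularFunctionFieldFullC K (M' * q * q)))), s' ∉ n ∧
        (s' : ↥(modularFunctionFieldFullC K (M' * q * q))) * rm90_j K (M' * q * q) =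
          (b : ↥(modularFunctionFieldFullC K (M' * q * q)))) →
      mc25_MidPrinAt (v2g64_s K M' q) (pk15_chart R ({g} : Set ↥(modularFunctionFieldFullC K (M' * q * q))))
        (v2g64_V2 (algebraMap K Kbar) M' q hq hM' hπ hqπ).toSubring n := by
  subst hg
  intro n hn hπn hmid h1 h3 hreg
  exact c2u16_core M' q hq hM' hπ hqπ h2M h3M _ _ hblk
    (fun x hx => (cm71_alpha_charts (R := R) (K := K) (M' * q) q (al97L_alpha K M' q g')).1 _
      ((cm71_alpha_charts (R := R) (K := K) M' q g').1 x hx))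
    hβB (c2u16_integral M' q g') (uv17_chart_intClosed _) hdich
    (fun x hx => c2u16_xR M' x (bz7_isIntegral_trans _ _
      (fun y hy => by rw [Set.mem_singleton_iff.mp hy]; exact hgint) x
      ((pk15_mem_chart _ _).mp hx)))
    hcoord hB₁ hB₂ hB₃ hsat n hn hπn hmid h1 h3 hreg

include hq hM' in
/-- **`hreg` of `mc25_tg_level2`, chart `{h}`** (literal shape), from the coordinate package at
the chart of level `M'`. -/
theorem c2u16_hreg_level2 {π : R} (hπ : Irreducible π) (hqπ : Associated ((q : ℕ) : R) π)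
    (hunit : ∀ n : ℕ, Nat.Coprime n q → IsUnit (n : R)) (h2 : 2 ∣ M')
    (h2M : nuTwo M' = 0) (h3M : nuThree M' = 0)
    (hcoord : c2u16_Coord M' π (pk15_chart R ({pk85_h2 K M' h2} : Set ↥(modularFunctionFieldFullC K M')))) :
    ∀ n : Ideal (pk15_chart R {pk85_h2 K (M' * q * q)
          (h2.trans ((dvd_mul_right M' q).trans (dvd_mul_right (M' * q) q)))}), n.IsMaximal →
      algebraMap R (pk15_chart R {pk85_h2 K (M' * q * q)
          (h2.trans ((dvd_mul_right M' q).trans (dvd_mul_right (M' * q) q)))}) π ∈ n →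
      tl71_OnMid (v2g64_s K M' q) (pk15_chart R {pk85_h2 K (M' * q * q)
          (h2.trans ((dvd_mul_right M' q).trans (dvd_mul_right (M' * q) q)))})
        (v2g64_V2 (algebraMap K Kbar) M' q hq hM' hπ hqπ).toSubring n →
      ¬ sf79_OnBr π (pk15_chart R {pk85_h2 K (M' * q * q)
          (h2.trans ((dvd_mul_right M' q).trans (dvd_mul_right (M' * q) q)))})
        (cm85_Vinf (K := K) (M' * q * q) hπ).toSubring n →
      ¬ sf79_OnBr π (pk15_chart R {pk85_h2 K (M' * q * q)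
          (h2.trans ((dvd_mul_right M' q).trans (dvd_mul_right (M' * q) q)))})
        (nsb86_V3 (K := K) M' q hq hM' hπ).toSubring n →
      (∃ s' b : ↥(pk15_chart R {pk85_h2 K (M' * q * q)
          (h2.trans ((dvd_mul_right M' q).trans (dvd_mul_right (M' * q) q)))}), s' ∉ n ∧
        (s' : ↥(modularFunctionFieldFullC K (M' * q * q))) * rm90_j K (M' * q * q) =
          (b : ↥(modularFunctionFieldFullC K (M' * q * q)))) →
      mc25_MidPrinAt (v2g64_s K M' q) (pk15_chart R {pk85_h2 K (M' * q * q)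
          (h2.trans ((dvd_mul_right M' q).trans (dvd_mul_right (M' * q) q)))})
        (v2g64_V2 (algebraMap K Kbar) M' q hq hM' hπ hqπ).toSubring n := by
  have hqR : ¬ IsUnit (q : R) := fun hu => hπ.not_isUnit (hqπ.isUnit hu)
  have hMu : IsUnit (M' : R) := hunit M' ((Nat.Prime.coprime_iff_not_dvd hq).mpr hM').symm
  have hq2 : q ≠ 2 := by
    rintro rfl
    exact hM' h2
  have hu2 : IsUnit (2 : R) := by
    have := hunit 2 ((Nat.coprime_primes Nat.prime_two hq).mpr (Ne.symm hq2))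
    simpa using this
  have hV₂ := v2g64_V2_alpha (algebraMap K Kbar) M' q hq hM' hπ hqπ
  have hπ₂ := v2g64_V2_pi (algebraMap K Kbar) M' q hq hM' hπ hqπ
  have hs := v2g64_V2_val (algebraMap K Kbar) M' q hq hM' hπ hqπ
  obtain ⟨-, ⟨-, hW, hsat1, hsat2, -⟩, -⟩ := fb85_frameV3_level2 (K := K) M' q hq hM' hπ hqR hMu
    h2 _ hV₂ hπ₂ hs
  have eh : c2u16_alpha K M' q (pk85_h2 K M' h2) = pk85_h2 K (M' * q * q)
      (h2.trans ((dvd_mul_right M' q).trans (dvd_mul_right (M' * q) q))) :=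
    Subtype.ext (by
      rw [c2u16_alpha_apply, al97L_alpha_coe, al97L_alpha_coe, pk85_h2_coe, pk85_h2_coe])
  have hH : s34i47c_IsHaupt K M' q (pk85_h2 K M' h2) := Or.inl ⟨hq2, h2, rfl⟩
  obtain ⟨hb1, hb2⟩ := cm71_beta_charts (R := R) (K := K) M' q hq hunit _ hH
  obtain ⟨hc1, hc2⟩ := cm71_beta_charts (R := R) (K := K) (M' * q) q hq hunit _
    (cm71_alpha_isHaupt M' q _ hH)
  exact c2u16_chart M' q hq hM' hπ hqπ h2M h3M (pk85_h2 K M' h2) _ eh
    (c2p74_haupt_int q M' _ hH) (rrb68_block_level2 M' hπ h2 hMu).1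
    (fun x hx => by rw [← eh]; exact hc1 _ (hb1 x hx))
    (fun n' hn' => ci22_dich_level2 M' h2 hu2 n') hcoord
    (fun x hx => (hW x (bz7_isIntegral_mono (fun y hy => Or.inl hy) x hx)).1.1)
    (fun x hx => (hW x (bz7_isIntegral_mono (fun y hy => Or.inl hy) x hx)).1.2)
    (fun x hx => (hW x (bz7_isIntegral_mono (fun y hy => Or.inl hy) x hx)).2)
    (fun x hx h1 h2 h3 => hsat1 x hx ⟨⟨h1, h2⟩, h3⟩)

include hq hM' in
/-- **`hreg` of `mc25_tg_level2`, chart `{h⁻¹}`** (literal shape), from the coordinate package at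
the chart of level `M'`. -/
theorem c2u16_hreg_level2_inv {π : R} (hπ : Irreducible π) (hqπ : Associated ((q : ℕ) : R) π)
    (hunit : ∀ n : ℕ, Nat.Coprime n q → IsUnit (n : R)) (h2 : 2 ∣ M')
    (h2M : nuTwo M' = 0) (h3M : nuThree M' = 0)
    (hcoord : c2u16_Coord M' π (pk15_chart R ({(pk85_h2 K M' h2)⁻¹} : Set ↥(modularFunctionFieldFullC K M')))) :
    ∀ n : Ideal (pk15_chart R {(pk85_h2 K (M' * q * q)
          (h2.trans ((dvd_mul_right M' q).trans (dvd_mul_right (M' * q) q))))⁻¹}), n.IsMaximal →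
      algebraMap R (pk15_chart R {(pk85_h2 K (M' * q * q)
          (h2.trans ((dvd_mul_right M' q).trans (dvd_mul_right (M' * q) q))))⁻¹}) π ∈ n →
      tl71_OnMid (v2g64_s K M' q) (pk15_chart R {(pk85_h2 K (M' * q * q)
          (h2.trans ((dvd_mul_right M' q).trans (dvd_mul_right (M' * q) q))))⁻¹})
        (v2g64_V2 (algebraMap K Kbar) M' q hq hM' hπ hqπ).toSubring n →
      ¬ sf79_OnBr π (pk15_chart R {(pk85_h2 K (M' * q * q)
          (h2.trans ((dvd_mul_right M' q).trans (dvd_mul_right (M' * q) q))))⁻¹})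
        (cm85_Vinf (K := K) (M' * q * q) hπ).toSubring n →
      ¬ sf79_OnBr π (pk15_chart R {(pk85_h2 K (M' * q * q)
          (h2.trans ((dvd_mul_right M' q).trans (dvd_mul_right (M' * q) q))))⁻¹})
        (nsb86_V3 (K := K) M' q hq hM' hπ).toSubring n →
      (∃ s' b : ↥(pk15_chart R {(pk85_h2 K (M' * q * q)
          (h2.trans ((dvd_mul_right M' q).trans (dvd_mul_right (M' * q) q))))⁻¹}), s' ∉ n ∧
        (s' : ↥(modularFunctionFieldFullC K (M' * q * q))) * rm90_j K (M' * q * q) =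
          (b : ↥(modularFunctionFieldFullC K (M' * q * q)))) →
      mc25_MidPrinAt (v2g64_s K M' q) (pk15_chart R {(pk85_h2 K (M' * q * q)
          (h2.trans ((dvd_mul_right M' q).trans (dvd_mul_right (M' * q) q))))⁻¹})
        (v2g64_V2 (algebraMap K Kbar) M' q hq hM' hπ hqπ).toSubring n := by
  have hqR : ¬ IsUnit (q : R) := fun hu => hπ.not_isUnit (hqπ.isUnit hu)
  have hMu : IsUnit (M' : R) := hunit M' ((Nat.Prime.coprime_iff_not_dvd hq).mpr hM').symm
  have hq2 : q ≠ 2 := by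
    rintro rfl
    exact hM' h2
  have hu2 : IsUnit (2 : R) := by
    have := hunit 2 ((Nat.coprime_primes Nat.prime_two hq).mpr (Ne.symm hq2))
    simpa using this
  have hV₂ := v2g64_V2_alpha (algebraMap K Kbar) M' q hq hM' hπ hqπ
  have hπ₂ := v2g64_V2_pi (algebraMap K Kbar) M' q hq hM' hπ hqπ
  have hs := v2g64_V2_val (algebraMap K Kbar) M' q hq hM' hπ hqπ
  obtain ⟨-, ⟨-, hW, hsat1, hsat2, -⟩, -⟩ := fb85_frameV3_level2 (K := K) M' q hq hM' hπ hqR hMu
    h2 _ hV₂ hπ₂ hs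
  have eh : c2u16_alpha K M' q (pk85_h2 K M' h2) = pk85_h2 K (M' * q * q)
      (h2.trans ((dvd_mul_right M' q).trans (dvd_mul_right (M' * q) q))) :=
    Subtype.ext (by
      rw [c2u16_alpha_apply, al97L_alpha_coe, al97L_alpha_coe, pk85_h2_coe, pk85_h2_coe])
  have hH : s34i47c_IsHaupt K M' q (pk85_h2 K M' h2) := Or.inl ⟨hq2, h2, rfl⟩
  obtain ⟨hb1, hb2⟩ := cm71_beta_charts (R := R) (K := K) M' q hq hunit _ hH
  obtain ⟨hc1, hc2⟩ := cm71_beta_charts (R := R) (K := K) (M' * q) q hq hunit _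
    (cm71_alpha_isHaupt M' q _ hH)
  have eh' : c2u16_alpha K M' q (pk85_h2 K M' h2)⁻¹ = (pk85_h2 K (M' * q * q)
      (h2.trans ((dvd_mul_right M' q).trans (dvd_mul_right (M' * q) q))))⁻¹ := by
    rw [map_inv₀, eh]
  exact c2u16_chart M' q hq hM' hπ hqπ h2M h3M (pk85_h2 K M' h2)⁻¹ _ eh'
    (c2u16_inv_int2 hu2 _ _ (ci22_h2_ne_zero (K := K) M' h2) (pk85_h2_rel K M' h2))
    (rrb68_block_level2 M' hπ h2 hMu).2
    (fun x hx => by rw [← eh]; exact hc2 _ (hb2 x hx))
    (fun n' hn' => ci22_dich_level2_inv M' h2 n') hcoord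
    (fun x hx => (hW x (bz7_isIntegral_mono (fun y hy => Or.inr hy) x hx)).1.1)
    (fun x hx => (hW x (bz7_isIntegral_mono (fun y hy => Or.inr hy) x hx)).1.2)
    (fun x hx => (hW x (bz7_isIntegral_mono (fun y hy => Or.inr hy) x hx)).2)
    (fun x hx h1 h2 h3 => hsat2 x hx ⟨⟨h1, h2⟩, h3⟩)

include hq hM' in
/-- **`hreg` of `mc25_tg_level3`, chart `{h}`** (literal shape), from the coordinate package at
the chart of level `M'`. -/
theorem c2u16_hreg_level3 {π : R} (hπ : Irreducible π) (hqπ : Associated ((q : ℕ) : R) π)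
    (hunit : ∀ n : ℕ, Nat.Coprime n q → IsUnit (n : R)) (h3 : 3 ∣ M')
    (h2M : nuTwo M' = 0) (h3M : nuThree M' = 0)
    (hcoord : c2u16_Coord M' π (pk15_chart R ({pk85_h3 K M' h3} : Set ↥(modularFunctionFieldFullC K M')))) :
    ∀ n : Ideal (pk15_chart R {pk85_h3 K (M' * q * q)
          (h3.trans ((dvd_mul_right M' q).trans (dvd_mul_right (M' * q) q)))}), n.IsMaximal →
      algebraMap R (pk15_chart R {pk85_h3 K (M' * q * q)
          (h3.trans ((dvd_mul_right M' q).trans (dvd_mul_right (M' * q) q)))}) π ∈ n →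
      tl71_OnMid (v2g64_s K M' q) (pk15_chart R {pk85_h3 K (M' * q * q)
          (h3.trans ((dvd_mul_right M' q).trans (dvd_mul_right (M' * q) q)))})
        (v2g64_V2 (algebraMap K Kbar) M' q hq hM' hπ hqπ).toSubring n →
      ¬ sf79_OnBr π (pk15_chart R {pk85_h3 K (M' * q * q)
          (h3.trans ((dvd_mul_right M' q).trans (dvd_mul_right (M' * q) q)))})
        (cm85_Vinf (K := K) (M' * q * q) hπ).toSubring n →
      ¬ sf79_OnBr π (pk15_chart R {pk85_h3 K (M' * q * q)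
          (h3.trans ((dvd_mul_right M' q).trans (dvd_mul_right (M' * q) q)))})
        (nsb86_V3 (K := K) M' q hq hM' hπ).toSubring n →
      (∃ s' b : ↥(pk15_chart R {pk85_h3 K (M' * q * q)
          (h3.trans ((dvd_mul_right M' q).trans (dvd_mul_right (M' * q) q)))}), s' ∉ n ∧
        (s' : ↥(modularFunctionFieldFullC K (M' * q * q))) * rm90_j K (M' * q * q) =
          (b : ↥(modularFunctionFieldFullC K (M' * q * q)))) →
      mc25_MidPrinAt (v2g64_s K M' q) (pk15_chart R {pk85_h3 K (M' * q * q)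
          (h3.trans ((dvd_mul_right M' q).trans (dvd_mul_right (M' * q) q)))})
        (v2g64_V2 (algebraMap K Kbar) M' q hq hM' hπ hqπ).toSubring n := by
  have hqR : ¬ IsUnit (q : R) := fun hu => hπ.not_isUnit (hqπ.isUnit hu)
  have hMu : IsUnit (M' : R) := hunit M' ((Nat.Prime.coprime_iff_not_dvd hq).mpr hM').symm
  have hq3 : q ≠ 3 := by
    rintro rfl
    exact hM' h3
  have hu3 : IsUnit (3 : R) := by
    have := hunit 3 ((Nat.coprime_primes Nat.prime_three hq).mpr (Ne.symm hq3))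
    simpa using this
  have hV₂ := v2g64_V2_alpha (algebraMap K Kbar) M' q hq hM' hπ hqπ
  have hπ₂ := v2g64_V2_pi (algebraMap K Kbar) M' q hq hM' hπ hqπ
  have hs := v2g64_V2_val (algebraMap K Kbar) M' q hq hM' hπ hqπ
  obtain ⟨-, ⟨-, hW, hsat1, hsat2, -⟩, -⟩ := fb85_frameV3_level3 (K := K) M' q hq hM' hπ hqR hMu
    h3 _ hV₂ hπ₂ hs
  have eh : c2u16_alpha K M' q (pk85_h3 K M' h3) = pk85_h3 K (M' * q * q)
      (h3.trans ((dvd_mul_right M' q).trans (dvd_mul_right (M' * q) q))) :=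
    Subtype.ext (by
      rw [c2u16_alpha_apply, al97L_alpha_coe, al97L_alpha_coe, pk85_h3_coe, pk85_h3_coe])
  have hH : s34i47c_IsHaupt K M' q (pk85_h3 K M' h3) := Or.inr ⟨hq3, h3, rfl⟩
  obtain ⟨hb1, hb2⟩ := cm71_beta_charts (R := R) (K := K) M' q hq hunit _ hH
  obtain ⟨hc1, hc2⟩ := cm71_beta_charts (R := R) (K := K) (M' * q) q hq hunit _
    (cm71_alpha_isHaupt M' q _ hH)
  exact c2u16_chart M' q hq hM' hπ hqπ h2M h3M (pk85_h3 K M' h3) _ eh
    (c2p74_haupt_int q M' _ hH) (rrb68_block_level3 M' hπ h3 hMu).1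
    (fun x hx => by rw [← eh]; exact hc1 _ (hb1 x hx))
    (fun n' hn' => ci22_dich_level3 M' h3 hu3 n') hcoord
    (fun x hx => (hW x (bz7_isIntegral_mono (fun y hy => Or.inl hy) x hx)).1.1)
    (fun x hx => (hW x (bz7_isIntegral_mono (fun y hy => Or.inl hy) x hx)).1.2)
    (fun x hx => (hW x (bz7_isIntegral_mono (fun y hy => Or.inl hy) x hx)).2)
    (fun x hx h1 h2 h3 => hsat1 x hx ⟨⟨h1, h2⟩, h3⟩)

include hq hM' in
/-- **`hreg` of `mc25_tg_level3`, chart `{h⁻¹}`** (literal shape), from the coordinate package at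
the chart of level `M'`. -/
theorem c2u16_hreg_level3_inv {π : R} (hπ : Irreducible π) (hqπ : Associated ((q : ℕ) : R) π)
    (hunit : ∀ n : ℕ, Nat.Coprime n q → IsUnit (n : R)) (h3 : 3 ∣ M')
    (h2M : nuTwo M' = 0) (h3M : nuThree M' = 0)
    (hcoord : c2u16_Coord M' π (pk15_chart R ({(pk85_h3 K M' h3)⁻¹} : Set ↥(modularFunctionFieldFullC K M')))) :
    ∀ n : Ideal (pk15_chart R {(pk85_h3 K (M' * q * q)
          (h3.trans ((dvd_mul_right M' q).trans (dvd_mul_right (M' * q) q))))⁻¹}), n.IsMaximal →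
      algebraMap R (pk15_chart R {(pk85_h3 K (M' * q * q)
          (h3.trans ((dvd_mul_right M' q).trans (dvd_mul_right (M' * q) q))))⁻¹}) π ∈ n →
      tl71_OnMid (v2g64_s K M' q) (pk15_chart R {(pk85_h3 K (M' * q * q)
          (h3.trans ((dvd_mul_right M' q).trans (dvd_mul_right (M' * q) q))))⁻¹})
        (v2g64_V2 (algebraMap K Kbar) M' q hq hM' hπ hqπ).toSubring n →
      ¬ sf79_OnBr π (pk15_chart R {(pk85_h3 K (M' * q * q)
          (h3.trans ((dvd_mul_right M' q).trans (dvd_mul_right (M' * q) q))))⁻¹})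
        (cm85_Vinf (K := K) (M' * q * q) hπ).toSubring n →
      ¬ sf79_OnBr π (pk15_chart R {(pk85_h3 K (M' * q * q)
          (h3.trans ((dvd_mul_right M' q).trans (dvd_mul_right (M' * q) q))))⁻¹})
        (nsb86_V3 (K := K) M' q hq hM' hπ).toSubring n →
      (∃ s' b : ↥(pk15_chart R {(pk85_h3 K (M' * q * q)
          (h3.trans ((dvd_mul_right M' q).trans (dvd_mul_right (M' * q) q))))⁻¹}), s' ∉ n ∧
        (s' : ↥(modularFunctionFieldFullC K (M' * q * q))) * rm90_j K (M' * q * q) =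
          (b : ↥(modularFunctionFieldFullC K (M' * q * q)))) →
      mc25_MidPrinAt (v2g64_s K M' q) (pk15_chart R {(pk85_h3 K (M' * q * q)
          (h3.trans ((dvd_mul_right M' q).trans (dvd_mul_right (M' * q) q))))⁻¹})
        (v2g64_V2 (algebraMap K Kbar) M' q hq hM' hπ hqπ).toSubring n := by
  have hqR : ¬ IsUnit (q : R) := fun hu => hπ.not_isUnit (hqπ.isUnit hu)
  have hMu : IsUnit (M' : R) := hunit M' ((Nat.Prime.coprime_iff_not_dvd hq).mpr hM').symm
  have hq3 : q ≠ 3 := by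
    rintro rfl
    exact hM' h3
  have hu3 : IsUnit (3 : R) := by
    have := hunit 3 ((Nat.coprime_primes Nat.prime_three hq).mpr (Ne.symm hq3))
    simpa using this
  have hV₂ := v2g64_V2_alpha (algebraMap K Kbar) M' q hq hM' hπ hqπ
  have hπ₂ := v2g64_V2_pi (algebraMap K Kbar) M' q hq hM' hπ hqπ
  have hs := v2g64_V2_val (algebraMap K Kbar) M' q hq hM' hπ hqπ
  obtain ⟨-, ⟨-, hW, hsat1, hsat2, -⟩, -⟩ := fb85_frameV3_level3 (K := K) M' q hq hM' hπ hqR hMu
    h3 _ hV₂ hπ₂ hs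
  have eh : c2u16_alpha K M' q (pk85_h3 K M' h3) = pk85_h3 K (M' * q * q)
      (h3.trans ((dvd_mul_right M' q).trans (dvd_mul_right (M' * q) q))) :=
    Subtype.ext (by
      rw [c2u16_alpha_apply, al97L_alpha_coe, al97L_alpha_coe, pk85_h3_coe, pk85_h3_coe])
  have hH : s34i47c_IsHaupt K M' q (pk85_h3 K M' h3) := Or.inr ⟨hq3, h3, rfl⟩
  obtain ⟨hb1, hb2⟩ := cm71_beta_charts (R := R) (K := K) M' q hq hunit _ hH
  obtain ⟨hc1, hc2⟩ := cm71_beta_charts (R := R) (K := K) (M' * q) q hq hunit _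
    (cm71_alpha_isHaupt M' q _ hH)
  have eh' : c2u16_alpha K M' q (pk85_h3 K M' h3)⁻¹ = (pk85_h3 K (M' * q * q)
      (h3.trans ((dvd_mul_right M' q).trans (dvd_mul_right (M' * q) q))))⁻¹ := by
    rw [map_inv₀, eh]
  exact c2u16_chart M' q hq hM' hπ hqπ h2M h3M (pk85_h3 K M' h3)⁻¹ _ eh'
    (c2u16_inv_int3 hu3 _ _ (ci22_h3_ne_zero (K := K) M' h3) (pk85_h3_rel K M' h3))
    (rrb68_block_level3 M' hπ h3 hMu).2
    (fun x hx => by rw [← eh]; exact hc2 _ (hb2 x hx))
    (fun n' hn' => ci22_dich_level3_inv M' h3 n') hcoord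
    (fun x hx => (hW x (bz7_isIntegral_mono (fun y hy => Or.inr hy) x hx)).1.1)
    (fun x hx => (hW x (bz7_isIntegral_mono (fun y hy => Or.inr hy) x hx)).1.2)
    (fun x hx => (hW x (bz7_isIntegral_mono (fun y hy => Or.inr hy) x hx)).2)
    (fun x hx h1 h2 h3 => hsat2 x hx ⟨⟨h1, h2⟩, h3⟩)

end c2u16_chart

end Fermat.Agent.S36
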