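import Mathlib
import Fermat.Agent.S34.SpecFibre79

/-!
# S36 lab, row 600 C-C2 (helper70): units and the case split at a `C_2`-only point, chart-generic

Twin of the chart half (P3) of the den-form composite (`c2h66_prinAt` / `c2x11_mid_dvd`): the
data `(ag, tg)` and the unit conditions on the Hauptmoduln, written in the language of the local
ring `sf79_loc B n` and its maximal ideal `sf79_nmem B n` (SpecFibre79), so that ONE statement
serves all four canonical charts (also the inverse charts and `h₃` on the `h₂`-chart, where the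
Hauptmoduln are not elements of `B`).  Imports: Mathlib + `S34/SpecFibre79` only.

`J`, `t` (resp. `t₂`, `t₃`) are elements of the field `F` lying in `B_n`, related by
`J * t ^ 2 = (t + 256) ^ 3` (level 2) resp. `J * t ^ 3 = (t + 27) * (t + 243) ^ 3` (level 3).

* `c2u70_inv_mem`, `c2u70_nmem_or`, `c2u70_nmem_of_pow`, `c2u70_nmem_sub` : `B_n` is local.
* `c2u70_unit_two` / `c2u70_unit_three` : `t` is a unit at `n` when `2` (resp. `3`) is.
* `c2u70_ell_two` : `t + 64 ∈ n B_n ⟹ J - 1728 ∈ n B_n`;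
  `c2u70_ell_three` : `t + 27 ∈ n B_n ⟹ J ∈ n B_n`.
* `c2u70_cover` : `2`, `3` units at `n` ⟹ `t₂ + 64` is a unit at `n` or `t₃ + 27` is;
  `c2u70_cover_q3` : `3 ∈ n B_n`, `J` a unit at `n` ⟹ `t₂ + 64` is a unit at `n`;
  `c2u70_cover_q2` : `J` a unit at `n` ⟹ `t₃ + 27` is a unit at `n`.
* `c2u70_ag_tg` : `y ∈ B_n ⟹ ∃ ag tg : B, tg ∉ n ∧ y * tg = ag`.
* `c2u70_ag_tg_two` / `c2u70_ag_tg_three` : for a ring hom `φ : F' →+* F` and `x : F'` with
  `t = φ x` a unit at `n`, `t + 64` (resp. `t + 27`) a unit at `n` and `Ū ∈ B_n`: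
  `∃ ag tg : B, tg ∉ n ∧ φ ((x ^ 4 * (x + 64) ^ 3)⁻¹) ^ k * Ū * tg = ag`
  (resp. `(x ^ 3 * (x + 27) ^ 4)⁻¹`) — literally the `(ag, tg)` input of `c2x11_mid_dvd` with
  `g = (x ^ 4 * (x + 64) ^ 3)⁻¹`, `φ = α₂ ∘ α₁`, `k = q - 1`.
* `c2u70_ag_tg_two_of_rel` / `c2u70_ag_tg_three_of_rel` : the same from the relation with `J`.
* bridges: `c2u70_mem_loc_of_clear`, `c2u70_not_nmem_of_clear`, `c2u70_not_nmem_coe`,
  `c2u70_not_nmem_of_isUnit`, `c2u70_nmem_algebraMap`.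

All names are prefixed `c2u70_`.
-/

set_option autoImplicit false
set_option linter.style.longLine false
set_option linter.unusedVariables false
set_option linter.unusedSectionVars false

namespace Fermat.Agent.S36

open Fermat.Agent.S34

section C2U70

variable {R F : Type*} [CommRing R] [Field F] [Algebra R F]

/-! ## 1. `B_n` is a local ring -/

theorem c2u70_nmem_zero (B : Subalgebra R F) (n : Ideal B) [hn : n.IsPrime] :
    sf79_nmem B n (0 : F) :=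
  ⟨1, (Ideal.ne_top_iff_one n).mp hn.ne_top, 0, n.zero_mem, by simp⟩

/-- An element of `B_n` outside `n B_n` is a unit of `B_n`. -/
theorem c2u70_inv_mem (B : Subalgebra R F) (n : Ideal B) [hn : n.IsPrime] (x : F)
    (hx : x ∈ sf79_loc B n) (hxn : ¬ sf79_nmem B n x) : x⁻¹ ∈ sf79_loc B n := by
  obtain ⟨s, hs, hsx⟩ := hx
  have hbn : (⟨_, hsx⟩ : B) ∉ n := fun h => hxn ⟨s, hs, ⟨_, hsx⟩, h, rfl⟩
  have hx0 : x ≠ 0 := by
    rintro rfl
    exact hxn (c2u70_nmem_zero B n)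
  refine ⟨⟨_, hsx⟩, hbn, ?_⟩
  show (s : F) * x * x⁻¹ ∈ B
  rw [mul_assoc, mul_inv_cancel₀ hx0, mul_one]
  exact s.2

/-- A product in `n B_n` has a factor in `n B_n`. -/
theorem c2u70_nmem_or (B : Subalgebra R F) (n : Ideal B) [hn : n.IsPrime] (x y : F)
    (hx : x ∈ sf79_loc B n) (hy : y ∈ sf79_loc B n) (h : sf79_nmem B n (x * y)) :
    sf79_nmem B n x ∨ sf79_nmem B n y := by
  by_contra hcon
  rw [not_or] at hcon
  have hx' := c2u70_inv_mem B n x hx hcon.1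
  have hy' := c2u70_inv_mem B n y hy hcon.2
  have hx0 : x ≠ 0 := fun h0 => hcon.1 (h0 ▸ c2u70_nmem_zero B n)
  have hy0 : y ≠ 0 := fun h0 => hcon.2 (h0 ▸ c2u70_nmem_zero B n)
  have h1 := sf79_nmem_mul B n (x⁻¹ * y⁻¹) (x * y) ((sf79_loc B n).mul_mem hx' hy') h
  have e : x⁻¹ * y⁻¹ * (x * y) = 1 := by field_simp
  rw [e] at h1
  exact sf79_not_nmem_one B n h1

/-- A power in `n B_n` has its base in `n B_n`. -/
theorem c2u70_nmem_of_pow (B : Subalgebra R F) (n : Ideal B) [hn : n.IsPrime] (x : F)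
    (hx : x ∈ sf79_loc B n) (k : ℕ) (h : sf79_nmem B n (x ^ k)) : sf79_nmem B n x := by
  induction k with
  | zero =>
    rw [pow_zero] at h
    exact absurd h (sf79_not_nmem_one B n)
  | succ k ih =>
    rw [pow_succ] at h
    rcases c2u70_nmem_or B n (x ^ k) x (pow_mem hx k) hx h with h' | h'
    · exact ih h'
    · exact h'

theorem c2u70_nmem_sub (B : Subalgebra R F) (n : Ideal B) [hn : n.IsPrime] (x y : F)
    (hx : sf79_nmem B n x) (hy : sf79_nmem B n y) : sf79_nmem B n (x - y) := by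
  have h1 : sf79_nmem B n ((-1 : F) * y) :=
    sf79_nmem_mul B n (-1) y (neg_mem (one_mem _)) hy
  have h2 := sf79_nmem_add B n x ((-1 : F) * y) hx h1
  have e : x + (-1 : F) * y = x - y := by ring
  rwa [e] at h2

/-! ## 2. Bridges to the chart language -/

/-- `s * x = b`, `s ∉ n` (the literal "regular at `n`" clause) gives `x ∈ B_n`. -/
theorem c2u70_mem_loc_of_clear (B : Subalgebra R F) (n : Ideal B) [hn : n.IsPrime] (s b : B)
    (hs : s ∉ n) (x : F) (h : (s : F) * x = (b : F)) : x ∈ sf79_loc B n :=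
  ⟨s, hs, by rw [h]; exact b.2⟩

/-- An element of `B` outside `n` is not in `n B_n`. -/
theorem c2u70_not_nmem_coe (B : Subalgebra R F) (n : Ideal B) [hn : n.IsPrime] (b : B)
    (hb : b ∉ n) : ¬ sf79_nmem B n (b : F) :=
  fun h => hb (sf79_mem_of_nmem B n b h)

/-- `s * x ∈ B \ n`, `s ∉ n` gives: `x` is not in `n B_n` (the shape of `sqi75_j_unit_at`). -/
theorem c2u70_not_nmem_of_clear (B : Subalgebra R F) (n : Ideal B) [hn : n.IsPrime] (s : B)
    (x : F) (hsx : (s : F) * x ∈ B) (h : (⟨_, hsx⟩ : B) ∉ n) : ¬ sf79_nmem B n x := by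
  intro hx
  apply h
  apply sf79_mem_of_nmem B n
  exact sf79_nmem_mul B n (s : F) x (sf79_le_loc B n _ s.2) hx

/-- A unit of `R` is a unit at `n`. -/
theorem c2u70_not_nmem_of_isUnit (B : Subalgebra R F) (n : Ideal B) [hn : n.IsPrime] (r : R)
    (hr : IsUnit r) : ¬ sf79_nmem B n (algebraMap R F r) := by
  intro h
  obtain ⟨r', hr'⟩ := hr.exists_right_inv
  have h1 := sf79_nmem_mul B n (algebraMap R F r') (algebraMap R F r)
    (sf79_le_loc B n _ (B.algebraMap_mem r')) h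
  have e : algebraMap R F r' * algebraMap R F r = 1 := by
    rw [← map_mul, mul_comm, hr', map_one]
  rw [e] at h1
  exact sf79_not_nmem_one B n h1

/-- An element of `R` whose image lies in `n` is in `n B_n`. -/
theorem c2u70_nmem_algebraMap (B : Subalgebra R F) (n : Ideal B) [hn : n.IsPrime] (r : R)
    (hr : algebraMap R B r ∈ n) : sf79_nmem B n (algebraMap R F r) :=
  sf79_nmem_of_mem B n (algebraMap R B r) hr

/-! ## 3. The Hauptmoduln at `n` -/

/-- **Level 2**: `J t² = (t + 256)³` and `2` a unit at `n` make `t` a unit at `n`. -/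
theorem c2u70_unit_two (B : Subalgebra R F) (n : Ideal B) [hn : n.IsPrime] (J t : F)
    (hJ : J ∈ sf79_loc B n) (ht : t ∈ sf79_loc B n) (hrel : J * t ^ 2 = (t + 256) ^ 3)
    (h2 : ¬ sf79_nmem B n (2 : F)) : ¬ sf79_nmem B n t := by
  intro hnt
  have h2loc : (2 : F) ∈ sf79_loc B n := ofNat_mem _ 2
  have h256 : (256 : F) ∈ sf79_loc B n := ofNat_mem _ 256
  have h1 : sf79_nmem B n (J * t ^ 2) := by
    have e : J * t ^ 2 = (J * t) * t := by ring
    rw [e]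
    exact sf79_nmem_mul B n (J * t) t (mul_mem hJ ht) hnt
  rw [hrel] at h1
  have h3 : sf79_nmem B n (t + 256) := c2u70_nmem_of_pow B n (t + 256) (add_mem ht h256) 3 h1
  have h4 : sf79_nmem B n (256 : F) := by
    have h := c2u70_nmem_sub B n _ _ h3 hnt
    have e : t + 256 - t = 256 := by ring
    rwa [e] at h
  have e8 : (256 : F) = 2 ^ 8 := by norm_num
  rw [e8] at h4
  exact h2 (c2u70_nmem_of_pow B n 2 h2loc 8 h4)

/-- **Level 3**: `J t³ = (t + 27)(t + 243)³` and `3` a unit at `n` make `t` a unit at `n`. -/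
theorem c2u70_unit_three (B : Subalgebra R F) (n : Ideal B) [hn : n.IsPrime] (J t : F)
    (hJ : J ∈ sf79_loc B n) (ht : t ∈ sf79_loc B n)
    (hrel : J * t ^ 3 = (t + 27) * (t + 243) ^ 3)
    (h3 : ¬ sf79_nmem B n (3 : F)) : ¬ sf79_nmem B n t := by
  intro hnt
  have h3loc : (3 : F) ∈ sf79_loc B n := ofNat_mem _ 3
  have h27 : (27 : F) ∈ sf79_loc B n := ofNat_mem _ 27
  have h243 : (243 : F) ∈ sf79_loc B n := ofNat_mem _ 243
  have h1 : sf79_nmem B n (J * t ^ 3) := by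
    have e : J * t ^ 3 = (J * t ^ 2) * t := by ring
    rw [e]
    exact sf79_nmem_mul B n (J * t ^ 2) t (mul_mem hJ (pow_mem ht 2)) hnt
  rw [hrel] at h1
  rcases c2u70_nmem_or B n (t + 27) ((t + 243) ^ 3) (add_mem ht h27)
    (pow_mem (add_mem ht h243) 3) h1 with h | h
  · have h4 : sf79_nmem B n (27 : F) := by
      have h' := c2u70_nmem_sub B n _ _ h hnt
      have e : t + 27 - t = 27 := by ring
      rwa [e] at h'
    have e3 : (27 : F) = 3 ^ 3 := by norm_num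
    rw [e3] at h4
    exact h3 (c2u70_nmem_of_pow B n 3 h3loc 3 h4)
  · have h5 : sf79_nmem B n (t + 243) :=
      c2u70_nmem_of_pow B n (t + 243) (add_mem ht h243) 3 h
    have h4 : sf79_nmem B n (243 : F) := by
      have h' := c2u70_nmem_sub B n _ _ h5 hnt
      have e : t + 243 - t = 243 := by ring
      rwa [e] at h'
    have e3 : (243 : F) = 3 ^ 5 := by norm_num
    rw [e3] at h4
    exact h3 (c2u70_nmem_of_pow B n 3 h3loc 5 h4)

/-- **Level 2, the elliptic point**: `t + 64 ∈ n B_n` forces `J - 1728 ∈ n B_n`. -/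
theorem c2u70_ell_two (B : Subalgebra R F) (n : Ideal B) [hn : n.IsPrime] (J t : F)
    (hJ : J ∈ sf79_loc B n) (ht : t ∈ sf79_loc B n) (hrel : J * t ^ 2 = (t + 256) ^ 3)
    (h2 : ¬ sf79_nmem B n (2 : F)) (h64 : sf79_nmem B n (t + 64)) :
    sf79_nmem B n (J - 1728) := by
  have htu := c2u70_unit_two B n J t hJ ht hrel h2
  have h512 : (512 : F) ∈ sf79_loc B n := ofNat_mem _ 512
  have h1728 : (1728 : F) ∈ sf79_loc B n := ofNat_mem _ 1728
  have e : (J - 1728) * t ^ 2 = (t - 512) ^ 2 * (t + 64) := by linear_combination hrel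
  have h1 : sf79_nmem B n ((J - 1728) * t ^ 2) := by
    rw [e]
    exact sf79_nmem_mul B n ((t - 512) ^ 2) (t + 64) (pow_mem (sub_mem ht h512) 2) h64
  rcases c2u70_nmem_or B n (J - 1728) (t ^ 2) (sub_mem hJ h1728) (pow_mem ht 2) h1 with h | h
  · exact h
  · exact absurd (c2u70_nmem_of_pow B n t ht 2 h) htu

/-- **Level 3, the elliptic point**: `t + 27 ∈ n B_n` forces `J ∈ n B_n`. -/
theorem c2u70_ell_three (B : Subalgebra R F) (n : Ideal B) [hn : n.IsPrime] (J t : F)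
    (hJ : J ∈ sf79_loc B n) (ht : t ∈ sf79_loc B n)
    (hrel : J * t ^ 3 = (t + 27) * (t + 243) ^ 3)
    (h3 : ¬ sf79_nmem B n (3 : F)) (h27 : sf79_nmem B n (t + 27)) : sf79_nmem B n J := by
  have htu := c2u70_unit_three B n J t hJ ht hrel h3
  have h243 : (243 : F) ∈ sf79_loc B n := ofNat_mem _ 243
  have h1 : sf79_nmem B n (J * t ^ 3) := by
    rw [hrel, mul_comm]
    exact sf79_nmem_mul B n ((t + 243) ^ 3) (t + 27) (pow_mem (add_mem ht h243) 3) h27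
  rcases c2u70_nmem_or B n J (t ^ 3) hJ (pow_mem ht 3) h1 with h | h
  · exact h
  · exact absurd (c2u70_nmem_of_pow B n t ht 3 h) htu

/-- **The cover (`q ≥ 5`)**: if `2` and `3` are units at `n`, then `t₂ + 64` or `t₃ + 27` is a
unit at `n`. -/
theorem c2u70_cover (B : Subalgebra R F) (n : Ideal B) [hn : n.IsPrime] (J t₂ t₃ : F)
    (hJ : J ∈ sf79_loc B n) (ht₂ : t₂ ∈ sf79_loc B n) (ht₃ : t₃ ∈ sf79_loc B n)
    (hrel₂ : J * t₂ ^ 2 = (t₂ + 256) ^ 3) (hrel₃ : J * t₃ ^ 3 = (t₃ + 27) * (t₃ + 243) ^ 3)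
    (h2 : ¬ sf79_nmem B n (2 : F)) (h3 : ¬ sf79_nmem B n (3 : F)) :
    ¬ sf79_nmem B n (t₂ + 64) ∨ ¬ sf79_nmem B n (t₃ + 27) := by
  by_contra hcon
  rw [not_or, not_not, not_not] at hcon
  have hJ1 := c2u70_ell_two B n J t₂ hJ ht₂ hrel₂ h2 hcon.1
  have hJ0 := c2u70_ell_three B n J t₃ hJ ht₃ hrel₃ h3 hcon.2
  have h2loc : (2 : F) ∈ sf79_loc B n := ofNat_mem _ 2
  have h3loc : (3 : F) ∈ sf79_loc B n := ofNat_mem _ 3
  have h1728 : sf79_nmem B n (1728 : F) := by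
    have h := c2u70_nmem_sub B n _ _ hJ0 hJ1
    have e : J - (J - 1728) = 1728 := by ring
    rwa [e] at h
  have e : (1728 : F) = 2 ^ 6 * 3 ^ 3 := by norm_num
  rw [e] at h1728
  rcases c2u70_nmem_or B n (2 ^ 6) (3 ^ 3) (pow_mem h2loc 6) (pow_mem h3loc 3) h1728 with h | h
  · exact h2 (c2u70_nmem_of_pow B n 2 h2loc 6 h)
  · exact h3 (c2u70_nmem_of_pow B n 3 h3loc 3 h)

/-- **The cover for `q = 3`**: `3 ∈ n B_n`, `J` a unit at `n`, `2` a unit at `n` ⟹ `t₂ + 64` is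
a unit at `n`. -/
theorem c2u70_cover_q3 (B : Subalgebra R F) (n : Ideal B) [hn : n.IsPrime] (J t₂ : F)
    (hJ : J ∈ sf79_loc B n) (ht₂ : t₂ ∈ sf79_loc B n)
    (hrel₂ : J * t₂ ^ 2 = (t₂ + 256) ^ 3)
    (h2 : ¬ sf79_nmem B n (2 : F)) (hq3 : sf79_nmem B n (3 : F))
    (hJu : ¬ sf79_nmem B n J) : ¬ sf79_nmem B n (t₂ + 64) := by
  intro h
  have hJ1 := c2u70_ell_two B n J t₂ hJ ht₂ hrel₂ h2 h
  have h576 : (576 : F) ∈ sf79_loc B n := ofNat_mem _ 576
  have h1728 : sf79_nmem B n (1728 : F) := by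
    have h' := sf79_nmem_mul B n 576 3 h576 hq3
    have e : (576 : F) * 3 = 1728 := by norm_num
    rwa [e] at h'
  apply hJu
  have h' := sf79_nmem_add B n _ _ hJ1 h1728
  have e : J - 1728 + 1728 = J := by ring
  rwa [e] at h'

/-- **The cover for `q = 2`**: `J` a unit at `n`, `3` a unit at `n` ⟹ `t₃ + 27` is a unit at
`n`. -/
theorem c2u70_cover_q2 (B : Subalgebra R F) (n : Ideal B) [hn : n.IsPrime] (J t₃ : F)
    (hJ : J ∈ sf79_loc B n) (ht₃ : t₃ ∈ sf79_loc B n)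
    (hrel₃ : J * t₃ ^ 3 = (t₃ + 27) * (t₃ + 243) ^ 3)
    (h3 : ¬ sf79_nmem B n (3 : F)) (hJu : ¬ sf79_nmem B n J) :
    ¬ sf79_nmem B n (t₃ + 27) :=
  fun h => hJu (c2u70_ell_three B n J t₃ hJ ht₃ hrel₃ h3 h)

/-! ## 4. The data `(ag, tg)` -/

/-- An element of `B_n` is a fraction `ag / tg` with `tg ∉ n`. -/
theorem c2u70_ag_tg (B : Subalgebra R F) (n : Ideal B) [hn : n.IsPrime] (y : F)
    (hy : y ∈ sf79_loc B n) : ∃ ag tg : B, tg ∉ n ∧ y * (tg : F) = (ag : F) := by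
  obtain ⟨s, hs, hsy⟩ := hy
  exact ⟨⟨_, hsy⟩, s, hs, mul_comm _ _⟩

/-- **`(ag, tg)` for the level-2 Hauptmodul**: `g = (x⁴ (x + 64)³)⁻¹`, `t = φ x`. -/
theorem c2u70_ag_tg_two (B : Subalgebra R F) (n : Ideal B) [hn : n.IsPrime]
    {F' : Type*} [Field F'] (φ : F' →+* F) (x : F') (Ubar : F) (k : ℕ)
    (ht : φ x ∈ sf79_loc B n) (htu : ¬ sf79_nmem B n (φ x))
    (htc : ¬ sf79_nmem B n (φ x + 64)) (hU : Ubar ∈ sf79_loc B n) :
    ∃ ag tg : B, tg ∉ n ∧
      φ ((x ^ 4 * (x + 64) ^ 3)⁻¹) ^ k * Ubar * (tg : F) = (ag : F) := by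
  apply c2u70_ag_tg
  have h64 : (64 : F) ∈ sf79_loc B n := ofNat_mem _ 64
  have e : φ ((x ^ 4 * (x + 64) ^ 3)⁻¹) = (φ x)⁻¹ ^ 4 * (φ x + 64)⁻¹ ^ 3 := by
    rw [map_inv₀, map_mul, map_pow, map_pow, map_add, map_ofNat, mul_inv, inv_pow, inv_pow]
  rw [e]
  exact mul_mem (pow_mem (mul_mem (pow_mem (c2u70_inv_mem B n _ ht htu) 4)
    (pow_mem (c2u70_inv_mem B n _ (add_mem ht h64) htc) 3)) k) hU

/-- **`(ag, tg)` for the level-3 Hauptmodul**: `g = (x³ (x + 27)⁴)⁻¹`, `t = φ x`. -/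
theorem c2u70_ag_tg_three (B : Subalgebra R F) (n : Ideal B) [hn : n.IsPrime]
    {F' : Type*} [Field F'] (φ : F' →+* F) (x : F') (Ubar : F) (k : ℕ)
    (ht : φ x ∈ sf79_loc B n) (htu : ¬ sf79_nmem B n (φ x))
    (htc : ¬ sf79_nmem B n (φ x + 27)) (hU : Ubar ∈ sf79_loc B n) :
    ∃ ag tg : B, tg ∉ n ∧
      φ ((x ^ 3 * (x + 27) ^ 4)⁻¹) ^ k * Ubar * (tg : F) = (ag : F) := by
  apply c2u70_ag_tg
  have h27 : (27 : F) ∈ sf79_loc B n := ofNat_mem _ 27
  have e : φ ((x ^ 3 * (x + 27) ^ 4)⁻¹) = (φ x)⁻¹ ^ 3 * (φ x + 27)⁻¹ ^ 4 := by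
    rw [map_inv₀, map_mul, map_pow, map_pow, map_add, map_ofNat, mul_inv, inv_pow, inv_pow]
  rw [e]
  exact mul_mem (pow_mem (mul_mem (pow_mem (c2u70_inv_mem B n _ ht htu) 3)
    (pow_mem (c2u70_inv_mem B n _ (add_mem ht h27) htc) 4)) k) hU

/-- `(ag, tg)` for the level-2 Hauptmodul from the relation with `J` (`2` a unit at `n`,
`t + 64` a unit at `n`). -/
theorem c2u70_ag_tg_two_of_rel (B : Subalgebra R F) (n : Ideal B) [hn : n.IsPrime]
    {F' : Type*} [Field F'] (φ : F' →+* F) (x : F') (J Ubar : F) (k : ℕ)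
    (hJ : J ∈ sf79_loc B n) (ht : φ x ∈ sf79_loc B n)
    (hrel : J * φ x ^ 2 = (φ x + 256) ^ 3) (h2 : ¬ sf79_nmem B n (2 : F))
    (htc : ¬ sf79_nmem B n (φ x + 64)) (hU : Ubar ∈ sf79_loc B n) :
    ∃ ag tg : B, tg ∉ n ∧
      φ ((x ^ 4 * (x + 64) ^ 3)⁻¹) ^ k * Ubar * (tg : F) = (ag : F) :=
  c2u70_ag_tg_two B n φ x Ubar k ht (c2u70_unit_two B n J (φ x) hJ ht hrel h2) htc hU

/-- `(ag, tg)` for the level-3 Hauptmodul from the relation with `J` (`3` a unit at `n`,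
`t + 27` a unit at `n`). -/
theorem c2u70_ag_tg_three_of_rel (B : Subalgebra R F) (n : Ideal B) [hn : n.IsPrime]
    {F' : Type*} [Field F'] (φ : F' →+* F) (x : F') (J Ubar : F) (k : ℕ)
    (hJ : J ∈ sf79_loc B n) (ht : φ x ∈ sf79_loc B n)
    (hrel : J * φ x ^ 3 = (φ x + 27) * (φ x + 243) ^ 3) (h3 : ¬ sf79_nmem B n (3 : F))
    (htc : ¬ sf79_nmem B n (φ x + 27)) (hU : Ubar ∈ sf79_loc B n) :
    ∃ ag tg : B, tg ∉ n ∧
      φ ((x ^ 3 * (x + 27) ^ 4)⁻¹) ^ k * Ubar * (tg : F) = (ag : F) :=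
  c2u70_ag_tg_three B n φ x Ubar k ht (c2u70_unit_three B n J (φ x) hJ ht hrel h3) htc hU

end C2U70

end Fermat.Agent.S36
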