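import Fermat.Agent.S37.QExp46
import Fermat.Agent.S18.Pack85
import Fermat.Agent.S18.Pack15
import Fermat.Agent.S18.Haupt2R70
import Fermat.Agent.S18.Haupt3R_34

/-!
# S36 lab, row 600 (C-C2), uniform coordinate route (seat 27): chart elements have `R`-integral
`q`-expansions

`F = modularFunctionFieldFullC K M`, `R` a discrete valuation ring with fraction field `K`.

* `cx27_chart_expansion` : for a chart coordinate `h ∈ F` whose expansion is the integral series
  `g : LaurentSeries ℤ`, every element of the chart `pk15_chart R {h}` (integral closure of `R[h]`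
  in `F`) has an `R`-integral expansion `xR` (literal `hx` of `c2x11_mid_dvd` / `gxq95_datum`).
  [The `q`-expansion principle `qx46_integral_expansion'`.]
* `cx27_exp_level2` / `_level2_inv` / `_level3` / `_level3_inv` : the four canonical charts
  `{h}`, `{h⁻¹}` of `h = pk85_h2 K M`, `pk85_h3 K M`.

All names are prefixed `cx27_`.
-/

set_option autoImplicit false
set_option linter.style.longLine false
set_option linter.unusedVariables false
set_option linter.unusedSectionVars false

open ModularCurve

namespace Fermat.Agent.S36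

open Fermat.Agent.S18 Fermat.Agent.S37

variable {R : Type} [CommRing R] [IsDomain R] [IsDiscreteValuationRing R]
  (K : Type) [Field K] [CharZero K] [Algebra R K] [IsFractionRing R K] (M : ℕ) [NeZero M]
  [Algebra R ↥(modularFunctionFieldFullC K M)]
  [IsScalarTower R K ↥(modularFunctionFieldFullC K M)]

/-- **Chart elements have `R`-integral expansions.** -/
theorem cx27_chart_expansion (g : LaurentSeries ℤ) (h : ↥(modularFunctionFieldFullC K M))
    (hg : ((h : ↥(modularFunctionFieldFullC K M)) : LaurentSeries K) =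
      coeffMap (Int.castRingHom K) g)
    (x : ↥(modularFunctionFieldFullC K M))
    (hx : x ∈ pk15_chart R ({h} : Set ↥(modularFunctionFieldFullC K M))) :
    ∃ xR : LaurentSeries R,
      ((x : ↥(modularFunctionFieldFullC K M)) : LaurentSeries K) =
        coeffMap (algebraMap R K) xR := by
  have hint : IsIntegral (Algebra.adjoin R ({h} : Set ↥(modularFunctionFieldFullC K M))) x := hx
  obtain ⟨p, hp, hpx⟩ := (qx46_isIntegralElem_iff_adjoin (S := R) h x).mpr hint
  have hcomp : (algebraMap ↥(modularFunctionFieldFullC K M) (LaurentSeries K)).comp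
      ((Polynomial.aeval h : Polynomial R →ₐ[R] ↥(modularFunctionFieldFullC K M)) :
        Polynomial R →+* ↥(modularFunctionFieldFullC K M)) =
      ka46_ev (algebraMap R K) g := by
    refine Polynomial.ringHom_ext (fun r => ?_) ?_
    · rw [ka46_ev_apply, Polynomial.eval₂_C, RingHom.comp_apply, RingHom.comp_apply]
      show algebraMap ↥(modularFunctionFieldFullC K M) (LaurentSeries K)
        (Polynomial.aeval h (Polynomial.C r)) = _
      rw [Polynomial.aeval_C, IsScalarTower.algebraMap_apply R K ↥(modularFunctionFieldFullC K M)]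
      exact gv85_coe_algebraMap (modularFunctionFieldFullC K M) (algebraMap R K r)
    · rw [ka46_ev_apply, Polynomial.eval₂_X, RingHom.comp_apply]
      show algebraMap ↥(modularFunctionFieldFullC K M) (LaurentSeries K)
        (Polynomial.aeval h Polynomial.X) = _
      rw [Polynomial.aeval_X]
      exact hg
  have hint' : (ka46_ev (algebraMap R K) g).IsIntegralElem
      ((x : ↥(modularFunctionFieldFullC K M)) : LaurentSeries K) := by
    refine ⟨p, hp, ?_⟩
    have h1 := congrArg (algebraMap ↥(modularFunctionFieldFullC K M) (LaurentSeries K)) hpx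
    rw [Polynomial.hom_eval₂, map_zero, hcomp] at h1
    exact h1
  obtain ⟨y, hy⟩ := qx46_integral_expansion' (R := R) (K := K) M g
    ((x : ↥(modularFunctionFieldFullC K M)) : LaurentSeries K) x.2 hint'
  exact ⟨y, hy.symm⟩

/-- Chart `{h₂}`. -/
theorem cx27_exp_level2 (h2 : 2 ∣ M) (x : ↥(modularFunctionFieldFullC K M))
    (hx : x ∈ pk15_chart R ({pk85_h2 K M h2} : Set ↥(modularFunctionFieldFullC K M))) :
    ∃ xR : LaurentSeries R,
      ((x : ↥(modularFunctionFieldFullC K M)) : LaurentSeries K) =
        coeffMap (algebraMap R K) xR :=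
  cx27_chart_expansion K M (h70_h2 ℤ) (pk85_h2 K M h2)
    ((pk85_h2_coe K M h2).trans (h70_coeffMap_h2 (Int.castRingHom K)).symm) x hx

/-- Chart `{h₂⁻¹}`. -/
theorem cx27_exp_level2_inv (h2 : 2 ∣ M) (x : ↥(modularFunctionFieldFullC K M))
    (hx : x ∈ pk15_chart R ({(pk85_h2 K M h2)⁻¹} : Set ↥(modularFunctionFieldFullC K M))) :
    ∃ xR : LaurentSeries R,
      ((x : ↥(modularFunctionFieldFullC K M)) : LaurentSeries K) =
        coeffMap (algebraMap R K) xR := by
  refine cx27_chart_expansion K M (h70_h2inv ℤ) (pk85_h2 K M h2)⁻¹ ?_ x hx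
  rw [h70_coeffMap_h2inv (Int.castRingHom K)]
  have h1 : ((pk85_h2 K M h2 : ↥(modularFunctionFieldFullC K M)) : LaurentSeries K) *
      h70_h2inv K = 1 := by
    rw [pk85_h2_coe]; exact h70_h2_mul_h2inv K
  have h2' : (((pk85_h2 K M h2)⁻¹ : ↥(modularFunctionFieldFullC K M)) : LaurentSeries K) =
      ((pk85_h2 K M h2 : ↥(modularFunctionFieldFullC K M)) : LaurentSeries K)⁻¹ := rfl
  rw [h2']
  exact inv_eq_of_mul_eq_one_right h1

/-- Chart `{h₃}`. -/
theorem cx27_exp_level3 (h3 : 3 ∣ M) (x : ↥(modularFunctionFieldFullC K M))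
    (hx : x ∈ pk15_chart R ({pk85_h3 K M h3} : Set ↥(modularFunctionFieldFullC K M))) :
    ∃ xR : LaurentSeries R,
      ((x : ↥(modularFunctionFieldFullC K M)) : LaurentSeries K) =
        coeffMap (algebraMap R K) xR :=
  cx27_chart_expansion K M (h34_h3R ℤ) (pk85_h3 K M h3)
    ((pk85_h3_coe K M h3).trans (h34_coeffMap_h3R (Int.castRingHom K)).symm) x hx

/-- Chart `{h₃⁻¹}`. -/
theorem cx27_exp_level3_inv (h3 : 3 ∣ M) (x : ↥(modularFunctionFieldFullC K M))
    (hx : x ∈ pk15_chart R ({(pk85_h3 K M h3)⁻¹} : Set ↥(modularFunctionFieldFullC K M))) :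
    ∃ xR : LaurentSeries R,
      ((x : ↥(modularFunctionFieldFullC K M)) : LaurentSeries K) =
        coeffMap (algebraMap R K) xR := by
  refine cx27_chart_expansion K M (h34_h3Rinv ℤ) (pk85_h3 K M h3)⁻¹ ?_ x hx
  rw [h34_coeffMap_h3Rinv (Int.castRingHom K)]
  have h1 : ((pk85_h3 K M h3 : ↥(modularFunctionFieldFullC K M)) : LaurentSeries K) *
      h34_h3Rinv K = 1 := by
    rw [pk85_h3_coe]; exact h34_h3R_mul_inv K
  have h2' : (((pk85_h3 K M h3)⁻¹ : ↥(modularFunctionFieldFullC K M)) : LaurentSeries K) =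
      ((pk85_h3 K M h3 : ↥(modularFunctionFieldFullC K M)) : LaurentSeries K)⁻¹ := rfl
  rw [h2']
  exact inv_eq_of_mul_eq_one_right h1

end Fermat.Agent.S36
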