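import Fermat.Agent.S36.FrameBind85
import Fermat.Agent.S34.Krull65
import Fermat.Agent.S34.CoreAsm57

/-!
# S36 lab, row 605 (helper54): the CHART-FACTS BUNDLE at level `M' q q`

For the canonical (HP1)/(HP3) instances: everything the per-point lemmas (`lps9_strong_three`,
`ld55_datum_at`, `ld84_datum_at`, `gcd26_datum_triple`, `tl71_twoGen`, ...) ask of a CHART `B`
with respect to the three vertical valuation subrings, in one statement and for BOTH charts.

* `cf54_Facts π B V₁ V₂ V₃` : `B` noetherian, `B ⊆ V₁, V₂, V₃`, saturation in the three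
  valuations, the Krull property `s34i47_Krull π B`, `hFrac`, and `hmB` (`m` invertible in `B`
  for every `m` which is a unit of `R`).
* `cf54_of_chartProps` : `s34i47_ChartProps K π (V₁ ⊓ V₂ ⊓ V₃) h` ⟹ `cf54_Facts` for the charts
  of `h` and of `h⁻¹` (`kr65_Pkg_Krull` + `ca57_frac_inv`).
* `cf54_level2`, `cf54_level3` : the canonical frame of level `M' q q`
  (`V₁ = cm85_Vinf (M' q q)`, `V₂` ANY valuation subring with the three facts `hV₂ hπ₂ hs` of
  `fb85_frameV3_level2/3`, `V₃ = nsb86_V3`), Hauptmodul `pk85_h2` / `pk85_h3`.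

All names are prefixed `cf54_`.
-/

set_option autoImplicit false
set_option linter.unusedSectionVars false
set_option linter.unusedVariables false
set_option linter.style.haveILetI false

open ModularCurve IntermediateField Polynomial

namespace Fermat.Agent.S36

open Fermat.Agent.S18 Fermat.Agent.S24 Fermat.Agent.S37 Fermat.Agent.S34

local notation "Q̄" => AlgebraicClosure ℚ

section cf54_abs

variable {R K F : Type} [CommRing R] [IsDomain R] [IsDiscreteValuationRing R] [Field K]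
  [CharZero K] [Field F] [Algebra R K] [IsFractionRing R K] [Algebra R F] [Algebra K F]
  [IsScalarTower R K F]

/-- The chart facts of `B` with respect to three vertical valuation subrings. -/
def cf54_Facts (π : R) (B : Subalgebra R F) (V₁ V₂ V₃ : ValuationSubring F) : Prop :=
  IsNoetherianRing B ∧
  (∀ x ∈ B, x ∈ V₁) ∧ (∀ x ∈ B, x ∈ V₂) ∧ (∀ x ∈ B, x ∈ V₃) ∧
  (∀ x ∈ B, (algebraMap R F π)⁻¹ * x ∈ V₁ → (algebraMap R F π)⁻¹ * x ∈ V₂ →
    (algebraMap R F π)⁻¹ * x ∈ V₃ → (algebraMap R F π)⁻¹ * x ∈ B) ∧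
  s34i47_Krull π B ∧
  (∀ x : F, ∃ a ∈ B, ∃ b ∈ B, b ≠ 0 ∧ x * b = a) ∧
  (∀ m : ℕ, IsUnit (m : R) → ∃ μ ∈ B, (m : F) * μ = 1)

/-- `m` is invertible in every `R`-subalgebra if it is a unit of `R`. -/
theorem cf54_hmB (B : Subalgebra R F) (m : ℕ) (hm : IsUnit (m : R)) :
    ∃ μ ∈ B, (m : F) * μ = 1 := by
  obtain ⟨μ, hμ⟩ := hm.exists_right_inv
  refine ⟨algebraMap R F μ, B.algebraMap_mem μ, ?_⟩
  have e : (m : F) = algebraMap R F (m : R) := by simp
  rw [e, ← map_mul, hμ, map_one]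

/-- **The chart facts from (C)**, for both charts. -/
theorem cf54_of_chartProps (π : R) (hπ : Irreducible π) (h : F) (V₁ V₂ V₃ : ValuationSubring F)
    (hC : s34i47_ChartProps K π (V₁.toSubring ⊓ V₂.toSubring ⊓ V₃.toSubring) h) :
    cf54_Facts π (pk15_chart R ({h} : Set F)) V₁ V₂ V₃ ∧
      cf54_Facts π (pk15_chart R ({h⁻¹} : Set F)) V₁ V₂ V₃ := by
  obtain ⟨htr, h12W, hsat1, hsat2, -, hN1, hN2, hfin, hfrac⟩ := hC
  have hh0 : h ≠ 0 := by
    rintro rfl
    exact htr isAlgebraic_zero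
  obtain ⟨hK1, hK2⟩ := kr65_Pkg_Krull R K F π hπ h htr hN1 hN2 hfin hfrac
  have hfrac2 := ca57_frac_inv (R := R) h hh0 hfrac
  have hsub1 : pk15_chart R ({h} : Set F) ≤ pk15_chart R ({h, h⁻¹} : Set F) :=
    pk15_chart_mono (by simp)
  have hsub2 : pk15_chart R ({h⁻¹} : Set F) ≤ pk15_chart R ({h, h⁻¹} : Set F) :=
    pk15_chart_mono (by simp)
  have hmemW : ∀ x : F, x ∈ V₁.toSubring ⊓ V₂.toSubring ⊓ V₃.toSubring ↔
      (x ∈ V₁ ∧ x ∈ V₂) ∧ x ∈ V₃ := by
    intro x
    constructor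
    · rintro ⟨⟨h1, h2⟩, h3⟩
      exact ⟨⟨h1, h2⟩, h3⟩
    · rintro ⟨⟨h1, h2⟩, h3⟩
      exact ⟨⟨h1, h2⟩, h3⟩
  refine ⟨⟨hN1, ?_, ?_, ?_, ?_, hK1, hfrac, fun m hm => cf54_hmB _ m hm⟩,
    ⟨hN2, ?_, ?_, ?_, ?_, hK2, hfrac2, fun m hm => cf54_hmB _ m hm⟩⟩
  · exact fun x hx => ((hmemW x).mp (h12W x (hsub1 hx))).1.1
  · exact fun x hx => ((hmemW x).mp (h12W x (hsub1 hx))).1.2
  · exact fun x hx => ((hmemW x).mp (h12W x (hsub1 hx))).2
  · exact fun x hx h1 h2 h3 => hsat1 x hx ((hmemW _).mpr ⟨⟨h1, h2⟩, h3⟩)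
  · exact fun x hx => ((hmemW x).mp (h12W x (hsub2 hx))).1.1
  · exact fun x hx => ((hmemW x).mp (h12W x (hsub2 hx))).1.2
  · exact fun x hx => ((hmemW x).mp (h12W x (hsub2 hx))).2
  · exact fun x hx h1 h2 h3 => hsat2 x hx ((hmemW _).mpr ⟨⟨h1, h2⟩, h3⟩)

end cf54_abs

section cf54_canon

variable {R K : Type} [CommRing R] [IsDomain R] [IsDiscreteValuationRing R] [Field K] [CharZero K]
  [Algebra R K] [IsFractionRing R K] [Algebra K Q̄] (M' q : ℕ) [NeZero M'] [NeZero q]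

/-- **The chart facts on the canonical frame of level `M' q q`, Hauptmodul of level 2**, for both
charts. -/
theorem cf54_level2 [Algebra.IsAlgebraic K Q̄]
    [Algebra R ↥(modularFunctionFieldFullC K (M' * q * q))]
    [IsScalarTower R K ↥(modularFunctionFieldFullC K (M' * q * q))]
    (hq : q.Prime) (hM' : ¬ q ∣ M') {π : R} (hπ : Irreducible π)
    (hqR : ¬ IsUnit (q : R)) (hMu : IsUnit (M' : R)) (h2 : 2 ∣ M')
    (V₂ : ValuationSubring ↥(modularFunctionFieldFullC K (M' * q * q)))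
    (hV₂ : ∀ c ∈ cm85_Vinf (K := K) (M' * q) hπ, al97L_alpha K (M' * q) q c ∈ V₂)
    (hπ₂ : (algebraMap K ↥(modularFunctionFieldFullC K (M' * q * q)) (algebraMap R K π))⁻¹ ∉ V₂)
    (hs : V₂.valuation (v2g64_s K M' q) ^ (q - 1) =
      V₂.valuation (algebraMap K ↥(modularFunctionFieldFullC K (M' * q * q)) (algebraMap R K π))) :
    cf54_Facts π
        (pk15_chart R ({pk85_h2 K (M' * q * q)
          (h2.trans ((dvd_mul_right M' q).trans (dvd_mul_right (M' * q) q)))} :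
            Set ↥(modularFunctionFieldFullC K (M' * q * q))))
        (cm85_Vinf (K := K) (M' * q * q) hπ) V₂ (nsb86_V3 (K := K) M' q hq hM' hπ) ∧
      cf54_Facts π
        (pk15_chart R ({(pk85_h2 K (M' * q * q)
          (h2.trans ((dvd_mul_right M' q).trans (dvd_mul_right (M' * q) q))))⁻¹} :
            Set ↥(modularFunctionFieldFullC K (M' * q * q))))
        (cm85_Vinf (K := K) (M' * q * q) hπ) V₂ (nsb86_V3 (K := K) M' q hq hM' hπ) := by
  obtain ⟨-, hC, -⟩ := fb85_frameV3_level2 M' q hq hM' hπ hqR hMu h2 V₂ hV₂ hπ₂ hs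
  exact cf54_of_chartProps (K := K) π hπ _ _ _ _ hC

/-- **The chart facts on the canonical frame of level `M' q q`, Hauptmodul of level 3**, for both
charts. -/
theorem cf54_level3 [Algebra.IsAlgebraic K Q̄]
    [Algebra R ↥(modularFunctionFieldFullC K (M' * q * q))]
    [IsScalarTower R K ↥(modularFunctionFieldFullC K (M' * q * q))]
    (hq : q.Prime) (hM' : ¬ q ∣ M') {π : R} (hπ : Irreducible π)
    (hqR : ¬ IsUnit (q : R)) (hMu : IsUnit (M' : R)) (h3 : 3 ∣ M')
    (V₂ : ValuationSubring ↥(modularFunctionFieldFullC K (M' * q * q)))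
    (hV₂ : ∀ c ∈ cm85_Vinf (K := K) (M' * q) hπ, al97L_alpha K (M' * q) q c ∈ V₂)
    (hπ₂ : (algebraMap K ↥(modularFunctionFieldFullC K (M' * q * q)) (algebraMap R K π))⁻¹ ∉ V₂)
    (hs : V₂.valuation (v2g64_s K M' q) ^ (q - 1) =
      V₂.valuation (algebraMap K ↥(modularFunctionFieldFullC K (M' * q * q)) (algebraMap R K π))) :
    cf54_Facts π
        (pk15_chart R ({pk85_h3 K (M' * q * q)
          (h3.trans ((dvd_mul_right M' q).trans (dvd_mul_right (M' * q) q)))} :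
            Set ↥(modularFunctionFieldFullC K (M' * q * q))))
        (cm85_Vinf (K := K) (M' * q * q) hπ) V₂ (nsb86_V3 (K := K) M' q hq hM' hπ) ∧
      cf54_Facts π
        (pk15_chart R ({(pk85_h3 K (M' * q * q)
          (h3.trans ((dvd_mul_right M' q).trans (dvd_mul_right (M' * q) q))))⁻¹} :
            Set ↥(modularFunctionFieldFullC K (M' * q * q))))
        (cm85_Vinf (K := K) (M' * q * q) hπ) V₂ (nsb86_V3 (K := K) M' q hq hM' hπ) := by
  obtain ⟨-, hC, -⟩ := fb85_frameV3_level3 M' q hq hM' hπ hqR hMu h3 V₂ hV₂ hπ₂ hs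
  exact cf54_of_chartProps (K := K) π hπ _ _ _ _ hC

end cf54_canon

end Fermat.Agent.S36
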