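import Fermat.Agent.S34.BetaChart95
import Fermat.Agent.S18.Pack85

/-!
# S36 lab (helper94): the INTEGRAL CHART MAPS of the canonical charts, level `M' q → M' q q`

The hypotheses `fα hfα hfαi fβ hfβ hfβi` of `pbi81_triple` / `tn81_node` (helper81),
`tll3_of_lifts` (helper3), `tho92_hO_maps` (helper92), `hp3c28_core` (helper28): ring maps
`fα fβ : pk15_chart R {h'} →+* pk15_chart R {h}` restricting `α₂ = al97L_alpha K (M' * q) q` and
`β₂ = al97L_beta K (M' * q) q`, both integral, for the canonical Hauptmoduln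
`h' = pk85_h2 / pk85_h3 K (M' * q) _`, `h = pk85_h2 / pk85_h3 K (M' * q * q) _`, and for the
inverse charts.

* `cmp94_level2` (`2 ∣ M'`, `q ≠ 2`, `2` a unit of `R`), `cmp94_level3` (`3 ∣ M'`, `q ≠ 3`,
  `3` a unit of `R`) : both pairs of charts, from `bc95_alpha` + `bc95_beta_level2/3` (helper95)
  at level `M' * q`.

All names are prefixed `cmp94_`.
-/

set_option autoImplicit false
set_option linter.unusedSectionVars false
set_option linter.unusedVariables false
set_option linter.style.longLine false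

open ModularCurve

namespace Fermat.Agent.S36

open Fermat.Agent.S18 Fermat.Agent.S34

section cmp94

variable {R K : Type} [CommRing R] [Field K] [CharZero K] [Algebra R K]
  (M' q : ℕ) [NeZero M'] [NeZero q]
  [Algebra R ↥(modularFunctionFieldFullC K (M' * q))]
  [IsScalarTower R K ↥(modularFunctionFieldFullC K (M' * q))]
  [Algebra R ↥(modularFunctionFieldFullC K (M' * q * q))]
  [IsScalarTower R K ↥(modularFunctionFieldFullC K (M' * q * q))]

/-- **The integral chart maps `fα`, `fβ` on both canonical charts, Hauptmodul of level 2.** -/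
theorem cmp94_level2 (hq : q.Prime) (hq2 : q ≠ 2) (h2R : IsUnit (2 : R)) (h2 : 2 ∣ M') :
    (∃ fα fβ : ↥(pk15_chart R ({pk85_h2 K (M' * q) (h2.trans (dvd_mul_right M' q))} :
          Set ↥(modularFunctionFieldFullC K (M' * q)))) →+*
        ↥(pk15_chart R ({pk85_h2 K (M' * q * q)
          (h2.trans ((dvd_mul_right M' q).trans (dvd_mul_right (M' * q) q)))} :
            Set ↥(modularFunctionFieldFullC K (M' * q * q)))),
      (∀ x, ((fα x : ↥(pk15_chart R ({pk85_h2 K (M' * q * q)
          (h2.trans ((dvd_mul_right M' q).trans (dvd_mul_right (M' * q) q)))} :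
            Set ↥(modularFunctionFieldFullC K (M' * q * q))))) :
          ↥(modularFunctionFieldFullC K (M' * q * q))) =
        al97L_alpha K (M' * q) q (x : ↥(modularFunctionFieldFullC K (M' * q)))) ∧
      fα.IsIntegral ∧
      (∀ x, ((fβ x : ↥(pk15_chart R ({pk85_h2 K (M' * q * q)
          (h2.trans ((dvd_mul_right M' q).trans (dvd_mul_right (M' * q) q)))} :
            Set ↥(modularFunctionFieldFullC K (M' * q * q))))) :
          ↥(modularFunctionFieldFullC K (M' * q * q))) =
        al97L_beta K (M' * q) q (x : ↥(modularFunctionFieldFullC K (M' * q)))) ∧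
      fβ.IsIntegral) ∧
    (∃ fα fβ : ↥(pk15_chart R ({(pk85_h2 K (M' * q) (h2.trans (dvd_mul_right M' q)))⁻¹} :
          Set ↥(modularFunctionFieldFullC K (M' * q)))) →+*
        ↥(pk15_chart R ({(pk85_h2 K (M' * q * q)
          (h2.trans ((dvd_mul_right M' q).trans (dvd_mul_right (M' * q) q))))⁻¹} :
            Set ↥(modularFunctionFieldFullC K (M' * q * q)))),
      (∀ x, ((fα x : ↥(pk15_chart R ({(pk85_h2 K (M' * q * q)
          (h2.trans ((dvd_mul_right M' q).trans (dvd_mul_right (M' * q) q))))⁻¹} :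
            Set ↥(modularFunctionFieldFullC K (M' * q * q))))) :
          ↥(modularFunctionFieldFullC K (M' * q * q))) =
        al97L_alpha K (M' * q) q (x : ↥(modularFunctionFieldFullC K (M' * q)))) ∧
      fα.IsIntegral ∧
      (∀ x, ((fβ x : ↥(pk15_chart R ({(pk85_h2 K (M' * q * q)
          (h2.trans ((dvd_mul_right M' q).trans (dvd_mul_right (M' * q) q))))⁻¹} :
            Set ↥(modularFunctionFieldFullC K (M' * q * q))))) :
          ↥(modularFunctionFieldFullC K (M' * q * q))) =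
        al97L_beta K (M' * q) q (x : ↥(modularFunctionFieldFullC K (M' * q)))) ∧
      fβ.IsIntegral) := by
  have hαh : al97L_alpha K (M' * q) q (pk85_h2 K (M' * q) (h2.trans (dvd_mul_right M' q))) =
      pk85_h2 K (M' * q * q) (h2.trans ((dvd_mul_right M' q).trans (dvd_mul_right (M' * q) q))) :=
    Subtype.ext (by rw [al97L_alpha_coe, pk85_h2_coe, pk85_h2_coe])
  obtain ⟨⟨fα, hfα, hfαi⟩, ⟨fα', hfα', hfαi'⟩⟩ := bc95_alpha (R := R) (K := K) (M' * q) q
    (pk85_h2 K (M' * q) (h2.trans (dvd_mul_right M' q)))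
    (pk85_h2 K (M' * q * q) (h2.trans ((dvd_mul_right M' q).trans (dvd_mul_right (M' * q) q))))
    hαh
  obtain ⟨⟨fβ, hfβ, hfβi⟩, ⟨fβ', hfβ', hfβi'⟩⟩ := bc95_beta_level2 (R := R) (K := K) (M' * q) q
    hq hq2 h2R (h2.trans (dvd_mul_right M' q))
    (pk85_h2 K (M' * q) (h2.trans (dvd_mul_right M' q)))
    (pk85_h2 K (M' * q * q) (h2.trans ((dvd_mul_right M' q).trans (dvd_mul_right (M' * q) q))))
    (pk85_h2_coe K (M' * q) _) (pk85_h2_coe K (M' * q * q) _)
  exact ⟨⟨fα, fβ, hfα, hfαi, hfβ, hfβi⟩, ⟨fα', fβ', hfα', hfαi', hfβ', hfβi'⟩⟩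

/-- **The integral chart maps `fα`, `fβ` on both canonical charts, Hauptmodul of level 3.** -/
theorem cmp94_level3 (hq : q.Prime) (hq3 : q ≠ 3) (h3R : IsUnit (3 : R)) (h3 : 3 ∣ M') :
    (∃ fα fβ : ↥(pk15_chart R ({pk85_h3 K (M' * q) (h3.trans (dvd_mul_right M' q))} :
          Set ↥(modularFunctionFieldFullC K (M' * q)))) →+*
        ↥(pk15_chart R ({pk85_h3 K (M' * q * q)
          (h3.trans ((dvd_mul_right M' q).trans (dvd_mul_right (M' * q) q)))} :
            Set ↥(modularFunctionFieldFullC K (M' * q * q)))),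
      (∀ x, ((fα x : ↥(pk15_chart R ({pk85_h3 K (M' * q * q)
          (h3.trans ((dvd_mul_right M' q).trans (dvd_mul_right (M' * q) q)))} :
            Set ↥(modularFunctionFieldFullC K (M' * q * q))))) :
          ↥(modularFunctionFieldFullC K (M' * q * q))) =
        al97L_alpha K (M' * q) q (x : ↥(modularFunctionFieldFullC K (M' * q)))) ∧
      fα.IsIntegral ∧
      (∀ x, ((fβ x : ↥(pk15_chart R ({pk85_h3 K (M' * q * q)
          (h3.trans ((dvd_mul_right M' q).trans (dvd_mul_right (M' * q) q)))} :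
            Set ↥(modularFunctionFieldFullC K (M' * q * q))))) :
          ↥(modularFunctionFieldFullC K (M' * q * q))) =
        al97L_beta K (M' * q) q (x : ↥(modularFunctionFieldFullC K (M' * q)))) ∧
      fβ.IsIntegral) ∧
    (∃ fα fβ : ↥(pk15_chart R ({(pk85_h3 K (M' * q) (h3.trans (dvd_mul_right M' q)))⁻¹} :
          Set ↥(modularFunctionFieldFullC K (M' * q)))) →+*
        ↥(pk15_chart R ({(pk85_h3 K (M' * q * q)
          (h3.trans ((dvd_mul_right M' q).trans (dvd_mul_right (M' * q) q))))⁻¹} :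
            Set ↥(modularFunctionFieldFullC K (M' * q * q)))),
      (∀ x, ((fα x : ↥(pk15_chart R ({(pk85_h3 K (M' * q * q)
          (h3.trans ((dvd_mul_right M' q).trans (dvd_mul_right (M' * q) q))))⁻¹} :
            Set ↥(modularFunctionFieldFullC K (M' * q * q))))) :
          ↥(modularFunctionFieldFullC K (M' * q * q))) =
        al97L_alpha K (M' * q) q (x : ↥(modularFunctionFieldFullC K (M' * q)))) ∧
      fα.IsIntegral ∧
      (∀ x, ((fβ x : ↥(pk15_chart R ({(pk85_h3 K (M' * q * q)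
          (h3.trans ((dvd_mul_right M' q).trans (dvd_mul_right (M' * q) q))))⁻¹} :
            Set ↥(modularFunctionFieldFullC K (M' * q * q))))) :
          ↥(modularFunctionFieldFullC K (M' * q * q))) =
        al97L_beta K (M' * q) q (x : ↥(modularFunctionFieldFullC K (M' * q)))) ∧
      fβ.IsIntegral) := by
  have hαh : al97L_alpha K (M' * q) q (pk85_h3 K (M' * q) (h3.trans (dvd_mul_right M' q))) =
      pk85_h3 K (M' * q * q) (h3.trans ((dvd_mul_right M' q).trans (dvd_mul_right (M' * q) q))) :=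
    Subtype.ext (by rw [al97L_alpha_coe, pk85_h3_coe, pk85_h3_coe])
  obtain ⟨⟨fα, hfα, hfαi⟩, ⟨fα', hfα', hfαi'⟩⟩ := bc95_alpha (R := R) (K := K) (M' * q) q
    (pk85_h3 K (M' * q) (h3.trans (dvd_mul_right M' q)))
    (pk85_h3 K (M' * q * q) (h3.trans ((dvd_mul_right M' q).trans (dvd_mul_right (M' * q) q))))
    hαh
  obtain ⟨⟨fβ, hfβ, hfβi⟩, ⟨fβ', hfβ', hfβi'⟩⟩ := bc95_beta_level3 (R := R) (K := K) (M' * q) q
    hq hq3 h3R (h3.trans (dvd_mul_right M' q))
    (pk85_h3 K (M' * q) (h3.trans (dvd_mul_right M' q)))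
    (pk85_h3 K (M' * q * q) (h3.trans ((dvd_mul_right M' q).trans (dvd_mul_right (M' * q) q))))
    (pk85_h3_coe K (M' * q) _) (pk85_h3_coe K (M' * q * q) _)
  exact ⟨⟨fα, fβ, hfα, hfαi, hfβ, hfβi⟩, ⟨fα', fβ', hfα', hfαi', hfβ', hfβi'⟩⟩

end cmp94

end Fermat.Agent.S36
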