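import Fermat.Agent.S34.TwoVal2

/-!
# S36 lab (helper85): Dedekind–Kummer with ramification, direct form

`E ⊆ F` fields, `V'` a valuation subring of `E` with uniformizer `π` (elementary shape
`hmax`/`harch`), valuation subrings of `F` over `V'` in which `π` is not a unit.

* `ek85_pow_dvd`: if `g(y) ∈ m_V`, `π ∈ g(y)^e V`, `ḡ` irreducible and `P(y) ∈ π V`, then
  `ḡ^e ∣ P̄`;
* `ek85_dk`: two valuations `V₁`, `V₂` with `g₁(y) ∈ m_{V₁}`, `g₂(y) ∈ m_{V₂}`,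
  `π ∈ g₂(y)^e V₂`: the coordinates with respect to `1, y, …, y^(n-1)`,
  `n ≤ deg ḡ₁ + e * deg ḡ₂`, of every element of `V₁ ∩ V₂` lie in `V'`;
* `ek85_dk_one`: one valuation, `n ≤ deg ḡ`.

All names are prefixed `ek85_`.
-/

set_option autoImplicit false
set_option linter.style.haveILetI false

namespace Fermat.Agent.S36

open Polynomial Fermat.Agent.S34

section ek85_core

variable {E F : Type*} [Field E] [Field F] [Algebra E F]

/-- a nonunit of `V'` is divisible by `π`. -/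
theorem ek85_nonunit_dvd (V' : ValuationSubring E) (π : E)
    (hmax : ∀ x ∈ V', x⁻¹ ∉ V' → π⁻¹ * x ∈ V') (c : ↥V') (hc : ¬ IsUnit c) :
    π⁻¹ * (c : E) ∈ V' := by
  by_cases hc0 : (c : E) = 0
  · rw [hc0, mul_zero]; exact V'.zero_mem
  have hcinv : (c : E)⁻¹ ∉ V' := by
    intro h
    apply hc
    refine ⟨⟨c, ⟨(c : E)⁻¹, h⟩, ?_, ?_⟩, rfl⟩
    · ext; simp [hc0]
    · ext; simp [hc0]
  exact hmax c c.2 hcinv

/-- a polynomial over `V'` with zero reduction takes values in `π V` at points of `V`. -/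
theorem ek85_eval_pi_mem (V' : ValuationSubring E) (π : E)
    (hmax : ∀ x ∈ V', x⁻¹ ∉ V' → π⁻¹ * x ∈ V')
    (V : ValuationSubring F) (hV : ∀ c ∈ V', algebraMap E F c ∈ V) {y : F} (hy : y ∈ V)
    (P : (↥V')[X]) (hP : P.map (IsLocalRing.residue ↥V') = 0) :
    (algebraMap E F π)⁻¹ * P.eval₂ (tv2_incl V') y ∈ V := by
  rw [eval₂_eq_sum_range, Finset.mul_sum]
  refine sum_mem fun i _ => ?_
  have hci : ¬ IsUnit (P.coeff i) := by
    have h1 : (P.map (IsLocalRing.residue ↥V')).coeff i = 0 := by rw [hP]; simp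
    rw [coeff_map, IsLocalRing.residue_eq_zero_iff, IsLocalRing.mem_maximalIdeal] at h1
    exact h1
  have h2 := hV _ (ek85_nonunit_dvd V' π hmax (P.coeff i) hci)
  rw [map_mul, map_inv₀] at h2
  have h3 : (algebraMap E F π)⁻¹ * ((tv2_incl V') (P.coeff i) * y ^ i)
      = ((algebraMap E F π)⁻¹ * algebraMap E F ((P.coeff i : ↥V') : E)) * y ^ i := by
    simp only [tv2_incl, RingHom.comp_apply, ValuationSubring.subtype_apply]
    ring
  rw [h3]
  exact V.mul_mem _ _ h2 (pow_mem hy i)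

/-- **ramified core**: if `g(y) ∈ m_V`, `π = g(y)^e w` with `w ∈ V`, `ḡ` is irreducible and
`P(y) ∈ π V`, then `ḡ^e ∣ P̄`. -/
theorem ek85_pow_dvd (V' : ValuationSubring E) (π : E)
    (hmax : ∀ x ∈ V', x⁻¹ ∉ V' → π⁻¹ * x ∈ V')
    (V : ValuationSubring F) (hV : ∀ c ∈ V', algebraMap E F c ∈ V)
    (hπV : (algebraMap E F π)⁻¹ ∉ V) {y : F} (hy : y ∈ V) (g : (↥V')[X])
    (hg : V.valuation (g.eval₂ (tv2_incl V') y) < 1)
    (hirr : Irreducible (g.map (IsLocalRing.residue ↥V')))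
    (e : ℕ) (w : F) (hw : w ∈ V)
    (hram : algebraMap E F π = (g.eval₂ (tv2_incl V') y) ^ e * w)
    (P : (↥V')[X]) (hP : (algebraMap E F π)⁻¹ * P.eval₂ (tv2_incl V') y ∈ V) :
    ∀ k ≤ e, g.map (IsLocalRing.residue ↥V') ^ k ∣ P.map (IsLocalRing.residue ↥V') := by
  have hπF0 : algebraMap E F π ≠ 0 := by
    intro h
    apply hπV
    rw [h, inv_zero]
    exact V.zero_mem
  intro k
  induction k with
  | zero => intro _; simp
  | succ k ih =>
    intro hk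
    obtain ⟨Rb, hRb⟩ := ih (by omega)
    obtain ⟨R, rfl⟩ := Polynomial.map_surjective _ IsLocalRing.residue_surjective Rb
    have h0 : (P - g ^ k * R).map (IsLocalRing.residue ↥V') = 0 := by
      rw [Polynomial.map_sub, Polynomial.map_mul, Polynomial.map_pow, hRb, sub_self]
    have hP0 := ek85_eval_pi_mem V' π hmax V hV hy _ h0
    have h1 : (algebraMap E F π)⁻¹ *
        ((g.eval₂ (tv2_incl V') y) ^ k * R.eval₂ (tv2_incl V') y) ∈ V := by
      have h2 := V.sub_mem hP hP0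
      rw [eval₂_sub, eval₂_mul, eval₂_pow] at h2
      have h3 : (algebraMap E F π)⁻¹ * P.eval₂ (tv2_incl V') y -
          (algebraMap E F π)⁻¹ * (P.eval₂ (tv2_incl V') y -
            (g.eval₂ (tv2_incl V') y) ^ k * R.eval₂ (tv2_incl V') y)
          = (algebraMap E F π)⁻¹ *
            ((g.eval₂ (tv2_incl V') y) ^ k * R.eval₂ (tv2_incl V') y) := by ring
      rwa [h3] at h2
    have hR : V.valuation (R.eval₂ (tv2_incl V') y) < 1 := by
      have hs0 : g.eval₂ (tv2_incl V') y ≠ 0 := by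
        intro h
        apply hπF0
        rw [hram, h, zero_pow (by omega), zero_mul]
      have hkey : R.eval₂ (tv2_incl V') y = (g.eval₂ (tv2_incl V') y) ^ (e - k) * (w *
          ((algebraMap E F π)⁻¹ *
            ((g.eval₂ (tv2_incl V') y) ^ k * R.eval₂ (tv2_incl V') y))) := by
        have hsk : (g.eval₂ (tv2_incl V') y) ^ k ≠ 0 := pow_ne_zero k hs0
        have he : (g.eval₂ (tv2_incl V') y) ^ e
            = (g.eval₂ (tv2_incl V') y) ^ (e - k) * (g.eval₂ (tv2_incl V') y) ^ k := by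
          rw [← pow_add]; congr 1; omega
        have h4 : (g.eval₂ (tv2_incl V') y) ^ (e - k) * (w * ((algebraMap E F π)⁻¹ *
            ((g.eval₂ (tv2_incl V') y) ^ k * R.eval₂ (tv2_incl V') y)))
            = ((g.eval₂ (tv2_incl V') y) ^ (e - k) * (g.eval₂ (tv2_incl V') y) ^ k * w) *
              (algebraMap E F π)⁻¹ * R.eval₂ (tv2_incl V') y := by ring
        rw [h4, ← he, ← hram, mul_inv_cancel₀ hπF0, one_mul]
      rw [hkey, map_mul, map_pow]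
      have hwt := (ValuationSubring.valuation_le_one_iff V _).mpr (V.mul_mem _ _ hw h1)
      calc V.valuation (g.eval₂ (tv2_incl V') y) ^ (e - k) * V.valuation (w *
            ((algebraMap E F π)⁻¹ *
              ((g.eval₂ (tv2_incl V') y) ^ k * R.eval₂ (tv2_incl V') y)))
          ≤ V.valuation (g.eval₂ (tv2_incl V') y) ^ (e - k) * 1 := by gcongr
        _ = V.valuation (g.eval₂ (tv2_incl V') y) ^ (e - k) := mul_one _
        _ < 1 := pow_lt_one₀ zero_le hg (by omega)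
    obtain ⟨S, hS⟩ := tv2_dvd_of_eval V' π hmax V hV hπV hy g R hg hR hirr
    refine ⟨S, ?_⟩
    rw [hRb, hS, pow_succ, mul_assoc]

/-- **scaling**: either all coordinates lie in `V'`, or a scaled polynomial with nonzero
reduction of degree `< n` represents `π^N x`, `N ≥ 1`. -/
theorem ek85_scale (V' : ValuationSubring E) (π : E) (hπ : π ∈ V') (hπ0 : π ≠ 0)
    (hmax : ∀ x ∈ V', x⁻¹ ∉ V' → π⁻¹ * x ∈ V')
    (harch : ∀ x : E, x ≠ 0 → ∃ n : ℕ, (π ^ n)⁻¹ * x ∉ V')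
    (n : ℕ) (c : ℕ → E) (hc : ¬ ∀ i < n, c i ∈ V') :
    ∃ (N : ℕ) (P : (↥V')[X]), P.map (IsLocalRing.residue ↥V') ≠ 0 ∧
      (P.map (IsLocalRing.residue ↥V')).natDegree < n ∧
      ∀ y : F, P.eval₂ (tv2_incl V') y
        = algebraMap E F π ^ (N + 1) * ∑ i ∈ Finset.range n, algebraMap E F (c i) * y ^ i := by
  classical
  have hex : ∃ N : ℕ, ∀ i < n, π ^ N * c i ∈ V' := by
    choose Nf hNf using fun i => tv2_scale V' π hπ harch (c i)
    refine ⟨(Finset.range n).sup Nf, fun i hi => hNf i _ ?_⟩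
    exact Finset.le_sup (Finset.mem_range.mpr hi)
  obtain ⟨N, hN, hmin⟩ : ∃ N : ℕ, (∀ i < n, π ^ N * c i ∈ V') ∧
      ∀ m < N, ¬ (∀ i < n, π ^ m * c i ∈ V') :=
    ⟨Nat.find hex, Nat.find_spec hex, fun m hm => Nat.find_min hex hm⟩
  rcases Nat.eq_zero_or_pos N with hN0 | hNpos
  · exfalso
    apply hc
    intro i hi
    have := hN i hi
    rwa [hN0, pow_zero, one_mul] at this
  let d : ℕ → ↥V' := fun i => if h : π ^ N * c i ∈ V' then ⟨π ^ N * c i, h⟩ else 0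
  have hd : ∀ i < n, (d i : E) = π ^ N * c i := by
    intro i hi
    simp only [d, dif_pos (hN i hi)]
  let P : (↥V')[X] := ∑ i ∈ Finset.range n, C (d i) * X ^ i
  have hPcoeff : ∀ k, P.coeff k = if k < n then d k else 0 := by
    intro k
    simp only [P, finsetSum_coeff, coeff_C_mul, coeff_X_pow]
    by_cases hk : k < n
    · rw [if_pos hk, Finset.sum_eq_single k]
      · simp
      · intro b _ hb; simp [hb.symm]
      · intro h; exact absurd (Finset.mem_range.mpr hk) h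
    · rw [if_neg hk]
      refine Finset.sum_eq_zero fun b hb => ?_
      have : k ≠ b := by
        have := Finset.mem_range.mp hb
        omega
      simp [this]
  have hPeval : ∀ y : F, P.eval₂ (tv2_incl V') y
      = algebraMap E F π ^ N * ∑ i ∈ Finset.range n, algebraMap E F (c i) * y ^ i := by
    intro y
    simp only [P, eval₂_finsetSum, eval₂_mul, eval₂_C, eval₂_X_pow]
    rw [Finset.mul_sum]
    refine Finset.sum_congr rfl fun i hi => ?_
    have := hd i (Finset.mem_range.mp hi)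
    simp only [tv2_incl, RingHom.comp_apply, ValuationSubring.subtype_apply] at *
    rw [this, map_mul, map_pow]; ring
  have hunit : ∃ i < n, IsUnit (d i) := by
    by_contra hnu
    push Not at hnu
    have hNm : N - 1 < N := by omega
    apply hmin _ hNm
    intro i hi
    have h2 := ek85_nonunit_dvd V' π hmax (d i) (hnu i hi)
    rw [hd i hi] at h2
    have h3 : π⁻¹ * (π ^ N * c i) = π ^ (N - 1) * c i := by
      obtain ⟨k, hk⟩ : ∃ k, N = k + 1 := ⟨N - 1, by omega⟩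
      rw [hk, pow_succ]
      simp only [Nat.add_sub_cancel]
      field_simp
    rwa [h3] at h2
  obtain ⟨i₀, hi₀, hu⟩ := hunit
  obtain ⟨N', rfl⟩ : ∃ k, N = k + 1 := ⟨N - 1, by omega⟩
  refine ⟨N', P, ?_, ?_, hPeval⟩
  · intro h
    have h1 : (P.map (IsLocalRing.residue ↥V')).coeff i₀ = 0 := by rw [h]; simp
    rw [coeff_map, hPcoeff, if_pos hi₀, IsLocalRing.residue_eq_zero_iff,
      IsLocalRing.mem_maximalIdeal] at h1
    exact h1 hu
  · have h1 : (P.map (IsLocalRing.residue ↥V')).natDegree ≤ n - 1 := by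
      rw [natDegree_le_iff_coeff_eq_zero]
      intro k hk
      rw [coeff_map, hPcoeff, if_neg (by omega), map_zero]
    omega

end ek85_core

section ek85_main

variable {E F : Type*} [Field E] [Field F] [Algebra E F]

/-- `π^(N+1) x ∈ m_V` for `x ∈ V`. -/
theorem ek85_val_scaled (V : ValuationSubring F) {p x : F} (hp : p⁻¹ ∉ V) (hx : x ∈ V) (N : ℕ) :
    V.valuation (p ^ (N + 1) * x) < 1 := by
  rw [map_mul, map_pow]
  have h1 := tv2_val_lt_one_of_inv_notMem V hp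
  have h2 := (ValuationSubring.valuation_le_one_iff V _).mpr hx
  calc V.valuation p ^ (N + 1) * V.valuation x ≤ V.valuation p ^ (N + 1) * 1 := by gcongr
    _ = V.valuation p ^ (N + 1) := mul_one _
    _ < 1 := pow_lt_one₀ zero_le h1 (by omega)

/-- `π⁻¹ (π^(N+1) x) ∈ V` for `x ∈ V`. -/
theorem ek85_mem_scaled (V : ValuationSubring F) {p x : F} (hp0 : p ≠ 0) (hpV : p ∈ V)
    (hx : x ∈ V) (N : ℕ) : p⁻¹ * (p ^ (N + 1) * x) ∈ V := by
  have h : p⁻¹ * (p ^ (N + 1) * x) = p ^ N * x := by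
    rw [pow_succ]; field_simp
  rw [h]
  exact V.mul_mem _ _ (pow_mem hpV N) hx

/-- **(DK) with ramification**: coordinates with respect to `1, y, …, y^(n-1)`,
`n ≤ deg ḡ₁ + e * deg ḡ₂`, of elements of `V₁ ∩ V₂` lie in `V'`, when `g₁(y) ∈ m_{V₁}`,
`g₂(y) ∈ m_{V₂}` and `π ∈ g₂(y)^e V₂`. -/
theorem ek85_dk (V' : ValuationSubring E) (π : E) (hπ : π ∈ V')
    (hmax : ∀ x ∈ V', x⁻¹ ∉ V' → π⁻¹ * x ∈ V')
    (harch : ∀ x : E, x ≠ 0 → ∃ n : ℕ, (π ^ n)⁻¹ * x ∉ V')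
    (V₁ V₂ : ValuationSubring F)
    (hV₁ : ∀ c ∈ V', algebraMap E F c ∈ V₁) (hV₂ : ∀ c ∈ V', algebraMap E F c ∈ V₂)
    (hπ₁ : (algebraMap E F π)⁻¹ ∉ V₁) (hπ₂ : (algebraMap E F π)⁻¹ ∉ V₂)
    {y : F} (hy₁ : y ∈ V₁) (hy₂ : y ∈ V₂) (g₁ g₂ : (↥V')[X])
    (hg₁ : V₁.valuation (g₁.eval₂ (tv2_incl V') y) < 1)
    (hg₂ : V₂.valuation (g₂.eval₂ (tv2_incl V') y) < 1)
    (hirr₁ : Irreducible (g₁.map (IsLocalRing.residue ↥V')))
    (hirr₂ : Irreducible (g₂.map (IsLocalRing.residue ↥V')))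
    (hna : ¬ Associated (g₁.map (IsLocalRing.residue ↥V')) (g₂.map (IsLocalRing.residue ↥V')))
    (e : ℕ) (w : F) (hw : w ∈ V₂)
    (hram : algebraMap E F π = (g₂.eval₂ (tv2_incl V') y) ^ e * w)
    (n : ℕ)
    (hn : n ≤ (g₁.map (IsLocalRing.residue ↥V')).natDegree
      + e * (g₂.map (IsLocalRing.residue ↥V')).natDegree)
    (c : ℕ → E) (hx₁ : ∑ i ∈ Finset.range n, algebraMap E F (c i) * y ^ i ∈ V₁)
    (hx₂ : ∑ i ∈ Finset.range n, algebraMap E F (c i) * y ^ i ∈ V₂) :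
    ∀ i < n, c i ∈ V' := by
  have hπ0 : π ≠ 0 := by
    rintro rfl
    exact hπ₁ (by simp)
  by_contra hc
  obtain ⟨N, P, hP0, hdeg, hev⟩ := ek85_scale (F := F) V' π hπ hπ0 hmax harch n c hc
  have hd₁ := tv2_dvd_of_eval V' π hmax V₁ hV₁ hπ₁ hy₁ g₁ P hg₁
    (by rw [hev]; exact ek85_val_scaled V₁ hπ₁ hx₁ N) hirr₁
  have hπF0 : algebraMap E F π ≠ 0 := (_root_.map_ne_zero _).mpr hπ0
  have hd₂ := ek85_pow_dvd V' π hmax V₂ hV₂ hπ₂ hy₂ g₂ hg₂ hirr₂ e w hw hram P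
    (by rw [hev]; exact ek85_mem_scaled V₂ hπF0 (hV₂ _ hπ) hx₂ N) e le_rfl
  have hcop : IsCoprime (g₁.map (IsLocalRing.residue ↥V'))
      (g₂.map (IsLocalRing.residue ↥V')) :=
    (hirr₁.coprime_iff_not_dvd).mpr fun h => hna (hirr₁.associated_of_dvd hirr₂ h)
  have hdvd := (hcop.pow_right (n := e)).mul_dvd hd₁ hd₂
  have h5 := natDegree_le_of_dvd hdvd hP0
  rw [natDegree_mul hirr₁.ne_zero (pow_ne_zero _ hirr₂.ne_zero), natDegree_pow] at h5
  omega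

/-- **(DK), one valuation**: coordinates with respect to `1, y, …, y^(n-1)`, `n ≤ deg ḡ`, of
elements of `V` lie in `V'`, when `g(y) ∈ m_V` and `ḡ` is irreducible. -/
theorem ek85_dk_one (V' : ValuationSubring E) (π : E) (hπ : π ∈ V')
    (hmax : ∀ x ∈ V', x⁻¹ ∉ V' → π⁻¹ * x ∈ V')
    (harch : ∀ x : E, x ≠ 0 → ∃ n : ℕ, (π ^ n)⁻¹ * x ∉ V')
    (V : ValuationSubring F) (hV : ∀ c ∈ V', algebraMap E F c ∈ V)
    (hπV : (algebraMap E F π)⁻¹ ∉ V) {y : F} (hy : y ∈ V) (g : (↥V')[X])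
    (hg : V.valuation (g.eval₂ (tv2_incl V') y) < 1)
    (hirr : Irreducible (g.map (IsLocalRing.residue ↥V')))
    (n : ℕ) (hn : n ≤ (g.map (IsLocalRing.residue ↥V')).natDegree)
    (c : ℕ → E) (hx : ∑ i ∈ Finset.range n, algebraMap E F (c i) * y ^ i ∈ V) :
    ∀ i < n, c i ∈ V' := by
  have hπ0 : π ≠ 0 := by
    rintro rfl
    exact hπV (by simp)
  by_contra hc
  obtain ⟨N, P, hP0, hdeg, hev⟩ := ek85_scale (F := F) V' π hπ hπ0 hmax harch n c hc
  have hd := tv2_dvd_of_eval V' π hmax V hV hπV hy g P hg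
    (by rw [hev]; exact ek85_val_scaled V hπV hx N) hirr
  have h5 := natDegree_le_of_dvd hd hP0
  omega

end ek85_main

section ek85_cor

variable {E F : Type*} [Field E] [Field F] [Algebra E F]

/-- The three-valuation shape (level `q²` over level `q`): two valuation subrings `Va`, `Vb` of
`E` with the same uniformizer `π`; `V₁`, `V₂` over `Va`, `V₃` over `Vb`; `g₁(y) ∈ m_{V₁}`,
`g₂(y) ∈ m_{V₂}` with `π ∈ g₂(y)^e V₂`, `g₃(y) ∈ m_{V₃}`; reductions irreducible, `ḡ₁`, `ḡ₂`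
non-associated. -/
structure ek85_Data (Va Vb : ValuationSubring E) (π : E) (V₁ V₂ V₃ : ValuationSubring F)
    (y : F) (g₁ g₂ : (↥Va)[X]) (g₃ : (↥Vb)[X]) (e : ℕ) : Prop where
  hπa : π ∈ Va
  hπb : π ∈ Vb
  hmaxa : ∀ x ∈ Va, x⁻¹ ∉ Va → π⁻¹ * x ∈ Va
  hmaxb : ∀ x ∈ Vb, x⁻¹ ∉ Vb → π⁻¹ * x ∈ Vb
  harcha : ∀ x : E, x ≠ 0 → ∃ n : ℕ, (π ^ n)⁻¹ * x ∉ Va
  harchb : ∀ x : E, x ≠ 0 → ∃ n : ℕ, (π ^ n)⁻¹ * x ∉ Vb
  hV₁ : ∀ c ∈ Va, algebraMap E F c ∈ V₁
  hV₂ : ∀ c ∈ Va, algebraMap E F c ∈ V₂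
  hV₃ : ∀ c ∈ Vb, algebraMap E F c ∈ V₃
  hπ₁ : (algebraMap E F π)⁻¹ ∉ V₁
  hπ₂ : (algebraMap E F π)⁻¹ ∉ V₂
  hπ₃ : (algebraMap E F π)⁻¹ ∉ V₃
  hy₁ : y ∈ V₁
  hy₂ : y ∈ V₂
  hy₃ : y ∈ V₃
  hg₁ : V₁.valuation (g₁.eval₂ (tv2_incl Va) y) < 1
  hg₂ : V₂.valuation (g₂.eval₂ (tv2_incl Va) y) < 1
  hg₃ : V₃.valuation (g₃.eval₂ (tv2_incl Vb) y) < 1
  hirr₁ : Irreducible (g₁.map (IsLocalRing.residue ↥Va))
  hirr₂ : Irreducible (g₂.map (IsLocalRing.residue ↥Va))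
  hirr₃ : Irreducible (g₃.map (IsLocalRing.residue ↥Vb))
  hna : ¬ Associated (g₁.map (IsLocalRing.residue ↥Va)) (g₂.map (IsLocalRing.residue ↥Va))
  hram : ∃ w ∈ V₂, algebraMap E F π = (g₂.eval₂ (tv2_incl Va) y) ^ e * w

/-- the admissible lengths: `n ≤ deg ḡ₁ + e * deg ḡ₂` and `n ≤ deg ḡ₃`. -/
def ek85_Adm (Va Vb : ValuationSubring E) (g₁ g₂ : (↥Va)[X]) (g₃ : (↥Vb)[X]) (e n : ℕ) : Prop :=
  n ≤ (g₁.map (IsLocalRing.residue ↥Va)).natDegree
      + e * (g₂.map (IsLocalRing.residue ↥Va)).natDegree ∧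
    n ≤ (g₃.map (IsLocalRing.residue ↥Vb)).natDegree

variable {Va Vb : ValuationSubring E} {π : E} {V₁ V₂ V₃ : ValuationSubring F} {y : F}
  {g₁ g₂ : (↥Va)[X]} {g₃ : (↥Vb)[X]} {e : ℕ}

/-- coordinates of elements of `V₁ ∩ V₂ ∩ V₃` lie in `Va ∩ Vb`. -/
theorem ek85_Data_coeff_mem (H : ek85_Data Va Vb π V₁ V₂ V₃ y g₁ g₂ g₃ e) (n : ℕ)
    (hn : ek85_Adm Va Vb g₁ g₂ g₃ e n) (c : ℕ → E)
    (hx₁ : ∑ i ∈ Finset.range n, algebraMap E F (c i) * y ^ i ∈ V₁)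
    (hx₂ : ∑ i ∈ Finset.range n, algebraMap E F (c i) * y ^ i ∈ V₂)
    (hx₃ : ∑ i ∈ Finset.range n, algebraMap E F (c i) * y ^ i ∈ V₃) :
    ∀ i < n, c i ∈ Va.toSubring ⊓ Vb.toSubring := by
  obtain ⟨w, hw, hram⟩ := H.hram
  intro i hi
  exact ⟨ek85_dk Va π H.hπa H.hmaxa H.harcha V₁ V₂ H.hV₁ H.hV₂ H.hπ₁ H.hπ₂ H.hy₁ H.hy₂ g₁ g₂
      H.hg₁ H.hg₂ H.hirr₁ H.hirr₂ H.hna e w hw hram n hn.1 c hx₁ hx₂ i hi,
    ek85_dk_one Vb π H.hπb H.hmaxb H.harchb V₃ H.hV₃ H.hπ₃ H.hy₃ g₃ H.hg₃ H.hirr₃ n hn.2 c hx₃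
      i hi⟩

theorem ek85_Data_inv_notMem (H : ek85_Data Va Vb π V₁ V₂ V₃ y g₁ g₂ g₃ e) : π⁻¹ ∉ Vb := by
  intro h
  apply H.hπ₃
  rw [← map_inv₀]
  exact H.hV₃ _ h

/-- `1, y, …, y^(n-1)` are linearly independent over `E` for admissible `n`. -/
theorem ek85_Data_linInd (H : ek85_Data Va Vb π V₁ V₂ V₃ y g₁ g₂ g₃ e) (n : ℕ)
    (hn : ek85_Adm Va Vb g₁ g₂ g₃ e n) :
    LinearIndependent E (fun i : Fin n => y ^ (i : ℕ)) := by
  classical
  rw [Fintype.linearIndependent_iff]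
  intro g hg i
  by_contra hgi
  have hπ0 : π ≠ 0 := by
    rintro rfl
    exact H.hπ₃ (by simp)
  let c : ℕ → E := fun k => if h : k < n then (π * g i)⁻¹ * g ⟨k, h⟩ else 0
  have hsum : ∑ k ∈ Finset.range n, algebraMap E F (c k) * y ^ k = 0 := by
    rw [← Fin.sum_univ_eq_sum_range (fun k => algebraMap E F (c k) * y ^ k) n]
    have h1 : ∀ k : Fin n, algebraMap E F (c k) * y ^ (k : ℕ)
        = algebraMap E F ((π * g i)⁻¹) * (g k • y ^ (k : ℕ)) := by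
      intro k
      simp only [c, dif_pos k.2, Fin.eta, map_mul, Algebra.smul_def, mul_assoc]
    simp_rw [h1]
    rw [← Finset.mul_sum, hg, mul_zero]
  have h := (ek85_Data_coeff_mem H n hn c (by rw [hsum]; exact V₁.zero_mem)
    (by rw [hsum]; exact V₂.zero_mem) (by rw [hsum]; exact V₃.zero_mem) i i.2).2
  apply ek85_Data_inv_notMem H
  have h2 : c i = π⁻¹ := by
    simp only [c, dif_pos i.2, Fin.eta]
    field_simp
  rw [h2] at h
  exact h

/-- if moreover `[F : E] ≤ n`, then `1, y, …, y^(n-1)` span `F` over `E`. -/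
theorem ek85_Data_span [FiniteDimensional E F] (H : ek85_Data Va Vb π V₁ V₂ V₃ y g₁ g₂ g₃ e)
    (n : ℕ) (hn : ek85_Adm Va Vb g₁ g₂ g₃ e n) (hfin : Module.finrank E F ≤ n) (x : F) :
    ∃ c : ℕ → E, x = ∑ i ∈ Finset.range n, algebraMap E F (c i) * y ^ i := by
  classical
  have hli := ek85_Data_linInd H n hn
  have hcard : Fintype.card (Fin n) = Module.finrank E F := by
    have := hli.fintype_card_le_finrank
    rw [Fintype.card_fin] at this ⊢
    omega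
  have hspan := hli.span_eq_top_of_card_eq_finrank' hcard
  have hx : x ∈ Submodule.span E (Set.range fun i : Fin n => y ^ (i : ℕ)) := by
    rw [hspan]; trivial
  obtain ⟨c, hc⟩ := (Submodule.mem_span_range_iff_exists_fun E).mp hx
  refine ⟨fun k => if h : k < n then c ⟨k, h⟩ else 0, ?_⟩
  rw [← hc, ← Fin.sum_univ_eq_sum_range
    (fun k => algebraMap E F (if h : k < n then c ⟨k, h⟩ else 0) * y ^ k) n]
  refine Finset.sum_congr rfl fun k _ => ?_
  simp only [dif_pos k.2, Fin.eta, Algebra.smul_def]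

/-- the structure map `Va ∩ Vb → F`. -/
noncomputable abbrev ek85_incl (Va Vb : ValuationSubring E) :
    ↥(Va.toSubring ⊓ Vb.toSubring) →+* F :=
  (algebraMap E F).comp (Va.toSubring ⊓ Vb.toSubring).subtype

/-- **polynomial form**: every `x ∈ V₁ ∩ V₂ ∩ V₃` in the `E`-span of `1, …, y^(n-1)` is `P(y)`
with `P ∈ (Va ∩ Vb)[X]` of degree `< n`. -/
theorem ek85_Data_exists_poly (H : ek85_Data Va Vb π V₁ V₂ V₃ y g₁ g₂ g₃ e) (n : ℕ)
    (hn : ek85_Adm Va Vb g₁ g₂ g₃ e n) (x : F)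
    (hspan : ∃ c : ℕ → E, x = ∑ i ∈ Finset.range n, algebraMap E F (c i) * y ^ i)
    (hx₁ : x ∈ V₁) (hx₂ : x ∈ V₂) (hx₃ : x ∈ V₃) :
    ∃ P : (↥(Va.toSubring ⊓ Vb.toSubring))[X], P.degree < n ∧
      P.eval₂ (ek85_incl (F := F) Va Vb) y = x := by
  classical
  obtain ⟨c, hc⟩ := hspan
  have hmem := ek85_Data_coeff_mem H n hn c (hc ▸ hx₁) (hc ▸ hx₂) (hc ▸ hx₃)
  let d : ℕ → ↥(Va.toSubring ⊓ Vb.toSubring) := fun i =>
    if h : c i ∈ Va.toSubring ⊓ Vb.toSubring then ⟨c i, h⟩ else 0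
  have hd : ∀ i < n, (d i : E) = c i := by
    intro i hi
    simp only [d, dif_pos (hmem i hi)]
  refine ⟨∑ i ∈ Finset.range n, C (d i) * X ^ i, ?_, ?_⟩
  · rw [degree_lt_iff_coeff_zero]
    intro m hm
    rw [finsetSum_coeff]
    refine Finset.sum_eq_zero fun b hb => ?_
    have : m ≠ b := by
      have := Finset.mem_range.mp hb
      omega
    simp [coeff_C_mul, coeff_X_pow, this]
  · simp only [eval₂_finsetSum, eval₂_mul, eval₂_C, eval₂_X_pow]
    rw [hc]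
    refine Finset.sum_congr rfl fun i hi => ?_
    have := hd i (Finset.mem_range.mp hi)
    simp only [ek85_incl, RingHom.comp_apply, Subring.subtype_apply]
    rw [this]

/-- `y` is integral over `Va ∩ Vb` (given that `y^n` is in the span of the lower powers). -/
theorem ek85_Data_integral_gen (H : ek85_Data Va Vb π V₁ V₂ V₃ y g₁ g₂ g₃ e) (n : ℕ)
    (hn : ek85_Adm Va Vb g₁ g₂ g₃ e n)
    (hspan : ∃ c : ℕ → E, y ^ n = ∑ i ∈ Finset.range n, algebraMap E F (c i) * y ^ i) :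
    (ek85_incl (F := F) Va Vb).IsIntegralElem y := by
  obtain ⟨P, hPdeg, hP⟩ := ek85_Data_exists_poly H n hn (y ^ n) hspan (pow_mem H.hy₁ n)
    (pow_mem H.hy₂ n) (pow_mem H.hy₃ n)
  refine ⟨X ^ n - P, monic_X_pow_sub hPdeg, ?_⟩
  rw [eval₂_sub, eval₂_X_pow, hP, sub_self]

/-- **integrality form**: `V₁ ∩ V₂ ∩ V₃` is integral over `Va ∩ Vb`. -/
theorem ek85_Data_integral (H : ek85_Data Va Vb π V₁ V₂ V₃ y g₁ g₂ g₃ e) (n : ℕ)
    (hn : ek85_Adm Va Vb g₁ g₂ g₃ e n)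
    (hspan : ∀ x : F, ∃ c : ℕ → E, x = ∑ i ∈ Finset.range n, algebraMap E F (c i) * y ^ i)
    (x : F) (hx₁ : x ∈ V₁) (hx₂ : x ∈ V₂) (hx₃ : x ∈ V₃) :
    (ek85_incl (F := F) Va Vb).IsIntegralElem x := by
  obtain ⟨P, -, hP⟩ := ek85_Data_exists_poly H n hn x (hspan x) hx₁ hx₂ hx₃
  rw [← hP]
  exact tv2_isIntegralElem_eval₂ _ (ek85_Data_integral_gen H n hn (hspan _)) P

/-- **(W-integrality at the upper level)**: with `[F : E] ≤ n`, every element of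
`V₁ ∩ V₂ ∩ V₃` is integral over `Va ∩ Vb`. -/
theorem ek85_Data_main [FiniteDimensional E F] (H : ek85_Data Va Vb π V₁ V₂ V₃ y g₁ g₂ g₃ e)
    (n : ℕ) (hn : ek85_Adm Va Vb g₁ g₂ g₃ e n) (hfin : Module.finrank E F ≤ n)
    (x : F) (hx₁ : x ∈ V₁) (hx₂ : x ∈ V₂) (hx₃ : x ∈ V₃) :
    (ek85_incl (F := F) Va Vb).IsIntegralElem x :=
  ek85_Data_integral H n hn (fun x => ek85_Data_span H n hn hfin x) x hx₁ hx₂ hx₃

end ek85_cor

section ek85_trans

/-- transitivity of integrality for ring homomorphisms, elementwise at the top. -/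
theorem ek85_isIntegralElem_trans {A B C : Type*} [CommRing A] [CommRing B] [CommRing C]
    (f : A →+* B) (g : B →+* C) (hf : f.IsIntegral) {x : C} (hx : g.IsIntegralElem x) :
    (g.comp f).IsIntegralElem x := by
  letI := f.toAlgebra
  letI := g.toAlgebra
  letI := (g.comp f).toAlgebra
  haveI : IsScalarTower A B C := IsScalarTower.of_algebraMap_eq fun _ => rfl
  haveI : Algebra.IsIntegral A B := ⟨hf⟩
  exact isIntegral_trans (R := A) (A := B) x hx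

end ek85_trans

end Fermat.Agent.S36
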