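import Fermat.Agent.S34.FrameSat85
import Fermat.Agent.S36.EisDK85

/-!
# S36 lab (helper85): W-integrality above level `M' q`: the hypothesis `cm15_WInt` for three
valuations over `V_∞`, `V_0`

`wq85_WInt`: at any level `M₂` divisible by `M' q` (`q` prime, `q ∤ M'`), if three valuation
subrings `V₁ V₂ V₃` of `F(M₂)_K` satisfy the Dedekind–Kummer data `ek85_Data` over the two
valuation subrings `V_∞ = cm85_Vinf`, `V_0 = s34i47c_V0` of `F(M' q)_K` (shape: `V₁`, `V₂` over
`V_∞` with `V₂` ramified of index `≥ e`, `V₃` over `V_0`) with `[F(M₂) : F(M' q)] = n`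
admissible, then every element of `V₁ ⊓ V₂ ⊓ V₃` is integral over the Gauss valuation ring of
the good level `M'` — the literal hypothesis `cm15_WInt` of the chart saturation lemmas
`cm15_sat_of_base`, `cm15_sat_level2/3` at level `M₂`.

All names are prefixed `wq85_`.
-/

set_option autoImplicit false
set_option linter.unusedSectionVars false
set_option linter.style.haveILetI false

open ModularCurve IntermediateField Polynomial

namespace Fermat.Agent.S36

open Fermat.Agent.S18 Fermat.Agent.S24 Fermat.Agent.S37 Fermat.Agent.S34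

local notation "Q̄" => AlgebraicClosure ℚ

section wq85

variable {R K : Type} [CommRing R] [IsDomain R] [IsDiscreteValuationRing R] [Field K] [CharZero K]
  [Algebra R K] [IsFractionRing R K] [Algebra K Q̄] (M' q : ℕ) [NeZero M'] [NeZero q]

/-- **(WInt above level `M' q`)**. -/
theorem wq85_WInt (hq : q.Prime) (hM' : ¬ q ∣ M') {π : R} (hπ : Irreducible π)
    (hqR : ¬ IsUnit (q : R)) (M₂ : ℕ) [NeZero M₂] (hdvd : M' * q ∣ M₂)
    (V₁ V₂ V₃ : ValuationSubring ↥(modularFunctionFieldFullC K M₂))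
    (y : ↥(modularFunctionFieldFullC K M₂))
    (g₁ g₂ : (↥(cm85_Vinf (K := K) (M' * q) hπ))[X])
    (g₃ : (↥(s34i47c_V0 (K := K) M' q hq hM' hπ))[X]) (e n : ℕ) (hn0 : 0 < n)
    (H :
      letI : Algebra ↥(modularFunctionFieldFullC K (M' * q)) ↥(modularFunctionFieldFullC K M₂) :=
        (cm15_incl K (M' * q) M₂ hdvd).toRingHom.toAlgebra
      ek85_Data (cm85_Vinf (K := K) (M' * q) hπ) (s34i47c_V0 (K := K) M' q hq hM' hπ)
        (algebraMap K ↥(modularFunctionFieldFullC K (M' * q)) (algebraMap R K π))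
        V₁ V₂ V₃ y g₁ g₂ g₃ e)
    (hn : ek85_Adm (cm85_Vinf (K := K) (M' * q) hπ) (s34i47c_V0 (K := K) M' q hq hM' hπ)
      g₁ g₂ g₃ e n)
    (hfin :
      letI : Algebra ↥(modularFunctionFieldFullC K (M' * q)) ↥(modularFunctionFieldFullC K M₂) :=
        (cm15_incl K (M' * q) M₂ hdvd).toRingHom.toAlgebra
      Module.finrank ↥(modularFunctionFieldFullC K (M' * q))
        ↥(modularFunctionFieldFullC K M₂) = n) :
    cm15_WInt R K M' M₂ (dvd_trans (dvd_mul_right M' q) hdvd) hπ
      (V₁.toSubring ⊓ V₂.toSubring ⊓ V₃.toSubring) := by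
  letI alg : Algebra ↥(modularFunctionFieldFullC K (M' * q))
      ↥(modularFunctionFieldFullC K M₂) := (cm15_incl K (M' * q) M₂ hdvd).toRingHom.toAlgebra
  haveI : FiniteDimensional ↥(modularFunctionFieldFullC K (M' * q))
      ↥(modularFunctionFieldFullC K M₂) :=
    Module.finite_of_finrank_pos (by rw [hfin]; exact hn0)
  intro x hx
  obtain ⟨⟨hx₁, hx₂⟩, hx₃⟩ := hx
  have h1 := ek85_Data_main H n hn hfin.le x hx₁ hx₂ hx₃
  have hfW : ∀ c : ↥(cm85_Vinf (K := K) M' hπ).toSubring,
      ((cm15_incl K M' (M' * q) (dvd_mul_right M' q)).toRingHom.comp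
        (cm85_Vinf (K := K) M' hπ).toSubring.subtype) c ∈
      (cm85_Vinf (K := K) (M' * q) hπ).toSubring ⊓
        (s34i47c_V0 (K := K) M' q hq hM' hπ).toSubring := fun c =>
    ⟨(al97V_alpha_mem_Vinf M' q hπ c.1).mpr c.2,
      (al97V_alpha_mem_V0 (algebraMap K Q̄) M' q hq hM' hπ c.1).mpr c.2⟩
  let f : ↥(cm85_Vinf (K := K) M' hπ).toSubring →+*
      ↥((cm85_Vinf (K := K) (M' * q) hπ).toSubring ⊓
        (s34i47c_V0 (K := K) M' q hq hM' hπ).toSubring) :=
    ((cm15_incl K M' (M' * q) (dvd_mul_right M' q)).toRingHom.comp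
      (cm85_Vinf (K := K) M' hπ).toSubring.subtype).codRestrict _ hfW
  have hf : f.IsIntegral := by
    intro w
    obtain ⟨p, hp, hpe⟩ := fs85_WInt M' q hq hM' hπ hqR (w : ↥(modularFunctionFieldFullC K (M' * q)))
      w.2
    refine ⟨p, hp, Subtype.ext ?_⟩
    have h3 := Polynomial.hom_eval₂ p f
      ((cm85_Vinf (K := K) (M' * q) hπ).toSubring ⊓
        (s34i47c_V0 (K := K) M' q hq hM' hπ).toSubring).subtype w
    rw [Subring.subtype_apply] at h3
    rw [h3]
    exact hpe
  exact ek85_isIntegralElem_trans f _ hf h1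

end wq85

end Fermat.Agent.S36
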