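/-
S36 pre-lab (helper11): the ring `W := ⨅ i, V i` cut out by an arbitrary family of valuation
subrings of a field `F` satisfies `s34i47_WProps π W` as soon as every `V i` contains `R` and
`π` is a nonunit of every `V i` (no hypothesis that `π` be a uniformiser: the ramified middle
valuation `V₂` of level `q² M'`, where `π = s^(q-1) · unit`, is allowed).

* `wf11_W V : Subring F`, `wf11_mem_W`;
* `wf11_WProps`      : `s34i47_WProps π (wf11_W V)` for a nonempty family;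
* `wf11_WProps_three`: the literal form for `V₁.toSubring ⊓ V₂.toSubring ⊓ V₃.toSubring`;
* `wf11_unit_iff`    : the units of `W` are the common units of the `V i`;
* `wf11_rad_pow`     : if `s ^ e = π * u` with `u⁻¹ ∈ V` then `x ∈ s V`-type congruences upgrade:
                       `s⁻¹ * x ∈ V → π⁻¹ * x ^ e ∈ V` (the radical of `π V` to the `e` lies in `π V`).
-/
import Mathlib
import Fermat.Agent.S34.Iface47
import Fermat.Agent.S34.WInter11

set_option autoImplicit false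

namespace Fermat.Agent.S36

open Fermat.Agent.S34

section Family

variable {F : Type*} [Field F]

/-- The intersection of a family of valuation subrings, as a subring of `F`. -/
def wf11_W {ι : Type*} (V : ι → ValuationSubring F) : Subring F := ⨅ i, (V i).toSubring

theorem wf11_mem_W {ι : Type*} {V : ι → ValuationSubring F} {x : F} :
    x ∈ wf11_W V ↔ ∀ i, x ∈ V i := by
  unfold wf11_W
  rw [Subring.mem_iInf]
  exact Iff.rfl

theorem wf11_root {ι : Type*} (V : ι → ValuationSubring F) (m : ℕ) (hm0 : 0 < m) (x : F)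
    (hx : x ^ m ∈ wf11_W V) : x ∈ wf11_W V :=
  wf11_mem_W.mpr fun i => wi11_root_val (V i) m hm0 x (wf11_mem_W.mp hx i)

theorem wf11_unit {ι : Type*} (V : ι → ValuationSubring F) (p : F) (hp : ∀ i, p⁻¹ ∉ V i)
    (x : F) (hx : x ∈ wf11_W V) : (1 + p * x)⁻¹ ∈ wf11_W V :=
  wf11_mem_W.mpr fun i => wi11_unit_val (V i) p (hp i) x (wf11_mem_W.mp hx i)

theorem wf11_inv_not_mem {ι : Type*} (V : ι → ValuationSubring F) (p : F) (i : ι)
    (hp : p⁻¹ ∉ V i) : p⁻¹ ∉ wf11_W V := fun h => hp (wf11_mem_W.mp h i)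

theorem wf11_mem_of_inv_not_mem {ι : Type*} (V : ι → ValuationSubring F) (p : F)
    (hp : ∀ i, p⁻¹ ∉ V i) : p ∈ wf11_W V :=
  wf11_mem_W.mpr fun i => wi11_mem_of_inv_not_mem (V i) p (hp i)

/-- The units of `W` are the common units of the `V i`. -/
theorem wf11_unit_iff {ι : Type*} (V : ι → ValuationSubring F) (x : F) :
    (x ∈ wf11_W V ∧ x⁻¹ ∈ wf11_W V) ↔ ∀ i, x ∈ V i ∧ x⁻¹ ∈ V i := by
  rw [wf11_mem_W, wf11_mem_W]
  exact ⟨fun h i => ⟨h.1 i, h.2 i⟩, fun h => ⟨fun i => (h i).1, fun i => (h i).2⟩⟩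

/-- **(W)** for the intersection of a nonempty family of valuation subrings containing `R` in
which `π` is a nonunit. -/
theorem wf11_WProps {R : Type*} [CommRing R] [Algebra R F] {ι : Type*} [Nonempty ι]
    (V : ι → ValuationSubring F) (π : R) (hR : ∀ i, ∀ r : R, algebraMap R F r ∈ V i)
    (hπ : ∀ i, (algebraMap R F π)⁻¹ ∉ V i) : s34i47_WProps π (wf11_W V) :=
  ⟨fun r => wf11_mem_W.mpr fun i => hR i r,
    wf11_inv_not_mem V _ (Classical.arbitrary ι) (hπ _),
    fun m hm0 x hx => wf11_root V m hm0 x hx,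
    fun x hx => wf11_unit V _ hπ x hx⟩

/-- The three-ring intersection is a family intersection. -/
theorem wf11_three_eq (V₁ V₂ V₃ : ValuationSubring F) :
    V₁.toSubring ⊓ V₂.toSubring ⊓ V₃.toSubring = wf11_W (![V₁, V₂, V₃] : Fin 3 → ValuationSubring F) := by
  ext x
  rw [wf11_mem_W, Subring.mem_inf, Subring.mem_inf]
  constructor
  · rintro ⟨⟨h1, h2⟩, h3⟩ i
    fin_cases i
    · exact h1
    · exact h2
    · exact h3
  · intro h
    exact ⟨⟨h 0, h 1⟩, h 2⟩

theorem wf11_mem_three {V₁ V₂ V₃ : ValuationSubring F} {x : F} :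
    x ∈ V₁.toSubring ⊓ V₂.toSubring ⊓ V₃.toSubring ↔ x ∈ V₁ ∧ x ∈ V₂ ∧ x ∈ V₃ := by
  rw [Subring.mem_inf, Subring.mem_inf]
  exact ⟨fun h => ⟨h.1.1, h.1.2, h.2⟩, fun h => ⟨⟨h.1, h.2.1⟩, h.2.2⟩⟩

/-- **(W)** for `W = V₁ ⊓ V₂ ⊓ V₃` (literal `Subring` infimum). -/
theorem wf11_WProps_three {R : Type*} [CommRing R] [Algebra R F]
    (V₁ V₂ V₃ : ValuationSubring F) (π : R)
    (hR₁ : ∀ r : R, algebraMap R F r ∈ V₁) (hR₂ : ∀ r : R, algebraMap R F r ∈ V₂)
    (hR₃ : ∀ r : R, algebraMap R F r ∈ V₃)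
    (hπ₁ : (algebraMap R F π)⁻¹ ∉ V₁) (hπ₂ : (algebraMap R F π)⁻¹ ∉ V₂)
    (hπ₃ : (algebraMap R F π)⁻¹ ∉ V₃) :
    s34i47_WProps π (V₁.toSubring ⊓ V₂.toSubring ⊓ V₃.toSubring) := by
  rw [wf11_three_eq]
  refine wf11_WProps _ π ?_ ?_
  · intro i r
    fin_cases i
    · exact hR₁ r
    · exact hR₂ r
    · exact hR₃ r
  · intro i
    fin_cases i
    · exact hπ₁
    · exact hπ₂
    · exact hπ₃

/-- In a valuation subring where `s ^ e = π * u` with `u` a unit, the `e`-th power of an element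
of `s V` lies in `π V` (`rad(π V) ^ e ⊆ π V` for the ramified middle valuation). -/
theorem wf11_rad_pow (V : ValuationSubring F) (π s u : F) (e : ℕ) (hπ0 : π ≠ 0) (hs0 : s ≠ 0)
    (hse : s ^ e = π * u) (hu : u ∈ V) (x : F) (hx : s⁻¹ * x ∈ V) :
    π⁻¹ * x ^ e ∈ V := by
  have hse0 : s ^ e ≠ 0 := pow_ne_zero e hs0
  have hu0 : u ≠ 0 := by
    rintro rfl
    rw [mul_zero] at hse
    exact hse0 hse
  have h1 : π⁻¹ * x ^ e = u * (s⁻¹ * x) ^ e := by
    rw [mul_pow, inv_pow, hse]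
    field_simp
  rw [h1]
  exact V.mul_mem _ _ hu (V.pow_mem hx e)

end Family

end Fermat.Agent.S36
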