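import Fermat.Agent.S34.FrameSat85
import Fermat.Agent.S36.WIntSq85
import Fermat.Agent.S36.WInterFam11

/-!
# S36 lab (helper85): the chart half of the frame for THREE valuations

`W = V_∞ ⊓ V₂ ⊓ V₃` (literal `Subring` infimum, `V_∞ = cm85_Vinf` the Gauss valuation ring of the
level `M`), at any level `M` divisible by a good level `M'` (`p₀ ∣ M'`, `M'` a unit of `R`):

* `cq85_chart12_le_W`   : the big chart lies in `W`;
* `cq85_frame_chart_level2/3` : (W) = `s34i47_WProps`, (C) = `s34i47_ChartProps` and `σ h = h`,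
  from `V' ⊆ V₂, V₃` (`V'` the Gauss ring of level `M'`), `π⁻¹ ∉ V₂, V₃` and the one hypothesis
  `cm15_WInt` (three-ring mirror of `cm15_frame_chart_level2/3`; nothing about the special
  fibre being reduced is used);
* `cq85_frame_level2/3` : the same conclusions at any level `M₂` divisible by `M' q` from the
  Dedekind–Kummer data `ek85_Data` over `V_∞`, `V_0` of level `M' q` (`wq85_WInt`).

All names are prefixed `cq85_`.
-/

set_option autoImplicit false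
set_option linter.unusedSectionVars false
set_option linter.style.haveILetI false

open ModularCurve IntermediateField Polynomial

namespace Fermat.Agent.S36

open Fermat.Agent.S18 Fermat.Agent.S24 Fermat.Agent.S37 Fermat.Agent.S34

local notation "Q̄" => AlgebraicClosure ℚ

section cq85_abs

variable {R F : Type*} [CommRing R] [Field F] [Algebra R F]

/-- the big chart lies in `V₁ ⊓ V₂ ⊓ V₃`. -/
theorem cq85_chart12_le_W (h : F) (V₁ V₂ V₃ : ValuationSubring F)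
    (hR₁ : ∀ r : R, algebraMap R F r ∈ V₁) (hR₂ : ∀ r : R, algebraMap R F r ∈ V₂)
    (hR₃ : ∀ r : R, algebraMap R F r ∈ V₃)
    (hh₁ : h ∈ V₁) (hh₁' : h⁻¹ ∈ V₁) (hh₂ : h ∈ V₂) (hh₂' : h⁻¹ ∈ V₂)
    (hh₃ : h ∈ V₃) (hh₃' : h⁻¹ ∈ V₃) :
    ∀ x ∈ pk15_chart R ({h, h⁻¹} : Set F), x ∈ V₁.toSubring ⊓ V₂.toSubring ⊓ V₃.toSubring := by
  intro x hx
  have key : ∀ V : ValuationSubring F, (∀ r : R, algebraMap R F r ∈ V) → h ∈ V → h⁻¹ ∈ V →
      x ∈ V := by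
    intro V hRV hhV hhV'
    refine pk15_chart_le_V V hRV _ ?_ x hx
    intro g hg
    rcases hg with rfl | hg
    · exact hhV
    · rw [Set.mem_singleton_iff] at hg; rw [hg]; exact hhV'
  exact ⟨⟨key V₁ hR₁ hh₁ hh₁', key V₂ hR₂ hh₂ hh₂'⟩, key V₃ hR₃ hh₃ hh₃'⟩

end cq85_abs

section cq85_frame

variable {R K : Type} [CommRing R] [IsDomain R] [IsDiscreteValuationRing R] [Field K] [CharZero K]
  [Algebra R K] [IsFractionRing R K] [Algebra K Q̄] [Algebra.IsAlgebraic K Q̄]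
  (M' M : ℕ) [NeZero M'] [NeZero M]
  [Algebra R ↥(modularFunctionFieldFullC K M')]
  [IsScalarTower R K ↥(modularFunctionFieldFullC K M')]
  [Algebra R ↥(modularFunctionFieldFullC K M)]
  [IsScalarTower R K ↥(modularFunctionFieldFullC K M)]

/-- constants of `R` lie in every valuation ring over the Gauss ring of level `M'`. -/
theorem cq85_hRV (hdvd : M' ∣ M) {π : R} (hπ : Irreducible π)
    (V : ValuationSubring ↥(modularFunctionFieldFullC K M))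
    (hV : ∀ c ∈ cm85_Vinf (K := K) M' hπ, cm15_incl K M' M hdvd c ∈ V) (r : R) :
    algebraMap R ↥(modularFunctionFieldFullC K M) r ∈ V := by
  have h1 := hV _ (pk85_hRV (K := K) M' hπ r)
  rw [IsScalarTower.algebraMap_apply R K ↥(modularFunctionFieldFullC K M'), AlgHom.commutes,
    ← IsScalarTower.algebraMap_apply R K ↥(modularFunctionFieldFullC K M)] at h1
  exact h1

/-- **The chart half of the FRAME for three valuations, level 2**: (W), (C) and `σ h = h` for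
`W = V_∞ ⊓ V₂ ⊓ V₃`. -/
theorem cq85_frame_chart_level2 (hdvd : M' ∣ M) {π : R} (hπ : Irreducible π) (h2 : 2 ∣ M')
    (hMu : IsUnit (M' : R)) (V₂ V₃ : ValuationSubring ↥(modularFunctionFieldFullC K M))
    (hV₂ : ∀ c ∈ cm85_Vinf (K := K) M' hπ, cm15_incl K M' M hdvd c ∈ V₂)
    (hV₃ : ∀ c ∈ cm85_Vinf (K := K) M' hπ, cm15_incl K M' M hdvd c ∈ V₃)
    (hπV₂ : (algebraMap R ↥(modularFunctionFieldFullC K M) π)⁻¹ ∉ V₂)
    (hπV₃ : (algebraMap R ↥(modularFunctionFieldFullC K M) π)⁻¹ ∉ V₃)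
    (hWint : cm15_WInt R K M' M hdvd hπ
      ((cm85_Vinf (K := K) M hπ).toSubring ⊓ V₂.toSubring ⊓ V₃.toSubring)) :
    s34i47_WProps π ((cm85_Vinf (K := K) M hπ).toSubring ⊓ V₂.toSubring ⊓ V₃.toSubring) ∧
      s34i47_ChartProps K π ((cm85_Vinf (K := K) M hπ).toSubring ⊓ V₂.toSubring ⊓ V₃.toSubring)
        (pk85_h2 K M (h2.trans hdvd)) ∧
      ∀ σ : K ≃+* K, s34i47_coeffEquiv σ M (pk85_h2 K M (h2.trans hdvd)) =
        pk85_h2 K M (h2.trans hdvd) := by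
  have hfacts := cm85_facts_level2 (R := R) (K := K) M hπ (h2.trans hdvd)
  obtain ⟨-, -, -, -, hhV', hhV'', -⟩ := cm85_facts_level2 (R := R) (K := K) M' hπ h2
  obtain ⟨-, hRV, hπV, -, hhV, hhVi, -⟩ := hfacts
  have hh : cm15_incl K M' M hdvd (pk85_h2 K M' h2) = pk85_h2 K M (h2.trans hdvd) :=
    Subtype.ext (cm15_incl_coe M' M hdvd _)
  have hhinv : cm15_incl K M' M hdvd (pk85_h2 K M' h2)⁻¹ = (pk85_h2 K M (h2.trans hdvd))⁻¹ := by
    rw [map_inv₀, hh]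
  obtain ⟨hs₁, hs₂, hs₁₂⟩ := cm15_sat_level2 (R := R) (K := K) M' M hdvd hπ h2 hMu _ hWint
  refine ⟨wf11_WProps_three _ V₂ V₃ π hRV (cq85_hRV M' M hdvd hπ V₂ hV₂)
    (cq85_hRV M' M hdvd hπ V₃ hV₃) hπV hπV₂ hπV₃, ?_, fun σ => cm15_coeffEquiv_h2 M σ _⟩
  exact cm15_chartProps_of M _ _ (cm85_facts_level2 (R := R) (K := K) M hπ (h2.trans hdvd)) _
    (cq85_chart12_le_W _ _ V₂ V₃ hRV (cq85_hRV M' M hdvd hπ V₂ hV₂)
      (cq85_hRV M' M hdvd hπ V₃ hV₃) hhV hhVi (hh ▸ hV₂ _ hhV') (hhinv ▸ hV₂ _ hhV'')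
      (hh ▸ hV₃ _ hhV') (hhinv ▸ hV₃ _ hhV'')) hs₁ hs₂ hs₁₂

/-- **The chart half of the FRAME for three valuations, level 3.** -/
theorem cq85_frame_chart_level3 (hdvd : M' ∣ M) {π : R} (hπ : Irreducible π) (h3 : 3 ∣ M')
    (hMu : IsUnit (M' : R)) (V₂ V₃ : ValuationSubring ↥(modularFunctionFieldFullC K M))
    (hV₂ : ∀ c ∈ cm85_Vinf (K := K) M' hπ, cm15_incl K M' M hdvd c ∈ V₂)
    (hV₃ : ∀ c ∈ cm85_Vinf (K := K) M' hπ, cm15_incl K M' M hdvd c ∈ V₃)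
    (hπV₂ : (algebraMap R ↥(modularFunctionFieldFullC K M) π)⁻¹ ∉ V₂)
    (hπV₃ : (algebraMap R ↥(modularFunctionFieldFullC K M) π)⁻¹ ∉ V₃)
    (hWint : cm15_WInt R K M' M hdvd hπ
      ((cm85_Vinf (K := K) M hπ).toSubring ⊓ V₂.toSubring ⊓ V₃.toSubring)) :
    s34i47_WProps π ((cm85_Vinf (K := K) M hπ).toSubring ⊓ V₂.toSubring ⊓ V₃.toSubring) ∧
      s34i47_ChartProps K π ((cm85_Vinf (K := K) M hπ).toSubring ⊓ V₂.toSubring ⊓ V₃.toSubring)
        (pk85_h3 K M (h3.trans hdvd)) ∧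
      ∀ σ : K ≃+* K, s34i47_coeffEquiv σ M (pk85_h3 K M (h3.trans hdvd)) =
        pk85_h3 K M (h3.trans hdvd) := by
  have hfacts := cm85_facts_level3 (R := R) (K := K) M hπ (h3.trans hdvd)
  obtain ⟨-, -, -, -, hhV', hhV'', -⟩ := cm85_facts_level3 (R := R) (K := K) M' hπ h3
  obtain ⟨-, hRV, hπV, -, hhV, hhVi, -⟩ := hfacts
  have hh : cm15_incl K M' M hdvd (pk85_h3 K M' h3) = pk85_h3 K M (h3.trans hdvd) :=
    Subtype.ext (cm15_incl_coe M' M hdvd _)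
  have hhinv : cm15_incl K M' M hdvd (pk85_h3 K M' h3)⁻¹ = (pk85_h3 K M (h3.trans hdvd))⁻¹ := by
    rw [map_inv₀, hh]
  obtain ⟨hs₁, hs₂, hs₁₂⟩ := cm15_sat_level3 (R := R) (K := K) M' M hdvd hπ h3 hMu _ hWint
  refine ⟨wf11_WProps_three _ V₂ V₃ π hRV (cq85_hRV M' M hdvd hπ V₂ hV₂)
    (cq85_hRV M' M hdvd hπ V₃ hV₃) hπV hπV₂ hπV₃, ?_, fun σ => cm15_coeffEquiv_h3 M σ _⟩
  exact cm15_chartProps_of M _ _ (cm85_facts_level3 (R := R) (K := K) M hπ (h3.trans hdvd)) _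
    (cq85_chart12_le_W _ _ V₂ V₃ hRV (cq85_hRV M' M hdvd hπ V₂ hV₂)
      (cq85_hRV M' M hdvd hπ V₃ hV₃) hhV hhVi (hh ▸ hV₂ _ hhV') (hhinv ▸ hV₂ _ hhV'')
      (hh ▸ hV₃ _ hhV') (hhinv ▸ hV₃ _ hhV'')) hs₁ hs₂ hs₁₂

end cq85_frame

section cq85_data

variable {R K : Type} [CommRing R] [IsDomain R] [IsDiscreteValuationRing R] [Field K] [CharZero K]
  [Algebra R K] [IsFractionRing R K] [Algebra K Q̄] [Algebra.IsAlgebraic K Q̄]
  (M' q : ℕ) [NeZero M'] [NeZero q] (M₂ : ℕ) [NeZero M₂]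
  [Algebra R ↥(modularFunctionFieldFullC K M₂)]
  [IsScalarTower R K ↥(modularFunctionFieldFullC K M₂)]

/-- **(W) + (C) + `σ h = h` at level `M₂ ⊇ M' q` from the Dedekind–Kummer data, level 2**: for
`W = V_∞ ⊓ V₂ ⊓ V₃` with `V_∞ = cm85_Vinf M₂`, `V_∞, V₂` over `cm85_Vinf (M' q)` and `V₃` over
`s34i47c_V0 M' q`. -/
theorem cq85_frame_level2 (hq : q.Prime) (hM' : ¬ q ∣ M') {π : R} (hπ : Irreducible π)
    (hqR : ¬ IsUnit (q : R)) (hMu : IsUnit (M' : R)) (h2 : 2 ∣ M') (hdvd : M' * q ∣ M₂)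
    (V₂ V₃ : ValuationSubring ↥(modularFunctionFieldFullC K M₂))
    (y : ↥(modularFunctionFieldFullC K M₂))
    (g₁ g₂ : (↥(cm85_Vinf (K := K) (M' * q) hπ))[X])
    (g₃ : (↥(s34i47c_V0 (K := K) M' q hq hM' hπ))[X]) (e n : ℕ) (hn0 : 0 < n)
    (H :
      letI : Algebra ↥(modularFunctionFieldFullC K (M' * q)) ↥(modularFunctionFieldFullC K M₂) :=
        (cm15_incl K (M' * q) M₂ hdvd).toRingHom.toAlgebra
      ek85_Data (cm85_Vinf (K := K) (M' * q) hπ) (s34i47c_V0 (K := K) M' q hq hM' hπ)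
        (algebraMap K ↥(modularFunctionFieldFullC K (M' * q)) (algebraMap R K π))
        (cm85_Vinf (K := K) M₂ hπ) V₂ V₃ y g₁ g₂ g₃ e)
    (hn : ek85_Adm (cm85_Vinf (K := K) (M' * q) hπ) (s34i47c_V0 (K := K) M' q hq hM' hπ)
      g₁ g₂ g₃ e n)
    (hfin :
      letI : Algebra ↥(modularFunctionFieldFullC K (M' * q)) ↥(modularFunctionFieldFullC K M₂) :=
        (cm15_incl K (M' * q) M₂ hdvd).toRingHom.toAlgebra
      Module.finrank ↥(modularFunctionFieldFullC K (M' * q))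
        ↥(modularFunctionFieldFullC K M₂) = n) :
    s34i47_WProps π ((cm85_Vinf (K := K) M₂ hπ).toSubring ⊓ V₂.toSubring ⊓ V₃.toSubring) ∧
      s34i47_ChartProps K π ((cm85_Vinf (K := K) M₂ hπ).toSubring ⊓ V₂.toSubring ⊓ V₃.toSubring)
        (pk85_h2 K M₂ (h2.trans ((dvd_mul_right M' q).trans hdvd))) ∧
      ∀ σ : K ≃+* K, s34i47_coeffEquiv σ M₂
          (pk85_h2 K M₂ (h2.trans ((dvd_mul_right M' q).trans hdvd))) =
        pk85_h2 K M₂ (h2.trans ((dvd_mul_right M' q).trans hdvd)) := by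
  letI : Algebra R ↥(modularFunctionFieldFullC K M') :=
    ((algebraMap K ↥(modularFunctionFieldFullC K M')).comp (algebraMap R K)).toAlgebra
  haveI : IsScalarTower R K ↥(modularFunctionFieldFullC K M') :=
    IsScalarTower.of_algebraMap_eq (fun _ => rfl)
  letI alg : Algebra ↥(modularFunctionFieldFullC K (M' * q))
      ↥(modularFunctionFieldFullC K M₂) := (cm15_incl K (M' * q) M₂ hdvd).toRingHom.toAlgebra
  have hdvd' : M' ∣ M₂ := (dvd_mul_right M' q).trans hdvd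
  have hWint := wq85_WInt M' q hq hM' hπ hqR M₂ hdvd (cm85_Vinf (K := K) M₂ hπ) V₂ V₃ y g₁ g₂ g₃
    e n hn0 H hn hfin
  have hV₂ : ∀ c ∈ cm85_Vinf (K := K) M' hπ, cm15_incl K M' M₂ hdvd' c ∈ V₂ := fun c hc =>
    H.hV₂ _ ((al97V_alpha_mem_Vinf M' q hπ c).mpr hc)
  have hV₃ : ∀ c ∈ cm85_Vinf (K := K) M' hπ, cm15_incl K M' M₂ hdvd' c ∈ V₃ := fun c hc =>
    H.hV₃ _ ((al97V_alpha_mem_V0 (algebraMap K Q̄) M' q hq hM' hπ c).mpr hc)
  have hπEF : algebraMap ↥(modularFunctionFieldFullC K (M' * q)) ↥(modularFunctionFieldFullC K M₂)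
      (algebraMap K ↥(modularFunctionFieldFullC K (M' * q)) (algebraMap R K π)) =
      algebraMap R ↥(modularFunctionFieldFullC K M₂) π := by
    rw [IsScalarTower.algebraMap_apply R K ↥(modularFunctionFieldFullC K M₂)]
    exact (cm15_incl K (M' * q) M₂ hdvd).commutes _
  have hπV₂ : (algebraMap R ↥(modularFunctionFieldFullC K M₂) π)⁻¹ ∉ V₂ := by
    rw [← hπEF]; exact H.hπ₂
  have hπV₃ : (algebraMap R ↥(modularFunctionFieldFullC K M₂) π)⁻¹ ∉ V₃ := by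
    rw [← hπEF]; exact H.hπ₃
  exact cq85_frame_chart_level2 M' M₂ hdvd' hπ h2 hMu V₂ V₃ hV₂ hV₃ hπV₂ hπV₃ hWint

/-- **(W) + (C) + `σ h = h` at level `M₂ ⊇ M' q` from the Dedekind–Kummer data, level 3**: for
`W = V_∞ ⊓ V₂ ⊓ V₃` with `V_∞ = cm85_Vinf M₂`, `V_∞, V₂` over `cm85_Vinf (M' q)` and `V₃` over
`s34i47c_V0 M' q`. -/
theorem cq85_frame_level3 (hq : q.Prime) (hM' : ¬ q ∣ M') {π : R} (hπ : Irreducible π)
    (hqR : ¬ IsUnit (q : R)) (hMu : IsUnit (M' : R)) (h3 : 3 ∣ M') (hdvd : M' * q ∣ M₂)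
    (V₂ V₃ : ValuationSubring ↥(modularFunctionFieldFullC K M₂))
    (y : ↥(modularFunctionFieldFullC K M₂))
    (g₁ g₂ : (↥(cm85_Vinf (K := K) (M' * q) hπ))[X])
    (g₃ : (↥(s34i47c_V0 (K := K) M' q hq hM' hπ))[X]) (e n : ℕ) (hn0 : 0 < n)
    (H :
      letI : Algebra ↥(modularFunctionFieldFullC K (M' * q)) ↥(modularFunctionFieldFullC K M₂) :=
        (cm15_incl K (M' * q) M₂ hdvd).toRingHom.toAlgebra
      ek85_Data (cm85_Vinf (K := K) (M' * q) hπ) (s34i47c_V0 (K := K) M' q hq hM' hπ)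
        (algebraMap K ↥(modularFunctionFieldFullC K (M' * q)) (algebraMap R K π))
        (cm85_Vinf (K := K) M₂ hπ) V₂ V₃ y g₁ g₂ g₃ e)
    (hn : ek85_Adm (cm85_Vinf (K := K) (M' * q) hπ) (s34i47c_V0 (K := K) M' q hq hM' hπ)
      g₁ g₂ g₃ e n)
    (hfin :
      letI : Algebra ↥(modularFunctionFieldFullC K (M' * q)) ↥(modularFunctionFieldFullC K M₂) :=
        (cm15_incl K (M' * q) M₂ hdvd).toRingHom.toAlgebra
      Module.finrank ↥(modularFunctionFieldFullC K (M' * q))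
        ↥(modularFunctionFieldFullC K M₂) = n) :
    s34i47_WProps π ((cm85_Vinf (K := K) M₂ hπ).toSubring ⊓ V₂.toSubring ⊓ V₃.toSubring) ∧
      s34i47_ChartProps K π ((cm85_Vinf (K := K) M₂ hπ).toSubring ⊓ V₂.toSubring ⊓ V₃.toSubring)
        (pk85_h3 K M₂ (h3.trans ((dvd_mul_right M' q).trans hdvd))) ∧
      ∀ σ : K ≃+* K, s34i47_coeffEquiv σ M₂
          (pk85_h3 K M₂ (h3.trans ((dvd_mul_right M' q).trans hdvd))) =
        pk85_h3 K M₂ (h3.trans ((dvd_mul_right M' q).trans hdvd)) := by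
  letI : Algebra R ↥(modularFunctionFieldFullC K M') :=
    ((algebraMap K ↥(modularFunctionFieldFullC K M')).comp (algebraMap R K)).toAlgebra
  haveI : IsScalarTower R K ↥(modularFunctionFieldFullC K M') :=
    IsScalarTower.of_algebraMap_eq (fun _ => rfl)
  letI alg : Algebra ↥(modularFunctionFieldFullC K (M' * q))
      ↥(modularFunctionFieldFullC K M₂) := (cm15_incl K (M' * q) M₂ hdvd).toRingHom.toAlgebra
  have hdvd' : M' ∣ M₂ := (dvd_mul_right M' q).trans hdvd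
  have hWint := wq85_WInt M' q hq hM' hπ hqR M₂ hdvd (cm85_Vinf (K := K) M₂ hπ) V₂ V₃ y g₁ g₂ g₃
    e n hn0 H hn hfin
  have hV₂ : ∀ c ∈ cm85_Vinf (K := K) M' hπ, cm15_incl K M' M₂ hdvd' c ∈ V₂ := fun c hc =>
    H.hV₂ _ ((al97V_alpha_mem_Vinf M' q hπ c).mpr hc)
  have hV₃ : ∀ c ∈ cm85_Vinf (K := K) M' hπ, cm15_incl K M' M₂ hdvd' c ∈ V₃ := fun c hc =>
    H.hV₃ _ ((al97V_alpha_mem_V0 (algebraMap K Q̄) M' q hq hM' hπ c).mpr hc)
  have hπEF : algebraMap ↥(modularFunctionFieldFullC K (M' * q)) ↥(modularFunctionFieldFullC K M₂)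
      (algebraMap K ↥(modularFunctionFieldFullC K (M' * q)) (algebraMap R K π)) =
      algebraMap R ↥(modularFunctionFieldFullC K M₂) π := by
    rw [IsScalarTower.algebraMap_apply R K ↥(modularFunctionFieldFullC K M₂)]
    exact (cm15_incl K (M' * q) M₂ hdvd).commutes _
  have hπV₂ : (algebraMap R ↥(modularFunctionFieldFullC K M₂) π)⁻¹ ∉ V₂ := by
    rw [← hπEF]; exact H.hπ₂
  have hπV₃ : (algebraMap R ↥(modularFunctionFieldFullC K M₂) π)⁻¹ ∉ V₃ := by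
    rw [← hπEF]; exact H.hπ₃
  exact cq85_frame_chart_level3 M' M₂ hdvd' hπ h3 hMu V₂ V₃ hV₂ hV₃ hπV₂ hπV₃ hWint

end cq85_data

end Fermat.Agent.S36
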