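import Fermat.Agent.S34.ChartM15c
import Fermat.Agent.S36.WInterFam11

/-!
# S36 lab (helper79): the chart half of the three-valuation FRAME, generic in `W`

For `M' ∣ M`, `M'` a good level (`p₀ ∣ M'`, `p₀ ∈ {2, 3}`, `M'` a unit of `R`) and
`h = pk85_h2/3 K M` the Hauptmodul of level `p₀`:

* `ct79_chartProps_level2/3`: for ANY subring `W` of `F_K(M)` containing the big chart and
  integral over the Gauss ring of level `M'` (`cm15_WInt`), `s34i47_ChartProps K π W h` holds.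
  Nothing about reducedness of the special fibre is used: saturation is `cm15_sat_level2/3`.
* `ct79_frame_chart_level2/3`: for three valuation subrings `V₁ V₂ V₃` of `F_K(M)` containing `R`,
  `h`, `h⁻¹`, with `π` a nonunit of each (NOT necessarily a uniformiser: the ramified middle
  valuation of level `q² M'` is allowed), and `W = V₁ ⊓ V₂ ⊓ V₃` integral over the Gauss ring of
  level `M'`: `s34i47_WProps π W ∧ s34i47_ChartProps K π W h ∧ ∀ σ, σ h = h`, i.e. the chart half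
  of `s34i47_Frame` in its literal order.  Hence `s34i47_Pkg_Main` (`cm85_pkg_main`) applies to
  `W = V₁ ⊓ V₂ ⊓ V₃` as it stands.

All names are prefixed `ct79_`.
-/

set_option autoImplicit false
set_option linter.unusedSectionVars false

open ModularCurve

namespace Fermat.Agent.S36

open Fermat.Agent.S18 Fermat.Agent.S24 Fermat.Agent.S34

local notation "Q̄" => AlgebraicClosure ℚ

section three

variable {R F : Type*} [CommRing R] [Field F] [Algebra R F]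

/-- the big chart of `h` lies in `V₁ ⊓ V₂ ⊓ V₃` as soon as `R`, `h`, `h⁻¹` do. -/
theorem ct79_chart12_le_three (h : F) (V₁ V₂ V₃ : ValuationSubring F)
    (hR₁ : ∀ r : R, algebraMap R F r ∈ V₁) (hR₂ : ∀ r : R, algebraMap R F r ∈ V₂)
    (hR₃ : ∀ r : R, algebraMap R F r ∈ V₃)
    (hh₁ : h ∈ V₁) (hh₁' : h⁻¹ ∈ V₁) (hh₂ : h ∈ V₂) (hh₂' : h⁻¹ ∈ V₂)
    (hh₃ : h ∈ V₃) (hh₃' : h⁻¹ ∈ V₃) :
    ∀ x ∈ pk15_chart R ({h, h⁻¹} : Set F), x ∈ V₁.toSubring ⊓ V₂.toSubring ⊓ V₃.toSubring := by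
  intro x hx
  have key : ∀ V : ValuationSubring F, (∀ r : R, algebraMap R F r ∈ V) → h ∈ V → h⁻¹ ∈ V →
      x ∈ V := by
    intro V hRV hhV hhV'
    refine pk15_chart_le_V V hRV _ ?_ x hx
    intro g hg
    rcases hg with rfl | hg
    · exact hhV
    · rw [Set.mem_singleton_iff] at hg; rw [hg]; exact hhV'
  exact ⟨⟨key V₁ hR₁ hh₁ hh₁', key V₂ hR₂ hh₂ hh₂'⟩, key V₃ hR₃ hh₃ hh₃'⟩

end three

section frame

variable {R K : Type} [CommRing R] [IsDomain R] [IsDiscreteValuationRing R] [Field K] [CharZero K]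
  [Algebra R K] [IsFractionRing R K] [Algebra K Q̄] [Algebra.IsAlgebraic K Q̄]
  (M' M : ℕ) [NeZero M'] [NeZero M]
  [Algebra R ↥(modularFunctionFieldFullC K M')]
  [IsScalarTower R K ↥(modularFunctionFieldFullC K M')]
  [Algebra R ↥(modularFunctionFieldFullC K M)]
  [IsScalarTower R K ↥(modularFunctionFieldFullC K M)]

/-- **(C), level 2, generic `W`.** -/
theorem ct79_chartProps_level2 (hdvd : M' ∣ M) {π : R} (hπ : Irreducible π) (h2 : 2 ∣ M')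
    (hMu : IsUnit (M' : R)) (W : Subring ↥(modularFunctionFieldFullC K M))
    (hW12 : ∀ x ∈ pk15_chart R ({pk85_h2 K M (h2.trans hdvd), (pk85_h2 K M (h2.trans hdvd))⁻¹} :
      Set ↥(modularFunctionFieldFullC K M)), x ∈ W)
    (hWint : cm15_WInt R K M' M hdvd hπ W) :
    s34i47_ChartProps K π W (pk85_h2 K M (h2.trans hdvd)) := by
  have hfacts := cm85_facts_level2 (R := R) (K := K) M hπ (h2.trans hdvd)
  obtain ⟨hs₁, hs₂, hs₁₂⟩ := cm15_sat_level2 (R := R) (K := K) M' M hdvd hπ h2 hMu W hWint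
  exact cm15_chartProps_of M _ _ hfacts W hW12 hs₁ hs₂ hs₁₂

/-- **(C), level 3, generic `W`.** -/
theorem ct79_chartProps_level3 (hdvd : M' ∣ M) {π : R} (hπ : Irreducible π) (h3 : 3 ∣ M')
    (hMu : IsUnit (M' : R)) (W : Subring ↥(modularFunctionFieldFullC K M))
    (hW12 : ∀ x ∈ pk15_chart R ({pk85_h3 K M (h3.trans hdvd), (pk85_h3 K M (h3.trans hdvd))⁻¹} :
      Set ↥(modularFunctionFieldFullC K M)), x ∈ W)
    (hWint : cm15_WInt R K M' M hdvd hπ W) :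
    s34i47_ChartProps K π W (pk85_h3 K M (h3.trans hdvd)) := by
  have hfacts := cm85_facts_level3 (R := R) (K := K) M hπ (h3.trans hdvd)
  obtain ⟨hs₁, hs₂, hs₁₂⟩ := cm15_sat_level3 (R := R) (K := K) M' M hdvd hπ h3 hMu W hWint
  exact cm15_chartProps_of M _ _ hfacts W hW12 hs₁ hs₂ hs₁₂

/-- **The chart half of the three-valuation FRAME, level 2**: (W), (C) and `σ h = h`. -/
theorem ct79_frame_chart_level2 (hdvd : M' ∣ M) {π : R} (hπ : Irreducible π) (h2 : 2 ∣ M')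
    (hMu : IsUnit (M' : R)) (V₁ V₂ V₃ : ValuationSubring ↥(modularFunctionFieldFullC K M))
    (hR₁ : ∀ r : R, algebraMap R ↥(modularFunctionFieldFullC K M) r ∈ V₁)
    (hR₂ : ∀ r : R, algebraMap R ↥(modularFunctionFieldFullC K M) r ∈ V₂)
    (hR₃ : ∀ r : R, algebraMap R ↥(modularFunctionFieldFullC K M) r ∈ V₃)
    (hπ₁ : (algebraMap R ↥(modularFunctionFieldFullC K M) π)⁻¹ ∉ V₁)
    (hπ₂ : (algebraMap R ↥(modularFunctionFieldFullC K M) π)⁻¹ ∉ V₂)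
    (hπ₃ : (algebraMap R ↥(modularFunctionFieldFullC K M) π)⁻¹ ∉ V₃)
    (hh₁ : pk85_h2 K M (h2.trans hdvd) ∈ V₁) (hh₁' : (pk85_h2 K M (h2.trans hdvd))⁻¹ ∈ V₁)
    (hh₂ : pk85_h2 K M (h2.trans hdvd) ∈ V₂) (hh₂' : (pk85_h2 K M (h2.trans hdvd))⁻¹ ∈ V₂)
    (hh₃ : pk85_h2 K M (h2.trans hdvd) ∈ V₃) (hh₃' : (pk85_h2 K M (h2.trans hdvd))⁻¹ ∈ V₃)
    (hWint : cm15_WInt R K M' M hdvd hπ (V₁.toSubring ⊓ V₂.toSubring ⊓ V₃.toSubring)) :
    s34i47_WProps π (V₁.toSubring ⊓ V₂.toSubring ⊓ V₃.toSubring) ∧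
      s34i47_ChartProps K π (V₁.toSubring ⊓ V₂.toSubring ⊓ V₃.toSubring)
        (pk85_h2 K M (h2.trans hdvd)) ∧
      ∀ σ : K ≃+* K, s34i47_coeffEquiv σ M (pk85_h2 K M (h2.trans hdvd)) =
        pk85_h2 K M (h2.trans hdvd) :=
  ⟨wf11_WProps_three V₁ V₂ V₃ π hR₁ hR₂ hR₃ hπ₁ hπ₂ hπ₃,
    ct79_chartProps_level2 M' M hdvd hπ h2 hMu _
      (ct79_chart12_le_three _ V₁ V₂ V₃ hR₁ hR₂ hR₃ hh₁ hh₁' hh₂ hh₂' hh₃ hh₃') hWint,
    fun σ => cm15_coeffEquiv_h2 M σ _⟩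

/-- **The chart half of the three-valuation FRAME, level 3.** -/
theorem ct79_frame_chart_level3 (hdvd : M' ∣ M) {π : R} (hπ : Irreducible π) (h3 : 3 ∣ M')
    (hMu : IsUnit (M' : R)) (V₁ V₂ V₃ : ValuationSubring ↥(modularFunctionFieldFullC K M))
    (hR₁ : ∀ r : R, algebraMap R ↥(modularFunctionFieldFullC K M) r ∈ V₁)
    (hR₂ : ∀ r : R, algebraMap R ↥(modularFunctionFieldFullC K M) r ∈ V₂)
    (hR₃ : ∀ r : R, algebraMap R ↥(modularFunctionFieldFullC K M) r ∈ V₃)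
    (hπ₁ : (algebraMap R ↥(modularFunctionFieldFullC K M) π)⁻¹ ∉ V₁)
    (hπ₂ : (algebraMap R ↥(modularFunctionFieldFullC K M) π)⁻¹ ∉ V₂)
    (hπ₃ : (algebraMap R ↥(modularFunctionFieldFullC K M) π)⁻¹ ∉ V₃)
    (hh₁ : pk85_h3 K M (h3.trans hdvd) ∈ V₁) (hh₁' : (pk85_h3 K M (h3.trans hdvd))⁻¹ ∈ V₁)
    (hh₂ : pk85_h3 K M (h3.trans hdvd) ∈ V₂) (hh₂' : (pk85_h3 K M (h3.trans hdvd))⁻¹ ∈ V₂)
    (hh₃ : pk85_h3 K M (h3.trans hdvd) ∈ V₃) (hh₃' : (pk85_h3 K M (h3.trans hdvd))⁻¹ ∈ V₃)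
    (hWint : cm15_WInt R K M' M hdvd hπ (V₁.toSubring ⊓ V₂.toSubring ⊓ V₃.toSubring)) :
    s34i47_WProps π (V₁.toSubring ⊓ V₂.toSubring ⊓ V₃.toSubring) ∧
      s34i47_ChartProps K π (V₁.toSubring ⊓ V₂.toSubring ⊓ V₃.toSubring)
        (pk85_h3 K M (h3.trans hdvd)) ∧
      ∀ σ : K ≃+* K, s34i47_coeffEquiv σ M (pk85_h3 K M (h3.trans hdvd)) =
        pk85_h3 K M (h3.trans hdvd) :=
  ⟨wf11_WProps_three V₁ V₂ V₃ π hR₁ hR₂ hR₃ hπ₁ hπ₂ hπ₃,
    ct79_chartProps_level3 M' M hdvd hπ h3 hMu _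
      (ct79_chart12_le_three _ V₁ V₂ V₃ hR₁ hR₂ hR₃ hh₁ hh₁' hh₂ hh₂' hh₃ hh₃') hWint,
    fun σ => cm15_coeffEquiv_h3 M σ _⟩

end frame

end Fermat.Agent.S36
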