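import Mathlib
import Fermat.Agent.S18.FieldDef27

/-!
# S36 lab (helper36), row 587 (LVL-descent), step (4): descent of the coefficient field

* `cd36_abs` : abstract form.  `K ⊆ L` an algebraic extension of fields, `E` a subfield of
  `K((Q))` containing the constants, `FL ⊆ L((Q))` contained in the field generated over `L` by
  the image of `E`.  A series `y` over `K` whose image over `L` lies in `FL` lies in `E`.
  (Proof: the `E`-span of the constants `L` is a field; apply a `K`-linear retraction `L → K`
  coefficientwise.)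
* `cd36_mem_of_coeffMap` : a Laurent series `y` over `K₀ ⊆ ℚ̄` whose image over `ℚ̄` lies in
  `modularFunctionFieldBar M` lies in `modularFunctionFieldFullC K₀ M`.
* `cd36_exists_of_fixed` : an element of `modularFunctionFieldBar M` fixed by every
  `σ ∈ Gal(ℚ̄/ℚ)` fixing `K₀` pointwise is the image of an element of `F_{K₀}(M)`.

All names are prefixed `cd36_`.
-/

set_option autoImplicit false
set_option linter.style.haveILetI false

open ModularCurve IntermediateField

namespace Fermat.Agent.S36

open Fermat.Agent.S18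

local notation "Qbar" => AlgebraicClosure ℚ

section Abstract

variable {K L : Type*} [Field K] [Field L] [Algebra K L]

/-- Coefficientwise application of a `K`-linear functional. -/
noncomputable def cd36_Phi (φ : L →ₗ[K] K) (x : LaurentSeries L) : LaurentSeries K :=
  x.map φ

theorem cd36_Phi_coeff (φ : L →ₗ[K] K) (x : LaurentSeries L) (n : ℤ) :
    (cd36_Phi φ x).coeff n = φ (x.coeff n) := rfl

theorem cd36_Phi_zero (φ : L →ₗ[K] K) : cd36_Phi φ 0 = 0 := by
  ext n
  rw [cd36_Phi_coeff, HahnSeries.coeff_zero, HahnSeries.coeff_zero, map_zero]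

theorem cd36_Phi_add (φ : L →ₗ[K] K) (x y : LaurentSeries L) :
    cd36_Phi φ (x + y) = cd36_Phi φ x + cd36_Phi φ y := by
  ext n
  rw [cd36_Phi_coeff, HahnSeries.coeff_add, HahnSeries.coeff_add, map_add, cd36_Phi_coeff,
    cd36_Phi_coeff]

theorem cd36_Phi_mul (φ : L →ₗ[K] K) (g : LaurentSeries K) (x : LaurentSeries L) :
    cd36_Phi φ (coeffMap (algebraMap K L) g * x) = g * cd36_Phi φ x := by
  ext n
  have hs1 : (coeffMap (algebraMap K L) g).support ⊆ g.support := by
    intro i hi
    rw [HahnSeries.mem_support] at hi ⊢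
    intro h0
    apply hi
    rw [coeffMap_coeff, h0, map_zero]
  have hs2 : (cd36_Phi φ x).support ⊆ x.support := by
    intro i hi
    rw [HahnSeries.mem_support] at hi ⊢
    intro h0
    apply hi
    rw [cd36_Phi_coeff, h0, map_zero]
  rw [cd36_Phi_coeff, HahnSeries.coeff_mul_left' g.isPWO_support hs1,
    HahnSeries.coeff_mul_right' x.isPWO_support hs2, map_sum]
  refine Finset.sum_congr rfl fun ij _ => ?_
  rw [coeffMap_coeff, cd36_Phi_coeff, ← Algebra.smul_def, map_smul, smul_eq_mul]

theorem cd36_Phi_const (φ : L →ₗ[K] K) (θ : L) :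
    cd36_Phi φ (algebraMap L (LaurentSeries L) θ) = algebraMap K (LaurentSeries K) (φ θ) := by
  rw [algebraMap_laurentSeries_eq_single, algebraMap_laurentSeries_eq_single]
  ext n
  rw [cd36_Phi_coeff]
  rcases eq_or_ne n 0 with rfl | hn
  · rw [HahnSeries.coeff_single_same, HahnSeries.coeff_single_same]
  · rw [HahnSeries.coeff_single_of_ne hn, HahnSeries.coeff_single_of_ne hn, map_zero]

theorem cd36_Phi_coeffMap (φ : L →ₗ[K] K) (hφ : ∀ a : K, φ (algebraMap K L a) = a)
    (y : LaurentSeries K) : cd36_Phi φ (coeffMap (algebraMap K L) y) = y := by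
  ext n
  rw [cd36_Phi_coeff, coeffMap_coeff, hφ]

/-- **Abstract descent of the coefficient field.** -/
theorem cd36_abs [Algebra.IsAlgebraic K L] (E : IntermediateField K (LaurentSeries K))
    (FL : IntermediateField L (LaurentSeries L))
    (hFL : FL ≤ IntermediateField.adjoin L
      ((coeffMap (algebraMap K L)) '' (E : Set (LaurentSeries K))))
    (y : LaurentSeries K) (hy : coeffMap (algebraMap K L) y ∈ FL) : y ∈ E := by
  classical
  -- a `K`-linear retraction of `K → L`
  obtain ⟨φ, hφ⟩ := LinearMap.exists_leftInverse_of_injective (Algebra.linearMap K L)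
    (LinearMap.ker_eq_bot.mpr (algebraMap K L).injective)
  have hφ' : ∀ a : K, φ (algebraMap K L a) = a := fun a => by
    have := LinearMap.congr_fun hφ a
    simpa using this
  -- `L((Q))` as an algebra over `E`
  let ρ : ↥E →+* LaurentSeries L := (coeffMap (algebraMap K L)).comp E.toSubring.subtype
  letI : Algebra ↥E (LaurentSeries L) := ρ.toAlgebra
  have hρ : ∀ e : ↥E, algebraMap ↥E (LaurentSeries L) e
      = coeffMap (algebraMap K L) (e : LaurentSeries K) := fun e => rfl
  let T : Set (LaurentSeries L) := Set.range (algebraMap L (LaurentSeries L))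
  -- constants are algebraic over `E`
  have halg : ∀ x ∈ T, IsAlgebraic ↥E x := by
    rintro _ ⟨θ, rfl⟩
    obtain ⟨p, hp0, hp⟩ := Algebra.IsAlgebraic.isAlgebraic (R := K) θ
    refine ⟨p.map (algebraMap K ↥E), (Polynomial.map_ne_zero_iff
      (algebraMap K ↥E).injective).mpr hp0, ?_⟩
    rw [Polynomial.aeval_def, Polynomial.eval₂_map]
    have hcomp : (algebraMap ↥E (LaurentSeries L)).comp (algebraMap K ↥E)
        = (algebraMap L (LaurentSeries L)).comp (algebraMap K L) := by
      ext a : 1
      rw [RingHom.comp_apply, RingHom.comp_apply, hρ]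
      exact fd27_coeffMap_algebraMap (algebraMap K L) a
    rw [hcomp, ← Polynomial.hom_eval₂, ← Polynomial.aeval_def, hp, map_zero]
  have hadj := IntermediateField.adjoin_toSubalgebra_of_isAlgebraic halg
  -- `FL` lies in the field generated over `E` by the constants
  have hle : FL.toSubfield ≤ (IntermediateField.adjoin ↥E T).toSubfield := by
    refine le_trans (show FL.toSubfield ≤ (IntermediateField.adjoin L
      ((coeffMap (algebraMap K L)) '' (E : Set (LaurentSeries K)))).toSubfield from hFL) ?_
    rw [IntermediateField.adjoin_toSubfield, Subfield.closure_le]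
    rintro x (hx | ⟨e, he, rfl⟩)
    · exact IntermediateField.subset_adjoin ↥E T hx
    · exact IntermediateField.algebraMap_mem (IntermediateField.adjoin ↥E T) (⟨e, he⟩ : ↥E)
  have hy1 : coeffMap (algebraMap K L) y ∈ (IntermediateField.adjoin ↥E T).toSubalgebra :=
    hle hy
  rw [hadj] at hy1
  have hy2 : coeffMap (algebraMap K L) y ∈ Subalgebra.toSubmodule (Algebra.adjoin ↥E T) := hy1
  rw [Algebra.adjoin_eq_span] at hy2
  have hT : (Submonoid.closure T : Set (LaurentSeries L)) = T := by
    have h := Submonoid.closure_eq (MonoidHom.mrange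
      ((algebraMap L (LaurentSeries L) : L →+* LaurentSeries L) : L →* LaurentSeries L))
    have hT' : T = (MonoidHom.mrange
        ((algebraMap L (LaurentSeries L) : L →+* LaurentSeries L) : L →* LaurentSeries L) :
          Set (LaurentSeries L)) := by
      ext x
      simp [T]
    rw [hT', h]
  rw [hT] at hy2
  -- apply the retraction coefficientwise
  have key : ∀ x ∈ Submodule.span ↥E T, cd36_Phi φ x ∈ E := by
    intro x hx
    induction hx using Submodule.span_induction with
    | mem x hx =>
      obtain ⟨θ, rfl⟩ := hx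
      rw [cd36_Phi_const]
      exact E.algebraMap_mem _
    | zero =>
      rw [cd36_Phi_zero]
      exact zero_mem _
    | add x y _ _ hx hy =>
      rw [cd36_Phi_add]
      exact add_mem hx hy
    | smul e x _ hx =>
      rw [Algebra.smul_def, hρ, cd36_Phi_mul]
      exact mul_mem e.2 hx
  have := key _ hy2
  rwa [cd36_Phi_coeffMap φ hφ'] at this

end Abstract

section Modular

variable (K0 : IntermediateField ℚ Qbar) (M : ℕ)

/-- **Step (4a).** A Laurent series over `K₀` whose image over `ℚ̄` lies in `F_{ℚ̄}(M)` lies in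
`F_{K₀}(M)`. -/
theorem cd36_mem_of_coeffMap (y : LaurentSeries K0)
    (hy : coeffMap (algebraMap K0 Qbar) y ∈ modularFunctionFieldBar M) :
    y ∈ modularFunctionFieldFullC K0 M := by
  haveI : Algebra.IsAlgebraic ℚ Qbar := AlgebraicClosure.isAlgebraic ℚ
  haveI : Algebra.IsAlgebraic K0 Qbar := Algebra.IsAlgebraic.tower_top (K := ℚ) K0
  refine cd36_abs (modularFunctionFieldFullC K0 M) (modularFunctionFieldBar M) ?_ y hy
  rw [fd27_bar_eq]
  unfold modularFunctionFieldFullC
  rw [IntermediateField.adjoin_le_iff]
  rintro _ ⟨d, hne, hd, rfl⟩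
  have := hne
  refine IntermediateField.subset_adjoin Qbar _ ⟨qExpand K0 d (jqModC K0), ?_, ?_⟩
  · exact IntermediateField.subset_adjoin K0 _ ⟨d, hne, hd, rfl⟩
  · exact coeffMap_jqNModC (algebraMap K0 Qbar) d

/-- **Step (4b).** An element of `F_{ℚ̄}(M)` fixed by every `σ` fixing `K₀` pointwise comes from
`F_{K₀}(M)`. -/
theorem cd36_exists_of_fixed (f : ↥(modularFunctionFieldBar M))
    (hfix : ∀ σ : Qbar ≃ₐ[ℚ] Qbar, (∀ x ∈ K0, σ x = x) →
      arithmeticRingAut (modularFunctionFieldFull M) σ f = f) :
    ∃ y0 : ↥(modularFunctionFieldFullC K0 M), fd27_iota (algebraMap K0 Qbar) M y0 = f := by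
  have hcoef : ∀ n : ℤ, ∃ r : K0, algebraMap K0 Qbar r = (f : LaurentSeries Qbar).coeff n := by
    intro n
    have hmem : (f : LaurentSeries Qbar).coeff n ∈ IntermediateField.fixedField K0.fixingSubgroup := by
      rw [IntermediateField.mem_fixedField_iff]
      intro σ hσ
      have h1 := hfix σ (fun x hx => (IntermediateField.mem_fixingSubgroup_iff K0 σ).mp hσ x hx)
      have h2 := congrArg (fun z : ↥(modularFunctionFieldBar M) =>
        (z : LaurentSeries Qbar).coeff n) h1
      simp only [coe_arithmeticRingAut_apply, coeffMap_coeff] at h2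
      exact h2
    haveI : Algebra.IsAlgebraic ℚ Qbar := AlgebraicClosure.isAlgebraic ℚ
    haveI : IsAlgClosure ℚ Qbar := ⟨inferInstance, inferInstance⟩
    haveI : IsGalois ℚ Qbar := IsGalois.mk
    rw [InfiniteGalois.fixedField_fixingSubgroup] at hmem
    exact ⟨⟨_, hmem⟩, rfl⟩
  obtain ⟨y, hy⟩ := fd27_exists_coeffMap_eq (algebraMap K0 Qbar) (algebraMap K0 Qbar).injective
    (f : LaurentSeries Qbar) hcoef
  have hymem : y ∈ modularFunctionFieldFullC K0 M :=
    cd36_mem_of_coeffMap K0 M y (by rw [hy]; exact f.2)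
  refine ⟨⟨y, hymem⟩, ?_⟩
  apply Subtype.ext
  rw [fd27_iota_coe]
  exact hy

end Modular

end Fermat.Agent.S36
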