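import Mathlib
import Fermat.Agent.S36.Iface62
import Fermat.Agent.S18.NumFieldDVR23
import Fermat.Agent.S18.ConstExtModular25
import Fermat.Agent.S18.FieldDef27

/-!
# S36 lab (helper33), row 587 (LVL-descent), PART II of `s36i62_Pkg_FieldDef`

After the descent of the Kummer function to a number field `K0 ⊆ ℚ̄` in which `q` is a
uniformizer of `A ∩ K0` (clause (b) of `du77_inertia_field`), CORE36 applies:

* `ca33_irreducible` : `q` is irreducible in the discrete valuation ring `A ∩ K0`;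
* `ca33_core_apply`  : `s36i62_Core N q m c` + `f0 ∈ F_{K0}(N q)` with all orders of `ι f0` over
  `ℚ̄` divisible by `m` and `N_α f0 = ca · a0 ^ m`, `N_β f0 = cb · b0 ^ m` over `K0`
  ⟹ `f0 ^ c = c' · g0 ^ m` over `K0` (all the instance plumbing of CORE36 is done here);
* `ca33_close`       : `ι f0 = a · f · k ^ m` and `f0 ^ c = c' · g0 ^ m` ⟹ `f ^ c` is an
  `m`-th power in `F_{ℚ̄}(N q)`.

All names are prefixed `ca33_`.
-/

set_option autoImplicit false
set_option linter.style.haveILetI false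
set_option linter.unusedSectionVars false
set_option linter.style.longLine false
set_option synthInstance.maxHeartbeats 400000
set_option maxHeartbeats 1600000

open ModularCurve AlgebraicCurve IntermediateField

namespace Fermat.Agent.S36

open Fermat.Agent.S18 Fermat.Agent.S34 Fermat.Agent.S35

local notation "Qb" => AlgebraicClosure ℚ

/-- `q` is irreducible in `A ∩ K0` as soon as every non-unit of `A ∩ K0` is divisible by `q`
(clause (b) of `du77_inertia_field`). -/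
theorem ca33_irreducible (A : ValuationSubring Qb) {q : ℕ} (hA : A.LiesOverPrime q)
    (K0 : IntermediateField ℚ Qb)
    [IsDiscreteValuationRing (A.comap (algebraMap (↥K0) Qb))]
    (hunif : ∀ x ∈ K0, x ∈ A.nonunits → ∃ y ∈ K0, y ∈ A ∧ x = q * y) :
    Irreducible ((q : ℕ) : A.comap (algebraMap (↥K0) Qb)) := by
  obtain ⟨π, hπ⟩ := IsDiscreteValuationRing.exists_irreducible (A.comap (algebraMap (↥K0) Qb))
  have hqnu : ¬ IsUnit ((q : ℕ) : A.comap (algebraMap (↥K0) Qb)) := by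
    intro hu
    have h1 : ((q : ↥K0)) ∈ (A.comap (algebraMap (↥K0) Qb)).nonunits := by
      rw [nf23_mem_nonunits_comap, map_natCast]
      exact hA
    have h2 : ((q : ℕ) : A.comap (algebraMap (↥K0) Qb)) ∈
        IsLocalRing.maximalIdeal (A.comap (algebraMap (↥K0) Qb)) := by
      rw [← ValuationSubring.coe_mem_nonunits_iff]
      exact h1
    exact h2 hu
  have hπnu : algebraMap (↥K0) Qb ((π : A.comap (algebraMap (↥K0) Qb)) : ↥K0) ∈ A.nonunits := by
    rw [← nf23_mem_nonunits_comap, ValuationSubring.coe_mem_nonunits_iff]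
    exact hπ.not_isUnit
  obtain ⟨y, hyK, hyA, hxy⟩ := hunif _ (SetLike.coe_mem _) hπnu
  have hymem : (⟨y, hyK⟩ : ↥K0) ∈ A.comap (algebraMap (↥K0) Qb) := by
    rw [ValuationSubring.mem_comap]
    exact hyA
  have hπeq : π = ((q : ℕ) : A.comap (algebraMap (↥K0) Qb)) * ⟨⟨y, hyK⟩, hymem⟩ := by
    apply Subtype.ext
    apply (algebraMap (↥K0) Qb).injective
    show algebraMap (↥K0) Qb ((π : A.comap (algebraMap (↥K0) Qb)) : ↥K0) =
      algebraMap (↥K0) Qb (((q : ℕ) : ↥K0) * ⟨y, hyK⟩)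
    rw [map_mul, map_natCast]
    exact hxy
  have hyu : IsUnit (⟨⟨y, hyK⟩, hymem⟩ : A.comap (algebraMap (↥K0) Qb)) := by
    rcases hπ.isUnit_or_isUnit hπeq with h | h
    · exact absurd h hqnu
    · exact h
  rw [hπeq] at hπ
  exact (irreducible_mul_isUnit hyu).mp hπ

/-- **CORE36 applied over the unramified number field `K0`.** -/
theorem ca33_core_apply (N q m c : ℕ) [NeZero N] [NeZero q] (hq : q.Prime)
    (hcore : s36i62_Core N q m c)
    (A : ValuationSubring Qb) (hA : A.LiesOverPrime q)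
    (K0 : IntermediateField ℚ Qb) (hfd : FiniteDimensional ℚ K0)
    (hunif : ∀ x ∈ K0, x ∈ A.nonunits → ∃ y ∈ K0, y ∈ A ∧ x = q * y)
    (f0 : ↥(modularFunctionFieldFullC (↥K0) (N * q))) (hf0 : f0 ≠ 0)
    (hord : ∀ v : Place Qb ↥(modularFunctionFieldBar (N * q)),
      (m : ℤ) ∣ v.ord (fd27_iota (algebraMap (↥K0) Qb) (N * q) f0))
    (a0 b0 : ↥(modularFunctionFieldFullC (↥K0) N)) (ca cb : ↥K0)
    (ha0 : a0 ≠ 0) (hb0 : b0 ≠ 0) (hca : ca ≠ 0) (hcb : cb ≠ 0)
    (hnA : s35i62_normA (↥K0) N q f0 =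
      algebraMap (↥K0) ↥(modularFunctionFieldFullC (↥K0) N) ca * a0 ^ m)
    (hnB : s35i62_normB (↥K0) N q f0 =
      algebraMap (↥K0) ↥(modularFunctionFieldFullC (↥K0) N) cb * b0 ^ m) :
    ∃ (g0 : ↥(modularFunctionFieldFullC (↥K0) (N * q))) (c' : ↥K0), g0 ≠ 0 ∧ c' ≠ 0 ∧
      f0 ^ c = algebraMap (↥K0) ↥(modularFunctionFieldFullC (↥K0) (N * q)) c' * g0 ^ m := by
  haveI : NeZero (N * q) := ⟨mul_ne_zero (NeZero.ne N) (NeZero.ne q)⟩
  haveI := hfd
  haveI hnf : NumberField (↥K0) := fd27_numberField K0 hfd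
  haveI hdvr : IsDiscreteValuationRing (A.comap (algebraMap (↥K0) Qb)) :=
    nf23_comap_isDVR_of_liesOverPrime (algebraMap (↥K0) Qb) A hq.ne_zero hA
  letI alg : Algebra (A.comap (algebraMap (↥K0) Qb))
      ↥(modularFunctionFieldFullC (↥K0) (N * q)) :=
    ((algebraMap (↥K0) ↥(modularFunctionFieldFullC (↥K0) (N * q))).comp
      (algebraMap (A.comap (algebraMap (↥K0) Qb)) (↥K0))).toAlgebra
  haveI htower : IsScalarTower (A.comap (algebraMap (↥K0) Qb)) (↥K0)
      ↥(modularFunctionFieldFullC (↥K0) (N * q)) :=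
    IsScalarTower.of_algebraMap_eq (fun _ => rfl)
  have hunit : ∀ n : ℕ, Nat.Coprime n q →
      IsUnit ((n : ℕ) : A.comap (algebraMap (↥K0) Qb)) := by
    intro n hn
    obtain ⟨μ, hμ⟩ := nf23_exists_natCast_mul_eq_one (algebraMap (↥K0) Qb) A hA hn
    exact IsUnit.of_mul_eq_one _ hμ
  have hirr : Irreducible ((q : ℕ) : A.comap (algebraMap (↥K0) Qb)) :=
    ca33_irreducible A hA K0 hunif
  have hdiv : ∀ P : Place (↥K0) ↥(modularFunctionFieldFullC (↥K0) (N * q)),
      (m : ℤ) ∣ P.ord f0 := by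
    intro P
    exact cx_modular_place_dvd (K0 := ↥K0) (fd27_iota (algebraMap (↥K0) Qb) (N * q))
      (fun u => fd27_iota_coe _ _ u) (m : ℤ) _ hord P
  exact hcore (↥(A.comap (algebraMap (↥K0) Qb))) (↥K0) hirr hunit f0 a0 b0 ca cb hf0 ha0 hb0
    hca hcb hdiv hnA hnB

/-- **Closing algebra**: if `ι f0 = a · f · k ^ m` and `f0 ^ c = c' · g0 ^ m` over `K0`, then
`f ^ c` is an `m`-th power over `ℚ̄`. -/
theorem ca33_close (M m c : ℕ) (hm : 0 < m) (K0 : IntermediateField ℚ Qb)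
    (f k : ↥(modularFunctionFieldBar M)) (a : Qb) (ha : a ≠ 0) (hk : k ≠ 0)
    (f0 g0 : ↥(modularFunctionFieldFullC (↥K0) M)) (c' : ↥K0)
    (hf0 : fd27_iota (algebraMap (↥K0) Qb) M f0 =
      algebraMap Qb ↥(modularFunctionFieldBar M) a * f * k ^ m)
    (hfc : f0 ^ c = algebraMap (↥K0) ↥(modularFunctionFieldFullC (↥K0) M) c' * g0 ^ m) :
    ∃ g : ↥(modularFunctionFieldBar M), g ^ m = f ^ c := by
  have hι := congrArg (fd27_iota (algebraMap (↥K0) Qb) M) hfc
  rw [map_pow, map_mul, map_pow, fd27_iota_algebraMap, hf0] at hι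
  obtain ⟨γ, hγ⟩ := IsAlgClosed.exists_pow_nat_eq (algebraMap (↥K0) Qb c' * (a ^ c)⁻¹) hm
  have hac : algebraMap Qb ↥(modularFunctionFieldBar M) (a ^ c) ≠ 0 :=
    (map_ne_zero _).mpr (pow_ne_zero c ha)
  have hkc : (k ^ c) ^ m ≠ 0 := pow_ne_zero m (pow_ne_zero c hk)
  refine ⟨algebraMap Qb ↥(modularFunctionFieldBar M) γ *
    fd27_iota (algebraMap (↥K0) Qb) M g0 * (k ^ c)⁻¹, ?_⟩
  rw [mul_pow, mul_pow, ← map_pow, hγ, map_mul, map_inv₀, inv_pow]
  have h1 : algebraMap Qb ↥(modularFunctionFieldBar M) (algebraMap (↥K0) Qb c') *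
      fd27_iota (algebraMap (↥K0) Qb) M g0 ^ m =
      algebraMap Qb ↥(modularFunctionFieldBar M) (a ^ c) * f ^ c * (k ^ c) ^ m := by
    rw [← hι, map_pow]
    ring
  calc (algebraMap Qb ↥(modularFunctionFieldBar M) (algebraMap (↥K0) Qb c') *
        (algebraMap Qb ↥(modularFunctionFieldBar M) (a ^ c))⁻¹) *
        fd27_iota (algebraMap (↥K0) Qb) M g0 ^ m * ((k ^ c) ^ m)⁻¹
      = (algebraMap Qb ↥(modularFunctionFieldBar M) (algebraMap (↥K0) Qb c') *
        fd27_iota (algebraMap (↥K0) Qb) M g0 ^ m) *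
        (algebraMap Qb ↥(modularFunctionFieldBar M) (a ^ c))⁻¹ * ((k ^ c) ^ m)⁻¹ := by ring
    _ = f ^ c := by
        rw [h1]
        field_simp

end Fermat.Agent.S36
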