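import Mathlib
import Fermat.Agent.S36.Iface62
import Fermat.Agent.S36.LocalDatum55
import Fermat.Agent.S34.PkgMain85
import Fermat.Agent.S34.CoreAsm57

/-!
# S36 lab, row 605 INV-core (helper57): `s36i62_Pkg_Core` from ONE per-field datum

The top of the geometric chain of S36 (text #2876 B4/B5, #2863 §7):

```
 ci57_Datum N q m c   (per number field K, DVR R with uniformizer q, and per f:
                       a Hauptmodul h, three valuation subrings V 0, V 1, V 2, and
                       u = f ^ c / (c₀ g ^ m) with u ≡ 1 mod π V i and a ROOT DATUM on both charts)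
   ⟹ s34i47_LocalDatum on both charts      [ld55_datum_at, helper55, on main]
   ⟹ f₀ ^ m * u = const                    [cm85_pkg_main, on main]
   ⟹ s36i62_Core N q m c                   [here]
```

* `ci57_RootDatum π m B V u` : at every closed point `n` of the special fibre of the chart `B`
  there is a local root `c` (`u / c ^ m`, `c ^ m / u ∈ B_n`) which has, for every branch `V i`
  through `n`, a lift `b i ∈ B_n` modulo `rad (π V i)` with `b i ≡ 1` modulo `n B_n`
  (literally the hypotheses `hε`, `hε'`, `hb` of `ld55_datum_at`).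
* `ci57_localDatum`   : root datum ⟹ `s34i47_LocalDatum`.
* `ci57_main_abs`     : the abstract end of the chain (any `R`, `K`, `F`).
* `ci57_Datum`, `ci57_core_of_datum`, `ci57_pkg_core` : the concrete package
  `s36i62_Pkg_Core` of `Iface62`.

All names are prefixed `ci57_`.
-/

set_option autoImplicit false
set_option linter.style.longLine false
set_option linter.unusedVariables false
set_option linter.unusedSectionVars false

open ModularCurve AlgebraicCurve

namespace Fermat.Agent.S36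

open Fermat.Agent.S18 Fermat.Agent.S34 Fermat.Agent.S35

local notation "Q̄" => AlgebraicClosure ℚ

section Abstract

variable {R F : Type*} [CommRing R] [Field F] [Algebra R F]

/-- **Root datum** of `u` on the chart `B` for the branches `V i`: at every closed point `n` of
the special fibre a local root `c` of `u` (up to a unit of `B_n`) with lifts `b i ∈ B_n`,
`b i ≡ 1` modulo `n B_n`, `c ≡ b i` modulo `rad (π V i)`, for the branches through `n`. -/
def ci57_RootDatum (π : R) (m : ℕ) (B : Subalgebra R F) {ι : Type*}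
    (V : ι → ValuationSubring F) (u : F) : Prop :=
  ∀ n : Ideal B, n.IsMaximal → algebraMap R B π ∈ n →
    ∃ c : F, c ≠ 0 ∧ (∃ s : B, s ∉ n ∧ (s : F) * (u / c ^ m) ∈ B) ∧
      (∃ s : B, s ∉ n ∧ (s : F) * (c ^ m / u) ∈ B) ∧
      ∃ b : ι → F, ∀ i, sf79_OnBr π B (V i).toSubring n →
        (∃ s : B, s ∉ n ∧ ∃ y : B, y ∈ n ∧ (s : F) * (b i - 1) = (y : F)) ∧
          ∃ k : ℕ, (algebraMap R F π)⁻¹ * (c - b i) ^ k ∈ V i

/-- Root datum ⟹ the local datum of `ntc47_main` (`ld55_datum_at` at every closed point). -/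
theorem ci57_localDatum (π : R) (m : ℕ) (hm0 : 0 < m) (B : Subalgebra R F)
    (hmB : ∃ μ ∈ B, (m : F) * μ = 1)
    {ι : Type*} [Finite ι] (V : ι → ValuationSubring F) (W : Subring F)
    (hW : ∀ x : F, (∀ i, x ∈ V i) → x ∈ W)
    (hBV : ∀ i, ∀ x ∈ B, x ∈ V i) (hπ : ∀ i, (algebraMap R F π)⁻¹ ∉ V i)
    (hrad : ∀ i, ∀ x ∈ V i, x⁻¹ ∉ V i → ∃ k : ℕ, (algebraMap R F π)⁻¹ * x ^ k ∈ V i)
    (harch : ∀ i, ∀ x : F, x ≠ 0 → ∃ k : ℕ, (algebraMap R F π ^ k)⁻¹ * x ∉ V i)
    (hFrac : ∀ x : F, ∃ a ∈ B, ∃ b ∈ B, b ≠ 0 ∧ x * b = a)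
    (u : F) (hu : ∀ i, (algebraMap R F π)⁻¹ * (u - 1) ∈ V i)
    (hroot : ci57_RootDatum π m B V u) :
    s34i47_LocalDatum π m W B u := by
  intro n hn hπn
  have : n.IsPrime := hn.isPrime
  obtain ⟨c, hc, hε, hε', b, hb⟩ := hroot n hn hπn
  obtain ⟨φ, hφ, s, hs, hsφ⟩ := ld55_datum_at π m hm0 B hmB V hBV hπ hrad
    (fun i x _ hx0 => harch i x hx0) hFrac n u hu c hc hε hε' b hb
  exact ⟨φ, hW _ hφ, s, hs, hsφ⟩

end Abstract

section Main

variable {R K F : Type} [CommRing R] [IsDomain R] [IsDiscreteValuationRing R] [Field K] [Field F]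
  [Algebra R K] [IsFractionRing R K] [Algebra R F] [Algebra K F] [IsScalarTower R K F]

/-- **The abstract end of the chain**: a function `u ≡ 1` modulo `π V i` with a root datum on both
charts of a frame `(h, V 0, V 1, V 2)` is a constant up to an `m`-th power. -/
theorem ci57_main_abs (π : R) (hπ : Irreducible π) (m : ℕ) (hm0 : 0 < m) (hm : IsUnit (m : R))
    (hK : ∀ y : F, IsAlgebraic K y → ∃ c : K, y = algebraMap K F c)
    (h : F) (V : Fin 3 → ValuationSubring F)
    (hW : s34i47_WProps π ((V 0).toSubring ⊓ (V 1).toSubring ⊓ (V 2).toSubring))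
    (hC : s34i47_ChartProps K π ((V 0).toSubring ⊓ (V 1).toSubring ⊓ (V 2).toSubring) h)
    (hπV : ∀ i, (algebraMap R F π)⁻¹ ∉ V i)
    (hrad : ∀ i, ∀ x ∈ V i, x⁻¹ ∉ V i → ∃ k : ℕ, (algebraMap R F π)⁻¹ * x ^ k ∈ V i)
    (harch : ∀ i, ∀ x : F, x ≠ 0 → ∃ k : ℕ, (algebraMap R F π ^ k)⁻¹ * x ∉ V i)
    (u : F) (hu : ∀ i, (algebraMap R F π)⁻¹ * (u - 1) ∈ V i)
    (hroot₁ : ci57_RootDatum π m (pk15_chart R ({h} : Set F)) V u)
    (hroot₂ : ci57_RootDatum π m (pk15_chart R ({h⁻¹} : Set F)) V u) :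
    ∃ (f₀ : F) (c : R), f₀ ≠ 0 ∧ f₀ ^ m * u = algebraMap R F c := by
  have hC' := hC
  obtain ⟨htr, h12W, hsat₁, hsat₂, -, hN₁, hN₂, hfin, hfrac⟩ := hC'
  have hh0 : h ≠ 0 := by
    rintro rfl
    exact htr isAlgebraic_zero
  have h112 : pk15_chart R ({h} : Set F) ≤ pk15_chart R ({h, h⁻¹} : Set F) :=
    pk15_chart_mono (by simp)
  have h212 : pk15_chart R ({h⁻¹} : Set F) ≤ pk15_chart R ({h, h⁻¹} : Set F) :=
    pk15_chart_mono (by simp)
  have hfrac₂ := ca57_frac_inv (R := R) h hh0 hfrac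
  have hmemW : ∀ x : F, x ∈ (V 0).toSubring ⊓ (V 1).toSubring ⊓ (V 2).toSubring ↔
      ∀ i, x ∈ V i := by
    intro x
    constructor
    · rintro ⟨⟨h0, h1⟩, h2⟩ i
      fin_cases i
      · exact h0
      · exact h1
      · exact h2
    · intro hx
      exact ⟨⟨hx 0, hx 1⟩, hx 2⟩
  obtain ⟨μ, hμ⟩ := hm.exists_right_inv
  have hmB : ∀ B : Subalgebra R F, ∃ μ' ∈ B, (m : F) * μ' = 1 := by
    intro B
    refine ⟨algebraMap R F μ, B.algebraMap_mem μ, ?_⟩
    have e : (m : F) = algebraMap R F (m : R) := by simp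
    rw [e, ← map_mul, hμ, map_one]
  have hLD₁ : s34i47_LocalDatum π m ((V 0).toSubring ⊓ (V 1).toSubring ⊓ (V 2).toSubring)
      (pk15_chart R ({h} : Set F)) u :=
    ci57_localDatum π m hm0 _ (hmB _) V _ (fun x hx => (hmemW x).mpr hx)
      (fun i x hx => (hmemW x).mp (h12W x (h112 hx)) i) hπV hrad harch hfrac u hu hroot₁
  have hLD₂ : s34i47_LocalDatum π m ((V 0).toSubring ⊓ (V 1).toSubring ⊓ (V 2).toSubring)
      (pk15_chart R ({h⁻¹} : Set F)) u :=
    ci57_localDatum π m hm0 _ (hmB _) V _ (fun x hx => (hmemW x).mpr hx)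
      (fun i x hx => (hmemW x).mp (h12W x (h212 hx)) i) hπV hrad harch hfrac₂ u hu hroot₂
  have huW : (algebraMap R F π)⁻¹ * (u - 1) ∈
      (V 0).toSubring ⊓ (V 1).toSubring ⊓ (V 2).toSubring := (hmemW _).mpr hu
  exact cm85_pkg_main R K F π hπ m hm0 hm hK _ h hW hC u huW hLD₁ hLD₂

end Main

/-! ## The concrete package -/

/-- **The datum of CORE36** at level `N * q`, exponent `m`, constant `c`: for every unramified
base `(R, K)` and every `f` as in `s36i62_Core` there are a Hauptmodul `h`, three valuation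
subrings `V 0, V 1, V 2` of `F_K(N q)` (frame: (W), (C), `rad (π V i) = 𝔪 (V i)`, archimedean),
and `u = f ^ c / (c₀ g ^ m)` with `u ≡ 1` modulo `π V i` and a root datum on both charts. -/
def ci57_Datum (N q m c : ℕ) [NeZero N] [NeZero q] : Prop :=
  ∀ (R K : Type) [CommRing R] [IsDomain R] [IsDiscreteValuationRing R] [Field K] [NumberField K]
    [Algebra K Q̄] [Algebra R K] [IsFractionRing R K]
    [Algebra R ↥(modularFunctionFieldFullC K (N * q))]
    [IsScalarTower R K ↥(modularFunctionFieldFullC K (N * q))],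
    Irreducible ((q : ℕ) : R) → (∀ n : ℕ, Nat.Coprime n q → IsUnit (n : R)) →
    ∀ (f : ↥(modularFunctionFieldFullC K (N * q))) (a b : ↥(modularFunctionFieldFullC K N))
      (ca cb : K), f ≠ 0 → a ≠ 0 → b ≠ 0 → ca ≠ 0 → cb ≠ 0 →
      (∀ P : Place K ↥(modularFunctionFieldFullC K (N * q)), (m : ℤ) ∣ P.ord f) →
      s35i62_normA K N q f = algebraMap K ↥(modularFunctionFieldFullC K N) ca * a ^ m →
      s35i62_normB K N q f = algebraMap K ↥(modularFunctionFieldFullC K N) cb * b ^ m →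
      ∃ (h : ↥(modularFunctionFieldFullC K (N * q)))
        (V : Fin 3 → ValuationSubring ↥(modularFunctionFieldFullC K (N * q)))
        (u g : ↥(modularFunctionFieldFullC K (N * q))) (c₀ : K),
        s34i47_WProps ((q : ℕ) : R) ((V 0).toSubring ⊓ (V 1).toSubring ⊓ (V 2).toSubring) ∧
        s34i47_ChartProps K ((q : ℕ) : R)
          ((V 0).toSubring ⊓ (V 1).toSubring ⊓ (V 2).toSubring) h ∧
        (∀ i, (algebraMap R ↥(modularFunctionFieldFullC K (N * q)) ((q : ℕ) : R))⁻¹ ∉ V i) ∧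
        (∀ i, ∀ x ∈ V i, x⁻¹ ∉ V i → ∃ k : ℕ,
          (algebraMap R ↥(modularFunctionFieldFullC K (N * q)) ((q : ℕ) : R))⁻¹ * x ^ k ∈ V i) ∧
        (∀ i, ∀ x : ↥(modularFunctionFieldFullC K (N * q)), x ≠ 0 → ∃ k : ℕ,
          (algebraMap R ↥(modularFunctionFieldFullC K (N * q)) ((q : ℕ) : R) ^ k)⁻¹ * x ∉ V i) ∧
        g ≠ 0 ∧ c₀ ≠ 0 ∧
        f ^ c = algebraMap K ↥(modularFunctionFieldFullC K (N * q)) c₀ * g ^ m * u ∧
        (∀ i, (algebraMap R ↥(modularFunctionFieldFullC K (N * q)) ((q : ℕ) : R))⁻¹ * (u - 1) ∈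
          V i) ∧
        ci57_RootDatum ((q : ℕ) : R) m
          (pk15_chart R ({h} : Set ↥(modularFunctionFieldFullC K (N * q)))) V u ∧
        ci57_RootDatum ((q : ℕ) : R) m
          (pk15_chart R ({h⁻¹} : Set ↥(modularFunctionFieldFullC K (N * q)))) V u

/-- The datum gives CORE36 (`ld55_datum_at` + `cm85_pkg_main`). -/
theorem ci57_core_of_datum (N q m c : ℕ) [NeZero N] [NeZero q] (hm0 : 0 < m)
    (hmq : Nat.Coprime m q) (hD : ci57_Datum N q m c) : s36i62_Core N q m c := by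
  intro R K _ _ _ _ _ _ _ _ _ _ hπ hunit f a b ca cb hf ha hb hca hcb hord hNa hNb
  obtain ⟨h, V, u, g, c₀, hW, hC, hπV, hrad, harch, hg, hc₀, hfu, hu, hroot₁, hroot₂⟩ :=
    hD R K hπ hunit f a b ca cb hf ha hb hca hcb hord hNa hNb
  obtain ⟨f₀, cR, hf₀, hfc⟩ := ci57_main_abs (K := K) ((q : ℕ) : R) hπ m hm0 (hunit m hmq)
    (cap87_algClosed_in (modularFunctionFieldFullC K (N * q))) h V hW hC hπV hrad harch u hu
    hroot₁ hroot₂
  have hu0 : u ≠ 0 := by
    rintro rfl
    rw [mul_zero] at hfu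
    exact pow_ne_zero c hf hfu
  have hcR : algebraMap R K cR ≠ 0 := by
    intro h0
    have h1 : f₀ ^ m * u = 0 := by
      rw [hfc, IsScalarTower.algebraMap_apply R K ↥(modularFunctionFieldFullC K (N * q)), h0,
        map_zero]
    rcases mul_eq_zero.mp h1 with h2 | h2
    · exact hf₀ (pow_eq_zero_iff hm0.ne' |>.mp h2)
    · exact hu0 h2
  refine ⟨g / f₀, c₀ * algebraMap R K cR, div_ne_zero hg hf₀, mul_ne_zero hc₀ hcR, ?_⟩
  have e1 : u = algebraMap K ↥(modularFunctionFieldFullC K (N * q)) (algebraMap R K cR) /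
      f₀ ^ m := by
    rw [← IsScalarTower.algebraMap_apply R K ↥(modularFunctionFieldFullC K (N * q)), ← hfc]
    field_simp
  rw [hfu, e1, map_mul, div_pow]
  field_simp

/-- **P-CORE36** (`s36i62_Pkg_Core`) from the datum at every rigid level, with ONE constant for
all `p`-power exponents. -/
theorem ci57_pkg_core
    (hD : ∀ (N q p p₀ r : ℕ) [NeZero N] [NeZero q], q.Prime → q ∣ N → ¬ q ^ 2 ∣ N →
      s36i62_Rigid N q p₀ r → p.Prime → p ≠ q →
      ∃ c : ℕ, c ≠ 0 ∧ ∀ n : ℕ, ci57_Datum N q (p ^ n) c) :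
    s36i62_Pkg_Core := by
  intro N q p p₀ r _ _ hq hqN hq2 hrig hp hpq
  obtain ⟨c, hc, hDn⟩ := hD N q p p₀ r hq hqN hq2 hrig hp hpq
  refine ⟨c, hc, fun n => ?_⟩
  exact ci57_core_of_datum N q (p ^ n) c (pow_pos hp.pos n)
    (Nat.Coprime.pow_left n ((Nat.coprime_primes hp hq).mpr hpq)) (hDn n)

end Fermat.Agent.S36
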