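import Mathlib
import Fermat.Agent.S36.CoreInv57
import Fermat.Agent.S36.GateCofinal67

/-!
# S36 lab (helper51, registrar): the datum of `CoreInv57` at the STRONGLY RIGID levels

`ci57_pkg_core` (helper57) proves `s36i62_Pkg_Core` from the datum `ci57_Datum` at every level
that is rigid in the sense of `Iface62` (ONE Hauptmodul prime).  After the referee gap on the
`C_2`-only ordinary points over `j = 0, 1728`, the geometric packages aim at the strongly rigid
levels `s36c67_Rigid6` of `GateCofinal67` (helper67).  This file is the same modus ponens for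
that target:

* `cs51_pkg_core6` : the datum at every strongly rigid level, with ONE constant for all
  `p`-power exponents, gives `s36c67_Pkg_Core6`;
* `cs51_pkg_cofinal` : together with P-FD36 (`s36i62_Pkg_FieldDef`) it gives `s36c67_Pkg_Cofinal`,
  i.e. the hypothesis of the gate `s36c67_result`.

All names are prefixed `cs51_`.
-/

set_option autoImplicit false
set_option linter.style.longLine false
set_option linter.unusedVariables false
set_option linter.unusedSectionVars false

namespace Fermat.Agent.S36

/-- **P-CORE36 at the strongly rigid levels** (`s36c67_Pkg_Core6`) from the datum `ci57_Datum`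
at every strongly rigid level, with ONE constant for all `p`-power exponents. -/
theorem cs51_pkg_core6
    (hD : ∀ (N q p r : ℕ) [NeZero N] [NeZero q], q.Prime → q ∣ N → ¬ q ^ 2 ∣ N →
      s36c67_Rigid6 N q r → p.Prime → p ≠ q →
      ∃ c : ℕ, c ≠ 0 ∧ ∀ n : ℕ, ci57_Datum N q (p ^ n) c) :
    s36c67_Pkg_Core6 := by
  intro N q p r _ _ hq hqN hq2 hrig hp hpq
  obtain ⟨c, hc, hDn⟩ := hD N q p r hq hqN hq2 hrig hp hpq
  refine ⟨c, hc, fun n => ?_⟩
  exact ci57_core_of_datum N q (p ^ n) c (pow_pos hp.pos n)
    (Nat.Coprime.pow_left n ((Nat.coprime_primes hp hq).mpr hpq)) (hDn n)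

/-- The datum at every strongly rigid level + P-FD36 give P-COFINAL, the hypothesis of the gate
`s36c67_result`. -/
theorem cs51_pkg_cofinal
    (hD : ∀ (N q p r : ℕ) [NeZero N] [NeZero q], q.Prime → q ∣ N → ¬ q ^ 2 ∣ N →
      s36c67_Rigid6 N q r → p.Prime → p ≠ q →
      ∃ c : ℕ, c ≠ 0 ∧ ∀ n : ℕ, ci57_Datum N q (p ^ n) c)
    (hFD : s36i62_Pkg_FieldDef) : s36c67_Pkg_Cofinal :=
  s36c67_cofinal_of_core6 (cs51_pkg_core6 hD) hFD

end Fermat.Agent.S36
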