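import Fermat.Agent.S36.FrameBind85
import Fermat.Agent.S34.OnlyExt10

/-!
# S36 lab (helper85), row B1-FRAME-DATUM: the frame half of `ci57_Datum` on the canonical family

Level `M' q q` (`q` prime, `q ∤ M'`).  The canonical family of valuation subrings of `F(M' q q)_K`:

  `fd85_V M' q hq hM' hπ V₂ = ![cm85_Vinf (M' q q), V₂, nsb86_V3 M' q]`,

`V₂` a PARAMETER with the facts `hV₂`, `hπ₂`, `hs` of `v2g64_exists_of_datum`.

* `fd85_rad`, `fd85_arch` (abstract; `oe10` toolkit): a valuation subring `V` of a finite extension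
  lying over a discrete valuation subring `(V', π)` satisfies `x ∈ 𝔪_V → ∃ k, π⁻¹ x ^ k ∈ V` and is
  archimedean (`∀ x ≠ 0, ∃ k, (π ^ k)⁻¹ x ∉ V`);
* `fd85_frame_level2/3` : the five frame conjuncts of `ci57_Datum` (CoreInv57) in their literal
  order: `s34i47_WProps`, `s34i47_ChartProps`, `∀ i, π⁻¹ ∉ V i`, `hrad`, `harch`, for
  `V = fd85_V …` and the Hauptmodul of level `2` resp. `3`.

All names are prefixed `fd85_`.
-/

set_option autoImplicit false
set_option linter.unusedSectionVars false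
set_option linter.style.haveILetI false

open ModularCurve IntermediateField Polynomial

namespace Fermat.Agent.S36

open Fermat.Agent.S18 Fermat.Agent.S24 Fermat.Agent.S37 Fermat.Agent.S34

local notation "Q̄" => AlgebraicClosure ℚ

section fd85_abs

variable {E F : Type*} [Field E] [Field F] [Algebra E F] [FiniteDimensional E F]
variable {V' : ValuationSubring E} {π : E} {V : ValuationSubring F}

/-- a nonunit of `V` has a power divisible by `π`. -/
theorem fd85_rad (hD : oe10_DVR V' π) (hV : oe10_Over V' π V) (x : F) (hx' : x⁻¹ ∉ V) :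
    ∃ k : ℕ, (algebraMap E F π)⁻¹ * x ^ k ∈ V := by
  have hlt : V.valuation x < 1 := tv2_val_lt_one_of_inv_notMem V hx'
  obtain ⟨b, -, hle⟩ := oe10_pow_le_pi hD hV hlt
  refine ⟨b, ?_⟩
  rw [oe10_pi_inv_mul_mem_iff hD, map_pow]
  exact hle

/-- `V` is archimedean with respect to `π`. -/
theorem fd85_arch (hD : oe10_DVR V' π) (hV : oe10_Over V' π V) (x : F) (hx : x ≠ 0) :
    ∃ k : ℕ, ((algebraMap E F π) ^ k)⁻¹ * x ∉ V := by
  obtain ⟨d, k, l, hd, h⟩ := oe10_val_rel hD hV hx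
  have hγ0 := oe10_val_pi_ne_zero (V := V) hD
  have hγ1 := oe10_val_pi_lt_one hD hV
  refine ⟨l + 1, fun hall => ?_⟩
  have h1 : V.valuation x ≤ V.valuation (algebraMap E F π) ^ (l + 1) := by
    have h0 := (ValuationSubring.valuation_le_one_iff V _).mpr hall
    rw [map_mul, map_inv₀, map_pow,
      inv_mul_le_iff₀ (zero_lt_iff.mpr (pow_ne_zero _ hγ0)), mul_one] at h0
    exact h0
  have hx1 : V.valuation x ≤ 1 := h1.trans (pow_le_one₀ zero_le hγ1.le)
  have h2 : V.valuation x ^ d ≤ V.valuation x := by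
    calc V.valuation x ^ d ≤ V.valuation x ^ 1 := pow_le_pow_of_le_one zero_le hx1 hd
      _ = V.valuation x := pow_one _
  have h3 : V.valuation (algebraMap E F π) ^ l ≤ V.valuation x ^ d := by
    rw [← h]
    exact mul_le_of_le_one_right zero_le (pow_le_one₀ zero_le hγ1.le)
  have h4 : V.valuation (algebraMap E F π) ^ (l + 1) < V.valuation (algebraMap E F π) ^ l := by
    rw [pow_succ]
    exact mul_lt_of_lt_one_right (zero_lt_iff.mpr (pow_ne_zero l hγ0)) hγ1
  exact absurd (h3.trans (h2.trans h1)) (not_le.mpr h4)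

end fd85_abs

section fd85

variable {R K : Type} [CommRing R] [IsDomain R] [IsDiscreteValuationRing R] [Field K] [CharZero K]
  [Algebra R K] [IsFractionRing R K] [Algebra K Q̄] (M' q : ℕ) [NeZero M'] [NeZero q]

/-- **The canonical family** `![V₁, V₂, V₃]` of level `M' q q`. -/
noncomputable def fd85_V (hq : q.Prime) (hM' : ¬ q ∣ M') {π : R} (hπ : Irreducible π)
    (V₂ : ValuationSubring ↥(modularFunctionFieldFullC K (M' * q * q))) :
    Fin 3 → ValuationSubring ↥(modularFunctionFieldFullC K (M' * q * q)) :=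
  ![cm85_Vinf (K := K) (M' * q * q) hπ, V₂, nsb86_V3 (K := K) M' q hq hM' hπ]

/-- `rad` and archimedean property for every valuation subring over `V_∞ = cm85_Vinf (M' q)` along
`α`. -/
theorem fd85_over_inf (hq : q.Prime) {π : R} (hπ : Irreducible π)
    (V : ValuationSubring ↥(modularFunctionFieldFullC K (M' * q * q)))
    (hV : ∀ c ∈ cm85_Vinf (K := K) (M' * q) hπ, al97L_alpha K (M' * q) q c ∈ V)
    (hπV : (algebraMap K ↥(modularFunctionFieldFullC K (M' * q * q)) (algebraMap R K π))⁻¹ ∉ V) :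
    (∀ x : ↥(modularFunctionFieldFullC K (M' * q * q)), x⁻¹ ∉ V → ∃ k : ℕ,
      (algebraMap K ↥(modularFunctionFieldFullC K (M' * q * q)) (algebraMap R K π))⁻¹ * x ^ k ∈
        V) ∧
    (∀ x : ↥(modularFunctionFieldFullC K (M' * q * q)), x ≠ 0 → ∃ k : ℕ,
      (algebraMap K ↥(modularFunctionFieldFullC K (M' * q * q)) (algebraMap R K π) ^ k)⁻¹ * x ∉
        V) := by
  letI alg : Algebra ↥(modularFunctionFieldFullC K (M' * q))
      ↥(modularFunctionFieldFullC K (M' * q * q)) :=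
    (al97L_alpha K (M' * q) q).toRingHom.toAlgebra
  have hfr := ob72_finrank K (M' * q) q hq (dvd_mul_left q M')
  haveI : FiniteDimensional ↥(modularFunctionFieldFullC K (M' * q))
      ↥(modularFunctionFieldFullC K (M' * q * q)) :=
    Module.finite_of_finrank_pos (by rw [hfr]; exact hq.pos)
  have hπEF : algebraMap ↥(modularFunctionFieldFullC K (M' * q))
      ↥(modularFunctionFieldFullC K (M' * q * q))
      (algebraMap K ↥(modularFunctionFieldFullC K (M' * q)) (algebraMap R K π)) =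
      algebraMap K ↥(modularFunctionFieldFullC K (M' * q * q)) (algebraMap R K π) :=
    (al97L_alpha K (M' * q) q).commutes _
  have hD : oe10_DVR (cm85_Vinf (K := K) (M' * q) hπ)
      (algebraMap K ↥(modularFunctionFieldFullC K (M' * q)) (algebraMap R K π)) :=
    ⟨gv85_mem_V_of_integral _ _ _ _ (HahnSeries.C π)
        (by rw [gv85_coe_algebraMap, gv85_coeffMap_C]),
      gv85_pi_inv_not_mem (IsLocalRing.residue R) π (pk85_res_iff hπ) hπ.ne_zero _ _,
      fun x hx hx' =>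
        gv85_hmax (IsLocalRing.residue R) π (pk85_res_iff hπ) hπ.ne_zero _ _ x hx hx',
      fs85_harch (K := K) (M' * q) hπ⟩
  have hO : oe10_Over (cm85_Vinf (K := K) (M' * q) hπ)
      (algebraMap K ↥(modularFunctionFieldFullC K (M' * q)) (algebraMap R K π)) V :=
    ⟨hV, by rw [hπEF]; exact hπV⟩
  refine ⟨fun x hx' => ?_, fun x hx => ?_⟩
  · have := fd85_rad hD hO x hx'
    rwa [hπEF] at this
  · have := fd85_arch hD hO x hx
    rwa [hπEF] at this

/-- `rad` and archimedean property for every valuation subring over `V_0 = s34i47c_V0 M' q` along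
`α`. -/
theorem fd85_over_zero (hq : q.Prime) (hM' : ¬ q ∣ M') {π : R} (hπ : Irreducible π)
    (V : ValuationSubring ↥(modularFunctionFieldFullC K (M' * q * q)))
    (hV : ∀ c ∈ s34i47c_V0 (K := K) M' q hq hM' hπ, al97L_alpha K (M' * q) q c ∈ V)
    (hπV : (algebraMap K ↥(modularFunctionFieldFullC K (M' * q * q)) (algebraMap R K π))⁻¹ ∉ V) :
    (∀ x : ↥(modularFunctionFieldFullC K (M' * q * q)), x⁻¹ ∉ V → ∃ k : ℕ,
      (algebraMap K ↥(modularFunctionFieldFullC K (M' * q * q)) (algebraMap R K π))⁻¹ * x ^ k ∈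
        V) ∧
    (∀ x : ↥(modularFunctionFieldFullC K (M' * q * q)), x ≠ 0 → ∃ k : ℕ,
      (algebraMap K ↥(modularFunctionFieldFullC K (M' * q * q)) (algebraMap R K π) ^ k)⁻¹ * x ∉
        V) := by
  letI alg : Algebra ↥(modularFunctionFieldFullC K (M' * q))
      ↥(modularFunctionFieldFullC K (M' * q * q)) :=
    (al97L_alpha K (M' * q) q).toRingHom.toAlgebra
  have hfr := ob72_finrank K (M' * q) q hq (dvd_mul_left q M')
  haveI : FiniteDimensional ↥(modularFunctionFieldFullC K (M' * q))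
      ↥(modularFunctionFieldFullC K (M' * q * q)) :=
    Module.finite_of_finrank_pos (by rw [hfr]; exact hq.pos)
  have hπEF : algebraMap ↥(modularFunctionFieldFullC K (M' * q))
      ↥(modularFunctionFieldFullC K (M' * q * q))
      (algebraMap K ↥(modularFunctionFieldFullC K (M' * q)) (algebraMap R K π)) =
      algebraMap K ↥(modularFunctionFieldFullC K (M' * q * q)) (algebraMap R K π) :=
    (al97L_alpha K (M' * q) q).commutes _
  have hD := obi72_V0_dvr (K := K) M' q hq hM' hπ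
  have hO : oe10_Over (s34i47c_V0 (K := K) M' q hq hM' hπ)
      (algebraMap K ↥(modularFunctionFieldFullC K (M' * q)) (algebraMap R K π)) V :=
    ⟨hV, by rw [hπEF]; exact hπV⟩
  refine ⟨fun x hx' => ?_, fun x hx => ?_⟩
  · have := fd85_rad hD hO x hx'
    rwa [hπEF] at this
  · have := fd85_arch hD hO x hx
    rwa [hπEF] at this

/-- **The frame half of `ci57_Datum`** on the canonical family, Hauptmodul of level 2: (W), (C),
`π⁻¹ ∉ V i`, `rad (π V i) = 𝔪 (V i)` and the archimedean property, in the literal shapes and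
order of `ci57_Datum` / `ci57_main_abs`. -/
theorem fd85_frame_level2 [Algebra.IsAlgebraic K Q̄]
    [Algebra R ↥(modularFunctionFieldFullC K (M' * q * q))]
    [IsScalarTower R K ↥(modularFunctionFieldFullC K (M' * q * q))]
    (hq : q.Prime) (hM' : ¬ q ∣ M') {π : R} (hπ : Irreducible π)
    (hqR : ¬ IsUnit (q : R)) (hMu : IsUnit (M' : R)) (h2 : 2 ∣ M')
    (V₂ : ValuationSubring ↥(modularFunctionFieldFullC K (M' * q * q)))
    (hV₂ : ∀ c ∈ cm85_Vinf (K := K) (M' * q) hπ, al97L_alpha K (M' * q) q c ∈ V₂)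
    (hπ₂ : (algebraMap K ↥(modularFunctionFieldFullC K (M' * q * q)) (algebraMap R K π))⁻¹ ∉ V₂)
    (hs : V₂.valuation (v2g64_s K M' q) ^ (q - 1) =
      V₂.valuation (algebraMap K ↥(modularFunctionFieldFullC K (M' * q * q)) (algebraMap R K π))) :
    s34i47_WProps π ((fd85_V (K := K) M' q hq hM' hπ V₂ 0).toSubring ⊓ (fd85_V (K := K) M' q hq hM' hπ V₂ 1).toSubring ⊓
        (fd85_V (K := K) M' q hq hM' hπ V₂ 2).toSubring) ∧
      s34i47_ChartProps K π ((fd85_V (K := K) M' q hq hM' hπ V₂ 0).toSubring ⊓ (fd85_V (K := K) M' q hq hM' hπ V₂ 1).toSubring ⊓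
        (fd85_V (K := K) M' q hq hM' hπ V₂ 2).toSubring)
        (pk85_h2 K (M' * q * q)
          (h2.trans ((dvd_mul_right M' q).trans (dvd_mul_right (M' * q) q)))) ∧
      (∀ i, (algebraMap R ↥(modularFunctionFieldFullC K (M' * q * q)) π)⁻¹ ∉ fd85_V (K := K) M' q hq hM' hπ V₂ i) ∧
      (∀ i, ∀ x ∈ fd85_V (K := K) M' q hq hM' hπ V₂ i, x⁻¹ ∉ fd85_V (K := K) M' q hq hM' hπ V₂ i → ∃ k : ℕ,
        (algebraMap R ↥(modularFunctionFieldFullC K (M' * q * q)) π)⁻¹ * x ^ k ∈ fd85_V (K := K) M' q hq hM' hπ V₂ i) ∧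
      (∀ i, ∀ x : ↥(modularFunctionFieldFullC K (M' * q * q)), x ≠ 0 → ∃ k : ℕ,
        (algebraMap R ↥(modularFunctionFieldFullC K (M' * q * q)) π ^ k)⁻¹ * x ∉ fd85_V (K := K) M' q hq hM' hπ V₂ i) := by
  have hfr := fb85_frameV3_level2 M' q hq hM' hπ hqR hMu h2 V₂ hV₂ hπ₂ hs
  have hπRF : algebraMap R ↥(modularFunctionFieldFullC K (M' * q * q)) π =
      algebraMap K ↥(modularFunctionFieldFullC K (M' * q * q)) (algebraMap R K π) :=
    IsScalarTower.algebraMap_apply R K ↥(modularFunctionFieldFullC K (M' * q * q)) π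
  have hL := nsb86_hL K (M' * q * q)
  have hV₃mem := nsb86_mem_V3 (K := K) M' q hq hM' hπ
  have hV₃ := fun c hc => o3x72_V3_over M' q hq hM' hπ hL _ hV₃mem c hc
  have hπ₃ := o3x72_V3_pi M' q hq hM' hπ hL _ hV₃mem
  have hπ₁ : (algebraMap K ↥(modularFunctionFieldFullC K (M' * q * q)) (algebraMap R K π))⁻¹ ∉
      cm85_Vinf (K := K) (M' * q * q) hπ :=
    gv85_pi_inv_not_mem (IsLocalRing.residue R) π (pk85_res_iff hπ) hπ.ne_zero _ _
  have hV₁ : ∀ c ∈ cm85_Vinf (K := K) (M' * q) hπ,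
      al97L_alpha K (M' * q) q c ∈ cm85_Vinf (K := K) (M' * q * q) hπ := fun c hc =>
    (al97V_alpha_mem_Vinf (M' * q) q hπ c).mpr hc
  obtain ⟨r1, a1⟩ := fd85_over_inf M' q hq hπ _ hV₁ hπ₁
  obtain ⟨r2, a2⟩ := fd85_over_inf M' q hq hπ V₂ hV₂ hπ₂
  obtain ⟨r3, a3⟩ := fd85_over_zero M' q hq hM' hπ _ hV₃ hπ₃
  refine ⟨hfr.1, hfr.2.1, ?_, ?_, ?_⟩
  · intro i
    rw [hπRF]
    fin_cases i
    · exact hπ₁
    · exact hπ₂
    · exact hπ₃
  · intro i x _ hx'
    rw [hπRF]
    fin_cases i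
    · exact r1 x hx'
    · exact r2 x hx'
    · exact r3 x hx'
  · intro i x hx
    rw [hπRF]
    fin_cases i
    · exact a1 x hx
    · exact a2 x hx
    · exact a3 x hx

/-- **The frame half of `ci57_Datum`** on the canonical family, Hauptmodul of level 3: (W), (C),
`π⁻¹ ∉ V i`, `rad (π V i) = 𝔪 (V i)` and the archimedean property, in the literal shapes and
order of `ci57_Datum` / `ci57_main_abs`. -/
theorem fd85_frame_level3 [Algebra.IsAlgebraic K Q̄]
    [Algebra R ↥(modularFunctionFieldFullC K (M' * q * q))]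
    [IsScalarTower R K ↥(modularFunctionFieldFullC K (M' * q * q))]
    (hq : q.Prime) (hM' : ¬ q ∣ M') {π : R} (hπ : Irreducible π)
    (hqR : ¬ IsUnit (q : R)) (hMu : IsUnit (M' : R)) (h3 : 3 ∣ M')
    (V₂ : ValuationSubring ↥(modularFunctionFieldFullC K (M' * q * q)))
    (hV₂ : ∀ c ∈ cm85_Vinf (K := K) (M' * q) hπ, al97L_alpha K (M' * q) q c ∈ V₂)
    (hπ₂ : (algebraMap K ↥(modularFunctionFieldFullC K (M' * q * q)) (algebraMap R K π))⁻¹ ∉ V₂)
    (hs : V₂.valuation (v2g64_s K M' q) ^ (q - 1) =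
      V₂.valuation (algebraMap K ↥(modularFunctionFieldFullC K (M' * q * q)) (algebraMap R K π))) :
    s34i47_WProps π ((fd85_V (K := K) M' q hq hM' hπ V₂ 0).toSubring ⊓ (fd85_V (K := K) M' q hq hM' hπ V₂ 1).toSubring ⊓
        (fd85_V (K := K) M' q hq hM' hπ V₂ 2).toSubring) ∧
      s34i47_ChartProps K π ((fd85_V (K := K) M' q hq hM' hπ V₂ 0).toSubring ⊓ (fd85_V (K := K) M' q hq hM' hπ V₂ 1).toSubring ⊓
        (fd85_V (K := K) M' q hq hM' hπ V₂ 2).toSubring)
        (pk85_h3 K (M' * q * q)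
          (h3.trans ((dvd_mul_right M' q).trans (dvd_mul_right (M' * q) q)))) ∧
      (∀ i, (algebraMap R ↥(modularFunctionFieldFullC K (M' * q * q)) π)⁻¹ ∉ fd85_V (K := K) M' q hq hM' hπ V₂ i) ∧
      (∀ i, ∀ x ∈ fd85_V (K := K) M' q hq hM' hπ V₂ i, x⁻¹ ∉ fd85_V (K := K) M' q hq hM' hπ V₂ i → ∃ k : ℕ,
        (algebraMap R ↥(modularFunctionFieldFullC K (M' * q * q)) π)⁻¹ * x ^ k ∈ fd85_V (K := K) M' q hq hM' hπ V₂ i) ∧
      (∀ i, ∀ x : ↥(modularFunctionFieldFullC K (M' * q * q)), x ≠ 0 → ∃ k : ℕ,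
        (algebraMap R ↥(modularFunctionFieldFullC K (M' * q * q)) π ^ k)⁻¹ * x ∉ fd85_V (K := K) M' q hq hM' hπ V₂ i) := by
  have hfr := fb85_frameV3_level3 M' q hq hM' hπ hqR hMu h3 V₂ hV₂ hπ₂ hs
  have hπRF : algebraMap R ↥(modularFunctionFieldFullC K (M' * q * q)) π =
      algebraMap K ↥(modularFunctionFieldFullC K (M' * q * q)) (algebraMap R K π) :=
    IsScalarTower.algebraMap_apply R K ↥(modularFunctionFieldFullC K (M' * q * q)) π
  have hL := nsb86_hL K (M' * q * q)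
  have hV₃mem := nsb86_mem_V3 (K := K) M' q hq hM' hπ
  have hV₃ := fun c hc => o3x72_V3_over M' q hq hM' hπ hL _ hV₃mem c hc
  have hπ₃ := o3x72_V3_pi M' q hq hM' hπ hL _ hV₃mem
  have hπ₁ : (algebraMap K ↥(modularFunctionFieldFullC K (M' * q * q)) (algebraMap R K π))⁻¹ ∉
      cm85_Vinf (K := K) (M' * q * q) hπ :=
    gv85_pi_inv_not_mem (IsLocalRing.residue R) π (pk85_res_iff hπ) hπ.ne_zero _ _
  have hV₁ : ∀ c ∈ cm85_Vinf (K := K) (M' * q) hπ,
      al97L_alpha K (M' * q) q c ∈ cm85_Vinf (K := K) (M' * q * q) hπ := fun c hc =>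
    (al97V_alpha_mem_Vinf (M' * q) q hπ c).mpr hc
  obtain ⟨r1, a1⟩ := fd85_over_inf M' q hq hπ _ hV₁ hπ₁
  obtain ⟨r2, a2⟩ := fd85_over_inf M' q hq hπ V₂ hV₂ hπ₂
  obtain ⟨r3, a3⟩ := fd85_over_zero M' q hq hM' hπ _ hV₃ hπ₃
  refine ⟨hfr.1, hfr.2.1, ?_, ?_, ?_⟩
  · intro i
    rw [hπRF]
    fin_cases i
    · exact hπ₁
    · exact hπ₂
    · exact hπ₃
  · intro i x _ hx'
    rw [hπRF]
    fin_cases i
    · exact r1 x hx'
    · exact r2 x hx'
    · exact r3 x hx'
  · intro i x hx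
    rw [hπRF]
    fin_cases i
    · exact a1 x hx
    · exact a2 x hx
    · exact a3 x hx

end fd85

end Fermat.Agent.S36
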