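import Mathlib
import Fermat.Agent.S36.CoreIface57
import Fermat.Agent.S36.CoreSix51
import Fermat.Agent.S36.GateCofinal67
import Fermat.Agent.S36.FrameDatum85

/-!
# S36 lab, row 605 INV-core (helper32): the CANONICAL top adapter

`s36c67_Pkg_Core6` (the only open package of the S36 assembly) from closed statements at the
LITERAL level `M' * q * q` on the canonical frame

* `V₁ = cm85_Vinf (M' * q * q) hπ`, `V₃ = nsb86_V3 M' q hq hM' hπ`,
  `Vinf = cm85_Vinf (M' * q) hπ`, `V0 = s34i47c_V0 M' q hq hM' hπ`, `π = (q : R)`;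
* `V₂` existentially quantified, with the three frame facts `hV₂`, `hπ₂`, `hs` of
  `fb85_frameV3_level2/3` (e.g. `v2g64_V2`, `vsq97_V2`, `v2e46_exists`);
* `h = pk85_h2 K (M' * q * q) _` if `2 ∣ M'` (used for `q ≠ 2`), `h = pk85_h3 K (M' * q * q) _`
  if `3 ∣ M'` (used for `q = 2`).

Done inside: the cast `N = M' * q` of a level with `q ∣ N`, `¬ q ^ 2 ∣ N`; the choice of the
Hauptmodul from `s36c67_Rigid6`; `IsUnit (M' : R)`; (HF) from `fb85_frameV3_level2/3` resp. the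
five frame conjuncts of `ci57_Datum` from `fd85_frame_level2/3`; `ci57x_core` resp.
`ci57_core_of_datum`.

* `cx32_HBP` : (HB) ∧ (HP) of `CoreIface57` on the canonical frame (one closed `Prop`);
* `cx32_pkg_core6` : `cx32_HBP` at every strongly rigid level ⟹ `s36c67_Pkg_Core6`;
* `cx32_Root` : the `u`-half of `ci57_Datum` on the canonical family `fd85_V` (one closed `Prop`);
* `cx32_pkg_core6_root` : `cx32_Root` at every strongly rigid level ⟹ `s36c67_Pkg_Core6`.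

All names are prefixed `cx32_`.
-/

set_option autoImplicit false
set_option linter.style.longLine false
set_option linter.unusedVariables false
set_option linter.unusedSectionVars false
set_option linter.style.haveILetI false

open ModularCurve AlgebraicCurve

namespace Fermat.Agent.S36

open Fermat.Agent.S18 Fermat.Agent.S24 Fermat.Agent.S37 Fermat.Agent.S34 Fermat.Agent.S35

local notation "Q̄" => AlgebraicClosure ℚ

/-- **(HB) ∧ (HP) on the canonical frame** of level `M' * q * q` with Hauptmodul `h`, exponent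
`m`, over the unramified base `(R, K)`, `π = (q : R)`: there is a `V₂` with the three frame
facts such that `ci57x_HB` and `ci57x_HP` hold for
`(V₁, V₂, V₃, Vinf, V0) = (cm85_Vinf (M' q q), V₂, nsb86_V3, cm85_Vinf (M' q), s34i47c_V0)`. -/
def cx32_HBP (M' q m : ℕ) [NeZero M'] [NeZero q] (hq : q.Prime) (hM' : ¬ q ∣ M')
    (R K : Type) [CommRing R] [IsDomain R] [IsDiscreteValuationRing R] [Field K]
    [NumberField K] [Algebra K Q̄] [Algebra R K] [IsFractionRing R K]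
    [Algebra R ↥(modularFunctionFieldFullC K (M' * q * q))]
    (hπ : Irreducible ((q : ℕ) : R)) (h : ↥(modularFunctionFieldFullC K (M' * q * q))) : Prop :=
  ∃ V₂ : ValuationSubring ↥(modularFunctionFieldFullC K (M' * q * q)),
    (∀ c ∈ cm85_Vinf (K := K) (M' * q) hπ, al97L_alpha K (M' * q) q c ∈ V₂) ∧
    (algebraMap K ↥(modularFunctionFieldFullC K (M' * q * q))
      (algebraMap R K ((q : ℕ) : R)))⁻¹ ∉ V₂ ∧
    V₂.valuation (v2g64_s K M' q) ^ (q - 1) =
      V₂.valuation (algebraMap K ↥(modularFunctionFieldFullC K (M' * q * q))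
        (algebraMap R K ((q : ℕ) : R))) ∧
    ci57x_HB (M' * q) q m R K (cm85_Vinf (K := K) (M' * q * q) hπ) V₂
      (nsb86_V3 (K := K) M' q hq hM' hπ) (cm85_Vinf (K := K) (M' * q) hπ)
      (s34i47c_V0 (K := K) M' q hq hM' hπ) ∧
    ci57x_HP (K := K) ((q : ℕ) : R) q m h (s35i62_normA K (M' * q) q)
      (s35i62_normB K (M' * q) q) (cm85_Vinf (K := K) (M' * q * q) hπ) V₂
      (nsb86_V3 (K := K) M' q hq hM' hπ) (cm85_Vinf (K := K) (M' * q) hπ)
      (s34i47c_V0 (K := K) M' q hq hM' hπ)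

/-- `q ∣ N`, `¬ q ^ 2 ∣ N` ⟹ `N = M' * q` with `¬ q ∣ M'`. -/
theorem cx32_level (N q : ℕ) (hqN : q ∣ N) (hq2 : ¬ q ^ 2 ∣ N) :
    ∃ M' : ℕ, N = M' * q ∧ ¬ q ∣ M' := by
  refine ⟨N / q, (Nat.div_mul_cancel hqN).symm, fun hd => hq2 ?_⟩
  rw [pow_two]
  calc q * q ∣ N / q * q := mul_dvd_mul_right hd q
    _ = N := Nat.div_mul_cancel hqN

/-- The Hauptmodul prime of a strongly rigid level `M' * q`: `2 ∣ M'` if `q ≠ 2`, and `3 ∣ M'`
if `q = 2`. -/
theorem cx32_haupt (M' q r : ℕ) (hq : q.Prime) (hrig : s36c67_Rigid6 (M' * q) q r) :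
    (q ≠ 2 → 2 ∣ M') ∧ (q = 2 → 3 ∣ M') := by
  obtain ⟨h2, h3, -⟩ := hrig
  constructor
  · intro hq2
    have h := h2 hq2
    have hc : Nat.Coprime 2 q := (Nat.coprime_primes Nat.prime_two hq).mpr (Ne.symm hq2)
    exact hc.dvd_of_dvd_mul_right h
  · intro hq2
    have h := h3 (by omega)
    have hc : Nat.Coprime 3 q := (Nat.coprime_primes Nat.prime_three hq).mpr (by omega)
    exact hc.dvd_of_dvd_mul_right h

/-- The constant of `ci57x_core` is nonzero. -/
theorem cx32_const_ne_zero (q : ℕ) (hq : q.Prime) :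
    (q + 1) * (q - 1) * (q ^ 2 - 1) * ((q - 1 + 2) * (q - 1)) * q ≠ 0 := by
  have hq2' : 2 ≤ q := hq.two_le
  have h1 : 0 < q - 1 := by omega
  have h2 : 0 < q ^ 2 - 1 := by
    have : 4 ≤ q ^ 2 := by nlinarith
    omega
  positivity

/-- **P-CORE36 at the strongly rigid levels from (HB) ∧ (HP) on the canonical frame.** -/
theorem cx32_pkg_core6
    (H2 : ∀ (M' q p r : ℕ) [NeZero M'] [NeZero q] (hq : q.Prime) (hM' : ¬ q ∣ M')
      (h2 : 2 ∣ M'), q ≠ 2 → s36c67_Rigid6 (M' * q) q r → p.Prime → p ≠ q → ∀ n : ℕ,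
      ∀ (R K : Type) [CommRing R] [IsDomain R] [IsDiscreteValuationRing R] [Field K]
        [NumberField K] [Algebra K Q̄] [Algebra R K] [IsFractionRing R K]
        [Algebra R ↥(modularFunctionFieldFullC K (M' * q * q))]
        [IsScalarTower R K ↥(modularFunctionFieldFullC K (M' * q * q))]
        (hπ : Irreducible ((q : ℕ) : R)), (∀ k : ℕ, Nat.Coprime k q → IsUnit (k : R)) →
        cx32_HBP M' q (p ^ n) hq hM' R K hπ
          (pk85_h2 K (M' * q * q)
            (h2.trans ((dvd_mul_right M' q).trans (dvd_mul_right (M' * q) q)))))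
    (H3 : ∀ (M' q p r : ℕ) [NeZero M'] [NeZero q] (hq : q.Prime) (hM' : ¬ q ∣ M')
      (h3 : 3 ∣ M'), q = 2 → s36c67_Rigid6 (M' * q) q r → p.Prime → p ≠ q → ∀ n : ℕ,
      ∀ (R K : Type) [CommRing R] [IsDomain R] [IsDiscreteValuationRing R] [Field K]
        [NumberField K] [Algebra K Q̄] [Algebra R K] [IsFractionRing R K]
        [Algebra R ↥(modularFunctionFieldFullC K (M' * q * q))]
        [IsScalarTower R K ↥(modularFunctionFieldFullC K (M' * q * q))]
        (hπ : Irreducible ((q : ℕ) : R)), (∀ k : ℕ, Nat.Coprime k q → IsUnit (k : R)) →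
        cx32_HBP M' q (p ^ n) hq hM' R K hπ
          (pk85_h3 K (M' * q * q)
            (h3.trans ((dvd_mul_right M' q).trans (dvd_mul_right (M' * q) q))))) :
    s36c67_Pkg_Core6 := by
  intro N q p r _ _ hq hqN hq2N hrig hp hpq
  obtain ⟨M', rfl, hM'⟩ := cx32_level N q hqN hq2N
  haveI : NeZero M' := ⟨fun h0 => NeZero.ne (M' * q) (by rw [h0, zero_mul])⟩
  obtain ⟨hh2, hh3⟩ := cx32_haupt M' q r hq hrig
  refine ⟨(q + 1) * (q - 1) * (q ^ 2 - 1) * ((q - 1 + 2) * (q - 1)) * q,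
    cx32_const_ne_zero q hq, fun n => ?_⟩
  intro R K _ _ _ _ _ _ _ _ _ _ hπ hunit f a b ca cb hf ha hb hca hcb hord hNa hNb
  haveI : Algebra.IsAlgebraic K Q̄ := cx_isAlgebraic_closure K
  have hqR : ¬ IsUnit ((q : ℕ) : R) := hπ.not_isUnit
  have hMu : IsUnit ((M' : ℕ) : R) :=
    hunit M' (Nat.Coprime.symm ((Nat.Prime.coprime_iff_not_dvd hq).mpr hM'))
  have hmu : IsUnit ((p ^ n : ℕ) : R) :=
    hunit (p ^ n) (Nat.Coprime.pow_left n ((Nat.coprime_primes hp hq).mpr hpq))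
  by_cases hq2 : q = 2
  · have h3M := hh3 hq2
    obtain ⟨V₂, hV₂, hπ₂, hs, hB, hP⟩ := H3 M' q p r hq hM' h3M hq2 hrig hp hpq n R K hπ hunit
    have hF := fb85_frameV3_level3 M' q hq hM' hπ hqR hMu h3M V₂ hV₂ hπ₂ hs
    exact ci57x_core (M' * q) q (p ^ n) (pow_pos hp.pos n) hπ hmu _ _ _ _ _ _
      ⟨hF.1, hF.2.1⟩ hB hP f a b ca cb hf ha hb hca hcb hord hNa hNb
  · have h2M := hh2 hq2
    obtain ⟨V₂, hV₂, hπ₂, hs, hB, hP⟩ := H2 M' q p r hq hM' h2M hq2 hrig hp hpq n R K hπ hunit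
    have hF := fb85_frameV3_level2 M' q hq hM' hπ hqR hMu h2M V₂ hV₂ hπ₂ hs
    exact ci57x_core (M' * q) q (p ^ n) (pow_pos hp.pos n) hπ hmu _ _ _ _ _ _
      ⟨hF.1, hF.2.1⟩ hB hP f a b ca cb hf ha hb hca hcb hord hNa hNb

/-- **The `u`-half of `ci57_Datum` on the canonical family** `fd85_V M' q hq hM' hπ V₂`
`= ![cm85_Vinf (M' q q), V₂, nsb86_V3 M' q]` with Hauptmodul `h`: for every `f` as in
`s36i62_Core` there are a `V₂` with the three frame facts and `u, g, c₀` with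
`f ^ c = c₀ g ^ m u`, `u ≡ 1` modulo `π V i`, and a root datum of `u` on both charts. -/
def cx32_Root (M' q m c : ℕ) [NeZero M'] [NeZero q] (hq : q.Prime) (hM' : ¬ q ∣ M')
    (R K : Type) [CommRing R] [IsDomain R] [IsDiscreteValuationRing R] [Field K]
    [NumberField K] [Algebra K Q̄] [Algebra R K] [IsFractionRing R K]
    [Algebra R ↥(modularFunctionFieldFullC K (M' * q * q))]
    (hπ : Irreducible ((q : ℕ) : R)) (h : ↥(modularFunctionFieldFullC K (M' * q * q))) : Prop :=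
  ∀ (f : ↥(modularFunctionFieldFullC K (M' * q * q)))
    (a b : ↥(modularFunctionFieldFullC K (M' * q))) (ca cb : K),
    f ≠ 0 → a ≠ 0 → b ≠ 0 → ca ≠ 0 → cb ≠ 0 →
    (∀ P : Place K ↥(modularFunctionFieldFullC K (M' * q * q)), (m : ℤ) ∣ P.ord f) →
    s35i62_normA K (M' * q) q f = algebraMap K ↥(modularFunctionFieldFullC K (M' * q)) ca * a ^ m →
    s35i62_normB K (M' * q) q f = algebraMap K ↥(modularFunctionFieldFullC K (M' * q)) cb * b ^ m →
    ∃ V₂ : ValuationSubring ↥(modularFunctionFieldFullC K (M' * q * q)),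
      (∀ c ∈ cm85_Vinf (K := K) (M' * q) hπ, al97L_alpha K (M' * q) q c ∈ V₂) ∧
      (algebraMap K ↥(modularFunctionFieldFullC K (M' * q * q))
        (algebraMap R K ((q : ℕ) : R)))⁻¹ ∉ V₂ ∧
      V₂.valuation (v2g64_s K M' q) ^ (q - 1) =
        V₂.valuation (algebraMap K ↥(modularFunctionFieldFullC K (M' * q * q))
          (algebraMap R K ((q : ℕ) : R))) ∧
      ∃ (u g : ↥(modularFunctionFieldFullC K (M' * q * q))) (c₀ : K), g ≠ 0 ∧ c₀ ≠ 0 ∧
        f ^ c = algebraMap K ↥(modularFunctionFieldFullC K (M' * q * q)) c₀ * g ^ m * u ∧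
        (∀ i, (algebraMap R ↥(modularFunctionFieldFullC K (M' * q * q)) ((q : ℕ) : R))⁻¹ *
          (u - 1) ∈ fd85_V (K := K) M' q hq hM' hπ V₂ i) ∧
        ci57_RootDatum ((q : ℕ) : R) m
          (pk15_chart R ({h} : Set ↥(modularFunctionFieldFullC K (M' * q * q))))
          (fd85_V (K := K) M' q hq hM' hπ V₂) u ∧
        ci57_RootDatum ((q : ℕ) : R) m
          (pk15_chart R ({h⁻¹} : Set ↥(modularFunctionFieldFullC K (M' * q * q))))
          (fd85_V (K := K) M' q hq hM' hπ V₂) u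

/-- **P-CORE36 at the strongly rigid levels from the root datum on the canonical family.** -/
theorem cx32_pkg_core6_root
    (H2 : ∀ (M' q p r : ℕ) [NeZero M'] [NeZero q] (hq : q.Prime) (hM' : ¬ q ∣ M')
      (h2 : 2 ∣ M'), q ≠ 2 → s36c67_Rigid6 (M' * q) q r → p.Prime → p ≠ q →
      ∃ c : ℕ, c ≠ 0 ∧ ∀ n : ℕ,
      ∀ (R K : Type) [CommRing R] [IsDomain R] [IsDiscreteValuationRing R] [Field K]
        [NumberField K] [Algebra K Q̄] [Algebra R K] [IsFractionRing R K]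
        [Algebra R ↥(modularFunctionFieldFullC K (M' * q * q))]
        [IsScalarTower R K ↥(modularFunctionFieldFullC K (M' * q * q))]
        (hπ : Irreducible ((q : ℕ) : R)), (∀ k : ℕ, Nat.Coprime k q → IsUnit (k : R)) →
        cx32_Root M' q (p ^ n) c hq hM' R K hπ
          (pk85_h2 K (M' * q * q)
            (h2.trans ((dvd_mul_right M' q).trans (dvd_mul_right (M' * q) q)))))
    (H3 : ∀ (M' q p r : ℕ) [NeZero M'] [NeZero q] (hq : q.Prime) (hM' : ¬ q ∣ M')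
      (h3 : 3 ∣ M'), q = 2 → s36c67_Rigid6 (M' * q) q r → p.Prime → p ≠ q →
      ∃ c : ℕ, c ≠ 0 ∧ ∀ n : ℕ,
      ∀ (R K : Type) [CommRing R] [IsDomain R] [IsDiscreteValuationRing R] [Field K]
        [NumberField K] [Algebra K Q̄] [Algebra R K] [IsFractionRing R K]
        [Algebra R ↥(modularFunctionFieldFullC K (M' * q * q))]
        [IsScalarTower R K ↥(modularFunctionFieldFullC K (M' * q * q))]
        (hπ : Irreducible ((q : ℕ) : R)), (∀ k : ℕ, Nat.Coprime k q → IsUnit (k : R)) →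
        cx32_Root M' q (p ^ n) c hq hM' R K hπ
          (pk85_h3 K (M' * q * q)
            (h3.trans ((dvd_mul_right M' q).trans (dvd_mul_right (M' * q) q))))) :
    s36c67_Pkg_Core6 := by
  refine cs51_pkg_core6 ?_
  intro N q p r _ _ hq hqN hq2N hrig hp hpq
  obtain ⟨M', rfl, hM'⟩ := cx32_level N q hqN hq2N
  haveI : NeZero M' := ⟨fun h0 => NeZero.ne (M' * q) (by rw [h0, zero_mul])⟩
  obtain ⟨hh2, hh3⟩ := cx32_haupt M' q r hq hrig
  by_cases hq2 : q = 2
  · have h3M := hh3 hq2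
    obtain ⟨c, hc, hroot⟩ := H3 M' q p r hq hM' h3M hq2 hrig hp hpq
    refine ⟨c, hc, fun n => ?_⟩
    intro R K _ _ _ _ _ _ _ _ _ _ hπ hunit f a b ca cb hf ha hb hca hcb hord hNa hNb
    haveI : Algebra.IsAlgebraic K Q̄ := cx_isAlgebraic_closure K
    have hqR : ¬ IsUnit ((q : ℕ) : R) := hπ.not_isUnit
    have hMu : IsUnit ((M' : ℕ) : R) :=
      hunit M' (Nat.Coprime.symm ((Nat.Prime.coprime_iff_not_dvd hq).mpr hM'))
    obtain ⟨V₂, hV₂, hπ₂, hs, u, g, c₀, hg, hc₀, hfu, hu, hr₁, hr₂⟩ :=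
      hroot n R K hπ hunit f a b ca cb hf ha hb hca hcb hord hNa hNb
    obtain ⟨hW, hC, hπV, hrad, harch⟩ :=
      fd85_frame_level3 M' q hq hM' hπ hqR hMu h3M V₂ hV₂ hπ₂ hs
    exact ⟨_, fd85_V (K := K) M' q hq hM' hπ V₂, u, g, c₀, hW, hC, hπV, hrad, harch, hg, hc₀,
      hfu, hu, hr₁, hr₂⟩
  · have h2M := hh2 hq2
    obtain ⟨c, hc, hroot⟩ := H2 M' q p r hq hM' h2M hq2 hrig hp hpq
    refine ⟨c, hc, fun n => ?_⟩
    intro R K _ _ _ _ _ _ _ _ _ _ hπ hunit f a b ca cb hf ha hb hca hcb hord hNa hNb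
    haveI : Algebra.IsAlgebraic K Q̄ := cx_isAlgebraic_closure K
    have hqR : ¬ IsUnit ((q : ℕ) : R) := hπ.not_isUnit
    have hMu : IsUnit ((M' : ℕ) : R) :=
      hunit M' (Nat.Coprime.symm ((Nat.Prime.coprime_iff_not_dvd hq).mpr hM'))
    obtain ⟨V₂, hV₂, hπ₂, hs, u, g, c₀, hg, hc₀, hfu, hu, hr₁, hr₂⟩ :=
      hroot n R K hπ hunit f a b ca cb hf ha hb hca hcb hord hNa hNb
    obtain ⟨hW, hC, hπV, hrad, harch⟩ :=
      fd85_frame_level2 M' q hq hM' hπ hqR hMu h2M V₂ hV₂ hπ₂ hs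
    exact ⟨_, fd85_V (K := K) M' q hq hM' hπ V₂, u, g, c₀, hW, hC, hπV, hrad, harch, hg, hc₀,
      hfu, hu, hr₁, hr₂⟩

end Fermat.Agent.S36
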