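import Mathlib
import Fermat.Agent.S36.CoreCanon32
import Fermat.Agent.S36.CorePoints57
import Fermat.Agent.S36.PkgFieldDef77

/-!
# S36 lab, row 605 INV-core (helper57, integrator): the FINAL BINDER

The six instance packages on the canonical frame of level `M' * q * q`, middle valuation `V₂`:

* `cf57_Six M' q m hq hM' R K hπ h V₂` := (HB) `ci57x_HB` ∧ (HP-T) `cp57_HPT` ∧
  (HP-1) `cp57_HP1` on the charts `{h}`, `{h⁻¹}` ∧ (HP-3) `cp57_HP3` on the charts `{h}`, `{h⁻¹}`,
  for `(V₁, V₂, V₃, Vinf, V0) = (cm85_Vinf (M' q q), V₂, nsb86_V3, cm85_Vinf (M' q), s34i47c_V0)`,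
  `al, be = al97L_alpha, al97L_beta K (M' * q) q`, `Nal, Nbe = s35i62_normA, s35i62_normB`;
* `cf57_HBP_of` : `V₂` with the three frame facts + `cf57_Six` ⟹ `cx32_HBP` (CoreCanon32);
* `cf57_pkg_core6` : `cf57_Six` at every strongly rigid level ⟹ `s36c67_Pkg_Core6`;
* `cf57_result` : the same hypotheses ⟹ the conclusion of the frozen statement S36.

All names are prefixed `cf57_`.
-/

set_option autoImplicit false
set_option linter.style.longLine false
set_option linter.unusedVariables false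
set_option linter.unusedSectionVars false
set_option linter.style.haveILetI false

open ModularCurve AlgebraicCurve Polynomial

namespace Fermat.Agent.S36

open Fermat.Agent.S18 Fermat.Agent.S24 Fermat.Agent.S37 Fermat.Agent.S34 Fermat.Agent.S35

local notation "Q̄" => AlgebraicClosure ℚ

/-- The three frame facts of the middle valuation `V₂` of level `M' * q * q`
(`hV₂`, `hπ₂`, `hs` of `fb85_frameV3_level2/3` = the first three conjuncts of `cx32_HBP`). -/
def cf57_IsMid (M' q : ℕ) [NeZero M'] [NeZero q]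
    (R K : Type) [CommRing R] [IsDomain R] [IsDiscreteValuationRing R] [Field K]
    [NumberField K] [Algebra K Q̄] [Algebra R K] [IsFractionRing R K]
    (hπ : Irreducible ((q : ℕ) : R))
    (V₂ : ValuationSubring ↥(modularFunctionFieldFullC K (M' * q * q))) : Prop :=
  (∀ c ∈ cm85_Vinf (K := K) (M' * q) hπ, al97L_alpha K (M' * q) q c ∈ V₂) ∧
  (algebraMap K ↥(modularFunctionFieldFullC K (M' * q * q))
    (algebraMap R K ((q : ℕ) : R)))⁻¹ ∉ V₂ ∧
  V₂.valuation (v2g64_s K M' q) ^ (q - 1) =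
    V₂.valuation (algebraMap K ↥(modularFunctionFieldFullC K (M' * q * q))
      (algebraMap R K ((q : ℕ) : R)))

/-- **The six instance packages** (HB), (HP-T), (HP-1) ×2, (HP-3) ×2 on the canonical frame of
level `M' * q * q` with middle valuation `V₂` and Hauptmodul `h`. -/
def cf57_Six (M' q m : ℕ) [NeZero M'] [NeZero q] (hq : q.Prime) (hM' : ¬ q ∣ M')
    (R K : Type) [CommRing R] [IsDomain R] [IsDiscreteValuationRing R] [Field K]
    [NumberField K] [Algebra K Q̄] [Algebra R K] [IsFractionRing R K]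
    [Algebra R ↥(modularFunctionFieldFullC K (M' * q * q))]
    (hπ : Irreducible ((q : ℕ) : R)) (h : ↥(modularFunctionFieldFullC K (M' * q * q)))
    (V₂ : ValuationSubring ↥(modularFunctionFieldFullC K (M' * q * q))) : Prop :=
  ci57x_HB (M' * q) q m R K (cm85_Vinf (K := K) (M' * q * q) hπ) V₂
    (nsb86_V3 (K := K) M' q hq hM' hπ) (cm85_Vinf (K := K) (M' * q) hπ)
    (s34i47c_V0 (K := K) M' q hq hM' hπ) ∧
  cp57_HPT (K := K) ((q : ℕ) : R) q m (al97L_alpha K (M' * q) q).toRingHom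
    (al97L_beta K (M' * q) q).toRingHom (s35i62_normA K (M' * q) q) (s35i62_normB K (M' * q) q)
    (cm85_Vinf (K := K) (M' * q * q) hπ) V₂ (nsb86_V3 (K := K) M' q hq hM' hπ)
    (cm85_Vinf (K := K) (M' * q) hπ) (s34i47c_V0 (K := K) M' q hq hM' hπ) ∧
  cp57_HP1 (K := K) ((q : ℕ) : R) q m
    (pk15_chart R ({h} : Set ↥(modularFunctionFieldFullC K (M' * q * q))))
    (al97L_alpha K (M' * q) q).toRingHom
    (al97L_beta K (M' * q) q).toRingHom (s35i62_normA K (M' * q) q) (s35i62_normB K (M' * q) q)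
    (cm85_Vinf (K := K) (M' * q * q) hπ) V₂ (nsb86_V3 (K := K) M' q hq hM' hπ)
    (cm85_Vinf (K := K) (M' * q) hπ) (s34i47c_V0 (K := K) M' q hq hM' hπ) ∧
  cp57_HP1 (K := K) ((q : ℕ) : R) q m
    (pk15_chart R ({h⁻¹} : Set ↥(modularFunctionFieldFullC K (M' * q * q))))
    (al97L_alpha K (M' * q) q).toRingHom
    (al97L_beta K (M' * q) q).toRingHom (s35i62_normA K (M' * q) q) (s35i62_normB K (M' * q) q)
    (cm85_Vinf (K := K) (M' * q * q) hπ) V₂ (nsb86_V3 (K := K) M' q hq hM' hπ)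
    (cm85_Vinf (K := K) (M' * q) hπ) (s34i47c_V0 (K := K) M' q hq hM' hπ) ∧
  cp57_HP3 (K := K) ((q : ℕ) : R) q m
    (pk15_chart R ({h} : Set ↥(modularFunctionFieldFullC K (M' * q * q))))
    (al97L_alpha K (M' * q) q).toRingHom
    (al97L_beta K (M' * q) q).toRingHom (s35i62_normA K (M' * q) q) (s35i62_normB K (M' * q) q)
    (cm85_Vinf (K := K) (M' * q * q) hπ) V₂ (nsb86_V3 (K := K) M' q hq hM' hπ)
    (cm85_Vinf (K := K) (M' * q) hπ) (s34i47c_V0 (K := K) M' q hq hM' hπ) ∧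
  cp57_HP3 (K := K) ((q : ℕ) : R) q m
    (pk15_chart R ({h⁻¹} : Set ↥(modularFunctionFieldFullC K (M' * q * q))))
    (al97L_alpha K (M' * q) q).toRingHom
    (al97L_beta K (M' * q) q).toRingHom (s35i62_normA K (M' * q) q) (s35i62_normB K (M' * q) q)
    (cm85_Vinf (K := K) (M' * q * q) hπ) V₂ (nsb86_V3 (K := K) M' q hq hM' hπ)
    (cm85_Vinf (K := K) (M' * q) hπ) (s34i47c_V0 (K := K) M' q hq hM' hπ)

/-- `V₂` with the three frame facts and the six packages ⟹ `cx32_HBP`. -/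
theorem cf57_HBP_of (M' q m : ℕ) [NeZero M'] [NeZero q] (hq : q.Prime) (hM' : ¬ q ∣ M')
    (R K : Type) [CommRing R] [IsDomain R] [IsDiscreteValuationRing R] [Field K]
    [NumberField K] [Algebra K Q̄] [Algebra R K] [IsFractionRing R K]
    [Algebra R ↥(modularFunctionFieldFullC K (M' * q * q))]
    (hπ : Irreducible ((q : ℕ) : R)) (h : ↥(modularFunctionFieldFullC K (M' * q * q)))
    (H : ∃ V₂ : ValuationSubring ↥(modularFunctionFieldFullC K (M' * q * q)),
      cf57_IsMid M' q R K hπ V₂ ∧ cf57_Six M' q m hq hM' R K hπ h V₂) :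
    cx32_HBP M' q m hq hM' R K hπ h := by
  obtain ⟨V₂, ⟨hV₂, hπ₂, hs⟩, hB, hT, h1, h1', h3, h3'⟩ := H
  exact ⟨V₂, hV₂, hπ₂, hs, hB,
    cp57_HP_of (K := K) ((q : ℕ) : R) q m h _ _ _ _ _ _ _ _ _ hT h1 h1' h3 h3'⟩

/-- **P-CORE36 at the strongly rigid levels from the six packages on the canonical frame.** -/
theorem cf57_pkg_core6
    (H2 : ∀ (M' q p r : ℕ) [NeZero M'] [NeZero q] (hq : q.Prime) (hM' : ¬ q ∣ M')
      (h2 : 2 ∣ M'), q ≠ 2 → s36c67_Rigid6 (M' * q) q r → p.Prime → p ≠ q → ∀ n : ℕ,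
      ∀ (R K : Type) [CommRing R] [IsDomain R] [IsDiscreteValuationRing R] [Field K]
        [NumberField K] [Algebra K Q̄] [Algebra R K] [IsFractionRing R K]
        [Algebra R ↥(modularFunctionFieldFullC K (M' * q * q))]
        [IsScalarTower R K ↥(modularFunctionFieldFullC K (M' * q * q))]
        (hπ : Irreducible ((q : ℕ) : R)), (∀ k : ℕ, Nat.Coprime k q → IsUnit (k : R)) →
        ∃ V₂ : ValuationSubring ↥(modularFunctionFieldFullC K (M' * q * q)),
          cf57_IsMid M' q R K hπ V₂ ∧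
          cf57_Six M' q (p ^ n) hq hM' R K hπ
            (pk85_h2 K (M' * q * q)
              (h2.trans ((dvd_mul_right M' q).trans (dvd_mul_right (M' * q) q)))) V₂)
    (H3 : ∀ (M' q p r : ℕ) [NeZero M'] [NeZero q] (hq : q.Prime) (hM' : ¬ q ∣ M')
      (h3 : 3 ∣ M'), q = 2 → s36c67_Rigid6 (M' * q) q r → p.Prime → p ≠ q → ∀ n : ℕ,
      ∀ (R K : Type) [CommRing R] [IsDomain R] [IsDiscreteValuationRing R] [Field K]
        [NumberField K] [Algebra K Q̄] [Algebra R K] [IsFractionRing R K]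
        [Algebra R ↥(modularFunctionFieldFullC K (M' * q * q))]
        [IsScalarTower R K ↥(modularFunctionFieldFullC K (M' * q * q))]
        (hπ : Irreducible ((q : ℕ) : R)), (∀ k : ℕ, Nat.Coprime k q → IsUnit (k : R)) →
        ∃ V₂ : ValuationSubring ↥(modularFunctionFieldFullC K (M' * q * q)),
          cf57_IsMid M' q R K hπ V₂ ∧
          cf57_Six M' q (p ^ n) hq hM' R K hπ
            (pk85_h3 K (M' * q * q)
              (h3.trans ((dvd_mul_right M' q).trans (dvd_mul_right (M' * q) q)))) V₂) :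
    s36c67_Pkg_Core6 :=
  cx32_pkg_core6
    (fun M' q p r _ _ hq hM' h2 hq2 hrig hp hpq n R K _ _ _ _ _ _ _ _ _ _ hπ hunit =>
      cf57_HBP_of M' q (p ^ n) hq hM' R K hπ _
        (H2 M' q p r hq hM' h2 hq2 hrig hp hpq n R K hπ hunit))
    (fun M' q p r _ _ hq hM' h3 hq2 hrig hp hpq n R K _ _ _ _ _ _ _ _ _ _ hπ hunit =>
      cf57_HBP_of M' q (p ^ n) hq hM' R K hπ _
        (H3 M' q p r hq hM' h3 hq2 hrig hp hpq n R K hπ hunit))

/-- **The conclusion of the frozen statement S36 from the six packages on the canonical frame at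
every strongly rigid level** (everything else is closed on main: the gate
`s36c67_result_of_core6`, P-FD36 `pfd77_pkg_fieldDef`, (HF) inside `cx32_pkg_core6`). -/
theorem cf57_result
    (H2 : ∀ (M' q p r : ℕ) [NeZero M'] [NeZero q] (hq : q.Prime) (hM' : ¬ q ∣ M')
      (h2 : 2 ∣ M'), q ≠ 2 → s36c67_Rigid6 (M' * q) q r → p.Prime → p ≠ q → ∀ n : ℕ,
      ∀ (R K : Type) [CommRing R] [IsDomain R] [IsDiscreteValuationRing R] [Field K]
        [NumberField K] [Algebra K Q̄] [Algebra R K] [IsFractionRing R K]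
        [Algebra R ↥(modularFunctionFieldFullC K (M' * q * q))]
        [IsScalarTower R K ↥(modularFunctionFieldFullC K (M' * q * q))]
        (hπ : Irreducible ((q : ℕ) : R)), (∀ k : ℕ, Nat.Coprime k q → IsUnit (k : R)) →
        ∃ V₂ : ValuationSubring ↥(modularFunctionFieldFullC K (M' * q * q)),
          cf57_IsMid M' q R K hπ V₂ ∧
          cf57_Six M' q (p ^ n) hq hM' R K hπ
            (pk85_h2 K (M' * q * q)
              (h2.trans ((dvd_mul_right M' q).trans (dvd_mul_right (M' * q) q)))) V₂)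
    (H3 : ∀ (M' q p r : ℕ) [NeZero M'] [NeZero q] (hq : q.Prime) (hM' : ¬ q ∣ M')
      (h3 : 3 ∣ M'), q = 2 → s36c67_Rigid6 (M' * q) q r → p.Prime → p ≠ q → ∀ n : ℕ,
      ∀ (R K : Type) [CommRing R] [IsDomain R] [IsDiscreteValuationRing R] [Field K]
        [NumberField K] [Algebra K Q̄] [Algebra R K] [IsFractionRing R K]
        [Algebra R ↥(modularFunctionFieldFullC K (M' * q * q))]
        [IsScalarTower R K ↥(modularFunctionFieldFullC K (M' * q * q))]
        (hπ : Irreducible ((q : ℕ) : R)), (∀ k : ℕ, Nat.Coprime k q → IsUnit (k : R)) →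
        ∃ V₂ : ValuationSubring ↥(modularFunctionFieldFullC K (M' * q * q)),
          cf57_IsMid M' q R K hπ V₂ ∧
          cf57_Six M' q (p ^ n) hq hM' R K hπ
            (pk85_h3 K (M' * q * q)
              (h3.trans ((dvd_mul_right M' q).trans (dvd_mul_right (M' * q) q)))) V₂)
    {M : ℕ} [NeZero M] {g : CuspForm (CongruenceSubgroup.Gamma0 M) 2} (hg : g.IsNewform)
    (lam : ℕ) [Fact lam.Prime]
    (S : Finset ℕ)
    (O' : Type) [CommRing O'] [IsDomain O'] [IsDiscreteValuationRing O']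
    [IsAdicComplete (IsLocalRing.maximalIdeal O') O'] [Finite (IsLocalRing.ResidueField O')]
    [CharZero O'] (hlamO' : (lam : O') ∈ IsLocalRing.maximalIdeal O')
    (chig : CuspForm.heckeAlgebra M 2 (↑S : Set ℕ) →+* ℂ)
    (hchig : ∀ (ℓ : ℕ) (hℓ : ℓ.Prime) (hℓM : ¬ ℓ ∣ M) (hℓS : ℓ ∉ (↑S : Set ℕ)),
      chig (CuspForm.heckeAlgebra.T hℓ hℓM hℓS) = ModularFormClass.qCoeff g ℓ)
    (iota : chig.range →+* O')
    (hlamS : lam ∈ S) (hMS : ∀ q : ℕ, q.Prime → q ∣ M → q ∈ S) :
    ∃ (O'' : Type) (_ : CommRing O'') (_ : IsDomain O'') (_ : IsDiscreteValuationRing O'')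
      (_ : IsAdicComplete (IsLocalRing.maximalIdeal O'') O'') (_ : Finite (IsLocalRing.ResidueField O''))
      (_ : CharZero O'') (_ : Algebra O' O'') (_ : Module.Finite O' O'') (_ : IsLocalHom (algebraMap O' O'')),
      Function.Injective (algebraMap O' O'') ∧
      ∃ ρ : GaloisRepAdic O'',
        (∀ (ℓ : ℕ) (hℓ : ℓ.Prime) (hℓM : ¬ ℓ ∣ M) (hℓS : ℓ ∉ (↑S : Set ℕ)),
          ∀ A : ValuationSubring (AlgebraicClosure ℚ), A.LiesOverPrime ℓ →
            ∀ σ : AlgebraicClosure ℚ ≃ₐ[ℚ] AlgebraicClosure ℚ, A.IsFrobeniusAt σ ℓ →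
              LinearMap.charpoly (ρ.ρ σ) =
                X ^ 2 - C (algebraMap O' O'' ((iota.comp chig.rangeRestrict) (CuspForm.heckeAlgebra.T hℓ hℓM hℓS))) * X
                  + C ((ℓ : O''))) ∧
        (∀ q : ℕ, q.Prime → q ≠ lam → M.factorization q = 2 → ¬ ρ.IsUnipotentOnInertiaAt q) :=
  s36c67_result_of_core6 (cf57_pkg_core6 H2 H3) pfd77_pkg_fieldDef hg lam S O' hlamO' chig hchig
    iota hlamS hMS

end Fermat.Agent.S36
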