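import Mathlib
import Fermat.Agent.S36.CoreFinal57
import Fermat.Agent.S36.HBBind1
import Fermat.Agent.S36.V2Final64

/-!
# S36 lab (helper92): the final binder with (HB) and the middle valuation DISCHARGED

`cf57_result` (helper57, `CoreFinal57`) asks, at every strongly rigid level, for a middle
valuation `V₂` with the three frame facts `cf57_IsMid` and the six packages `cf57_Six`.  Here:

* `fhb92_isMid` : the canonical `V₂ = v2g64_V2 (algebraMap K ℚ̄) M' q hq hM' hπ (Associated.refl _)`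
  (helper64) has `cf57_IsMid`;
* `fhb92_HB` : conjunct (1) of `cf57_Six`, i.e. (HB) `ci57x_HB`, for EVERY `V₂` with `cf57_IsMid`
  (`hb1_main`, helper1);
* `fhb92_Five` : the five remaining conjuncts (HP-T), (HP-1) ×2, (HP-3) ×2 of `cf57_Six`;
* `fhb92_six_of_five` : `cf57_IsMid` + `fhb92_Five` ⟹ `cf57_Six`;
* `fhb92_result` : the conclusion of the frozen statement S36 from `fhb92_Five` alone (for some
  `V₂` with `cf57_IsMid`, e.g. the canonical one) at every strongly rigid level;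
* `fhb92_result_canon` : the same with `V₂` the canonical `v2g64_V2` literally.

All names are prefixed `fhb92_`.
-/

set_option autoImplicit false
set_option linter.style.longLine false
set_option linter.unusedVariables false
set_option linter.unusedSectionVars false
set_option linter.style.haveILetI false

open ModularCurve AlgebraicCurve Polynomial

namespace Fermat.Agent.S36

open Fermat.Agent.S18 Fermat.Agent.S24 Fermat.Agent.S37 Fermat.Agent.S34 Fermat.Agent.S35

local notation "Q̄" => AlgebraicClosure ℚ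

/-- The canonical middle valuation has the three frame facts. -/
theorem fhb92_isMid (M' q : ℕ) [NeZero M'] [NeZero q] (hq : q.Prime) (hM' : ¬ q ∣ M')
    (R K : Type) [CommRing R] [IsDomain R] [IsDiscreteValuationRing R] [Field K]
    [NumberField K] [Algebra K Q̄] [Algebra R K] [IsFractionRing R K]
    (hπ : Irreducible ((q : ℕ) : R)) :
    cf57_IsMid M' q R K hπ (v2g64_V2 (algebraMap K Q̄) M' q hq hM' hπ (Associated.refl _)) :=
  ⟨fun c hc => v2g64_V2_alpha (algebraMap K Q̄) M' q hq hM' hπ (Associated.refl _) c hc,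
    v2g64_V2_pi (algebraMap K Q̄) M' q hq hM' hπ (Associated.refl _),
    v2g64_V2_val (algebraMap K Q̄) M' q hq hM' hπ (Associated.refl _)⟩

/-- **(HB)** = conjunct (1) of `cf57_Six`, for every `V₂` with the three frame facts. -/
theorem fhb92_HB (M' q m : ℕ) [NeZero M'] [NeZero q] (hq : q.Prime) (hM' : ¬ q ∣ M')
    (R K : Type) [CommRing R] [IsDomain R] [IsDiscreteValuationRing R] [Field K]
    [NumberField K] [Algebra K Q̄] [Algebra R K] [IsFractionRing R K]
    (hπ : Irreducible ((q : ℕ) : R))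
    (hm : 0 < m) (hqm : Nat.Coprime q m) (hmR : IsUnit (m : R))
    (V₂ : ValuationSubring ↥(modularFunctionFieldFullC K (M' * q * q)))
    (hmid : cf57_IsMid M' q R K hπ V₂) :
    ci57x_HB (M' * q) q m R K (cm85_Vinf (K := K) (M' * q * q) hπ) V₂
      (nsb86_V3 (K := K) M' q hq hM' hπ) (cm85_Vinf (K := K) (M' * q) hπ)
      (s34i47c_V0 (K := K) M' q hq hM' hπ) :=
  hb1_main M' q hq hM' hπ hπ.not_isUnit V₂ hmid.1 hmid.2.1 hmid.2.2 m hm hqm hmR

/-- The five remaining packages (HP-T), (HP-1) ×2, (HP-3) ×2 of `cf57_Six`. -/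
def fhb92_Five (M' q m : ℕ) [NeZero M'] [NeZero q] (hq : q.Prime) (hM' : ¬ q ∣ M')
    (R K : Type) [CommRing R] [IsDomain R] [IsDiscreteValuationRing R] [Field K]
    [NumberField K] [Algebra K Q̄] [Algebra R K] [IsFractionRing R K]
    [Algebra R ↥(modularFunctionFieldFullC K (M' * q * q))]
    (hπ : Irreducible ((q : ℕ) : R)) (h : ↥(modularFunctionFieldFullC K (M' * q * q)))
    (V₂ : ValuationSubring ↥(modularFunctionFieldFullC K (M' * q * q))) : Prop :=
  cp57_HPT (K := K) ((q : ℕ) : R) q m (al97L_alpha K (M' * q) q).toRingHom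
    (al97L_beta K (M' * q) q).toRingHom (s35i62_normA K (M' * q) q) (s35i62_normB K (M' * q) q)
    (cm85_Vinf (K := K) (M' * q * q) hπ) V₂ (nsb86_V3 (K := K) M' q hq hM' hπ)
    (cm85_Vinf (K := K) (M' * q) hπ) (s34i47c_V0 (K := K) M' q hq hM' hπ) ∧
  cp57_HP1 (K := K) ((q : ℕ) : R) q m
    (pk15_chart R ({h} : Set ↥(modularFunctionFieldFullC K (M' * q * q))))
    (al97L_alpha K (M' * q) q).toRingHom
    (al97L_beta K (M' * q) q).toRingHom (s35i62_normA K (M' * q) q) (s35i62_normB K (M' * q) q)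
    (cm85_Vinf (K := K) (M' * q * q) hπ) V₂ (nsb86_V3 (K := K) M' q hq hM' hπ)
    (cm85_Vinf (K := K) (M' * q) hπ) (s34i47c_V0 (K := K) M' q hq hM' hπ) ∧
  cp57_HP1 (K := K) ((q : ℕ) : R) q m
    (pk15_chart R ({h⁻¹} : Set ↥(modularFunctionFieldFullC K (M' * q * q))))
    (al97L_alpha K (M' * q) q).toRingHom
    (al97L_beta K (M' * q) q).toRingHom (s35i62_normA K (M' * q) q) (s35i62_normB K (M' * q) q)
    (cm85_Vinf (K := K) (M' * q * q) hπ) V₂ (nsb86_V3 (K := K) M' q hq hM' hπ)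
    (cm85_Vinf (K := K) (M' * q) hπ) (s34i47c_V0 (K := K) M' q hq hM' hπ) ∧
  cp57_HP3 (K := K) ((q : ℕ) : R) q m
    (pk15_chart R ({h} : Set ↥(modularFunctionFieldFullC K (M' * q * q))))
    (al97L_alpha K (M' * q) q).toRingHom
    (al97L_beta K (M' * q) q).toRingHom (s35i62_normA K (M' * q) q) (s35i62_normB K (M' * q) q)
    (cm85_Vinf (K := K) (M' * q * q) hπ) V₂ (nsb86_V3 (K := K) M' q hq hM' hπ)
    (cm85_Vinf (K := K) (M' * q) hπ) (s34i47c_V0 (K := K) M' q hq hM' hπ) ∧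
  cp57_HP3 (K := K) ((q : ℕ) : R) q m
    (pk15_chart R ({h⁻¹} : Set ↥(modularFunctionFieldFullC K (M' * q * q))))
    (al97L_alpha K (M' * q) q).toRingHom
    (al97L_beta K (M' * q) q).toRingHom (s35i62_normA K (M' * q) q) (s35i62_normB K (M' * q) q)
    (cm85_Vinf (K := K) (M' * q * q) hπ) V₂ (nsb86_V3 (K := K) M' q hq hM' hπ)
    (cm85_Vinf (K := K) (M' * q) hπ) (s34i47c_V0 (K := K) M' q hq hM' hπ)

/-- `cf57_IsMid` + the five (HP) packages ⟹ the six packages ((HB) by `hb1_main`). -/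
theorem fhb92_six_of_five (M' q m : ℕ) [NeZero M'] [NeZero q] (hq : q.Prime) (hM' : ¬ q ∣ M')
    (R K : Type) [CommRing R] [IsDomain R] [IsDiscreteValuationRing R] [Field K]
    [NumberField K] [Algebra K Q̄] [Algebra R K] [IsFractionRing R K]
    [Algebra R ↥(modularFunctionFieldFullC K (M' * q * q))]
    (hπ : Irreducible ((q : ℕ) : R)) (h : ↥(modularFunctionFieldFullC K (M' * q * q)))
    (hm : 0 < m) (hqm : Nat.Coprime q m) (hmR : IsUnit (m : R))
    (V₂ : ValuationSubring ↥(modularFunctionFieldFullC K (M' * q * q)))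
    (hmid : cf57_IsMid M' q R K hπ V₂)
    (h5 : fhb92_Five M' q m hq hM' R K hπ h V₂) :
    cf57_Six M' q m hq hM' R K hπ h V₂ :=
  ⟨fhb92_HB M' q m hq hM' R K hπ hm hqm hmR V₂ hmid, h5⟩

/-- The arithmetic of the exponent `m = p ^ n`. -/
theorem fhb92_exp (q p n : ℕ) (hq : q.Prime) (hp : p.Prime) (hpq : p ≠ q)
    (R : Type) [CommRing R] (hunit : ∀ k : ℕ, Nat.Coprime k q → IsUnit (k : R)) :
    0 < p ^ n ∧ Nat.Coprime q (p ^ n) ∧ IsUnit ((p ^ n : ℕ) : R) := by
  have hcop : Nat.Coprime q p := (Nat.coprime_primes hq hp).mpr (Ne.symm hpq)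
  exact ⟨pow_pos hp.pos n, Nat.Coprime.pow_right n hcop,
    hunit (p ^ n) (Nat.Coprime.pow_left n hcop.symm)⟩

/-- **The conclusion of the frozen statement S36 from the five (HP) packages** on the canonical
frame at every strongly rigid level ((HB), (HF), the gate, P-FD36, the level change are
closed on main). -/
theorem fhb92_result
    (H2 : ∀ (M' q p r : ℕ) [NeZero M'] [NeZero q] (hq : q.Prime) (hM' : ¬ q ∣ M')
      (h2 : 2 ∣ M'), q ≠ 2 → s36c67_Rigid6 (M' * q) q r → p.Prime → p ≠ q → ∀ n : ℕ,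
      ∀ (R K : Type) [CommRing R] [IsDomain R] [IsDiscreteValuationRing R] [Field K]
        [NumberField K] [Algebra K Q̄] [Algebra R K] [IsFractionRing R K]
        [Algebra R ↥(modularFunctionFieldFullC K (M' * q * q))]
        [IsScalarTower R K ↥(modularFunctionFieldFullC K (M' * q * q))]
        (hπ : Irreducible ((q : ℕ) : R)), (∀ k : ℕ, Nat.Coprime k q → IsUnit (k : R)) →
        ∃ V₂ : ValuationSubring ↥(modularFunctionFieldFullC K (M' * q * q)),
          cf57_IsMid M' q R K hπ V₂ ∧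
          fhb92_Five M' q (p ^ n) hq hM' R K hπ
            (pk85_h2 K (M' * q * q)
              (h2.trans ((dvd_mul_right M' q).trans (dvd_mul_right (M' * q) q)))) V₂)
    (H3 : ∀ (M' q p r : ℕ) [NeZero M'] [NeZero q] (hq : q.Prime) (hM' : ¬ q ∣ M')
      (h3 : 3 ∣ M'), q = 2 → s36c67_Rigid6 (M' * q) q r → p.Prime → p ≠ q → ∀ n : ℕ,
      ∀ (R K : Type) [CommRing R] [IsDomain R] [IsDiscreteValuationRing R] [Field K]
        [NumberField K] [Algebra K Q̄] [Algebra R K] [IsFractionRing R K]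
        [Algebra R ↥(modularFunctionFieldFullC K (M' * q * q))]
        [IsScalarTower R K ↥(modularFunctionFieldFullC K (M' * q * q))]
        (hπ : Irreducible ((q : ℕ) : R)), (∀ k : ℕ, Nat.Coprime k q → IsUnit (k : R)) →
        ∃ V₂ : ValuationSubring ↥(modularFunctionFieldFullC K (M' * q * q)),
          cf57_IsMid M' q R K hπ V₂ ∧
          fhb92_Five M' q (p ^ n) hq hM' R K hπ
            (pk85_h3 K (M' * q * q)
              (h3.trans ((dvd_mul_right M' q).trans (dvd_mul_right (M' * q) q)))) V₂)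
    {M : ℕ} [NeZero M] {g : CuspForm (CongruenceSubgroup.Gamma0 M) 2} (hg : g.IsNewform)
    (lam : ℕ) [Fact lam.Prime]
    (S : Finset ℕ)
    (O' : Type) [CommRing O'] [IsDomain O'] [IsDiscreteValuationRing O']
    [IsAdicComplete (IsLocalRing.maximalIdeal O') O'] [Finite (IsLocalRing.ResidueField O')]
    [CharZero O'] (hlamO' : (lam : O') ∈ IsLocalRing.maximalIdeal O')
    (chig : CuspForm.heckeAlgebra M 2 (↑S : Set ℕ) →+* ℂ)
    (hchig : ∀ (ℓ : ℕ) (hℓ : ℓ.Prime) (hℓM : ¬ ℓ ∣ M) (hℓS : ℓ ∉ (↑S : Set ℕ)),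
      chig (CuspForm.heckeAlgebra.T hℓ hℓM hℓS) = ModularFormClass.qCoeff g ℓ)
    (iota : chig.range →+* O')
    (hlamS : lam ∈ S) (hMS : ∀ q : ℕ, q.Prime → q ∣ M → q ∈ S) :
    ∃ (O'' : Type) (_ : CommRing O'') (_ : IsDomain O'') (_ : IsDiscreteValuationRing O'')
      (_ : IsAdicComplete (IsLocalRing.maximalIdeal O'') O'') (_ : Finite (IsLocalRing.ResidueField O''))
      (_ : CharZero O'') (_ : Algebra O' O'') (_ : Module.Finite O' O'') (_ : IsLocalHom (algebraMap O' O'')),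
      Function.Injective (algebraMap O' O'') ∧
      ∃ ρ : GaloisRepAdic O'',
        (∀ (ℓ : ℕ) (hℓ : ℓ.Prime) (hℓM : ¬ ℓ ∣ M) (hℓS : ℓ ∉ (↑S : Set ℕ)),
          ∀ A : ValuationSubring (AlgebraicClosure ℚ), A.LiesOverPrime ℓ →
            ∀ σ : AlgebraicClosure ℚ ≃ₐ[ℚ] AlgebraicClosure ℚ, A.IsFrobeniusAt σ ℓ →
              LinearMap.charpoly (ρ.ρ σ) =
                X ^ 2 - C (algebraMap O' O'' ((iota.comp chig.rangeRestrict) (CuspForm.heckeAlgebra.T hℓ hℓM hℓS))) * X
                  + C ((ℓ : O''))) ∧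
        (∀ q : ℕ, q.Prime → q ≠ lam → M.factorization q = 2 → ¬ ρ.IsUnipotentOnInertiaAt q) :=
  cf57_result
    (fun M' q p r _ _ hq hM' h2 hq2 hrig hp hpq n R K _ _ _ _ _ _ _ _ _ _ hπ hunit => by
      obtain ⟨V₂, hmid, h5⟩ := H2 M' q p r hq hM' h2 hq2 hrig hp hpq n R K hπ hunit
      obtain ⟨hm, hqm, hmR⟩ := fhb92_exp q p n hq hp hpq R hunit
      exact ⟨V₂, hmid, fhb92_six_of_five M' q (p ^ n) hq hM' R K hπ _ hm hqm hmR V₂ hmid h5⟩)
    (fun M' q p r _ _ hq hM' h3 hq2 hrig hp hpq n R K _ _ _ _ _ _ _ _ _ _ hπ hunit => by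
      obtain ⟨V₂, hmid, h5⟩ := H3 M' q p r hq hM' h3 hq2 hrig hp hpq n R K hπ hunit
      obtain ⟨hm, hqm, hmR⟩ := fhb92_exp q p n hq hp hpq R hunit
      exact ⟨V₂, hmid, fhb92_six_of_five M' q (p ^ n) hq hM' R K hπ _ hm hqm hmR V₂ hmid h5⟩)
    hg lam S O' hlamO' chig hchig iota hlamS hMS

end Fermat.Agent.S36
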