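import Mathlib
import Fermat.Agent.S36.CoreHP1_84

/-!
# S36 lab, row 605 (HP-1), helper84: the one-branch form of `hp84_HP1`

`hp84_HP1_one` : the package `cp57_HP1` (CorePoints57) from the frame facts of the three-branch
chart, WITHOUT the divisors `hD₁`, `hD₃` at the points lying on two branches (no regular-node
input): the two local generators are only required at the closed points on at most one branch
(`h2one`, the clause (2) of `tg71_Out` of `TwoGenCanon71`), and `hD₂` (the divisor at the closed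
points of the middle branch only) gives the generator of the middle branch.
Same proof as `hp84_HP1`, with `lps9_strong_three_at` at the point.
-/

set_option autoImplicit false

namespace Fermat.Agent.S36

open Fermat.Agent.S18 Fermat.Agent.S34 Fermat.Agent.S35 Fermat.Agent.S36.TripleLoc71

section HP1

variable {R K F1 F2 : Type*} [CommRing R] [Field K] [Field F1] [Field F2] [Algebra R K]
  [Algebra K F1] [Algebra R F2] [Algebra K F2]

omit [Algebra K F2] in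
/-- **(HP-1), one-branch form**: the package `cp57_HP1` from the frame facts of the three-branch
chart, with the two local generators only at the closed points on at most one branch (`h2one`;
no hypothesis at the points lying on two branches). -/
theorem hp84_HP1_one (π : R) (σ : F2) (e : ℕ) (q m : ℕ) (hm : 0 < m)
    (B : Subalgebra R F2) [IsNoetherianRing B]
    (al be : F1 →+* F2) (Nal Nbe : F2 →* F1)
    (V₁ V₂ V₃ : ValuationSubring F2) (Vinf V0 : ValuationSubring F1)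
    (hB₁ : ∀ x ∈ B, x ∈ V₁) (hB₂ : ∀ x ∈ B, x ∈ V₂) (hB₃ : ∀ x ∈ B, x ∈ V₃)
    (hsat : ∀ x ∈ B, (algebraMap R F2 π)⁻¹ * x ∈ V₁ → (algebraMap R F2 π)⁻¹ * x ∈ V₂ →
      (algebraMap R F2 π)⁻¹ * x ∈ V₃ → (algebraMap R F2 π)⁻¹ * x ∈ B)
    (hπ0 : algebraMap R F2 π ≠ 0) (hσ0 : σ ≠ 0)
    (hσe : (algebraMap R F2 π)⁻¹ * σ ^ e ∈ V₂)
    (hπ₁ : (algebraMap R F2 π)⁻¹ ∉ V₁) (hπ₂ : (algebraMap R F2 π)⁻¹ ∉ V₂)
    (hπ₃ : (algebraMap R F2 π)⁻¹ ∉ V₃)
    (hrad₁ : ∀ x ∈ V₁, x⁻¹ ∉ V₁ → ∃ k : ℕ, (algebraMap R F2 π)⁻¹ * x ^ k ∈ V₁)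
    (hrad₂ : ∀ x ∈ V₂, x⁻¹ ∉ V₂ → ∃ k : ℕ, (algebraMap R F2 π)⁻¹ * x ^ k ∈ V₂)
    (hrad₃ : ∀ x ∈ V₃, x⁻¹ ∉ V₃ → ∃ k : ℕ, (algebraMap R F2 π)⁻¹ * x ^ k ∈ V₃)
    (harch₁ : ∀ x ∈ B, x ≠ 0 → ∃ k : ℕ, (algebraMap R F2 π ^ k)⁻¹ * x ∉ V₁)
    (harch₂ : ∀ x ∈ B, x ≠ 0 → ∃ k : ℕ, (algebraMap R F2 π ^ k)⁻¹ * x ∉ V₂)
    (harch₃ : ∀ x ∈ B, x ≠ 0 → ∃ k : ℕ, (algebraMap R F2 π ^ k)⁻¹ * x ∉ V₃)
    (hfrac : ∀ t : F2, ∃ a ∈ B, ∃ b ∈ B, b ≠ 0 ∧ t * b = a)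
    (hmB : ∃ μ ∈ B, (m : F2) * μ = 1)
    (hunif₁ : ∀ x : F2, V₁.valuation x < 1 → (algebraMap R F2 π)⁻¹ * x ∈ V₁)
    (hunif₂ : ∀ x : F2, V₂.valuation x < 1 → x * σ⁻¹ ∈ V₂)
    (hunif₃ : ∀ x : F2, V₃.valuation x < 1 → (algebraMap R F2 π)⁻¹ * x ∈ V₃)
    (hKr : s34i47_Krull π B)
    (hS₁ : sf79_Smooth π B V₁.toSubring) (hS₃ : sf79_Smooth π B V₃.toSubring)
    (hS₂ : tl71_MidSmooth π σ B V₂.toSubring)
    (hD₂ : ∀ n : Ideal B, n.IsMaximal → algebraMap R B π ∈ n → tl71_OnMid σ B V₂.toSubring n →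
      ¬ sf79_OnBr π B V₁.toSubring n → ¬ sf79_OnBr π B V₃.toSubring n →
      tl71_MidDivAt π σ B V₁.toSubring V₂.toSubring V₃.toSubring n)
    (h2one : ∀ n : Ideal B, n.IsMaximal → algebraMap R B π ∈ n → cp57_OneBr π B V₁ V₂ V₃ n →
      ∃ x y : B, x ∈ n ∧ y ∈ n ∧
        ∀ v ∈ n, ∃ s : B, s ∉ n ∧ ∃ a b : B, s * v = a * x + b * y) :
    cp57_HP1 (K := K) π q m B al be Nal Nbe V₁ V₂ V₃ Vinf V0 := by
  classical
  intro u cu Au tinf t0 du Bu sinf s0 θ hu0 hOrd hFin hdata hθ n hn hπn hone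
  have hnp : n.IsPrime := hn.isPrime
  obtain ⟨hθ0, -, -, -, -, hu21, hu22, hu23⟩ := hθ
  obtain ⟨hv1, hv2, hv3, -⟩ := hdata
  -- `u` is a unit of each `V i`
  have hunit : ∀ V : ValuationSubring F2, V.valuation (u - 1) < 1 → u ∈ V ∧ u⁻¹ ∈ V := by
    intro V hV
    have e1 : u = 1 + (u - 1) := by ring
    constructor
    · rw [e1]; exact add_mem (one_mem _) (gc26_mem V hV)
    · rw [e1]; exact ld84_one_add_inv V _ hV
  -- two generators, then the strong (LP)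
  have hπσ : algebraMap R F2 π * σ⁻¹ ∈ V₂ := hunif₂ _ (ld84_val_unif V₂ _ hπ₂)
  have hmidbr : tl71_OnMid σ B V₂.toSubring n → sf79_OnBr π B V₂.toSubring n :=
    fun h => lps9_onBr_of_onMid π σ B V₂.toSubring hπ0 hπσ n h
  obtain ⟨c, hc0, -, -, -, -, hε, hε'⟩ := lps9_strong_three_at π σ e B V₁ V₂ V₃ hB₁ hB₂ hB₃
    hsat hπ0 hσ0 hσe hπ₁ hπ₂ hπ₃ hrad₁ hrad₂ hrad₃ hfrac n hn hπn (h2one n hn hπn hone)
    (hKr n hn hπn)
    (fun h1 h23 => h23.elim (fun h => absurd ⟨h1, hmidbr h⟩ hone.1)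
      (fun h => absurd ⟨h1, h⟩ hone.2.1))
    (fun h3 h21 => h21.elim (fun h => absurd ⟨hmidbr h, h3⟩ hone.2.2)
      (fun h => absurd ⟨h, h3⟩ hone.2.1))
    m hm u hu0 (hunit V₁ hv1) (hunit V₂ hv2) (hunit V₃ hv3) (fun O hO _ => hOrd O hO)
    (hFin.subset fun _ hO => ⟨hO.1, hO.2.2⟩)
  -- the local root of `u₂`
  have hcm0 : c ^ m ≠ 0 := pow_ne_zero _ hc0
  have hu20 : cp57_u2 q m u θ ≠ 0 := by
    unfold cp57_u2
    exact pow_ne_zero _ (mul_ne_zero (pow_ne_zero _ hu0) (pow_ne_zero _ hθ0))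
  have hc20 : (c ^ ((q - 1 + 2) * (q - 1)) * θ) ^ q ≠ 0 :=
    pow_ne_zero _ (mul_ne_zero (pow_ne_zero _ hc0) hθ0)
  have hε₂ : cp57_u2 q m u θ / ((c ^ ((q - 1 + 2) * (q - 1)) * θ) ^ q) ^ m ∈ sf79_loc B n := by
    have e1 : cp57_u2 q m u θ / ((c ^ ((q - 1 + 2) * (q - 1)) * θ) ^ q) ^ m
        = ((u / c ^ m) ^ ((q - 1 + 2) * (q - 1))) ^ q := by
      rw [div_eq_iff (pow_ne_zero _ hc20)]
      have hu_eq : u = (u / c ^ m) * c ^ m := by field_simp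
      unfold cp57_u2
      conv_lhs => rw [hu_eq]
      ring
    rw [e1]
    exact pow_mem (pow_mem hε _) _
  have hε₂' : ((c ^ ((q - 1 + 2) * (q - 1)) * θ) ^ q) ^ m / cp57_u2 q m u θ ∈ sf79_loc B n := by
    have e1 : ((c ^ ((q - 1 + 2) * (q - 1)) * θ) ^ q) ^ m / cp57_u2 q m u θ
        = ((c ^ m / u) ^ ((q - 1 + 2) * (q - 1))) ^ q := by
      rw [div_eq_iff hu20]
      have hc_eq : c ^ m = (c ^ m / u) * u := by field_simp
      unfold cp57_u2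
      calc ((c ^ ((q - 1 + 2) * (q - 1)) * θ) ^ q) ^ m
          = ((c ^ m) ^ ((q - 1 + 2) * (q - 1))) ^ q * (θ ^ m) ^ q := by ring
        _ = (((c ^ m / u) * u) ^ ((q - 1 + 2) * (q - 1))) ^ q * (θ ^ m) ^ q := by rw [← hc_eq]
        _ = ((c ^ m / u) ^ ((q - 1 + 2) * (q - 1))) ^ q
            * (u ^ ((q - 1 + 2) * (q - 1)) * θ ^ m) ^ q := by ring
    rw [e1]
    exact pow_mem (pow_mem hε' _) _
  -- the family `![V₁, V₂, V₃]`
  have hBV : ∀ i : Fin 3, ∀ x ∈ B, x ∈ (![V₁, V₂, V₃] : Fin 3 → ValuationSubring F2) i := by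
    intro i; fin_cases i <;> assumption
  have hπV : ∀ i : Fin 3,
      (algebraMap R F2 π)⁻¹ ∉ (![V₁, V₂, V₃] : Fin 3 → ValuationSubring F2) i := by
    intro i; fin_cases i <;> assumption
  have hrad : ∀ i : Fin 3, ∀ x ∈ (![V₁, V₂, V₃] : Fin 3 → ValuationSubring F2) i,
      x⁻¹ ∉ (![V₁, V₂, V₃] : Fin 3 → ValuationSubring F2) i →
      ∃ k : ℕ, (algebraMap R F2 π)⁻¹ * x ^ k ∈ (![V₁, V₂, V₃] : Fin 3 → ValuationSubring F2) i := by
    intro i; fin_cases i <;> assumption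
  have harch : ∀ i : Fin 3, ∀ x ∈ B, x ≠ 0 → ∃ k : ℕ,
      (algebraMap R F2 π ^ k)⁻¹ * x ∉ (![V₁, V₂, V₃] : Fin 3 → ValuationSubring F2) i := by
    intro i; fin_cases i <;> assumption
  have hu2V : ∀ i : Fin 3, (algebraMap R F2 π)⁻¹ * (cp57_u2 q m u θ - 1)
      ∈ (![V₁, V₂, V₃] : Fin 3 → ValuationSubring F2) i := by
    intro i; fin_cases i <;> assumption
  have key : ∃ φ : F2,
      (∀ i : Fin 3, (algebraMap R F2 π)⁻¹ * (φ - 1)
        ∈ (![V₁, V₂, V₃] : Fin 3 → ValuationSubring F2) i) ∧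
      ∃ s : B, s ∉ n ∧ (s : F2) * (φ ^ m * cp57_u2 q m u θ) ∈ B := by
    by_cases h1 : sf79_OnBr π B V₁.toSubring n
    · have h2' : ¬ sf79_OnBr π B V₂.toSubring n := fun h => hone.1 ⟨h1, h⟩
      have h3' : ¬ sf79_OnBr π B V₃.toSubring n := fun h => hone.2.1 ⟨h1, h⟩
      obtain ⟨z, ξ, hzn, hz, hξ, hgen⟩ := hp84_brData_red π hπ0 B V₁ V₂ V₃ hB₁ hB₂ hB₃ hsat
        hπ₁ hunif₁ hS₁ n hn hπn h1 h2' h3'
      refine ld55_datum_at_one π m hm B hmB (![V₁, V₂, V₃] : Fin 3 → ValuationSubring F2)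
        hBV hπV hrad harch hfrac n (hn := hn) (cp57_u2 q m u θ) hu2V _ hc20 hε₂ hε₂' 0 ?_
        z hzn hz ξ hξ hgen
      intro i hi
      fin_cases i
      · rfl
      · exact absurd hi h2'
      · exact absurd hi h3'
    · by_cases h3 : sf79_OnBr π B V₃.toSubring n
      · have h2' : ¬ sf79_OnBr π B V₂.toSubring n := fun h => hone.2.2 ⟨h, h3⟩
        obtain ⟨z, ξ, hzn, hz, hξ, hgen⟩ := hp84_brData_red π hπ0 B V₃ V₂ V₁ hB₃ hB₂ hB₁
          (fun x hx h3x h2x h1x => hsat x hx h1x h2x h3x) hπ₃ hunif₃ hS₃ n hn hπn h3 h2' h1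
        refine ld55_datum_at_one π m hm B hmB (![V₁, V₂, V₃] : Fin 3 → ValuationSubring F2)
          hBV hπV hrad harch hfrac n (hn := hn) (cp57_u2 q m u θ) hu2V _ hc20 hε₂ hε₂' 2 ?_
          z hzn hz ξ hξ hgen
        intro i hi
        fin_cases i
        · exact absurd hi h1
        · exact absurd hi h2'
        · rfl
      · by_cases h2' : sf79_OnBr π B V₂.toSubring n
        · obtain ⟨z, ξ, hzn, hz, hξ, hgen⟩ := hp84_brData_mid π σ e hπ0 hσ0 B V₁ V₂ V₃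
            hB₁ hB₂ hB₃ hsat hπ₂ hσe hunif₂ hS₂ n hn hπn (hD₂ n hn hπn) h2' h1 h3
          refine ld55_datum_at_one π m hm B hmB (![V₁, V₂, V₃] : Fin 3 → ValuationSubring F2)
            hBV hπV hrad harch hfrac n (hn := hn) (cp57_u2 q m u θ) hu2V _ hc20 hε₂ hε₂' 1 ?_
            z hzn hz ξ hξ hgen
          intro i hi
          fin_cases i
          · exact absurd hi h1
          · rfl
          · exact absurd hi h3
        · -- no branch through `n`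
          refine ld55_datum_at_lift π m hm B hmB (![V₁, V₂, V₃] : Fin 3 → ValuationSubring F2)
            hBV hπV hrad harch hfrac n (hn := hnp) (cp57_u2 q m u θ) hu2V _ hc20 hε₂ hε₂' 1
            (one_mem _) ?_
          intro i hi
          exfalso
          fin_cases i
          · exact h1 hi
          · exact h2' hi
          · exact h3 hi
  obtain ⟨φ, hφ, s, hs, hsφ⟩ := key
  exact ⟨φ, Subring.mem_inf.mpr ⟨Subring.mem_inf.mpr ⟨hφ 0, hφ 1⟩, hφ 2⟩, s, hs, hsφ⟩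

end HP1

end Fermat.Agent.S36
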