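import Fermat.Agent.S36.ValUnit1

/-!
# S36 lab, row B2-val (helper1): `b2v1_main` in valuation-subring form

`vs1_Disc V ϖ` : every nonzero element of the field has `V`-valuation an integral power of that
of `ϖ` (and `0 < v ϖ < 1`); `vs1_disc_of_dvr` derives it from the `oe10_DVR` shape
(`ϖ ∈ V`, `ϖ⁻¹ ∉ V`, `hmax`, `harch`).  `vs1_ord V ϖ : F → ℤ` is the order function; it is a
`b2v1_IsVal`, and `vs1_ord V ϖ x = 0 ↔ x ∈ V ∧ x⁻¹ ∈ V`.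

`vs1_main` : the statement of `b2v1_main` for three valuation subrings `V1 V2 V3` of `F2`
(uniformizers `π`, `s`, `π`, with `v2 s ^ (q - 1) = v2 π`, `s` a unit of `V1`, `V3`) and two
valuation subrings `Vinf V0` of `F1` (uniformizer `π`), with the four norm-valuation identities
in the shape `v y = v ϖ ^ a → ... → v' (N y) = v' π ^ (a + b)` (row 615), and a separator `eA`
(`π⁻¹ eA ∈ V1, V2`, `π⁻¹ (eA - 1) ∈ V3`, the shape of `s3a66_sep`).  Output: `f₂ = f ^ (q + 1) *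
c₀ * y ^ m` is a unit of `V1`, `V2`, `V3` and `N_α f₂`, `N_β f₂` are
(constant unit) * (unit of `Vinf ⊓ V0`) ^ m.

All names are prefixed `vs1_`.
-/

set_option autoImplicit false

namespace Fermat.Agent.S36

/-- `V` is discrete with uniformizer `ϖ`. -/
def vs1_Disc {F : Type*} [Field F] (V : ValuationSubring F) (ϖ : F) : Prop :=
  ϖ ≠ 0 ∧ V.valuation ϖ < 1 ∧ ∀ y : F, y ≠ 0 → ∃ k : ℤ, V.valuation y = V.valuation ϖ ^ k

open Classical in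
/-- The order of `x` with respect to the uniformizer `ϖ` of `V` (junk value `0` when undefined). -/
noncomputable def vs1_ord {F : Type*} [Field F] (V : ValuationSubring F) (ϖ : F) (x : F) : ℤ :=
  if h : ∃ k : ℤ, V.valuation x = V.valuation ϖ ^ k then h.choose else 0

section Ord

variable {F : Type*} [Field F] {V : ValuationSubring F} {ϖ : F}

theorem vs1_val_pos (hd : vs1_Disc V ϖ) : 0 < V.valuation ϖ :=
  zero_lt_iff.mpr ((Valuation.ne_zero_iff _).mpr hd.1)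

theorem vs1_zpow_inj (hd : vs1_Disc V ϖ) {j k : ℤ}
    (h : V.valuation ϖ ^ j = V.valuation ϖ ^ k) : j = k :=
  (zpow_right_inj₀ (vs1_val_pos hd) hd.2.1.ne).mp h

theorem vs1_ord_eq (hd : vs1_Disc V ϖ) {x : F} {k : ℤ}
    (h : V.valuation x = V.valuation ϖ ^ k) : vs1_ord V ϖ x = k := by
  have hex : ∃ k : ℤ, V.valuation x = V.valuation ϖ ^ k := ⟨k, h⟩
  unfold vs1_ord
  rw [dif_pos hex]
  exact vs1_zpow_inj hd (hex.choose_spec.symm.trans h)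

theorem vs1_ord_spec (hd : vs1_Disc V ϖ) {x : F} (hx : x ≠ 0) :
    V.valuation x = V.valuation ϖ ^ vs1_ord V ϖ x := by
  obtain ⟨k, hk⟩ := hd.2.2 x hx
  rw [vs1_ord_eq hd hk]
  exact hk

theorem vs1_ord_self (hd : vs1_Disc V ϖ) : vs1_ord V ϖ ϖ = 1 :=
  vs1_ord_eq hd (zpow_one _).symm

theorem vs1_isVal (hd : vs1_Disc V ϖ) : b2v1_IsVal (vs1_ord V ϖ) := by
  intro x y hx hy
  apply vs1_ord_eq hd
  rw [map_mul, vs1_ord_spec hd hx, vs1_ord_spec hd hy, zpow_add₀ (vs1_val_pos hd).ne']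

theorem vs1_val_eq_one_iff {x : F} (hx : x ≠ 0) :
    V.valuation x = 1 ↔ x ∈ V ∧ x⁻¹ ∈ V := by
  have h0 : V.valuation x ≠ 0 := (Valuation.ne_zero_iff _).mpr hx
  rw [← V.valuation_le_one_iff, ← V.valuation_le_one_iff, map_inv₀]
  constructor
  · intro h
    rw [h]
    simp
  · rintro ⟨h1, h2⟩
    refine le_antisymm h1 ?_
    rwa [inv_le_one₀ (zero_lt_iff.mpr h0)] at h2

theorem vs1_ord_eq_zero_iff (hd : vs1_Disc V ϖ) {x : F} (hx : x ≠ 0) :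
    vs1_ord V ϖ x = 0 ↔ x ∈ V ∧ x⁻¹ ∈ V := by
  rw [← vs1_val_eq_one_iff hx]
  constructor
  · intro h
    have := vs1_ord_spec hd hx
    rwa [h, zpow_zero] at this
  · intro h
    exact vs1_ord_eq hd (by rw [h, zpow_zero])

/-- The `oe10_DVR` shape gives discreteness. -/
theorem vs1_disc_of_dvr (V : ValuationSubring F) (ϖ : F) (h1 : ϖ ∈ V) (h2 : ϖ⁻¹ ∉ V)
    (hmax : ∀ x ∈ V, x⁻¹ ∉ V → ϖ⁻¹ * x ∈ V)
    (harch : ∀ x : F, x ≠ 0 → ∃ n : ℕ, (ϖ ^ n)⁻¹ * x ∉ V) : vs1_Disc V ϖ := by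
  classical
  have hϖ0 : ϖ ≠ 0 := by
    rintro rfl
    apply h2
    rw [inv_zero]
    exact V.zero_mem
  have hv0 : V.valuation ϖ ≠ 0 := (Valuation.ne_zero_iff _).mpr hϖ0
  have hlt : V.valuation ϖ < 1 := by
    have hle : V.valuation ϖ ≤ 1 := (V.valuation_le_one_iff ϖ).mpr h1
    refine lt_of_le_of_ne hle ?_
    intro h
    apply h2
    rw [← V.valuation_le_one_iff, map_inv₀, h, inv_one]
  -- elements of `V`
  have key : ∀ x : F, x ≠ 0 → x ∈ V → ∃ k : ℤ, V.valuation x = V.valuation ϖ ^ k := by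
    intro x hx hxV
    have hex := harch x hx
    have hn := Nat.find_spec hex
    have hmin := fun k hk => Nat.find_min hex (m := k) hk
    set n := Nat.find hex with hndef
    have hn0 : n ≠ 0 := by
      intro h0
      rw [h0] at hn
      apply hn
      simpa using hxV
    obtain ⟨k, hk⟩ : ∃ k, n = k + 1 := ⟨n - 1, by omega⟩
    have hu : (ϖ ^ k)⁻¹ * x ∈ V := by
      by_contra hcon
      exact hmin k (by omega) hcon
    have hui : ((ϖ ^ k)⁻¹ * x)⁻¹ ∈ V := by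
      by_contra hcon
      apply hn
      have := hmax _ hu hcon
      rw [hk, pow_succ, mul_inv, mul_comm (ϖ ^ k)⁻¹ ϖ⁻¹, mul_assoc]
      exact this
    have hune : (ϖ ^ k)⁻¹ * x ≠ 0 := mul_ne_zero (inv_ne_zero (pow_ne_zero _ hϖ0)) hx
    have h1' := (vs1_val_eq_one_iff hune).mpr ⟨hu, hui⟩
    refine ⟨(k : ℤ), ?_⟩
    rw [map_mul, map_inv₀, map_pow] at h1'
    rw [zpow_natCast]
    have hp0 : V.valuation ϖ ^ k ≠ 0 := pow_ne_zero _ hv0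
    calc V.valuation x = V.valuation ϖ ^ k * ((V.valuation ϖ ^ k)⁻¹ * V.valuation x) := by
          rw [← mul_assoc, mul_inv_cancel₀ hp0, one_mul]
      _ = V.valuation ϖ ^ k := by rw [h1', mul_one]
  refine ⟨hϖ0, hlt, ?_⟩
  intro y hy
  by_cases hyV : y ∈ V
  · exact key y hy hyV
  · have hyi : y⁻¹ ∈ V := by
      rcases V.mem_or_inv_mem y with h | h
      · exact absurd h hyV
      · exact h
    obtain ⟨k, hk⟩ := key y⁻¹ (inv_ne_zero hy) hyi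
    refine ⟨-k, ?_⟩
    rw [map_inv₀] at hk
    rw [zpow_neg, ← hk, inv_inv]

end Ord

/-- **(B0) in valuation-subring form.** -/
theorem vs1_main
    {K F1 F2 : Type*} [Field K] [Field F1] [Field F2]
    (ι1 : K →+* F1) (ι2 : K →+* F2) (Nal Nbe : F2 →* F1)
    (V1 V2 V3 : ValuationSubring F2) (Vinf V0 : ValuationSubring F1)
    (q m : ℕ) (hq : 2 ≤ q) (hm : 0 < m)
    (π : K) (s : F2)
    (hd1 : vs1_Disc V1 (ι2 π)) (hd2 : vs1_Disc V2 s) (hd3 : vs1_Disc V3 (ι2 π))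
    (hdinf : vs1_Disc Vinf (ι1 π)) (hd0 : vs1_Disc V0 (ι1 π))
    (hs2 : V2.valuation s ^ (q - 1) = V2.valuation (ι2 π))
    (hs1 : V1.valuation s = 1) (hs3 : V3.valuation s = 1)
    (eA : F2) (hA1 : (ι2 π)⁻¹ * eA ∈ V1) (hA2 : (ι2 π)⁻¹ * eA ∈ V2)
    (hA3 : (ι2 π)⁻¹ * (eA - 1) ∈ V3)
    (hK : ∀ c : K, ι1 c ∈ Vinf ↔ ι1 c ∈ V0)
    (hNalK : ∀ c : K, Nal (ι2 c) = ι1 (c ^ q)) (hNbeK : ∀ c : K, Nbe (ι2 c) = ι1 (c ^ q))
    (hAinf : ∀ y : F2, y ≠ 0 → ∀ a b : ℤ, V1.valuation y = V1.valuation (ι2 π) ^ a →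
      V2.valuation y = V2.valuation s ^ b →
      Vinf.valuation (Nal y) = Vinf.valuation (ι1 π) ^ (a + b))
    (hA0 : ∀ y : F2, y ≠ 0 → ∀ c : ℤ, V3.valuation y = V3.valuation (ι2 π) ^ c →
      V0.valuation (Nal y) = V0.valuation (ι1 π) ^ ((q : ℤ) * c))
    (hBinf : ∀ y : F2, y ≠ 0 → ∀ a : ℤ, V1.valuation y = V1.valuation (ι2 π) ^ a →
      Vinf.valuation (Nbe y) = Vinf.valuation (ι1 π) ^ ((q : ℤ) * a))
    (hB0 : ∀ y : F2, y ≠ 0 → ∀ b c : ℤ, V2.valuation y = V2.valuation s ^ b →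
      V3.valuation y = V3.valuation (ι2 π) ^ c →
      V0.valuation (Nbe y) = V0.valuation (ι1 π) ^ (b + c))
    (f : F2) (hf : f ≠ 0) (ca cb : K) (hca : ca ≠ 0) (hcb : cb ≠ 0)
    (a b : F1) (ha : a ≠ 0) (hb : b ≠ 0)
    (hNa : Nal f = ι1 ca * a ^ m) (hNb : Nbe f = ι1 cb * b ^ m) :
    ∃ (c0 : K) (y f2 : F2), c0 ≠ 0 ∧ y ≠ 0 ∧ f2 ≠ 0 ∧ f2 = f ^ (q + 1) * ι2 c0 * y ^ m ∧
      (f2 ∈ V1 ∧ f2⁻¹ ∈ V1) ∧ (f2 ∈ V2 ∧ f2⁻¹ ∈ V2) ∧ (f2 ∈ V3 ∧ f2⁻¹ ∈ V3) ∧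
      (∃ (cA : K) (A2 : F1), cA ≠ 0 ∧ A2 ≠ 0 ∧
        (ι1 cA ∈ Vinf ∧ (ι1 cA)⁻¹ ∈ Vinf) ∧ (ι1 cA ∈ V0 ∧ (ι1 cA)⁻¹ ∈ V0) ∧
        (A2 ∈ Vinf ∧ A2⁻¹ ∈ Vinf) ∧ (A2 ∈ V0 ∧ A2⁻¹ ∈ V0) ∧ Nal f2 = ι1 cA * A2 ^ m) ∧
      (∃ (cB : K) (B2 : F1), cB ≠ 0 ∧ B2 ≠ 0 ∧
        (ι1 cB ∈ Vinf ∧ (ι1 cB)⁻¹ ∈ Vinf) ∧ (ι1 cB ∈ V0 ∧ (ι1 cB)⁻¹ ∈ V0) ∧
        (B2 ∈ Vinf ∧ B2⁻¹ ∈ Vinf) ∧ (B2 ∈ V0 ∧ B2⁻¹ ∈ V0) ∧ Nbe f2 = ι1 cB * B2 ^ m) := by
  classical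
  have hπ : π ≠ 0 := fun h => hdinf.1 (by rw [h, map_zero])
  have hι1 : ∀ c : K, c ≠ 0 → ι1 c ≠ 0 := fun c hc => (map_ne_zero ι1).mpr hc
  have hϖ2 : ι2 π ≠ 0 := hd1.1
  have hs0 : s ≠ 0 := hd2.1
  -- the valuation of `π` at `V2`
  have hπ2lt : V2.valuation (ι2 π) < 1 := by
    rw [← hs2]
    exact pow_lt_one₀ (le_of_lt (vs1_val_pos hd2)) hd2.2.1 (by omega)
  -- constants have the same order at `Vinf` and `V0`
  have hKord : ∀ c : K, c ≠ 0 → vs1_ord Vinf (ι1 π) (ι1 c) = vs1_ord V0 (ι1 π) (ι1 c) := by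
    intro c hc
    set k := vs1_ord Vinf (ι1 π) (ι1 c) with hk
    have hspec := vs1_ord_spec hdinf (hι1 c hc)
    rw [← hk] at hspec
    have hu0 : c * π ^ (-k) ≠ 0 := mul_ne_zero hc (zpow_ne_zero _ hπ)
    have hu : Vinf.valuation (ι1 (c * π ^ (-k))) = 1 := by
      rw [map_mul, map_zpow₀, map_mul, map_zpow₀, hspec, ← zpow_add₀ (vs1_val_pos hdinf).ne']
      simp
    have hmem := (vs1_val_eq_one_iff (hι1 _ hu0)).mp hu
    have hmem0 : ι1 (c * π ^ (-k)) ∈ V0 ∧ (ι1 (c * π ^ (-k)))⁻¹ ∈ V0 := by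
      refine ⟨(hK _).mp hmem.1, ?_⟩
      rw [← map_inv₀]
      have := hmem.2
      rw [← map_inv₀] at this
      exact (hK _).mp this
    have hu' := (vs1_val_eq_one_iff (hι1 _ hu0)).mpr hmem0
    symm
    apply vs1_ord_eq hd0
    rw [map_mul, map_zpow₀, map_mul, map_zpow₀] at hu'
    have hp0 : V0.valuation (ι1 π) ≠ 0 := (vs1_val_pos hd0).ne'
    calc V0.valuation (ι1 c)
        = V0.valuation (ι1 c) * V0.valuation (ι1 π) ^ (-k) * V0.valuation (ι1 π) ^ k := by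
          rw [mul_assoc, ← zpow_add₀ hp0]; simp
      _ = V0.valuation (ι1 π) ^ k := by rw [hu', one_mul]
  -- the element `y3`
  obtain ⟨t1, ht1⟩ : ∃ t : F2, t = (ι2 π)⁻¹ * eA := ⟨_, rfl⟩
  obtain ⟨t3, ht3⟩ : ∃ t : F2, t = (ι2 π)⁻¹ * (eA - 1) := ⟨_, rfl⟩
  have heA1 : eA = ι2 π * t1 := by rw [ht1, ← mul_assoc, mul_inv_cancel₀ hϖ2, one_mul]
  have heA3 : eA = 1 + ι2 π * t3 := by
    rw [ht3, ← mul_assoc, mul_inv_cancel₀ hϖ2, one_mul]; ring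
  obtain ⟨y3, hy3def⟩ : ∃ y3 : F2, y3 = (1 - eA) ^ 2 + ι2 π * eA := ⟨_, rfl⟩
  have hunit : ∀ (V : ValuationSubring F2), V.valuation (ι2 π) < 1 → t1 ∈ V →
      V.valuation y3 = 1 := by
    intro V hlt ht
    have hπV : ι2 π ∈ V := (V.valuation_le_one_iff _).mp hlt.le
    have e : y3 = 1 + ι2 π * (t1 * (ι2 π * t1 - 2 + ι2 π)) := by
      rw [hy3def, heA1]; ring
    rw [e]
    apply Valuation.map_one_add_of_lt
    rw [map_mul]
    have hmem : t1 * (ι2 π * t1 - 2 + ι2 π) ∈ V :=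
      V.mul_mem _ _ ht (V.add_mem _ _ (V.sub_mem (V.mul_mem _ _ hπV ht)
        (by
          have : (2 : F2) = 1 + 1 := by norm_num
          rw [this]; exact V.add_mem _ _ V.one_mem V.one_mem)) hπV)
    have hle : V.valuation (t1 * (ι2 π * t1 - 2 + ι2 π)) ≤ 1 :=
      (V.valuation_le_one_iff _).mpr hmem
    calc V.valuation (ι2 π) * V.valuation (t1 * (ι2 π * t1 - 2 + ι2 π))
        ≤ V.valuation (ι2 π) * 1 := by gcongr
      _ < 1 := by rw [mul_one]; exact hlt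
  have hy3v1 : V1.valuation y3 = 1 := hunit V1 hd1.2.1 (by rw [ht1]; exact hA1)
  have hy3v2 : V2.valuation y3 = 1 := hunit V2 hπ2lt (by rw [ht1]; exact hA2)
  have hy3v3 : V3.valuation y3 = V3.valuation (ι2 π) := by
    have hπV : ι2 π ∈ V3 := (V3.valuation_le_one_iff _).mp hd3.2.1.le
    have ht : t3 ∈ V3 := by rw [ht3]; exact hA3
    have e : y3 = ι2 π * (1 + ι2 π * (t3 + t3 ^ 2)) := by
      rw [hy3def, heA3]; ring
    rw [e, map_mul]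
    have : V3.valuation (1 + ι2 π * (t3 + t3 ^ 2)) = 1 := by
      apply Valuation.map_one_add_of_lt
      rw [map_mul]
      have hmem : t3 + t3 ^ 2 ∈ V3 := V3.add_mem _ _ ht (V3.pow_mem ht 2)
      have hle : V3.valuation (t3 + t3 ^ 2) ≤ 1 := (V3.valuation_le_one_iff _).mpr hmem
      calc V3.valuation (ι2 π) * V3.valuation (t3 + t3 ^ 2)
          ≤ V3.valuation (ι2 π) * 1 := by gcongr
        _ < 1 := by rw [mul_one]; exact hd3.2.1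
    rw [this, mul_one]
  have hy3ne : y3 ≠ 0 := by
    intro h
    rw [h, map_zero] at hy3v1
    exact zero_ne_one hy3v1
  -- apply the abstract lemma
  have hq1 : ((q - 1 : ℕ) : ℤ) = (q : ℤ) - 1 := by
    rw [Nat.cast_sub (by omega)]; simp
  obtain ⟨c0, y, f2, hc0, hy, hf2, hf2def, h1, h2, h3,
      ⟨cA, A2, hcA, hA2ne, hcAv, hA2i, hA2z, hNA⟩, ⟨cB, B2, hcB, hB2ne, hcBv, hB2i, hB2z, hNB⟩⟩ :=
    b2v1_main ι1 ι2 Nal Nbe (vs1_ord V1 (ι2 π)) (vs1_ord V2 s) (vs1_ord V3 (ι2 π))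
      (vs1_ord Vinf (ι1 π)) (vs1_ord V0 (ι1 π))
      (vs1_isVal hd1) (vs1_isVal hd2) (vs1_isVal hd3) (vs1_isVal hdinf) (vs1_isVal hd0)
      q m hm hKord π hπ (vs1_ord_self hd1)
      (vs1_ord_eq hd2 (by rw [← hq1, zpow_natCast]; exact hs2.symm))
      (vs1_ord_self hd3) (vs1_ord_self hdinf) hNalK hNbeK
      (fun y hy => vs1_ord_eq hdinf
        (hAinf y hy _ _ (vs1_ord_spec hd1 hy) (vs1_ord_spec hd2 hy)))
      (fun y hy => vs1_ord_eq hd0 (hA0 y hy _ (vs1_ord_spec hd3 hy)))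
      (fun y hy => vs1_ord_eq hdinf (hBinf y hy _ (vs1_ord_spec hd1 hy)))
      (fun y hy => vs1_ord_eq hd0
        (hB0 y hy _ _ (vs1_ord_spec hd2 hy) (vs1_ord_spec hd3 hy)))
      s y3 hs0 hy3ne
      ⟨vs1_ord_eq hd1 (by rw [hs1, zpow_zero]), vs1_ord_self hd2,
        vs1_ord_eq hd3 (by rw [hs3, zpow_zero])⟩
      ⟨vs1_ord_eq hd1 (by rw [hy3v1, zpow_zero]), vs1_ord_eq hd2 (by rw [hy3v2, zpow_zero]),
        vs1_ord_eq hd3 (by rw [hy3v3, zpow_one])⟩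
      f hf ca cb hca hcb a b ha hb hNa hNb
  have hcAinf := (vs1_ord_eq_zero_iff hdinf (hι1 cA hcA)).mp hcAv
  have hcBinf := (vs1_ord_eq_zero_iff hdinf (hι1 cB hcB)).mp hcBv
  have hcA0 := (vs1_ord_eq_zero_iff hd0 (hι1 cA hcA)).mp (by rw [← hKord cA hcA]; exact hcAv)
  have hcB0 := (vs1_ord_eq_zero_iff hd0 (hι1 cB hcB)).mp (by rw [← hKord cB hcB]; exact hcBv)
  exact ⟨c0, y, f2, hc0, hy, hf2, hf2def,
    (vs1_ord_eq_zero_iff hd1 hf2).mp h1, (vs1_ord_eq_zero_iff hd2 hf2).mp h2,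
    (vs1_ord_eq_zero_iff hd3 hf2).mp h3,
    ⟨cA, A2, hcA, hA2ne, hcAinf, hcA0, (vs1_ord_eq_zero_iff hdinf hA2ne).mp hA2i,
      (vs1_ord_eq_zero_iff hd0 hA2ne).mp hA2z, hNA⟩,
    ⟨cB, B2, hcB, hB2ne, hcBinf, hcB0, (vs1_ord_eq_zero_iff hdinf hB2ne).mp hB2i,
      (vs1_ord_eq_zero_iff hd0 hB2ne).mp hB2z, hNB⟩⟩

end Fermat.Agent.S36
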