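import Fermat.Agent.S36.NormVal41
import Fermat.Agent.S36.ValUnitSub1
import Fermat.Agent.S36.OnlyBindInert72
import Fermat.Agent.S36.AtkinLehnerSq86
import Fermat.Agent.S35.Iface62

/-!
# S36 lab (helper41), registry row 623 (B2-val-INST): the valuation inputs of `vs1_main` on the
literal level `M' q²` frame

Frame (names of row 591): `F₁ = F_K(M' q)`, `F₂ = F_K(M' q q)`, `α₂ = al97L_alpha K (M' q) q`,
`β₂ = al97L_beta K (M' q) q`, `V_∞' = cm85_Vinf (M' q)`, `V_0' = s34i47c_V0 M' q`,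
`V₁ = cm85_Vinf (M' q q)`; the valuation subrings `V₂`, `V₃` of `F₂` are PARAMETERS with the
hypotheses of `ob72_ram` / `obi72_inert`.

* `vi41_ram`   : (level `M q`, `q ∣ M`) discreteness of `V'`, `V₁`, `V₂` and
  `v'(N_α y) = v'(π) ^ (a + b)` when `v₁ y = v₁ π ^ a`, `v₂ y = v₂ s ^ b`   (`hAinf` of `vs1_main`);
* `vi41_inert` : discreteness of `V_0'`, `V₃` and `v_0'(N_α y) = v_0'(π) ^ (q c)` when
  `v₃ y = v₃ π ^ c`   (`hA0`);
* `vi41_val_zpow_iff`, `vi41_transport` : transport of `v x = v t ^ k` along a ring map;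
* `vi41_V3_eq`, `vi41_V2_stable`, `vi41_V2_w2s` : `V₃ = w₂^* V₁`, `w₂^* V₂ = V₂`,
  `v₂(w₂ s) = v₂(s)` (from the uniqueness clauses);
* `vi41_beta` : the two identities along `β₂` (`hBinf`, `hB0`), by transport along the
  Atkin–Lehner involution `als86_w2` (`N_β y = w (N_α (w₂ y))`);
* `vi41_const`, `vi41_normA_const`, `vi41_normB_const` : the hypotheses `hK`, `hNalK`, `hNbeK`;
* `vi41_main` : **`vs1_main` on the frame** with `N_α = s35i62_normA K (M' q) q`,
  `N_β = s35i62_normB K (M' q) q` (the norms of `s36i62_Core`): `f₂ = f ^ (q + 1) * c₀ * y ^ m`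
  is a unit of `V₁`, `V₂`, `V₃` whose two norms are (constant unit) * (unit of `V_∞' ⊓ V_0'`) ^ m.

All names are prefixed `vi41_`.
-/

set_option autoImplicit false
set_option linter.unusedSectionVars false
set_option linter.unusedVariables false
set_option linter.style.haveILetI false
set_option linter.style.longLine false

open ModularCurve AlgebraicCurve IntermediateField Polynomial

namespace Fermat.Agent.S36

open Fermat.Agent.S18 Fermat.Agent.S24 Fermat.Agent.S28 Fermat.Agent.S37 Fermat.Agent.S34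
open Fermat.Agent.S42 Fermat.Agent.S35

local notation "Q̄" => AlgebraicClosure ℚ

/-! ### Transport of `v x = v t ^ k` -/

/-- `v x = v t ^ k` iff `x / t ^ k` is a unit of `V`. -/
theorem vi41_val_zpow_iff {F : Type*} [Field F] (V : ValuationSubring F) (x t : F)
    (hx : x ≠ 0) (ht : t ≠ 0) (k : ℤ) :
    V.valuation x = V.valuation t ^ k ↔ (x * (t ^ k)⁻¹ ∈ V ∧ (x * (t ^ k)⁻¹)⁻¹ ∈ V) := by
  have hvt : V.valuation t ^ k ≠ 0 := zpow_ne_zero k ((Valuation.ne_zero_iff _).2 ht)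
  have hu0 : x * (t ^ k)⁻¹ ≠ 0 := mul_ne_zero hx (inv_ne_zero (zpow_ne_zero k ht))
  constructor
  · intro h
    apply nv41_mem_of_val_eq_one
    rw [map_mul, map_inv₀, map_zpow₀, h, mul_inv_cancel₀ hvt]
  · rintro ⟨h1, h2⟩
    have h3 := nv41_val_eq_one V _ hu0 h1 h2
    rw [map_mul, map_inv₀, map_zpow₀] at h3
    calc V.valuation x = V.valuation x * (V.valuation t ^ k)⁻¹ * V.valuation t ^ k := by
          rw [mul_assoc, inv_mul_cancel₀ hvt, mul_one]
      _ = V.valuation t ^ k := by rw [h3, one_mul]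

/-- Transport along a ring map `e` with `V' = e^* V`. -/
theorem vi41_transport {F F' E : Type*} [Field F] [Field F'] [FunLike E F F']
    [RingHomClass E F F'] (e : E)
    (V : ValuationSubring F') (V' : ValuationSubring F) (h : ∀ x : F, x ∈ V' ↔ e x ∈ V)
    (x t : F) (hx : x ≠ 0) (ht : t ≠ 0) (k : ℤ) :
    V'.valuation x = V'.valuation t ^ k ↔ V.valuation (e x) = V.valuation (e t) ^ k := by
  rw [vi41_val_zpow_iff V' x t hx ht k,
    vi41_val_zpow_iff V (e x) (e t) ((map_ne_zero e).2 hx) ((map_ne_zero e).2 ht) k,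
    h, h, map_inv₀, map_mul, map_inv₀, map_zpow₀]

section vi41_alpha

variable {R K : Type} [CommRing R] [IsDomain R] [IsDiscreteValuationRing R] [Field K] [CharZero K]
  [Algebra R K] [IsFractionRing R K]

set_option maxHeartbeats 1600000 in
/-- **The ramified pair over `V_∞'` along `α`** (level `M q`, `q ∣ M`): discreteness of `V'`,
`V₁`, `V₂` and the identity `hAinf` of `vs1_main`. -/
theorem vi41_ram (M q : ℕ) [NeZero M] [NeZero q] (hq : q.Prime) (hqM : q ∣ M) {π : R}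
    (hπ : Irreducible π)
    (V₂ : ValuationSubring ↥(modularFunctionFieldFullC K (M * q)))
    (hV₂ : ∀ c ∈ cm85_Vinf (K := K) M hπ, al97L_alpha K M q c ∈ V₂)
    (hπ₂ : (algebraMap K ↥(modularFunctionFieldFullC K (M * q)) (algebraMap R K π))⁻¹ ∉ V₂)
    (hne : cm85_Vinf (K := K) (M * q) hπ ≠ V₂)
    (s : ↥(modularFunctionFieldFullC K (M * q)))
    (hs : V₂.valuation s ^ (q - 1) =
      V₂.valuation (algebraMap K ↥(modularFunctionFieldFullC K (M * q)) (algebraMap R K π)))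
    (hs1 : (cm85_Vinf (K := K) (M * q) hπ).valuation s = 1) :
    vs1_Disc (cm85_Vinf (K := K) M hπ)
      (algebraMap K ↥(modularFunctionFieldFullC K M) (algebraMap R K π)) ∧
    vs1_Disc (cm85_Vinf (K := K) (M * q) hπ)
      (algebraMap K ↥(modularFunctionFieldFullC K (M * q)) (algebraMap R K π)) ∧
    vs1_Disc V₂ s ∧
    (∀ x ∈ V₂, x⁻¹ ∉ V₂ → s⁻¹ * x ∈ V₂) ∧
    (∀ V : ValuationSubring ↥(modularFunctionFieldFullC K (M * q)),
      (∀ c ∈ cm85_Vinf (K := K) M hπ, al97L_alpha K M q c ∈ V) →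
      (algebraMap K ↥(modularFunctionFieldFullC K (M * q)) (algebraMap R K π))⁻¹ ∉ V →
      V = cm85_Vinf (K := K) (M * q) hπ ∨ V = V₂) ∧
    (∀ y : ↥(modularFunctionFieldFullC K (M * q)), y ≠ 0 → ∀ a b : ℤ,
      (cm85_Vinf (K := K) (M * q) hπ).valuation y =
        (cm85_Vinf (K := K) (M * q) hπ).valuation
          (algebraMap K ↥(modularFunctionFieldFullC K (M * q)) (algebraMap R K π)) ^ a →
      V₂.valuation y = V₂.valuation s ^ b →
      (cm85_Vinf (K := K) M hπ).valuation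
          (letI := algebraAlong (al97L_alpha K M q);
            Algebra.norm ↥(modularFunctionFieldFullC K M) y) =
        (cm85_Vinf (K := K) M hπ).valuation
          (algebraMap K ↥(modularFunctionFieldFullC K M) (algebraMap R K π)) ^ (a + b)) := by
  letI alg : Algebra ↥(modularFunctionFieldFullC K M) ↥(modularFunctionFieldFullC K (M * q)) :=
    (al97L_alpha K M q).toRingHom.toAlgebra
  have hfr := ob72_finrank K M q hq hqM
  haveI : FiniteDimensional ↥(modularFunctionFieldFullC K M)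
      ↥(modularFunctionFieldFullC K (M * q)) :=
    Module.finite_of_finrank_pos (by rw [hfr]; exact hq.pos)
  have hπEF : algebraMap ↥(modularFunctionFieldFullC K M) ↥(modularFunctionFieldFullC K (M * q))
      (algebraMap K ↥(modularFunctionFieldFullC K M) (algebraMap R K π)) =
      algebraMap K ↥(modularFunctionFieldFullC K (M * q)) (algebraMap R K π) :=
    (al97L_alpha K M q).commutes _
  have hπV' : algebraMap K ↥(modularFunctionFieldFullC K M) (algebraMap R K π) ∈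
      cm85_Vinf (K := K) M hπ :=
    gv85_mem_V_of_integral _ _ _ _ (HahnSeries.C π) (by rw [gv85_coe_algebraMap, gv85_coeffMap_C])
  have hπV'' : (algebraMap K ↥(modularFunctionFieldFullC K M) (algebraMap R K π))⁻¹ ∉
      cm85_Vinf (K := K) M hπ :=
    gv85_pi_inv_not_mem (IsLocalRing.residue R) π (pk85_res_iff hπ) hπ.ne_zero _ _
  have hmax : ∀ x ∈ cm85_Vinf (K := K) M hπ, x⁻¹ ∉ cm85_Vinf (K := K) M hπ →
      (algebraMap K ↥(modularFunctionFieldFullC K M) (algebraMap R K π))⁻¹ * x ∈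
        cm85_Vinf (K := K) M hπ := fun x hx hx' =>
    gv85_hmax (IsLocalRing.residue R) π (pk85_res_iff hπ) hπ.ne_zero _ _ x hx hx'
  have harch := fs85_harch (K := K) M hπ
  have hV₁ : ∀ c ∈ cm85_Vinf (K := K) M hπ,
      algebraMap ↥(modularFunctionFieldFullC K M) ↥(modularFunctionFieldFullC K (M * q)) c ∈
        cm85_Vinf (K := K) (M * q) hπ := fun c hc =>
    (al97V_alpha_mem_Vinf M q hπ c).mpr hc
  have hπ₁ : (algebraMap ↥(modularFunctionFieldFullC K M) ↥(modularFunctionFieldFullC K (M * q))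
      (algebraMap K ↥(modularFunctionFieldFullC K M) (algebraMap R K π)))⁻¹ ∉
        cm85_Vinf (K := K) (M * q) hπ := by
    rw [hπEF]
    exact gv85_pi_inv_not_mem (IsLocalRing.residue R) π (pk85_res_iff hπ) hπ.ne_zero _ _
  have hπ₂' : (algebraMap ↥(modularFunctionFieldFullC K M) ↥(modularFunctionFieldFullC K (M * q))
      (algebraMap K ↥(modularFunctionFieldFullC K M) (algebraMap R K π)))⁻¹ ∉ V₂ := by
    rw [hπEF]; exact hπ₂
  have hs' : V₂.valuation s ^ (q - 1) = V₂.valuation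
      (algebraMap ↥(modularFunctionFieldFullC K M) ↥(modularFunctionFieldFullC K (M * q))
        (algebraMap K ↥(modularFunctionFieldFullC K M) (algebraMap R K π))) := by
    rw [hπEF]; exact hs
  have hq2 := hq.two_le
  have hfr' : Module.finrank ↥(modularFunctionFieldFullC K M)
      ↥(modularFunctionFieldFullC K (M * q)) ≤ q - 1 + 1 := by rw [hfr]; omega
  obtain ⟨h1, h2, h3, h4, -, -, hdeg⟩ := oe72_ram_main (q - 1) (by omega) hfr'
    (cm85_Vinf (K := K) M hπ) (algebraMap K ↥(modularFunctionFieldFullC K M) (algebraMap R K π))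
    hπV' hπV'' hmax harch (cm85_Vinf (K := K) (M * q) hπ) V₂ hne hV₁ hπ₁ hV₂ hπ₂' s hs'
  have harch1 := nv41_arch_up (cm85_Vinf (K := K) M hπ) _ hmax harch
    (cm85_Vinf (K := K) (M * q) hπ) hV₁ hπ₁
  have harch2P := nv41_arch_up (cm85_Vinf (K := K) M hπ) _ hmax harch V₂ hV₂ hπ₂'
  have harch2 := nv41_arch_pow _ V₂ s (q - 1) hs' harch2P
  obtain ⟨hP0, hP1⟩ := nv41_unif _ _ harch1
  obtain ⟨hs0, hs2⟩ := nv41_unif V₂ s harch2
  refine ⟨vs1_disc_of_dvr _ _ hπV' hπV'' hmax harch, ?_, ⟨hs0, hs2, nv41_dvr V₂ s h4 harch2⟩,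
    h4, fun V hV hV' => h1 V hV (by rw [hπEF]; exact hV'), ?_⟩
  · have hd := nv41_dvr _ _ h3 harch1
    rw [hπEF] at hd hP0 hP1
    exact ⟨hP0, hP1, hd⟩
  · intro y hy a b ha hb
    rw [← hπEF] at ha
    exact nv41_ram (q - 1) (by omega) hdeg (cm85_Vinf (K := K) M hπ) _ hmax harch
      (cm85_Vinf (K := K) (M * q) hπ) V₂ hV₁ hπ₁ hV₂ hπ₂' h2 s hs' hs1 y a b ha hb

end vi41_alpha

section vi41_sq

variable {R K : Type} [CommRing R] [IsDomain R] [IsDiscreteValuationRing R] [Field K] [CharZero K]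
  [Algebra R K] [IsFractionRing R K] [Algebra K Q̄] (M' q : ℕ) [NeZero M'] [NeZero q]

set_option maxHeartbeats 1600000 in
/-- **The inert valuation `V₃` over `V_0'` along `α₂`**: discreteness of `V_0'`, `V₃`,
uniqueness of `V₃`, and the identity `hA0` of `vs1_main`. -/
theorem vi41_inert (hq : q.Prime) (hM' : ¬ q ∣ M') {π : R} (hπ : Irreducible π)
    (V₃ : ValuationSubring ↥(modularFunctionFieldFullC K (M' * q * q)))
    (hV₃ : ∀ c ∈ s34i47c_V0 (K := K) M' q hq hM' hπ, al97L_alpha K (M' * q) q c ∈ V₃)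
    (hπ₃ : (algebraMap K ↥(modularFunctionFieldFullC K (M' * q * q)) (algebraMap R K π))⁻¹ ∉ V₃)
    (y₀ : ↥(modularFunctionFieldFullC K (M' * q * q))) (hy₀ : y₀ ∈ V₃)
    (hya : (algebraMap K ↥(modularFunctionFieldFullC K (M' * q * q)) (algebraMap R K π))⁻¹ *
      (y₀ ^ q - al97L_alpha K (M' * q) q (al97L_beta K M' q (relimc_J K M'))) ∈ V₃) :
    vs1_Disc (s34i47c_V0 (K := K) M' q hq hM' hπ)
      (algebraMap K ↥(modularFunctionFieldFullC K (M' * q)) (algebraMap R K π)) ∧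
    vs1_Disc V₃ (algebraMap K ↥(modularFunctionFieldFullC K (M' * q * q)) (algebraMap R K π)) ∧
    (∀ V : ValuationSubring ↥(modularFunctionFieldFullC K (M' * q * q)),
      (∀ c ∈ s34i47c_V0 (K := K) M' q hq hM' hπ, al97L_alpha K (M' * q) q c ∈ V) →
      (algebraMap K ↥(modularFunctionFieldFullC K (M' * q * q)) (algebraMap R K π))⁻¹ ∉ V →
      V = V₃) ∧
    (∀ y : ↥(modularFunctionFieldFullC K (M' * q * q)), y ≠ 0 → ∀ c : ℤ,
      V₃.valuation y = V₃.valuation
          (algebraMap K ↥(modularFunctionFieldFullC K (M' * q * q)) (algebraMap R K π)) ^ c →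
      (s34i47c_V0 (K := K) M' q hq hM' hπ).valuation
          (letI := algebraAlong (al97L_alpha K (M' * q) q);
            Algebra.norm ↥(modularFunctionFieldFullC K (M' * q)) y) =
        (s34i47c_V0 (K := K) M' q hq hM' hπ).valuation
          (algebraMap K ↥(modularFunctionFieldFullC K (M' * q)) (algebraMap R K π)) ^
            ((q : ℤ) * c)) := by
  letI alg : Algebra ↥(modularFunctionFieldFullC K (M' * q))
      ↥(modularFunctionFieldFullC K (M' * q * q)) :=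
    (al97L_alpha K (M' * q) q).toRingHom.toAlgebra
  have hfr := ob72_finrank K (M' * q) q hq (dvd_mul_left q M')
  haveI : FiniteDimensional ↥(modularFunctionFieldFullC K (M' * q))
      ↥(modularFunctionFieldFullC K (M' * q * q)) :=
    Module.finite_of_finrank_pos (by rw [hfr]; exact hq.pos)
  have hπEF : algebraMap ↥(modularFunctionFieldFullC K (M' * q))
      ↥(modularFunctionFieldFullC K (M' * q * q))
      (algebraMap K ↥(modularFunctionFieldFullC K (M' * q)) (algebraMap R K π)) =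
      algebraMap K ↥(modularFunctionFieldFullC K (M' * q * q)) (algebraMap R K π) :=
    (al97L_alpha K (M' * q) q).commutes _
  obtain ⟨d1, d2, d3, d4⟩ := obi72_V0_dvr (K := K) M' q hq hM' hπ
  obtain ⟨h1, h2, h3, -⟩ := obi72_inert M' q hq hM' hπ V₃ hV₃ hπ₃ y₀ hy₀ hya
  have hπ₃' : (algebraMap ↥(modularFunctionFieldFullC K (M' * q))
      ↥(modularFunctionFieldFullC K (M' * q * q))
      (algebraMap K ↥(modularFunctionFieldFullC K (M' * q)) (algebraMap R K π)))⁻¹ ∉ V₃ := by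
    rw [hπEF]; exact hπ₃
  have harch3 := nv41_arch_up (s34i47c_V0 (K := K) M' q hq hM' hπ) _ d3 d4 V₃ hV₃ hπ₃'
  obtain ⟨hP0, hP1⟩ := nv41_unif _ _ harch3
  have hd0 := vs1_disc_of_dvr _ _ d1 d2 d3 d4
  refine ⟨hd0, ?_, h1, ?_⟩
  · have h3' : ∀ x ∈ V₃, x⁻¹ ∉ V₃ → (algebraMap ↥(modularFunctionFieldFullC K (M' * q))
        ↥(modularFunctionFieldFullC K (M' * q * q))
        (algebraMap K ↥(modularFunctionFieldFullC K (M' * q)) (algebraMap R K π)))⁻¹ * x ∈ V₃ := by
      rw [hπEF]; exact h3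
    have hd := nv41_dvr _ _ h3' harch3
    rw [hπEF] at hd hP0 hP1
    exact ⟨hP0, hP1, hd⟩
  · intro y hy c hc
    rw [← hπEF] at hc
    exact nv41_inert q hfr (s34i47c_V0 (K := K) M' q hq hM' hπ) _ hd0.1 V₃ h2 y c hc

/-- **`V₃ = w₂^* V₁`**: the unique valuation subring over `V_0'` along `α₂` is the transform of
the Gauss ring under the Atkin–Lehner involution of level `q²`. -/
theorem vi41_V3_eq (hq : q.Prime) (hM' : ¬ q ∣ M') {π : R} (hπ : Irreducible π)
    (V₃ : ValuationSubring ↥(modularFunctionFieldFullC K (M' * q * q)))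
    (hV₃ : ∀ c ∈ s34i47c_V0 (K := K) M' q hq hM' hπ, al97L_alpha K (M' * q) q c ∈ V₃)
    (hπ₃ : (algebraMap K ↥(modularFunctionFieldFullC K (M' * q * q)) (algebraMap R K π))⁻¹ ∉ V₃)
    (y₀ : ↥(modularFunctionFieldFullC K (M' * q * q))) (hy₀ : y₀ ∈ V₃)
    (hya : (algebraMap K ↥(modularFunctionFieldFullC K (M' * q * q)) (algebraMap R K π))⁻¹ *
      (y₀ ^ q - al97L_alpha K (M' * q) q (al97L_beta K M' q (relimc_J K M'))) ∈ V₃)
    (hL : ((M' * q * q : ℕ) : K) ≠ 0) (x : ↥(modularFunctionFieldFullC K (M' * q * q))) :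
    x ∈ V₃ ↔ als86_w2 (algebraMap K Q̄) M' q hq hM' hL x ∈
      cm85_Vinf (K := K) (M' * q * q) hπ := by
  obtain ⟨h1, -, -, -⟩ := obi72_inert M' q hq hM' hπ V₃ hV₃ hπ₃ y₀ hy₀ hya
  have hc := h1 ((cm85_Vinf (K := K) (M' * q * q) hπ).comap
    ((als86_w2 (algebraMap K Q̄) M' q hq hM' hL :
        ↥(modularFunctionFieldFullC K (M' * q * q)) ≃ₐ[K]
          ↥(modularFunctionFieldFullC K (M' * q * q))) :
      ↥(modularFunctionFieldFullC K (M' * q * q)) →+*
        ↥(modularFunctionFieldFullC K (M' * q * q)))) ?_ ?_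
  · rw [← hc]
    exact Iff.rfl
  · intro c hc
    change als86_w2 (algebraMap K Q̄) M' q hq hM' hL (al97L_alpha K (M' * q) q c) ∈
      cm85_Vinf (K := K) (M' * q * q) hπ
    rw [als86_w2_alpha]
    exact (al97V_beta_mem_Vinf (M' * q) q hπ _).mpr ((s34i47c_mem_V0 M' q hq hM' hπ c).mp hc)
  · change als86_w2 (algebraMap K Q̄) M' q hq hM' hL
        (algebraMap K ↥(modularFunctionFieldFullC K (M' * q * q)) (algebraMap R K π))⁻¹ ∉
      cm85_Vinf (K := K) (M' * q * q) hπ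
    rw [map_inv₀, AlgEquiv.commutes]
    exact gv85_pi_inv_not_mem (IsLocalRing.residue R) π (pk85_res_iff hπ) hπ.ne_zero _ _

set_option maxHeartbeats 1600000 in
/-- **`w₂^* V₂ = V₂`**: the ramified valuation is stable under the Atkin–Lehner involution of
level `q²` (it is the only valuation subring over `V_∞'` along `α₂` besides `V₁`, and
`w₂^* V₁ = V₃ ≠ V₂`). -/
theorem vi41_V2_stable (hq : q.Prime) (hM' : ¬ q ∣ M') {π : R} (hπ : Irreducible π)
    (V₂ : ValuationSubring ↥(modularFunctionFieldFullC K (M' * q * q)))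
    (hV₂ : ∀ c ∈ cm85_Vinf (K := K) (M' * q) hπ, al97L_alpha K (M' * q) q c ∈ V₂)
    (hπ₂ : (algebraMap K ↥(modularFunctionFieldFullC K (M' * q * q)) (algebraMap R K π))⁻¹ ∉ V₂)
    (hne : cm85_Vinf (K := K) (M' * q * q) hπ ≠ V₂)
    (s : ↥(modularFunctionFieldFullC K (M' * q * q)))
    (hs : V₂.valuation s ^ (q - 1) =
      V₂.valuation (algebraMap K ↥(modularFunctionFieldFullC K (M' * q * q)) (algebraMap R K π)))
    (hs1 : (cm85_Vinf (K := K) (M' * q * q) hπ).valuation s = 1)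
    (hV₂β : ∀ c ∈ s34i47c_V0 (K := K) M' q hq hM' hπ, al97L_beta K (M' * q) q c ∈ V₂)
    (V₃ : ValuationSubring ↥(modularFunctionFieldFullC K (M' * q * q)))
    (hV₃ : ∀ c ∈ s34i47c_V0 (K := K) M' q hq hM' hπ, al97L_alpha K (M' * q) q c ∈ V₃)
    (hπ₃ : (algebraMap K ↥(modularFunctionFieldFullC K (M' * q * q)) (algebraMap R K π))⁻¹ ∉ V₃)
    (y₀ : ↥(modularFunctionFieldFullC K (M' * q * q))) (hy₀ : y₀ ∈ V₃)
    (hya : (algebraMap K ↥(modularFunctionFieldFullC K (M' * q * q)) (algebraMap R K π))⁻¹ *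
      (y₀ ^ q - al97L_alpha K (M' * q) q (al97L_beta K M' q (relimc_J K M'))) ∈ V₃)
    (hs3 : V₃.valuation s = 1)
    (hL : ((M' * q * q : ℕ) : K) ≠ 0) (x : ↥(modularFunctionFieldFullC K (M' * q * q))) :
    x ∈ V₂ ↔ als86_w2 (algebraMap K Q̄) M' q hq hM' hL x ∈ V₂ := by
  obtain ⟨-, -, hd2, -, huniq, -⟩ := vi41_ram (M' * q) q hq (dvd_mul_left q M') hπ V₂ hV₂ hπ₂ hne
    s hs hs1
  have hV3 := vi41_V3_eq M' q hq hM' hπ V₃ hV₃ hπ₃ y₀ hy₀ hya hL
  have hc := huniq (V₂.comap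
    ((als86_w2 (algebraMap K Q̄) M' q hq hM' hL :
        ↥(modularFunctionFieldFullC K (M' * q * q)) ≃ₐ[K]
          ↥(modularFunctionFieldFullC K (M' * q * q))) :
      ↥(modularFunctionFieldFullC K (M' * q * q)) →+*
        ↥(modularFunctionFieldFullC K (M' * q * q)))) ?_ ?_
  · rcases hc with hc | hc
    · -- impossible: then `V₂ = w₂^* V₁ = V₃`, but `s` is a unit of `V₃` and not of `V₂`
      exfalso
      have hmem : ∀ z : ↥(modularFunctionFieldFullC K (M' * q * q)),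
          als86_w2 (algebraMap K Q̄) M' q hq hM' hL z ∈ V₂ ↔
            z ∈ cm85_Vinf (K := K) (M' * q * q) hπ := by
        intro z
        rw [← hc]
        exact Iff.rfl
      obtain ⟨hs3a, hs3b⟩ := nv41_mem_of_val_eq_one V₃ s hs3
      have e1 : s ∈ V₂ := by
        have := (hmem _).mpr ((hV3 s).mp hs3a)
        rwa [als86_w2_w2] at this
      have e2 : s⁻¹ ∈ V₂ := by
        have := (hmem _).mpr ((hV3 s⁻¹).mp hs3b)
        rwa [als86_w2_w2] at this
      have e3 := nv41_val_eq_one V₂ s hd2.1 e1 e2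
      exact absurd e3 hd2.2.1.ne
    · have hcz : x ∈ V₂.comap
          ((als86_w2 (algebraMap K Q̄) M' q hq hM' hL :
              ↥(modularFunctionFieldFullC K (M' * q * q)) ≃ₐ[K]
                ↥(modularFunctionFieldFullC K (M' * q * q))) :
            ↥(modularFunctionFieldFullC K (M' * q * q)) →+*
              ↥(modularFunctionFieldFullC K (M' * q * q))) ↔ x ∈ V₂ := by rw [hc]
      exact ⟨fun hx => hcz.mpr hx, fun hx => hcz.mp hx⟩
  · intro c hc
    change als86_w2 (algebraMap K Q̄) M' q hq hM' hL (al97L_alpha K (M' * q) q c) ∈ V₂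
    rw [als86_w2_alpha]
    refine hV₂β _ ?_
    rw [s34i47c_mem_V0, al97L_w_w]
    exact hc
  · change als86_w2 (algebraMap K Q̄) M' q hq hM' hL
        (algebraMap K ↥(modularFunctionFieldFullC K (M' * q * q)) (algebraMap R K π))⁻¹ ∉ V₂
    rw [map_inv₀, AlgEquiv.commutes]
    exact hπ₂

/-- `v₂(w₂ s) = v₂(s)`: both are uniformizers of `V₂ = w₂^* V₂`. -/
theorem vi41_V2_w2s {F E : Type*} [Field F] [FunLike E F F] [RingHomClass E F F]
    (V₂ : ValuationSubring F) (w₂ : E)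
    (hstab : ∀ x : F, x ∈ V₂ ↔ w₂ x ∈ V₂) (s : F) (hs0 : s ≠ 0) (hslt : V₂.valuation s < 1)
    (hunif : ∀ x ∈ V₂, x⁻¹ ∉ V₂ → s⁻¹ * x ∈ V₂) (hinv : ∀ x : F, w₂ (w₂ x) = x) :
    V₂.valuation (w₂ s) = V₂.valuation s := by
  have hsV : s ∈ V₂ := (V₂.valuation_le_one_iff s).1 hslt.le
  have hsi : s⁻¹ ∉ V₂ := fun h => absurd (nv41_val_eq_one V₂ s hs0 hsV h) hslt.ne
  have h1 : w₂ s ∈ V₂ := (hstab s).mp hsV
  have h2 : (w₂ s)⁻¹ ∉ V₂ := by
    rw [← map_inv₀]
    exact fun h => hsi ((hstab _).mpr h)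
  have h3 : s⁻¹ * w₂ s ∈ V₂ := hunif _ h1 h2
  have h4 : (s⁻¹ * w₂ s)⁻¹ ∈ V₂ := by
    have h5 := (hstab _).mp h3
    rw [map_mul, map_inv₀, hinv] at h5
    rw [mul_inv, inv_inv, mul_comm]
    exact h5
  have hw0 : w₂ s ≠ 0 := (map_ne_zero w₂).2 hs0
  have h6 := nv41_val_eq_one V₂ _ (mul_ne_zero (inv_ne_zero hs0) hw0) h3 h4
  rw [map_mul, map_inv₀] at h6
  have hvs0 : V₂.valuation s ≠ 0 := (Valuation.ne_zero_iff _).2 hs0
  calc V₂.valuation (w₂ s) = V₂.valuation s * ((V₂.valuation s)⁻¹ * V₂.valuation (w₂ s)) := by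
        rw [← mul_assoc, mul_inv_cancel₀ hvs0, one_mul]
    _ = V₂.valuation s := by rw [h6, mul_one]

set_option maxHeartbeats 1600000 in
/-- **The two identities along `β₂`** (`hBinf`, `hB0` of `vs1_main`), by transport along the
Atkin–Lehner involutions: `N_β y = w (N_α (w₂ y))`, `V_0' = w^* V_∞'`, `V₃ = w₂^* V₁`,
`w₂^* V₂ = V₂`. -/
theorem vi41_beta (hq : q.Prime) (hM' : ¬ q ∣ M') {π : R} (hπ : Irreducible π)
    (V₂ : ValuationSubring ↥(modularFunctionFieldFullC K (M' * q * q)))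
    (hV₂ : ∀ c ∈ cm85_Vinf (K := K) (M' * q) hπ, al97L_alpha K (M' * q) q c ∈ V₂)
    (hπ₂ : (algebraMap K ↥(modularFunctionFieldFullC K (M' * q * q)) (algebraMap R K π))⁻¹ ∉ V₂)
    (hne : cm85_Vinf (K := K) (M' * q * q) hπ ≠ V₂)
    (s : ↥(modularFunctionFieldFullC K (M' * q * q)))
    (hs : V₂.valuation s ^ (q - 1) =
      V₂.valuation (algebraMap K ↥(modularFunctionFieldFullC K (M' * q * q)) (algebraMap R K π)))
    (hs1 : (cm85_Vinf (K := K) (M' * q * q) hπ).valuation s = 1)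
    (hV₂β : ∀ c ∈ s34i47c_V0 (K := K) M' q hq hM' hπ, al97L_beta K (M' * q) q c ∈ V₂)
    (V₃ : ValuationSubring ↥(modularFunctionFieldFullC K (M' * q * q)))
    (hV₃ : ∀ c ∈ s34i47c_V0 (K := K) M' q hq hM' hπ, al97L_alpha K (M' * q) q c ∈ V₃)
    (hπ₃ : (algebraMap K ↥(modularFunctionFieldFullC K (M' * q * q)) (algebraMap R K π))⁻¹ ∉ V₃)
    (y₀ : ↥(modularFunctionFieldFullC K (M' * q * q))) (hy₀ : y₀ ∈ V₃)
    (hya : (algebraMap K ↥(modularFunctionFieldFullC K (M' * q * q)) (algebraMap R K π))⁻¹ *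
      (y₀ ^ q - al97L_alpha K (M' * q) q (al97L_beta K M' q (relimc_J K M'))) ∈ V₃)
    (hs3 : V₃.valuation s = 1) :
    (∀ y : ↥(modularFunctionFieldFullC K (M' * q * q)), y ≠ 0 → ∀ a : ℤ,
      (cm85_Vinf (K := K) (M' * q * q) hπ).valuation y =
        (cm85_Vinf (K := K) (M' * q * q) hπ).valuation
          (algebraMap K ↥(modularFunctionFieldFullC K (M' * q * q)) (algebraMap R K π)) ^ a →
      (cm85_Vinf (K := K) (M' * q) hπ).valuation
          (letI := algebraAlong (al97L_beta K (M' * q) q);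
            Algebra.norm ↥(modularFunctionFieldFullC K (M' * q)) y) =
        (cm85_Vinf (K := K) (M' * q) hπ).valuation
          (algebraMap K ↥(modularFunctionFieldFullC K (M' * q)) (algebraMap R K π)) ^
            ((q : ℤ) * a)) ∧
    (∀ y : ↥(modularFunctionFieldFullC K (M' * q * q)), y ≠ 0 → ∀ b c : ℤ,
      V₂.valuation y = V₂.valuation s ^ b →
      V₃.valuation y = V₃.valuation
          (algebraMap K ↥(modularFunctionFieldFullC K (M' * q * q)) (algebraMap R K π)) ^ c →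
      (s34i47c_V0 (K := K) M' q hq hM' hπ).valuation
          (letI := algebraAlong (al97L_beta K (M' * q) q);
            Algebra.norm ↥(modularFunctionFieldFullC K (M' * q)) y) =
        (s34i47c_V0 (K := K) M' q hq hM' hπ).valuation
          (algebraMap K ↥(modularFunctionFieldFullC K (M' * q)) (algebraMap R K π)) ^ (b + c)) := by
  have hL : ((M' * q * q : ℕ) : K) ≠ 0 := Nat.cast_ne_zero.mpr (NeZero.ne _)
  obtain ⟨hdinf, hd1, hd2, hunif2, -, hAinf⟩ := vi41_ram (M' * q) q hq (dvd_mul_left q M') hπ V₂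
    hV₂ hπ₂ hne s hs hs1
  obtain ⟨hd0, hd3, -, hA0⟩ := vi41_inert M' q hq hM' hπ V₃ hV₃ hπ₃ y₀ hy₀ hya
  have hV3 := vi41_V3_eq M' q hq hM' hπ V₃ hV₃ hπ₃ y₀ hy₀ hya hL
  have hV2 := vi41_V2_stable M' q hq hM' hπ V₂ hV₂ hπ₂ hne s hs hs1 hV₂β V₃ hV₃ hπ₃ y₀ hy₀ hya
    hs3 hL
  have hw2w2 := als86_w2_w2 (algebraMap K Q̄) M' q hq hM' hL
  have hNβ := als86_norm_beta (algebraMap K Q̄) M' q hq hM' hL
  have hV0 := s34i47c_mem_V0 (K := K) M' q hq hM' hπ
  constructor
  · intro y hy a ha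
    have hw2y : als86_w2 (algebraMap K Q̄) M' q hq hM' hL y ≠ 0 :=
      (map_ne_zero (als86_w2 (algebraMap K Q̄) M' q hq hM' hL)).2 hy
    have h3a := (vi41_transport (als86_w2 (algebraMap K Q̄) M' q hq hM' hL)
      (cm85_Vinf (K := K) (M' * q * q) hπ) V₃ hV3 _ _ hw2y hd1.1 a).mpr
      (by rw [hw2w2, AlgEquiv.commutes]; exact ha)
    have hA := hA0 _ hw2y a h3a
    have hN0 : (letI := algebraAlong (al97L_alpha K (M' * q) q);
        Algebra.norm ↥(modularFunctionFieldFullC K (M' * q))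
          (als86_w2 (algebraMap K Q̄) M' q hq hM' hL y)) ≠ 0 := by
      intro h0
      rw [h0, map_zero] at hA
      exact (zpow_ne_zero _ ((Valuation.ne_zero_iff _).2 hd0.1)) hA.symm
    have hT := (vi41_transport (al97L_w (algebraMap K Q̄) M' q hq hM')
      (cm85_Vinf (K := K) (M' * q) hπ) (s34i47c_V0 (K := K) M' q hq hM' hπ) hV0 _ _ hN0 hd0.1
      ((q : ℤ) * a)).mp hA
    rw [AlgEquiv.commutes] at hT
    rw [hNβ]
    exact hT
  · intro y hy b c hb hc
    have hw2y : als86_w2 (algebraMap K Q̄) M' q hq hM' hL y ≠ 0 :=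
      (map_ne_zero (als86_w2 (algebraMap K Q̄) M' q hq hM' hL)).2 hy
    have h1c := (vi41_transport (als86_w2 (algebraMap K Q̄) M' q hq hM' hL)
      (cm85_Vinf (K := K) (M' * q * q) hπ) V₃ hV3 _ _ hy hd3.1 c).mp hc
    rw [AlgEquiv.commutes] at h1c
    have h2b := (vi41_transport (als86_w2 (algebraMap K Q̄) M' q hq hM' hL) V₂ V₂ hV2 _ _ hy
      hd2.1 b).mp hb
    rw [vi41_V2_w2s V₂ (als86_w2 (algebraMap K Q̄) M' q hq hM' hL) hV2 s hd2.1 hd2.2.1 hunif2
      hw2w2] at h2b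
    have hA := hAinf _ hw2y c b h1c h2b
    have hN0 : (letI := algebraAlong (al97L_alpha K (M' * q) q);
        Algebra.norm ↥(modularFunctionFieldFullC K (M' * q))
          (als86_w2 (algebraMap K Q̄) M' q hq hM' hL y)) ≠ 0 := by
      intro h0
      rw [h0, map_zero] at hA
      exact (zpow_ne_zero _ ((Valuation.ne_zero_iff _).2 hdinf.1)) hA.symm
    have hwN0 : al97L_w (algebraMap K Q̄) M' q hq hM'
        (letI := algebraAlong (al97L_alpha K (M' * q) q);
          Algebra.norm ↥(modularFunctionFieldFullC K (M' * q))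
            (als86_w2 (algebraMap K Q̄) M' q hq hM' hL y)) ≠ 0 :=
      (map_ne_zero (al97L_w (algebraMap K Q̄) M' q hq hM')).2 hN0
    have hT := (vi41_transport (al97L_w (algebraMap K Q̄) M' q hq hM')
      (cm85_Vinf (K := K) (M' * q) hπ) (s34i47c_V0 (K := K) M' q hq hM' hπ) hV0 _ _ hwN0 hd0.1
      (c + b)).mpr (by rw [al97L_w_w, AlgEquiv.commutes]; exact hA)
    rw [hNβ, add_comm b c]
    exact hT

/-- `hK` of `vs1_main`: constants lie in `V_∞'` iff they lie in `V_0'`. -/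
theorem vi41_const (hq : q.Prime) (hM' : ¬ q ∣ M') {π : R} (hπ : Irreducible π) (c : K) :
    algebraMap K ↥(modularFunctionFieldFullC K (M' * q)) c ∈ cm85_Vinf (K := K) (M' * q) hπ ↔
      algebraMap K ↥(modularFunctionFieldFullC K (M' * q)) c ∈
        s34i47c_V0 (K := K) M' q hq hM' hπ := by
  rw [s34i47c_mem_V0, AlgEquiv.commutes]

/-- `hNalK` of `vs1_main`: `N_α c = c ^ q` on constants. -/
theorem vi41_normA_const (hq : q.Prime) (c : K) :
    s35i62_normA K (M' * q) q (algebraMap K ↥(modularFunctionFieldFullC K (M' * q * q)) c) =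
      algebraMap K ↥(modularFunctionFieldFullC K (M' * q)) (c ^ q) := by
  letI alg : Algebra ↥(modularFunctionFieldFullC K (M' * q))
      ↥(modularFunctionFieldFullC K (M' * q * q)) := algebraAlong (al97L_alpha K (M' * q) q)
  have hfr := ob72_finrank K (M' * q) q hq (dvd_mul_left q M')
  have hc : algebraMap K ↥(modularFunctionFieldFullC K (M' * q * q)) c =
      algebraMap ↥(modularFunctionFieldFullC K (M' * q)) ↥(modularFunctionFieldFullC K (M' * q * q))
        (algebraMap K ↥(modularFunctionFieldFullC K (M' * q)) c) :=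
    ((al97L_alpha K (M' * q) q).commutes c).symm
  change Algebra.norm ↥(modularFunctionFieldFullC K (M' * q))
    (algebraMap K ↥(modularFunctionFieldFullC K (M' * q * q)) c) = _
  rw [hc, Algebra.norm_algebraMap, hfr, map_pow]

/-- `hNbeK` of `vs1_main`: `N_β c = c ^ q` on constants. -/
theorem vi41_normB_const (hq : q.Prime) (hM' : ¬ q ∣ M') (c : K) :
    s35i62_normB K (M' * q) q (algebraMap K ↥(modularFunctionFieldFullC K (M' * q * q)) c) =
      algebraMap K ↥(modularFunctionFieldFullC K (M' * q)) (c ^ q) := by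
  have hL : ((M' * q * q : ℕ) : K) ≠ 0 := Nat.cast_ne_zero.mpr (NeZero.ne _)
  letI alg : Algebra ↥(modularFunctionFieldFullC K (M' * q))
      ↥(modularFunctionFieldFullC K (M' * q * q)) := algebraAlong (al97L_beta K (M' * q) q)
  have hfr := als86_finrank_beta (algebraMap K Q̄) M' q hq hM' hL
  have hc : algebraMap K ↥(modularFunctionFieldFullC K (M' * q * q)) c =
      algebraMap ↥(modularFunctionFieldFullC K (M' * q)) ↥(modularFunctionFieldFullC K (M' * q * q))
        (algebraMap K ↥(modularFunctionFieldFullC K (M' * q)) c) :=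
    ((al97L_beta K (M' * q) q).commutes c).symm
  change Algebra.norm ↥(modularFunctionFieldFullC K (M' * q))
    (algebraMap K ↥(modularFunctionFieldFullC K (M' * q * q)) c) = _
  rw [hc, Algebra.norm_algebraMap, hfr, map_pow]

set_option maxHeartbeats 1600000 in
/-- **Row B2-val on the literal frame** (`vs1_main` with all its valuation inputs discharged):
if `N_α f = ca · a ^ m` and `N_β f = cb · b ^ m`, then `f₂ = f ^ (q + 1) * c₀ * y ^ m` is a unit
of `V₁`, `V₂`, `V₃`, and `N_α f₂`, `N_β f₂` are (constant unit) * (unit of `V_∞' ⊓ V_0'`) ^ m. -/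
theorem vi41_main (hq : q.Prime) (hM' : ¬ q ∣ M') {π : R} (hπ : Irreducible π)
    (V₂ : ValuationSubring ↥(modularFunctionFieldFullC K (M' * q * q)))
    (hV₂ : ∀ c ∈ cm85_Vinf (K := K) (M' * q) hπ, al97L_alpha K (M' * q) q c ∈ V₂)
    (hπ₂ : (algebraMap K ↥(modularFunctionFieldFullC K (M' * q * q)) (algebraMap R K π))⁻¹ ∉ V₂)
    (hne : cm85_Vinf (K := K) (M' * q * q) hπ ≠ V₂)
    (s : ↥(modularFunctionFieldFullC K (M' * q * q)))
    (hs : V₂.valuation s ^ (q - 1) =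
      V₂.valuation (algebraMap K ↥(modularFunctionFieldFullC K (M' * q * q)) (algebraMap R K π)))
    (hs1 : (cm85_Vinf (K := K) (M' * q * q) hπ).valuation s = 1)
    (hV₂β : ∀ c ∈ s34i47c_V0 (K := K) M' q hq hM' hπ, al97L_beta K (M' * q) q c ∈ V₂)
    (V₃ : ValuationSubring ↥(modularFunctionFieldFullC K (M' * q * q)))
    (hV₃ : ∀ c ∈ s34i47c_V0 (K := K) M' q hq hM' hπ, al97L_alpha K (M' * q) q c ∈ V₃)
    (hπ₃ : (algebraMap K ↥(modularFunctionFieldFullC K (M' * q * q)) (algebraMap R K π))⁻¹ ∉ V₃)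
    (y₀ : ↥(modularFunctionFieldFullC K (M' * q * q))) (hy₀ : y₀ ∈ V₃)
    (hya : (algebraMap K ↥(modularFunctionFieldFullC K (M' * q * q)) (algebraMap R K π))⁻¹ *
      (y₀ ^ q - al97L_alpha K (M' * q) q (al97L_beta K M' q (relimc_J K M'))) ∈ V₃)
    (hs3 : V₃.valuation s = 1)
    (eA : ↥(modularFunctionFieldFullC K (M' * q * q)))
    (hA1 : (algebraMap K ↥(modularFunctionFieldFullC K (M' * q * q)) (algebraMap R K π))⁻¹ * eA ∈
      cm85_Vinf (K := K) (M' * q * q) hπ)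
    (hA2 : (algebraMap K ↥(modularFunctionFieldFullC K (M' * q * q)) (algebraMap R K π))⁻¹ * eA ∈
      V₂)
    (hA3 : (algebraMap K ↥(modularFunctionFieldFullC K (M' * q * q)) (algebraMap R K π))⁻¹ *
      (eA - 1) ∈ V₃)
    (m : ℕ) (hm : 0 < m)
    (f : ↥(modularFunctionFieldFullC K (M' * q * q))) (hf : f ≠ 0) (ca cb : K) (hca : ca ≠ 0)
    (hcb : cb ≠ 0) (a b : ↥(modularFunctionFieldFullC K (M' * q))) (ha : a ≠ 0) (hb : b ≠ 0)
    (hNa : s35i62_normA K (M' * q) q f =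
      algebraMap K ↥(modularFunctionFieldFullC K (M' * q)) ca * a ^ m)
    (hNb : s35i62_normB K (M' * q) q f =
      algebraMap K ↥(modularFunctionFieldFullC K (M' * q)) cb * b ^ m) :
    ∃ (c0 : K) (y f2 : ↥(modularFunctionFieldFullC K (M' * q * q))), c0 ≠ 0 ∧ y ≠ 0 ∧ f2 ≠ 0 ∧
      f2 = f ^ (q + 1) * algebraMap K ↥(modularFunctionFieldFullC K (M' * q * q)) c0 * y ^ m ∧
      (f2 ∈ cm85_Vinf (K := K) (M' * q * q) hπ ∧ f2⁻¹ ∈ cm85_Vinf (K := K) (M' * q * q) hπ) ∧
      (f2 ∈ V₂ ∧ f2⁻¹ ∈ V₂) ∧ (f2 ∈ V₃ ∧ f2⁻¹ ∈ V₃) ∧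
      (∃ (cA : K) (A2 : ↥(modularFunctionFieldFullC K (M' * q))), cA ≠ 0 ∧ A2 ≠ 0 ∧
        (algebraMap K ↥(modularFunctionFieldFullC K (M' * q)) cA ∈
            cm85_Vinf (K := K) (M' * q) hπ ∧
          (algebraMap K ↥(modularFunctionFieldFullC K (M' * q)) cA)⁻¹ ∈
            cm85_Vinf (K := K) (M' * q) hπ) ∧
        (algebraMap K ↥(modularFunctionFieldFullC K (M' * q)) cA ∈
            s34i47c_V0 (K := K) M' q hq hM' hπ ∧
          (algebraMap K ↥(modularFunctionFieldFullC K (M' * q)) cA)⁻¹ ∈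
            s34i47c_V0 (K := K) M' q hq hM' hπ) ∧
        (A2 ∈ cm85_Vinf (K := K) (M' * q) hπ ∧ A2⁻¹ ∈ cm85_Vinf (K := K) (M' * q) hπ) ∧
        (A2 ∈ s34i47c_V0 (K := K) M' q hq hM' hπ ∧
          A2⁻¹ ∈ s34i47c_V0 (K := K) M' q hq hM' hπ) ∧
        s35i62_normA K (M' * q) q f2 =
          algebraMap K ↥(modularFunctionFieldFullC K (M' * q)) cA * A2 ^ m) ∧
      (∃ (cB : K) (B2 : ↥(modularFunctionFieldFullC K (M' * q))), cB ≠ 0 ∧ B2 ≠ 0 ∧
        (algebraMap K ↥(modularFunctionFieldFullC K (M' * q)) cB ∈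
            cm85_Vinf (K := K) (M' * q) hπ ∧
          (algebraMap K ↥(modularFunctionFieldFullC K (M' * q)) cB)⁻¹ ∈
            cm85_Vinf (K := K) (M' * q) hπ) ∧
        (algebraMap K ↥(modularFunctionFieldFullC K (M' * q)) cB ∈
            s34i47c_V0 (K := K) M' q hq hM' hπ ∧
          (algebraMap K ↥(modularFunctionFieldFullC K (M' * q)) cB)⁻¹ ∈
            s34i47c_V0 (K := K) M' q hq hM' hπ) ∧
        (B2 ∈ cm85_Vinf (K := K) (M' * q) hπ ∧ B2⁻¹ ∈ cm85_Vinf (K := K) (M' * q) hπ) ∧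
        (B2 ∈ s34i47c_V0 (K := K) M' q hq hM' hπ ∧
          B2⁻¹ ∈ s34i47c_V0 (K := K) M' q hq hM' hπ) ∧
        s35i62_normB K (M' * q) q f2 =
          algebraMap K ↥(modularFunctionFieldFullC K (M' * q)) cB * B2 ^ m) := by
  obtain ⟨hdinf, hd1, hd2, -, -, hAinf⟩ := vi41_ram (M' * q) q hq (dvd_mul_left q M') hπ V₂
    hV₂ hπ₂ hne s hs hs1
  obtain ⟨hd0, hd3, -, hA0⟩ := vi41_inert M' q hq hM' hπ V₃ hV₃ hπ₃ y₀ hy₀ hya
  obtain ⟨hBinf, hB0⟩ := vi41_beta M' q hq hM' hπ V₂ hV₂ hπ₂ hne s hs hs1 hV₂β V₃ hV₃ hπ₃ y₀ hy₀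
    hya hs3
  exact vs1_main (algebraMap K ↥(modularFunctionFieldFullC K (M' * q)))
    (algebraMap K ↥(modularFunctionFieldFullC K (M' * q * q)))
    (s35i62_normA K (M' * q) q) (s35i62_normB K (M' * q) q)
    (cm85_Vinf (K := K) (M' * q * q) hπ) V₂ V₃ (cm85_Vinf (K := K) (M' * q) hπ)
    (s34i47c_V0 (K := K) M' q hq hM' hπ) q m hq.two_le hm (algebraMap R K π) s
    hd1 hd2 hd3 hdinf hd0 hs hs1 hs3 eA hA1 hA2 hA3
    (vi41_const M' q hq hM' hπ) (vi41_normA_const M' q hq) (vi41_normB_const M' q hq hM')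
    hAinf hA0 hBinf hB0 f hf ca cb hca hcb a b ha hb hNa hNb

end vi41_sq

end Fermat.Agent.S36
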