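import Mathlib
import Fermat.Agent.S36.CoreHP1b_84
import Fermat.Agent.S36.TwoGenCanon71
import Fermat.Agent.S36.FrameDatum85
import Fermat.Agent.S36.ValInst41
import Fermat.Agent.S36.ValUnitCanon1
import Fermat.Agent.S34.Krull65
import Fermat.Agent.S34.CoreAsm57
import Fermat.Agent.S18.ConstExtModular25

/-!
# S36 lab, row 605 (HP-1), helper84: the CANONICAL INSTANCE of `cp57_HP1`

The package `cp57_HP1` (CorePoints57; conjuncts (3), (4) of `cf57_Six`, CoreFinal57) on the canonical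
frame of level `M' q q`:
`V₁ = cm85_Vinf (M' q q)`, `V₂` a parameter with the three frame facts `hV₂ hπ₂ hs`
(`cf57_IsMid`), `V₃ = nsb86_V3`, `Vinf = cm85_Vinf (M' q)`, `V0 = s34i47c_V0`, middle uniformiser
`σ = v2g64_s K M' q`, charts `pk15_chart R {h}`, `pk15_chart R {h⁻¹}` of the Hauptmodul
`h = pk85_h2 / pk85_h3` of level `M' q q`.

Every frame hypothesis of `hp84_HP1_one` (CoreHP1b_84) is discharged from main; the ONLY remaining
hypothesis is `hD₂` = the divisor of the middle branch at the closed points lying on the middle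
branch only (rows 600/601), in the literal shape of clause (2) of `tg71_Out` (TwoGenCanon71).

* `hp84c_unif`   : a discrete valuation subring (`vs1_Disc V ϖ`): `v x < 1 → ϖ⁻¹ x ∈ V`;
* `hp84c_ne`     : `V₁ ≠ V₂` from `hs`, `hπ₂`;
* `hp84c_core`   : `cp57_HP1` for a chart `B` with its frame facts;
* `hp84c_level2`, `hp84c_level3` : both charts of the Hauptmodul, general uniformiser `π`;
* `hp84c_final2`, `hp84c_final3` : the same in the literal binder shape of `cf57_result`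
  (`π = (q : R)`, `m = p ^ n`, only the level-`M' q q` algebra instance).

All names are prefixed `hp84c_`.
-/

set_option autoImplicit false
set_option linter.unusedSectionVars false
set_option linter.unusedVariables false
set_option linter.style.haveILetI false
set_option linter.style.longLine false

open ModularCurve

namespace Fermat.Agent.S36

open Fermat.Agent.S18 Fermat.Agent.S24 Fermat.Agent.S34 Fermat.Agent.S35
open Fermat.Agent.S36.TripleLoc71

local notation "Q̄" => AlgebraicClosure ℚ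

/-- In a discrete valuation subring with uniformiser `ϖ` (`vs1_Disc`), an element of valuation
`< 1` is divisible by `ϖ`. -/
theorem hp84c_unif {F : Type*} [Field F] (V : ValuationSubring F) (ϖ : F) (hd : vs1_Disc V ϖ)
    (x : F) (hx : V.valuation x < 1) : ϖ⁻¹ * x ∈ V := by
  by_cases hx0 : x = 0
  · rw [hx0, mul_zero]; exact V.zero_mem
  obtain ⟨hϖ0, hϖ1, hall⟩ := hd
  obtain ⟨k, hk⟩ := hall x hx0
  have hv0 : V.valuation ϖ ≠ 0 := (map_ne_zero V.valuation).mpr hϖ0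
  have hk1 : 1 ≤ k := by
    by_contra hcon
    obtain ⟨n, rfl⟩ : ∃ n : ℕ, k = -(n : ℤ) := ⟨(-k).toNat, by omega⟩
    rw [zpow_neg, zpow_natCast] at hk
    have h1 : V.valuation ϖ ^ n ≤ 1 := pow_le_one₀ zero_le hϖ1.le
    have h2 : 1 ≤ (V.valuation ϖ ^ n)⁻¹ :=
      (one_le_inv₀ (zero_lt_iff.mpr (pow_ne_zero _ hv0))).mpr h1
    rw [hk] at hx
    exact absurd h2 (not_le.mpr hx)
  obtain ⟨n, rfl⟩ : ∃ n : ℕ, k = (n : ℤ) + 1 := ⟨(k - 1).toNat, by omega⟩
  rw [← ValuationSubring.valuation_le_one_iff, map_mul, map_inv₀, hk, zpow_add_one₀ hv0,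
    zpow_natCast, mul_comm, mul_assoc, mul_inv_cancel₀ hv0, mul_one]
  exact pow_le_one₀ zero_le hϖ1.le

section HP84C

variable {R K : Type} [CommRing R] [IsDomain R] [IsDiscreteValuationRing R] [Field K]
  [NumberField K] [Algebra R K] [IsFractionRing R K] [Algebra K Q̄] [Algebra.IsAlgebraic K Q̄]
  (M' q : ℕ) [NeZero M'] [NeZero q] (hq : q.Prime) (hM' : ¬ q ∣ M')
  {π : R} (hπ : Irreducible π)
  [Algebra R ↥(modularFunctionFieldFullC K M')]
  [IsScalarTower R K ↥(modularFunctionFieldFullC K M')]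
  [Algebra R ↥(modularFunctionFieldFullC K (M' * q))]
  [IsScalarTower R K ↥(modularFunctionFieldFullC K (M' * q))]
  [Algebra R ↥(modularFunctionFieldFullC K (M' * q * q))]
  [IsScalarTower R K ↥(modularFunctionFieldFullC K (M' * q * q))]

include hq in
/-- `V₁ ≠ V₂`: `s = v2g64_s` is a unit of `V₁` and a non-unit of `V₂`. -/
theorem hp84c_ne
    (V₂ : ValuationSubring ↥(modularFunctionFieldFullC K (M' * q * q)))
    (hπ₂ : (algebraMap K ↥(modularFunctionFieldFullC K (M' * q * q)) (algebraMap R K π))⁻¹ ∉ V₂)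
    (hs : V₂.valuation (v2g64_s K M' q) ^ (q - 1) =
      V₂.valuation (algebraMap K ↥(modularFunctionFieldFullC K (M' * q * q)) (algebraMap R K π))) :
    cm85_Vinf (K := K) (M' * q * q) hπ ≠ V₂ := by
  intro h
  have hs1 := vuc1_s_unit (K := K) M' q hq hπ
  have h1 : V₂.valuation (v2g64_s K M' q) = 1 := h ▸ hs1
  rw [h1, one_pow] at hs
  have hlt := ld84_val_unif V₂ _ hπ₂
  rw [← hs] at hlt
  exact lt_irrefl _ hlt

include hq hM' in
/-- **(HP-1) for a chart `B` of level `M' q q` with its frame facts** (`B ⊆ W = V₁ ⊓ V₂ ⊓ V₃`,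
saturation in `W`, Noetherian, fraction field, (KR), (3a) for the three branches, two generators
at the points on at most one branch). -/
theorem hp84c_core (hqR : ¬ IsUnit (q : R)) (m : ℕ) (hm : 0 < m) (hmu : IsUnit (m : R))
    (V₂ : ValuationSubring ↥(modularFunctionFieldFullC K (M' * q * q)))
    (hV₂ : ∀ c ∈ cm85_Vinf (K := K) (M' * q) hπ, al97L_alpha K (M' * q) q c ∈ V₂)
    (hπ₂ : (algebraMap K ↥(modularFunctionFieldFullC K (M' * q * q)) (algebraMap R K π))⁻¹ ∉ V₂)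
    (hs : V₂.valuation (v2g64_s K M' q) ^ (q - 1) =
      V₂.valuation (algebraMap K ↥(modularFunctionFieldFullC K (M' * q * q)) (algebraMap R K π)))
    (B : Subalgebra R ↥(modularFunctionFieldFullC K (M' * q * q))) [IsNoetherianRing B]
    (hBW : ∀ x ∈ B, x ∈ (cm85_Vinf (K := K) (M' * q * q) hπ).toSubring ⊓ V₂.toSubring ⊓
      (nsb86_V3 (K := K) M' q hq hM' hπ).toSubring)
    (hsatW : ∀ x ∈ B, (algebraMap R ↥(modularFunctionFieldFullC K (M' * q * q)) π)⁻¹ * x ∈
        (cm85_Vinf (K := K) (M' * q * q) hπ).toSubring ⊓ V₂.toSubring ⊓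
          (nsb86_V3 (K := K) M' q hq hM' hπ).toSubring →
      (algebraMap R ↥(modularFunctionFieldFullC K (M' * q * q)) π)⁻¹ * x ∈ B)
    (hfrac : ∀ t : ↥(modularFunctionFieldFullC K (M' * q * q)), ∃ a ∈ B, ∃ b ∈ B,
      b ≠ 0 ∧ t * b = a)
    (hKr : s34i47_Krull π B)
    (hS₁ : sf79_Smooth π B (cm85_Vinf (K := K) (M' * q * q) hπ).toSubring)
    (hS₂ : tl71_MidSmooth π (v2g64_s K M' q) B V₂.toSubring)
    (hS₃ : sf79_Smooth π B (nsb86_V3 (K := K) M' q hq hM' hπ).toSubring)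
    (hD₂ : ∀ n : Ideal B, n.IsMaximal → algebraMap R B π ∈ n →
      tl71_OnMid (v2g64_s K M' q) B V₂.toSubring n →
      ¬ sf79_OnBr π B (cm85_Vinf (K := K) (M' * q * q) hπ).toSubring n →
      ¬ sf79_OnBr π B (nsb86_V3 (K := K) M' q hq hM' hπ).toSubring n →
      tl71_MidDivAt π (v2g64_s K M' q) B (cm85_Vinf (K := K) (M' * q * q) hπ).toSubring
        V₂.toSubring (nsb86_V3 (K := K) M' q hq hM' hπ).toSubring n)
    (h2one : ∀ n : Ideal B, n.IsMaximal → algebraMap R B π ∈ n →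
      cp57_OneBr π B (cm85_Vinf (K := K) (M' * q * q) hπ) V₂
        (nsb86_V3 (K := K) M' q hq hM' hπ) n →
      ∃ x y : B, x ∈ n ∧ y ∈ n ∧
        ∀ v ∈ n, ∃ s : B, s ∉ n ∧ ∃ a b : B, s * v = a * x + b * y) :
    cp57_HP1 (K := K) π q m B (al97L_alpha K (M' * q) q).toRingHom
      (al97L_beta K (M' * q) q).toRingHom (s35i62_normA K (M' * q) q)
      (s35i62_normB K (M' * q) q) (cm85_Vinf (K := K) (M' * q * q) hπ) V₂
      (nsb86_V3 (K := K) M' q hq hM' hπ) (cm85_Vinf (K := K) (M' * q) hπ)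
      (s34i47c_V0 (K := K) M' q hq hM' hπ) := by
  have hne := hp84c_ne (K := K) M' q hq hπ V₂ hπ₂ hs
  have e : algebraMap R ↥(modularFunctionFieldFullC K (M' * q * q)) π =
      (algebraMap K ↥(modularFunctionFieldFullC K (M' * q * q)) (algebraMap R K π)) :=
    IsScalarTower.algebraMap_apply R K _ π
  -- the three branches: `π` is a non-unit
  have hπ₁K : (algebraMap K ↥(modularFunctionFieldFullC K (M' * q * q)) (algebraMap R K π))⁻¹ ∉
      cm85_Vinf (K := K) (M' * q * q) hπ :=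
    gv85_pi_inv_not_mem (IsLocalRing.residue R) π (pk85_res_iff hπ) hπ.ne_zero _ _
  have hπ₃K := vuc1_V3_pi (K := K) M' q hq hM' hπ
  have hπ0 : algebraMap R ↥(modularFunctionFieldFullC K (M' * q * q)) π ≠ 0 := by
    intro h0
    apply hπ₁K
    rw [← e, h0, inv_zero]
    exact (cm85_Vinf (K := K) (M' * q * q) hπ).zero_mem
  have hp0 : V₂.valuation (algebraMap R ↥(modularFunctionFieldFullC K (M' * q * q)) π) ≠ 0 :=
    (map_ne_zero V₂.valuation).mpr hπ0
  have hp1 : V₂.valuation (algebraMap R ↥(modularFunctionFieldFullC K (M' * q * q)) π) < 1 := by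
    by_contra hcon
    apply hπ₂
    rw [← e, ← ValuationSubring.valuation_le_one_iff, map_inv₀]
    exact inv_le_one_of_one_le₀ (not_lt.mp hcon)
  have hs' : V₂.valuation (v2g64_s K M' q) ^ (q - 1) =
      V₂.valuation (algebraMap R ↥(modularFunctionFieldFullC K (M' * q * q)) π) := by
    rw [e]
    exact hs
  obtain ⟨ha0, -, ha2⟩ := sm7_aux_val (V₂.valuation (v2g64_s K M' q))
    (V₂.valuation (algebraMap R ↥(modularFunctionFieldFullC K (M' * q * q)) π)) q hq.two_le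
    hp0 hp1 hs'
  have hσ0 : (v2g64_s K M' q) ≠ 0 := fun h => ha0 (by rw [h, map_zero])
  have hσe : (algebraMap R ↥(modularFunctionFieldFullC K (M' * q * q)) π)⁻¹ *
      (v2g64_s K M' q) ^ (q - 1) ∈ V₂ := by
    rw [← ValuationSubring.valuation_le_one_iff, map_mul, map_inv₀, map_pow, hs',
      inv_mul_cancel₀ hp0]
  -- rad and archimedean
  have hV₁ : ∀ c ∈ cm85_Vinf (K := K) (M' * q) hπ,
      al97L_alpha K (M' * q) q c ∈ cm85_Vinf (K := K) (M' * q * q) hπ := fun c hc =>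
    (al97V_alpha_mem_Vinf (M' * q) q hπ c).mpr hc
  have hV₃ := vuc1_V3_alpha (K := K) M' q hq hM' hπ
  obtain ⟨r1, a1⟩ := fd85_over_inf (K := K) M' q hq hπ _ hV₁ hπ₁K
  obtain ⟨r2, a2⟩ := fd85_over_inf (K := K) M' q hq hπ V₂ hV₂ hπ₂
  obtain ⟨r3, a3⟩ := fd85_over_zero (K := K) M' q hq hM' hπ _ hV₃ hπ₃K
  -- the uniformisers
  obtain ⟨-, hd1, hd2, -, -, -⟩ := vi41_ram (K := K) (M' * q) q hq (dvd_mul_left q M') hπ V₂
    hV₂ hπ₂ hne (v2g64_s K M' q) hs (vuc1_s_unit (K := K) M' q hq hπ)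
  obtain ⟨hw1, hw2⟩ := vuc1_V3_wit (K := K) M' q hq hM' hπ hqR
  obtain ⟨-, hd3, -, -⟩ := vi41_inert (K := K) M' q hq hM' hπ _ hV₃ hπ₃K _ hw1 hw2
  -- the chart
  have hB₁ : ∀ x ∈ B, x ∈ cm85_Vinf (K := K) (M' * q * q) hπ := fun x hx =>
    (Subring.mem_inf.mp (Subring.mem_inf.mp (hBW x hx)).1).1
  have hB₂ : ∀ x ∈ B, x ∈ V₂ := fun x hx =>
    (Subring.mem_inf.mp (Subring.mem_inf.mp (hBW x hx)).1).2
  have hB₃ : ∀ x ∈ B, x ∈ nsb86_V3 (K := K) M' q hq hM' hπ := fun x hx =>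
    (Subring.mem_inf.mp (hBW x hx)).2
  have hmB : ∃ μ ∈ B, (m : ↥(modularFunctionFieldFullC K (M' * q * q))) * μ = 1 := by
    obtain ⟨w, hw⟩ := hmu
    refine ⟨algebraMap R _ ((w⁻¹ : Rˣ) : R), B.algebraMap_mem _, ?_⟩
    rw [← map_natCast (algebraMap R ↥(modularFunctionFieldFullC K (M' * q * q))) m, ← map_mul,
      ← hw, Units.mul_inv, map_one]
  exact hp84_HP1_one (K := K) π (v2g64_s K M' q) (q - 1) q m hm B _ _ _ _
    (cm85_Vinf (K := K) (M' * q * q) hπ) V₂ (nsb86_V3 (K := K) M' q hq hM' hπ) _ _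
    hB₁ hB₂ hB₃
    (fun x hx h1 h2 h3 =>
      hsatW x hx (Subring.mem_inf.mpr ⟨Subring.mem_inf.mpr ⟨h1, h2⟩, h3⟩))
    hπ0 hσ0 hσe (by rw [e]; exact hπ₁K) (by rw [e]; exact hπ₂) (by rw [e]; exact hπ₃K)
    (fun x _ hx' => by rw [e]; exact r1 x hx')
    (fun x _ hx' => by rw [e]; exact r2 x hx')
    (fun x _ hx' => by rw [e]; exact r3 x hx')
    (fun x _ hx0 => by rw [e]; exact a1 x hx0)
    (fun x _ hx0 => by rw [e]; exact a2 x hx0)
    (fun x _ hx0 => by rw [e]; exact a3 x hx0)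
    hfrac hmB
    (fun x hx => by rw [e]; exact hp84c_unif _ _ hd1 x hx)
    (fun x hx => by rw [mul_comm x]; exact hp84c_unif _ _ hd2 x hx)
    (fun x hx => by rw [e]; exact hp84c_unif _ _ hd3 x hx)
    hKr hS₁ hS₃ hS₂ hD₂ h2one


/-- **The remaining hypothesis** (rows 600/601): the divisor of the middle branch at the closed
points of the chart `B` lying on the middle branch only; literally the antecedent of clause (2) of
`tg71_Out` (TwoGenCanon71) = `hD₂` of `tl71_twoGen` restricted to the `C₂`-only points. -/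
def hp84c_D2 (V₂ : ValuationSubring ↥(modularFunctionFieldFullC K (M' * q * q)))
    (B : Subalgebra R ↥(modularFunctionFieldFullC K (M' * q * q))) : Prop :=
  ∀ n : Ideal B, n.IsMaximal → algebraMap R B π ∈ n →
    tl71_OnMid (v2g64_s K M' q) B V₂.toSubring n →
    ¬ sf79_OnBr π B (cm85_Vinf (K := K) (M' * q * q) hπ).toSubring n →
    ¬ sf79_OnBr π B (nsb86_V3 (K := K) M' q hq hM' hπ).toSubring n →
    tl71_MidDivAt π (v2g64_s K M' q) B (cm85_Vinf (K := K) (M' * q * q) hπ).toSubring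
      V₂.toSubring (nsb86_V3 (K := K) M' q hq hM' hπ).toSubring n

include hq hM' in
/-- **(HP-1) on the canonical frame, Hauptmodul of level 2**, for the chart of `h` and the chart
of `h⁻¹`; the only remaining hypothesis is `hp84c_D2` (the divisor of the middle branch at the
closed points on the middle branch only) for the chart. -/
theorem hp84c_level2 (hunit : ∀ n : ℕ, Nat.Coprime n q → IsUnit (n : R))
    (hqR : ¬ IsUnit (q : R)) (hMu : IsUnit (M' : R)) (h2 : 2 ∣ M')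
    (m : ℕ) (hm : 0 < m) (hmu : IsUnit (m : R))
    (V₂ : ValuationSubring ↥(modularFunctionFieldFullC K (M' * q * q)))
    (hV₂ : ∀ c ∈ cm85_Vinf (K := K) (M' * q) hπ, al97L_alpha K (M' * q) q c ∈ V₂)
    (hπ₂ : (algebraMap K ↥(modularFunctionFieldFullC K (M' * q * q)) (algebraMap R K π))⁻¹ ∉ V₂)
    (hs : V₂.valuation (v2g64_s K M' q) ^ (q - 1) =
      V₂.valuation (algebraMap K ↥(modularFunctionFieldFullC K (M' * q * q)) (algebraMap R K π))) :
    (hp84c_D2 (K := K) M' q hq hM' hπ V₂ (pk15_chart R ({(pk85_h2 K (M' * q * q) (h2.trans ((dvd_mul_right M' q).trans (dvd_mul_right (M' * q) q))))} : Set ↥(modularFunctionFieldFullC K (M' * q * q)))) →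
      cp57_HP1 (K := K) π q m (pk15_chart R ({(pk85_h2 K (M' * q * q) (h2.trans ((dvd_mul_right M' q).trans (dvd_mul_right (M' * q) q))))} : Set ↥(modularFunctionFieldFullC K (M' * q * q))))
        (al97L_alpha K (M' * q) q).toRingHom
        (al97L_beta K (M' * q) q).toRingHom (s35i62_normA K (M' * q) q)
        (s35i62_normB K (M' * q) q) (cm85_Vinf (K := K) (M' * q * q) hπ) V₂
        (nsb86_V3 (K := K) M' q hq hM' hπ) (cm85_Vinf (K := K) (M' * q) hπ)
        (s34i47c_V0 (K := K) M' q hq hM' hπ)) ∧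
    (hp84c_D2 (K := K) M' q hq hM' hπ V₂ (pk15_chart R ({(pk85_h2 K (M' * q * q) (h2.trans ((dvd_mul_right M' q).trans (dvd_mul_right (M' * q) q))))⁻¹} : Set ↥(modularFunctionFieldFullC K (M' * q * q)))) →
      cp57_HP1 (K := K) π q m (pk15_chart R ({(pk85_h2 K (M' * q * q) (h2.trans ((dvd_mul_right M' q).trans (dvd_mul_right (M' * q) q))))⁻¹} : Set ↥(modularFunctionFieldFullC K (M' * q * q))))
        (al97L_alpha K (M' * q) q).toRingHom
        (al97L_beta K (M' * q) q).toRingHom (s35i62_normA K (M' * q) q)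
        (s35i62_normB K (M' * q) q) (cm85_Vinf (K := K) (M' * q * q) hπ) V₂
        (nsb86_V3 (K := K) M' q hq hM' hπ) (cm85_Vinf (K := K) (M' * q) hπ)
        (s34i47c_V0 (K := K) M' q hq hM' hπ)) := by
  have hne := hp84c_ne (K := K) M' q hq hπ V₂ hπ₂ hs
  obtain ⟨-, hC, -⟩ := fb85_frameV3_level2 M' q hq hM' hπ hqR hMu h2 V₂ hV₂ hπ₂ hs
  obtain ⟨htr, h12W, hsat1, hsat2, -, hN₁, hN₂, hfin, hfrac⟩ := hC
  have hh0 : (pk85_h2 K (M' * q * q) (h2.trans ((dvd_mul_right M' q).trans (dvd_mul_right (M' * q) q)))) ≠ 0 := by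
    intro h0
    rw [h0] at htr
    exact htr isAlgebraic_zero
  have hfrac₂ := ca57_frac_inv (R := R) _ hh0 hfrac
  obtain ⟨hKr₁, hKr₂⟩ := kr65_Pkg_Krull R K ↥(modularFunctionFieldFullC K (M' * q * q)) π hπ _ htr hN₁ hN₂ hfin hfrac
  have e : algebraMap R ↥(modularFunctionFieldFullC K (M' * q * q)) π = (algebraMap K ↥(modularFunctionFieldFullC K (M' * q * q)) (algebraMap R K π)) :=
    IsScalarTower.algebraMap_apply R K _ π
  have hπ₂' : (algebraMap R ↥(modularFunctionFieldFullC K (M' * q * q)) π)⁻¹ ∉ V₂ := by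
    rw [e]
    exact hπ₂
  have hs' : V₂.valuation (v2g64_s K M' q) ^ (q - 1) =
      V₂.valuation (algebraMap R ↥(modularFunctionFieldFullC K (M' * q * q)) π) := by
    rw [e]
    exact hs
  obtain ⟨⟨a1, a2, a3⟩, ⟨b1, b2, b3⟩⟩ := sm7_three_smooth_sq_level2 (R := R) (K := K) M' q hq hM'
    hπ hqR h2 hMu V₂ hV₂ hπ₂' hne (v2g64_s K M' q) hs'
  obtain ⟨o1, o2⟩ := tg71_level2 (K := K) M' q hq hM' hπ hunit hqR hMu h2 V₂ hV₂ hπ₂ hne hs
  have hsub1 : ({(pk85_h2 K (M' * q * q) (h2.trans ((dvd_mul_right M' q).trans (dvd_mul_right (M' * q) q))))} : Set ↥(modularFunctionFieldFullC K (M' * q * q))) ⊆ {(pk85_h2 K (M' * q * q) (h2.trans ((dvd_mul_right M' q).trans (dvd_mul_right (M' * q) q)))), (pk85_h2 K (M' * q * q) (h2.trans ((dvd_mul_right M' q).trans (dvd_mul_right (M' * q) q))))⁻¹} := by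
    intro x hx
    rw [Set.mem_singleton_iff.mp hx]
    exact Set.mem_insert _ _
  have hsub2 : ({(pk85_h2 K (M' * q * q) (h2.trans ((dvd_mul_right M' q).trans (dvd_mul_right (M' * q) q))))⁻¹} : Set ↥(modularFunctionFieldFullC K (M' * q * q))) ⊆ {(pk85_h2 K (M' * q * q) (h2.trans ((dvd_mul_right M' q).trans (dvd_mul_right (M' * q) q)))), (pk85_h2 K (M' * q * q) (h2.trans ((dvd_mul_right M' q).trans (dvd_mul_right (M' * q) q))))⁻¹} := by
    intro x hx
    rw [Set.mem_singleton_iff.mp hx]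
    exact Set.mem_insert_of_mem _ rfl
  refine ⟨fun hD₂ => ?_, fun hD₂ => ?_⟩
  · haveI := hN₁
    exact hp84c_core (K := K) M' q hq hM' hπ hqR m hm hmu V₂ hV₂ hπ₂ hs _
      (fun x hx => h12W x (pk15_chart_mono hsub1 hx)) hsat1 hfrac hKr₁ a1 a2 a3 hD₂ (o1.2 hD₂)
  · haveI := hN₂
    exact hp84c_core (K := K) M' q hq hM' hπ hqR m hm hmu V₂ hV₂ hπ₂ hs _
      (fun x hx => h12W x (pk15_chart_mono hsub2 hx)) hsat2 hfrac₂ hKr₂ b1 b2 b3 hD₂ (o2.2 hD₂)

include hq hM' in
/-- **(HP-1) on the canonical frame, Hauptmodul of level 3**, for the chart of `h` and the chart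
of `h⁻¹`; the only remaining hypothesis is `hp84c_D2` (the divisor of the middle branch at the
closed points on the middle branch only) for the chart. -/
theorem hp84c_level3 (hunit : ∀ n : ℕ, Nat.Coprime n q → IsUnit (n : R))
    (hqR : ¬ IsUnit (q : R)) (hMu : IsUnit (M' : R)) (h3 : 3 ∣ M')
    (m : ℕ) (hm : 0 < m) (hmu : IsUnit (m : R))
    (V₂ : ValuationSubring ↥(modularFunctionFieldFullC K (M' * q * q)))
    (hV₂ : ∀ c ∈ cm85_Vinf (K := K) (M' * q) hπ, al97L_alpha K (M' * q) q c ∈ V₂)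
    (hπ₂ : (algebraMap K ↥(modularFunctionFieldFullC K (M' * q * q)) (algebraMap R K π))⁻¹ ∉ V₂)
    (hs : V₂.valuation (v2g64_s K M' q) ^ (q - 1) =
      V₂.valuation (algebraMap K ↥(modularFunctionFieldFullC K (M' * q * q)) (algebraMap R K π))) :
    (hp84c_D2 (K := K) M' q hq hM' hπ V₂ (pk15_chart R ({(pk85_h3 K (M' * q * q) (h3.trans ((dvd_mul_right M' q).trans (dvd_mul_right (M' * q) q))))} : Set ↥(modularFunctionFieldFullC K (M' * q * q)))) →
      cp57_HP1 (K := K) π q m (pk15_chart R ({(pk85_h3 K (M' * q * q) (h3.trans ((dvd_mul_right M' q).trans (dvd_mul_right (M' * q) q))))} : Set ↥(modularFunctionFieldFullC K (M' * q * q))))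
        (al97L_alpha K (M' * q) q).toRingHom
        (al97L_beta K (M' * q) q).toRingHom (s35i62_normA K (M' * q) q)
        (s35i62_normB K (M' * q) q) (cm85_Vinf (K := K) (M' * q * q) hπ) V₂
        (nsb86_V3 (K := K) M' q hq hM' hπ) (cm85_Vinf (K := K) (M' * q) hπ)
        (s34i47c_V0 (K := K) M' q hq hM' hπ)) ∧
    (hp84c_D2 (K := K) M' q hq hM' hπ V₂ (pk15_chart R ({(pk85_h3 K (M' * q * q) (h3.trans ((dvd_mul_right M' q).trans (dvd_mul_right (M' * q) q))))⁻¹} : Set ↥(modularFunctionFieldFullC K (M' * q * q)))) →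
      cp57_HP1 (K := K) π q m (pk15_chart R ({(pk85_h3 K (M' * q * q) (h3.trans ((dvd_mul_right M' q).trans (dvd_mul_right (M' * q) q))))⁻¹} : Set ↥(modularFunctionFieldFullC K (M' * q * q))))
        (al97L_alpha K (M' * q) q).toRingHom
        (al97L_beta K (M' * q) q).toRingHom (s35i62_normA K (M' * q) q)
        (s35i62_normB K (M' * q) q) (cm85_Vinf (K := K) (M' * q * q) hπ) V₂
        (nsb86_V3 (K := K) M' q hq hM' hπ) (cm85_Vinf (K := K) (M' * q) hπ)
        (s34i47c_V0 (K := K) M' q hq hM' hπ)) := by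
  have hne := hp84c_ne (K := K) M' q hq hπ V₂ hπ₂ hs
  obtain ⟨-, hC, -⟩ := fb85_frameV3_level3 M' q hq hM' hπ hqR hMu h3 V₂ hV₂ hπ₂ hs
  obtain ⟨htr, h12W, hsat1, hsat2, -, hN₁, hN₂, hfin, hfrac⟩ := hC
  have hh0 : (pk85_h3 K (M' * q * q) (h3.trans ((dvd_mul_right M' q).trans (dvd_mul_right (M' * q) q)))) ≠ 0 := by
    intro h0
    rw [h0] at htr
    exact htr isAlgebraic_zero
  have hfrac₂ := ca57_frac_inv (R := R) _ hh0 hfrac
  obtain ⟨hKr₁, hKr₂⟩ := kr65_Pkg_Krull R K ↥(modularFunctionFieldFullC K (M' * q * q)) π hπ _ htr hN₁ hN₂ hfin hfrac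
  have e : algebraMap R ↥(modularFunctionFieldFullC K (M' * q * q)) π = (algebraMap K ↥(modularFunctionFieldFullC K (M' * q * q)) (algebraMap R K π)) :=
    IsScalarTower.algebraMap_apply R K _ π
  have hπ₂' : (algebraMap R ↥(modularFunctionFieldFullC K (M' * q * q)) π)⁻¹ ∉ V₂ := by
    rw [e]
    exact hπ₂
  have hs' : V₂.valuation (v2g64_s K M' q) ^ (q - 1) =
      V₂.valuation (algebraMap R ↥(modularFunctionFieldFullC K (M' * q * q)) π) := by
    rw [e]
    exact hs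
  obtain ⟨⟨a1, a2, a3⟩, ⟨b1, b2, b3⟩⟩ := sm7_three_smooth_sq_level3 (R := R) (K := K) M' q hq hM'
    hπ hqR h3 hMu V₂ hV₂ hπ₂' hne (v2g64_s K M' q) hs'
  obtain ⟨o1, o2⟩ := tg71_level3 (K := K) M' q hq hM' hπ hunit hqR hMu h3 V₂ hV₂ hπ₂ hne hs
  have hsub1 : ({(pk85_h3 K (M' * q * q) (h3.trans ((dvd_mul_right M' q).trans (dvd_mul_right (M' * q) q))))} : Set ↥(modularFunctionFieldFullC K (M' * q * q))) ⊆ {(pk85_h3 K (M' * q * q) (h3.trans ((dvd_mul_right M' q).trans (dvd_mul_right (M' * q) q)))), (pk85_h3 K (M' * q * q) (h3.trans ((dvd_mul_right M' q).trans (dvd_mul_right (M' * q) q))))⁻¹} := by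
    intro x hx
    rw [Set.mem_singleton_iff.mp hx]
    exact Set.mem_insert _ _
  have hsub2 : ({(pk85_h3 K (M' * q * q) (h3.trans ((dvd_mul_right M' q).trans (dvd_mul_right (M' * q) q))))⁻¹} : Set ↥(modularFunctionFieldFullC K (M' * q * q))) ⊆ {(pk85_h3 K (M' * q * q) (h3.trans ((dvd_mul_right M' q).trans (dvd_mul_right (M' * q) q)))), (pk85_h3 K (M' * q * q) (h3.trans ((dvd_mul_right M' q).trans (dvd_mul_right (M' * q) q))))⁻¹} := by
    intro x hx
    rw [Set.mem_singleton_iff.mp hx]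
    exact Set.mem_insert_of_mem _ rfl
  refine ⟨fun hD₂ => ?_, fun hD₂ => ?_⟩
  · haveI := hN₁
    exact hp84c_core (K := K) M' q hq hM' hπ hqR m hm hmu V₂ hV₂ hπ₂ hs _
      (fun x hx => h12W x (pk15_chart_mono hsub1 hx)) hsat1 hfrac hKr₁ a1 a2 a3 hD₂ (o1.2 hD₂)
  · haveI := hN₂
    exact hp84c_core (K := K) M' q hq hM' hπ hqR m hm hmu V₂ hV₂ hπ₂ hs _
      (fun x hx => h12W x (pk15_chart_mono hsub2 hx)) hsat2 hfrac₂ hKr₂ b1 b2 b3 hD₂ (o2.2 hD₂)

end HP84C

section Final84C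

/-- **Conjuncts (3), (4) of `cf57_Six` (CoreFinal57), Hauptmodul of level 2**, in the literal
binder shape of `cf57_result` (`π = (q : R)`, `m = p ^ n`, `V₂` with the three facts of
`cf57_IsMid`), from `hp84c_D2` on the two charts. -/
theorem hp84c_final2 (M' q p : ℕ) [NeZero M'] [NeZero q] (hq : q.Prime) (hM' : ¬ q ∣ M')
    (h2 : 2 ∣ M') (hp : p.Prime) (hpq : p ≠ q) (n : ℕ)
    (R K : Type) [CommRing R] [IsDomain R] [IsDiscreteValuationRing R] [Field K]
    [NumberField K] [Algebra K Q̄] [Algebra R K] [IsFractionRing R K]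
    [Algebra R ↥(modularFunctionFieldFullC K (M' * q * q))]
    [IsScalarTower R K ↥(modularFunctionFieldFullC K (M' * q * q))]
    (hπ : Irreducible ((q : ℕ) : R)) (hunit : ∀ k : ℕ, Nat.Coprime k q → IsUnit (k : R))
    (V₂ : ValuationSubring ↥(modularFunctionFieldFullC K (M' * q * q)))
    (hV₂ : ∀ c ∈ cm85_Vinf (K := K) (M' * q) hπ, al97L_alpha K (M' * q) q c ∈ V₂)
    (hπ₂ : (algebraMap K ↥(modularFunctionFieldFullC K (M' * q * q)) (algebraMap R K ((q : ℕ) : R)))⁻¹ ∉ V₂)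
    (hs : V₂.valuation (v2g64_s K M' q) ^ (q - 1) =
      V₂.valuation (algebraMap K ↥(modularFunctionFieldFullC K (M' * q * q)) (algebraMap R K ((q : ℕ) : R))))
    (hD : hp84c_D2 (K := K) M' q hq hM' hπ V₂ (pk15_chart R ({(pk85_h2 K (M' * q * q) (h2.trans ((dvd_mul_right M' q).trans (dvd_mul_right (M' * q) q))))} : Set ↥(modularFunctionFieldFullC K (M' * q * q)))))
    (hD' : hp84c_D2 (K := K) M' q hq hM' hπ V₂ (pk15_chart R ({(pk85_h2 K (M' * q * q) (h2.trans ((dvd_mul_right M' q).trans (dvd_mul_right (M' * q) q))))⁻¹} : Set ↥(modularFunctionFieldFullC K (M' * q * q))))) :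
    cp57_HP1 (K := K) ((q : ℕ) : R) q (p ^ n) (pk15_chart R ({(pk85_h2 K (M' * q * q) (h2.trans ((dvd_mul_right M' q).trans (dvd_mul_right (M' * q) q))))} : Set ↥(modularFunctionFieldFullC K (M' * q * q))))
        (al97L_alpha K (M' * q) q).toRingHom
        (al97L_beta K (M' * q) q).toRingHom (s35i62_normA K (M' * q) q)
        (s35i62_normB K (M' * q) q) (cm85_Vinf (K := K) (M' * q * q) hπ) V₂
        (nsb86_V3 (K := K) M' q hq hM' hπ) (cm85_Vinf (K := K) (M' * q) hπ)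
        (s34i47c_V0 (K := K) M' q hq hM' hπ) ∧
    cp57_HP1 (K := K) ((q : ℕ) : R) q (p ^ n) (pk15_chart R ({(pk85_h2 K (M' * q * q) (h2.trans ((dvd_mul_right M' q).trans (dvd_mul_right (M' * q) q))))⁻¹} : Set ↥(modularFunctionFieldFullC K (M' * q * q))))
        (al97L_alpha K (M' * q) q).toRingHom
        (al97L_beta K (M' * q) q).toRingHom (s35i62_normA K (M' * q) q)
        (s35i62_normB K (M' * q) q) (cm85_Vinf (K := K) (M' * q * q) hπ) V₂
        (nsb86_V3 (K := K) M' q hq hM' hπ) (cm85_Vinf (K := K) (M' * q) hπ)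
        (s34i47c_V0 (K := K) M' q hq hM' hπ) := by
  haveI : Algebra.IsAlgebraic K Q̄ := cx_isAlgebraic_closure K
  letI a1 : Algebra R ↥(modularFunctionFieldFullC K M') :=
    ((algebraMap K ↥(modularFunctionFieldFullC K M')).comp (algebraMap R K)).toAlgebra
  haveI : IsScalarTower R K ↥(modularFunctionFieldFullC K M') :=
    IsScalarTower.of_algebraMap_eq (fun _ => rfl)
  letI a2 : Algebra R ↥(modularFunctionFieldFullC K (M' * q)) :=
    ((algebraMap K ↥(modularFunctionFieldFullC K (M' * q))).comp (algebraMap R K)).toAlgebra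
  haveI : IsScalarTower R K ↥(modularFunctionFieldFullC K (M' * q)) :=
    IsScalarTower.of_algebraMap_eq (fun _ => rfl)
  have hqR : ¬ IsUnit ((q : ℕ) : R) := hπ.not_isUnit
  have hMu : IsUnit (M' : R) :=
    hunit M' (Nat.coprime_comm.mp ((Nat.Prime.coprime_iff_not_dvd hq).mpr hM'))
  have hmu : IsUnit ((p ^ n : ℕ) : R) :=
    hunit _ (Nat.Coprime.pow_left n ((Nat.coprime_primes hp hq).mpr hpq))
  obtain ⟨h1, h1'⟩ := hp84c_level2 (K := K) M' q hq hM' hπ hunit hqR hMu h2 (p ^ n)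
    (pow_pos hp.pos n) hmu V₂ hV₂ hπ₂ hs
  exact ⟨h1 hD, h1' hD'⟩

/-- **Conjuncts (3), (4) of `cf57_Six` (CoreFinal57), Hauptmodul of level 3**, in the literal
binder shape of `cf57_result` (`π = (q : R)`, `m = p ^ n`, `V₂` with the three facts of
`cf57_IsMid`), from `hp84c_D2` on the two charts. -/
theorem hp84c_final3 (M' q p : ℕ) [NeZero M'] [NeZero q] (hq : q.Prime) (hM' : ¬ q ∣ M')
    (h3 : 3 ∣ M') (hp : p.Prime) (hpq : p ≠ q) (n : ℕ)
    (R K : Type) [CommRing R] [IsDomain R] [IsDiscreteValuationRing R] [Field K]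
    [NumberField K] [Algebra K Q̄] [Algebra R K] [IsFractionRing R K]
    [Algebra R ↥(modularFunctionFieldFullC K (M' * q * q))]
    [IsScalarTower R K ↥(modularFunctionFieldFullC K (M' * q * q))]
    (hπ : Irreducible ((q : ℕ) : R)) (hunit : ∀ k : ℕ, Nat.Coprime k q → IsUnit (k : R))
    (V₂ : ValuationSubring ↥(modularFunctionFieldFullC K (M' * q * q)))
    (hV₂ : ∀ c ∈ cm85_Vinf (K := K) (M' * q) hπ, al97L_alpha K (M' * q) q c ∈ V₂)
    (hπ₂ : (algebraMap K ↥(modularFunctionFieldFullC K (M' * q * q)) (algebraMap R K ((q : ℕ) : R)))⁻¹ ∉ V₂)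
    (hs : V₂.valuation (v2g64_s K M' q) ^ (q - 1) =
      V₂.valuation (algebraMap K ↥(modularFunctionFieldFullC K (M' * q * q)) (algebraMap R K ((q : ℕ) : R))))
    (hD : hp84c_D2 (K := K) M' q hq hM' hπ V₂ (pk15_chart R ({(pk85_h3 K (M' * q * q) (h3.trans ((dvd_mul_right M' q).trans (dvd_mul_right (M' * q) q))))} : Set ↥(modularFunctionFieldFullC K (M' * q * q)))))
    (hD' : hp84c_D2 (K := K) M' q hq hM' hπ V₂ (pk15_chart R ({(pk85_h3 K (M' * q * q) (h3.trans ((dvd_mul_right M' q).trans (dvd_mul_right (M' * q) q))))⁻¹} : Set ↥(modularFunctionFieldFullC K (M' * q * q))))) :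
    cp57_HP1 (K := K) ((q : ℕ) : R) q (p ^ n) (pk15_chart R ({(pk85_h3 K (M' * q * q) (h3.trans ((dvd_mul_right M' q).trans (dvd_mul_right (M' * q) q))))} : Set ↥(modularFunctionFieldFullC K (M' * q * q))))
        (al97L_alpha K (M' * q) q).toRingHom
        (al97L_beta K (M' * q) q).toRingHom (s35i62_normA K (M' * q) q)
        (s35i62_normB K (M' * q) q) (cm85_Vinf (K := K) (M' * q * q) hπ) V₂
        (nsb86_V3 (K := K) M' q hq hM' hπ) (cm85_Vinf (K := K) (M' * q) hπ)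
        (s34i47c_V0 (K := K) M' q hq hM' hπ) ∧
    cp57_HP1 (K := K) ((q : ℕ) : R) q (p ^ n) (pk15_chart R ({(pk85_h3 K (M' * q * q) (h3.trans ((dvd_mul_right M' q).trans (dvd_mul_right (M' * q) q))))⁻¹} : Set ↥(modularFunctionFieldFullC K (M' * q * q))))
        (al97L_alpha K (M' * q) q).toRingHom
        (al97L_beta K (M' * q) q).toRingHom (s35i62_normA K (M' * q) q)
        (s35i62_normB K (M' * q) q) (cm85_Vinf (K := K) (M' * q * q) hπ) V₂
        (nsb86_V3 (K := K) M' q hq hM' hπ) (cm85_Vinf (K := K) (M' * q) hπ)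
        (s34i47c_V0 (K := K) M' q hq hM' hπ) := by
  haveI : Algebra.IsAlgebraic K Q̄ := cx_isAlgebraic_closure K
  letI a1 : Algebra R ↥(modularFunctionFieldFullC K M') :=
    ((algebraMap K ↥(modularFunctionFieldFullC K M')).comp (algebraMap R K)).toAlgebra
  haveI : IsScalarTower R K ↥(modularFunctionFieldFullC K M') :=
    IsScalarTower.of_algebraMap_eq (fun _ => rfl)
  letI a2 : Algebra R ↥(modularFunctionFieldFullC K (M' * q)) :=
    ((algebraMap K ↥(modularFunctionFieldFullC K (M' * q))).comp (algebraMap R K)).toAlgebra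
  haveI : IsScalarTower R K ↥(modularFunctionFieldFullC K (M' * q)) :=
    IsScalarTower.of_algebraMap_eq (fun _ => rfl)
  have hqR : ¬ IsUnit ((q : ℕ) : R) := hπ.not_isUnit
  have hMu : IsUnit (M' : R) :=
    hunit M' (Nat.coprime_comm.mp ((Nat.Prime.coprime_iff_not_dvd hq).mpr hM'))
  have hmu : IsUnit ((p ^ n : ℕ) : R) :=
    hunit _ (Nat.Coprime.pow_left n ((Nat.coprime_primes hp hq).mpr hpq))
  obtain ⟨h1, h1'⟩ := hp84c_level3 (K := K) M' q hq hM' hπ hunit hqR hMu h3 (p ^ n)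
    (pow_pos hp.pos n) hmu V₂ hV₂ hπ₂ hs
  exact ⟨h1 hD, h1' hD'⟩

end Final84C

end Fermat.Agent.S36
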