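import Mathlib
import Fermat.Agent.S36.CoreHP1_84
import Fermat.Agent.S36.MidCuspGen25
import Fermat.Agent.S36.LocPrin2_40

/-!
# S36 lab, row 605 (HP-1), helper55: `cp57_HP1` WITHOUT (REG) and with the WEAK mid input

`hp1m55_HP1` has the frame hypotheses of helper84's `hp84_HP1` (`CoreHP1_84`), but

* NO `hD₁`, `hD₃` (the local divisors at the multi-branch points = (REG), row 599): they are void
  at the closed points on at most one branch;
* `hD₂` in the WEAK form `mc25_MidPrinAt σ B V₂.toSubring n` of helper25 (`MidCuspGen25`; literally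
  the `hD₂` of `mc25_twoGen`): the middle branch is principal at the `C₂`-only point `n`, with NO
  condition on the generator (`tl71_MidDivAt` is not available at the cusps of `C₂`).

Inside, at a closed point `n` on at most one branch: two generators of `n B_n`
(`tl71_two_of_smooth` on `V₁`, `V₃`; `tl71_max_two` on `V₂`), the local root `c` of `u` from
`lps9_strong_at` (no separation needed), `c₂ = (c ^ ((q-1+2)(q-1)) θ) ^ q`, the coordinate of the
branch from (3a) and a generator of the branch at `n`, then `ld55_datum_at_one`.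

The generator of the middle branch: the `g` of `mc25_MidPrinAt` if `g ∈ 𝔪 (V₂)`; otherwise `g`
is a witness that the branch is not the closed point, and the branch is principal at `n` because
`B_n` is a regular local ring of dimension two:

* `hp1m55_prin_of_two` : CHART BRIDGE of helper40's `lp40_principal`: at a closed point `n` with
  two local generators, every branch `V` through `n` which is not the closed point itself
  (`w ∈ n`, `w ∉ 𝔪 (V)`) is principal at `n`, in the literal shape `ξ hξ hgen` of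
  `ld55_datum_at_one` / `ld55_hres` (so it also gives the lift of a local root on the middle
  branch at a TRIPLE point: `w` := the `z` of `tl71_DivAt` for `V₁`).
* `hp1m55_brData_mid` : `hp84_BrData B V₂ n` from `tl71_MidSmooth` + `mc25_MidPrinAt`.
* `hp1m55_HP1` : the package `cp57_HP1`.
-/

set_option autoImplicit false
set_option linter.style.haveILetI false
set_option linter.style.longLine false
set_option linter.unusedVariables false

namespace Fermat.Agent.S36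

open Fermat.Agent.S18 Fermat.Agent.S34 Fermat.Agent.S35 Fermat.Agent.S36.TripleLoc71 IsLocalRing

section Prin

variable {R F : Type*} [CommRing R] [Field F] [Algebra R F]

/-- **A branch through a 2-generated closed point is principal there** (chart form of
`lp40_principal`).  `n` a prime of the noetherian chart `B` with `n B_n = (x, y) B_n`
(elementwise), `V` a valuation ring containing `B` whose centre `p_V = B ∩ 𝔪 (V)` lies in `n`
and is not `n` (`w ∈ n`, `w ∉ 𝔪 (V)`).  Then `p_V B_n = ξ B_n` for some `ξ ∈ p_V`. -/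
theorem hp1m55_prin_of_two (B : Subalgebra R F) [IsNoetherianRing B] (V : ValuationSubring F)
    (hBV : ∀ x ∈ B, x ∈ V) (n : Ideal B) [hn : n.IsPrime]
    (hPn : ∀ x : B, (x : F) ∈ ld55_mV V → x ∈ n)
    (h2 : ∃ x y : B, x ∈ n ∧ y ∈ n ∧
      ∀ v ∈ n, ∃ s : B, s ∉ n ∧ ∃ a b : B, s * v = a * x + b * y)
    (w : B) (hwn : w ∈ n) (hwV : (w : F) ∉ ld55_mV V) :
    ∃ ξ : B, (ξ : F) ∈ ld55_mV V ∧
      ∀ x : B, (x : F) ∈ ld55_mV V → ∃ t : B, t ∉ n ∧ ∃ b : B, t * x = b * ξ := by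
  classical
  obtain ⟨x, y, hx, hy, hgen⟩ := h2
  set A := Localization.AtPrime n with hA
  haveI : IsNoetherianRing A := IsLocalization.isNoetherianRing n.primeCompl A inferInstance
  have hm : maximalIdeal A = Ideal.span {algebraMap B A x, algebraMap B A y} :=
    tl71_maximalIdeal_eq n x y hx hy hgen
  set P : Ideal B := ld55_br B V hBV with hP
  haveI hPp : P.IsPrime := ld55_br_isPrime B V hBV
  have hdisj : Disjoint (n.primeCompl : Set B) (P : Set B) := by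
    rw [Set.disjoint_left]
    intro a ha haP
    exact ha (hPn a haP)
  have hP'p : (P.map (algebraMap B A)).IsPrime :=
    IsLocalization.isPrime_of_isPrime_disjoint n.primeCompl A P hPp hdisj
  have hcomap : (P.map (algebraMap B A)).comap (algebraMap B A) = P :=
    IsLocalization.under_map_of_isPrime_disjoint n.primeCompl A hPp hdisj
  have hne : P.map (algebraMap B A) ≠ maximalIdeal A := by
    intro heq
    have h1 : algebraMap B A w ∈ maximalIdeal A :=
      (IsLocalization.AtPrime.to_map_mem_maximal_iff A n w).mpr hwn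
    rw [← heq] at h1
    have h2 : w ∈ (P.map (algebraMap B A)).comap (algebraMap B A) := h1
    rw [hcomap] at h2
    exact hwV h2
  obtain ⟨p, hp⟩ := @lp40_principal A _ _ _ _ _ hm (P.map (algebraMap B A)) hP'p hne
  obtain ⟨ξ, s, rfl⟩ := IsLocalization.exists_mk'_eq n.primeCompl p
  have hinj : Function.Injective (algebraMap B A) :=
    IsLocalization.injective A (Ideal.primeCompl_le_nonZeroDivisors n)
  have hξP : ξ ∈ P := by
    rw [← hcomap]
    show algebraMap B A ξ ∈ P.map (algebraMap B A)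
    rw [hp, ← IsLocalization.mk'_spec' A ξ s]
    exact Ideal.mul_mem_left _ _ (Ideal.mem_span_singleton_self _)
  refine ⟨ξ, hξP, ?_⟩
  intro v hv
  have hvP : algebraMap B A v ∈ P.map (algebraMap B A) := Ideal.mem_map_of_mem _ hv
  rw [hp, Ideal.mem_span_singleton'] at hvP
  obtain ⟨a, ha⟩ := hvP
  obtain ⟨b, t, rfl⟩ := IsLocalization.exists_mk'_eq n.primeCompl a
  refine ⟨(t : B) * (s : B), fun h => (hn.mem_or_mem h).elim t.2 s.2, b, ?_⟩
  apply hinj
  have e1 : IsLocalization.mk' A b t * IsLocalization.mk' A ξ s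
      = IsLocalization.mk' A (b * ξ) (t * s) := (IsLocalization.mk'_mul A b ξ t s).symm
  rw [e1] at ha
  have e2 := (IsLocalization.eq_mk'_iff_mul_eq (S := A) (x := b * ξ) (y := t * s)
    (z := algebraMap B A v)).mp ha.symm
  rw [map_mul, map_mul]
  rw [map_mul] at e2
  have e3 : algebraMap B A ((t * s : n.primeCompl) : B) = algebraMap B A (t : B) * algebraMap B A (s : B) := by
    rw [← map_mul]; rfl
  rw [e3] at e2
  rw [map_mul, ← e2]
  ring

end Prin

section Mid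

variable {R F : Type*} [CommRing R] [Field F] [Algebra R F]

/-- **The middle branch at a closed point where it is principal** (`mc25_MidPrinAt`, no
condition on the generator): coordinate from `tl71_MidSmooth`, generator in the literal shape of
`ld55_datum_at_one`, and two generators of `n B_n`. -/
theorem hp1m55_brData_mid (π : R) (σ : F) (e : ℕ) (hσ0 : σ ≠ 0)
    (B : Subalgebra R F) [IsNoetherianRing B] (V₂ : ValuationSubring F)
    (hB₂ : ∀ x ∈ B, x ∈ V₂)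
    (hπ₂ : (algebraMap R F π)⁻¹ ∉ V₂)
    (hσe : (algebraMap R F π)⁻¹ * σ ^ e ∈ V₂)
    (hunif₂ : ∀ x : F, V₂.valuation x < 1 → x * σ⁻¹ ∈ V₂)
    (hS₂ : tl71_MidSmooth π σ B V₂.toSubring)
    (n : Ideal B) (hn : n.IsMaximal) (hπn : algebraMap R B π ∈ n)
    (hD₂ : mc25_MidPrinAt σ B V₂.toSubring n)
    (hOn : sf79_OnBr π B V₂.toSubring n) :
    hp84_BrData B V₂ n ∧
      ∃ x y : B, x ∈ n ∧ y ∈ n ∧
        ∀ v ∈ n, ∃ s : B, s ∉ n ∧ ∃ a b : B, s * v = a * x + b * y := by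
  have hnp : n.IsPrime := hn.isPrime
  have hσv : V₂.valuation σ < 1 :=
    ld55_val_lt_of_pow V₂ σ e (ld84_val_lt V₂ _ _ hπ₂ hσe)
  have hmid : tl71_OnMid σ B V₂.toSubring n :=
    lps9_onMid_of_onBr π σ e B V₂.toSubring hσ0 hσe n hOn
  obtain ⟨z, hzn, hz⟩ := hS₂ n hn hπn hmid
  obtain ⟨g, t, ht, hgn, hprin⟩ := hD₂
  have hdiv : ∀ y : F, y * σ⁻¹ ∈ V₂ → V₂.valuation y < 1 := by
    intro y hy
    have e1 : y = (y * σ⁻¹) * σ := by field_simp
    rw [e1]
    exact gc26_mul V₂ hy hσv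
  have hPn : ∀ x : B, (x : F) ∈ ld55_mV V₂ → x ∈ n := fun x hx => hmid x (hunif₂ _ hx)
  have hz' : ∀ x ∈ n, ∃ s : B, s ∉ n ∧ ∃ a : B,
      (s : F) * (x : F) - (a : F) * (z : F) ∈ ld55_mV V₂ := by
    intro x hx
    obtain ⟨s, hs, a, ha⟩ := hz x hx
    exact ⟨s, hs, a, hdiv _ ha⟩
  have h2 : ∃ x y : B, x ∈ n ∧ y ∈ n ∧
      ∀ v ∈ n, ∃ s : B, s ∉ n ∧ ∃ a b : B, s * v = a * x + b * y := by
    refine ⟨z, g, hzn, hgn, ?_⟩
    refine tl71_max_two n (fun y : B => (y : F) * σ⁻¹ ∈ V₂) z g t ht ?_ ?_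
    · intro x hx
      obtain ⟨s, hs, a, ha⟩ := hz x hx
      refine ⟨s, hs, a, ?_⟩
      show ((s * x - a * z : B) : F) * σ⁻¹ ∈ V₂
      push_cast
      exact ha
    · intro y hy
      exact hprin y hy
  refine ⟨?_, h2⟩
  by_cases hg : (g : F) ∈ ld55_mV V₂
  · refine ⟨z, g, hzn, hz', hg, ?_⟩
    intro x hx
    obtain ⟨b, hb⟩ := hprin x (hunif₂ _ hx)
    exact ⟨t, ht, b, hb⟩
  · obtain ⟨ξ, hξ, hgen⟩ := hp1m55_prin_of_two B V₂ hB₂ n hPn h2 g hgn hg
    exact ⟨z, ξ, hzn, hz', hξ, hgen⟩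

end Mid

section HP1

variable {R K F1 F2 : Type*} [CommRing R] [Field K] [Field F1] [Field F2] [Algebra R K]
  [Algebra K F1] [Algebra R F2] [Algebra K F2]

omit [Algebra K F2] in
/-- **(HP-1) without (REG) and with the weak middle input**: the package `cp57_HP1` from the
frame facts of the three-branch chart, (3a) for the three branches, and `mc25_MidPrinAt` at the
closed points lying on the middle branch only. -/
theorem hp1m55_HP1 (π : R) (σ : F2) (e : ℕ) (q m : ℕ) (hm : 0 < m)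
    (B : Subalgebra R F2) [IsNoetherianRing B]
    (al be : F1 →+* F2) (Nal Nbe : F2 →* F1)
    (V₁ V₂ V₃ : ValuationSubring F2) (Vinf V0 : ValuationSubring F1)
    (hB₁ : ∀ x ∈ B, x ∈ V₁) (hB₂ : ∀ x ∈ B, x ∈ V₂) (hB₃ : ∀ x ∈ B, x ∈ V₃)
    (hsat : ∀ x ∈ B, (algebraMap R F2 π)⁻¹ * x ∈ V₁ → (algebraMap R F2 π)⁻¹ * x ∈ V₂ →
      (algebraMap R F2 π)⁻¹ * x ∈ V₃ → (algebraMap R F2 π)⁻¹ * x ∈ B)
    (hπ0 : algebraMap R F2 π ≠ 0) (hσ0 : σ ≠ 0)
    (hσe : (algebraMap R F2 π)⁻¹ * σ ^ e ∈ V₂)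
    (hπ₁ : (algebraMap R F2 π)⁻¹ ∉ V₁) (hπ₂ : (algebraMap R F2 π)⁻¹ ∉ V₂)
    (hπ₃ : (algebraMap R F2 π)⁻¹ ∉ V₃)
    (hrad₁ : ∀ x ∈ V₁, x⁻¹ ∉ V₁ → ∃ k : ℕ, (algebraMap R F2 π)⁻¹ * x ^ k ∈ V₁)
    (hrad₂ : ∀ x ∈ V₂, x⁻¹ ∉ V₂ → ∃ k : ℕ, (algebraMap R F2 π)⁻¹ * x ^ k ∈ V₂)
    (hrad₃ : ∀ x ∈ V₃, x⁻¹ ∉ V₃ → ∃ k : ℕ, (algebraMap R F2 π)⁻¹ * x ^ k ∈ V₃)
    (harch₁ : ∀ x ∈ B, x ≠ 0 → ∃ k : ℕ, (algebraMap R F2 π ^ k)⁻¹ * x ∉ V₁)
    (harch₂ : ∀ x ∈ B, x ≠ 0 → ∃ k : ℕ, (algebraMap R F2 π ^ k)⁻¹ * x ∉ V₂)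
    (harch₃ : ∀ x ∈ B, x ≠ 0 → ∃ k : ℕ, (algebraMap R F2 π ^ k)⁻¹ * x ∉ V₃)
    (hfrac : ∀ t : F2, ∃ a ∈ B, ∃ b ∈ B, b ≠ 0 ∧ t * b = a)
    (hmB : ∃ μ ∈ B, (m : F2) * μ = 1)
    (hunif₁ : ∀ x : F2, V₁.valuation x < 1 → (algebraMap R F2 π)⁻¹ * x ∈ V₁)
    (hunif₂ : ∀ x : F2, V₂.valuation x < 1 → x * σ⁻¹ ∈ V₂)
    (hunif₃ : ∀ x : F2, V₃.valuation x < 1 → (algebraMap R F2 π)⁻¹ * x ∈ V₃)
    (hKr : s34i47_Krull π B)
    (hS₁ : sf79_Smooth π B V₁.toSubring) (hS₃ : sf79_Smooth π B V₃.toSubring)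
    (hS₂ : tl71_MidSmooth π σ B V₂.toSubring)
    (hD₂ : ∀ n : Ideal B, n.IsMaximal → algebraMap R B π ∈ n → tl71_OnMid σ B V₂.toSubring n →
      ¬ sf79_OnBr π B V₁.toSubring n → ¬ sf79_OnBr π B V₃.toSubring n →
      mc25_MidPrinAt σ B V₂.toSubring n) :
    cp57_HP1 (K := K) π q m B al be Nal Nbe V₁ V₂ V₃ Vinf V0 := by
  classical
  intro u cu Au tinf t0 du Bu sinf s0 θ hu0 hOrd hFin hdata hθ n hn hπn hone
  have hnp : n.IsPrime := hn.isPrime
  obtain ⟨hθ0, -, -, -, -, hu21, hu22, hu23⟩ := hθ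
  obtain ⟨hv1, hv2, hv3, -⟩ := hdata
  -- `u` is a unit of each `V i`
  have hunit : ∀ V : ValuationSubring F2, V.valuation (u - 1) < 1 → u ∈ V ∧ u⁻¹ ∈ V := by
    intro V hV
    have e1 : u = 1 + (u - 1) := by ring
    constructor
    · rw [e1]; exact add_mem (one_mem _) (gc26_mem V hV)
    · rw [e1]; exact ld84_one_add_inv V _ hV
  -- the family `![V₁, V₂, V₃]`
  have hBV : ∀ i : Fin 3, ∀ x ∈ B, x ∈ (![V₁, V₂, V₃] : Fin 3 → ValuationSubring F2) i := by
    intro i; fin_cases i <;> assumption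
  have hπV : ∀ i : Fin 3,
      (algebraMap R F2 π)⁻¹ ∉ (![V₁, V₂, V₃] : Fin 3 → ValuationSubring F2) i := by
    intro i; fin_cases i <;> assumption
  have hrad : ∀ i : Fin 3, ∀ x ∈ (![V₁, V₂, V₃] : Fin 3 → ValuationSubring F2) i,
      x⁻¹ ∉ (![V₁, V₂, V₃] : Fin 3 → ValuationSubring F2) i →
      ∃ k : ℕ, (algebraMap R F2 π)⁻¹ * x ^ k ∈ (![V₁, V₂, V₃] : Fin 3 → ValuationSubring F2) i := by
    intro i; fin_cases i <;> assumption
  have harch : ∀ i : Fin 3, ∀ x ∈ B, x ≠ 0 → ∃ k : ℕ,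
      (algebraMap R F2 π ^ k)⁻¹ * x ∉ (![V₁, V₂, V₃] : Fin 3 → ValuationSubring F2) i := by
    intro i; fin_cases i <;> assumption
  have hu2V : ∀ i : Fin 3, (algebraMap R F2 π)⁻¹ * (cp57_u2 q m u θ - 1)
      ∈ (![V₁, V₂, V₃] : Fin 3 → ValuationSubring F2) i := by
    intro i; fin_cases i <;> assumption
  have hsat' : ∀ x ∈ B,
      (∀ i : Fin 3, (algebraMap R F2 π)⁻¹ * x ∈ (![V₁, V₂, V₃] : Fin 3 → ValuationSubring F2) i) →
      (algebraMap R F2 π)⁻¹ * x ∈ B :=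
    fun x hx h => hsat x hx (h 0) (h 1) (h 2)
  have huV : ∀ i : Fin 3,
      sf79_OnBr π B ((![V₁, V₂, V₃] : Fin 3 → ValuationSubring F2) i).toSubring n →
      u ∈ (![V₁, V₂, V₃] : Fin 3 → ValuationSubring F2) i ∧
        u⁻¹ ∈ (![V₁, V₂, V₃] : Fin 3 → ValuationSubring F2) i := by
    intro i _
    fin_cases i
    · exact hunit V₁ hv1
    · exact hunit V₂ hv2
    · exact hunit V₃ hv3
  -- the branch through `n`: its data and two generators of `n B_n`
  have key0 : ∃ i₀ : Fin 3,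
      (∀ i : Fin 3,
        sf79_OnBr π B ((![V₁, V₂, V₃] : Fin 3 → ValuationSubring F2) i).toSubring n → i = i₀) ∧
      hp84_BrData B ((![V₁, V₂, V₃] : Fin 3 → ValuationSubring F2) i₀) n ∧
      ∃ x y : B, x ∈ n ∧ y ∈ n ∧
        ∀ v ∈ n, ∃ s : B, s ∉ n ∧ ∃ a b : B, s * v = a * x + b * y := by
    by_cases h1 : sf79_OnBr π B V₁.toSubring n
    · have h2' : ¬ sf79_OnBr π B V₂.toSubring n := fun h => hone.1 ⟨h1, h⟩
      have h3' : ¬ sf79_OnBr π B V₃.toSubring n := fun h => hone.2.1 ⟨h1, h⟩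
      refine ⟨0, ?_, hp84_brData_red π hπ0 B V₁ V₂ V₃ hB₁ hB₂ hB₃ hsat
        hπ₁ hunif₁ hS₁ n hn hπn h1 h2' h3', ?_⟩
      · intro i hi
        fin_cases i
        · rfl
        · exact absurd hi h2'
        · exact absurd hi h3'
      · obtain ⟨z₀, hz₀⟩ := hS₁ n hn hπn h1
        obtain ⟨t', ht'n, ht'V⟩ := lps9_off π B V₂ n h2'
        obtain ⟨t'', ht''n, ht''V⟩ := lps9_off π B V₃ n h3'
        refine tl71_two_of_smooth π B V₁.toSubring V₂.toSubring V₃.toSubring hB₁ hB₂ hB₃ hsat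
          hπ0 n hπn z₀ hz₀ (t' * t'') (fun h => (hnp.mem_or_mem h).elim ht'n ht''n) ?_ ?_
        · show (algebraMap R F2 π)⁻¹ * ((t' * t'' : B) : F2) ∈ V₂
          push_cast
          rw [← mul_assoc]
          exact mul_mem ht'V (hB₂ _ t''.2)
        · show (algebraMap R F2 π)⁻¹ * ((t' * t'' : B) : F2) ∈ V₃
          push_cast
          have e1 : (algebraMap R F2 π)⁻¹ * ((t' : F2) * (t'' : F2))
              = (t' : F2) * ((algebraMap R F2 π)⁻¹ * (t'' : F2)) := by ring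
          rw [e1]
          exact mul_mem (hB₃ _ t'.2) ht''V
    · by_cases h3 : sf79_OnBr π B V₃.toSubring n
      · have h2' : ¬ sf79_OnBr π B V₂.toSubring n := fun h => hone.2.2 ⟨h, h3⟩
        refine ⟨2, ?_, hp84_brData_red π hπ0 B V₃ V₂ V₁ hB₃ hB₂ hB₁
          (fun x hx h3x h2x h1x => hsat x hx h1x h2x h3x) hπ₃ hunif₃ hS₃ n hn hπn h3 h2' h1, ?_⟩
        · intro i hi
          fin_cases i
          · exact absurd hi h1
          · exact absurd hi h2'
          · rfl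
        · obtain ⟨z₀, hz₀⟩ := hS₃ n hn hπn h3
          obtain ⟨t', ht'n, ht'V⟩ := lps9_off π B V₂ n h2'
          obtain ⟨t'', ht''n, ht''V⟩ := lps9_off π B V₁ n h1
          refine tl71_two_of_smooth π B V₃.toSubring V₂.toSubring V₁.toSubring hB₃ hB₂ hB₁
            (fun x hx h3x h2x h1x => hsat x hx h1x h2x h3x)
            hπ0 n hπn z₀ hz₀ (t' * t'') (fun h => (hnp.mem_or_mem h).elim ht'n ht''n) ?_ ?_
          · show (algebraMap R F2 π)⁻¹ * ((t' * t'' : B) : F2) ∈ V₂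
            push_cast
            rw [← mul_assoc]
            exact mul_mem ht'V (hB₂ _ t''.2)
          · show (algebraMap R F2 π)⁻¹ * ((t' * t'' : B) : F2) ∈ V₁
            push_cast
            have e1 : (algebraMap R F2 π)⁻¹ * ((t' : F2) * (t'' : F2))
                = (t' : F2) * ((algebraMap R F2 π)⁻¹ * (t'' : F2)) := by ring
            rw [e1]
            exact mul_mem (hB₁ _ t'.2) ht''V
      · by_cases h2' : sf79_OnBr π B V₂.toSubring n
        · have hmid : tl71_OnMid σ B V₂.toSubring n :=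
            lps9_onMid_of_onBr π σ e B V₂.toSubring hσ0 hσe n h2'
          obtain ⟨hbr, hgen2⟩ := hp1m55_brData_mid π σ e hσ0 B V₂ hB₂ hπ₂ hσe hunif₂ hS₂
            n hn hπn (hD₂ n hn hπn hmid h1 h3) h2'
          refine ⟨1, ?_, hbr, hgen2⟩
          intro i hi
          fin_cases i
          · exact absurd hi h1
          · rfl
          · exact absurd hi h3
        · -- no branch through `n`: impossible by saturation
          exfalso
          obtain ⟨t₁, ht₁n, ht₁V⟩ := lps9_off π B V₁ n h1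
          obtain ⟨t₂, ht₂n, ht₂V⟩ := lps9_off π B V₂ n h2'
          obtain ⟨t₃, ht₃n, ht₃V⟩ := lps9_off π B V₃ n h3
          have hmem : (t₁ : F2) * (t₂ : F2) * (t₃ : F2) ∈ B :=
            B.mul_mem (B.mul_mem t₁.2 t₂.2) t₃.2
          have c1 : (algebraMap R F2 π)⁻¹ * ((t₁ : F2) * (t₂ : F2) * (t₃ : F2)) ∈ V₁ := by
            have e1 : (algebraMap R F2 π)⁻¹ * ((t₁ : F2) * (t₂ : F2) * (t₃ : F2))
                = ((algebraMap R F2 π)⁻¹ * (t₁ : F2)) * ((t₂ : F2) * (t₃ : F2)) := by ring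
            rw [e1]
            exact mul_mem ht₁V (mul_mem (hB₁ _ t₂.2) (hB₁ _ t₃.2))
          have c2 : (algebraMap R F2 π)⁻¹ * ((t₁ : F2) * (t₂ : F2) * (t₃ : F2)) ∈ V₂ := by
            have e1 : (algebraMap R F2 π)⁻¹ * ((t₁ : F2) * (t₂ : F2) * (t₃ : F2))
                = ((algebraMap R F2 π)⁻¹ * (t₂ : F2)) * ((t₁ : F2) * (t₃ : F2)) := by ring
            rw [e1]
            exact mul_mem ht₂V (mul_mem (hB₂ _ t₁.2) (hB₂ _ t₃.2))
          have c3 : (algebraMap R F2 π)⁻¹ * ((t₁ : F2) * (t₂ : F2) * (t₃ : F2)) ∈ V₃ := by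
            have e1 : (algebraMap R F2 π)⁻¹ * ((t₁ : F2) * (t₂ : F2) * (t₃ : F2))
                = ((algebraMap R F2 π)⁻¹ * (t₃ : F2)) * ((t₁ : F2) * (t₂ : F2)) := by ring
            rw [e1]
            exact mul_mem ht₃V (mul_mem (hB₃ _ t₁.2) (hB₃ _ t₂.2))
          have hb := hsat _ hmem c1 c2 c3
          have heq : t₁ * t₂ * t₃
              = algebraMap R B π * ⟨_, hb⟩ := by
            apply Subtype.ext
            show (t₁ : F2) * (t₂ : F2) * (t₃ : F2)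
              = algebraMap R F2 π * ((algebraMap R F2 π)⁻¹ * ((t₁ : F2) * (t₂ : F2) * (t₃ : F2)))
            field_simp
          have hmemn : t₁ * t₂ * t₃ ∈ n := by
            rw [heq]
            exact n.mul_mem_right _ hπn
          rcases hnp.mem_or_mem hmemn with h | h
          · rcases hnp.mem_or_mem h with h | h
            · exact ht₁n h
            · exact ht₂n h
          · exact ht₃n h
  obtain ⟨i₀, huniq, ⟨z, ξ, hzn, hz, hξ, hgen⟩, h2⟩ := key0
  -- the local root of `u` at `n` (no separation needed: at most one branch through `n`)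
  have hsep : ∀ i j : Fin 3, i ≠ j →
      sf79_OnBr π B ((![V₁, V₂, V₃] : Fin 3 → ValuationSubring F2) i).toSubring n →
      sf79_OnBr π B ((![V₁, V₂, V₃] : Fin 3 → ValuationSubring F2) j).toSubring n →
      ∃ E : B, (E : F2) ≠ 0 ∧
        (algebraMap R F2 π)⁻¹ * (E : F2) ∈ (![V₁, V₂, V₃] : Fin 3 → ValuationSubring F2) j ∧
        (E : F2)⁻¹ ∈ (![V₁, V₂, V₃] : Fin 3 → ValuationSubring F2) i := by
    intro i j hij hi hj
    exact absurd ((huniq i hi).trans (huniq j hj).symm) hij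
  obtain ⟨c, hc0, -, -, hε, hε'⟩ :=
    lps9_strong_at π hπ0 B hfrac (![V₁, V₂, V₃] : Fin 3 → ValuationSubring F2) hBV hπV hrad hsat'
      n hn hπn h2 (hKr n hn hπn) hsep m hm u hu0 huV (fun O hO _ => hOrd O hO)
      (hFin.subset fun _ hO => ⟨hO.1, hO.2.2⟩)
  -- the local root of `u₂`
  have hcm0 : c ^ m ≠ 0 := pow_ne_zero _ hc0
  have hu20 : cp57_u2 q m u θ ≠ 0 := by
    unfold cp57_u2
    exact pow_ne_zero _ (mul_ne_zero (pow_ne_zero _ hu0) (pow_ne_zero _ hθ0))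
  have hc20 : (c ^ ((q - 1 + 2) * (q - 1)) * θ) ^ q ≠ 0 :=
    pow_ne_zero _ (mul_ne_zero (pow_ne_zero _ hc0) hθ0)
  have hε₂ : cp57_u2 q m u θ / ((c ^ ((q - 1 + 2) * (q - 1)) * θ) ^ q) ^ m ∈ sf79_loc B n := by
    have e1 : cp57_u2 q m u θ / ((c ^ ((q - 1 + 2) * (q - 1)) * θ) ^ q) ^ m
        = ((u / c ^ m) ^ ((q - 1 + 2) * (q - 1))) ^ q := by
      rw [div_eq_iff (pow_ne_zero _ hc20)]
      have hu_eq : u = (u / c ^ m) * c ^ m := by field_simp
      unfold cp57_u2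
      conv_lhs => rw [hu_eq]
      ring
    rw [e1]
    exact pow_mem (pow_mem hε _) _
  have hε₂' : ((c ^ ((q - 1 + 2) * (q - 1)) * θ) ^ q) ^ m / cp57_u2 q m u θ ∈ sf79_loc B n := by
    have e1 : ((c ^ ((q - 1 + 2) * (q - 1)) * θ) ^ q) ^ m / cp57_u2 q m u θ
        = ((c ^ m / u) ^ ((q - 1 + 2) * (q - 1))) ^ q := by
      rw [div_eq_iff hu20]
      have hc_eq : c ^ m = (c ^ m / u) * u := by field_simp
      unfold cp57_u2
      calc ((c ^ ((q - 1 + 2) * (q - 1)) * θ) ^ q) ^ m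
          = ((c ^ m) ^ ((q - 1 + 2) * (q - 1))) ^ q * (θ ^ m) ^ q := by ring
        _ = (((c ^ m / u) * u) ^ ((q - 1 + 2) * (q - 1))) ^ q * (θ ^ m) ^ q := by rw [← hc_eq]
        _ = ((c ^ m / u) ^ ((q - 1 + 2) * (q - 1))) ^ q
            * (u ^ ((q - 1 + 2) * (q - 1)) * θ ^ m) ^ q := by ring
    rw [e1]
    exact pow_mem (pow_mem hε' _) _
  obtain ⟨φ, hφ, s, hs, hsφ⟩ :=
    ld55_datum_at_one π m hm B hmB (![V₁, V₂, V₃] : Fin 3 → ValuationSubring F2)
      hBV hπV hrad harch hfrac n (hn := hn) (cp57_u2 q m u θ) hu2V _ hc20 hε₂ hε₂' i₀ huniq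
      z hzn hz ξ hξ hgen
  exact ⟨φ, Subring.mem_inf.mpr ⟨Subring.mem_inf.mpr ⟨hφ 0, hφ 1⟩, hφ 2⟩, s, hs, hsφ⟩

end HP1

end Fermat.Agent.S36
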