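import Mathlib
import Fermat.Agent.S36.HPOneCanonMid55
import Fermat.Agent.S36.MidCuspFrame25

/-!
# S36 lab, row 605 (HP-1), helper55: the canonical `cp57_HP1` from the `j`-REGULAR `C₂`-only
points alone

`hp1c55_final2/3` (HPOneCanonMid55) composed with helper25's cusp discharge
`mc25_hD2_level2/3(_inv)` (MidCuspFrame25).  The ONLY remaining hypothesis of conjuncts (3), (4)
of `cf57_Six` (CoreFinal57) is, on each of the two charts `B` of the Hauptmodul,

  `hp1r55_Reg M' q hq hM' hπ V₂ B` := at every closed point `n` of `B` on the middle branch only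
  at which `j` is regular (`∃ s' b : B, s' ∉ n ∧ s' * rm90_j K (M' q q) = b`):
  `mc25_MidPrinAt (v2g64_s K M' q) B V₂.toSubring n`

= literally the hypothesis `hreg` of `mc25_hD2_level2/3(_inv)` and of `mc25_tg_level2/3`
(TwoGenMid25) = the output of row 600 (`tl71_MidDivAt` gives it by `mc25_prinAt_of_midDiv`).

* `hp1r55_Reg`;
* `hp1r55_D2_level2`, `hp1r55_D2_level3` : `hp1r55_Reg → hp1c55_D2` on both charts (any `π`
  associated to `q`);
* `hp1r55_final2`, `hp1r55_final3` : conjuncts (3), (4) of `cf57_Six` in the literal binder shape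
  of `cf57_result`, from `hp1r55_Reg` on the two charts.

All names are prefixed `hp1r55_`.
-/

set_option autoImplicit false
set_option linter.unusedSectionVars false
set_option linter.unusedVariables false
set_option linter.style.haveILetI false
set_option linter.style.longLine false

open ModularCurve AlgebraicCurve

namespace Fermat.Agent.S36

open Fermat.Agent.S18 Fermat.Agent.S24 Fermat.Agent.S28 Fermat.Agent.S34 Fermat.Agent.S35
open Fermat.Agent.S36.TripleLoc71

local notation "Q̄" => AlgebraicClosure ℚ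

section HP1R55

variable {R K : Type} [CommRing R] [IsDomain R] [IsDiscreteValuationRing R] [Field K]
  [NumberField K] [Algebra R K] [IsFractionRing R K] [Algebra K Q̄] [Algebra.IsAlgebraic K Q̄]
  (M' q : ℕ) [NeZero M'] [NeZero q] (hq : q.Prime) (hM' : ¬ q ∣ M')
  {π : R} (hπ : Irreducible π)
  [Algebra R ↥(modularFunctionFieldFullC K M')]
  [IsScalarTower R K ↥(modularFunctionFieldFullC K M')]
  [Algebra R ↥(modularFunctionFieldFullC K (M' * q))]
  [IsScalarTower R K ↥(modularFunctionFieldFullC K (M' * q))]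
  [Algebra R ↥(modularFunctionFieldFullC K (M' * q * q))]
  [IsScalarTower R K ↥(modularFunctionFieldFullC K (M' * q * q))]

/-- **The remaining hypothesis at the `j`-regular points** (row 600): the middle branch is
principal at the closed points of the chart `B` lying on the middle branch only at which `j` is
regular; literally the hypothesis `hreg` of `mc25_hD2_level2/3(_inv)`. -/
def hp1r55_Reg (V₂ : ValuationSubring ↥(modularFunctionFieldFullC K (M' * q * q)))
    (B : Subalgebra R ↥(modularFunctionFieldFullC K (M' * q * q))) : Prop :=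
  ∀ n : Ideal B, n.IsMaximal → algebraMap R B π ∈ n →
    tl71_OnMid (v2g64_s K M' q) B V₂.toSubring n →
    ¬ sf79_OnBr π B (cm85_Vinf (K := K) (M' * q * q) hπ).toSubring n →
    ¬ sf79_OnBr π B (nsb86_V3 (K := K) M' q hq hM' hπ).toSubring n →
    (∃ s' b : B, s' ∉ n ∧
      (s' : ↥(modularFunctionFieldFullC K (M' * q * q))) * rm90_j K (M' * q * q) = (b : ↥(modularFunctionFieldFullC K (M' * q * q)))) →
    mc25_MidPrinAt (v2g64_s K M' q) B V₂.toSubring n

include hq hM' in
/-- **`hp1c55_D2` on the two canonical charts of the Hauptmodul of level 2** from the statement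
at the `C₂`-only points where `j` is regular (`hp1r55_Reg`): the cuspidal points are discharged by
helper25's `mc25_hD2_level2`, `mc25_hD2_level2_inv`. -/
theorem hp1r55_D2_level2 (hqπ : Associated ((q : ℕ) : R) π)
    (hunit : ∀ n : ℕ, Nat.Coprime n q → IsUnit (n : R))
    (hqR : ¬ IsUnit (q : R)) (hMu : IsUnit (M' : R)) (h2 : 2 ∣ M')
    (V₂ : ValuationSubring ↥(modularFunctionFieldFullC K (M' * q * q)))
    (hV₂ : ∀ c ∈ cm85_Vinf (K := K) (M' * q) hπ, al97L_alpha K (M' * q) q c ∈ V₂)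
    (hπ₂ : (algebraMap K ↥(modularFunctionFieldFullC K (M' * q * q)) (algebraMap R K π))⁻¹ ∉ V₂)
    (hs : V₂.valuation (v2g64_s K M' q) ^ (q - 1) =
      V₂.valuation (algebraMap K ↥(modularFunctionFieldFullC K (M' * q * q)) (algebraMap R K π))) :
    (hp1r55_Reg (K := K) M' q hq hM' hπ V₂ (pk15_chart R ({(pk85_h2 K (M' * q * q) (h2.trans ((dvd_mul_right M' q).trans (dvd_mul_right (M' * q) q))))} : Set ↥(modularFunctionFieldFullC K (M' * q * q)))) →
      hp1c55_D2 (K := K) M' q hq hM' hπ V₂ (pk15_chart R ({(pk85_h2 K (M' * q * q) (h2.trans ((dvd_mul_right M' q).trans (dvd_mul_right (M' * q) q))))} : Set ↥(modularFunctionFieldFullC K (M' * q * q))))) ∧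
    (hp1r55_Reg (K := K) M' q hq hM' hπ V₂ (pk15_chart R ({(pk85_h2 K (M' * q * q) (h2.trans ((dvd_mul_right M' q).trans (dvd_mul_right (M' * q) q))))⁻¹} : Set ↥(modularFunctionFieldFullC K (M' * q * q)))) →
      hp1c55_D2 (K := K) M' q hq hM' hπ V₂ (pk15_chart R ({(pk85_h2 K (M' * q * q) (h2.trans ((dvd_mul_right M' q).trans (dvd_mul_right (M' * q) q))))⁻¹} : Set ↥(modularFunctionFieldFullC K (M' * q * q))))) := by
  have hq2 : q ≠ 2 := by
    rintro rfl
    exact hM' h2
  have hne := hp84c_ne (K := K) M' q hq hπ V₂ hπ₂ hs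
  obtain ⟨-, hC, -⟩ := fb85_frameV3_level2 M' q hq hM' hπ hqR hMu h2 V₂ hV₂ hπ₂ hs
  obtain ⟨htr, h12W, hsat1, hsat2, -, hN₁, hN₂, hfin, hfrac⟩ := hC
  have eR : algebraMap R ↥(modularFunctionFieldFullC K (M' * q * q)) π =
      algebraMap K ↥(modularFunctionFieldFullC K (M' * q * q)) (algebraMap R K π) :=
    IsScalarTower.algebraMap_apply R K _ π
  obtain ⟨uu, huq⟩ := id hqπ
  have hqu : ((q : ℕ) : R) = ((uu⁻¹ : Rˣ) : R) * π := by
    rw [← huq, mul_comm ((q : ℕ) : R), ← mul_assoc, ← Units.val_mul, inv_mul_cancel,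
      Units.val_one, one_mul]
  have hu2 : IsUnit (2 : R) := by
    have := hunit 2 ((Nat.coprime_primes Nat.prime_two hq).mpr (Ne.symm hq2))
    simpa using this
  have hsub1 : ({(pk85_h2 K (M' * q * q) (h2.trans ((dvd_mul_right M' q).trans (dvd_mul_right (M' * q) q))))} : Set ↥(modularFunctionFieldFullC K (M' * q * q))) ⊆ {(pk85_h2 K (M' * q * q) (h2.trans ((dvd_mul_right M' q).trans (dvd_mul_right (M' * q) q)))), (pk85_h2 K (M' * q * q) (h2.trans ((dvd_mul_right M' q).trans (dvd_mul_right (M' * q) q))))⁻¹} := by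
    intro x hx
    rw [Set.mem_singleton_iff.mp hx]
    exact Set.mem_insert _ _
  have hsub2 : ({(pk85_h2 K (M' * q * q) (h2.trans ((dvd_mul_right M' q).trans (dvd_mul_right (M' * q) q))))⁻¹} : Set ↥(modularFunctionFieldFullC K (M' * q * q))) ⊆ {(pk85_h2 K (M' * q * q) (h2.trans ((dvd_mul_right M' q).trans (dvd_mul_right (M' * q) q)))), (pk85_h2 K (M' * q * q) (h2.trans ((dvd_mul_right M' q).trans (dvd_mul_right (M' * q) q))))⁻¹} := by
    intro x hx
    rw [Set.mem_singleton_iff.mp hx]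
    exact Set.mem_insert_of_mem _ rfl
  refine ⟨fun hreg => ?_, fun hreg => ?_⟩
  · exact mc25_hD2_level2 (R := R) (K := K) M' q hq hM' hπ hqR h2 hu2 ((uu⁻¹ : Rˣ) : R) (uu : R)
      (by rw [← Units.val_mul, inv_mul_cancel, Units.val_one]) hqu V₂ (fun c hc => hV₂ c hc)
      (by rw [eR]; exact hπ₂) hne _ (by rw [eR]; exact hs) (v2g64_s_coe K M' q) _ _
      (fun x hx => (h12W x (pk15_chart_mono hsub1 hx)).1.1)
      (fun x hx => (h12W x (pk15_chart_mono hsub1 hx)).1.2)
      (fun x hx => (h12W x (pk15_chart_mono hsub1 hx)).2)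
      (fun x hx h1 h2 h3 => hsat1 x hx ⟨⟨h1, h2⟩, h3⟩) hreg
  · exact mc25_hD2_level2_inv (R := R) (K := K) M' q hq hM' hπ hqR h2 ((uu⁻¹ : Rˣ) : R) (uu : R)
      (by rw [← Units.val_mul, inv_mul_cancel, Units.val_one]) hqu V₂ (fun c hc => hV₂ c hc)
      (by rw [eR]; exact hπ₂) hne _ (by rw [eR]; exact hs) (v2g64_s_coe K M' q) _ _
      (fun x hx => (h12W x (pk15_chart_mono hsub2 hx)).1.1)
      (fun x hx => (h12W x (pk15_chart_mono hsub2 hx)).1.2)
      (fun x hx => (h12W x (pk15_chart_mono hsub2 hx)).2)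
      (fun x hx h1 h2 h3 => hsat2 x hx ⟨⟨h1, h2⟩, h3⟩) hreg

include hq hM' in
/-- **`hp1c55_D2` on the two canonical charts of the Hauptmodul of level 3** from the statement
at the `C₂`-only points where `j` is regular (`hp1r55_Reg`): the cuspidal points are discharged by
helper25's `mc25_hD2_level3`, `mc25_hD2_level3_inv`. -/
theorem hp1r55_D2_level3 (hqπ : Associated ((q : ℕ) : R) π)
    (hunit : ∀ n : ℕ, Nat.Coprime n q → IsUnit (n : R))
    (hqR : ¬ IsUnit (q : R)) (hMu : IsUnit (M' : R)) (h3 : 3 ∣ M')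
    (V₂ : ValuationSubring ↥(modularFunctionFieldFullC K (M' * q * q)))
    (hV₂ : ∀ c ∈ cm85_Vinf (K := K) (M' * q) hπ, al97L_alpha K (M' * q) q c ∈ V₂)
    (hπ₂ : (algebraMap K ↥(modularFunctionFieldFullC K (M' * q * q)) (algebraMap R K π))⁻¹ ∉ V₂)
    (hs : V₂.valuation (v2g64_s K M' q) ^ (q - 1) =
      V₂.valuation (algebraMap K ↥(modularFunctionFieldFullC K (M' * q * q)) (algebraMap R K π))) :
    (hp1r55_Reg (K := K) M' q hq hM' hπ V₂ (pk15_chart R ({(pk85_h3 K (M' * q * q) (h3.trans ((dvd_mul_right M' q).trans (dvd_mul_right (M' * q) q))))} : Set ↥(modularFunctionFieldFullC K (M' * q * q)))) →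
      hp1c55_D2 (K := K) M' q hq hM' hπ V₂ (pk15_chart R ({(pk85_h3 K (M' * q * q) (h3.trans ((dvd_mul_right M' q).trans (dvd_mul_right (M' * q) q))))} : Set ↥(modularFunctionFieldFullC K (M' * q * q))))) ∧
    (hp1r55_Reg (K := K) M' q hq hM' hπ V₂ (pk15_chart R ({(pk85_h3 K (M' * q * q) (h3.trans ((dvd_mul_right M' q).trans (dvd_mul_right (M' * q) q))))⁻¹} : Set ↥(modularFunctionFieldFullC K (M' * q * q)))) →
      hp1c55_D2 (K := K) M' q hq hM' hπ V₂ (pk15_chart R ({(pk85_h3 K (M' * q * q) (h3.trans ((dvd_mul_right M' q).trans (dvd_mul_right (M' * q) q))))⁻¹} : Set ↥(modularFunctionFieldFullC K (M' * q * q))))) := by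
  have hq3 : q ≠ 3 := by
    rintro rfl
    exact hM' h3
  have hne := hp84c_ne (K := K) M' q hq hπ V₂ hπ₂ hs
  obtain ⟨-, hC, -⟩ := fb85_frameV3_level3 M' q hq hM' hπ hqR hMu h3 V₂ hV₂ hπ₂ hs
  obtain ⟨htr, h12W, hsat1, hsat2, -, hN₁, hN₂, hfin, hfrac⟩ := hC
  have eR : algebraMap R ↥(modularFunctionFieldFullC K (M' * q * q)) π =
      algebraMap K ↥(modularFunctionFieldFullC K (M' * q * q)) (algebraMap R K π) :=
    IsScalarTower.algebraMap_apply R K _ π
  obtain ⟨uu, huq⟩ := id hqπ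
  have hqu : ((q : ℕ) : R) = ((uu⁻¹ : Rˣ) : R) * π := by
    rw [← huq, mul_comm ((q : ℕ) : R), ← mul_assoc, ← Units.val_mul, inv_mul_cancel,
      Units.val_one, one_mul]
  have hu3 : IsUnit (3 : R) := by
    have := hunit 3 ((Nat.coprime_primes Nat.prime_three hq).mpr (Ne.symm hq3))
    simpa using this
  have hsub1 : ({(pk85_h3 K (M' * q * q) (h3.trans ((dvd_mul_right M' q).trans (dvd_mul_right (M' * q) q))))} : Set ↥(modularFunctionFieldFullC K (M' * q * q))) ⊆ {(pk85_h3 K (M' * q * q) (h3.trans ((dvd_mul_right M' q).trans (dvd_mul_right (M' * q) q)))), (pk85_h3 K (M' * q * q) (h3.trans ((dvd_mul_right M' q).trans (dvd_mul_right (M' * q) q))))⁻¹} := by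
    intro x hx
    rw [Set.mem_singleton_iff.mp hx]
    exact Set.mem_insert _ _
  have hsub2 : ({(pk85_h3 K (M' * q * q) (h3.trans ((dvd_mul_right M' q).trans (dvd_mul_right (M' * q) q))))⁻¹} : Set ↥(modularFunctionFieldFullC K (M' * q * q))) ⊆ {(pk85_h3 K (M' * q * q) (h3.trans ((dvd_mul_right M' q).trans (dvd_mul_right (M' * q) q)))), (pk85_h3 K (M' * q * q) (h3.trans ((dvd_mul_right M' q).trans (dvd_mul_right (M' * q) q))))⁻¹} := by
    intro x hx
    rw [Set.mem_singleton_iff.mp hx]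
    exact Set.mem_insert_of_mem _ rfl
  refine ⟨fun hreg => ?_, fun hreg => ?_⟩
  · exact mc25_hD2_level3 (R := R) (K := K) M' q hq hM' hπ hqR h3 hu3 ((uu⁻¹ : Rˣ) : R) (uu : R)
      (by rw [← Units.val_mul, inv_mul_cancel, Units.val_one]) hqu V₂ (fun c hc => hV₂ c hc)
      (by rw [eR]; exact hπ₂) hne _ (by rw [eR]; exact hs) (v2g64_s_coe K M' q) _ _
      (fun x hx => (h12W x (pk15_chart_mono hsub1 hx)).1.1)
      (fun x hx => (h12W x (pk15_chart_mono hsub1 hx)).1.2)
      (fun x hx => (h12W x (pk15_chart_mono hsub1 hx)).2)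
      (fun x hx h1 h2 h3 => hsat1 x hx ⟨⟨h1, h2⟩, h3⟩) hreg
  · exact mc25_hD2_level3_inv (R := R) (K := K) M' q hq hM' hπ hqR h3 ((uu⁻¹ : Rˣ) : R) (uu : R)
      (by rw [← Units.val_mul, inv_mul_cancel, Units.val_one]) hqu V₂ (fun c hc => hV₂ c hc)
      (by rw [eR]; exact hπ₂) hne _ (by rw [eR]; exact hs) (v2g64_s_coe K M' q) _ _
      (fun x hx => (h12W x (pk15_chart_mono hsub2 hx)).1.1)
      (fun x hx => (h12W x (pk15_chart_mono hsub2 hx)).1.2)
      (fun x hx => (h12W x (pk15_chart_mono hsub2 hx)).2)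
      (fun x hx h1 h2 h3 => hsat2 x hx ⟨⟨h1, h2⟩, h3⟩) hreg

end HP1R55

section Final1R55

/-- **Conjuncts (3), (4) of `cf57_Six` (CoreFinal57), Hauptmodul of level 2**, in the literal
binder shape of `cf57_result` (`π = (q : R)`, `m = p ^ n`, `V₂` with the three facts of
`cf57_IsMid`), from `hp1r55_Reg` (the middle branch is principal at the `C₂`-only points where
`j` is regular) on the two charts. -/
theorem hp1r55_final2 (M' q p : ℕ) [NeZero M'] [NeZero q] (hq : q.Prime) (hM' : ¬ q ∣ M')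
    (h2 : 2 ∣ M') (hp : p.Prime) (hpq : p ≠ q) (n : ℕ)
    (R K : Type) [CommRing R] [IsDomain R] [IsDiscreteValuationRing R] [Field K]
    [NumberField K] [Algebra K Q̄] [Algebra R K] [IsFractionRing R K]
    [Algebra R ↥(modularFunctionFieldFullC K (M' * q * q))]
    [IsScalarTower R K ↥(modularFunctionFieldFullC K (M' * q * q))]
    (hπ : Irreducible ((q : ℕ) : R)) (hunit : ∀ k : ℕ, Nat.Coprime k q → IsUnit (k : R))
    (V₂ : ValuationSubring ↥(modularFunctionFieldFullC K (M' * q * q)))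
    (hV₂ : ∀ c ∈ cm85_Vinf (K := K) (M' * q) hπ, al97L_alpha K (M' * q) q c ∈ V₂)
    (hπ₂ : (algebraMap K ↥(modularFunctionFieldFullC K (M' * q * q)) (algebraMap R K ((q : ℕ) : R)))⁻¹ ∉ V₂)
    (hs : V₂.valuation (v2g64_s K M' q) ^ (q - 1) =
      V₂.valuation (algebraMap K ↥(modularFunctionFieldFullC K (M' * q * q)) (algebraMap R K ((q : ℕ) : R))))
    (hD : hp1r55_Reg (K := K) M' q hq hM' hπ V₂ (pk15_chart R ({(pk85_h2 K (M' * q * q) (h2.trans ((dvd_mul_right M' q).trans (dvd_mul_right (M' * q) q))))} : Set ↥(modularFunctionFieldFullC K (M' * q * q)))))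
    (hD' : hp1r55_Reg (K := K) M' q hq hM' hπ V₂ (pk15_chart R ({(pk85_h2 K (M' * q * q) (h2.trans ((dvd_mul_right M' q).trans (dvd_mul_right (M' * q) q))))⁻¹} : Set ↥(modularFunctionFieldFullC K (M' * q * q))))) :
    cp57_HP1 (K := K) ((q : ℕ) : R) q (p ^ n) (pk15_chart R ({(pk85_h2 K (M' * q * q) (h2.trans ((dvd_mul_right M' q).trans (dvd_mul_right (M' * q) q))))} : Set ↥(modularFunctionFieldFullC K (M' * q * q))))
        (al97L_alpha K (M' * q) q).toRingHom
        (al97L_beta K (M' * q) q).toRingHom (s35i62_normA K (M' * q) q)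
        (s35i62_normB K (M' * q) q) (cm85_Vinf (K := K) (M' * q * q) hπ) V₂
        (nsb86_V3 (K := K) M' q hq hM' hπ) (cm85_Vinf (K := K) (M' * q) hπ)
        (s34i47c_V0 (K := K) M' q hq hM' hπ) ∧
    cp57_HP1 (K := K) ((q : ℕ) : R) q (p ^ n) (pk15_chart R ({(pk85_h2 K (M' * q * q) (h2.trans ((dvd_mul_right M' q).trans (dvd_mul_right (M' * q) q))))⁻¹} : Set ↥(modularFunctionFieldFullC K (M' * q * q))))
        (al97L_alpha K (M' * q) q).toRingHom
        (al97L_beta K (M' * q) q).toRingHom (s35i62_normA K (M' * q) q)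
        (s35i62_normB K (M' * q) q) (cm85_Vinf (K := K) (M' * q * q) hπ) V₂
        (nsb86_V3 (K := K) M' q hq hM' hπ) (cm85_Vinf (K := K) (M' * q) hπ)
        (s34i47c_V0 (K := K) M' q hq hM' hπ) := by
  haveI : Algebra.IsAlgebraic K Q̄ := cx_isAlgebraic_closure K
  letI a1 : Algebra R ↥(modularFunctionFieldFullC K M') :=
    ((algebraMap K ↥(modularFunctionFieldFullC K M')).comp (algebraMap R K)).toAlgebra
  haveI : IsScalarTower R K ↥(modularFunctionFieldFullC K M') :=
    IsScalarTower.of_algebraMap_eq (fun _ => rfl)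
  letI a2 : Algebra R ↥(modularFunctionFieldFullC K (M' * q)) :=
    ((algebraMap K ↥(modularFunctionFieldFullC K (M' * q))).comp (algebraMap R K)).toAlgebra
  haveI : IsScalarTower R K ↥(modularFunctionFieldFullC K (M' * q)) :=
    IsScalarTower.of_algebraMap_eq (fun _ => rfl)
  have hqR : ¬ IsUnit ((q : ℕ) : R) := hπ.not_isUnit
  have hMu : IsUnit (M' : R) :=
    hunit M' (Nat.coprime_comm.mp ((Nat.Prime.coprime_iff_not_dvd hq).mpr hM'))
  obtain ⟨d1, d2⟩ := hp1r55_D2_level2 (K := K) M' q hq hM' hπ (Associated.refl _) hunit hqR hMu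
    h2 V₂ hV₂ hπ₂ hs
  exact hp1c55_final2 M' q p hq hM' h2 hp hpq n R K hπ hunit V₂ hV₂ hπ₂ hs (d1 hD) (d2 hD')

/-- **Conjuncts (3), (4) of `cf57_Six` (CoreFinal57), Hauptmodul of level 3**, in the literal
binder shape of `cf57_result` (`π = (q : R)`, `m = p ^ n`, `V₂` with the three facts of
`cf57_IsMid`), from `hp1r55_Reg` (the middle branch is principal at the `C₂`-only points where
`j` is regular) on the two charts. -/
theorem hp1r55_final3 (M' q p : ℕ) [NeZero M'] [NeZero q] (hq : q.Prime) (hM' : ¬ q ∣ M')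
    (h3 : 3 ∣ M') (hp : p.Prime) (hpq : p ≠ q) (n : ℕ)
    (R K : Type) [CommRing R] [IsDomain R] [IsDiscreteValuationRing R] [Field K]
    [NumberField K] [Algebra K Q̄] [Algebra R K] [IsFractionRing R K]
    [Algebra R ↥(modularFunctionFieldFullC K (M' * q * q))]
    [IsScalarTower R K ↥(modularFunctionFieldFullC K (M' * q * q))]
    (hπ : Irreducible ((q : ℕ) : R)) (hunit : ∀ k : ℕ, Nat.Coprime k q → IsUnit (k : R))
    (V₂ : ValuationSubring ↥(modularFunctionFieldFullC K (M' * q * q)))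
    (hV₂ : ∀ c ∈ cm85_Vinf (K := K) (M' * q) hπ, al97L_alpha K (M' * q) q c ∈ V₂)
    (hπ₂ : (algebraMap K ↥(modularFunctionFieldFullC K (M' * q * q)) (algebraMap R K ((q : ℕ) : R)))⁻¹ ∉ V₂)
    (hs : V₂.valuation (v2g64_s K M' q) ^ (q - 1) =
      V₂.valuation (algebraMap K ↥(modularFunctionFieldFullC K (M' * q * q)) (algebraMap R K ((q : ℕ) : R))))
    (hD : hp1r55_Reg (K := K) M' q hq hM' hπ V₂ (pk15_chart R ({(pk85_h3 K (M' * q * q) (h3.trans ((dvd_mul_right M' q).trans (dvd_mul_right (M' * q) q))))} : Set ↥(modularFunctionFieldFullC K (M' * q * q)))))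
    (hD' : hp1r55_Reg (K := K) M' q hq hM' hπ V₂ (pk15_chart R ({(pk85_h3 K (M' * q * q) (h3.trans ((dvd_mul_right M' q).trans (dvd_mul_right (M' * q) q))))⁻¹} : Set ↥(modularFunctionFieldFullC K (M' * q * q))))) :
    cp57_HP1 (K := K) ((q : ℕ) : R) q (p ^ n) (pk15_chart R ({(pk85_h3 K (M' * q * q) (h3.trans ((dvd_mul_right M' q).trans (dvd_mul_right (M' * q) q))))} : Set ↥(modularFunctionFieldFullC K (M' * q * q))))
        (al97L_alpha K (M' * q) q).toRingHom
        (al97L_beta K (M' * q) q).toRingHom (s35i62_normA K (M' * q) q)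
        (s35i62_normB K (M' * q) q) (cm85_Vinf (K := K) (M' * q * q) hπ) V₂
        (nsb86_V3 (K := K) M' q hq hM' hπ) (cm85_Vinf (K := K) (M' * q) hπ)
        (s34i47c_V0 (K := K) M' q hq hM' hπ) ∧
    cp57_HP1 (K := K) ((q : ℕ) : R) q (p ^ n) (pk15_chart R ({(pk85_h3 K (M' * q * q) (h3.trans ((dvd_mul_right M' q).trans (dvd_mul_right (M' * q) q))))⁻¹} : Set ↥(modularFunctionFieldFullC K (M' * q * q))))
        (al97L_alpha K (M' * q) q).toRingHom
        (al97L_beta K (M' * q) q).toRingHom (s35i62_normA K (M' * q) q)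
        (s35i62_normB K (M' * q) q) (cm85_Vinf (K := K) (M' * q * q) hπ) V₂
        (nsb86_V3 (K := K) M' q hq hM' hπ) (cm85_Vinf (K := K) (M' * q) hπ)
        (s34i47c_V0 (K := K) M' q hq hM' hπ) := by
  haveI : Algebra.IsAlgebraic K Q̄ := cx_isAlgebraic_closure K
  letI a1 : Algebra R ↥(modularFunctionFieldFullC K M') :=
    ((algebraMap K ↥(modularFunctionFieldFullC K M')).comp (algebraMap R K)).toAlgebra
  haveI : IsScalarTower R K ↥(modularFunctionFieldFullC K M') :=
    IsScalarTower.of_algebraMap_eq (fun _ => rfl)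
  letI a2 : Algebra R ↥(modularFunctionFieldFullC K (M' * q)) :=
    ((algebraMap K ↥(modularFunctionFieldFullC K (M' * q))).comp (algebraMap R K)).toAlgebra
  haveI : IsScalarTower R K ↥(modularFunctionFieldFullC K (M' * q)) :=
    IsScalarTower.of_algebraMap_eq (fun _ => rfl)
  have hqR : ¬ IsUnit ((q : ℕ) : R) := hπ.not_isUnit
  have hMu : IsUnit (M' : R) :=
    hunit M' (Nat.coprime_comm.mp ((Nat.Prime.coprime_iff_not_dvd hq).mpr hM'))
  obtain ⟨d1, d2⟩ := hp1r55_D2_level3 (K := K) M' q hq hM' hπ (Associated.refl _) hunit hqR hMu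
    h3 V₂ hV₂ hπ₂ hs
  exact hp1c55_final3 M' q p hq hM' h3 hp hpq n R K hπ hunit V₂ hV₂ hπ₂ hs (d1 hD) (d2 hD')

end Final1R55

end Fermat.Agent.S36
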