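import Mathlib
import Fermat.Agent.S36.FinalHB92
import Fermat.Agent.S36.TwistCanon33
import Fermat.Agent.S36.HPOneCanonReg55

/-!
# S36 lab, row 605 INV-core (helper57, integrator): the CLOSING CHAIN

`fhb92_result` (helper92, on `cf57_result`) asks at every strongly rigid level for a middle
valuation with `cf57_IsMid` and the five (HP) packages `fhb92_Five`.  Here the middle valuation is
the canonical `V₂ = v2g64_V2 (algebraMap K ℚ̄) M' q hq hM' hπ (Associated.refl _)` and

* (HP-T) is `tc33_hpt` (helper33);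
* (HP-1) on both charts is `hp1r55_final2/3` (helper55) from row C-C2 at the `j`-regular
  `C₂`-only points in the principal form `hp1r55_Reg`;
* (HP-3) on both charts is taken as a hypothesis in the literal `cp57_HP3` shape
  (`hp3g94_level2/3`, helper94, from the per-point triple data).

So: `cc57_result : cc57_C2two → cc57_C2three → cc57_T2 → cc57_T3 → (conclusion of frozen S36)`.

All names are prefixed `cc57_`.
-/

set_option autoImplicit false
set_option linter.style.longLine false
set_option linter.unusedVariables false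
set_option linter.unusedSectionVars false
set_option linter.style.haveILetI false

open ModularCurve AlgebraicCurve Polynomial

namespace Fermat.Agent.S36

open Fermat.Agent.S18 Fermat.Agent.S24 Fermat.Agent.S37 Fermat.Agent.S34 Fermat.Agent.S35

local notation "Q̄" => AlgebraicClosure ℚ

/-- **Row C-C2 for the Hauptmodul of level 2** (`q ≠ 2`, `2 ∣ M'`) at the strongly rigid levels:
the middle branch is principal at the `j`-regular `C₂`-only closed points of both charts. -/
def cc57_C2two : Prop :=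
  ∀ (M' q r : ℕ) [NeZero M'] [NeZero q] (hq : q.Prime) (hM' : ¬ q ∣ M')
    (h2 : 2 ∣ M'), q ≠ 2 → s36c67_Rigid6 (M' * q) q r →
    ∀ (R K : Type) [CommRing R] [IsDomain R] [IsDiscreteValuationRing R] [Field K]
      [NumberField K] [Algebra K Q̄] [Algebra R K] [IsFractionRing R K]
      [Algebra R ↥(modularFunctionFieldFullC K (M' * q * q))]
      [IsScalarTower R K ↥(modularFunctionFieldFullC K (M' * q * q))]
      (hπ : Irreducible ((q : ℕ) : R)), (∀ k : ℕ, Nat.Coprime k q → IsUnit (k : R)) →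
      hp1r55_Reg (K := K) M' q hq hM' hπ
          (v2g64_V2 (algebraMap K Q̄) M' q hq hM' hπ (Associated.refl _))
          (pk15_chart R ({pk85_h2 K (M' * q * q)
            (h2.trans ((dvd_mul_right M' q).trans (dvd_mul_right (M' * q) q)))} :
              Set ↥(modularFunctionFieldFullC K (M' * q * q)))) ∧
        hp1r55_Reg (K := K) M' q hq hM' hπ
          (v2g64_V2 (algebraMap K Q̄) M' q hq hM' hπ (Associated.refl _))
          (pk15_chart R ({(pk85_h2 K (M' * q * q)
            (h2.trans ((dvd_mul_right M' q).trans (dvd_mul_right (M' * q) q))))⁻¹} :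
              Set ↥(modularFunctionFieldFullC K (M' * q * q))))

/-- **Row C-C2 for the Hauptmodul of level 3** (`q = 2`, `3 ∣ M'`). -/
def cc57_C2three : Prop :=
  ∀ (M' q r : ℕ) [NeZero M'] [NeZero q] (hq : q.Prime) (hM' : ¬ q ∣ M')
    (h3 : 3 ∣ M'), q = 2 → s36c67_Rigid6 (M' * q) q r →
    ∀ (R K : Type) [CommRing R] [IsDomain R] [IsDiscreteValuationRing R] [Field K]
      [NumberField K] [Algebra K Q̄] [Algebra R K] [IsFractionRing R K]
      [Algebra R ↥(modularFunctionFieldFullC K (M' * q * q))]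
      [IsScalarTower R K ↥(modularFunctionFieldFullC K (M' * q * q))]
      (hπ : Irreducible ((q : ℕ) : R)), (∀ k : ℕ, Nat.Coprime k q → IsUnit (k : R)) →
      hp1r55_Reg (K := K) M' q hq hM' hπ
          (v2g64_V2 (algebraMap K Q̄) M' q hq hM' hπ (Associated.refl _))
          (pk15_chart R ({pk85_h3 K (M' * q * q)
            (h3.trans ((dvd_mul_right M' q).trans (dvd_mul_right (M' * q) q)))} :
              Set ↥(modularFunctionFieldFullC K (M' * q * q)))) ∧
        hp1r55_Reg (K := K) M' q hq hM' hπ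
          (v2g64_V2 (algebraMap K Q̄) M' q hq hM' hπ (Associated.refl _))
          (pk15_chart R ({(pk85_h3 K (M' * q * q)
            (h3.trans ((dvd_mul_right M' q).trans (dvd_mul_right (M' * q) q))))⁻¹} :
              Set ↥(modularFunctionFieldFullC K (M' * q * q))))

/-- **(HP-3) for the Hauptmodul of level 2** on both canonical charts, every exponent `p ^ n`. -/
def cc57_T2 : Prop :=
  ∀ (M' q p r : ℕ) [NeZero M'] [NeZero q] (hq : q.Prime) (hM' : ¬ q ∣ M')
    (h2 : 2 ∣ M'), q ≠ 2 → s36c67_Rigid6 (M' * q) q r → p.Prime → p ≠ q → ∀ n : ℕ,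
    ∀ (R K : Type) [CommRing R] [IsDomain R] [IsDiscreteValuationRing R] [Field K]
      [NumberField K] [Algebra K Q̄] [Algebra R K] [IsFractionRing R K]
      [Algebra R ↥(modularFunctionFieldFullC K (M' * q * q))]
      [IsScalarTower R K ↥(modularFunctionFieldFullC K (M' * q * q))]
      (hπ : Irreducible ((q : ℕ) : R)), (∀ k : ℕ, Nat.Coprime k q → IsUnit (k : R)) →
      cp57_HP3 (K := K) ((q : ℕ) : R) q (p ^ n)
          (pk15_chart R ({pk85_h2 K (M' * q * q)
            (h2.trans ((dvd_mul_right M' q).trans (dvd_mul_right (M' * q) q)))} :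
              Set ↥(modularFunctionFieldFullC K (M' * q * q))))
          (al97L_alpha K (M' * q) q).toRingHom (al97L_beta K (M' * q) q).toRingHom
          (s35i62_normA K (M' * q) q) (s35i62_normB K (M' * q) q)
          (cm85_Vinf (K := K) (M' * q * q) hπ)
          (v2g64_V2 (algebraMap K Q̄) M' q hq hM' hπ (Associated.refl _))
          (nsb86_V3 (K := K) M' q hq hM' hπ) (cm85_Vinf (K := K) (M' * q) hπ)
          (s34i47c_V0 (K := K) M' q hq hM' hπ) ∧
        cp57_HP3 (K := K) ((q : ℕ) : R) q (p ^ n)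
          (pk15_chart R ({(pk85_h2 K (M' * q * q)
            (h2.trans ((dvd_mul_right M' q).trans (dvd_mul_right (M' * q) q))))⁻¹} :
              Set ↥(modularFunctionFieldFullC K (M' * q * q))))
          (al97L_alpha K (M' * q) q).toRingHom (al97L_beta K (M' * q) q).toRingHom
          (s35i62_normA K (M' * q) q) (s35i62_normB K (M' * q) q)
          (cm85_Vinf (K := K) (M' * q * q) hπ)
          (v2g64_V2 (algebraMap K Q̄) M' q hq hM' hπ (Associated.refl _))
          (nsb86_V3 (K := K) M' q hq hM' hπ) (cm85_Vinf (K := K) (M' * q) hπ)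
          (s34i47c_V0 (K := K) M' q hq hM' hπ)

/-- **(HP-3) for the Hauptmodul of level 3** (`q = 2`, `3 ∣ M'`) on both canonical charts. -/
def cc57_T3 : Prop :=
  ∀ (M' q p r : ℕ) [NeZero M'] [NeZero q] (hq : q.Prime) (hM' : ¬ q ∣ M')
    (h3 : 3 ∣ M'), q = 2 → s36c67_Rigid6 (M' * q) q r → p.Prime → p ≠ q → ∀ n : ℕ,
    ∀ (R K : Type) [CommRing R] [IsDomain R] [IsDiscreteValuationRing R] [Field K]
      [NumberField K] [Algebra K Q̄] [Algebra R K] [IsFractionRing R K]
      [Algebra R ↥(modularFunctionFieldFullC K (M' * q * q))]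
      [IsScalarTower R K ↥(modularFunctionFieldFullC K (M' * q * q))]
      (hπ : Irreducible ((q : ℕ) : R)), (∀ k : ℕ, Nat.Coprime k q → IsUnit (k : R)) →
      cp57_HP3 (K := K) ((q : ℕ) : R) q (p ^ n)
          (pk15_chart R ({pk85_h3 K (M' * q * q)
            (h3.trans ((dvd_mul_right M' q).trans (dvd_mul_right (M' * q) q)))} :
              Set ↥(modularFunctionFieldFullC K (M' * q * q))))
          (al97L_alpha K (M' * q) q).toRingHom (al97L_beta K (M' * q) q).toRingHom
          (s35i62_normA K (M' * q) q) (s35i62_normB K (M' * q) q)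
          (cm85_Vinf (K := K) (M' * q * q) hπ)
          (v2g64_V2 (algebraMap K Q̄) M' q hq hM' hπ (Associated.refl _))
          (nsb86_V3 (K := K) M' q hq hM' hπ) (cm85_Vinf (K := K) (M' * q) hπ)
          (s34i47c_V0 (K := K) M' q hq hM' hπ) ∧
        cp57_HP3 (K := K) ((q : ℕ) : R) q (p ^ n)
          (pk15_chart R ({(pk85_h3 K (M' * q * q)
            (h3.trans ((dvd_mul_right M' q).trans (dvd_mul_right (M' * q) q))))⁻¹} :
              Set ↥(modularFunctionFieldFullC K (M' * q * q))))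
          (al97L_alpha K (M' * q) q).toRingHom (al97L_beta K (M' * q) q).toRingHom
          (s35i62_normA K (M' * q) q) (s35i62_normB K (M' * q) q)
          (cm85_Vinf (K := K) (M' * q * q) hπ)
          (v2g64_V2 (algebraMap K Q̄) M' q hq hM' hπ (Associated.refl _))
          (nsb86_V3 (K := K) M' q hq hM' hπ) (cm85_Vinf (K := K) (M' * q) hπ)
          (s34i47c_V0 (K := K) M' q hq hM' hπ)

/-- **The conclusion of the frozen statement S36 from row C-C2 (`j`-regular `C₂`-only points,
principal form) and (HP-3)** on the canonical frame with the canonical middle valuation. -/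
theorem cc57_result (hC2 : cc57_C2two) (hC3 : cc57_C2three) (hT2 : cc57_T2) (hT3 : cc57_T3)
    {M : ℕ} [NeZero M] {g : CuspForm (CongruenceSubgroup.Gamma0 M) 2} (hg : g.IsNewform)
    (lam : ℕ) [Fact lam.Prime]
    (S : Finset ℕ)
    (O' : Type) [CommRing O'] [IsDomain O'] [IsDiscreteValuationRing O']
    [IsAdicComplete (IsLocalRing.maximalIdeal O') O'] [Finite (IsLocalRing.ResidueField O')]
    [CharZero O'] (hlamO' : (lam : O') ∈ IsLocalRing.maximalIdeal O')
    (chig : CuspForm.heckeAlgebra M 2 (↑S : Set ℕ) →+* ℂ)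
    (hchig : ∀ (ℓ : ℕ) (hℓ : ℓ.Prime) (hℓM : ¬ ℓ ∣ M) (hℓS : ℓ ∉ (↑S : Set ℕ)),
      chig (CuspForm.heckeAlgebra.T hℓ hℓM hℓS) = ModularFormClass.qCoeff g ℓ)
    (iota : chig.range →+* O')
    (hlamS : lam ∈ S) (hMS : ∀ q : ℕ, q.Prime → q ∣ M → q ∈ S) :
    ∃ (O'' : Type) (_ : CommRing O'') (_ : IsDomain O'') (_ : IsDiscreteValuationRing O'')
      (_ : IsAdicComplete (IsLocalRing.maximalIdeal O'') O'') (_ : Finite (IsLocalRing.ResidueField O''))
      (_ : CharZero O'') (_ : Algebra O' O'') (_ : Module.Finite O' O'') (_ : IsLocalHom (algebraMap O' O'')),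
      Function.Injective (algebraMap O' O'') ∧
      ∃ ρ : GaloisRepAdic O'',
        (∀ (ℓ : ℕ) (hℓ : ℓ.Prime) (hℓM : ¬ ℓ ∣ M) (hℓS : ℓ ∉ (↑S : Set ℕ)),
          ∀ A : ValuationSubring (AlgebraicClosure ℚ), A.LiesOverPrime ℓ →
            ∀ σ : AlgebraicClosure ℚ ≃ₐ[ℚ] AlgebraicClosure ℚ, A.IsFrobeniusAt σ ℓ →
              LinearMap.charpoly (ρ.ρ σ) =
                X ^ 2 - C (algebraMap O' O'' ((iota.comp chig.rangeRestrict) (CuspForm.heckeAlgebra.T hℓ hℓM hℓS))) * X
                  + C ((ℓ : O''))) ∧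
        (∀ q : ℕ, q.Prime → q ≠ lam → M.factorization q = 2 → ¬ ρ.IsUnipotentOnInertiaAt q) := by
  refine fhb92_result ?_ ?_ hg lam S O' hlamO' chig hchig iota hlamS hMS
  · intro M' q p r _ _ hq hM' h2 hq2 hrig hp hpq n R K _ _ _ _ _ _ _ _ _ _ hπ hunit
    have hmid := fhb92_isMid M' q hq hM' R K hπ
    have hne := v2g64_V2_ne (algebraMap K Q̄) M' q hq hM' hπ (Associated.refl _)
    obtain ⟨hD, hD'⟩ := hC2 M' q r hq hM' h2 hq2 hrig R K hπ hunit
    obtain ⟨h1, h1'⟩ := hp1r55_final2 M' q p hq hM' h2 hp hpq n R K hπ hunit _ hmid.1 hmid.2.1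
      hmid.2.2 hD hD'
    obtain ⟨h3, h3'⟩ := hT2 M' q p r hq hM' h2 hq2 hrig hp hpq n R K hπ hunit
    exact ⟨_, hmid, tc33_hpt M' q (p ^ n) hq hM' R K hπ _ hmid.1 hmid.2.1 hne hmid.2.2,
      h1, h1', h3, h3'⟩
  · intro M' q p r _ _ hq hM' h3 hq2 hrig hp hpq n R K _ _ _ _ _ _ _ _ _ _ hπ hunit
    have hmid := fhb92_isMid M' q hq hM' R K hπ
    have hne := v2g64_V2_ne (algebraMap K Q̄) M' q hq hM' hπ (Associated.refl _)
    obtain ⟨hD, hD'⟩ := hC3 M' q r hq hM' h3 hq2 hrig R K hπ hunit
    obtain ⟨h1, h1'⟩ := hp1r55_final3 M' q p hq hM' h3 hp hpq n R K hπ hunit _ hmid.1 hmid.2.1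
      hmid.2.2 hD hD'
    obtain ⟨h3', h3''⟩ := hT3 M' q p r hq hM' h3 hq2 hrig hp hpq n R K hπ hunit
    exact ⟨_, hmid, tc33_hpt M' q (p ^ n) hq hM' R K hπ _ hmid.1 hmid.2.1 hne hmid.2.2,
      h1, h1', h3', h3''⟩

end Fermat.Agent.S36
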