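import Fermat.Agent.S36.CoreIface57
import Fermat.Agent.S36.GateCofinal67
import Fermat.Agent.S36.PkgFieldDef77

/-!
# S36 lab (helper77): the three frame packages (HF) + (HB) + (HP) at the STRONGLY RIGID levels,
or at ONE cofinal level, give the gate packages

`ci57x_pkg_core` (helper57, `CoreIface57`) proves `s36i62_Pkg_Core` from (HF) + (HB) + (HP) at
every level with `s36i62_Rigid`.  The gate of helper67 (`GateCofinal67`) accepts weaker inputs:

* `cg77_core6_of_frame` : (HF) + (HB) + (HP) at the levels with `s36c67_Rigid6` (both `2 ∣ N`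
  and `3 ∣ N` when allowed) ⟹ `s36c67_Pkg_Core6`;
* `cg77_cofinal_of_frame` : (HF) + (HB) + (HP) at ONE multiple `M₁` of every `M` prime to `q`
  (any auxiliary level structure whatsoever) ⟹ `s36c67_Pkg_Cofinal`
  (through `ci57x_core` and the descent package `pfd77_ffInv_of_core`).

Assembly lines: `s36c67_result_of_core6 (cg77_core6_of_frame hX) pfd77_pkg_fieldDef …` or
`s36c67_result (cg77_cofinal_of_frame hX) …`.

All names are prefixed `cg77_`.
-/

set_option autoImplicit false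
set_option linter.style.longLine false
set_option linter.unusedVariables false

open ModularCurve AlgebraicCurve

namespace Fermat.Agent.S36

open Fermat.Agent.S18 Fermat.Agent.S34 Fermat.Agent.S35

local notation "Q̄" => AlgebraicClosure ℚ

/-- The constant of `ci57x_core` is nonzero. -/
theorem cg77_const_ne_zero {q : ℕ} (hq : q.Prime) :
    (q + 1) * (q - 1) * (q ^ 2 - 1) * ((q - 1 + 2) * (q - 1)) * q ≠ 0 := by
  have hq2 : 2 ≤ q := hq.two_le
  have h1 : 0 < q - 1 := by omega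
  have h2 : 0 < q ^ 2 - 1 := by
    have : 4 ≤ q ^ 2 := by nlinarith
    omega
  positivity

/-- **(HF) + (HB) + (HP) at the strongly rigid levels ⟹ `s36c67_Pkg_Core6`.** -/
theorem cg77_core6_of_frame
    (hX : ∀ (N q p r : ℕ) [NeZero N] [NeZero q], q.Prime → q ∣ N → ¬ q ^ 2 ∣ N →
      s36c67_Rigid6 N q r → p.Prime → p ≠ q → ∀ n : ℕ,
      ∀ (R K : Type) [CommRing R] [IsDomain R] [IsDiscreteValuationRing R] [Field K]
        [NumberField K] [Algebra K Q̄] [Algebra R K] [IsFractionRing R K]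
        [Algebra R ↥(modularFunctionFieldFullC K (N * q))]
        [IsScalarTower R K ↥(modularFunctionFieldFullC K (N * q))],
        Irreducible ((q : ℕ) : R) → (∀ k : ℕ, Nat.Coprime k q → IsUnit (k : R)) →
        ∃ (h : ↥(modularFunctionFieldFullC K (N * q)))
          (V₁ V₂ V₃ : ValuationSubring ↥(modularFunctionFieldFullC K (N * q)))
          (Vinf V0 : ValuationSubring ↥(modularFunctionFieldFullC K N)),
          ci57x_HF K ((q : ℕ) : R) h V₁ V₂ V₃ ∧
          ci57x_HB N q (p ^ n) R K V₁ V₂ V₃ Vinf V0 ∧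
          ci57x_HP (K := K) ((q : ℕ) : R) q (p ^ n) h (s35i62_normA K N q)
            (s35i62_normB K N q) V₁ V₂ V₃ Vinf V0) :
    s36c67_Pkg_Core6 := by
  intro N q p r _ _ hq hqN hq2 hrig hp hpq
  refine ⟨(q + 1) * (q - 1) * (q ^ 2 - 1) * ((q - 1 + 2) * (q - 1)) * q,
    cg77_const_ne_zero hq, fun n => ?_⟩
  intro R K _ _ _ _ _ _ _ _ _ _ hπ hunit f a b ca cb hf ha hb hca hcb hord hNa hNb
  obtain ⟨h, V₁, V₂, V₃, Vinf, V0, hF, hB, hP⟩ :=
    hX N q p r hq hqN hq2 hrig hp hpq n R K hπ hunit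
  exact ci57x_core N q (p ^ n) (pow_pos hp.pos n) hπ
    (hunit (p ^ n) (Nat.Coprime.pow_left n ((Nat.coprime_primes hp hq).mpr hpq)))
    h V₁ V₂ V₃ Vinf V0 hF hB hP f a b ca cb hf ha hb hca hcb hord hNa hNb

/-- **(HF) + (HB) + (HP) at ONE multiple `M₁` of every `M` prime to `q` ⟹ P-COFINAL** (the
freest gate input of `GateCofinal67`): CORE36 at level `M₁ q` by `ci57x_core`, then (FF-INV)
there by the descent package `pfd77_ffInv_of_core`. -/
theorem cg77_cofinal_of_frame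
    (hX : ∀ (M q p : ℕ) [NeZero M] [NeZero q], q.Prime → ¬ q ∣ M → p.Prime → p ≠ q →
      ∃ (M₁ : ℕ) (_ : NeZero M₁), M ∣ M₁ ∧ ¬ q ∣ M₁ ∧ ∀ n : ℕ,
      ∀ (R K : Type) [CommRing R] [IsDomain R] [IsDiscreteValuationRing R] [Field K]
        [NumberField K] [Algebra K Q̄] [Algebra R K] [IsFractionRing R K]
        [Algebra R ↥(modularFunctionFieldFullC K (M₁ * q * q))]
        [IsScalarTower R K ↥(modularFunctionFieldFullC K (M₁ * q * q))],
        Irreducible ((q : ℕ) : R) → (∀ k : ℕ, Nat.Coprime k q → IsUnit (k : R)) →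
        ∃ (h : ↥(modularFunctionFieldFullC K (M₁ * q * q)))
          (V₁ V₂ V₃ : ValuationSubring ↥(modularFunctionFieldFullC K (M₁ * q * q)))
          (Vinf V0 : ValuationSubring ↥(modularFunctionFieldFullC K (M₁ * q))),
          ci57x_HF K ((q : ℕ) : R) h V₁ V₂ V₃ ∧
          ci57x_HB (M₁ * q) q (p ^ n) R K V₁ V₂ V₃ Vinf V0 ∧
          ci57x_HP (K := K) ((q : ℕ) : R) q (p ^ n) h (s35i62_normA K (M₁ * q) q)
            (s35i62_normB K (M₁ * q) q) V₁ V₂ V₃ Vinf V0) :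
    s36c67_Pkg_Cofinal := by
  intro M q p _ _ hq hqM hp hpq
  obtain ⟨M₁, hM₁, hMM, hqM₁, hX'⟩ := hX M q p hq hqM hp hpq
  refine ⟨M₁, hM₁, hMM, hqM₁, (q + 1) * (q - 1) * (q ^ 2 - 1) * ((q - 1 + 2) * (q - 1)) * q,
    cg77_const_ne_zero hq, fun n => ?_⟩
  refine pfd77_ffInv_of_core (M₁ * q) q (p ^ n) _ hq (dvd_mul_left q M₁) (pow_pos hp.pos n) ?_
  intro R K _ _ _ _ _ _ _ _ _ _ hπ hunit f a b ca cb hf ha hb hca hcb hord hNa hNb
  obtain ⟨h, V₁, V₂, V₃, Vinf, V0, hF, hB, hP⟩ := hX' n R K hπ hunit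
  exact ci57x_core (M₁ * q) q (p ^ n) (pow_pos hp.pos n) hπ
    (hunit (p ^ n) (Nat.Coprime.pow_left n ((Nat.coprime_primes hp hq).mpr hpq)))
    h V₁ V₂ V₃ Vinf V0 hF hB hP f a b ca cb hf ha hb hca hcb hord hNa hNb

end Fermat.Agent.S36
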