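import Mathlib
import Fermat.Agent.S36.CoreHP1_84
import Fermat.Agent.S36.MidCuspGen25

/-!
# S36 lab, row 605 (HP-1), helper97: `cp57_HP1` with the middle branch in PRINCIPAL form

`hp84_HP1` (helper84, `CoreHP1_84`) asks, at the closed points lying on `C₂` only, for the
divisor `tl71_MidDivAt` (a generator of the middle branch which is a unit along `V₁`, `V₃`).
At the cusps of `C₂` only the weaker principal form `mc25_MidPrinAt` (helper25, `MidCuspGen25`)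
is available (`mc25_hD2_level2/3`, `MidCuspFrame25`).  This file is the same package with the
hypothesis `hD₂` in the form `mc25_MidPrinAt`:

* `hp97_gen_val_lt` : Krull's intersection theorem in `B_n`: if `t * p₂ ⊆ g B`, `t ∉ n`, `g ∈ n`
  (`p₂ = {y ∈ B | v₂ y < 1} ∋ π ≠ 0`, `B` noetherian), then `g ∈ p₂`;
* `hp97_brData_mid` : coordinate + generator of the middle branch at a point of `C₂` only from
  `tl71_MidSmooth` and `mc25_MidPrinAt` (twin of `hp84_brData_mid`);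
* `hp97_HP1` : `cp57_HP1`, hypotheses literally those of `hp84_HP1` except `hD₂`, which is
  literally the `hD₂` of `mc25_twoGen`.
-/

set_option autoImplicit false

namespace Fermat.Agent.S36

open Fermat.Agent.S18 Fermat.Agent.S34 Fermat.Agent.S35 Fermat.Agent.S36.TripleLoc71

section BranchPrin97

variable {R F : Type*} [CommRing R] [Field F] [Algebra R F]

/-- **Krull**: a local generator `g ∈ n` of the middle branch `p₂ = {y ∈ B | v₂ y < 1}` in the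
weak sense `t * p₂ ⊆ g B` (`t ∉ n`) lies in `p₂`.  Otherwise `t ^ k π ∈ g ^ k B` for all `k`,
so `π ∈ ⋂ (g B_n) ^ k = 0`. -/
theorem hp97_gen_val_lt (π : R) (hπ0 : algebraMap R F π ≠ 0)
    (B : Subalgebra R F) [IsNoetherianRing B] (V₂ : ValuationSubring F)
    (hB₂ : ∀ x ∈ B, x ∈ V₂) (hπ₂ : (algebraMap R F π)⁻¹ ∉ V₂)
    (n : Ideal B) [hn : n.IsPrime]
    (g t : B) (ht : t ∉ n) (hgn : g ∈ n)
    (hprin : ∀ y : B, V₂.valuation (y : F) < 1 → ∃ b : B, t * y = b * g) :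
    V₂.valuation (g : F) < 1 := by
  by_contra hg
  have hg1 : V₂.valuation (g : F) = 1 :=
    le_antisymm ((V₂.valuation_le_one_iff _).mpr (hB₂ _ g.2)) (not_lt.mp hg)
  have hπv : V₂.valuation (algebraMap R F π) < 1 := ld84_val_unif V₂ _ hπ₂
  -- the chain `t ^ k * π = b_k * g ^ k` with `b_k ∈ p₂`
  have hchain : ∀ k : ℕ, ∃ b : B, V₂.valuation (b : F) < 1 ∧
      t ^ k * algebraMap R B π = b * g ^ k := by
    intro k
    induction k with
    | zero => exact ⟨algebraMap R B π, hπv, by simp⟩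
    | succ k ih =>
      obtain ⟨b, hb, hbk⟩ := ih
      obtain ⟨b', hb'⟩ := hprin b hb
      refine ⟨b', ?_, ?_⟩
      · have h2 : (t : F) * (b : F) = (b' : F) * (g : F) := by
          have := congrArg (fun y : B => (y : F)) hb'
          simpa using this
        have h1 : V₂.valuation ((t : F) * (b : F)) < 1 := by
          rw [map_mul]
          calc V₂.valuation (t : F) * V₂.valuation (b : F)
              ≤ 1 * V₂.valuation (b : F) :=
                mul_le_mul_left ((V₂.valuation_le_one_iff _).mpr (hB₂ _ t.2)) _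
            _ = V₂.valuation (b : F) := one_mul _
            _ < 1 := hb
        rw [h2, map_mul, hg1, mul_one] at h1
        exact h1
      · calc t ^ (k + 1) * algebraMap R B π = t * (t ^ k * algebraMap R B π) := by ring
          _ = t * (b * g ^ k) := by rw [hbk]
          _ = (t * b) * g ^ k := by ring
          _ = (b' * g) * g ^ k := by rw [hb']
          _ = b' * g ^ (k + 1) := by ring
  -- Krull's intersection theorem in the localisation
  haveI : IsNoetherianRing (Localization.AtPrime n) :=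
    IsLocalization.isNoetherianRing n.primeCompl (Localization.AtPrime n) inferInstance
  set I : Ideal (Localization.AtPrime n) :=
    Ideal.span {algebraMap B (Localization.AtPrime n) g} with hI
  have hItop : I ≠ ⊤ := by
    intro h
    have hle : I ≤ IsLocalRing.maximalIdeal (Localization.AtPrime n) := by
      rw [hI, Ideal.span_singleton_le_iff_mem]
      exact (IsLocalization.AtPrime.to_map_mem_maximal_iff (Localization.AtPrime n) n g).mpr hgn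
    rw [h] at hle
    exact (IsLocalRing.maximalIdeal.isMaximal (Localization.AtPrime n)).ne_top (top_le_iff.mp hle)
  have hbot : ⨅ i, I ^ i = ⊥ := Ideal.iInf_pow_eq_bot_of_isLocalRing I hItop
  have hmem : algebraMap B (Localization.AtPrime n) (algebraMap R B π) ∈ ⨅ i, I ^ i := by
    rw [Ideal.mem_iInf]
    intro k
    obtain ⟨b, -, hbk⟩ := hchain k
    have htu : IsUnit (algebraMap B (Localization.AtPrime n) t) :=
      IsLocalization.map_units (Localization.AtPrime n) (⟨t, ht⟩ : n.primeCompl)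
    have hk : algebraMap B (Localization.AtPrime n) t ^ k *
        algebraMap B (Localization.AtPrime n) (algebraMap R B π) ∈ I ^ k := by
      rw [← map_pow, ← map_mul, hbk, map_mul, map_pow, hI, Ideal.span_singleton_pow]
      exact Ideal.mem_span_singleton'.mpr ⟨_, rfl⟩
    exact (Ideal.unit_mul_mem_iff_mem _ (htu.pow k)).mp hk
  rw [hbot, Ideal.mem_bot] at hmem
  have hinj : Function.Injective (algebraMap B (Localization.AtPrime n)) :=
    IsLocalization.injective (Localization.AtPrime n) n.primeCompl_le_nonZeroDivisors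
  have h0 : algebraMap R B π = 0 := hinj (by rw [hmem, map_zero])
  apply hπ0
  have := congrArg (fun y : B => (y : F)) h0
  simpa using this

/-- The middle (possibly non-reduced) branch at a point off the two other branches, principal
form: coordinate from `tl71_MidSmooth`, generator `g` of `mc25_MidPrinAt`
(twin of `hp84_brData_mid`). -/
theorem hp97_brData_mid (π : R) (σ : F) (e : ℕ) (hπ0 : algebraMap R F π ≠ 0) (hσ0 : σ ≠ 0)
    (B : Subalgebra R F) [IsNoetherianRing B] (V₁ V₂ V₃ : ValuationSubring F)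
    (hB₁ : ∀ x ∈ B, x ∈ V₁) (hB₂ : ∀ x ∈ B, x ∈ V₂) (hB₃ : ∀ x ∈ B, x ∈ V₃)
    (hsat : ∀ x ∈ B, (algebraMap R F π)⁻¹ * x ∈ V₁ → (algebraMap R F π)⁻¹ * x ∈ V₂ →
      (algebraMap R F π)⁻¹ * x ∈ V₃ → (algebraMap R F π)⁻¹ * x ∈ B)
    (hπ₂ : (algebraMap R F π)⁻¹ ∉ V₂)
    (hσe : (algebraMap R F π)⁻¹ * σ ^ e ∈ V₂)
    (hunif₂ : ∀ x : F, V₂.valuation x < 1 → x * σ⁻¹ ∈ V₂)
    (hS₂ : tl71_MidSmooth π σ B V₂.toSubring)
    (n : Ideal B) (hn : n.IsMaximal) (hπn : algebraMap R B π ∈ n)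
    (hD₂ : tl71_OnMid σ B V₂.toSubring n → ¬ sf79_OnBr π B V₁.toSubring n →
      ¬ sf79_OnBr π B V₃.toSubring n → mc25_MidPrinAt σ B V₂.toSubring n)
    (hOn : sf79_OnBr π B V₂.toSubring n)
    (hOff₁ : ¬ sf79_OnBr π B V₁.toSubring n) (hOff₃ : ¬ sf79_OnBr π B V₃.toSubring n) :
    hp84_BrData B V₂ n := by
  have hnp : n.IsPrime := hn.isPrime
  have hσv : V₂.valuation σ < 1 :=
    ld55_val_lt_of_pow V₂ σ e (ld84_val_lt V₂ _ _ hπ₂ hσe)
  have hmid : tl71_OnMid σ B V₂.toSubring n :=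
    lps9_onMid_of_onBr π σ e B V₂.toSubring hσ0 hσe n hOn
  obtain ⟨z, hzn, hz⟩ := hS₂ n hn hπn hmid
  obtain ⟨g, t, ht, hgn, hprin⟩ := hD₂ hmid hOff₁ hOff₃
  have hdiv : ∀ y : F, y * σ⁻¹ ∈ V₂ → V₂.valuation y < 1 := by
    intro y hy
    have e1 : y = (y * σ⁻¹) * σ := by field_simp
    rw [e1]
    exact gc26_mul V₂ hy hσv
  have hgv : V₂.valuation (g : F) < 1 :=
    hp97_gen_val_lt π hπ0 B V₂ hB₂ hπ₂ n g t ht hgn (fun y hy => hprin y (hunif₂ _ hy))
  refine ⟨z, g, hzn, ?_, hgv, ?_⟩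
  · intro x hx
    obtain ⟨s, hs, a, ha⟩ := hz x hx
    exact ⟨s, hs, a, hdiv _ ha⟩
  · intro x hx
    obtain ⟨b, hb⟩ := hprin x (hunif₂ _ hx)
    exact ⟨t, ht, b, hb⟩

end BranchPrin97

section HP1Prin97

variable {R K F1 F2 : Type*} [CommRing R] [Field K] [Field F1] [Field F2] [Algebra R K]
  [Algebra K F1] [Algebra R F2] [Algebra K F2]

omit [Algebra K F2] in
/-- **(HP-1), principal form**: the package `cp57_HP1` from the frame facts of the three-branch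
chart, with the hypothesis at the points of `C₂` only in the weaker form `mc25_MidPrinAt`
(helper25: the only form available at the cusps of `C₂`). -/
theorem hp97_HP1 (π : R) (σ : F2) (e : ℕ) (q m : ℕ) (hm : 0 < m)
    (B : Subalgebra R F2) [IsNoetherianRing B]
    (al be : F1 →+* F2) (Nal Nbe : F2 →* F1)
    (V₁ V₂ V₃ : ValuationSubring F2) (Vinf V0 : ValuationSubring F1)
    (hB₁ : ∀ x ∈ B, x ∈ V₁) (hB₂ : ∀ x ∈ B, x ∈ V₂) (hB₃ : ∀ x ∈ B, x ∈ V₃)
    (hsat : ∀ x ∈ B, (algebraMap R F2 π)⁻¹ * x ∈ V₁ → (algebraMap R F2 π)⁻¹ * x ∈ V₂ →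
      (algebraMap R F2 π)⁻¹ * x ∈ V₃ → (algebraMap R F2 π)⁻¹ * x ∈ B)
    (hπ0 : algebraMap R F2 π ≠ 0) (hσ0 : σ ≠ 0)
    (hσe : (algebraMap R F2 π)⁻¹ * σ ^ e ∈ V₂)
    (hπ₁ : (algebraMap R F2 π)⁻¹ ∉ V₁) (hπ₂ : (algebraMap R F2 π)⁻¹ ∉ V₂)
    (hπ₃ : (algebraMap R F2 π)⁻¹ ∉ V₃)
    (hrad₁ : ∀ x ∈ V₁, x⁻¹ ∉ V₁ → ∃ k : ℕ, (algebraMap R F2 π)⁻¹ * x ^ k ∈ V₁)
    (hrad₂ : ∀ x ∈ V₂, x⁻¹ ∉ V₂ → ∃ k : ℕ, (algebraMap R F2 π)⁻¹ * x ^ k ∈ V₂)
    (hrad₃ : ∀ x ∈ V₃, x⁻¹ ∉ V₃ → ∃ k : ℕ, (algebraMap R F2 π)⁻¹ * x ^ k ∈ V₃)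
    (harch₁ : ∀ x ∈ B, x ≠ 0 → ∃ k : ℕ, (algebraMap R F2 π ^ k)⁻¹ * x ∉ V₁)
    (harch₂ : ∀ x ∈ B, x ≠ 0 → ∃ k : ℕ, (algebraMap R F2 π ^ k)⁻¹ * x ∉ V₂)
    (harch₃ : ∀ x ∈ B, x ≠ 0 → ∃ k : ℕ, (algebraMap R F2 π ^ k)⁻¹ * x ∉ V₃)
    (hfrac : ∀ t : F2, ∃ a ∈ B, ∃ b ∈ B, b ≠ 0 ∧ t * b = a)
    (hmB : ∃ μ ∈ B, (m : F2) * μ = 1)
    (hunif₁ : ∀ x : F2, V₁.valuation x < 1 → (algebraMap R F2 π)⁻¹ * x ∈ V₁)
    (hunif₂ : ∀ x : F2, V₂.valuation x < 1 → x * σ⁻¹ ∈ V₂)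
    (hunif₃ : ∀ x : F2, V₃.valuation x < 1 → (algebraMap R F2 π)⁻¹ * x ∈ V₃)
    (hKr : s34i47_Krull π B)
    (hS₁ : sf79_Smooth π B V₁.toSubring) (hS₃ : sf79_Smooth π B V₃.toSubring)
    (hS₂ : tl71_MidSmooth π σ B V₂.toSubring)
    (hD₁ : ∀ n : Ideal B, n.IsMaximal → sf79_OnBr π B V₁.toSubring n →
      (tl71_OnMid σ B V₂.toSubring n ∨ sf79_OnBr π B V₃.toSubring n) →
      tl71_DivAt π B V₁.toSubring V₂.toSubring V₃.toSubring n)
    (hD₃ : ∀ n : Ideal B, n.IsMaximal → sf79_OnBr π B V₃.toSubring n →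
      (tl71_OnMid σ B V₂.toSubring n ∨ sf79_OnBr π B V₁.toSubring n) →
      tl71_DivAt π B V₃.toSubring V₂.toSubring V₁.toSubring n)
    (hD₂ : ∀ n : Ideal B, n.IsMaximal → algebraMap R B π ∈ n → tl71_OnMid σ B V₂.toSubring n →
      ¬ sf79_OnBr π B V₁.toSubring n → ¬ sf79_OnBr π B V₃.toSubring n →
      mc25_MidPrinAt σ B V₂.toSubring n) :
    cp57_HP1 (K := K) π q m B al be Nal Nbe V₁ V₂ V₃ Vinf V0 := by
  classical
  intro u cu Au tinf t0 du Bu sinf s0 θ hu0 hOrd hFin hdata hθ n hn hπn hone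
  have hnp : n.IsPrime := hn.isPrime
  obtain ⟨hθ0, -, -, -, -, hu21, hu22, hu23⟩ := hθ
  obtain ⟨hv1, hv2, hv3, -⟩ := hdata
  -- `u` is a unit of each `V i`
  have hunit : ∀ V : ValuationSubring F2, V.valuation (u - 1) < 1 → u ∈ V ∧ u⁻¹ ∈ V := by
    intro V hV
    have e1 : u = 1 + (u - 1) := by ring
    constructor
    · rw [e1]; exact add_mem (one_mem _) (gc26_mem V hV)
    · rw [e1]; exact ld84_one_add_inv V _ hV
  -- two generators, then the strong (LP)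
  have h2 : tl71_TwoGen π B :=
    mc25_twoGen π σ e B V₁.toSubring V₂.toSubring V₃.toSubring hB₁ hB₂ hB₃ hsat hπ0 hσ0 hσe
      hS₁ hS₃ hS₂ hD₁ hD₃ hD₂
  obtain ⟨c, hc0, -, -, -, -, hε, hε'⟩ := lps9_strong_three π σ e B V₁ V₂ V₃ hB₁ hB₂ hB₃ hsat
    hπ0 hσ0 hσe hπ₁ hπ₂ hπ₃ hrad₁ hrad₂ hrad₃ hfrac h2 hKr hD₁ hD₃ m hm u hu0
    (hunit V₁ hv1) (hunit V₂ hv2) (hunit V₃ hv3) hOrd hFin n hn hπn
  -- the local root of `u₂`
  have hcm0 : c ^ m ≠ 0 := pow_ne_zero _ hc0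
  have hu20 : cp57_u2 q m u θ ≠ 0 := by
    unfold cp57_u2
    exact pow_ne_zero _ (mul_ne_zero (pow_ne_zero _ hu0) (pow_ne_zero _ hθ0))
  have hc20 : (c ^ ((q - 1 + 2) * (q - 1)) * θ) ^ q ≠ 0 :=
    pow_ne_zero _ (mul_ne_zero (pow_ne_zero _ hc0) hθ0)
  have hε₂ : cp57_u2 q m u θ / ((c ^ ((q - 1 + 2) * (q - 1)) * θ) ^ q) ^ m ∈ sf79_loc B n := by
    have e1 : cp57_u2 q m u θ / ((c ^ ((q - 1 + 2) * (q - 1)) * θ) ^ q) ^ m
        = ((u / c ^ m) ^ ((q - 1 + 2) * (q - 1))) ^ q := by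
      rw [div_eq_iff (pow_ne_zero _ hc20)]
      have hu_eq : u = (u / c ^ m) * c ^ m := by field_simp
      unfold cp57_u2
      conv_lhs => rw [hu_eq]
      ring
    rw [e1]
    exact pow_mem (pow_mem hε _) _
  have hε₂' : ((c ^ ((q - 1 + 2) * (q - 1)) * θ) ^ q) ^ m / cp57_u2 q m u θ ∈ sf79_loc B n := by
    have e1 : ((c ^ ((q - 1 + 2) * (q - 1)) * θ) ^ q) ^ m / cp57_u2 q m u θ
        = ((c ^ m / u) ^ ((q - 1 + 2) * (q - 1))) ^ q := by
      rw [div_eq_iff hu20]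
      have hc_eq : c ^ m = (c ^ m / u) * u := by field_simp
      unfold cp57_u2
      calc ((c ^ ((q - 1 + 2) * (q - 1)) * θ) ^ q) ^ m
          = ((c ^ m) ^ ((q - 1 + 2) * (q - 1))) ^ q * (θ ^ m) ^ q := by ring
        _ = (((c ^ m / u) * u) ^ ((q - 1 + 2) * (q - 1))) ^ q * (θ ^ m) ^ q := by rw [← hc_eq]
        _ = ((c ^ m / u) ^ ((q - 1 + 2) * (q - 1))) ^ q
            * (u ^ ((q - 1 + 2) * (q - 1)) * θ ^ m) ^ q := by ring
    rw [e1]
    exact pow_mem (pow_mem hε' _) _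
  -- the family `![V₁, V₂, V₃]`
  have hBV : ∀ i : Fin 3, ∀ x ∈ B, x ∈ (![V₁, V₂, V₃] : Fin 3 → ValuationSubring F2) i := by
    intro i; fin_cases i <;> assumption
  have hπV : ∀ i : Fin 3,
      (algebraMap R F2 π)⁻¹ ∉ (![V₁, V₂, V₃] : Fin 3 → ValuationSubring F2) i := by
    intro i; fin_cases i <;> assumption
  have hrad : ∀ i : Fin 3, ∀ x ∈ (![V₁, V₂, V₃] : Fin 3 → ValuationSubring F2) i,
      x⁻¹ ∉ (![V₁, V₂, V₃] : Fin 3 → ValuationSubring F2) i →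
      ∃ k : ℕ, (algebraMap R F2 π)⁻¹ * x ^ k ∈ (![V₁, V₂, V₃] : Fin 3 → ValuationSubring F2) i := by
    intro i; fin_cases i <;> assumption
  have harch : ∀ i : Fin 3, ∀ x ∈ B, x ≠ 0 → ∃ k : ℕ,
      (algebraMap R F2 π ^ k)⁻¹ * x ∉ (![V₁, V₂, V₃] : Fin 3 → ValuationSubring F2) i := by
    intro i; fin_cases i <;> assumption
  have hu2V : ∀ i : Fin 3, (algebraMap R F2 π)⁻¹ * (cp57_u2 q m u θ - 1)
      ∈ (![V₁, V₂, V₃] : Fin 3 → ValuationSubring F2) i := by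
    intro i; fin_cases i <;> assumption
  have key : ∃ φ : F2,
      (∀ i : Fin 3, (algebraMap R F2 π)⁻¹ * (φ - 1)
        ∈ (![V₁, V₂, V₃] : Fin 3 → ValuationSubring F2) i) ∧
      ∃ s : B, s ∉ n ∧ (s : F2) * (φ ^ m * cp57_u2 q m u θ) ∈ B := by
    by_cases h1 : sf79_OnBr π B V₁.toSubring n
    · have h2' : ¬ sf79_OnBr π B V₂.toSubring n := fun h => hone.1 ⟨h1, h⟩
      have h3' : ¬ sf79_OnBr π B V₃.toSubring n := fun h => hone.2.1 ⟨h1, h⟩
      obtain ⟨z, ξ, hzn, hz, hξ, hgen⟩ := hp84_brData_red π hπ0 B V₁ V₂ V₃ hB₁ hB₂ hB₃ hsat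
        hπ₁ hunif₁ hS₁ n hn hπn h1 h2' h3'
      refine ld55_datum_at_one π m hm B hmB (![V₁, V₂, V₃] : Fin 3 → ValuationSubring F2)
        hBV hπV hrad harch hfrac n (hn := hn) (cp57_u2 q m u θ) hu2V _ hc20 hε₂ hε₂' 0 ?_
        z hzn hz ξ hξ hgen
      intro i hi
      fin_cases i
      · rfl
      · exact absurd hi h2'
      · exact absurd hi h3'
    · by_cases h3 : sf79_OnBr π B V₃.toSubring n
      · have h2' : ¬ sf79_OnBr π B V₂.toSubring n := fun h => hone.2.2 ⟨h, h3⟩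
        obtain ⟨z, ξ, hzn, hz, hξ, hgen⟩ := hp84_brData_red π hπ0 B V₃ V₂ V₁ hB₃ hB₂ hB₁
          (fun x hx h3x h2x h1x => hsat x hx h1x h2x h3x) hπ₃ hunif₃ hS₃ n hn hπn h3 h2' h1
        refine ld55_datum_at_one π m hm B hmB (![V₁, V₂, V₃] : Fin 3 → ValuationSubring F2)
          hBV hπV hrad harch hfrac n (hn := hn) (cp57_u2 q m u θ) hu2V _ hc20 hε₂ hε₂' 2 ?_
          z hzn hz ξ hξ hgen
        intro i hi
        fin_cases i
        · exact absurd hi h1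
        · exact absurd hi h2'
        · rfl
      · by_cases h2' : sf79_OnBr π B V₂.toSubring n
        · obtain ⟨z, ξ, hzn, hz, hξ, hgen⟩ := hp97_brData_mid π σ e hπ0 hσ0 B V₁ V₂ V₃
            hB₁ hB₂ hB₃ hsat hπ₂ hσe hunif₂ hS₂ n hn hπn (hD₂ n hn hπn) h2' h1 h3
          refine ld55_datum_at_one π m hm B hmB (![V₁, V₂, V₃] : Fin 3 → ValuationSubring F2)
            hBV hπV hrad harch hfrac n (hn := hn) (cp57_u2 q m u θ) hu2V _ hc20 hε₂ hε₂' 1 ?_
            z hzn hz ξ hξ hgen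
          intro i hi
          fin_cases i
          · exact absurd hi h1
          · rfl
          · exact absurd hi h3
        · -- no branch through `n`
          refine ld55_datum_at_lift π m hm B hmB (![V₁, V₂, V₃] : Fin 3 → ValuationSubring F2)
            hBV hπV hrad harch hfrac n (hn := hnp) (cp57_u2 q m u θ) hu2V _ hc20 hε₂ hε₂' 1
            (one_mem _) ?_
          intro i hi
          exfalso
          fin_cases i
          · exact h1 hi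
          · exact h2' hi
          · exact h3 hi
  obtain ⟨φ, hφ, s, hs, hsφ⟩ := key
  exact ⟨φ, Subring.mem_inf.mpr ⟨Subring.mem_inf.mpr ⟨hφ 0, hφ 1⟩, hφ 2⟩, s, hs, hsφ⟩

end HP1Prin97

end Fermat.Agent.S36
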