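import Mathlib
import Fermat.Agent.S36.CoreIface57
import Fermat.Agent.S36.GateCofinal67

/-!
# S36 lab (helper51, registrar): the sub-interface (HF) + (HB) + (HP) of `CoreIface57` at the
STRONGLY RIGID levels

`ci57x_pkg_core` (helper57, `CoreIface57`) proves `s36i62_Pkg_Core` from the three instance
obligations (HF), (HB), (HP) at every level that is rigid in the sense of `Iface62` (ONE
Hauptmodul prime).  The `C_2`-only step needs BOTH Hauptmodul primes in the level when
`q ≡ 1 mod 12` (ordinary points over `j = 0, 1728`), so the binders work at the strongly rigid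
levels `s36c67_Rigid6` of `GateCofinal67` (helper67).  This file is the same assembly for that
target:

* `cs51x_pkg_core6` : (HF) + (HB) + (HP) at every strongly rigid level, every `p`-power exponent
  and every unramified base give `s36c67_Pkg_Core6`;
* `cs51x_pkg_cofinal` : together with P-FD36 it gives `s36c67_Pkg_Cofinal`, the hypothesis of the
  gate `s36c67_result`.

All names are prefixed `cs51x_`.
-/

set_option autoImplicit false
set_option linter.style.longLine false
set_option linter.unusedVariables false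
set_option linter.unusedSectionVars false

open ModularCurve AlgebraicCurve

namespace Fermat.Agent.S36

open Fermat.Agent.S18 Fermat.Agent.S34 Fermat.Agent.S35

local notation "Q̄" => AlgebraicClosure ℚ

/-- **P-CORE36 at the strongly rigid levels** (`s36c67_Pkg_Core6`) from (HF) + (HB) + (HP) of
`CoreIface57` at every strongly rigid level, for every `p`-power exponent and every unramified
base.  The constant is `(q+1)(q-1)(q²-1) · (q+1)(q-1) · q`, as in `ci57x_pkg_core`. -/
theorem cs51x_pkg_core6
    (hX : ∀ (N q p r : ℕ) [NeZero N] [NeZero q], q.Prime → q ∣ N → ¬ q ^ 2 ∣ N →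
      s36c67_Rigid6 N q r → p.Prime → p ≠ q → ∀ n : ℕ,
      ∀ (R K : Type) [CommRing R] [IsDomain R] [IsDiscreteValuationRing R] [Field K]
        [NumberField K] [Algebra K Q̄] [Algebra R K] [IsFractionRing R K]
        [Algebra R ↥(modularFunctionFieldFullC K (N * q))]
        [IsScalarTower R K ↥(modularFunctionFieldFullC K (N * q))],
        Irreducible ((q : ℕ) : R) → (∀ k : ℕ, Nat.Coprime k q → IsUnit (k : R)) →
        ∃ (h : ↥(modularFunctionFieldFullC K (N * q)))
          (V₁ V₂ V₃ : ValuationSubring ↥(modularFunctionFieldFullC K (N * q)))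
          (Vinf V0 : ValuationSubring ↥(modularFunctionFieldFullC K N)),
          ci57x_HF K ((q : ℕ) : R) h V₁ V₂ V₃ ∧
          ci57x_HB N q (p ^ n) R K V₁ V₂ V₃ Vinf V0 ∧
          ci57x_HP (K := K) ((q : ℕ) : R) q (p ^ n) h (s35i62_normA K N q)
            (s35i62_normB K N q) V₁ V₂ V₃ Vinf V0) :
    s36c67_Pkg_Core6 := by
  intro N q p r _ _ hq hqN hq2 hrig hp hpq
  have hq2' : 2 ≤ q := hq.two_le
  refine ⟨(q + 1) * (q - 1) * (q ^ 2 - 1) * ((q - 1 + 2) * (q - 1)) * q, ?_, fun n => ?_⟩
  · have h1 : 0 < q - 1 := by omega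
    have h2 : 0 < q ^ 2 - 1 := by
      have : 4 ≤ q ^ 2 := by nlinarith
      omega
    positivity
  · intro R K _ _ _ _ _ _ _ _ _ _ hπ hunit f a b ca cb hf ha hb hca hcb hord hNa hNb
    obtain ⟨h, V₁, V₂, V₃, Vinf, V0, hF, hB, hP⟩ :=
      hX N q p r hq hqN hq2 hrig hp hpq n R K hπ hunit
    exact ci57x_core N q (p ^ n) (pow_pos hp.pos n) hπ
      (hunit (p ^ n) (Nat.Coprime.pow_left n ((Nat.coprime_primes hp hq).mpr hpq)))
      h V₁ V₂ V₃ Vinf V0 hF hB hP f a b ca cb hf ha hb hca hcb hord hNa hNb

/-- (HF) + (HB) + (HP) at every strongly rigid level + P-FD36 give P-COFINAL, the hypothesis of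
the gate `s36c67_result`. -/
theorem cs51x_pkg_cofinal
    (hX : ∀ (N q p r : ℕ) [NeZero N] [NeZero q], q.Prime → q ∣ N → ¬ q ^ 2 ∣ N →
      s36c67_Rigid6 N q r → p.Prime → p ≠ q → ∀ n : ℕ,
      ∀ (R K : Type) [CommRing R] [IsDomain R] [IsDiscreteValuationRing R] [Field K]
        [NumberField K] [Algebra K Q̄] [Algebra R K] [IsFractionRing R K]
        [Algebra R ↥(modularFunctionFieldFullC K (N * q))]
        [IsScalarTower R K ↥(modularFunctionFieldFullC K (N * q))],
        Irreducible ((q : ℕ) : R) → (∀ k : ℕ, Nat.Coprime k q → IsUnit (k : R)) →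
        ∃ (h : ↥(modularFunctionFieldFullC K (N * q)))
          (V₁ V₂ V₃ : ValuationSubring ↥(modularFunctionFieldFullC K (N * q)))
          (Vinf V0 : ValuationSubring ↥(modularFunctionFieldFullC K N)),
          ci57x_HF K ((q : ℕ) : R) h V₁ V₂ V₃ ∧
          ci57x_HB N q (p ^ n) R K V₁ V₂ V₃ Vinf V0 ∧
          ci57x_HP (K := K) ((q : ℕ) : R) q (p ^ n) h (s35i62_normA K N q)
            (s35i62_normB K N q) V₁ V₂ V₃ Vinf V0)
    (hFD : s36i62_Pkg_FieldDef) : s36c67_Pkg_Cofinal :=
  s36c67_cofinal_of_core6 (cs51x_pkg_core6 hX) hFD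

end Fermat.Agent.S36
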