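import Mathlib
import Fermat.Agent.S36.CorePoints57
import Fermat.Agent.S36.Abelian94

/-!
# S36 lab, row 605 INV-core (helper57): the twist package (HP-T), abstract proof

`cp57_HPT_of` : `cp57_HPT` (CorePoints57) from the following frame facts
(`ι = algebraMap R F2`, `κ = algebraMap K F1 ∘ algebraMap R K`):

* `hR i`, `hπ i`      : `ι R ⊆ V i`, `(ι π)⁻¹ ∉ V i`;  `hRinf`, `hR0` : `κ R ⊆ Vinf, V0`;
* `hal`, `hbe`        : `α (κ r) = ι r`, `β (κ r) = ι r` (the degeneracy maps fix the constants);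
* `hcinf`, `hc0`      : a constant `κ r ≡ 1` modulo `𝔪 Vinf` (resp. `𝔪 V0`) has `π ∣ r - 1`;
* `hcrt`              : CRT for constants: `θ ≡ (ι r₁, ι r₂, 1)` modulo `(𝔪 V₁, 𝔪 V₂, 𝔪 V₃)`;
* `hqπ i`, `hpow i`   : `(ι π)⁻¹ q ∈ V i` and `z ∈ 𝔪 (V i) ⟹ (ι π)⁻¹ z ^ q ∈ V i`;
* `hNU`               : the norms of a function `≡ 1` modulo the three `𝔪 (V i)` are `≡ 1` modulo
  `𝔪 Vinf` and `𝔪 V0` ((N1)–(N4) at `1`-units).

The constants: `w₁ = ((t0 s0) / (tinf sinf)) ^ (q-1)`, `w₂ = t0 ^ q sinf / (tinf ^ q s0)`;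
`w₁ ^ m ≡ w₂ ^ m ≡ 1` modulo `π` because `cu tinf ^ m ≡ cu t0 ^ m ≡ 1` and
`du sinf ^ m ≡ du s0 ^ m ≡ 1` modulo `π`.

All names are prefixed `cp57_`.
-/

set_option autoImplicit false
set_option linter.style.longLine false
set_option linter.unusedVariables false
set_option linter.unusedSectionVars false

namespace Fermat.Agent.S36

open Fermat.Agent.S18 Fermat.Agent.S34 Fermat.Agent.S35

section Val

variable {F : Type*} [Field F] (V : ValuationSubring F)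

theorem cp57_mem_of_lt {x : F} (hx : V.valuation x < 1) : x ∈ V :=
  (V.valuation_le_one_iff x).mp hx.le

theorem cp57_nu_mul {a z : F} (ha : a ∈ V) (hz : V.valuation z < 1) :
    V.valuation (a * z) < 1 := by
  rw [map_mul]
  exact lt_of_le_of_lt (mul_le_of_le_one_left' ((V.valuation_le_one_iff a).mpr ha)) hz

theorem cp57_nu_add {x y : F} (hx : V.valuation x < 1) (hy : V.valuation y < 1) :
    V.valuation (x + y) < 1 :=
  Valuation.map_add_lt _ hx hy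

theorem cp57_nu_sub {x y : F} (hx : V.valuation x < 1) (hy : V.valuation y < 1) :
    V.valuation (x - y) < 1 :=
  Valuation.map_sub_lt _ hx hy

/-- `x ≡ y` modulo `𝔪 V`, `y ∈ V` ⟹ `x ∈ V`. -/
theorem cp57_mem_of_cong {x y : F} (h : V.valuation (x - y) < 1) (hy : y ∈ V) : x ∈ V := by
  have : x = (x - y) + y := by ring
  rw [this]
  exact V.add_mem _ _ (cp57_mem_of_lt V h) hy

/-- `x ≡ y` modulo `𝔪 V` ⟹ `x ^ k ≡ y ^ k`. -/
theorem cp57_pow_cong {x y : F} (h : V.valuation (x - y) < 1) (hy : y ∈ V) (k : ℕ) :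
    V.valuation (x ^ k - y ^ k) < 1 := by
  have hx : x ∈ V := cp57_mem_of_cong V h hy
  obtain ⟨c, hc⟩ := sub_dvd_pow_sub_pow (⟨x, hx⟩ : V) ⟨y, hy⟩ k
  have e : x ^ k - y ^ k = (c : F) * (x - y) := by
    have := congrArg (Subtype.val : V → F) hc
    push_cast at this
    rw [this]
    ring
  rw [e]
  exact cp57_nu_mul V c.2 h

/-- Products of congruences. -/
theorem cp57_mul_cong {x x' y y' : F} (hx : V.valuation (x - x') < 1)
    (hy : V.valuation (y - y') < 1) (hx' : x' ∈ V) (hyV : y ∈ V) :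
    V.valuation (x * y - x' * y') < 1 := by
  have e : x * y - x' * y' = y * (x - x') + x' * (y - y') := by ring
  rw [e]
  exact cp57_nu_add V (cp57_nu_mul V hyV hx) (cp57_nu_mul V hx' hy)

/-- An element congruent to a unit modulo `𝔪 V` is a unit of `V`. -/
theorem cp57_unit_of_cong {θ a : F} (h : V.valuation (θ - a) < 1) (ha0 : a ≠ 0) (ha : a ∈ V)
    (ha' : a⁻¹ ∈ V) : θ ∈ V ∧ θ⁻¹ ∈ V := by
  have hθ : θ ∈ V := cp57_mem_of_cong V h ha
  refine ⟨hθ, ?_⟩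
  by_contra hinv
  have hlt : V.valuation θ < 1 := by
    have h0 : θ ≠ 0 := by
      rintro rfl
      exact hinv (by simp [V.zero_mem])
    have hle : V.valuation θ ≤ 1 := (V.valuation_le_one_iff θ).mpr hθ
    rcases lt_or_eq_of_le hle with h1 | h1
    · exact h1
    · exfalso
      apply hinv
      rw [← V.valuation_le_one_iff, map_inv₀, h1, inv_one]
  have ha1 : V.valuation a < 1 := by
    have e : a = θ - (θ - a) := by ring
    rw [e]
    exact cp57_nu_sub V hlt h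
  have h1 : V.valuation (a * a⁻¹) < 1 := by
    rw [mul_comm]
    exact cp57_nu_mul V ha' ha1
  rw [mul_inv_cancel₀ ha0, map_one] at h1
  exact lt_irrefl _ h1

end Val

section Const

variable {R K F1 : Type*} [CommRing R] [Field K] [Field F1] [Algebra R K] [Algebra K F1]

/-- The constant step: `A ≡ κ rt` and `κ rc · A ^ m ≡ 1` modulo `𝔪 V'` give
`κ (rc · rt ^ m) ≡ 1`. -/
theorem cp57_const_step (V' : ValuationSubring F1)
    (hRV : ∀ r : R, algebraMap K F1 (algebraMap R K r) ∈ V') (m : ℕ) (rc rt : R) (A : F1)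
    (hA : V'.valuation (A - algebraMap K F1 (algebraMap R K rt)) < 1)
    (h1 : V'.valuation (algebraMap K F1 (algebraMap R K rc) * A ^ m - 1) < 1) :
    V'.valuation (algebraMap K F1 (algebraMap R K (rc * rt ^ m)) - 1) < 1 := by
  have hpow := cp57_pow_cong V' hA (hRV rt) m
  have e : algebraMap K F1 (algebraMap R K (rc * rt ^ m)) - 1 =
      (algebraMap K F1 (algebraMap R K rc) * A ^ m - 1) -
        algebraMap K F1 (algebraMap R K rc) *
          (A ^ m - algebraMap K F1 (algebraMap R K rt) ^ m) := by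
    rw [map_mul, map_mul, map_pow, map_pow]
    ring
  rw [e]
  exact cp57_nu_sub V' h1 (cp57_nu_mul V' (hRV rc) hpow)

end Const

section Units

/-- The arithmetic of the gluing constants in a commutative group. -/
theorem cp57_group_arith {G : Type*} [CommGroup G] (a b x y z v : G) (m d : ℕ)
    (h1 : a * x ^ m = 1) (h2 : a * y ^ m = 1) (h3 : b * z ^ m = 1) (h4 : b * v ^ m = 1) :
    (((y * v) * (x * z)⁻¹) ^ d) ^ m = 1 ∧ (y ^ (d + 1) * z * (x ^ (d + 1) * v)⁻¹) ^ m = 1 := by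
  have hxy : x ^ m = y ^ m := by
    have : a * x ^ m = a * y ^ m := by rw [h1, h2]
    exact mul_left_cancel this
  have hzv : z ^ m = v ^ m := by
    have : b * z ^ m = b * v ^ m := by rw [h3, h4]
    exact mul_left_cancel this
  constructor
  · have key : ((y * v) * (x * z)⁻¹) ^ m = 1 := by
      rw [mul_pow, inv_pow, mul_pow, mul_pow, hxy, hzv, mul_inv_cancel]
    rw [← pow_mul, mul_comm d m, pow_mul, key, one_pow]
  · have key : (y ^ (d + 1) * z * (x ^ (d + 1) * v)⁻¹) ^ m =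
        ((y ^ m) ^ (d + 1) * z ^ m) * ((x ^ m) ^ (d + 1) * v ^ m)⁻¹ := by
      rw [mul_pow, mul_pow, inv_pow, mul_pow, ← pow_mul, ← pow_mul, ← pow_mul, ← pow_mul,
        mul_comm (d + 1) m]
    rw [key, hxy, hzv, mul_inv_cancel]

end Units

section Twist

variable {R K F1 F2 : Type*} [CommRing R] [Field K] [Field F1] [Field F2] [Algebra R K]
  [Algebra K F1] [Algebra R F2] [Algebra K F2]

/-- A unit constant of `R` is a unit of a valuation subring containing the image of `R`. -/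
theorem cp57_const_unit (V : ValuationSubring F2) (hR : ∀ r : R, algebraMap R F2 r ∈ V)
    (r : Rˣ) : algebraMap R F2 r ≠ 0 ∧ algebraMap R F2 r ∈ V ∧ (algebraMap R F2 r)⁻¹ ∈ V := by
  have h1 : algebraMap R F2 (r : R) * algebraMap R F2 ((r⁻¹ : Rˣ) : R) = 1 := by
    rw [← map_mul, Units.mul_inv, map_one]
  refine ⟨left_ne_zero_of_mul_eq_one h1, hR r, ?_⟩
  rw [← eq_inv_of_mul_eq_one_right h1]
  exact hR ((r⁻¹ : Rˣ) : R)

/-- `w ^ m ≡ 1` modulo `π` in `R` makes `(ι w) ^ m ≡ 1` modulo `𝔪 V`. -/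
theorem cp57_const_pow_cong (V : ValuationSubring F2) (hR : ∀ r : R, algebraMap R F2 r ∈ V)
    (π : R) (hπ : (algebraMap R F2 π)⁻¹ ∉ V) (w : R) (m : ℕ) (t : R) (ht : w ^ m - 1 = π * t) :
    V.valuation (algebraMap R F2 w ^ m - 1) < 1 := by
  have hπlt : V.valuation (algebraMap R F2 π) < 1 := by
    by_contra hnot
    apply hπ
    have hle : V.valuation (algebraMap R F2 π) ≤ 1 := (V.valuation_le_one_iff _).mpr (hR π)
    have h1 : V.valuation (algebraMap R F2 π) = 1 := le_antisymm hle (not_lt.mp hnot)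
    rw [← V.valuation_le_one_iff, map_inv₀, h1, inv_one]
  have e : algebraMap R F2 w ^ m - 1 = algebraMap R F2 t * algebraMap R F2 π := by
    rw [← map_pow, ← map_one (algebraMap R F2), ← map_sub, ht, map_mul, mul_comm]
  rw [e]
  exact cp57_nu_mul V (hR t) hπlt

/-- **(HP-T)**: existence of the twist `θ`, from the frame facts listed in the header. -/
theorem cp57_HPT_of (π : R) (q m : ℕ) (hq : q.Prime) (al be : F1 →+* F2) (Nal Nbe : F2 →* F1)
    (V₁ V₂ V₃ : ValuationSubring F2) (Vinf V0 : ValuationSubring F1)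
    (hR₁ : ∀ r : R, algebraMap R F2 r ∈ V₁) (hR₂ : ∀ r : R, algebraMap R F2 r ∈ V₂)
    (hR₃ : ∀ r : R, algebraMap R F2 r ∈ V₃)
    (hπ₁ : (algebraMap R F2 π)⁻¹ ∉ V₁) (hπ₂ : (algebraMap R F2 π)⁻¹ ∉ V₂)
    (hπ₃ : (algebraMap R F2 π)⁻¹ ∉ V₃)
    (hRinf : ∀ r : R, algebraMap K F1 (algebraMap R K r) ∈ Vinf)
    (hR0 : ∀ r : R, algebraMap K F1 (algebraMap R K r) ∈ V0)
    (hal : ∀ r : R, al (algebraMap K F1 (algebraMap R K r)) = algebraMap R F2 r)
    (hbe : ∀ r : R, be (algebraMap K F1 (algebraMap R K r)) = algebraMap R F2 r)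
    (hcinf : ∀ r : R, Vinf.valuation (algebraMap K F1 (algebraMap R K r) - 1) < 1 →
      ∃ t : R, r - 1 = π * t)
    (hc0 : ∀ r : R, V0.valuation (algebraMap K F1 (algebraMap R K r) - 1) < 1 →
      ∃ t : R, r - 1 = π * t)
    (hcrt : ∀ r₁ r₂ : Rˣ, ∃ θ : F2, θ ≠ 0 ∧ V₁.valuation (θ - algebraMap R F2 r₁) < 1 ∧
      V₂.valuation (θ - algebraMap R F2 r₂) < 1 ∧ V₃.valuation (θ - 1) < 1)
    (hqπ₁ : (algebraMap R F2 π)⁻¹ * (q : F2) ∈ V₁) (hqπ₂ : (algebraMap R F2 π)⁻¹ * (q : F2) ∈ V₂)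
    (hqπ₃ : (algebraMap R F2 π)⁻¹ * (q : F2) ∈ V₃)
    (hpow₁ : ∀ z ∈ V₁.nonunits, (algebraMap R F2 π)⁻¹ * z ^ q ∈ V₁)
    (hpow₂ : ∀ z ∈ V₂.nonunits, (algebraMap R F2 π)⁻¹ * z ^ q ∈ V₂)
    (hpow₃ : ∀ z ∈ V₃.nonunits, (algebraMap R F2 π)⁻¹ * z ^ q ∈ V₃)
    (hNU : ∀ y : F2, V₁.valuation (y - 1) < 1 → V₂.valuation (y - 1) < 1 →
      V₃.valuation (y - 1) < 1 →
      Vinf.valuation (Nal y - 1) < 1 ∧ V0.valuation (Nal y - 1) < 1 ∧
      Vinf.valuation (Nbe y - 1) < 1 ∧ V0.valuation (Nbe y - 1) < 1) :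
    cp57_HPT (K := K) π q m al be Nal Nbe V₁ V₂ V₃ Vinf V0 := by
  intro u cu Au tinf t0 du Bu sinf s0 hu0 hdata
  obtain ⟨hu1, hu2, hu3, hNa, hAu, hNb, hBu, ⟨rcu, rfl⟩, ⟨rti, rfl⟩, ⟨rt0, rfl⟩, ⟨rdu, rfl⟩,
    ⟨rsi, rfl⟩, ⟨rs0, rfl⟩, hAi, hA0, hBi, hB0⟩ := hdata
  obtain ⟨hn1, hn2, hn3, hn4⟩ := hNU u hu1 hu2 hu3
  rw [hNa] at hn1 hn2
  rw [hNb] at hn3 hn4
  -- the four congruences of constants modulo `π`
  obtain ⟨t1, e1⟩ := hcinf _ (cp57_const_step Vinf hRinf m (rcu : R) (rti : R) Au hAi hn1)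
  obtain ⟨t2, e2⟩ := hc0 _ (cp57_const_step V0 hR0 m (rcu : R) (rt0 : R) Au hA0 hn2)
  obtain ⟨t3, e3⟩ := hcinf _ (cp57_const_step Vinf hRinf m (rdu : R) (rsi : R) Bu hBi hn3)
  obtain ⟨t4, e4⟩ := hc0 _ (cp57_const_step V0 hR0 m (rdu : R) (rs0 : R) Bu hB0 hn4)
  -- pass to the units of `R ⧸ (π)`
  let ρ : R →+* R ⧸ Ideal.span ({π} : Set R) := Ideal.Quotient.mk _
  have hρ : ∀ (x : R) (t : R), x - 1 = π * t → ρ x = 1 := by
    intro x t hx
    have : ρ (x - 1) = 0 := by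
      rw [hx]
      exact Ideal.Quotient.eq_zero_iff_mem.mpr
        (Ideal.mul_mem_right _ _ (Ideal.subset_span (Set.mem_singleton π)))
    rw [map_sub, map_one, sub_eq_zero] at this
    exact this
  have hU : ∀ (rc rt : Rˣ) (t : R), ((rc : R) * (rt : R) ^ m) - 1 = π * t →
      Units.map ρ.toMonoidHom rc * Units.map ρ.toMonoidHom rt ^ m = 1 := by
    intro rc rt t ht
    apply Units.ext
    have := hρ _ t ht
    simpa using this
  obtain ⟨hw1, hw2⟩ := cp57_group_arith (Units.map ρ.toMonoidHom rcu)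
    (Units.map ρ.toMonoidHom rdu) (Units.map ρ.toMonoidHom rti) (Units.map ρ.toMonoidHom rt0)
    (Units.map ρ.toMonoidHom rsi) (Units.map ρ.toMonoidHom rs0) m (q - 1)
    (hU rcu rti t1 e1) (hU rcu rt0 t2 e2) (hU rdu rsi t3 e3) (hU rdu rs0 t4 e4)
  obtain ⟨w₁, hw₁⟩ : ∃ w₁ : Rˣ, w₁ = ((rt0 * rs0) * (rti * rsi)⁻¹) ^ (q - 1) := ⟨_, rfl⟩
  obtain ⟨w₂, hw₂⟩ : ∃ w₂ : Rˣ, w₂ = rt0 ^ (q - 1 + 1) * rsi * (rti ^ (q - 1 + 1) * rs0)⁻¹ :=
    ⟨_, rfl⟩
  have hback : ∀ w : Rˣ, Units.map ρ.toMonoidHom w ^ m = 1 → ∃ t : R, (w : R) ^ m - 1 = π * t := by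
    intro w hw
    have h1 : ρ ((w : R) ^ m - 1) = 0 := by
      have := congrArg (fun x : (R ⧸ Ideal.span ({π} : Set R))ˣ => (x : R ⧸ Ideal.span ({π} : Set R))) hw
      simp only [Units.val_pow_eq_pow_val, Units.coe_map, Units.val_one] at this
      rw [map_sub, map_pow, map_one, sub_eq_zero]
      exact this
    have h2 := Ideal.Quotient.eq_zero_iff_mem.mp h1
    obtain ⟨t, ht⟩ := Ideal.mem_span_singleton'.mp h2
    exact ⟨t, by rw [← ht, mul_comm]⟩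
  obtain ⟨s1, hs1⟩ := hback w₁ (by rw [hw₁]; simpa using hw1)
  obtain ⟨s2, hs2⟩ := hback w₂ (by rw [hw₂]; simpa using hw2)
  -- the twist
  obtain ⟨θ, hθ0, hθ1, hθ2, hθ3⟩ := hcrt w₁ w₂
  have hθU1 := cp57_unit_of_cong V₁ hθ1 (cp57_const_unit V₁ hR₁ w₁).1
    (cp57_const_unit V₁ hR₁ w₁).2.1 (cp57_const_unit V₁ hR₁ w₁).2.2
  have hθU2 := cp57_unit_of_cong V₂ hθ2 (cp57_const_unit V₂ hR₂ w₂).1
    (cp57_const_unit V₂ hR₂ w₂).2.1 (cp57_const_unit V₂ hR₂ w₂).2.2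
  have hθU3 := cp57_unit_of_cong V₃ hθ3 one_ne_zero V₃.one_mem (by simp [V₃.one_mem])
  -- `x = u ^ e * θ ^ m ≡ 1` modulo the three maximal ideals
  have hx : ∀ (V : ValuationSubring F2) (w : F2), V.valuation (u - 1) < 1 →
      V.valuation (θ - w) < 1 → w ∈ V → V.valuation (w ^ m - 1) < 1 →
      V.valuation (u ^ ((q - 1 + 2) * (q - 1)) * θ ^ m - 1) < 1 := by
    intro V w hu hθw hw hwm
    have h1 : V.valuation (u ^ ((q - 1 + 2) * (q - 1)) - 1) < 1 := by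
      have := cp57_pow_cong V hu V.one_mem ((q - 1 + 2) * (q - 1))
      rwa [one_pow] at this
    have h2 : V.valuation (θ ^ m - 1) < 1 := by
      have h3 := cp57_pow_cong V hθw hw m
      have e : θ ^ m - 1 = (θ ^ m - w ^ m) + (w ^ m - 1) := by ring
      rw [e]
      exact cp57_nu_add V h3 hwm
    have h4 := cp57_mul_cong V h1 h2 V.one_mem (cp57_mem_of_cong V h2 V.one_mem)
    rwa [one_mul] at h4
  have hx1 := hx V₁ _ hu1 hθ1 (hR₁ _) (cp57_const_pow_cong V₁ hR₁ π hπ₁ _ m s1 hs1)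
  have hx2 := hx V₂ _ hu2 hθ2 (hR₂ _) (cp57_const_pow_cong V₂ hR₂ π hπ₂ _ m s2 hs2)
  have hx3 := hx V₃ 1 hu3 hθ3 V₃.one_mem (by simp)
  refine ⟨θ, hθ0, hθU1, hθU2, hθU3, ⟨(w₁ : R), (w₂ : R), hθ1, hθ2, hθ3, ?_, ?_⟩, ?_, ?_, ?_⟩
  · rw [hal, hal, hbe, hbe, ← map_mul, ← map_mul, ← map_pow, ← map_pow, ← map_mul]
    congr 1
    have h5 : w₁ * (rti * rsi) ^ (q - 1) = (rt0 * rs0) ^ (q - 1) := by
      rw [hw₁, ← mul_pow, inv_mul_cancel_right]
    have h6 := congrArg (fun x : Rˣ => (x : R)) h5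
    simpa using h6
  · rw [hal, hal, hbe, hbe, ← map_pow, ← map_pow, ← map_mul, ← map_mul, ← map_mul]
    congr 1
    have h5 : w₂ * (rti ^ (q - 1 + 1) * rs0) = rt0 ^ (q - 1 + 1) * rsi := by
      rw [hw₂, inv_mul_cancel_right]
    have h6 := congrArg (fun x : Rˣ => (x : R)) h5
    simpa using h6
  · exact ab94_qpow_mem V₁ _ q hq hqπ₁ hpow₁ _ (show _ ∈ V₁.nonunits from hx1)
  · exact ab94_qpow_mem V₂ _ q hq hqπ₂ hpow₂ _ (show _ ∈ V₂.nonunits from hx2)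
  · exact ab94_qpow_mem V₃ _ q hq hqπ₃ hpow₃ _ (show _ ∈ V₃.nonunits from hx3)

end Twist

end Fermat.Agent.S36
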