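/-
S36 lab (helper90, seat 90) — row 589 (B1-V2), part L3: THE CYCLOTOMIC DISCRETE VALUATION DATUM.

For a discrete valuation ring `R` of characteristic zero with fraction field `K` in which the
prime number `q` is a uniformiser (`q ~ π`), the field `K' = K(ζ_q)` carries a discrete valuation
ring `A'` (a `ValuationSubring K'`) receiving `R`, with a uniformiser `ϖ`, containing a `q`-th root
of unity `ζ ≠ 1` with `(ζ - 1) ^ (q - 1) = π * unit`.

Mathlib only.  Names `cyc90_*`.
-/
import Mathlib

set_option linter.style.haveILetI false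

namespace Fermat.Agent.S36

open IsDedekindDomain WithZero

/-- In a domain, for a primitive `q`-th root of unity `ζ` (`q` prime),
`(ζ - 1) ^ (q - 1)` is associated to `q`. -/
theorem cyc90_assoc {A : Type*} [CommRing A] [IsDomain A] {q : ℕ} (hq : q.Prime) {ζ : A}
    (hζ : IsPrimitiveRoot ζ q) : Associated ((ζ - 1) ^ (q - 1)) ((q : ℕ) : A) := by
  obtain ⟨n, rfl⟩ : ∃ n, q = n + 1 := ⟨q - 1, by have := hq.pos; omega⟩
  have hprod := hζ.prod_one_sub_pow_eq_order
  have h1 : ∀ k ∈ Finset.range n, Associated (ζ - 1) (1 - ζ ^ (k + 1)) := by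
    intro k hk
    have hk' : k < n := Finset.mem_range.mp hk
    have hcop : (k + 1).Coprime (n + 1) := by
      apply Nat.Coprime.symm
      rw [Nat.Prime.coprime_iff_not_dvd hq]
      intro hdvd
      have := Nat.le_of_dvd (Nat.succ_pos k) hdvd
      omega
    have h := hζ.associated_sub_one_pow_sub_one_of_coprime hcop
    have h' : Associated (ζ ^ (k + 1) - 1) (1 - ζ ^ (k + 1)) := by
      rw [← neg_sub]
      exact (Associated.refl _).neg_left
    exact h.trans h'
  have h2 := Associated.prod (Finset.range n) (fun _ => ζ - 1) (fun k => 1 - ζ ^ (k + 1)) h1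
  rw [Finset.prod_const, Finset.card_range, hprod] at h2
  simpa using h2

/-- Elements `≤ 1` of `ℤᵐ⁰`: being `≠ 1` is the same as being `≤ exp (-1)`. -/
theorem cyc90_lt_one_iff (x : ℤᵐ⁰) (hx1 : x ≤ 1) : x ≠ 1 ↔ x ≤ exp (-1 : ℤ) := by
  rcases eq_or_ne x 0 with rfl | hx
  · simp
  · obtain ⟨n, rfl⟩ : ∃ n : ℤ, x = exp n := ⟨log x, (exp_log hx).symm⟩
    rw [← exp_zero, exp_le_exp] at hx1
    rw [exp_le_exp, ← exp_zero, Ne, exp_inj]
    omega

/-- **The cyclotomic discrete valuation datum** (row 589, L3). -/
theorem cyc90_exists {R K : Type} [CommRing R] [IsDomain R] [IsDiscreteValuationRing R]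
    [Field K] [CharZero K] [Algebra R K] [IsFractionRing R K] (q : ℕ) (hq : q.Prime) {π : R}
    (hπ : Irreducible π) (hqπ : Associated ((q : ℕ) : R) π) :
    ∃ (K' : Type) (_ : Field K') (_ : Algebra K K') (A' : ValuationSubring K') (ϖ : A')
      (ρ : R →+* A') (ζ : A'ˣ),
      ϖ ≠ 0 ∧ (∀ r : A', IsLocalRing.residue A' r = 0 ↔ ϖ ∣ r) ∧
      (∀ r : A', r ≠ 0 → ∃ n : ℕ, ¬ ϖ ^ (n + 1) ∣ r) ∧
      (∀ r : R, algebraMap A' K' (ρ r) = algebraMap K K' (algebraMap R K r)) ∧
      IsLocalRing.residue A' (ρ π) = 0 ∧
      ζ ^ q = 1 ∧ ζ ≠ 1 ∧ ∃ u : A'ˣ, ((ζ : A') - 1) ^ (q - 1) = ρ π * u := by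
  classical
  haveI : NeZero q := ⟨hq.ne_zero⟩
  haveI : NeZero ((q : ℕ) : K) := ⟨by exact_mod_cast hq.ne_zero⟩
  haveI : IsCyclotomicExtension {q} K (CyclotomicField q K) :=
    CyclotomicField.isCyclotomicExtension q K
  haveI : FiniteDimensional K (CyclotomicField q K) :=
    IsCyclotomicExtension.finiteDimensional {q} K (CyclotomicField q K)
  haveI : IsDedekindDomain (integralClosure R (CyclotomicField q K)) :=
    integralClosure.isDedekindDomain R K (CyclotomicField q K)
  haveI : IsFractionRing (integralClosure R (CyclotomicField q K)) (CyclotomicField q K) :=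
    integralClosure.isFractionRing_of_finite_extension K (CyclotomicField q K)
  -- injectivity of `R → O`
  have hinjK' : Function.Injective (algebraMap R (CyclotomicField q K)) := by
    rw [IsScalarTower.algebraMap_eq R K (CyclotomicField q K)]
    exact (algebraMap K (CyclotomicField q K)).injective.comp (IsFractionRing.injective R K)
  have hinjO : Function.Injective
      (algebraMap R (integralClosure R (CyclotomicField q K))) := by
    intro a b hab
    apply hinjK'
    have := congrArg (algebraMap (integralClosure R (CyclotomicField q K))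
      (CyclotomicField q K)) hab
    rwa [← IsScalarTower.algebraMap_apply, ← IsScalarTower.algebraMap_apply] at this
  -- a prime over the maximal ideal
  obtain ⟨Q, hQmax, hQover⟩ := Ideal.exists_ideal_over_maximal_of_isIntegral
    (S := integralClosure R (CyclotomicField q K)) (IsLocalRing.maximalIdeal R)
    (by rw [(RingHom.injective_iff_ker_eq_bot _).mp hinjO]; exact bot_le)
  have hπm : π ∈ IsLocalRing.maximalIdeal R := hπ.not_isUnit
  have hπQ : algebraMap R (integralClosure R (CyclotomicField q K)) π ∈ Q := by
    have : π ∈ Q.comap (algebraMap R (integralClosure R (CyclotomicField q K))) := by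
      rw [hQover]; exact hπm
    exact this
  have hQne : Q ≠ ⊥ := by
    intro h
    rw [h, Ideal.mem_bot] at hπQ
    exact hπ.ne_zero (hinjO (by rw [hπQ, map_zero]))
  let v : HeightOneSpectrum (integralClosure R (CyclotomicField q K)) :=
    ⟨Q, hQmax.isPrime, hQne⟩
  -- facts on the valuation
  have hF1 : ∀ r : R, v.valuation (CyclotomicField q K)
      (algebraMap R (CyclotomicField q K) r) ≤ 1 := by
    intro r
    rw [IsScalarTower.algebraMap_apply R (integralClosure R (CyclotomicField q K))
      (CyclotomicField q K)]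
    exact v.valuation_le_one _
  have hF2 : v.valuation (CyclotomicField q K) (algebraMap R (CyclotomicField q K) π) < 1 := by
    rw [IsScalarTower.algebraMap_apply R (integralClosure R (CyclotomicField q K))
      (CyclotomicField q K)]
    exact (v.valuation_lt_one_iff_mem _).mpr hπQ
  obtain ⟨ϖ₀, hϖ₀⟩ := v.valuation_exists_uniformizer (CyclotomicField q K)
  have hmem : ∀ x : CyclotomicField q K,
      x ∈ (v.valuation (CyclotomicField q K)).valuationSubring ↔
        v.valuation (CyclotomicField q K) x ≤ 1 :=
    fun x => Valuation.mem_valuationSubring_iff _ _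
  have hϖmem : ϖ₀ ∈ (v.valuation (CyclotomicField q K)).valuationSubring := by
    rw [hmem, hϖ₀, ← exp_zero, exp_le_exp]; norm_num
  have hϖ0 : ϖ₀ ≠ 0 := by
    intro h0
    rw [h0, map_zero] at hϖ₀
    exact exp_ne_zero hϖ₀.symm
  -- units of `A'`
  have hunit : ∀ r : (v.valuation (CyclotomicField q K)).valuationSubring,
      IsUnit r ↔ v.valuation (CyclotomicField q K) (r : CyclotomicField q K) = 1 := by
    intro r
    constructor
    · rintro ⟨u, rfl⟩
      have h1 := (hmem _).mp (u : (v.valuation (CyclotomicField q K)).valuationSubring).2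
      have h2 := (hmem _).mp
        ((u⁻¹ : ((v.valuation (CyclotomicField q K)).valuationSubring)ˣ) :
          (v.valuation (CyclotomicField q K)).valuationSubring).2
      have h3 : v.valuation (CyclotomicField q K)
            ((u : (v.valuation (CyclotomicField q K)).valuationSubring) : CyclotomicField q K) *
          v.valuation (CyclotomicField q K)
            (((u⁻¹ : ((v.valuation (CyclotomicField q K)).valuationSubring)ˣ) :
              (v.valuation (CyclotomicField q K)).valuationSubring) : CyclotomicField q K) = 1 := by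
        rw [← map_mul]
        have := congrArg Subtype.val u.mul_inv
        rw [show ((u : (v.valuation (CyclotomicField q K)).valuationSubring) : CyclotomicField q K) *
          (((u⁻¹ : ((v.valuation (CyclotomicField q K)).valuationSubring)ˣ) :
              (v.valuation (CyclotomicField q K)).valuationSubring) : CyclotomicField q K) = 1
          from this, map_one]
      refine le_antisymm h1 ?_
      calc (1 : ℤᵐ⁰) = _ := h3.symm
        _ ≤ v.valuation (CyclotomicField q K)
            ((u : (v.valuation (CyclotomicField q K)).valuationSubring) : CyclotomicField q K) * 1 :=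
          mul_le_mul_right h2 _
        _ = _ := mul_one _
    · intro h
      have hr0 : (r : CyclotomicField q K) ≠ 0 := by
        intro h0; rw [h0, map_zero] at h; exact zero_ne_one h
      have hinv : (r : CyclotomicField q K)⁻¹ ∈
          (v.valuation (CyclotomicField q K)).valuationSubring := by
        rw [hmem, map_inv₀, h, inv_one]
      exact ⟨⟨r, ⟨_, hinv⟩, Subtype.ext (mul_inv_cancel₀ hr0),
        Subtype.ext (inv_mul_cancel₀ hr0)⟩, rfl⟩
  have hres : ∀ r : (v.valuation (CyclotomicField q K)).valuationSubring,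
      IsLocalRing.residue _ r = 0 ↔
        v.valuation (CyclotomicField q K) (r : CyclotomicField q K) ≤ exp (-1 : ℤ) := by
    intro r
    rw [IsLocalRing.residue_eq_zero_iff, IsLocalRing.mem_maximalIdeal, mem_nonunits_iff, hunit,
      ← Ne, cyc90_lt_one_iff _ ((hmem _).mp r.2)]
  have hdvd : ∀ r : (v.valuation (CyclotomicField q K)).valuationSubring,
      (⟨ϖ₀, hϖmem⟩ : (v.valuation (CyclotomicField q K)).valuationSubring) ∣ r ↔
        v.valuation (CyclotomicField q K) (r : CyclotomicField q K) ≤ exp (-1 : ℤ) := by
    intro r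
    constructor
    · rintro ⟨c, rfl⟩
      have hc := (hmem _).mp c.2
      change v.valuation (CyclotomicField q K) (ϖ₀ * (c : CyclotomicField q K)) ≤ _
      rw [map_mul, hϖ₀]
      calc exp (-1 : ℤ) * v.valuation (CyclotomicField q K) (c : CyclotomicField q K)
          ≤ exp (-1 : ℤ) * 1 := mul_le_mul_right hc _
        _ = _ := mul_one _
    · intro h
      have hc : ϖ₀⁻¹ * (r : CyclotomicField q K) ∈
          (v.valuation (CyclotomicField q K)).valuationSubring := by
        rw [hmem, map_mul, map_inv₀, hϖ₀]
        calc (exp (-1 : ℤ))⁻¹ * v.valuation (CyclotomicField q K) (r : CyclotomicField q K)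
            ≤ (exp (-1 : ℤ))⁻¹ * exp (-1 : ℤ) := mul_le_mul_right h _
          _ = 1 := inv_mul_cancel₀ exp_ne_zero
      exact ⟨⟨_, hc⟩, Subtype.ext (by
        change (r : CyclotomicField q K) = ϖ₀ * (ϖ₀⁻¹ * (r : CyclotomicField q K))
        rw [← mul_assoc, mul_inv_cancel₀ hϖ0, one_mul])⟩
  -- the root of unity
  have hζ₀ : IsPrimitiveRoot (IsCyclotomicExtension.zeta q K (CyclotomicField q K)) q :=
    IsCyclotomicExtension.zeta_spec q K (CyclotomicField q K)
  have hζval : v.valuation (CyclotomicField q K)
      (IsCyclotomicExtension.zeta q K (CyclotomicField q K)) = 1 := by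
    have h := congrArg (v.valuation (CyclotomicField q K)) hζ₀.pow_eq_one
    rw [map_pow, map_one] at h
    exact (pow_eq_one_iff.mp h).resolve_right hq.ne_zero
  have hζmem : IsCyclotomicExtension.zeta q K (CyclotomicField q K) ∈
      (v.valuation (CyclotomicField q K)).valuationSubring := by
    rw [hmem, hζval]
  have hζA : IsPrimitiveRoot
      (⟨_, hζmem⟩ : (v.valuation (CyclotomicField q K)).valuationSubring) q :=
    IsPrimitiveRoot.of_map_of_injective
      (f := (v.valuation (CyclotomicField q K)).valuationSubring.subtype) hζ₀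
      Subtype.val_injective
  have hζu : IsUnit (⟨_, hζmem⟩ : (v.valuation (CyclotomicField q K)).valuationSubring) :=
    (hunit _).mpr hζval
  -- the map from `R`
  let ρ : R →+* (v.valuation (CyclotomicField q K)).valuationSubring :=
    (algebraMap R (CyclotomicField q K)).codRestrict
      (v.valuation (CyclotomicField q K)).valuationSubring (fun r => (hmem _).mpr (hF1 r))
  have hρ : ∀ r : R, ((ρ r : (v.valuation (CyclotomicField q K)).valuationSubring) :
      CyclotomicField q K) = algebraMap R (CyclotomicField q K) r := fun r => rfl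
  refine ⟨CyclotomicField q K, inferInstance, inferInstance,
    (v.valuation (CyclotomicField q K)).valuationSubring, ⟨ϖ₀, hϖmem⟩, ρ, hζu.unit,
    ?_, ?_, ?_, ?_, ?_, ?_, ?_, ?_⟩
  · intro h
    exact hϖ0 (congrArg Subtype.val h)
  · intro r
    rw [hres, hdvd]
  · intro r hr
    have hr0 : (r : CyclotomicField q K) ≠ 0 := fun h => hr (Subtype.ext h)
    have hw0 : v.valuation (CyclotomicField q K) (r : CyclotomicField q K) ≠ 0 :=
      (Valuation.ne_zero_iff _).mpr hr0
    obtain ⟨k, hk⟩ : ∃ k : ℤ,
        v.valuation (CyclotomicField q K) (r : CyclotomicField q K) = exp k :=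
      ⟨log _, (exp_log hw0).symm⟩
    refine ⟨(-k).toNat, ?_⟩
    rintro ⟨c, hc⟩
    have hcv := (hmem _).mp c.2
    have h2 : v.valuation (CyclotomicField q K) (r : CyclotomicField q K) =
        exp (-1 : ℤ) ^ ((-k).toNat + 1) *
          v.valuation (CyclotomicField q K) (c : CyclotomicField q K) := by
      have := congrArg (fun x : (v.valuation (CyclotomicField q K)).valuationSubring =>
        v.valuation (CyclotomicField q K) (x : CyclotomicField q K)) hc
      rw [show v.valuation (CyclotomicField q K) (r : CyclotomicField q K) = _ from this]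
      change v.valuation (CyclotomicField q K)
        (ϖ₀ ^ ((-k).toNat + 1) * (c : CyclotomicField q K)) = _
      rw [map_mul, map_pow, hϖ₀]
    have h3 : exp k ≤ exp (-1 : ℤ) ^ ((-k).toNat + 1) := by
      rw [← hk, h2]
      calc _ ≤ exp (-1 : ℤ) ^ ((-k).toNat + 1) * 1 := mul_le_mul_right hcv _
        _ = _ := mul_one _
    rw [← exp_nsmul, exp_le_exp] at h3
    simp only [nsmul_eq_mul, Nat.cast_add, Nat.cast_one, mul_neg, mul_one] at h3
    omega
  · intro r
    rw [← IsScalarTower.algebraMap_apply]
    rfl
  · rw [hres]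
    exact (cyc90_lt_one_iff _ (hF1 π)).mp hF2.ne
  · apply Units.ext
    rw [Units.val_pow_eq_pow_val, IsUnit.unit_spec]
    exact hζA.pow_eq_one
  · intro h
    have := congrArg Units.val h
    rw [IsUnit.unit_spec] at this
    exact hζA.ne_one hq.one_lt this
  · have h1 := cyc90_assoc (A := (v.valuation (CyclotomicField q K)).valuationSubring) hq hζA
    have h2 : Associated (ρ ((q : ℕ) : R)) (ρ π) := hqπ.map ρ
    rw [map_natCast] at h2
    obtain ⟨u, hu⟩ := (h1.trans h2).symm
    exact ⟨u, by rw [IsUnit.unit_spec]; exact hu.symm⟩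

end Fermat.Agent.S36
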