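import Mathlib
import Fermat.Agent.S34.SpecFibre79
import Fermat.Agent.S36.NodeFinal40

/-!
# S36 lab, row 626 / row 599 C-REGq, piece (F) of helper40's plan (helper21): abstract half

Chart language of `SpecFibre79`.  `B` a noetherian chart, `V₁`, `V₂` the two vertical valuation
rings, `n` a closed point on both branches.

* `nf21_coord` : from a local coordinate `z₁` of the `V₁`-branch at `n` (`sf79_Unif`) and the
  transversality clause at `n` one gets `y ∈ n` with `π⁻¹ y ∈ V₂` (it vanishes along the second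
  branch), `π⁻¹ y ∉ V₁`, `y⁻¹ ∈ V₁`, which is still a local coordinate of the `V₁`-branch at `n`
  (`∀ x ∈ n, ∃ s ∉ n, ∃ a, π⁻¹ (s x - a y) ∈ V₁`) — the frame inputs `y`, `hyn`, `hy₂`, `hyP`,
  `hy₁`, `hunif` of `nf40_node`.
* `nf21_node_abs` : the regular node `s z z' = π s'` (literal `hnode` of `tl71_reg_of_nodes`) from
  the frame data and the ONE arithmetic input: for every discrete valuation ring `(O, ι)` of the
  `V₁`-branch at `n` (kernel of `ι` = the branch, units = the complement of `n`), the twelfth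
  power of a uniformiser divides `ι U`.

All names are prefixed `nf21_`.
-/

set_option autoImplicit false
set_option linter.unusedVariables false
set_option linter.unusedSectionVars false
set_option linter.style.longLine false

namespace Fermat.Agent.S36

open Fermat.Agent.S34

universe u v

section

variable {R : Type v} {F : Type u} [CommRing R] [Field F] [Algebra R F]

/-- **A coordinate of the first branch vanishing along the second branch.** -/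
theorem nf21_coord (π : R) (B : Subalgebra R F) (V₁ V₂ : Subring F)
    (hB₁ : ∀ x ∈ B, x ∈ V₁)
    (hπ₁ : (algebraMap R F π)⁻¹ ∉ V₁)
    (hV₁ : ∀ x ∈ V₁, (algebraMap R F π)⁻¹ * x ∉ V₁ → x⁻¹ ∈ V₁)
    (n : Ideal B) [hn : n.IsPrime]
    (h1 : sf79_OnBr π B V₁ n) (h2 : sf79_OnBr π B V₂ n)
    (z₁ : B) (hz₁ : sf79_Unif π B V₁ n z₁)
    (hT : ∀ x ∈ n, ∃ s : B, s ∉ n ∧ ∃ y y' : B, s * x = y + y' ∧
      (algebraMap R F π)⁻¹ * (y : F) ∈ V₁ ∧ (algebraMap R F π)⁻¹ * (y' : F) ∈ V₂)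
    (u : B) (hu₁ : (algebraMap R F π)⁻¹ * (u : F) ∉ V₁)
    (hu₂ : (algebraMap R F π)⁻¹ * (u : F) ∈ V₂) :
    ∃ y : B, y ∈ n ∧ (algebraMap R F π)⁻¹ * (y : F) ∈ V₂ ∧
      (algebraMap R F π)⁻¹ * (y : F) ∉ V₁ ∧ (y : F)⁻¹ ∈ V₁ ∧
      ∀ x ∈ n, ∃ s : B, s ∉ n ∧ ∃ a : B,
        (algebraMap R F π)⁻¹ * (((s * x - a * y : B) : B) : F) ∈ V₁ := by
  classical
  set p : F := algebraMap R F π with hp
  obtain ⟨sa, hsa, ya, ya', hya, hya1, hya2⟩ := hT z₁ hz₁.1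
  have hyaF : (sa : F) * (z₁ : F) = (ya : F) + (ya' : F) := by
    have := congrArg (fun t : B => (t : F)) hya
    simpa using this
  have hyan : ya ∈ n := h1 ya hya1
  have hya'n : ya' ∈ n := by
    have : ya' = sa * z₁ - ya := by rw [hya]; ring
    rw [this]
    exact n.sub_mem (n.mul_mem_left _ hz₁.1) hyan
  have hsa1 : (sa : F)⁻¹ ∈ V₁ := sf79_inv_mem π B V₁ hB₁ hV₁ n h1 sa hsa
  -- `ya'` is not in the first branch
  have hyP : p⁻¹ * (ya' : F) ∉ V₁ := by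
    intro hcon
    -- then `z₁` lies in the first branch
    have hz1P : p⁻¹ * (z₁ : F) ∈ V₁ := by
      have e : p⁻¹ * (z₁ : F) = (sa : F)⁻¹ * (p⁻¹ * (ya : F) + p⁻¹ * (ya' : F)) := by
        have hsa0 : (sa : F) ≠ 0 := sf79_ne_zero B n sa hsa
        have : (z₁ : F) = (sa : F)⁻¹ * ((ya : F) + (ya' : F)) := by
          rw [← hyaF, ← mul_assoc, inv_mul_cancel₀ hsa0, one_mul]
        rw [this]
        ring
      rw [e]
      exact V₁.mul_mem hsa1 (V₁.add_mem hya1 hcon)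
    -- hence every element of `n` lies in the first branch
    have hun : u ∈ n := h2 u hu₂
    obtain ⟨s, hs, a, hsa'⟩ := hz₁.2 u hun
    have hs1 : (s : F)⁻¹ ∈ V₁ := sf79_inv_mem π B V₁ hB₁ hV₁ n h1 s hs
    apply hu₁
    have hs0 : (s : F) ≠ 0 := sf79_ne_zero B n s hs
    have e : p⁻¹ * (u : F) = (s : F)⁻¹ * (p⁻¹ * ((s : F) * (u : F) - (a : F) * (z₁ : F)) +
        (a : F) * (p⁻¹ * (z₁ : F))) := by
      field_simp
      ring
    rw [e]
    exact V₁.mul_mem hs1 (V₁.add_mem hsa' (V₁.mul_mem (hB₁ _ a.2) hz1P))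
  refine ⟨ya', hya'n, hya2, hyP, hV₁ _ (hB₁ _ ya'.2) hyP, ?_⟩
  intro x hx
  obtain ⟨s, hs, a, hsa'⟩ := hz₁.2 x hx
  refine ⟨sa * s, fun h => (hn.mem_or_mem h).elim hsa hs, a, ?_⟩
  have e : p⁻¹ * (((sa * s * x - a * ya' : B) : B) : F) =
      (sa : F) * (p⁻¹ * ((s : F) * (x : F) - (a : F) * (z₁ : F))) +
        (a : F) * (p⁻¹ * (ya : F)) := by
    have h3 : (ya' : F) = (sa : F) * (z₁ : F) - (ya : F) := by rw [hyaF]; ring
    push_cast
    rw [h3]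
    ring
  rw [e]
  exact V₁.add_mem (V₁.mul_mem (hB₁ _ sa.2) hsa') (V₁.mul_mem (hB₁ _ a.2) hya1)

/-- **The regular node from the frame data and the divisibility `ϖ ^ 12 ∣ ι U`** in the discrete
valuation rings of the first branch at `n`. -/
theorem nf21_node_abs (π : R) (B : Subalgebra R F) [IsNoetherianRing B] (V₁ V₂ : Subring F)
    (hB₁ : ∀ x ∈ B, x ∈ V₁) (hB₂ : ∀ x ∈ B, x ∈ V₂)
    (hπ₁ : (algebraMap R F π)⁻¹ ∉ V₁)
    (hV₁ : ∀ x ∈ V₁, (algebraMap R F π)⁻¹ * x ∉ V₁ → x⁻¹ ∈ V₁)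
    (hsat : ∀ x ∈ B, (algebraMap R F π)⁻¹ * x ∈ V₁ → (algebraMap R F π)⁻¹ * x ∈ V₂ →
      (algebraMap R F π)⁻¹ * x ∈ B)
    (hroot : ∀ x : F, x ^ 12 ∈ B → x ∈ B)
    (n : Ideal B) [hn : n.IsPrime]
    (h1 : sf79_OnBr π B V₁ n) (h2 : sf79_OnBr π B V₂ n)
    (z₁ : B) (hz₁ : sf79_Unif π B V₁ n z₁)
    (hT : ∀ x ∈ n, ∃ s : B, s ∉ n ∧ ∃ y y' : B, s * x = y + y' ∧
      (algebraMap R F π)⁻¹ * (y : F) ∈ V₁ ∧ (algebraMap R F π)⁻¹ * (y' : F) ∈ V₂)
    (U Vv s₀ : B) (hs₀ : s₀ ∉ n) (hUV : U * Vv = algebraMap R B π ^ 12 * s₀)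
    (hU₁ : (U : F)⁻¹ ∈ V₁) (hVv₂ : (Vv : F)⁻¹ ∈ V₂)
    (hdata : ∀ (O : Type u) [CommRing O] [IsDomain O] [IsDiscreteValuationRing O] (ι : B →+* O),
      (∀ x : B, ι x = 0 ↔ (algebraMap R F π)⁻¹ * (x : F) ∈ V₁) →
      (∀ s : B, IsUnit (ι s) ↔ s ∉ n) → ∀ ϖ : O, Irreducible ϖ → ϖ ^ 12 ∣ ι U) :
    ∃ z z' s s' : B, s ∉ n ∧ s' ∉ n ∧ (algebraMap R F π)⁻¹ * (z : F) ∈ V₁ ∧
      (algebraMap R F π)⁻¹ * (z' : F) ∈ V₂ ∧ s * z * z' = algebraMap R B π * s' := by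
  classical
  set p : F := algebraMap R F π with hp
  have hp0 : p ≠ 0 := fun h0 => hπ₁ (by rw [h0, inv_zero]; exact V₁.zero_mem)
  have hUVF : (U : F) * (Vv : F) = p ^ 12 * (s₀ : F) := by
    have := congrArg (fun b : B => (b : F)) hUV
    simpa using this
  -- `U` is not in the first branch, but lies in the second one
  have hU1 : p⁻¹ * (U : F) ∉ V₁ := by
    intro hcon
    apply hπ₁
    have hU0 : (U : F) ≠ 0 := by
      intro h0
      rw [h0, mul_zero] at hcon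
      have hs₀0 : (s₀ : F) ≠ 0 := sf79_ne_zero B n s₀ hs₀
      rw [h0, zero_mul] at hUVF
      exact (mul_ne_zero (pow_ne_zero 12 hp0) hs₀0) hUVF.symm
    have e : p⁻¹ = p⁻¹ * (U : F) * (U : F)⁻¹ := by
      field_simp
    rw [e]
    exact V₁.mul_mem hcon hU₁
  have hU2 : p⁻¹ * (U : F) ∈ V₂ := by
    have hVv0 : (Vv : F) ≠ 0 := by
      intro h0
      have hs₀0 : (s₀ : F) ≠ 0 := sf79_ne_zero B n s₀ hs₀
      rw [h0, mul_zero] at hUVF
      exact (mul_ne_zero (pow_ne_zero 12 hp0) hs₀0) hUVF.symm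
    have e : p⁻¹ * (U : F) = p ^ 11 * (s₀ : F) * (Vv : F)⁻¹ := by
      have h3 : (U : F) = p ^ 12 * (s₀ : F) * (Vv : F)⁻¹ := by
        rw [← hUVF]
        field_simp
      rw [h3]
      field_simp
    rw [e]
    exact V₂.mul_mem (V₂.mul_mem (V₂.pow_mem (hB₂ _ (B.algebraMap_mem π)) 11) (hB₂ _ s₀.2)) hVv₂
  obtain ⟨y, hyn, hy₂, hyP, hy₁, hunif⟩ :=
    nf21_coord π B V₁ V₂ hB₁ hπ₁ hV₁ n h1 h2 z₁ hz₁ hT U hU1 hU2
  haveI hPp : (sf79_br π B V₁ hB₁).IsPrime := sf79_br_isPrime π B V₁ hB₁ hπ₁ hV₁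
  exact nf40_node π B V₁ V₂ hB₁ hB₂ hp0 hsat hroot (sf79_br π B V₁ hB₁)
    (fun x => sf79_mem_br π B V₁ hB₁ x) n (fun x hx => h1 x hx) y hyn hy₂ hyP hy₁
    (fun x hx => by
      obtain ⟨s, hs, a, hsa⟩ := hunif x hx
      exact ⟨s, hs, a, hsa⟩)
    U Vv s₀ hs₀ hUV hU₁
    (fun O _ _ _ ι h0 hunit hirr => hdata O ι (fun x => (h0 x).trans (sf79_mem_br π B V₁ hB₁ x))
      hunit (ι y) hirr)

end

end Fermat.Agent.S36
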