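import Mathlib
import Fermat.Agent.S34.PkgFrameTransv73
import Fermat.Agent.S34.UVAtFrame22
import Fermat.Agent.S34.FrameSat85
import Fermat.Agent.S36.NodeFrameInst79
import Fermat.Agent.S36.TripleReg71
import Fermat.Agent.S36.NodeFrame21

/-!
# S36 lab, row 626 / row 599 C-REGq, piece (F) of helper40's plan (helper21): canonical frame

Canonical level-`q` frame of `Iface47c` at level `M' * q` (`q ∤ M'`, `R` a discrete valuation
ring of the number field `K` in which `q` IS THE UNIFORMISER: `(q : R) = π`):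
`V_∞ = cm85_Vinf (M' * q) hπ`, `V_0 = s34i47c_V0 M' q hq hM' hπ`, charts `pk15_chart R {h}`,
`pk15_chart R {h⁻¹}` of an admissible Hauptmodul, `U = dq56b_U` (`= Δ(Q)/Δ(Q^q)`, `U V = q ^ 12`).

* `nf21c_Data M' q hq hπ B n` : THE ONLY ARITHMETIC INPUT at a node `n` of the chart `B`:
  for every `Ub, a ∈ B` with `a ∉ n`, `Ub = a * U` (a form of `U` cleared of denominators at
  `n`), and every discrete valuation ring `(O, ι)` of the `∞`-branch at `n`
  (`ι x = 0 ↔ π⁻¹ x ∈ V_∞`, `IsUnit (ι s) ↔ s ∉ n`; one exists by `bd40_exists_dvr`, and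
  `rhi19_red_q_level2/3` is one inside `LaurentSeries (ResidueField R)`):
  `ϖ ^ 12 ∣ ι Ub` for every uniformiser `ϖ` of `O`.
  [= the conclusion of `k1d40_generic / _at_1728 / _at_zero / _char_three / _char_two`,
  `ka13`, `k1e44`: `ϖ¹² ∣ Ū`.]
* `nf21c_hnode_of` : on a chart with the frame facts (`B ⊆ W`, saturation, noetherian, (3a) on
  `V_∞`, (3b), `j` regular at the nodes), `nf21c_Data` at a node gives the labelled regular node
  `s z z' = π s'` (literal `hnode` of `tl71_reg_of_nodes`).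
* `nf21c_hnode` : both charts of an admissible Hauptmodul; all frame facts are discharged
  (`nf79c_chart_facts`, `tvc73_pkg_frameTransv`, `fs85_frameSat`, `cf22_level2/3(_inv)`,
  `dq56b_*`).
* `nf21c_reg` : `nf21c_Data` at every node of both charts ⟹ (REG-q) in the `tl71_DivAt` shape for
  both charts = LITERALLY the hypotheses `hr₁`, `hr₂` of `tf71b_twoGen`.

All names are prefixed `nf21c_`.
-/

set_option autoImplicit false
set_option linter.unusedVariables false
set_option linter.unusedSectionVars false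
set_option linter.style.longLine false
set_option linter.style.haveILetI false

open ModularCurve AlgebraicCurve IntermediateField

namespace Fermat.Agent.S36

open Fermat.Agent.S18 Fermat.Agent.S34 Fermat.Agent.S36.TripleLoc71

local notation "Q̄" => AlgebraicClosure ℚ

section NF21C

variable {R K : Type} [CommRing R] [IsDomain R] [IsDiscreteValuationRing R] [Field K]
  [NumberField K] [Algebra K Q̄] [Algebra R K] [IsFractionRing R K]
  (M' q : ℕ) [NeZero M'] [NeZero q] (hq : q.Prime) (hM' : ¬ q ∣ M')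
  [Algebra R ↥(modularFunctionFieldFullC K (M' * q))]
  [IsScalarTower R K ↥(modularFunctionFieldFullC K (M' * q))] {π : R} (hπ : Irreducible π)

/-- **The arithmetic input at a node `n` of the chart `B`**: in every discrete valuation ring
`(O, ι)` of the `∞`-branch at `n`, the twelfth power of a uniformiser divides the image of
(any form cleared of denominators at `n` of) the modular unit `U = Δ(Q)/Δ(Q^q)`. -/
def nf21c_Data (B : Subalgebra R ↥(modularFunctionFieldFullC K (M' * q))) (n : Ideal B) : Prop :=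
  ∀ Ub a : B, a ∉ n →
    (Ub : ↥(modularFunctionFieldFullC K (M' * q))) =
      (a : ↥(modularFunctionFieldFullC K (M' * q))) * dq56b_U (K := K) M' q hq →
    ∀ (O : Type) [CommRing O] [IsDomain O] [IsDiscreteValuationRing O] (ι : B →+* O),
      (∀ x : B, ι x = 0 ↔
        (algebraMap R ↥(modularFunctionFieldFullC K (M' * q)) π)⁻¹ *
          (x : ↥(modularFunctionFieldFullC K (M' * q))) ∈ cm85_Vinf (K := K) (M' * q) hπ) →
      (∀ s : B, IsUnit (ι s) ↔ s ∉ n) → ∀ ϖ : O, Irreducible ϖ → ϖ ^ 12 ∣ ι Ub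

/-- **The labelled regular node from `nf21c_Data`**, on a chart with the frame facts. -/
theorem nf21c_hnode_of (hqR : ¬ IsUnit (q : R)) (hqπ : ((q : ℕ) : R) = π)
    (s : Set ↥(modularFunctionFieldFullC K (M' * q)))
    [IsNoetherianRing (pk15_chart R s)]
    (hBW : ∀ x ∈ pk15_chart R s, x ∈ s34i47c_W (K := K) M' q hq hM' hπ)
    (hsatB : ∀ x ∈ pk15_chart R s,
      (algebraMap R ↥(modularFunctionFieldFullC K (M' * q)) π)⁻¹ * x ∈
        s34i47c_W (K := K) M' q hq hM' hπ →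
      (algebraMap R ↥(modularFunctionFieldFullC K (M' * q)) π)⁻¹ * x ∈ pk15_chart R s)
    (hSm : sf79_Smooth π (pk15_chart R s) (cm85_Vinf (K := K) (M' * q) hπ).toSubring)
    (hTr : sf79_Transv π (pk15_chart R s) (cm85_Vinf (K := K) (M' * q) hπ).toSubring
      (s34i47c_V0 (K := K) M' q hq hM' hπ).toSubring)
    (hj : ∀ n : Ideal ↥(pk15_chart R s), n.IsPrime →
      (∀ y : ↥(pk15_chart R s),
        (algebraMap R ↥(modularFunctionFieldFullC K (M' * q)) π)⁻¹ *
          (y : ↥(modularFunctionFieldFullC K (M' * q))) ∈ cm85_Vinf (K := K) (M' * q) hπ → y ∈ n) →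
      (∀ y : ↥(pk15_chart R s),
        (algebraMap R ↥(modularFunctionFieldFullC K (M' * q)) π)⁻¹ *
          (y : ↥(modularFunctionFieldFullC K (M' * q))) ∈
            cm15_V0 (algebraMap K Q̄) M' q hq hM' hπ → y ∈ n) →
      ∃ a b : ↥(pk15_chart R s), a ∉ n ∧
        (a : ↥(modularFunctionFieldFullC K (M' * q))) * rm90_j K (M' * q) =
          (b : ↥(modularFunctionFieldFullC K (M' * q))))
    (n : Ideal ↥(pk15_chart R s)) (hn : n.IsMaximal)
    (h1 : sf79_OnBr π (pk15_chart R s) (cm85_Vinf (K := K) (M' * q) hπ).toSubring n)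
    (h2 : sf79_OnBr π (pk15_chart R s) (s34i47c_V0 (K := K) M' q hq hM' hπ).toSubring n)
    (hdata : nf21c_Data M' q hq hπ (pk15_chart R s) n) :
    ∃ z z' s₁ s' : ↥(pk15_chart R s), s₁ ∉ n ∧ s' ∉ n ∧
      (algebraMap R ↥(modularFunctionFieldFullC K (M' * q)) π)⁻¹ *
        (z : ↥(modularFunctionFieldFullC K (M' * q))) ∈
          (cm85_Vinf (K := K) (M' * q) hπ).toSubring ∧
      (algebraMap R ↥(modularFunctionFieldFullC K (M' * q)) π)⁻¹ *
        (z' : ↥(modularFunctionFieldFullC K (M' * q))) ∈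
          (s34i47c_V0 (K := K) M' q hq hM' hπ).toSubring ∧
      s₁ * z * z' = algebraMap R ↥(pk15_chart R s) π * s' := by
  classical
  haveI hnp : n.IsPrime := hn.isPrime
  have hπ₁ : (algebraMap R ↥(modularFunctionFieldFullC K (M' * q)) π)⁻¹ ∉
      (cm85_Vinf (K := K) (M' * q) hπ).toSubring := al97C_pi_inv_not_mem_Vinf M' q hπ
  have hπ₂ : (algebraMap R ↥(modularFunctionFieldFullC K (M' * q)) π)⁻¹ ∉
      (s34i47c_V0 (K := K) M' q hq hM' hπ).toSubring := al97C_pi_inv_not_mem_V0 M' q hq hM' hπ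
  have hp0 : algebraMap R ↥(modularFunctionFieldFullC K (M' * q)) π ≠ 0 := fun h0 =>
    hπ₁ (by rw [h0, inv_zero]; exact Subring.zero_mem _)
  have hV₁ : ∀ x ∈ (cm85_Vinf (K := K) (M' * q) hπ).toSubring,
      (algebraMap R ↥(modularFunctionFieldFullC K (M' * q)) π)⁻¹ * x ∉
        (cm85_Vinf (K := K) (M' * q) hπ).toSubring →
      x⁻¹ ∈ (cm85_Vinf (K := K) (M' * q) hπ).toSubring := by
    intro x hx hx'
    by_contra hcon
    apply hx'
    have hconv : algebraMap R ↥(modularFunctionFieldFullC K (M' * q)) π =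
        algebraMap K ↥(modularFunctionFieldFullC K (M' * q)) (algebraMap R K π) :=
      IsScalarTower.algebraMap_apply R K ↥(modularFunctionFieldFullC K (M' * q)) π
    rw [hconv]
    exact gv85_hmax (IsLocalRing.residue R) π (pk85_res_iff hπ) hπ.ne_zero _ _ x hx hcon
  have hV₂ : ∀ x ∈ (s34i47c_V0 (K := K) M' q hq hM' hπ).toSubring,
      (algebraMap R ↥(modularFunctionFieldFullC K (M' * q)) π)⁻¹ * x ∉
        (s34i47c_V0 (K := K) M' q hq hM' hπ).toSubring →
      x⁻¹ ∈ (s34i47c_V0 (K := K) M' q hq hM' hπ).toSubring := by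
    intro x hx hx'
    by_contra hcon
    exact hx' (al97C_hmax_V0 M' q hq hM' hπ x hx hcon)
  have hmemW : ∀ x : ↥(modularFunctionFieldFullC K (M' * q)),
      x ∈ s34i47c_W (K := K) M' q hq hM' hπ →
      x ∈ (cm85_Vinf (K := K) (M' * q) hπ).toSubring ∧
        x ∈ (s34i47c_V0 (K := K) M' q hq hM' hπ).toSubring := by
    intro x hx
    obtain ⟨h1, h2⟩ := (s34i47c_mem_W M' q hq hM' hπ x).mp hx
    exact ⟨h1, (s34i47c_mem_V0 M' q hq hM' hπ x).mpr h2⟩
  have hWmem : ∀ x : ↥(modularFunctionFieldFullC K (M' * q)),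
      x ∈ (cm85_Vinf (K := K) (M' * q) hπ).toSubring →
      x ∈ (s34i47c_V0 (K := K) M' q hq hM' hπ).toSubring →
      x ∈ s34i47c_W (K := K) M' q hq hM' hπ := by
    intro x h1 h2
    exact (s34i47c_mem_W M' q hq hM' hπ x).mpr ⟨h1, (s34i47c_mem_V0 M' q hq hM' hπ x).mp h2⟩
  have hB₁ : ∀ x ∈ pk15_chart R s, x ∈ (cm85_Vinf (K := K) (M' * q) hπ).toSubring :=
    fun x hx => (hmemW x (hBW x hx)).1
  have hB₂ : ∀ x ∈ pk15_chart R s, x ∈ (s34i47c_V0 (K := K) M' q hq hM' hπ).toSubring :=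
    fun x hx => (hmemW x (hBW x hx)).2
  have hπn : algebraMap R ↥(pk15_chart R s) π ∈ n := by
    apply h1
    have e : (algebraMap R ↥(modularFunctionFieldFullC K (M' * q)) π)⁻¹ *
        ((algebraMap R ↥(pk15_chart R s) π : ↥(pk15_chart R s)) :
          ↥(modularFunctionFieldFullC K (M' * q))) = 1 := by
      show (algebraMap R ↥(modularFunctionFieldFullC K (M' * q)) π)⁻¹ *
        algebraMap R ↥(modularFunctionFieldFullC K (M' * q)) π = 1
      exact inv_mul_cancel₀ hp0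
    rw [e]
    exact Subring.one_mem _
  obtain ⟨z₁, hz₁⟩ := hSm n hn hπn h1
  have hT := hTr n hn hπn h1 h2
  -- the modular unit, cleared of denominators at `n`
  obtain ⟨a, b, ha, hab⟩ := hj n hnp h1 h2
  have haj : (a : ↥(modularFunctionFieldFullC K (M' * q))) * rm90_j K (M' * q) ∈
      pk15_chart R s := by
    rw [hab]
    exact b.2
  obtain ⟨k, hk⟩ := uv17_clear (pk15_chart R s) (uv17_chart_intClosed s) (rm90_j K (M' * q))
    (dq56b_U (K := K) M' q hq) (dq56b_U_integral M' q hq)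
    (a : ↥(modularFunctionFieldFullC K (M' * q))) a.2 haj
  obtain ⟨l, hl⟩ := uv17_clear (pk15_chart R s) (uv17_chart_intClosed s) (rm90_j K (M' * q))
    (dq56b_V (K := K) M' q hq hM') (dq56b_V_integral M' q hq hM')
    (a : ↥(modularFunctionFieldFullC K (M' * q))) a.2 haj
  have hak : ∀ m : ℕ, a ^ m ∉ n := fun m hm => ha (hnp.mem_of_pow_mem m hm)
  have ha0 : (a : ↥(modularFunctionFieldFullC K (M' * q))) ≠ 0 := sf79_ne_zero _ n a ha
  have ha1 : (a : ↥(modularFunctionFieldFullC K (M' * q)))⁻¹ ∈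
      (cm85_Vinf (K := K) (M' * q) hπ).toSubring :=
    sf79_inv_mem π _ _ hB₁ hV₁ n h1 a ha
  have ha2 : (a : ↥(modularFunctionFieldFullC K (M' * q)))⁻¹ ∈
      (s34i47c_V0 (K := K) M' q hq hM' hπ).toSubring :=
    sf79_inv_mem π _ _ hB₂ hV₂ n h2 a ha
  have hqF : algebraMap R ↥(modularFunctionFieldFullC K (M' * q)) π =
      (q : ↥(modularFunctionFieldFullC K (M' * q))) := by
    rw [← hqπ, map_natCast]
  have hUV : (⟨(a : ↥(modularFunctionFieldFullC K (M' * q))) ^ k * dq56b_U (K := K) M' q hq, hk⟩ :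
        ↥(pk15_chart R s)) *
      ⟨(a : ↥(modularFunctionFieldFullC K (M' * q))) ^ l * dq56b_V (K := K) M' q hq hM', hl⟩ =
      algebraMap R ↥(pk15_chart R s) π ^ 12 * a ^ (k + l) := by
    apply Subtype.ext
    show (a : ↥(modularFunctionFieldFullC K (M' * q))) ^ k * dq56b_U (K := K) M' q hq *
        ((a : ↥(modularFunctionFieldFullC K (M' * q))) ^ l * dq56b_V (K := K) M' q hq hM') =
      ((algebraMap R ↥(pk15_chart R s) π ^ 12 * a ^ (k + l) : ↥(pk15_chart R s)) :
        ↥(modularFunctionFieldFullC K (M' * q)))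
    have h4 : ((algebraMap R ↥(pk15_chart R s) π ^ 12 * a ^ (k + l) : ↥(pk15_chart R s)) :
        ↥(modularFunctionFieldFullC K (M' * q))) =
        algebraMap R ↥(modularFunctionFieldFullC K (M' * q)) π ^ 12 *
          (a : ↥(modularFunctionFieldFullC K (M' * q))) ^ (k + l) := by
      push_cast
      rfl
    rw [h4, hqF, ← dq56b_mul M' q hq hM', pow_add]
    ring
  have hU₁ : ((⟨(a : ↥(modularFunctionFieldFullC K (M' * q))) ^ k * dq56b_U (K := K) M' q hq,
      hk⟩ : ↥(pk15_chart R s)) : ↥(modularFunctionFieldFullC K (M' * q)))⁻¹ ∈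
      (cm85_Vinf (K := K) (M' * q) hπ).toSubring := by
    show ((a : ↥(modularFunctionFieldFullC K (M' * q))) ^ k * dq56b_U (K := K) M' q hq)⁻¹ ∈
      (cm85_Vinf (K := K) (M' * q) hπ).toSubring
    rw [mul_inv, ← inv_pow]
    exact Subring.mul_mem _ (Subring.pow_mem _ ha1 k) (dq56b_Uinv_mem_Vinf M' q hq hπ)
  have hVv₂ : ((⟨(a : ↥(modularFunctionFieldFullC K (M' * q))) ^ l *
      dq56b_V (K := K) M' q hq hM', hl⟩ : ↥(pk15_chart R s)) :
        ↥(modularFunctionFieldFullC K (M' * q)))⁻¹ ∈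
      (s34i47c_V0 (K := K) M' q hq hM' hπ).toSubring := by
    show ((a : ↥(modularFunctionFieldFullC K (M' * q))) ^ l * dq56b_V (K := K) M' q hq hM')⁻¹ ∈
      (s34i47c_V0 (K := K) M' q hq hM' hπ).toSubring
    rw [mul_inv, ← inv_pow]
    exact Subring.mul_mem _ (Subring.pow_mem _ ha2 l) (dq56b_Vinv_mem_V0 M' q hq hM' hπ)
  have hroot : ∀ x : ↥(modularFunctionFieldFullC K (M' * q)),
      x ^ 12 ∈ pk15_chart R s → x ∈ pk15_chart R s := by
    intro x hx
    apply uv17_chart_intClosed s x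
    apply IsIntegral.of_pow (n := 12) (by norm_num)
    have h3 : x ^ 12 = algebraMap ↥(pk15_chart R s) ↥(modularFunctionFieldFullC K (M' * q))
        ⟨x ^ 12, hx⟩ := rfl
    rw [h3]
    exact isIntegral_algebraMap
  have hUb : ((⟨(a : ↥(modularFunctionFieldFullC K (M' * q))) ^ k * dq56b_U (K := K) M' q hq,
      hk⟩ : ↥(pk15_chart R s)) : ↥(modularFunctionFieldFullC K (M' * q))) =
      ((a ^ k : ↥(pk15_chart R s)) : ↥(modularFunctionFieldFullC K (M' * q))) *
        dq56b_U (K := K) M' q hq := by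
    push_cast
    rfl
  have hd := hdata ⟨(a : ↥(modularFunctionFieldFullC K (M' * q))) ^ k *
    dq56b_U (K := K) M' q hq, hk⟩ (a ^ k) (hak k) hUb
  exact nf21_node_abs π (pk15_chart R s) (cm85_Vinf (K := K) (M' * q) hπ).toSubring
    (s34i47c_V0 (K := K) M' q hq hM' hπ).toSubring hB₁ hB₂ hπ₁ hV₁
    (fun x hx h1 h2 => hsatB x hx (hWmem _ h1 h2)) hroot n h1 h2 z₁ hz₁ hT
    ⟨(a : ↥(modularFunctionFieldFullC K (M' * q))) ^ k * dq56b_U (K := K) M' q hq, hk⟩
    ⟨(a : ↥(modularFunctionFieldFullC K (M' * q))) ^ l * dq56b_V (K := K) M' q hq hM', hl⟩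
    (a ^ (k + l)) (hak _) hUV hU₁ hVv₂
    (fun O _ _ _ ι h0 hunit ϖ hϖ => hd O ι h0 hunit ϖ hϖ)

include hq hM' in
/-- `j` is regular at every node of both charts of an admissible Hauptmodul
(`cf22_level2/3(_inv)`). -/
theorem nf21c_hj (hunit : ∀ n : ℕ, Nat.Coprime n q → IsUnit (n : R)) (hqR : ¬ IsUnit (q : R))
    (h : ↥(modularFunctionFieldFullC K (M' * q))) (hh : s34i47c_IsHaupt K (M' * q) q h) :
    (∀ n : Ideal ↥(pk15_chart R ({h} : Set ↥(modularFunctionFieldFullC K (M' * q)))), n.IsPrime →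
      (∀ y : ↥(pk15_chart R ({h} : Set ↥(modularFunctionFieldFullC K (M' * q)))),
        (algebraMap R ↥(modularFunctionFieldFullC K (M' * q)) π)⁻¹ *
          (y : ↥(modularFunctionFieldFullC K (M' * q))) ∈ cm85_Vinf (K := K) (M' * q) hπ → y ∈ n) →
      (∀ y : ↥(pk15_chart R ({h} : Set ↥(modularFunctionFieldFullC K (M' * q)))),
        (algebraMap R ↥(modularFunctionFieldFullC K (M' * q)) π)⁻¹ *
          (y : ↥(modularFunctionFieldFullC K (M' * q))) ∈
            cm15_V0 (algebraMap K Q̄) M' q hq hM' hπ → y ∈ n) →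
      ∃ a b : ↥(pk15_chart R ({h} : Set ↥(modularFunctionFieldFullC K (M' * q)))), a ∉ n ∧
        (a : ↥(modularFunctionFieldFullC K (M' * q))) * rm90_j K (M' * q) =
          (b : ↥(modularFunctionFieldFullC K (M' * q)))) ∧
    (∀ n : Ideal ↥(pk15_chart R ({h⁻¹} : Set ↥(modularFunctionFieldFullC K (M' * q)))), n.IsPrime →
      (∀ y : ↥(pk15_chart R ({h⁻¹} : Set ↥(modularFunctionFieldFullC K (M' * q)))),
        (algebraMap R ↥(modularFunctionFieldFullC K (M' * q)) π)⁻¹ *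
          (y : ↥(modularFunctionFieldFullC K (M' * q))) ∈ cm85_Vinf (K := K) (M' * q) hπ → y ∈ n) →
      (∀ y : ↥(pk15_chart R ({h⁻¹} : Set ↥(modularFunctionFieldFullC K (M' * q)))),
        (algebraMap R ↥(modularFunctionFieldFullC K (M' * q)) π)⁻¹ *
          (y : ↥(modularFunctionFieldFullC K (M' * q))) ∈
            cm15_V0 (algebraMap K Q̄) M' q hq hM' hπ → y ∈ n) →
      ∃ a b : ↥(pk15_chart R ({h⁻¹} : Set ↥(modularFunctionFieldFullC K (M' * q)))), a ∉ n ∧
        (a : ↥(modularFunctionFieldFullC K (M' * q))) * rm90_j K (M' * q) =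
          (b : ↥(modularFunctionFieldFullC K (M' * q)))) := by
  rcases hh with ⟨hq2, h2, rfl⟩ | ⟨hq3, h3, rfl⟩
  · have hcop : Nat.Coprime 2 q := (Nat.coprime_primes Nat.prime_two hq).mpr (Ne.symm hq2)
    have h2' : 2 ∣ M' := hcop.dvd_of_dvd_mul_right h2
    have h2u : IsUnit (2 : R) := by
      have := hunit 2 hcop
      rwa [Nat.cast_ofNat] at this
    exact ⟨fun n hn h1 h2 =>
        haveI := hn
        cf22_level2 (algebraMap K Q̄) M' q hq hM' hπ hqR h2' h2u n h1 h2,
      fun n hn h1 h2 =>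
        haveI := hn
        cf22_level2_inv (algebraMap K Q̄) M' q hq hM' hπ hqR h2' n h1 h2⟩
  · have hcop : Nat.Coprime 3 q := (Nat.coprime_primes Nat.prime_three hq).mpr (Ne.symm hq3)
    have h3' : 3 ∣ M' := hcop.dvd_of_dvd_mul_right h3
    have h3u : IsUnit (3 : R) := by
      have := hunit 3 hcop
      rwa [Nat.cast_ofNat] at this
    exact ⟨fun n hn h1 h2 =>
        haveI := hn
        cf22_level3 (algebraMap K Q̄) M' q hq hM' hπ hqR h3' h3u n h1 h2,
      fun n hn h1 h2 =>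
        haveI := hn
        cf22_level3_inv (algebraMap K Q̄) M' q hq hM' hπ hqR h3' n h1 h2⟩

include hq hM' in
/-- **The labelled regular nodes of both charts of an admissible Hauptmodul** from `nf21c_Data`
(all frame facts discharged). -/
theorem nf21c_hnode (hunit : ∀ n : ℕ, Nat.Coprime n q → IsUnit (n : R)) (hqR : ¬ IsUnit (q : R))
    (hqπ : ((q : ℕ) : R) = π)
    (h : ↥(modularFunctionFieldFullC K (M' * q))) (hh : s34i47c_IsHaupt K (M' * q) q h) :
    (∀ n : Ideal ↥(pk15_chart R ({h} : Set ↥(modularFunctionFieldFullC K (M' * q)))),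
      n.IsMaximal →
      sf79_OnBr π (pk15_chart R ({h} : Set ↥(modularFunctionFieldFullC K (M' * q))))
        (cm85_Vinf (K := K) (M' * q) hπ).toSubring n →
      sf79_OnBr π (pk15_chart R ({h} : Set ↥(modularFunctionFieldFullC K (M' * q))))
        (s34i47c_V0 (K := K) M' q hq hM' hπ).toSubring n →
      nf21c_Data M' q hq hπ
        (pk15_chart R ({h} : Set ↥(modularFunctionFieldFullC K (M' * q)))) n →
      ∃ z z' s₁ s' : ↥(pk15_chart R ({h} : Set ↥(modularFunctionFieldFullC K (M' * q)))),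
        s₁ ∉ n ∧ s' ∉ n ∧
        (algebraMap R ↥(modularFunctionFieldFullC K (M' * q)) π)⁻¹ *
          (z : ↥(modularFunctionFieldFullC K (M' * q))) ∈
            (cm85_Vinf (K := K) (M' * q) hπ).toSubring ∧
        (algebraMap R ↥(modularFunctionFieldFullC K (M' * q)) π)⁻¹ *
          (z' : ↥(modularFunctionFieldFullC K (M' * q))) ∈
            (s34i47c_V0 (K := K) M' q hq hM' hπ).toSubring ∧
        s₁ * z * z' = algebraMap R
          ↥(pk15_chart R ({h} : Set ↥(modularFunctionFieldFullC K (M' * q)))) π * s') ∧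
    (∀ n : Ideal ↥(pk15_chart R ({h⁻¹} : Set ↥(modularFunctionFieldFullC K (M' * q)))),
      n.IsMaximal →
      sf79_OnBr π (pk15_chart R ({h⁻¹} : Set ↥(modularFunctionFieldFullC K (M' * q))))
        (cm85_Vinf (K := K) (M' * q) hπ).toSubring n →
      sf79_OnBr π (pk15_chart R ({h⁻¹} : Set ↥(modularFunctionFieldFullC K (M' * q))))
        (s34i47c_V0 (K := K) M' q hq hM' hπ).toSubring n →
      nf21c_Data M' q hq hπ
        (pk15_chart R ({h⁻¹} : Set ↥(modularFunctionFieldFullC K (M' * q)))) n →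
      ∃ z z' s₁ s' : ↥(pk15_chart R ({h⁻¹} : Set ↥(modularFunctionFieldFullC K (M' * q)))),
        s₁ ∉ n ∧ s' ∉ n ∧
        (algebraMap R ↥(modularFunctionFieldFullC K (M' * q)) π)⁻¹ *
          (z : ↥(modularFunctionFieldFullC K (M' * q))) ∈
            (cm85_Vinf (K := K) (M' * q) hπ).toSubring ∧
        (algebraMap R ↥(modularFunctionFieldFullC K (M' * q)) π)⁻¹ *
          (z' : ↥(modularFunctionFieldFullC K (M' * q))) ∈
            (s34i47c_V0 (K := K) M' q hq hM' hπ).toSubring ∧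
        s₁ * z * z' = algebraMap R
          ↥(pk15_chart R ({h⁻¹} : Set ↥(modularFunctionFieldFullC K (M' * q)))) π * s') := by
  obtain ⟨⟨hBW1, hsat1, -, -, hSm1⟩, ⟨hBW2, hsat2, -, -, hSm2⟩⟩ :=
    nf79c_chart_facts M' q hq hM' hπ hunit hqR h hh
  obtain ⟨hTr1, hTr2⟩ := tvc73_pkg_frameTransv M' q hq hM' R K π hπ hunit hqR h hh
  obtain ⟨-, hC⟩ := fs85_frameSat M' q hq hM' R K π hπ hunit hqR
  obtain ⟨-, -, -, -, -, hN1, hN2, -, -⟩ := hC h hh
  obtain ⟨hj1, hj2⟩ := nf21c_hj M' q hq hM' hπ hunit hqR h hh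
  haveI := hN1
  haveI := hN2
  exact ⟨fun n hn h1 h2 hd => nf21c_hnode_of M' q hq hM' hπ hqR hqπ _ hBW1 hsat1 hSm1 hTr1 hj1
      n hn h1 h2 hd,
    fun n hn h1 h2 hd => nf21c_hnode_of M' q hq hM' hπ hqR hqπ _ hBW2 hsat2 hSm2 hTr2 hj2
      n hn h1 h2 hd⟩

/-- (REG-q) on a chart in the `tl71_DivAt` shape, both orders of the branches. -/
def nf21c_Reg (B : Subalgebra R ↥(modularFunctionFieldFullC K (M' * q))) : Prop :=
  (∀ m' : Ideal B, m'.IsMaximal →
    sf79_OnBr π B (cm85_Vinf (K := K) (M' * q) hπ).toSubring m' →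
    sf79_OnBr π B (s34i47c_V0 (K := K) M' q hq hM' hπ).toSubring m' →
    tl71_DivAt π B (cm85_Vinf (K := K) (M' * q) hπ).toSubring
      (s34i47c_V0 (K := K) M' q hq hM' hπ).toSubring
      (s34i47c_V0 (K := K) M' q hq hM' hπ).toSubring m') ∧
  (∀ m' : Ideal B, m'.IsMaximal →
    sf79_OnBr π B (s34i47c_V0 (K := K) M' q hq hM' hπ).toSubring m' →
    sf79_OnBr π B (cm85_Vinf (K := K) (M' * q) hπ).toSubring m' →
    tl71_DivAt π B (s34i47c_V0 (K := K) M' q hq hM' hπ).toSubring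
      (cm85_Vinf (K := K) (M' * q) hπ).toSubring
      (cm85_Vinf (K := K) (M' * q) hπ).toSubring m')

include hq hM' in
/-- **(REG-q) for both charts of an admissible Hauptmodul from `nf21c_Data` at every node**:
the two conjuncts of `nf21c_Reg` are LITERALLY the hypotheses `hr₁`, `hr₂` of `tf71b_twoGen`. -/
theorem nf21c_reg (hunit : ∀ n : ℕ, Nat.Coprime n q → IsUnit (n : R)) (hqR : ¬ IsUnit (q : R))
    (hqπ : ((q : ℕ) : R) = π)
    (h : ↥(modularFunctionFieldFullC K (M' * q))) (hh : s34i47c_IsHaupt K (M' * q) q h)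
    (hdata₁ : ∀ n : Ideal ↥(pk15_chart R ({h} : Set ↥(modularFunctionFieldFullC K (M' * q)))),
      n.IsMaximal →
      sf79_OnBr π (pk15_chart R ({h} : Set ↥(modularFunctionFieldFullC K (M' * q))))
        (cm85_Vinf (K := K) (M' * q) hπ).toSubring n →
      sf79_OnBr π (pk15_chart R ({h} : Set ↥(modularFunctionFieldFullC K (M' * q))))
        (s34i47c_V0 (K := K) M' q hq hM' hπ).toSubring n →
      nf21c_Data M' q hq hπ
        (pk15_chart R ({h} : Set ↥(modularFunctionFieldFullC K (M' * q)))) n)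
    (hdata₂ : ∀ n : Ideal ↥(pk15_chart R ({h⁻¹} : Set ↥(modularFunctionFieldFullC K (M' * q)))),
      n.IsMaximal →
      sf79_OnBr π (pk15_chart R ({h⁻¹} : Set ↥(modularFunctionFieldFullC K (M' * q))))
        (cm85_Vinf (K := K) (M' * q) hπ).toSubring n →
      sf79_OnBr π (pk15_chart R ({h⁻¹} : Set ↥(modularFunctionFieldFullC K (M' * q))))
        (s34i47c_V0 (K := K) M' q hq hM' hπ).toSubring n →
      nf21c_Data M' q hq hπ
        (pk15_chart R ({h⁻¹} : Set ↥(modularFunctionFieldFullC K (M' * q)))) n) :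
    nf21c_Reg M' q hq hM' hπ
        (pk15_chart R ({h} : Set ↥(modularFunctionFieldFullC K (M' * q)))) ∧
      nf21c_Reg M' q hq hM' hπ
        (pk15_chart R ({h⁻¹} : Set ↥(modularFunctionFieldFullC K (M' * q)))) := by
  have hπ₁ : (algebraMap R ↥(modularFunctionFieldFullC K (M' * q)) π)⁻¹ ∉
      (cm85_Vinf (K := K) (M' * q) hπ).toSubring := al97C_pi_inv_not_mem_Vinf M' q hπ
  have hp0 : algebraMap R ↥(modularFunctionFieldFullC K (M' * q)) π ≠ 0 := fun h0 =>
    hπ₁ (by rw [h0, inv_zero]; exact Subring.zero_mem _)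
  have hV₁ : ∀ x ∈ (cm85_Vinf (K := K) (M' * q) hπ).toSubring,
      (algebraMap R ↥(modularFunctionFieldFullC K (M' * q)) π)⁻¹ * x ∉
        (cm85_Vinf (K := K) (M' * q) hπ).toSubring →
      x⁻¹ ∈ (cm85_Vinf (K := K) (M' * q) hπ).toSubring := by
    intro x hx hx'
    by_contra hcon
    apply hx'
    have hconv : algebraMap R ↥(modularFunctionFieldFullC K (M' * q)) π =
        algebraMap K ↥(modularFunctionFieldFullC K (M' * q)) (algebraMap R K π) :=
      IsScalarTower.algebraMap_apply R K ↥(modularFunctionFieldFullC K (M' * q)) π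
    rw [hconv]
    exact gv85_hmax (IsLocalRing.residue R) π (pk85_res_iff hπ) hπ.ne_zero _ _ x hx hcon
  have hV₂ : ∀ x ∈ (s34i47c_V0 (K := K) M' q hq hM' hπ).toSubring,
      (algebraMap R ↥(modularFunctionFieldFullC K (M' * q)) π)⁻¹ * x ∉
        (s34i47c_V0 (K := K) M' q hq hM' hπ).toSubring →
      x⁻¹ ∈ (s34i47c_V0 (K := K) M' q hq hM' hπ).toSubring := by
    intro x hx hx'
    by_contra hcon
    exact hx' (al97C_hmax_V0 M' q hq hM' hπ x hx hcon)
  have hmemW : ∀ x : ↥(modularFunctionFieldFullC K (M' * q)),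
      x ∈ s34i47c_W (K := K) M' q hq hM' hπ →
      x ∈ (cm85_Vinf (K := K) (M' * q) hπ).toSubring ∧
        x ∈ (s34i47c_V0 (K := K) M' q hq hM' hπ).toSubring := by
    intro x hx
    obtain ⟨h1, h2⟩ := (s34i47c_mem_W M' q hq hM' hπ x).mp hx
    exact ⟨h1, (s34i47c_mem_V0 M' q hq hM' hπ x).mpr h2⟩
  obtain ⟨⟨hBW1, -, -, -, -⟩, ⟨hBW2, -, -, -, -⟩⟩ :=
    nf79c_chart_facts M' q hq hM' hπ hunit hqR h hh
  obtain ⟨hnode1, hnode2⟩ := nf21c_hnode M' q hq hM' hπ hunit hqR hqπ h hh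
  exact ⟨tl71_reg_of_nodes π _ _ _ (fun x hx => (hmemW x (hBW1 x hx)).1)
      (fun x hx => (hmemW x (hBW1 x hx)).2) hV₁ hV₂ hp0
      (fun m' hm' h1 h2 => hnode1 m' hm' h1 h2 (hdata₁ m' hm' h1 h2)),
    tl71_reg_of_nodes π _ _ _ (fun x hx => (hmemW x (hBW2 x hx)).1)
      (fun x hx => (hmemW x (hBW2 x hx)).2) hV₁ hV₂ hp0
      (fun m' hm' h1 h2 => hnode2 m' hm' h1 h2 (hdata₂ m' hm' h1 h2))⟩

end NF21C

end Fermat.Agent.S36
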