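import Mathlib
import Fermat.Agent.S36.RigidCubeInst43
import Fermat.Agent.S36.RigidCubeTwo43
import Fermat.Agent.S36.RigidTransferInst79
import Fermat.Agent.S36.RigidRed79

/-!
# S36 lab, row 599 (helper79): the rigidity clauses at the level-`N q` charts, UNCONDITIONAL

`N` a good level (`IsUnit (N : R)`), `p₀ ∣ N` (`p₀ ∈ {2, 3}`), `nuThree N = 0`, `nuTwo N = 0`
(rigid level), `q` any prime; `B` one of the four charts `pk15_chart R {h}`, `{h⁻¹}`,
`h = pk85_h2 K (N q)` or `pk85_h3 K (N q)`; `J = rm90_j K (N q)`.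

* `rr79c_rootAt_level2`, `rr79c_rootAt_level3` : `rt79_RootAt π B J J 3` and
  `rt79_RootAt π B J (J - 1728) 2` (from `rc43_level2/3` at level `N` by the transport
  `rt79c_level2/3`).
* `rr79c_clauses_level2`, `rr79c_clauses_level3` : **for every closed point `n ∋ π` of `B` where
  `J` is regular (every node) and every ring hom `φ : B →+* O` inverting `B ∖ n`** (the DVR of a
  branch at `n`), with `Φ = rr79_ext B n φ hφ : B_n →+* O`:
  `Φ J = u * d ^ 3` and `Φ J - 1728 = u' * d' ^ 2`, `u, u'` units of `O`.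

All names are prefixed `rr79c_` (adapters: `rr79_`).
-/

set_option autoImplicit false
set_option linter.unusedSectionVars false

open ModularCurve AlgebraicCurve

namespace Fermat.Agent.S36

open Fermat.Agent.S18 Fermat.Agent.S24 Fermat.Agent.S34

local notation "Q̄" => AlgebraicClosure ℚ

section RR79Ad

variable {R F : Type*} [CommRing R] [Field F] [Algebra R F]

/-- `rc43_Root` (regularity of `f`) gives `rt79_RootAt` (regularity of `j`). -/
theorem rr79_rootAt_of_rc43 (π : R) (B : Subalgebra R F) (j f : F) (m : ℕ)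
    (hreg : ∀ n : Ideal B, n.IsMaximal → (∃ s : B, s ∉ n ∧ (s : F) * j ∈ B) →
      ∃ s : B, s ∉ n ∧ (s : F) * f ∈ B)
    (h : rc43_Root π B m f) : rt79_RootAt π B j f m :=
  fun n hn hπn hj => h n hn hπn (hreg n hn hj)

/-- Regularity of `j - r` from that of `j`. -/
theorem rr79_reg_sub (B : Subalgebra R F) (n : Ideal B) (j : F) (r : R)
    (h : ∃ s : B, s ∉ n ∧ (s : F) * j ∈ B) :
    ∃ s : B, s ∉ n ∧ (s : F) * (j - algebraMap R F r) ∈ B := by
  obtain ⟨s, hs, hsj⟩ := h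
  refine ⟨s, hs, ?_⟩
  rw [mul_sub]
  exact B.sub_mem hsj (B.mul_mem s.2 (B.algebraMap_mem r))

/-- The two clauses in `O` from the two root structures. -/
theorem rr79_clauses (π : R) (B : Subalgebra R F) (J : F) (hJ0 : J ≠ 0)
    (hJ1 : J - algebraMap R F 1728 ≠ 0)
    (h3 : rt79_RootAt π B J J 3) (h2 : rt79_RootAt π B J (J - algebraMap R F 1728) 2)
    (n : Ideal B) [hn : n.IsMaximal] (hπn : algebraMap R B π ∈ n)
    (hreg : ∃ s : B, s ∉ n ∧ (s : F) * J ∈ B)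
    {O : Type*} [CommRing O] (φ : B →+* O) (hφ : ∀ b : B, b ∉ n → IsUnit (φ b)) :
    (∃ u d : O, IsUnit u ∧ rr79_ext B n φ hφ ⟨J, hreg⟩ = u * d ^ 3) ∧
      (∃ u d : O, IsUnit u ∧ rr79_ext B n φ hφ ⟨J, hreg⟩ - 1728 = u * d ^ 2) := by
  refine ⟨rr79_rootAt_ext π B J J 3 hJ0 h3 n hn hπn hreg φ hφ hreg, ?_⟩
  have hmem : J - algebraMap R F 1728 ∈ sf79_loc B n := rr79_reg_sub B n J 1728 hreg
  obtain ⟨u, d, hu, hud⟩ := rr79_rootAt_ext π B J (J - algebraMap R F 1728) 2 hJ1 h2 n hn hπn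
    hreg φ hφ hmem
  refine ⟨u, d, hu, ?_⟩
  rw [← hud]
  have hsplit : (⟨J - algebraMap R F 1728, hmem⟩ : sf79_loc B n) =
      ⟨J, hreg⟩ - (1728 : sf79_loc B n) := by
    apply Subtype.ext
    show J - algebraMap R F 1728 = J - ((1728 : sf79_loc B n) : F)
    rw [map_ofNat]
    rfl
  rw [hsplit, map_sub, map_ofNat]

end RR79Ad

section RR79C

variable {R K : Type} [CommRing R] [IsDomain R] [IsDiscreteValuationRing R] [Field K]
  [NumberField K] [Algebra K Q̄] [Algebra R K] [IsFractionRing R K] (N q : ℕ) [NeZero N] [NeZero q]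
  [Algebra R ↥(modularFunctionFieldFullC K N)]
  [IsScalarTower R K ↥(modularFunctionFieldFullC K N)]
  [Algebra R ↥(modularFunctionFieldFullC K (N * q))]
  [IsScalarTower R K ↥(modularFunctionFieldFullC K (N * q))]

theorem rr79c_isUnit_of_dvd {p : ℕ} (hp : p ∣ N) (hNu : IsUnit (N : R)) : IsUnit (p : R) := by
  obtain ⟨k, rfl⟩ := hp
  rw [Nat.cast_mul] at hNu
  exact isUnit_of_mul_isUnit_left hNu

theorem rr79c_alpha_J1728 :
    al97L_alpha K N q (rm90_j K N - algebraMap R ↥(modularFunctionFieldFullC K N) 1728) =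
      rm90_j K (N * q) - algebraMap R ↥(modularFunctionFieldFullC K (N * q)) 1728 := by
  rw [map_sub, rt79c_alpha_j, rt79c_alpha_algebraMap]

theorem rr79c_J_ne_zero (M : ℕ) [NeZero M] : rm90_j K M ≠ 0 := fun h0 =>
  relimc_J_transcendental K M (by
    have : relimc_J K M = 0 := h0
    rw [this]
    exact isAlgebraic_zero)

theorem rr79c_J1728_ne_zero (M : ℕ) [NeZero M] [Algebra R ↥(modularFunctionFieldFullC K M)]
    [IsScalarTower R K ↥(modularFunctionFieldFullC K M)] :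
    rm90_j K M - algebraMap R ↥(modularFunctionFieldFullC K M) 1728 ≠ 0 := fun h0 =>
  relimc_J_transcendental K M (by
    have h1 : relimc_J K M = algebraMap R ↥(modularFunctionFieldFullC K M) 1728 :=
      sub_eq_zero.mp h0
    rw [h1, IsScalarTower.algebraMap_apply R K ↥(modularFunctionFieldFullC K M)]
    exact isAlgebraic_algebraMap _)

/-- **Level `2`: the two root structures at level `N q`, both charts.** -/
theorem rr79c_rootAt_level2 {π : R} (hπ : Irreducible π) (h2 : 2 ∣ N) (hNu : IsUnit (N : R))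
    (hν3 : nuThree N = 0) (hν2 : nuTwo N = 0) :
    (rt79_RootAt π (pk15_chart R ({pk85_h2 K (N * q) (Dvd.dvd.mul_right h2 q)} :
          Set ↥(modularFunctionFieldFullC K (N * q)))) (rm90_j K (N * q)) (rm90_j K (N * q)) 3 ∧
      rt79_RootAt π (pk15_chart R ({pk85_h2 K (N * q) (Dvd.dvd.mul_right h2 q)} :
          Set ↥(modularFunctionFieldFullC K (N * q)))) (rm90_j K (N * q))
        (rm90_j K (N * q) - algebraMap R ↥(modularFunctionFieldFullC K (N * q)) 1728) 2) ∧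
    (rt79_RootAt π (pk15_chart R ({(pk85_h2 K (N * q) (Dvd.dvd.mul_right h2 q))⁻¹} :
          Set ↥(modularFunctionFieldFullC K (N * q)))) (rm90_j K (N * q)) (rm90_j K (N * q)) 3 ∧
      rt79_RootAt π (pk15_chart R ({(pk85_h2 K (N * q) (Dvd.dvd.mul_right h2 q))⁻¹} :
          Set ↥(modularFunctionFieldFullC K (N * q)))) (rm90_j K (N * q))
        (rm90_j K (N * q) - algebraMap R ↥(modularFunctionFieldFullC K (N * q)) 1728) 2) := by
  obtain ⟨hc, hs⟩ := rc43_level2 (R := R) (K := K) N hπ h2 hNu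
  obtain ⟨a1, a2⟩ := hc hν3
  obtain ⟨b1, b2⟩ := hs hν2
  have h2u : IsUnit (2 : R) := by
    have := rr79c_isUnit_of_dvd (R := R) N h2 hNu
    exact_mod_cast this
  have e1728 : (1728 : ↥(modularFunctionFieldFullC K N)) =
      algebraMap R ↥(modularFunctionFieldFullC K N) 1728 := (map_ofNat _ 1728).symm
  rw [e1728] at b1 b2
  refine ⟨⟨?_, ?_⟩, ⟨?_, ?_⟩⟩
  · have h := rt79c_level2 N q π h2 h2u (rm90_j K N) 3
      (rr79_rootAt_of_rc43 π _ (rm90_j K N) (rm90_j K N) 3 (fun _ _ h => h) a1)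
    rwa [rt79c_alpha_j] at h
  · have h := rt79c_level2 N q π h2 h2u
      (rm90_j K N - algebraMap R ↥(modularFunctionFieldFullC K N) 1728) 2
      (rr79_rootAt_of_rc43 π _ (rm90_j K N) _ 2 (fun n _ h => rr79_reg_sub _ n _ 1728 h) b1)
    rwa [rr79c_alpha_J1728] at h
  · have h := rt79c_level2_inv N q π h2 (rm90_j K N) 3
      (rr79_rootAt_of_rc43 π _ (rm90_j K N) (rm90_j K N) 3 (fun _ _ h => h) a2)
    rwa [rt79c_alpha_j] at h
  · have h := rt79c_level2_inv N q π h2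
      (rm90_j K N - algebraMap R ↥(modularFunctionFieldFullC K N) 1728) 2
      (rr79_rootAt_of_rc43 π _ (rm90_j K N) _ 2 (fun n _ h => rr79_reg_sub _ n _ 1728 h) b2)
    rwa [rr79c_alpha_J1728] at h

/-- **Level `3`: the two root structures at level `N q`, both charts.** -/
theorem rr79c_rootAt_level3 {π : R} (hπ : Irreducible π) (h3 : 3 ∣ N) (hNu : IsUnit (N : R))
    (hν3 : nuThree N = 0) (hν2 : nuTwo N = 0) :
    (rt79_RootAt π (pk15_chart R ({pk85_h3 K (N * q) (Dvd.dvd.mul_right h3 q)} :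
          Set ↥(modularFunctionFieldFullC K (N * q)))) (rm90_j K (N * q)) (rm90_j K (N * q)) 3 ∧
      rt79_RootAt π (pk15_chart R ({pk85_h3 K (N * q) (Dvd.dvd.mul_right h3 q)} :
          Set ↥(modularFunctionFieldFullC K (N * q)))) (rm90_j K (N * q))
        (rm90_j K (N * q) - algebraMap R ↥(modularFunctionFieldFullC K (N * q)) 1728) 2) ∧
    (rt79_RootAt π (pk15_chart R ({(pk85_h3 K (N * q) (Dvd.dvd.mul_right h3 q))⁻¹} :
          Set ↥(modularFunctionFieldFullC K (N * q)))) (rm90_j K (N * q)) (rm90_j K (N * q)) 3 ∧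
      rt79_RootAt π (pk15_chart R ({(pk85_h3 K (N * q) (Dvd.dvd.mul_right h3 q))⁻¹} :
          Set ↥(modularFunctionFieldFullC K (N * q)))) (rm90_j K (N * q))
        (rm90_j K (N * q) - algebraMap R ↥(modularFunctionFieldFullC K (N * q)) 1728) 2) := by
  obtain ⟨hc, hs⟩ := rc43_level3 (R := R) (K := K) N hπ h3 hNu
  obtain ⟨a1, a2⟩ := hc hν3
  obtain ⟨b1, b2⟩ := hs hν2
  have h3u : IsUnit (3 : R) := by
    have := rr79c_isUnit_of_dvd (R := R) N h3 hNu
    exact_mod_cast this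
  have e1728 : (1728 : ↥(modularFunctionFieldFullC K N)) =
      algebraMap R ↥(modularFunctionFieldFullC K N) 1728 := (map_ofNat _ 1728).symm
  rw [e1728] at b1 b2
  refine ⟨⟨?_, ?_⟩, ⟨?_, ?_⟩⟩
  · have h := rt79c_level3 N q π h3 h3u (rm90_j K N) 3
      (rr79_rootAt_of_rc43 π _ (rm90_j K N) (rm90_j K N) 3 (fun _ _ h => h) a1)
    rwa [rt79c_alpha_j] at h
  · have h := rt79c_level3 N q π h3 h3u
      (rm90_j K N - algebraMap R ↥(modularFunctionFieldFullC K N) 1728) 2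
      (rr79_rootAt_of_rc43 π _ (rm90_j K N) _ 2 (fun n _ h => rr79_reg_sub _ n _ 1728 h) b1)
    rwa [rr79c_alpha_J1728] at h
  · have h := rt79c_level3_inv N q π h3 (rm90_j K N) 3
      (rr79_rootAt_of_rc43 π _ (rm90_j K N) (rm90_j K N) 3 (fun _ _ h => h) a2)
    rwa [rt79c_alpha_j] at h
  · have h := rt79c_level3_inv N q π h3
      (rm90_j K N - algebraMap R ↥(modularFunctionFieldFullC K N) 1728) 2
      (rr79_rootAt_of_rc43 π _ (rm90_j K N) _ 2 (fun n _ h => rr79_reg_sub _ n _ 1728 h) b2)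
    rwa [rr79c_alpha_J1728] at h

/-- **Level `2`, chart `{h₂}`: the clauses in `O`.** -/
theorem rr79c_clauses_level2 {π : R} (hπ : Irreducible π) (h2 : 2 ∣ N) (hNu : IsUnit (N : R))
    (hν3 : nuThree N = 0) (hν2 : nuTwo N = 0)
    (n : Ideal ↥(pk15_chart R ({pk85_h2 K (N * q) (Dvd.dvd.mul_right h2 q)} :
      Set ↥(modularFunctionFieldFullC K (N * q))))) [hn : n.IsMaximal]
    (hπn : algebraMap R _ π ∈ n)
    (hreg : ∃ s : ↥(pk15_chart R ({pk85_h2 K (N * q) (Dvd.dvd.mul_right h2 q)} :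
      Set ↥(modularFunctionFieldFullC K (N * q)))), s ∉ n ∧
      (s : ↥(modularFunctionFieldFullC K (N * q))) * rm90_j K (N * q) ∈
        pk15_chart R ({pk85_h2 K (N * q) (Dvd.dvd.mul_right h2 q)} :
          Set ↥(modularFunctionFieldFullC K (N * q))))
    {O : Type*} [CommRing O]
    (φ : ↥(pk15_chart R ({pk85_h2 K (N * q) (Dvd.dvd.mul_right h2 q)} :
      Set ↥(modularFunctionFieldFullC K (N * q)))) →+* O)
    (hφ : ∀ b, b ∉ n → IsUnit (φ b)) :
    (∃ u d : O, IsUnit u ∧ rr79_ext _ n φ hφ ⟨rm90_j K (N * q), hreg⟩ = u * d ^ 3) ∧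
      (∃ u d : O, IsUnit u ∧ rr79_ext _ n φ hφ ⟨rm90_j K (N * q), hreg⟩ - 1728 = u * d ^ 2) :=
  rr79_clauses π _ _ (rr79c_J_ne_zero (N * q)) (rr79c_J1728_ne_zero (N * q))
    (rr79c_rootAt_level2 N q hπ h2 hNu hν3 hν2).1.1
    (rr79c_rootAt_level2 N q hπ h2 hNu hν3 hν2).1.2 n hπn hreg φ hφ

/-- **Level `2`, chart `{h₂⁻¹}`: the clauses in `O`.** -/
theorem rr79c_clauses_level2_inv {π : R} (hπ : Irreducible π) (h2 : 2 ∣ N) (hNu : IsUnit (N : R))
    (hν3 : nuThree N = 0) (hν2 : nuTwo N = 0)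
    (n : Ideal ↥(pk15_chart R ({(pk85_h2 K (N * q) (Dvd.dvd.mul_right h2 q))⁻¹} :
      Set ↥(modularFunctionFieldFullC K (N * q))))) [hn : n.IsMaximal]
    (hπn : algebraMap R _ π ∈ n)
    (hreg : ∃ s : ↥(pk15_chart R ({(pk85_h2 K (N * q) (Dvd.dvd.mul_right h2 q))⁻¹} :
      Set ↥(modularFunctionFieldFullC K (N * q)))), s ∉ n ∧
      (s : ↥(modularFunctionFieldFullC K (N * q))) * rm90_j K (N * q) ∈
        pk15_chart R ({(pk85_h2 K (N * q) (Dvd.dvd.mul_right h2 q))⁻¹} :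
          Set ↥(modularFunctionFieldFullC K (N * q))))
    {O : Type*} [CommRing O]
    (φ : ↥(pk15_chart R ({(pk85_h2 K (N * q) (Dvd.dvd.mul_right h2 q))⁻¹} :
      Set ↥(modularFunctionFieldFullC K (N * q)))) →+* O)
    (hφ : ∀ b, b ∉ n → IsUnit (φ b)) :
    (∃ u d : O, IsUnit u ∧ rr79_ext _ n φ hφ ⟨rm90_j K (N * q), hreg⟩ = u * d ^ 3) ∧
      (∃ u d : O, IsUnit u ∧ rr79_ext _ n φ hφ ⟨rm90_j K (N * q), hreg⟩ - 1728 = u * d ^ 2) :=
  rr79_clauses π _ _ (rr79c_J_ne_zero (N * q)) (rr79c_J1728_ne_zero (N * q))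
    (rr79c_rootAt_level2 N q hπ h2 hNu hν3 hν2).2.1
    (rr79c_rootAt_level2 N q hπ h2 hNu hν3 hν2).2.2 n hπn hreg φ hφ

/-- **Level `3`, chart `{h₃}`: the clauses in `O`.** -/
theorem rr79c_clauses_level3 {π : R} (hπ : Irreducible π) (h3 : 3 ∣ N) (hNu : IsUnit (N : R))
    (hν3 : nuThree N = 0) (hν2 : nuTwo N = 0)
    (n : Ideal ↥(pk15_chart R ({pk85_h3 K (N * q) (Dvd.dvd.mul_right h3 q)} :
      Set ↥(modularFunctionFieldFullC K (N * q))))) [hn : n.IsMaximal]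
    (hπn : algebraMap R _ π ∈ n)
    (hreg : ∃ s : ↥(pk15_chart R ({pk85_h3 K (N * q) (Dvd.dvd.mul_right h3 q)} :
      Set ↥(modularFunctionFieldFullC K (N * q)))), s ∉ n ∧
      (s : ↥(modularFunctionFieldFullC K (N * q))) * rm90_j K (N * q) ∈
        pk15_chart R ({pk85_h3 K (N * q) (Dvd.dvd.mul_right h3 q)} :
          Set ↥(modularFunctionFieldFullC K (N * q))))
    {O : Type*} [CommRing O]
    (φ : ↥(pk15_chart R ({pk85_h3 K (N * q) (Dvd.dvd.mul_right h3 q)} :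
      Set ↥(modularFunctionFieldFullC K (N * q)))) →+* O)
    (hφ : ∀ b, b ∉ n → IsUnit (φ b)) :
    (∃ u d : O, IsUnit u ∧ rr79_ext _ n φ hφ ⟨rm90_j K (N * q), hreg⟩ = u * d ^ 3) ∧
      (∃ u d : O, IsUnit u ∧ rr79_ext _ n φ hφ ⟨rm90_j K (N * q), hreg⟩ - 1728 = u * d ^ 2) :=
  rr79_clauses π _ _ (rr79c_J_ne_zero (N * q)) (rr79c_J1728_ne_zero (N * q))
    (rr79c_rootAt_level3 N q hπ h3 hNu hν3 hν2).1.1
    (rr79c_rootAt_level3 N q hπ h3 hNu hν3 hν2).1.2 n hπn hreg φ hφ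

/-- **Level `3`, chart `{h₃⁻¹}`: the clauses in `O`.** -/
theorem rr79c_clauses_level3_inv {π : R} (hπ : Irreducible π) (h3 : 3 ∣ N) (hNu : IsUnit (N : R))
    (hν3 : nuThree N = 0) (hν2 : nuTwo N = 0)
    (n : Ideal ↥(pk15_chart R ({(pk85_h3 K (N * q) (Dvd.dvd.mul_right h3 q))⁻¹} :
      Set ↥(modularFunctionFieldFullC K (N * q))))) [hn : n.IsMaximal]
    (hπn : algebraMap R _ π ∈ n)
    (hreg : ∃ s : ↥(pk15_chart R ({(pk85_h3 K (N * q) (Dvd.dvd.mul_right h3 q))⁻¹} :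
      Set ↥(modularFunctionFieldFullC K (N * q)))), s ∉ n ∧
      (s : ↥(modularFunctionFieldFullC K (N * q))) * rm90_j K (N * q) ∈
        pk15_chart R ({(pk85_h3 K (N * q) (Dvd.dvd.mul_right h3 q))⁻¹} :
          Set ↥(modularFunctionFieldFullC K (N * q))))
    {O : Type*} [CommRing O]
    (φ : ↥(pk15_chart R ({(pk85_h3 K (N * q) (Dvd.dvd.mul_right h3 q))⁻¹} :
      Set ↥(modularFunctionFieldFullC K (N * q)))) →+* O)
    (hφ : ∀ b, b ∉ n → IsUnit (φ b)) :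
    (∃ u d : O, IsUnit u ∧ rr79_ext _ n φ hφ ⟨rm90_j K (N * q), hreg⟩ = u * d ^ 3) ∧
      (∃ u d : O, IsUnit u ∧ rr79_ext _ n φ hφ ⟨rm90_j K (N * q), hreg⟩ - 1728 = u * d ^ 2) :=
  rr79_clauses π _ _ (rr79c_J_ne_zero (N * q)) (rr79c_J1728_ne_zero (N * q))
    (rr79c_rootAt_level3 N q hπ h3 hNu hν3 hν2).2.1
    (rr79c_rootAt_level3 N q hπ h3 hNu hν3 hν2).2.2 n hπn hreg φ hφ

end RR79C

end Fermat.Agent.S36
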