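import Fermat.Agent.S36.RelBind44
import Fermat.Agent.S36.NodeFrameInst21
import Fermat.Agent.S36.RigidRedInst79
import Fermat.Agent.S36.RigidLevelQ43

/-!
# S36 lab, row 599 (C-REGq), helper44: `nf21c_Data` at every node of the canonical level-`q`
charts — (Z) + (R) bound to (F)

* `zd44_U_V0`  : `π⁻¹ U ∈ V_0` (`U = dq56b_U` vanishes along the `0`-branch).
* `zd44_data`  : for ANY chart `B ⊆ V_∞ ∩ V_0` of the canonical frame and a closed point `n` on
  the `0`-branch where `j` is regular (`a * j = b`, `a ∉ n`): the root structures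
  `rt79_RootAt π B j j 3`, `rt79_RootAt π B j (j - 1728) 2` (helper43 `rq43_level2/3`, helper79
  `rr79c_rootAt_level2/3`) give `nf21c_Data M' q hq hπ B n` (helper21: the only arithmetic input
  of `nf21c_reg` / `nf21c_hnode_of`), for `q ≠ 2`; for `q = 2` the extra clause `hq2`
  (`ϖ ^ 12 ∣ ι b` at the zeros of `j̄`) is a hypothesis.
  Proof: `zb44_dvd` (binding (Z): `km56_reduced`, `km56_U_rel`, `k1d40_*`) with the rigidity
  divisibilities from `rr79_rootAt_map`, `rr79_pow_dvd`, `rr79_six_dvd`.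
* `zd44_reg_level2` : **(REG-q) on both level-2 charts** (`2 ∣ M'`, `q ≠ 2`, `M'` a unit of `R`,
  `nuThree M' = 0`, `nuTwo M' = 0`): `nf21c_Reg` for `pk15_chart R {h}` and `pk15_chart R {h⁻¹}`,
  `h = pk85_h2 K (M' * q) _`.  NO open hypothesis.
* `zd44_reg_level3` : the same on the level-3 charts for `q ≠ 2` (`q ≥ 5`); `q = 2` with the
  clause `hq2` as hypothesis.

All names are prefixed `zd44_`.
-/

set_option autoImplicit false
set_option linter.unusedSectionVars false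
set_option linter.style.haveILetI false

open ModularCurve AlgebraicCurve IntermediateField

namespace Fermat.Agent.S36

open Fermat.Agent.S18 Fermat.Agent.S24 Fermat.Agent.S34

local notation "Q̄" => AlgebraicClosure ℚ

section ZD44

variable {R K : Type} [CommRing R] [IsDomain R] [IsDiscreteValuationRing R] [Field K]
  [NumberField K] [Algebra K Q̄] [Algebra R K] [IsFractionRing R K]
  (M' q : ℕ) [NeZero M'] [NeZero q] (hq : q.Prime) (hM' : ¬ q ∣ M')
  [Algebra R ↥(modularFunctionFieldFullC K (M' * q))]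
  [IsScalarTower R K ↥(modularFunctionFieldFullC K (M' * q))] {π : R} (hπ : Irreducible π)

/-- `U = Δ(Q)/Δ(Q^q)` vanishes along the `0`-branch. -/
theorem zd44_U_V0 (hqR : ¬ IsUnit (q : R))
    (hRV0 : ∀ r : R, algebraMap R ↥(modularFunctionFieldFullC K (M' * q)) r ∈
      s34i47c_V0 (K := K) M' q hq hM' hπ) :
    (algebraMap R ↥(modularFunctionFieldFullC K (M' * q)) π)⁻¹ * dq56b_U (K := K) M' q hq ∈
      s34i47c_V0 (K := K) M' q hq hM' hπ := by
  have hconv : ∀ r : R, algebraMap R ↥(modularFunctionFieldFullC K (M' * q)) r =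
      algebraMap K ↥(modularFunctionFieldFullC K (M' * q)) (algebraMap R K r) := fun r =>
    IsScalarTower.algebraMap_apply R K ↥(modularFunctionFieldFullC K (M' * q)) r
  have hπ0 : algebraMap R ↥(modularFunctionFieldFullC K (M' * q)) π ≠ 0 := by
    rw [hconv]
    intro h0
    have h1 : algebraMap R K π = 0 :=
      (map_eq_zero (algebraMap K ↥(modularFunctionFieldFullC K (M' * q)))).mp h0
    exact hπ.ne_zero ((map_eq_zero_iff _ (IsFractionRing.injective R K)).mp h1)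
  obtain ⟨r, hr⟩ : π ∣ (q : R) := by
    have h1 : (q : R) ∈ IsLocalRing.maximalIdeal R := (IsLocalRing.mem_maximalIdeal _).mpr hqR
    rw [hπ.maximalIdeal_eq, Ideal.mem_span_singleton] at h1
    exact h1
  have hqF : (q : ↥(modularFunctionFieldFullC K (M' * q))) ≠ 0 := by
    rw [← map_natCast (algebraMap K ↥(modularFunctionFieldFullC K (M' * q)))]
    exact (map_ne_zero _).mpr (Nat.cast_ne_zero.mpr (NeZero.ne q))
  have hq' : (q : ↥(modularFunctionFieldFullC K (M' * q))) =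
      algebraMap R ↥(modularFunctionFieldFullC K (M' * q)) π *
        algebraMap R ↥(modularFunctionFieldFullC K (M' * q)) r := by
    rw [← map_mul, ← hr, map_natCast]
  have hmul := dq56b_mul (K := K) M' q hq hM'
  have hV0 : dq56b_V (K := K) M' q hq hM' ≠ 0 := by
    intro h0
    rw [h0, mul_zero] at hmul
    exact pow_ne_zero 12 hqF hmul.symm
  have key : (algebraMap R ↥(modularFunctionFieldFullC K (M' * q)) π)⁻¹ *
      dq56b_U (K := K) M' q hq =
      (q : ↥(modularFunctionFieldFullC K (M' * q))) ^ 11 *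
        algebraMap R ↥(modularFunctionFieldFullC K (M' * q)) r *
          (dq56b_V (K := K) M' q hq hM')⁻¹ := by
    have h12 : dq56b_U (K := K) M' q hq * dq56b_V (K := K) M' q hq hM' =
        (q : ↥(modularFunctionFieldFullC K (M' * q))) ^ 11 *
          (algebraMap R ↥(modularFunctionFieldFullC K (M' * q)) π *
            algebraMap R ↥(modularFunctionFieldFullC K (M' * q)) r) := by
      rw [hmul, pow_succ, ← hq']
    have hU : dq56b_U (K := K) M' q hq =
        (q : ↥(modularFunctionFieldFullC K (M' * q))) ^ 11 *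
          (algebraMap R ↥(modularFunctionFieldFullC K (M' * q)) π *
            algebraMap R ↥(modularFunctionFieldFullC K (M' * q)) r) *
          (dq56b_V (K := K) M' q hq hM')⁻¹ := by
      rw [← h12, mul_assoc, mul_inv_cancel₀ hV0, mul_one]
    rw [hU]
    field_simp
  rw [key]
  exact (s34i47c_V0 (K := K) M' q hq hM' hπ).mul_mem _ _
    ((s34i47c_V0 (K := K) M' q hq hM' hπ).mul_mem _ _
      (pow_mem (_root_.natCast_mem _ q) 11) (hRV0 r))
    (dq56b_Vinv_mem_V0 M' q hq hM' hπ)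

/-- **`nf21c_Data` at a closed point** from the root structures of `j` and `j - 1728`. -/
theorem zd44_data (hqR : ¬ IsUnit (q : R))
    (B : Subalgebra R ↥(modularFunctionFieldFullC K (M' * q)))
    (hBV : ∀ x ∈ B, x ∈ cm85_Vinf (K := K) (M' * q) hπ)
    (hBV0 : ∀ x ∈ B, x ∈ s34i47c_V0 (K := K) M' q hq hM' hπ)
    (n : Ideal ↥B) (hn : n.IsMaximal) (hπn : algebraMap R ↥B π ∈ n)
    (h2 : sf79_OnBr π B (s34i47c_V0 (K := K) M' q hq hM' hπ).toSubring n)
    (hj : ∃ a b : ↥B, a ∉ n ∧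
      (a : ↥(modularFunctionFieldFullC K (M' * q))) * rm90_j K (M' * q) =
        (b : ↥(modularFunctionFieldFullC K (M' * q))))
    (hroot3 : q ≠ 2 → rt79_RootAt π B (rm90_j K (M' * q)) (rm90_j K (M' * q)) 3)
    (hroot2 : q ≠ 2 → rt79_RootAt π B (rm90_j K (M' * q)) (rm90_j K (M' * q) - 1728) 2)
    (hq2 : q = 2 → ∀ a b : ↥B, a ∉ n →
      (a : ↥(modularFunctionFieldFullC K (M' * q))) * rm90_j K (M' * q) =
        (b : ↥(modularFunctionFieldFullC K (M' * q))) → b ∈ n →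
      ∀ (O : Type) [CommRing O] [IsDomain O] [IsDiscreteValuationRing O] (ι : ↥B →+* O),
        (∀ x : ↥B, ι x = 0 ↔
          (algebraMap R ↥(modularFunctionFieldFullC K (M' * q)) π)⁻¹ *
            (x : ↥(modularFunctionFieldFullC K (M' * q))) ∈ cm85_Vinf (K := K) (M' * q) hπ) →
        (∀ s : ↥B, IsUnit (ι s) ↔ s ∉ n) → ∀ ϖ : O, Irreducible ϖ → ϖ ^ 12 ∣ ι b) :
    nf21c_Data M' q hq hπ B n := by
  intro Ub a₁ ha₁ hUb O _ _ _ ι hι hunit ϖ hϖ
  haveI : n.IsPrime := hn.isPrime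
  obtain ⟨a, b, ha, hab⟩ := hj
  have hreg : ∃ s : ↥B, s ∉ n ∧
      (s : ↥(modularFunctionFieldFullC K (M' * q))) * rm90_j K (M' * q) ∈ B :=
    ⟨a, ha, by rw [hab]; exact b.2⟩
  have hφ : ∀ s : ↥B, s ∉ n → IsUnit (ι s) := fun s hs => (hunit s).mpr hs
  have hιa : IsUnit (ι a) := hφ a ha
  -- `Ub ∈ n`
  have hun : Ub ∈ n := by
    apply h2
    show (algebraMap R ↥(modularFunctionFieldFullC K (M' * q)) π)⁻¹ *
      (Ub : ↥(modularFunctionFieldFullC K (M' * q))) ∈ s34i47c_V0 (K := K) M' q hq hM' hπ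
    have e : (algebraMap R ↥(modularFunctionFieldFullC K (M' * q)) π)⁻¹ *
        (Ub : ↥(modularFunctionFieldFullC K (M' * q))) =
        (a₁ : ↥(modularFunctionFieldFullC K (M' * q))) *
          ((algebraMap R ↥(modularFunctionFieldFullC K (M' * q)) π)⁻¹ *
            dq56b_U (K := K) M' q hq) := by
      rw [hUb]; ring
    rw [e]
    exact (s34i47c_V0 (K := K) M' q hq hM' hπ).mul_mem _ _ (hBV0 _ a₁.2)
      (zd44_U_V0 M' q hq hM' hπ hqR (fun r => hBV0 _ (B.algebraMap_mem r)))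
  -- the value of `j` in `O`
  obtain ⟨x, hx⟩ : ∃ x : O, ι a * x = ι b := by
    obtain ⟨ua, hua⟩ := hιa
    exact ⟨((ua⁻¹ : Oˣ) : O) * ι b, by rw [← mul_assoc, ← hua, Units.mul_inv, one_mul]⟩
  have hxb : b ∈ n → ¬ IsUnit x := by
    intro hb hxu
    exact (hunit b).mp (hx ▸ hιa.mul hxu) hb
  have hdvdb : ∀ k : ℕ, ϖ ^ k ∣ x → ϖ ^ k ∣ ι b := fun k h => hx ▸ Dvd.dvd.mul_left h _
  -- the presentation of `j - 1728`
  have hpres : (a : ↥(modularFunctionFieldFullC K (M' * q))) * (rm90_j K (M' * q) - 1728) =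
      ((b - algebraMap R ↥B 1728 * a : ↥B) : ↥(modularFunctionFieldFullC K (M' * q))) := by
    push_cast
    rw [map_ofNat, mul_sub, hab]
    ring
  have hJ0 : rm90_j K (M' * q) ≠ 0 := rr79c_J_ne_zero (K := K) (M' * q)
  have hJ1 : rm90_j K (M' * q) - 1728 ≠ 0 := by
    have h := rr79c_J1728_ne_zero (R := R) (K := K) (M' * q)
    rwa [map_ofNat] at h
  refine zb44_dvd M' q hq hπ hqR B hBV n a b a₁ Ub ha ha₁ hun hab hUb.symm O ι hι hunit ϖ hϖ
    ?_ ?_ ?_ ?_
  · -- `j = 1728`, `q ≥ 5`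
    intro h5 hb'
    obtain ⟨x', hx'⟩ : ∃ x' : O, ι a * x' = ι (b - algebraMap R ↥B 1728 * a) := by
      obtain ⟨ua, hua⟩ := hιa
      exact ⟨((ua⁻¹ : Oˣ) : O) * ι (b - algebraMap R ↥B 1728 * a),
        by rw [← mul_assoc, ← hua, Units.mul_inv, one_mul]⟩
    obtain ⟨u, d, hu, hud⟩ := rr79_rootAt_map π B (rm90_j K (M' * q)) (rm90_j K (M' * q) - 1728)
      2 hJ1 (hroot2 (by omega)) n hn hπn hreg ι hφ a _ ha hpres x' hx'
    have hx'u : ¬ IsUnit x' := fun h => (hunit _).mp (hx' ▸ hιa.mul h) hb'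
    rw [← hx']
    exact Dvd.dvd.mul_left (rr79_pow_dvd ϖ hϖ x' u d 2 hud hu hx'u) _
  · -- `j = 0`, `q ≥ 5`
    intro h5 hb
    obtain ⟨u, d, hu, hud⟩ := rr79_rootAt_map π B (rm90_j K (M' * q)) (rm90_j K (M' * q))
      3 hJ0 (hroot3 (by omega)) n hn hπn hreg ι hφ a b ha hab x hx
    exact hdvdb 3 (rr79_pow_dvd ϖ hϖ x u d 3 hud hu (hxb hb))
  · -- `q = 3`
    intro h3 hb
    obtain ⟨u, d, hu, hud⟩ := rr79_rootAt_map π B (rm90_j K (M' * q)) (rm90_j K (M' * q))
      3 hJ0 (hroot3 (by omega)) n hn hπn hreg ι hφ a b ha hab x hx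
    -- `1728 = 0` in `O`
    have h1728 : ι (algebraMap R ↥B 1728) = 0 := by
      obtain ⟨r, hr⟩ : π ∣ (q : R) := by
        have h1 : (q : R) ∈ IsLocalRing.maximalIdeal R :=
          (IsLocalRing.mem_maximalIdeal _).mpr hqR
        rw [hπ.maximalIdeal_eq, Ideal.mem_span_singleton] at h1
        exact h1
      have e : (1728 : R) = π * (r * 576) := by
        rw [← mul_assoc, ← hr, h3]
        norm_num
      have hconv : ∀ r : R, algebraMap R ↥(modularFunctionFieldFullC K (M' * q)) r =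
          algebraMap K ↥(modularFunctionFieldFullC K (M' * q)) (algebraMap R K r) := fun r =>
        IsScalarTower.algebraMap_apply R K ↥(modularFunctionFieldFullC K (M' * q)) r
      have hπ0 : algebraMap R ↥(modularFunctionFieldFullC K (M' * q)) π ≠ 0 := by
        rw [hconv]
        intro h0
        have h1 : algebraMap R K π = 0 :=
          (map_eq_zero (algebraMap K ↥(modularFunctionFieldFullC K (M' * q)))).mp h0
        exact hπ.ne_zero ((map_eq_zero_iff _ (IsFractionRing.injective R K)).mp h1)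
      rw [hι, Subalgebra.coe_algebraMap, e, map_mul, ← mul_assoc, inv_mul_cancel₀ hπ0, one_mul]
      exact hBV _ (B.algebraMap_mem _)
    have hx2 : ι a * x = ι (b - algebraMap R ↥B 1728 * a) := by
      rw [map_sub, map_mul, h1728, zero_mul, sub_zero]
      exact hx
    obtain ⟨u', d', hu', hud'⟩ := rr79_rootAt_map π B (rm90_j K (M' * q))
      (rm90_j K (M' * q) - 1728) 2 hJ1 (hroot2 (by omega)) n hn hπn hreg ι hφ a _ ha hpres x hx2
    exact hdvdb 6 (rr79_six_dvd ϖ hϖ x u d u' d' hud hu hud' hu' (hxb hb))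
  · -- `q = 2`
    intro h2' hb
    exact hq2 h2' a b ha hab hb O ι hι hunit ϖ hϖ

end ZD44

section ZD44Inst

variable {R K : Type} [CommRing R] [IsDomain R] [IsDiscreteValuationRing R] [Field K]
  [NumberField K] [Algebra K Q̄] [Algebra R K] [IsFractionRing R K]
  (M' q : ℕ) [NeZero M'] [NeZero q] (hq : q.Prime) (hM' : ¬ q ∣ M')
  [Algebra R ↥(modularFunctionFieldFullC K M')]
  [IsScalarTower R K ↥(modularFunctionFieldFullC K M')]
  [Algebra R ↥(modularFunctionFieldFullC K (M' * q))]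
  [IsScalarTower R K ↥(modularFunctionFieldFullC K (M' * q))] {π : R} (hπ : Irreducible π)

/-- `π ∈ n` for a point on the `∞`-branch. -/
theorem zd44_pi_mem (B : Subalgebra R ↥(modularFunctionFieldFullC K (M' * q))) (n : Ideal ↥B)
    (h1 : sf79_OnBr π B (cm85_Vinf (K := K) (M' * q) hπ).toSubring n) :
    algebraMap R ↥B π ∈ n := by
  apply h1
  have hπ₁ : (algebraMap R ↥(modularFunctionFieldFullC K (M' * q)) π)⁻¹ ∉
      (cm85_Vinf (K := K) (M' * q) hπ).toSubring := al97C_pi_inv_not_mem_Vinf M' q hπ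
  have hp0 : algebraMap R ↥(modularFunctionFieldFullC K (M' * q)) π ≠ 0 := fun h0 =>
    hπ₁ (by rw [h0, inv_zero]; exact Subring.zero_mem _)
  rw [Subalgebra.coe_algebraMap, inv_mul_cancel₀ hp0]
  exact Subring.one_mem _

/-- `B ⊆ W` gives `B ⊆ V_∞` and `B ⊆ V_0`. -/
theorem zd44_mem_W (x : ↥(modularFunctionFieldFullC K (M' * q)))
    (hx : x ∈ s34i47c_W (K := K) M' q hq hM' hπ) :
    x ∈ cm85_Vinf (K := K) (M' * q) hπ ∧ x ∈ s34i47c_V0 (K := K) M' q hq hM' hπ := by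
  obtain ⟨h1, h2⟩ := (s34i47c_mem_W M' q hq hM' hπ x).mp hx
  exact ⟨h1, (s34i47c_mem_V0 M' q hq hM' hπ x).mpr h2⟩

/-- **(REG-q) on both level-2 charts of the canonical frame — no open hypothesis.** -/
theorem zd44_reg_level2 (hunit : ∀ n : ℕ, Nat.Coprime n q → IsUnit (n : R))
    (hqR : ¬ IsUnit (q : R)) (hqπ : ((q : ℕ) : R) = π) (h2 : 2 ∣ M') (hq2 : q ≠ 2)
    (hMu : IsUnit (M' : R)) (hν3 : nuThree M' = 0) (hν2 : nuTwo M' = 0) :
    nf21c_Reg M' q hq hM' hπ
        (pk15_chart R ({pk85_h2 K (M' * q) (h2.trans (dvd_mul_right M' q))} :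
          Set ↥(modularFunctionFieldFullC K (M' * q)))) ∧
      nf21c_Reg M' q hq hM' hπ
        (pk15_chart R ({(pk85_h2 K (M' * q) (h2.trans (dvd_mul_right M' q)))⁻¹} :
          Set ↥(modularFunctionFieldFullC K (M' * q)))) := by
  have hh : s34i47c_IsHaupt K (M' * q) q (pk85_h2 K (M' * q) (h2.trans (dvd_mul_right M' q))) :=
    Or.inl ⟨hq2, h2.trans (dvd_mul_right M' q), rfl⟩
  have hcop : Nat.Coprime 2 q := (Nat.coprime_primes Nat.prime_two hq).mpr (Ne.symm hq2)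
  have h2u : IsUnit (2 : R) := by
    have := hunit 2 hcop
    rwa [Nat.cast_ofNat] at this
  obtain ⟨hJ, hL⟩ := rq43_level2 (K := K) M' q hπ h2 hMu
  obtain ⟨hJ₁, hJ₂⟩ := hJ hν3
  obtain ⟨hL₁, hL₂⟩ := hL hν2
  obtain ⟨⟨hBW1, -, -, -, -⟩, ⟨hBW2, -, -, -, -⟩⟩ :=
    nf79c_chart_facts M' q hq hM' hπ hunit hqR _ hh
  refine nf21c_reg M' q hq hM' hπ hunit hqR hqπ _ hh ?_ ?_
  · intro n hn h1 h2'
    haveI := hn.isPrime
    exact zd44_data M' q hq hM' hπ hqR _
      (fun x hx => (zd44_mem_W M' q hq hM' hπ x (hBW1 x hx)).1)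
      (fun x hx => (zd44_mem_W M' q hq hM' hπ x (hBW1 x hx)).2) n hn
      (zd44_pi_mem M' q hπ _ n h1) h2'
      (cf22_level2 (algebraMap K Q̄) M' q hq hM' hπ hqR h2 h2u n h1 h2')
      (fun _ => hJ₁) (fun _ => hL₁) (fun h => absurd h hq2)
  · intro n hn h1 h2'
    haveI := hn.isPrime
    exact zd44_data M' q hq hM' hπ hqR _
      (fun x hx => (zd44_mem_W M' q hq hM' hπ x (hBW2 x hx)).1)
      (fun x hx => (zd44_mem_W M' q hq hM' hπ x (hBW2 x hx)).2) n hn
      (zd44_pi_mem M' q hπ _ n h1) h2'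
      (cf22_level2_inv (algebraMap K Q̄) M' q hq hM' hπ hqR h2 n h1 h2')
      (fun _ => hJ₂) (fun _ => hL₂) (fun h => absurd h hq2)

/-- **(REG-q) on both level-3 charts of the canonical frame, `q ≠ 2`** (`q ≥ 5`) — no open
hypothesis. -/
theorem zd44_reg_level3 (hunit : ∀ n : ℕ, Nat.Coprime n q → IsUnit (n : R))
    (hqR : ¬ IsUnit (q : R)) (hqπ : ((q : ℕ) : R) = π) (h3 : 3 ∣ M') (hq3 : q ≠ 3) (hq2 : q ≠ 2)
    (hMu : IsUnit (M' : R)) (hν3 : nuThree M' = 0) (hν2 : nuTwo M' = 0) :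
    nf21c_Reg M' q hq hM' hπ
        (pk15_chart R ({pk85_h3 K (M' * q) (h3.trans (dvd_mul_right M' q))} :
          Set ↥(modularFunctionFieldFullC K (M' * q)))) ∧
      nf21c_Reg M' q hq hM' hπ
        (pk15_chart R ({(pk85_h3 K (M' * q) (h3.trans (dvd_mul_right M' q)))⁻¹} :
          Set ↥(modularFunctionFieldFullC K (M' * q)))) := by
  have hh : s34i47c_IsHaupt K (M' * q) q (pk85_h3 K (M' * q) (h3.trans (dvd_mul_right M' q))) :=
    Or.inr ⟨hq3, h3.trans (dvd_mul_right M' q), rfl⟩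
  have hcop : Nat.Coprime 3 q := (Nat.coprime_primes Nat.prime_three hq).mpr (Ne.symm hq3)
  have h3u : IsUnit (3 : R) := by
    have := hunit 3 hcop
    rwa [Nat.cast_ofNat] at this
  obtain ⟨hJ, hL⟩ := rq43_level3 (K := K) M' q hπ h3 hMu
  obtain ⟨hJ₁, hJ₂⟩ := hJ hν3
  obtain ⟨hL₁, hL₂⟩ := hL hν2
  obtain ⟨⟨hBW1, -, -, -, -⟩, ⟨hBW2, -, -, -, -⟩⟩ :=
    nf79c_chart_facts M' q hq hM' hπ hunit hqR _ hh
  refine nf21c_reg M' q hq hM' hπ hunit hqR hqπ _ hh ?_ ?_
  · intro n hn h1 h2'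
    haveI := hn.isPrime
    exact zd44_data M' q hq hM' hπ hqR _
      (fun x hx => (zd44_mem_W M' q hq hM' hπ x (hBW1 x hx)).1)
      (fun x hx => (zd44_mem_W M' q hq hM' hπ x (hBW1 x hx)).2) n hn
      (zd44_pi_mem M' q hπ _ n h1) h2'
      (cf22_level3 (algebraMap K Q̄) M' q hq hM' hπ hqR h3 h3u n h1 h2')
      (fun _ => hJ₁) (fun _ => hL₁) (fun h => absurd h hq2)
  · intro n hn h1 h2'
    haveI := hn.isPrime
    exact zd44_data M' q hq hM' hπ hqR _
      (fun x hx => (zd44_mem_W M' q hq hM' hπ x (hBW2 x hx)).1)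
      (fun x hx => (zd44_mem_W M' q hq hM' hπ x (hBW2 x hx)).2) n hn
      (zd44_pi_mem M' q hπ _ n h1) h2'
      (cf22_level3_inv (algebraMap K Q̄) M' q hq hM' hπ hqR h3 n h1 h2')
      (fun _ => hJ₂) (fun _ => hL₂) (fun h => absurd h hq2)

end ZD44Inst

end Fermat.Agent.S36
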