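import Mathlib

/-!
# S36 lab (helper58), sub-part of row C-REGq: derivations on a discrete valuation ring

Abstract inputs of the derivative routes to `κ = 1` (`hder0` / `hder` of `nr10_node_regular`,
"a derivative has no simple pole in characteristic `q`" of the (A2) route).  Mathlib only.

`L` a field (the residue field `k(X')` of the Gauss valuation, inside `k((Q))`), `O ⊆ L` a subring
(the local ring `O_x` of the smooth special fibre at a closed point), `u ∈ O` (a uniformiser),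
`D : L → L` additive with the Leibniz rule (`D = θ / θ(t̄)`, `θ = Q d/dQ`).

* `dv58_one`, `dv58_pow`, `dv58_inv` : `D 1 = 0`, `u D(u^m) = m u^m D u`, `D(x⁻¹) = - D x / x²`;
* `dv58_fin_of_gen` : bounded poles from generators: the set of `x ∈ O` with `u^k D x ∈ O` is
  a subring closed under inverses of units of `O`;
* `dv58_deriv_mem` : **`D(O) ⊆ O`**, if `D u ∈ O`, the poles of `D` on `O` are bounded
  (`hfin`) and every element of `O` is `c + u f₁` with `D c ∈ O` (`hres`: in characteristic `q`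
  with perfect residue field take `c` a `q`-th power, `D c = 0`);
* `dv58_deriv_pole` : `u^m g ∈ O ⟹ u^(m+1) D g ∈ O` (the pole order grows by at most one);
* `dv58_no_simple_pole` : in characteristic `p`, with `D u` a unit of `O` and residue classes
  represented by `D`-constants: `u^m g ∈ O` and `u D g ∈ O` imply `D g ∈ O`
  (**a derivative has no simple pole**).
-/

set_option autoImplicit false

namespace Fermat.Agent.S36

section

variable {L : Type*} [Field L]

/-- `D 1 = 0` for a map with the Leibniz rule. -/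
theorem dv58_one (D : L → L) (hmul : ∀ x y : L, D (x * y) = x * D y + y * D x) : D 1 = 0 := by
  have h := hmul 1 1
  simp only [one_mul] at h
  linear_combination -h

/-- `D 0 = 0` for an additive map. -/
theorem dv58_zero (D : L → L) (hadd : ∀ x y : L, D (x + y) = D x + D y) : D 0 = 0 := by
  have h := hadd 0 0
  simp only [add_zero] at h
  linear_combination -h

/-- `D (-x) = - D x`. -/
theorem dv58_neg (D : L → L) (hadd : ∀ x y : L, D (x + y) = D x + D y) (x : L) :
    D (-x) = - D x := by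
  have h := hadd x (-x)
  rw [add_neg_cancel, dv58_zero D hadd] at h
  linear_combination -h

/-- `u * D (u ^ m) = m * u ^ m * D u`. -/
theorem dv58_pow (D : L → L) (hmul : ∀ x y : L, D (x * y) = x * D y + y * D x) (u : L) (m : ℕ) :
    u * D (u ^ m) = (m : L) * u ^ m * D u := by
  induction m with
  | zero => simp [dv58_one D hmul]
  | succ m ih =>
    rw [pow_succ, hmul]
    push_cast
    linear_combination u * ih

/-- `D (x⁻¹) = - D x * (x⁻¹)^2` for `x ≠ 0`. -/
theorem dv58_inv (D : L → L) (hmul : ∀ x y : L, D (x * y) = x * D y + y * D x) (x : L)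
    (hx : x ≠ 0) : D x⁻¹ = - D x * x⁻¹ ^ 2 := by
  have h := hmul x x⁻¹
  rw [mul_inv_cancel₀ hx, dv58_one D hmul] at h
  have h2 : x * D x⁻¹ = - (x⁻¹ * D x) := by linear_combination -h
  have h3 : D x⁻¹ = x⁻¹ * (x * D x⁻¹) := by field_simp
  rw [h3, h2]
  ring

/-- **Bounded poles from generators.**  If every element of `O` is obtained from `S ⊆ O` by ring
operations and inverses of units of `O` (`hgen`: `O` is the smallest subring containing `S` and
closed under the inverses that lie in `O`), and `u^k D s ∈ O` for `s ∈ S`, then `u^k D f ∈ O`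
for every `f ∈ O`. -/
theorem dv58_fin_of_gen (O : Subring L) (u : L)
    (D : L → L) (hadd : ∀ x y : L, D (x + y) = D x + D y)
    (hmul : ∀ x y : L, D (x * y) = x * D y + y * D x)
    (S : Set L) (hSO : ∀ s ∈ S, s ∈ O) (k : ℕ) (hS : ∀ s ∈ S, u ^ k * D s ∈ O)
    (hgen : ∀ O' : Subring L, O' ≤ O → S ⊆ O' → (∀ x ∈ O', x⁻¹ ∈ O → x⁻¹ ∈ O') → O ≤ O') :
    ∀ f ∈ O, u ^ k * D f ∈ O := by
  let O' : Subring L :=
    { carrier := {x | x ∈ O ∧ u ^ k * D x ∈ O}
      mul_mem' := by
        rintro a b ⟨ha, ha'⟩ ⟨hb, hb'⟩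
        refine ⟨O.mul_mem ha hb, ?_⟩
        have e : u ^ k * D (a * b) = a * (u ^ k * D b) + b * (u ^ k * D a) := by
          rw [hmul]; ring
        rw [e]
        exact O.add_mem (O.mul_mem ha hb') (O.mul_mem hb ha')
      one_mem' := ⟨O.one_mem, by rw [dv58_one D hmul, mul_zero]; exact O.zero_mem⟩
      add_mem' := by
        rintro a b ⟨ha, ha'⟩ ⟨hb, hb'⟩
        refine ⟨O.add_mem ha hb, ?_⟩
        rw [hadd, mul_add]
        exact O.add_mem ha' hb'
      zero_mem' := ⟨O.zero_mem, by rw [dv58_zero D hadd, mul_zero]; exact O.zero_mem⟩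
      neg_mem' := by
        rintro a ⟨ha, ha'⟩
        refine ⟨O.neg_mem ha, ?_⟩
        rw [dv58_neg D hadd, mul_neg]
        exact O.neg_mem ha' }
  have hle : O ≤ O' := by
    apply hgen O' (fun x hx => hx.1)
    · intro s hs
      exact ⟨hSO s hs, hS s hs⟩
    · rintro x ⟨_, hx'⟩ hxinv
      refine ⟨hxinv, ?_⟩
      by_cases hx0 : x = 0
      · subst hx0
        simp only [inv_zero, dv58_zero D hadd, mul_zero]
        exact O.zero_mem
      · rw [dv58_inv D hmul x hx0]
        have e : u ^ k * (- D x * x⁻¹ ^ 2) = - ((u ^ k * D x) * (x⁻¹ * x⁻¹)) := by ring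
        rw [e]
        exact O.neg_mem (O.mul_mem hx' (O.mul_mem hxinv hxinv))
  intro f hf
  exact (hle hf).2

/-- **`D` preserves `O`.**  `D u ∈ O`, bounded poles (`hfin`), and every `f ∈ O` is `c + u f₁`
with `c, f₁ ∈ O`, `D c ∈ O` (`hres`). -/
theorem dv58_deriv_mem (O : Subring L) (u : L) (hu : u ∈ O)
    (D : L → L) (hadd : ∀ x y : L, D (x + y) = D x + D y)
    (hmul : ∀ x y : L, D (x * y) = x * D y + y * D x)
    (hDu : D u ∈ O)
    (hres : ∀ f ∈ O, ∃ c ∈ O, D c ∈ O ∧ ∃ f₁ ∈ O, f = c + u * f₁)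
    (hfin : ∃ k : ℕ, ∀ f ∈ O, u ^ k * D f ∈ O) :
    ∀ f ∈ O, D f ∈ O := by
  classical
  have hspec := Nat.find_spec hfin
  rcases Nat.eq_zero_or_pos (Nat.find hfin) with h0 | hpos
  · intro f hf
    have := hspec f hf
    rwa [h0, pow_zero, one_mul] at this
  · exfalso
    obtain ⟨k', hk'⟩ : ∃ k', Nat.find hfin = k' + 1 := ⟨Nat.find hfin - 1, by omega⟩
    apply Nat.find_min hfin (m := k') (by omega)
    intro f hf
    obtain ⟨c, hc, hDc, f₁, hf₁, rfl⟩ := hres f hf
    have h1 : u ^ (k' + 1) * D f₁ ∈ O := by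
      have := hspec f₁ hf₁
      rwa [hk'] at this
    have e : u ^ k' * D (c + u * f₁) =
        u ^ k' * D c + u ^ (k' + 1) * D f₁ + u ^ k' * (f₁ * D u) := by
      rw [hadd, hmul, pow_succ]
      ring
    rw [e]
    exact O.add_mem (O.add_mem (O.mul_mem (pow_mem hu k') hDc) h1)
      (O.mul_mem (pow_mem hu k') (O.mul_mem hf₁ hDu))

/-- **The pole order grows by at most one**: `u^m g ∈ O ⟹ u^(m+1) D g ∈ O`. -/
theorem dv58_deriv_pole (O : Subring L) (u : L) (hu : u ∈ O)
    (D : L → L) (hmul : ∀ x y : L, D (x * y) = x * D y + y * D x)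
    (hDu : D u ∈ O) (hO : ∀ f ∈ O, D f ∈ O)
    (m : ℕ) (g : L) (hg : u ^ m * g ∈ O) : u ^ (m + 1) * D g ∈ O := by
  have h1 := hmul (u ^ m) g
  have h2 := dv58_pow D hmul u m
  have e : u ^ (m + 1) * D g = u * D (u ^ m * g) - (m : L) * ((u ^ m * g) * D u) := by
    rw [h1, pow_succ]
    linear_combination (-g) * h2
  rw [e]
  exact O.sub_mem (O.mul_mem hu (hO _ hg))
    (O.mul_mem (natCast_mem O m) (O.mul_mem hg hDu))

/-- **A derivative has no simple pole** (characteristic `p`): if `D u` is a unit of `O`, every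
`f ∈ O` is `c + u f₁` with `D c = 0`, and `D(O) ⊆ O`, then for `g` with a pole of any order
(`u^m g ∈ O`): `u D g ∈ O ⟹ D g ∈ O`. -/
theorem dv58_no_simple_pole (O : Subring L) (u : L) (hu : u ∈ O) (hu0 : u ≠ 0)
    (p : ℕ) (hp : p.Prime) (hpL : (p : L) = 0)
    (D : L → L) (hadd : ∀ x y : L, D (x + y) = D x + D y)
    (hmul : ∀ x y : L, D (x * y) = x * D y + y * D x)
    (hDu : D u ∈ O) (hDu' : (D u)⁻¹ ∈ O) (hDu0 : D u ≠ 0)
    (hres : ∀ f ∈ O, ∃ c ∈ O, D c = 0 ∧ ∃ f₁ ∈ O, f = c + u * f₁)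
    (hO : ∀ f ∈ O, D f ∈ O) :
    ∀ (m : ℕ) (g : L), u ^ m * g ∈ O → u * D g ∈ O → D g ∈ O := by
  intro m
  induction m with
  | zero =>
    intro g hg _
    rw [pow_zero, one_mul] at hg
    exact hO g hg
  | succ m ih =>
    intro g hg hDg
    obtain ⟨c, hc, hDc, f₁, hf₁, hf⟩ := hres _ hg
    -- `g = c u^{-(m+1)} + g₁`, `g₁ = f₁ u^{-m}`
    set g₁ : L := (u ^ m)⁻¹ * f₁ with hg₁
    have hum : u ^ m ≠ 0 := pow_ne_zero m hu0
    have hg₁O : u ^ m * g₁ ∈ O := by
      rw [hg₁, mul_inv_cancel_left₀ hum]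
      exact hf₁
    have hgdec : g = c * (u ^ (m + 1))⁻¹ + g₁ := by
      have hum1 : u ^ (m + 1) ≠ 0 := pow_ne_zero _ hu0
      have : g = (u ^ (m + 1))⁻¹ * (u ^ (m + 1) * g) := by
        rw [inv_mul_cancel_left₀ hum1]
      rw [this, hf, hg₁, pow_succ]
      field_simp
    -- `u^(m+2) D g = -(m+1) c D u + u * (u^(m+1) D g₁)`
    have hpow := dv58_pow D hmul u (m + 1)
    have hinv := dv58_inv D hmul (u ^ (m + 1)) (pow_ne_zero _ hu0)
    have hDg₁ : u ^ (m + 1) * D g₁ ∈ O := dv58_deriv_pole O u hu D hmul hDu hO m g₁ hg₁O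
    have hDg_eq : D g = c * D ((u ^ (m + 1))⁻¹) + D g₁ := by
      rw [hgdec, hadd, hmul, hDc, mul_zero, add_zero]
    have hkey : u ^ (m + 2) * D g =
        - (((m + 1 : ℕ) : L) * c * D u) + u * (u ^ (m + 1) * D g₁) := by
      rw [hDg_eq, hinv]
      have hum1 : u ^ (m + 1) ≠ 0 := pow_ne_zero _ hu0
      have h3 : D (u ^ (m + 1)) = u⁻¹ * (((m + 1 : ℕ) : L) * u ^ (m + 1) * D u) := by
        rw [← hpow, inv_mul_cancel_left₀ hu0]
      rw [h3]
      field_simp
      ring
    by_cases hm : ((m + 1 : ℕ) : L) = 0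
    · -- `D g = D g₁`, pole order of `g₁` is `≤ m`
      have hDgg : D g = D g₁ := by
        have h4 : D (u ^ (m + 1)) = 0 := by
          have h5 : u * D (u ^ (m + 1)) = 0 := by rw [hpow, hm]; ring
          exact (mul_eq_zero.mp h5).resolve_left hu0
        rw [hDg_eq, hinv, h4]
        ring
      rw [hDgg] at hDg ⊢
      exact ih g₁ hg₁O hDg
    · -- `(m+1)` is a unit of `O`, so `c ∈ u O`, so `u^m g ∈ O`
      have hcop : Nat.Coprime (m + 1) p := by
        rw [Nat.coprime_comm, Nat.Prime.coprime_iff_not_dvd hp]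
        intro hdvd
        apply hm
        obtain ⟨d, hd⟩ := hdvd
        rw [hd]
        push_cast
        rw [hpL, zero_mul]
      -- inverse of `m+1` in `O`
      obtain ⟨a, b, hab⟩ : ∃ a b : ℤ, (a : L) * ((m + 1 : ℕ) : L) + (b : L) * (p : L) = 1 := by
        have h := Nat.Coprime.isCoprime hcop
        obtain ⟨a, b, hab⟩ := h
        refine ⟨a, b, ?_⟩
        have := congrArg (Int.cast : ℤ → L) hab
        push_cast at this
        push_cast
        exact this
      rw [hpL, mul_zero, add_zero] at hab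
      -- `u^(m+1) (u D g) ∈ u O`
      have h6 : u ^ (m + 2) * D g = u * (u ^ m * (u * D g)) := by ring
      have h7 : ((m + 1 : ℕ) : L) * c * D u = u * (u ^ (m + 1) * D g₁ - u ^ m * (u * D g)) := by
        linear_combination hkey - h6
      have hw : u ^ (m + 1) * D g₁ - u ^ m * (u * D g) ∈ O :=
        O.sub_mem hDg₁ (O.mul_mem (pow_mem hu m) hDg)
      -- `c = u * c₁`
      set c₁ : L := (a : L) * (D u)⁻¹ * (u ^ (m + 1) * D g₁ - u ^ m * (u * D g)) with hc₁
      have hc₁O : c₁ ∈ O := O.mul_mem (O.mul_mem (intCast_mem O a) hDu') hw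
      have hcc : c = u * c₁ := by
        have h8 : c = (a : L) * (D u)⁻¹ * (((m + 1 : ℕ) : L) * c * D u) := by
          have : (a : L) * (D u)⁻¹ * (((m + 1 : ℕ) : L) * c * D u) =
              ((a : L) * ((m + 1 : ℕ) : L)) * c * ((D u)⁻¹ * D u) := by ring
          rw [this, hab, inv_mul_cancel₀ hDu0]
          ring
        rw [h8, h7, hc₁]
        ring
      have hgm : u ^ m * g ∈ O := by
        have h9 : u ^ m * g = c₁ + f₁ := by
          have h10 : u * (u ^ m * g) = u * (c₁ + f₁) := by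
            have : u * (u ^ m * g) = u ^ (m + 1) * g := by ring
            rw [this, hf, hcc]
            ring
          exact mul_left_cancel₀ hu0 h10
        rw [h9]
        exact O.add_mem hc₁O hf₁
      exact ih g hgm hDg

/-- In characteristic `p`, `p`-th powers are `D`-constants. -/
theorem dv58_pow_const (p : ℕ) (hpL : (p : L) = 0)
    (D : L → L) (hadd : ∀ x y : L, D (x + y) = D x + D y)
    (hmul : ∀ x y : L, D (x * y) = x * D y + y * D x) (b : L) : D (b ^ p) = 0 := by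
  by_cases hb : b = 0
  · subst hb
    rcases Nat.eq_zero_or_pos p with h0 | hpos
    · subst h0
      rw [pow_zero]
      exact dv58_one D hmul
    · rw [zero_pow (by omega)]
      exact dv58_zero D hadd
  · have h := dv58_pow D hmul b p
    rw [hpL, zero_mul, zero_mul] at h
    exact (mul_eq_zero.mp h).resolve_left hb

/-- **Summary (characteristic `p`, perfect residue field).**  `O ⊆ L` a subring, `u ∈ O`,
`u ≠ 0`, `D` a derivation of `L` with `D u` a unit of `O`, bounded poles on `O`, and every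
`f ∈ O` congruent modulo `u O` to a `p`-th power of an element of `O`.  Then
(1) `D(O) ⊆ O`; (2) `u^m g ∈ O ⟹ u^(m+1) D g ∈ O`; (3) `u^m g ∈ O`, `u D g ∈ O ⟹ D g ∈ O`. -/
theorem dv58_main (O : Subring L) (u : L) (hu : u ∈ O) (hu0 : u ≠ 0)
    (p : ℕ) (hp : p.Prime) (hpL : (p : L) = 0)
    (D : L → L) (hadd : ∀ x y : L, D (x + y) = D x + D y)
    (hmul : ∀ x y : L, D (x * y) = x * D y + y * D x)
    (hDu : D u ∈ O) (hDu' : (D u)⁻¹ ∈ O) (hDu0 : D u ≠ 0)
    (hresP : ∀ f ∈ O, ∃ b ∈ O, ∃ f₁ ∈ O, f = b ^ p + u * f₁)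
    (hfin : ∃ k : ℕ, ∀ f ∈ O, u ^ k * D f ∈ O) :
    (∀ f ∈ O, D f ∈ O) ∧
    (∀ (m : ℕ) (g : L), u ^ m * g ∈ O → u ^ (m + 1) * D g ∈ O) ∧
    (∀ (m : ℕ) (g : L), u ^ m * g ∈ O → u * D g ∈ O → D g ∈ O) := by
  have hres0 : ∀ f ∈ O, ∃ c ∈ O, D c = 0 ∧ ∃ f₁ ∈ O, f = c + u * f₁ := by
    intro f hf
    obtain ⟨b, hb, f₁, hf₁, e⟩ := hresP f hf
    exact ⟨b ^ p, pow_mem hb p, dv58_pow_const p hpL D hadd hmul b, f₁, hf₁, e⟩
  have hres : ∀ f ∈ O, ∃ c ∈ O, D c ∈ O ∧ ∃ f₁ ∈ O, f = c + u * f₁ := by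
    intro f hf
    obtain ⟨c, hc, hDc, f₁, hf₁, e⟩ := hres0 f hf
    exact ⟨c, hc, by rw [hDc]; exact O.zero_mem, f₁, hf₁, e⟩
  have hO := dv58_deriv_mem O u hu D hadd hmul hDu hres hfin
  exact ⟨hO, fun m g hg => dv58_deriv_pole O u hu D hmul hDu hO m g hg,
    dv58_no_simple_pole O u hu hu0 p hp hpL D hadd hmul hDu hDu' hDu0 hres0 hO⟩

end

end Fermat.Agent.S36
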