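import Mathlib

/-!
# S36 lab, row 599 (C-REGq), sub-part (DM), abstract half (helper98, seat 98)

`D : L → L` additive + Leibniz, zero on `K`; `F` an intermediate field of `L / K`, `x ∈ F`, every
element of `F` integral over `K(x)`, characteristic zero.  Then `D F ⊆ F * D x`:

* `dm98_deriv_mem` : `∀ y : F, ∃ g : F, D y = g * D x`;
* `dm98_quot_mem` : for `t ∈ F` with `D t ≠ 0`: `D y ∈ F * D t` for every `y ∈ F`;
* `dm98_exists_derivation` : the function `Dt := D (·) / D t` restricted to `F` is additive,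
  Leibniz, kills `K` and has `Dt t = 1`.

Mathlib only.
-/

set_option autoImplicit false
set_option linter.style.longLine false
set_option linter.unusedVariables false

namespace Fermat.Agent.S36

open Polynomial IntermediateField

section Abs

variable {K L : Type*} [Field K] [Field L] [Algebra K L]

theorem dm98_map_zero (D : L → L) (hadd : ∀ a b : L, D (a + b) = D a + D b) : D 0 = 0 := by
  have h := hadd 0 0
  rw [add_zero] at h
  exact left_eq_add.mp h

theorem dm98_map_pow (D : L → L) (hadd : ∀ a b : L, D (a + b) = D a + D b)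
    (hmul : ∀ a b : L, D (a * b) = a * D b + D a * b) (a : L) (n : ℕ) :
    D (a ^ n) = (n : L) * a ^ (n - 1) * D a := by
  have h1 : D 1 = 0 := by
    have h := hmul 1 1
    rw [one_mul, one_mul, mul_one] at h
    exact left_eq_add.mp h
  induction n with
  | zero => simp [h1]
  | succ n ih =>
    rw [pow_succ, hmul, ih]
    rcases n with _ | n
    · simp
    · simp only [Nat.add_sub_cancel]
      push_cast
      ring

theorem dm98_map_inv (D : L → L) (hadd : ∀ a b : L, D (a + b) = D a + D b)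
    (hmul : ∀ a b : L, D (a * b) = a * D b + D a * b) (a : L) :
    D (a⁻¹) = -(a⁻¹) ^ 2 * D a := by
  have h1 : D 1 = 0 := by
    have h := hmul 1 1
    rw [one_mul, one_mul, mul_one] at h
    exact left_eq_add.mp h
  by_cases ha : a = 0
  · subst ha
    simp [dm98_map_zero D hadd]
  · have h := hmul a a⁻¹
    rw [mul_inv_cancel₀ ha, h1] at h
    have h2 : D a⁻¹ = a⁻¹ * (a * D a⁻¹) := by rw [← mul_assoc, inv_mul_cancel₀ ha, one_mul]
    have h3 : a * D a⁻¹ = -(D a * a⁻¹) := by linear_combination (-1 : L) * h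
    rw [h2, h3]
    ring

/-- `D` of an element of `K(x) ⊆ F` is an `F`-multiple of `D x`. -/
theorem dm98_adjoin (D : L → L) (hadd : ∀ a b : L, D (a + b) = D a + D b)
    (hmul : ∀ a b : L, D (a * b) = a * D b + D a * b) (hK : ∀ c : K, D (algebraMap K L c) = 0)
    (F : IntermediateField K L) (x : F) :
    ∀ a : F, a ∈ K⟮x⟯ → ∃ g : F, D (a : L) = (g : L) * D (x : L) := by
  intro a ha
  induction ha using IntermediateField.adjoin_induction with
  | mem y hy =>
    rw [Set.mem_singleton_iff] at hy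
    subst hy
    exact ⟨1, by simp⟩
  | algebraMap c =>
    refine ⟨0, ?_⟩
    have h : ((algebraMap K F c : F) : L) = algebraMap K L c := rfl
    rw [h, hK]
    simp
  | add y z hy hz ihy ihz =>
    obtain ⟨g1, h1⟩ := ihy
    obtain ⟨g2, h2⟩ := ihz
    refine ⟨g1 + g2, ?_⟩
    push_cast
    rw [hadd, h1, h2]
    ring
  | inv y hy ihy =>
    obtain ⟨g1, h1⟩ := ihy
    refine ⟨-(y⁻¹) ^ 2 * g1, ?_⟩
    push_cast
    rw [dm98_map_inv D hadd hmul, h1]
    ring
  | mul y z hy hz ihy ihz =>
    obtain ⟨g1, h1⟩ := ihy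
    obtain ⟨g2, h2⟩ := ihz
    refine ⟨y * g2 + z * g1, ?_⟩
    push_cast
    rw [hmul, h1, h2]
    ring

/-- Chain rule for a polynomial with coefficients in `K(x)` evaluated at `y ∈ F`. -/
theorem dm98_aeval (D : L → L) (hadd : ∀ a b : L, D (a + b) = D a + D b)
    (hmul : ∀ a b : L, D (a * b) = a * D b + D a * b) (hK : ∀ c : K, D (algebraMap K L c) = 0)
    (F : IntermediateField K L) (x : F) (p : Polynomial K⟮x⟯) (y : F) :
    ∃ g : F, D ((aeval y p : F) : L) =
      (g : L) * D (x : L) + ((aeval y (derivative p) : F) : L) * D (y : L) := by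
  induction p using Polynomial.induction_on' with
  | add p r hp hr =>
    obtain ⟨g1, h1⟩ := hp
    obtain ⟨g2, h2⟩ := hr
    refine ⟨g1 + g2, ?_⟩
    rw [map_add, derivative_add, map_add]
    push_cast
    rw [hadd, h1, h2]
    ring
  | monomial n a =>
    obtain ⟨g1, h1⟩ := dm98_adjoin D hadd hmul hK F x (a : F) a.2
    refine ⟨y ^ n * g1, ?_⟩
    rw [derivative_monomial, aeval_monomial, aeval_monomial]
    have e1 : ((algebraMap (↥K⟮x⟯) (↥F) a * y ^ n : F) : L) = ((a : F) : L) * (y : L) ^ n := rfl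
    have e2 : ((algebraMap (↥K⟮x⟯) (↥F) (a * (n : ↥K⟮x⟯)) * y ^ (n - 1) : F) : L) =
        ((a : F) : L) * (n : L) * (y : L) ^ (n - 1) := by
      have : algebraMap (↥K⟮x⟯) (↥F) (a * (n : ↥K⟮x⟯)) = (a : F) * (n : F) := by
        rw [map_mul, map_natCast]; rfl
      rw [this]
      push_cast
      rfl
    rw [e1, e2, hmul, dm98_map_pow D hadd hmul, h1]
    push_cast
    ring

/-- **(DM), abstract**: in characteristic zero, if every element of `F` is integral over `K(x)`,
then `D F ⊆ F * D x`. -/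
theorem dm98_deriv_mem [CharZero K] (D : L → L) (hadd : ∀ a b : L, D (a + b) = D a + D b)
    (hmul : ∀ a b : L, D (a * b) = a * D b + D a * b) (hK : ∀ c : K, D (algebraMap K L c) = 0)
    (F : IntermediateField K L) (x : F) (halg : ∀ y : F, IsIntegral K⟮x⟯ y) :
    ∀ y : F, ∃ g : F, D (y : L) = (g : L) * D (x : L) := by
  intro y
  have : CharZero (↥K⟮x⟯) := charZero_of_injective_algebraMap (algebraMap K (↥K⟮x⟯)).injective
  have hp : aeval y (minpoly (↥K⟮x⟯) y) = 0 := minpoly.aeval _ _
  have hsep : (minpoly (↥K⟮x⟯) y).Separable := (minpoly.irreducible (halg y)).separable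
  have hne : aeval y (derivative (minpoly (↥K⟮x⟯) y)) ≠ 0 :=
    hsep.aeval_derivative_ne_zero hp
  obtain ⟨g, hg⟩ := dm98_aeval D hadd hmul hK F x (minpoly (↥K⟮x⟯) y) y
  rw [hp] at hg
  have h0 : D (((0 : F) : F) : L) = 0 := by
    push_cast
    exact dm98_map_zero D hadd
  rw [h0] at hg
  set d : F := aeval y (derivative (minpoly (↥K⟮x⟯) y)) with hd
  have hdL : (d : L) ≠ 0 := fun h => hne (by exact_mod_cast h)
  refine ⟨-(g / d), ?_⟩
  push_cast
  field_simp
  linear_combination (-1 : L) * hg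

/-- For `t ∈ F` with `D t ≠ 0`: `D y ∈ F * D t` for every `y ∈ F`. -/
theorem dm98_quot_mem [CharZero K] (D : L → L) (hadd : ∀ a b : L, D (a + b) = D a + D b)
    (hmul : ∀ a b : L, D (a * b) = a * D b + D a * b) (hK : ∀ c : K, D (algebraMap K L c) = 0)
    (F : IntermediateField K L) (x : F) (halg : ∀ y : F, IsIntegral K⟮x⟯ y)
    (t : F) (ht : D (t : L) ≠ 0) (y : F) :
    ∃ g : F, D (y : L) = (g : L) * D (t : L) := by
  obtain ⟨gy, hy⟩ := dm98_deriv_mem D hadd hmul hK F x halg y
  obtain ⟨gt, hgt⟩ := dm98_deriv_mem D hadd hmul hK F x halg t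
  have hgt0 : (gt : L) ≠ 0 := by
    intro h
    rw [h, zero_mul] at hgt
    exact ht hgt
  refine ⟨gy / gt, ?_⟩
  rw [hy, hgt]
  push_cast
  field_simp

/-- **The derivation `D_t = D / D t` of `F`** (`t ∈ F`, `D t ≠ 0`): a map `F → F`, additive,
Leibniz, zero on `K`, `D_t t = 1`, with `D y = D_t y * D t` in `L`. -/
theorem dm98_exists_derivation [CharZero K] (D : L → L)
    (hadd : ∀ a b : L, D (a + b) = D a + D b)
    (hmul : ∀ a b : L, D (a * b) = a * D b + D a * b) (hK : ∀ c : K, D (algebraMap K L c) = 0)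
    (F : IntermediateField K L)
    (x : F) (halg : ∀ y : F, IsIntegral K⟮x⟯ y) (t : F) (ht : D (t : L) ≠ 0) :
    ∃ Dt : F → F, (∀ y : F, D (y : L) = (Dt y : L) * D (t : L)) ∧
      (∀ y z : F, Dt (y + z) = Dt y + Dt z) ∧
      (∀ y z : F, Dt (y * z) = y * Dt z + Dt y * z) ∧
      (∀ c : K, Dt (algebraMap K F c) = 0) ∧ Dt t = 1 := by
  choose Dt hDt using dm98_quot_mem D hadd hmul hK F x halg t ht
  have hinj : ∀ a b : F, (a : L) * D (t : L) = (b : L) * D (t : L) → a = b := by
    intro a b h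
    exact Subtype.ext (mul_right_cancel₀ ht h)
  refine ⟨Dt, hDt, ?_, ?_, ?_, ?_⟩
  · intro y z
    apply hinj
    rw [← hDt]
    push_cast
    rw [hadd, hDt y, hDt z]
    ring
  · intro y z
    apply hinj
    rw [← hDt]
    push_cast
    rw [hmul, hDt y, hDt z]
    ring
  · intro c
    apply hinj
    rw [← hDt]
    have h : ((algebraMap K F c : F) : L) = algebraMap K L c := rfl
    rw [h, hK]
    simp
  · apply hinj
    rw [← hDt]
    simp

end Abs

end Fermat.Agent.S36
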