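import Fermat.Agent.S18.ConstFk11
import Fermat.Agent.S28.CTools
import Fermat.Agent.S36.DerivMemAbs98

/-!
# S36 lab, row 599 (C-REGq), sub-part (DM), concrete half (helper98, seat 98)

`θ = Q d/dQ` (`partC_theta`) on `K((Q))`, `F = modularFunctionFieldFullC K M`, `K` of
characteristic zero.

* `dm98_theta_mem` : `θ y ∈ F * θ J` for every `y ∈ F`;
* `dm98_theta_quot` : `θ y ∈ F * θ t` for `t ∈ F` with `θ t ≠ 0`;
* `dm98_D K M t : F → F` : the derivation `D_t = θ(·)/θ(t)` OF THE FIELD `F` itself, with
  `dm98_D_spec`, `dm98_D_coe`, `dm98_D_add`, `dm98_D_mul` (Leibniz), `dm98_D_algebraMap`,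
  `dm98_D_natCast`, `dm98_D_self`, `dm98_D_chain`, `dm98_D_inv`, `dm98_D_pow`;
* `dm98_theta_eq_zero_iff` : `θ f = 0 ↔ f` is a constant; `dm98_theta_J_ne_zero`.
-/

set_option autoImplicit false
set_option linter.style.longLine false
set_option linter.unusedVariables false
set_option linter.unusedSectionVars false

open ModularCurve IntermediateField

namespace Fermat.Agent.S36

open Fermat.Agent.S18 Fermat.Agent.S28

section Conc

variable (K : Type*) [Field K] [CharZero K] (M : ℕ) [NeZero M]

omit [CharZero K] in
theorem dm98_theta_add (a b : LaurentSeries K) :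
    partC_theta (a + b) = partC_theta a + partC_theta b := map_add _ a b

omit [CharZero K] in
theorem dm98_theta_mul (a b : LaurentSeries K) :
    partC_theta (a * b) = a * partC_theta b + partC_theta a * b := by
  rw [Derivation.leibniz, smul_eq_mul, smul_eq_mul]; ring

omit [CharZero K] in
theorem dm98_theta_algebraMap (c : K) : partC_theta (algebraMap K (LaurentSeries K) c) = 0 :=
  Derivation.map_algebraMap _ c

set_option maxHeartbeats 400000 in
/-- **(DM)**: `θ y ∈ F_K(M) * θ J` for every `y ∈ F_K(M)`. -/
theorem dm98_theta_mem (y : modularFunctionFieldFullC K M) :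
    ∃ g : modularFunctionFieldFullC K M,
      partC_theta (y : LaurentSeries K) = (g : LaurentSeries K) * partC_theta (jqModC K) :=
  dm98_deriv_mem (fun f => partC_theta f) (dm98_theta_add K) (dm98_theta_mul K)
    (dm98_theta_algebraMap K) (modularFunctionFieldFullC K M)
    (ck11_j K M) (ck11_isIntegral K M) y

set_option maxHeartbeats 400000 in
/-- `θ y ∈ F_K(M) * θ t` for `t ∈ F_K(M)` with `θ t ≠ 0`. -/
theorem dm98_theta_quot (t : modularFunctionFieldFullC K M)
    (ht : partC_theta (t : LaurentSeries K) ≠ 0) (y : modularFunctionFieldFullC K M) :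
    ∃ g : modularFunctionFieldFullC K M,
      partC_theta (y : LaurentSeries K) = (g : LaurentSeries K) * partC_theta (t : LaurentSeries K) :=
  dm98_quot_mem (fun f => partC_theta f) (dm98_theta_add K) (dm98_theta_mul K)
    (dm98_theta_algebraMap K) (modularFunctionFieldFullC K M)
    (ck11_j K M) (ck11_isIntegral K M) t ht y

open Classical in
/-- **The derivation `D_t = θ(·)/θ(t)` of the field `F_K(M)`** (zero if `θ t = 0`). -/
noncomputable def dm98_D (t : modularFunctionFieldFullC K M) (y : modularFunctionFieldFullC K M) :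
    modularFunctionFieldFullC K M :=
  if ht : partC_theta (t : LaurentSeries K) ≠ 0 then
    Classical.choose (dm98_theta_quot K M t ht y) else 0

variable {K M}

theorem dm98_D_spec {t : modularFunctionFieldFullC K M}
    (ht : partC_theta (t : LaurentSeries K) ≠ 0) (y : modularFunctionFieldFullC K M) :
    partC_theta (y : LaurentSeries K) =
      (dm98_D K M t y : LaurentSeries K) * partC_theta (t : LaurentSeries K) := by
  unfold dm98_D
  rw [dif_pos ht]
  exact Classical.choose_spec (dm98_theta_quot K M t ht y)

theorem dm98_D_coe {t : modularFunctionFieldFullC K M}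
    (ht : partC_theta (t : LaurentSeries K) ≠ 0) (y : modularFunctionFieldFullC K M) :
    (dm98_D K M t y : LaurentSeries K) =
      partC_theta (y : LaurentSeries K) / partC_theta (t : LaurentSeries K) := by
  rw [dm98_D_spec ht y, mul_div_assoc, div_self ht, mul_one]

theorem dm98_D_ext {t : modularFunctionFieldFullC K M}
    (ht : partC_theta (t : LaurentSeries K) ≠ 0) {a b : modularFunctionFieldFullC K M}
    (h : (a : LaurentSeries K) * partC_theta (t : LaurentSeries K) =
      (b : LaurentSeries K) * partC_theta (t : LaurentSeries K)) : a = b :=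
  Subtype.ext (mul_right_cancel₀ ht h)

theorem dm98_D_add {t : modularFunctionFieldFullC K M}
    (ht : partC_theta (t : LaurentSeries K) ≠ 0) (y z : modularFunctionFieldFullC K M) :
    dm98_D K M t (y + z) = dm98_D K M t y + dm98_D K M t z := by
  apply dm98_D_ext ht
  rw [← dm98_D_spec ht]
  push_cast
  rw [dm98_theta_add, dm98_D_spec ht y, dm98_D_spec ht z]
  ring

/-- Leibniz rule. -/
theorem dm98_D_mul {t : modularFunctionFieldFullC K M}
    (ht : partC_theta (t : LaurentSeries K) ≠ 0) (y z : modularFunctionFieldFullC K M) :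
    dm98_D K M t (y * z) = y * dm98_D K M t z + dm98_D K M t y * z := by
  apply dm98_D_ext ht
  rw [← dm98_D_spec ht]
  push_cast
  rw [dm98_theta_mul, dm98_D_spec ht y, dm98_D_spec ht z]
  ring

theorem dm98_D_algebraMap {t : modularFunctionFieldFullC K M}
    (ht : partC_theta (t : LaurentSeries K) ≠ 0) (c : K) :
    dm98_D K M t (algebraMap K (modularFunctionFieldFullC K M) c) = 0 := by
  apply dm98_D_ext ht
  rw [← dm98_D_spec ht]
  have h : ((algebraMap K (modularFunctionFieldFullC K M) c : modularFunctionFieldFullC K M) :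
      LaurentSeries K) = algebraMap K (LaurentSeries K) c := rfl
  rw [h, dm98_theta_algebraMap]
  simp

theorem dm98_D_zero {t : modularFunctionFieldFullC K M}
    (ht : partC_theta (t : LaurentSeries K) ≠ 0) : dm98_D K M t 0 = 0 := by
  have h := dm98_D_algebraMap ht (0 : K)
  rwa [map_zero] at h

theorem dm98_D_one {t : modularFunctionFieldFullC K M}
    (ht : partC_theta (t : LaurentSeries K) ≠ 0) : dm98_D K M t 1 = 0 := by
  have h := dm98_D_algebraMap ht (1 : K)
  rwa [map_one] at h

theorem dm98_D_natCast {t : modularFunctionFieldFullC K M}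
    (ht : partC_theta (t : LaurentSeries K) ≠ 0) (n : ℕ) :
    dm98_D K M t (n : modularFunctionFieldFullC K M) = 0 := by
  have h := dm98_D_algebraMap ht (n : K)
  rwa [map_natCast] at h

theorem dm98_D_intCast {t : modularFunctionFieldFullC K M}
    (ht : partC_theta (t : LaurentSeries K) ≠ 0) (n : ℤ) :
    dm98_D K M t (n : modularFunctionFieldFullC K M) = 0 := by
  have h := dm98_D_algebraMap ht (n : K)
  rwa [map_intCast] at h

theorem dm98_D_neg {t : modularFunctionFieldFullC K M}
    (ht : partC_theta (t : LaurentSeries K) ≠ 0) (y : modularFunctionFieldFullC K M) :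
    dm98_D K M t (-y) = -dm98_D K M t y := by
  have h := dm98_D_add ht y (-y)
  rw [add_neg_cancel, dm98_D_zero ht] at h
  exact eq_neg_of_add_eq_zero_right h.symm

theorem dm98_D_sub {t : modularFunctionFieldFullC K M}
    (ht : partC_theta (t : LaurentSeries K) ≠ 0) (y z : modularFunctionFieldFullC K M) :
    dm98_D K M t (y - z) = dm98_D K M t y - dm98_D K M t z := by
  rw [sub_eq_add_neg, dm98_D_add ht, dm98_D_neg ht, sub_eq_add_neg]

theorem dm98_D_self {t : modularFunctionFieldFullC K M}
    (ht : partC_theta (t : LaurentSeries K) ≠ 0) : dm98_D K M t t = 1 := by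
  apply dm98_D_ext ht
  rw [← dm98_D_spec ht]
  simp

/-- Chain rule: `D_t y = D_x y * D_t x`. -/
theorem dm98_D_chain {t x : modularFunctionFieldFullC K M}
    (ht : partC_theta (t : LaurentSeries K) ≠ 0) (hx : partC_theta (x : LaurentSeries K) ≠ 0)
    (y : modularFunctionFieldFullC K M) :
    dm98_D K M t y = dm98_D K M x y * dm98_D K M t x := by
  apply dm98_D_ext ht
  rw [← dm98_D_spec ht]
  push_cast
  rw [mul_assoc, ← dm98_D_spec ht, ← dm98_D_spec hx]

theorem dm98_D_pow {t : modularFunctionFieldFullC K M}
    (ht : partC_theta (t : LaurentSeries K) ≠ 0) (y : modularFunctionFieldFullC K M) (n : ℕ) :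
    dm98_D K M t (y ^ n) = (n : modularFunctionFieldFullC K M) * y ^ (n - 1) * dm98_D K M t y := by
  apply dm98_D_ext ht
  rw [← dm98_D_spec ht]
  push_cast
  rw [Derivation.leibniz_pow, dm98_D_spec ht y]
  simp only [smul_eq_mul, nsmul_eq_mul]
  ring

theorem dm98_D_inv {t : modularFunctionFieldFullC K M}
    (ht : partC_theta (t : LaurentSeries K) ≠ 0) (y : modularFunctionFieldFullC K M) :
    dm98_D K M t (y⁻¹) = -(y⁻¹) ^ 2 * dm98_D K M t y := by
  apply dm98_D_ext ht
  rw [← dm98_D_spec ht]
  push_cast
  rw [Derivation.leibniz_inv, dm98_D_spec ht y, smul_eq_mul]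
  ring

/-- In characteristic zero, `θ f = 0` iff `f` is a constant. -/
theorem dm98_theta_eq_zero_iff (f : LaurentSeries K) :
    partC_theta f = 0 ↔ f = HahnSeries.C (f.coeff 0) := by
  constructor
  · intro h
    ext n
    by_cases hn : n = 0
    · subst hn
      simp
    · have h1 := congrArg (fun g : LaurentSeries K => g.coeff n) h
      simp only [partC_theta_coeff, HahnSeries.coeff_zero] at h1
      have hn' : (n : K) ≠ 0 := Int.cast_ne_zero.mpr hn
      have h2 : f.coeff n = 0 := by
        rcases mul_eq_zero.mp h1 with h3 | h3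
        · exact absurd h3 hn'
        · exact h3
      rw [h2, HahnSeries.C_apply, HahnSeries.coeff_single_of_ne hn]
  · intro h
    rw [h]
    ext n
    rw [partC_theta_coeff, HahnSeries.coeff_zero, HahnSeries.C_apply]
    by_cases hn : n = 0
    · subst hn
      simp
    · rw [HahnSeries.coeff_single_of_ne hn, mul_zero]

/-- `θ t ≠ 0` for a non-constant `t`. -/
theorem dm98_theta_ne_zero_of_coeff {f : LaurentSeries K} {n : ℤ} (hn : n ≠ 0)
    (hf : f.coeff n ≠ 0) : partC_theta f ≠ 0 := by
  intro h
  have h1 := congrArg (fun g : LaurentSeries K => g.coeff n) h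
  simp only [partC_theta_coeff, HahnSeries.coeff_zero] at h1
  rcases mul_eq_zero.mp h1 with h3 | h3
  · exact hn (Int.cast_eq_zero.mp h3)
  · exact hf h3

end Conc

end Fermat.Agent.S36
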