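import Mathlib

/-!
# S36 lab, row C-REGq (helper95): a derivation preserves a regular local ring — abstract, Mathlib only

Uniform input for `κ = 1` at every node (all `q`, nodes over `j = 0, 1728` included).

Setting: `A` a noetherian local ring inside a field `F` (the local ring `B''_{n''}` of the chart
of the good level `M''` at a closed point `n''` of the special fibre, `𝔪 = (x, π)`), and
`D : F → F` additive with the Leibniz rule (`D = θ(·)/θ(x)`), `D π = 0`, `D x ∈ A`.

* `dr95_deriv_mem` **(I)**: if the residue characteristic `q` lies in `π A`, every `f ∈ A` is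
  `g ^ q + x f₁ + π h` (perfect residue field), and `D` has bounded denominators on `A`
  (`d · D(A) ⊆ A` for one `d ≠ 0`; from the finite generation of the chart), then `D(A) ⊆ A`.
  Proof: `d · D f ∈ d A + 𝔪 ^ k` for all `k` by induction, and Krull's intersection theorem in
  `A ⧸ d A`.  No horizontal place, no completion, no saturation.
* `dr95_chain` : the chain rule `D (g(x)) = g'(x) · D x` for polynomials with `D`-constant
  coefficients.
* `dr95_unramified` **(II)**: characteristic zero, `D(A) ⊆ A`, `D x = 1`, `P = (p)` a prime of `A`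
  with `P ∩ R = 0` containing some `g(x)`, `0 ≠ g ∈ R[X]` (`x` is algebraic modulo `P`: a
  horizontal prime).  Then `D p ∉ P`: the coordinate `x` is unramified at `P`.
* `dr95_order_drop` **(III)**: hence `D (p ^ (e+1) ε) = p ^ e η` with `η ∉ P` for `ε ∉ P`.
* `dr95_six_unit` : the resulting identities `(D J)^6 · ε^4 = J^4 · η^6` (`J = p^3 ε`) and
  `(D J)^6 · ε^3 = (J - c)^3 · η^6` (`J - c = p^2 ε`), i.e. `(D J)^6 / (J^4 (J - 1728)^3)` is a
  unit at `P`.
-/

set_option autoImplicit false
set_option linter.unusedSectionVars false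

namespace Fermat.Agent.S36

open IsLocalRing

section dr95

variable {A F : Type*} [CommRing A] [Field F] [Algebra A F]

/-- `D 1 = 0` for a Leibniz map. -/
theorem dr95_one (D : F → F) (hmul : ∀ a b, D (a * b) = a * D b + b * D a) : D 1 = 0 := by
  have h := hmul 1 1
  rw [mul_one, one_mul] at h
  linear_combination -h

/-- `D (g ^ (n+1)) = (n+1) g ^ n D g`. -/
theorem dr95_pow (D : F → F) (hmul : ∀ a b, D (a * b) = a * D b + b * D a) (g : F) (n : ℕ) :
    D (g ^ (n + 1)) = ((n + 1 : ℕ) : F) * g ^ n * D g := by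
  induction n with
  | zero => simp
  | succ n ih =>
    rw [pow_succ, hmul, ih]
    push_cast
    ring

/-- **(I)** A Leibniz map with bounded denominators preserves a noetherian local ring whose
maximal ideal contains `x`, `π` with `D π = 0`, `D x ∈ A`, and in which every element is a `q`-th
power modulo `(x, π)`, `q ∈ π A`. -/
theorem dr95_deriv_mem [IsNoetherianRing A] [IsLocalRing A]
    (hinj : Function.Injective (algebraMap A F))
    (D : F → F) (hadd : ∀ a b, D (a + b) = D a + D b)
    (hmul : ∀ a b, D (a * b) = a * D b + b * D a)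
    (π x : A) (hπm : π ∈ maximalIdeal A) (hxm : x ∈ maximalIdeal A)
    (hDπ : D (algebraMap A F π) = 0) (c : A) (hDx : D (algebraMap A F x) = algebraMap A F c)
    (q : ℕ) (hq1 : 1 ≤ q) (u0 : A) (hq : (q : A) = π * u0)
    (hdec : ∀ f : A, ∃ g f1 h : A, f = g ^ q + x * f1 + π * h)
    (d : A) (hd0 : d ≠ 0)
    (hbd : ∀ f : A, ∃ b : A, algebraMap A F d * D (algebraMap A F f) = algebraMap A F b) :
    ∀ f : A, ∃ b : A, D (algebraMap A F f) = algebraMap A F b := by
  classical
  choose e he using hbd
  -- the key recursion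
  have hrec : ∀ f g f1 h : A, f = g ^ q + x * f1 + π * h →
      e f = π * (u0 * g ^ (q - 1) * e g) + x * e f1 + d * (f1 * c) + π * e h := by
    intro f g f1 h hf
    apply hinj
    rw [← he f, hf]
    obtain ⟨n, rfl⟩ : ∃ n, q = n + 1 := ⟨q - 1, by omega⟩
    simp only [map_add, map_mul, map_pow, hadd, hmul, dr95_pow D hmul, hDπ, hDx,
      Nat.add_sub_cancel]
    have hq' : ((n + 1 : ℕ) : F) = algebraMap A F π * algebraMap A F u0 := by
      rw [← map_mul, ← hq, map_natCast]
    rw [hq', ← he g, ← he f1, ← he h]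
    ring
  -- `e f ∈ d A + 𝔪 ^ k` for all `k`
  have hk : ∀ k : ℕ, ∀ f : A, e f ∈ Ideal.span {d} ⊔ maximalIdeal A ^ k := by
    intro k
    induction k with
    | zero => intro f; simp
    | succ k ih =>
      intro f
      obtain ⟨g, f1, h, hf⟩ := hdec f
      rw [hrec f g f1 h hf]
      have hstep : ∀ (m : A), m ∈ maximalIdeal A → ∀ y : A,
          y ∈ Ideal.span {d} ⊔ maximalIdeal A ^ k →
          m * y ∈ Ideal.span {d} ⊔ maximalIdeal A ^ (k + 1) := by
        intro m hm y hy
        obtain ⟨a, ha, b, hb, rfl⟩ := Submodule.mem_sup.mp hy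
        rw [mul_add]
        refine Submodule.add_mem_sup (Ideal.mul_mem_left _ _ ha) ?_
        rw [pow_succ']
        exact Ideal.mul_mem_mul hm hb
      refine Ideal.add_mem _ (Ideal.add_mem _ (Ideal.add_mem _ ?_ ?_) ?_) ?_
      · have h1 := hstep π hπm (u0 * g ^ (q - 1) * e g)
          (by
            have := ih g
            exact Ideal.mul_mem_left _ _ this)
        exact h1
      · exact hstep x hxm _ (ih f1)
      · exact Ideal.mem_sup_left (Ideal.mul_mem_right _ _ (Ideal.subset_span rfl))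
      · exact hstep π hπm _ (ih h)
  -- Krull's intersection theorem in `A ⧸ d A`
  have hmem : ∀ f : A, e f ∈ Ideal.span {d} := by
    intro f
    have hne : maximalIdeal A ≠ ⊤ := Ideal.IsPrime.ne_top'
    have hK := Ideal.iInf_pow_smul_eq_bot_of_isLocalRing (M := A ⧸ Ideal.span {d})
      (maximalIdeal A) hne
    have h0 : (Ideal.Quotient.mk (Ideal.span {d}) (e f) : A ⧸ Ideal.span {d}) ∈
        (⨅ i : ℕ, maximalIdeal A ^ i • ⊤ : Submodule A (A ⧸ Ideal.span {d})) := by
      rw [Submodule.mem_iInf]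
      intro k
      obtain ⟨a, ha, b, hb, hab⟩ := Submodule.mem_sup.mp (hk k f)
      rw [← hab, map_add, Ideal.Quotient.eq_zero_iff_mem.mpr ha, zero_add]
      have h1 : (Ideal.Quotient.mk (Ideal.span {d}) b : A ⧸ Ideal.span {d}) =
          b • (1 : A ⧸ Ideal.span {d}) := by
        rw [Algebra.smul_def, mul_one]; rfl
      rw [h1]
      exact Submodule.smul_mem_smul hb Submodule.mem_top
    rw [hK, Submodule.mem_bot] at h0
    exact Ideal.Quotient.eq_zero_iff_mem.mp h0
  intro f
  obtain ⟨b, hb⟩ := Ideal.mem_span_singleton'.mp (hmem f)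
  refine ⟨b, ?_⟩
  have hd' : algebraMap A F d ≠ 0 := fun h => hd0 (hinj (by rw [h, map_zero]))
  apply mul_left_cancel₀ hd'
  rw [he f, ← hb, map_mul]
  ring

end dr95

section dr95b

variable {R A F : Type*} [CommRing R] [CommRing A] [Field F] [Algebra R A] [Algebra A F]
  [Algebra R F] [IsScalarTower R A F]

open Polynomial

/-- The chain rule for polynomials with `D`-constant coefficients. -/
theorem dr95_chain (D : F → F) (hadd : ∀ a b, D (a + b) = D a + D b)
    (hmul : ∀ a b, D (a * b) = a * D b + b * D a)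
    (hDR : ∀ r : R, D (algebraMap R F r) = 0) (x : A) (g : R[X]) :
    D (algebraMap A F (aeval x g)) =
      algebraMap A F (aeval x (derivative g)) * D (algebraMap A F x) := by
  have hzero : D 0 = 0 := by
    have h := hadd 0 0
    rw [add_zero] at h
    have h2 : D 0 + D 0 = D 0 + 0 := by rw [add_zero]; exact h.symm
    exact add_left_cancel h2
  induction g using Polynomial.induction_on' with
  | add p r hp hr =>
    rw [map_add, map_add, hadd, hp, hr, map_add, map_add, map_add, add_mul]
  | monomial n r =>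
    rw [aeval_monomial, derivative_monomial, aeval_monomial, map_mul, map_mul, map_pow, map_pow,
      ← IsScalarTower.algebraMap_apply R A F, ← IsScalarTower.algebraMap_apply R A F, hmul, hDR,
      mul_zero, add_zero]
    cases n with
    | zero =>
      simp [dr95_one D hmul]
    | succ n =>
      rw [dr95_pow D hmul, map_mul, map_natCast, Nat.add_sub_cancel]
      push_cast
      ring

/-- **(II)** The coordinate `x` is unramified at a principal horizontal prime `P = (p)`:
`D p ∉ P`. -/
theorem dr95_unramified [IsDomain R] [CharZero R]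
    (hinj : Function.Injective (algebraMap A F))
    (D : F → F) (hadd : ∀ a b, D (a + b) = D a + D b)
    (hmul : ∀ a b, D (a * b) = a * D b + b * D a)
    (hDR : ∀ r : R, D (algebraMap R F r) = 0)
    (hDA : ∀ f : A, ∃ b : A, D (algebraMap A F f) = algebraMap A F b)
    (x : A) (hDx : D (algebraMap A F x) = 1)
    (P : Ideal A) (p : A) (hPp : P = Ideal.span {p})
    (hPR : ∀ r : R, algebraMap R A r ∈ P → r = 0)
    (halg : ∃ g : R[X], g ≠ 0 ∧ aeval x g ∈ P)
    (b : A) (hb : D (algebraMap A F p) = algebraMap A F b) : b ∉ P := by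
  classical
  intro hbP
  -- a polynomial of minimal degree
  let S : Set ℕ := {n | ∃ g : R[X], g ≠ 0 ∧ aeval x g ∈ P ∧ g.natDegree = n}
  have hS : S.Nonempty := by
    obtain ⟨g, hg0, hg⟩ := halg
    exact ⟨g.natDegree, g, hg0, hg, rfl⟩
  obtain ⟨g, hg0, hgP, hgdeg⟩ := Nat.sInf_mem hS
  have hmin : ∀ g' : R[X], g' ≠ 0 → aeval x g' ∈ P → sInf S ≤ g'.natDegree :=
    fun g' h0 hP' => Nat.sInf_le ⟨g', h0, hP', rfl⟩
  -- `g` is not constant
  have hdeg : g.natDegree ≠ 0 := by
    intro h0
    obtain ⟨r, hr⟩ := natDegree_eq_zero.mp h0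
    rw [← hr, aeval_C] at hgP
    have := hPR r hgP
    rw [this, map_zero] at hr
    exact hg0 hr.symm
  -- the derivative is nonzero of smaller degree
  have hder0 : derivative g ≠ 0 := by
    intro h
    have h1 := congrArg (fun f : R[X] => f.coeff (g.natDegree - 1)) h
    simp only [coeff_derivative, coeff_zero] at h1
    have h2 : g.natDegree - 1 + 1 = g.natDegree := by omega
    rw [h2] at h1
    have h3 : g.coeff g.natDegree ≠ 0 := by
      rw [coeff_natDegree]; exact leadingCoeff_ne_zero.mpr hg0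
    have h4 : ((g.natDegree - 1 : ℕ) : R) + 1 ≠ 0 := by
      have : ((g.natDegree - 1 : ℕ) : R) + 1 = ((g.natDegree : ℕ) : R) := by
        rw [← Nat.cast_add_one, h2]
      rw [this]
      exact Nat.cast_ne_zero.mpr hdeg
    exact (mul_ne_zero h3 h4) h1
  have hderdeg : (derivative g).natDegree < g.natDegree := natDegree_derivative_lt hdeg
  have hderP : aeval x (derivative g) ∉ P := by
    intro h
    have := hmin _ hder0 h
    omega
  -- differentiate `g(x) = p a`
  rw [hPp] at hgP
  obtain ⟨a, ha⟩ := Ideal.mem_span_singleton'.mp hgP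
  obtain ⟨a', ha'⟩ := hDA a
  have h1 := dr95_chain (R := R) D hadd hmul hDR x g
  rw [hDx, mul_one] at h1
  have h5 : D (algebraMap A F (aeval x g)) = algebraMap A F (a * b + p * a') := by
    rw [← ha, map_mul, hmul, hb, ha', map_add, map_mul, map_mul]
  have h6 : aeval x (derivative g) = a * b + p * a' := hinj (h1.symm.trans h5)
  apply hderP
  rw [h6]
  refine Ideal.add_mem _ (Ideal.mul_mem_left _ _ hbP) (Ideal.mul_mem_right _ _ ?_)
  rw [hPp]
  exact Ideal.subset_span rfl

/-- **(III)** Exact drop of the order by one at an unramified principal horizontal prime: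
`D (p ^ (e+1) ε) = p ^ e η` with `η ∉ P` when `ε ∉ P` and `D p = b ∉ P`. -/
theorem dr95_order_drop [CharZero R]
    (D : F → F)
    (hmul : ∀ a b, D (a * b) = a * D b + b * D a)
    (hDA : ∀ f : A, ∃ b : A, D (algebraMap A F f) = algebraMap A F b)
    (P : Ideal A) [hP : P.IsPrime] (p : A) (hpP : p ∈ P)
    (hPR : ∀ r : R, algebraMap R A r ∈ P → r = 0)
    (b : A) (hb : D (algebraMap A F p) = algebraMap A F b) (hbP : b ∉ P)
    (e : ℕ) (ε : A) (hε : ε ∉ P) :
    ∃ η : A, η ∉ P ∧ D (algebraMap A F (p ^ (e + 1) * ε)) = algebraMap A F (p ^ e * η) := by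
  obtain ⟨ε', hε'⟩ := hDA ε
  refine ⟨((e + 1 : ℕ) : A) * b * ε + p * ε', ?_, ?_⟩
  · intro h
    have h1 : ((e + 1 : ℕ) : A) * b * ε ∈ P := by
      have h2 : ((e + 1 : ℕ) : A) * b * ε = (((e + 1 : ℕ) : A) * b * ε + p * ε') - p * ε' := by
        ring
      rw [h2]
      exact Ideal.sub_mem _ h (Ideal.mul_mem_right _ _ hpP)
    rcases hP.mem_or_mem h1 with h3 | h3
    · rcases hP.mem_or_mem h3 with h4 | h4
      · have h5 : ((e + 1 : ℕ) : A) = algebraMap R A ((e + 1 : ℕ) : R) := by
          rw [map_natCast]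
        rw [h5] at h4
        have h6 := hPR _ h4
        exact absurd h6 (Nat.cast_ne_zero.mpr (Nat.succ_ne_zero e))
      · exact hbP h4
    · exact hε h3
  · rw [map_mul, hmul, map_pow, dr95_pow D hmul, hb, hε']
    simp only [map_mul, map_pow, map_add, map_natCast]
    ring

/-- The identity behind `(D J)^6 / J^4` being a unit at a prime where `J = p^3 ε`. -/
theorem dr95_six_three (p ε η J a : A) (hJ : J = p ^ 3 * ε) (ha : a = p ^ 2 * η) :
    a ^ 6 * ε ^ 4 = J ^ 4 * η ^ 6 := by
  rw [hJ, ha]; ring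

/-- The identity behind `(D J)^6 / (J - c)^3` being a unit at a prime where `J - c = p^2 ε`. -/
theorem dr95_six_two (p ε η Jc a : A) (hJ : Jc = p ^ 2 * ε) (ha : a = p ^ 1 * η) :
    a ^ 6 * ε ^ 3 = Jc ^ 3 * η ^ 6 := by
  rw [hJ, ha]; ring

end dr95b

section dr95c

variable {A : Type*} [CommRing A] [IsLocalRing A]

/-- The decomposition hypothesis of `dr95_deriv_mem` from `𝔪 = (x, π)` and a finite residue
field of characteristic `q`. -/
theorem dr95_dec (x π : A) (hm : maximalIdeal A = Ideal.span {x, π}) (q : ℕ) [hq : Fact q.Prime]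
    [CharP (ResidueField A) q] [Finite (ResidueField A)] :
    ∀ f : A, ∃ g f1 h : A, f = g ^ q + x * f1 + π * h := by
  intro f
  have hsurj : Function.Surjective (frobenius (ResidueField A) q) :=
    Finite.injective_iff_surjective.mp (frobenius_inj (ResidueField A) q)
  obtain ⟨r, hr⟩ := hsurj (residue A f)
  obtain ⟨g, rfl⟩ := residue_surjective r
  have h1 : f - g ^ q ∈ maximalIdeal A := by
    rw [← residue_eq_zero_iff, map_sub, map_pow, ← hr, frobenius_def, sub_self]
  rw [hm, Ideal.mem_span_pair] at h1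
  obtain ⟨a, b, hab⟩ := h1
  exact ⟨g, a, b, by linear_combination -hab⟩

end dr95c

section dr95d

variable {K L : Type*} [Field K] [Field L] [Algebra K L]

open Polynomial IntermediateField

/-- The elements of `E` whose derivative is an `E`-multiple of `D J`. -/
def dr95_S (D : Derivation K L L) (E : IntermediateField K L) (J : L) : IntermediateField K L where
  carrier := {f | f ∈ E ∧ ∃ d ∈ E, D f = d * D J}
  mul_mem' := by
    rintro f g ⟨hf, df, hdf, hDf⟩ ⟨hg, dg, hdg, hDg⟩
    refine ⟨E.mul_mem hf hg, f * dg + g * df,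
      E.add_mem (E.mul_mem hf hdg) (E.mul_mem hg hdf), ?_⟩
    rw [Derivation.leibniz, hDf, hDg, smul_eq_mul, smul_eq_mul]
    ring
  one_mem' := ⟨E.one_mem, 0, E.zero_mem, by simp⟩
  add_mem' := by
    rintro f g ⟨hf, df, hdf, hDf⟩ ⟨hg, dg, hdg, hDg⟩
    exact ⟨E.add_mem hf hg, df + dg, E.add_mem hdf hdg, by rw [map_add, hDf, hDg]; ring⟩
  zero_mem' := ⟨E.zero_mem, 0, E.zero_mem, by simp⟩
  algebraMap_mem' := fun c => ⟨E.algebraMap_mem c, 0, E.zero_mem, by simp⟩
  inv_mem' := by
    rintro f ⟨hf, df, hdf, hDf⟩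
    refine ⟨E.inv_mem hf, -(f⁻¹ * f⁻¹ * df),
      E.neg_mem (E.mul_mem (E.mul_mem (E.inv_mem hf) (E.inv_mem hf)) hdf), ?_⟩
    by_cases hf0 : f = 0
    · subst hf0
      simp
    · have h1 : D (f * f⁻¹) = 0 := by
        rw [mul_inv_cancel₀ hf0]; exact D.map_one_eq_zero
      rw [Derivation.leibniz, hDf, smul_eq_mul, smul_eq_mul] at h1
      have h2 : D f⁻¹ = -(f⁻¹ * (f⁻¹ * (df * D J))) := by
        have h3 : f * D f⁻¹ = -(f⁻¹ * (df * D J)) := by linear_combination h1
        calc D f⁻¹ = f⁻¹ * (f * D f⁻¹) := by field_simp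
          _ = -(f⁻¹ * (f⁻¹ * (df * D J))) := by rw [h3]; ring
      rw [h2]; ring

theorem dr95_mem_S (D : Derivation K L L) (E : IntermediateField K L) (J f : L) :
    f ∈ dr95_S D E J ↔ f ∈ E ∧ ∃ d ∈ E, D f = d * D J := Iff.rfl

/-- **(DM)** If `E` is algebraic over `K(J)` (characteristic zero), the derivative of every
element of `E` is an `E`-multiple of `D J`. -/
theorem dr95_theta_mem [CharZero K] (D : Derivation K L L) (E : IntermediateField K L) (J : L)
    (hJ : J ∈ E) (halg : ∀ f ∈ E, IsAlgebraic ↥K⟮J⟯ f) :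
    ∀ f ∈ E, ∃ d ∈ E, D f = d * D J := by
  intro f hf
  have hJS : J ∈ dr95_S D E J := ⟨hJ, 1, E.one_mem, by rw [one_mul]⟩
  have hle : K⟮J⟯ ≤ dr95_S D E J := by
    rw [adjoin_simple_le_iff]; exact hJS
  have hleE : K⟮J⟯ ≤ E := by
    rw [adjoin_simple_le_iff]; exact hJ
  -- evaluation of polynomials over `K(J)` at `f` stays in `E`
  have hev : ∀ P : (↥K⟮J⟯)[X], aeval f P ∈ E := by
    intro P
    induction P using Polynomial.induction_on' with
    | add p r hp hr => rw [map_add]; exact E.add_mem hp hr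
    | monomial n a =>
      rw [aeval_monomial]
      exact E.mul_mem (hleE a.2) (pow_mem hf n)
  -- the chain rule
  have hchain : ∀ P : (↥K⟮J⟯)[X], ∃ d ∈ E,
      D (aeval f P) = d * D J + aeval f (derivative P) * D f := by
    intro P
    induction P using Polynomial.induction_on' with
    | add p r hp hr =>
      obtain ⟨d1, hd1, h1⟩ := hp
      obtain ⟨d2, hd2, h2⟩ := hr
      refine ⟨d1 + d2, E.add_mem hd1 hd2, ?_⟩
      rw [map_add, map_add, h1, h2, map_add, map_add]
      ring
    | monomial n a =>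
      obtain ⟨-, da, hda, hDa⟩ := hle a.2
      refine ⟨da * f ^ n, E.mul_mem hda (pow_mem hf n), ?_⟩
      rw [aeval_monomial, derivative_monomial, aeval_monomial, Derivation.leibniz,
        Derivation.leibniz_pow, smul_eq_mul, smul_eq_mul]
      have h1 : (algebraMap (↥K⟮J⟯) L) a = (a : L) := rfl
      have h2 : (algebraMap (↥K⟮J⟯) L) (a * (n : ↥K⟮J⟯)) = (a : L) * (n : L) := by
        rw [map_mul, map_natCast]; rfl
      rw [h1, h2, hDa]
      simp only [nsmul_eq_mul, smul_eq_mul]
      ring
  have hQ := halg f hf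
  have hint : IsIntegral ↥K⟮J⟯ f := hQ.isIntegral
  have hsep : (minpoly ↥K⟮J⟯ f).Separable := (minpoly.irreducible hint).separable
  have hne : aeval f (derivative (minpoly ↥K⟮J⟯ f)) ≠ 0 :=
    hsep.aeval_derivative_ne_zero (minpoly.aeval _ f)
  obtain ⟨d, hd, hD⟩ := hchain (minpoly ↥K⟮J⟯ f)
  rw [minpoly.aeval, map_zero] at hD
  refine ⟨-(d / aeval f (derivative (minpoly ↥K⟮J⟯ f))),
    E.neg_mem (E.div_mem hd (hev _)), ?_⟩
  field_simp
  linear_combination -hD

end dr95d

end Fermat.Agent.S36
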