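/-
S36 lab, row 599 (C-REGq, the crux), helper49: the ramification of `j` at the elliptic values
`0` and `1728` on the special fibre, read off from the level-2 / level-3 Hauptmodul relations
that are on main (`j h₂² = (h₂ + 256)³`, `j h₃³ = (h₃ + 27)(h₃ + 243)³`), WITHOUT derivations and
WITHOUT rigidity input.

`O` is a local ring (in the application the discrete valuation ring `B_n / p_∞` of the branch
`C_∞` at a node, i.e. the local ring of the level-`M''` fibre at the image point).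

* `ed49_level3_char_two` : `(2 : O) = 0`, `j h³ = (h + 27)(h + 243)³` ⟹ `j = w c⁴`, `w` a unit
  (so `4 ∣ v(j̄)` in characteristic `2` as soon as `3 ∣ M''`);
* `ed49_level2_cube` : `2` a unit, `j h² = (h + 256)³` ⟹ `j = w c³`, `w` a unit
  (so `3 ∣ v(j̄)` in odd residue characteristic as soon as `2 ∣ M''`);
* `ed49_level3_square` : `3` a unit, `j h³ = (h + 27)(h + 243)³` ⟹ `j - 1728 = w c²`, `w` a unit
  (so `2 ∣ v(j̄ - 1728)` in residue characteristic `≠ 3` as soon as `3 ∣ M''`);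
* `ed49_addVal_pow` : in a DVR, `x = w c ^ k` with `w` a unit gives `addVal x = k • addVal c`;
* `ed49_kappa_two` : the last step for `q = 2`: `κ * v(j̄) = 12`, `j̄ = w c⁴ = w' d³` ⟹ `κ = 1`.
Mathlib only.
-/
import Mathlib

set_option autoImplicit false

namespace Fermat.Agent.S36

section Local

variable {O : Type*} [CommRing O] [IsLocalRing O]

omit [IsLocalRing O] in
/-- If `a * h ^ k = b` and `b` is a unit whenever `h` is not, then `h` is a unit. -/
theorem ed49_unit_of_rel {h a b : O} {k : ℕ} (hk : k ≠ 0) (hrel : a * h ^ k = b)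
    (hb : ¬ IsUnit h → IsUnit b) : IsUnit h := by
  by_contra hn
  have hbu := hb hn
  rw [← hrel] at hbu
  exact hn ((isUnit_pow_iff hk).mp (isUnit_of_mul_isUnit_right hbu))

/-- **Level 3, characteristic 2**: `j h³ = (h + 27)(h + 243)³` and `2 = 0` give `j = w c⁴`. -/
theorem ed49_level3_char_two (h2 : (2 : O) = 0) (j h : O)
    (hrel : j * h ^ 3 = (h + 27) * (h + 243) ^ 3) :
    ∃ w c : O, IsUnit w ∧ j = w * c ^ 4 := by
  have e27 : (27 : O) = 1 := by
    have : (27 : O) = 2 * 13 + 1 := by norm_num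
    rw [this, h2, zero_mul, zero_add]
  have e243 : (243 : O) = 1 := by
    have : (243 : O) = 2 * 121 + 1 := by norm_num
    rw [this, h2, zero_mul, zero_add]
  have hrel' : j * h ^ 3 = (h + 1) ^ 4 := by
    rw [hrel, e27, e243]; ring
  have hu : IsUnit h := by
    refine ed49_unit_of_rel (k := 3) (by norm_num) hrel' ?_
    intro hn
    have h1 : IsUnit (h + 1) := by
      have := IsLocalRing.isUnit_or_isUnit_of_add_one (a := -h) (b := h + 1) (by ring)
      rcases this with h' | h'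
      · exact absurd (by simpa using h'.neg) hn
      · exact h'
    exact h1.pow 4
  obtain ⟨u, rfl⟩ := hu
  refine ⟨((u⁻¹ ^ 3 : Oˣ) : O), (u : O) + 1, Units.isUnit _, ?_⟩
  have : j = ((u⁻¹ ^ 3 : Oˣ) : O) * (j * (u : O) ^ 3) := by
    rw [mul_comm j, ← mul_assoc, ← Units.val_pow_eq_pow_val, ← Units.val_mul, ← mul_pow,
      inv_mul_cancel, one_pow, Units.val_one, one_mul]
  calc j = ((u⁻¹ ^ 3 : Oˣ) : O) * (j * (u : O) ^ 3) := this
    _ = ((u⁻¹ ^ 3 : Oˣ) : O) * ((u : O) + 1) ^ 4 := by rw [hrel']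

/-- **Level 2, residue characteristic odd**: `j h² = (h + 256)³` with `2` a unit gives
`j = w c³`. -/
theorem ed49_level2_cube (h2 : IsUnit (2 : O)) (j h : O)
    (hrel : j * h ^ 2 = (h + 256) ^ 3) :
    ∃ w c : O, IsUnit w ∧ j = w * c ^ 3 := by
  have h256 : IsUnit (256 : O) := by
    have : (256 : O) = 2 ^ 8 := by norm_num
    rw [this]; exact h2.pow 8
  have hu : IsUnit h := by
    refine ed49_unit_of_rel (k := 2) (by norm_num) hrel ?_
    intro hn
    have h1 : IsUnit (h + 256) := by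
      by_contra hc
      have hm1 : h ∈ IsLocalRing.maximalIdeal O := (IsLocalRing.mem_maximalIdeal _).mpr hn
      have hm2 : h + 256 ∈ IsLocalRing.maximalIdeal O := (IsLocalRing.mem_maximalIdeal _).mpr hc
      have : (256 : O) ∈ IsLocalRing.maximalIdeal O := by
        have := Ideal.sub_mem _ hm2 hm1
        simpa using this
      exact (IsLocalRing.mem_maximalIdeal _).mp this h256
    exact h1.pow 3
  obtain ⟨u, rfl⟩ := hu
  refine ⟨((u⁻¹ ^ 2 : Oˣ) : O), (u : O) + 256, Units.isUnit _, ?_⟩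
  rw [← hrel, mul_comm j, ← mul_assoc, ← Units.val_pow_eq_pow_val, ← Units.val_mul, ← mul_pow,
    inv_mul_cancel, one_pow, Units.val_one, one_mul]

/-- **Level 3, residue characteristic `≠ 3`**: `j h³ = (h + 27)(h + 243)³` with `3` a unit gives
`j - 1728 = w c²`. -/
theorem ed49_level3_square (h3 : IsUnit (3 : O)) (j h : O)
    (hrel : j * h ^ 3 = (h + 27) * (h + 243) ^ 3) :
    ∃ w c : O, IsUnit w ∧ j - 1728 = w * c ^ 2 := by
  have hc : IsUnit ((27 : O) * 243 ^ 3) := by
    have : (27 : O) * 243 ^ 3 = 3 ^ 18 := by norm_num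
    rw [this]; exact h3.pow 18
  have hu : IsUnit h := by
    refine ed49_unit_of_rel (k := 3) (by norm_num) hrel ?_
    intro hn
    by_contra hcon
    have hm1 : h ∈ IsLocalRing.maximalIdeal O := (IsLocalRing.mem_maximalIdeal _).mpr hn
    have hm2 : (h + 27) * (h + 243) ^ 3 ∈ IsLocalRing.maximalIdeal O :=
      (IsLocalRing.mem_maximalIdeal _).mpr hcon
    have : (27 : O) * 243 ^ 3 ∈ IsLocalRing.maximalIdeal O := by
      have e : (27 : O) * 243 ^ 3 = (h + 27) * (h + 243) ^ 3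
          - h * ((h + 243) ^ 3 + 27 * (h ^ 2 + 3 * 243 * h + 3 * 243 ^ 2)) := by ring
      rw [e]
      exact Ideal.sub_mem _ hm2 (Ideal.mul_mem_right _ _ hm1)
    exact (IsLocalRing.mem_maximalIdeal _).mp this hc
  obtain ⟨u, rfl⟩ := hu
  refine ⟨((u⁻¹ ^ 3 : Oˣ) : O), (u : O) ^ 2 - 486 * (u : O) - 19683, Units.isUnit _, ?_⟩
  have key : (j - 1728) * (u : O) ^ 3 = ((u : O) ^ 2 - 486 * (u : O) - 19683) ^ 2 := by
    have : (j - 1728) * (u : O) ^ 3 = j * (u : O) ^ 3 - 1728 * (u : O) ^ 3 := by ring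
    rw [this, hrel]; ring
  rw [← key, mul_comm (j - 1728), ← mul_assoc, ← Units.val_pow_eq_pow_val, ← Units.val_mul,
    ← mul_pow, inv_mul_cancel, one_pow, Units.val_one, one_mul]

end Local

section DVR

open IsDiscreteValuationRing

variable {O : Type*} [CommRing O] [IsDomain O] [IsDiscreteValuationRing O]

/-- In a DVR, `x = w c ^ k` with `w` a unit gives `addVal x = k • addVal c`. -/
theorem ed49_addVal_pow {x w c : O} {k : ℕ} (hw : IsUnit w) (hx : x = w * c ^ k) :
    addVal O x = k • addVal O c := by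
  obtain ⟨u, rfl⟩ := hw
  rw [hx, AddValuation.map_mul, addVal_eq_zero_of_unit, zero_add, AddValuation.map_pow]

/-- **The last step for `q = 2`**: if `κ * v(j̄) = 12` and `j̄` is both a unit times a fourth
power and a unit times a cube, then `κ = 1` (and `v(j̄) = 12`). -/
theorem ed49_kappa_two (κ : ℕ) (j : O) (hκ : κ • addVal O j = (12 : ℕ∞))
    (h4 : ∃ w c : O, IsUnit w ∧ j = w * c ^ 4) (h3 : ∃ w c : O, IsUnit w ∧ j = w * c ^ 3) :
    κ = 1 ∧ addVal O j = (12 : ℕ∞) := by
  obtain ⟨w, c, hw, hc⟩ := h4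
  obtain ⟨w', d, hw', hd⟩ := h3
  have e4 := ed49_addVal_pow hw hc
  have e3 := ed49_addVal_pow hw' hd
  have hjtop : addVal O j ≠ ⊤ := by
    intro h
    rw [h] at hκ
    rcases Nat.eq_zero_or_pos κ with h0 | h0
    · rw [h0, zero_smul] at hκ; exact absurd hκ (by decide)
    · have : κ • (⊤ : ℕ∞) = ⊤ := by
        rw [nsmul_eq_mul]; exact ENat.mul_top (by exact_mod_cast h0.ne')
      rw [this] at hκ; exact absurd hκ (by decide)
  have hctop : addVal O c ≠ ⊤ := by
    intro h
    apply hjtop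
    rw [e4, h, nsmul_eq_mul]; exact ENat.mul_top (by norm_num)
  have hdtop : addVal O d ≠ ⊤ := by
    intro h
    apply hjtop
    rw [e3, h, nsmul_eq_mul]; exact ENat.mul_top (by norm_num)
  obtain ⟨a, ha⟩ : ∃ a : ℕ, addVal O c = (a : ℕ∞) := ⟨_, (ENat.natCast_toNat hctop).symm⟩
  obtain ⟨b, hb⟩ : ∃ b : ℕ, addVal O d = (b : ℕ∞) := ⟨_, (ENat.natCast_toNat hdtop).symm⟩
  have hj4 : addVal O j = ((4 * a : ℕ) : ℕ∞) := by rw [e4, ha]; push_cast; simp [nsmul_eq_mul]
  have hj3 : addVal O j = ((3 * b : ℕ) : ℕ∞) := by rw [e3, hb]; push_cast; simp [nsmul_eq_mul]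
  have h43 : 4 * a = 3 * b := by
    have := hj4.symm.trans hj3
    exact_mod_cast this
  have hκa : κ * (4 * a) = 12 := by
    rw [hj4] at hκ
    have : ((κ * (4 * a) : ℕ) : ℕ∞) = ((12 : ℕ) : ℕ∞) := by
      push_cast
      simpa [nsmul_eq_mul] using hκ
    exact_mod_cast this
  -- `3 ∣ a`, so `a = 3 a'` and `κ * a' = 1`
  have h3a : 3 ∣ a := by
    have : 3 ∣ 4 * a := ⟨b, h43⟩
    exact (Nat.Coprime.dvd_mul_left (by decide : Nat.Coprime 3 4)).mp this
  obtain ⟨a', rfl⟩ := h3a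
  have hκa' : κ * a' = 1 := by nlinarith [hκa]
  have hκ1 : κ = 1 := Nat.eq_one_of_mul_eq_one_right hκa'
  have ha1 : a' = 1 := Nat.eq_one_of_mul_eq_one_left hκa'
  refine ⟨hκ1, ?_⟩
  rw [hj4, ha1]; norm_num

end DVR

end Fermat.Agent.S36
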