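import Fermat.Agent.S36.FrameW47
import Fermat.Agent.S36.GateCofinal67

/-!
# S36 lab (helper47): P-CORE36 at the STRONGLY rigid levels from the rest on the canonical frame

`s36f47_pkg_core6` : `s36f47_Rest` (FrameW47: the function `u` and its root datum on the canonical
frame `s36f47_V`, `s36f47_h`) at every level `M' * q` with `s36c67_Rigid6 (M' * q) q r`
(`2 ∣ N` if `q ≠ 2`, `3 ∣ N` if `q ≠ 3`, `r ≡ 11 mod 12` prime, `r ∣ N`) gives
`s36c67_Pkg_Core6` (helper67, `GateCofinal67`), the package consumed by `s36c67_result_of_core6`.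

`s36f47_rigid6_dvd` : at a strongly rigid level `2 ∣ M'` or `3 ∣ M'`; `s36f47_rigid6_six` : for
`q ≥ 5` both `2 ∣ M'` and `3 ∣ M'`.
-/

set_option autoImplicit false
set_option linter.unusedVariables false
set_option linter.style.longLine false
set_option linter.style.haveILetI false

namespace Fermat.Agent.S36

/-- a prime `ℓ ≠ q` dividing `M' * q` divides `M'`. -/
theorem s36f47_dvd_of_dvd_mul {M' q ℓ : ℕ} (hq : q.Prime) (hℓ : ℓ.Prime) (hℓq : ℓ ≠ q)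
    (h : ℓ ∣ M' * q) : ℓ ∣ M' := by
  rcases (Nat.Prime.dvd_mul hℓ).mp h with h1 | h1
  · exact h1
  · exact absurd ((Nat.prime_dvd_prime_iff_eq hℓ hq).mp h1) hℓq

/-- At a strongly rigid level `M' * q`: `2 ∣ M'` or `3 ∣ M'`. -/
theorem s36f47_rigid6_dvd {M' q r : ℕ} (hq : q.Prime) (hrig : s36c67_Rigid6 (M' * q) q r) :
    2 ∣ M' ∨ 3 ∣ M' := by
  obtain ⟨h2, h3, -⟩ := hrig
  by_cases hq2 : q = 2
  · exact Or.inr (s36f47_dvd_of_dvd_mul hq Nat.prime_three (by omega) (h3 (by omega)))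
  · exact Or.inl (s36f47_dvd_of_dvd_mul hq Nat.prime_two (fun e => hq2 e.symm) (h2 hq2))

/-- At a strongly rigid level `M' * q` with `q ≠ 2, 3`: `2 ∣ M'` and `3 ∣ M'`. -/
theorem s36f47_rigid6_six {M' q r : ℕ} (hq : q.Prime) (hq2 : q ≠ 2) (hq3 : q ≠ 3)
    (hrig : s36c67_Rigid6 (M' * q) q r) : 2 ∣ M' ∧ 3 ∣ M' := by
  obtain ⟨h2, h3, -⟩ := hrig
  exact ⟨s36f47_dvd_of_dvd_mul hq Nat.prime_two (fun e => hq2 e.symm) (h2 hq2),
    s36f47_dvd_of_dvd_mul hq Nat.prime_three (fun e => hq3 e.symm) (h3 hq3)⟩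

/-- At a strongly rigid level `M' * q`: the auxiliary prime `r` divides `M'`. -/
theorem s36f47_rigid6_r {M' q r : ℕ} (hq : q.Prime) (hrig : s36c67_Rigid6 (M' * q) q r) :
    r.Prime ∧ r % 12 = 11 ∧ r ∣ M' := by
  obtain ⟨-, -, hr, hr12, hrq, hrN⟩ := hrig
  exact ⟨hr, hr12, s36f47_dvd_of_dvd_mul hq hr hrq hrN⟩

/-- **P-CORE36 at the strongly rigid levels (`s36c67_Pkg_Core6`) from the rest on the canonical
frame.** -/
theorem s36f47_pkg_core6
    (H : ∀ (M' q p r : ℕ) [NeZero M'] [NeZero q] (hq : q.Prime) (hM' : ¬ q ∣ M')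
      (h23 : 2 ∣ M' ∨ 3 ∣ M'), s36c67_Rigid6 (M' * q) q r → p.Prime → p ≠ q →
      ∃ c : ℕ, c ≠ 0 ∧ ∀ n : ℕ, s36f47_Rest M' q (p ^ n) c hq hM' h23) :
    s36c67_Pkg_Core6 := by
  intro N q p r _ _ hq hqN hq2 hrig hp hpq
  obtain ⟨M', rfl, hM'0, hM'⟩ := s36f47_level N q hqN hq2
  haveI : NeZero M' := ⟨hM'0⟩
  have h23 : 2 ∣ M' ∨ 3 ∣ M' := s36f47_rigid6_dvd hq hrig
  obtain ⟨c, hc, hR⟩ := H M' q p r hq hM' h23 hrig hp hpq
  exact ⟨c, hc, fun n => ci57_core_of_datum (M' * q) q (p ^ n) c (pow_pos hp.pos n)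
    (Nat.Coprime.pow_left n ((Nat.coprime_primes hp hq).mpr hpq))
    (s36f47_datum_of_rest M' q (p ^ n) c hq hM' h23 (hR n))⟩

end Fermat.Agent.S36
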