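import Fermat.Agent.S36.V2Gauss64
import Fermat.Agent.S36.CycDVR46

/-!
# S36 lab, row B1-V2 (helper46): the third valuation `V₂` exists unconditionally

Composition of `cyc46_exists` (the cyclotomic discrete valuation datum over a discrete valuation
ring `R` whose uniformizer `π` is associated to the prime `q`; `CycDVR46`) with helper64's
`v2g64_exists_of_datum` (`V2Gauss64`): for `q` prime, `q ∤ N`, there is a valuation subring `V₂`
of `F(N q²)_K` with LITERALLY the four facts consumed by `ob72_ram` (helper72, `M := N * q`,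
`s := v2g64_s K N q`).

All names are prefixed `v2e46_`.
-/

set_option autoImplicit false

open ModularCurve IntermediateField

namespace Fermat.Agent.S36

open Fermat.Agent.S18 Fermat.Agent.S24 Fermat.Agent.S28 Fermat.Agent.S37 Fermat.Agent.S34
open Fermat.Agent.S35

/-- The cyclotomic datum of `cyc46_exists` in helper64's packaged form `v2g64_Datum`. -/
theorem v2e46_datum {R K : Type} [CommRing R] [IsDomain R] [IsDiscreteValuationRing R] [Field K]
    [CharZero K] [Algebra R K] [IsFractionRing R K] (q : ℕ) (hq : q.Prime) {π : R}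
    (hπ : Irreducible π) (hqπ : Associated ((q : ℕ) : R) π) :
    ∃ (K' : Type) (_ : Field K') (_ : Algebra K K') (A' : ValuationSubring K') (ϖ : A')
      (ρ : R →+* A') (ζ : A'ˣ), v2g64_Datum K A' q π ϖ ρ ζ :=
  cyc46_exists q hq hπ hqπ

/-- **B1-V2, unconditional.**  `R` a discrete valuation ring with fraction field `K` of
characteristic zero, `π` a uniformizer associated to the prime `q`, `q ∤ N`: there is a valuation
subring `V₂` of `F(N q²)_K` over `α₂ V_∞'`, not containing `π⁻¹`, different from `V₁`, in which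
`s = j(Q^(q²)) - j(Q)` satisfies `v₂(s)^(q-1) = v₂(π)`. -/
theorem v2e46_exists {R K : Type} [CommRing R] [IsDomain R] [IsDiscreteValuationRing R] [Field K]
    [CharZero K] [Algebra R K] [IsFractionRing R K] (φ : K →+* Kbar) (N q : ℕ) [NeZero N]
    [NeZero q] (hq : q.Prime) (hN : ¬ q ∣ N) {π : R} (hπ : Irreducible π)
    (hqπ : Associated ((q : ℕ) : R) π) :
    ∃ V₂ : ValuationSubring ↥(modularFunctionFieldFullC K (N * q * q)),
      (∀ c ∈ cm85_Vinf (K := K) (N * q) hπ, al97L_alpha K (N * q) q c ∈ V₂) ∧
      (algebraMap K ↥(modularFunctionFieldFullC K (N * q * q)) (algebraMap R K π))⁻¹ ∉ V₂ ∧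
      cm85_Vinf (K := K) (N * q * q) hπ ≠ V₂ ∧
      V₂.valuation (v2g64_s K N q) ^ (q - 1) =
        V₂.valuation (algebraMap K ↥(modularFunctionFieldFullC K (N * q * q))
          (algebraMap R K π)) := by
  obtain ⟨K', _, _, A', ϖ, ρ, ζ, hD⟩ := v2e46_datum (K := K) q hq hπ hqπ
  exact v2g64_exists_of_datum A' φ N q hq hN hπ ϖ ρ ζ hD

end Fermat.Agent.S36
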