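import Fermat.Agent.S36.FrameDatum85
import Fermat.Agent.S36.V2Exists46

/-!
# S36 lab (helper85), (HF): the frame of level `M' q q` EXISTS, hypothesis-free

Unramified base (`π` associated to `q`), `q ∤ M'`, `p₀ ∣ M'` (`p₀ ∈ {2, 3}`), `M'` a unit of `R`:

`fe85_exists_level2/3` : there is a valuation subring `V₂` of `F(M' q q)_K` with the four facts of
`v2e46_exists` (over `α₂ V_∞`, `π⁻¹ ∉ V₂`, `V₁ ≠ V₂`, `v₂(s)^(q-1) = v₂(π)`) such that the
canonical family `fd85_V M' q hq hM' hπ V₂ = ![cm85_Vinf (M' q q), V₂, nsb86_V3 M' q]` satisfies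
the five frame conjuncts of `ci57_Datum` (`s34i47_WProps`, `s34i47_ChartProps`, `π⁻¹ ∉ V i`,
`hrad`, `harch`).  (`v2e46_exists` ∘ `fd85_frame_level2/3`.)  All names are prefixed `fe85_`.
-/

set_option autoImplicit false
set_option linter.unusedSectionVars false
set_option linter.style.haveILetI false

open ModularCurve IntermediateField Polynomial

namespace Fermat.Agent.S36

open Fermat.Agent.S18 Fermat.Agent.S24 Fermat.Agent.S37 Fermat.Agent.S34

local notation "Q̄" => AlgebraicClosure ℚ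

section fe85

variable {R K : Type} [CommRing R] [IsDomain R] [IsDiscreteValuationRing R] [Field K] [CharZero K]
  [Algebra R K] [IsFractionRing R K] [Algebra K Q̄] (M' q : ℕ) [NeZero M'] [NeZero q]

/-- **(HF), existence**, Hauptmodul of level 2. -/
theorem fe85_exists_level2 [Algebra.IsAlgebraic K Q̄]
    [Algebra R ↥(modularFunctionFieldFullC K (M' * q * q))]
    [IsScalarTower R K ↥(modularFunctionFieldFullC K (M' * q * q))]
    (hq : q.Prime) (hM' : ¬ q ∣ M') {π : R} (hπ : Irreducible π)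
    (hqπ : Associated ((q : ℕ) : R) π) (hMu : IsUnit (M' : R)) (h2 : 2 ∣ M') :
    ∃ V₂ : ValuationSubring ↥(modularFunctionFieldFullC K (M' * q * q)),
      ((∀ c ∈ cm85_Vinf (K := K) (M' * q) hπ, al97L_alpha K (M' * q) q c ∈ V₂) ∧
        (algebraMap K ↥(modularFunctionFieldFullC K (M' * q * q)) (algebraMap R K π))⁻¹ ∉ V₂ ∧
        cm85_Vinf (K := K) (M' * q * q) hπ ≠ V₂ ∧
        V₂.valuation (v2g64_s K M' q) ^ (q - 1) =
          V₂.valuation (algebraMap K ↥(modularFunctionFieldFullC K (M' * q * q)) (algebraMap R K π))) ∧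
      (s34i47_WProps π ((fd85_V (K := K) M' q hq hM' hπ V₂ 0).toSubring ⊓ (fd85_V (K := K) M' q hq hM' hπ V₂ 1).toSubring ⊓
          (fd85_V (K := K) M' q hq hM' hπ V₂ 2).toSubring) ∧
        s34i47_ChartProps K π ((fd85_V (K := K) M' q hq hM' hπ V₂ 0).toSubring ⊓ (fd85_V (K := K) M' q hq hM' hπ V₂ 1).toSubring ⊓
          (fd85_V (K := K) M' q hq hM' hπ V₂ 2).toSubring)
          (pk85_h2 K (M' * q * q)
            (h2.trans ((dvd_mul_right M' q).trans (dvd_mul_right (M' * q) q)))) ∧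
        (∀ i, (algebraMap R ↥(modularFunctionFieldFullC K (M' * q * q)) π)⁻¹ ∉ fd85_V (K := K) M' q hq hM' hπ V₂ i) ∧
        (∀ i, ∀ x ∈ fd85_V (K := K) M' q hq hM' hπ V₂ i, x⁻¹ ∉ fd85_V (K := K) M' q hq hM' hπ V₂ i → ∃ k : ℕ,
          (algebraMap R ↥(modularFunctionFieldFullC K (M' * q * q)) π)⁻¹ * x ^ k ∈ fd85_V (K := K) M' q hq hM' hπ V₂ i) ∧
        (∀ i, ∀ x : ↥(modularFunctionFieldFullC K (M' * q * q)), x ≠ 0 → ∃ k : ℕ,
          (algebraMap R ↥(modularFunctionFieldFullC K (M' * q * q)) π ^ k)⁻¹ * x ∉ fd85_V (K := K) M' q hq hM' hπ V₂ i)) := by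
  have hqR : ¬ IsUnit ((q : ℕ) : R) := fun h => hπ.not_isUnit (hqπ.isUnit_iff.mp h)
  obtain ⟨V₂, hV₂, hπ₂, hne, hs⟩ := v2e46_exists (K := K) (algebraMap K Q̄) M' q hq hM' hπ hqπ
  exact ⟨V₂, ⟨hV₂, hπ₂, hne, hs⟩,
    fd85_frame_level2 M' q hq hM' hπ hqR hMu h2 V₂ hV₂ hπ₂ hs⟩

/-- **(HF), existence**, Hauptmodul of level 3. -/
theorem fe85_exists_level3 [Algebra.IsAlgebraic K Q̄]
    [Algebra R ↥(modularFunctionFieldFullC K (M' * q * q))]
    [IsScalarTower R K ↥(modularFunctionFieldFullC K (M' * q * q))]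
    (hq : q.Prime) (hM' : ¬ q ∣ M') {π : R} (hπ : Irreducible π)
    (hqπ : Associated ((q : ℕ) : R) π) (hMu : IsUnit (M' : R)) (h3 : 3 ∣ M') :
    ∃ V₂ : ValuationSubring ↥(modularFunctionFieldFullC K (M' * q * q)),
      ((∀ c ∈ cm85_Vinf (K := K) (M' * q) hπ, al97L_alpha K (M' * q) q c ∈ V₂) ∧
        (algebraMap K ↥(modularFunctionFieldFullC K (M' * q * q)) (algebraMap R K π))⁻¹ ∉ V₂ ∧
        cm85_Vinf (K := K) (M' * q * q) hπ ≠ V₂ ∧
        V₂.valuation (v2g64_s K M' q) ^ (q - 1) =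
          V₂.valuation (algebraMap K ↥(modularFunctionFieldFullC K (M' * q * q)) (algebraMap R K π))) ∧
      (s34i47_WProps π ((fd85_V (K := K) M' q hq hM' hπ V₂ 0).toSubring ⊓ (fd85_V (K := K) M' q hq hM' hπ V₂ 1).toSubring ⊓
          (fd85_V (K := K) M' q hq hM' hπ V₂ 2).toSubring) ∧
        s34i47_ChartProps K π ((fd85_V (K := K) M' q hq hM' hπ V₂ 0).toSubring ⊓ (fd85_V (K := K) M' q hq hM' hπ V₂ 1).toSubring ⊓
          (fd85_V (K := K) M' q hq hM' hπ V₂ 2).toSubring)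
          (pk85_h3 K (M' * q * q)
            (h3.trans ((dvd_mul_right M' q).trans (dvd_mul_right (M' * q) q)))) ∧
        (∀ i, (algebraMap R ↥(modularFunctionFieldFullC K (M' * q * q)) π)⁻¹ ∉ fd85_V (K := K) M' q hq hM' hπ V₂ i) ∧
        (∀ i, ∀ x ∈ fd85_V (K := K) M' q hq hM' hπ V₂ i, x⁻¹ ∉ fd85_V (K := K) M' q hq hM' hπ V₂ i → ∃ k : ℕ,
          (algebraMap R ↥(modularFunctionFieldFullC K (M' * q * q)) π)⁻¹ * x ^ k ∈ fd85_V (K := K) M' q hq hM' hπ V₂ i) ∧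
        (∀ i, ∀ x : ↥(modularFunctionFieldFullC K (M' * q * q)), x ≠ 0 → ∃ k : ℕ,
          (algebraMap R ↥(modularFunctionFieldFullC K (M' * q * q)) π ^ k)⁻¹ * x ∉ fd85_V (K := K) M' q hq hM' hπ V₂ i)) := by
  have hqR : ¬ IsUnit ((q : ℕ) : R) := fun h => hπ.not_isUnit (hqπ.isUnit_iff.mp h)
  obtain ⟨V₂, hV₂, hπ₂, hne, hs⟩ := v2e46_exists (K := K) (algebraMap K Q̄) M' q hq hM' hπ hqπ
  exact ⟨V₂, ⟨hV₂, hπ₂, hne, hs⟩,
    fd85_frame_level3 M' q hq hM' hπ hqR hMu h3 V₂ hV₂ hπ₂ hs⟩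

end fe85

end Fermat.Agent.S36
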