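import Fermat.Agent.S36.FrameCore6_47
import Fermat.Agent.S36.CoreSix62

/-!
# S36 lab (helper47, co-architect): THE FINAL BINDER on the canonical frame

`s36i62c_HX` (helper62, `CoreSix62`: the ONE open hypothesis of the frozen S36) asks, at every
strongly rigid level and for every unramified base, for a frame `(h, V₁, V₂, V₃, V_∞', V_0')`
with (HF), (HB), (HP) of helper57's `CoreIface57`.  Here the frame is THE canonical one of
`FrameW47`:

`h = s36f47_h K M' q h23`, `V₁ = cm85_Vinf (M' q q) hπ`, `V₂ = s36f47_V2 M' q hπ`,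
`V₃ = nsb86_V3 M' q hq hM' hπ`, `V_∞' = cm85_Vinf (M' q) hπ`, `V_0' = s34i47c_V0 M' q hq hM' hπ`,

(HF) is `s36f47_frame`, and the final substitution `N = M' * q` and the existential are done:

* `s36f47_HX_of`       : (HB) + (HP) for the canonical objects ⟹ `s36i62c_HX`;
* `s36f47_HX_of_param` : the same with `V₂` ANY valuation subring with the four facts
  `s36f47_IsV2` (a parameter of the binders);
* `s36f47_V2_transfer` : a property of SOME `V₂` with the four facts holds for the canonical one.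
-/

set_option autoImplicit false
set_option linter.unusedVariables false
set_option linter.unusedSectionVars false
set_option linter.style.longLine false
set_option linter.style.haveILetI false

open ModularCurve AlgebraicCurve

namespace Fermat.Agent.S36

open Fermat.Agent.S18 Fermat.Agent.S34 Fermat.Agent.S35

local notation "Q̄" => AlgebraicClosure ℚ

/-- A property of SOME valuation subring with the four facts holds for the canonical `V₂`. -/
theorem s36f47_V2_transfer {R K : Type} [CommRing R] [IsDomain R] [IsDiscreteValuationRing R]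
    [Field K] [CharZero K] [Algebra R K] [IsFractionRing R K] [Algebra K Q̄] (M' q : ℕ)
    [NeZero M'] [NeZero q] (hq : q.Prime) (hM' : ¬ q ∣ M') {π : R} (hπ : Irreducible π)
    (hqπ : Associated ((q : ℕ) : R) π)
    (P : ValuationSubring ↥(modularFunctionFieldFullC K (M' * q * q)) → Prop)
    (h : ∃ V₂, s36f47_IsV2 M' q hπ V₂ ∧ P V₂) : P (s36f47_V2 (K := K) M' q hπ) := by
  obtain ⟨V₂, h2, hP⟩ := h
  rw [← s36f47_V2_eq M' q hq hM' hπ hqπ V₂ h2]
  exact hP

set_option maxHeartbeats 1000000 in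
/-- **THE FINAL BINDER, `V₂` a parameter**: (HB) + (HP) for the canonical `h, V₁, V₃, V_∞', V_0'`
and EVERY `V₂` with the four facts give the one open hypothesis `s36i62c_HX` of the frozen S36. -/
theorem s36f47_HX_of_param
    (H : ∀ (M' q p r : ℕ) [NeZero M'] [NeZero q] (hq : q.Prime) (hM' : ¬ q ∣ M')
      (h23 : 2 ∣ M' ∨ 3 ∣ M'), s36c67_Rigid6 (M' * q) q r → p.Prime → p ≠ q → ∀ n : ℕ,
      ∀ (R K : Type) [CommRing R] [IsDomain R] [IsDiscreteValuationRing R] [Field K]
        [NumberField K] [Algebra K Q̄] [Algebra R K] [IsFractionRing R K]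
        [Algebra R ↥(modularFunctionFieldFullC K (M' * q * q))]
        [IsScalarTower R K ↥(modularFunctionFieldFullC K (M' * q * q))]
        (hπ : Irreducible ((q : ℕ) : R)), (∀ k : ℕ, Nat.Coprime k q → IsUnit (k : R)) →
        ∀ (V₂ : ValuationSubring ↥(modularFunctionFieldFullC K (M' * q * q))),
          s36f47_IsV2 M' q hπ V₂ →
          ci57x_HB (M' * q) q (p ^ n) R K (cm85_Vinf (K := K) (M' * q * q) hπ) V₂
            (nsb86_V3 (K := K) M' q hq hM' hπ) (cm85_Vinf (K := K) (M' * q) hπ)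
            (s34i47c_V0 (K := K) M' q hq hM' hπ) ∧
          ci57x_HP (K := K) ((q : ℕ) : R) q (p ^ n) (s36f47_h K M' q h23)
            (s35i62_normA K (M' * q) q) (s35i62_normB K (M' * q) q)
            (cm85_Vinf (K := K) (M' * q * q) hπ) V₂
            (nsb86_V3 (K := K) M' q hq hM' hπ) (cm85_Vinf (K := K) (M' * q) hπ)
            (s34i47c_V0 (K := K) M' q hq hM' hπ)) :
    s36i62c_HX := by
  intro N q p r _ _ hq hqN hq2 hrig hp hpq n R K _ _ _ _ _ _ _ _ _ _ hπ hunit
  obtain ⟨M', rfl, hM'0, hM'⟩ := s36f47_level N q hqN hq2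
  haveI : NeZero M' := ⟨hM'0⟩
  have h23 : 2 ∣ M' ∨ 3 ∣ M' := s36f47_rigid6_dvd hq hrig
  haveI : Algebra.IsAlgebraic K Q̄ := fs85_isAlgebraic K
  have hMu : IsUnit ((M' : ℕ) : R) :=
    hunit M' ((Nat.Prime.coprime_iff_not_dvd hq).mpr hM').symm
  obtain ⟨hW, hC, -⟩ := s36f47_frame (K := K) M' q hq hM' hπ (Associated.refl _) hMu h23
  obtain ⟨hB, hP⟩ := H M' q p r hq hM' h23 hrig hp hpq n R K hπ hunit
    (s36f47_V2 (K := K) M' q hπ) (s36f47_V2_spec M' q hq hM' hπ (Associated.refl _))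
  exact ⟨s36f47_h K M' q h23, cm85_Vinf (K := K) (M' * q * q) hπ, s36f47_V2 (K := K) M' q hπ,
    nsb86_V3 (K := K) M' q hq hM' hπ, cm85_Vinf (K := K) (M' * q) hπ,
    s34i47c_V0 (K := K) M' q hq hM' hπ, ⟨hW, hC⟩, hB, hP⟩

/-- **THE FINAL BINDER, canonical objects**: (HB) + (HP) for the canonical frame give
`s36i62c_HX`. -/
theorem s36f47_HX_of
    (H : ∀ (M' q p r : ℕ) [NeZero M'] [NeZero q] (hq : q.Prime) (hM' : ¬ q ∣ M')
      (h23 : 2 ∣ M' ∨ 3 ∣ M'), s36c67_Rigid6 (M' * q) q r → p.Prime → p ≠ q → ∀ n : ℕ,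
      ∀ (R K : Type) [CommRing R] [IsDomain R] [IsDiscreteValuationRing R] [Field K]
        [NumberField K] [Algebra K Q̄] [Algebra R K] [IsFractionRing R K]
        [Algebra R ↥(modularFunctionFieldFullC K (M' * q * q))]
        [IsScalarTower R K ↥(modularFunctionFieldFullC K (M' * q * q))]
        (hπ : Irreducible ((q : ℕ) : R)), (∀ k : ℕ, Nat.Coprime k q → IsUnit (k : R)) →
          ci57x_HB (M' * q) q (p ^ n) R K (cm85_Vinf (K := K) (M' * q * q) hπ)
            (s36f47_V2 (K := K) M' q hπ)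
            (nsb86_V3 (K := K) M' q hq hM' hπ) (cm85_Vinf (K := K) (M' * q) hπ)
            (s34i47c_V0 (K := K) M' q hq hM' hπ) ∧
          ci57x_HP (K := K) ((q : ℕ) : R) q (p ^ n) (s36f47_h K M' q h23)
            (s35i62_normA K (M' * q) q) (s35i62_normB K (M' * q) q)
            (cm85_Vinf (K := K) (M' * q * q) hπ) (s36f47_V2 (K := K) M' q hπ)
            (nsb86_V3 (K := K) M' q hq hM' hπ) (cm85_Vinf (K := K) (M' * q) hπ)
            (s34i47c_V0 (K := K) M' q hq hM' hπ)) :
    s36i62c_HX := by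
  intro N q p r _ _ hq hqN hq2 hrig hp hpq n R K _ _ _ _ _ _ _ _ _ _ hπ hunit
  obtain ⟨M', rfl, hM'0, hM'⟩ := s36f47_level N q hqN hq2
  haveI : NeZero M' := ⟨hM'0⟩
  have h23 : 2 ∣ M' ∨ 3 ∣ M' := s36f47_rigid6_dvd hq hrig
  haveI : Algebra.IsAlgebraic K Q̄ := fs85_isAlgebraic K
  have hMu : IsUnit ((M' : ℕ) : R) :=
    hunit M' ((Nat.Prime.coprime_iff_not_dvd hq).mpr hM').symm
  obtain ⟨hW, hC, -⟩ := s36f47_frame (K := K) M' q hq hM' hπ (Associated.refl _) hMu h23
  obtain ⟨hB, hP⟩ := H M' q p r hq hM' h23 hrig hp hpq n R K hπ hunit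
  exact ⟨s36f47_h K M' q h23, cm85_Vinf (K := K) (M' * q * q) hπ, s36f47_V2 (K := K) M' q hπ,
    nsb86_V3 (K := K) M' q hq hM' hπ, cm85_Vinf (K := K) (M' * q) hπ,
    s34i47c_V0 (K := K) M' q hq hM' hπ, ⟨hW, hC⟩, hB, hP⟩

end Fermat.Agent.S36
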