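import Fermat.Agent.S36.FrameSq85
import Fermat.Agent.S36.OnlyThree72
import Fermat.Agent.S36.NormSqBeta86
import Fermat.Agent.S36.V2Gauss64
import Fermat.Agent.S36.CycDVR46
import Fermat.Agent.S36.NormVal41
import Fermat.Agent.S36.CoreInv57

/-!
# S36 lab, row 591 B1-W (helper47, co-architect): THE CANONICAL FRAME of level `M' q²`

Level `M' * q * q` (`q` prime, `q ∤ M'`), base `(R, K, π)` with `q` associated to `π`.

* `s36f47_IsV2 M' q hπ V₂` : the four facts characterising the middle valuation subring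
  (literally the parameters `hV₂`, `hπ₂`, `hne`, `hs` of `ob72_ram`, `s = v2g64_s K M' q`);
  `s36f47_IsV2_unique` : two valuation subrings with the four facts are EQUAL (so every concrete
  construction of `V₂` is the canonical one); `s36f47_exists_V2` (cyclotomic datum + Gauss
  pull-back).
* `s36f47_V2 M' q hπ` : THE middle valuation subring (total definition), `s36f47_V2_spec`,
  `s36f47_V2_eq`.
* `s36f47_V M' q hq hM' hπ : Fin 3 → ValuationSubring F(M' q²)_K`
  `= ![cm85_Vinf (M' q q) hπ, s36f47_V2 M' q hπ, nsb86_V3 M' q hq hM' hπ]` : THE three vertical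
  valuations; `s36f47_h K M' q h23` : THE Hauptmodul (`pk85_h2` if `2 ∣ M'`, else `pk85_h3`).
* `s36f47_frame` : (W) + (C) for `W = V 0 ⊓ V 1 ⊓ V 2`; `s36f47_pi_inv`, `s36f47_hrad`,
  `s36f47_harch` : the frame clauses of `ci57_Datum` (helper57).
* `s36f47_Rest` : what is LEFT of `ci57_Datum` once the frame is the canonical one (the function
  `u` and its root datum); `s36f47_datum_of_rest`, `s36f47_pkg_core` :
  `s36f47_Rest` at every rigid level ⟹ `s36i62_Pkg_Core`.

All names are prefixed `s36f47_`.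
-/

set_option autoImplicit false
set_option linter.unusedSectionVars false
set_option linter.unusedVariables false
set_option linter.style.haveILetI false
set_option linter.style.longLine false

open ModularCurve AlgebraicCurve IntermediateField Polynomial

namespace Fermat.Agent.S36

open Fermat.Agent.S18 Fermat.Agent.S24 Fermat.Agent.S28 Fermat.Agent.S37 Fermat.Agent.S34
  Fermat.Agent.S42 Fermat.Agent.S35

local notation "Q̄" => AlgebraicClosure ℚ

section s36f47_V2

variable {R K : Type} [CommRing R] [IsDomain R] [IsDiscreteValuationRing R] [Field K] [CharZero K]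
  [Algebra R K] [IsFractionRing R K] [Algebra K Q̄] (M' q : ℕ) [NeZero M'] [NeZero q]

/-- The four facts characterising the middle valuation subring `V₂` of `F(M' q²)_K`. -/
structure s36f47_IsV2 {π : R} (hπ : Irreducible π)
    (V₂ : ValuationSubring ↥(modularFunctionFieldFullC K (M' * q * q))) : Prop where
  hover : ∀ c ∈ cm85_Vinf (K := K) (M' * q) hπ, al97L_alpha K (M' * q) q c ∈ V₂
  hpi : (algebraMap K ↥(modularFunctionFieldFullC K (M' * q * q)) (algebraMap R K π))⁻¹ ∉ V₂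
  hne : cm85_Vinf (K := K) (M' * q * q) hπ ≠ V₂
  hval : V₂.valuation (v2g64_s K M' q) ^ (q - 1) =
    V₂.valuation (algebraMap K ↥(modularFunctionFieldFullC K (M' * q * q)) (algebraMap R K π))

/-- **Uniqueness of the middle valuation.** -/
theorem s36f47_IsV2_unique (hq : q.Prime) {π : R} (hπ : Irreducible π)
    (V₂ V₂' : ValuationSubring ↥(modularFunctionFieldFullC K (M' * q * q)))
    (h : s36f47_IsV2 M' q hπ V₂) (h' : s36f47_IsV2 M' q hπ V₂') : V₂' = V₂ := by
  have key := (ob72_ram (K := K) (M' * q) q hq (dvd_mul_left q M') hπ V₂ h.hover h.hpi h.hne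
    (v2g64_s K M' q) h.hval).1 V₂' h'.hover h'.hpi
  rcases key with h1 | h1
  · exact absurd h1.symm h'.hne
  · exact h1

/-- **Existence of the middle valuation** (cyclotomic datum `cyc46_exists` + Gauss pull-back
`v2g64_exists_of_datum`). -/
theorem s36f47_exists_V2 (hq : q.Prime) (hM' : ¬ q ∣ M') {π : R} (hπ : Irreducible π)
    (hqπ : Associated ((q : ℕ) : R) π) :
    ∃ V₂ : ValuationSubring ↥(modularFunctionFieldFullC K (M' * q * q)),
      s36f47_IsV2 M' q hπ V₂ := by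
  obtain ⟨K', _, _, A', ϖ, ρ, ζ, hD⟩ := cyc46_exists (K := K) q hq hπ hqπ
  obtain ⟨V₂, h1, h2, h3, h4⟩ :=
    v2g64_exists_of_datum A' (algebraMap K Q̄) M' q hq hM' hπ ϖ ρ ζ hD
  exact ⟨V₂, ⟨h1, h2, h3, h4⟩⟩

open Classical in
/-- **THE middle valuation subring `V₂` of `F(M' q²)_K`** (total definition; it has the four
facts as soon as `q` is associated to `π`: `s36f47_V2_spec`). -/
noncomputable def s36f47_V2 {π : R} (hπ : Irreducible π) :
    ValuationSubring ↥(modularFunctionFieldFullC K (M' * q * q)) :=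
  if h : ∃ V₂ : ValuationSubring ↥(modularFunctionFieldFullC K (M' * q * q)),
      s36f47_IsV2 M' q hπ V₂ then Classical.choose h else cm85_Vinf (K := K) (M' * q * q) hπ

theorem s36f47_V2_spec (hq : q.Prime) (hM' : ¬ q ∣ M') {π : R} (hπ : Irreducible π)
    (hqπ : Associated ((q : ℕ) : R) π) :
    s36f47_IsV2 M' q hπ (s36f47_V2 (K := K) M' q hπ) := by
  have h := s36f47_exists_V2 (K := K) M' q hq hM' hπ hqπ
  rw [s36f47_V2, dif_pos h]
  exact Classical.choose_spec h

/-- Every valuation subring with the four facts IS the canonical `V₂`. -/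
theorem s36f47_V2_eq (hq : q.Prime) (hM' : ¬ q ∣ M') {π : R} (hπ : Irreducible π)
    (hqπ : Associated ((q : ℕ) : R) π)
    (V₂ : ValuationSubring ↥(modularFunctionFieldFullC K (M' * q * q)))
    (h : s36f47_IsV2 M' q hπ V₂) : V₂ = s36f47_V2 (K := K) M' q hπ :=
  s36f47_IsV2_unique M' q hq hπ _ _ (s36f47_V2_spec M' q hq hM' hπ hqπ) h

/-- **THE three vertical valuation subrings of `F(M' q²)_K`**: `V 0 = cm85_Vinf` (cusp `∞`),
`V 1 = s36f47_V2` (the middle, non-reduced component), `V 2 = nsb86_V3` (cusp `0`). -/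
noncomputable def s36f47_V (hq : q.Prime) (hM' : ¬ q ∣ M') {π : R} (hπ : Irreducible π) :
    Fin 3 → ValuationSubring ↥(modularFunctionFieldFullC K (M' * q * q)) :=
  ![cm85_Vinf (K := K) (M' * q * q) hπ, s36f47_V2 (K := K) M' q hπ,
    nsb86_V3 (K := K) M' q hq hM' hπ]

theorem s36f47_V_zero (hq : q.Prime) (hM' : ¬ q ∣ M') {π : R} (hπ : Irreducible π) :
    s36f47_V (K := K) M' q hq hM' hπ 0 = cm85_Vinf (K := K) (M' * q * q) hπ := rfl

theorem s36f47_V_one (hq : q.Prime) (hM' : ¬ q ∣ M') {π : R} (hπ : Irreducible π) :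
    s36f47_V (K := K) M' q hq hM' hπ 1 = s36f47_V2 (K := K) M' q hπ := rfl

theorem s36f47_V_two (hq : q.Prime) (hM' : ¬ q ∣ M') {π : R} (hπ : Irreducible π) :
    s36f47_V (K := K) M' q hq hM' hπ 2 = nsb86_V3 (K := K) M' q hq hM' hπ := rfl

/-- `s = j(Q^(q²)) - j(Q)` in the two spellings on main. -/
theorem s36f47_s_eq :
    v2g64_s K M' q = fq85_y K M' q - al97L_alpha K (M' * q) q (relimc_J K (M' * q)) :=
  Subtype.ext rfl

/-- the membership test of `V 2 = nsb86_V3` in the spelling of `OnlyThree72`. -/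
theorem s36f47_V3_mem (hq : q.Prime) (hM' : ¬ q ∣ M') {π : R} (hπ : Irreducible π)
    (hL : ((M' * q * q : ℕ) : K) ≠ 0) (x : ↥(modularFunctionFieldFullC K (M' * q * q))) :
    x ∈ nsb86_V3 (K := K) M' q hq hM' hπ ↔
      als86_w2 (algebraMap K Q̄) M' q hq hM' hL x ∈ cm85_Vinf (K := K) (M' * q * q) hπ :=
  Iff.rfl

theorem s36f47_not_isUnit {π : R} (hπ : Irreducible π) (hqπ : Associated ((q : ℕ) : R) π) :
    ¬ IsUnit ((q : ℕ) : R) := fun hu => hπ.not_isUnit (hqπ.isUnit_iff.mp hu)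

end s36f47_V2

section s36f47_frame

variable {R K : Type} [CommRing R] [IsDomain R] [IsDiscreteValuationRing R] [Field K] [CharZero K]
  [Algebra R K] [IsFractionRing R K] [Algebra K Q̄] (M' q : ℕ) [NeZero M'] [NeZero q]

/-- THE Hauptmodul of the canonical frame: of level `2` if `2 ∣ M'`, else of level `3`. -/
noncomputable def s36f47_h (K : Type) [Field K] [CharZero K] (M' q : ℕ) [NeZero M'] [NeZero q]
    (h23 : 2 ∣ M' ∨ 3 ∣ M') : ↥(modularFunctionFieldFullC K (M' * q * q)) :=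
  if h2 : 2 ∣ M' then
    pk85_h2 K (M' * q * q) (h2.trans ((dvd_mul_right M' q).trans (dvd_mul_right (M' * q) q)))
  else
    pk85_h3 K (M' * q * q)
      ((h23.resolve_left h2).trans ((dvd_mul_right M' q).trans (dvd_mul_right (M' * q) q)))

variable [Algebra R ↥(modularFunctionFieldFullC K (M' * q * q))]
  [IsScalarTower R K ↥(modularFunctionFieldFullC K (M' * q * q))]

set_option maxHeartbeats 1000000 in
/-- **(W) + (C) + `σ h = h` on the canonical frame.** -/
theorem s36f47_frame [Algebra.IsAlgebraic K Q̄] (hq : q.Prime) (hM' : ¬ q ∣ M') {π : R}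
    (hπ : Irreducible π) (hqπ : Associated ((q : ℕ) : R) π) (hMu : IsUnit (M' : R))
    (h23 : 2 ∣ M' ∨ 3 ∣ M') :
    s34i47_WProps π ((s36f47_V (K := K) M' q hq hM' hπ 0).toSubring ⊓
        (s36f47_V (K := K) M' q hq hM' hπ 1).toSubring ⊓
        (s36f47_V (K := K) M' q hq hM' hπ 2).toSubring) ∧
      s34i47_ChartProps K π ((s36f47_V (K := K) M' q hq hM' hπ 0).toSubring ⊓
        (s36f47_V (K := K) M' q hq hM' hπ 1).toSubring ⊓
        (s36f47_V (K := K) M' q hq hM' hπ 2).toSubring) (s36f47_h K M' q h23) ∧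
      ∀ σ : K ≃+* K, s34i47_coeffEquiv σ (M' * q * q) (s36f47_h K M' q h23) =
        s36f47_h K M' q h23 := by
  have hqR : ¬ IsUnit ((q : ℕ) : R) := s36f47_not_isUnit q hπ hqπ
  have h2' := s36f47_V2_spec (K := K) M' q hq hM' hπ hqπ
  have hL : ((M' * q * q : ℕ) : K) ≠ 0 := Nat.cast_ne_zero.mpr (NeZero.ne _)
  have hV₃mem := s36f47_V3_mem (K := K) M' q hq hM' hπ hL
  have hs : (s36f47_V2 (K := K) M' q hπ).valuation
      (fq85_y K M' q - al97L_alpha K (M' * q) q (relimc_J K (M' * q))) ^ (q - 1) =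
      (s36f47_V2 (K := K) M' q hπ).valuation
        (algebraMap K ↥(modularFunctionFieldFullC K (M' * q * q)) (algebraMap R K π)) := by
    rw [← s36f47_s_eq]; exact h2'.hval
  unfold s36f47_h
  split_ifs with h2
  · exact fq85_frame_level2 M' q hq hM' hπ hqR hMu h2 (s36f47_V2 (K := K) M' q hπ)
      (nsb86_V3 (K := K) M' q hq hM' hπ) h2'.hover h2'.hpi hs
      (o3x72_V3_over M' q hq hM' hπ hL _ hV₃mem) (o3x72_V3_pi M' q hq hM' hπ hL _ hV₃mem)
      (o3x72_V3_y M' q hq hM' hπ hL _ hV₃mem) (o3x72_V3_frob M' q hq hM' hπ hqR hL _ hV₃mem)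
  · exact fq85_frame_level3 M' q hq hM' hπ hqR hMu (h23.resolve_left h2)
      (s36f47_V2 (K := K) M' q hπ)
      (nsb86_V3 (K := K) M' q hq hM' hπ) h2'.hover h2'.hpi hs
      (o3x72_V3_over M' q hq hM' hπ hL _ hV₃mem) (o3x72_V3_pi M' q hq hM' hπ hL _ hV₃mem)
      (o3x72_V3_y M' q hq hM' hπ hL _ hV₃mem) (o3x72_V3_frob M' q hq hM' hπ hqR hL _ hV₃mem)

/-- `π⁻¹ ∉ V i`. -/
theorem s36f47_pi_inv (hq : q.Prime) (hM' : ¬ q ∣ M') {π : R} (hπ : Irreducible π)
    (hqπ : Associated ((q : ℕ) : R) π) (i : Fin 3) :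
    (algebraMap R ↥(modularFunctionFieldFullC K (M' * q * q)) π)⁻¹ ∉
      s36f47_V (K := K) M' q hq hM' hπ i := by
  have hL : ((M' * q * q : ℕ) : K) ≠ 0 := Nat.cast_ne_zero.mpr (NeZero.ne _)
  rw [IsScalarTower.algebraMap_apply R K ↥(modularFunctionFieldFullC K (M' * q * q))]
  fin_cases i
  · show _ ∉ cm85_Vinf (K := K) (M' * q * q) hπ
    exact gv85_pi_inv_not_mem (IsLocalRing.residue R) π (pk85_res_iff hπ) hπ.ne_zero _ _
  · show _ ∉ s36f47_V2 (K := K) M' q hπ
    exact (s36f47_V2_spec (K := K) M' q hq hM' hπ hqπ).hpi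
  · show _ ∉ nsb86_V3 (K := K) M' q hq hM' hπ
    exact o3x72_V3_pi M' q hq hM' hπ hL _ (s36f47_V3_mem (K := K) M' q hq hM' hπ hL)

set_option maxHeartbeats 1000000 in
/-- `rad (π V i) = 𝔪 (V i)`: a nonunit of `V i` has a power in `π V i` (exponent `1` for the two
reduced components, `q - 1` for the middle one). -/
theorem s36f47_hrad (hq : q.Prime) (hM' : ¬ q ∣ M') {π : R} (hπ : Irreducible π)
    (hqπ : Associated ((q : ℕ) : R) π) (i : Fin 3)
    (x : ↥(modularFunctionFieldFullC K (M' * q * q)))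
    (hx : x ∈ s36f47_V (K := K) M' q hq hM' hπ i)
    (hx' : x⁻¹ ∉ s36f47_V (K := K) M' q hq hM' hπ i) :
    ∃ k : ℕ, (algebraMap R ↥(modularFunctionFieldFullC K (M' * q * q)) π)⁻¹ * x ^ k ∈
      s36f47_V (K := K) M' q hq hM' hπ i := by
  have hqR : ¬ IsUnit ((q : ℕ) : R) := s36f47_not_isUnit q hπ hqπ
  have hL : ((M' * q * q : ℕ) : K) ≠ 0 := Nat.cast_ne_zero.mpr (NeZero.ne _)
  rw [IsScalarTower.algebraMap_apply R K ↥(modularFunctionFieldFullC K (M' * q * q))]
  fin_cases i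
  · have hx0 : x ∈ cm85_Vinf (K := K) (M' * q * q) hπ := hx
    have hx0' : x⁻¹ ∉ cm85_Vinf (K := K) (M' * q * q) hπ := hx'
    refine ⟨1, ?_⟩
    rw [pow_one]
    show _ ∈ cm85_Vinf (K := K) (M' * q * q) hπ
    exact gv85_hmax (IsLocalRing.residue R) π (pk85_res_iff hπ) hπ.ne_zero _ _ x hx0 hx0'
  · have h2' := s36f47_V2_spec (K := K) M' q hq hM' hπ hqπ
    have hx0 : x ∈ s36f47_V2 (K := K) M' q hπ := hx
    have hx0' : x⁻¹ ∉ s36f47_V2 (K := K) M' q hπ := hx'
    have hunif := (ob72_ram (K := K) (M' * q) q hq (dvd_mul_left q M') hπ _ h2'.hover h2'.hpi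
      h2'.hne (v2g64_s K M' q) h2'.hval).2.2.1 x hx0 hx0'
    have hπF0 : algebraMap K ↥(modularFunctionFieldFullC K (M' * q * q)) (algebraMap R K π) ≠ 0 := by
      intro h0
      apply h2'.hpi
      rw [h0, inv_zero]
      exact ValuationSubring.zero_mem _
    have hq1 : q - 1 ≠ 0 := by have := hq.two_le; omega
    have hs0 : v2g64_s K M' q ≠ 0 := by
      intro h0
      have h1 := h2'.hval
      rw [h0, map_zero, zero_pow hq1] at h1
      exact hπF0 ((_root_.map_eq_zero _).mp h1.symm)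
    have hw : (algebraMap K ↥(modularFunctionFieldFullC K (M' * q * q)) (algebraMap R K π))⁻¹ *
        v2g64_s K M' q ^ (q - 1) ∈ s36f47_V2 (K := K) M' q hπ := by
      rw [← ValuationSubring.valuation_le_one_iff, map_mul, map_inv₀, map_pow, h2'.hval,
        inv_mul_cancel₀ ((_root_.map_ne_zero _).mpr hπF0)]
    refine ⟨q - 1, ?_⟩
    have e : (algebraMap K ↥(modularFunctionFieldFullC K (M' * q * q)) (algebraMap R K π))⁻¹ *
        x ^ (q - 1) =
        ((algebraMap K ↥(modularFunctionFieldFullC K (M' * q * q)) (algebraMap R K π))⁻¹ *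
          v2g64_s K M' q ^ (q - 1)) * ((v2g64_s K M' q)⁻¹ * x) ^ (q - 1) := by
      rw [mul_pow, inv_pow]
      field_simp
    show _ ∈ s36f47_V2 (K := K) M' q hπ
    rw [e]
    exact mul_mem hw (pow_mem hunif _)
  · have hx0 : x ∈ nsb86_V3 (K := K) M' q hq hM' hπ := hx
    have hx0' : x⁻¹ ∉ nsb86_V3 (K := K) M' q hq hM' hπ := hx'
    refine ⟨1, ?_⟩
    rw [pow_one]
    show _ ∈ nsb86_V3 (K := K) M' q hq hM' hπ
    exact (o3x72_inert M' q hq hM' hπ hqR hL _
      (s36f47_V3_mem (K := K) M' q hq hM' hπ hL)).2.2.1 x hx0 hx0'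

set_option maxHeartbeats 1000000 in
/-- The three valuations are archimedean with respect to `π`. -/
theorem s36f47_harch (hq : q.Prime) (hM' : ¬ q ∣ M') {π : R} (hπ : Irreducible π)
    (hqπ : Associated ((q : ℕ) : R) π) (i : Fin 3)
    (x : ↥(modularFunctionFieldFullC K (M' * q * q))) (hx : x ≠ 0) :
    ∃ k : ℕ, (algebraMap R ↥(modularFunctionFieldFullC K (M' * q * q)) π ^ k)⁻¹ * x ∉
      s36f47_V (K := K) M' q hq hM' hπ i := by
  have hL : ((M' * q * q : ℕ) : K) ≠ 0 := Nat.cast_ne_zero.mpr (NeZero.ne _)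
  rw [IsScalarTower.algebraMap_apply R K ↥(modularFunctionFieldFullC K (M' * q * q))]
  fin_cases i
  · show ∃ k : ℕ, _ ∉ cm85_Vinf (K := K) (M' * q * q) hπ
    exact fs85_harch (K := K) (M' * q * q) hπ x hx
  · show ∃ k : ℕ, _ ∉ s36f47_V2 (K := K) M' q hπ
    have h2' := s36f47_V2_spec (K := K) M' q hq hM' hπ hqπ
    letI alg : Algebra ↥(modularFunctionFieldFullC K (M' * q))
        ↥(modularFunctionFieldFullC K (M' * q * q)) :=
      (al97L_alpha K (M' * q) q).toRingHom.toAlgebra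
    have hfr := ob72_finrank K (M' * q) q hq (dvd_mul_left q M')
    haveI : FiniteDimensional ↥(modularFunctionFieldFullC K (M' * q))
        ↥(modularFunctionFieldFullC K (M' * q * q)) :=
      Module.finite_of_finrank_pos (by rw [hfr]; exact hq.pos)
    have hπEF : algebraMap ↥(modularFunctionFieldFullC K (M' * q))
        ↥(modularFunctionFieldFullC K (M' * q * q))
        (algebraMap K ↥(modularFunctionFieldFullC K (M' * q)) (algebraMap R K π)) =
        algebraMap K ↥(modularFunctionFieldFullC K (M' * q * q)) (algebraMap R K π) :=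
      (al97L_alpha K (M' * q) q).commutes _
    have key := nv41_arch_up (cm85_Vinf (K := K) (M' * q) hπ)
      (algebraMap K ↥(modularFunctionFieldFullC K (M' * q)) (algebraMap R K π))
      (fun x hx hx' =>
        gv85_hmax (IsLocalRing.residue R) π (pk85_res_iff hπ) hπ.ne_zero _ _ x hx hx')
      (fs85_harch (K := K) (M' * q) hπ) (s36f47_V2 (K := K) M' q hπ) h2'.hover
      (by rw [hπEF]; exact h2'.hpi) x hx
    rw [hπEF] at key
    exact key
  · show ∃ k : ℕ, _ ∉ nsb86_V3 (K := K) M' q hq hM' hπ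
    obtain ⟨k, hk⟩ := fs85_harch (K := K) (M' * q * q) hπ
      (als86_w2 (algebraMap K Q̄) M' q hq hM' hL x)
      (by rwa [Ne, EmbeddingLike.map_eq_zero_iff])
    refine ⟨k, fun hmem => hk ?_⟩
    have h1 := (s36f47_V3_mem (K := K) M' q hq hM' hπ hL _).mp hmem
    rw [map_mul, map_inv₀, map_pow, AlgEquiv.commutes] at h1
    exact h1

end s36f47_frame

/-! ## What is left of `ci57_Datum` on the canonical frame -/

/-- **The rest of CORE36 on the canonical frame** at level `M' * q * q`, exponent `m`, constant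
`c`: for every unramified base `(R, K)` and every `f` as in `s36i62_Core`, a function
`u = f ^ c / (c₀ g ^ m)` with `u ≡ 1` modulo `π V i` and a root datum (`ci57_RootDatum`) on both
charts of THE Hauptmodul `s36f47_h`, for THE three valuations `s36f47_V`. -/
def s36f47_Rest (M' q m c : ℕ) [NeZero M'] [NeZero q] (hq : q.Prime) (hM' : ¬ q ∣ M')
    (h23 : 2 ∣ M' ∨ 3 ∣ M') : Prop :=
  ∀ (R K : Type) [CommRing R] [IsDomain R] [IsDiscreteValuationRing R] [Field K] [NumberField K]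
    [Algebra K Q̄] [Algebra R K] [IsFractionRing R K]
    [Algebra R ↥(modularFunctionFieldFullC K (M' * q * q))]
    [IsScalarTower R K ↥(modularFunctionFieldFullC K (M' * q * q))]
    (hπ : Irreducible ((q : ℕ) : R)), (∀ n : ℕ, Nat.Coprime n q → IsUnit (n : R)) →
    ∀ (f : ↥(modularFunctionFieldFullC K (M' * q * q)))
      (a b : ↥(modularFunctionFieldFullC K (M' * q))) (ca cb : K),
      f ≠ 0 → a ≠ 0 → b ≠ 0 → ca ≠ 0 → cb ≠ 0 →
      (∀ P : Place K ↥(modularFunctionFieldFullC K (M' * q * q)), (m : ℤ) ∣ P.ord f) →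
      s35i62_normA K (M' * q) q f =
        algebraMap K ↥(modularFunctionFieldFullC K (M' * q)) ca * a ^ m →
      s35i62_normB K (M' * q) q f =
        algebraMap K ↥(modularFunctionFieldFullC K (M' * q)) cb * b ^ m →
      ∃ (u g : ↥(modularFunctionFieldFullC K (M' * q * q))) (c₀ : K),
        g ≠ 0 ∧ c₀ ≠ 0 ∧
        f ^ c = algebraMap K ↥(modularFunctionFieldFullC K (M' * q * q)) c₀ * g ^ m * u ∧
        (∀ i, (algebraMap R ↥(modularFunctionFieldFullC K (M' * q * q)) ((q : ℕ) : R))⁻¹ *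
          (u - 1) ∈ s36f47_V (K := K) M' q hq hM' hπ i) ∧
        ci57_RootDatum ((q : ℕ) : R) m
          (pk15_chart R
            ({s36f47_h K M' q h23} : Set ↥(modularFunctionFieldFullC K (M' * q * q))))
          (s36f47_V (K := K) M' q hq hM' hπ) u ∧
        ci57_RootDatum ((q : ℕ) : R) m
          (pk15_chart R
            ({(s36f47_h K M' q h23)⁻¹} : Set ↥(modularFunctionFieldFullC K (M' * q * q))))
          (s36f47_V (K := K) M' q hq hM' hπ) u

set_option maxHeartbeats 1000000 in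
/-- The rest on the canonical frame gives the datum of helper57 (`ci57_Datum`). -/
theorem s36f47_datum_of_rest (M' q m c : ℕ) [NeZero M'] [NeZero q] (hq : q.Prime)
    (hM' : ¬ q ∣ M') (h23 : 2 ∣ M' ∨ 3 ∣ M') (H : s36f47_Rest M' q m c hq hM' h23) :
    ci57_Datum (M' * q) q m c := by
  intro R K _ _ _ _ _ _ _ _ _ _ hπ hunit f a b ca cb hf ha hb hca hcb hord hNa hNb
  haveI : Algebra.IsAlgebraic K Q̄ := fs85_isAlgebraic K
  obtain ⟨u, g, c₀, hg, hc₀, hfu, hu, hr₁, hr₂⟩ :=
    H R K hπ hunit f a b ca cb hf ha hb hca hcb hord hNa hNb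
  have hMu : IsUnit ((M' : ℕ) : R) :=
    hunit M' ((Nat.Prime.coprime_iff_not_dvd hq).mpr hM').symm
  obtain ⟨hW, hC, -⟩ := s36f47_frame (K := K) M' q hq hM' hπ (Associated.refl _) hMu h23
  exact ⟨s36f47_h K M' q h23, s36f47_V (K := K) M' q hq hM' hπ, u, g, c₀, hW, hC,
    s36f47_pi_inv M' q hq hM' hπ (Associated.refl _),
    s36f47_hrad M' q hq hM' hπ (Associated.refl _),
    s36f47_harch M' q hq hM' hπ (Associated.refl _), hg, hc₀, hfu, hu, hr₁, hr₂⟩

/-- a level `N` with `q ∣ N`, `¬ q² ∣ N` is `M' * q` with `q ∤ M'`. -/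
theorem s36f47_level (N q : ℕ) [NeZero N] (hqN : q ∣ N) (hq2 : ¬ q ^ 2 ∣ N) :
    ∃ M' : ℕ, N = M' * q ∧ M' ≠ 0 ∧ ¬ q ∣ M' := by
  obtain ⟨M', rfl⟩ : ∃ M', N = M' * q := ⟨N / q, (Nat.div_mul_cancel hqN).symm⟩
  refine ⟨M', rfl, ?_, ?_⟩
  · rintro rfl
    exact NeZero.ne (0 * q) (zero_mul q)
  · rintro ⟨k, rfl⟩
    exact hq2 ⟨k, by ring⟩

/-- **P-CORE36 (`s36i62_Pkg_Core`) from the rest on the canonical frame.** -/
theorem s36f47_pkg_core
    (H : ∀ (M' q p p₀ r : ℕ) [NeZero M'] [NeZero q] (hq : q.Prime) (hM' : ¬ q ∣ M')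
      (h23 : 2 ∣ M' ∨ 3 ∣ M'), s36i62_Rigid (M' * q) q p₀ r → p.Prime → p ≠ q →
      ∃ c : ℕ, c ≠ 0 ∧ ∀ n : ℕ, s36f47_Rest M' q (p ^ n) c hq hM' h23) :
    s36i62_Pkg_Core := by
  refine ci57_pkg_core ?_
  intro N q p p₀ r _ _ hq hqN hq2 hrig hp hpq
  obtain ⟨M', rfl, hM'0, hM'⟩ := s36f47_level N q hqN hq2
  haveI : NeZero M' := ⟨hM'0⟩
  have h23 : 2 ∣ M' ∨ 3 ∣ M' := by
    obtain ⟨hp₀, hp₀q, hp₀N, -⟩ := hrig
    have hp₀prime : p₀.Prime := by rcases hp₀ with rfl | rfl <;> norm_num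
    have hd : p₀ ∣ M' := by
      rcases (Nat.Prime.dvd_mul hp₀prime).mp hp₀N with h | h
      · exact h
      · exact absurd ((Nat.prime_dvd_prime_iff_eq hp₀prime hq).mp h) hp₀q
    rcases hp₀ with rfl | rfl
    · exact Or.inl hd
    · exact Or.inr hd
  obtain ⟨c, hc, hR⟩ := H M' q p p₀ r hq hM' h23 hrig hp hpq
  exact ⟨c, hc, fun n => s36f47_datum_of_rest M' q (p ^ n) c hq hM' h23 (hR n)⟩

end Fermat.Agent.S36
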