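import Mathlib
import Fermat.Agent.S36.GateCofinal67
import Fermat.Agent.S36.CoreInv57

/-!
# S36 (helper67): the gate against the datum of `CoreInv57` at the STRONGLY rigid levels

* `s36d67_Pkg_Datum6` : for every strongly rigid level (`s36c67_Rigid6 N q r`: the primes of
  `{2, 3}` different from `q` and a prime `r ≡ 11 mod 12`, `r ≠ q`, all divide `N`; `q ∥ N`)
  and every prime `p ≠ q` there is ONE constant `c ≠ 0` with `ci57_Datum N q (p ^ n) c` for all
  `n` (the datum of helper57's `CoreInv57`).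
* `s36d67_core6_of_datum` : it gives `s36c67_Pkg_Core6` (`ci57_core_of_datum`).
* `s36d67_result` : `s36d67_Pkg_Datum6` + `s36i62_Pkg_FieldDef` imply the frozen statement S36.

All names are prefixed `s36d67_`.
-/

set_option autoImplicit false
set_option linter.unusedSectionVars false
set_option linter.unusedVariables false
set_option linter.style.longLine false

open CongruenceSubgroup ModularCurve ModularCurve.Period AlgebraicCurve Polynomial

namespace Fermat.Agent.S36

/-- **P-DATUM at the strongly rigid levels**: one constant for all `p`-power exponents. -/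
def s36d67_Pkg_Datum6 : Prop :=
  ∀ (N q p r : ℕ) [NeZero N] [NeZero q], q.Prime → q ∣ N → ¬ q ^ 2 ∣ N →
    s36c67_Rigid6 N q r → p.Prime → p ≠ q →
    ∃ c : ℕ, c ≠ 0 ∧ ∀ n : ℕ, ci57_Datum N q (p ^ n) c

/-- The datum at the strongly rigid levels gives CORE36 there. -/
theorem s36d67_core6_of_datum (hD : s36d67_Pkg_Datum6) : s36c67_Pkg_Core6 := by
  intro N q p r _ _ hq hqN hq2 hrig hp hpq
  obtain ⟨c, hc, hDn⟩ := hD N q p r hq hqN hq2 hrig hp hpq
  refine ⟨c, hc, fun n => ?_⟩
  exact ci57_core_of_datum N q (p ^ n) c (pow_pos hp.pos n)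
    (Nat.Coprime.pow_left n ((Nat.coprime_primes hp hq).mpr hpq)) (hDn n)

/-- **GATE (datum at the strongly rigid levels)**: P-DATUM6 + P-FD36 imply the frozen
statement S36. -/
theorem s36d67_result (hD : s36d67_Pkg_Datum6) (hFD : s36i62_Pkg_FieldDef)
    {M : ℕ} [NeZero M] {g : CuspForm (CongruenceSubgroup.Gamma0 M) 2} (hg : g.IsNewform)
    (lam : ℕ) [Fact lam.Prime]
    (S : Finset ℕ)
    (O' : Type) [CommRing O'] [IsDomain O'] [IsDiscreteValuationRing O']
    [IsAdicComplete (IsLocalRing.maximalIdeal O') O'] [Finite (IsLocalRing.ResidueField O')]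
    [CharZero O'] (hlamO' : (lam : O') ∈ IsLocalRing.maximalIdeal O')
    (chig : CuspForm.heckeAlgebra M 2 (↑S : Set ℕ) →+* ℂ)
    (hchig : ∀ (ℓ : ℕ) (hℓ : ℓ.Prime) (hℓM : ¬ ℓ ∣ M) (hℓS : ℓ ∉ (↑S : Set ℕ)),
      chig (CuspForm.heckeAlgebra.T hℓ hℓM hℓS) = ModularFormClass.qCoeff g ℓ)
    (iota : chig.range →+* O')
    (hlamS : lam ∈ S) (hMS : ∀ q : ℕ, q.Prime → q ∣ M → q ∈ S) :
    ∃ (O'' : Type) (_ : CommRing O'') (_ : IsDomain O'') (_ : IsDiscreteValuationRing O'')
      (_ : IsAdicComplete (IsLocalRing.maximalIdeal O'') O'') (_ : Finite (IsLocalRing.ResidueField O''))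
      (_ : CharZero O'') (_ : Algebra O' O'') (_ : Module.Finite O' O'') (_ : IsLocalHom (algebraMap O' O'')),
      Function.Injective (algebraMap O' O'') ∧
      ∃ ρ : GaloisRepAdic O'',
        (∀ (ℓ : ℕ) (hℓ : ℓ.Prime) (hℓM : ¬ ℓ ∣ M) (hℓS : ℓ ∉ (↑S : Set ℕ)),
          ∀ A : ValuationSubring (AlgebraicClosure ℚ), A.LiesOverPrime ℓ →
            ∀ σ : AlgebraicClosure ℚ ≃ₐ[ℚ] AlgebraicClosure ℚ, A.IsFrobeniusAt σ ℓ →
              LinearMap.charpoly (ρ.ρ σ) =
                X ^ 2 - C (algebraMap O' O'' ((iota.comp chig.rangeRestrict) (CuspForm.heckeAlgebra.T hℓ hℓM hℓS))) * X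
                  + C ((ℓ : O''))) ∧
        (∀ q : ℕ, q.Prime → q ≠ lam → M.factorization q = 2 → ¬ ρ.IsUnipotentOnInertiaAt q) :=
  s36c67_result_of_core6 (s36d67_core6_of_datum hD) hFD hg lam S O' hlamO' chig hchig iota
    hlamS hMS

end Fermat.Agent.S36
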