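import Mathlib
import Fermat.Agent.S36.CoreIface57
import Fermat.Agent.S36.GateCofinal67
import Fermat.Agent.S36.PkgFieldDef77

/-!
# S36 (helper67): the gate against the three frame packages (HF) + (HB) + (HP) of `CoreIface57`
at the STRONGLY rigid levels

`ci57x_pkg_core` (helper57) proves `s36i62_Pkg_Core` from (HF) + (HB) + (HP) at every level that
is rigid in the sense of `Iface62` (one Hauptmodul prime).  The geometric binders work at the
strongly rigid levels `s36c67_Rigid6` of `GateCofinal67` (both primes of `{2, 3}` different from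
`q` divide the level).  This file is the same assembly for that target, and the closed gate.

* `s36x67_Pkg_Frame6` : (HF) + (HB) + (HP) at every strongly rigid level `N` (`q ∥ N`), every
  `p`-power exponent, every unramified base.
* `s36x67_Pkg_FrameLit` : the same at the literal levels `N = M' * q` (`q ∤ M'`).
* `s36x67_frame6_of_lit` : the literal form implies the generic one.
* `s36x67_pkg_core6` : `s36x67_Pkg_Frame6 → s36c67_Pkg_Core6` (`ci57x_core`).
* `s36x67_result` : `s36x67_Pkg_Frame6` implies the frozen statement S36 (P-FD36 is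
  `pfd77_pkg_fieldDef`); `s36x67_result_lit` : the same from the literal form.

All names are prefixed `s36x67_`.
-/

set_option autoImplicit false
set_option linter.unusedSectionVars false
set_option linter.unusedVariables false
set_option linter.style.longLine false

open CongruenceSubgroup ModularCurve ModularCurve.Period AlgebraicCurve Polynomial

namespace Fermat.Agent.S36

open Fermat.Agent.S18 Fermat.Agent.S34 Fermat.Agent.S35

local notation "Q̄" => AlgebraicClosure ℚ

/-- **The three frame packages at the strongly rigid levels**: (HF) + (HB) + (HP) of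
`CoreIface57` at every level `N` with `q ∥ N` and `s36c67_Rigid6 N q r`, for every `p`-power
exponent and every unramified base `(R, K)`. -/
def s36x67_Pkg_Frame6 : Prop :=
  ∀ (N q p r : ℕ) [NeZero N] [NeZero q], q.Prime → q ∣ N → ¬ q ^ 2 ∣ N →
    s36c67_Rigid6 N q r → p.Prime → p ≠ q → ∀ n : ℕ,
    ∀ (R K : Type) [CommRing R] [IsDomain R] [IsDiscreteValuationRing R] [Field K]
      [NumberField K] [Algebra K Q̄] [Algebra R K] [IsFractionRing R K]
      [Algebra R ↥(modularFunctionFieldFullC K (N * q))]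
      [IsScalarTower R K ↥(modularFunctionFieldFullC K (N * q))],
      Irreducible ((q : ℕ) : R) → (∀ k : ℕ, Nat.Coprime k q → IsUnit (k : R)) →
      ∃ (h : ↥(modularFunctionFieldFullC K (N * q)))
        (V₁ V₂ V₃ : ValuationSubring ↥(modularFunctionFieldFullC K (N * q)))
        (Vinf V0 : ValuationSubring ↥(modularFunctionFieldFullC K N)),
        ci57x_HF K ((q : ℕ) : R) h V₁ V₂ V₃ ∧
        ci57x_HB N q (p ^ n) R K V₁ V₂ V₃ Vinf V0 ∧
        ci57x_HP (K := K) ((q : ℕ) : R) q (p ^ n) h (s35i62_normA K N q)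
          (s35i62_normB K N q) V₁ V₂ V₃ Vinf V0

/-- The same packages at the literal levels `N = M' * q`, `q ∤ M'` (the shape produced by the
geometric binders). -/
def s36x67_Pkg_FrameLit : Prop :=
  ∀ (M' q p r : ℕ) [NeZero M'] [NeZero q] [NeZero (M' * q)], q.Prime → ¬ q ∣ M' →
    s36c67_Rigid6 (M' * q) q r → p.Prime → p ≠ q → ∀ n : ℕ,
    ∀ (R K : Type) [CommRing R] [IsDomain R] [IsDiscreteValuationRing R] [Field K]
      [NumberField K] [Algebra K Q̄] [Algebra R K] [IsFractionRing R K]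
      [Algebra R ↥(modularFunctionFieldFullC K (M' * q * q))]
      [IsScalarTower R K ↥(modularFunctionFieldFullC K (M' * q * q))],
      Irreducible ((q : ℕ) : R) → (∀ k : ℕ, Nat.Coprime k q → IsUnit (k : R)) →
      ∃ (h : ↥(modularFunctionFieldFullC K (M' * q * q)))
        (V₁ V₂ V₃ : ValuationSubring ↥(modularFunctionFieldFullC K (M' * q * q)))
        (Vinf V0 : ValuationSubring ↥(modularFunctionFieldFullC K (M' * q))),
        ci57x_HF K ((q : ℕ) : R) h V₁ V₂ V₃ ∧
        ci57x_HB (M' * q) q (p ^ n) R K V₁ V₂ V₃ Vinf V0 ∧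
        ci57x_HP (K := K) ((q : ℕ) : R) q (p ^ n) h (s35i62_normA K (M' * q) q)
          (s35i62_normB K (M' * q) q) V₁ V₂ V₃ Vinf V0

/-- The literal form implies the generic one. -/
theorem s36x67_frame6_of_lit (h : s36x67_Pkg_FrameLit) : s36x67_Pkg_Frame6 := by
  intro N q p r _ _ hq hqN hq2 hrig hp hpq n
  obtain ⟨M', hM'⟩ := hqN
  rw [Nat.mul_comm] at hM'
  subst hM'
  have hM'0 : NeZero M' := ⟨fun h0 => NeZero.ne (M' * q) (by rw [h0, Nat.zero_mul])⟩
  have hqM' : ¬ q ∣ M' := by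
    rintro ⟨k, rfl⟩
    exact hq2 ⟨k, by ring⟩
  exact h M' q p r hq hqM' hrig hp hpq n

/-- **P-CORE36 at the strongly rigid levels** from (HF) + (HB) + (HP) there; the constant is
`(q+1)(q-1)(q²-1) · ((q-1+2)(q-1)) · q`. -/
theorem s36x67_pkg_core6 (hX : s36x67_Pkg_Frame6) : s36c67_Pkg_Core6 := by
  intro N q p r _ _ hq hqN hq2 hrig hp hpq
  have hq2' : 2 ≤ q := hq.two_le
  refine ⟨(q + 1) * (q - 1) * (q ^ 2 - 1) * ((q - 1 + 2) * (q - 1)) * q, ?_, fun n => ?_⟩
  · have h1 : 0 < q - 1 := by omega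
    have h2 : 0 < q ^ 2 - 1 := by
      have : 4 ≤ q ^ 2 := by nlinarith
      omega
    positivity
  · intro R K _ _ _ _ _ _ _ _ _ _ hπ hunit f a b ca cb hf ha hb hca hcb hord hNa hNb
    obtain ⟨h, V₁, V₂, V₃, Vinf, V0, hF, hB, hP⟩ :=
      hX N q p r hq hqN hq2 hrig hp hpq n R K hπ hunit
    exact ci57x_core N q (p ^ n) (pow_pos hp.pos n) hπ
      (hunit (p ^ n) (Nat.Coprime.pow_left n ((Nat.coprime_primes hp hq).mpr hpq)))
      h V₁ V₂ V₃ Vinf V0 hF hB hP f a b ca cb hf ha hb hca hcb hord hNa hNb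

/-- **GATE (frame packages at the strongly rigid levels)**: (HF) + (HB) + (HP) at every strongly
rigid level imply the frozen statement S36. -/
theorem s36x67_result (hX : s36x67_Pkg_Frame6)
    {M : ℕ} [NeZero M] {g : CuspForm (CongruenceSubgroup.Gamma0 M) 2} (hg : g.IsNewform)
    (lam : ℕ) [Fact lam.Prime]
    (S : Finset ℕ)
    (O' : Type) [CommRing O'] [IsDomain O'] [IsDiscreteValuationRing O']
    [IsAdicComplete (IsLocalRing.maximalIdeal O') O'] [Finite (IsLocalRing.ResidueField O')]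
    [CharZero O'] (hlamO' : (lam : O') ∈ IsLocalRing.maximalIdeal O')
    (chig : CuspForm.heckeAlgebra M 2 (↑S : Set ℕ) →+* ℂ)
    (hchig : ∀ (ℓ : ℕ) (hℓ : ℓ.Prime) (hℓM : ¬ ℓ ∣ M) (hℓS : ℓ ∉ (↑S : Set ℕ)),
      chig (CuspForm.heckeAlgebra.T hℓ hℓM hℓS) = ModularFormClass.qCoeff g ℓ)
    (iota : chig.range →+* O')
    (hlamS : lam ∈ S) (hMS : ∀ q : ℕ, q.Prime → q ∣ M → q ∈ S) :
    ∃ (O'' : Type) (_ : CommRing O'') (_ : IsDomain O'') (_ : IsDiscreteValuationRing O'')
      (_ : IsAdicComplete (IsLocalRing.maximalIdeal O'') O'') (_ : Finite (IsLocalRing.ResidueField O''))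
      (_ : CharZero O'') (_ : Algebra O' O'') (_ : Module.Finite O' O'') (_ : IsLocalHom (algebraMap O' O'')),
      Function.Injective (algebraMap O' O'') ∧
      ∃ ρ : GaloisRepAdic O'',
        (∀ (ℓ : ℕ) (hℓ : ℓ.Prime) (hℓM : ¬ ℓ ∣ M) (hℓS : ℓ ∉ (↑S : Set ℕ)),
          ∀ A : ValuationSubring (AlgebraicClosure ℚ), A.LiesOverPrime ℓ →
            ∀ σ : AlgebraicClosure ℚ ≃ₐ[ℚ] AlgebraicClosure ℚ, A.IsFrobeniusAt σ ℓ →
              LinearMap.charpoly (ρ.ρ σ) =
                X ^ 2 - C (algebraMap O' O'' ((iota.comp chig.rangeRestrict) (CuspForm.heckeAlgebra.T hℓ hℓM hℓS))) * X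
                  + C ((ℓ : O''))) ∧
        (∀ q : ℕ, q.Prime → q ≠ lam → M.factorization q = 2 → ¬ ρ.IsUnipotentOnInertiaAt q) :=
  s36c67_result_of_core6 (s36x67_pkg_core6 hX) pfd77_pkg_fieldDef hg lam S O' hlamO' chig hchig
    iota hlamS hMS

/-- **GATE (literal levels)**: (HF) + (HB) + (HP) at every strongly rigid level of the literal
shape `M' * q` imply the frozen statement S36. -/
theorem s36x67_result_lit (hX : s36x67_Pkg_FrameLit)
    {M : ℕ} [NeZero M] {g : CuspForm (CongruenceSubgroup.Gamma0 M) 2} (hg : g.IsNewform)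
    (lam : ℕ) [Fact lam.Prime]
    (S : Finset ℕ)
    (O' : Type) [CommRing O'] [IsDomain O'] [IsDiscreteValuationRing O']
    [IsAdicComplete (IsLocalRing.maximalIdeal O') O'] [Finite (IsLocalRing.ResidueField O')]
    [CharZero O'] (hlamO' : (lam : O') ∈ IsLocalRing.maximalIdeal O')
    (chig : CuspForm.heckeAlgebra M 2 (↑S : Set ℕ) →+* ℂ)
    (hchig : ∀ (ℓ : ℕ) (hℓ : ℓ.Prime) (hℓM : ¬ ℓ ∣ M) (hℓS : ℓ ∉ (↑S : Set ℕ)),
      chig (CuspForm.heckeAlgebra.T hℓ hℓM hℓS) = ModularFormClass.qCoeff g ℓ)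
    (iota : chig.range →+* O')
    (hlamS : lam ∈ S) (hMS : ∀ q : ℕ, q.Prime → q ∣ M → q ∈ S) :
    ∃ (O'' : Type) (_ : CommRing O'') (_ : IsDomain O'') (_ : IsDiscreteValuationRing O'')
      (_ : IsAdicComplete (IsLocalRing.maximalIdeal O'') O'') (_ : Finite (IsLocalRing.ResidueField O''))
      (_ : CharZero O'') (_ : Algebra O' O'') (_ : Module.Finite O' O'') (_ : IsLocalHom (algebraMap O' O'')),
      Function.Injective (algebraMap O' O'') ∧
      ∃ ρ : GaloisRepAdic O'',
        (∀ (ℓ : ℕ) (hℓ : ℓ.Prime) (hℓM : ¬ ℓ ∣ M) (hℓS : ℓ ∉ (↑S : Set ℕ)),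
          ∀ A : ValuationSubring (AlgebraicClosure ℚ), A.LiesOverPrime ℓ →
            ∀ σ : AlgebraicClosure ℚ ≃ₐ[ℚ] AlgebraicClosure ℚ, A.IsFrobeniusAt σ ℓ →
              LinearMap.charpoly (ρ.ρ σ) =
                X ^ 2 - C (algebraMap O' O'' ((iota.comp chig.rangeRestrict) (CuspForm.heckeAlgebra.T hℓ hℓM hℓS))) * X
                  + C ((ℓ : O''))) ∧
        (∀ q : ℕ, q.Prime → q ≠ lam → M.factorization q = 2 → ¬ ρ.IsUnipotentOnInertiaAt q) :=
  s36x67_result (s36x67_frame6_of_lit hX) hg lam S O' hlamO' chig hchig iota hlamS hMS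

end Fermat.Agent.S36
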