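import Fermat.Agent.S18.GaussVal85

/-!
# S36 lab (helper30): the reduction ring hom of the Gauss valuation ring

`V = gv85_V res F hF` (S18/GaussVal85): the Gauss valuation subring of an intermediate field `F`
of `K((q))/K`, `res : R →+* κ` a ring hom to a field.  An element `x ∈ V` has presentations
`s · x = t` with `s, t ∈ R((q))`, `s̄ ≠ 0`.

* `gr30_red res F hF : ↥(gv85_V res F hF) →+* LaurentSeries κ` : `red x = t̄ / s̄`.
* `gr30_red_eq` : `red x = t̄ / s̄` for EVERY presentation; `gr30_red_mul_eq` : `s̄ * red x = t̄`.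
* `gr30_red_integral` : if the expansion of `x` is `R`-integral, `x = y` with `y ∈ R((q))`, then
  `red x = ȳ`.
* `gr30_red_algebraMap` : `red c = C (res c)` for `c ∈ R`.
* `gr30_red_eq_zero_iff` : `red x = 0 ↔ π⁻¹ x ∈ V` (`res r = 0 ↔ π ∣ r`, `π ≠ 0`): the kernel is
  `π V`, so `red` induces an embedding of the residue field of `V` into `κ((q))`.
* `gr30_red_eq_zero_iff_not_isUnit`, `gr30_red_ne_zero_of_inv_mem`.

Imports: S18/GaussVal85 only.
-/

set_option autoImplicit false

open ModularCurve

namespace Fermat.Agent.S36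

open Fermat.Agent.S18

section gr30

variable {R K κ : Type*} [CommRing R] [IsDomain R] [Field K] [Algebra R K] [IsFractionRing R K]
  [Field κ] [ValuationRing R]
variable (res : R →+* κ) (F : IntermediateField K (LaurentSeries K)) (hF : gv85_HF res F)

/-- The reduction of an element of the Gauss ring, as a function. -/
noncomputable def gr30_redFun (x : ↥(gv85_V res F hF)) : LaurentSeries κ :=
  coeffMap res (Classical.choose (Classical.choose_spec ((gv85_mem_V res F hF x.1).mp x.2))) /
    coeffMap res (Classical.choose ((gv85_mem_V res F hF x.1).mp x.2))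

/-- Independence of the presentation. -/
theorem gr30_redFun_eq (x : ↥(gv85_V res F hF)) (s t : LaurentSeries R)
    (hs : coeffMap res s ≠ 0)
    (hst : coeffMap (algebraMap R K) s * ((x : F) : LaurentSeries K) =
      coeffMap (algebraMap R K) t) :
    gr30_redFun res F hF x = coeffMap res t / coeffMap res s := by
  have hspec := Classical.choose_spec (Classical.choose_spec ((gv85_mem_V res F hF x.1).mp x.2))
  set s0 := Classical.choose ((gv85_mem_V res F hF x.1).mp x.2) with hs0def
  set t0 := Classical.choose (Classical.choose_spec ((gv85_mem_V res F hF x.1).mp x.2)) with ht0def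
  obtain ⟨hs0, hst0⟩ := hspec
  have hkey : coeffMap (algebraMap R K) (s0 * t) = coeffMap (algebraMap R K) (s * t0) := by
    rw [map_mul, map_mul, ← hst, ← hst0]
    ring
  have hkey' := gv85_emb_injective hkey
  have hred : coeffMap res s0 * coeffMap res t = coeffMap res s * coeffMap res t0 := by
    rw [← map_mul, ← map_mul, hkey']
  show coeffMap res t0 / coeffMap res s0 = coeffMap res t / coeffMap res s
  rw [div_eq_div_iff hs0 hs, mul_comm (coeffMap res t0), ← hred, mul_comm]

/-- **The reduction ring hom** of the Gauss valuation ring. -/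
noncomputable def gr30_red : ↥(gv85_V res F hF) →+* LaurentSeries κ where
  toFun := gr30_redFun res F hF
  map_one' := by
    rw [gr30_redFun_eq res F hF 1 1 1 (by rw [map_one]; exact one_ne_zero) (by simp)]
    simp
  map_mul' := by
    intro x y
    obtain ⟨s, t, hs, hst⟩ := (gv85_mem_V res F hF x.1).mp x.2
    obtain ⟨s', t', hs', hst'⟩ := (gv85_mem_V res F hF y.1).mp y.2
    rw [gr30_redFun_eq res F hF x s t hs hst, gr30_redFun_eq res F hF y s' t' hs' hst',
      gr30_redFun_eq res F hF (x * y) (s * s') (t * t')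
        (by rw [map_mul]; exact mul_ne_zero hs hs')
        (by
          rw [map_mul, map_mul, ← hst, ← hst']
          push_cast
          ring)]
    rw [map_mul, map_mul, mul_div_mul_comm]
  map_zero' := by
    rw [gr30_redFun_eq res F hF 0 1 0 (by rw [map_one]; exact one_ne_zero) (by simp)]
    simp
  map_add' := by
    intro x y
    obtain ⟨s, t, hs, hst⟩ := (gv85_mem_V res F hF x.1).mp x.2
    obtain ⟨s', t', hs', hst'⟩ := (gv85_mem_V res F hF y.1).mp y.2
    rw [gr30_redFun_eq res F hF x s t hs hst, gr30_redFun_eq res F hF y s' t' hs' hst',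
      gr30_redFun_eq res F hF (x + y) (s * s') (s' * t + s * t')
        (by rw [map_mul]; exact mul_ne_zero hs hs')
        (by
          rw [map_mul, map_add, map_mul, map_mul, ← hst, ← hst']
          push_cast
          ring)]
    rw [map_mul, map_add, map_mul, map_mul, div_add_div _ _ hs hs']
    congr 1
    ring

/-- `red x = t̄ / s̄` for every presentation `s x = t`. -/
theorem gr30_red_eq (x : ↥(gv85_V res F hF)) (s t : LaurentSeries R) (hs : coeffMap res s ≠ 0)
    (hst : coeffMap (algebraMap R K) s * ((x : F) : LaurentSeries K) =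
      coeffMap (algebraMap R K) t) :
    gr30_red res F hF x = coeffMap res t / coeffMap res s :=
  gr30_redFun_eq res F hF x s t hs hst

/-- `s̄ * red x = t̄` for every presentation `s x = t`. -/
theorem gr30_red_mul_eq (x : ↥(gv85_V res F hF)) (s t : LaurentSeries R)
    (hs : coeffMap res s ≠ 0)
    (hst : coeffMap (algebraMap R K) s * ((x : F) : LaurentSeries K) =
      coeffMap (algebraMap R K) t) :
    coeffMap res s * gr30_red res F hF x = coeffMap res t := by
  rw [gr30_red_eq res F hF x s t hs hst, mul_div_cancel₀ _ hs]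

/-- The reduction of a function with `R`-integral expansion is the coefficientwise reduction. -/
theorem gr30_red_integral (x : ↥(gv85_V res F hF)) (y : LaurentSeries R)
    (hxy : ((x : F) : LaurentSeries K) = coeffMap (algebraMap R K) y) :
    gr30_red res F hF x = coeffMap res y := by
  rw [gr30_red_eq res F hF x 1 y (by rw [map_one]; exact one_ne_zero)
    (by rw [map_one, one_mul, hxy]), map_one, div_one]

/-- The reduction of a constant of `R`. -/
theorem gr30_red_algebraMap (c : R) (hc : algebraMap K F (algebraMap R K c) ∈ gv85_V res F hF) :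
    gr30_red res F hF ⟨algebraMap K F (algebraMap R K c), hc⟩ = HahnSeries.C (res c) := by
  rw [gr30_red_integral res F hF _ (HahnSeries.C c)
    (by rw [gv85_coe_algebraMap, gv85_coeffMap_C]), gv85_coeffMap_C]

variable (π : R)

/-- **The kernel of the reduction is `π V`.** -/
theorem gr30_red_eq_zero_iff (hres : ∀ r, res r = 0 ↔ π ∣ r) (hπ0 : π ≠ 0)
    (x : ↥(gv85_V res F hF)) :
    gr30_red res F hF x = 0 ↔
      (algebraMap K F (algebraMap R K π))⁻¹ * (x : F) ∈ gv85_V res F hF := by
  have hπK : algebraMap R K π ≠ 0 := fun h0 =>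
    hπ0 (IsFractionRing.injective R K (by rw [h0, map_zero]))
  have hC0 : (HahnSeries.C (algebraMap R K π) : LaurentSeries K) ≠ 0 := HahnSeries.C_ne_zero hπK
  have h1 : (((algebraMap K F (algebraMap R K π))⁻¹ * (x : F) : F) : LaurentSeries K) =
      (HahnSeries.C (algebraMap R K π))⁻¹ * ((x : F) : LaurentSeries K) := gv85_coe_inv_mul F _ _
  constructor
  · intro h0
    obtain ⟨s, t, hs, hst⟩ := (gv85_mem_V res F hF x.1).mp x.2
    have h2 := gr30_red_mul_eq res F hF x s t hs hst
    rw [h0, mul_zero] at h2
    obtain ⟨t', ht'⟩ := gv85_red_eq_zero res π hres hπ0 t h2.symm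
    refine ⟨s, t', hs, ?_⟩
    rw [h1, mul_left_comm, hst, ht', map_mul, gv85_coeffMap_C, ← mul_assoc, inv_mul_cancel₀ hC0,
      one_mul]
  · rintro ⟨s, t, hs, hst⟩
    rw [h1] at hst
    have h2 : coeffMap (algebraMap R K) s * ((x : F) : LaurentSeries K) =
        coeffMap (algebraMap R K) (HahnSeries.C π * t) := by
      rw [map_mul, gv85_coeffMap_C, ← hst]
      field_simp
    rw [gr30_red_eq res F hF x s _ hs h2, gv85_red_C_mul res π hres, zero_div]

/-- `red x = 0` iff `x` is not a unit of `V`. -/
theorem gr30_red_eq_zero_iff_not_isUnit (hres : ∀ r, res r = 0 ↔ π ∣ r) (hπ0 : π ≠ 0)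
    (x : ↥(gv85_V res F hF)) :
    gr30_red res F hF x = 0 ↔ ¬ IsUnit x := by
  constructor
  · intro h0 hu
    have h1 := (gr30_red res F hF).isUnit_map hu
    rw [h0] at h1
    exact not_isUnit_zero h1
  · intro hu
    rw [gr30_red_eq_zero_iff res F hF π hres hπ0]
    by_cases hx0 : (x : F) = 0
    · rw [hx0, mul_zero]
      exact (gv85_V res F hF).zero_mem
    · refine gv85_hmax res π hres hπ0 F hF x x.2 (fun hinv => hu ?_)
      refine isUnit_iff_exists_inv.mpr ⟨⟨(x : F)⁻¹, hinv⟩, Subtype.ext ?_⟩
      show (x : F) * (x : F)⁻¹ = 1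
      exact mul_inv_cancel₀ hx0

/-- The reduction of a unit is non-zero. -/
theorem gr30_red_ne_zero_of_inv_mem (x : ↥(gv85_V res F hF)) (hx0 : (x : F) ≠ 0)
    (hinv : (x : F)⁻¹ ∈ gv85_V res F hF) : gr30_red res F hF x ≠ 0 := by
  intro h0
  have h1 : gr30_red res F hF (x * ⟨(x : F)⁻¹, hinv⟩) = 1 := by
    have h2 : x * ⟨(x : F)⁻¹, hinv⟩ = 1 := Subtype.ext (mul_inv_cancel₀ hx0)
    rw [h2, map_one]
  rw [map_mul, h0, zero_mul] at h1
  exact zero_ne_one h1

end gr30

end Fermat.Agent.S36
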