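import Fermat.Agent.S36.GlueBridge26
import Fermat.Agent.S36.LocalDatum55

/-!
# S36 lab, rows 602 + 603, helper26: the local datum at a TRIPLE point

`gcd26_datum_triple` = `gc26_triple` (row 602: the twisted unit has a common value at a triple
point) with `Bn := sf79_loc B n`, fed into `ld55_datum_at` (row 603, helper55: the per-point
clause of `s34i47_LocalDatum` from a common value) for the family `![V1, V2, V3]`.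

Conclusion: the clause of `s34i47_LocalDatum π m (V1 ⊓ V2 ⊓ V3) B u'` at the triple point `n`,
for `u' = (u ^ ((d+2) d) * θ ^ m) ^ k` (`d = q - 1`).
-/

set_option autoImplicit false

namespace Fermat.Agent.S36

open Fermat.Agent.S34

theorem gcd26_datum_triple {R F1 F2 : Type*} [CommRing R] [Field F1] [Field F2] [Algebra R F2]
    (π : R) (m d : ℕ) (hm0 : 0 < m) (B : Subalgebra R F2)
    (hmB : ∃ μ ∈ B, (m : F2) * μ = 1)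
    (V1 V2 V3 : ValuationSubring F2)
    (hBV1 : ∀ x ∈ B, x ∈ V1) (hBV2 : ∀ x ∈ B, x ∈ V2) (hBV3 : ∀ x ∈ B, x ∈ V3)
    (hπ1 : (algebraMap R F2 π)⁻¹ ∉ V1) (hπ2 : (algebraMap R F2 π)⁻¹ ∉ V2)
    (hπ3 : (algebraMap R F2 π)⁻¹ ∉ V3)
    (hrad1 : ∀ x ∈ V1, x⁻¹ ∉ V1 → ∃ k : ℕ, (algebraMap R F2 π)⁻¹ * x ^ k ∈ V1)
    (hrad2 : ∀ x ∈ V2, x⁻¹ ∉ V2 → ∃ k : ℕ, (algebraMap R F2 π)⁻¹ * x ^ k ∈ V2)
    (hrad3 : ∀ x ∈ V3, x⁻¹ ∉ V3 → ∃ k : ℕ, (algebraMap R F2 π)⁻¹ * x ^ k ∈ V3)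
    (harch1 : ∀ x ∈ B, x ≠ 0 → ∃ k : ℕ, (algebraMap R F2 π ^ k)⁻¹ * x ∉ V1)
    (harch2 : ∀ x ∈ B, x ≠ 0 → ∃ k : ℕ, (algebraMap R F2 π ^ k)⁻¹ * x ∉ V2)
    (harch3 : ∀ x ∈ B, x ≠ 0 → ∃ k : ℕ, (algebraMap R F2 π ^ k)⁻¹ * x ∉ V3)
    (hFrac : ∀ x : F2, ∃ a ∈ B, ∃ b ∈ B, b ≠ 0 ∧ x * b = a)
    (n : Ideal B) [hn : n.IsPrime]
    (hOn1 : sf79_OnBr π B V1.toSubring n) (hOn2 : sf79_OnBr π B V2.toSubring n)
    (hOn3 : sf79_OnBr π B V3.toSubring n)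
    -- the data along `α` and `β` (as in `gc26_triple`, with `Bn = sf79_loc B n`)
    (al be : F1 →+* F2) (Nal Nbe : F2 →* F1) (Vinf V0 : ValuationSubring F1)
    (Aal Abe : Subring F1)
    (hAB : ∀ x ∈ Aal, al x ∈ sf79_loc B n) (hAinf : ∀ x ∈ Aal, x ∈ Vinf)
    (hloc : ∀ x ∈ Aal, (al x)⁻¹ ∈ sf79_loc B n → x⁻¹ ∈ Aal)
    (hal3 : ∀ x : F1, V0.valuation x < 1 → V3.valuation (al x) < 1)
    (hO1 : ∀ b ∈ sf79_loc B n, ∃ a ∈ Aal, V1.valuation (al a - b) < 1)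
    (hO2 : ∀ b ∈ sf79_loc B n, ∃ a ∈ Aal, V2.valuation (al a - b) < 1)
    (hAB' : ∀ x ∈ Abe, be x ∈ sf79_loc B n) (hA0' : ∀ x ∈ Abe, x ∈ V0)
    (hloc' : ∀ x ∈ Abe, (be x)⁻¹ ∈ sf79_loc B n → x⁻¹ ∈ Abe)
    (hbe1 : ∀ x : F1, Vinf.valuation x < 1 → V1.valuation (be x) < 1)
    (hO3' : ∀ b ∈ sf79_loc B n, ∃ a ∈ Abe, V3.valuation (be a - b) < 1)
    (hO2' : ∀ b ∈ sf79_loc B n, ∃ a ∈ Abe, V2.valuation (be a - b) < 1)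
    (hrootA : ∀ x : F1, x ^ m ∈ Aal → x ∈ Aal) (hrootB : ∀ x : F1, x ^ m ∈ Abe → x ∈ Abe)
    (u c eps : F2) (hu : u = eps * c ^ m) (heps : eps ∈ sf79_loc B n)
    (heps' : eps⁻¹ ∈ sf79_loc B n)
    (hu1 : V1.valuation (u - 1) < 1) (hu2 : V2.valuation (u - 1) < 1)
    (hu3 : V3.valuation (u - 1) < 1)
    (Au cu tinf t0 : F1) (hNu : Nal u = cu * Au ^ m) (hAu : Au ≠ 0)
    (hNeps0 : Nal eps ≠ 0) (hNeps : (Nal eps)⁻¹ ∈ Aal) (hcu : cu ∈ Aal)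
    (htinf : tinf ∈ Aal) (ht0 : t0 ∈ Aal)
    (hAuinf : Vinf.valuation (Au - tinf) < 1) (hAu0 : V0.valuation (Au - t0) < 1)
    (hN1 : ∀ y1 y2 : F1, V1.valuation (al y1 - c) < 1 → V2.valuation (al y2 - c) < 1 →
        Vinf.valuation (Nal c - y1 * y2 ^ d) < 1)
    (hN2 : V3.valuation (al (Nal c) - c ^ (d + 1)) < 1)
    (Bu du sinf s0 : F1) (hNu' : Nbe u = du * Bu ^ m) (hBu : Bu ≠ 0)
    (hNeps0' : Nbe eps ≠ 0) (hNeps' : (Nbe eps)⁻¹ ∈ Abe) (hdu : du ∈ Abe)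
    (hsinf : sinf ∈ Abe) (hs0 : s0 ∈ Abe)
    (hBuinf : Vinf.valuation (Bu - sinf) < 1) (hBu0 : V0.valuation (Bu - s0) < 1)
    (hN4 : ∀ y3 y2 : F1, V3.valuation (be y3 - c) < 1 → V2.valuation (be y2 - c) < 1 →
        V0.valuation (Nbe c - y3 * y2 ^ d) < 1)
    (hN3 : V1.valuation (be (Nbe c) - c ^ (d + 1)) < 1)
    (htinf0 : tinf ≠ 0) (hsinf0 : sinf ≠ 0) (hs00 : s0 ≠ 0)
    (hTi : (al tinf)⁻¹ ∈ sf79_loc B n) (hSi : (be sinf)⁻¹ ∈ sf79_loc B n)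
    (hS0 : (be s0)⁻¹ ∈ sf79_loc B n)
    (b1 b2 b3 : F2) (hb1 : b1 ∈ sf79_loc B n) (hb2 : b2 ∈ sf79_loc B n)
    (hb3 : b3 ∈ sf79_loc B n)
    (hcb1 : V1.valuation (c - b1) < 1) (hcb2 : V2.valuation (c - b2) < 1)
    (hcb3 : V3.valuation (c - b3) < 1)
    (θ w1 w2 : F2) (hw1B : w1 ∈ sf79_loc B n) (hw2B : w2 ∈ sf79_loc B n)
    (hθ1 : V1.valuation (θ - w1) < 1) (hθ2 : V2.valuation (θ - w2) < 1)
    (hθ3 : V3.valuation (θ - 1) < 1)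
    (hw1 : sf79_nmem B n (w1 * (al tinf * be sinf) ^ d - (al t0 * be s0) ^ d))
    (hw2 : sf79_nmem B n (w2 * (al tinf ^ (d + 1) * be s0) - al t0 ^ (d + 1) * be sinf))
    (k : ℕ)
    (hu'1 : (algebraMap R F2 π)⁻¹ * ((u ^ ((d + 2) * d) * θ ^ m) ^ k - 1) ∈ V1)
    (hu'2 : (algebraMap R F2 π)⁻¹ * ((u ^ ((d + 2) * d) * θ ^ m) ^ k - 1) ∈ V2)
    (hu'3 : (algebraMap R F2 π)⁻¹ * ((u ^ ((d + 2) * d) * θ ^ m) ^ k - 1) ∈ V3) :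
    ∃ φ : F2, ((algebraMap R F2 π)⁻¹ * (φ - 1) ∈ V1 ∧ (algebraMap R F2 π)⁻¹ * (φ - 1) ∈ V2 ∧
        (algebraMap R F2 π)⁻¹ * (φ - 1) ∈ V3) ∧
      ∃ s : B, s ∉ n ∧ (s : F2) * (φ ^ m * (u ^ ((d + 2) * d) * θ ^ m) ^ k) ∈ B := by
  have := gcb26_isLocalRing B n
  have hB1 : ∀ x ∈ sf79_loc B n, x ∈ V1 := fun x hx => ld55_loc_le π B V1 hBV1 hrad1 n hOn1 x hx
  have hB2 : ∀ x ∈ sf79_loc B n, x ∈ V2 := fun x hx => ld55_loc_le π B V2 hBV2 hrad2 n hOn2 x hx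
  have hB3 : ∀ x ∈ sf79_loc B n, x ∈ V3 := fun x hx => ld55_loc_le π B V3 hBV3 hrad3 n hOn3 x hx
  obtain ⟨c', β1, β2, β3, hc'0, hε, hε', -, -, -, hβ1m, hβ2m, hβ3m, hv1, hv2, hv3⟩ :=
    gc26_triple al be Nal Nbe V1 V2 V3 Vinf V0 Aal Abe (sf79_loc B n) hB1 hB2 hB3
      hAB hAinf hloc hal3 hO1 hO2 hAB' hA0' hloc' hbe1 hO3' hO2' m d hm0 hrootA hrootB
      u c eps hu heps heps' hu1 hu2 hu3 Au cu tinf t0 hNu hAu hNeps0 hNeps hcu htinf ht0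
      hAuinf hAu0 hN1 hN2 Bu du sinf s0 hNu' hBu hNeps0' hNeps' hdu hsinf hs0 hBuinf hBu0
      hN4 hN3 htinf0 hsinf0 hs00 hTi hSi hS0 b1 b2 b3 hb1 hb2 hb3 hcb1 hcb2 hcb3
      θ w1 w2 hw1B hw2B hθ1 hθ2 hθ3
      ((gcb26_max_iff B n _).mpr hw1) ((gcb26_max_iff B n _).mpr hw2) k
  have key := ld55_datum_at π m hm0 B hmB (ι := Fin 3) ![V1, V2, V3]
    (by intro i; fin_cases i <;> assumption)
    (by intro i; fin_cases i <;> assumption)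
    (by intro i; fin_cases i <;> assumption)
    (by intro i; fin_cases i <;> assumption)
    hFrac n ((u ^ ((d + 2) * d) * θ ^ m) ^ k)
    (by intro i; fin_cases i <;> assumption)
    c' hc'0 hε hε' ![β1, β2, β3]
    (by
      intro i _
      fin_cases i
      · exact ⟨(gcb26_max_iff B n _).mp hβ1m, ld55_rad_val V1 _ hrad1 _ hv1⟩
      · exact ⟨(gcb26_max_iff B n _).mp hβ2m, ld55_rad_val V2 _ hrad2 _ hv2⟩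
      · exact ⟨(gcb26_max_iff B n _).mp hβ3m, ld55_rad_val V3 _ hrad3 _ hv3⟩)
  obtain ⟨φ, hφ, s, hs, hsφ⟩ := key
  exact ⟨φ, ⟨hφ 0, hφ 1, hφ 2⟩, s, hs, hsφ⟩

end Fermat.Agent.S36
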