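import Fermat.Agent.S36.CorePoints57
import Fermat.Agent.S36.GlueDatum26

/-!
# S36 lab, rows 602/605, helper26: the package (HP-3) of `CorePoints57` from frame facts

`gch26_HP3 : … → cp57_HP3 π q m B al be Nal Nbe V₁ V₂ V₃ Vinf V0` (the local datum of the
twisted unit `u₂` at the closed points lying on two branches = triple points), by
`gcd26_datum_triple`.  Inputs, all in literal elementwise shapes:

* the chart hypotheses of `ld55_datum_at` (`hBV`, `hπ`, `hrad`, `harch`, `hFrac`, `hmB`);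
* `hOn`: a closed point on two branches is on all three (`bk63_triple`);
* `hRoot`: the strong (LP) root at a triple point (`lps9_strong_at` / `ud57_decomp_at`);
* `hLift1..3`: the branch root lift at a triple point (`gblc26_lift_at`);
* `hTF`: `gch26_TripleFrame` = the local rings `Aal`, `Abe` of the level-`q` chart at `α(n)`,
  `β(n)` with: constants, `al Aal ≤ B_n` reflecting units, `Aal ≤ Vinf`, residue degree one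
  (`hO1`, `hO2`), root-closedness, `Nal B_n ≤ Aal` (only point over `α(n)`), and the `β` twins;
* global: `al`, `be` are `K`-linear, `al 𝔪(V0) ≤ 𝔪(V₃)`, `be 𝔪(Vinf) ≤ 𝔪(V₁)`, the norms do not
  vanish, and the four norm formulas `hN1`–`hN4` in congruence form for units of `W`.
-/

set_option autoImplicit false
set_option linter.unusedVariables false

namespace Fermat.Agent.S36

open Fermat.Agent.S18 Fermat.Agent.S34 Fermat.Agent.S35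

section

variable {R K F1 F2 : Type*} [CommRing R] [Field K] [Field F1] [Field F2] [Algebra R K]
  [Algebra K F1] [Algebra R F2] [Algebra K F2]

/-- `B_n` with an explicit primality proof. -/
def gch26_loc (B : Subalgebra R F2) (n : Ideal B) (hn : n.IsPrime) : Subring F2 :=
  @sf79_loc R F2 _ _ _ B n hn

/-- The frame facts at a triple point `n` consumed by `gcd26_datum_triple`. -/
def gch26_TripleFrame (K : Type*) [Field K] [Algebra R K] [Algebra K F1] (m : ℕ)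
    (B : Subalgebra R F2) (al be : F1 →+* F2) (Nal Nbe : F2 →* F1)
    (V₁ V₂ V₃ : ValuationSubring F2) (Vinf V0 : ValuationSubring F1)
    (n : Ideal B) (hn : n.IsPrime) : Prop :=
  ∃ Aal Abe : Subring F1,
    (∀ r : R, algebraMap K F1 (algebraMap R K r) ∈ Aal) ∧
    (∀ r : R, algebraMap K F1 (algebraMap R K r) ∈ Abe) ∧
    (∀ x ∈ Aal, al x ∈ gch26_loc B n hn) ∧ (∀ x ∈ Aal, x ∈ Vinf) ∧
    (∀ x ∈ Aal, (al x)⁻¹ ∈ gch26_loc B n hn → x⁻¹ ∈ Aal) ∧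
    (∀ b ∈ gch26_loc B n hn, ∃ a ∈ Aal, V₁.valuation (al a - b) < 1) ∧
    (∀ b ∈ gch26_loc B n hn, ∃ a ∈ Aal, V₂.valuation (al a - b) < 1) ∧
    (∀ x : F1, x ^ m ∈ Aal → x ∈ Aal) ∧
    (∀ x ∈ gch26_loc B n hn, Nal x ∈ Aal) ∧
    (∀ x ∈ Abe, be x ∈ gch26_loc B n hn) ∧ (∀ x ∈ Abe, x ∈ V0) ∧
    (∀ x ∈ Abe, (be x)⁻¹ ∈ gch26_loc B n hn → x⁻¹ ∈ Abe) ∧
    (∀ b ∈ gch26_loc B n hn, ∃ a ∈ Abe, V₃.valuation (be a - b) < 1) ∧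
    (∀ b ∈ gch26_loc B n hn, ∃ a ∈ Abe, V₂.valuation (be a - b) < 1) ∧
    (∀ x : F1, x ^ m ∈ Abe → x ∈ Abe) ∧
    (∀ x ∈ gch26_loc B n hn, Nbe x ∈ Abe)

/-- A function congruent to `1` modulo `𝔪(V)` is a unit of `V`. -/
theorem gch26_unit_of_one (V : ValuationSubring F2) (u : F2) (h : V.valuation (u - 1) < 1) :
    u ∈ V ∧ u⁻¹ ∈ V := by
  have hu : u ∈ V := by
    have e : u = (u - 1) + 1 := by ring
    rw [e]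
    exact add_mem (gc26_mem V h) (one_mem _)
  refine ⟨hu, ?_⟩
  by_contra hinv
  have hlt : V.valuation u < 1 := by
    rw [gcb26_val_lt_one_iff]
    exact ⟨hu, Or.inr hinv⟩
  have h1 : V.valuation (1 : F2) < 1 := by
    have e : (1 : F2) = u - (u - 1) := by ring
    rw [e]
    exact gc26_sub V hlt h
  rw [map_one] at h1
  exact lt_irrefl _ h1

/-- **(HP-3) from frame facts.** -/
theorem gch26_HP3 [IsScalarTower R K F2] (π : R) (q m : ℕ) (hq : 0 < q) (hm0 : 0 < m)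
    (B : Subalgebra R F2) (hmB : ∃ μ ∈ B, (m : F2) * μ = 1)
    (al be : F1 →+* F2) (Nal Nbe : F2 →* F1)
    (V₁ V₂ V₃ : ValuationSubring F2) (Vinf V0 : ValuationSubring F1)
    (hBV1 : ∀ x ∈ B, x ∈ V₁) (hBV2 : ∀ x ∈ B, x ∈ V₂) (hBV3 : ∀ x ∈ B, x ∈ V₃)
    (hπ1 : (algebraMap R F2 π)⁻¹ ∉ V₁) (hπ2 : (algebraMap R F2 π)⁻¹ ∉ V₂)
    (hπ3 : (algebraMap R F2 π)⁻¹ ∉ V₃)
    (hrad1 : ∀ x ∈ V₁, x⁻¹ ∉ V₁ → ∃ k : ℕ, (algebraMap R F2 π)⁻¹ * x ^ k ∈ V₁)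
    (hrad2 : ∀ x ∈ V₂, x⁻¹ ∉ V₂ → ∃ k : ℕ, (algebraMap R F2 π)⁻¹ * x ^ k ∈ V₂)
    (hrad3 : ∀ x ∈ V₃, x⁻¹ ∉ V₃ → ∃ k : ℕ, (algebraMap R F2 π)⁻¹ * x ^ k ∈ V₃)
    (harch1 : ∀ x ∈ B, x ≠ 0 → ∃ k : ℕ, (algebraMap R F2 π ^ k)⁻¹ * x ∉ V₁)
    (harch2 : ∀ x ∈ B, x ≠ 0 → ∃ k : ℕ, (algebraMap R F2 π ^ k)⁻¹ * x ∉ V₂)
    (harch3 : ∀ x ∈ B, x ≠ 0 → ∃ k : ℕ, (algebraMap R F2 π ^ k)⁻¹ * x ∉ V₃)
    (hFrac : ∀ x : F2, ∃ a ∈ B, ∃ b ∈ B, b ≠ 0 ∧ x * b = a)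
    (halK : ∀ x : K, al (algebraMap K F1 x) = algebraMap K F2 x)
    (hbeK : ∀ x : K, be (algebraMap K F1 x) = algebraMap K F2 x)
    (hal3 : ∀ x : F1, V0.valuation x < 1 → V₃.valuation (al x) < 1)
    (hbe1 : ∀ x : F1, Vinf.valuation x < 1 → V₁.valuation (be x) < 1)
    (hNal0 : ∀ x : F2, x ≠ 0 → Nal x ≠ 0) (hNbe0 : ∀ x : F2, x ≠ 0 → Nbe x ≠ 0)
    (hN1 : ∀ c : F2, (c ∈ V₁ ∧ c⁻¹ ∈ V₁) → (c ∈ V₂ ∧ c⁻¹ ∈ V₂) → (c ∈ V₃ ∧ c⁻¹ ∈ V₃) →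
      ∀ y1 y2 : F1, V₁.valuation (al y1 - c) < 1 → V₂.valuation (al y2 - c) < 1 →
        Vinf.valuation (Nal c - y1 * y2 ^ (q - 1)) < 1)
    (hN2 : ∀ c : F2, (c ∈ V₁ ∧ c⁻¹ ∈ V₁) → (c ∈ V₂ ∧ c⁻¹ ∈ V₂) → (c ∈ V₃ ∧ c⁻¹ ∈ V₃) →
      V₃.valuation (al (Nal c) - c ^ q) < 1)
    (hN4 : ∀ c : F2, (c ∈ V₁ ∧ c⁻¹ ∈ V₁) → (c ∈ V₂ ∧ c⁻¹ ∈ V₂) → (c ∈ V₃ ∧ c⁻¹ ∈ V₃) →
      ∀ y3 y2 : F1, V₃.valuation (be y3 - c) < 1 → V₂.valuation (be y2 - c) < 1 →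
        V0.valuation (Nbe c - y3 * y2 ^ (q - 1)) < 1)
    (hN3 : ∀ c : F2, (c ∈ V₁ ∧ c⁻¹ ∈ V₁) → (c ∈ V₂ ∧ c⁻¹ ∈ V₂) → (c ∈ V₃ ∧ c⁻¹ ∈ V₃) →
      V₁.valuation (be (Nbe c) - c ^ q) < 1)
    (hOn : ∀ n : Ideal B, n.IsMaximal → algebraMap R B π ∈ n → ¬ cp57_OneBr π B V₁ V₂ V₃ n →
      sf79_OnBr π B V₁.toSubring n ∧ sf79_OnBr π B V₂.toSubring n ∧
        sf79_OnBr π B V₃.toSubring n)
    (hRoot : ∀ n : Ideal B, n.IsMaximal → algebraMap R B π ∈ n →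
      ¬ cp57_OneBr π B V₁ V₂ V₃ n →
      ∀ u : F2, u ≠ 0 → s34i47_Ord π m u → s34i47_Fin π u →
        (u ∈ V₁ ∧ u⁻¹ ∈ V₁) → (u ∈ V₂ ∧ u⁻¹ ∈ V₂) → (u ∈ V₃ ∧ u⁻¹ ∈ V₃) →
        ∃ c : F2, c ≠ 0 ∧ (c ∈ V₁ ∧ c⁻¹ ∈ V₁) ∧ (c ∈ V₂ ∧ c⁻¹ ∈ V₂) ∧ (c ∈ V₃ ∧ c⁻¹ ∈ V₃) ∧
          (∃ s : B, s ∉ n ∧ (s : F2) * (u / c ^ m) ∈ B) ∧
          (∃ s : B, s ∉ n ∧ (s : F2) * (c ^ m / u) ∈ B))
    (hLift1 : ∀ (n : Ideal B) (hn : n.IsMaximal), algebraMap R B π ∈ n →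
      ¬ cp57_OneBr π B V₁ V₂ V₃ n → ∀ c e : F2, c ∈ V₁ → e ≠ 0 →
        e ∈ gch26_loc B n hn.isPrime → e⁻¹ ∈ gch26_loc B n hn.isPrime →
        V₁.valuation (c ^ m - e) < 1 → ∃ b ∈ gch26_loc B n hn.isPrime, V₁.valuation (c - b) < 1)
    (hLift2 : ∀ (n : Ideal B) (hn : n.IsMaximal), algebraMap R B π ∈ n →
      ¬ cp57_OneBr π B V₁ V₂ V₃ n → ∀ c e : F2, c ∈ V₂ → e ≠ 0 →
        e ∈ gch26_loc B n hn.isPrime → e⁻¹ ∈ gch26_loc B n hn.isPrime →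
        V₂.valuation (c ^ m - e) < 1 → ∃ b ∈ gch26_loc B n hn.isPrime, V₂.valuation (c - b) < 1)
    (hLift3 : ∀ (n : Ideal B) (hn : n.IsMaximal), algebraMap R B π ∈ n →
      ¬ cp57_OneBr π B V₁ V₂ V₃ n → ∀ c e : F2, c ∈ V₃ → e ≠ 0 →
        e ∈ gch26_loc B n hn.isPrime → e⁻¹ ∈ gch26_loc B n hn.isPrime →
        V₃.valuation (c ^ m - e) < 1 → ∃ b ∈ gch26_loc B n hn.isPrime, V₃.valuation (c - b) < 1)
    (hTF : ∀ (n : Ideal B) (hn : n.IsMaximal), algebraMap R B π ∈ n →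
      ¬ cp57_OneBr π B V₁ V₂ V₃ n →
      gch26_TripleFrame K m B al be Nal Nbe V₁ V₂ V₃ Vinf V0 n hn.isPrime) :
    cp57_HP3 (K := K) π q m B al be Nal Nbe V₁ V₂ V₃ Vinf V0 := by
  intro u cu Au tinf t0 du Bu sinf s0 θ hu0 hOrd hFin hdata hθ n hn hπn hnone
  have hnp : n.IsPrime := hn.isPrime
  have hq1 : q - 1 + 1 = q := Nat.sub_add_cancel hq
  obtain ⟨hOn1, hOn2, hOn3⟩ := hOn n hn hπn hnone
  obtain ⟨Aal, Abe, hRA, hRB, hAB, hAinf, hloc, hO1, hO2, hrootA, hNA, hAB', hA0', hloc',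
    hO3', hO2', hrootB, hNB⟩ := hTF n hn hπn hnone
  obtain ⟨hu1, hu2, hu3, hNu, hAu, hNu', hBu, ⟨rcu, hrcu⟩, ⟨rti, hrti⟩, ⟨rt0, hrt0⟩,
    ⟨rdu, hrdu⟩, ⟨rsi, hrsi⟩, ⟨rs0, hrs0⟩, hAuinf, hAu0, hBuinf, hBu0⟩ := hdata
  obtain ⟨hθ0, -, -, -, ⟨w₁, w₂, hθ1, hθ2, hθ3, hw1, hw2⟩, hu'1, hu'2, hu'3⟩ := hθ
  -- the root
  obtain ⟨c, hc0, hcU1, hcU2, hcU3, ⟨s, hs, hsε⟩, ⟨s', hs', hsε'⟩⟩ :=
    hRoot n hn hπn hnone u hu0 hOrd hFin (gch26_unit_of_one V₁ u hu1)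
      (gch26_unit_of_one V₂ u hu2) (gch26_unit_of_one V₃ u hu3)
  have hcm0 : c ^ m ≠ 0 := pow_ne_zero m hc0
  have heps0 : u / c ^ m ≠ 0 := div_ne_zero hu0 hcm0
  have heps : u / c ^ m ∈ sf79_loc B n := ⟨s, hs, hsε⟩
  have heps' : (u / c ^ m)⁻¹ ∈ sf79_loc B n := by
    rw [inv_div]
    exact ⟨s', hs', hsε'⟩
  have hu : u = u / c ^ m * c ^ m := by
    field_simp
  -- lifts
  have hlift : ∀ V : ValuationSubring F2, V.valuation (u - 1) < 1 → c ∈ V →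
      V.valuation (c ^ m - (u / c ^ m)⁻¹) < 1 := by
    intro V hV hcV
    have e : c ^ m - (u / c ^ m)⁻¹ = (c ^ m * u⁻¹) * (u - 1) := by
      rw [inv_div]
      field_simp
    rw [e]
    exact gc26_mul V (mul_mem (pow_mem hcV m) (gch26_unit_of_one V u hV).2) hV
  obtain ⟨b1, hb1, hcb1⟩ := hLift1 n hn hπn hnone c (u / c ^ m)⁻¹ hcU1.1 (inv_ne_zero heps0)
    heps' (by rw [inv_inv]; exact heps) (hlift V₁ hu1 hcU1.1)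
  obtain ⟨b2, hb2, hcb2⟩ := hLift2 n hn hπn hnone c (u / c ^ m)⁻¹ hcU2.1 (inv_ne_zero heps0)
    heps' (by rw [inv_inv]; exact heps) (hlift V₂ hu2 hcU2.1)
  obtain ⟨b3, hb3, hcb3⟩ := hLift3 n hn hπn hnone c (u / c ^ m)⁻¹ hcU3.1 (inv_ne_zero heps0)
    heps' (by rw [inv_inv]; exact heps) (hlift V₃ hu3 hcU3.1)
  -- constants
  have hcK0 : ∀ r : Rˣ, algebraMap K F1 (algebraMap R K (r : R)) ≠ 0 := by
    intro r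
    have h1 : algebraMap R K (r : R) ≠ 0 := (r.isUnit.map (algebraMap R K)).ne_zero
    exact (map_ne_zero (algebraMap K F1)).mpr h1
  have hcinv : ∀ r : Rˣ, (algebraMap K F2 (algebraMap R K (r : R)))⁻¹ ∈ sf79_loc B n := by
    intro r
    have h1 : algebraMap K F2 (algebraMap R K (r : R)) = algebraMap R F2 (r : R) :=
      (IsScalarTower.algebraMap_apply R K F2 (r : R)).symm
    have h2 : algebraMap R F2 (r : R) * algebraMap R F2 ((r⁻¹ : Rˣ) : R) = 1 := by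
      rw [← map_mul, Units.mul_inv, map_one]
    have h3 : (algebraMap R F2 (r : R))⁻¹ = algebraMap R F2 ((r⁻¹ : Rˣ) : R) :=
      (eq_inv_of_mul_eq_one_right h2).symm
    rw [h1, h3]
    exact sf79_le_loc B n _ (B.algebraMap_mem _)
  have hNinv : ∀ (N : F2 →* F1) (x : F2), x ≠ 0 → N x⁻¹ = (N x)⁻¹ := by
    intro N x hx
    have h1 : N x * N x⁻¹ = 1 := by rw [← map_mul, mul_inv_cancel₀ hx, map_one]
    exact eq_inv_of_mul_eq_one_right h1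
  have hNepsA : (Nal (u / c ^ m))⁻¹ ∈ Aal := by
    rw [← hNinv Nal _ heps0]
    exact hNA _ heps'
  have hNepsB : (Nbe (u / c ^ m))⁻¹ ∈ Abe := by
    rw [← hNinv Nbe _ heps0]
    exact hNB _ heps'
  have hw1' : sf79_nmem B n (algebraMap R F2 w₁ * (al tinf * be sinf) ^ (q - 1) -
      (al t0 * be s0) ^ (q - 1)) := by
    rw [hw1, sub_self]
    exact gcb26_nmem_zero B n
  have hw2' : sf79_nmem B n (algebraMap R F2 w₂ * (al tinf ^ (q - 1 + 1) * be s0) -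
      al t0 ^ (q - 1 + 1) * be sinf) := by
    rw [hw2, sub_self]
    exact gcb26_nmem_zero B n
  obtain ⟨φ, ⟨h1, h2, h3⟩, s'', hs'', hφ⟩ := gcd26_datum_triple π m (q - 1) hm0 B hmB
    V₁ V₂ V₃ hBV1 hBV2 hBV3 hπ1 hπ2 hπ3 hrad1 hrad2 hrad3 harch1 harch2 harch3 hFrac n
    hOn1 hOn2 hOn3 al be Nal Nbe Vinf V0 Aal Abe hAB hAinf hloc hal3 hO1 hO2 hAB' hA0' hloc'
    hbe1 hO3' hO2' hrootA hrootB u c (u / c ^ m) hu heps heps' hu1 hu2 hu3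
    Au cu tinf t0 hNu hAu (hNal0 _ heps0) hNepsA (hrcu ▸ hRA _) (hrti ▸ hRA _) (hrt0 ▸ hRA _)
    hAuinf hAu0 (hN1 c hcU1 hcU2 hcU3) (by rw [hq1]; exact hN2 c hcU1 hcU2 hcU3)
    Bu du sinf s0 hNu' hBu (hNbe0 _ heps0) hNepsB (hrdu ▸ hRB _) (hrsi ▸ hRB _) (hrs0 ▸ hRB _)
    hBuinf hBu0 (hN4 c hcU1 hcU2 hcU3) (by rw [hq1]; exact hN3 c hcU1 hcU2 hcU3)
    (hrti ▸ hcK0 rti) (hrsi ▸ hcK0 rsi) (hrs0 ▸ hcK0 rs0)
    (by rw [hrti, halK]; exact hcinv rti) (by rw [hrsi, hbeK]; exact hcinv rsi)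
    (by rw [hrs0, hbeK]; exact hcinv rs0)
    b1 b2 b3 hb1 hb2 hb3 hcb1 hcb2 hcb3 θ (algebraMap R F2 w₁) (algebraMap R F2 w₂)
    (sf79_le_loc B n _ (B.algebraMap_mem _)) (sf79_le_loc B n _ (B.algebraMap_mem _))
    hθ1 hθ2 hθ3 hw1' hw2' q hu'1 hu'2 hu'3
  exact ⟨φ, Subring.mem_inf.mpr ⟨Subring.mem_inf.mpr ⟨h1, h2⟩, h3⟩, s'', hs'', hφ⟩

end

end Fermat.Agent.S36
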