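import Mathlib

/-!
# S36 lab (pre-GO), helper47: the Nakayama gluing lemma

Mathlib only.  `A` a local ring (think `B_n / π B_n`), `Q` an `A`-algebra (think
`∏ V_i / π V_i`, the product over the vertical valuations through `n`), `c : Q` with
`c ^ m = a ∈ A`, `m` a unit of `A`, `a ≡ 1 mod 𝔪_A`, and `∏ (c - b_i) ^ k_i = 0` with
`b_i ∈ A`, `b_i ≡ 1 mod 𝔪_A` (i.e. `c ≡ b_i` modulo the nilradical of the `i`-th factor:
"the residues of `c` on the branches lie in `O_i` and have the common value `1` at `n`").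
Then `c` lies in the image of `A`.

Proof: in `R := A[c]`, modulo `𝔪_A R`, `c - 1` is nilpotent and `(c - 1) * g(c) = 0` with
`g(c) = m + nilpotent` a unit; so `c - 1 ∈ 𝔪_A R`, `R = A + 𝔪_A R`, and Nakayama gives `R = A`.
-/

set_option autoImplicit false

namespace Fermat.Agent.S36

open IsLocalRing

/-- **Nakayama gluing lemma, abstract form.** -/
theorem gl47_root_mem {A Q : Type*} [CommRing A] [IsLocalRing A] [CommRing Q] [Algebra A Q]
    (c : Q) (m : ℕ) (hm : IsUnit (m : A)) (a : A) (ha : a - 1 ∈ maximalIdeal A)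
    (hc : c ^ m = algebraMap A Q a)
    {ι : Type*} (s : Finset ι) (b : ι → A) (k : ι → ℕ)
    (hb : ∀ i ∈ s, b i - 1 ∈ maximalIdeal A)
    (hprod : ∏ i ∈ s, (c - algebraMap A Q (b i)) ^ k i = 0) :
    ∃ a' : A, a' - 1 ∈ maximalIdeal A ∧ algebraMap A Q a' = c := by
  classical
  have hm0 : m ≠ 0 := by
    rintro rfl
    simp at hm
  set R : Subalgebra A Q := Algebra.adjoin A {c} with hR
  have hcR : c ∈ R := Algebra.subset_adjoin (Set.mem_singleton c)
  set c' : R := ⟨c, hcR⟩ with hc'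
  set J : Ideal R := (maximalIdeal A).map (algebraMap A R) with hJ
  have hmk : ∀ t : A, t - 1 ∈ maximalIdeal A →
      Ideal.Quotient.mk J (algebraMap A R t) = 1 := by
    intro t ht
    rw [← map_one (Ideal.Quotient.mk J), Ideal.Quotient.eq]
    have e : algebraMap A R t - 1 = algebraMap A R (t - 1) := by
      rw [map_sub, map_one]
    rw [e]
    exact Ideal.mem_map_of_mem _ ht
  set x : R ⧸ J := Ideal.Quotient.mk J c' with hx
  have hxm : x ^ m = 1 := by
    have e : c' ^ m = algebraMap A R a := Subtype.ext (by simpa using hc)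
    rw [hx, ← map_pow, e]
    exact hmk a ha
  have hnil : IsNilpotent (x - 1) := by
    refine ⟨∑ i ∈ s, k i, ?_⟩
    have h0 : ∏ i ∈ s, (c' - algebraMap A R (b i)) ^ k i = 0 := by
      apply Subtype.ext
      simpa using hprod
    have h1 := congrArg (Ideal.Quotient.mk J) h0
    rw [map_prod, map_zero] at h1
    rw [← Finset.prod_pow_eq_pow_sum, ← h1]
    refine Finset.prod_congr rfl (fun i hi => ?_)
    rw [map_pow, map_sub, hmk (b i) (hb i hi)]
  have hmu : IsUnit ((m : ℕ) : R ⧸ J) := by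
    have := hm.map (algebraMap A (R ⧸ J))
    simpa using this
  have hgu : IsUnit (∑ i ∈ Finset.range m, x ^ i) := by
    have e : ∑ i ∈ Finset.range m, x ^ i =
        ((m : ℕ) : R ⧸ J) + ∑ i ∈ Finset.range m, (x ^ i - 1) := by
      rw [Finset.sum_sub_distrib]
      simp
    rw [e]
    have hn : IsNilpotent (∑ i ∈ Finset.range m, (x ^ i - 1)) := by
      refine isNilpotent_sum (fun i _ => ?_)
      have e2 : x ^ i - 1 = (x - 1) * ∑ j ∈ Finset.range i, x ^ j := by
        rw [mul_comm, geom_sum_mul]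
      rw [e2]
      exact (Commute.all _ _).isNilpotent_mul_right hnil
    exact hn.isUnit_add_left_of_commute hmu (Commute.all _ _)
  have hx1 : x - 1 = 0 := by
    have e : (∑ i ∈ Finset.range m, x ^ i) * (x - 1) = 0 := by
      rw [geom_sum_mul, hxm, sub_self]
    exact (hgu.mul_right_eq_zero).mp e
  have hcJ : c' - 1 ∈ J := by
    rw [← Ideal.Quotient.eq_zero_iff_mem, map_sub, map_one]
    exact hx1
  -- every element of `R` is congruent to an element of `A` modulo `J`
  have key : ∀ (y : Q) (hy : y ∈ R), ∃ t : A, (⟨y, hy⟩ : R) - algebraMap A R t ∈ J := by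
    intro y hy
    induction hy using Algebra.adjoin_induction with
    | mem y hy =>
      refine ⟨1, ?_⟩
      have : y = c := hy
      subst this
      rw [map_one]
      exact hcJ
    | algebraMap r =>
      refine ⟨r, ?_⟩
      have : (⟨algebraMap A Q r, R.algebraMap_mem r⟩ : R) = algebraMap A R r := rfl
      rw [this, sub_self]
      exact J.zero_mem
    | add y z hy hz ihy ihz =>
      obtain ⟨t1, h1⟩ := ihy
      obtain ⟨t2, h2⟩ := ihz
      refine ⟨t1 + t2, ?_⟩
      have e : (⟨y + z, R.add_mem hy hz⟩ : R) - algebraMap A R (t1 + t2) =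
          ((⟨y, hy⟩ : R) - algebraMap A R t1) + ((⟨z, hz⟩ : R) - algebraMap A R t2) := by
        rw [map_add]
        apply Subtype.ext
        simp only [Subalgebra.coe_sub, Subalgebra.coe_add]
        ring
      rw [e]
      exact J.add_mem h1 h2
    | mul y z hy hz ihy ihz =>
      obtain ⟨t1, h1⟩ := ihy
      obtain ⟨t2, h2⟩ := ihz
      refine ⟨t1 * t2, ?_⟩
      have e : (⟨y * z, R.mul_mem hy hz⟩ : R) - algebraMap A R (t1 * t2) =
          ((⟨y, hy⟩ : R) - algebraMap A R t1) * ⟨z, hz⟩ +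
            algebraMap A R t1 * ((⟨z, hz⟩ : R) - algebraMap A R t2) := by
        rw [map_mul]
        apply Subtype.ext
        simp only [Subalgebra.coe_sub, Subalgebra.coe_add, Subalgebra.coe_mul]
        ring
      rw [e]
      exact J.add_mem (J.mul_mem_right _ h1) (J.mul_mem_left _ h2)
  -- `R` is a finite `A`-module
  have hint : IsIntegral A c := by
    refine ⟨Polynomial.X ^ m - Polynomial.C a, Polynomial.monic_X_pow_sub_C a hm0, ?_⟩
    simp [hc]
  have hfg : (⊤ : Submodule A R).FG := by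
    have h1 : (Algebra.adjoin A {c}).toSubmodule.FG := hint.fg_adjoin_singleton
    have h2 : Module.Finite A R := Module.Finite.of_fg h1
    exact Module.finite_def.mp h2
  -- Nakayama
  have htop : (⊤ : Submodule A R) ≤ Submodule.span A {(1 : R)} := by
    refine Submodule.le_of_le_smul_of_le_jacobson_bot (I := maximalIdeal A) hfg
      (IsLocalRing.maximalIdeal_le_jacobson ⊥) ?_
    intro r _
    obtain ⟨t, ht⟩ := key r.1 r.2
    have e : r = algebraMap A R t + (r - algebraMap A R t) := by ring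
    rw [e]
    refine Submodule.add_mem_sup ?_ ?_
    · rw [Algebra.algebraMap_eq_smul_one]
      exact Submodule.smul_mem _ _ (Submodule.subset_span (Set.mem_singleton _))
    · rw [Ideal.smul_top_eq_map]
      exact ht
  have hcs : c' ∈ Submodule.span A {(1 : R)} := htop Submodule.mem_top
  obtain ⟨t, ht⟩ := Submodule.mem_span_singleton.mp hcs
  have htc : algebraMap A Q t = c := by
    have := congrArg (fun z : R => (z : Q)) ht
    simpa [Algebra.algebraMap_eq_smul_one] using this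
  by_cases h10 : (1 : Q) = 0
  · refine ⟨1, by simp, ?_⟩
    have : ∀ z w : Q, z = w := fun z w => by
      rw [← mul_one z, ← mul_one w, h10, mul_zero, mul_zero]
    exact this _ _
  · refine ⟨t, ?_, htc⟩
    by_contra hnot
    have hu : ∀ i ∈ s, IsUnit (t - b i) := by
      intro i hi
      by_contra hnu
      have h1 : t - b i ∈ maximalIdeal A := (IsLocalRing.mem_maximalIdeal _).mpr hnu
      have h2 : t - 1 = (t - b i) + (b i - 1) := by ring
      exact hnot (h2 ▸ (maximalIdeal A).add_mem h1 (hb i hi))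
    have hU : IsUnit (∏ i ∈ s, (t - b i) ^ k i) := by
      rw [IsUnit.prod_iff]
      intro i hi
      exact (hu i hi).pow _
    have h0 : algebraMap A Q (∏ i ∈ s, (t - b i) ^ k i) = 0 := by
      rw [map_prod, ← hprod]
      refine Finset.prod_congr rfl (fun i _ => ?_)
      rw [map_pow, map_sub, htc]
    have := (hU.map (algebraMap A Q))
    rw [h0] at this
    exact h10 (isUnit_zero_iff.mp this).symm

/-- **Nakayama gluing lemma, field form.**  `Bn ⊆ F` a local subring (the local ring of the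
chart at a closed point `n`), `π ∈ 𝔪(Bn)`, `V i` finitely many valuation subrings of `F`
containing `Bn` (the vertical valuations through `n`).  Let `c ∈ ⋂ V i` with
`c ^ m ≡ a mod π V i` for some `a ∈ Bn`, `a ≡ 1 mod 𝔪(Bn)`, `m` invertible in `Bn`, and suppose
that for each `i` there is `b i ∈ Bn`, `b i ≡ 1 mod 𝔪(Bn)`, with `(c - b i) ^ k ∈ π V i` for
some `k` (i.e. `c ≡ b i` modulo the maximal ideal of `V i`: the residue of `c` on the `i`-th
branch lies in `Bn / p_i` and has the value `1` at `n`).  Then there is `e ∈ Bn`,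
`e ≡ 1 mod 𝔪(Bn)`, with `c ≡ e mod π V i` for every `i`. -/
theorem gl47_glue {F : Type*} [Field F] (Bn : Subring F) [IsLocalRing Bn]
    (π : F) (hπ0 : π ≠ 0) (hπ : π ∈ Bn) (hπn : (⟨π, hπ⟩ : Bn) ∈ maximalIdeal Bn)
    {ι : Type*} [Finite ι] (V : ι → ValuationSubring F) (hBV : ∀ i, ∀ x ∈ Bn, x ∈ V i)
    (m : ℕ) (hm : ∃ μ ∈ Bn, (m : F) * μ = 1)
    (c a : F) (hcV : ∀ i, c ∈ V i) (ha : a ∈ Bn)
    (ha1 : (⟨a, ha⟩ : Bn) - 1 ∈ maximalIdeal Bn)
    (hcm : ∀ i, π⁻¹ * (c ^ m - a) ∈ V i)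
    (b : ι → F) (hb : ∀ i, b i ∈ Bn)
    (hb1 : ∀ i, (⟨b i, hb i⟩ : Bn) - 1 ∈ maximalIdeal Bn)
    (hcb : ∀ i, ∃ k : ℕ, π⁻¹ * (c - b i) ^ k ∈ V i) :
    ∃ (e : F) (he : e ∈ Bn), (⟨e, he⟩ : Bn) - 1 ∈ maximalIdeal Bn ∧
      ∀ i, π⁻¹ * (c - e) ∈ V i := by
  classical
  have : Fintype ι := Fintype.ofFinite ι
  set I : Ideal Bn := Ideal.span {(⟨π, hπ⟩ : Bn)} with hI
  have hIm : I ≤ maximalIdeal Bn := by
    rw [hI, Ideal.span_le]
    intro x hx
    have : x = ⟨π, hπ⟩ := hx
    rw [this]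
    exact hπn
  have hItop : I ≠ ⊤ := fun h => (IsLocalRing.maximalIdeal.isMaximal Bn).ne_top
    (top_le_iff.mp (h ▸ hIm))
  have : Nontrivial (Bn ⧸ I) := Ideal.Quotient.nontrivial_iff.mpr hItop
  have : IsLocalRing (Bn ⧸ I) :=
    IsLocalRing.of_surjective' (Ideal.Quotient.mk I) Ideal.Quotient.mk_surjective
  have : IsLocalHom (Ideal.Quotient.mk I) :=
    IsLocalHom.of_surjective (Ideal.Quotient.mk I) Ideal.Quotient.mk_surjective
  -- the target `Q = ∏ V i / π`
  let Ii : ∀ i, Ideal (V i) := fun i => Ideal.span {(⟨π, hBV i π hπ⟩ : V i)}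
  have hmemI : ∀ (i : ι) (y : F) (hy : y ∈ V i), π⁻¹ * y ∈ V i → (⟨y, hy⟩ : V i) ∈ Ii i := by
    intro i y hy h
    refine Ideal.mem_span_singleton'.mpr ⟨⟨π⁻¹ * y, h⟩, ?_⟩
    apply Subtype.ext
    show π⁻¹ * y * π = y
    field_simp
  have hIimem : ∀ (i : ι) (y : V i), y ∈ Ii i → π⁻¹ * (y : F) ∈ V i := by
    intro i y hy
    obtain ⟨z, hz⟩ := Ideal.mem_span_singleton'.mp hy
    have : (y : F) = (z : F) * π := by rw [← hz]; rfl
    rw [this]
    have e : π⁻¹ * ((z : F) * π) = (z : F) := by field_simp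
    rw [e]
    exact z.2
  let f : Bn →+* ((i : ι) → (V i) ⧸ Ii i) :=
    RingHom.pi (fun i => (Ideal.Quotient.mk (Ii i)).comp
      (Subring.inclusion (fun x hx => hBV i x hx : Bn ≤ (V i).toSubring)))
  have hfπ : ∀ x ∈ I, f x = 0 := by
    intro x hx
    obtain ⟨z, hz⟩ := Ideal.mem_span_singleton'.mp hx
    funext i
    show Ideal.Quotient.mk (Ii i) (Subring.inclusion _ x) = 0
    rw [Ideal.Quotient.eq_zero_iff_mem]
    refine Ideal.mem_span_singleton'.mpr ⟨⟨(z : F), hBV i _ z.2⟩, ?_⟩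
    apply Subtype.ext
    rw [← hz]
    rfl
  let : Algebra (Bn ⧸ I) ((i : ι) → (V i) ⧸ Ii i) := (Ideal.Quotient.lift I f hfπ).toAlgebra
  have halg : ∀ (x : F) (hx : x ∈ Bn) (i : ι),
      algebraMap (Bn ⧸ I) ((i : ι) → (V i) ⧸ Ii i) (Ideal.Quotient.mk I ⟨x, hx⟩) i =
        Ideal.Quotient.mk (Ii i) ⟨x, hBV i x hx⟩ := fun x hx i => rfl
  -- the element `c`
  let cQ : (i : ι) → (V i) ⧸ Ii i := fun i => Ideal.Quotient.mk (Ii i) ⟨c, hcV i⟩
  choose k hk using hcb
  obtain ⟨μ, hμB, hμ⟩ := hm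
  have hmu : IsUnit ((m : ℕ) : Bn ⧸ I) := by
    refine IsUnit.of_mul_eq_one (Ideal.Quotient.mk I ⟨μ, hμB⟩) ?_
    have : ((m : ℕ) : Bn) * ⟨μ, hμB⟩ = 1 := by
      apply Subtype.ext
      simpa using hμ
    rw [← map_natCast (Ideal.Quotient.mk I), ← map_mul, this, map_one]
  obtain ⟨a', ha', hca'⟩ := gl47_root_mem (A := Bn ⧸ I) (Q := (i : ι) → (V i) ⧸ Ii i)
    cQ m hmu (Ideal.Quotient.mk I ⟨a, ha⟩)
    (by
      have := map_nonunit (Ideal.Quotient.mk I) _ ha1
      simpa using this)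
    (by
      funext i
      rw [halg a ha i]
      show (Ideal.Quotient.mk (Ii i) ⟨c, hcV i⟩) ^ m = _
      rw [← map_pow, Ideal.Quotient.eq]
      have hcmV : c ^ m - a ∈ V i := (V i).sub_mem ((V i).pow_mem (hcV i) m) (hBV i a ha)
      have := hmemI i (c ^ m - a) hcmV (hcm i)
      exact this)
    Finset.univ (fun i => Ideal.Quotient.mk I ⟨b i, hb i⟩) k
    (fun i _ => by
      have := map_nonunit (Ideal.Quotient.mk I) _ (hb1 i)
      simpa using this)
    (by
      funext j
      rw [Finset.prod_apply]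
      refine Finset.prod_eq_zero (Finset.mem_univ j) ?_
      show (cQ j - algebraMap (Bn ⧸ I) ((i : ι) → (V i) ⧸ Ii i)
        (Ideal.Quotient.mk I ⟨b j, hb j⟩) j) ^ k j = 0
      rw [halg (b j) (hb j) j]
      show (Ideal.Quotient.mk (Ii j) ⟨c, hcV j⟩ - _) ^ k j = 0
      rw [← map_sub, ← map_pow, Ideal.Quotient.eq_zero_iff_mem]
      have hV : (c - b j) ^ k j ∈ V j :=
        (V j).pow_mem ((V j).sub_mem (hcV j) (hBV j _ (hb j))) _
      exact hmemI j ((c - b j) ^ k j) hV (hk j))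
  obtain ⟨e, rfl⟩ := Ideal.Quotient.mk_surjective a'
  refine ⟨(e : F), e.2, ?_, ?_⟩
  · by_contra hnot
    have hu : IsUnit ((⟨(e : F), e.2⟩ : Bn) - 1) := by
      by_contra h
      exact hnot ((IsLocalRing.mem_maximalIdeal _).mpr h)
    have : IsUnit (Ideal.Quotient.mk I e - 1) := by
      have := hu.map (Ideal.Quotient.mk I)
      simpa using this
    exact ((IsLocalRing.mem_maximalIdeal _).mp ha') this
  · intro i
    have h1 := congrFun hca' i
    rw [halg (e : F) e.2 i] at h1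
    have h2 : Ideal.Quotient.mk (Ii i) ⟨c, hcV i⟩ = Ideal.Quotient.mk (Ii i) ⟨(e : F), hBV i _ e.2⟩ :=
      h1.symm
    rw [Ideal.Quotient.eq] at h2
    exact hIimem i _ h2

end Fermat.Agent.S36
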