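import Mathlib

/-!
# S36 (pre-lab, helper84): the gluing-root lemma (G3), Mathlib only

`A ⊆ T` a subring, `N` an ideal of `T` with `N ^ k ⊆ A` (conductor), every `b ∈ A` with
`b - 1 ∈ N` invertible in `A`, `m = d + 1` invertible in `A`.  If `a ∈ T` is congruent modulo `N`
to a unit `l` of `A` and `a ^ m ∈ A`, then `a ∈ A`.

Intended use: `T = ∏ᵢ Aᵢ` (the branches at a multiple point of the special fibre), `A` the image
of the local ring of the fibre, `N = ∏ᵢ nᵢ`.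
-/

set_option autoImplicit false

namespace Fermat.Agent.S36

/-- `(b + r)^(d+1) = b^(d+1) + (d+1) b^d r + r² c`. -/
theorem g3x84_binom {T : Type*} [CommRing T] (b r : T) (d : ℕ) :
    ∃ c : T, (b + r) ^ (d + 1) = b ^ (d + 1) + ((d + 1 : ℕ) : T) * b ^ d * r + r ^ 2 * c := by
  induction d with
  | zero => exact ⟨0, by simp⟩
  | succ d ih =>
    obtain ⟨c, hc⟩ := ih
    refine ⟨b * c + ((d + 1 : ℕ) : T) * b ^ d + r * c, ?_⟩
    rw [pow_succ, hc]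
    push_cast
    ring

/-- One improvement step: `a = b + r`, `b ∈ A`, `r ∈ N ^ j` ⟹ `a ∈ A + N ^ (2 j)`. -/
theorem g3x84_step {T : Type*} [CommRing T] (A : Subring T) (N : Ideal T)
    (hunit : ∀ b ∈ A, b - 1 ∈ N → ∃ b' ∈ A, b * b' = 1)
    (d : ℕ) (μ : T) (hμA : μ ∈ A) (hμ : ((d + 1 : ℕ) : T) * μ = 1)
    (a : T) (ha1 : a - 1 ∈ N) (ham : a ^ (d + 1) ∈ A)
    (j : ℕ) (hj : 1 ≤ j) (b r : T) (hb : b ∈ A) (hr : r ∈ N ^ j) (hab : a = b + r) :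
    ∃ b₂ ∈ A, ∃ r₂ ∈ N ^ (2 * j), a = b₂ + r₂ := by
  have hrN : r ∈ N := Ideal.pow_le_self (by omega) hr
  have hb1 : b - 1 ∈ N := by
    have : b - 1 = (a - 1) - r := by rw [hab]; ring
    rw [this]; exact N.sub_mem ha1 hrN
  obtain ⟨b', hb'A, hbb'⟩ := hunit b hb hb1
  obtain ⟨c, hc⟩ := g3x84_binom b r d
  rw [← hab] at hc
  have hr2 : r ^ 2 ∈ N ^ (2 * j) := by
    rw [mul_comm, pow_mul]; exact Ideal.pow_mem_pow hr 2
  refine ⟨b + μ * b' ^ d * (a ^ (d + 1) - b ^ (d + 1)),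
    A.add_mem hb (A.mul_mem (A.mul_mem hμA (A.pow_mem hb'A d))
      (A.sub_mem ham (A.pow_mem hb (d + 1)))),
    - (μ * b' ^ d * c) * r ^ 2, (N ^ (2 * j)).mul_mem_left _ hr2, ?_⟩
  have hbd : b ^ d * b' ^ d = 1 := by rw [← mul_pow, hbb', one_pow]
  have key : r = μ * b' ^ d * (a ^ (d + 1) - b ^ (d + 1)) - (μ * b' ^ d * c) * r ^ 2 := by
    rw [hc]
    have : μ * b' ^ d * (b ^ (d + 1) + ((d + 1 : ℕ) : T) * b ^ d * r + r ^ 2 * c - b ^ (d + 1))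
        - μ * b' ^ d * c * r ^ 2 = (((d + 1 : ℕ) : T) * μ) * (b ^ d * b' ^ d) * r := by ring
    rw [this, hμ, hbd]; ring
  rw [hab]
  nth_rewrite 1 [key]
  rw [hab]
  ring

/-- **(G3)**, normalised form `a ≡ 1 mod N`. -/
theorem g3x84_one {T : Type*} [CommRing T] (A : Subring T) (N : Ideal T) (k : ℕ)
    (hcond : ∀ x ∈ N ^ k, x ∈ A)
    (hunit : ∀ b ∈ A, b - 1 ∈ N → ∃ b' ∈ A, b * b' = 1)
    (d : ℕ) (μ : T) (hμA : μ ∈ A) (hμ : ((d + 1 : ℕ) : T) * μ = 1)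
    (a : T) (ha1 : a - 1 ∈ N) (ham : a ^ (d + 1) ∈ A) : a ∈ A := by
  have hind : ∀ j : ℕ, ∃ b ∈ A, ∃ r ∈ N ^ (j + 1), a = b + r := by
    intro j
    induction j with
    | zero => exact ⟨1, A.one_mem, a - 1, by simpa using ha1, by ring⟩
    | succ j ih =>
      obtain ⟨b, hb, r, hr, hab⟩ := ih
      obtain ⟨b₂, hb₂, r₂, hr₂, hab₂⟩ :=
        g3x84_step A N hunit d μ hμA hμ a ha1 ham (j + 1) (by omega) b r hb hr hab
      exact ⟨b₂, hb₂, r₂, Ideal.pow_le_pow_right (by omega) hr₂, hab₂⟩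
  obtain ⟨b, hb, r, hr, hab⟩ := hind k
  rw [hab]
  exact A.add_mem hb (hcond r (Ideal.pow_le_pow_right (by omega) hr))

/-- **(G3)**: `a ≡ l mod N` with `l` a unit of `A`, `a ^ (d+1) ∈ A`, `d + 1` invertible in `A`,
`N ^ k ⊆ A`, elements of `A` congruent to `1` modulo `N` invertible in `A` ⟹ `a ∈ A`. -/
theorem g3x84_main {T : Type*} [CommRing T] (A : Subring T) (N : Ideal T) (k : ℕ)
    (hcond : ∀ x ∈ N ^ k, x ∈ A)
    (hunit : ∀ b ∈ A, b - 1 ∈ N → ∃ b' ∈ A, b * b' = 1)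
    (d : ℕ) (μ : T) (hμA : μ ∈ A) (hμ : ((d + 1 : ℕ) : T) * μ = 1)
    (a l l' : T) (hl : l ∈ A) (hl' : l' ∈ A) (hll' : l * l' = 1) (hal : a - l ∈ N)
    (ham : a ^ (d + 1) ∈ A) : a ∈ A := by
  have h1 : a * l' - 1 ∈ N := by
    have : a * l' - 1 = l' * (a - l) := by
      have : l' * l = 1 := by rw [mul_comm]; exact hll'
      linear_combination this
    rw [this]; exact N.mul_mem_left _ hal
  have h2 : (a * l') ^ (d + 1) ∈ A := by
    rw [mul_pow]; exact A.mul_mem ham (A.pow_mem hl' _)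
  have h3 := g3x84_one A N k hcond hunit d μ hμA hμ (a * l') h1 h2
  have : a = a * l' * l := by rw [mul_assoc, mul_comm l' l, hll', mul_one]
  rw [this]; exact A.mul_mem h3 hl

end Fermat.Agent.S36
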