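import Fermat.Agent.S36.GxDatum95
import Fermat.Agent.S36.CoordGood27

/-!
# S36 lab, row 600, uniform coordinate route (helper95): the complete good-level datum at a
closed point, both charts (composition of `cg27_coord_level*` (helper27), `gxv95_unit`,
`gxb69_eq` (helper69), `c2x11_theta_ne_zero` (helper11), `rrb68_block_level*` (helper68))

* `gd95_Datum M hπ B n` : a coordinate `x ∈ n` (`n B_n = (x, π)`, `θ x ≠ 0`) with
  `g := tg69_G K M x`: `g (θ x)^6 = Δ` (literal `hg` of `c2x11_mid_dvd`), `g, g⁻¹ ∈ sf79_loc B n`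
  (input `hg` of `gxq95_hgn`), `g ∈ cm85_Vinf M hπ`, and `θ (x mod π) ≠ 0` for every `R`-integral
  expansion `xR` of `x` (literal `hθ` of `c2x11_mid_dvd`).
* `gd95_of_coord` : from the coordinate package and the chart block.
* `gd95_level2`, `gd95_level3` : at EVERY closed point `n ∋ π` of both charts of
  `pk85_h2 K M` / `pk85_h3 K M` at which `j` is regular; good level `M` (a unit of `R`),
  `ν₂(M) = ν₃(M) = 0`, `K` a number field, `q ∈ π R`.  No case distinction on `j`.
-/

set_option autoImplicit false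
set_option linter.style.haveILetI false
set_option linter.unusedSectionVars false
set_option linter.style.longLine false

open ModularCurve AlgebraicCurve MatrixGroups IntermediateField Polynomial

namespace Fermat.Agent.S36

open Fermat.Agent.S24 Fermat.Agent.S18 Fermat.Agent.S34 Fermat.Agent.S28

local notation "Q̄" => AlgebraicClosure ℚ

section Datum

variable {R K : Type} [CommRing R] [IsDomain R] [IsDiscreteValuationRing R] [Field K] [CharZero K]
  [Algebra R K] [IsFractionRing R K] [Algebra K Q̄] (M : ℕ) [NeZero M]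
  [Algebra R ↥(modularFunctionFieldFullC K M)]
  [IsScalarTower R K ↥(modularFunctionFieldFullC K M)]

/-- The good-level datum of the uniform coordinate route at a point `n` of a chart `B`. -/
def gd95_Datum {π : R} (hπ : Irreducible π)
    (B : Subalgebra R ↥(modularFunctionFieldFullC K M)) (n : Ideal B) [n.IsPrime] : Prop :=
  ∃ x : B, x ∈ n ∧
    partC_theta (((x : ↥(modularFunctionFieldFullC K M))) : LaurentSeries K) ≠ 0 ∧
    (∀ v ∈ n, ∃ s : B, s ∉ n ∧ ∃ a b : B, s * v = a * x + b * algebraMap R B π) ∧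
    ((tg69_G K M (x : ↥(modularFunctionFieldFullC K M)) : ↥(modularFunctionFieldFullC K M)) :
        LaurentSeries K) *
      partC_theta (((x : ↥(modularFunctionFieldFullC K M))) : LaurentSeries K) ^ 6 =
        DeltaSer K ∧
    tg69_G K M (x : ↥(modularFunctionFieldFullC K M)) ∈ sf79_loc B n ∧
    (tg69_G K M (x : ↥(modularFunctionFieldFullC K M)))⁻¹ ∈ sf79_loc B n ∧
    tg69_G K M (x : ↥(modularFunctionFieldFullC K M)) ∈ cm85_Vinf (K := K) M hπ ∧
    ∀ xR : LaurentSeries R,
      (((x : ↥(modularFunctionFieldFullC K M))) : LaurentSeries K) =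
        coeffMap (algebraMap R K) xR →
      partC_theta (coeffMap (IsLocalRing.residue R) xR) ≠ 0

/-- **The datum from the coordinate package and the chart block.** -/
theorem gd95_of_coord {π : R} (hπ : Irreducible π) (h2M : nuTwo M = 0) (h3M : nuThree M = 0)
    (B : Subalgebra R ↥(modularFunctionFieldFullC K M))
    (hblk : rrb68_Block π B (cm85_Vinf (K := K) M hπ))
    (n : Ideal B) [hn : n.IsMaximal] (hπn : algebraMap R B π ∈ n)
    (hcoord : ∃ x : B, x ∈ n ∧
      partC_theta (((x : ↥(modularFunctionFieldFullC K M))) : LaurentSeries K) ≠ 0 ∧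
      (∀ v ∈ n, ∃ s : B, s ∉ n ∧ ∃ a b : B, s * v = a * x + b * algebraMap R B π) ∧
      ∀ y ∈ sf79_loc B n, tf69_Dx K M (x : ↥(modularFunctionFieldFullC K M)) y ∈ sf79_loc B n)
    (hjA : ck11_j K M ∈ sf79_loc B n) :
    gd95_Datum M hπ B n := by
  obtain ⟨x, hxn, hθx, hgen, hDA⟩ := hcoord
  have hxA : (x : ↥(modularFunctionFieldFullC K M)) ∈ sf79_loc B n := sf79_le_loc B n _ x.2
  have hmul := tg69_G_mul_theta K M (x : ↥(modularFunctionFieldFullC K M)) hθx
  obtain ⟨h1, h2⟩ := gxv95_unit M hπ h2M h3M B hblk n hπn (x : ↥(modularFunctionFieldFullC K M))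
    hxA hθx hDA (ck11_j K M) (ck11_j_coe K M) hjA
  rw [gxb69_eq K M (ck11_j K M) (ck11_j_coe K M) (x : ↥(modularFunctionFieldFullC K M))] at h1 h2
  obtain ⟨-, -, hBV, hsat, hmax, -, -, -⟩ := hblk
  have hπ0 : algebraMap R ↥(modularFunctionFieldFullC K M) π ≠ 0 :=
    gxp95_hR0 K M π hπ.ne_zero
  have hgV : tg69_G K M (x : ↥(modularFunctionFieldFullC K M)) ∈ cm85_Vinf (K := K) M hπ :=
    gx95_loc_le_V π hπ0 B n hπn _ hBV hmax hsat _ h1
  exact ⟨x, hxn, hθx, hgen, hmul, h1, h2, hgV,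
    fun xR hx => c2x11_theta_ne_zero M hπ _ _ xR hx hmul hgV⟩

end Datum

section Levels

variable {R : Type} [CommRing R] [IsDomain R] [IsDiscreteValuationRing R]
  (K : Type) [Field K] [NumberField K] [Algebra K Q̄] [Algebra R K] [IsFractionRing R K]
  (M : ℕ) [NeZero M]
  [Algebra R ↥(modularFunctionFieldFullC K M)]
  [IsScalarTower R K ↥(modularFunctionFieldFullC K M)]

/-- **Level 2, both charts**: the datum at every closed point of the special fibre at which `j`
is regular (good level `M`, `2 ∣ M`, `ν₂ = ν₃ = 0`). -/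
theorem gd95_level2 {π : R} (hπ : Irreducible π) (q : ℕ) (hq : q.Prime)
    (hqπ : ∃ u₀ : R, (q : R) = π * u₀) (hMu : IsUnit (M : R)) (h2 : 2 ∣ M)
    (h2M : nuTwo M = 0) (h3M : nuThree M = 0) :
    (∀ (n : Ideal ↥(pk15_chart R ({pk85_h2 K M h2} : Set ↥(modularFunctionFieldFullC K M))))
      [n.IsMaximal],
      algebraMap R ↥(pk15_chart R ({pk85_h2 K M h2} : Set ↥(modularFunctionFieldFullC K M))) π ∈ n →
      ck11_j K M ∈ sf79_loc
        (pk15_chart R ({pk85_h2 K M h2} : Set ↥(modularFunctionFieldFullC K M))) n →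
      gd95_Datum M hπ
        (pk15_chart R ({pk85_h2 K M h2} : Set ↥(modularFunctionFieldFullC K M))) n) ∧
    (∀ (n : Ideal ↥(pk15_chart R ({(pk85_h2 K M h2)⁻¹} : Set ↥(modularFunctionFieldFullC K M))))
      [n.IsMaximal],
      algebraMap R
        ↥(pk15_chart R ({(pk85_h2 K M h2)⁻¹} : Set ↥(modularFunctionFieldFullC K M))) π ∈ n →
      ck11_j K M ∈ sf79_loc
        (pk15_chart R ({(pk85_h2 K M h2)⁻¹} : Set ↥(modularFunctionFieldFullC K M))) n →
      gd95_Datum M hπ
        (pk15_chart R ({(pk85_h2 K M h2)⁻¹} : Set ↥(modularFunctionFieldFullC K M))) n) := by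
  obtain ⟨hAlg, -⟩ := cg27_base K hπ q hq hqπ (IsFractionRing.injective R K)
  haveI := hAlg
  obtain ⟨hb1, hb2⟩ := rrb68_block_level2 (R := R) (K := K) M hπ h2 hMu
  exact ⟨fun n _ hπn hjA => gd95_of_coord M hπ h2M h3M _ hb1 n hπn
      (cg27_coord_level2 K M hπ q hq hqπ hMu h2 n hπn) hjA,
    fun n _ hπn hjA => gd95_of_coord M hπ h2M h3M _ hb2 n hπn
      (cg27_coord_level2_inv K M hπ q hq hqπ hMu h2 n hπn) hjA⟩

/-- **Level 3, both charts.** -/
theorem gd95_level3 {π : R} (hπ : Irreducible π) (q : ℕ) (hq : q.Prime)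
    (hqπ : ∃ u₀ : R, (q : R) = π * u₀) (hMu : IsUnit (M : R)) (h3 : 3 ∣ M)
    (h2M : nuTwo M = 0) (h3M : nuThree M = 0) :
    (∀ (n : Ideal ↥(pk15_chart R ({pk85_h3 K M h3} : Set ↥(modularFunctionFieldFullC K M))))
      [n.IsMaximal],
      algebraMap R ↥(pk15_chart R ({pk85_h3 K M h3} : Set ↥(modularFunctionFieldFullC K M))) π ∈ n →
      ck11_j K M ∈ sf79_loc
        (pk15_chart R ({pk85_h3 K M h3} : Set ↥(modularFunctionFieldFullC K M))) n →
      gd95_Datum M hπ
        (pk15_chart R ({pk85_h3 K M h3} : Set ↥(modularFunctionFieldFullC K M))) n) ∧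
    (∀ (n : Ideal ↥(pk15_chart R ({(pk85_h3 K M h3)⁻¹} : Set ↥(modularFunctionFieldFullC K M))))
      [n.IsMaximal],
      algebraMap R
        ↥(pk15_chart R ({(pk85_h3 K M h3)⁻¹} : Set ↥(modularFunctionFieldFullC K M))) π ∈ n →
      ck11_j K M ∈ sf79_loc
        (pk15_chart R ({(pk85_h3 K M h3)⁻¹} : Set ↥(modularFunctionFieldFullC K M))) n →
      gd95_Datum M hπ
        (pk15_chart R ({(pk85_h3 K M h3)⁻¹} : Set ↥(modularFunctionFieldFullC K M))) n) := by
  obtain ⟨hAlg, -⟩ := cg27_base K hπ q hq hqπ (IsFractionRing.injective R K)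
  haveI := hAlg
  obtain ⟨hb1, hb2⟩ := rrb68_block_level3 (R := R) (K := K) M hπ h3 hMu
  exact ⟨fun n _ hπn hjA => gd95_of_coord M hπ h2M h3M _ hb1 n hπn
      (cg27_coord_level3 K M hπ q hq hqπ hMu h3 n hπn) hjA,
    fun n _ hπn hjA => gd95_of_coord M hπ h2M h3M _ hb2 n hπn
      (cg27_coord_level3_inv K M hπ q hq hqπ hMu h3 n hπn) hjA⟩

end Levels

end Fermat.Agent.S36
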