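import Mathlib
import Fermat.Agent.S34.Iface47
import Fermat.Agent.S36.LocPrinTwoGen9

/-!
# S36 lab, row C-REGq-RIG (helper68): the rigidity input in the local ring, abstract core

Frame vocabulary of `Iface47`.  `B` a noetherian chart with fraction field `F`, `n` a closed point
of its special fibre whose local ring has a 2-generated maximal ideal (`h2`, as in
`lpz9_locPrin_at`), and ONE vertical valuation ring `V` (a chart at a good level): `B ⊆ V`,
`V` discrete with uniformiser `π` (`hmax`, `hdisc`), `B` saturated in `V` (`hsat`), the per-point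
Krull clause at `n` (`hKr`).

* `rr68_locPrin_local` : `lpz9_locPrin_at` with the hypotheses `Ord`, `Fin` only for the
  horizontal `O` THROUGH `n` (needed for `J`, `J - 1728`, whose orders at the cusps are not
  divisible by `3`, `2`).
* `rr68_root` : if `f` is a unit of `V`, regular at `n`, and `m ∣ ord_O f` at every horizontal `O`
  through `n`, then `f = u * c ^ m` with `c ∈ B_n` and `u` a unit of `B_n`
  (elementwise: `∃ s ∉ n, s * c ∈ B`, ...).  With `rg20_ord_zero` / `rg20_ord_1728` at a rigid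
  level this is `J = u c³`, `J - 1728 = u d²` in the local ring at a point over `j = 0`, `1728`.
-/

set_option autoImplicit false

namespace Fermat.Agent.S36

open Fermat.Agent.S34 Fermat.Agent.S18 Fermat.Agent.S35

section RR68

variable {R F : Type*} [CommRing R] [Field F] [Algebra R F]

/-- **(LP) at a 2-generated closed point, with LOCAL hypotheses**: `m ∣ ord_O f` and finiteness
only for the horizontal `O` through `n`. -/
theorem rr68_locPrin_local (π : R) (hπ0 : algebraMap R F π ≠ 0) (B : Subalgebra R F)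
    [IsNoetherianRing B]
    (hfrac : ∀ t : F, ∃ a ∈ B, ∃ b ∈ B, b ≠ 0 ∧ t * b = a)
    (n : Ideal B) (hn : n.IsMaximal) (hπn : algebraMap R B π ∈ n)
    (h2 : ∃ x y : B, x ∈ n ∧ y ∈ n ∧
      ∀ v ∈ n, ∃ s : B, s ∉ n ∧ ∃ a b : B, s * v = a * x + b * y)
    (m : ℕ) (hm : 0 < m) (f : F) (hf : f ≠ 0)
    (hOrd : ∀ O : ValuationSubring F, s34i47_IsHoriz π O → s34i47_Through B n O →
      ∃ ε w : F, ε ∈ O ∧ ε⁻¹ ∈ O ∧ f = ε * w ^ m)
    (hFin : {O : ValuationSubring F | s34i47_IsHoriz π O ∧ s34i47_Through B n O ∧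
      ¬ (f ∈ O ∧ f⁻¹ ∈ O)}.Finite) :
    ∃ c : F, c ≠ 0 ∧ ∀ O : ValuationSubring F, s34i47_IsHoriz π O → s34i47_Through B n O →
      f / c ^ m ∈ O ∧ c ^ m / f ∈ O := by
  classical
  set T : Finset (ValuationSubring F) := hFin.toFinset with hT
  have hmemT : ∀ O : ValuationSubring F, O ∈ T ↔
      s34i47_IsHoriz π O ∧ s34i47_Through B n O ∧ ¬ (f ∈ O ∧ f⁻¹ ∈ O) := by
    intro O
    rw [hT, Set.Finite.mem_toFinset]
    rfl
  have hex : ∀ O ∈ T, ∃ g : F, g ≠ 0 ∧ lp9_IsU O (f / g ^ m) ∧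
      ∀ O' : ValuationSubring F, s34i47_IsHoriz π O' → s34i47_Through B n O' → O' ≠ O →
        lp9_IsU O' g := by
    intro O hO
    rw [hmemT] at hO
    obtain ⟨p, hp0, hpO, hpinv, hgen, hother⟩ :=
      lpz9_UZ_at π hπ0 B hfrac n hn hπn h2 O hO.1 hO.2.1
    obtain ⟨ε, w, hε, hεinv, hfw⟩ := hOrd O hO.1 hO.2.1
    have hw : w ≠ 0 := by
      rintro rfl
      apply hf
      rw [hfw, zero_pow (by omega), mul_zero]
    obtain ⟨k, hk⟩ := lp9_exists_zpow O hO.1.2.1 p hp0 hpO hpinv hgen w hw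
    refine ⟨p ^ k, zpow_ne_zero k hp0, ?_, ?_⟩
    · have he : f / (p ^ k) ^ m = ε * (w / p ^ k) ^ m := by
        rw [hfw, div_pow, mul_div_assoc]
      rw [he]
      exact lp9_IsU_mul ⟨hε, hεinv⟩ (lp9_IsU_pow hk m)
    · intro O' hO' hOn' hne
      exact lp9_IsU_zpow (hother O' hO' hOn' hne) k
  choose! g hg0 hgU hgother using hex
  refine ⟨∏ O ∈ T, g O, Finset.prod_ne_zero_iff.mpr hg0, ?_⟩
  intro O hO hOn
  have key : lp9_IsU O (f / (∏ O' ∈ T, g O') ^ m) := by
    by_cases hOT : O ∈ T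
    · have hsplit : ∏ O' ∈ T, g O' = g O * ∏ O' ∈ T.erase O, g O' :=
        (Finset.mul_prod_erase T g hOT).symm
      have hrest : lp9_IsU O (∏ O' ∈ T.erase O, g O') := by
        apply lp9_IsU_prod
        intro O' hO'
        have h := Finset.mem_erase.mp hO'
        exact hgother O' h.2 O hO hOn (Ne.symm h.1)
      have he : f / (∏ O' ∈ T, g O') ^ m =
          (f / g O ^ m) * ((∏ O' ∈ T.erase O, g O') ^ m)⁻¹ := by
        rw [hsplit, mul_pow, div_mul_eq_div_div, div_eq_mul_inv (f / g O ^ m)]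
      rw [he]
      exact lp9_IsU_mul (hgU O hOT) (lp9_IsU_inv (lp9_IsU_pow hrest m))
    · have hfU : lp9_IsU O f := by
        by_contra h
        exact hOT ((hmemT O).mpr ⟨hO, hOn, h⟩)
      have hcU : lp9_IsU O (∏ O' ∈ T, g O') := by
        apply lp9_IsU_prod
        intro O' hO'
        exact hgother O' hO' O hO hOn (by rintro rfl; exact hOT hO')
      rw [div_eq_mul_inv]
      exact lp9_IsU_mul hfU (lp9_IsU_inv (lp9_IsU_pow hcU m))
  refine ⟨key.1, ?_⟩
  have h2' := key.2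
  rwa [inv_div] at h2'

/-- Saturation, iterated: an element of `V` which lies in `B` after multiplication by a power of
`π` lies in `B`. -/
theorem rr68_sat_pow (π : R) (hπ0 : algebraMap R F π ≠ 0) (B : Subalgebra R F)
    (V : ValuationSubring F) (hBV : ∀ x ∈ B, x ∈ V)
    (hsat : ∀ x ∈ B, (algebraMap R F π)⁻¹ * x ∈ V → (algebraMap R F π)⁻¹ * x ∈ B)
    (y : F) (hy : y ∈ V) (j : ℕ) (h : algebraMap R F π ^ j * y ∈ B) : y ∈ B := by
  have hπV : algebraMap R F π ∈ V := hBV _ (B.algebraMap_mem π)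
  induction j with
  | zero => simpa using h
  | succ j ih =>
    apply ih
    have h1 : (algebraMap R F π)⁻¹ * (algebraMap R F π ^ (j + 1) * y)
        = algebraMap R F π ^ j * y := by
      rw [pow_succ]
      field_simp
    rw [← h1]
    apply hsat _ h
    rw [h1]
    exact V.mul_mem _ _ (V.pow_mem hπV j) hy

/-- **Root extraction in the local ring at a 2-generated closed point of a one-branch chart**:
a unit `f` of `V`, regular at `n`, with `m ∣ ord_O f` at every horizontal `O` through `n`, is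
`u * c ^ m` with `c ∈ B_n` and `u` a unit of `B_n`. -/
theorem rr68_root (π : R) (hπ0 : algebraMap R F π ≠ 0) (B : Subalgebra R F)
    [IsNoetherianRing B]
    (hfrac : ∀ t : F, ∃ a ∈ B, ∃ b ∈ B, b ≠ 0 ∧ t * b = a)
    (n : Ideal B) (hn : n.IsMaximal) (hπn : algebraMap R B π ∈ n)
    (h2 : ∃ x y : B, x ∈ n ∧ y ∈ n ∧
      ∀ v ∈ n, ∃ s : B, s ∉ n ∧ ∃ a b : B, s * v = a * x + b * y)
    (V : ValuationSubring F) (hBV : ∀ x ∈ B, x ∈ V)
    (hmax : ∀ x ∈ V, x⁻¹ ∉ V → (algebraMap R F π)⁻¹ * x ∈ V)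
    (hdisc : ∀ x : F, x ≠ 0 → ∃ k : ℤ, algebraMap R F π ^ k * x ∈ V ∧
      (algebraMap R F π ^ k * x)⁻¹ ∈ V)
    (hsat : ∀ x ∈ B, (algebraMap R F π)⁻¹ * x ∈ V → (algebraMap R F π)⁻¹ * x ∈ B)
    (hKr : ∀ x : F,
      (∀ O : ValuationSubring F, s34i47_IsHoriz π O → s34i47_Through B n O → x ∈ O) →
      ∃ s : B, s ∉ n ∧ ∃ k : ℕ, algebraMap R F π ^ k * ((s : F) * x) ∈ B)
    (m : ℕ) (hm : 0 < m) (f : F) (hf : f ≠ 0)
    (hfB : ∃ s : B, s ∉ n ∧ (s : F) * f ∈ B) (hfV : f ∈ V) (hfV' : f⁻¹ ∈ V)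
    (hOrd : ∀ O : ValuationSubring F, s34i47_IsHoriz π O → s34i47_Through B n O →
      ∃ ε w : F, ε ∈ O ∧ ε⁻¹ ∈ O ∧ f = ε * w ^ m)
    (hFin : {O : ValuationSubring F | s34i47_IsHoriz π O ∧ s34i47_Through B n O ∧
      ¬ (f ∈ O ∧ f⁻¹ ∈ O)}.Finite) :
    ∃ c u : F, (∃ s : B, s ∉ n ∧ (s : F) * c ∈ B) ∧ (∃ s : B, s ∉ n ∧ (s : F) * u ∈ B) ∧
      (∃ s : B, s ∉ n ∧ (s : F) * u⁻¹ ∈ B) ∧ f = u * c ^ m := by
  classical
  set p : F := algebraMap R F π with hp
  obtain ⟨c₀, hc₀, hLP⟩ :=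
    rr68_locPrin_local π hπ0 B hfrac n hn hπn h2 m hm f hf hOrd hFin
  obtain ⟨k, hkV, hkV'⟩ := hdisc c₀ hc₀
  set c : F := p ^ k * c₀ with hc
  have hc0 : c ≠ 0 := mul_ne_zero (zpow_ne_zero k hπ0) hc₀
  set u : F := f / c ^ m with hu
  have hu0 : u ≠ 0 := div_ne_zero hf (pow_ne_zero m hc0)
  have hfu : f = u * c ^ m := by
    rw [hu, div_mul_cancel₀ _ (pow_ne_zero m hc0)]
  -- `u` is a unit of `V`
  have huV : u ∈ V := by
    rw [hu, div_eq_mul_inv, ← inv_pow]
    exact V.mul_mem _ _ hfV (V.pow_mem hkV' m)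
  have huV' : u⁻¹ ∈ V := by
    rw [hu, inv_div, div_eq_mul_inv]
    exact V.mul_mem _ _ (V.pow_mem hkV m) hfV'
  -- `u` is a unit of every horizontal `O` through `n`
  have hpU : ∀ O : ValuationSubring F, s34i47_IsHoriz π O → lp9_IsU O p := fun O hO =>
    ⟨hO.2.2.1 π, hO.2.2.2⟩
  have huO : ∀ O : ValuationSubring F, s34i47_IsHoriz π O → s34i47_Through B n O →
      lp9_IsU O u := by
    intro O hO hOn
    have h1 : lp9_IsU O (f / c₀ ^ m) := by
      refine ⟨(hLP O hO hOn).1, ?_⟩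
      rw [inv_div]
      exact (hLP O hO hOn).2
    have h2 : u = (f / c₀ ^ m) * ((p ^ k) ^ m)⁻¹ := by
      rw [hu, hc, mul_pow]
      field_simp
    rw [h2]
    exact lp9_IsU_mul h1 (lp9_IsU_inv (lp9_IsU_pow (lp9_IsU_zpow (hpU O hO) k) m))
  -- units of `B` outside `n` are units of `V`
  have hsV : ∀ s : B, s ∉ n → (s : F)⁻¹ ∈ V := by
    intro s hs
    by_contra hcon
    have h1 := hmax _ (hBV _ s.2) hcon
    have h2 := hsat _ s.2 h1
    apply hs
    have h3 : s = ⟨_, h2⟩ * algebraMap R B π := by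
      apply Subtype.ext
      show (s : F) = p⁻¹ * (s : F) * p
      rw [mul_comm p⁻¹, mul_assoc, inv_mul_cancel₀ hπ0, mul_one]
    rw [h3]
    exact n.mul_mem_left _ hπn
  -- the Krull clause plus saturation: regular along `V` and along the horizontal `O`: in `B_n`
  have hloc : ∀ x : F, x ∈ V →
      (∀ O : ValuationSubring F, s34i47_IsHoriz π O → s34i47_Through B n O → x ∈ O) →
      ∃ s : B, s ∉ n ∧ (s : F) * x ∈ B := by
    intro x hxV hxO
    obtain ⟨s, hs, j, hj⟩ := hKr x hxO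
    exact ⟨s, hs, rr68_sat_pow π hπ0 B V hBV hsat _ (V.mul_mem _ _ (hBV _ s.2) hxV) j hj⟩
  -- `c` is regular along every horizontal `O` through `n`
  have hfO : ∀ O : ValuationSubring F, s34i47_IsHoriz π O → s34i47_Through B n O → f ∈ O := by
    intro O hO hOn
    obtain ⟨s, hs, hsf⟩ := hfB
    have hs0 : (s : F) ≠ 0 := by
      intro h0
      apply hs
      have : s = 0 := Subtype.ext h0
      rw [this]
      exact n.zero_mem
    have h1 : f = (s : F)⁻¹ * ((s : F) * f) := by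
      rw [← mul_assoc, inv_mul_cancel₀ hs0, one_mul]
    rw [h1]
    exact O.mul_mem _ _ (hOn.2 s hs) (hOn.1 _ hsf)
  have hcO : ∀ O : ValuationSubring F, s34i47_IsHoriz π O → s34i47_Through B n O → c ∈ O := by
    intro O hO hOn
    have hcm : c ^ m ∈ O := by
      have h1 : c ^ m = f * u⁻¹ := by
        rw [hfu, mul_comm u, mul_assoc, mul_inv_cancel₀ hu0, mul_one]
      rw [h1]
      exact O.mul_mem _ _ (hfO O hO hOn) (huO O hO hOn).2
    rcases O.mem_or_inv_mem c with h | h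
    · exact h
    · obtain ⟨m', rfl⟩ : ∃ m', m = m' + 1 := ⟨m - 1, by omega⟩
      have h1 : c = c ^ (m' + 1) * c⁻¹ ^ m' := by
        rw [pow_succ, inv_pow, mul_assoc, mul_comm c, ← mul_assoc,
          mul_inv_cancel₀ (pow_ne_zero m' hc0), one_mul]
      rw [h1]
      exact O.mul_mem _ _ hcm (O.pow_mem h m')
  refine ⟨c, u, hloc c hkV hcO, hloc u huV (fun O hO hOn => (huO O hO hOn).1),
    hloc u⁻¹ huV' (fun O hO hOn => (huO O hO hOn).2), hfu⟩

end RR68

end Fermat.Agent.S36
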