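/-
S36 lab, row 599 (C-REGq, the crux), helper49: the CONCRETE `q = 2` input of the divisibility
routes for `κ = 1` (`ka13_kappa_eq_one` clauses `hj3`, `hj4`, `hj2`; `k1e44_kappa_two`;
`k1e40_char_two`): at a rigid level `M` with `3 ∣ M` the level-3 Hauptmodul `h = pk85_h3`
satisfies `J h³ = (h + 27)(h + 243)³` (`pk85_h3_rel`), hence

* `ht49_ord_h3` : at every horizontal `O` with `J ∈ O`, `h + 27 = ε w³` with `ε` a unit of `O`
  (`ord(h + 27) = ord J ∈ {0, 3}` at the places over `h = -27`; from `rh27_horiz_cube`);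
* `ht49_root_h3` : the instance of `rr68_root` for `f = h + 27`, `m = 3`:
  `h + 27 = u c³` with `c, u, u⁻¹` in the local ring `B_n` (membership in `sf79_loc B n`,
  elementwise), frame hypotheses exactly those of `rr68_root` (finiteness discharged);
* `ht49_twelve` (pure algebra): in a local ring `O` with `(2 : O) = 0`,
  `jj hh³ = (hh + 27)(hh + 243)³` and `hh + 27 = uu cc³`, `uu` a unit, give `jj = w cc¹²`,
  `w` a unit;
* `ht49_clauses` : the three clauses `jj = u c³`, `jj = u d⁴`, `jj - 1728 = u d²`;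
* `ht49_clauses_map` : the same for the images under ANY ring hom `ρ : A →+* O` from a subring
  `A` of the function field containing `J, h, u, u⁻¹, c` (e.g. `A = sf79_loc B n`).
-/
import Mathlib
import Fermat.Agent.S18.Pack85
import Fermat.Agent.S34.FinSupp29
import Fermat.Agent.S36.EllDiv49
import Fermat.Agent.S36.RigidRoot68
import Fermat.Agent.S36.RigidHoriz27

set_option autoImplicit false
set_option linter.style.haveILetI false
set_option linter.unusedSectionVars false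

open ModularCurve AlgebraicCurve

namespace Fermat.Agent.S36

open Fermat.Agent.S24 Fermat.Agent.S18 Fermat.Agent.S34

/-! ## 1. Pure algebra in characteristic `2` -/

section Alg

variable {O : Type*} [CommRing O] [IsLocalRing O]

/-- **Characteristic 2, level 3**: `jj hh³ = (hh + 27)(hh + 243)³` and `hh + 27 = uu cc³`
give `jj = w cc¹²`. -/
theorem ht49_twelve (h2 : (2 : O) = 0) (jj hh uu cc : O)
    (hrel : jj * hh ^ 3 = (hh + 27) * (hh + 243) ^ 3) (hu : IsUnit uu)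
    (hfac : hh + 27 = uu * cc ^ 3) :
    ∃ w : O, IsUnit w ∧ jj = w * cc ^ 12 := by
  have e27 : (27 : O) = 1 := by
    have : (27 : O) = 2 * 13 + 1 := by norm_num
    rw [this, h2, zero_mul, zero_add]
  have e243 : (243 : O) = 1 := by
    have : (243 : O) = 2 * 121 + 1 := by norm_num
    rw [this, h2, zero_mul, zero_add]
  have hrel' : jj * hh ^ 3 = (hh + 1) ^ 4 := by
    rw [hrel, e27, e243]; ring
  have hfac' : hh + 1 = uu * cc ^ 3 := by rw [← hfac, e27]
  have hhu : IsUnit hh := by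
    refine ed49_unit_of_rel (k := 3) (by norm_num) hrel' ?_
    intro hn
    have h1 : IsUnit (hh + 1) := by
      have := IsLocalRing.isUnit_or_isUnit_of_add_one (a := -hh) (b := hh + 1) (by ring)
      rcases this with h' | h'
      · exact absurd (by simpa using h'.neg) hn
      · exact h'
    exact h1.pow 4
  obtain ⟨v, rfl⟩ := hhu
  obtain ⟨u, rfl⟩ := hu
  refine ⟨((v⁻¹ ^ 3 * u ^ 4 : Oˣ) : O), Units.isUnit _, ?_⟩
  have h1 : jj = ((v⁻¹ ^ 3 : Oˣ) : O) * (jj * (v : O) ^ 3) := by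
    rw [mul_comm jj, ← mul_assoc, ← Units.val_pow_eq_pow_val, ← Units.val_mul, ← mul_pow,
      inv_mul_cancel, one_pow, Units.val_one, one_mul]
  rw [h1, hrel', hfac']
  push_cast
  ring

/-- The three clauses (`hj3`, `hj4`, `hj2` of `ka13_kappa_eq_one` at `q = 2`). -/
theorem ht49_clauses (h2 : (2 : O) = 0) (jj hh uu cc : O)
    (hrel : jj * hh ^ 3 = (hh + 27) * (hh + 243) ^ 3) (hu : IsUnit uu)
    (hfac : hh + 27 = uu * cc ^ 3) :
    (∃ c u : O, IsUnit u ∧ jj = u * c ^ 3) ∧ (∃ d u : O, IsUnit u ∧ jj = u * d ^ 4) ∧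
      (∃ d u : O, IsUnit u ∧ jj - 1728 = u * d ^ 2) := by
  obtain ⟨w, hw, hj⟩ := ht49_twelve h2 jj hh uu cc hrel hu hfac
  have e1728 : (1728 : O) = 0 := by
    have : (1728 : O) = 2 * 864 := by norm_num
    rw [this, h2, zero_mul]
  refine ⟨⟨cc ^ 4, w, hw, ?_⟩, ⟨cc ^ 3, w, hw, ?_⟩, ⟨cc ^ 6, w, hw, ?_⟩⟩
  · rw [hj]; ring
  · rw [hj]; ring
  · rw [e1728, sub_zero, hj]; ring

omit [IsLocalRing O] in
/-- `1728 = 0` in characteristic `2` (the hypothesis `h23` of `ka13_kappa_eq_one`). -/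
theorem ht49_sub_1728 (h2 : (2 : O) = 0) (jj : O) : jj - 1728 = jj := by
  have e1728 : (1728 : O) = 0 := by
    have : (1728 : O) = 2 * 864 := by norm_num
    rw [this, h2, zero_mul]
  rw [e1728, sub_zero]

/-- The clauses for the images under a ring hom from a subring of a field. -/
theorem ht49_clauses_map {F : Type*} [Field F] (A : Subring F) (ρ : A →+* O) (h2 : (2 : O) = 0)
    (J h u c : F) (hJ : J ∈ A) (hh : h ∈ A) (hu : u ∈ A) (hu' : u⁻¹ ∈ A) (hc : c ∈ A)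
    (hu0 : u ≠ 0) (hrel : J * h ^ 3 = (h + 27) * (h + 243) ^ 3) (hfac : h + 27 = u * c ^ 3) :
    (∃ w : O, IsUnit w ∧ ρ ⟨J, hJ⟩ = w * ρ ⟨c, hc⟩ ^ 12) ∧
    (∃ c' u' : O, IsUnit u' ∧ ρ ⟨J, hJ⟩ = u' * c' ^ 3) ∧
    (∃ d u' : O, IsUnit u' ∧ ρ ⟨J, hJ⟩ = u' * d ^ 4) ∧
    (∃ d u' : O, IsUnit u' ∧ ρ ⟨J, hJ⟩ - 1728 = u' * d ^ 2) := by
  have hrelA : (⟨J, hJ⟩ : A) * (⟨h, hh⟩ : A) ^ 3 =
      ((⟨h, hh⟩ : A) + 27) * ((⟨h, hh⟩ : A) + 243) ^ 3 := by
    apply Subtype.ext
    push_cast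
    exact hrel
  have hfacA : (⟨h, hh⟩ : A) + 27 = (⟨u, hu⟩ : A) * (⟨c, hc⟩ : A) ^ 3 := by
    apply Subtype.ext
    push_cast
    exact hfac
  have huA : IsUnit (⟨u, hu⟩ : A) := by
    refine IsUnit.of_mul_eq_one (⟨u⁻¹, hu'⟩ : A) ?_
    apply Subtype.ext
    push_cast
    exact mul_inv_cancel₀ hu0
  have hrelO : ρ ⟨J, hJ⟩ * ρ ⟨h, hh⟩ ^ 3 = (ρ ⟨h, hh⟩ + 27) * (ρ ⟨h, hh⟩ + 243) ^ 3 := by
    have := congrArg ρ hrelA
    rw [map_mul, map_pow, map_mul, map_pow, map_add, map_add, map_ofNat, map_ofNat] at this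
    exact this
  have hfacO : ρ ⟨h, hh⟩ + 27 = ρ ⟨u, hu⟩ * ρ ⟨c, hc⟩ ^ 3 := by
    have := congrArg ρ hfacA
    rw [map_add, map_ofNat, map_mul, map_pow] at this
    exact this
  exact ⟨ht49_twelve h2 _ _ _ _ hrelO (huA.map ρ) hfacO,
    ht49_clauses h2 _ _ _ _ hrelO (huA.map ρ) hfacO⟩

end Alg

/-! ## 2. The order of `h₃ + 27` at the horizontal places (rigid level) -/

section Horiz

variable {R : Type*} [CommRing R] [IsDomain R] [IsDiscreteValuationRing R]
  (K : Type) [Field K] [CharZero K] [Algebra K (AlgebraicClosure ℚ)] [Algebra R K]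
  [IsFractionRing R K] (M : ℕ) [NeZero M]
  [Algebra R ↥(modularFunctionFieldFullC K M)]
  [IsScalarTower R K ↥(modularFunctionFieldFullC K M)]

/-- `h₃ + 243 ≠ 0`. -/
theorem ht49_h3_add_ne_zero (h3 : 3 ∣ M) (a : ℕ) : pk85_h3 K M h3 + (a : ↥(modularFunctionFieldFullC K M)) ≠ 0 := by
  intro h0
  apply pk85_h3_transcendental K M h3
  have h1 : pk85_h3 K M h3 = algebraMap K ↥(modularFunctionFieldFullC K M) (-(a : K)) := by
    rw [map_neg, map_natCast]
    exact eq_neg_of_add_eq_zero_left h0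
  rw [h1]
  exact isAlgebraic_algebraMap _

/-- **The order of `h₃ + 27` is divisible by `3` at every horizontal place where `J` is
regular** (level without elliptic points of order `3`). -/
theorem ht49_ord_h3 (π : R) (hπ : Irreducible π) (h3 : 3 ∣ M) (hν : nuThree M = 0)
    (O : ValuationSubring ↥(modularFunctionFieldFullC K M)) (hO : s34i47_IsHoriz π O)
    (hJO : rm90_j K M ∈ O) :
    ∃ ε w : ↥(modularFunctionFieldFullC K M), ε ∈ O ∧ ε⁻¹ ∈ O ∧
      pk85_h3 K M h3 + 27 = ε * w ^ 3 := by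
  obtain ⟨ε, w, hε, hε', hJ⟩ := rh27_horiz_cube K M π hπ hν (rm90_j K M) rfl O hO hJO
  have h243 : pk85_h3 K M h3 + 243 ≠ 0 := by
    have := ht49_h3_add_ne_zero K M h3 243
    simpa using this
  have hrel := pk85_h3_rel K M h3
  refine ⟨ε, w * pk85_h3 K M h3 / (pk85_h3 K M h3 + 243), hε, hε', ?_⟩
  have h1 : pk85_h3 K M h3 + 27 =
      rm90_j K M * pk85_h3 K M h3 ^ 3 / (pk85_h3 K M h3 + 243) ^ 3 := by
    rw [hrel, mul_div_assoc, div_self (pow_ne_zero 3 h243), mul_one]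
  rw [h1, hJ, div_pow, mul_pow]
  ring

end Horiz

/-! ## 3. `h₃ + 27 = u c³` in the local ring of a closed point (instance of `rr68_root`) -/

section Root

variable {R : Type*} [CommRing R] [IsDomain R] [IsDiscreteValuationRing R]
  (K : Type) [Field K] [NumberField K] [Algebra K (AlgebraicClosure ℚ)] [Algebra R K]
  [IsFractionRing R K] (M : ℕ) [NeZero M]
  [Algebra R ↥(modularFunctionFieldFullC K M)]
  [IsScalarTower R K ↥(modularFunctionFieldFullC K M)]

/-- **`h₃ + 27 = u c³` in `B_n`** at a closed point `n` where `J` is regular, of a chart `B ∋ h₃`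
at a level `M` with `3 ∣ M` and no elliptic points of order `3`.  The frame hypotheses are
literally those of `rr68_root`; `hhV`, `hJV`: `h₃`, `h₃⁻¹`, `J⁻¹` lie in the vertical `V`. -/
theorem ht49_root_h3 (π : R) (hπ : Irreducible π) (h3 : 3 ∣ M) (hν : nuThree M = 0)
    (B : Subalgebra R ↥(modularFunctionFieldFullC K M)) [IsNoetherianRing B]
    (hfrac : ∀ t : ↥(modularFunctionFieldFullC K M), ∃ a ∈ B, ∃ b ∈ B, b ≠ 0 ∧ t * b = a)
    (n : Ideal B) (hn : n.IsMaximal) (hπn : algebraMap R B π ∈ n)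
    (h2 : ∃ x y : B, x ∈ n ∧ y ∈ n ∧
      ∀ v ∈ n, ∃ s : B, s ∉ n ∧ ∃ a b : B, s * v = a * x + b * y)
    (V : ValuationSubring ↥(modularFunctionFieldFullC K M)) (hBV : ∀ x ∈ B, x ∈ V)
    (hmax : ∀ x ∈ V, x⁻¹ ∉ V →
      (algebraMap R ↥(modularFunctionFieldFullC K M) π)⁻¹ * x ∈ V)
    (hdisc : ∀ x : ↥(modularFunctionFieldFullC K M), x ≠ 0 → ∃ k : ℤ,
      algebraMap R ↥(modularFunctionFieldFullC K M) π ^ k * x ∈ V ∧
      (algebraMap R ↥(modularFunctionFieldFullC K M) π ^ k * x)⁻¹ ∈ V)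
    (hsat : ∀ x ∈ B, (algebraMap R ↥(modularFunctionFieldFullC K M) π)⁻¹ * x ∈ V →
      (algebraMap R ↥(modularFunctionFieldFullC K M) π)⁻¹ * x ∈ B)
    (hKr : ∀ x : ↥(modularFunctionFieldFullC K M),
      (∀ O : ValuationSubring ↥(modularFunctionFieldFullC K M),
        s34i47_IsHoriz π O → s34i47_Through B n O → x ∈ O) →
      ∃ s : B, s ∉ n ∧ ∃ k : ℕ,
        algebraMap R ↥(modularFunctionFieldFullC K M) π ^ k * ((s : ↥(modularFunctionFieldFullC K M)) * x) ∈ B)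
    (hhB : pk85_h3 K M h3 ∈ B)
    (hJn : ∃ s : B, s ∉ n ∧ (s : ↥(modularFunctionFieldFullC K M)) * rm90_j K M ∈ B)
    (hfV : pk85_h3 K M h3 + 27 ∈ V) (hfV' : (pk85_h3 K M h3 + 27)⁻¹ ∈ V) :
    ∃ c u : ↥(modularFunctionFieldFullC K M),
      (∃ s : B, s ∉ n ∧ (s : ↥(modularFunctionFieldFullC K M)) * c ∈ B) ∧
      (∃ s : B, s ∉ n ∧ (s : ↥(modularFunctionFieldFullC K M)) * u ∈ B) ∧
      (∃ s : B, s ∉ n ∧ (s : ↥(modularFunctionFieldFullC K M)) * u⁻¹ ∈ B) ∧ u ≠ 0 ∧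
      pk85_h3 K M h3 + 27 = u * c ^ 3 := by
  have hπ0 : algebraMap R ↥(modularFunctionFieldFullC K M) π ≠ 0 := by
    rw [IsScalarTower.algebraMap_apply R K ↥(modularFunctionFieldFullC K M)]
    intro h0
    have h1 := (map_eq_zero (algebraMap K ↥(modularFunctionFieldFullC K M))).mp h0
    exact hπ.ne_zero ((IsFractionRing.injective R K) (by rw [h1, map_zero]))
  have hf0 : pk85_h3 K M h3 + 27 ≠ 0 := by
    have := ht49_h3_add_ne_zero K M h3 27
    simpa using this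
  have h27B : (27 : ↥(modularFunctionFieldFullC K M)) ∈ B := by
    have := B.algebraMap_mem (27 : R)
    rwa [map_ofNat] at this
  have hfB : ∃ s : B, s ∉ n ∧
      (s : ↥(modularFunctionFieldFullC K M)) * (pk85_h3 K M h3 + 27) ∈ B :=
    ⟨1, (Ideal.ne_top_iff_one n).mp hn.ne_top, by
      rw [OneMemClass.coe_one, one_mul]; exact B.add_mem hhB h27B⟩
  have hOrd : ∀ O : ValuationSubring ↥(modularFunctionFieldFullC K M),
      s34i47_IsHoriz π O → s34i47_Through B n O →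
      ∃ ε w : ↥(modularFunctionFieldFullC K M), ε ∈ O ∧ ε⁻¹ ∈ O ∧
        pk85_h3 K M h3 + 27 = ε * w ^ 3 := by
    intro O hO hthr
    obtain ⟨s, hs, hsJ⟩ := hJn
    have hJO : rm90_j K M ∈ O := by
      have h1 : (s : ↥(modularFunctionFieldFullC K M)) ≠ 0 := by
        intro h0
        apply hs
        have : s = 0 := Subtype.ext h0
        rw [this]; exact n.zero_mem
      have h2' : rm90_j K M = (s : ↥(modularFunctionFieldFullC K M))⁻¹ *
          ((s : ↥(modularFunctionFieldFullC K M)) * rm90_j K M) := by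
        rw [← mul_assoc, inv_mul_cancel₀ h1, one_mul]
      rw [h2']
      exact O.mul_mem _ _ (hthr.2 s hs) (hthr.1 _ hsJ)
    exact ht49_ord_h3 K M π hπ h3 hν O hO hJO
  have hFin0 : s34i47_Fin π (pk85_h3 K M h3 + 27) :=
    ca94_fin (K := K) π hπ _ (fs29_finSupp M K _ hf0)
  have hFin : {O : ValuationSubring ↥(modularFunctionFieldFullC K M) |
      s34i47_IsHoriz π O ∧ s34i47_Through B n O ∧
      ¬ (pk85_h3 K M h3 + 27 ∈ O ∧ (pk85_h3 K M h3 + 27)⁻¹ ∈ O)}.Finite := by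
    refine hFin0.subset ?_
    rintro O ⟨hO, -, hf⟩
    exact ⟨hO, hf⟩
  obtain ⟨c, u, hc, hu, hu', hfac⟩ :=
    rr68_root π hπ0 B hfrac n hn hπn h2 V hBV hmax hdisc hsat hKr 3 (by norm_num)
      (pk85_h3 K M h3 + 27) hf0 hfB hfV hfV' hOrd hFin
  refine ⟨c, u, hc, hu, hu', ?_, hfac⟩
  rintro rfl
  rw [zero_mul] at hfac
  exact hf0 hfac

end Root

end Fermat.Agent.S36
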