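/-
S36 lab, row 599 (C-REGq, the crux), helper49: the rigidity input `f = u * c ^ m` of the
divisibility routes, CONCRETELY at a GOOD level (`M` a unit of `R`), with every frame
hypothesis of `rr68_root` discharged from objects on main.

* `gf49_two_gen` : a Dedekind fibre `B ⧸ π B` makes every closed point 2-generated
  (`h2` of `rr68_root` / `lpz9_locPrin_at`, with `(x, y) = (z, π)`);
* `gf49_root_of` : chart `B = pk15_chart R {h}` of a Hauptmodul `h` at level `M`,
  `V = cm85_Vinf M hπ` (Gauss valuation ring), Dedekind fibre + saturation of this chart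
  (good level), `K` a number field: for `f ≠ 0` regular at the closed point `n`, a unit of `V`,
  with `f = ε w ^ m` at the horizontal `O` through `n`:  `f = u * c ^ m`, `c, u, u⁻¹ ∈ B_n`.
  (`2`-generation, `hBV`, `hmax`, `hdisc`, `hKr`, `hFin` are all discharged inside.)
* `gf49_h3_chart` / `gf49_h3_chart_inv` : **the `q = 2` input**: level `M` with `3 ∣ M`,
  `M` a unit of `R`, `nuThree M = 0`; on both charts `{h₃}`, `{h₃⁻¹}` of the level-3 Hauptmodul,
  at every closed point `n` of the special fibre where `J` is regular: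
  `h₃ + 27 = u * c ^ 3` with `c, u, u⁻¹ ∈ B_n`  (then `ht49_clauses_map` gives `J̄ = w c̄¹²`).
-/
import Mathlib
import Fermat.Agent.S18.PackFinal85
import Fermat.Agent.S34.FrameSat85
import Fermat.Agent.S34.Krull65
import Fermat.Agent.S34.LocStr63
import Fermat.Agent.S34.CuspInst22
import Fermat.Agent.S34.FinSupp29
import Fermat.Agent.S36.RigidSpec96
import Fermat.Agent.S36.HauptTwo49

set_option autoImplicit false
set_option linter.style.haveILetI false
set_option linter.unusedSectionVars false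
set_option linter.style.longLine false

open ModularCurve AlgebraicCurve

namespace Fermat.Agent.S36

open Fermat.Agent.S24 Fermat.Agent.S18 Fermat.Agent.S34

local notation "Q̄" => AlgebraicClosure ℚ

/-- **2-generation from a Dedekind fibre**: `n B_n = (z, π)`. -/
theorem gf49_two_gen {R B : Type*} [CommRing R] [CommRing B] [Algebra R B] (π : R)
    [IsDedekindDomain (B ⧸ Ideal.span {algebraMap R B π})] (n : Ideal B) [n.IsPrime]
    (hπn : algebraMap R B π ∈ n) :
    ∃ x y : B, x ∈ n ∧ y ∈ n ∧ ∀ v ∈ n, ∃ s : B, s ∉ n ∧ ∃ a b : B, s * v = a * x + b * y := by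
  obtain ⟨z, hz, hgen⟩ := ls63_unif_of_dedekind (Ideal.span {algebraMap R B π}) n
    ((Ideal.span_singleton_le_iff_mem _).mpr hπn)
  refine ⟨z, algebraMap R B π, hz, hπn, fun v hv => ?_⟩
  obtain ⟨s, hs, a, ha⟩ := hgen v hv
  obtain ⟨b, hb⟩ := Ideal.mem_span_singleton'.mp ha
  exact ⟨s, hs, a, b, by rw [hb]; ring⟩

section Concrete

variable {R : Type} [CommRing R] [IsDomain R] [IsDiscreteValuationRing R]
  (K : Type) [Field K] [NumberField K] [Algebra K Q̄] [Algebra R K] [IsFractionRing R K]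
  (M : ℕ) [NeZero M]
  [Algebra R ↥(modularFunctionFieldFullC K M)]
  [IsScalarTower R K ↥(modularFunctionFieldFullC K M)]

/-- **Root extraction at a closed point of a good-level chart.** -/
theorem gf49_root_of {π : R} (hπ : Irreducible π) (h : ↥(modularFunctionFieldFullC K M))
    (hh : Transcendental K h) (hhV : h ∈ cm85_Vinf (K := K) M hπ)
    (hN₁ : IsNoetherianRing (pk15_chart R ({h} : Set ↥(modularFunctionFieldFullC K M))))
    (hN₂ : IsNoetherianRing (pk15_chart R ({h⁻¹} : Set ↥(modularFunctionFieldFullC K M))))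
    (hfin : ∃ G : Finset ↥(modularFunctionFieldFullC K M),
      ∀ x ∈ pk15_chart R ({h} : Set ↥(modularFunctionFieldFullC K M)),
        x ∈ Submodule.span (Algebra.adjoin R ({h} : Set ↥(modularFunctionFieldFullC K M)))
          (G : Set ↥(modularFunctionFieldFullC K M)))
    (hfrac : ∀ x : ↥(modularFunctionFieldFullC K M),
      ∃ a ∈ pk15_chart R ({h} : Set ↥(modularFunctionFieldFullC K M)),
      ∃ b ∈ pk15_chart R ({h} : Set ↥(modularFunctionFieldFullC K M)), b ≠ 0 ∧ x * b = a)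
    (hD : IsDedekindDomain (pk15_chart R ({h} : Set ↥(modularFunctionFieldFullC K M)) ⧸
      Ideal.span {algebraMap R (pk15_chart R ({h} : Set ↥(modularFunctionFieldFullC K M))) π}))
    (hsat : ∀ x ∈ pk15_chart R ({h} : Set ↥(modularFunctionFieldFullC K M)),
      (algebraMap R ↥(modularFunctionFieldFullC K M) π)⁻¹ * x ∈ cm85_Vinf (K := K) M hπ →
      (algebraMap R ↥(modularFunctionFieldFullC K M) π)⁻¹ * x ∈
        pk15_chart R ({h} : Set ↥(modularFunctionFieldFullC K M)))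
    (n : Ideal (pk15_chart R ({h} : Set ↥(modularFunctionFieldFullC K M)))) (hn : n.IsMaximal)
    (hπn : algebraMap R (pk15_chart R ({h} : Set ↥(modularFunctionFieldFullC K M))) π ∈ n)
    (m : ℕ) (hm : 0 < m) (f : ↥(modularFunctionFieldFullC K M)) (hf : f ≠ 0)
    (hfB : ∃ s : pk15_chart R ({h} : Set ↥(modularFunctionFieldFullC K M)), s ∉ n ∧
      (s : ↥(modularFunctionFieldFullC K M)) * f ∈
        pk15_chart R ({h} : Set ↥(modularFunctionFieldFullC K M)))
    (hfV : f ∈ cm85_Vinf (K := K) M hπ) (hfV' : f⁻¹ ∈ cm85_Vinf (K := K) M hπ)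
    (hOrd : ∀ O : ValuationSubring ↥(modularFunctionFieldFullC K M), s34i47_IsHoriz π O →
      s34i47_Through (pk15_chart R ({h} : Set ↥(modularFunctionFieldFullC K M))) n O →
      ∃ ε w : ↥(modularFunctionFieldFullC K M), ε ∈ O ∧ ε⁻¹ ∈ O ∧ f = ε * w ^ m) :
    ∃ c u : ↥(modularFunctionFieldFullC K M),
      (∃ s : pk15_chart R ({h} : Set ↥(modularFunctionFieldFullC K M)), s ∉ n ∧
        (s : ↥(modularFunctionFieldFullC K M)) * c ∈
          pk15_chart R ({h} : Set ↥(modularFunctionFieldFullC K M))) ∧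
      (∃ s : pk15_chart R ({h} : Set ↥(modularFunctionFieldFullC K M)), s ∉ n ∧
        (s : ↥(modularFunctionFieldFullC K M)) * u ∈
          pk15_chart R ({h} : Set ↥(modularFunctionFieldFullC K M))) ∧
      (∃ s : pk15_chart R ({h} : Set ↥(modularFunctionFieldFullC K M)), s ∉ n ∧
        (s : ↥(modularFunctionFieldFullC K M)) * u⁻¹ ∈
          pk15_chart R ({h} : Set ↥(modularFunctionFieldFullC K M))) ∧ u ≠ 0 ∧
      f = u * c ^ m := by
  haveI := hN₁
  haveI := hD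
  haveI : n.IsPrime := hn.isPrime
  set V := cm85_Vinf (K := K) M hπ with hV
  have hconv : ∀ r : R, algebraMap R ↥(modularFunctionFieldFullC K M) r =
      algebraMap K ↥(modularFunctionFieldFullC K M) (algebraMap R K r) :=
    fun r => IsScalarTower.algebraMap_apply R K ↥(modularFunctionFieldFullC K M) r
  have hπ0 : algebraMap R ↥(modularFunctionFieldFullC K M) π ≠ 0 := by
    rw [hconv]
    intro h0
    have h1 := (map_eq_zero (algebraMap K ↥(modularFunctionFieldFullC K M))).mp h0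
    exact hπ.ne_zero ((IsFractionRing.injective R K) (by rw [h1, map_zero]))
  have hRV : ∀ r : R, algebraMap R ↥(modularFunctionFieldFullC K M) r ∈ V := pk85_hRV M hπ
  have hmax : ∀ x ∈ V, x⁻¹ ∉ V →
      (algebraMap R ↥(modularFunctionFieldFullC K M) π)⁻¹ * x ∈ V := by
    intro x hx hx'
    rw [hconv]
    exact gv85_hmax (IsLocalRing.residue R) π (pk85_res_iff hπ) hπ.ne_zero _ _ x hx hx'
  have harch : ∀ x : ↥(modularFunctionFieldFullC K M), x ≠ 0 →
      ∃ k : ℕ, ((algebraMap R ↥(modularFunctionFieldFullC K M) π) ^ k)⁻¹ * x ∉ V := by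
    intro x hx
    obtain ⟨k, hk⟩ := fs85_harch (K := K) M hπ x hx
    exact ⟨k, by rw [hconv]; exact hk⟩
  have hBV : ∀ x ∈ pk15_chart R ({h} : Set ↥(modularFunctionFieldFullC K M)), x ∈ V :=
    pk15_chart_le_V V hRV _ (by
      intro g hg
      rw [Set.mem_singleton_iff] at hg
      rw [hg]; exact hhV)
  have hdisc : ∀ x : ↥(modularFunctionFieldFullC K M), x ≠ 0 → ∃ k : ℤ,
      algebraMap R ↥(modularFunctionFieldFullC K M) π ^ k * x ∈ V ∧
      (algebraMap R ↥(modularFunctionFieldFullC K M) π ^ k * x)⁻¹ ∈ V :=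
    fun x hx => rs96_exists_zpow_unit V _ hπ0 hmax harch x hx
  have hKr := (kr65_Pkg_Krull R K ↥(modularFunctionFieldFullC K M) π hπ h hh hN₁ hN₂ hfin
    hfrac).1 n hn hπn
  have h2 := gf49_two_gen (R := R) π n hπn
  have hFin0 : s34i47_Fin π f := ca94_fin (K := K) π hπ _ (fs29_finSupp M K _ hf)
  have hFin : {O : ValuationSubring ↥(modularFunctionFieldFullC K M) |
      s34i47_IsHoriz π O ∧
      s34i47_Through (pk15_chart R ({h} : Set ↥(modularFunctionFieldFullC K M))) n O ∧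
      ¬ (f ∈ O ∧ f⁻¹ ∈ O)}.Finite := by
    refine hFin0.subset ?_
    rintro O ⟨hO, -, hfO⟩
    exact ⟨hO, hfO⟩
  obtain ⟨c, u, hc, hu, hu', hfac⟩ :=
    rr68_root π hπ0 _ hfrac n hn hπn h2 V hBV hmax hdisc hsat hKr m hm f hf hfB hfV hfV'
      hOrd hFin
  refine ⟨c, u, hc, hu, hu', ?_, hfac⟩
  rintro rfl
  rw [zero_mul] at hfac
  exact hf hfac

/-- The facts on `h₃ + 27` used below: it is a unit of the Gauss valuation ring. -/
theorem gf49_h3_unit {π : R} (hπ : Irreducible π) (h3 : 3 ∣ M) :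
    pk85_h3 K M h3 + 27 ∈ cm85_Vinf (K := K) M hπ ∧
      (pk85_h3 K M h3 + 27)⁻¹ ∈ cm85_Vinf (K := K) M hπ := by
  obtain ⟨hh, hRV, -, -, hhV, hhV', -⟩ := cm85_facts_level3 (R := R) (K := K) M hπ h3
  obtain ⟨-, hJV'⟩ := ci22_Vinf_j (K := K) M hπ
  set V := cm85_Vinf (K := K) M hπ
  have hnat : ∀ a : ℕ, (a : ↥(modularFunctionFieldFullC K M)) ∈ V := by
    intro a
    have := hRV (a : R)
    rwa [map_natCast] at this
  have h27 : (27 : ↥(modularFunctionFieldFullC K M)) ∈ V := by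
    have := hnat 27
    exact_mod_cast this
  have h243 : (243 : ↥(modularFunctionFieldFullC K M)) ∈ V := by
    have := hnat 243
    exact_mod_cast this
  refine ⟨V.add_mem _ _ hhV h27, ?_⟩
  have hh0 : pk85_h3 K M h3 ≠ 0 := cap87_ne_zero _ hh
  have hJ0 : rm90_j K M ≠ 0 := rh27_J_ne_zero K M (rm90_j K M) rfl
  have hf0 : pk85_h3 K M h3 + 27 ≠ 0 := by
    have := ht49_h3_add_ne_zero K M h3 27
    simpa using this
  have hrel := pk85_h3_rel K M h3
  have h1 : (pk85_h3 K M h3 + 27)⁻¹ =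
      (pk85_h3 K M h3 + 243) ^ 3 * ((rm90_j K M)⁻¹ * ((pk85_h3 K M h3)⁻¹) ^ 3) := by
    apply inv_eq_of_mul_eq_one_right
    rw [show (pk85_h3 K M h3 + 27) *
        ((pk85_h3 K M h3 + 243) ^ 3 * ((rm90_j K M)⁻¹ * ((pk85_h3 K M h3)⁻¹) ^ 3)) =
        ((pk85_h3 K M h3 + 27) * (pk85_h3 K M h3 + 243) ^ 3) *
          ((rm90_j K M)⁻¹ * ((pk85_h3 K M h3)⁻¹) ^ 3) by ring, ← hrel]
    field_simp
  rw [h1]
  exact V.mul_mem _ _ (V.pow_mem (V.add_mem _ _ hhV h243) 3)
    (V.mul_mem _ _ hJV' (V.pow_mem hhV' 3))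

/-- **`q = 2` input, chart `{h₃}`**: `h₃ + 27 = u c³` in `B_n` at every closed point of the
special fibre where `J` is regular (good level `M`, `3 ∣ M`, no elliptic points of order 3). -/
theorem gf49_h3_chart {π : R} (hπ : Irreducible π) (h3 : 3 ∣ M) (hMu : IsUnit (M : R))
    (hν : nuThree M = 0)
    (n : Ideal (pk15_chart R ({pk85_h3 K M h3} : Set ↥(modularFunctionFieldFullC K M))))
    (hn : n.IsMaximal)
    (hπn : algebraMap R
      (pk15_chart R ({pk85_h3 K M h3} : Set ↥(modularFunctionFieldFullC K M))) π ∈ n)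
    (hJn : ∃ s : pk15_chart R ({pk85_h3 K M h3} : Set ↥(modularFunctionFieldFullC K M)),
      s ∉ n ∧ (s : ↥(modularFunctionFieldFullC K M)) * rm90_j K M ∈
        pk15_chart R ({pk85_h3 K M h3} : Set ↥(modularFunctionFieldFullC K M))) :
    ∃ c u : ↥(modularFunctionFieldFullC K M),
      (∃ s : pk15_chart R ({pk85_h3 K M h3} : Set ↥(modularFunctionFieldFullC K M)), s ∉ n ∧
        (s : ↥(modularFunctionFieldFullC K M)) * c ∈
          pk15_chart R ({pk85_h3 K M h3} : Set ↥(modularFunctionFieldFullC K M))) ∧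
      (∃ s : pk15_chart R ({pk85_h3 K M h3} : Set ↥(modularFunctionFieldFullC K M)), s ∉ n ∧
        (s : ↥(modularFunctionFieldFullC K M)) * u ∈
          pk15_chart R ({pk85_h3 K M h3} : Set ↥(modularFunctionFieldFullC K M))) ∧
      (∃ s : pk15_chart R ({pk85_h3 K M h3} : Set ↥(modularFunctionFieldFullC K M)), s ∉ n ∧
        (s : ↥(modularFunctionFieldFullC K M)) * u⁻¹ ∈
          pk15_chart R ({pk85_h3 K M h3} : Set ↥(modularFunctionFieldFullC K M))) ∧ u ≠ 0 ∧
      pk85_h3 K M h3 + 27 = u * c ^ 3 := by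
  haveI : Algebra.IsAlgebraic K Q̄ := fs85_isAlgebraic K
  obtain ⟨hh, hRV, hπV, hmax, hhV, hhV', hN₁, hN₂, hfin₁, hfin₂, hfrac₁, hfrac₂, -⟩ :=
    cm85_facts_level3 (R := R) (K := K) M hπ h3
  obtain ⟨⟨hD₁, -⟩, -⟩ := sm79_level3 (R := R) K M hπ hMu h3
  have hD₁' : IsDedekindDomain
      (pk15_chart R ({pk85_h3 K M h3} : Set ↥(modularFunctionFieldFullC K M)) ⧸
        Ideal.span {algebraMap R
          (pk15_chart R ({pk85_h3 K M h3} : Set ↥(modularFunctionFieldFullC K M))) π}) := hD₁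
  haveI := hD₁'
  have hM := pk85_natCast_residue_ne_zero (R := R) M hMu
  have h3u : IsUnit ((3 : ℕ) : R) := pk85_isUnit_of_dvd M h3 hMu
  obtain ⟨u3, hu3⟩ := h3u.exists_left_inv
  have hu3' : u3 * 3 = 1 := by rw [← hu3]; push_cast; ring
  have hh0 : pk85_h3 K M h3 ≠ 0 := cap87_ne_zero _ hh
  have hsat₁₂ := sat23_level3 K M π hπ.prime (IsLocalRing.ResidueField R) (IsLocalRing.residue R)
    (pk85_res_iff hπ) hM (pk85_HF K M hπ) _ hh0 (pk85_h3_rel K M h3) u3 hu3'
  have hsat₁ := sat23_sat₁ π (cm85_Vinf (K := K) M hπ) hRV hπV _ hh0 hhV hhV' hsat₁₂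
  obtain ⟨hfV, hfV'⟩ := gf49_h3_unit K M hπ h3
  have hf0 : pk85_h3 K M h3 + 27 ≠ 0 := by
    have := ht49_h3_add_ne_zero K M h3 27
    simpa using this
  have hn1 : (1 : pk15_chart R ({pk85_h3 K M h3} : Set ↥(modularFunctionFieldFullC K M))) ∉ n :=
    (Ideal.ne_top_iff_one n).mp hn.ne_top
  have h27B : (27 : ↥(modularFunctionFieldFullC K M)) ∈
      pk15_chart R ({pk85_h3 K M h3} : Set ↥(modularFunctionFieldFullC K M)) := by
    have := (pk15_chart R ({pk85_h3 K M h3} : Set ↥(modularFunctionFieldFullC K M))).algebraMap_mem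
      (27 : R)
    rwa [map_ofNat] at this
  have hhB : pk85_h3 K M h3 ∈
      pk15_chart R ({pk85_h3 K M h3} : Set ↥(modularFunctionFieldFullC K M)) :=
    pk15_subset_chart _ (Set.mem_singleton _)
  refine gf49_root_of K M hπ (pk85_h3 K M h3) hh hhV hN₁ hN₂ hfin₁ hfrac₁ hD₁' hsat₁ n hn hπn 3
    (by norm_num) _ hf0 ⟨1, hn1, ?_⟩ hfV hfV' ?_
  · rw [OneMemClass.coe_one, one_mul]
    exact Subalgebra.add_mem _ hhB h27B
  · intro O hO hthr
    obtain ⟨s, hs, hsJ⟩ := hJn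
    have hJO : rm90_j K M ∈ O := by
      have h1 : (s : ↥(modularFunctionFieldFullC K M)) ≠ 0 := by
        intro h0
        apply hs
        have : s = 0 := Subtype.ext h0
        rw [this]; exact n.zero_mem
      have h2' : rm90_j K M = (s : ↥(modularFunctionFieldFullC K M))⁻¹ *
          ((s : ↥(modularFunctionFieldFullC K M)) * rm90_j K M) := by
        rw [← mul_assoc, inv_mul_cancel₀ h1, one_mul]
      rw [h2']
      exact O.mul_mem _ _ (hthr.2 s hs) (hthr.1 _ hsJ)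
    exact ht49_ord_h3 K M π hπ h3 hν O hO hJO

/-- On the chart `{h₃⁻¹}`: if `J` is regular at the prime `n` then `h₃⁻¹ ∉ n`
(the points with `h₃⁻¹ = 0` are cusps).  Abstract form. -/
theorem gf49_inv_not_mem_abs {R' F : Type*} [CommRing R'] [Field F] [Algebra R' F]
    (B : Subalgebra R' F) (n : Ideal B) [hnp : n.IsPrime] (J h : F) (hh0 : h ≠ 0)
    (hrel : J * h ^ 3 = (h + 27) * (h + 243) ^ 3) (htB : h⁻¹ ∈ B)
    (hJn : ∃ s : B, s ∉ n ∧ (s : F) * J ∈ B) : (⟨h⁻¹, htB⟩ : B) ∉ n := by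
  intro htn
  have hnat : ∀ a : ℕ, (a : F) ∈ B := by
    intro a
    have := B.algebraMap_mem (a : R')
    rwa [map_natCast] at this
  have h27B : (27 : F) ∈ B := by
    have := hnat 27
    exact_mod_cast this
  have h243B : (243 : F) ∈ B := by
    have := hnat 243
    exact_mod_cast this
  have ha1 : 1 + 27 * h⁻¹ ∈ B := B.add_mem B.one_mem (B.mul_mem h27B htB)
  have ha2 : 1 + 243 * h⁻¹ ∈ B := B.add_mem B.one_mem (B.mul_mem h243B htB)
  obtain ⟨s, hs, hsJ⟩ := hJn
  -- `t J = (1 + 27 t)(1 + 243 t)³`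
  have htJ : h⁻¹ * J = (1 + 27 * h⁻¹) * (1 + 243 * h⁻¹) ^ 3 := by
    have e1 : (1 + 27 * h⁻¹) * (1 + 243 * h⁻¹) ^ 3 =
        h⁻¹ ^ 4 * ((h + 27) * (h + 243) ^ 3) := by
      field_simp
    rw [e1, ← hrel]; field_simp
  have hprod : (⟨h⁻¹, htB⟩ : B) * ⟨(s : F) * J, hsJ⟩ =
      s * ((⟨1 + 27 * h⁻¹, ha1⟩ : B) * (⟨1 + 243 * h⁻¹, ha2⟩ : B) ^ 3) := by
    apply Subtype.ext
    push_cast
    rw [← htJ]; ring
  have hmem : s * ((⟨1 + 27 * h⁻¹, ha1⟩ : B) * (⟨1 + 243 * h⁻¹, ha2⟩ : B) ^ 3) ∈ n := by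
    rw [← hprod]
    exact n.mul_mem_right _ htn
  have h1n : (1 : B) ∉ n := (Ideal.ne_top_iff_one n).mp hnp.ne_top
  rcases hnp.mem_or_mem hmem with hc | hc
  · exact hs hc
  rcases hnp.mem_or_mem hc with hc | hc
  · apply h1n
    have e : (1 : B) = (⟨1 + 27 * h⁻¹, ha1⟩ : B) - (⟨27, h27B⟩ : B) * ⟨h⁻¹, htB⟩ := by
      apply Subtype.ext
      push_cast
      ring
    rw [e]
    exact n.sub_mem hc (n.mul_mem_left _ htn)
  · have h' := hnp.mem_of_pow_mem 3 hc
    apply h1n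
    have e : (1 : B) = (⟨1 + 243 * h⁻¹, ha2⟩ : B) - (⟨243, h243B⟩ : B) * ⟨h⁻¹, htB⟩ := by
      apply Subtype.ext
      push_cast
      ring
    rw [e]
    exact n.sub_mem h' (n.mul_mem_left _ htn)

/-- **`q = 2` input, chart `{h₃⁻¹}`**: `h₃ + 27 = u c³` in `B_n` at every closed point of the
special fibre where `J` is regular (good level `M`, `3 ∣ M`, no elliptic points of order 3). -/
theorem gf49_h3_chart_inv {π : R} (hπ : Irreducible π) (h3 : 3 ∣ M) (hMu : IsUnit (M : R))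
    (hν : nuThree M = 0)
    (n : Ideal (pk15_chart R ({(pk85_h3 K M h3)⁻¹} : Set ↥(modularFunctionFieldFullC K M))))
    (hn : n.IsMaximal)
    (hπn : algebraMap R
      (pk15_chart R ({(pk85_h3 K M h3)⁻¹} : Set ↥(modularFunctionFieldFullC K M))) π ∈ n)
    (hJn : ∃ s : pk15_chart R ({(pk85_h3 K M h3)⁻¹} : Set ↥(modularFunctionFieldFullC K M)),
      s ∉ n ∧ (s : ↥(modularFunctionFieldFullC K M)) * rm90_j K M ∈
        pk15_chart R ({(pk85_h3 K M h3)⁻¹} : Set ↥(modularFunctionFieldFullC K M))) :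
    ∃ c u : ↥(modularFunctionFieldFullC K M),
      (∃ s : pk15_chart R ({(pk85_h3 K M h3)⁻¹} : Set ↥(modularFunctionFieldFullC K M)), s ∉ n ∧
        (s : ↥(modularFunctionFieldFullC K M)) * c ∈
          pk15_chart R ({(pk85_h3 K M h3)⁻¹} : Set ↥(modularFunctionFieldFullC K M))) ∧
      (∃ s : pk15_chart R ({(pk85_h3 K M h3)⁻¹} : Set ↥(modularFunctionFieldFullC K M)), s ∉ n ∧
        (s : ↥(modularFunctionFieldFullC K M)) * u ∈
          pk15_chart R ({(pk85_h3 K M h3)⁻¹} : Set ↥(modularFunctionFieldFullC K M))) ∧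
      (∃ s : pk15_chart R ({(pk85_h3 K M h3)⁻¹} : Set ↥(modularFunctionFieldFullC K M)), s ∉ n ∧
        (s : ↥(modularFunctionFieldFullC K M)) * u⁻¹ ∈
          pk15_chart R ({(pk85_h3 K M h3)⁻¹} : Set ↥(modularFunctionFieldFullC K M))) ∧ u ≠ 0 ∧
      pk85_h3 K M h3 + 27 = u * c ^ 3 := by
  haveI : Algebra.IsAlgebraic K Q̄ := fs85_isAlgebraic K
  haveI : n.IsPrime := hn.isPrime
  obtain ⟨hh, hRV, hπV, hmax, hhV, hhV', hN₁, hN₂, hfin₁, hfin₂, hfrac₁, hfrac₂, -⟩ :=
    cm85_facts_level3 (R := R) (K := K) M hπ h3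
  obtain ⟨-, ⟨hD₂, -⟩⟩ := sm79_level3 (R := R) K M hπ hMu h3
  have hD₂' : IsDedekindDomain
      (pk15_chart R ({(pk85_h3 K M h3)⁻¹} : Set ↥(modularFunctionFieldFullC K M)) ⧸
        Ideal.span {algebraMap R
          (pk15_chart R ({(pk85_h3 K M h3)⁻¹} : Set ↥(modularFunctionFieldFullC K M))) π}) := hD₂
  haveI := hD₂'
  have hM := pk85_natCast_residue_ne_zero (R := R) M hMu
  have h3u : IsUnit ((3 : ℕ) : R) := pk85_isUnit_of_dvd M h3 hMu
  obtain ⟨u3, hu3⟩ := h3u.exists_left_inv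
  have hu3' : u3 * 3 = 1 := by rw [← hu3]; push_cast; ring
  have hh0 : pk85_h3 K M h3 ≠ 0 := cap87_ne_zero _ hh
  have hsat₁₂ := sat23_level3 K M π hπ.prime (IsLocalRing.ResidueField R) (IsLocalRing.residue R)
    (pk85_res_iff hπ) hM (pk85_HF K M hπ) _ hh0 (pk85_h3_rel K M h3) u3 hu3'
  have hsat₂ := sat23_sat₂ π (cm85_Vinf (K := K) M hπ) hRV hπV _ hh0 hhV hhV' hsat₁₂
  obtain ⟨hfV, hfV'⟩ := gf49_h3_unit K M hπ h3
  have hf0 : pk85_h3 K M h3 + 27 ≠ 0 := by
    have := ht49_h3_add_ne_zero K M h3 27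
    exact_mod_cast this
  have htB : (pk85_h3 K M h3)⁻¹ ∈
      pk15_chart R ({(pk85_h3 K M h3)⁻¹} : Set ↥(modularFunctionFieldFullC K M)) :=
    pk15_subset_chart _ (Set.mem_singleton _)
  have htn := gf49_inv_not_mem_abs _ n (rm90_j K M) (pk85_h3 K M h3) hh0 (pk85_h3_rel K M h3) htB hJn
  have h27B : (27 : ↥(modularFunctionFieldFullC K M)) ∈
      pk15_chart R ({(pk85_h3 K M h3)⁻¹} : Set ↥(modularFunctionFieldFullC K M)) := by
    have := (pk15_chart R
      ({(pk85_h3 K M h3)⁻¹} : Set ↥(modularFunctionFieldFullC K M))).algebraMap_mem (27 : R)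
    rwa [map_ofNat] at this
  have hN₁' : IsNoetherianRing (pk15_chart R
      ({((pk85_h3 K M h3)⁻¹)⁻¹} : Set ↥(modularFunctionFieldFullC K M))) := by
    rw [inv_inv]; exact hN₁
  refine gf49_root_of K M hπ (pk85_h3 K M h3)⁻¹ (cap87_transcendental_inv _ hh) hhV' hN₂ hN₁'
    hfin₂ hfrac₂ hD₂' hsat₂ n hn hπn 3 (by norm_num) _ hf0 ⟨⟨_, htB⟩, htn, ?_⟩ hfV hfV' ?_
  · have e : (pk85_h3 K M h3)⁻¹ * (pk85_h3 K M h3 + 27) = 1 + 27 * (pk85_h3 K M h3)⁻¹ := by
      field_simp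
    show (pk85_h3 K M h3)⁻¹ * (pk85_h3 K M h3 + 27) ∈ _
    rw [e]
    exact Subalgebra.add_mem _ (Subalgebra.one_mem _) (Subalgebra.mul_mem _ h27B htB)
  · intro O hO hthr
    obtain ⟨s, hs, hsJ⟩ := hJn
    have hJO : rm90_j K M ∈ O := by
      have h1 : (s : ↥(modularFunctionFieldFullC K M)) ≠ 0 := by
        intro h0
        apply hs
        have : s = 0 := Subtype.ext h0
        rw [this]; exact n.zero_mem
      have h2' : rm90_j K M = (s : ↥(modularFunctionFieldFullC K M))⁻¹ *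
          ((s : ↥(modularFunctionFieldFullC K M)) * rm90_j K M) := by
        rw [← mul_assoc, inv_mul_cancel₀ h1, one_mul]
      rw [h2']
      exact O.mul_mem _ _ (hthr.2 s hs) (hthr.1 _ hsJ)
    exact ht49_ord_h3 K M π hπ h3 hν O hO hJO

end Concrete

end Fermat.Agent.S36
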