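import Mathlib
import Fermat.Agent.S34.Iface47
import Fermat.Agent.S34.SpecFibre79
import Fermat.Agent.S36.LocPrinTwoGen9
import Fermat.Agent.S36.RigidRoot68
import Fermat.Agent.S36.DerivReg95

/-!
# S36 lab, rows 599 / 600 (helper95): `G_x = (D_x J)^6 / (J^4 (J - 1728)^3)` is a unit at a
smooth point of a good-level chart — abstract core in the S34 chart language

Frame vocabulary of `Iface47` / `RigidRoot68` (`rr68_root`): `B` a noetherian chart, `n` a closed
point of the special fibre with 2-generated maximal ideal, ONE vertical valuation ring `V`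
(`hmax`, `hdisc`, `hsat`), the per-point Krull clause `hKr`.  `D : F → F` additive with the
Leibniz rule, zero on the constants, preserving the local ring `sf79_loc B n`
(`dl93c_deriv_loc`), `D x = 1` for one `x ∈ sf79_loc B n` which is algebraic modulo every
horizontal `O` through `n`.

* `gx95_unif_at` : a uniformiser `p ∈ sf79_loc B n` of a horizontal `O` through `n` generating
  the prime `𝔪_O ∩ B_n`.
* `gx95_Dp` **(II)**: `D p` is a unit of `O` (the coordinate `x` is unramified at `O`).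
* `gx95_drop` **(III)**: `ord_O (D f) = ord_O f - 1` for `f ∈ B_n` with `ord_O f ≥ 1`.
* `gx95_unit` : if `ord_O J = 3` at the zeros of `J`, `ord_O (J - 1728) = 2` at the zeros of
  `J - 1728` and some `f ∈ B_n` with `D f ∈ O · D J` has a simple zero at the other `O`
  (rigid level), and `G = (D J)^6 / (J^4 (J - 1728)^3)` is a unit of `V`, then `G` and `G⁻¹`
  lie in `sf79_loc B n`.
-/

set_option autoImplicit false
set_option linter.unusedSectionVars false

namespace Fermat.Agent.S36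

open Fermat.Agent.S34 Polynomial

section GX95a

variable {F : Type*} [Field F]

/-- `w` is a uniformiser of `O`. -/
def gx95_Unif (O : ValuationSubring F) (w : F) : Prop :=
  w ∈ O ∧ w⁻¹ ∉ O ∧ ∀ t ∈ O, t⁻¹ ∉ O → t * w⁻¹ ∈ O

theorem gx95_val_lt_one_iff (O : ValuationSubring F) (x : F) :
    O.valuation x < 1 ↔ (x = 0 ∨ x⁻¹ ∉ O) := by
  by_cases hx : x = 0
  · subst hx
    simp
  · have hv : 0 < O.valuation x := zero_lt_iff.mpr ((Valuation.ne_zero_iff _).mpr hx)
    rw [← ValuationSubring.valuation_le_one_iff, map_inv₀, inv_le_one₀ hv, not_le]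
    simp [hx]

theorem gx95_unif_val (O : ValuationSubring F) (w : F) (hw : gx95_Unif O w) :
    w ≠ 0 ∧ O.valuation w < 1 ∧
      ∀ t : F, O.valuation t < 1 → O.valuation t ≤ O.valuation w := by
  obtain ⟨hwO, hwinv, hgen⟩ := hw
  have hw0 : w ≠ 0 := by
    rintro rfl
    exact hwinv (by rw [inv_zero]; exact O.zero_mem)
  refine ⟨hw0, (gx95_val_lt_one_iff O w).mpr (Or.inr hwinv), ?_⟩
  intro t ht
  rcases (gx95_val_lt_one_iff O t).mp ht with rfl | h
  · rw [map_zero]; exact zero_le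
  · have htO : t ∈ O := (O.valuation_le_one_iff t).mp ht.le
    have h2 : O.valuation (t * w⁻¹) ≤ 1 := (O.valuation_le_one_iff _).mpr (hgen t htO h)
    rw [map_mul, map_inv₀] at h2
    have hvw : 0 < O.valuation w := zero_lt_iff.mpr ((Valuation.ne_zero_iff _).mpr hw0)
    have h3 := (mul_inv_le_iff₀ hvw).mp h2
    rwa [one_mul] at h3

/-- Two uniformisers have the same valuation. -/
theorem gx95_unif_eq (O : ValuationSubring F) (w p : F) (hw : gx95_Unif O w)
    (hp : gx95_Unif O p) : O.valuation w = O.valuation p := by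
  obtain ⟨-, hw1, hwg⟩ := gx95_unif_val O w hw
  obtain ⟨-, hp1, hpg⟩ := gx95_unif_val O p hp
  exact le_antisymm (hpg w hw1) (hwg p hp1)

/-- **(III)** Exact drop of the order by one. -/
theorem gx95_drop (O : ValuationSubring F) (A : Subring F) (hAO : ∀ a ∈ A, a ∈ O)
    (D : F → F) (hmul : ∀ a b, D (a * b) = a * D b + b * D a)
    (hDA : ∀ a ∈ A, D a ∈ A)
    (p : F) (hp : gx95_Unif O p)
    (hprin : ∀ a ∈ A, O.valuation a < 1 → a * p⁻¹ ∈ A)
    (hDp : O.valuation (D p) = 1)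
    (hnat : ∀ k : ℕ, k ≠ 0 → O.valuation (k : F) = 1)
    (e : ℕ) (f : F) (hfA : f ∈ A) (hf : O.valuation f = O.valuation p ^ (e + 1)) :
    O.valuation (D f) = O.valuation p ^ e := by
  obtain ⟨hp0, hp1, -⟩ := gx95_unif_val O p hp
  have hvp : O.valuation p ≠ 0 := (Valuation.ne_zero_iff _).mpr hp0
  -- `f = ε p^(e+1)` with `ε ∈ A` a unit of `O`
  have hdec : ∀ (e : ℕ) (f : F), f ∈ A → O.valuation f = O.valuation p ^ (e + 1) →
      ∃ ε ∈ A, O.valuation ε = 1 ∧ f = ε * p ^ (e + 1) := by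
    intro e
    induction e with
    | zero =>
      intro f hfA hf
      rw [zero_add, pow_one] at hf
      refine ⟨f * p⁻¹, hprin f hfA (hf ▸ hp1), ?_, ?_⟩
      · rw [map_mul, map_inv₀, hf, mul_inv_cancel₀ hvp]
      · rw [zero_add, pow_one, mul_assoc, inv_mul_cancel₀ hp0, mul_one]
    | succ e ih =>
      intro f hfA hf
      have hlt : O.valuation f < 1 := by
        rw [hf]
        exact pow_lt_one₀ zero_le hp1 (by omega)
      have h1 : O.valuation (f * p⁻¹) = O.valuation p ^ (e + 1) := by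
        rw [map_mul, map_inv₀, hf, pow_succ (O.valuation p) (e + 1), mul_assoc,
          mul_inv_cancel₀ hvp, mul_one]
      obtain ⟨ε, hεA, hε1, hε⟩ := ih (f * p⁻¹) (hprin f hfA hlt) h1
      refine ⟨ε, hεA, hε1, ?_⟩
      have h2 : f = f * p⁻¹ * p := by
        rw [mul_assoc, inv_mul_cancel₀ hp0, mul_one]
      rw [h2, hε]
      ring
  obtain ⟨ε, hεA, hε1, hε⟩ := hdec e f hfA hf
  have hDε : O.valuation (D ε) ≤ 1 := (O.valuation_le_one_iff _).mpr (hAO _ (hDA ε hεA))
  have hD : D f = p ^ e * (((e + 1 : ℕ) : F) * ε * D p + p * D ε) := by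
    rw [hε, hmul, dr95_pow D hmul]
    ring
  rw [hD, map_mul, map_pow]
  have h1 : O.valuation (((e + 1 : ℕ) : F) * ε * D p) = 1 := by
    rw [map_mul, map_mul, hnat (e + 1) (by omega), hε1, hDp, one_mul, one_mul]
  have h2 : O.valuation (p * D ε) < 1 := by
    rw [map_mul]
    calc O.valuation p * O.valuation (D ε) ≤ O.valuation p * 1 := by gcongr
      _ < 1 := by rw [mul_one]; exact hp1
  have h3 : O.valuation (((e + 1 : ℕ) : F) * ε * D p + p * D ε) = 1 := by
    rw [Valuation.map_add_eq_of_lt_left _ (by rw [h1]; exact h2), h1]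
  rw [h3, mul_one]

end GX95a

section GX95b

variable {R F : Type*} [CommRing R] [Field F] [Algebra R F]

/-- Polynomials in `x ∈ A` with coefficients in `R ⊆ A` lie in `A`. -/
theorem gx95_aeval_mem (A : Subring F) (hRA : ∀ r : R, algebraMap R F r ∈ A) (x : F)
    (hx : x ∈ A) (g : R[X]) : aeval x g ∈ A := by
  induction g using Polynomial.induction_on' with
  | add p r hp hr => rw [map_add]; exact A.add_mem hp hr
  | monomial k a =>
    rw [aeval_monomial]
    exact A.mul_mem (hRA a) (A.pow_mem hx k)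

/-- **(II)** The coordinate `x` is unramified at a principal horizontal prime: `D p` is a unit
of `O`. -/
theorem gx95_Dp [IsDomain R] [CharZero R] (O : ValuationSubring F) (A : Subring F)
    (hAO : ∀ a ∈ A, a ∈ O)
    (D : F → F) (hadd : ∀ a b, D (a + b) = D a + D b)
    (hmul : ∀ a b, D (a * b) = a * D b + b * D a)
    (hDR : ∀ r : R, D (algebraMap R F r) = 0)
    (hDA : ∀ a ∈ A, D a ∈ A)
    (hRA : ∀ r : R, algebraMap R F r ∈ A)
    (hRO : ∀ r : R, r ≠ 0 → O.valuation (algebraMap R F r) = 1)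
    (p : F) (hpA : p ∈ A) (hp : gx95_Unif O p)
    (hprin : ∀ a ∈ A, O.valuation a < 1 → a * p⁻¹ ∈ A)
    (x : F) (hxA : x ∈ A) (hDx : D x = 1)
    (halg : ∃ g : R[X], g ≠ 0 ∧ O.valuation (aeval x g) < 1) :
    O.valuation (D p) = 1 := by
  classical
  obtain ⟨hp0, hp1, -⟩ := gx95_unif_val O p hp
  have hle : O.valuation (D p) ≤ 1 := (O.valuation_le_one_iff _).mpr (hAO _ (hDA p hpA))
  by_contra hne
  have hlt : O.valuation (D p) < 1 := lt_of_le_of_ne hle hne
  -- `D` preserves the prime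
  have hDP : ∀ a ∈ A, O.valuation a < 1 → O.valuation (D a) < 1 := by
    intro a haA ha
    have hc := hprin a haA ha
    have h1 : a = a * p⁻¹ * p := by rw [mul_assoc, inv_mul_cancel₀ hp0, mul_one]
    rw [h1, hmul]
    apply Valuation.map_add_lt
    · rw [map_mul]
      have h2 : O.valuation (a * p⁻¹) ≤ 1 := (O.valuation_le_one_iff _).mpr (hAO _ hc)
      calc O.valuation (a * p⁻¹) * O.valuation (D p) ≤ 1 * O.valuation (D p) := by gcongr
        _ < 1 := by rw [one_mul]; exact hlt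
    · rw [map_mul]
      have h2 : O.valuation (D (a * p⁻¹)) ≤ 1 :=
        (O.valuation_le_one_iff _).mpr (hAO _ (hDA _ hc))
      calc O.valuation p * O.valuation (D (a * p⁻¹)) ≤ O.valuation p * 1 := by gcongr
        _ < 1 := by rw [mul_one]; exact hp1
  -- a polynomial of minimal degree
  let S : Set ℕ := {m | ∃ g : R[X], g ≠ 0 ∧ O.valuation (aeval x g) < 1 ∧ g.natDegree = m}
  have hS : S.Nonempty := by
    obtain ⟨g, hg0, hg⟩ := halg
    exact ⟨g.natDegree, g, hg0, hg, rfl⟩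
  obtain ⟨g, hg0, hgP, hgdeg⟩ := Nat.sInf_mem hS
  have hmin : ∀ g' : R[X], g' ≠ 0 → O.valuation (aeval x g') < 1 → sInf S ≤ g'.natDegree :=
    fun g' h0 hP' => Nat.sInf_le ⟨g', h0, hP', rfl⟩
  have hdeg : g.natDegree ≠ 0 := by
    intro h0
    obtain ⟨r, hr⟩ := natDegree_eq_zero.mp h0
    rw [← hr, aeval_C] at hgP
    have hr0 : r ≠ 0 := by
      rintro rfl
      rw [map_zero] at hr
      exact hg0 hr.symm
    rw [hRO r hr0] at hgP
    exact lt_irrefl _ hgP
  have hder0 : derivative g ≠ 0 := by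
    intro h
    have h1 := congrArg (fun f : R[X] => f.coeff (g.natDegree - 1)) h
    simp only [coeff_derivative, coeff_zero] at h1
    have h2 : g.natDegree - 1 + 1 = g.natDegree := by omega
    rw [h2] at h1
    have h3 : g.coeff g.natDegree ≠ 0 := by
      rw [coeff_natDegree]; exact leadingCoeff_ne_zero.mpr hg0
    have h4 : ((g.natDegree - 1 : ℕ) : R) + 1 ≠ 0 := by
      have : ((g.natDegree - 1 : ℕ) : R) + 1 = ((g.natDegree : ℕ) : R) := by
        rw [← Nat.cast_add_one, h2]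
      rw [this]
      exact Nat.cast_ne_zero.mpr hdeg
    exact (mul_ne_zero h3 h4) h1
  have hderdeg : (derivative g).natDegree < g.natDegree := natDegree_derivative_lt hdeg
  have h1 := dr95_chain (R := R) (A := F) (F := F) D hadd hmul hDR x g
  simp only [Algebra.algebraMap_self, RingHom.id_apply] at h1
  rw [hDx, mul_one] at h1
  have h2 : O.valuation (aeval x (derivative g)) < 1 := by
    have h3 := hDP _ (gx95_aeval_mem A hRA x hxA g) hgP
    have h4 : D (aeval x g) = aeval x (derivative g) := h1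
    rwa [h4] at h3
  have := hmin _ hder0 h2
  omega

/-- The local ring of the chart lies in every horizontal `O` through the point. -/
theorem gx95_loc_le (B : Subalgebra R F) (n : Ideal B) [n.IsPrime] (O : ValuationSubring F)
    (hOn : s34i47_Through B n O) : ∀ a ∈ sf79_loc B n, a ∈ O := by
  rintro a ⟨s, hs, hsa⟩
  have hs0 : (s : F) ≠ 0 := by
    intro h0
    apply hs
    have : s = 0 := Subtype.ext h0
    rw [this]
    exact n.zero_mem
  have h1 : a = (s : F)⁻¹ * ((s : F) * a) := by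
    rw [← mul_assoc, inv_mul_cancel₀ hs0, one_mul]
  rw [h1]
  exact O.mul_mem _ _ (hOn.2 s hs) (hOn.1 _ hsa)

/-- Units of `B` outside `n` are units of the vertical valuation ring. -/
theorem gx95_loc_le_V (π : R) (hπ0 : algebraMap R F π ≠ 0) (B : Subalgebra R F)
    (n : Ideal B) [n.IsPrime] (hπn : algebraMap R B π ∈ n)
    (V : ValuationSubring F) (hBV : ∀ x ∈ B, x ∈ V)
    (hmax : ∀ x ∈ V, x⁻¹ ∉ V → (algebraMap R F π)⁻¹ * x ∈ V)
    (hsat : ∀ x ∈ B, (algebraMap R F π)⁻¹ * x ∈ V → (algebraMap R F π)⁻¹ * x ∈ B) :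
    ∀ a ∈ sf79_loc B n, a ∈ V := by
  rintro a ⟨s, hs, hsa⟩
  have hs0 : (s : F) ≠ 0 := by
    intro h0
    apply hs
    have : s = 0 := Subtype.ext h0
    rw [this]
    exact n.zero_mem
  have hsV : (s : F)⁻¹ ∈ V := by
    by_contra hcon
    have h1 := hmax _ (hBV _ s.2) hcon
    have h2 := hsat _ s.2 h1
    apply hs
    have h3 : s = ⟨_, h2⟩ * algebraMap R B π := by
      apply Subtype.ext
      show (s : F) = (algebraMap R F π)⁻¹ * (s : F) * algebraMap R F π
      rw [mul_comm (algebraMap R F π)⁻¹, mul_assoc, inv_mul_cancel₀ hπ0, mul_one]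
    rw [h3]
    exact n.mul_mem_left _ hπn
  have h1 : a = (s : F)⁻¹ * ((s : F) * a) := by
    rw [← mul_assoc, inv_mul_cancel₀ hs0, one_mul]
  rw [h1]
  exact V.mul_mem _ _ hsV (hBV _ hsa)

/-- Krull clause plus saturation: regular along `V` and along the horizontal `O` through `n`
⟹ in the local ring. -/
theorem gx95_mem_loc (π : R) (hπ0 : algebraMap R F π ≠ 0) (B : Subalgebra R F)
    (n : Ideal B) [n.IsPrime]
    (V : ValuationSubring F) (hBV : ∀ x ∈ B, x ∈ V)
    (hsat : ∀ x ∈ B, (algebraMap R F π)⁻¹ * x ∈ V → (algebraMap R F π)⁻¹ * x ∈ B)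
    (hKr : ∀ x : F,
      (∀ O : ValuationSubring F, s34i47_IsHoriz π O → s34i47_Through B n O → x ∈ O) →
      ∃ s : B, s ∉ n ∧ ∃ k : ℕ, algebraMap R F π ^ k * ((s : F) * x) ∈ B)
    (x : F) (hxV : x ∈ V)
    (hxO : ∀ O : ValuationSubring F, s34i47_IsHoriz π O → s34i47_Through B n O → x ∈ O) :
    x ∈ sf79_loc B n := by
  obtain ⟨s, hs, j, hj⟩ := hKr x hxO
  exact ⟨s, hs, rr68_sat_pow π hπ0 B V hBV hsat _ (V.mul_mem _ _ (hBV _ s.2) hxV) j hj⟩

/-- A uniformiser of a horizontal `O` through a 2-generated point, lying in the local ring and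
generating the prime `𝔪_O ∩ B_n`. -/
theorem gx95_unif_at (π : R) (hπ0 : algebraMap R F π ≠ 0) (B : Subalgebra R F)
    [IsNoetherianRing B]
    (hfrac : ∀ t : F, ∃ a ∈ B, ∃ b ∈ B, b ≠ 0 ∧ t * b = a)
    (n : Ideal B) [hn : n.IsMaximal] (hπn : algebraMap R B π ∈ n)
    (h2 : ∃ x y : B, x ∈ n ∧ y ∈ n ∧
      ∀ v ∈ n, ∃ s : B, s ∉ n ∧ ∃ a b : B, s * v = a * x + b * y)
    (V : ValuationSubring F) (hBV : ∀ x ∈ B, x ∈ V)
    (hmax : ∀ x ∈ V, x⁻¹ ∉ V → (algebraMap R F π)⁻¹ * x ∈ V)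
    (hdisc : ∀ x : F, x ≠ 0 → ∃ k : ℤ, algebraMap R F π ^ k * x ∈ V ∧
      (algebraMap R F π ^ k * x)⁻¹ ∈ V)
    (hsat : ∀ x ∈ B, (algebraMap R F π)⁻¹ * x ∈ V → (algebraMap R F π)⁻¹ * x ∈ B)
    (hKr : ∀ x : F,
      (∀ O : ValuationSubring F, s34i47_IsHoriz π O → s34i47_Through B n O → x ∈ O) →
      ∃ s : B, s ∉ n ∧ ∃ k : ℕ, algebraMap R F π ^ k * ((s : F) * x) ∈ B)
    (O : ValuationSubring F) (hO : s34i47_IsHoriz π O) (hOn : s34i47_Through B n O) :
    ∃ p : F, p ∈ sf79_loc B n ∧ gx95_Unif O p ∧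
      ∀ a ∈ sf79_loc B n, O.valuation a < 1 → a * p⁻¹ ∈ sf79_loc B n := by
  obtain ⟨p₀, hp₀, hp₀O, hp₀inv, hgen₀, hother₀⟩ :=
    lpz9_UZ_at π hπ0 B hfrac n hn hπn h2 O hO hOn
  obtain ⟨k, hkV, hkV'⟩ := hdisc p₀ hp₀
  set ϖ : F := algebraMap R F π with hϖ
  have hϖk0 : ϖ ^ k ≠ 0 := zpow_ne_zero k hπ0
  have hpU : ∀ O' : ValuationSubring F, s34i47_IsHoriz π O' → lp9_IsU O' (ϖ ^ k) :=
    fun O' hO' => lp9_IsU_zpow ⟨hO'.2.2.1 π, hO'.2.2.2⟩ k
  have hA_V := gx95_loc_le_V π hπ0 B n hπn V hBV hmax hsat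
  have hmem := gx95_mem_loc π hπ0 B n V hBV hsat hKr
  have hinv : (ϖ ^ k * p₀)⁻¹ = (ϖ ^ k)⁻¹ * p₀⁻¹ := by rw [mul_inv]
  refine ⟨ϖ ^ k * p₀, ?_, ⟨O.mul_mem _ _ (hpU O hO).1 hp₀O, ?_, ?_⟩, ?_⟩
  · apply hmem _ hkV
    intro O' hO' hOn'
    by_cases hOO : O' = O
    · rw [hOO]; exact O.mul_mem _ _ (hpU O hO).1 hp₀O
    · exact O'.mul_mem _ _ (hpU O' hO').1 (hother₀ O' hO' hOn' hOO).1
  · intro h
    apply hp₀inv
    have h1 : p₀⁻¹ = ϖ ^ k * (ϖ ^ k * p₀)⁻¹ := by
      rw [hinv, ← mul_assoc, mul_inv_cancel₀ hϖk0, one_mul]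
    rw [h1]
    exact O.mul_mem _ _ (hpU O hO).1 h
  · intro t htO htinv
    have h1 : t * (ϖ ^ k * p₀)⁻¹ = t * p₀⁻¹ * (ϖ ^ k)⁻¹ := by
      rw [hinv]; ring
    rw [h1]
    exact O.mul_mem _ _ (hgen₀ t htO htinv) (hpU O hO).2
  · intro a haA ha
    apply hmem _ (V.mul_mem _ _ (hA_V a haA) hkV')
    intro O' hO' hOn'
    by_cases hOO : O' = O
    · rw [hOO]
      rcases (gx95_val_lt_one_iff O a).mp ha with rfl | h
      · rw [zero_mul]; exact O.zero_mem
      · have h1 : a * (ϖ ^ k * p₀)⁻¹ = a * p₀⁻¹ * (ϖ ^ k)⁻¹ := by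
          rw [hinv]; ring
        rw [h1]
        exact O.mul_mem _ _ (hgen₀ a (gx95_loc_le B n O hOn a haA) h) (hpU O hO).2
    · have h1 : a * (ϖ ^ k * p₀)⁻¹ = a * (p₀⁻¹ * (ϖ ^ k)⁻¹) := by
        rw [hinv]; ring
      rw [h1]
      exact O'.mul_mem _ _ (gx95_loc_le B n O' hOn' a haA)
        (O'.mul_mem _ _ (hother₀ O' hO' hOn' hOO).2 (hpU O' hO').2)

/-- **`G = (D J)^6 / (J^4 (J - 1728)^3)` is a unit of the local ring at a 2-generated point of a
one-branch chart.**  Hypotheses: the frame of `rr68_root`; `D` a Leibniz map killing the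
constants and preserving `sf79_loc B n` (`dl93c_deriv_loc`) with `D x = 1`, `x ∈ sf79_loc B n`
algebraic modulo every horizontal `O` through `n`; the orders of `J`, `J - 1728` at the
horizontal `O` through `n` (rigid level); `G` a unit of the vertical valuation ring. -/
theorem gx95_unit [IsDomain R] [CharZero R] (π : R) (hπ0 : algebraMap R F π ≠ 0)
    (B : Subalgebra R F) [IsNoetherianRing B]
    (hfrac : ∀ t : F, ∃ a ∈ B, ∃ b ∈ B, b ≠ 0 ∧ t * b = a)
    (n : Ideal B) [hn : n.IsMaximal] (hπn : algebraMap R B π ∈ n)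
    (h2 : ∃ x y : B, x ∈ n ∧ y ∈ n ∧
      ∀ v ∈ n, ∃ s : B, s ∉ n ∧ ∃ a b : B, s * v = a * x + b * y)
    (V : ValuationSubring F) (hBV : ∀ x ∈ B, x ∈ V)
    (hmax : ∀ x ∈ V, x⁻¹ ∉ V → (algebraMap R F π)⁻¹ * x ∈ V)
    (hdisc : ∀ x : F, x ≠ 0 → ∃ k : ℤ, algebraMap R F π ^ k * x ∈ V ∧
      (algebraMap R F π ^ k * x)⁻¹ ∈ V)
    (hsat : ∀ x ∈ B, (algebraMap R F π)⁻¹ * x ∈ V → (algebraMap R F π)⁻¹ * x ∈ B)
    (hKr : ∀ x : F,
      (∀ O : ValuationSubring F, s34i47_IsHoriz π O → s34i47_Through B n O → x ∈ O) →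
      ∃ s : B, s ∉ n ∧ ∃ k : ℕ, algebraMap R F π ^ k * ((s : F) * x) ∈ B)
    (hR0 : ∀ r : R, r ≠ 0 → algebraMap R F r ≠ 0)
    (hRO : ∀ O : ValuationSubring F, s34i47_IsHoriz π O → ∀ r : R, r ≠ 0 →
      (algebraMap R F r)⁻¹ ∈ O)
    (D : F → F) (hadd : ∀ a b, D (a + b) = D a + D b)
    (hmul : ∀ a b, D (a * b) = a * D b + b * D a)
    (hDR : ∀ r : R, D (algebraMap R F r) = 0)
    (hDA : ∀ y ∈ sf79_loc B n, D y ∈ sf79_loc B n)
    (x : F) (hxA : x ∈ sf79_loc B n) (hDx : D x = 1)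
    (halg : ∀ O : ValuationSubring F, s34i47_IsHoriz π O → s34i47_Through B n O →
      ∃ g : R[X], g ≠ 0 ∧ O.valuation (aeval x g) < 1)
    (J : F) (hJA : J ∈ sf79_loc B n)
    (hJ0 : ∀ O : ValuationSubring F, s34i47_IsHoriz π O → s34i47_Through B n O →
      O.valuation J < 1 → ∃ w : F, gx95_Unif O w ∧ O.valuation J = O.valuation w ^ 3)
    (hJ1 : ∀ O : ValuationSubring F, s34i47_IsHoriz π O → s34i47_Through B n O →
      O.valuation (J - 1728) < 1 →
      ∃ w : F, gx95_Unif O w ∧ O.valuation (J - 1728) = O.valuation w ^ 2)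
    (hJg : ∀ O : ValuationSubring F, s34i47_IsHoriz π O → s34i47_Through B n O →
      O.valuation J = 1 → O.valuation (J - 1728) = 1 →
      ∃ f c w : F, f ∈ sf79_loc B n ∧ c ∈ O ∧ gx95_Unif O w ∧
        O.valuation f = O.valuation w ∧ D f = c * D J)
    (hGV : D J ^ 6 / (J ^ 4 * (J - 1728) ^ 3) ∈ V)
    (hGV' : (D J ^ 6 / (J ^ 4 * (J - 1728) ^ 3))⁻¹ ∈ V) :
    D J ^ 6 / (J ^ 4 * (J - 1728) ^ 3) ∈ sf79_loc B n ∧
      (D J ^ 6 / (J ^ 4 * (J - 1728) ^ 3))⁻¹ ∈ sf79_loc B n := by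
  have hmem := gx95_mem_loc π hπ0 B n V hBV hsat hKr
  have hRA : ∀ r : R, algebraMap R F r ∈ sf79_loc B n :=
    fun r => sf79_le_loc B n _ (B.algebraMap_mem r)
  -- the valuation of `G` at every horizontal `O` through `n` is `1`
  have key : ∀ O : ValuationSubring F, s34i47_IsHoriz π O → s34i47_Through B n O →
      O.valuation (D J ^ 6 / (J ^ 4 * (J - 1728) ^ 3)) = 1 := by
    intro O hO hOn
    have hAO := gx95_loc_le B n O hOn
    have hRval : ∀ r : R, r ≠ 0 → O.valuation (algebraMap R F r) = 1 := by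
      intro r hr
      have h1 : O.valuation (algebraMap R F r) ≤ 1 :=
        (O.valuation_le_one_iff _).mpr (hO.2.2.1 r)
      have h2 : O.valuation (algebraMap R F r)⁻¹ ≤ 1 :=
        (O.valuation_le_one_iff _).mpr (hRO O hO r hr)
      have hv : 0 < O.valuation (algebraMap R F r) :=
        zero_lt_iff.mpr ((Valuation.ne_zero_iff _).mpr (hR0 r hr))
      rw [map_inv₀, inv_le_one₀ hv] at h2
      exact le_antisymm h1 h2
    have hnat : ∀ k : ℕ, k ≠ 0 → O.valuation (k : F) = 1 := by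
      intro k hk
      have h1 := hRval (k : R) (Nat.cast_ne_zero.mpr hk)
      rwa [map_natCast] at h1
    obtain ⟨p, hpA, hp, hprin⟩ :=
      gx95_unif_at π hπ0 B hfrac n hπn h2 V hBV hmax hdisc hsat hKr O hO hOn
    obtain ⟨hp0, hp1, -⟩ := gx95_unif_val O p hp
    have hvp : O.valuation p ≠ 0 := (Valuation.ne_zero_iff _).mpr hp0
    have hDp : O.valuation (D p) = 1 :=
      gx95_Dp O (sf79_loc B n) hAO D hadd hmul hDR hDA hRA hRval p hpA hp hprin x hxA hDx
        (halg O hO hOn)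
    have hdrop := gx95_drop O (sf79_loc B n) hAO D hmul hDA p hp hprin hDp hnat
    have h1728 : O.valuation (1728 : F) = 1 := by
      have h1 := hRval (1728 : R) (by norm_num)
      rwa [map_ofNat] at h1
    have hD1728 : D (1728 : F) = 0 := by
      have h1 := hDR (1728 : R)
      rwa [map_ofNat] at h1
    have hDJc : D (J - 1728) = D J := by
      have h1 := hadd (J - 1728) 1728
      rw [sub_add_cancel, hD1728, add_zero] at h1
      exact h1.symm
    have h1728A : (1728 : F) ∈ sf79_loc B n := by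
      have h1 := hRA (1728 : R)
      rwa [map_ofNat] at h1
    have hvJ : O.valuation J ≤ 1 := (O.valuation_le_one_iff _).mpr (hAO _ hJA)
    have hvJc : O.valuation (J - 1728) ≤ 1 :=
      (O.valuation_le_one_iff _).mpr (hAO _ (sub_mem hJA h1728A))
    have hvDJ : O.valuation (D J) ≤ 1 := (O.valuation_le_one_iff _).mpr (hAO _ (hDA _ hJA))
    rw [map_div₀, map_mul, map_pow, map_pow, map_pow]
    by_cases h0 : O.valuation J < 1
    · obtain ⟨w, hw, hJw⟩ := hJ0 O hO hOn h0
      rw [gx95_unif_eq O w p hw hp] at hJw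
      have hd := hdrop 2 J hJA hJw
      have hc : O.valuation (J - 1728) = 1 := by
        have h3 : J - 1728 = -1728 + J := by ring
        rw [h3, Valuation.map_add_eq_of_lt_left _ (by rw [Valuation.map_neg, h1728]; exact h0),
          Valuation.map_neg, h1728]
      rw [hd, hJw, hc, one_pow, mul_one, ← pow_mul, ← pow_mul]
      exact div_self (pow_ne_zero _ hvp)
    · by_cases h1 : O.valuation (J - 1728) < 1
      · obtain ⟨w, hw, hJw⟩ := hJ1 O hO hOn h1
        rw [gx95_unif_eq O w p hw hp] at hJw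
        have hd := hdrop 1 (J - 1728) (sub_mem hJA h1728A) hJw
        rw [hDJc] at hd
        have hc : O.valuation J = 1 := by
          have h3 : J = 1728 + (J - 1728) := by ring
          rw [h3, Valuation.map_add_eq_of_lt_left _ (by rw [h1728]; exact h1), h1728]
        rw [hd, hJw, hc, one_pow, one_mul, ← pow_mul, ← pow_mul]
        exact div_self (pow_ne_zero _ hvp)
      · have hJ1' : O.valuation J = 1 := le_antisymm hvJ (not_lt.mp h0)
        have hJc1 : O.valuation (J - 1728) = 1 := le_antisymm hvJc (not_lt.mp h1)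
        obtain ⟨f, c, w, hfA, hcO, hw, hfw, hDf⟩ := hJg O hO hOn hJ1' hJc1
        rw [gx95_unif_eq O w p hw hp] at hfw
        have hd := hdrop 0 f hfA (by rw [hfw, zero_add, pow_one])
        rw [pow_zero, hDf, map_mul] at hd
        have hcv : O.valuation c ≤ 1 := (O.valuation_le_one_iff _).mpr hcO
        have hDJ1 : O.valuation (D J) = 1 := by
          apply le_antisymm hvDJ
          calc (1 : O.ValueGroup) = O.valuation c * O.valuation (D J) := hd.symm
            _ ≤ 1 * O.valuation (D J) := by gcongr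
            _ = O.valuation (D J) := one_mul _
        rw [hDJ1, hJ1', hJc1]
        simp
  constructor
  · apply hmem _ hGV
    intro O hO hOn
    exact (O.valuation_le_one_iff _).mp (key O hO hOn).le
  · apply hmem _ hGV'
    intro O hO hOn
    apply (O.valuation_le_one_iff _).mp
    rw [map_inv₀, key O hO hOn, inv_one]

end GX95b

end Fermat.Agent.S36
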