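import Fermat.Agent.S36.GxVert95
import Fermat.Agent.S36.GxBridge69
import Fermat.Agent.S36.C2CoordChart11

/-!
# S36 lab, row 600, uniform coordinate route (helper95): the good-level datum of `c2x11_mid_dvd`

* `gxq95_datum` : at a closed point `n ∋ π` of a chart block `rrb68_Block π B (cm85_Vinf M hπ)`
  at a level with `ν₂ = ν₃ = 0`, for `x ∈ sf79_loc B n` with `θ x ≠ 0`, `D_x` preserving
  `sf79_loc B n` (`cg27` / `dl93c_deriv_loc`), `j ∈ sf79_loc B n` and `x` with the `R`-integral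
  expansion `xR`: `g := tg69_G K M x` satisfies `g · (θ x)^6 = Δ` (literal `hg` of
  `c2x11_mid_dvd`), `g, g⁻¹ ∈ sf79_loc B n`, `g ∈ cm85_Vinf M hπ`, and `θ (x mod π) ≠ 0` (literal
  `hθ` of `c2x11_coord` / `c2x11_mid_dvd`).
* `gxq95_pull` : elements of the local ring of a point go to the local ring of a point above it
  along a ring homomorphism mapping chart to chart.
* `gxq95_agtg` : `y ^ k * u * tg = ag`, `tg ∉ n`, for `y, u ∈ sf79_loc B n`.
* `gxq95_hgn` : the literal `(ag, tg, htg, hgn)` of `c2x11_mid_dvd` from `g ∈ sf79_loc B₀ n₀` at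
  the good level and `α₂ U ∈ sf79_loc B n`.
-/

set_option autoImplicit false
set_option linter.style.haveILetI false
set_option linter.unusedSectionVars false
set_option linter.style.longLine false

open ModularCurve AlgebraicCurve MatrixGroups IntermediateField Polynomial

namespace Fermat.Agent.S36

open Fermat.Agent.S24 Fermat.Agent.S18 Fermat.Agent.S34 Fermat.Agent.S28

section Abs

variable {R F₀ F : Type*} [CommRing R] [Field F₀] [Field F] [Algebra R F₀] [Algebra R F]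

/-- The local ring of a point maps to the local ring of a point above it. -/
theorem gxq95_pull (φ : F₀ →+* F) (B₀ : Subalgebra R F₀) (B : Subalgebra R F)
    (hφ : ∀ b ∈ B₀, φ b ∈ B) (n₀ : Ideal B₀) [n₀.IsPrime] (n : Ideal B) [n.IsPrime]
    (hn₀ : ∀ s : B₀, s ∉ n₀ → (⟨φ s, hφ _ s.2⟩ : B) ∉ n)
    (g : F₀) (hg : g ∈ sf79_loc B₀ n₀) : φ g ∈ sf79_loc B n := by
  obtain ⟨s, hs, hsg⟩ := hg
  refine ⟨⟨φ s, hφ _ s.2⟩, hn₀ s hs, ?_⟩
  show φ s * φ g ∈ B
  rw [← map_mul]
  exact hφ _ hsg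

/-- `y ^ k * u` has no pole at `n` for `y, u` in the local ring. -/
theorem gxq95_agtg (B : Subalgebra R F) (n : Ideal B) [n.IsPrime] (y u : F)
    (hy : y ∈ sf79_loc B n) (hu : u ∈ sf79_loc B n) (k : ℕ) :
    ∃ ag tg : B, tg ∉ n ∧ y ^ k * u * (tg : F) = (ag : F) := by
  obtain ⟨t, ht, htm⟩ := (sf79_loc B n).mul_mem ((sf79_loc B n).pow_mem hy k) hu
  exact ⟨⟨_, htm⟩, t, ht, by rw [mul_comm]⟩

end Abs

section Datum

variable {R K : Type} [CommRing R] [IsDomain R] [IsDiscreteValuationRing R] [Field K] [CharZero K]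
  [Algebra R K] [IsFractionRing R K] [Algebra K (AlgebraicClosure ℚ)] (M : ℕ) [NeZero M]
  [Algebra R ↥(modularFunctionFieldFullC K M)]
  [IsScalarTower R K ↥(modularFunctionFieldFullC K M)]

/-- **The good-level datum of the uniform coordinate route.** -/
theorem gxq95_datum {π : R} (hπ : Irreducible π) (h2M : nuTwo M = 0) (h3M : nuThree M = 0)
    (B : Subalgebra R ↥(modularFunctionFieldFullC K M))
    (hblk : rrb68_Block π B (cm85_Vinf (K := K) M hπ))
    (n : Ideal B) [hn : n.IsMaximal] (hπn : algebraMap R B π ∈ n)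
    (x : ↥(modularFunctionFieldFullC K M)) (hxA : x ∈ sf79_loc B n)
    (hθx : partC_theta (x : LaurentSeries K) ≠ 0)
    (hDA : ∀ y ∈ sf79_loc B n, tf69_Dx K M x y ∈ sf79_loc B n)
    (hjA : ck11_j K M ∈ sf79_loc B n)
    (xR : LaurentSeries R) (hx : (x : LaurentSeries K) = coeffMap (algebraMap R K) xR) :
    ((tg69_G K M x : ↥(modularFunctionFieldFullC K M)) : LaurentSeries K) *
        partC_theta (x : LaurentSeries K) ^ 6 = DeltaSer K ∧
      tg69_G K M x ∈ sf79_loc B n ∧ (tg69_G K M x)⁻¹ ∈ sf79_loc B n ∧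
      tg69_G K M x ∈ cm85_Vinf (K := K) M hπ ∧
      partC_theta (coeffMap (IsLocalRing.residue R) xR) ≠ 0 := by
  have hmul := tg69_G_mul_theta K M x hθx
  obtain ⟨h1, h2⟩ := gxv95_unit M hπ h2M h3M B hblk n hπn x hxA hθx hDA (ck11_j K M)
    (ck11_j_coe K M) hjA
  rw [gxb69_eq K M (ck11_j K M) (ck11_j_coe K M) x] at h1 h2
  obtain ⟨-, -, hBV, hsat, hmax, -, -, -⟩ := hblk
  have hπ0 : algebraMap R ↥(modularFunctionFieldFullC K M) π ≠ 0 :=
    gxp95_hR0 K M π hπ.ne_zero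
  have hgV : tg69_G K M x ∈ cm85_Vinf (K := K) M hπ :=
    gx95_loc_le_V π hπ0 B n hπn _ hBV hmax hsat _ h1
  exact ⟨hmul, h1, h2, hgV, c2x11_theta_ne_zero M hπ x (tg69_G K M x) xR hx hmul hgV⟩

end Datum

section Pull

variable {R K : Type} [CommRing R] [Field K] (N q : ℕ) [NeZero N] [NeZero q]
  [Algebra R ↥(modularFunctionFieldFullC K N)]
  [Algebra R ↥(modularFunctionFieldFullC K (N * q * q))]

/-- **The literal `(ag, tg, htg, hgn)` of `c2x11_mid_dvd`** from `g ∈ sf79_loc B₀ n₀` at the good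
level `N` (`n₀` under `n` along `α₂ α₁`) and `α₂ U ∈ sf79_loc B n`. -/
theorem gxq95_hgn (B₀ : Subalgebra R ↥(modularFunctionFieldFullC K N))
    (B : Subalgebra R ↥(modularFunctionFieldFullC K (N * q * q)))
    (hα : ∀ b ∈ B₀, al97L_alpha K (N * q) q (al97L_alpha K N q b) ∈ B)
    (n₀ : Ideal B₀) [n₀.IsPrime] (n : Ideal B) [n.IsPrime]
    (hn₀ : ∀ s : B₀, s ∉ n₀ →
      (⟨al97L_alpha K (N * q) q (al97L_alpha K N q s), hα _ s.2⟩ : B) ∉ n)
    (g : ↥(modularFunctionFieldFullC K N)) (hg : g ∈ sf79_loc B₀ n₀)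
    (U : ↥(modularFunctionFieldFullC K (N * q)))
    (hU : al97L_alpha K (N * q) q U ∈ sf79_loc B n) :
    ∃ ag tg : B, tg ∉ n ∧
      al97L_alpha K (N * q) q (al97L_alpha K N q g) ^ (q - 1) * al97L_alpha K (N * q) q U *
        (tg : ↥(modularFunctionFieldFullC K (N * q * q))) =
          (ag : ↥(modularFunctionFieldFullC K (N * q * q))) := by
  have h1 := gxq95_pull
    ((al97L_alpha K (N * q) q).toRingHom.comp (al97L_alpha K N q).toRingHom) B₀ B hα n₀ n hn₀ g hg
  exact gxq95_agtg B n _ _ h1 hU (q - 1)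

end Pull

end Fermat.Agent.S36
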