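import Mathlib
import Fermat.Agent.S36.ThetaG69
import Fermat.Agent.S34.ChartM85

/-!
# S36 lab, rows 599/600, uniform route (helper69): `G_x` is a unit of the Gauss ring `V_∞`

`R` a discrete valuation ring, `K = Frac R` of characteristic zero, `V = cm85_Vinf M hπ` the
Gauss valuation ring of `F_K(M)`, `J` the element with expansion `j`, `D_x = tf69_Dx K M x`.

* `gxg69_D_mem` : `D_J` preserves `V_∞` (`θ` preserves integrality, `θ j = -Q⁻¹ + …` is a
  Gauss unit);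
* `gxg69_J_inv_mem`, `gxg69_J_sub_inv_mem`, `gxg69_J_mem` : `J`, `J⁻¹`, `(J - 1728)⁻¹ ∈ V_∞`;
* `gxg69_G_inv_mem` : `x ∈ V_∞`, `θ x ≠ 0` ⟹ `((D_x J)^6 / (J^4 (J-1728)^3))⁻¹ ∈ V_∞`;
* `gxg69_G_mem` : `D_x J ∈ V_∞` ⟹ `(D_x J)^6 / (J^4 (J-1728)^3) ∈ V_∞`;
* `gxg69_unit` : both = the hypotheses `hGV`, `hGV'` of `gxp95_unit` for `V = cm85_Vinf M hπ`.

All names are prefixed `gxg69_`.
-/

set_option autoImplicit false
set_option linter.unusedSectionVars false
set_option linter.unusedVariables false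
set_option linter.style.longLine false

open ModularCurve AlgebraicCurve IntermediateField
open Fermat.Agent.S24 Fermat.Agent.S28 Fermat.Agent.S18 Fermat.Agent.S34

namespace Fermat.Agent.S36

section gxg69

variable {R K : Type} [CommRing R] [IsDomain R] [IsDiscreteValuationRing R] [Field K]
  [CharZero K] [Algebra R K] [IsFractionRing R K] (M : ℕ) [NeZero M]

theorem gxg69_theta_eq {k : Type*} [Field k] (f : LaurentSeries k) : theta f = partC_theta f := by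
  ext n
  rw [theta_coeff, partC_theta_coeff]

theorem gxg69_res_J_ne :
    coeffMap (IsLocalRing.residue R) (jqModC R) ≠ 0 := by
  rw [coeffMap_jqModC]
  exact dq56_J_ne_zero (IsLocalRing.ResidueField R)

theorem gxg69_res_J_sub_ne :
    coeffMap (IsLocalRing.residue R) (jqModC R - 1728) ≠ 0 := by
  rw [map_sub, coeffMap_jqModC, map_ofNat]
  exact dq56_J_sub_ne_zero (IsLocalRing.ResidueField R)

theorem gxg69_res_thetaJ_ne :
    coeffMap (IsLocalRing.residue R) (theta (jqModC R)) ≠ 0 := by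
  rw [coeffMap_theta, coeffMap_jqModC, gxg69_theta_eq]
  exact dq56_theta_J_ne_zero (IsLocalRing.ResidueField R)

/-- `J ∈ V_∞`. -/
theorem gxg69_J_mem {π : R} (hπ : Irreducible π) (J : ↥(modularFunctionFieldFullC K M))
    (hJ : (J : LaurentSeries K) = jqModC K) : J ∈ cm85_Vinf (K := K) M hπ :=
  ⟨1, jqModC R, by rw [map_one]; exact one_ne_zero, by rw [map_one, one_mul, hJ, coeffMap_jqModC]⟩

/-- `J⁻¹ ∈ V_∞`. -/
theorem gxg69_J_inv_mem {π : R} (hπ : Irreducible π) (J : ↥(modularFunctionFieldFullC K M))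
    (hJ : (J : LaurentSeries K) = jqModC K) : J⁻¹ ∈ cm85_Vinf (K := K) M hπ := by
  refine ⟨jqModC R, 1, gxg69_res_J_ne, ?_⟩
  have h1 : ((J⁻¹ : ↥(modularFunctionFieldFullC K M)) : LaurentSeries K) =
      (J : LaurentSeries K)⁻¹ := rfl
  rw [h1, hJ, coeffMap_jqModC, map_one, mul_inv_cancel₀ (dq56_J_ne_zero K)]

/-- `(J - 1728)⁻¹ ∈ V_∞`. -/
theorem gxg69_J_sub_inv_mem {π : R} (hπ : Irreducible π) (J : ↥(modularFunctionFieldFullC K M))
    (hJ : (J : LaurentSeries K) = jqModC K) : (J - 1728)⁻¹ ∈ cm85_Vinf (K := K) M hπ := by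
  refine ⟨jqModC R - 1728, 1, gxg69_res_J_sub_ne, ?_⟩
  have h1 : (((J - 1728)⁻¹ : ↥(modularFunctionFieldFullC K M)) : LaurentSeries K) =
      ((J : LaurentSeries K) - 1728)⁻¹ := rfl
  rw [h1, hJ, map_sub, coeffMap_jqModC, map_ofNat, map_one,
    mul_inv_cancel₀ (dq56_J_sub_ne_zero K)]

/-- **`D_J = θ(·)/θ(j)` preserves the Gauss ring `V_∞`.** -/
theorem gxg69_D_mem {π : R} (hπ : Irreducible π) (J : ↥(modularFunctionFieldFullC K M))
    (hJ : (J : LaurentSeries K) = jqModC K) (f : ↥(modularFunctionFieldFullC K M))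
    (hf : f ∈ cm85_Vinf (K := K) M hπ) : tf69_Dx K M J f ∈ cm85_Vinf (K := K) M hπ := by
  obtain ⟨s, t, hs, hst⟩ := hf
  refine ⟨s * s * theta (jqModC R), theta t * s - t * theta s, ?_, ?_⟩
  · rw [map_mul, map_mul]
    exact mul_ne_zero (mul_ne_zero hs hs) gxg69_res_thetaJ_ne
  · have hθJ : partC_theta (jqModC K) ≠ 0 := dq56_theta_J_ne_zero K
    have h1 := congrArg (dq56_theta K) hst
    rw [dq56_theta_leibniz, dq56_theta_apply, dq56_theta_apply, dq56_theta_apply,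
      ← gxg69_theta_eq (coeffMap (algebraMap R K) s), ← gxg69_theta_eq (coeffMap (algebraMap R K) t),
      ← coeffMap_theta, ← coeffMap_theta] at h1
    rw [tf69_Dx_coe, hJ, map_mul, map_mul, map_sub, map_mul, map_mul, coeffMap_theta (algebraMap R K)
      (jqModC R), coeffMap_jqModC, gxg69_theta_eq (jqModC K)]
    have h2 : coeffMap (algebraMap R K) s * coeffMap (algebraMap R K) s * partC_theta (jqModC K) *
        (partC_theta (f : LaurentSeries K) / partC_theta (jqModC K)) =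
        coeffMap (algebraMap R K) s *
          (coeffMap (algebraMap R K) s * partC_theta (f : LaurentSeries K)) := by
      field_simp
    rw [h2]
    linear_combination coeffMap (algebraMap R K) s * h1 -
      coeffMap (algebraMap R K) (theta s) * hst

/-- `G_x⁻¹ ∈ V_∞` for `x ∈ V_∞` with `θ x ≠ 0`. -/
theorem gxg69_G_inv_mem {π : R} (hπ : Irreducible π) (J : ↥(modularFunctionFieldFullC K M))
    (hJ : (J : LaurentSeries K) = jqModC K) (x : ↥(modularFunctionFieldFullC K M))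
    (hx : x ∈ cm85_Vinf (K := K) M hπ) (hθx : partC_theta (x : LaurentSeries K) ≠ 0) :
    (tf69_Dx K M x J ^ 6 / (J ^ 4 * (J - 1728) ^ 3))⁻¹ ∈ cm85_Vinf (K := K) M hπ := by
  have hθJ : partC_theta (J : LaurentSeries K) ≠ 0 := by
    rw [hJ]
    exact dq56_theta_J_ne_zero K
  have h1 : tf69_Dx K M J x * tf69_Dx K M x J = 1 := by
    rw [← tf69_Dx_chain K M x J x hθJ, tf69_Dx_self K M x hθx]
  have h2 : (tf69_Dx K M x J)⁻¹ = tf69_Dx K M J x := inv_eq_of_mul_eq_one_left h1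
  have h3 : (tf69_Dx K M x J ^ 6 / (J ^ 4 * (J - 1728) ^ 3))⁻¹ =
      J ^ 4 * (J - 1728) ^ 3 * tf69_Dx K M J x ^ 6 := by
    rw [inv_div, div_eq_mul_inv, ← inv_pow, h2]
  rw [h3]
  have hJV := gxg69_J_mem (R := R) M hπ J hJ
  have hJ2 : J - 1728 ∈ cm85_Vinf (K := K) M hπ := by
    refine sub_mem hJV ?_
    exact ⟨1, 1728, by rw [map_one]; exact one_ne_zero, by
      rw [map_one, one_mul, map_ofNat]; rfl⟩
  exact mul_mem
    (mul_mem (pow_mem hJV 4) (pow_mem hJ2 3))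
    (pow_mem (gxg69_D_mem M hπ J hJ x hx) 6)

/-- `G_x ∈ V_∞` when `D_x J ∈ V_∞`. -/
theorem gxg69_G_mem {π : R} (hπ : Irreducible π) (J : ↥(modularFunctionFieldFullC K M))
    (hJ : (J : LaurentSeries K) = jqModC K) (x : ↥(modularFunctionFieldFullC K M))
    (hDJ : tf69_Dx K M x J ∈ cm85_Vinf (K := K) M hπ) :
    tf69_Dx K M x J ^ 6 / (J ^ 4 * (J - 1728) ^ 3) ∈ cm85_Vinf (K := K) M hπ := by
  have h3 : tf69_Dx K M x J ^ 6 / (J ^ 4 * (J - 1728) ^ 3) =
      tf69_Dx K M x J ^ 6 * (J⁻¹ ^ 4 * (J - 1728)⁻¹ ^ 3) := by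
    rw [div_eq_mul_inv, mul_inv, inv_pow, inv_pow]
  rw [h3]
  exact mul_mem (pow_mem hDJ 6)
    (mul_mem (pow_mem (gxg69_J_inv_mem M hπ J hJ) 4)
      (pow_mem (gxg69_J_sub_inv_mem M hπ J hJ) 3))

/-- **`G_x` is a unit of `V_∞`** (`hGV`, `hGV'` of `gxp95_unit` for `V = cm85_Vinf M hπ`). -/
theorem gxg69_unit {π : R} (hπ : Irreducible π) (J : ↥(modularFunctionFieldFullC K M))
    (hJ : (J : LaurentSeries K) = jqModC K) (x : ↥(modularFunctionFieldFullC K M))
    (hx : x ∈ cm85_Vinf (K := K) M hπ) (hθx : partC_theta (x : LaurentSeries K) ≠ 0)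
    (hDJ : tf69_Dx K M x J ∈ cm85_Vinf (K := K) M hπ) :
    tf69_Dx K M x J ^ 6 / (J ^ 4 * (J - 1728) ^ 3) ∈ cm85_Vinf (K := K) M hπ ∧
      (tf69_Dx K M x J ^ 6 / (J ^ 4 * (J - 1728) ^ 3))⁻¹ ∈ cm85_Vinf (K := K) M hπ :=
  ⟨gxg69_G_mem M hπ J hJ x hDJ, gxg69_G_inv_mem M hπ J hJ x hx hθx⟩

end gxg69

end Fermat.Agent.S36
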