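import Fermat.Agent.S36.GxCore95
import Fermat.Agent.S36.RigidHoriz27
import Fermat.Agent.S18.RElimFull41
import Fermat.Agent.S36.ThetaField69

/-!
# S36 lab, rows 599 / 600 (helper95): the horizontal order hypotheses of `gx95_unit` for the
modular function field at a rigid level

`F = modularFunctionFieldFullC K M`, `J ∈ F` with `q`-expansion `jqModC K`.  For a horizontal
valuation subring `O` (`s34i47_IsHoriz π O`):

* `gxp95_hJ0` : `ν₃(M) = 0`, `J` a non-unit of `O` ⟹ `ord_O J = 3`;
* `gxp95_hJ1` : `ν₂(M) = 0`, `J - 1728` a non-unit of `O` ⟹ `ord_O (J - 1728) = 2`;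
* `gxp95_hJg` : `J`, `J - 1728` units of `O` ⟹ some `g(J)`, `g ∈ R[X]`, has a simple zero at
  `O` (`g` = a multiple of the minimal polynomial of the value of `J` at a place of `F ⊗ ℚ̄`
  above `O`; `ho_modular_ord`);
* `gxp95_halg` : every `x ∈ O` is algebraic modulo `𝔪_O` over `R`;
* `gxp95_hRO` : the nonzero constants of `R` are units of `O`.

These are literally the hypotheses `hJ0`, `hJ1`, `hJg`, `halg`, `hRO` of `gx95_unit`.
-/

set_option autoImplicit false
set_option linter.style.haveILetI false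
set_option linter.unusedSectionVars false

open ModularCurve AlgebraicCurve MatrixGroups IntermediateField Polynomial

namespace Fermat.Agent.S36

open Fermat.Agent.S24 Fermat.Agent.S18 Fermat.Agent.S34 Fermat.Agent.S28

/-! ## 1. Places and valuations -/

section PlaceVal

variable {K F : Type*} [Field K] [Field F] [Algebra K F]

theorem gxp95_val_lt_iff (P : Place K F) (f : F) (hf : f ≠ 0) :
    P.toValuationSubring.valuation f < 1 ↔ 0 < P.ord f := by
  rw [gx95_val_lt_one_iff, wp1_mem_iff_ord_nonneg, Place.ord_inv]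
  constructor
  · rintro (h | h)
    · exact absurd h hf
    · omega
  · intro h
    right
    omega

theorem gxp95_val_eq_one_iff (P : Place K F) (f : F) (hf : f ≠ 0) :
    P.toValuationSubring.valuation f = 1 ↔ P.ord f = 0 := by
  have h1 := gxp95_val_lt_iff P f hf
  have h2 : P.toValuationSubring.valuation f ≤ 1 ↔ 0 ≤ P.ord f := by
    rw [ValuationSubring.valuation_le_one_iff, wp1_mem_iff_ord_nonneg]
  constructor
  · intro h
    have h3 : 0 ≤ P.ord f := h2.mp h.le
    have h4 : ¬ 0 < P.ord f := fun h5 => (ne_of_lt (h1.mpr h5)) h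
    omega
  · intro h
    have h3 : P.toValuationSubring.valuation f ≤ 1 := h2.mpr (by omega)
    have h4 : ¬ P.toValuationSubring.valuation f < 1 := fun h5 => by
      have := h1.mp h5
      omega
    exact le_antisymm h3 (not_lt.mp h4)

/-- An irreducible element of the valuation ring of a place is a uniformiser. -/
theorem gxp95_unif (P : Place K F) (ϖ : P.toValuationSubring) (hϖ : Irreducible ϖ) :
    gx95_Unif P.toValuationSubring (ϖ : F) := by
  have hϖ0 : (ϖ : F) ≠ 0 := by
    intro h
    exact hϖ.ne_zero (Subtype.ext h)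
  refine ⟨ϖ.2, ?_, ?_⟩
  · intro h
    apply hϖ.not_isUnit
    refine IsUnit.of_mul_eq_one ⟨_, h⟩ ?_
    apply Subtype.ext
    show (ϖ : F) * (ϖ : F)⁻¹ = 1
    exact mul_inv_cancel₀ hϖ0
  · intro t htO htinv
    have ht : (⟨t, htO⟩ : P.toValuationSubring) ∈
        IsLocalRing.maximalIdeal P.toValuationSubring := by
      rw [IsLocalRing.mem_maximalIdeal, mem_nonunits_iff]
      intro hu
      apply htinv
      obtain ⟨u, hu⟩ := hu
      have h1 : t * ((u⁻¹ : (P.toValuationSubring)ˣ) : P.toValuationSubring) = 1 := by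
        have h2 := congrArg Subtype.val u.mul_inv
        rw [hu] at h2
        exact h2
      rw [← eq_inv_of_mul_eq_one_right h1]
      exact ((u⁻¹ : (P.toValuationSubring)ˣ) : P.toValuationSubring).2
    rw [hϖ.maximalIdeal_eq, Ideal.mem_span_singleton'] at ht
    obtain ⟨c, hc⟩ := ht
    have h1 : t = (c : F) * (ϖ : F) := (congrArg Subtype.val hc).symm
    rw [h1, mul_assoc, mul_inv_cancel₀ hϖ0, mul_one]
    exact c.2

/-- An element of order `e` has the valuation of the `e`-th power of a uniformiser. -/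
theorem gxp95_val_of_ord (P : Place K F) (f : F) (hf : f ≠ 0) (e : ℕ) (he : P.ord f = e) :
    ∃ w : F, gx95_Unif P.toValuationSubring w ∧
      P.toValuationSubring.valuation f = P.toValuationSubring.valuation w ^ e := by
  obtain ⟨ϖ, hϖ⟩ := IsDiscreteValuationRing.exists_irreducible P.toValuationSubring
  obtain ⟨u, hu⟩ := P.exists_unit_mul_zpow hf hϖ
  refine ⟨(ϖ : F), gxp95_unif P ϖ hϖ, ?_⟩
  rw [he, zpow_natCast] at hu
  rw [hu, map_mul, map_pow, ValuationSubring.valuation_unit, one_mul]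

end PlaceVal

/-! ## 2. The modular function field: algebraicity and simple zeros -/

section Modular

variable (K0 : Type) [Field K0] [CharZero K0] [Algebra K0 (AlgebraicClosure ℚ)] (M : ℕ) [NeZero M]

/-- `ι (g(y)) = g^ι(ι y)`. -/
theorem gxp95_iota_aeval (y : ↥(modularFunctionFieldFullC K0 M)) (g : K0[X]) :
    cx_iota K0 M (aeval y g) =
      aeval (cx_iota K0 M y) (g.map (algebraMap K0 Kbar)) := by
  rw [aeval_def, hom_eval₂, aeval_def, eval₂_map]
  congr 1
  exact RingHom.ext (fun c => rh27_iota_algebraMap K0 M c)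

theorem gxp95_iota_injective : Function.Injective (cx_iota K0 M) :=
  (cx_iota K0 M).injective

/-- Polynomials in an element of the valuation ring of a place lie in it. -/
theorem gxp95_aeval_mem {k L : Type*} [Field k] [Field L] [Algebra k L] (P : Place k L) (y : L)
    (hy : y ∈ P.toValuationSubring) (h : k[X]) : aeval y h ∈ P.toValuationSubring := by
  induction h using Polynomial.induction_on' with
  | add p r hp hr => rw [map_add]; exact add_mem hp hr
  | monomial m a =>
    rw [aeval_monomial]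
    exact mul_mem (P.algebraMap_mem' a) (pow_mem hy m)

/-- The factorisation of `ι (g(y))` for `g` the minimal polynomial of the value `a` of `ι y`. -/
theorem gxp95_factor (y : ↥(modularFunctionFieldFullC K0 M)) (a : Kbar) :
    haveI := cx_isAlgebraic_closure K0
    ∃ h : Kbar[X], (minpoly K0 a).map (algebraMap K0 Kbar) = (X - C a) * h ∧ h.eval a ≠ 0 ∧
      cx_iota K0 M (aeval y (minpoly K0 a)) =
        (cx_iota K0 M y - algebraMap Kbar ↥(modularFunctionFieldBar M) a) *
          aeval (cx_iota K0 M y) h := by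
  haveI := cx_isAlgebraic_closure K0
  have hint : IsIntegral K0 a := Algebra.IsIntegral.isIntegral a
  set g := minpoly K0 a with hg
  have hroot : ((g.map (algebraMap K0 Kbar))).IsRoot a := by
    rw [IsRoot.def, eval_map_algebraMap, hg, minpoly.aeval]
  have hfac : (X - C a) * ((g.map (algebraMap K0 Kbar)) /ₘ (X - C a)) =
      g.map (algebraMap K0 Kbar) := mul_divByMonic_eq_iff_isRoot.mpr hroot
  set h := (g.map (algebraMap K0 Kbar)) /ₘ (X - C a) with hh
  have hsep : (g.map (algebraMap K0 Kbar)).Separable :=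
    ((minpoly.irreducible hint).separable).map
  have hder : (derivative (g.map (algebraMap K0 Kbar))).eval a ≠ 0 := by
    have h1 := hsep.aeval_derivative_ne_zero (x := a) (by rw [coe_aeval_eq_eval]; exact hroot)
    rwa [coe_aeval_eq_eval] at h1
  refine ⟨h, hfac.symm, ?_, ?_⟩
  · intro h0
    apply hder
    rw [← hfac, derivative_mul, derivative_sub, derivative_X, derivative_C]
    simp [h0]
  · rw [gxp95_iota_aeval, ← hfac, map_mul, map_sub, aeval_X, aeval_C]

/-- Every element of the valuation ring of a place of `F(M)_K` is algebraic over `K` modulo the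
maximal ideal. -/
theorem gxp95_alg (P : Place K0 ↥(modularFunctionFieldFullC K0 M))
    (y : ↥(modularFunctionFieldFullC K0 M)) (hy : 0 ≤ P.ord y) :
    ∃ g : K0[X], g ≠ 0 ∧ (aeval y g = 0 ∨ 0 < P.ord (aeval y g)) := by
  haveI := cx_isAlgebraic_closure K0
  obtain ⟨P', hP'⟩ := cx_modular_place_exists (cx_iota K0 M) (cx_iota_coe K0 M) P
  have h0 : 0 ≤ P'.ord (cx_iota K0 M y) := by rw [hP']; exact hy
  obtain ⟨a, ha⟩ := re41_exists_const_of_deg_one P' (re41_deg_eq_one M P') _ h0
  have hint : IsIntegral K0 a := Algebra.IsIntegral.isIntegral a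
  obtain ⟨h, -, -, hfac⟩ := gxp95_factor K0 M y a
  refine ⟨minpoly K0 a, minpoly.ne_zero hint, ?_⟩
  by_cases hz : aeval y (minpoly K0 a) = 0
  · exact Or.inl hz
  right
  have hne : cx_iota K0 M (aeval y (minpoly K0 a)) ≠ 0 := by
    intro h1
    exact hz ((cx_iota K0 M).injective (h1.trans (map_zero _).symm))
  rw [← hP', hfac]
  rw [hfac] at hne
  have hne1 := left_ne_zero_of_mul hne
  have hne2 := right_ne_zero_of_mul hne
  rw [Place.ord_mul _ hne1 hne2]
  have h1 : 0 < P'.ord (cx_iota K0 M y - algebraMap Kbar ↥(modularFunctionFieldBar M) a) := by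
    rcases ha with ha | ha
    · exact absurd (sub_eq_zero.mpr ha) hne1
    · exact ha
  have h2 : 0 ≤ P'.ord (aeval (cx_iota K0 M y) h) :=
    (wp1_mem_iff_ord_nonneg P' _).mp
      (gxp95_aeval_mem P' _ ((wp1_mem_iff_ord_nonneg P' _).mpr h0) h)
  omega

set_option synthInstance.maxHeartbeats 200000 in
/-- **Simple zero of `g(J)`** at a place where `J` and `J - 1728` are units. -/
theorem gxp95_simple (J : ↥(modularFunctionFieldFullC K0 M))
    (hJ : (J : LaurentSeries K0) = jqModC K0)
    (P : Place K0 ↥(modularFunctionFieldFullC K0 M))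
    (h0 : P.ord J = 0) (h1 : P.ord (J - 1728) = 0) :
    ∃ g : K0[X], P.ord (aeval J g) = 1 := by
  haveI := cx_isAlgebraic_closure K0
  obtain ⟨P', hP'⟩ := cx_modular_place_exists (cx_iota K0 M) (cx_iota_coe K0 M) P
  have hJO : 0 ≤ P'.ord (cx_iota K0 M J) := by rw [hP', h0]
  obtain ⟨a, ha⟩ := re41_exists_const_of_deg_one P' (re41_deg_eq_one M P') _ hJO
  have hint : IsIntegral K0 a := Algebra.IsIntegral.isIntegral a
  obtain ⟨h, -, hha, hfac⟩ := gxp95_factor K0 M J a
  refine ⟨minpoly K0 a, ?_⟩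
  -- `g(J) ≠ 0` by transcendence
  have hz : aeval J (minpoly K0 a) ≠ 0 := by
    intro hz
    have h2 : J = relimc_J K0 M := Subtype.ext (hJ.trans (relimc_J_coe K0 M).symm)
    apply relimc_J_transcendental K0 M
    rw [← h2]
    exact ⟨minpoly K0 a, minpoly.ne_zero hint, hz⟩
  have hne : cx_iota K0 M (aeval J (minpoly K0 a)) ≠ 0 := by
    intro h2
    exact hz ((cx_iota K0 M).injective (h2.trans (map_zero _).symm))
  rw [← hP', hfac]
  rw [hfac] at hne
  have hne1 := left_ne_zero_of_mul hne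
  have hne2 := right_ne_zero_of_mul hne
  rw [Place.ord_mul _ hne1 hne2]
  have hpos : 0 < P'.ord (cx_iota K0 M J - algebraMap Kbar ↥(modularFunctionFieldBar M) a) := by
    rcases ha with ha | ha
    · exact absurd (sub_eq_zero.mpr ha) hne1
    · exact ha
  have hιJ := rh27_iota_J K0 M J hJ
  -- `a ≠ 0`, `a ≠ 1728`
  have ha0 : a ≠ 0 := by
    rintro rfl
    rw [map_zero, sub_zero, hP', h0] at hpos
    exact lt_irrefl _ hpos
  have ha1 : a ≠ 1728 := by
    rintro rfl
    have h3 : cx_iota K0 M (J - 1728) =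
        cx_iota K0 M J - algebraMap Kbar ↥(modularFunctionFieldBar M) 1728 := by
      rw [map_sub, map_ofNat, map_ofNat]
    rw [← h3, hP', h1] at hpos
    exact lt_irrefl _ hpos
  have hord1 : P'.ord (cx_iota K0 M J - algebraMap Kbar ↥(modularFunctionFieldBar M) a) = 1 := by
    rw [hιJ] at hpos ⊢
    exact (ho_modular_ord M).1 a ha0 ha1 P' hpos
  -- the cofactor is a unit
  have hcof : P'.ord (aeval (cx_iota K0 M J) h) = 0 := by
    rw [← gxp95_val_eq_one_iff P' _ hne2]
    have hdec : h = C (h.eval a) + (X - C a) * (h /ₘ (X - C a)) := by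
      have h4 := modByMonic_add_div h (X - C a)
      rw [modByMonic_X_sub_C_eq_C_eval] at h4
      exact h4.symm
    have h5 : aeval (cx_iota K0 M J) h =
        algebraMap Kbar ↥(modularFunctionFieldBar M) (h.eval a) +
          (cx_iota K0 M J - algebraMap Kbar ↥(modularFunctionFieldBar M) a) *
            aeval (cx_iota K0 M J) (h /ₘ (X - C a)) := by
      have h6 := congrArg (aeval (R := Kbar) (cx_iota K0 M J)) hdec
      rw [map_add (aeval (R := Kbar) (cx_iota K0 M J)),
        map_mul (aeval (R := Kbar) (cx_iota K0 M J)),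
        map_sub (aeval (R := Kbar) (cx_iota K0 M J)), aeval_X, aeval_C, aeval_C] at h6
      exact h6
    have hc0 : algebraMap Kbar ↥(modularFunctionFieldBar M) (h.eval a) ≠ 0 := by
      rwa [Ne, map_eq_zero]
    have hc1 : P'.toValuationSubring.valuation
        (algebraMap Kbar ↥(modularFunctionFieldBar M) (h.eval a)) = 1 := by
      rw [gxp95_val_eq_one_iff P' _ hc0]
      exact wp1_ord_algebraMap P' _
    have hJmem : cx_iota K0 M J ∈ P'.toValuationSubring := (wp1_mem_iff_ord_nonneg P' _).mpr hJO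
    have ht : P'.toValuationSubring.valuation
        ((cx_iota K0 M J - algebraMap Kbar ↥(modularFunctionFieldBar M) a) *
            aeval (cx_iota K0 M J) (h /ₘ (X - C a))) < 1 := by
      rw [map_mul]
      have h6 : P'.toValuationSubring.valuation
          (cx_iota K0 M J - algebraMap Kbar ↥(modularFunctionFieldBar M) a) < 1 :=
        (gxp95_val_lt_iff P' _ hne1).mpr hpos
      have h7 : P'.toValuationSubring.valuation (aeval (cx_iota K0 M J) (h /ₘ (X - C a))) ≤ 1 :=
        (ValuationSubring.valuation_le_one_iff _ _).mpr (gxp95_aeval_mem P' _ hJmem _)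
      calc _ ≤ P'.toValuationSubring.valuation
            (cx_iota K0 M J - algebraMap Kbar ↥(modularFunctionFieldBar M) a) * 1 := by gcongr
        _ < 1 := by rw [mul_one]; exact h6
    rw [h5, Valuation.map_add_eq_of_lt_left _ (by rw [hc1]; exact ht), hc1]
  omega

end Modular

/-! ## 3. The literal hypotheses of `gx95_unit` -/

section Horiz

variable {R : Type*} [CommRing R] [IsDomain R] [IsDiscreteValuationRing R]
  (K : Type) [Field K] [CharZero K] [Algebra K (AlgebraicClosure ℚ)] [Algebra R K]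
  [IsFractionRing R K] (M : ℕ) [NeZero M]
  [Algebra R ↥(modularFunctionFieldFullC K M)]
  [IsScalarTower R K ↥(modularFunctionFieldFullC K M)]

theorem gxp95_sub_ne_zero (J : ↥(modularFunctionFieldFullC K M))
    (hJ : (J : LaurentSeries K) = jqModC K) : J - 1728 ≠ 0 := by
  have h1 : J = relimc_J K M := Subtype.ext (hJ.trans (relimc_J_coe K M).symm)
  intro h0
  apply relimc_J_transcendental K M
  rw [← h1, sub_eq_zero.mp h0]
  have h1728 : IsAlgebraic K
      (algebraMap K ↥(modularFunctionFieldFullC K M) (1728 : K)) := isAlgebraic_algebraMap _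
  rwa [map_ofNat] at h1728

/-- `hR0` of `gx95_unit`. -/
theorem gxp95_hR0 (r : R) (hr : r ≠ 0) :
    algebraMap R ↥(modularFunctionFieldFullC K M) r ≠ 0 := by
  rw [IsScalarTower.algebraMap_apply R K ↥(modularFunctionFieldFullC K M), Ne, map_eq_zero]
  exact (map_ne_zero_iff _ (IsFractionRing.injective R K)).mpr hr

/-- `hRO` of `gx95_unit`. -/
theorem gxp95_hRO (π : R) (hπ : Irreducible π)
    (O : ValuationSubring ↥(modularFunctionFieldFullC K M)) (hO : s34i47_IsHoriz π O)
    (r : R) : (algebraMap R ↥(modularFunctionFieldFullC K M) r)⁻¹ ∈ O := by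
  obtain ⟨P, rfl⟩ := ca94_place_of_horiz (K := K) π hπ O hO
  rw [IsScalarTower.algebraMap_apply R K ↥(modularFunctionFieldFullC K M), ← map_inv₀]
  exact P.algebraMap_mem' _

/-- `hJ0` of `gx95_unit`: `ord_O J = 3` at the zeros of `J` (no elliptic points of order 3). -/
theorem gxp95_hJ0 (π : R) (hπ : Irreducible π) (h3 : nuThree M = 0)
    (J : ↥(modularFunctionFieldFullC K M)) (hJ : (J : LaurentSeries K) = jqModC K)
    (O : ValuationSubring ↥(modularFunctionFieldFullC K M)) (hO : s34i47_IsHoriz π O)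
    (h : O.valuation J < 1) :
    ∃ w : ↥(modularFunctionFieldFullC K M), gx95_Unif O w ∧
      O.valuation J = O.valuation w ^ 3 := by
  obtain ⟨P, rfl⟩ := ca94_place_of_horiz (K := K) π hπ O hO
  have hJ0 := rh27_J_ne_zero K M J hJ
  have hpos := (gxp95_val_lt_iff P J hJ0).mp h
  exact gxp95_val_of_ord P J hJ0 3 (by exact_mod_cast rh27_place_ord_zero K M h3 J hJ P hpos)

/-- `hJ1` of `gx95_unit`: `ord_O (J - 1728) = 2` at the zeros of `J - 1728`. -/
theorem gxp95_hJ1 (π : R) (hπ : Irreducible π) (h2 : nuTwo M = 0)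
    (J : ↥(modularFunctionFieldFullC K M)) (hJ : (J : LaurentSeries K) = jqModC K)
    (O : ValuationSubring ↥(modularFunctionFieldFullC K M)) (hO : s34i47_IsHoriz π O)
    (h : O.valuation (J - 1728) < 1) :
    ∃ w : ↥(modularFunctionFieldFullC K M), gx95_Unif O w ∧
      O.valuation (J - 1728) = O.valuation w ^ 2 := by
  obtain ⟨P, rfl⟩ := ca94_place_of_horiz (K := K) π hπ O hO
  have hne := gxp95_sub_ne_zero K M J hJ
  have hpos := (gxp95_val_lt_iff P _ hne).mp h
  exact gxp95_val_of_ord P _ hne 2 (by exact_mod_cast rh27_place_ord_1728 K M h2 J hJ P hpos)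

/-- Integer normalisation of a polynomial over the fraction field. -/
theorem gxp95_intNorm (y : ↥(modularFunctionFieldFullC K M)) (g : K[X]) :
    ∃ (g' : R[X]) (b : R), b ≠ 0 ∧ (g ≠ 0 → g' ≠ 0) ∧
      aeval y g' = algebraMap K ↥(modularFunctionFieldFullC K M) (algebraMap R K b) *
        aeval y g := by
  obtain ⟨b, hbM, hb⟩ := IsLocalization.integerNormalization_spec (nonZeroDivisors R) g
  refine ⟨IsLocalization.integerNormalization (nonZeroDivisors R) g, b,
    nonZeroDivisors.ne_zero hbM, ?_, ?_⟩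
  · intro hg h0
    exact hg (IsFractionRing.integerNormalization_eq_zero_iff.mp h0)
  · rw [← aeval_map_algebraMap K y, hb, Algebra.smul_def, Polynomial.algebraMap_apply,
      map_mul, aeval_C]

/-- `halg` of `gx95_unit`: every element of a horizontal `O` is algebraic over `R` modulo the
maximal ideal. -/
theorem gxp95_halg (π : R) (hπ : Irreducible π)
    (x : ↥(modularFunctionFieldFullC K M))
    (O : ValuationSubring ↥(modularFunctionFieldFullC K M)) (hO : s34i47_IsHoriz π O)
    (hx : x ∈ O) : ∃ g : R[X], g ≠ 0 ∧ O.valuation (aeval x g) < 1 := by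
  obtain ⟨P, rfl⟩ := ca94_place_of_horiz (K := K) π hπ O hO
  obtain ⟨g, hg0, hg⟩ := gxp95_alg K M P x ((wp1_mem_iff_ord_nonneg P x).mp hx)
  obtain ⟨g', b, hb0, hg', hev⟩ := gxp95_intNorm (R := R) K M x g
  refine ⟨g', hg' hg0, ?_⟩
  rw [hev]
  rcases hg with hg | hg
  · rw [hg, mul_zero, map_zero]; exact zero_lt_one
  · have hne : aeval x g ≠ 0 := by
      intro h0
      rw [h0, Place.ord_zero] at hg
      exact lt_irrefl _ hg
    rw [map_mul]
    have h1 : P.toValuationSubring.valuation
        (algebraMap K ↥(modularFunctionFieldFullC K M) (algebraMap R K b)) ≤ 1 :=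
      (ValuationSubring.valuation_le_one_iff _ _).mpr (P.algebraMap_mem' _)
    have h2 := (gxp95_val_lt_iff P _ hne).mpr hg
    calc _ ≤ 1 * P.toValuationSubring.valuation (aeval x g) := by gcongr
      _ < 1 := by rw [one_mul]; exact h2

/-- `hJg` of `gx95_unit` (polynomial form): at a horizontal `O` where `J` and `J - 1728` are
units, some `g(J)`, `g ∈ R[X]`, has a simple zero. -/
theorem gxp95_hJg (π : R) (hπ : Irreducible π)
    (J : ↥(modularFunctionFieldFullC K M)) (hJ : (J : LaurentSeries K) = jqModC K)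
    (O : ValuationSubring ↥(modularFunctionFieldFullC K M)) (hO : s34i47_IsHoriz π O)
    (hv0 : O.valuation J = 1) (hv1 : O.valuation (J - 1728) = 1) :
    ∃ (g : R[X]) (w : ↥(modularFunctionFieldFullC K M)), gx95_Unif O w ∧
      O.valuation (aeval J g) = O.valuation w := by
  obtain ⟨P, rfl⟩ := ca94_place_of_horiz (K := K) π hπ O hO
  have hJ0 := rh27_J_ne_zero K M J hJ
  have hne := gxp95_sub_ne_zero K M J hJ
  have h0 : P.ord J = 0 := (gxp95_val_eq_one_iff P J hJ0).mp hv0
  have h1 : P.ord (J - 1728) = 0 := (gxp95_val_eq_one_iff P _ hne).mp hv1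
  obtain ⟨g, hg⟩ := gxp95_simple K M J hJ P h0 h1
  obtain ⟨g', b, hb0, -, hev⟩ := gxp95_intNorm (R := R) K M J g
  have hgne : aeval J g ≠ 0 := by
    intro h0'
    rw [h0', Place.ord_zero] at hg
    omega
  have hb0' : algebraMap K ↥(modularFunctionFieldFullC K M) (algebraMap R K b) ≠ 0 := by
    rw [Ne, map_eq_zero]
    exact (map_ne_zero_iff _ (IsFractionRing.injective R K)).mpr hb0
  have hord : P.ord (aeval J g') = ((1 : ℕ) : ℤ) := by
    rw [hev, Place.ord_mul _ hb0' hgne, wp1_ord_algebraMap, hg]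
    norm_num
  obtain ⟨w, hw, hval⟩ := gxp95_val_of_ord P (aeval J g') (by rw [hev]; exact mul_ne_zero hb0' hgne)
    1 hord
  exact ⟨g', w, hw, by rw [hval, pow_one]⟩

/-- **`G_x = (D_x J)^6 / (J^4 (J - 1728)^3)` is a unit of the local ring at a 2-generated point
of a one-branch chart of the modular function field at a level without elliptic points.**
`D_x = tf69_Dx K M x = θ(·)/θ(x)`.  Remaining hypotheses: the frame of `rr68_root`
(`hfrac … hKr`), `D_x` preserves `sf79_loc B n` (`dl93c_deriv_loc`), `x, J ∈ sf79_loc B n`,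
`θ x ≠ 0`, and `G_x` is a unit of the vertical valuation ring `V`. -/
theorem gxp95_unit (π : R) (hπ : Irreducible π) (h2M : nuTwo M = 0) (h3M : nuThree M = 0)
    (B : Subalgebra R ↥(modularFunctionFieldFullC K M)) [IsNoetherianRing B]
    (hfrac : ∀ t : ↥(modularFunctionFieldFullC K M), ∃ a ∈ B, ∃ b ∈ B, b ≠ 0 ∧ t * b = a)
    (n : Ideal B) [hn : n.IsMaximal] (hπn : algebraMap R B π ∈ n)
    (h2 : ∃ x y : B, x ∈ n ∧ y ∈ n ∧
      ∀ v ∈ n, ∃ s : B, s ∉ n ∧ ∃ a b : B, s * v = a * x + b * y)
    (V : ValuationSubring ↥(modularFunctionFieldFullC K M)) (hBV : ∀ x ∈ B, x ∈ V)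
    (hmax : ∀ x ∈ V, x⁻¹ ∉ V →
      (algebraMap R ↥(modularFunctionFieldFullC K M) π)⁻¹ * x ∈ V)
    (hdisc : ∀ x : ↥(modularFunctionFieldFullC K M), x ≠ 0 → ∃ k : ℤ,
      algebraMap R ↥(modularFunctionFieldFullC K M) π ^ k * x ∈ V ∧
      (algebraMap R ↥(modularFunctionFieldFullC K M) π ^ k * x)⁻¹ ∈ V)
    (hsat : ∀ x ∈ B, (algebraMap R ↥(modularFunctionFieldFullC K M) π)⁻¹ * x ∈ V →
      (algebraMap R ↥(modularFunctionFieldFullC K M) π)⁻¹ * x ∈ B)
    (hKr : ∀ x : ↥(modularFunctionFieldFullC K M),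
      (∀ O : ValuationSubring ↥(modularFunctionFieldFullC K M), s34i47_IsHoriz π O →
        s34i47_Through B n O → x ∈ O) →
      ∃ s : B, s ∉ n ∧ ∃ k : ℕ,
        algebraMap R ↥(modularFunctionFieldFullC K M) π ^ k *
          ((s : ↥(modularFunctionFieldFullC K M)) * x) ∈ B)
    (x : ↥(modularFunctionFieldFullC K M)) (hxA : x ∈ sf79_loc B n)
    (hθx : partC_theta (x : LaurentSeries K) ≠ 0)
    (hDA : ∀ y ∈ sf79_loc B n, tf69_Dx K M x y ∈ sf79_loc B n)
    (J : ↥(modularFunctionFieldFullC K M)) (hJ : (J : LaurentSeries K) = jqModC K)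
    (hJA : J ∈ sf79_loc B n)
    (hGV : tf69_Dx K M x J ^ 6 / (J ^ 4 * (J - 1728) ^ 3) ∈ V)
    (hGV' : (tf69_Dx K M x J ^ 6 / (J ^ 4 * (J - 1728) ^ 3))⁻¹ ∈ V) :
    tf69_Dx K M x J ^ 6 / (J ^ 4 * (J - 1728) ^ 3) ∈ sf79_loc B n ∧
      (tf69_Dx K M x J ^ 6 / (J ^ 4 * (J - 1728) ^ 3))⁻¹ ∈ sf79_loc B n := by
  haveI : CharZero R := (algebraMap R K).charZero
  have hadd := tf69_Dx_add K M x
  have hmul := tf69_Dx_mul K M x
  have hDR : ∀ r : R, tf69_Dx K M x (algebraMap R ↥(modularFunctionFieldFullC K M) r) = 0 := by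
    intro r
    rw [IsScalarTower.algebraMap_apply R K ↥(modularFunctionFieldFullC K M)]
    exact tf69_Dx_algebraMap K M x _
  have hRA : ∀ r : R, algebraMap R ↥(modularFunctionFieldFullC K M) r ∈ sf79_loc B n :=
    fun r => sf79_le_loc B n _ (B.algebraMap_mem r)
  refine gx95_unit π (gxp95_hR0 K M π hπ.ne_zero) B hfrac n hπn h2 V hBV hmax hdisc hsat hKr
    (gxp95_hR0 K M) (fun O hO r _ => gxp95_hRO K M π hπ O hO r)
    (tf69_Dx K M x) hadd hmul hDR hDA x hxA (tf69_Dx_self K M x hθx)
    (fun O hO hOn => gxp95_halg K M π hπ x O hO (gx95_loc_le B n O hOn x hxA))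
    J hJA
    (fun O hO _ h => gxp95_hJ0 K M π hπ h3M J hJ O hO h)
    (fun O hO _ h => gxp95_hJ1 K M π hπ h2M J hJ O hO h)
    ?_ hGV hGV'
  intro O hO hOn hv0 hv1
  obtain ⟨g, w, hw, hval⟩ := gxp95_hJg K M π hπ J hJ O hO hv0 hv1
  refine ⟨aeval J g, aeval J (derivative g), w, gx95_aeval_mem _ hRA J hJA g,
    gx95_loc_le B n O hOn _ (gx95_aeval_mem _ hRA J hJA _), hw, hval, ?_⟩
  have h1 := dr95_chain (R := R) (A := ↥(modularFunctionFieldFullC K M))
    (F := ↥(modularFunctionFieldFullC K M)) (tf69_Dx K M x) hadd hmul hDR J g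
  simpa only [Algebra.algebraMap_self, RingHom.id_apply] using h1

/-- The rigid level: a prime `r ≡ 11 mod 12` divides `M`. -/
theorem gxp95_rigid {r : ℕ} (hr : r.Prime) (hr12 : r % 12 = 11) (hrM : r ∣ M) :
    nuTwo M = 0 ∧ nuThree M = 0 :=
  ro27_rigid_of_eleven hr hr12 hrM

end Horiz

end Fermat.Agent.S36
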