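import Fermat.Agent.S36.HBBind1
import Fermat.Agent.S36.FinalBind62

/-!
# S36 lab, row 605 (HB) (helper1): the canonical closed statement `s36i62d_HBc`

`hbf1_HBc : s36i62d_HBc` — the (HB) input of helper62's final binder `s36i62d_top`
(`FinalBind62`): `hb1_main` (`HBBind1`) instantiated at `V₂ = v2g64_V2` (helper64, `V2Final64`)
with the facts `v2g64_V2_alpha`, `v2g64_V2_pi`, `v2g64_V2_val`, at `m = p ^ n`, `p ≠ q`.
-/

set_option autoImplicit false
set_option linter.unusedSectionVars false
set_option linter.unusedVariables false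
set_option linter.style.longLine false

open ModularCurve AlgebraicCurve

namespace Fermat.Agent.S36

open Fermat.Agent.S18 Fermat.Agent.S34 Fermat.Agent.S35

local notation "Q̄" => AlgebraicClosure ℚ

/-- **(HB), canonical**: the first of the three closed inputs of `s36i62d_top`. -/
theorem hbf1_HBc : s36i62d_HBc := by
  intro M' q p r _ _ hq hM' hrig hp hpq n R K _ _ _ _ _ _ _ _ _ _ hπ hunit
  have hV₂ := v2g64_V2_alpha (algebraMap K Q̄) M' q hq hM' hπ (Associated.refl _)
  have hπ₂ := v2g64_V2_pi (algebraMap K Q̄) M' q hq hM' hπ (Associated.refl _)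
  have hs := v2g64_V2_val (algebraMap K Q̄) M' q hq hM' hπ (Associated.refl _)
  have hcop : Nat.Coprime q (p ^ n) :=
    Nat.Coprime.pow_right n ((Nat.coprime_primes hq hp).mpr (Ne.symm hpq))
  exact hb1_main M' q hq hM' hπ hπ.not_isUnit _ hV₂ hπ₂ hs (p ^ n) (pow_pos hp.pos n) hcop
    (hunit _ hcop.symm)

end Fermat.Agent.S36
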