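import Fermat.Agent.S36.HPOneMid55
import Fermat.Agent.S36.MidCuspFrame25
import Fermat.Agent.S36.TwoGenCanon71
import Fermat.Agent.S36.FrameClauses73
import Fermat.Agent.S36.GlueBridge26
import Fermat.Agent.S36.HPSplit62
import Fermat.Agent.S34.Krull65
import Fermat.Agent.S18.ConstExtModular25

/-!
# S36 lab (helper36), rows 605 / 631: (HP-1) on the canonical frame, FINAL form

`cp57_HP1` (CorePoints57) on the canonical frame of level `M' q q` WITHOUT (REG), the middle
input in the principal form `mc25_MidPrinAt` (helper25) and the cusps of `C₂` DISCHARGED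
(`mc25_hD2_level2/3(_inv)`), via `hp1m55_HP1` (helper55).  The ONLY remaining input is

  `hp1f36_C2 M' q hq hM' hπ V₂ B` := the literal `hreg` of `mc25_hD2_level2/3(_inv)`:
  `mc25_MidPrinAt (v2g64_s K M' q) B V₂.toSubring n` at the closed points `n ∋ π` of the chart `B`
  lying on `C₂` only where `j` is regular (row C-C2 = row 600).

* `hp1f36_core`   : a chart `B` with the frame facts as hypotheses (input: `mc25_MidPrinAt` at
  all `C₂`-only points);
* `hp1f36_charts` : both charts of a Hauptmodul `h` from (C) + (3a);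
* `hp1f36_level2`, `hp1f36_level3` : both charts of `pk85_h2` / `pk85_h3`, general `π`
  (`Associated (q : R) π`), `V₂` ANY valuation subring with the four facts of row B1-V2,
  `al be Nal Nbe Vinf V0` arbitrary; input `hp1f36_C2` on the chart;
* `hp1f36_C2c2`, `hp1f36_C2c3` : row C-C2 on the canonical `V₂ = v2g64_V2`, closed form, in the
  binder block of `s36i62g_HP1c2 / s36i62g_HP1c3` (HPSplit62, helper62);
* **`hp1f36_HP1c2 : hp1f36_C2c2 → s36i62g_HP1c2`**, **`hp1f36_HP1c3 : hp1f36_C2c3 → s36i62g_HP1c3`**.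

All names are prefixed `hp1f36_`.
-/

set_option autoImplicit false
set_option linter.unusedSectionVars false
set_option linter.unusedVariables false
set_option linter.style.haveILetI false
set_option linter.style.longLine false

open ModularCurve AlgebraicCurve

namespace Fermat.Agent.S36

open Fermat.Agent.S34 Fermat.Agent.S18 Fermat.Agent.S24 Fermat.Agent.S28 Fermat.Agent.S35
open Fermat.Agent.S36.TripleLoc71

local notation "Q̄" => AlgebraicClosure ℚ

section HP1F

variable {R K : Type} [CommRing R] [IsDomain R] [IsDiscreteValuationRing R] [Field K]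
  [NumberField K] [Algebra R K] [IsFractionRing R K] [Algebra K Q̄] [Algebra.IsAlgebraic K Q̄]
  (M' q : ℕ) [NeZero M'] [NeZero q] (hq : q.Prime) (hM' : ¬ q ∣ M')
  {π : R} (hπ : Irreducible π)
  [Algebra R ↥(modularFunctionFieldFullC K M')]
  [IsScalarTower R K ↥(modularFunctionFieldFullC K M')]
  [Algebra R ↥(modularFunctionFieldFullC K (M' * q))]
  [IsScalarTower R K ↥(modularFunctionFieldFullC K (M' * q))]
  [Algebra R ↥(modularFunctionFieldFullC K (M' * q * q))]
  [IsScalarTower R K ↥(modularFunctionFieldFullC K (M' * q * q))]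

include hq hM' in
/-- **(HP-1) for a chart `B` of level `M' q q` with its frame facts**, WITHOUT (REG) and with the
middle input in the principal form `mc25_MidPrinAt` at the `C₂`-only closed points. -/
theorem hp1f36_core (hqR : ¬ IsUnit (q : R))
    (V₂ : ValuationSubring ↥(modularFunctionFieldFullC K (M' * q * q)))
    (hV₂ : ∀ c ∈ cm85_Vinf (K := K) (M' * q) hπ, al97L_alpha K (M' * q) q c ∈ V₂)
    (hπ₂ : (algebraMap K ↥(modularFunctionFieldFullC K (M' * q * q)) (algebraMap R K π))⁻¹ ∉ V₂)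
    (hne : cm85_Vinf (K := K) (M' * q * q) hπ ≠ V₂)
    (hs : V₂.valuation (v2g64_s K M' q) ^ (q - 1) =
      V₂.valuation (algebraMap K ↥(modularFunctionFieldFullC K (M' * q * q)) (algebraMap R K π)))
    (B : Subalgebra R ↥(modularFunctionFieldFullC K (M' * q * q))) [IsNoetherianRing B]
    (hBW : ∀ x ∈ B, x ∈ (cm85_Vinf (K := K) (M' * q * q) hπ).toSubring ⊓ V₂.toSubring ⊓
      (nsb86_V3 (K := K) M' q hq hM' hπ).toSubring)
    (hsatW : ∀ x ∈ B, (algebraMap R ↥(modularFunctionFieldFullC K (M' * q * q)) π)⁻¹ * x ∈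
        (cm85_Vinf (K := K) (M' * q * q) hπ).toSubring ⊓ V₂.toSubring ⊓ (nsb86_V3 (K := K) M' q hq hM' hπ).toSubring →
      (algebraMap R ↥(modularFunctionFieldFullC K (M' * q * q)) π)⁻¹ * x ∈ B)
    (hS₁ : sf79_Smooth π B (cm85_Vinf (K := K) (M' * q * q) hπ).toSubring)
    (hS₂ : tl71_MidSmooth π (v2g64_s K M' q) B V₂.toSubring)
    (hS₃ : sf79_Smooth π B (nsb86_V3 (K := K) M' q hq hM' hπ).toSubring)
    (hfrac : ∀ t : ↥(modularFunctionFieldFullC K (M' * q * q)), ∃ a ∈ B, ∃ b ∈ B, b ≠ 0 ∧ t * b = a)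
    (hKr : s34i47_Krull π B)
    (m : ℕ) (hm : 0 < m)
    (hmB : ∃ μ ∈ B, (m : ↥(modularFunctionFieldFullC K (M' * q * q))) * μ = 1)
    (al be : ↥(modularFunctionFieldFullC K (M' * q)) →+* ↥(modularFunctionFieldFullC K (M' * q * q)))
    (Nal Nbe : ↥(modularFunctionFieldFullC K (M' * q * q)) →* ↥(modularFunctionFieldFullC K (M' * q)))
    (Vinf V0 : ValuationSubring ↥(modularFunctionFieldFullC K (M' * q)))
    (hD₂ : ∀ n : Ideal B, n.IsMaximal → algebraMap R B π ∈ n →
      tl71_OnMid (v2g64_s K M' q) B V₂.toSubring n →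
      ¬ sf79_OnBr π B (cm85_Vinf (K := K) (M' * q * q) hπ).toSubring n →
      ¬ sf79_OnBr π B (nsb86_V3 (K := K) M' q hq hM' hπ).toSubring n →
      mc25_MidPrinAt (v2g64_s K M' q) B V₂.toSubring n) :
    cp57_HP1 (K := K) π q m B al be Nal Nbe (cm85_Vinf (K := K) (M' * q * q) hπ) V₂
      (nsb86_V3 (K := K) M' q hq hM' hπ) Vinf V0 := by
  have e : algebraMap R ↥(modularFunctionFieldFullC K (M' * q * q)) π = (algebraMap K ↥(modularFunctionFieldFullC K (M' * q * q)) (algebraMap R K π)) :=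
    IsScalarTower.algebraMap_apply R K _ π
  have hπ0 : algebraMap R ↥(modularFunctionFieldFullC K (M' * q * q)) π ≠ 0 := by
    intro h0
    apply (ci22_Vinf_pi (K := K) (M' * q * q) hπ).2
    rw [h0, inv_zero]
    exact (cm85_Vinf (K := K) (M' * q * q) hπ).zero_mem
  have hp0 : V₂.valuation (algebraMap R ↥(modularFunctionFieldFullC K (M' * q * q)) π) ≠ 0 :=
    (map_ne_zero V₂.valuation).mpr hπ0
  have hp1 : V₂.valuation (algebraMap R ↥(modularFunctionFieldFullC K (M' * q * q)) π) < 1 := by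
    by_contra hcon
    apply hπ₂
    rw [← e, ← ValuationSubring.valuation_le_one_iff, map_inv₀]
    exact inv_le_one_of_one_le₀ (not_lt.mp hcon)
  have hs' : V₂.valuation (v2g64_s K M' q) ^ (q - 1) =
      V₂.valuation (algebraMap R ↥(modularFunctionFieldFullC K (M' * q * q)) π) := by
    rw [e]
    exact hs
  obtain ⟨ha0, -, ha2⟩ := sm7_aux_val (V₂.valuation (v2g64_s K M' q))
    (V₂.valuation (algebraMap R ↥(modularFunctionFieldFullC K (M' * q * q)) π)) q hq.two_le hp0 hp1 hs'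
  have hσ0 : (v2g64_s K M' q) ≠ 0 := fun h => ha0 (by rw [h, map_zero])
  have hπσ : algebraMap R ↥(modularFunctionFieldFullC K (M' * q * q)) π * (v2g64_s K M' q)⁻¹ ∈ V₂ := by
    rw [← ValuationSubring.valuation_le_one_iff, map_mul, map_inv₀]
    exact (mul_comm _ _).le.trans ha2
  have hσe : (algebraMap R ↥(modularFunctionFieldFullC K (M' * q * q)) π)⁻¹ * (v2g64_s K M' q) ^ (q - 1) ∈ V₂ := by
    rw [← ValuationSubring.valuation_le_one_iff, map_mul, map_inv₀, map_pow, hs',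
      inv_mul_cancel₀ hp0]
  have hL := nsb86_hL K (M' * q * q)
  have hV₃mem := nsb86_mem_V3 (K := K) M' q hq hM' hπ
  have hB₁ : ∀ x ∈ B, x ∈ cm85_Vinf (K := K) (M' * q * q) hπ := fun x hx =>
    (Subring.mem_inf.mp (Subring.mem_inf.mp (hBW x hx)).1).1
  have hB₂ : ∀ x ∈ B, x ∈ V₂ := fun x hx =>
    (Subring.mem_inf.mp (Subring.mem_inf.mp (hBW x hx)).1).2
  have hB₃ : ∀ x ∈ B, x ∈ nsb86_V3 (K := K) M' q hq hM' hπ := fun x hx =>
    (Subring.mem_inf.mp (hBW x hx)).2
  have hsat : ∀ x ∈ B,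
      (algebraMap R ↥(modularFunctionFieldFullC K (M' * q * q)) π)⁻¹ * x ∈ cm85_Vinf (K := K) (M' * q * q) hπ →
      (algebraMap R ↥(modularFunctionFieldFullC K (M' * q * q)) π)⁻¹ * x ∈ V₂ →
      (algebraMap R ↥(modularFunctionFieldFullC K (M' * q * q)) π)⁻¹ * x ∈ nsb86_V3 (K := K) M' q hq hM' hπ →
      (algebraMap R ↥(modularFunctionFieldFullC K (M' * q * q)) π)⁻¹ * x ∈ B := fun x hx h1 h2 h3 =>
    hsatW x hx (Subring.mem_inf.mpr ⟨Subring.mem_inf.mpr ⟨h1, h2⟩, h3⟩)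
  -- `π⁻¹ ∉ V i`, `rad`, archimedean (helper73)
  have hpi := fc73_pi (K := K) M' q hq hM' hπ V₂ hπ₂
  have hrad := fc73_rad (K := K) M' q hq hM' hπ hqR V₂ hV₂ hπ₂ hne hs
  have harch := fc73_arch (K := K) M' q hq hM' hπ V₂ hV₂ hπ₂
  -- uniformisers
  have hlt : ∀ (V : ValuationSubring ↥(modularFunctionFieldFullC K (M' * q * q)))
      (x : ↥(modularFunctionFieldFullC K (M' * q * q))), V.valuation x < 1 →
      x ∈ V ∧ (x = 0 ∨ x⁻¹ ∉ V) := fun V x hx => (gcb26_val_lt_one_iff V x).mp hx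
  have hunif₁ : ∀ x : ↥(modularFunctionFieldFullC K (M' * q * q)),
      (cm85_Vinf (K := K) (M' * q * q) hπ).valuation x < 1 →
      (algebraMap R ↥(modularFunctionFieldFullC K (M' * q * q)) π)⁻¹ * x ∈
        cm85_Vinf (K := K) (M' * q * q) hπ := by
    intro x hx
    obtain ⟨hxV, hx0 | hxinv⟩ := hlt _ x hx
    · rw [hx0, mul_zero]
      exact (cm85_Vinf (K := K) (M' * q * q) hπ).zero_mem
    · rw [e]
      exact gv85_hmax (IsLocalRing.residue R) π (pk85_res_iff hπ) hπ.ne_zero _ _ x hxV hxinv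
  have hunif₂ : ∀ x : ↥(modularFunctionFieldFullC K (M' * q * q)), V₂.valuation x < 1 →
      x * (v2g64_s K M' q)⁻¹ ∈ V₂ := by
    intro x hx
    obtain ⟨hxV, hx0 | hxinv⟩ := hlt _ x hx
    · rw [hx0, zero_mul]
      exact V₂.zero_mem
    · obtain ⟨-, -, hmax₂, -, -⟩ := ob72_ram (K := K) (M' * q) q hq (dvd_mul_left q M') hπ V₂ hV₂
        hπ₂ hne (v2g64_s K M' q) hs
      rw [mul_comm x]
      exact hmax₂ x hxV hxinv
  have hunif₃ : ∀ x : ↥(modularFunctionFieldFullC K (M' * q * q)),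
      (nsb86_V3 (K := K) M' q hq hM' hπ).valuation x < 1 →
      (algebraMap R ↥(modularFunctionFieldFullC K (M' * q * q)) π)⁻¹ * x ∈
        nsb86_V3 (K := K) M' q hq hM' hπ := by
    intro x hx
    obtain ⟨hxV, hx0 | hxinv⟩ := hlt _ x hx
    · rw [hx0, mul_zero]
      exact (nsb86_V3 (K := K) M' q hq hM' hπ).zero_mem
    · obtain ⟨-, -, hmax₃, -⟩ := o3x72_inert (K := K) M' q hq hM' hπ hqR hL
        (nsb86_V3 (K := K) M' q hq hM' hπ) hV₃mem
      rw [e]
      exact hmax₃ x hxV hxinv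
  exact hp1m55_HP1 (K := K) π (v2g64_s K M' q) (q - 1) q m hm B al be Nal Nbe
    (cm85_Vinf (K := K) (M' * q * q) hπ) V₂ (nsb86_V3 (K := K) M' q hq hM' hπ) Vinf V0
    hB₁ hB₂ hB₃ hsat hπ0 hσ0 hσe (hpi 0) (hpi 1) (hpi 2) (hrad 0) (hrad 1) (hrad 2)
    (fun x _ hx0 => harch 0 x hx0) (fun x _ hx0 => harch 1 x hx0) (fun x _ hx0 => harch 2 x hx0)
    hfrac hmB hunif₁ hunif₂ hunif₃ hKr hS₁ hS₃ hS₂ hD₂


include hq hM' in
/-- **(HP-1) on both charts of a Hauptmodul** `h` of the canonical frame, from (C) for `h` and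
(3a) for the three branches on both charts; input `mc25_MidPrinAt` at the `C₂`-only points. -/
theorem hp1f36_charts (hqR : ¬ IsUnit (q : R))
    (V₂ : ValuationSubring ↥(modularFunctionFieldFullC K (M' * q * q)))
    (hV₂ : ∀ c ∈ cm85_Vinf (K := K) (M' * q) hπ, al97L_alpha K (M' * q) q c ∈ V₂)
    (hπ₂ : (algebraMap K ↥(modularFunctionFieldFullC K (M' * q * q)) (algebraMap R K π))⁻¹ ∉ V₂)
    (hne : cm85_Vinf (K := K) (M' * q * q) hπ ≠ V₂)
    (hs : V₂.valuation (v2g64_s K M' q) ^ (q - 1) =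
      V₂.valuation (algebraMap K ↥(modularFunctionFieldFullC K (M' * q * q)) (algebraMap R K π)))
    (h : ↥(modularFunctionFieldFullC K (M' * q * q)))
    (hC : s34i47_ChartProps K π ((cm85_Vinf (K := K) (M' * q * q) hπ).toSubring ⊓ V₂.toSubring ⊓
      (nsb86_V3 (K := K) M' q hq hM' hπ).toSubring) h)
    (hsm₁ : (sf79_Smooth π (pk15_chart R ({h} : Set ↥(modularFunctionFieldFullC K (M' * q * q)))) (cm85_Vinf (K := K) (M' * q * q) hπ).toSubring ∧
      tl71_MidSmooth π (v2g64_s K M' q) (pk15_chart R ({h} : Set ↥(modularFunctionFieldFullC K (M' * q * q)))) V₂.toSubring ∧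
      sf79_Smooth π (pk15_chart R ({h} : Set ↥(modularFunctionFieldFullC K (M' * q * q)))) (nsb86_V3 (K := K) M' q hq hM' hπ).toSubring))
    (hsm₂ : (sf79_Smooth π (pk15_chart R ({h⁻¹} : Set ↥(modularFunctionFieldFullC K (M' * q * q)))) (cm85_Vinf (K := K) (M' * q * q) hπ).toSubring ∧
      tl71_MidSmooth π (v2g64_s K M' q) (pk15_chart R ({h⁻¹} : Set ↥(modularFunctionFieldFullC K (M' * q * q)))) V₂.toSubring ∧
      sf79_Smooth π (pk15_chart R ({h⁻¹} : Set ↥(modularFunctionFieldFullC K (M' * q * q)))) (nsb86_V3 (K := K) M' q hq hM' hπ).toSubring))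
    (m : ℕ) (hm0 : 0 < m) (hm : IsUnit (m : R))
    (al be : ↥(modularFunctionFieldFullC K (M' * q)) →+* ↥(modularFunctionFieldFullC K (M' * q * q)))
    (Nal Nbe : ↥(modularFunctionFieldFullC K (M' * q * q)) →* ↥(modularFunctionFieldFullC K (M' * q)))
    (Vinf V0 : ValuationSubring ↥(modularFunctionFieldFullC K (M' * q))) :
    ((∀ n : Ideal ↥(pk15_chart R ({h} : Set ↥(modularFunctionFieldFullC K (M' * q * q)))), n.IsMaximal → algebraMap R ↥(pk15_chart R ({h} : Set ↥(modularFunctionFieldFullC K (M' * q * q)))) π ∈ n →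
        tl71_OnMid (v2g64_s K M' q) (pk15_chart R ({h} : Set ↥(modularFunctionFieldFullC K (M' * q * q)))) V₂.toSubring n →
        ¬ sf79_OnBr π (pk15_chart R ({h} : Set ↥(modularFunctionFieldFullC K (M' * q * q)))) (cm85_Vinf (K := K) (M' * q * q) hπ).toSubring n →
        ¬ sf79_OnBr π (pk15_chart R ({h} : Set ↥(modularFunctionFieldFullC K (M' * q * q)))) (nsb86_V3 (K := K) M' q hq hM' hπ).toSubring n →
        mc25_MidPrinAt (v2g64_s K M' q) (pk15_chart R ({h} : Set ↥(modularFunctionFieldFullC K (M' * q * q)))) V₂.toSubring n) →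
      cp57_HP1 (K := K) π q m (pk15_chart R ({h} : Set ↥(modularFunctionFieldFullC K (M' * q * q)))) al be Nal Nbe (cm85_Vinf (K := K) (M' * q * q) hπ) V₂
        (nsb86_V3 (K := K) M' q hq hM' hπ) Vinf V0) ∧
    ((∀ n : Ideal ↥(pk15_chart R ({h⁻¹} : Set ↥(modularFunctionFieldFullC K (M' * q * q)))), n.IsMaximal → algebraMap R ↥(pk15_chart R ({h⁻¹} : Set ↥(modularFunctionFieldFullC K (M' * q * q)))) π ∈ n →
        tl71_OnMid (v2g64_s K M' q) (pk15_chart R ({h⁻¹} : Set ↥(modularFunctionFieldFullC K (M' * q * q)))) V₂.toSubring n →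
        ¬ sf79_OnBr π (pk15_chart R ({h⁻¹} : Set ↥(modularFunctionFieldFullC K (M' * q * q)))) (cm85_Vinf (K := K) (M' * q * q) hπ).toSubring n →
        ¬ sf79_OnBr π (pk15_chart R ({h⁻¹} : Set ↥(modularFunctionFieldFullC K (M' * q * q)))) (nsb86_V3 (K := K) M' q hq hM' hπ).toSubring n →
        mc25_MidPrinAt (v2g64_s K M' q) (pk15_chart R ({h⁻¹} : Set ↥(modularFunctionFieldFullC K (M' * q * q)))) V₂.toSubring n) →
      cp57_HP1 (K := K) π q m (pk15_chart R ({h⁻¹} : Set ↥(modularFunctionFieldFullC K (M' * q * q)))) al be Nal Nbe (cm85_Vinf (K := K) (M' * q * q) hπ) V₂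
        (nsb86_V3 (K := K) M' q hq hM' hπ) Vinf V0) := by
  obtain ⟨htr, h12W, hsat1, hsat2, -, hN₁, hN₂, hfin, hfrac⟩ := hC
  have hh0 : h ≠ 0 := by
    rintro rfl
    exact htr isAlgebraic_zero
  have hfrac₂ := ca57_frac_inv (R := R) h hh0 hfrac
  obtain ⟨hKr₁, hKr₂⟩ := kr65_Pkg_Krull R K ↥(modularFunctionFieldFullC K (M' * q * q)) π hπ h htr
    hN₁ hN₂ hfin hfrac
  obtain ⟨μ, hμ⟩ := hm.exists_right_inv
  have hmB : ∀ B : Subalgebra R ↥(modularFunctionFieldFullC K (M' * q * q)),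
      ∃ μ' ∈ B, (m : ↥(modularFunctionFieldFullC K (M' * q * q))) * μ' = 1 := by
    intro B
    refine ⟨algebraMap R ↥(modularFunctionFieldFullC K (M' * q * q)) μ, B.algebraMap_mem μ, ?_⟩
    have e : (m : ↥(modularFunctionFieldFullC K (M' * q * q))) =
        algebraMap R ↥(modularFunctionFieldFullC K (M' * q * q)) (m : R) := by simp
    rw [e, ← map_mul, hμ, map_one]
  have hsub1 : ({h} : Set ↥(modularFunctionFieldFullC K (M' * q * q))) ⊆ {h, h⁻¹} := by
    intro x hx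
    rw [Set.mem_singleton_iff.mp hx]
    exact Set.mem_insert _ _
  have hsub2 : ({h⁻¹} : Set ↥(modularFunctionFieldFullC K (M' * q * q))) ⊆ {h, h⁻¹} := by
    intro x hx
    rw [Set.mem_singleton_iff.mp hx]
    exact Set.mem_insert_of_mem _ rfl
  obtain ⟨a1, a2, a3⟩ := hsm₁
  obtain ⟨b1, b2, b3⟩ := hsm₂
  constructor
  · intro hD₂
    haveI := hN₁
    exact hp1f36_core (K := K) M' q hq hM' hπ hqR V₂ hV₂ hπ₂ hne hs _
      (fun x hx => h12W x (pk15_chart_mono hsub1 hx)) hsat1 a1 a2 a3 hfrac hKr₁ m hm0 (hmB _)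
      al be Nal Nbe Vinf V0 hD₂
  · intro hD₂
    haveI := hN₂
    exact hp1f36_core (K := K) M' q hq hM' hπ hqR V₂ hV₂ hπ₂ hne hs _
      (fun x hx => h12W x (pk15_chart_mono hsub2 hx)) hsat2 b1 b2 b3 hfrac₂ hKr₂ m hm0 (hmB _)
      al be Nal Nbe Vinf V0 hD₂

/-- **The remaining input (row C-C2)**: the middle branch is principal at the closed points of the
chart `B` lying on `C₂` only WHERE `j` IS REGULAR; literally the hypothesis `hreg` of
`mc25_hD2_level2/3(_inv)` (helper25) and of `mc25_tg_level2/3`. -/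
def hp1f36_C2 (V₂ : ValuationSubring ↥(modularFunctionFieldFullC K (M' * q * q)))
    (B : Subalgebra R ↥(modularFunctionFieldFullC K (M' * q * q))) : Prop :=
  ∀ n : Ideal ↥B, n.IsMaximal → algebraMap R ↥B π ∈ n →
    tl71_OnMid (v2g64_s K M' q) B V₂.toSubring n →
    ¬ sf79_OnBr π B (cm85_Vinf (K := K) (M' * q * q) hπ).toSubring n →
    ¬ sf79_OnBr π B (nsb86_V3 (K := K) M' q hq hM' hπ).toSubring n →
    (∃ s' b : ↥B, s' ∉ n ∧
      (s' : ↥(modularFunctionFieldFullC K (M' * q * q))) * rm90_j K (M' * q * q) = (b : ↥(modularFunctionFieldFullC K (M' * q * q)))) →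
    mc25_MidPrinAt (v2g64_s K M' q) B V₂.toSubring n

include hq hM' in
/-- **(HP-1) on the canonical frame, Hauptmodul of level 2**: both affine charts (`V₂` ANY
valuation subring with the four facts of row B1-V2). NO (REG); the ONLY open input is
`hp1f36_C2` (the middle branch is principal at the `C₂`-only points where `j` is regular); the
cusps of `C₂` are discharged by `mc25_hD2_level2(_inv)` (helper25). -/
theorem hp1f36_level2 (hunit : ∀ n : ℕ, Nat.Coprime n q → IsUnit (n : R))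
    (hqπ : Associated ((q : ℕ) : R) π) (h2 : 2 ∣ M')
    (V₂ : ValuationSubring ↥(modularFunctionFieldFullC K (M' * q * q)))
    (hV₂ : ∀ c ∈ cm85_Vinf (K := K) (M' * q) hπ, al97L_alpha K (M' * q) q c ∈ V₂)
    (hπ₂ : (algebraMap K ↥(modularFunctionFieldFullC K (M' * q * q)) (algebraMap R K π))⁻¹ ∉ V₂)
    (hne : cm85_Vinf (K := K) (M' * q * q) hπ ≠ V₂)
    (hs : V₂.valuation (v2g64_s K M' q) ^ (q - 1) =
      V₂.valuation (algebraMap K ↥(modularFunctionFieldFullC K (M' * q * q)) (algebraMap R K π)))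
    (m : ℕ) (hm0 : 0 < m) (hm : IsUnit (m : R))
    (al be : ↥(modularFunctionFieldFullC K (M' * q)) →+* ↥(modularFunctionFieldFullC K (M' * q * q)))
    (Nal Nbe : ↥(modularFunctionFieldFullC K (M' * q * q)) →* ↥(modularFunctionFieldFullC K (M' * q)))
    (Vinf V0 : ValuationSubring ↥(modularFunctionFieldFullC K (M' * q))) :
    (hp1f36_C2 (K := K) M' q hq hM' hπ V₂ (pk15_chart R ({pk85_h2 K (M' * q * q) (h2.trans ((dvd_mul_right M' q).trans (dvd_mul_right (M' * q) q)))} : Set ↥(modularFunctionFieldFullC K (M' * q * q)))) →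
      cp57_HP1 (K := K) π q m (pk15_chart R ({pk85_h2 K (M' * q * q) (h2.trans ((dvd_mul_right M' q).trans (dvd_mul_right (M' * q) q)))} : Set ↥(modularFunctionFieldFullC K (M' * q * q)))) al be Nal Nbe (cm85_Vinf (K := K) (M' * q * q) hπ) V₂
        (nsb86_V3 (K := K) M' q hq hM' hπ) Vinf V0) ∧
    (hp1f36_C2 (K := K) M' q hq hM' hπ V₂ (pk15_chart R ({(pk85_h2 K (M' * q * q) (h2.trans ((dvd_mul_right M' q).trans (dvd_mul_right (M' * q) q))))⁻¹} : Set ↥(modularFunctionFieldFullC K (M' * q * q)))) →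
      cp57_HP1 (K := K) π q m (pk15_chart R ({(pk85_h2 K (M' * q * q) (h2.trans ((dvd_mul_right M' q).trans (dvd_mul_right (M' * q) q))))⁻¹} : Set ↥(modularFunctionFieldFullC K (M' * q * q)))) al be Nal Nbe (cm85_Vinf (K := K) (M' * q * q) hπ) V₂
        (nsb86_V3 (K := K) M' q hq hM' hπ) Vinf V0) := by
  have hqR : ¬ IsUnit (q : R) := fun hu => hπ.not_isUnit (hqπ.isUnit hu)
  have hMu : IsUnit (M' : R) := hunit M' ((Nat.Prime.coprime_iff_not_dvd hq).mpr hM').symm
  have hqp : q ≠ 2 := by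
    intro h
    apply hM'
    rw [h]
    exact h2
  have hku : IsUnit (2 : R) := by
    have := hunit 2 ((Nat.coprime_primes Nat.prime_two hq).mpr (Ne.symm hqp))
    simpa using this
  obtain ⟨-, hC, -⟩ := fb85_frameV3_level2 M' q hq hM' hπ hqR hMu h2 V₂ hV₂ hπ₂ hs
  have hC' := hC
  obtain ⟨-, h12W, hsat1, hsat2, -⟩ := hC'
  have e : algebraMap R ↥(modularFunctionFieldFullC K (M' * q * q)) π = (algebraMap K ↥(modularFunctionFieldFullC K (M' * q * q)) (algebraMap R K π)) :=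
    IsScalarTower.algebraMap_apply R K _ π
  have hπ₂' : (algebraMap R ↥(modularFunctionFieldFullC K (M' * q * q)) π)⁻¹ ∉ V₂ := by
    rw [e]
    exact hπ₂
  have hs' : V₂.valuation (v2g64_s K M' q) ^ (q - 1) =
      V₂.valuation (algebraMap R ↥(modularFunctionFieldFullC K (M' * q * q)) π) := by
    rw [e]
    exact hs
  obtain ⟨hsm₁, hsm₂⟩ := sm7_three_smooth_sq_level2 (R := R) (K := K) M' q hq hM'
    hπ hqR h2 hMu V₂ hV₂ hπ₂' hne (v2g64_s K M' q) hs'
  obtain ⟨uu, huq⟩ := id hqπ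
  have hqu : ((q : ℕ) : R) = ((uu⁻¹ : Rˣ) : R) * π := by
    rw [← huq, mul_comm ((q : ℕ) : R), ← mul_assoc, ← Units.val_mul, inv_mul_cancel,
      Units.val_one, one_mul]
  have huu : ((uu⁻¹ : Rˣ) : R) * (uu : R) = 1 := by
    rw [← Units.val_mul, inv_mul_cancel, Units.val_one]
  have hsub1 : ({pk85_h2 K (M' * q * q) (h2.trans ((dvd_mul_right M' q).trans (dvd_mul_right (M' * q) q)))} : Set ↥(modularFunctionFieldFullC K (M' * q * q))) ⊆
      {pk85_h2 K (M' * q * q) (h2.trans ((dvd_mul_right M' q).trans (dvd_mul_right (M' * q) q))), (pk85_h2 K (M' * q * q) (h2.trans ((dvd_mul_right M' q).trans (dvd_mul_right (M' * q) q))))⁻¹} := by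
    intro x hx
    rw [Set.mem_singleton_iff.mp hx]
    exact Set.mem_insert _ _
  have hsub2 : ({(pk85_h2 K (M' * q * q) (h2.trans ((dvd_mul_right M' q).trans (dvd_mul_right (M' * q) q))))⁻¹} : Set ↥(modularFunctionFieldFullC K (M' * q * q))) ⊆
      {pk85_h2 K (M' * q * q) (h2.trans ((dvd_mul_right M' q).trans (dvd_mul_right (M' * q) q))), (pk85_h2 K (M' * q * q) (h2.trans ((dvd_mul_right M' q).trans (dvd_mul_right (M' * q) q))))⁻¹} := by
    intro x hx
    rw [Set.mem_singleton_iff.mp hx]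
    exact Set.mem_insert_of_mem _ rfl
  obtain ⟨k1, k2⟩ := hp1f36_charts (K := K) M' q hq hM' hπ hqR V₂ hV₂ hπ₂ hne hs _ hC
    hsm₁ hsm₂ m hm0 hm al be Nal Nbe Vinf V0
  constructor
  · intro hC2
    exact k1
      (mc25_hD2_level2 (R := R) (K := K) M' q hq hM' hπ hqR h2 hku ((uu⁻¹ : Rˣ) : R) (uu : R)
        huu hqu V₂ (fun c hc => hV₂ c hc) hπ₂' hne _ hs' (v2g64_s_coe K M' q) _ _
        (fun x hx => (h12W x (pk15_chart_mono hsub1 hx)).1.1)
        (fun x hx => (h12W x (pk15_chart_mono hsub1 hx)).1.2)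
        (fun x hx => (h12W x (pk15_chart_mono hsub1 hx)).2)
        (fun x hx h1 h2 h3 => hsat1 x hx ⟨⟨h1, h2⟩, h3⟩) hC2)
  · intro hC2
    exact k2
      (mc25_hD2_level2_inv (R := R) (K := K) M' q hq hM' hπ hqR h2 ((uu⁻¹ : Rˣ) : R) (uu : R)
        huu hqu V₂ (fun c hc => hV₂ c hc) hπ₂' hne _ hs' (v2g64_s_coe K M' q) _ _
        (fun x hx => (h12W x (pk15_chart_mono hsub2 hx)).1.1)
        (fun x hx => (h12W x (pk15_chart_mono hsub2 hx)).1.2)
        (fun x hx => (h12W x (pk15_chart_mono hsub2 hx)).2)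
        (fun x hx h1 h2 h3 => hsat2 x hx ⟨⟨h1, h2⟩, h3⟩) hC2)

include hq hM' in
/-- **(HP-1) on the canonical frame, Hauptmodul of level 3**: both affine charts (`V₂` ANY
valuation subring with the four facts of row B1-V2). NO (REG); the ONLY open input is
`hp1f36_C2` (the middle branch is principal at the `C₂`-only points where `j` is regular); the
cusps of `C₂` are discharged by `mc25_hD2_level3(_inv)` (helper25). -/
theorem hp1f36_level3 (hunit : ∀ n : ℕ, Nat.Coprime n q → IsUnit (n : R))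
    (hqπ : Associated ((q : ℕ) : R) π) (h3 : 3 ∣ M')
    (V₂ : ValuationSubring ↥(modularFunctionFieldFullC K (M' * q * q)))
    (hV₂ : ∀ c ∈ cm85_Vinf (K := K) (M' * q) hπ, al97L_alpha K (M' * q) q c ∈ V₂)
    (hπ₂ : (algebraMap K ↥(modularFunctionFieldFullC K (M' * q * q)) (algebraMap R K π))⁻¹ ∉ V₂)
    (hne : cm85_Vinf (K := K) (M' * q * q) hπ ≠ V₂)
    (hs : V₂.valuation (v2g64_s K M' q) ^ (q - 1) =
      V₂.valuation (algebraMap K ↥(modularFunctionFieldFullC K (M' * q * q)) (algebraMap R K π)))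
    (m : ℕ) (hm0 : 0 < m) (hm : IsUnit (m : R))
    (al be : ↥(modularFunctionFieldFullC K (M' * q)) →+* ↥(modularFunctionFieldFullC K (M' * q * q)))
    (Nal Nbe : ↥(modularFunctionFieldFullC K (M' * q * q)) →* ↥(modularFunctionFieldFullC K (M' * q)))
    (Vinf V0 : ValuationSubring ↥(modularFunctionFieldFullC K (M' * q))) :
    (hp1f36_C2 (K := K) M' q hq hM' hπ V₂ (pk15_chart R ({pk85_h3 K (M' * q * q) (h3.trans ((dvd_mul_right M' q).trans (dvd_mul_right (M' * q) q)))} : Set ↥(modularFunctionFieldFullC K (M' * q * q)))) →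
      cp57_HP1 (K := K) π q m (pk15_chart R ({pk85_h3 K (M' * q * q) (h3.trans ((dvd_mul_right M' q).trans (dvd_mul_right (M' * q) q)))} : Set ↥(modularFunctionFieldFullC K (M' * q * q)))) al be Nal Nbe (cm85_Vinf (K := K) (M' * q * q) hπ) V₂
        (nsb86_V3 (K := K) M' q hq hM' hπ) Vinf V0) ∧
    (hp1f36_C2 (K := K) M' q hq hM' hπ V₂ (pk15_chart R ({(pk85_h3 K (M' * q * q) (h3.trans ((dvd_mul_right M' q).trans (dvd_mul_right (M' * q) q))))⁻¹} : Set ↥(modularFunctionFieldFullC K (M' * q * q)))) →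
      cp57_HP1 (K := K) π q m (pk15_chart R ({(pk85_h3 K (M' * q * q) (h3.trans ((dvd_mul_right M' q).trans (dvd_mul_right (M' * q) q))))⁻¹} : Set ↥(modularFunctionFieldFullC K (M' * q * q)))) al be Nal Nbe (cm85_Vinf (K := K) (M' * q * q) hπ) V₂
        (nsb86_V3 (K := K) M' q hq hM' hπ) Vinf V0) := by
  have hqR : ¬ IsUnit (q : R) := fun hu => hπ.not_isUnit (hqπ.isUnit hu)
  have hMu : IsUnit (M' : R) := hunit M' ((Nat.Prime.coprime_iff_not_dvd hq).mpr hM').symm
  have hqp : q ≠ 3 := by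
    intro h
    apply hM'
    rw [h]
    exact h3
  have hku : IsUnit (3 : R) := by
    have := hunit 3 ((Nat.coprime_primes Nat.prime_three hq).mpr (Ne.symm hqp))
    simpa using this
  obtain ⟨-, hC, -⟩ := fb85_frameV3_level3 M' q hq hM' hπ hqR hMu h3 V₂ hV₂ hπ₂ hs
  have hC' := hC
  obtain ⟨-, h12W, hsat1, hsat2, -⟩ := hC'
  have e : algebraMap R ↥(modularFunctionFieldFullC K (M' * q * q)) π = (algebraMap K ↥(modularFunctionFieldFullC K (M' * q * q)) (algebraMap R K π)) :=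
    IsScalarTower.algebraMap_apply R K _ π
  have hπ₂' : (algebraMap R ↥(modularFunctionFieldFullC K (M' * q * q)) π)⁻¹ ∉ V₂ := by
    rw [e]
    exact hπ₂
  have hs' : V₂.valuation (v2g64_s K M' q) ^ (q - 1) =
      V₂.valuation (algebraMap R ↥(modularFunctionFieldFullC K (M' * q * q)) π) := by
    rw [e]
    exact hs
  obtain ⟨hsm₁, hsm₂⟩ := sm7_three_smooth_sq_level3 (R := R) (K := K) M' q hq hM'
    hπ hqR h3 hMu V₂ hV₂ hπ₂' hne (v2g64_s K M' q) hs'
  obtain ⟨uu, huq⟩ := id hqπ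
  have hqu : ((q : ℕ) : R) = ((uu⁻¹ : Rˣ) : R) * π := by
    rw [← huq, mul_comm ((q : ℕ) : R), ← mul_assoc, ← Units.val_mul, inv_mul_cancel,
      Units.val_one, one_mul]
  have huu : ((uu⁻¹ : Rˣ) : R) * (uu : R) = 1 := by
    rw [← Units.val_mul, inv_mul_cancel, Units.val_one]
  have hsub1 : ({pk85_h3 K (M' * q * q) (h3.trans ((dvd_mul_right M' q).trans (dvd_mul_right (M' * q) q)))} : Set ↥(modularFunctionFieldFullC K (M' * q * q))) ⊆
      {pk85_h3 K (M' * q * q) (h3.trans ((dvd_mul_right M' q).trans (dvd_mul_right (M' * q) q))), (pk85_h3 K (M' * q * q) (h3.trans ((dvd_mul_right M' q).trans (dvd_mul_right (M' * q) q))))⁻¹} := by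
    intro x hx
    rw [Set.mem_singleton_iff.mp hx]
    exact Set.mem_insert _ _
  have hsub2 : ({(pk85_h3 K (M' * q * q) (h3.trans ((dvd_mul_right M' q).trans (dvd_mul_right (M' * q) q))))⁻¹} : Set ↥(modularFunctionFieldFullC K (M' * q * q))) ⊆
      {pk85_h3 K (M' * q * q) (h3.trans ((dvd_mul_right M' q).trans (dvd_mul_right (M' * q) q))), (pk85_h3 K (M' * q * q) (h3.trans ((dvd_mul_right M' q).trans (dvd_mul_right (M' * q) q))))⁻¹} := by
    intro x hx
    rw [Set.mem_singleton_iff.mp hx]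
    exact Set.mem_insert_of_mem _ rfl
  obtain ⟨k1, k2⟩ := hp1f36_charts (K := K) M' q hq hM' hπ hqR V₂ hV₂ hπ₂ hne hs _ hC
    hsm₁ hsm₂ m hm0 hm al be Nal Nbe Vinf V0
  constructor
  · intro hC2
    exact k1
      (mc25_hD2_level3 (R := R) (K := K) M' q hq hM' hπ hqR h3 hku ((uu⁻¹ : Rˣ) : R) (uu : R)
        huu hqu V₂ (fun c hc => hV₂ c hc) hπ₂' hne _ hs' (v2g64_s_coe K M' q) _ _
        (fun x hx => (h12W x (pk15_chart_mono hsub1 hx)).1.1)
        (fun x hx => (h12W x (pk15_chart_mono hsub1 hx)).1.2)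
        (fun x hx => (h12W x (pk15_chart_mono hsub1 hx)).2)
        (fun x hx h1 h2 h3 => hsat1 x hx ⟨⟨h1, h2⟩, h3⟩) hC2)
  · intro hC2
    exact k2
      (mc25_hD2_level3_inv (R := R) (K := K) M' q hq hM' hπ hqR h3 ((uu⁻¹ : Rˣ) : R) (uu : R)
        huu hqu V₂ (fun c hc => hV₂ c hc) hπ₂' hne _ hs' (v2g64_s_coe K M' q) _ _
        (fun x hx => (h12W x (pk15_chart_mono hsub2 hx)).1.1)
        (fun x hx => (h12W x (pk15_chart_mono hsub2 hx)).1.2)
        (fun x hx => (h12W x (pk15_chart_mono hsub2 hx)).2)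
        (fun x hx h1 h2 h3 => hsat2 x hx ⟨⟨h1, h2⟩, h3⟩) hC2)

end HP1F

section HP1Final


/-- **The remaining input of (HP-1), closed form, Hauptmodul of level 2** (row C-C2 on the
canonical frame `V₂ = v2g64_V2`): `hp1f36_C2` on both charts, in the binder block of
`s36i62g_HP1c2` (HPSplit62). -/
def hp1f36_C2c2 : Prop :=
  ∀ (M' q r : ℕ) [NeZero M'] [NeZero q] (hq : q.Prime) (hM' : ¬ q ∣ M'),
    s36c67_Rigid6 (M' * q) q r → ∀ (h2 : 2 ∣ M'),
    ∀ (R K : Type) [CommRing R] [IsDomain R] [IsDiscreteValuationRing R] [Field K]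
      [NumberField K] [Algebra K Q̄] [Algebra R K] [IsFractionRing R K]
      [Algebra R ↥(modularFunctionFieldFullC K (M' * q * q))]
      [IsScalarTower R K ↥(modularFunctionFieldFullC K (M' * q * q))]
      (hπ : Irreducible ((q : ℕ) : R)), (∀ k : ℕ, Nat.Coprime k q → IsUnit (k : R)) →
      hp1f36_C2 (K := K) M' q hq hM' hπ (v2g64_V2 (algebraMap K Q̄) M' q hq hM' hπ (Associated.refl _))
        (pk15_chart R ({pk85_h2 K (M' * q * q) (h2.trans ((dvd_mul_right M' q).trans (dvd_mul_right (M' * q) q)))} : Set ↥(modularFunctionFieldFullC K (M' * q * q)))) ∧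
      hp1f36_C2 (K := K) M' q hq hM' hπ (v2g64_V2 (algebraMap K Q̄) M' q hq hM' hπ (Associated.refl _))
        (pk15_chart R ({(pk85_h2 K (M' * q * q) (h2.trans ((dvd_mul_right M' q).trans (dvd_mul_right (M' * q) q))))⁻¹} : Set ↥(modularFunctionFieldFullC K (M' * q * q))))

/-- **`s36i62g_HP1c2` (HPSplit62) from row C-C2 alone.** -/
theorem hp1f36_HP1c2 (H : hp1f36_C2c2) : s36i62g_HP1c2 := by
  intro M' q p r _ _ hq hM' hrig hp hpq h2 n R K _ _ _ _ _ _ _ _ _ _ hπ hunit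
  haveI : Algebra.IsAlgebraic K Q̄ := cx_isAlgebraic_closure K
  letI a1 : Algebra R ↥(modularFunctionFieldFullC K M') :=
    ((algebraMap K ↥(modularFunctionFieldFullC K M')).comp (algebraMap R K)).toAlgebra
  haveI : IsScalarTower R K ↥(modularFunctionFieldFullC K M') :=
    IsScalarTower.of_algebraMap_eq (fun _ => rfl)
  letI a2 : Algebra R ↥(modularFunctionFieldFullC K (M' * q)) :=
    ((algebraMap K ↥(modularFunctionFieldFullC K (M' * q))).comp (algebraMap R K)).toAlgebra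
  haveI : IsScalarTower R K ↥(modularFunctionFieldFullC K (M' * q)) :=
    IsScalarTower.of_algebraMap_eq (fun _ => rfl)
  have hmu : IsUnit ((p ^ n : ℕ) : R) :=
    hunit _ (Nat.Coprime.pow_left n ((Nat.coprime_primes hp hq).mpr hpq))
  obtain ⟨c1, c2⟩ := H M' q r hq hM' hrig h2 R K hπ hunit
  obtain ⟨k1, k2⟩ := hp1f36_level2 (K := K) M' q hq hM' hπ hunit (Associated.refl _) h2
    (v2g64_V2 (algebraMap K Q̄) M' q hq hM' hπ (Associated.refl _))
    (v2g64_V2_alpha (algebraMap K Q̄) M' q hq hM' hπ (Associated.refl _))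
    (v2g64_V2_pi (algebraMap K Q̄) M' q hq hM' hπ (Associated.refl _))
    (v2g64_V2_ne (algebraMap K Q̄) M' q hq hM' hπ (Associated.refl _))
    (v2g64_V2_val (algebraMap K Q̄) M' q hq hM' hπ (Associated.refl _))
    (p ^ n) (pow_pos hp.pos n) hmu
    (al97L_alpha K (M' * q) q).toRingHom (al97L_beta K (M' * q) q).toRingHom
    (s35i62_normA K (M' * q) q) (s35i62_normB K (M' * q) q)
    (cm85_Vinf (K := K) (M' * q) hπ) (s34i47c_V0 M' q hq hM' hπ)
  exact ⟨k1 c1, k2 c2⟩

/-- **The remaining input of (HP-1), closed form, Hauptmodul of level 3** (row C-C2 on the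
canonical frame `V₂ = v2g64_V2`): `hp1f36_C2` on both charts, in the binder block of
`s36i62g_HP1c3` (HPSplit62). -/
def hp1f36_C2c3 : Prop :=
  ∀ (M' q r : ℕ) [NeZero M'] [NeZero q] (hq : q.Prime) (hM' : ¬ q ∣ M'),
    s36c67_Rigid6 (M' * q) q r → q = 2 → ∀ (h3 : 3 ∣ M'),
    ∀ (R K : Type) [CommRing R] [IsDomain R] [IsDiscreteValuationRing R] [Field K]
      [NumberField K] [Algebra K Q̄] [Algebra R K] [IsFractionRing R K]
      [Algebra R ↥(modularFunctionFieldFullC K (M' * q * q))]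
      [IsScalarTower R K ↥(modularFunctionFieldFullC K (M' * q * q))]
      (hπ : Irreducible ((q : ℕ) : R)), (∀ k : ℕ, Nat.Coprime k q → IsUnit (k : R)) →
      hp1f36_C2 (K := K) M' q hq hM' hπ (v2g64_V2 (algebraMap K Q̄) M' q hq hM' hπ (Associated.refl _))
        (pk15_chart R ({pk85_h3 K (M' * q * q) (h3.trans ((dvd_mul_right M' q).trans (dvd_mul_right (M' * q) q)))} : Set ↥(modularFunctionFieldFullC K (M' * q * q)))) ∧
      hp1f36_C2 (K := K) M' q hq hM' hπ (v2g64_V2 (algebraMap K Q̄) M' q hq hM' hπ (Associated.refl _))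
        (pk15_chart R ({(pk85_h3 K (M' * q * q) (h3.trans ((dvd_mul_right M' q).trans (dvd_mul_right (M' * q) q))))⁻¹} : Set ↥(modularFunctionFieldFullC K (M' * q * q))))

/-- **`s36i62g_HP1c3` (HPSplit62) from row C-C2 alone.** -/
theorem hp1f36_HP1c3 (H : hp1f36_C2c3) : s36i62g_HP1c3 := by
  intro M' q p r _ _ hq hM' hrig hp hpq hq2 h3 n R K _ _ _ _ _ _ _ _ _ _ hπ hunit
  haveI : Algebra.IsAlgebraic K Q̄ := cx_isAlgebraic_closure K
  letI a1 : Algebra R ↥(modularFunctionFieldFullC K M') :=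
    ((algebraMap K ↥(modularFunctionFieldFullC K M')).comp (algebraMap R K)).toAlgebra
  haveI : IsScalarTower R K ↥(modularFunctionFieldFullC K M') :=
    IsScalarTower.of_algebraMap_eq (fun _ => rfl)
  letI a2 : Algebra R ↥(modularFunctionFieldFullC K (M' * q)) :=
    ((algebraMap K ↥(modularFunctionFieldFullC K (M' * q))).comp (algebraMap R K)).toAlgebra
  haveI : IsScalarTower R K ↥(modularFunctionFieldFullC K (M' * q)) :=
    IsScalarTower.of_algebraMap_eq (fun _ => rfl)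
  have hmu : IsUnit ((p ^ n : ℕ) : R) :=
    hunit _ (Nat.Coprime.pow_left n ((Nat.coprime_primes hp hq).mpr hpq))
  obtain ⟨c1, c2⟩ := H M' q r hq hM' hrig hq2 h3 R K hπ hunit
  obtain ⟨k1, k2⟩ := hp1f36_level3 (K := K) M' q hq hM' hπ hunit (Associated.refl _) h3
    (v2g64_V2 (algebraMap K Q̄) M' q hq hM' hπ (Associated.refl _))
    (v2g64_V2_alpha (algebraMap K Q̄) M' q hq hM' hπ (Associated.refl _))
    (v2g64_V2_pi (algebraMap K Q̄) M' q hq hM' hπ (Associated.refl _))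
    (v2g64_V2_ne (algebraMap K Q̄) M' q hq hM' hπ (Associated.refl _))
    (v2g64_V2_val (algebraMap K Q̄) M' q hq hM' hπ (Associated.refl _))
    (p ^ n) (pow_pos hp.pos n) hmu
    (al97L_alpha K (M' * q) q).toRingHom (al97L_beta K (M' * q) q).toRingHom
    (s35i62_normA K (M' * q) q) (s35i62_normB K (M' * q) q)
    (cm85_Vinf (K := K) (M' * q) hπ) (s34i47c_V0 M' q hq hM' hπ)
  exact ⟨k1 c1, k2 c2⟩

end HP1Final

end Fermat.Agent.S36
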