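import Mathlib
import Fermat.Agent.S36.CoreHP1Canon84
import Fermat.Agent.S36.HPOneMid55
import Fermat.Agent.S36.MidCuspFrame25
import Fermat.Agent.S36.V2Final64

/-!
# S36 lab, row 605 (HP-1), helper84: the canonical instance of `cp57_HP1` in the WEAK middle shape

Twin of the final (HP-1) binder in the shapes fixed by the integrator (shape warning of row 605):
the generator of the middle branch at the closed points on the middle branch only is consumed in
the `mc25_MidPrinAt` shape (available at the cusps, `mc25_hD2_level2/3(_inv)` of helper25), through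
`hp1m55_HP1` (HPOneMid55, helper55) = `hp84_HP1` without `hD₁`, `hD₃` and with the weak `hD₂`.
No regular-node input, no two-generator input.

* `hp84f_core`   : `cp57_HP1` for a chart `B` with its frame facts and the weak `hD₂`;
* `hp84f_Reg`    : the ONLY remaining hypothesis = literal `hreg` of `mc25_hD2_level2/3(_inv)`
  (the `j`-regular closed points on the middle branch only, row 600);
* `hp84f_level2`, `hp84f_level3` : both charts of the Hauptmodul, any `V₂` with `hV₂ hπ₂ hs`;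
* `hp84f_final2`, `hp84f_final3` : the body of `s36i62g_HP1c2` / `s36i62g_HP1c3` (HPSplit62) at one
  level (`π = (q : R)`, `m = p ^ n`, `V₂ = v2g64_V2`, only the level-`M' q q` algebra instance).

All names are prefixed `hp84f_`.
-/

set_option autoImplicit false
set_option linter.unusedSectionVars false
set_option linter.unusedVariables false
set_option linter.style.haveILetI false
set_option linter.style.longLine false

open ModularCurve

namespace Fermat.Agent.S36

open Fermat.Agent.S18 Fermat.Agent.S24 Fermat.Agent.S34 Fermat.Agent.S35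
open Fermat.Agent.S36.TripleLoc71

local notation "Q̄" => AlgebraicClosure ℚ

section HP84F

variable {R K : Type} [CommRing R] [IsDomain R] [IsDiscreteValuationRing R] [Field K]
  [NumberField K] [Algebra R K] [IsFractionRing R K] [Algebra K Q̄] [Algebra.IsAlgebraic K Q̄]
  (M' q : ℕ) [NeZero M'] [NeZero q] (hq : q.Prime) (hM' : ¬ q ∣ M')
  {π : R} (hπ : Irreducible π)
  [Algebra R ↥(modularFunctionFieldFullC K M')]
  [IsScalarTower R K ↥(modularFunctionFieldFullC K M')]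
  [Algebra R ↥(modularFunctionFieldFullC K (M' * q))]
  [IsScalarTower R K ↥(modularFunctionFieldFullC K (M' * q))]
  [Algebra R ↥(modularFunctionFieldFullC K (M' * q * q))]
  [IsScalarTower R K ↥(modularFunctionFieldFullC K (M' * q * q))]

include hq hM' in
/-- **(HP-1) for a chart `B` of level `M' q q` with its frame facts** (`B ⊆ W = V₁ ⊓ V₂ ⊓ V₃`,
saturation in `W`, Noetherian, fraction field, (KR), (3a) for the three branches) and the WEAK
middle input `mc25_MidPrinAt` at the closed points on the middle branch only. -/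
theorem hp84f_core (hqR : ¬ IsUnit (q : R)) (m : ℕ) (hm : 0 < m) (hmu : IsUnit (m : R))
    (V₂ : ValuationSubring ↥(modularFunctionFieldFullC K (M' * q * q)))
    (hV₂ : ∀ c ∈ cm85_Vinf (K := K) (M' * q) hπ, al97L_alpha K (M' * q) q c ∈ V₂)
    (hπ₂ : (algebraMap K ↥(modularFunctionFieldFullC K (M' * q * q)) (algebraMap R K π))⁻¹ ∉ V₂)
    (hs : V₂.valuation (v2g64_s K M' q) ^ (q - 1) =
      V₂.valuation (algebraMap K ↥(modularFunctionFieldFullC K (M' * q * q)) (algebraMap R K π)))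
    (B : Subalgebra R ↥(modularFunctionFieldFullC K (M' * q * q))) [IsNoetherianRing B]
    (hBW : ∀ x ∈ B, x ∈ (cm85_Vinf (K := K) (M' * q * q) hπ).toSubring ⊓ V₂.toSubring ⊓
      (nsb86_V3 (K := K) M' q hq hM' hπ).toSubring)
    (hsatW : ∀ x ∈ B, (algebraMap R ↥(modularFunctionFieldFullC K (M' * q * q)) π)⁻¹ * x ∈
        (cm85_Vinf (K := K) (M' * q * q) hπ).toSubring ⊓ V₂.toSubring ⊓
          (nsb86_V3 (K := K) M' q hq hM' hπ).toSubring →
      (algebraMap R ↥(modularFunctionFieldFullC K (M' * q * q)) π)⁻¹ * x ∈ B)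
    (hfrac : ∀ t : ↥(modularFunctionFieldFullC K (M' * q * q)), ∃ a ∈ B, ∃ b ∈ B,
      b ≠ 0 ∧ t * b = a)
    (hKr : s34i47_Krull π B)
    (hS₁ : sf79_Smooth π B (cm85_Vinf (K := K) (M' * q * q) hπ).toSubring)
    (hS₂ : tl71_MidSmooth π (v2g64_s K M' q) B V₂.toSubring)
    (hS₃ : sf79_Smooth π B (nsb86_V3 (K := K) M' q hq hM' hπ).toSubring)
    (hD₂ : ∀ n : Ideal B, n.IsMaximal → algebraMap R B π ∈ n →
      tl71_OnMid (v2g64_s K M' q) B V₂.toSubring n →
      ¬ sf79_OnBr π B (cm85_Vinf (K := K) (M' * q * q) hπ).toSubring n →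
      ¬ sf79_OnBr π B (nsb86_V3 (K := K) M' q hq hM' hπ).toSubring n →
      mc25_MidPrinAt (v2g64_s K M' q) B V₂.toSubring n) :
    cp57_HP1 (K := K) π q m B (al97L_alpha K (M' * q) q).toRingHom
      (al97L_beta K (M' * q) q).toRingHom (s35i62_normA K (M' * q) q)
      (s35i62_normB K (M' * q) q) (cm85_Vinf (K := K) (M' * q * q) hπ) V₂
      (nsb86_V3 (K := K) M' q hq hM' hπ) (cm85_Vinf (K := K) (M' * q) hπ)
      (s34i47c_V0 (K := K) M' q hq hM' hπ) := by
  have hne := hp84c_ne (K := K) M' q hq hπ V₂ hπ₂ hs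
  have e : algebraMap R ↥(modularFunctionFieldFullC K (M' * q * q)) π =
      (algebraMap K ↥(modularFunctionFieldFullC K (M' * q * q)) (algebraMap R K π)) :=
    IsScalarTower.algebraMap_apply R K _ π
  -- the three branches: `π` is a non-unit
  have hπ₁K : (algebraMap K ↥(modularFunctionFieldFullC K (M' * q * q)) (algebraMap R K π))⁻¹ ∉
      cm85_Vinf (K := K) (M' * q * q) hπ :=
    gv85_pi_inv_not_mem (IsLocalRing.residue R) π (pk85_res_iff hπ) hπ.ne_zero _ _
  have hπ₃K := vuc1_V3_pi (K := K) M' q hq hM' hπ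
  have hπ0 : algebraMap R ↥(modularFunctionFieldFullC K (M' * q * q)) π ≠ 0 := by
    intro h0
    apply hπ₁K
    rw [← e, h0, inv_zero]
    exact (cm85_Vinf (K := K) (M' * q * q) hπ).zero_mem
  have hp0 : V₂.valuation (algebraMap R ↥(modularFunctionFieldFullC K (M' * q * q)) π) ≠ 0 :=
    (map_ne_zero V₂.valuation).mpr hπ0
  have hp1 : V₂.valuation (algebraMap R ↥(modularFunctionFieldFullC K (M' * q * q)) π) < 1 := by
    by_contra hcon
    apply hπ₂
    rw [← e, ← ValuationSubring.valuation_le_one_iff, map_inv₀]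
    exact inv_le_one_of_one_le₀ (not_lt.mp hcon)
  have hs' : V₂.valuation (v2g64_s K M' q) ^ (q - 1) =
      V₂.valuation (algebraMap R ↥(modularFunctionFieldFullC K (M' * q * q)) π) := by
    rw [e]
    exact hs
  obtain ⟨ha0, -, ha2⟩ := sm7_aux_val (V₂.valuation (v2g64_s K M' q))
    (V₂.valuation (algebraMap R ↥(modularFunctionFieldFullC K (M' * q * q)) π)) q hq.two_le
    hp0 hp1 hs'
  have hσ0 : (v2g64_s K M' q) ≠ 0 := fun h => ha0 (by rw [h, map_zero])
  have hσe : (algebraMap R ↥(modularFunctionFieldFullC K (M' * q * q)) π)⁻¹ *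
      (v2g64_s K M' q) ^ (q - 1) ∈ V₂ := by
    rw [← ValuationSubring.valuation_le_one_iff, map_mul, map_inv₀, map_pow, hs',
      inv_mul_cancel₀ hp0]
  -- rad and archimedean
  have hV₁ : ∀ c ∈ cm85_Vinf (K := K) (M' * q) hπ,
      al97L_alpha K (M' * q) q c ∈ cm85_Vinf (K := K) (M' * q * q) hπ := fun c hc =>
    (al97V_alpha_mem_Vinf (M' * q) q hπ c).mpr hc
  have hV₃ := vuc1_V3_alpha (K := K) M' q hq hM' hπ
  obtain ⟨r1, a1⟩ := fd85_over_inf (K := K) M' q hq hπ _ hV₁ hπ₁K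
  obtain ⟨r2, a2⟩ := fd85_over_inf (K := K) M' q hq hπ V₂ hV₂ hπ₂
  obtain ⟨r3, a3⟩ := fd85_over_zero (K := K) M' q hq hM' hπ _ hV₃ hπ₃K
  -- the uniformisers
  obtain ⟨-, hd1, hd2, -, -, -⟩ := vi41_ram (K := K) (M' * q) q hq (dvd_mul_left q M') hπ V₂
    hV₂ hπ₂ hne (v2g64_s K M' q) hs (vuc1_s_unit (K := K) M' q hq hπ)
  obtain ⟨hw1, hw2⟩ := vuc1_V3_wit (K := K) M' q hq hM' hπ hqR
  obtain ⟨-, hd3, -, -⟩ := vi41_inert (K := K) M' q hq hM' hπ _ hV₃ hπ₃K _ hw1 hw2
  -- the chart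
  have hB₁ : ∀ x ∈ B, x ∈ cm85_Vinf (K := K) (M' * q * q) hπ := fun x hx =>
    (Subring.mem_inf.mp (Subring.mem_inf.mp (hBW x hx)).1).1
  have hB₂ : ∀ x ∈ B, x ∈ V₂ := fun x hx =>
    (Subring.mem_inf.mp (Subring.mem_inf.mp (hBW x hx)).1).2
  have hB₃ : ∀ x ∈ B, x ∈ nsb86_V3 (K := K) M' q hq hM' hπ := fun x hx =>
    (Subring.mem_inf.mp (hBW x hx)).2
  have hmB : ∃ μ ∈ B, (m : ↥(modularFunctionFieldFullC K (M' * q * q))) * μ = 1 := by
    obtain ⟨w, hw⟩ := hmu
    refine ⟨algebraMap R _ ((w⁻¹ : Rˣ) : R), B.algebraMap_mem _, ?_⟩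
    rw [← map_natCast (algebraMap R ↥(modularFunctionFieldFullC K (M' * q * q))) m, ← map_mul,
      ← hw, Units.mul_inv, map_one]
  exact hp1m55_HP1 (K := K) π (v2g64_s K M' q) (q - 1) q m hm B _ _ _ _
    (cm85_Vinf (K := K) (M' * q * q) hπ) V₂ (nsb86_V3 (K := K) M' q hq hM' hπ) _ _
    hB₁ hB₂ hB₃
    (fun x hx h1 h2 h3 =>
      hsatW x hx (Subring.mem_inf.mpr ⟨Subring.mem_inf.mpr ⟨h1, h2⟩, h3⟩))
    hπ0 hσ0 hσe (by rw [e]; exact hπ₁K) (by rw [e]; exact hπ₂) (by rw [e]; exact hπ₃K)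
    (fun x _ hx' => by rw [e]; exact r1 x hx')
    (fun x _ hx' => by rw [e]; exact r2 x hx')
    (fun x _ hx' => by rw [e]; exact r3 x hx')
    (fun x _ hx0 => by rw [e]; exact a1 x hx0)
    (fun x _ hx0 => by rw [e]; exact a2 x hx0)
    (fun x _ hx0 => by rw [e]; exact a3 x hx0)
    hfrac hmB
    (fun x hx => by rw [e]; exact hp84c_unif _ _ hd1 x hx)
    (fun x hx => by rw [mul_comm x]; exact hp84c_unif _ _ hd2 x hx)
    (fun x hx => by rw [e]; exact hp84c_unif _ _ hd3 x hx)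
    hKr hS₁ hS₃ hS₂ hD₂



/-- **The remaining hypothesis** (row 600): the middle branch is principal at the `j`-REGULAR closed
points of the chart `B` lying on the middle branch only; literally `hreg` of
`mc25_hD2_level2/3(_inv)` (MidCuspFrame25) with `V₁ = cm85_Vinf (M' q q)`, `V₃ = nsb86_V3`,
`s = v2g64_s K M' q`. -/
def hp84f_Reg (V₂ : ValuationSubring ↥(modularFunctionFieldFullC K (M' * q * q)))
    (B : Subalgebra R ↥(modularFunctionFieldFullC K (M' * q * q))) : Prop :=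
  ∀ n : Ideal B, n.IsMaximal → algebraMap R B π ∈ n →
    tl71_OnMid (v2g64_s K M' q) B V₂.toSubring n →
    ¬ sf79_OnBr π B (cm85_Vinf (K := K) (M' * q * q) hπ).toSubring n →
    ¬ sf79_OnBr π B (nsb86_V3 (K := K) M' q hq hM' hπ).toSubring n →
    (∃ s' b : B, s' ∉ n ∧ (s' : ↥(modularFunctionFieldFullC K (M' * q * q))) *
      rm90_j K (M' * q * q) = (b : ↥(modularFunctionFieldFullC K (M' * q * q)))) →
    mc25_MidPrinAt (v2g64_s K M' q) B V₂.toSubring n

include hq hM' in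
/-- **(HP-1) on the canonical frame, Hauptmodul of level 2**, for the chart of `h` and the chart
of `h⁻¹`, from `hp84f_Reg` = the principal middle branch at the `j`-regular closed points lying on
the middle branch only (row 600; the cusps are discharged by `mc25_hD2_level2(_inv)`). -/
theorem hp84f_level2 (hqR : ¬ IsUnit (q : R)) (hMu : IsUnit (M' : R)) (h2 : 2 ∣ M')
    (h2u : IsUnit (2 : R)) (u u' : R) (huu' : u * u' = 1) (hqπ : (q : R) = u * π)
    (m : ℕ) (hm : 0 < m) (hmu : IsUnit (m : R))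
    (V₂ : ValuationSubring ↥(modularFunctionFieldFullC K (M' * q * q)))
    (hV₂ : ∀ c ∈ cm85_Vinf (K := K) (M' * q) hπ, al97L_alpha K (M' * q) q c ∈ V₂)
    (hπ₂ : (algebraMap K ↥(modularFunctionFieldFullC K (M' * q * q)) (algebraMap R K π))⁻¹ ∉ V₂)
    (hs : V₂.valuation (v2g64_s K M' q) ^ (q - 1) =
      V₂.valuation (algebraMap K ↥(modularFunctionFieldFullC K (M' * q * q)) (algebraMap R K π))) :
    (hp84f_Reg (K := K) M' q hq hM' hπ V₂ (pk15_chart R ({(pk85_h2 K (M' * q * q) (h2.trans ((dvd_mul_right M' q).trans (dvd_mul_right (M' * q) q))))} : Set ↥(modularFunctionFieldFullC K (M' * q * q)))) →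
      cp57_HP1 (K := K) π q m (pk15_chart R ({(pk85_h2 K (M' * q * q) (h2.trans ((dvd_mul_right M' q).trans (dvd_mul_right (M' * q) q))))} : Set ↥(modularFunctionFieldFullC K (M' * q * q))))
        (al97L_alpha K (M' * q) q).toRingHom
        (al97L_beta K (M' * q) q).toRingHom (s35i62_normA K (M' * q) q)
        (s35i62_normB K (M' * q) q) (cm85_Vinf (K := K) (M' * q * q) hπ) V₂
        (nsb86_V3 (K := K) M' q hq hM' hπ) (cm85_Vinf (K := K) (M' * q) hπ)
        (s34i47c_V0 (K := K) M' q hq hM' hπ)) ∧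
    (hp84f_Reg (K := K) M' q hq hM' hπ V₂ (pk15_chart R ({(pk85_h2 K (M' * q * q) (h2.trans ((dvd_mul_right M' q).trans (dvd_mul_right (M' * q) q))))⁻¹} : Set ↥(modularFunctionFieldFullC K (M' * q * q)))) →
      cp57_HP1 (K := K) π q m (pk15_chart R ({(pk85_h2 K (M' * q * q) (h2.trans ((dvd_mul_right M' q).trans (dvd_mul_right (M' * q) q))))⁻¹} : Set ↥(modularFunctionFieldFullC K (M' * q * q))))
        (al97L_alpha K (M' * q) q).toRingHom
        (al97L_beta K (M' * q) q).toRingHom (s35i62_normA K (M' * q) q)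
        (s35i62_normB K (M' * q) q) (cm85_Vinf (K := K) (M' * q * q) hπ) V₂
        (nsb86_V3 (K := K) M' q hq hM' hπ) (cm85_Vinf (K := K) (M' * q) hπ)
        (s34i47c_V0 (K := K) M' q hq hM' hπ)) := by
  have hne := hp84c_ne (K := K) M' q hq hπ V₂ hπ₂ hs
  obtain ⟨-, hC, -⟩ := fb85_frameV3_level2 M' q hq hM' hπ hqR hMu h2 V₂ hV₂ hπ₂ hs
  obtain ⟨htr, h12W, hsat1, hsat2, -, hN₁, hN₂, hfin, hfrac⟩ := hC
  have hh0 : (pk85_h2 K (M' * q * q) (h2.trans ((dvd_mul_right M' q).trans (dvd_mul_right (M' * q) q)))) ≠ 0 := by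
    intro h0
    rw [h0] at htr
    exact htr isAlgebraic_zero
  have hfrac₂ := ca57_frac_inv (R := R) _ hh0 hfrac
  obtain ⟨hKr₁, hKr₂⟩ := kr65_Pkg_Krull R K ↥(modularFunctionFieldFullC K (M' * q * q)) π hπ _ htr hN₁ hN₂ hfin hfrac
  have e : algebraMap R ↥(modularFunctionFieldFullC K (M' * q * q)) π = (algebraMap K ↥(modularFunctionFieldFullC K (M' * q * q)) (algebraMap R K π)) :=
    IsScalarTower.algebraMap_apply R K _ π
  have hπ₂' : (algebraMap R ↥(modularFunctionFieldFullC K (M' * q * q)) π)⁻¹ ∉ V₂ := by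
    rw [e]
    exact hπ₂
  have hs' : V₂.valuation (v2g64_s K M' q) ^ (q - 1) =
      V₂.valuation (algebraMap R ↥(modularFunctionFieldFullC K (M' * q * q)) π) := by
    rw [e]
    exact hs
  obtain ⟨⟨a1, a2, a3⟩, ⟨b1, b2, b3⟩⟩ := sm7_three_smooth_sq_level2 (R := R) (K := K) M' q hq hM'
    hπ hqR h2 hMu V₂ hV₂ hπ₂' hne (v2g64_s K M' q) hs'
  have hsub1 : ({(pk85_h2 K (M' * q * q) (h2.trans ((dvd_mul_right M' q).trans (dvd_mul_right (M' * q) q))))} : Set ↥(modularFunctionFieldFullC K (M' * q * q))) ⊆ {(pk85_h2 K (M' * q * q) (h2.trans ((dvd_mul_right M' q).trans (dvd_mul_right (M' * q) q)))), (pk85_h2 K (M' * q * q) (h2.trans ((dvd_mul_right M' q).trans (dvd_mul_right (M' * q) q))))⁻¹} := by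
    intro x hx
    rw [Set.mem_singleton_iff.mp hx]
    exact Set.mem_insert _ _
  have hsub2 : ({(pk85_h2 K (M' * q * q) (h2.trans ((dvd_mul_right M' q).trans (dvd_mul_right (M' * q) q))))⁻¹} : Set ↥(modularFunctionFieldFullC K (M' * q * q))) ⊆ {(pk85_h2 K (M' * q * q) (h2.trans ((dvd_mul_right M' q).trans (dvd_mul_right (M' * q) q)))), (pk85_h2 K (M' * q * q) (h2.trans ((dvd_mul_right M' q).trans (dvd_mul_right (M' * q) q))))⁻¹} := by
    intro x hx
    rw [Set.mem_singleton_iff.mp hx]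
    exact Set.mem_insert_of_mem _ rfl
  have hBW₁ := fun x hx => h12W x (pk15_chart_mono hsub1 hx)
  have hBW₂ := fun x hx => h12W x (pk15_chart_mono hsub2 hx)
  refine ⟨fun hreg => ?_, fun hreg => ?_⟩
  · haveI := hN₁
    refine hp84f_core (K := K) M' q hq hM' hπ hqR m hm hmu V₂ hV₂ hπ₂ hs _ hBW₁ hsat1 hfrac
      hKr₁ a1 a2 a3 ?_
    exact mc25_hD2_level2 (R := R) (K := K) M' q hq hM' hπ hqR h2 h2u u u' huu' hqπ V₂ hV₂
      hπ₂' hne (v2g64_s K M' q) hs' (v2g64_s_coe K M' q) _ _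
      (fun x hx => (Subring.mem_inf.mp (Subring.mem_inf.mp (hBW₁ x hx)).1).1)
      (fun x hx => (Subring.mem_inf.mp (Subring.mem_inf.mp (hBW₁ x hx)).1).2)
      (fun x hx => (Subring.mem_inf.mp (hBW₁ x hx)).2)
      (fun x hx h1 h2 h3 =>
        hsat1 x hx (Subring.mem_inf.mpr ⟨Subring.mem_inf.mpr ⟨h1, h2⟩, h3⟩))
      hreg
  · haveI := hN₂
    refine hp84f_core (K := K) M' q hq hM' hπ hqR m hm hmu V₂ hV₂ hπ₂ hs _ hBW₂ hsat2 hfrac₂
      hKr₂ b1 b2 b3 ?_
    exact mc25_hD2_level2_inv (R := R) (K := K) M' q hq hM' hπ hqR h2 u u' huu' hqπ V₂ hV₂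
      hπ₂' hne (v2g64_s K M' q) hs' (v2g64_s_coe K M' q) _ _
      (fun x hx => (Subring.mem_inf.mp (Subring.mem_inf.mp (hBW₂ x hx)).1).1)
      (fun x hx => (Subring.mem_inf.mp (Subring.mem_inf.mp (hBW₂ x hx)).1).2)
      (fun x hx => (Subring.mem_inf.mp (hBW₂ x hx)).2)
      (fun x hx h1 h2 h3 =>
        hsat2 x hx (Subring.mem_inf.mpr ⟨Subring.mem_inf.mpr ⟨h1, h2⟩, h3⟩))
      hreg

include hq hM' in
/-- **(HP-1) on the canonical frame, Hauptmodul of level 3**, for the chart of `h` and the chart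
of `h⁻¹`, from `hp84f_Reg` = the principal middle branch at the `j`-regular closed points lying on
the middle branch only (row 600; the cusps are discharged by `mc25_hD2_level3(_inv)`). -/
theorem hp84f_level3 (hqR : ¬ IsUnit (q : R)) (hMu : IsUnit (M' : R)) (h3 : 3 ∣ M')
    (h3u : IsUnit (3 : R)) (u u' : R) (huu' : u * u' = 1) (hqπ : (q : R) = u * π)
    (m : ℕ) (hm : 0 < m) (hmu : IsUnit (m : R))
    (V₂ : ValuationSubring ↥(modularFunctionFieldFullC K (M' * q * q)))
    (hV₂ : ∀ c ∈ cm85_Vinf (K := K) (M' * q) hπ, al97L_alpha K (M' * q) q c ∈ V₂)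
    (hπ₂ : (algebraMap K ↥(modularFunctionFieldFullC K (M' * q * q)) (algebraMap R K π))⁻¹ ∉ V₂)
    (hs : V₂.valuation (v2g64_s K M' q) ^ (q - 1) =
      V₂.valuation (algebraMap K ↥(modularFunctionFieldFullC K (M' * q * q)) (algebraMap R K π))) :
    (hp84f_Reg (K := K) M' q hq hM' hπ V₂ (pk15_chart R ({(pk85_h3 K (M' * q * q) (h3.trans ((dvd_mul_right M' q).trans (dvd_mul_right (M' * q) q))))} : Set ↥(modularFunctionFieldFullC K (M' * q * q)))) →
      cp57_HP1 (K := K) π q m (pk15_chart R ({(pk85_h3 K (M' * q * q) (h3.trans ((dvd_mul_right M' q).trans (dvd_mul_right (M' * q) q))))} : Set ↥(modularFunctionFieldFullC K (M' * q * q))))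
        (al97L_alpha K (M' * q) q).toRingHom
        (al97L_beta K (M' * q) q).toRingHom (s35i62_normA K (M' * q) q)
        (s35i62_normB K (M' * q) q) (cm85_Vinf (K := K) (M' * q * q) hπ) V₂
        (nsb86_V3 (K := K) M' q hq hM' hπ) (cm85_Vinf (K := K) (M' * q) hπ)
        (s34i47c_V0 (K := K) M' q hq hM' hπ)) ∧
    (hp84f_Reg (K := K) M' q hq hM' hπ V₂ (pk15_chart R ({(pk85_h3 K (M' * q * q) (h3.trans ((dvd_mul_right M' q).trans (dvd_mul_right (M' * q) q))))⁻¹} : Set ↥(modularFunctionFieldFullC K (M' * q * q)))) →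
      cp57_HP1 (K := K) π q m (pk15_chart R ({(pk85_h3 K (M' * q * q) (h3.trans ((dvd_mul_right M' q).trans (dvd_mul_right (M' * q) q))))⁻¹} : Set ↥(modularFunctionFieldFullC K (M' * q * q))))
        (al97L_alpha K (M' * q) q).toRingHom
        (al97L_beta K (M' * q) q).toRingHom (s35i62_normA K (M' * q) q)
        (s35i62_normB K (M' * q) q) (cm85_Vinf (K := K) (M' * q * q) hπ) V₂
        (nsb86_V3 (K := K) M' q hq hM' hπ) (cm85_Vinf (K := K) (M' * q) hπ)
        (s34i47c_V0 (K := K) M' q hq hM' hπ)) := by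
  have hne := hp84c_ne (K := K) M' q hq hπ V₂ hπ₂ hs
  obtain ⟨-, hC, -⟩ := fb85_frameV3_level3 M' q hq hM' hπ hqR hMu h3 V₂ hV₂ hπ₂ hs
  obtain ⟨htr, h12W, hsat1, hsat2, -, hN₁, hN₂, hfin, hfrac⟩ := hC
  have hh0 : (pk85_h3 K (M' * q * q) (h3.trans ((dvd_mul_right M' q).trans (dvd_mul_right (M' * q) q)))) ≠ 0 := by
    intro h0
    rw [h0] at htr
    exact htr isAlgebraic_zero
  have hfrac₂ := ca57_frac_inv (R := R) _ hh0 hfrac
  obtain ⟨hKr₁, hKr₂⟩ := kr65_Pkg_Krull R K ↥(modularFunctionFieldFullC K (M' * q * q)) π hπ _ htr hN₁ hN₂ hfin hfrac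
  have e : algebraMap R ↥(modularFunctionFieldFullC K (M' * q * q)) π = (algebraMap K ↥(modularFunctionFieldFullC K (M' * q * q)) (algebraMap R K π)) :=
    IsScalarTower.algebraMap_apply R K _ π
  have hπ₂' : (algebraMap R ↥(modularFunctionFieldFullC K (M' * q * q)) π)⁻¹ ∉ V₂ := by
    rw [e]
    exact hπ₂
  have hs' : V₂.valuation (v2g64_s K M' q) ^ (q - 1) =
      V₂.valuation (algebraMap R ↥(modularFunctionFieldFullC K (M' * q * q)) π) := by
    rw [e]
    exact hs
  obtain ⟨⟨a1, a2, a3⟩, ⟨b1, b2, b3⟩⟩ := sm7_three_smooth_sq_level3 (R := R) (K := K) M' q hq hM'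
    hπ hqR h3 hMu V₂ hV₂ hπ₂' hne (v2g64_s K M' q) hs'
  have hsub1 : ({(pk85_h3 K (M' * q * q) (h3.trans ((dvd_mul_right M' q).trans (dvd_mul_right (M' * q) q))))} : Set ↥(modularFunctionFieldFullC K (M' * q * q))) ⊆ {(pk85_h3 K (M' * q * q) (h3.trans ((dvd_mul_right M' q).trans (dvd_mul_right (M' * q) q)))), (pk85_h3 K (M' * q * q) (h3.trans ((dvd_mul_right M' q).trans (dvd_mul_right (M' * q) q))))⁻¹} := by
    intro x hx
    rw [Set.mem_singleton_iff.mp hx]
    exact Set.mem_insert _ _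
  have hsub2 : ({(pk85_h3 K (M' * q * q) (h3.trans ((dvd_mul_right M' q).trans (dvd_mul_right (M' * q) q))))⁻¹} : Set ↥(modularFunctionFieldFullC K (M' * q * q))) ⊆ {(pk85_h3 K (M' * q * q) (h3.trans ((dvd_mul_right M' q).trans (dvd_mul_right (M' * q) q)))), (pk85_h3 K (M' * q * q) (h3.trans ((dvd_mul_right M' q).trans (dvd_mul_right (M' * q) q))))⁻¹} := by
    intro x hx
    rw [Set.mem_singleton_iff.mp hx]
    exact Set.mem_insert_of_mem _ rfl
  have hBW₁ := fun x hx => h12W x (pk15_chart_mono hsub1 hx)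
  have hBW₂ := fun x hx => h12W x (pk15_chart_mono hsub2 hx)
  refine ⟨fun hreg => ?_, fun hreg => ?_⟩
  · haveI := hN₁
    refine hp84f_core (K := K) M' q hq hM' hπ hqR m hm hmu V₂ hV₂ hπ₂ hs _ hBW₁ hsat1 hfrac
      hKr₁ a1 a2 a3 ?_
    exact mc25_hD2_level3 (R := R) (K := K) M' q hq hM' hπ hqR h3 h3u u u' huu' hqπ V₂ hV₂
      hπ₂' hne (v2g64_s K M' q) hs' (v2g64_s_coe K M' q) _ _
      (fun x hx => (Subring.mem_inf.mp (Subring.mem_inf.mp (hBW₁ x hx)).1).1)
      (fun x hx => (Subring.mem_inf.mp (Subring.mem_inf.mp (hBW₁ x hx)).1).2)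
      (fun x hx => (Subring.mem_inf.mp (hBW₁ x hx)).2)
      (fun x hx h1 h2 h3 =>
        hsat1 x hx (Subring.mem_inf.mpr ⟨Subring.mem_inf.mpr ⟨h1, h2⟩, h3⟩))
      hreg
  · haveI := hN₂
    refine hp84f_core (K := K) M' q hq hM' hπ hqR m hm hmu V₂ hV₂ hπ₂ hs _ hBW₂ hsat2 hfrac₂
      hKr₂ b1 b2 b3 ?_
    exact mc25_hD2_level3_inv (R := R) (K := K) M' q hq hM' hπ hqR h3 u u' huu' hqπ V₂ hV₂
      hπ₂' hne (v2g64_s K M' q) hs' (v2g64_s_coe K M' q) _ _
      (fun x hx => (Subring.mem_inf.mp (Subring.mem_inf.mp (hBW₂ x hx)).1).1)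
      (fun x hx => (Subring.mem_inf.mp (Subring.mem_inf.mp (hBW₂ x hx)).1).2)
      (fun x hx => (Subring.mem_inf.mp (hBW₂ x hx)).2)
      (fun x hx h1 h2 h3 =>
        hsat2 x hx (Subring.mem_inf.mpr ⟨Subring.mem_inf.mpr ⟨h1, h2⟩, h3⟩))
      hreg

end HP84F

section Final84F

/-- **(HP-1), canonical, Hauptmodul of level 2** = the body of `s36i62g_HP1c2` (HPSplit62) at one
level: `cp57_HP1` on both charts for `π = (q : R)`, `m = p ^ n`, `V₂ = v2g64_V2`, from `hp84f_Reg`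
(the `j`-regular closed points on the middle branch only, literal `hreg` of
`mc25_hD2_level2(_inv)`) on the two charts. -/
theorem hp84f_final2 (M' q p : ℕ) [NeZero M'] [NeZero q] (hq : q.Prime) (hM' : ¬ q ∣ M')
    (h2 : 2 ∣ M') (hp : p.Prime) (hpq : p ≠ q) (n : ℕ)
    (R K : Type) [CommRing R] [IsDomain R] [IsDiscreteValuationRing R] [Field K]
    [NumberField K] [Algebra K Q̄] [Algebra R K] [IsFractionRing R K]
    [Algebra R ↥(modularFunctionFieldFullC K (M' * q * q))]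
    [IsScalarTower R K ↥(modularFunctionFieldFullC K (M' * q * q))]
    (hπ : Irreducible ((q : ℕ) : R)) (hunit : ∀ k : ℕ, Nat.Coprime k q → IsUnit (k : R))
    (hreg : hp84f_Reg (K := K) M' q hq hM' hπ (v2g64_V2 (algebraMap K Q̄) M' q hq hM' hπ (Associated.refl _)) (pk15_chart R ({(pk85_h2 K (M' * q * q) (h2.trans ((dvd_mul_right M' q).trans (dvd_mul_right (M' * q) q))))} : Set ↥(modularFunctionFieldFullC K (M' * q * q)))))
    (hreg' : hp84f_Reg (K := K) M' q hq hM' hπ (v2g64_V2 (algebraMap K Q̄) M' q hq hM' hπ (Associated.refl _)) (pk15_chart R ({(pk85_h2 K (M' * q * q) (h2.trans ((dvd_mul_right M' q).trans (dvd_mul_right (M' * q) q))))⁻¹} : Set ↥(modularFunctionFieldFullC K (M' * q * q))))) :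
    cp57_HP1 (K := K) ((q : ℕ) : R) q (p ^ n) (pk15_chart R ({(pk85_h2 K (M' * q * q) (h2.trans ((dvd_mul_right M' q).trans (dvd_mul_right (M' * q) q))))} : Set ↥(modularFunctionFieldFullC K (M' * q * q))))
        (al97L_alpha K (M' * q) q).toRingHom
        (al97L_beta K (M' * q) q).toRingHom (s35i62_normA K (M' * q) q)
        (s35i62_normB K (M' * q) q) (cm85_Vinf (K := K) (M' * q * q) hπ) (v2g64_V2 (algebraMap K Q̄) M' q hq hM' hπ (Associated.refl _))
        (nsb86_V3 (K := K) M' q hq hM' hπ) (cm85_Vinf (K := K) (M' * q) hπ)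
        (s34i47c_V0 (K := K) M' q hq hM' hπ) ∧
    cp57_HP1 (K := K) ((q : ℕ) : R) q (p ^ n) (pk15_chart R ({(pk85_h2 K (M' * q * q) (h2.trans ((dvd_mul_right M' q).trans (dvd_mul_right (M' * q) q))))⁻¹} : Set ↥(modularFunctionFieldFullC K (M' * q * q))))
        (al97L_alpha K (M' * q) q).toRingHom
        (al97L_beta K (M' * q) q).toRingHom (s35i62_normA K (M' * q) q)
        (s35i62_normB K (M' * q) q) (cm85_Vinf (K := K) (M' * q * q) hπ) (v2g64_V2 (algebraMap K Q̄) M' q hq hM' hπ (Associated.refl _))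
        (nsb86_V3 (K := K) M' q hq hM' hπ) (cm85_Vinf (K := K) (M' * q) hπ)
        (s34i47c_V0 (K := K) M' q hq hM' hπ) := by
  haveI : Algebra.IsAlgebraic K Q̄ := cx_isAlgebraic_closure K
  letI a1 : Algebra R ↥(modularFunctionFieldFullC K M') :=
    ((algebraMap K ↥(modularFunctionFieldFullC K M')).comp (algebraMap R K)).toAlgebra
  haveI : IsScalarTower R K ↥(modularFunctionFieldFullC K M') :=
    IsScalarTower.of_algebraMap_eq (fun _ => rfl)
  letI a2 : Algebra R ↥(modularFunctionFieldFullC K (M' * q)) :=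
    ((algebraMap K ↥(modularFunctionFieldFullC K (M' * q))).comp (algebraMap R K)).toAlgebra
  haveI : IsScalarTower R K ↥(modularFunctionFieldFullC K (M' * q)) :=
    IsScalarTower.of_algebraMap_eq (fun _ => rfl)
  have hqR : ¬ IsUnit ((q : ℕ) : R) := hπ.not_isUnit
  have hMu : IsUnit (M' : R) :=
    hunit M' (Nat.coprime_comm.mp ((Nat.Prime.coprime_iff_not_dvd hq).mpr hM'))
  have hmu : IsUnit ((p ^ n : ℕ) : R) :=
    hunit _ (Nat.Coprime.pow_left n ((Nat.coprime_primes hp hq).mpr hpq))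
  have hk : Nat.Coprime 2 q := by
    rw [Nat.coprime_comm, Nat.Prime.coprime_iff_not_dvd hq]
    intro hd
    exact hM' (hd.trans h2)
  have hku : IsUnit (2 : R) := by
    have h := hunit 2 hk
    simpa using h
  obtain ⟨h1, h1'⟩ := hp84f_level2 (K := K) M' q hq hM' hπ hqR hMu h2 hku 1 1 (one_mul 1)
    (one_mul _).symm (p ^ n) (pow_pos hp.pos n) hmu (v2g64_V2 (algebraMap K Q̄) M' q hq hM' hπ (Associated.refl _))
    (v2g64_V2_alpha (algebraMap K Q̄) M' q hq hM' hπ (Associated.refl _))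
    (v2g64_V2_pi (algebraMap K Q̄) M' q hq hM' hπ (Associated.refl _))
    (v2g64_V2_val (algebraMap K Q̄) M' q hq hM' hπ (Associated.refl _))
  exact ⟨h1 hreg, h1' hreg'⟩

/-- **(HP-1), canonical, Hauptmodul of level 3** = the body of `s36i62g_HP1c3` (HPSplit62) at one
level: `cp57_HP1` on both charts for `π = (q : R)`, `m = p ^ n`, `V₂ = v2g64_V2`, from `hp84f_Reg`
(the `j`-regular closed points on the middle branch only, literal `hreg` of
`mc25_hD2_level3(_inv)`) on the two charts. -/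
theorem hp84f_final3 (M' q p : ℕ) [NeZero M'] [NeZero q] (hq : q.Prime) (hM' : ¬ q ∣ M')
    (h3 : 3 ∣ M') (hp : p.Prime) (hpq : p ≠ q) (n : ℕ)
    (R K : Type) [CommRing R] [IsDomain R] [IsDiscreteValuationRing R] [Field K]
    [NumberField K] [Algebra K Q̄] [Algebra R K] [IsFractionRing R K]
    [Algebra R ↥(modularFunctionFieldFullC K (M' * q * q))]
    [IsScalarTower R K ↥(modularFunctionFieldFullC K (M' * q * q))]
    (hπ : Irreducible ((q : ℕ) : R)) (hunit : ∀ k : ℕ, Nat.Coprime k q → IsUnit (k : R))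
    (hreg : hp84f_Reg (K := K) M' q hq hM' hπ (v2g64_V2 (algebraMap K Q̄) M' q hq hM' hπ (Associated.refl _)) (pk15_chart R ({(pk85_h3 K (M' * q * q) (h3.trans ((dvd_mul_right M' q).trans (dvd_mul_right (M' * q) q))))} : Set ↥(modularFunctionFieldFullC K (M' * q * q)))))
    (hreg' : hp84f_Reg (K := K) M' q hq hM' hπ (v2g64_V2 (algebraMap K Q̄) M' q hq hM' hπ (Associated.refl _)) (pk15_chart R ({(pk85_h3 K (M' * q * q) (h3.trans ((dvd_mul_right M' q).trans (dvd_mul_right (M' * q) q))))⁻¹} : Set ↥(modularFunctionFieldFullC K (M' * q * q))))) :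
    cp57_HP1 (K := K) ((q : ℕ) : R) q (p ^ n) (pk15_chart R ({(pk85_h3 K (M' * q * q) (h3.trans ((dvd_mul_right M' q).trans (dvd_mul_right (M' * q) q))))} : Set ↥(modularFunctionFieldFullC K (M' * q * q))))
        (al97L_alpha K (M' * q) q).toRingHom
        (al97L_beta K (M' * q) q).toRingHom (s35i62_normA K (M' * q) q)
        (s35i62_normB K (M' * q) q) (cm85_Vinf (K := K) (M' * q * q) hπ) (v2g64_V2 (algebraMap K Q̄) M' q hq hM' hπ (Associated.refl _))
        (nsb86_V3 (K := K) M' q hq hM' hπ) (cm85_Vinf (K := K) (M' * q) hπ)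
        (s34i47c_V0 (K := K) M' q hq hM' hπ) ∧
    cp57_HP1 (K := K) ((q : ℕ) : R) q (p ^ n) (pk15_chart R ({(pk85_h3 K (M' * q * q) (h3.trans ((dvd_mul_right M' q).trans (dvd_mul_right (M' * q) q))))⁻¹} : Set ↥(modularFunctionFieldFullC K (M' * q * q))))
        (al97L_alpha K (M' * q) q).toRingHom
        (al97L_beta K (M' * q) q).toRingHom (s35i62_normA K (M' * q) q)
        (s35i62_normB K (M' * q) q) (cm85_Vinf (K := K) (M' * q * q) hπ) (v2g64_V2 (algebraMap K Q̄) M' q hq hM' hπ (Associated.refl _))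
        (nsb86_V3 (K := K) M' q hq hM' hπ) (cm85_Vinf (K := K) (M' * q) hπ)
        (s34i47c_V0 (K := K) M' q hq hM' hπ) := by
  haveI : Algebra.IsAlgebraic K Q̄ := cx_isAlgebraic_closure K
  letI a1 : Algebra R ↥(modularFunctionFieldFullC K M') :=
    ((algebraMap K ↥(modularFunctionFieldFullC K M')).comp (algebraMap R K)).toAlgebra
  haveI : IsScalarTower R K ↥(modularFunctionFieldFullC K M') :=
    IsScalarTower.of_algebraMap_eq (fun _ => rfl)
  letI a2 : Algebra R ↥(modularFunctionFieldFullC K (M' * q)) :=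
    ((algebraMap K ↥(modularFunctionFieldFullC K (M' * q))).comp (algebraMap R K)).toAlgebra
  haveI : IsScalarTower R K ↥(modularFunctionFieldFullC K (M' * q)) :=
    IsScalarTower.of_algebraMap_eq (fun _ => rfl)
  have hqR : ¬ IsUnit ((q : ℕ) : R) := hπ.not_isUnit
  have hMu : IsUnit (M' : R) :=
    hunit M' (Nat.coprime_comm.mp ((Nat.Prime.coprime_iff_not_dvd hq).mpr hM'))
  have hmu : IsUnit ((p ^ n : ℕ) : R) :=
    hunit _ (Nat.Coprime.pow_left n ((Nat.coprime_primes hp hq).mpr hpq))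
  have hk : Nat.Coprime 3 q := by
    rw [Nat.coprime_comm, Nat.Prime.coprime_iff_not_dvd hq]
    intro hd
    exact hM' (hd.trans h3)
  have hku : IsUnit (3 : R) := by
    have h := hunit 3 hk
    simpa using h
  obtain ⟨h1, h1'⟩ := hp84f_level3 (K := K) M' q hq hM' hπ hqR hMu h3 hku 1 1 (one_mul 1)
    (one_mul _).symm (p ^ n) (pow_pos hp.pos n) hmu (v2g64_V2 (algebraMap K Q̄) M' q hq hM' hπ (Associated.refl _))
    (v2g64_V2_alpha (algebraMap K Q̄) M' q hq hM' hπ (Associated.refl _))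
    (v2g64_V2_pi (algebraMap K Q̄) M' q hq hM' hπ (Associated.refl _))
    (v2g64_V2_val (algebraMap K Q̄) M' q hq hM' hπ (Associated.refl _))
  exact ⟨h1 hreg, h1' hreg'⟩

end Final84F

end Fermat.Agent.S36
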