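import Fermat.Agent.S36.HPOneCanon93
import Fermat.Agent.S36.MidCuspFrame25
import Fermat.Agent.S36.FrameBind85
import Fermat.Agent.S36.V2Final64
import Fermat.Agent.S36.HPSplit62

/-!
# S36 lab, row 605 (HP-1): the FINAL BINDER to `s36i62g_HP1c2` / `s36i62g_HP1c3` (helper93)

`s36i62g_HP1c2`, `s36i62g_HP1c3` (HPSplit62, helper62) = `cp57_HP1` on both charts of the
canonical frame at `V₂ = v2g64_V2`.  They follow from ONE pointwise input per chart, the output
of row 600:

`hp1f93_C2Reg … V₂ B` := at every closed point `n` of the chart `B` lying on the middle branch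
alone at which `j` is regular (`∃ s' b : B, s' ∉ n ∧ s' * rm90_j K (M'*q*q) = b`), the middle
branch prime is locally principal (`mc25_MidPrinAt`) — LITERALLY the hypothesis `hreg` of
`mc25_hD2_level2/3(_inv)` (helper25) with `V₁ = cm85_Vinf`, `V₃ = nsb86_V3`, `s = v2g64_s`.

* `hp1f93_level2`, `hp1f93_level3` : `V₂` a parameter with the four facts; `π` any irreducible
  with `(q : R) = u * π`: `(hp1f93_C2Reg (chart h) → cp57_HP1 (chart h)) ∧ (same for h⁻¹)`.
  Chain: `hp1c93_level2/3` (HPOneCanon93) ∘ `mc25_hD2_level2/3(_inv)` (the cusps of the middle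
  component).
* `hp1f93_Row600c2`, `hp1f93_Row600c3` : the closed statements of row 600 on the canonical frame
  (binder block of `s36i62g_HP1c2` / `s36i62g_HP1c3`).
* `hp1f93_HP1c2 : hp1f93_Row600c2 → s36i62g_HP1c2`, `hp1f93_HP1c3 : hp1f93_Row600c3 →
  s36i62g_HP1c3`.

All names are prefixed `hp1f93_`.
-/

set_option autoImplicit false
set_option linter.style.longLine false
set_option linter.unusedVariables false
set_option linter.unusedSectionVars false
set_option linter.style.haveILetI false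

open ModularCurve

namespace Fermat.Agent.S36

open Fermat.Agent.S34 Fermat.Agent.S18 Fermat.Agent.S24 Fermat.Agent.S35
  Fermat.Agent.S36.TripleLoc71

local notation "Q̄" => AlgebraicClosure ℚ

section HP1F93

variable {R K : Type} [CommRing R] [IsDomain R] [IsDiscreteValuationRing R] [Field K]
  [NumberField K] [Algebra R K] [IsFractionRing R K] [Algebra K Q̄]
  (M' q : ℕ) [NeZero M'] [NeZero q] (hq : q.Prime) (hM' : ¬ q ∣ M')
  {π : R} (hπ : Irreducible π)
  [Algebra R ↥(modularFunctionFieldFullC K (M' * q * q))]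
  [IsScalarTower R K ↥(modularFunctionFieldFullC K (M' * q * q))]

/-- The output of row 600 on the chart `B`: at the closed points on the middle branch alone at
which `j` is regular, the middle branch prime is locally principal. -/
def hp1f93_C2Reg (V₂ : ValuationSubring ↥(modularFunctionFieldFullC K (M' * q * q)))
    (B : Subalgebra R ↥(modularFunctionFieldFullC K (M' * q * q))) : Prop :=
  ∀ n : Ideal B, n.IsMaximal → algebraMap R B π ∈ n →
    tl71_OnMid (v2g64_s K M' q) B V₂.toSubring n →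
    ¬ sf79_OnBr π B (cm85_Vinf (K := K) (M' * q * q) hπ).toSubring n →
    ¬ sf79_OnBr π B (nsb86_V3 (K := K) M' q hq hM' hπ).toSubring n →
    (∃ s' b : B, s' ∉ n ∧
      (s' : ↥(modularFunctionFieldFullC K (M' * q * q))) * rm90_j K (M' * q * q) =
        (b : ↥(modularFunctionFieldFullC K (M' * q * q)))) →
    mc25_MidPrinAt (v2g64_s K M' q) B V₂.toSubring n

include hq hM' in
/-- **(HP-1) on the canonical frame from row 600, Hauptmodul of level 2** (`V₂` a parameter with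
the four facts): `cp57_HP1` on the chart of `h` and on the chart of `h⁻¹`, each from
`hp1f93_C2Reg` on that chart; the cusps of the middle component are `mc25_hD2_level2` / `_inv`. -/
theorem hp1f93_level2 {F1 : Type*} [Field F1] [Algebra K F1]
    (hunit : ∀ n : ℕ, Nat.Coprime n q → IsUnit (n : R))
    (hqR : ¬ IsUnit (q : R)) (hMu : IsUnit (M' : R)) (h2 : 2 ∣ M')
    (u u' : R) (huu' : u * u' = 1) (hqπ : (q : R) = u * π)
    (V₂ : ValuationSubring ↥(modularFunctionFieldFullC K (M' * q * q)))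
    (hV₂ : ∀ c ∈ cm85_Vinf (K := K) (M' * q) hπ, al97L_alpha K (M' * q) q c ∈ V₂)
    (hπ₂ : (algebraMap K ↥(modularFunctionFieldFullC K (M' * q * q)) (algebraMap R K π))⁻¹ ∉ V₂)
    (hne : cm85_Vinf (K := K) (M' * q * q) hπ ≠ V₂)
    (hs : V₂.valuation (v2g64_s K M' q) ^ (q - 1) =
      V₂.valuation (algebraMap K ↥(modularFunctionFieldFullC K (M' * q * q)) (algebraMap R K π)))
    (m : ℕ) (hm0 : 0 < m) (hmu : IsUnit (m : R))
    (al be : F1 →+* ↥(modularFunctionFieldFullC K (M' * q * q)))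
    (Nal Nbe : ↥(modularFunctionFieldFullC K (M' * q * q)) →* F1)
    (Vinf V0 : ValuationSubring F1) :
    (hp1f93_C2Reg (K := K) M' q hq hM' hπ V₂ (pk15_chart R ({pk85_h2 K (M' * q * q) (h2.trans ((dvd_mul_right M' q).trans (dvd_mul_right (M' * q) q)))} : Set ↥(modularFunctionFieldFullC K (M' * q * q)))) →
      cp57_HP1 (K := K) π q m (pk15_chart R ({pk85_h2 K (M' * q * q) (h2.trans ((dvd_mul_right M' q).trans (dvd_mul_right (M' * q) q)))} : Set ↥(modularFunctionFieldFullC K (M' * q * q))))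
        al be Nal Nbe (cm85_Vinf (K := K) (M' * q * q) hπ) V₂
        (nsb86_V3 (K := K) M' q hq hM' hπ) Vinf V0) ∧
    (hp1f93_C2Reg (K := K) M' q hq hM' hπ V₂ (pk15_chart R ({(pk85_h2 K (M' * q * q) (h2.trans ((dvd_mul_right M' q).trans (dvd_mul_right (M' * q) q))))⁻¹} : Set ↥(modularFunctionFieldFullC K (M' * q * q)))) →
      cp57_HP1 (K := K) π q m (pk15_chart R ({(pk85_h2 K (M' * q * q) (h2.trans ((dvd_mul_right M' q).trans (dvd_mul_right (M' * q) q))))⁻¹} : Set ↥(modularFunctionFieldFullC K (M' * q * q))))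
        al be Nal Nbe (cm85_Vinf (K := K) (M' * q * q) hπ) V₂
        (nsb86_V3 (K := K) M' q hq hM' hπ) Vinf V0) := by
  haveI : Algebra.IsAlgebraic K Q̄ := fs85_isAlgebraic K
  letI ia1 : Algebra R ↥(modularFunctionFieldFullC K M') :=
    ((algebraMap K ↥(modularFunctionFieldFullC K M')).comp (algebraMap R K)).toAlgebra
  haveI t1 : IsScalarTower R K ↥(modularFunctionFieldFullC K M') :=
    IsScalarTower.of_algebraMap_eq (fun _ => rfl)
  letI ia2 : Algebra R ↥(modularFunctionFieldFullC K (M' * q)) :=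
    ((algebraMap K ↥(modularFunctionFieldFullC K (M' * q))).comp (algebraMap R K)).toAlgebra
  haveI t2 : IsScalarTower R K ↥(modularFunctionFieldFullC K (M' * q)) :=
    IsScalarTower.of_algebraMap_eq (fun _ => rfl)
  have hqp : q ≠ 2 := by
    intro h
    apply hM'
    rw [h]
    exact h2
  have hpu : IsUnit ((2 : ℕ) : R) :=
    hunit 2 ((Nat.coprime_primes Nat.prime_two hq).mpr (Ne.symm hqp))
  have hpu' : IsUnit (2 : R) := by
    simpa using hpu
  obtain ⟨-, hC, -⟩ := fb85_frameV3_level2 M' q hq hM' hπ hqR hMu h2 V₂ hV₂ hπ₂ hs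
  obtain ⟨-, h12W, hsat1, hsat2, -⟩ := hC
  have e : algebraMap R ↥(modularFunctionFieldFullC K (M' * q * q)) π =
      (algebraMap K ↥(modularFunctionFieldFullC K (M' * q * q)) (algebraMap R K π)) :=
    IsScalarTower.algebraMap_apply R K _ π
  have hπ₂' : (algebraMap R ↥(modularFunctionFieldFullC K (M' * q * q)) π)⁻¹ ∉ V₂ := by
    rw [e]
    exact hπ₂
  have hs' : V₂.valuation (v2g64_s K M' q) ^ (q - 1) =
      V₂.valuation (algebraMap R ↥(modularFunctionFieldFullC K (M' * q * q)) π) := by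
    rw [e]
    exact hs
  have hsub1 : ({pk85_h2 K (M' * q * q) (h2.trans ((dvd_mul_right M' q).trans (dvd_mul_right (M' * q) q)))} : Set ↥(modularFunctionFieldFullC K (M' * q * q))) ⊆
      {pk85_h2 K (M' * q * q) (h2.trans ((dvd_mul_right M' q).trans (dvd_mul_right (M' * q) q))), (pk85_h2 K (M' * q * q) (h2.trans ((dvd_mul_right M' q).trans (dvd_mul_right (M' * q) q))))⁻¹} := by
    intro x hx
    rw [Set.mem_singleton_iff.mp hx]
    exact Set.mem_insert _ _
  have hsub2 : ({(pk85_h2 K (M' * q * q) (h2.trans ((dvd_mul_right M' q).trans (dvd_mul_right (M' * q) q))))⁻¹} : Set ↥(modularFunctionFieldFullC K (M' * q * q))) ⊆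
      {pk85_h2 K (M' * q * q) (h2.trans ((dvd_mul_right M' q).trans (dvd_mul_right (M' * q) q))), (pk85_h2 K (M' * q * q) (h2.trans ((dvd_mul_right M' q).trans (dvd_mul_right (M' * q) q))))⁻¹} := by
    intro x hx
    rw [Set.mem_singleton_iff.mp hx]
    exact Set.mem_insert_of_mem _ rfl
  have hBW1 : ∀ x ∈ (pk15_chart R ({pk85_h2 K (M' * q * q) (h2.trans ((dvd_mul_right M' q).trans (dvd_mul_right (M' * q) q)))} : Set ↥(modularFunctionFieldFullC K (M' * q * q)))), x ∈ (cm85_Vinf (K := K) (M' * q * q) hπ).toSubring ⊓ V₂.toSubring ⊓ (nsb86_V3 (K := K) M' q hq hM' hπ).toSubring :=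
    fun x hx => h12W x (pk15_chart_mono hsub1 hx)
  have hBW2 : ∀ x ∈ (pk15_chart R ({(pk85_h2 K (M' * q * q) (h2.trans ((dvd_mul_right M' q).trans (dvd_mul_right (M' * q) q))))⁻¹} : Set ↥(modularFunctionFieldFullC K (M' * q * q)))), x ∈ (cm85_Vinf (K := K) (M' * q * q) hπ).toSubring ⊓ V₂.toSubring ⊓ (nsb86_V3 (K := K) M' q hq hM' hπ).toSubring :=
    fun x hx => h12W x (pk15_chart_mono hsub2 hx)
  obtain ⟨H1, H2⟩ := hp1c93_level2 (K := K) M' q hq hM' hπ hqR hMu h2 V₂ hV₂ hπ₂ hne hs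
    m hm0 hmu al be Nal Nbe Vinf V0
  refine ⟨fun hreg => H1 ?_, fun hreg => H2 ?_⟩
  · exact mc25_hD2_level2 (R := R) (K := K) M' q hq hM' hπ hqR h2 hpu' u u' huu' hqπ V₂ hV₂
      hπ₂' hne (v2g64_s K M' q) hs' rfl (cm85_Vinf (K := K) (M' * q * q) hπ).toSubring (nsb86_V3 (K := K) M' q hq hM' hπ).toSubring
      (fun x hx => (Subring.mem_inf.mp (Subring.mem_inf.mp (hBW1 x hx)).1).1)
      (fun x hx => (Subring.mem_inf.mp (Subring.mem_inf.mp (hBW1 x hx)).1).2)
      (fun x hx => (Subring.mem_inf.mp (hBW1 x hx)).2)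
      (fun x hx h1 h2 h3 => hsat1 x hx (Subring.mem_inf.mpr ⟨Subring.mem_inf.mpr ⟨h1, h2⟩, h3⟩))
      hreg
  · exact mc25_hD2_level2_inv (R := R) (K := K) M' q hq hM' hπ hqR h2 u u' huu' hqπ V₂ hV₂
      hπ₂' hne (v2g64_s K M' q) hs' rfl (cm85_Vinf (K := K) (M' * q * q) hπ).toSubring (nsb86_V3 (K := K) M' q hq hM' hπ).toSubring
      (fun x hx => (Subring.mem_inf.mp (Subring.mem_inf.mp (hBW2 x hx)).1).1)
      (fun x hx => (Subring.mem_inf.mp (Subring.mem_inf.mp (hBW2 x hx)).1).2)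
      (fun x hx => (Subring.mem_inf.mp (hBW2 x hx)).2)
      (fun x hx h1 h2 h3 => hsat2 x hx (Subring.mem_inf.mpr ⟨Subring.mem_inf.mpr ⟨h1, h2⟩, h3⟩))
      hreg

include hq hM' in
/-- **(HP-1) on the canonical frame from row 600, Hauptmodul of level 3** (`V₂` a parameter with
the four facts): `cp57_HP1` on the chart of `h` and on the chart of `h⁻¹`, each from
`hp1f93_C2Reg` on that chart; the cusps of the middle component are `mc25_hD2_level3` / `_inv`. -/
theorem hp1f93_level3 {F1 : Type*} [Field F1] [Algebra K F1]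
    (hunit : ∀ n : ℕ, Nat.Coprime n q → IsUnit (n : R))
    (hqR : ¬ IsUnit (q : R)) (hMu : IsUnit (M' : R)) (h3 : 3 ∣ M')
    (u u' : R) (huu' : u * u' = 1) (hqπ : (q : R) = u * π)
    (V₂ : ValuationSubring ↥(modularFunctionFieldFullC K (M' * q * q)))
    (hV₂ : ∀ c ∈ cm85_Vinf (K := K) (M' * q) hπ, al97L_alpha K (M' * q) q c ∈ V₂)
    (hπ₂ : (algebraMap K ↥(modularFunctionFieldFullC K (M' * q * q)) (algebraMap R K π))⁻¹ ∉ V₂)
    (hne : cm85_Vinf (K := K) (M' * q * q) hπ ≠ V₂)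
    (hs : V₂.valuation (v2g64_s K M' q) ^ (q - 1) =
      V₂.valuation (algebraMap K ↥(modularFunctionFieldFullC K (M' * q * q)) (algebraMap R K π)))
    (m : ℕ) (hm0 : 0 < m) (hmu : IsUnit (m : R))
    (al be : F1 →+* ↥(modularFunctionFieldFullC K (M' * q * q)))
    (Nal Nbe : ↥(modularFunctionFieldFullC K (M' * q * q)) →* F1)
    (Vinf V0 : ValuationSubring F1) :
    (hp1f93_C2Reg (K := K) M' q hq hM' hπ V₂ (pk15_chart R ({pk85_h3 K (M' * q * q) (h3.trans ((dvd_mul_right M' q).trans (dvd_mul_right (M' * q) q)))} : Set ↥(modularFunctionFieldFullC K (M' * q * q)))) →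
      cp57_HP1 (K := K) π q m (pk15_chart R ({pk85_h3 K (M' * q * q) (h3.trans ((dvd_mul_right M' q).trans (dvd_mul_right (M' * q) q)))} : Set ↥(modularFunctionFieldFullC K (M' * q * q))))
        al be Nal Nbe (cm85_Vinf (K := K) (M' * q * q) hπ) V₂
        (nsb86_V3 (K := K) M' q hq hM' hπ) Vinf V0) ∧
    (hp1f93_C2Reg (K := K) M' q hq hM' hπ V₂ (pk15_chart R ({(pk85_h3 K (M' * q * q) (h3.trans ((dvd_mul_right M' q).trans (dvd_mul_right (M' * q) q))))⁻¹} : Set ↥(modularFunctionFieldFullC K (M' * q * q)))) →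
      cp57_HP1 (K := K) π q m (pk15_chart R ({(pk85_h3 K (M' * q * q) (h3.trans ((dvd_mul_right M' q).trans (dvd_mul_right (M' * q) q))))⁻¹} : Set ↥(modularFunctionFieldFullC K (M' * q * q))))
        al be Nal Nbe (cm85_Vinf (K := K) (M' * q * q) hπ) V₂
        (nsb86_V3 (K := K) M' q hq hM' hπ) Vinf V0) := by
  haveI : Algebra.IsAlgebraic K Q̄ := fs85_isAlgebraic K
  letI ia1 : Algebra R ↥(modularFunctionFieldFullC K M') :=
    ((algebraMap K ↥(modularFunctionFieldFullC K M')).comp (algebraMap R K)).toAlgebra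
  haveI t1 : IsScalarTower R K ↥(modularFunctionFieldFullC K M') :=
    IsScalarTower.of_algebraMap_eq (fun _ => rfl)
  letI ia2 : Algebra R ↥(modularFunctionFieldFullC K (M' * q)) :=
    ((algebraMap K ↥(modularFunctionFieldFullC K (M' * q))).comp (algebraMap R K)).toAlgebra
  haveI t2 : IsScalarTower R K ↥(modularFunctionFieldFullC K (M' * q)) :=
    IsScalarTower.of_algebraMap_eq (fun _ => rfl)
  have hqp : q ≠ 3 := by
    intro h
    apply hM'
    rw [h]
    exact h3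
  have hpu : IsUnit ((3 : ℕ) : R) :=
    hunit 3 ((Nat.coprime_primes Nat.prime_three hq).mpr (Ne.symm hqp))
  have hpu' : IsUnit (3 : R) := by
    simpa using hpu
  obtain ⟨-, hC, -⟩ := fb85_frameV3_level3 M' q hq hM' hπ hqR hMu h3 V₂ hV₂ hπ₂ hs
  obtain ⟨-, h12W, hsat1, hsat2, -⟩ := hC
  have e : algebraMap R ↥(modularFunctionFieldFullC K (M' * q * q)) π =
      (algebraMap K ↥(modularFunctionFieldFullC K (M' * q * q)) (algebraMap R K π)) :=
    IsScalarTower.algebraMap_apply R K _ π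
  have hπ₂' : (algebraMap R ↥(modularFunctionFieldFullC K (M' * q * q)) π)⁻¹ ∉ V₂ := by
    rw [e]
    exact hπ₂
  have hs' : V₂.valuation (v2g64_s K M' q) ^ (q - 1) =
      V₂.valuation (algebraMap R ↥(modularFunctionFieldFullC K (M' * q * q)) π) := by
    rw [e]
    exact hs
  have hsub1 : ({pk85_h3 K (M' * q * q) (h3.trans ((dvd_mul_right M' q).trans (dvd_mul_right (M' * q) q)))} : Set ↥(modularFunctionFieldFullC K (M' * q * q))) ⊆
      {pk85_h3 K (M' * q * q) (h3.trans ((dvd_mul_right M' q).trans (dvd_mul_right (M' * q) q))), (pk85_h3 K (M' * q * q) (h3.trans ((dvd_mul_right M' q).trans (dvd_mul_right (M' * q) q))))⁻¹} := by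
    intro x hx
    rw [Set.mem_singleton_iff.mp hx]
    exact Set.mem_insert _ _
  have hsub2 : ({(pk85_h3 K (M' * q * q) (h3.trans ((dvd_mul_right M' q).trans (dvd_mul_right (M' * q) q))))⁻¹} : Set ↥(modularFunctionFieldFullC K (M' * q * q))) ⊆
      {pk85_h3 K (M' * q * q) (h3.trans ((dvd_mul_right M' q).trans (dvd_mul_right (M' * q) q))), (pk85_h3 K (M' * q * q) (h3.trans ((dvd_mul_right M' q).trans (dvd_mul_right (M' * q) q))))⁻¹} := by
    intro x hx
    rw [Set.mem_singleton_iff.mp hx]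
    exact Set.mem_insert_of_mem _ rfl
  have hBW1 : ∀ x ∈ (pk15_chart R ({pk85_h3 K (M' * q * q) (h3.trans ((dvd_mul_right M' q).trans (dvd_mul_right (M' * q) q)))} : Set ↥(modularFunctionFieldFullC K (M' * q * q)))), x ∈ (cm85_Vinf (K := K) (M' * q * q) hπ).toSubring ⊓ V₂.toSubring ⊓ (nsb86_V3 (K := K) M' q hq hM' hπ).toSubring :=
    fun x hx => h12W x (pk15_chart_mono hsub1 hx)
  have hBW2 : ∀ x ∈ (pk15_chart R ({(pk85_h3 K (M' * q * q) (h3.trans ((dvd_mul_right M' q).trans (dvd_mul_right (M' * q) q))))⁻¹} : Set ↥(modularFunctionFieldFullC K (M' * q * q)))), x ∈ (cm85_Vinf (K := K) (M' * q * q) hπ).toSubring ⊓ V₂.toSubring ⊓ (nsb86_V3 (K := K) M' q hq hM' hπ).toSubring :=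
    fun x hx => h12W x (pk15_chart_mono hsub2 hx)
  obtain ⟨H1, H2⟩ := hp1c93_level3 (K := K) M' q hq hM' hπ hqR hMu h3 V₂ hV₂ hπ₂ hne hs
    m hm0 hmu al be Nal Nbe Vinf V0
  refine ⟨fun hreg => H1 ?_, fun hreg => H2 ?_⟩
  · exact mc25_hD2_level3 (R := R) (K := K) M' q hq hM' hπ hqR h3 hpu' u u' huu' hqπ V₂ hV₂
      hπ₂' hne (v2g64_s K M' q) hs' rfl (cm85_Vinf (K := K) (M' * q * q) hπ).toSubring (nsb86_V3 (K := K) M' q hq hM' hπ).toSubring
      (fun x hx => (Subring.mem_inf.mp (Subring.mem_inf.mp (hBW1 x hx)).1).1)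
      (fun x hx => (Subring.mem_inf.mp (Subring.mem_inf.mp (hBW1 x hx)).1).2)
      (fun x hx => (Subring.mem_inf.mp (hBW1 x hx)).2)
      (fun x hx h1 h2 h3 => hsat1 x hx (Subring.mem_inf.mpr ⟨Subring.mem_inf.mpr ⟨h1, h2⟩, h3⟩))
      hreg
  · exact mc25_hD2_level3_inv (R := R) (K := K) M' q hq hM' hπ hqR h3 u u' huu' hqπ V₂ hV₂
      hπ₂' hne (v2g64_s K M' q) hs' rfl (cm85_Vinf (K := K) (M' * q * q) hπ).toSubring (nsb86_V3 (K := K) M' q hq hM' hπ).toSubring
      (fun x hx => (Subring.mem_inf.mp (Subring.mem_inf.mp (hBW2 x hx)).1).1)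
      (fun x hx => (Subring.mem_inf.mp (Subring.mem_inf.mp (hBW2 x hx)).1).2)
      (fun x hx => (Subring.mem_inf.mp (hBW2 x hx)).2)
      (fun x hx h1 h2 h3 => hsat2 x hx (Subring.mem_inf.mpr ⟨Subring.mem_inf.mpr ⟨h1, h2⟩, h3⟩))
      hreg

end HP1F93

/-- **Row 600 on the canonical frame, Hauptmodul of level 2** (closed statement, binder block of
`s36i62g_HP1c2`): `hp1f93_C2Reg` on both charts at `V₂ = v2g64_V2`. -/
def hp1f93_Row600c2 : Prop :=
  ∀ (M' q p r : ℕ) [NeZero M'] [NeZero q] (hq : q.Prime) (hM' : ¬ q ∣ M'),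
    s36c67_Rigid6 (M' * q) q r → p.Prime → p ≠ q → ∀ (h2 : 2 ∣ M'),
    ∀ (R K : Type) [CommRing R] [IsDomain R] [IsDiscreteValuationRing R] [Field K]
      [NumberField K] [Algebra K Q̄] [Algebra R K] [IsFractionRing R K]
      [Algebra R ↥(modularFunctionFieldFullC K (M' * q * q))]
      [IsScalarTower R K ↥(modularFunctionFieldFullC K (M' * q * q))]
      (hπ : Irreducible ((q : ℕ) : R)), (∀ k : ℕ, Nat.Coprime k q → IsUnit (k : R)) →
      hp1f93_C2Reg (K := K) M' q hq hM' hπ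
        (v2g64_V2 (algebraMap K Q̄) M' q hq hM' hπ (Associated.refl _))
        (pk15_chart R ({pk85_h2 K (M' * q * q) (h2.trans ((dvd_mul_right M' q).trans (dvd_mul_right (M' * q) q)))} : Set ↥(modularFunctionFieldFullC K (M' * q * q)))) ∧
      hp1f93_C2Reg (K := K) M' q hq hM' hπ
        (v2g64_V2 (algebraMap K Q̄) M' q hq hM' hπ (Associated.refl _))
        (pk15_chart R ({(pk85_h2 K (M' * q * q) (h2.trans ((dvd_mul_right M' q).trans (dvd_mul_right (M' * q) q))))⁻¹} : Set ↥(modularFunctionFieldFullC K (M' * q * q))))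

/-- **`s36i62g_HP1c2` from row 600.** -/
theorem hp1f93_HP1c2 (H : hp1f93_Row600c2) : s36i62g_HP1c2 := by
  intro M' q p r _ _ hq hM' hrig hp hpq h2 n R K _ _ _ _ _ _ _ _ _ _ hπ hunit
  have hqR : ¬ IsUnit ((q : ℕ) : R) := hπ.not_isUnit
  have hMu : IsUnit ((M' : ℕ) : R) :=
    hunit M' (Nat.Coprime.symm ((Nat.Prime.coprime_iff_not_dvd hq).mpr hM'))
  have hmu : IsUnit ((p ^ n : ℕ) : R) :=
    hunit (p ^ n) (Nat.Coprime.pow_left n ((Nat.coprime_primes hp hq).mpr hpq))
  have hm0 : 0 < p ^ n := pow_pos hp.pos n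
  obtain ⟨C1, C2⟩ := H M' q p r hq hM' hrig hp hpq h2 R K hπ hunit
  obtain ⟨G1, G2⟩ := hp1f93_level2 (K := K) M' q hq hM' hπ hunit hqR hMu h2 1 1 (one_mul 1)
    (one_mul _).symm
    (v2g64_V2 (algebraMap K Q̄) M' q hq hM' hπ (Associated.refl _))
    (v2g64_V2_alpha (algebraMap K Q̄) M' q hq hM' hπ (Associated.refl _))
    (v2g64_V2_pi (algebraMap K Q̄) M' q hq hM' hπ (Associated.refl _))
    (v2g64_V2_ne (algebraMap K Q̄) M' q hq hM' hπ (Associated.refl _))
    (v2g64_V2_val (algebraMap K Q̄) M' q hq hM' hπ (Associated.refl _))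
    (p ^ n) hm0 hmu (al97L_alpha K (M' * q) q).toRingHom (al97L_beta K (M' * q) q).toRingHom
    (s35i62_normA K (M' * q) q) (s35i62_normB K (M' * q) q)
    (cm85_Vinf (K := K) (M' * q) hπ) (s34i47c_V0 M' q hq hM' hπ)
  exact ⟨G1 C1, G2 C2⟩

/-- **Row 600 on the canonical frame, Hauptmodul of level 3** (closed statement, binder block of
`s36i62g_HP1c3`): `hp1f93_C2Reg` on both charts at `V₂ = v2g64_V2`. -/
def hp1f93_Row600c3 : Prop :=
  ∀ (M' q p r : ℕ) [NeZero M'] [NeZero q] (hq : q.Prime) (hM' : ¬ q ∣ M'),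
    s36c67_Rigid6 (M' * q) q r → p.Prime → p ≠ q → q = 2 → ∀ (h3 : 3 ∣ M'),
    ∀ (R K : Type) [CommRing R] [IsDomain R] [IsDiscreteValuationRing R] [Field K]
      [NumberField K] [Algebra K Q̄] [Algebra R K] [IsFractionRing R K]
      [Algebra R ↥(modularFunctionFieldFullC K (M' * q * q))]
      [IsScalarTower R K ↥(modularFunctionFieldFullC K (M' * q * q))]
      (hπ : Irreducible ((q : ℕ) : R)), (∀ k : ℕ, Nat.Coprime k q → IsUnit (k : R)) →
      hp1f93_C2Reg (K := K) M' q hq hM' hπ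
        (v2g64_V2 (algebraMap K Q̄) M' q hq hM' hπ (Associated.refl _))
        (pk15_chart R ({pk85_h3 K (M' * q * q) (h3.trans ((dvd_mul_right M' q).trans (dvd_mul_right (M' * q) q)))} : Set ↥(modularFunctionFieldFullC K (M' * q * q)))) ∧
      hp1f93_C2Reg (K := K) M' q hq hM' hπ
        (v2g64_V2 (algebraMap K Q̄) M' q hq hM' hπ (Associated.refl _))
        (pk15_chart R ({(pk85_h3 K (M' * q * q) (h3.trans ((dvd_mul_right M' q).trans (dvd_mul_right (M' * q) q))))⁻¹} : Set ↥(modularFunctionFieldFullC K (M' * q * q))))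

/-- **`s36i62g_HP1c3` from row 600.** -/
theorem hp1f93_HP1c3 (H : hp1f93_Row600c3) : s36i62g_HP1c3 := by
  intro M' q p r _ _ hq hM' hrig hp hpq hq2 h3 n R K _ _ _ _ _ _ _ _ _ _ hπ hunit
  have hqR : ¬ IsUnit ((q : ℕ) : R) := hπ.not_isUnit
  have hMu : IsUnit ((M' : ℕ) : R) :=
    hunit M' (Nat.Coprime.symm ((Nat.Prime.coprime_iff_not_dvd hq).mpr hM'))
  have hmu : IsUnit ((p ^ n : ℕ) : R) :=
    hunit (p ^ n) (Nat.Coprime.pow_left n ((Nat.coprime_primes hp hq).mpr hpq))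
  have hm0 : 0 < p ^ n := pow_pos hp.pos n
  obtain ⟨C1, C2⟩ := H M' q p r hq hM' hrig hp hpq hq2 h3 R K hπ hunit
  obtain ⟨G1, G2⟩ := hp1f93_level3 (K := K) M' q hq hM' hπ hunit hqR hMu h3 1 1 (one_mul 1)
    (one_mul _).symm
    (v2g64_V2 (algebraMap K Q̄) M' q hq hM' hπ (Associated.refl _))
    (v2g64_V2_alpha (algebraMap K Q̄) M' q hq hM' hπ (Associated.refl _))
    (v2g64_V2_pi (algebraMap K Q̄) M' q hq hM' hπ (Associated.refl _))
    (v2g64_V2_ne (algebraMap K Q̄) M' q hq hM' hπ (Associated.refl _))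
    (v2g64_V2_val (algebraMap K Q̄) M' q hq hM' hπ (Associated.refl _))
    (p ^ n) hm0 hmu (al97L_alpha K (M' * q) q).toRingHom (al97L_beta K (M' * q) q).toRingHom
    (s35i62_normA K (M' * q) q) (s35i62_normB K (M' * q) q)
    (cm85_Vinf (K := K) (M' * q) hπ) (s34i47c_V0 M' q hq hM' hπ)
  exact ⟨G1 C1, G2 C2⟩

end Fermat.Agent.S36
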