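import Mathlib
import Fermat.Agent.S36.CorePoints57
import Fermat.Agent.S36.GlueDatum26

/-!
# S36 lab, row 605 (HP-3), helper53: `cp57_HP3` from `gcd26_datum_triple`

Abstract twin binder of the package **(HP-3)** of `CorePoints57` (helper57): the clause of
`s34i47_LocalDatum` for the twisted unit `u₂ = cp57_u2 q m u θ` at the closed points of a chart
lying on two branches (the triple points).

`hp53_HP3 : [hypotheses] → cp57_HP3 π q m B al be Nal Nbe V₁ V₂ V₃ Vinf V0` with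

* the frame block of the chart (`hmB`, `hBV i`, `hπ i`, `hrad i`, `harch i`, `hFrac`);
* the intrinsic valuation shapes of `abv94_intrinsic` (the SAME statements bound for (HB)):
  `hal1 hal2 hal3 hbe1 hbe2 hbe3` (iff forms), `hres3q`, `hres1q`, `hN1 hN2 hN3 hN4`;
  the shapes of `hal3`, `hbe1`, `hN1 … hN4` wanted by `gcd26_datum_triple` are derived here;
* the constants: `al`, `be` send the image of `r : R` in `F1` to its image in `F2`;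
* (I6) `hroot` : a local root `c` of `u` at every closed point (output of
  `lps9_strong_three`);
* ONE per-point statement `hp53_TripleData` at every closed point on two branches: the point is
  on the three branches, the three branch root lifts (conclusion shape of `gblc26_lift_at`), and
  the two local rings `Aal`, `Abe` of the level-`q` charts at `α(n)`, `β(n)` with the clauses
  of `gcd26_datum_triple` (`hAB hAinf hloc hO1 hO2 hAB' hA0' hloc' hO3' hO2' hrootA hrootB`), the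
  `R`-constants, and "norms of units of `B_n` are units" (`bk81_norm_unit_loc` shape).

All names are prefixed `hp53_`.
-/

set_option autoImplicit false
set_option linter.style.longLine false
set_option linter.unusedVariables false
set_option linter.unusedSectionVars false

namespace Fermat.Agent.S36

open Fermat.Agent.S18 Fermat.Agent.S34 Fermat.Agent.S35

/-- In a linearly ordered group with zero, `x ^ m = 1` with `0 < m` forces `x = 1`. -/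
theorem hp53_eq_one_of_pow {Γ : Type*} [LinearOrderedCommGroupWithZero Γ] (x : Γ) (m : ℕ)
    (hm : 0 < m) (h : x ^ m = 1) : x = 1 := by
  rcases lt_trichotomy x 1 with hlt | heq | hgt
  · exact absurd h (ne_of_lt (pow_lt_one₀ zero_le hlt hm.ne'))
  · exact heq
  · exact absurd h (ne_of_gt (one_lt_pow₀ hgt hm.ne'))

/-- `v(x) < 1 ↔ x⁻¹ ∉ V` for `x ≠ 0`. -/
theorem hp53_lt_one_iff {F : Type*} [Field F] (V : ValuationSubring F) (x : F) (hx : x ≠ 0) :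
    V.valuation x < 1 ↔ x⁻¹ ∉ V := by
  have h0 : 0 < V.valuation x := zero_lt_iff.mpr ((Valuation.ne_zero_iff _).mpr hx)
  rw [← ValuationSubring.valuation_le_one_iff, map_inv₀, not_le]
  exact (one_lt_inv₀ h0).symm

/-- `v(x) = 1` from `x ∈ V`, `x⁻¹ ∈ V`. -/
theorem hp53_val_eq_one {F : Type*} [Field F] (V : ValuationSubring F) (x : F) (hx0 : x ≠ 0)
    (hx : x ∈ V) (hx' : x⁻¹ ∈ V) : V.valuation x = 1 := by
  refine le_antisymm ((ValuationSubring.valuation_le_one_iff V x).mpr hx) ?_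
  by_contra hlt
  exact (hp53_lt_one_iff V x hx0).mp (not_le.mp hlt) hx'

/-- A ring homomorphism along which `V` lies over `V'` maps `𝔪(V')` into `𝔪(V)`. -/
theorem hp53_strict {F F' : Type*} [Field F] [Field F'] (f : F' →+* F) (V : ValuationSubring F)
    (V' : ValuationSubring F') (h : ∀ x, f x ∈ V ↔ x ∈ V') (x : F')
    (hx : V'.valuation x < 1) : V.valuation (f x) < 1 := by
  by_cases hx0 : x = 0
  · rw [hx0, map_zero, map_zero]
    exact zero_lt_one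
  · have hfx0 : f x ≠ 0 := (map_ne_zero f).mpr hx0
    rw [hp53_lt_one_iff V (f x) hfx0, ← map_inv₀, h]
    exact (hp53_lt_one_iff V' x hx0).mp hx

section

variable {R K F1 F2 : Type*} [CommRing R] [Field K] [Field F1] [Field F2] [Algebra R K]
  [Algebra K F1] [Algebra R F2] [Algebra K F2]

/-- **The per-point data at a triple point** `n` of the chart `B`: `n` lies on the three
branches; roots modulo each branch lift to `B_n`; and the local rings `Aal`, `Abe` of the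
level-`q` charts at `α(n)`, `β(n)` with the clauses of `gcd26_datum_triple`. -/
def hp53_TripleData (π : R) (m : ℕ) (B : Subalgebra R F2) (al be : F1 →+* F2)
    (Nal Nbe : F2 →* F1) (V₁ V₂ V₃ : ValuationSubring F2) (Vinf V0 : ValuationSubring F1)
    (n : Ideal B) (hn : n.IsPrime) : Prop :=
  haveI := hn
  sf79_OnBr π B V₁.toSubring n ∧ sf79_OnBr π B V₂.toSubring n ∧ sf79_OnBr π B V₃.toSubring n ∧
  (∀ c e : F2, c ∈ V₁ → e ≠ 0 → e ∈ sf79_loc B n → e⁻¹ ∈ sf79_loc B n →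
    V₁.valuation (c ^ m - e) < 1 → ∃ b ∈ sf79_loc B n, V₁.valuation (c - b) < 1) ∧
  (∀ c e : F2, c ∈ V₂ → e ≠ 0 → e ∈ sf79_loc B n → e⁻¹ ∈ sf79_loc B n →
    V₂.valuation (c ^ m - e) < 1 → ∃ b ∈ sf79_loc B n, V₂.valuation (c - b) < 1) ∧
  (∀ c e : F2, c ∈ V₃ → e ≠ 0 → e ∈ sf79_loc B n → e⁻¹ ∈ sf79_loc B n →
    V₃.valuation (c ^ m - e) < 1 → ∃ b ∈ sf79_loc B n, V₃.valuation (c - b) < 1) ∧
  ∃ Aal Abe : Subring F1,
    (∀ x ∈ Aal, al x ∈ sf79_loc B n) ∧ (∀ x ∈ Aal, x ∈ Vinf) ∧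
    (∀ x ∈ Aal, (al x)⁻¹ ∈ sf79_loc B n → x⁻¹ ∈ Aal) ∧
    (∀ b ∈ sf79_loc B n, ∃ a ∈ Aal, V₁.valuation (al a - b) < 1) ∧
    (∀ b ∈ sf79_loc B n, ∃ a ∈ Aal, V₂.valuation (al a - b) < 1) ∧
    (∀ x ∈ Abe, be x ∈ sf79_loc B n) ∧ (∀ x ∈ Abe, x ∈ V0) ∧
    (∀ x ∈ Abe, (be x)⁻¹ ∈ sf79_loc B n → x⁻¹ ∈ Abe) ∧
    (∀ b ∈ sf79_loc B n, ∃ a ∈ Abe, V₃.valuation (be a - b) < 1) ∧
    (∀ b ∈ sf79_loc B n, ∃ a ∈ Abe, V₂.valuation (be a - b) < 1) ∧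
    (∀ x : F1, x ^ m ∈ Aal → x ∈ Aal) ∧ (∀ x : F1, x ^ m ∈ Abe → x ∈ Abe) ∧
    (∀ r : R, algebraMap K F1 (algebraMap R K r) ∈ Aal) ∧
    (∀ r : R, algebraMap K F1 (algebraMap R K r) ∈ Abe) ∧
    (∀ x ∈ sf79_loc B n, x⁻¹ ∈ sf79_loc B n → (Nal x)⁻¹ ∈ Aal) ∧
    (∀ x ∈ sf79_loc B n, x⁻¹ ∈ sf79_loc B n → (Nbe x)⁻¹ ∈ Abe)

/-- **(HP-3)** `cp57_HP3` (literal definition of `CorePoints57`) from the intrinsic valuation
shapes of (HB), a local root at every closed point, and the per-point data `hp53_TripleData` at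
the closed points on two branches, via `gcd26_datum_triple`. -/
theorem hp53_HP3 (π : R) (q m : ℕ) (hq : 1 ≤ q) (hm0 : 0 < m) (B : Subalgebra R F2)
    (al be : F1 →+* F2) (Nal Nbe : F2 →* F1)
    (V₁ V₂ V₃ : ValuationSubring F2) (Vinf V0 : ValuationSubring F1)
    (hmB : ∃ μ ∈ B, (m : F2) * μ = 1)
    (hBV₁ : ∀ x ∈ B, x ∈ V₁) (hBV₂ : ∀ x ∈ B, x ∈ V₂) (hBV₃ : ∀ x ∈ B, x ∈ V₃)
    (hπ₁ : (algebraMap R F2 π)⁻¹ ∉ V₁) (hπ₂ : (algebraMap R F2 π)⁻¹ ∉ V₂)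
    (hπ₃ : (algebraMap R F2 π)⁻¹ ∉ V₃)
    (hrad₁ : ∀ x ∈ V₁, x⁻¹ ∉ V₁ → ∃ k : ℕ, (algebraMap R F2 π)⁻¹ * x ^ k ∈ V₁)
    (hrad₂ : ∀ x ∈ V₂, x⁻¹ ∉ V₂ → ∃ k : ℕ, (algebraMap R F2 π)⁻¹ * x ^ k ∈ V₂)
    (hrad₃ : ∀ x ∈ V₃, x⁻¹ ∉ V₃ → ∃ k : ℕ, (algebraMap R F2 π)⁻¹ * x ^ k ∈ V₃)
    (harch₁ : ∀ x ∈ B, x ≠ 0 → ∃ k : ℕ, (algebraMap R F2 π ^ k)⁻¹ * x ∉ V₁)
    (harch₂ : ∀ x ∈ B, x ≠ 0 → ∃ k : ℕ, (algebraMap R F2 π ^ k)⁻¹ * x ∉ V₂)
    (harch₃ : ∀ x ∈ B, x ≠ 0 → ∃ k : ℕ, (algebraMap R F2 π ^ k)⁻¹ * x ∉ V₃)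
    (hFrac : ∀ x : F2, ∃ a ∈ B, ∃ b ∈ B, b ≠ 0 ∧ x * b = a)
    (hal_c : ∀ r : R, al (algebraMap K F1 (algebraMap R K r)) = algebraMap R F2 r)
    (hbe_c : ∀ r : R, be (algebraMap K F1 (algebraMap R K r)) = algebraMap R F2 r)
    (hal1 : ∀ x, al x ∈ V₁ ↔ x ∈ Vinf) (hal2 : ∀ x, al x ∈ V₂ ↔ x ∈ Vinf)
    (hal3 : ∀ x, al x ∈ V₃ ↔ x ∈ V0)
    (hbe1 : ∀ x, be x ∈ V₁ ↔ x ∈ Vinf) (hbe2 : ∀ x, be x ∈ V₂ ↔ x ∈ V0)
    (hbe3 : ∀ x, be x ∈ V₃ ↔ x ∈ V0)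
    (hres3q : ∀ x ∈ V₃, ∃ v ∈ V0, V₃.valuation (x ^ q - al v) < 1)
    (hres1q : ∀ x ∈ V₁, ∃ v ∈ Vinf, V₁.valuation (x ^ q - be v) < 1)
    (hN1 : ∀ y, y ∈ V₁ → y ∈ V₂ → ∀ v1 ∈ Vinf, ∀ v2 ∈ Vinf, V₁.valuation (y - al v1) < 1 →
      V₂.valuation (y - al v2) < 1 → Vinf.valuation (Nal y - v1 * v2 ^ (q - 1)) < 1)
    (hN2 : ∀ x ∈ V₃, ∀ v ∈ V0, V₃.valuation (x ^ q - al v) < 1 → V0.valuation (Nal x - v) < 1)
    (hN3 : ∀ x ∈ V₁, ∀ v ∈ Vinf, V₁.valuation (x ^ q - be v) < 1 →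
      Vinf.valuation (Nbe x - v) < 1)
    (hN4 : ∀ y, y ∈ V₃ → y ∈ V₂ → ∀ v3 ∈ V0, ∀ v2 ∈ V0, V₃.valuation (y - be v3) < 1 →
      V₂.valuation (y - be v2) < 1 → V0.valuation (Nbe y - v3 * v2 ^ (q - 1)) < 1)
    (hroot : ∀ u : F2, u ≠ 0 → s34i47_Ord π m u → s34i47_Fin π u →
      V₁.valuation (u - 1) < 1 → V₂.valuation (u - 1) < 1 → V₃.valuation (u - 1) < 1 →
      ∀ n : Ideal B, n.IsMaximal → algebraMap R B π ∈ n →
        ∃ c : F2, c ≠ 0 ∧ (∃ s : B, s ∉ n ∧ (s : F2) * (u / c ^ m) ∈ B) ∧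
          ∃ s : B, s ∉ n ∧ (s : F2) * (c ^ m / u) ∈ B)
    (hdata : ∀ (n : Ideal B) (hn : n.IsMaximal), algebraMap R B π ∈ n →
      ¬ cp57_OneBr π B V₁ V₂ V₃ n →
      hp53_TripleData (K := K) π m B al be Nal Nbe V₁ V₂ V₃ Vinf V0 n hn.isPrime) :
    cp57_HP3 (K := K) π q m B al be Nal Nbe V₁ V₂ V₃ Vinf V0 := by
  intro u cu Au tinf t0 du Bu sinf s0 θ hu0 hOrd hFin hUD hTw n hn hπn hnot
  have hnp : n.IsPrime := hn.isPrime
  obtain ⟨hu1, hu2, hu3, hNu, hAu, hNu', hBu, ⟨rcu, hcu⟩, ⟨rti, hti⟩, ⟨rt0, ht0⟩, ⟨rdu, hdu⟩,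
    ⟨rsi, hsi⟩, ⟨rs0, hs0⟩, hAuinf, hAu0, hBuinf, hBu0⟩ := hUD
  obtain ⟨hθ0, hθV1, hθV2, hθV3, ⟨w₁, w₂, hθ1, hθ2, hθ3, hw1, hw2⟩, hu'1, hu'2, hu'3⟩ := hTw
  obtain ⟨hOn1, hOn2, hOn3, hl1, hl2, hl3, Aal, Abe, hAB, hAinf, hloc, hO1, hO2, hAB', hA0',
    hloc', hO3', hO2', hrootA, hrootB, hcA, hcB, hNA, hNB⟩ := hdata n hn hπn hnot
  obtain ⟨c, hc0, heps, heps'⟩ := hroot u hu0 hOrd hFin hu1 hu2 hu3 n hn hπn
  have hcm0 : c ^ m ≠ 0 := pow_ne_zero m hc0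
  have heps0 : u / c ^ m ≠ 0 := div_ne_zero hu0 hcm0
  have hepsL : u / c ^ m ∈ sf79_loc B n := heps
  have hepsL' : (u / c ^ m)⁻¹ ∈ sf79_loc B n := by
    rw [inv_div]
    exact heps'
  -- `B_n ⊆ V i`
  have hL1 : ∀ x ∈ sf79_loc B n, x ∈ V₁ := fun x hx => ld55_loc_le π B V₁ hBV₁ hrad₁ n hOn1 x hx
  have hL2 : ∀ x ∈ sf79_loc B n, x ∈ V₂ := fun x hx => ld55_loc_le π B V₂ hBV₂ hrad₂ n hOn2 x hx
  have hL3 : ∀ x ∈ sf79_loc B n, x ∈ V₃ := fun x hx => ld55_loc_le π B V₃ hBV₃ hrad₃ n hOn3 x hx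
  -- `c` is a unit of the three valuation rings
  have hunit : ∀ V : ValuationSubring F2, (∀ x ∈ sf79_loc B n, x ∈ V) →
      V.valuation (u - 1) < 1 →
      V.valuation c = 1 ∧ V.valuation (c ^ m - (u / c ^ m)⁻¹) < 1 := by
    intro V hLV huV
    have hvu : V.valuation u = 1 := by
      have h := V.valuation.map_one_add_of_lt huV
      rwa [add_sub_cancel] at h
    have hve : V.valuation (u / c ^ m) = 1 :=
      hp53_val_eq_one V _ heps0 (hLV _ hepsL) (hLV _ hepsL')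
    have hve' : V.valuation (u / c ^ m)⁻¹ = 1 := by rw [map_inv₀, hve, inv_one]
    have hcm : c ^ m = u * (u / c ^ m)⁻¹ := by
      rw [inv_div]
      field_simp
    constructor
    · apply hp53_eq_one_of_pow _ m hm0
      rw [← map_pow, hcm, map_mul, hvu, hve', one_mul]
    · have e : c ^ m - (u / c ^ m)⁻¹ = (u - 1) * (u / c ^ m)⁻¹ := by
        rw [sub_mul, one_mul, ← hcm]
      rw [e, map_mul, hve', mul_one]
      exact huV
  obtain ⟨hvc1, hce1⟩ := hunit V₁ hL1 hu1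
  obtain ⟨hvc2, hce2⟩ := hunit V₂ hL2 hu2
  obtain ⟨hvc3, hce3⟩ := hunit V₃ hL3 hu3
  have hc1 : c ∈ V₁ := (ValuationSubring.valuation_le_one_iff V₁ c).mp hvc1.le
  have hc2 : c ∈ V₂ := (ValuationSubring.valuation_le_one_iff V₂ c).mp hvc2.le
  have hc3 : c ∈ V₃ := (ValuationSubring.valuation_le_one_iff V₃ c).mp hvc3.le
  -- the lifts
  obtain ⟨b1, hb1, hcb1⟩ := hl1 c _ hc1 (inv_ne_zero heps0) hepsL' (by rwa [inv_inv]) hce1
  obtain ⟨b2, hb2, hcb2⟩ := hl2 c _ hc2 (inv_ne_zero heps0) hepsL' (by rwa [inv_inv]) hce2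
  obtain ⟨b3, hb3, hcb3⟩ := hl3 c _ hc3 (inv_ne_zero heps0) hepsL' (by rwa [inv_inv]) hce3
  -- constants
  have hconst0 : ∀ r : Rˣ, algebraMap K F1 (algebraMap R K (r : R)) ≠ 0 := by
    intro r
    have h : algebraMap K F1 (algebraMap R K (r : R)) *
        algebraMap K F1 (algebraMap R K ((r⁻¹ : Rˣ) : R)) = 1 := by
      rw [← map_mul, ← map_mul, Units.mul_inv, map_one, map_one]
    exact left_ne_zero_of_mul_eq_one h
  have hconstInv : ∀ r : Rˣ, (algebraMap R F2 (r : R))⁻¹ ∈ sf79_loc B n := by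
    intro r
    have h : algebraMap R F2 (r : R) * algebraMap R F2 ((r⁻¹ : Rˣ) : R) = 1 := by
      rw [← map_mul, Units.mul_inv, map_one]
    rw [← eq_inv_of_mul_eq_one_right h]
    exact sf79_le_loc B n _ (B.algebraMap_mem _)
  have hone : (1 : B) ∉ n := (Ideal.ne_top_iff_one n).mp hnp.ne_top
  have hnm0 : sf79_nmem B n (0 : F2) := ⟨1, hone, 0, n.zero_mem, by simp⟩
  -- norms of `eps`
  have hNal0 : Nal (u / c ^ m) ≠ 0 := by
    have h : Nal (u / c ^ m) * Nal (u / c ^ m)⁻¹ = 1 := by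
      rw [← map_mul, mul_inv_cancel₀ heps0, map_one]
    exact left_ne_zero_of_mul_eq_one h
  have hNbe0 : Nbe (u / c ^ m) ≠ 0 := by
    have h : Nbe (u / c ^ m) * Nbe (u / c ^ m)⁻¹ = 1 := by
      rw [← map_mul, mul_inv_cancel₀ heps0, map_one]
    exact left_ne_zero_of_mul_eq_one h
  have hqq : q - 1 + 1 = q := Nat.sub_add_cancel hq
  -- the statement
  obtain ⟨φ, ⟨h1, h2, h3⟩, s, hs, hsφ⟩ := gcd26_datum_triple π m (q - 1) hm0 B hmB V₁ V₂ V₃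
    hBV₁ hBV₂ hBV₃ hπ₁ hπ₂ hπ₃ hrad₁ hrad₂ hrad₃ harch₁ harch₂ harch₃ hFrac n
    hOn1 hOn2 hOn3 al be Nal Nbe Vinf V0 Aal Abe hAB hAinf hloc
    (fun x hx => hp53_strict al V₃ V0 hal3 x hx) hO1 hO2 hAB' hA0' hloc'
    (fun x hx => hp53_strict be V₁ Vinf hbe1 x hx) hO3' hO2' hrootA hrootB
    u c (u / c ^ m) (by field_simp) hepsL hepsL' hu1 hu2 hu3
    Au cu tinf t0 hNu hAu hNal0 (hNA _ hepsL hepsL') (hcu ▸ hcA _) (hti ▸ hcA _) (ht0 ▸ hcA _)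
    hAuinf hAu0
    (by
      intro y1 y2 hy1 hy2
      have hy1V : al y1 ∈ V₁ := by
        have := V₁.add_mem _ _ ((ValuationSubring.valuation_le_one_iff V₁ _).mp hy1.le) hc1
        rwa [sub_add_cancel] at this
      have hy2V : al y2 ∈ V₂ := by
        have := V₂.add_mem _ _ ((ValuationSubring.valuation_le_one_iff V₂ _).mp hy2.le) hc2
        rwa [sub_add_cancel] at this
      exact hN1 c hc1 hc2 y1 ((hal1 y1).mp hy1V) y2 ((hal2 y2).mp hy2V)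
        (by rwa [Valuation.map_sub_swap]) (by rwa [Valuation.map_sub_swap]))
    (by
      obtain ⟨v, hv, hvq⟩ := hres3q c hc3
      have h4 := hp53_strict al V₃ V0 hal3 _ (hN2 c hc3 v hv hvq)
      have e : al (Nal c) - c ^ (q - 1 + 1) = al (Nal c - v) - (c ^ q - al v) := by
        rw [hqq, map_sub]
        ring
      rw [e]
      exact Valuation.map_sub_lt _ h4 hvq)
    Bu du sinf s0 hNu' hBu hNbe0 (hNB _ hepsL hepsL') (hdu ▸ hcB _) (hsi ▸ hcB _) (hs0 ▸ hcB _)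
    hBuinf hBu0
    (by
      intro y3 y2 hy3 hy2
      have hy3V : be y3 ∈ V₃ := by
        have := V₃.add_mem _ _ ((ValuationSubring.valuation_le_one_iff V₃ _).mp hy3.le) hc3
        rwa [sub_add_cancel] at this
      have hy2V : be y2 ∈ V₂ := by
        have := V₂.add_mem _ _ ((ValuationSubring.valuation_le_one_iff V₂ _).mp hy2.le) hc2
        rwa [sub_add_cancel] at this
      exact hN4 c hc3 hc2 y3 ((hbe3 y3).mp hy3V) y2 ((hbe2 y2).mp hy2V)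
        (by rwa [Valuation.map_sub_swap]) (by rwa [Valuation.map_sub_swap]))
    (by
      obtain ⟨v, hv, hvq⟩ := hres1q c hc1
      have h4 := hp53_strict be V₁ Vinf hbe1 _ (hN3 c hc1 v hv hvq)
      have e : be (Nbe c) - c ^ (q - 1 + 1) = be (Nbe c - v) - (c ^ q - be v) := by
        rw [hqq, map_sub]
        ring
      rw [e]
      exact Valuation.map_sub_lt _ h4 hvq)
    (hti ▸ hconst0 rti) (hsi ▸ hconst0 rsi) (hs0 ▸ hconst0 rs0)
    (by rw [hti, hal_c]; exact hconstInv rti)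
    (by rw [hsi, hbe_c]; exact hconstInv rsi)
    (by rw [hs0, hbe_c]; exact hconstInv rs0)
    b1 b2 b3 hb1 hb2 hb3 hcb1 hcb2 hcb3
    θ (algebraMap R F2 w₁) (algebraMap R F2 w₂)
    (sf79_le_loc B n _ (B.algebraMap_mem w₁)) (sf79_le_loc B n _ (B.algebraMap_mem w₂))
    hθ1 hθ2 hθ3
    (by rw [hw1, sub_self]; exact hnm0)
    (by rw [hw2, sub_self]; exact hnm0)
    q hu'1 hu'2 hu'3
  exact ⟨φ, ⟨⟨h1, h2⟩, h3⟩, s, hs, hsφ⟩

end

end Fermat.Agent.S36
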