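import Fermat.Agent.S36.HP3Global94
import Fermat.Agent.S36.TripleNode81
import Fermat.Agent.S36.TripleLiftLoc3
import Fermat.Agent.S36.BranchGen76
import Fermat.Agent.S36.BranchGenAll76
import Fermat.Agent.S36.TwoGenCanon71
import Fermat.Agent.S36.TwoGenInputs71
import Fermat.Agent.S36.LocPrinStrongThree9

/-!
# S36 lab (helper3): the per-point triple data `hp3x77_TripleData` on the canonical frame

TWIN assembler of the canonical (HP-3) binder.  `hp3g94_level2/3` (helper94) reduce `cp57_HP3`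
on the canonical charts of level `M' q q` to `hp3x77_TripleData` (helper77) at the closed points
on two branches.  `hc3_TP` proves that per-point datum for a pair of charts
`B' = pk15_chart R s₁` (level `M' q`), `B = pk15_chart R s₂` (level `M' q q`) from:

* the chart facts `cf54_Facts` of `B` (helper54), the per-point two generators `tg71_Out`
  (helper71) with (REG-q) `tf71_RegNodes` on `B'`, the local divisors `hD₁`, `hD₃`
  (`tg71_hD_level2/3`), the three smoothness clauses (`sm7_three_smooth_sq_level2/3`);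
* the four chart-level residue surjectivities `tl3_Lifts` (TripleLift3);
* the chart maps `fα`, `fβ` (`bc95_alpha`, `bc95_beta_level2/3`) and `B' ⊆ W'`.

Inside: the three `sf79_OnBr` and the non-lift clauses of the `Aal`/`Abe` block = `tn81_node`
(helper81); the four `hO` clauses = `tll3_of_lifts`; the local root = `lps9_strong_three_at`
(helper9); the three branch root lifts = `bg76_three_lifts` (helper76).

All names are prefixed `hc3_`.
-/

set_option autoImplicit false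
set_option linter.unusedSectionVars false
set_option linter.unusedVariables false
set_option linter.style.haveILetI false
set_option linter.style.longLine false

open ModularCurve AlgebraicCurve IntermediateField
open Fermat.Agent.S24 Fermat.Agent.S28 Fermat.Agent.S18 Fermat.Agent.S37 Fermat.Agent.S34
open Fermat.Agent.S42 Fermat.Agent.S35

namespace Fermat.Agent.S36

open Fermat.Agent.S36.TripleLoc71

local notation "Q̄" => AlgebraicClosure ℚ

section hc3

variable {R K : Type} [CommRing R] [IsDomain R] [IsDiscreteValuationRing R] [Field K]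
  [NumberField K] [Algebra R K] [IsFractionRing R K] [Algebra K Q̄] [Algebra.IsAlgebraic K Q̄]
  (M' q : ℕ) [NeZero M'] [NeZero q] (hq : q.Prime) (hM' : ¬ q ∣ M')
  {π : R} (hπ : Irreducible π)
  [Algebra R ↥(modularFunctionFieldFullC K M')]
  [IsScalarTower R K ↥(modularFunctionFieldFullC K M')]
  [Algebra R ↥(modularFunctionFieldFullC K (M' * q))]
  [IsScalarTower R K ↥(modularFunctionFieldFullC K (M' * q))]
  [Algebra R ↥(modularFunctionFieldFullC K (M' * q * q))]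
  [IsScalarTower R K ↥(modularFunctionFieldFullC K (M' * q * q))]

include hq hM' in
/-- **The per-point triple data on the canonical frame**, for a pair of charts. -/
theorem hc3_TP (hqR : ¬ IsUnit (q : R))
    (V₂ : ValuationSubring ↥(modularFunctionFieldFullC K (M' * q * q)))
    (hV₂ : ∀ c ∈ cm85_Vinf (K := K) (M' * q) hπ, al97L_alpha K (M' * q) q c ∈ V₂)
    (hπ₂ : (algebraMap K ↥(modularFunctionFieldFullC K (M' * q * q)) (algebraMap R K π))⁻¹ ∉ V₂)
    (hne : cm85_Vinf (K := K) (M' * q * q) hπ ≠ V₂)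
    (hs : V₂.valuation (v2g64_s K M' q) ^ (q - 1) =
      V₂.valuation (algebraMap K ↥(modularFunctionFieldFullC K (M' * q * q)) (algebraMap R K π)))
    (s₁ : Set ↥(modularFunctionFieldFullC K (M' * q)))
    (s₂ : Set ↥(modularFunctionFieldFullC K (M' * q * q)))
    (hB : cf54_Facts π (pk15_chart R s₂) (cm85_Vinf (K := K) (M' * q * q) hπ) V₂
      (nsb86_V3 (K := K) M' q hq hM' hπ))
    (hout : tg71_Out (K := K) M' q hq hM' hπ V₂ (pk15_chart R s₁) (pk15_chart R s₂))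
    (hreg : tf71_RegNodes (K := K) M' q hq hM' hπ (pk15_chart R s₁))
    (hD₁ : ∀ n : Ideal ↥(pk15_chart R s₂), n.IsMaximal →
      sf79_OnBr π (pk15_chart R s₂) (cm85_Vinf (K := K) (M' * q * q) hπ).toSubring n →
      (tl71_OnMid (v2g64_s K M' q) (pk15_chart R s₂) V₂.toSubring n ∨
        sf79_OnBr π (pk15_chart R s₂) (nsb86_V3 (K := K) M' q hq hM' hπ).toSubring n) →
      tl71_DivAt π (pk15_chart R s₂) (cm85_Vinf (K := K) (M' * q * q) hπ).toSubring V₂.toSubring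
        (nsb86_V3 (K := K) M' q hq hM' hπ).toSubring n)
    (hD₃ : ∀ n : Ideal ↥(pk15_chart R s₂), n.IsMaximal →
      sf79_OnBr π (pk15_chart R s₂) (nsb86_V3 (K := K) M' q hq hM' hπ).toSubring n →
      (tl71_OnMid (v2g64_s K M' q) (pk15_chart R s₂) V₂.toSubring n ∨
        sf79_OnBr π (pk15_chart R s₂) (cm85_Vinf (K := K) (M' * q * q) hπ).toSubring n) →
      tl71_DivAt π (pk15_chart R s₂) (nsb86_V3 (K := K) M' q hq hM' hπ).toSubring V₂.toSubring
        (cm85_Vinf (K := K) (M' * q * q) hπ).toSubring n)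
    (hS₁ : sf79_Smooth π (pk15_chart R s₂) (cm85_Vinf (K := K) (M' * q * q) hπ).toSubring)
    (hS₂ : tl71_MidSmooth π (v2g64_s K M' q) (pk15_chart R s₂) V₂.toSubring)
    (hS₃ : sf79_Smooth π (pk15_chart R s₂) (nsb86_V3 (K := K) M' q hq hM' hπ).toSubring)
    (hL : tl3_Lifts (K := K) M' q hq hM' hπ V₂ s₁ s₂)
    (fα : ↥(pk15_chart R s₁) →+* ↥(pk15_chart R s₂))
    (hfα : ∀ x, ((fα x : ↥(pk15_chart R s₂)) : ↥(modularFunctionFieldFullC K (M' * q * q))) =
      al97L_alpha K (M' * q) q (x : ↥(modularFunctionFieldFullC K (M' * q))))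
    (hfαi : fα.IsIntegral)
    (fβ : ↥(pk15_chart R s₁) →+* ↥(pk15_chart R s₂))
    (hfβ : ∀ x, ((fβ x : ↥(pk15_chart R s₂)) : ↥(modularFunctionFieldFullC K (M' * q * q))) =
      al97L_beta K (M' * q) q (x : ↥(modularFunctionFieldFullC K (M' * q))))
    (hfβi : fβ.IsIntegral)
    (hB'W : ∀ x ∈ pk15_chart R s₁, x ∈ s34i47c_W (K := K) M' q hq hM' hπ)
    (m : ℕ) (hm0 : 0 < m)
    (n : Ideal ↥(pk15_chart R s₂)) (hn : n.IsMaximal)
    (hπn : algebraMap R ↥(pk15_chart R s₂) π ∈ n)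
    (hnot : ¬ cp57_OneBr π (pk15_chart R s₂) (cm85_Vinf (K := K) (M' * q * q) hπ) V₂
      (nsb86_V3 (K := K) M' q hq hM' hπ) n) :
    @hp3x77_TripleData R ↥(modularFunctionFieldFullC K (M' * q))
      ↥(modularFunctionFieldFullC K (M' * q * q)) _ _ _ _ K _ _ _ π m (pk15_chart R s₂)
      (al97L_alpha K (M' * q) q).toRingHom (al97L_beta K (M' * q) q).toRingHom
      (s35i62_normA K (M' * q) q) (s35i62_normB K (M' * q) q)
      (cm85_Vinf (K := K) (M' * q * q) hπ) V₂ (nsb86_V3 (K := K) M' q hq hM' hπ)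
      (cm85_Vinf (K := K) (M' * q) hπ) (s34i47c_V0 (K := K) M' q hq hM' hπ) n hn.isPrime := by
  classical
  haveI hnp : n.IsPrime := hn.isPrime
  haveI hnm : n.IsMaximal := hn
  obtain ⟨hN, hBV1, hBV2, hBV3, hsat, hKr, hFrac, -⟩ := hB
  haveI : IsNoetherianRing ↥(pk15_chart R s₂) := hN
  have e : algebraMap R ↥(modularFunctionFieldFullC K (M' * q * q)) π =
      algebraMap K ↥(modularFunctionFieldFullC K (M' * q * q)) (algebraMap R K π) :=
    IsScalarTower.algebraMap_apply R K _ π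
  -- the frame facts of the three branches
  have hπ1 := ab66_pi_V1 (K := K) M' q hπ
  have hπ3 := vuc1_V3_pi (K := K) M' q hq hM' hπ
  obtain ⟨hr1, ha1⟩ := fd85_over_inf (K := K) M' q hq hπ (cm85_Vinf (K := K) (M' * q * q) hπ)
    (fun c hc => (al97V_alpha_mem_Vinf (M' * q) q hπ c).mpr hc) hπ1
  obtain ⟨hr2, ha2⟩ := fd85_over_inf (K := K) M' q hq hπ V₂ hV₂ hπ₂
  obtain ⟨hr3, ha3⟩ := fd85_over_zero (K := K) M' q hq hM' hπ (nsb86_V3 (K := K) M' q hq hM' hπ)
    (fun c hc => vuc1_V3_alpha (K := K) M' q hq hM' hπ c hc) hπ3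
  rw [← e] at hπ1 hπ3 hr1 hr2 hr3 ha1 ha2 ha3
  have hπ₂' : (algebraMap R ↥(modularFunctionFieldFullC K (M' * q * q)) π)⁻¹ ∉ V₂ := by
    rw [e]; exact hπ₂
  have hs' : V₂.valuation (v2g64_s K M' q) ^ (q - 1) =
      V₂.valuation (algebraMap R ↥(modularFunctionFieldFullC K (M' * q * q)) π) := by
    rw [e]; exact hs
  have hrad1 : ∀ x ∈ cm85_Vinf (K := K) (M' * q * q) hπ,
      x⁻¹ ∉ cm85_Vinf (K := K) (M' * q * q) hπ → ∃ k : ℕ,
        (algebraMap R ↥(modularFunctionFieldFullC K (M' * q * q)) π)⁻¹ * x ^ k ∈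
          cm85_Vinf (K := K) (M' * q * q) hπ := fun x _ hx' => hr1 x hx'
  have hrad2 : ∀ x ∈ V₂, x⁻¹ ∉ V₂ → ∃ k : ℕ,
      (algebraMap R ↥(modularFunctionFieldFullC K (M' * q * q)) π)⁻¹ * x ^ k ∈ V₂ :=
    fun x _ hx' => hr2 x hx'
  have hrad3 : ∀ x ∈ nsb86_V3 (K := K) M' q hq hM' hπ,
      x⁻¹ ∉ nsb86_V3 (K := K) M' q hq hM' hπ → ∃ k : ℕ,
        (algebraMap R ↥(modularFunctionFieldFullC K (M' * q * q)) π)⁻¹ * x ^ k ∈
          nsb86_V3 (K := K) M' q hq hM' hπ := fun x _ hx' => hr3 x hx'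
  obtain ⟨hπ0, hσ0, hπσ, hσe, hα₃, hβ₂, hβ₃⟩ :=
    tg71_inputs (K := K) M' q hq hM' hπ hqR V₂ hV₂ hπ₂ hne hs
  -- `σ` is a nonunit of `V₂`
  have hp0 : V₂.valuation (algebraMap R ↥(modularFunctionFieldFullC K (M' * q * q)) π) ≠ 0 :=
    (map_ne_zero V₂.valuation).mpr hπ0
  have hp1 : V₂.valuation (algebraMap R ↥(modularFunctionFieldFullC K (M' * q * q)) π) < 1 := by
    by_contra hcon
    apply hπ₂'
    rw [← ValuationSubring.valuation_le_one_iff, map_inv₀]
    exact inv_le_one_of_one_le₀ (not_lt.mp hcon)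
  obtain ⟨hv0, hv1, -⟩ := sm7_aux_val (V₂.valuation (v2g64_s K M' q))
    (V₂.valuation (algebraMap R ↥(modularFunctionFieldFullC K (M' * q * q)) π)) q hq.two_le
    hp0 hp1 hs'
  have hσV : v2g64_s K M' q ∈ V₂ := (ValuationSubring.valuation_le_one_iff V₂ _).mp hv1.le
  have hσinv : (v2g64_s K M' q)⁻¹ ∉ V₂ := by
    intro h
    have h1 := (ValuationSubring.valuation_le_one_iff V₂ _).mpr h
    rw [map_inv₀] at h1
    have h2 : 1 ≤ V₂.valuation (v2g64_s K M' q) := by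
      by_contra hcon
      have h3 : V₂.valuation (v2g64_s K M' q) * (V₂.valuation (v2g64_s K M' q))⁻¹ = 1 :=
        mul_inv_cancel₀ hv0
      have h4 : V₂.valuation (v2g64_s K M' q) * (V₂.valuation (v2g64_s K M' q))⁻¹ ≤
          V₂.valuation (v2g64_s K M' q) * 1 := mul_le_mul' le_rfl h1
      rw [h3, mul_one] at h4
      exact hcon h4
    exact absurd hv1 (not_lt.mpr h2)
  -- the point lies on two branches
  have htwo : (sf79_OnBr π (pk15_chart R s₂) (cm85_Vinf (K := K) (M' * q * q) hπ).toSubring n ∧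
        sf79_OnBr π (pk15_chart R s₂) V₂.toSubring n) ∨
      (sf79_OnBr π (pk15_chart R s₂) (cm85_Vinf (K := K) (M' * q * q) hπ).toSubring n ∧
        sf79_OnBr π (pk15_chart R s₂) (nsb86_V3 M' q hq hM' hπ).toSubring n) ∨
      (sf79_OnBr π (pk15_chart R s₂) V₂.toSubring n ∧
        sf79_OnBr π (pk15_chart R s₂) (nsb86_V3 M' q hq hM' hπ).toSubring n) := by
    by_contra hcon
    exact hnot ⟨fun h => hcon (Or.inl h), fun h => hcon (Or.inr (Or.inl h)),
      fun h => hcon (Or.inr (Or.inr h))⟩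
  have hB'Vi : ∀ x ∈ pk15_chart R s₁, x ∈ cm85_Vinf (K := K) (M' * q) hπ := fun x hx =>
    ((s34i47c_mem_W M' q hq hM' hπ x).mp (hB'W x hx)).1
  have hB'V0 : ∀ x ∈ pk15_chart R s₁, x ∈ s34i47c_V0 (K := K) M' q hq hM' hπ := fun x hx =>
    ((s34i47c_mem_W M' q hq hM' hπ x).mp (hB'W x hx)).2
  obtain ⟨⟨hOn1, hOn2, hOn3⟩, c1, c2, c3, c4, c5, c6, c7, c8, c9, c10, c11⟩ :=
    tn81_node (K := K) M' q hq hM' hπ hqR s₁ (pk15_chart R s₂) fα hfα hfαi fβ hfβ hfβi
      hB'Vi hB'V0 V₂ hV₂ hβ₂ hπ₂' hBV1 hBV2 hBV3 n htwo m hm0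
  obtain ⟨o1, o2, o3, o4⟩ := tll3_of_lifts (K := K) M' q hq hM' hπ V₂ s₁ s₂ hL fα hfα fβ hfβ
    hBV1 hBV2 hBV3 hrad1 hrad2 hrad3 n hOn1 hOn2 hOn3
  -- two generators at `n`, the divisors at `n`
  have h2 := hout.1 hreg n hn hπn hnot
  have hMid : tl71_OnMid (v2g64_s K M' q) (pk15_chart R s₂) V₂.toSubring n :=
    bg76_onMid_of_onBr π (v2g64_s K M' q) (pk15_chart R s₂) V₂ hrad2 hσV hσinv n hOn2
  have hL3 := bg76_three_lifts π (v2g64_s K M' q) (pk15_chart R s₂)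
    (cm85_Vinf (K := K) (M' * q * q) hπ) V₂ (nsb86_V3 (K := K) M' q hq hM' hπ)
    hBV1 hBV2 hBV3 hπ1 hπ₂' hπ3 hrad1 hrad2 hrad3
    (fun x _ hx0 => ha1 x hx0) (fun x _ hx0 => ha2 x hx0) (fun x _ hx0 => ha3 x hx0)
    hFrac hσV hσinv n hOn1 hOn2 hOn3 h2
    (hS₁ n hn hπn hOn1) (hS₂ n hn hπn hMid) (hS₃ n hn hπn hOn3)
    (hD₁ n hn hOn1 (Or.inl hMid)) (hD₃ n hn hOn3 (Or.inl hMid)) m hm0
  refine ⟨hOn1, hOn2, hOn3,
    ⟨sf79_loc (pk15_chart R s₁) (n.comap fα), sf79_loc (pk15_chart R s₁) (n.comap fβ),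
      c1, c2, c3, o1, o2, c4, c5, c6, o3, o4, c7, c8, c9, c10, c11⟩, ?_, hL3.1, hL3.2.1, hL3.2.2⟩
  -- the local root
  intro u hu0 hOrd hFin hu1 hu2 hu3
  obtain ⟨c, hc0, hcV1, hcV2, hcV3, -, hsu, hsu'⟩ :=
    lps9_strong_three_at π (v2g64_s K M' q) (q - 1) (pk15_chart R s₂)
      (cm85_Vinf (K := K) (M' * q * q) hπ) V₂ (nsb86_V3 (K := K) M' q hq hM' hπ)
      hBV1 hBV2 hBV3 hsat hπ0 hσ0 hσe hπ1 hπ₂' hπ3 hrad1 hrad2 hrad3 hFrac n hn hπn h2
      (hKr n hn hπn) (hD₁ n hn) (hD₃ n hn) m hm0 u hu0 hu1 hu2 hu3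
      (fun O hO _ => hOrd O hO) (hFin.subset fun _ hO => ⟨hO.1, hO.2.2⟩)
  exact ⟨c, hc0, hcV1 hOn1, hcV2 hOn2, hcV3 hOn3, hsu, hsu'⟩

end hc3

end Fermat.Agent.S36
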