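import Fermat.Agent.S36.HPThree77
import Fermat.Agent.S36.TripleLift32
import Fermat.Agent.S36.TwoGenCanon71
import Fermat.Agent.S36.FrameClauses73
import Fermat.Agent.S36.PointBind81
import Fermat.Agent.S36.NormGcd94
import Fermat.Agent.S34.Krull65
import Fermat.Agent.S34.BetaChart95

/-!
# S36 lab (helper77), row 605 (INV-core): the CANONICAL INSTANCE of (HP-3)

`cp57_HP3` (CorePoints57) on the canonical frame of level `M' q q`:
`V₁ = cm85_Vinf (M' * q * q) hπ`, `V₃ = nsb86_V3 M' q hq hM' hπ`, `V₂` ANY valuation subring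
with the four facts of row B1-V2 (`hV₂ hπ₂ hne hs`), `Vinf = cm85_Vinf (M' * q) hπ`,
`V0 = s34i47c_V0 M' q hq hM' hπ`, `al, be = al97L_alpha, al97L_beta K (M' * q) q`,
`Nal, Nbe = s35i62_normA, s35i62_normB K (M' * q) q`, charts `B = pk15_chart R {h}`, `{h⁻¹}` for
`h = pk85_h2 / pk85_h3` at level `M' q q`, `B'` the corresponding charts at level `M' q`.

Open hypotheses:
* `hreg` : `tf71_RegNodes B'` — the labelled regular nodes of the level-`q` chart ((REG-q), row 599);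
* `hAB`  : at every closed point `n` of `B` on two branches, the local rings `Aal`, `Abe` of the
  level-`q` chart at `α(n)`, `β(n)` with the clauses of `gcd26_datum_triple` (`hp3c77_AB`, row 632).

Everything else is discharged inside: the three `sf79_OnBr` at a point on two branches
(`pbi81_triple`, helper81), the two generators there (`tl71_twoGen_at`, `tf71_hD`, helper71), the
strong local factorisation (`lps9_strong_three_at`, helper9), the three branch root lifts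
(`tl32_three`, helper32), the global norm facts (`ng94_*`, helper94), the frame clauses
(`fc73_*`, helper73; `fb85_frameV3_level2/3`, helper85; `sm7_three_smooth_sq_level2/3`, helper7;
`kr65_Pkg_Krull`).

* `hp3c77_core`   : a pair of charts `(B', B)` with the frame facts as hypotheses;
* `hp3c77_charts` : both affine charts of an admissible Hauptmodul;
* `hp3c77_level2` : both affine charts of `pk85_h2` (`2 ∣ M'`);
* `hp3c77_level3` : both affine charts of `pk85_h3` (`3 ∣ M'`).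

All names are prefixed `hp3c77_`.
-/

set_option autoImplicit false
set_option linter.unusedSectionVars false
set_option linter.unusedVariables false
set_option linter.style.haveILetI false
set_option linter.style.longLine false

open ModularCurve

namespace Fermat.Agent.S36

open Fermat.Agent.S34 Fermat.Agent.S18 Fermat.Agent.S24 Fermat.Agent.S35
open Fermat.Agent.S36.TripleLoc71

local notation "Q̄" => AlgebraicClosure ℚ

section Defs

variable {R K F1 F2 : Type*} [CommRing R] [Field K] [Field F1] [Field F2] [Algebra R K]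
  [Algebra K F1] [Algebra R F2] [Algebra K F2]

/-- The level-`q` local-ring data at a closed point `n` of the chart `B` on two branches: the
fourth conjunct of `hp3x77_TripleData` (the `Aal`, `Abe` hypotheses of `gcd26_datum_triple`,
the constants of `R`, and the norms of the units of `B_n`). -/
def hp3c77_AB (K : Type*) [Field K] [Algebra R K] [Algebra K F1] (π : R) (m : ℕ)
    (B : Subalgebra R F2) (al be : F1 →+* F2) (Nal Nbe : F2 →* F1)
    (V₁ V₂ V₃ : ValuationSubring F2) (Vinf V0 : ValuationSubring F1)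
    (n : Ideal B) [n.IsPrime] : Prop :=
  ∃ Aal Abe : Subring F1,
    (∀ x ∈ Aal, al x ∈ sf79_loc B n) ∧ (∀ x ∈ Aal, x ∈ Vinf) ∧
    (∀ x ∈ Aal, (al x)⁻¹ ∈ sf79_loc B n → x⁻¹ ∈ Aal) ∧
    (∀ b ∈ sf79_loc B n, ∃ a ∈ Aal, V₁.valuation (al a - b) < 1) ∧
    (∀ b ∈ sf79_loc B n, ∃ a ∈ Aal, V₂.valuation (al a - b) < 1) ∧
    (∀ x ∈ Abe, be x ∈ sf79_loc B n) ∧ (∀ x ∈ Abe, x ∈ V0) ∧
    (∀ x ∈ Abe, (be x)⁻¹ ∈ sf79_loc B n → x⁻¹ ∈ Abe) ∧
    (∀ b ∈ sf79_loc B n, ∃ a ∈ Abe, V₃.valuation (be a - b) < 1) ∧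
    (∀ b ∈ sf79_loc B n, ∃ a ∈ Abe, V₂.valuation (be a - b) < 1) ∧
    (∀ x : F1, x ^ m ∈ Aal → x ∈ Aal) ∧ (∀ x : F1, x ^ m ∈ Abe → x ∈ Abe) ∧
    (∀ r : R, algebraMap K F1 (algebraMap R K r) ∈ Aal) ∧
    (∀ r : R, algebraMap K F1 (algebraMap R K r) ∈ Abe) ∧
    (∀ eps : F2, eps ≠ 0 → eps ∈ sf79_loc B n → eps⁻¹ ∈ sf79_loc B n →
      (Nal eps)⁻¹ ∈ Aal ∧ (Nbe eps)⁻¹ ∈ Abe)

end Defs

section HP3C

variable {R K : Type} [CommRing R] [IsDomain R] [IsDiscreteValuationRing R] [Field K]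
  [NumberField K] [Algebra R K] [IsFractionRing R K] [Algebra K Q̄] [Algebra.IsAlgebraic K Q̄]
  (M' q : ℕ) [NeZero M'] [NeZero q] (hq : q.Prime) (hM' : ¬ q ∣ M')
  {π : R} (hπ : Irreducible π)
  [Algebra R ↥(modularFunctionFieldFullC K M')]
  [IsScalarTower R K ↥(modularFunctionFieldFullC K M')]
  [Algebra R ↥(modularFunctionFieldFullC K (M' * q))]
  [IsScalarTower R K ↥(modularFunctionFieldFullC K (M' * q))]
  [Algebra R ↥(modularFunctionFieldFullC K (M' * q * q))]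
  [IsScalarTower R K ↥(modularFunctionFieldFullC K (M' * q * q))]

include hq hM' in
/-- **(HP-3) for a pair of charts** `(B', B)` of levels `M' q`, `M' q q` with the frame facts as
hypotheses (those of `tg71_core` + noetherian, fractions, Krull, `m` invertible), the three
branches at the points on two branches (`hthree`) and the level-`q` local data (`hAB`). -/
theorem hp3c77_core (hqR : ¬ IsUnit (q : R))
    (V₂ : ValuationSubring ↥(modularFunctionFieldFullC K (M' * q * q)))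
    (hV₂ : ∀ c ∈ cm85_Vinf (K := K) (M' * q) hπ, al97L_alpha K (M' * q) q c ∈ V₂)
    (hπ₂ : (algebraMap K ↥(modularFunctionFieldFullC K (M' * q * q)) (algebraMap R K π))⁻¹ ∉ V₂)
    (hne : cm85_Vinf (K := K) (M' * q * q) hπ ≠ V₂)
    (hs : V₂.valuation (v2g64_s K M' q) ^ (q - 1) =
      V₂.valuation (algebraMap K ↥(modularFunctionFieldFullC K (M' * q * q)) (algebraMap R K π)))
    (B' : Subalgebra R ↥(modularFunctionFieldFullC K (M' * q)))
    (B : Subalgebra R ↥(modularFunctionFieldFullC K (M' * q * q))) [IsNoetherianRing B]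
    (hαB : ∀ x ∈ B', al97L_alpha K (M' * q) q x ∈ B)
    (hβB : ∀ x ∈ B', al97L_beta K (M' * q) q x ∈ B)
    (hB'W : ∀ x ∈ B', x ∈ s34i47c_W (K := K) M' q hq hM' hπ)
    (hBW : ∀ x ∈ B, x ∈ (cm85_Vinf (K := K) (M' * q * q) hπ).toSubring ⊓ V₂.toSubring ⊓
      (nsb86_V3 (K := K) M' q hq hM' hπ).toSubring)
    (hsatW : ∀ x ∈ B, (algebraMap R ↥(modularFunctionFieldFullC K (M' * q * q)) π)⁻¹ * x ∈
        (cm85_Vinf (K := K) (M' * q * q) hπ).toSubring ⊓ V₂.toSubring ⊓ (nsb86_V3 (K := K) M' q hq hM' hπ).toSubring →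
      (algebraMap R ↥(modularFunctionFieldFullC K (M' * q * q)) π)⁻¹ * x ∈ B)
    (hS₁ : sf79_Smooth π B (cm85_Vinf (K := K) (M' * q * q) hπ).toSubring)
    (hS₂ : tl71_MidSmooth π (v2g64_s K M' q) B V₂.toSubring)
    (hS₃ : sf79_Smooth π B (nsb86_V3 (K := K) M' q hq hM' hπ).toSubring)
    (hfrac : ∀ t : ↥(modularFunctionFieldFullC K (M' * q * q)), ∃ a ∈ B, ∃ b ∈ B, b ≠ 0 ∧ t * b = a)
    (hKr : s34i47_Krull π B)
    (m : ℕ) (hm : 0 < m)
    (hmB : ∃ μ ∈ B, (m : ↥(modularFunctionFieldFullC K (M' * q * q))) * μ = 1)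
    (hreg : tf71_RegNodes (K := K) M' q hq hM' hπ B')
    (hthree : ∀ n : Ideal B, n.IsMaximal → algebraMap R B π ∈ n →
      ¬ cp57_OneBr π B (cm85_Vinf (K := K) (M' * q * q) hπ) V₂
        (nsb86_V3 (K := K) M' q hq hM' hπ) n →
      sf79_OnBr π B (cm85_Vinf (K := K) (M' * q * q) hπ).toSubring n ∧
        sf79_OnBr π B V₂.toSubring n ∧
        sf79_OnBr π B (nsb86_V3 (K := K) M' q hq hM' hπ).toSubring n)
    (hAB : ∀ (n : Ideal B) (hn : n.IsMaximal), algebraMap R B π ∈ n →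
      ¬ cp57_OneBr π B (cm85_Vinf (K := K) (M' * q * q) hπ) V₂
        (nsb86_V3 (K := K) M' q hq hM' hπ) n →
      @hp3c77_AB R ↥(modularFunctionFieldFullC K (M' * q))
        ↥(modularFunctionFieldFullC K (M' * q * q)) _ _ _ _ K _ _ _ π m B
        (al97L_alpha K (M' * q) q).toRingHom (al97L_beta K (M' * q) q).toRingHom
        (s35i62_normA K (M' * q) q) (s35i62_normB K (M' * q) q)
        (cm85_Vinf (K := K) (M' * q * q) hπ) V₂ (nsb86_V3 (K := K) M' q hq hM' hπ)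
        (cm85_Vinf (K := K) (M' * q) hπ) (s34i47c_V0 (K := K) M' q hq hM' hπ) n hn.isPrime) :
    cp57_HP3 (K := K) π q m B (al97L_alpha K (M' * q) q).toRingHom
      (al97L_beta K (M' * q) q).toRingHom (s35i62_normA K (M' * q) q) (s35i62_normB K (M' * q) q)
      (cm85_Vinf (K := K) (M' * q * q) hπ) V₂ (nsb86_V3 (K := K) M' q hq hM' hπ)
      (cm85_Vinf (K := K) (M' * q) hπ) (s34i47c_V0 (K := K) M' q hq hM' hπ) := by
  have e : algebraMap R ↥(modularFunctionFieldFullC K (M' * q * q)) π = (algebraMap K ↥(modularFunctionFieldFullC K (M' * q * q)) (algebraMap R K π)) :=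
    IsScalarTower.algebraMap_apply R K _ π
  have hπ0 : algebraMap R ↥(modularFunctionFieldFullC K (M' * q * q)) π ≠ 0 := by
    intro h0
    apply (ci22_Vinf_pi (K := K) (M' * q * q) hπ).2
    rw [h0, inv_zero]
    exact (cm85_Vinf (K := K) (M' * q * q) hπ).zero_mem
  have hp0 : V₂.valuation (algebraMap R ↥(modularFunctionFieldFullC K (M' * q * q)) π) ≠ 0 :=
    (map_ne_zero V₂.valuation).mpr hπ0
  have hp1 : V₂.valuation (algebraMap R ↥(modularFunctionFieldFullC K (M' * q * q)) π) < 1 := by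
    by_contra hcon
    apply hπ₂
    rw [← e, ← ValuationSubring.valuation_le_one_iff, map_inv₀]
    exact inv_le_one_of_one_le₀ (not_lt.mp hcon)
  have hs' : V₂.valuation (v2g64_s K M' q) ^ (q - 1) =
      V₂.valuation (algebraMap R ↥(modularFunctionFieldFullC K (M' * q * q)) π) := by
    rw [e]
    exact hs
  obtain ⟨ha0, -, ha2⟩ := sm7_aux_val (V₂.valuation (v2g64_s K M' q))
    (V₂.valuation (algebraMap R ↥(modularFunctionFieldFullC K (M' * q * q)) π)) q hq.two_le hp0 hp1 hs'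
  have hσ0 : (v2g64_s K M' q) ≠ 0 := fun h => ha0 (by rw [h, map_zero])
  have hπσ : algebraMap R ↥(modularFunctionFieldFullC K (M' * q * q)) π * (v2g64_s K M' q)⁻¹ ∈ V₂ := by
    rw [← ValuationSubring.valuation_le_one_iff, map_mul, map_inv₀]
    exact (mul_comm _ _).le.trans ha2
  have hσe : (algebraMap R ↥(modularFunctionFieldFullC K (M' * q * q)) π)⁻¹ * (v2g64_s K M' q) ^ (q - 1) ∈ V₂ := by
    rw [← ValuationSubring.valuation_le_one_iff, map_mul, map_inv₀, map_pow, hs',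
      inv_mul_cancel₀ hp0]
  -- `σ` is a nonunit of `V₂`
  have hσlt : V₂.valuation (v2g64_s K M' q) < 1 := by
    by_contra hcon
    have h1 : (1 : _) ≤ V₂.valuation (v2g64_s K M' q) ^ (q - 1) := one_le_pow₀ (not_lt.mp hcon)
    rw [hs'] at h1
    exact absurd hp1 (not_lt.mpr h1)
  have hσV : v2g64_s K M' q ∈ V₂ := (ValuationSubring.valuation_le_one_iff _ _).mp hσlt.le
  have hσi : (v2g64_s K M' q)⁻¹ ∉ V₂ := by
    intro h
    have h1 := (ValuationSubring.valuation_le_one_iff _ _).mpr h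
    rw [map_inv₀] at h1
    have hpos : 0 < V₂.valuation (v2g64_s K M' q) :=
      zero_lt_iff.mpr ((map_ne_zero _).mpr hσ0)
    exact absurd hσlt (not_lt.mpr ((inv_le_one₀ hpos).mp h1))
  have hL := nsb86_hL K (M' * q * q)
  have hV₃mem := nsb86_mem_V3 (K := K) M' q hq hM' hπ
  have hα₃ : ∀ x ∈ s34i47c_V0 (K := K) M' q hq hM' hπ,
      al97L_alpha K (M' * q) q x ∈ (nsb86_V3 (K := K) M' q hq hM' hπ) := fun c hc =>
    o3x72_V3_over (K := K) M' q hq hM' hπ hL _ hV₃mem c hc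
  have hβ₂ : ∀ x ∈ s34i47c_V0 (K := K) M' q hq hM' hπ, al97L_beta K (M' * q) q x ∈ V₂ :=
    fun c hc => (bv66_beta_mem_V2 (K := K) M' q hq hM' hπ hqR hL V₂ hV₂ hπ₂ hne c).mpr hc
  have hβ₃ : ∀ x ∈ s34i47c_V0 (K := K) M' q hq hM' hπ,
      al97L_beta K (M' * q) q x ∈ (nsb86_V3 (K := K) M' q hq hM' hπ) := fun c hc =>
    s3f66_V3_beta (K := K) M' q hq hM' hπ hL _ hV₃mem c hc
  have hB₁ : ∀ x ∈ B, x ∈ cm85_Vinf (K := K) (M' * q * q) hπ := fun x hx =>
    (Subring.mem_inf.mp (Subring.mem_inf.mp (hBW x hx)).1).1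
  have hB₂ : ∀ x ∈ B, x ∈ V₂ := fun x hx =>
    (Subring.mem_inf.mp (Subring.mem_inf.mp (hBW x hx)).1).2
  have hB₃ : ∀ x ∈ B, x ∈ nsb86_V3 (K := K) M' q hq hM' hπ := fun x hx =>
    (Subring.mem_inf.mp (hBW x hx)).2
  have hsat : ∀ x ∈ B,
      (algebraMap R ↥(modularFunctionFieldFullC K (M' * q * q)) π)⁻¹ * x ∈ cm85_Vinf (K := K) (M' * q * q) hπ →
      (algebraMap R ↥(modularFunctionFieldFullC K (M' * q * q)) π)⁻¹ * x ∈ V₂ →
      (algebraMap R ↥(modularFunctionFieldFullC K (M' * q * q)) π)⁻¹ * x ∈ nsb86_V3 (K := K) M' q hq hM' hπ →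
      (algebraMap R ↥(modularFunctionFieldFullC K (M' * q * q)) π)⁻¹ * x ∈ B := fun x hx h1 h2 h3 =>
    hsatW x hx (Subring.mem_inf.mpr ⟨Subring.mem_inf.mpr ⟨h1, h2⟩, h3⟩)
  obtain ⟨hD₁, hD₃⟩ := tf71_hD (K := K) M' q hq hM' hπ hqR V₂ (nsb86_V3 (K := K) M' q hq hM' hπ) (v2g64_s K M' q) hV₂ hα₃ hβ₂ hβ₃ hπσ
    B' B hαB hβB hB'W hreg
  -- `π⁻¹ ∉ V i`, `rad`, archimedean (helper73)
  have hpi := fc73_pi (K := K) M' q hq hM' hπ V₂ hπ₂
  have hrad := fc73_rad (K := K) M' q hq hM' hπ hqR V₂ hV₂ hπ₂ hne hs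
  have harch := fc73_arch (K := K) M' q hq hM' hπ V₂ hV₂ hπ₂
  refine hp3x77_HP3 (K := K) π q m hm B _ _ _ _ (cm85_Vinf (K := K) (M' * q * q) hπ) V₂
    (nsb86_V3 (K := K) M' q hq hM' hπ) (cm85_Vinf (K := K) (M' * q) hπ)
    (s34i47c_V0 (K := K) M' q hq hM' hπ) hmB hB₁ hB₂ hB₃ (hpi 0) (hpi 1) (hpi 2)
    (hrad 0) (hrad 1) (hrad 2)
    (fun x _ hx0 => harch 0 x hx0) (fun x _ hx0 => harch 1 x hx0) (fun x _ hx0 => harch 2 x hx0)
    hfrac ?_ ?_ ?_ ?_ ?_ ?_ ?_ ?_ ?_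
  · -- `α` fixes the constants
    intro r
    rw [IsScalarTower.algebraMap_apply R K ↥(modularFunctionFieldFullC K (M' * q * q))]
    exact (al97L_alpha K (M' * q) q).commutes _
  · intro r
    rw [IsScalarTower.algebraMap_apply R K ↥(modularFunctionFieldFullC K (M' * q * q))]
    exact (al97L_beta K (M' * q) q).commutes _
  · exact fun x hx => ng94_hal3 (K := K) M' q hq hM' hπ x hx
  · exact fun x hx => ng94_hbe1 (K := K) M' q hπ x hx
  · exact fun c h1 h2 h3 => ng94_N1 (K := K) M' q hq hπ V₂ hV₂ hπ₂ hne (v2g64_s K M' q) hs c h1.1 h2.1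
  · exact fun c h1 h2 h3 => ng94_N2 (K := K) M' q hq hM' hπ hqR c h3.1
  · exact fun c h1 h2 h3 => ng94_N4 (K := K) M' q hq hM' hπ hqR V₂ hV₂ hπ₂ hne (v2g64_s K M' q) hs c h3.1 h2.1
  · exact fun c h1 h2 h3 => ng94_N3 (K := K) M' q hq hM' hπ hqR c h1.1
  · -- the per-point data
    intro n hn hπn hnot
    haveI hnp : n.IsPrime := hn.isPrime
    obtain ⟨h1, h2, h3⟩ := hthree n hn hπn hnot
    have hgen : ∃ x y : B, x ∈ n ∧ y ∈ n ∧
        ∀ v ∈ n, ∃ s : B, s ∉ n ∧ ∃ a b : B, s * v = a * x + b * y :=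
      tl71_twoGen_at π (v2g64_s K M' q) (q - 1) B _ _ _ hB₁ hB₂ hB₃ hsat hπ0 hσ0 hσe hS₁ hS₃ hS₂
        n hn hπn (fun h1 h23 => hD₁ n hn h1 h23) (fun h3 h21 => hD₃ n hn h3 h21)
        (fun _ h1' _ => absurd h1 h1')
    have hon : tl71_OnMid (v2g64_s K M' q) B V₂.toSubring n :=
      lps9_onMid_of_onBr π (v2g64_s K M' q) (q - 1) B V₂.toSubring hσ0 hσe n h2
    unfold hp3x77_TripleData
    refine ⟨h1, h2, h3, hAB n hn hπn hnot, ?_, ?_⟩
    · intro u hu0 hOrd hFin hu1 hu2 hu3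
      obtain ⟨c, hc0, hc1, hc2, hc3, -, hsu, hsu'⟩ :=
        lps9_strong_three_at π (v2g64_s K M' q) (q - 1) B
          (cm85_Vinf (K := K) (M' * q * q) hπ) V₂ (nsb86_V3 (K := K) M' q hq hM' hπ)
          hB₁ hB₂ hB₃ hsat hπ0 hσ0 hσe (hpi 0) (hpi 1) (hpi 2) (hrad 0) (hrad 1) (hrad 2) hfrac
          n hn hπn hgen (hKr n hn hπn) (hD₁ n hn) (hD₃ n hn) m hm u hu0 hu1 hu2 hu3
          (fun O hO _ => hOrd O hO) (hFin.subset fun _ hO => ⟨hO.1, hO.2.2⟩)
      exact ⟨c, hc0, hc1 h1, hc2 h2, hc3 h3, hsu, hsu'⟩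
    · exact tl32_three π (v2g64_s K M' q) (q - 1) B
        (cm85_Vinf (K := K) (M' * q * q) hπ) V₂ (nsb86_V3 (K := K) M' q hq hM' hπ)
        hB₁ hB₂ hB₃ (hpi 0) (hpi 1) (hpi 2) (hrad 0) (hrad 1) (hrad 2)
        (fun x _ hx0 => harch 0 x hx0) (fun x _ hx0 => harch 1 x hx0)
        (fun x _ hx0 => harch 2 x hx0) hfrac hσ0 hσV hσi hσe hS₁ hS₃ hS₂ n hn hπn h1 h2 h3 hgen
        (hD₁ n hn h1 (Or.inl hon)) (hD₃ n hn h3 (Or.inl hon)) m hm

include hq hM' in
/-- **The three branches at a point on two branches** of a chart `B` of level `M' q q` over a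
chart `pk15_chart R s'` of level `M' q` with integral chart maps (`pbi81_triple`, helper81). -/
theorem hp3c77_three (hqR : ¬ IsUnit (q : R))
    (V₂ : ValuationSubring ↥(modularFunctionFieldFullC K (M' * q * q)))
    (hV₂ : ∀ c ∈ cm85_Vinf (K := K) (M' * q) hπ, al97L_alpha K (M' * q) q c ∈ V₂)
    (hπ₂ : (algebraMap K ↥(modularFunctionFieldFullC K (M' * q * q)) (algebraMap R K π))⁻¹ ∉ V₂)
    (hne : cm85_Vinf (K := K) (M' * q * q) hπ ≠ V₂)
    (s' : Set ↥(modularFunctionFieldFullC K (M' * q))) (B : Subalgebra R ↥(modularFunctionFieldFullC K (M' * q * q)))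
    (fα : ↥(pk15_chart R s') →+* ↥B)
    (hfα : ∀ x, ((fα x : ↥B) : ↥(modularFunctionFieldFullC K (M' * q * q))) = al97L_alpha K (M' * q) q (x : ↥(modularFunctionFieldFullC K (M' * q))))
    (hfαi : fα.IsIntegral)
    (fβ : ↥(pk15_chart R s') →+* ↥B)
    (hfβ : ∀ x, ((fβ x : ↥B) : ↥(modularFunctionFieldFullC K (M' * q * q))) = al97L_beta K (M' * q) q (x : ↥(modularFunctionFieldFullC K (M' * q))))
    (hfβi : fβ.IsIntegral)
    (hB'W : ∀ x ∈ pk15_chart R s', x ∈ s34i47c_W (K := K) M' q hq hM' hπ)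
    (hBW : ∀ x ∈ B, x ∈ (cm85_Vinf (K := K) (M' * q * q) hπ).toSubring ⊓ V₂.toSubring ⊓
      (nsb86_V3 (K := K) M' q hq hM' hπ).toSubring)
    (n : Ideal B) (hn : n.IsMaximal)
    (hnot : ¬ cp57_OneBr π B (cm85_Vinf (K := K) (M' * q * q) hπ) V₂ (nsb86_V3 (K := K) M' q hq hM' hπ) n) :
    sf79_OnBr π B (cm85_Vinf (K := K) (M' * q * q) hπ).toSubring n ∧ sf79_OnBr π B V₂.toSubring n ∧
      sf79_OnBr π B (nsb86_V3 (K := K) M' q hq hM' hπ).toSubring n := by
  haveI hnp : n.IsPrime := hn.isPrime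
  have hL := nsb86_hL K (M' * q * q)
  have hβ₂ : ∀ x ∈ s34i47c_V0 (K := K) M' q hq hM' hπ, al97L_beta K (M' * q) q x ∈ V₂ :=
    fun c hc => (bv66_beta_mem_V2 (K := K) M' q hq hM' hπ hqR hL V₂ hV₂ hπ₂ hne c).mpr hc
  have e : algebraMap R ↥(modularFunctionFieldFullC K (M' * q * q)) π = (algebraMap K ↥(modularFunctionFieldFullC K (M' * q * q)) (algebraMap R K π)) :=
    IsScalarTower.algebraMap_apply R K _ π
  have hπ₂' : (algebraMap R ↥(modularFunctionFieldFullC K (M' * q * q)) π)⁻¹ ∉ V₂ := by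
    rw [e]
    exact hπ₂
  have htwo : (sf79_OnBr π B (cm85_Vinf (K := K) (M' * q * q) hπ).toSubring n ∧ sf79_OnBr π B V₂.toSubring n) ∨
      (sf79_OnBr π B (cm85_Vinf (K := K) (M' * q * q) hπ).toSubring n ∧ sf79_OnBr π B (nsb86_V3 (K := K) M' q hq hM' hπ).toSubring n) ∨
      (sf79_OnBr π B V₂.toSubring n ∧ sf79_OnBr π B (nsb86_V3 (K := K) M' q hq hM' hπ).toSubring n) := by
    unfold cp57_OneBr at hnot
    tauto
  exact (pbi81_triple (K := K) M' q hq hM' hπ hqR s' B fα hfα hfαi fβ hfβ hfβi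
    (fun x hx => ((s34i47c_mem_W M' q hq hM' hπ x).mp (hB'W x hx)).1)
    (fun x hx => (s34i47c_mem_V0 M' q hq hM' hπ x).mpr
      ((s34i47c_mem_W M' q hq hM' hπ x).mp (hB'W x hx)).2)
    V₂ hV₂ hβ₂ hπ₂'
    (fun x hx => (Subring.mem_inf.mp (Subring.mem_inf.mp (hBW x hx)).1).1)
    (fun x hx => (Subring.mem_inf.mp (Subring.mem_inf.mp (hBW x hx)).1).2)
    (fun x hx => (Subring.mem_inf.mp (hBW x hx)).2) n htwo).1

include hq hM' in
/-- **(HP-3) on both charts of a Hauptmodul** `h = α h'` of the canonical frame, from (C) for `h`,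
(3a) for the three branches on both charts and the `β`-chart maps. -/
theorem hp3c77_charts (hunit : ∀ n : ℕ, Nat.Coprime n q → IsUnit (n : R))
    (hqR : ¬ IsUnit (q : R))
    (V₂ : ValuationSubring ↥(modularFunctionFieldFullC K (M' * q * q)))
    (hV₂ : ∀ c ∈ cm85_Vinf (K := K) (M' * q) hπ, al97L_alpha K (M' * q) q c ∈ V₂)
    (hπ₂ : (algebraMap K ↥(modularFunctionFieldFullC K (M' * q * q)) (algebraMap R K π))⁻¹ ∉ V₂)
    (hne : cm85_Vinf (K := K) (M' * q * q) hπ ≠ V₂)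
    (hs : V₂.valuation (v2g64_s K M' q) ^ (q - 1) =
      V₂.valuation (algebraMap K ↥(modularFunctionFieldFullC K (M' * q * q)) (algebraMap R K π)))
    (h' : ↥(modularFunctionFieldFullC K (M' * q))) (hh' : s34i47c_IsHaupt K (M' * q) q h')
    (h : ↥(modularFunctionFieldFullC K (M' * q * q))) (hαh : al97L_alpha K (M' * q) q h' = h)
    (hC : s34i47_ChartProps K π ((cm85_Vinf (K := K) (M' * q * q) hπ).toSubring ⊓ V₂.toSubring ⊓
      (nsb86_V3 (K := K) M' q hq hM' hπ).toSubring) h)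
    (hsm₁ : (sf79_Smooth π (pk15_chart R ({h} : Set ↥(modularFunctionFieldFullC K (M' * q * q)))) (cm85_Vinf (K := K) (M' * q * q) hπ).toSubring ∧
      tl71_MidSmooth π (v2g64_s K M' q) (pk15_chart R ({h} : Set ↥(modularFunctionFieldFullC K (M' * q * q)))) V₂.toSubring ∧
      sf79_Smooth π (pk15_chart R ({h} : Set ↥(modularFunctionFieldFullC K (M' * q * q)))) (nsb86_V3 (K := K) M' q hq hM' hπ).toSubring))
    (hsm₂ : (sf79_Smooth π (pk15_chart R ({h⁻¹} : Set ↥(modularFunctionFieldFullC K (M' * q * q)))) (cm85_Vinf (K := K) (M' * q * q) hπ).toSubring ∧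
      tl71_MidSmooth π (v2g64_s K M' q) (pk15_chart R ({h⁻¹} : Set ↥(modularFunctionFieldFullC K (M' * q * q)))) V₂.toSubring ∧
      sf79_Smooth π (pk15_chart R ({h⁻¹} : Set ↥(modularFunctionFieldFullC K (M' * q * q)))) (nsb86_V3 (K := K) M' q hq hM' hπ).toSubring))
    (hfβ₁ : ∃ f : ↥(pk15_chart R ({h'} : Set ↥(modularFunctionFieldFullC K (M' * q)))) →+* ↥(pk15_chart R ({h} : Set ↥(modularFunctionFieldFullC K (M' * q * q)))),
      (∀ x : ↥(pk15_chart R ({h'} : Set ↥(modularFunctionFieldFullC K (M' * q)))), ((f x : ↥(pk15_chart R ({h} : Set ↥(modularFunctionFieldFullC K (M' * q * q))))) : ↥(modularFunctionFieldFullC K (M' * q * q))) =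
        al97L_beta K (M' * q) q (x : ↥(modularFunctionFieldFullC K (M' * q)))) ∧ f.IsIntegral)
    (hfβ₂ : ∃ f : ↥(pk15_chart R ({h'⁻¹} : Set ↥(modularFunctionFieldFullC K (M' * q)))) →+* ↥(pk15_chart R ({h⁻¹} : Set ↥(modularFunctionFieldFullC K (M' * q * q)))),
      (∀ x : ↥(pk15_chart R ({h'⁻¹} : Set ↥(modularFunctionFieldFullC K (M' * q)))), ((f x : ↥(pk15_chart R ({h⁻¹} : Set ↥(modularFunctionFieldFullC K (M' * q * q))))) : ↥(modularFunctionFieldFullC K (M' * q * q))) =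
        al97L_beta K (M' * q) q (x : ↥(modularFunctionFieldFullC K (M' * q)))) ∧ f.IsIntegral)
    (m : ℕ) (hm0 : 0 < m) (hm : IsUnit (m : R)) :
    (tf71_RegNodes (K := K) M' q hq hM' hπ (pk15_chart R ({h'} : Set ↥(modularFunctionFieldFullC K (M' * q)))) →
      (∀ (n : Ideal ↥(pk15_chart R ({h} : Set ↥(modularFunctionFieldFullC K (M' * q * q))))) (hn : n.IsMaximal),
        algebraMap R ↥(pk15_chart R ({h} : Set ↥(modularFunctionFieldFullC K (M' * q * q)))) π ∈ n →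
        ¬ cp57_OneBr π (pk15_chart R ({h} : Set ↥(modularFunctionFieldFullC K (M' * q * q)))) (cm85_Vinf (K := K) (M' * q * q) hπ) V₂ (nsb86_V3 (K := K) M' q hq hM' hπ) n →
        @hp3c77_AB R ↥(modularFunctionFieldFullC K (M' * q)) ↥(modularFunctionFieldFullC K (M' * q * q)) _ _ _ _ K _ _ _ π m (pk15_chart R ({h} : Set ↥(modularFunctionFieldFullC K (M' * q * q))))
          (al97L_alpha K (M' * q) q).toRingHom (al97L_beta K (M' * q) q).toRingHom
          (s35i62_normA K (M' * q) q) (s35i62_normB K (M' * q) q)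
          (cm85_Vinf (K := K) (M' * q * q) hπ) V₂ (nsb86_V3 (K := K) M' q hq hM' hπ)
          (cm85_Vinf (K := K) (M' * q) hπ) (s34i47c_V0 (K := K) M' q hq hM' hπ) n hn.isPrime) →
      cp57_HP3 (K := K) π q m (pk15_chart R ({h} : Set ↥(modularFunctionFieldFullC K (M' * q * q))))
        (al97L_alpha K (M' * q) q).toRingHom (al97L_beta K (M' * q) q).toRingHom
        (s35i62_normA K (M' * q) q) (s35i62_normB K (M' * q) q)
        (cm85_Vinf (K := K) (M' * q * q) hπ) V₂ (nsb86_V3 (K := K) M' q hq hM' hπ)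
        (cm85_Vinf (K := K) (M' * q) hπ) (s34i47c_V0 (K := K) M' q hq hM' hπ)) ∧
    (tf71_RegNodes (K := K) M' q hq hM' hπ (pk15_chart R ({h'⁻¹} : Set ↥(modularFunctionFieldFullC K (M' * q)))) →
      (∀ (n : Ideal ↥(pk15_chart R ({h⁻¹} : Set ↥(modularFunctionFieldFullC K (M' * q * q))))) (hn : n.IsMaximal),
        algebraMap R ↥(pk15_chart R ({h⁻¹} : Set ↥(modularFunctionFieldFullC K (M' * q * q)))) π ∈ n →
        ¬ cp57_OneBr π (pk15_chart R ({h⁻¹} : Set ↥(modularFunctionFieldFullC K (M' * q * q)))) (cm85_Vinf (K := K) (M' * q * q) hπ) V₂ (nsb86_V3 (K := K) M' q hq hM' hπ) n →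
        @hp3c77_AB R ↥(modularFunctionFieldFullC K (M' * q)) ↥(modularFunctionFieldFullC K (M' * q * q)) _ _ _ _ K _ _ _ π m (pk15_chart R ({h⁻¹} : Set ↥(modularFunctionFieldFullC K (M' * q * q))))
          (al97L_alpha K (M' * q) q).toRingHom (al97L_beta K (M' * q) q).toRingHom
          (s35i62_normA K (M' * q) q) (s35i62_normB K (M' * q) q)
          (cm85_Vinf (K := K) (M' * q * q) hπ) V₂ (nsb86_V3 (K := K) M' q hq hM' hπ)
          (cm85_Vinf (K := K) (M' * q) hπ) (s34i47c_V0 (K := K) M' q hq hM' hπ) n hn.isPrime) →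
      cp57_HP3 (K := K) π q m (pk15_chart R ({h⁻¹} : Set ↥(modularFunctionFieldFullC K (M' * q * q))))
        (al97L_alpha K (M' * q) q).toRingHom (al97L_beta K (M' * q) q).toRingHom
        (s35i62_normA K (M' * q) q) (s35i62_normB K (M' * q) q)
        (cm85_Vinf (K := K) (M' * q * q) hπ) V₂ (nsb86_V3 (K := K) M' q hq hM' hπ)
        (cm85_Vinf (K := K) (M' * q) hπ) (s34i47c_V0 (K := K) M' q hq hM' hπ)) := by
  obtain ⟨hα1, hα2⟩ := cm71_alpha_charts (R := R) (K := K) (M' * q) q h'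
  obtain ⟨hβ1, hβ2⟩ := cm71_beta_charts (R := R) (K := K) (M' * q) q hq hunit h' hh'
  rw [hαh] at hα1 hα2 hβ1 hβ2
  obtain ⟨⟨hBW₁, -⟩, ⟨hBW₂, -⟩⟩ := nf79c_chart_facts (K := K) M' q hq hM' hπ hunit hqR h' hh'
  obtain ⟨htr, h12W, hsat1, hsat2, -, hN₁, hN₂, hfin, hfrac⟩ := hC
  have hh0 : h ≠ 0 := by
    rintro rfl
    exact htr isAlgebraic_zero
  have hfrac₂ := ca57_frac_inv (R := R) h hh0 hfrac
  obtain ⟨hKr₁, hKr₂⟩ := kr65_Pkg_Krull R K ↥(modularFunctionFieldFullC K (M' * q * q)) π hπ h htr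
    hN₁ hN₂ hfin hfrac
  obtain ⟨μ, hμ⟩ := hm.exists_right_inv
  have hmB : ∀ B : Subalgebra R ↥(modularFunctionFieldFullC K (M' * q * q)),
      ∃ μ' ∈ B, (m : ↥(modularFunctionFieldFullC K (M' * q * q))) * μ' = 1 := by
    intro B
    refine ⟨algebraMap R ↥(modularFunctionFieldFullC K (M' * q * q)) μ, B.algebraMap_mem μ, ?_⟩
    have e : (m : ↥(modularFunctionFieldFullC K (M' * q * q))) =
        algebraMap R ↥(modularFunctionFieldFullC K (M' * q * q)) (m : R) := by simp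
    rw [e, ← map_mul, hμ, map_one]
  have hsub1 : ({h} : Set ↥(modularFunctionFieldFullC K (M' * q * q))) ⊆ {h, h⁻¹} := by
    intro x hx
    rw [Set.mem_singleton_iff.mp hx]
    exact Set.mem_insert _ _
  have hsub2 : ({h⁻¹} : Set ↥(modularFunctionFieldFullC K (M' * q * q))) ⊆ {h, h⁻¹} := by
    intro x hx
    rw [Set.mem_singleton_iff.mp hx]
    exact Set.mem_insert_of_mem _ rfl
  obtain ⟨a1, a2, a3⟩ := hsm₁
  obtain ⟨b1, b2, b3⟩ := hsm₂
  obtain ⟨⟨fα₁, hfα₁, hfα₁i⟩, ⟨fα₂, hfα₂, hfα₂i⟩⟩ :=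
    bc95_alpha (R := R) (K := K) (M' * q) q h' h hαh
  obtain ⟨fβ₁, hfβ₁', hfβ₁i⟩ := hfβ₁
  obtain ⟨fβ₂, hfβ₂', hfβ₂i⟩ := hfβ₂
  constructor
  · intro hreg hAB
    haveI := hN₁
    exact hp3c77_core (K := K) M' q hq hM' hπ hqR V₂ hV₂ hπ₂ hne hs _ _ hα1 hβ1 hBW₁
      (fun x hx => h12W x (pk15_chart_mono hsub1 hx)) hsat1 a1 a2 a3 hfrac hKr₁ m hm0 (hmB _)
      hreg
      (fun n hn hπn hnot => hp3c77_three (K := K) M' q hq hM' hπ hqR V₂ hV₂ hπ₂ hne _ _
        fα₁ hfα₁ hfα₁i fβ₁ hfβ₁' hfβ₁i hBW₁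
        (fun x hx => h12W x (pk15_chart_mono hsub1 hx)) n hn hnot)
      hAB
  · intro hreg hAB
    haveI := hN₂
    exact hp3c77_core (K := K) M' q hq hM' hπ hqR V₂ hV₂ hπ₂ hne hs _ _ hα2 hβ2 hBW₂
      (fun x hx => h12W x (pk15_chart_mono hsub2 hx)) hsat2 b1 b2 b3 hfrac₂ hKr₂ m hm0 (hmB _)
      hreg
      (fun n hn hπn hnot => hp3c77_three (K := K) M' q hq hM' hπ hqR V₂ hV₂ hπ₂ hne _ _
        fα₂ hfα₂ hfα₂i fβ₂ hfβ₂' hfβ₂i hBW₂
        (fun x hx => h12W x (pk15_chart_mono hsub2 hx)) n hn hnot)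
      hAB

include hq hM' in
/-- **(HP-3) on the canonical frame, Hauptmodul of level 2**: both affine charts (`V₂` ANY
valuation subring with the four facts of row B1-V2). Open: `tf71_RegNodes` of the level-`q`
chart and the level-`q` local data `hp3c77_AB` at the closed points on two branches. -/
theorem hp3c77_level2 (hunit : ∀ n : ℕ, Nat.Coprime n q → IsUnit (n : R))
    (hqR : ¬ IsUnit (q : R)) (hMu : IsUnit (M' : R)) (h2 : 2 ∣ M')
    (V₂ : ValuationSubring ↥(modularFunctionFieldFullC K (M' * q * q)))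
    (hV₂ : ∀ c ∈ cm85_Vinf (K := K) (M' * q) hπ, al97L_alpha K (M' * q) q c ∈ V₂)
    (hπ₂ : (algebraMap K ↥(modularFunctionFieldFullC K (M' * q * q)) (algebraMap R K π))⁻¹ ∉ V₂)
    (hne : cm85_Vinf (K := K) (M' * q * q) hπ ≠ V₂)
    (hs : V₂.valuation (v2g64_s K M' q) ^ (q - 1) =
      V₂.valuation (algebraMap K ↥(modularFunctionFieldFullC K (M' * q * q)) (algebraMap R K π)))
    (m : ℕ) (hm0 : 0 < m) (hm : IsUnit (m : R)) :
    (tf71_RegNodes (K := K) M' q hq hM' hπ (pk15_chart R ({pk85_h2 K (M' * q) (h2.trans (dvd_mul_right M' q))} : Set ↥(modularFunctionFieldFullC K (M' * q)))) →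
      (∀ (n : Ideal ↥(pk15_chart R ({pk85_h2 K (M' * q * q) (h2.trans ((dvd_mul_right M' q).trans (dvd_mul_right (M' * q) q)))} : Set ↥(modularFunctionFieldFullC K (M' * q * q))))) (hn : n.IsMaximal),
        algebraMap R ↥(pk15_chart R ({pk85_h2 K (M' * q * q) (h2.trans ((dvd_mul_right M' q).trans (dvd_mul_right (M' * q) q)))} : Set ↥(modularFunctionFieldFullC K (M' * q * q)))) π ∈ n →
        ¬ cp57_OneBr π (pk15_chart R ({pk85_h2 K (M' * q * q) (h2.trans ((dvd_mul_right M' q).trans (dvd_mul_right (M' * q) q)))} : Set ↥(modularFunctionFieldFullC K (M' * q * q)))) (cm85_Vinf (K := K) (M' * q * q) hπ) V₂ (nsb86_V3 (K := K) M' q hq hM' hπ) n →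
        @hp3c77_AB R ↥(modularFunctionFieldFullC K (M' * q)) ↥(modularFunctionFieldFullC K (M' * q * q)) _ _ _ _ K _ _ _ π m (pk15_chart R ({pk85_h2 K (M' * q * q) (h2.trans ((dvd_mul_right M' q).trans (dvd_mul_right (M' * q) q)))} : Set ↥(modularFunctionFieldFullC K (M' * q * q))))
          (al97L_alpha K (M' * q) q).toRingHom (al97L_beta K (M' * q) q).toRingHom
          (s35i62_normA K (M' * q) q) (s35i62_normB K (M' * q) q)
          (cm85_Vinf (K := K) (M' * q * q) hπ) V₂ (nsb86_V3 (K := K) M' q hq hM' hπ)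
          (cm85_Vinf (K := K) (M' * q) hπ) (s34i47c_V0 (K := K) M' q hq hM' hπ) n hn.isPrime) →
      cp57_HP3 (K := K) π q m (pk15_chart R ({pk85_h2 K (M' * q * q) (h2.trans ((dvd_mul_right M' q).trans (dvd_mul_right (M' * q) q)))} : Set ↥(modularFunctionFieldFullC K (M' * q * q))))
        (al97L_alpha K (M' * q) q).toRingHom (al97L_beta K (M' * q) q).toRingHom
        (s35i62_normA K (M' * q) q) (s35i62_normB K (M' * q) q)
        (cm85_Vinf (K := K) (M' * q * q) hπ) V₂ (nsb86_V3 (K := K) M' q hq hM' hπ)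
        (cm85_Vinf (K := K) (M' * q) hπ) (s34i47c_V0 (K := K) M' q hq hM' hπ)) ∧
    (tf71_RegNodes (K := K) M' q hq hM' hπ (pk15_chart R ({(pk85_h2 K (M' * q) (h2.trans (dvd_mul_right M' q)))⁻¹} : Set ↥(modularFunctionFieldFullC K (M' * q)))) →
      (∀ (n : Ideal ↥(pk15_chart R ({(pk85_h2 K (M' * q * q) (h2.trans ((dvd_mul_right M' q).trans (dvd_mul_right (M' * q) q))))⁻¹} : Set ↥(modularFunctionFieldFullC K (M' * q * q))))) (hn : n.IsMaximal),
        algebraMap R ↥(pk15_chart R ({(pk85_h2 K (M' * q * q) (h2.trans ((dvd_mul_right M' q).trans (dvd_mul_right (M' * q) q))))⁻¹} : Set ↥(modularFunctionFieldFullC K (M' * q * q)))) π ∈ n →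
        ¬ cp57_OneBr π (pk15_chart R ({(pk85_h2 K (M' * q * q) (h2.trans ((dvd_mul_right M' q).trans (dvd_mul_right (M' * q) q))))⁻¹} : Set ↥(modularFunctionFieldFullC K (M' * q * q)))) (cm85_Vinf (K := K) (M' * q * q) hπ) V₂ (nsb86_V3 (K := K) M' q hq hM' hπ) n →
        @hp3c77_AB R ↥(modularFunctionFieldFullC K (M' * q)) ↥(modularFunctionFieldFullC K (M' * q * q)) _ _ _ _ K _ _ _ π m (pk15_chart R ({(pk85_h2 K (M' * q * q) (h2.trans ((dvd_mul_right M' q).trans (dvd_mul_right (M' * q) q))))⁻¹} : Set ↥(modularFunctionFieldFullC K (M' * q * q))))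
          (al97L_alpha K (M' * q) q).toRingHom (al97L_beta K (M' * q) q).toRingHom
          (s35i62_normA K (M' * q) q) (s35i62_normB K (M' * q) q)
          (cm85_Vinf (K := K) (M' * q * q) hπ) V₂ (nsb86_V3 (K := K) M' q hq hM' hπ)
          (cm85_Vinf (K := K) (M' * q) hπ) (s34i47c_V0 (K := K) M' q hq hM' hπ) n hn.isPrime) →
      cp57_HP3 (K := K) π q m (pk15_chart R ({(pk85_h2 K (M' * q * q) (h2.trans ((dvd_mul_right M' q).trans (dvd_mul_right (M' * q) q))))⁻¹} : Set ↥(modularFunctionFieldFullC K (M' * q * q))))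
        (al97L_alpha K (M' * q) q).toRingHom (al97L_beta K (M' * q) q).toRingHom
        (s35i62_normA K (M' * q) q) (s35i62_normB K (M' * q) q)
        (cm85_Vinf (K := K) (M' * q * q) hπ) V₂ (nsb86_V3 (K := K) M' q hq hM' hπ)
        (cm85_Vinf (K := K) (M' * q) hπ) (s34i47c_V0 (K := K) M' q hq hM' hπ)) := by
  have hqp : q ≠ 2 := by
    intro h
    apply hM'
    rw [h]
    exact h2
  have hh' : s34i47c_IsHaupt K (M' * q) q (pk85_h2 K (M' * q) (h2.trans (dvd_mul_right M' q))) :=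
    Or.inl ⟨hqp, (h2.trans (dvd_mul_right M' q)), rfl⟩
  have hαh : al97L_alpha K (M' * q) q (pk85_h2 K (M' * q) (h2.trans (dvd_mul_right M' q))) =
      pk85_h2 K (M' * q * q) (h2.trans ((dvd_mul_right M' q).trans (dvd_mul_right (M' * q) q))) :=
    Subtype.ext (by rw [al97L_alpha_coe, pk85_h2_coe, pk85_h2_coe])
  obtain ⟨-, hC, -⟩ := fb85_frameV3_level2 M' q hq hM' hπ hqR hMu h2 V₂ hV₂ hπ₂ hs
  have e : algebraMap R ↥(modularFunctionFieldFullC K (M' * q * q)) π = (algebraMap K ↥(modularFunctionFieldFullC K (M' * q * q)) (algebraMap R K π)) :=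
    IsScalarTower.algebraMap_apply R K _ π
  have hπ₂' : (algebraMap R ↥(modularFunctionFieldFullC K (M' * q * q)) π)⁻¹ ∉ V₂ := by
    rw [e]
    exact hπ₂
  have hs' : V₂.valuation (v2g64_s K M' q) ^ (q - 1) =
      V₂.valuation (algebraMap R ↥(modularFunctionFieldFullC K (M' * q * q)) π) := by
    rw [e]
    exact hs
  obtain ⟨hsm₁, hsm₂⟩ := sm7_three_smooth_sq_level2 (R := R) (K := K) M' q hq hM'
    hπ hqR h2 hMu V₂ hV₂ hπ₂' hne (v2g64_s K M' q) hs'
  have hpR : IsUnit ((2 : ℕ) : R) :=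
    hunit 2 ((Nat.coprime_primes (by norm_num) hq).mpr (Ne.symm hqp))
  have hpR' : IsUnit (2 : R) := by
    simpa using hpR
  obtain ⟨hfβ₁, hfβ₂⟩ := bc95_beta_level2 (R := R) (K := K) (M' * q) q hq hqp hpR'
    (h2.trans (dvd_mul_right M' q)) (pk85_h2 K (M' * q) (h2.trans (dvd_mul_right M' q))) (pk85_h2 K (M' * q * q) (h2.trans ((dvd_mul_right M' q).trans (dvd_mul_right (M' * q) q))))
    (pk85_h2_coe K (M' * q) _) (pk85_h2_coe K (M' * q * q) _)
  exact hp3c77_charts (K := K) M' q hq hM' hπ hunit hqR V₂ hV₂ hπ₂ hne hs _ hh' _ hαh hC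
    hsm₁ hsm₂ hfβ₁ hfβ₂ m hm0 hm

include hq hM' in
/-- **(HP-3) on the canonical frame, Hauptmodul of level 3**: both affine charts (`V₂` ANY
valuation subring with the four facts of row B1-V2). Open: `tf71_RegNodes` of the level-`q`
chart and the level-`q` local data `hp3c77_AB` at the closed points on two branches. -/
theorem hp3c77_level3 (hunit : ∀ n : ℕ, Nat.Coprime n q → IsUnit (n : R))
    (hqR : ¬ IsUnit (q : R)) (hMu : IsUnit (M' : R)) (h3 : 3 ∣ M')
    (V₂ : ValuationSubring ↥(modularFunctionFieldFullC K (M' * q * q)))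
    (hV₂ : ∀ c ∈ cm85_Vinf (K := K) (M' * q) hπ, al97L_alpha K (M' * q) q c ∈ V₂)
    (hπ₂ : (algebraMap K ↥(modularFunctionFieldFullC K (M' * q * q)) (algebraMap R K π))⁻¹ ∉ V₂)
    (hne : cm85_Vinf (K := K) (M' * q * q) hπ ≠ V₂)
    (hs : V₂.valuation (v2g64_s K M' q) ^ (q - 1) =
      V₂.valuation (algebraMap K ↥(modularFunctionFieldFullC K (M' * q * q)) (algebraMap R K π)))
    (m : ℕ) (hm0 : 0 < m) (hm : IsUnit (m : R)) :
    (tf71_RegNodes (K := K) M' q hq hM' hπ (pk15_chart R ({pk85_h3 K (M' * q) (h3.trans (dvd_mul_right M' q))} : Set ↥(modularFunctionFieldFullC K (M' * q)))) →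
      (∀ (n : Ideal ↥(pk15_chart R ({pk85_h3 K (M' * q * q) (h3.trans ((dvd_mul_right M' q).trans (dvd_mul_right (M' * q) q)))} : Set ↥(modularFunctionFieldFullC K (M' * q * q))))) (hn : n.IsMaximal),
        algebraMap R ↥(pk15_chart R ({pk85_h3 K (M' * q * q) (h3.trans ((dvd_mul_right M' q).trans (dvd_mul_right (M' * q) q)))} : Set ↥(modularFunctionFieldFullC K (M' * q * q)))) π ∈ n →
        ¬ cp57_OneBr π (pk15_chart R ({pk85_h3 K (M' * q * q) (h3.trans ((dvd_mul_right M' q).trans (dvd_mul_right (M' * q) q)))} : Set ↥(modularFunctionFieldFullC K (M' * q * q)))) (cm85_Vinf (K := K) (M' * q * q) hπ) V₂ (nsb86_V3 (K := K) M' q hq hM' hπ) n →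
        @hp3c77_AB R ↥(modularFunctionFieldFullC K (M' * q)) ↥(modularFunctionFieldFullC K (M' * q * q)) _ _ _ _ K _ _ _ π m (pk15_chart R ({pk85_h3 K (M' * q * q) (h3.trans ((dvd_mul_right M' q).trans (dvd_mul_right (M' * q) q)))} : Set ↥(modularFunctionFieldFullC K (M' * q * q))))
          (al97L_alpha K (M' * q) q).toRingHom (al97L_beta K (M' * q) q).toRingHom
          (s35i62_normA K (M' * q) q) (s35i62_normB K (M' * q) q)
          (cm85_Vinf (K := K) (M' * q * q) hπ) V₂ (nsb86_V3 (K := K) M' q hq hM' hπ)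
          (cm85_Vinf (K := K) (M' * q) hπ) (s34i47c_V0 (K := K) M' q hq hM' hπ) n hn.isPrime) →
      cp57_HP3 (K := K) π q m (pk15_chart R ({pk85_h3 K (M' * q * q) (h3.trans ((dvd_mul_right M' q).trans (dvd_mul_right (M' * q) q)))} : Set ↥(modularFunctionFieldFullC K (M' * q * q))))
        (al97L_alpha K (M' * q) q).toRingHom (al97L_beta K (M' * q) q).toRingHom
        (s35i62_normA K (M' * q) q) (s35i62_normB K (M' * q) q)
        (cm85_Vinf (K := K) (M' * q * q) hπ) V₂ (nsb86_V3 (K := K) M' q hq hM' hπ)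
        (cm85_Vinf (K := K) (M' * q) hπ) (s34i47c_V0 (K := K) M' q hq hM' hπ)) ∧
    (tf71_RegNodes (K := K) M' q hq hM' hπ (pk15_chart R ({(pk85_h3 K (M' * q) (h3.trans (dvd_mul_right M' q)))⁻¹} : Set ↥(modularFunctionFieldFullC K (M' * q)))) →
      (∀ (n : Ideal ↥(pk15_chart R ({(pk85_h3 K (M' * q * q) (h3.trans ((dvd_mul_right M' q).trans (dvd_mul_right (M' * q) q))))⁻¹} : Set ↥(modularFunctionFieldFullC K (M' * q * q))))) (hn : n.IsMaximal),
        algebraMap R ↥(pk15_chart R ({(pk85_h3 K (M' * q * q) (h3.trans ((dvd_mul_right M' q).trans (dvd_mul_right (M' * q) q))))⁻¹} : Set ↥(modularFunctionFieldFullC K (M' * q * q)))) π ∈ n →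
        ¬ cp57_OneBr π (pk15_chart R ({(pk85_h3 K (M' * q * q) (h3.trans ((dvd_mul_right M' q).trans (dvd_mul_right (M' * q) q))))⁻¹} : Set ↥(modularFunctionFieldFullC K (M' * q * q)))) (cm85_Vinf (K := K) (M' * q * q) hπ) V₂ (nsb86_V3 (K := K) M' q hq hM' hπ) n →
        @hp3c77_AB R ↥(modularFunctionFieldFullC K (M' * q)) ↥(modularFunctionFieldFullC K (M' * q * q)) _ _ _ _ K _ _ _ π m (pk15_chart R ({(pk85_h3 K (M' * q * q) (h3.trans ((dvd_mul_right M' q).trans (dvd_mul_right (M' * q) q))))⁻¹} : Set ↥(modularFunctionFieldFullC K (M' * q * q))))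
          (al97L_alpha K (M' * q) q).toRingHom (al97L_beta K (M' * q) q).toRingHom
          (s35i62_normA K (M' * q) q) (s35i62_normB K (M' * q) q)
          (cm85_Vinf (K := K) (M' * q * q) hπ) V₂ (nsb86_V3 (K := K) M' q hq hM' hπ)
          (cm85_Vinf (K := K) (M' * q) hπ) (s34i47c_V0 (K := K) M' q hq hM' hπ) n hn.isPrime) →
      cp57_HP3 (K := K) π q m (pk15_chart R ({(pk85_h3 K (M' * q * q) (h3.trans ((dvd_mul_right M' q).trans (dvd_mul_right (M' * q) q))))⁻¹} : Set ↥(modularFunctionFieldFullC K (M' * q * q))))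
        (al97L_alpha K (M' * q) q).toRingHom (al97L_beta K (M' * q) q).toRingHom
        (s35i62_normA K (M' * q) q) (s35i62_normB K (M' * q) q)
        (cm85_Vinf (K := K) (M' * q * q) hπ) V₂ (nsb86_V3 (K := K) M' q hq hM' hπ)
        (cm85_Vinf (K := K) (M' * q) hπ) (s34i47c_V0 (K := K) M' q hq hM' hπ)) := by
  have hqp : q ≠ 3 := by
    intro h
    apply hM'
    rw [h]
    exact h3
  have hh' : s34i47c_IsHaupt K (M' * q) q (pk85_h3 K (M' * q) (h3.trans (dvd_mul_right M' q))) :=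
    Or.inr ⟨hqp, (h3.trans (dvd_mul_right M' q)), rfl⟩
  have hαh : al97L_alpha K (M' * q) q (pk85_h3 K (M' * q) (h3.trans (dvd_mul_right M' q))) =
      pk85_h3 K (M' * q * q) (h3.trans ((dvd_mul_right M' q).trans (dvd_mul_right (M' * q) q))) :=
    Subtype.ext (by rw [al97L_alpha_coe, pk85_h3_coe, pk85_h3_coe])
  obtain ⟨-, hC, -⟩ := fb85_frameV3_level3 M' q hq hM' hπ hqR hMu h3 V₂ hV₂ hπ₂ hs
  have e : algebraMap R ↥(modularFunctionFieldFullC K (M' * q * q)) π = (algebraMap K ↥(modularFunctionFieldFullC K (M' * q * q)) (algebraMap R K π)) :=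
    IsScalarTower.algebraMap_apply R K _ π
  have hπ₂' : (algebraMap R ↥(modularFunctionFieldFullC K (M' * q * q)) π)⁻¹ ∉ V₂ := by
    rw [e]
    exact hπ₂
  have hs' : V₂.valuation (v2g64_s K M' q) ^ (q - 1) =
      V₂.valuation (algebraMap R ↥(modularFunctionFieldFullC K (M' * q * q)) π) := by
    rw [e]
    exact hs
  obtain ⟨hsm₁, hsm₂⟩ := sm7_three_smooth_sq_level3 (R := R) (K := K) M' q hq hM'
    hπ hqR h3 hMu V₂ hV₂ hπ₂' hne (v2g64_s K M' q) hs'
  have hpR : IsUnit ((3 : ℕ) : R) :=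
    hunit 3 ((Nat.coprime_primes (by norm_num) hq).mpr (Ne.symm hqp))
  have hpR' : IsUnit (3 : R) := by
    simpa using hpR
  obtain ⟨hfβ₁, hfβ₂⟩ := bc95_beta_level3 (R := R) (K := K) (M' * q) q hq hqp hpR'
    (h3.trans (dvd_mul_right M' q)) (pk85_h3 K (M' * q) (h3.trans (dvd_mul_right M' q))) (pk85_h3 K (M' * q * q) (h3.trans ((dvd_mul_right M' q).trans (dvd_mul_right (M' * q) q))))
    (pk85_h3_coe K (M' * q) _) (pk85_h3_coe K (M' * q * q) _)
  exact hp3c77_charts (K := K) M' q hq hM' hπ hunit hqR V₂ hV₂ hπ₂ hne hs _ hh' _ hαh hC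
    hsm₁ hsm₂ hfβ₁ hfβ₂ m hm0 hm

end HP3C

end Fermat.Agent.S36
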