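import Fermat.Agent.S36.HP3Canon28
import Fermat.Agent.S36.TripleNode81
import Fermat.Agent.S36.TripleLiftLoc3
import Fermat.Agent.S34.BetaChart95

/-!
# S36 lab (helper28), row 605 (INV-core): the CANONICAL INSTANCE of (HP-3), closed form

`cp57_HP3` on BOTH affine charts of the Hauptmodul of the canonical frame of level `M' q q`
(`V₁ = cm85_Vinf (M' * q * q) hπ`, `V₃ = nsb86_V3`, `V₂` ANY valuation subring with the four
facts `hV₂ hπ₂ hne hs`, `Vinf = cm85_Vinf (M' * q) hπ`, `V0 = s34i47c_V0`,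
`al / be = (al97L_alpha / al97L_beta K (M' * q) q).toRingHom`, `Nal / Nbe = s35i62_normA/B`).

The ONLY open hypothesis is `tf71_RegNodes` on the two charts of level `M' q` ((REG-q), row 599).

* `hp3c28_pair`   : a pair of charts `(pk15_chart R s₁, pk15_chart R s₂)`; the block
  `hp3c28_Block` is discharged by `tn81_node` (helper81) and `tll3_of_lifts` (helper3);
* `hp3c28_charts` : both charts of an admissible Hauptmodul `h = α h'`;
* `hp3c28_level2`, `hp3c28_level3` : `h = pk85_h2`, `pk85_h3` (chart maps `bc95_alpha`,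
  `bc95_beta_level2/3`; residue lifts `tl3_lifts_level2/3`; frame `fb85_frameV3_level2/3`,
  `sm7_three_smooth_sq_level2/3`).

All names are prefixed `hp3c28_`.
-/

set_option autoImplicit false
set_option linter.unusedSectionVars false
set_option linter.unusedVariables false
set_option linter.style.haveILetI false
set_option linter.style.longLine false

open ModularCurve

namespace Fermat.Agent.S36

open Fermat.Agent.S34 Fermat.Agent.S18 Fermat.Agent.S24 Fermat.Agent.S35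
  Fermat.Agent.S36.TripleLoc71

local notation "Q̄" => AlgebraicClosure ℚ

section HP3CB

variable {R K : Type} [CommRing R] [IsDomain R] [IsDiscreteValuationRing R] [Field K]
  [NumberField K] [Algebra R K] [IsFractionRing R K] [Algebra K Q̄] [Algebra.IsAlgebraic K Q̄]
  (M' q : ℕ) [NeZero M'] [NeZero q] (hq : q.Prime) (hM' : ¬ q ∣ M')
  {π : R} (hπ : Irreducible π)
  [Algebra R ↥(modularFunctionFieldFullC K M')]
  [IsScalarTower R K ↥(modularFunctionFieldFullC K M')]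
  [Algebra R ↥(modularFunctionFieldFullC K (M' * q))]
  [IsScalarTower R K ↥(modularFunctionFieldFullC K (M' * q))]
  [Algebra R ↥(modularFunctionFieldFullC K (M' * q * q))]
  [IsScalarTower R K ↥(modularFunctionFieldFullC K (M' * q * q))]

include hq hM' in
/-- **(HP-3) for a pair of charts** `(pk15_chart R s₁, pk15_chart R s₂)` of levels `M' q`,
`M' q q`: frame facts + the two integral chart maps + the four chart-level residue lifts
`tl3_Lifts` + labelled regular nodes on the level-`M' q` chart. -/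
theorem hp3c28_pair (hqR : ¬ IsUnit (q : R))
    (V₂ : ValuationSubring ↥(modularFunctionFieldFullC K (M' * q * q)))
    (hV₂ : ∀ c ∈ cm85_Vinf (K := K) (M' * q) hπ, al97L_alpha K (M' * q) q c ∈ V₂)
    (hπ₂ : (algebraMap K ↥(modularFunctionFieldFullC K (M' * q * q)) (algebraMap R K π))⁻¹ ∉ V₂)
    (hne : cm85_Vinf (K := K) (M' * q * q) hπ ≠ V₂)
    (hs : V₂.valuation (v2g64_s K M' q) ^ (q - 1) =
      V₂.valuation (algebraMap K ↥(modularFunctionFieldFullC K (M' * q * q)) (algebraMap R K π)))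
    (s₁ : Set ↥(modularFunctionFieldFullC K (M' * q)))
    (s₂ : Set ↥(modularFunctionFieldFullC K (M' * q * q)))
    [IsNoetherianRing ↥(pk15_chart R s₂)]
    (hαB : ∀ x ∈ pk15_chart R s₁, al97L_alpha K (M' * q) q x ∈ pk15_chart R s₂)
    (hβB : ∀ x ∈ pk15_chart R s₁, al97L_beta K (M' * q) q x ∈ pk15_chart R s₂)
    (hB'W : ∀ x ∈ pk15_chart R s₁, x ∈ s34i47c_W (K := K) M' q hq hM' hπ)
    (hBW : ∀ x ∈ pk15_chart R s₂, x ∈ (cm85_Vinf (K := K) (M' * q * q) hπ).toSubring ⊓ V₂.toSubring ⊓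
      (nsb86_V3 (K := K) M' q hq hM' hπ).toSubring)
    (hsatW : ∀ x ∈ pk15_chart R s₂, (algebraMap R ↥(modularFunctionFieldFullC K (M' * q * q)) π)⁻¹ * x ∈
        (cm85_Vinf (K := K) (M' * q * q) hπ).toSubring ⊓ V₂.toSubring ⊓ (nsb86_V3 (K := K) M' q hq hM' hπ).toSubring →
      (algebraMap R ↥(modularFunctionFieldFullC K (M' * q * q)) π)⁻¹ * x ∈ pk15_chart R s₂)
    (hS₁ : sf79_Smooth π (pk15_chart R s₂) (cm85_Vinf (K := K) (M' * q * q) hπ).toSubring)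
    (hS₂ : tl71_MidSmooth π (v2g64_s K M' q) (pk15_chart R s₂) V₂.toSubring)
    (hS₃ : sf79_Smooth π (pk15_chart R s₂) (nsb86_V3 (K := K) M' q hq hM' hπ).toSubring)
    (hfrac : ∀ t : ↥(modularFunctionFieldFullC K (M' * q * q)), ∃ a ∈ pk15_chart R s₂, ∃ b ∈ pk15_chart R s₂, b ≠ 0 ∧ t * b = a)
    (hKr : s34i47_Krull π (pk15_chart R s₂))
    (m : ℕ) (hm : 0 < m)
    (hmB : ∃ μ ∈ pk15_chart R s₂, (m : ↥(modularFunctionFieldFullC K (M' * q * q))) * μ = 1)
    (fα : ↥(pk15_chart R s₁) →+* ↥(pk15_chart R s₂))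
    (hfα : ∀ x, ((fα x : ↥(pk15_chart R s₂)) : ↥(modularFunctionFieldFullC K (M' * q * q))) =
      al97L_alpha K (M' * q) q (x : ↥(modularFunctionFieldFullC K (M' * q))))
    (hfαi : fα.IsIntegral)
    (fβ : ↥(pk15_chart R s₁) →+* ↥(pk15_chart R s₂))
    (hfβ : ∀ x, ((fβ x : ↥(pk15_chart R s₂)) : ↥(modularFunctionFieldFullC K (M' * q * q))) =
      al97L_beta K (M' * q) q (x : ↥(modularFunctionFieldFullC K (M' * q))))
    (hfβi : fβ.IsIntegral)
    (hL : tl3_Lifts (K := K) M' q hq hM' hπ V₂ s₁ s₂)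
    (hreg : tf71_RegNodes (K := K) M' q hq hM' hπ (pk15_chart R s₁)) :
    cp57_HP3 (K := K) π q m (pk15_chart R s₂) (al97L_alpha K (M' * q) q).toRingHom
      (al97L_beta K (M' * q) q).toRingHom (s35i62_normA K (M' * q) q)
      (s35i62_normB K (M' * q) q) (cm85_Vinf (K := K) (M' * q * q) hπ) V₂
      (nsb86_V3 (K := K) M' q hq hM' hπ) (cm85_Vinf (K := K) (M' * q) hπ)
      (s34i47c_V0 (K := K) M' q hq hM' hπ) := by
  have e : algebraMap R ↥(modularFunctionFieldFullC K (M' * q * q)) π = (algebraMap K ↥(modularFunctionFieldFullC K (M' * q * q)) (algebraMap R K π)) :=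
    IsScalarTower.algebraMap_apply R K _ π
  have hπ₂' : (algebraMap R ↥(modularFunctionFieldFullC K (M' * q * q)) π)⁻¹ ∉ V₂ := by
    rw [e]
    exact hπ₂
  have hLL := nsb86_hL K (M' * q * q)
  have hβ₂ : ∀ x ∈ s34i47c_V0 (K := K) M' q hq hM' hπ, al97L_beta K (M' * q) q x ∈ V₂ :=
    fun c hc => (bv66_beta_mem_V2 (K := K) M' q hq hM' hπ hqR hLL V₂ hV₂ hπ₂ hne c).mpr hc
  have hB₁ : ∀ x ∈ pk15_chart R s₂, x ∈ cm85_Vinf (K := K) (M' * q * q) hπ := fun x hx =>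
    (Subring.mem_inf.mp (Subring.mem_inf.mp (hBW x hx)).1).1
  have hB₂ : ∀ x ∈ pk15_chart R s₂, x ∈ V₂ := fun x hx =>
    (Subring.mem_inf.mp (Subring.mem_inf.mp (hBW x hx)).1).2
  have hB₃ : ∀ x ∈ pk15_chart R s₂, x ∈ nsb86_V3 (K := K) M' q hq hM' hπ := fun x hx =>
    (Subring.mem_inf.mp (hBW x hx)).2
  have hrad := fc73_rad (K := K) M' q hq hM' hπ hqR V₂ hV₂ hπ₂ hne hs
  have hB'Vi : ∀ x ∈ pk15_chart R s₁, x ∈ cm85_Vinf (K := K) (M' * q) hπ := fun x hx =>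
    ((s34i47c_mem_W (K := K) M' q hq hM' hπ x).mp (hB'W x hx)).1
  have hB'V0 : ∀ x ∈ pk15_chart R s₁, x ∈ s34i47c_V0 (K := K) M' q hq hM' hπ := fun x hx =>
    ((s34i47c_mem_W (K := K) M' q hq hM' hπ x).mp (hB'W x hx)).2
  refine hp3c28_core (K := K) M' q hq hM' hπ hqR V₂ hV₂ hπ₂ hne hs s₁ (pk15_chart R s₂) hαB hβB
    hB'W hBW hsatW hS₁ hS₂ hS₃ hfrac hKr m hm hmB fα hfα hfαi fβ hfβ hfβi hreg ?_
  intro n hn hπn hnot
  haveI hnp : n.IsPrime := hn.isPrime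
  have htwo : (sf79_OnBr π (pk15_chart R s₂) (cm85_Vinf (K := K) (M' * q * q) hπ).toSubring n ∧
        sf79_OnBr π (pk15_chart R s₂) V₂.toSubring n) ∨
      (sf79_OnBr π (pk15_chart R s₂) (cm85_Vinf (K := K) (M' * q * q) hπ).toSubring n ∧
        sf79_OnBr π (pk15_chart R s₂) (nsb86_V3 M' q hq hM' hπ).toSubring n) ∨
      (sf79_OnBr π (pk15_chart R s₂) V₂.toSubring n ∧
        sf79_OnBr π (pk15_chart R s₂) (nsb86_V3 M' q hq hM' hπ).toSubring n) := by
    by_contra hcon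
    exact hnot ⟨fun h => hcon (Or.inl h), fun h => hcon (Or.inr (Or.inl h)),
      fun h => hcon (Or.inr (Or.inr h))⟩
  obtain ⟨⟨h1, h2, h3⟩, hABa, hAinf, hloca, hABb, hA0, hlocb, hrootA, hrootB, hcA, hcB, hN⟩ :=
    tn81_node (K := K) M' q hq hM' hπ hqR s₁ (pk15_chart R s₂) fα hfα hfαi fβ hfβ hfβi hB'Vi
      hB'V0 V₂ hV₂ hβ₂ hπ₂' hB₁ hB₂ hB₃ n htwo m hm
  obtain ⟨hO1, hO2, hO3, hO2'⟩ := tll3_of_lifts (K := K) M' q hq hM' hπ V₂ s₁ s₂ hL fα hfα fβ hfβ
    hB₁ hB₂ hB₃ (hrad 0) (hrad 1) (hrad 2) n h1 h2 h3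
  exact ⟨sf79_loc (pk15_chart R s₁) (n.comap fα), sf79_loc (pk15_chart R s₁) (n.comap fβ),
    hABa, hAinf, hloca, hO1, hO2, hABb, hA0, hlocb, hO3, hO2', hrootA, hrootB, hcA, hcB, hN⟩

include hq hM' in
/-- **(HP-3) on both charts of a Hauptmodul** `h = α h'` of the canonical frame. -/
theorem hp3c28_charts (hunit : ∀ n : ℕ, Nat.Coprime n q → IsUnit (n : R))
    (hqR : ¬ IsUnit (q : R))
    (V₂ : ValuationSubring ↥(modularFunctionFieldFullC K (M' * q * q)))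
    (hV₂ : ∀ c ∈ cm85_Vinf (K := K) (M' * q) hπ, al97L_alpha K (M' * q) q c ∈ V₂)
    (hπ₂ : (algebraMap K ↥(modularFunctionFieldFullC K (M' * q * q)) (algebraMap R K π))⁻¹ ∉ V₂)
    (hne : cm85_Vinf (K := K) (M' * q * q) hπ ≠ V₂)
    (hs : V₂.valuation (v2g64_s K M' q) ^ (q - 1) =
      V₂.valuation (algebraMap K ↥(modularFunctionFieldFullC K (M' * q * q)) (algebraMap R K π)))
    (h' : ↥(modularFunctionFieldFullC K (M' * q))) (hh' : s34i47c_IsHaupt K (M' * q) q h')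
    (h : ↥(modularFunctionFieldFullC K (M' * q * q))) (hαh : al97L_alpha K (M' * q) q h' = h)
    (hC : s34i47_ChartProps K π ((cm85_Vinf (K := K) (M' * q * q) hπ).toSubring ⊓ V₂.toSubring ⊓
      (nsb86_V3 (K := K) M' q hq hM' hπ).toSubring) h)
    (hsm₁ : (sf79_Smooth π (pk15_chart R ({h} : Set ↥(modularFunctionFieldFullC K (M' * q * q)))) (cm85_Vinf (K := K) (M' * q * q) hπ).toSubring ∧
      tl71_MidSmooth π (v2g64_s K M' q) (pk15_chart R ({h} : Set ↥(modularFunctionFieldFullC K (M' * q * q)))) V₂.toSubring ∧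
      sf79_Smooth π (pk15_chart R ({h} : Set ↥(modularFunctionFieldFullC K (M' * q * q)))) (nsb86_V3 (K := K) M' q hq hM' hπ).toSubring))
    (hsm₂ : (sf79_Smooth π (pk15_chart R ({h⁻¹} : Set ↥(modularFunctionFieldFullC K (M' * q * q)))) (cm85_Vinf (K := K) (M' * q * q) hπ).toSubring ∧
      tl71_MidSmooth π (v2g64_s K M' q) (pk15_chart R ({h⁻¹} : Set ↥(modularFunctionFieldFullC K (M' * q * q)))) V₂.toSubring ∧
      sf79_Smooth π (pk15_chart R ({h⁻¹} : Set ↥(modularFunctionFieldFullC K (M' * q * q)))) (nsb86_V3 (K := K) M' q hq hM' hπ).toSubring))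
    (hL₁ : tl3_Lifts (K := K) M' q hq hM' hπ V₂ {h'} {h})
    (hL₂ : tl3_Lifts (K := K) M' q hq hM' hπ V₂ {h'⁻¹} {h⁻¹})
    (hfβ : (∃ f : ↥(pk15_chart R ({h'} : Set ↥(modularFunctionFieldFullC K (M' * q)))) →+*
        ↥(pk15_chart R ({h} : Set ↥(modularFunctionFieldFullC K (M' * q * q)))),
      (∀ x : ↥(pk15_chart R ({h'} : Set ↥(modularFunctionFieldFullC K (M' * q)))),
        ((f x : ↥(pk15_chart R ({h} : Set ↥(modularFunctionFieldFullC K (M' * q * q))))) : ↥(modularFunctionFieldFullC K (M' * q * q))) =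
          al97L_beta K (M' * q) q (x : ↥(modularFunctionFieldFullC K (M' * q)))) ∧ f.IsIntegral) ∧
      (∃ f : ↥(pk15_chart R ({h'⁻¹} : Set ↥(modularFunctionFieldFullC K (M' * q)))) →+*
        ↥(pk15_chart R ({h⁻¹} : Set ↥(modularFunctionFieldFullC K (M' * q * q)))),
      (∀ x : ↥(pk15_chart R ({h'⁻¹} : Set ↥(modularFunctionFieldFullC K (M' * q)))),
        ((f x : ↥(pk15_chart R ({h⁻¹} : Set ↥(modularFunctionFieldFullC K (M' * q * q))))) : ↥(modularFunctionFieldFullC K (M' * q * q))) =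
          al97L_beta K (M' * q) q (x : ↥(modularFunctionFieldFullC K (M' * q)))) ∧ f.IsIntegral))
    (m : ℕ) (hm0 : 0 < m) (hm : IsUnit (m : R)) :
    (tf71_RegNodes (K := K) M' q hq hM' hπ (pk15_chart R ({h'} : Set ↥(modularFunctionFieldFullC K (M' * q)))) →
      cp57_HP3 (K := K) π q m (pk15_chart R ({h} : Set ↥(modularFunctionFieldFullC K (M' * q * q)))) (al97L_alpha K (M' * q) q).toRingHom
      (al97L_beta K (M' * q) q).toRingHom (s35i62_normA K (M' * q) q)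
      (s35i62_normB K (M' * q) q) (cm85_Vinf (K := K) (M' * q * q) hπ) V₂
      (nsb86_V3 (K := K) M' q hq hM' hπ) (cm85_Vinf (K := K) (M' * q) hπ)
      (s34i47c_V0 (K := K) M' q hq hM' hπ)) ∧
    (tf71_RegNodes (K := K) M' q hq hM' hπ (pk15_chart R ({h'⁻¹} : Set ↥(modularFunctionFieldFullC K (M' * q)))) →
      cp57_HP3 (K := K) π q m (pk15_chart R ({h⁻¹} : Set ↥(modularFunctionFieldFullC K (M' * q * q)))) (al97L_alpha K (M' * q) q).toRingHom
      (al97L_beta K (M' * q) q).toRingHom (s35i62_normA K (M' * q) q)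
      (s35i62_normB K (M' * q) q) (cm85_Vinf (K := K) (M' * q * q) hπ) V₂
      (nsb86_V3 (K := K) M' q hq hM' hπ) (cm85_Vinf (K := K) (M' * q) hπ)
      (s34i47c_V0 (K := K) M' q hq hM' hπ)) := by
  obtain ⟨hα1, hα2⟩ := cm71_alpha_charts (R := R) (K := K) (M' * q) q h'
  obtain ⟨hβ1, hβ2⟩ := cm71_beta_charts (R := R) (K := K) (M' * q) q hq hunit h' hh'
  rw [hαh] at hα1 hα2 hβ1 hβ2
  obtain ⟨⟨hBW₁, -⟩, ⟨hBW₂, -⟩⟩ := nf79c_chart_facts (K := K) M' q hq hM' hπ hunit hqR h' hh'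
  obtain ⟨htr, h12W, hsat1, hsat2, -, hN₁, hN₂, hfin, hfrac⟩ := hC
  have hh0 : h ≠ 0 := by
    rintro rfl
    exact htr isAlgebraic_zero
  have hfrac₂ := ca57_frac_inv (R := R) h hh0 hfrac
  obtain ⟨hKr₁, hKr₂⟩ := kr65_Pkg_Krull R K ↥(modularFunctionFieldFullC K (M' * q * q)) π hπ h htr
    hN₁ hN₂ hfin hfrac
  obtain ⟨μ, hμ⟩ := hm.exists_right_inv
  have hmB : ∀ B : Subalgebra R ↥(modularFunctionFieldFullC K (M' * q * q)),
      ∃ μ' ∈ B, (m : ↥(modularFunctionFieldFullC K (M' * q * q))) * μ' = 1 := by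
    intro B
    refine ⟨algebraMap R ↥(modularFunctionFieldFullC K (M' * q * q)) μ, B.algebraMap_mem μ, ?_⟩
    have e : (m : ↥(modularFunctionFieldFullC K (M' * q * q))) =
        algebraMap R ↥(modularFunctionFieldFullC K (M' * q * q)) (m : R) := by simp
    rw [e, ← map_mul, hμ, map_one]
  have hsub1 : ({h} : Set ↥(modularFunctionFieldFullC K (M' * q * q))) ⊆ {h, h⁻¹} := by
    intro x hx
    rw [Set.mem_singleton_iff.mp hx]
    exact Set.mem_insert _ _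
  have hsub2 : ({h⁻¹} : Set ↥(modularFunctionFieldFullC K (M' * q * q))) ⊆ {h, h⁻¹} := by
    intro x hx
    rw [Set.mem_singleton_iff.mp hx]
    exact Set.mem_insert_of_mem _ rfl
  obtain ⟨a1, a2, a3⟩ := hsm₁
  obtain ⟨b1, b2, b3⟩ := hsm₂
  obtain ⟨⟨fα₁, hfα₁, hfα₁i⟩, ⟨fα₂, hfα₂, hfα₂i⟩⟩ :=
    bc95_alpha (R := R) (K := K) (M' * q) q h' h hαh
  obtain ⟨⟨fβ₁, hfβ₁, hfβ₁i⟩, ⟨fβ₂, hfβ₂, hfβ₂i⟩⟩ := hfβ
  constructor
  · intro hreg
    haveI := hN₁
    exact hp3c28_pair (K := K) M' q hq hM' hπ hqR V₂ hV₂ hπ₂ hne hs _ _ hα1 hβ1 hBW₁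
      (fun x hx => h12W x (pk15_chart_mono hsub1 hx)) hsat1 a1 a2 a3 hfrac hKr₁ m hm0 (hmB _)
      fα₁ hfα₁ hfα₁i fβ₁ hfβ₁ hfβ₁i hL₁ hreg
  · intro hreg
    haveI := hN₂
    exact hp3c28_pair (K := K) M' q hq hM' hπ hqR V₂ hV₂ hπ₂ hne hs _ _ hα2 hβ2 hBW₂
      (fun x hx => h12W x (pk15_chart_mono hsub2 hx)) hsat2 b1 b2 b3 hfrac₂ hKr₂ m hm0 (hmB _)
      fα₂ hfα₂ hfα₂i fβ₂ hfβ₂ hfβ₂i hL₂ hreg

include hq hM' in
/-- **(HP-3) on the canonical frame, Hauptmodul of level 2**: both affine charts (`V₂` ANY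
valuation subring with the four facts of row B1-V2). Open: `tf71_RegNodes` of the two level-`M' q`
charts. -/
theorem hp3c28_level2 (hunit : ∀ n : ℕ, Nat.Coprime n q → IsUnit (n : R))
    (hqR : ¬ IsUnit (q : R)) (hMu : IsUnit (M' : R)) (h2 : 2 ∣ M')
    (V₂ : ValuationSubring ↥(modularFunctionFieldFullC K (M' * q * q)))
    (hV₂ : ∀ c ∈ cm85_Vinf (K := K) (M' * q) hπ, al97L_alpha K (M' * q) q c ∈ V₂)
    (hπ₂ : (algebraMap K ↥(modularFunctionFieldFullC K (M' * q * q)) (algebraMap R K π))⁻¹ ∉ V₂)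
    (hne : cm85_Vinf (K := K) (M' * q * q) hπ ≠ V₂)
    (hs : V₂.valuation (v2g64_s K M' q) ^ (q - 1) =
      V₂.valuation (algebraMap K ↥(modularFunctionFieldFullC K (M' * q * q)) (algebraMap R K π)))
    (m : ℕ) (hm0 : 0 < m) (hm : IsUnit (m : R)) :
    (tf71_RegNodes (K := K) M' q hq hM' hπ (pk15_chart R ({pk85_h2 K (M' * q) (h2.trans (dvd_mul_right M' q))} : Set ↥(modularFunctionFieldFullC K (M' * q)))) →
      cp57_HP3 (K := K) π q m (pk15_chart R ({pk85_h2 K (M' * q * q) (h2.trans ((dvd_mul_right M' q).trans (dvd_mul_right (M' * q) q)))} : Set ↥(modularFunctionFieldFullC K (M' * q * q)))) (al97L_alpha K (M' * q) q).toRingHom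
      (al97L_beta K (M' * q) q).toRingHom (s35i62_normA K (M' * q) q)
      (s35i62_normB K (M' * q) q) (cm85_Vinf (K := K) (M' * q * q) hπ) V₂
      (nsb86_V3 (K := K) M' q hq hM' hπ) (cm85_Vinf (K := K) (M' * q) hπ)
      (s34i47c_V0 (K := K) M' q hq hM' hπ)) ∧
    (tf71_RegNodes (K := K) M' q hq hM' hπ (pk15_chart R ({(pk85_h2 K (M' * q) (h2.trans (dvd_mul_right M' q)))⁻¹} : Set ↥(modularFunctionFieldFullC K (M' * q)))) →
      cp57_HP3 (K := K) π q m (pk15_chart R ({(pk85_h2 K (M' * q * q) (h2.trans ((dvd_mul_right M' q).trans (dvd_mul_right (M' * q) q))))⁻¹} : Set ↥(modularFunctionFieldFullC K (M' * q * q)))) (al97L_alpha K (M' * q) q).toRingHom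
      (al97L_beta K (M' * q) q).toRingHom (s35i62_normA K (M' * q) q)
      (s35i62_normB K (M' * q) q) (cm85_Vinf (K := K) (M' * q * q) hπ) V₂
      (nsb86_V3 (K := K) M' q hq hM' hπ) (cm85_Vinf (K := K) (M' * q) hπ)
      (s34i47c_V0 (K := K) M' q hq hM' hπ)) := by
  have hqp : q ≠ 2 := by
    intro h
    apply hM'
    rw [h]
    exact h2
  have hh' : s34i47c_IsHaupt K (M' * q) q (pk85_h2 K (M' * q) (h2.trans (dvd_mul_right M' q))) :=
    Or.inl ⟨hqp, (h2.trans (dvd_mul_right M' q)), rfl⟩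
  have hαh : al97L_alpha K (M' * q) q (pk85_h2 K (M' * q) (h2.trans (dvd_mul_right M' q))) =
      pk85_h2 K (M' * q * q) (h2.trans ((dvd_mul_right M' q).trans (dvd_mul_right (M' * q) q))) :=
    Subtype.ext (by rw [al97L_alpha_coe, pk85_h2_coe, pk85_h2_coe])
  obtain ⟨-, hC, -⟩ := fb85_frameV3_level2 M' q hq hM' hπ hqR hMu h2 V₂ hV₂ hπ₂ hs
  have e : algebraMap R ↥(modularFunctionFieldFullC K (M' * q * q)) π = (algebraMap K ↥(modularFunctionFieldFullC K (M' * q * q)) (algebraMap R K π)) :=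
    IsScalarTower.algebraMap_apply R K _ π
  have hπ₂' : (algebraMap R ↥(modularFunctionFieldFullC K (M' * q * q)) π)⁻¹ ∉ V₂ := by
    rw [e]
    exact hπ₂
  have hs' : V₂.valuation (v2g64_s K M' q) ^ (q - 1) =
      V₂.valuation (algebraMap R ↥(modularFunctionFieldFullC K (M' * q * q)) π) := by
    rw [e]
    exact hs
  obtain ⟨hsm₁, hsm₂⟩ := sm7_three_smooth_sq_level2 (R := R) (K := K) M' q hq hM'
    hπ hqR h2 hMu V₂ hV₂ hπ₂' hne (v2g64_s K M' q) hs'
  obtain ⟨hL₁, hL₂⟩ := tl3_lifts_level2 (K := K) M' q hq hM' hπ hqR hunit h2 V₂ hV₂ hπ₂ hne hs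
  have hkR : IsUnit ((2 : ℕ) : R) :=
    hunit 2 ((Nat.coprime_primes (by norm_num) hq).mpr (Ne.symm hqp))
  have hkR' : IsUnit (2 : R) := by simpa using hkR
  have hfβ := bc95_beta_level2 (R := R) (K := K) (M' * q) q hq hqp hkR'
    (h2.trans (dvd_mul_right M' q)) (pk85_h2 K (M' * q) (h2.trans (dvd_mul_right M' q))) (pk85_h2 K (M' * q * q) (h2.trans ((dvd_mul_right M' q).trans (dvd_mul_right (M' * q) q))))
    (pk85_h2_coe K (M' * q) _) (pk85_h2_coe K (M' * q * q) _)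
  exact hp3c28_charts (K := K) M' q hq hM' hπ hunit hqR V₂ hV₂ hπ₂ hne hs _ hh' _ hαh hC
    hsm₁ hsm₂ hL₁ hL₂ hfβ m hm0 hm

include hq hM' in
/-- **(HP-3) on the canonical frame, Hauptmodul of level 3**: both affine charts (`V₂` ANY
valuation subring with the four facts of row B1-V2). Open: `tf71_RegNodes` of the two level-`M' q`
charts. -/
theorem hp3c28_level3 (hunit : ∀ n : ℕ, Nat.Coprime n q → IsUnit (n : R))
    (hqR : ¬ IsUnit (q : R)) (hMu : IsUnit (M' : R)) (h3 : 3 ∣ M')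
    (V₂ : ValuationSubring ↥(modularFunctionFieldFullC K (M' * q * q)))
    (hV₂ : ∀ c ∈ cm85_Vinf (K := K) (M' * q) hπ, al97L_alpha K (M' * q) q c ∈ V₂)
    (hπ₂ : (algebraMap K ↥(modularFunctionFieldFullC K (M' * q * q)) (algebraMap R K π))⁻¹ ∉ V₂)
    (hne : cm85_Vinf (K := K) (M' * q * q) hπ ≠ V₂)
    (hs : V₂.valuation (v2g64_s K M' q) ^ (q - 1) =
      V₂.valuation (algebraMap K ↥(modularFunctionFieldFullC K (M' * q * q)) (algebraMap R K π)))
    (m : ℕ) (hm0 : 0 < m) (hm : IsUnit (m : R)) :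
    (tf71_RegNodes (K := K) M' q hq hM' hπ (pk15_chart R ({pk85_h3 K (M' * q) (h3.trans (dvd_mul_right M' q))} : Set ↥(modularFunctionFieldFullC K (M' * q)))) →
      cp57_HP3 (K := K) π q m (pk15_chart R ({pk85_h3 K (M' * q * q) (h3.trans ((dvd_mul_right M' q).trans (dvd_mul_right (M' * q) q)))} : Set ↥(modularFunctionFieldFullC K (M' * q * q)))) (al97L_alpha K (M' * q) q).toRingHom
      (al97L_beta K (M' * q) q).toRingHom (s35i62_normA K (M' * q) q)
      (s35i62_normB K (M' * q) q) (cm85_Vinf (K := K) (M' * q * q) hπ) V₂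
      (nsb86_V3 (K := K) M' q hq hM' hπ) (cm85_Vinf (K := K) (M' * q) hπ)
      (s34i47c_V0 (K := K) M' q hq hM' hπ)) ∧
    (tf71_RegNodes (K := K) M' q hq hM' hπ (pk15_chart R ({(pk85_h3 K (M' * q) (h3.trans (dvd_mul_right M' q)))⁻¹} : Set ↥(modularFunctionFieldFullC K (M' * q)))) →
      cp57_HP3 (K := K) π q m (pk15_chart R ({(pk85_h3 K (M' * q * q) (h3.trans ((dvd_mul_right M' q).trans (dvd_mul_right (M' * q) q))))⁻¹} : Set ↥(modularFunctionFieldFullC K (M' * q * q)))) (al97L_alpha K (M' * q) q).toRingHom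
      (al97L_beta K (M' * q) q).toRingHom (s35i62_normA K (M' * q) q)
      (s35i62_normB K (M' * q) q) (cm85_Vinf (K := K) (M' * q * q) hπ) V₂
      (nsb86_V3 (K := K) M' q hq hM' hπ) (cm85_Vinf (K := K) (M' * q) hπ)
      (s34i47c_V0 (K := K) M' q hq hM' hπ)) := by
  have hqp : q ≠ 3 := by
    intro h
    apply hM'
    rw [h]
    exact h3
  have hh' : s34i47c_IsHaupt K (M' * q) q (pk85_h3 K (M' * q) (h3.trans (dvd_mul_right M' q))) :=
    Or.inr ⟨hqp, (h3.trans (dvd_mul_right M' q)), rfl⟩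
  have hαh : al97L_alpha K (M' * q) q (pk85_h3 K (M' * q) (h3.trans (dvd_mul_right M' q))) =
      pk85_h3 K (M' * q * q) (h3.trans ((dvd_mul_right M' q).trans (dvd_mul_right (M' * q) q))) :=
    Subtype.ext (by rw [al97L_alpha_coe, pk85_h3_coe, pk85_h3_coe])
  obtain ⟨-, hC, -⟩ := fb85_frameV3_level3 M' q hq hM' hπ hqR hMu h3 V₂ hV₂ hπ₂ hs
  have e : algebraMap R ↥(modularFunctionFieldFullC K (M' * q * q)) π = (algebraMap K ↥(modularFunctionFieldFullC K (M' * q * q)) (algebraMap R K π)) :=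
    IsScalarTower.algebraMap_apply R K _ π
  have hπ₂' : (algebraMap R ↥(modularFunctionFieldFullC K (M' * q * q)) π)⁻¹ ∉ V₂ := by
    rw [e]
    exact hπ₂
  have hs' : V₂.valuation (v2g64_s K M' q) ^ (q - 1) =
      V₂.valuation (algebraMap R ↥(modularFunctionFieldFullC K (M' * q * q)) π) := by
    rw [e]
    exact hs
  obtain ⟨hsm₁, hsm₂⟩ := sm7_three_smooth_sq_level3 (R := R) (K := K) M' q hq hM'
    hπ hqR h3 hMu V₂ hV₂ hπ₂' hne (v2g64_s K M' q) hs'
  obtain ⟨hL₁, hL₂⟩ := tl3_lifts_level3 (K := K) M' q hq hM' hπ hqR hunit h3 V₂ hV₂ hπ₂ hne hs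
  have hkR : IsUnit ((3 : ℕ) : R) :=
    hunit 3 ((Nat.coprime_primes (by norm_num) hq).mpr (Ne.symm hqp))
  have hkR' : IsUnit (3 : R) := by simpa using hkR
  have hfβ := bc95_beta_level3 (R := R) (K := K) (M' * q) q hq hqp hkR'
    (h3.trans (dvd_mul_right M' q)) (pk85_h3 K (M' * q) (h3.trans (dvd_mul_right M' q))) (pk85_h3 K (M' * q * q) (h3.trans ((dvd_mul_right M' q).trans (dvd_mul_right (M' * q) q))))
    (pk85_h3_coe K (M' * q) _) (pk85_h3_coe K (M' * q * q) _)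
  exact hp3c28_charts (K := K) M' q hq hM' hπ hunit hqR V₂ hV₂ hπ₂ hne hs _ hh' _ hαh hC
    hsm₁ hsm₂ hL₁ hL₂ hfβ m hm0 hm

end HP3CB

end Fermat.Agent.S36
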