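import Fermat.Agent.S36.NodeRig68
import Fermat.Agent.S36.TripleFrame71

/-!
# S36 lab, row 599 C-REGq (helper68): (REG-q) in the LABELLED NODE shape `tf71_RegNodes`

`NodeRig68` closes (REG-q) in the `tl71_DivAt` shape `nf21c_Reg` (= `hr₁`, `hr₂` of
`tf71b_twoGen`).  The other consumers (`tf71_hD_haupt`, `tg71_final_level2/3`, `tg71_hD_level2/3`,
`hp1c36_level2/3`) ask for the labelled node shape `tf71_RegNodes` of `TripleFrame71`
(`s * z * z' = π * s'` at every closed point on both branches).  Here it is, for BOTH charts of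
an admissible Hauptmodul of level `M' * q`, EVERY `q` (`q = 2` included), with no open
hypothesis:

* `nrg68_regNodes` : `tf71_RegNodes` on `pk15_chart R {h}` and on `pk15_chart R {h⁻¹}`,
  hypotheses `hunit`, `hqR`, `(q : R) = π`, `nuThree M' = 0`, `nuTwo M' = 0`.
* `nrg68_regNodes_rigid` : the same at a level `M'` divisible by a prime `r ≡ 11 mod 12`.
* `nrg68_regNodes_level2`, `nrg68_regNodes_level3` : the two instances `h = pk85_h2 K (M' * q) _`
  (`q ≠ 2`, `2 ∣ M'`) and `h = pk85_h3 K (M' * q) _` (`q ≠ 3`, `3 ∣ M'`).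

Proof: `nf21c_hnode` (helper21, `NodeFrameInst21`) ∘ `nk21_data` (helper21, `NodeData21`) ∘
`nrg68_rig_haupt` (`NodeRig68`).
-/

set_option autoImplicit false
set_option linter.unusedVariables false
set_option linter.unusedSectionVars false
set_option linter.style.longLine false
set_option linter.style.haveILetI false

open ModularCurve AlgebraicCurve IntermediateField

namespace Fermat.Agent.S36

open Fermat.Agent.S18 Fermat.Agent.S24 Fermat.Agent.S28 Fermat.Agent.S34 Fermat.Agent.S35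
  Fermat.Agent.S36.TripleLoc71

local notation "Q̄" => AlgebraicClosure ℚ

section NRGN68

variable {R K : Type} [CommRing R] [IsDomain R] [IsDiscreteValuationRing R] [Field K]
  [NumberField K] [Algebra K Q̄] [Algebra R K] [IsFractionRing R K]
  (M' q : ℕ) [NeZero M'] [NeZero q] (hq : q.Prime) (hM' : ¬ q ∣ M')
  [Algebra R ↥(modularFunctionFieldFullC K (M' * q))]
  [IsScalarTower R K ↥(modularFunctionFieldFullC K (M' * q))] {π : R} (hπ : Irreducible π)

/-- **(REG-q), labelled node shape**: `tf71_RegNodes` for both charts of an admissible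
Hauptmodul of level `M' q`, at a level `M'` without elliptic points; every `q`. -/
theorem nrg68_regNodes (hunit : ∀ n : ℕ, Nat.Coprime n q → IsUnit (n : R))
    (hqR : ¬ IsUnit (q : R)) (hqπ : ((q : ℕ) : R) = π)
    (hν3 : nuThree M' = 0) (hν2 : nuTwo M' = 0)
    (h : ↥(modularFunctionFieldFullC K (M' * q))) (hh : s34i47c_IsHaupt K (M' * q) q h) :
    tf71_RegNodes (K := K) M' q hq hM' hπ
        (pk15_chart R ({h} : Set ↥(modularFunctionFieldFullC K (M' * q)))) ∧
      tf71_RegNodes (K := K) M' q hq hM' hπ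
        (pk15_chart R ({h⁻¹} : Set ↥(modularFunctionFieldFullC K (M' * q)))) := by
  obtain ⟨r1, r2⟩ := nrg68_rig_haupt M' q hq hM' hπ hunit hqπ hν3 hν2 h hh
  obtain ⟨d1, d2⟩ := nk21_data M' q hq hM' hπ hunit hqR hqπ h hh
  obtain ⟨n1, n2⟩ := nf21c_hnode M' q hq hM' hπ hunit hqR hqπ h hh
  have hπ₁ : (algebraMap R ↥(modularFunctionFieldFullC K (M' * q)) π)⁻¹ ∉
      (cm85_Vinf (K := K) (M' * q) hπ).toSubring := al97C_pi_inv_not_mem_Vinf M' q hπ
  have hp0 : algebraMap R ↥(modularFunctionFieldFullC K (M' * q)) π ≠ 0 := fun h0 =>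
    hπ₁ (by rw [h0, inv_zero]; exact Subring.zero_mem _)
  have key : ∀ (B : Subalgebra R ↥(modularFunctionFieldFullC K (M' * q))) (n : Ideal B),
      sf79_OnBr π B (cm85_Vinf (K := K) (M' * q) hπ).toSubring n → algebraMap R B π ∈ n := by
    intro B n h1
    apply h1
    have e : (algebraMap R ↥(modularFunctionFieldFullC K (M' * q)) π)⁻¹ *
        ((algebraMap R B π : B) : ↥(modularFunctionFieldFullC K (M' * q))) = 1 :=
      inv_mul_cancel₀ hp0
    rw [e]
    exact Subring.one_mem _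
  exact ⟨fun n hn h1 h2 => n1 n hn h1 h2 (d1 n hn h1 h2 (r1 n hn (key _ n h1))),
    fun n hn h1 h2 => n2 n hn h1 h2 (d2 n hn h1 h2 (r2 n hn (key _ n h1)))⟩

/-- **(REG-q), labelled node shape, at a rigid level**: a prime `r ≡ 11 mod 12` divides `M'`. -/
theorem nrg68_regNodes_rigid (hunit : ∀ n : ℕ, Nat.Coprime n q → IsUnit (n : R))
    (hqR : ¬ IsUnit (q : R)) (hqπ : ((q : ℕ) : R) = π)
    {r : ℕ} (hr : r.Prime) (hr12 : r % 12 = 11) (hrM : r ∣ M')
    (h : ↥(modularFunctionFieldFullC K (M' * q))) (hh : s34i47c_IsHaupt K (M' * q) q h) :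
    tf71_RegNodes (K := K) M' q hq hM' hπ
        (pk15_chart R ({h} : Set ↥(modularFunctionFieldFullC K (M' * q)))) ∧
      tf71_RegNodes (K := K) M' q hq hM' hπ
        (pk15_chart R ({h⁻¹} : Set ↥(modularFunctionFieldFullC K (M' * q)))) :=
  nrg68_regNodes M' q hq hM' hπ hunit hqR hqπ (ro27_rigid_of_eleven hr hr12 hrM).2
    (ro27_rigid_of_eleven hr hr12 hrM).1 h hh

/-- **(REG-q), labelled node shape, the level-2 Hauptmodul** `pk85_h2 K (M' * q) _`
(`q ≠ 2`, `2 ∣ M'`). -/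
theorem nrg68_regNodes_level2 (hunit : ∀ n : ℕ, Nat.Coprime n q → IsUnit (n : R))
    (hqR : ¬ IsUnit (q : R)) (hqπ : ((q : ℕ) : R) = π)
    (hν3 : nuThree M' = 0) (hν2 : nuTwo M' = 0) (h2 : 2 ∣ M') (hq2 : q ≠ 2) :
    tf71_RegNodes (K := K) M' q hq hM' hπ
        (pk15_chart R ({pk85_h2 K (M' * q) (Dvd.dvd.mul_right h2 q)} :
          Set ↥(modularFunctionFieldFullC K (M' * q)))) ∧
      tf71_RegNodes (K := K) M' q hq hM' hπ
        (pk15_chart R ({(pk85_h2 K (M' * q) (Dvd.dvd.mul_right h2 q))⁻¹} :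
          Set ↥(modularFunctionFieldFullC K (M' * q)))) :=
  nrg68_regNodes M' q hq hM' hπ hunit hqR hqπ hν3 hν2 _
    (Or.inl ⟨hq2, Dvd.dvd.mul_right h2 q, rfl⟩)

/-- **(REG-q), labelled node shape, the level-3 Hauptmodul** `pk85_h3 K (M' * q) _`
(`q ≠ 3`, `3 ∣ M'`; `q = 2` allowed). -/
theorem nrg68_regNodes_level3 (hunit : ∀ n : ℕ, Nat.Coprime n q → IsUnit (n : R))
    (hqR : ¬ IsUnit (q : R)) (hqπ : ((q : ℕ) : R) = π)
    (hν3 : nuThree M' = 0) (hν2 : nuTwo M' = 0) (h3 : 3 ∣ M') (hq3 : q ≠ 3) :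
    tf71_RegNodes (K := K) M' q hq hM' hπ
        (pk15_chart R ({pk85_h3 K (M' * q) (Dvd.dvd.mul_right h3 q)} :
          Set ↥(modularFunctionFieldFullC K (M' * q)))) ∧
      tf71_RegNodes (K := K) M' q hq hM' hπ
        (pk15_chart R ({(pk85_h3 K (M' * q) (Dvd.dvd.mul_right h3 q))⁻¹} :
          Set ↥(modularFunctionFieldFullC K (M' * q)))) :=
  nrg68_regNodes M' q hq hM' hπ hunit hqR hqπ hν3 hν2 _
    (Or.inr ⟨hq3, Dvd.dvd.mul_right h3 q, rfl⟩)

end NRGN68

end Fermat.Agent.S36
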