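import Fermat.Agent.S36.ValUnitCanon1

/-!
# S36 lab, clause (E) of row 589 / 600 (helper3): `x(Q^(q²)) ≡ x(Q)` modulo the maximal ideal of `V₂`

For ANY valuation subring `V₂` of `F(M' q²)_K` with the three facts of `ob72_ram`
(`α₂ V_∞' ⊆ V₂`, `π⁻¹ ∉ V₂`, `v₂(s)^(q-1) = v₂(π)`, `s = v2g64_s K M' q`), and every `x` in the
Gauss ring of level `M'` (e.g. the Hauptmoduln `pk85_h2`, `pk85_h3`, or `J`):
`β₂ (β₁ x) - α₂ (α₁ x)` lies in the maximal ideal of `V₂`, i.e. is divisible by `s` in `V₂`.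

No new clause from the construction of `V₂` is needed: by `vuc1_V2_eq` (helper1) such a `V₂` IS
helper97's `vsq97_V2 ζ`, for which `vsq97_V2_mid` is (MID).

* `me3_mid`   : `β₂ (w g) - α₂ g ∈ V₂.nonunits` for `g ∈ V_∞(M' q)`;
* `me3_E`     : `β₂ (β₁ x) - α₂ (α₁ x) ∈ V₂.nonunits` for `x ∈ V_∞(M')`;
* `me3_E_mem` : the same as `d ∈ V₂ ∧ (d ≠ 0 → d⁻¹ ∉ V₂)`;
* `me3_E_div` : the same as `s⁻¹ * d ∈ V₂`;
* `me3_E_h2`, `me3_E_h3`, `me3_E_J` : the instances `x = pk85_h2`, `pk85_h3`, `relimc_J`.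
-/

set_option autoImplicit false
set_option linter.unusedSectionVars false
set_option linter.style.haveILetI false
set_option linter.unusedVariables false
set_option linter.style.longLine false

open ModularCurve AlgebraicCurve IntermediateField Polynomial

namespace Fermat.Agent.S36

open Fermat.Agent.S18 Fermat.Agent.S24 Fermat.Agent.S28 Fermat.Agent.S37 Fermat.Agent.S34
open Fermat.Agent.S42 Fermat.Agent.S35

local notation "Q̄" => AlgebraicClosure ℚ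

section me3

variable {R K : Type} [CommRing R] [IsDomain R] [IsDiscreteValuationRing R] [Field K] [CharZero K]
  [Algebra R K] [IsFractionRing R K] [Algebra K Q̄] (M' q : ℕ) [NeZero M'] [NeZero q]

/-- **(MID) for any `V₂`**: `β₂ ∘ w ≡ α₂` modulo the maximal ideal of `V₂`, on `V_∞(M' q)`. -/
theorem me3_mid (hq : q.Prime) (hM' : ¬ q ∣ M') {π : R} (hπ : Irreducible π)
    (hqR : ¬ IsUnit (q : R))
    (V₂ : ValuationSubring ↥(modularFunctionFieldFullC K (M' * q * q)))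
    (hα₂ : ∀ x ∈ cm85_Vinf (K := K) (M' * q) hπ, al97L_alpha K (M' * q) q x ∈ V₂)
    (hπ₂ : (algebraMap K ↥(modularFunctionFieldFullC K (M' * q * q)) (algebraMap R K π))⁻¹ ∉ V₂)
    (hs : V₂.valuation (v2g64_s K M' q) ^ (q - 1) =
      V₂.valuation (algebraMap K ↥(modularFunctionFieldFullC K (M' * q * q)) (algebraMap R K π)))
    (g : ↥(modularFunctionFieldFullC K (M' * q))) (hg : g ∈ cm85_Vinf (K := K) (M' * q) hπ) :
    al97L_beta K (M' * q) q (al97L_w (algebraMap K Q̄) M' q hq hM' g) -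
      al97L_alpha K (M' * q) q g ∈ V₂.nonunits := by
  obtain ⟨B, _, j, ι, k, _, _, ρ, ζB, hj, hjι, hρι, hζ, hρζ⟩ :=
    ng97_exists_red (R := R) (K := K) q hq
      ((IsLocalRing.mem_maximalIdeal _).mpr hqR)
  have hζq := hζ.pow_eq_one
  have hζ1 := hζ.ne_one hq.one_lt
  have hU := vuc1_V2_eq (K := K) M' q hq hM' hπ hqR V₂ hα₂ hπ₂ hs _ hζq hζ1
  have hmid := vsq97_V2_mid (R := R) (K := K) M' q hq hM' _ hζq hζ1 hπ hqR _ hg
  rwa [hU] at hmid

/-- **Clause (E)**: `x(Q^(q²)) - x(Q)` lies in the maximal ideal of `V₂`, for every `x` in the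
Gauss ring of level `M'`. -/
theorem me3_E (hq : q.Prime) (hM' : ¬ q ∣ M') {π : R} (hπ : Irreducible π)
    (hqR : ¬ IsUnit (q : R))
    (V₂ : ValuationSubring ↥(modularFunctionFieldFullC K (M' * q * q)))
    (hα₂ : ∀ x ∈ cm85_Vinf (K := K) (M' * q) hπ, al97L_alpha K (M' * q) q x ∈ V₂)
    (hπ₂ : (algebraMap K ↥(modularFunctionFieldFullC K (M' * q * q)) (algebraMap R K π))⁻¹ ∉ V₂)
    (hs : V₂.valuation (v2g64_s K M' q) ^ (q - 1) =
      V₂.valuation (algebraMap K ↥(modularFunctionFieldFullC K (M' * q * q)) (algebraMap R K π)))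
    (x : ↥(modularFunctionFieldFullC K M')) (hx : x ∈ cm85_Vinf (K := K) M' hπ) :
    al97L_beta K (M' * q) q (al97L_beta K M' q x) -
      al97L_alpha K (M' * q) q (al97L_alpha K M' q x) ∈ V₂.nonunits := by
  have h := me3_mid (K := K) M' q hq hM' hπ hqR V₂ hα₂ hπ₂ hs (al97L_alpha K M' q x)
    ((al97V_alpha_mem_Vinf M' q hπ x).mpr hx)
  rwa [al97L_w_alpha_apply] at h

/-- Clause (E), membership form. -/
theorem me3_E_mem (hq : q.Prime) (hM' : ¬ q ∣ M') {π : R} (hπ : Irreducible π)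
    (hqR : ¬ IsUnit (q : R))
    (V₂ : ValuationSubring ↥(modularFunctionFieldFullC K (M' * q * q)))
    (hα₂ : ∀ x ∈ cm85_Vinf (K := K) (M' * q) hπ, al97L_alpha K (M' * q) q x ∈ V₂)
    (hπ₂ : (algebraMap K ↥(modularFunctionFieldFullC K (M' * q * q)) (algebraMap R K π))⁻¹ ∉ V₂)
    (hs : V₂.valuation (v2g64_s K M' q) ^ (q - 1) =
      V₂.valuation (algebraMap K ↥(modularFunctionFieldFullC K (M' * q * q)) (algebraMap R K π)))
    (x : ↥(modularFunctionFieldFullC K M')) (hx : x ∈ cm85_Vinf (K := K) M' hπ) :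
    al97L_beta K (M' * q) q (al97L_beta K M' q x) -
        al97L_alpha K (M' * q) q (al97L_alpha K M' q x) ∈ V₂ ∧
      (al97L_beta K (M' * q) q (al97L_beta K M' q x) -
        al97L_alpha K (M' * q) q (al97L_alpha K M' q x) ≠ 0 →
        (al97L_beta K (M' * q) q (al97L_beta K M' q x) -
          al97L_alpha K (M' * q) q (al97L_alpha K M' q x))⁻¹ ∉ V₂) := by
  have h := me3_E (K := K) M' q hq hM' hπ hqR V₂ hα₂ hπ₂ hs x hx
  refine ⟨?_, fun h0 => (vsq97_mem_nonunits_iff_inv V₂ _ h0).mp h⟩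
  rw [ValuationSubring.mem_nonunits_iff] at h
  exact (V₂.valuation_le_one_iff _).mp h.le

/-- Clause (E), divisibility form: `s⁻¹ * (x(Q^(q²)) - x(Q)) ∈ V₂`. -/
theorem me3_E_div (hq : q.Prime) (hM' : ¬ q ∣ M') {π : R} (hπ : Irreducible π)
    (hqR : ¬ IsUnit (q : R))
    (V₂ : ValuationSubring ↥(modularFunctionFieldFullC K (M' * q * q)))
    (hα₂ : ∀ x ∈ cm85_Vinf (K := K) (M' * q) hπ, al97L_alpha K (M' * q) q x ∈ V₂)
    (hπ₂ : (algebraMap K ↥(modularFunctionFieldFullC K (M' * q * q)) (algebraMap R K π))⁻¹ ∉ V₂)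
    (hs : V₂.valuation (v2g64_s K M' q) ^ (q - 1) =
      V₂.valuation (algebraMap K ↥(modularFunctionFieldFullC K (M' * q * q)) (algebraMap R K π)))
    (x : ↥(modularFunctionFieldFullC K M')) (hx : x ∈ cm85_Vinf (K := K) M' hπ) :
    (v2g64_s K M' q)⁻¹ * (al97L_beta K (M' * q) q (al97L_beta K M' q x) -
      al97L_alpha K (M' * q) q (al97L_alpha K M' q x)) ∈ V₂ := by
  obtain ⟨hmem, hinv⟩ := me3_E_mem (K := K) M' q hq hM' hπ hqR V₂ hα₂ hπ₂ hs x hx
  by_cases h0 : al97L_beta K (M' * q) q (al97L_beta K M' q x) -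
      al97L_alpha K (M' * q) q (al97L_alpha K M' q x) = 0
  · rw [h0, mul_zero]
    exact V₂.zero_mem
  · -- `V₁ ≠ V₂`
    have hs1 := vuc1_s_unit (K := K) M' q hq hπ
    have hne : cm85_Vinf (K := K) (M' * q * q) hπ ≠ V₂ := by
      intro h
      have h1 : V₂.valuation (v2g64_s K M' q) = 1 := h ▸ hs1
      rw [h1, one_pow] at hs
      apply hπ₂
      rw [← V₂.valuation_le_one_iff, map_inv₀, ← hs, inv_one]
    obtain ⟨-, -, hmax2, -, -⟩ := ob72_ram (K := K) (M' * q) q hq (dvd_mul_left q M') hπ V₂ hα₂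
      hπ₂ hne (v2g64_s K M' q) hs
    exact hmax2 _ hmem (hinv h0)

/-- Clause (E) for the level-2 Hauptmodul. -/
theorem me3_E_h2 (hq : q.Prime) (hM' : ¬ q ∣ M') {π : R} (hπ : Irreducible π)
    (hqR : ¬ IsUnit (q : R))
    (V₂ : ValuationSubring ↥(modularFunctionFieldFullC K (M' * q * q)))
    (hα₂ : ∀ x ∈ cm85_Vinf (K := K) (M' * q) hπ, al97L_alpha K (M' * q) q x ∈ V₂)
    (hπ₂ : (algebraMap K ↥(modularFunctionFieldFullC K (M' * q * q)) (algebraMap R K π))⁻¹ ∉ V₂)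
    (hs : V₂.valuation (v2g64_s K M' q) ^ (q - 1) =
      V₂.valuation (algebraMap K ↥(modularFunctionFieldFullC K (M' * q * q)) (algebraMap R K π)))
    (h2 : 2 ∣ M') :
    al97L_beta K (M' * q) q (al97L_beta K M' q (pk85_h2 K M' h2)) -
        al97L_alpha K (M' * q) q (al97L_alpha K M' q (pk85_h2 K M' h2)) ∈ V₂.nonunits ∧
      (v2g64_s K M' q)⁻¹ * (al97L_beta K (M' * q) q (al97L_beta K M' q (pk85_h2 K M' h2)) -
        al97L_alpha K (M' * q) q (al97L_alpha K M' q (pk85_h2 K M' h2))) ∈ V₂ := by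
  have hx : pk85_h2 K M' h2 ∈ cm85_Vinf (K := K) M' hπ :=
    gv85_mem_V_of_integral _ _ _ _ (h70_h2 R) (by rw [pk85_h2_coe, h70_coeffMap_h2])
  exact ⟨me3_E (K := K) M' q hq hM' hπ hqR V₂ hα₂ hπ₂ hs _ hx,
    me3_E_div (K := K) M' q hq hM' hπ hqR V₂ hα₂ hπ₂ hs _ hx⟩

/-- Clause (E) for the level-3 Hauptmodul. -/
theorem me3_E_h3 (hq : q.Prime) (hM' : ¬ q ∣ M') {π : R} (hπ : Irreducible π)
    (hqR : ¬ IsUnit (q : R))
    (V₂ : ValuationSubring ↥(modularFunctionFieldFullC K (M' * q * q)))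
    (hα₂ : ∀ x ∈ cm85_Vinf (K := K) (M' * q) hπ, al97L_alpha K (M' * q) q x ∈ V₂)
    (hπ₂ : (algebraMap K ↥(modularFunctionFieldFullC K (M' * q * q)) (algebraMap R K π))⁻¹ ∉ V₂)
    (hs : V₂.valuation (v2g64_s K M' q) ^ (q - 1) =
      V₂.valuation (algebraMap K ↥(modularFunctionFieldFullC K (M' * q * q)) (algebraMap R K π)))
    (h3 : 3 ∣ M') :
    al97L_beta K (M' * q) q (al97L_beta K M' q (pk85_h3 K M' h3)) -
        al97L_alpha K (M' * q) q (al97L_alpha K M' q (pk85_h3 K M' h3)) ∈ V₂.nonunits ∧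
      (v2g64_s K M' q)⁻¹ * (al97L_beta K (M' * q) q (al97L_beta K M' q (pk85_h3 K M' h3)) -
        al97L_alpha K (M' * q) q (al97L_alpha K M' q (pk85_h3 K M' h3))) ∈ V₂ := by
  have hx : pk85_h3 K M' h3 ∈ cm85_Vinf (K := K) M' hπ :=
    gv85_mem_V_of_integral _ _ _ _ (h34_h3R R) (by rw [pk85_h3_coe, h34_coeffMap_h3R])
  exact ⟨me3_E (K := K) M' q hq hM' hπ hqR V₂ hα₂ hπ₂ hs _ hx,
    me3_E_div (K := K) M' q hq hM' hπ hqR V₂ hα₂ hπ₂ hs _ hx⟩

end me3

end Fermat.Agent.S36
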