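import Fermat.Agent.S36.SmoothCanon7
import Fermat.Agent.S36.MidE3
import Fermat.Agent.S36.ChartMaps71

/-!
# S36 lab, row 632 HP3-CANON-LIFT (helper3): the four chart-level residue surjectivities at the
canonical level `M' q²` charts

`B = pk15_chart R s₂` a chart of `F(M' q²)_K`, `B' = pk15_chart R s₁` the chart of `F(M' q)_K`,
`α₂ = al97L_alpha K (M' * q) q`, `β₂ = al97L_beta K (M' * q) q`,
`V₁ = cm85_Vinf (M' * q * q)`, `V₃ = nsb86_V3`, `V₂` ANY valuation subring with the facts of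
`ob72_ram` for `σ = v2g64_s K M' q`.  `tl3_Lifts` is the conjunction of

* (L1) `∀ y ∈ B, ∃ a ∈ B', v₁(α₂ a - y) < 1`;   (L2) `∀ y ∈ B, ∃ a ∈ B', v₂(α₂ a - y) < 1`;
* (L3) `∀ y ∈ B, ∃ a ∈ B', v₃(β₂ a - y) < 1`;   (L4) `∀ y ∈ B, ∃ a ∈ B', v₂(β₂ a - y) < 1`,

i.e. LITERALLY the hypothesis `hlift` of `to63_lift` (TripleOwes63) for `hO1`, `hO2`, `hO3'`, `hO2'`
of `gcd26_datum_triple`.  `tl3_lifts_level2`, `tl3_lifts_level3` : `tl3_Lifts` for both affine
charts of the Hauptmodul of level 2, resp. 3.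

Route: (L1) `bi93_Surj` from the good level `M'`, `a = α₁ x'`; (L2) `bbi19_main`; (L3) by `w₂`
(`V₃ = w₂^* V₁`, `w₂ B = B`), `a = β₁ x'`; (L4) from (L2) and clause (E) `me3_E`.
All names are prefixed `tl3_`.
-/

set_option autoImplicit false
set_option linter.unusedSectionVars false
set_option linter.style.haveILetI false
set_option linter.unusedVariables false
set_option linter.style.longLine false

open ModularCurve AlgebraicCurve

namespace Fermat.Agent.S36

open Fermat.Agent.S18 Fermat.Agent.S24 Fermat.Agent.S34 Fermat.Agent.S36.TripleLoc71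

/-- `p⁻¹ * z ∈ V` with `p` a non-unit of `V` gives `v(z) < 1`. -/
theorem tl3_val_lt {F : Type*} [Field F] (V : ValuationSubring F) (p z : F) (hp : p⁻¹ ∉ V)
    (h : p⁻¹ * z ∈ V) : V.valuation z < 1 := by
  have hp0 : p ≠ 0 := by
    rintro rfl
    exact hp (by rw [inv_zero]; exact V.zero_mem)
  have hvp : V.valuation p < 1 := by
    by_contra hcon
    apply hp
    rw [← V.valuation_le_one_iff, map_inv₀]
    exact inv_le_one_of_one_le₀ (not_lt.1 hcon)
  have e : z = p * (p⁻¹ * z) := by rw [← mul_assoc, mul_inv_cancel₀ hp0, one_mul]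
  rw [e, map_mul]
  calc V.valuation p * V.valuation (p⁻¹ * z) ≤ V.valuation p * 1 :=
        mul_le_mul' le_rfl ((V.valuation_le_one_iff _).2 h)
    _ = V.valuation p := mul_one _
    _ < 1 := hvp

section tl3

variable {R K : Type} [CommRing R] [IsDomain R] [IsDiscreteValuationRing R] [Field K]
  [CharZero K] [Algebra R K] [IsFractionRing R K] [Algebra K Kbar] [Algebra.IsAlgebraic K Kbar]
  (M' q : ℕ) [NeZero M'] [NeZero q] (hq : q.Prime) (hM' : ¬ q ∣ M')
  [Algebra R ↥(modularFunctionFieldFullC K M')]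
  [IsScalarTower R K ↥(modularFunctionFieldFullC K M')]
  [Algebra R ↥(modularFunctionFieldFullC K (M' * q))]
  [IsScalarTower R K ↥(modularFunctionFieldFullC K (M' * q))]
  [Algebra R ↥(modularFunctionFieldFullC K (M' * q * q))]
  [IsScalarTower R K ↥(modularFunctionFieldFullC K (M' * q * q))]

/-- The inclusion of level `M'` into level `M' q²` is `α₂ ∘ α₁`. -/
theorem tl3_incl_eq (x : ↥(modularFunctionFieldFullC K M')) :
    cm15_incl K M' (M' * q * q) ((dvd_mul_right M' q).trans (dvd_mul_right (M' * q) q)) x =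
      al97L_alpha K (M' * q) q (al97L_alpha K M' q x) :=
  Subtype.ext (by rw [cm15_incl_coe, al97L_alpha_coe, al97L_alpha_coe])

/-- The four chart-level residue surjectivities (see the file header). -/
def tl3_Lifts {π : R} (hπ : Irreducible π)
    (V₂ : ValuationSubring ↥(modularFunctionFieldFullC K (M' * q * q)))
    (s₁ : Set ↥(modularFunctionFieldFullC K (M' * q)))
    (s₂ : Set ↥(modularFunctionFieldFullC K (M' * q * q))) : Prop :=
  (∀ y ∈ pk15_chart R s₂, ∃ a ∈ pk15_chart R s₁,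
    (cm85_Vinf (K := K) (M' * q * q) hπ).valuation (al97L_alpha K (M' * q) q a - y) < 1) ∧
  (∀ y ∈ pk15_chart R s₂, ∃ a ∈ pk15_chart R s₁,
    V₂.valuation (al97L_alpha K (M' * q) q a - y) < 1) ∧
  (∀ y ∈ pk15_chart R s₂, ∃ a ∈ pk15_chart R s₁,
    (nsb86_V3 (K := K) M' q hq hM' hπ).valuation (al97L_beta K (M' * q) q a - y) < 1) ∧
  (∀ y ∈ pk15_chart R s₂, ∃ a ∈ pk15_chart R s₁,
    V₂.valuation (al97L_beta K (M' * q) q a - y) < 1)

/-- **The four lifts, generic form**: from the two residue surjectivities over the good level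
`M'` (`bi93_Surj` for `V₁`, `bbi19_main` for `V₂`), the chart maps `α₁`, `β₁` and the
`w₂`-stability of the chart. -/
theorem tl3_lifts_gen {π : R} (hπ : Irreducible π) (hqR : ¬ IsUnit (q : R))
    (V₂ : ValuationSubring ↥(modularFunctionFieldFullC K (M' * q * q)))
    (hα₂ : ∀ x ∈ cm85_Vinf (K := K) (M' * q) hπ, al97L_alpha K (M' * q) q x ∈ V₂)
    (hπ₂ : (algebraMap K ↥(modularFunctionFieldFullC K (M' * q * q)) (algebraMap R K π))⁻¹ ∉ V₂)
    (hs : V₂.valuation (v2g64_s K M' q) ^ (q - 1) =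
      V₂.valuation (algebraMap K ↥(modularFunctionFieldFullC K (M' * q * q)) (algebraMap R K π)))
    (hσ : (v2g64_s K M' q)⁻¹ ∉ V₂)
    (s₀ : Set ↥(modularFunctionFieldFullC K M'))
    (s₁ : Set ↥(modularFunctionFieldFullC K (M' * q)))
    (s₂ : Set ↥(modularFunctionFieldFullC K (M' * q * q)))
    (hs₀V : ∀ x ∈ pk15_chart R s₀, x ∈ cm85_Vinf (K := K) M' hπ)
    (hsurj : bi93_Surj M' (M' * q * q) ((dvd_mul_right M' q).trans (dvd_mul_right (M' * q) q))
      hπ s₀ s₂)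
    (hsurj2 : ∀ x ∈ pk15_chart R s₂, ∃ x' ∈ pk15_chart R s₀,
      (v2g64_s K M' q)⁻¹ * (x - cm15_incl K M' (M' * q * q)
        ((dvd_mul_right M' q).trans (dvd_mul_right (M' * q) q)) x') ∈ V₂)
    (hα₁ : ∀ x ∈ pk15_chart R s₀, al97L_alpha K M' q x ∈ pk15_chart R s₁)
    (hβ₁ : ∀ x ∈ pk15_chart R s₀, al97L_beta K M' q x ∈ pk15_chart R s₁)
    (hstab : ∀ z : ↥(modularFunctionFieldFullC K (M' * q * q)),
      sm7_w2 M' q hq hM' z ∈ pk15_chart R s₂ ↔ z ∈ pk15_chart R s₂) :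
    tl3_Lifts (K := K) M' q hq hM' hπ V₂ s₁ s₂ := by
  have e : algebraMap R ↥(modularFunctionFieldFullC K (M' * q * q)) π =
      algebraMap K ↥(modularFunctionFieldFullC K (M' * q * q)) (algebraMap R K π) :=
    IsScalarTower.algebraMap_apply R K _ π
  have hπ1 : (algebraMap R ↥(modularFunctionFieldFullC K (M' * q * q)) π)⁻¹ ∉
      cm85_Vinf (K := K) (M' * q * q) hπ := by
    rw [e]
    exact gv85_pi_inv_not_mem (IsLocalRing.residue R) π (pk85_res_iff hπ) hπ.ne_zero _ _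
  refine ⟨?_, ?_, ?_, ?_⟩
  · intro y hy
    obtain ⟨x', hx', h⟩ := hsurj y hy
    refine ⟨al97L_alpha K M' q x', hα₁ x' hx', ?_⟩
    have h1 := tl3_val_lt _ _ _ hπ1 h
    rw [← Valuation.map_neg, neg_sub, tl3_incl_eq] at h1
    exact h1
  · intro y hy
    obtain ⟨x', hx', h⟩ := hsurj2 y hy
    refine ⟨al97L_alpha K M' q x', hα₁ x' hx', ?_⟩
    have h1 := tl3_val_lt _ _ _ hσ h
    rw [← Valuation.map_neg, neg_sub, tl3_incl_eq] at h1
    exact h1
  · intro y hy
    have hwy : sm7_w2 M' q hq hM' y ∈ pk15_chart R s₂ := (hstab y).2 hy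
    obtain ⟨x', hx', h⟩ := hsurj _ hwy
    refine ⟨al97L_beta K M' q x', hβ₁ x' hx', ?_⟩
    have h1 := tl3_val_lt _ _ _ hπ1 h
    rw [← Valuation.map_neg, neg_sub, tl3_incl_eq] at h1
    rw [← ValuationSubring.mem_nonunits_iff, nsb86_mem_V3_nonunits,
      ValuationSubring.mem_nonunits_iff, map_sub, als86_w2_beta, al97L_w_beta_apply]
    exact h1
  · intro y hy
    obtain ⟨x', hx', h⟩ := hsurj2 y hy
    refine ⟨al97L_beta K M' q x', hβ₁ x' hx', ?_⟩
    have h1 := tl3_val_lt _ _ _ hσ h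
    rw [← Valuation.map_neg, neg_sub, tl3_incl_eq] at h1
    have h2 := me3_E (K := K) M' q hq hM' hπ hqR V₂ hα₂ hπ₂ hs x' (hs₀V x' hx')
    rw [ValuationSubring.mem_nonunits_iff] at h2
    have e2 : al97L_beta K (M' * q) q (al97L_beta K M' q x') - y =
        (al97L_beta K (M' * q) q (al97L_beta K M' q x') -
          al97L_alpha K (M' * q) q (al97L_alpha K M' q x')) +
        (al97L_alpha K (M' * q) q (al97L_alpha K M' q x') - y) := by ring
    rw [e2]
    exact lt_of_le_of_lt (Valuation.map_add _ _ _) (max_lt h2 h1)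

end tl3

section tl3_inst

variable {R K : Type} [CommRing R] [IsDomain R] [IsDiscreteValuationRing R] [Field K]
  [CharZero K] [Algebra R K] [IsFractionRing R K] [Algebra K Kbar] [Algebra.IsAlgebraic K Kbar]
  (M' q : ℕ) [NeZero M'] [NeZero q] (hq : q.Prime) (hM' : ¬ q ∣ M')
  [Algebra R ↥(modularFunctionFieldFullC K M')]
  [IsScalarTower R K ↥(modularFunctionFieldFullC K M')]
  [Algebra R ↥(modularFunctionFieldFullC K (M' * q))]
  [IsScalarTower R K ↥(modularFunctionFieldFullC K (M' * q))]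
  [Algebra R ↥(modularFunctionFieldFullC K (M' * q * q))]
  [IsScalarTower R K ↥(modularFunctionFieldFullC K (M' * q * q))]

/-- **The four lifts on the canonical charts, level 2** (both affine charts of `pk85_h2`);
`V₂` ANY valuation subring with the facts of `ob72_ram` for `σ = v2g64_s K M' q`. -/
theorem tl3_lifts_level2 {π : R} (hπ : Irreducible π) (hqR : ¬ IsUnit (q : R))
    (hunit : ∀ n : ℕ, Nat.Coprime n q → IsUnit (n : R)) (h2 : 2 ∣ M')
    (V₂ : ValuationSubring ↥(modularFunctionFieldFullC K (M' * q * q)))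
    (hα₂ : ∀ x ∈ cm85_Vinf (K := K) (M' * q) hπ, al97L_alpha K (M' * q) q x ∈ V₂)
    (hπ₂ : (algebraMap K ↥(modularFunctionFieldFullC K (M' * q * q)) (algebraMap R K π))⁻¹ ∉ V₂)
    (hne : cm85_Vinf (K := K) (M' * q * q) hπ ≠ V₂)
    (hs : V₂.valuation (v2g64_s K M' q) ^ (q - 1) =
      V₂.valuation (algebraMap K ↥(modularFunctionFieldFullC K (M' * q * q))
        (algebraMap R K π))) :
    tl3_Lifts (K := K) M' q hq hM' hπ V₂
        {pk85_h2 K (M' * q) (h2.trans (dvd_mul_right M' q))}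
        {pk85_h2 K (M' * q * q)
          (h2.trans ((dvd_mul_right M' q).trans (dvd_mul_right (M' * q) q)))} ∧
      tl3_Lifts (K := K) M' q hq hM' hπ V₂
        {(pk85_h2 K (M' * q) (h2.trans (dvd_mul_right M' q)))⁻¹}
        {(pk85_h2 K (M' * q * q)
          (h2.trans ((dvd_mul_right M' q).trans (dvd_mul_right (M' * q) q))))⁻¹} := by
  have hMu : IsUnit (M' : R) := hunit M' ((Nat.Prime.coprime_iff_not_dvd hq).2 hM').symm
  have e : algebraMap R ↥(modularFunctionFieldFullC K (M' * q * q)) π =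
      algebraMap K ↥(modularFunctionFieldFullC K (M' * q * q)) (algebraMap R K π) :=
    IsScalarTower.algebraMap_apply R K _ π
  have hV₂' : ∀ c ∈ cm85_Vinf (K := K) (M' * q) hπ,
      cm15_incl K (M' * q) (M' * q * q) (dvd_mul_right (M' * q) q) c ∈ V₂ := fun c hc => hα₂ c hc
  have hπ₂' : (algebraMap R ↥(modularFunctionFieldFullC K (M' * q * q)) π)⁻¹ ∉ V₂ := by
    rw [e]; exact hπ₂
  have hs' : V₂.valuation (v2g64_s K M' q) ^ (q - 1) =
      V₂.valuation (algebraMap R ↥(modularFunctionFieldFullC K (M' * q * q)) π) := by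
    rw [e]; exact hs
  have hstep : bi93_F1 (K := K) (M' * q) (M' * q * q) (dvd_mul_right (M' * q) q) hπ :=
    obf72_F1 (K := K) (M' * q) q hq (dvd_mul_left q M') hπ V₂ hV₂' hπ₂' hne _ hs'
  have hf1 := sm7_F1_sq (R := R) (K := K) M' q hq hM' hπ hqR hstep
  obtain ⟨⟨hsurjA, -⟩, ⟨hsurjB, -⟩⟩ := bi93_level2 (R := R) (K := K) M' (M' * q * q)
    ((dvd_mul_right M' q).trans (dvd_mul_right (M' * q) q)) hπ h2 hMu hf1
  obtain ⟨f1, f2, f3, f4, f5⟩ := sm7_mid_facts (R := R) (K := K) M' q hq hM' hπ hqR V₂ hV₂' hπ₂'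
    hne _ hs'
  obtain ⟨-, -, -, -, hhV, hhV', -, -, -, -, hfrac₁, hfrac₂, -⟩ :=
    cm85_facts_level2 (R := R) (K := K) M' hπ h2
  obtain ⟨hs₁, hs₂, -⟩ := cm15_base_sat_level2 (R := R) (K := K) M' hπ h2 hMu
  obtain ⟨⟨hD₁, -⟩, ⟨hD₂, -⟩⟩ := sm79_level2 (R := R) K M' hπ hMu h2
  haveI hD₁' : IsDedekindDomain (pk15_chart R ({pk85_h2 K M' h2} :
      Set ↥(modularFunctionFieldFullC K M')) ⧸ Ideal.span {algebraMap R (pk15_chart R
        ({pk85_h2 K M' h2} : Set ↥(modularFunctionFieldFullC K M'))) π}) := hD₁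
  haveI hD₂' : IsDedekindDomain (pk15_chart R ({(pk85_h2 K M' h2)⁻¹} :
      Set ↥(modularFunctionFieldFullC K M')) ⧸ Ideal.span {algebraMap R (pk15_chart R
        ({(pk85_h2 K M' h2)⁻¹} : Set ↥(modularFunctionFieldFullC K M'))) π}) := hD₂
  have hh : cm15_incl K M' (M' * q * q) ((dvd_mul_right M' q).trans (dvd_mul_right (M' * q) q))
      (pk85_h2 K M' h2) = pk85_h2 K (M' * q * q)
        (h2.trans ((dvd_mul_right M' q).trans (dvd_mul_right (M' * q) q))) :=
    Subtype.ext (cm15_incl_coe M' (M' * q * q) _ _)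
  have k₁ := (bbi19_main M' (M' * q * q) ((dvd_mul_right M' q).trans (dvd_mul_right (M' * q) q))
    hπ ({pk85_h2 K M' h2} : Set ↥(modularFunctionFieldFullC K M'))
    (fun g hg => by rw [Set.mem_singleton_iff.mp hg]; exact hhV) hs₁ hfrac₁ V₂ _ f1 f2 f3
    f4 f5).2.1
  have k₂ := (bbi19_main M' (M' * q * q) ((dvd_mul_right M' q).trans (dvd_mul_right (M' * q) q))
    hπ ({(pk85_h2 K M' h2)⁻¹} : Set ↥(modularFunctionFieldFullC K M'))
    (fun g hg => by rw [Set.mem_singleton_iff.mp hg]; exact hhV') hs₂ hfrac₂ V₂ _ f1 f2 f3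
    f4 f5).2.1
  rw [Set.image_singleton, hh] at k₁
  rw [Set.image_singleton, map_inv₀, hh] at k₂
  -- the chart maps `α₁`, `β₁`
  have hhα : al97L_alpha K M' q (pk85_h2 K M' h2) =
      pk85_h2 K (M' * q) (h2.trans (dvd_mul_right M' q)) :=
    Subtype.ext (by rw [al97L_alpha_coe, pk85_h2_coe, pk85_h2_coe])
  have hq2 : q ≠ 2 := by
    rintro rfl
    exact hM' h2
  have hα1 := cm71_alpha_charts (R := R) M' q (pk85_h2 K M' h2)
  have hβ1 := cm71_beta_charts (R := R) M' q hq hunit (pk85_h2 K M' h2) (Or.inl ⟨hq2, h2, rfl⟩)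
  rw [hhα] at hα1 hβ1
  -- `w₂`-stability of the charts
  have hu : IsUnit (2 : R) := by
    obtain ⟨k, hk⟩ := h2
    have e' : (M' : R) = (2 : R) * (k : R) := by rw [hk]; push_cast; ring
    rw [e'] at hMu
    exact isUnit_of_mul_isUnit_left hMu
  have hM : 2 * q ∣ M' * q * q := by
    obtain ⟨k, hk⟩ := h2
    exact ⟨k * q, by rw [hk]; ring⟩
  let g₁ : ↥(modularFunctionFieldFullC K (M' * q * q)) :=
    al97L_beta K (M' * q) q (al97L_alpha K M' q (pk85_h2 K M' h2))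
  have hg₁ : (g₁ : LaurentSeries K) = qExpand K q (h70_h2 K) := by
    show ((al97L_beta K (M' * q) q (al97L_alpha K M' q (pk85_h2 K M' h2)) :
      ↥(modularFunctionFieldFullC K (M' * q * q))) : LaurentSeries K) = _
    rw [al97L_beta_coe, al97L_alpha_coe, pk85_h2_coe]
  obtain ⟨ia, ib, ic, id⟩ := hi70_level2_full (K := K) (M' * q * q) (R := R) q hq hq2 hu hM
    (pk85_h2 K (M' * q * q) (h2.trans ((dvd_mul_right M' q).trans (dvd_mul_right (M' * q) q))))
    g₁ (pk85_h2_coe K (M' * q * q) _) hg₁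
  obtain ⟨hB1, hB2⟩ := sm7_charts_stable_gen (R := R) M' q hq hM' (pk85_h2 K M' h2) _ g₁
    (by rw [pk85_h2_coe, pk85_h2_coe]) (by rw [hg₁, pk85_h2_coe]) ia ib ic id
  exact ⟨tl3_lifts_gen (R := R) (K := K) M' q hq hM' hπ hqR V₂ hα₂ hπ₂ hs f2
      ({pk85_h2 K M' h2} : Set ↥(modularFunctionFieldFullC K M')) _ _
      (pk15_chart_le_V (cm85_Vinf (K := K) M' hπ) (pk85_hRV M' hπ) _
        (fun g hg => by rw [Set.mem_singleton_iff.mp hg]; exact hhV))
      hsurjA k₁ hα1.1 hβ1.1 hB1,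
    tl3_lifts_gen (R := R) (K := K) M' q hq hM' hπ hqR V₂ hα₂ hπ₂ hs f2
      ({(pk85_h2 K M' h2)⁻¹} : Set ↥(modularFunctionFieldFullC K M')) _ _
      (pk15_chart_le_V (cm85_Vinf (K := K) M' hπ) (pk85_hRV M' hπ) _
        (fun g hg => by rw [Set.mem_singleton_iff.mp hg]; exact hhV'))
      hsurjB k₂ hα1.2 hβ1.2 hB2⟩

/-- **The four lifts on the canonical charts, level 3** (both affine charts of `pk85_h3`);
`V₂` ANY valuation subring with the facts of `ob72_ram` for `σ = v2g64_s K M' q`. -/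
theorem tl3_lifts_level3 {π : R} (hπ : Irreducible π) (hqR : ¬ IsUnit (q : R))
    (hunit : ∀ n : ℕ, Nat.Coprime n q → IsUnit (n : R)) (h3 : 3 ∣ M')
    (V₂ : ValuationSubring ↥(modularFunctionFieldFullC K (M' * q * q)))
    (hα₂ : ∀ x ∈ cm85_Vinf (K := K) (M' * q) hπ, al97L_alpha K (M' * q) q x ∈ V₂)
    (hπ₂ : (algebraMap K ↥(modularFunctionFieldFullC K (M' * q * q)) (algebraMap R K π))⁻¹ ∉ V₂)
    (hne : cm85_Vinf (K := K) (M' * q * q) hπ ≠ V₂)
    (hs : V₂.valuation (v2g64_s K M' q) ^ (q - 1) =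
      V₂.valuation (algebraMap K ↥(modularFunctionFieldFullC K (M' * q * q))
        (algebraMap R K π))) :
    tl3_Lifts (K := K) M' q hq hM' hπ V₂
        {pk85_h3 K (M' * q) (h3.trans (dvd_mul_right M' q))}
        {pk85_h3 K (M' * q * q)
          (h3.trans ((dvd_mul_right M' q).trans (dvd_mul_right (M' * q) q)))} ∧
      tl3_Lifts (K := K) M' q hq hM' hπ V₂
        {(pk85_h3 K (M' * q) (h3.trans (dvd_mul_right M' q)))⁻¹}
        {(pk85_h3 K (M' * q * q)
          (h3.trans ((dvd_mul_right M' q).trans (dvd_mul_right (M' * q) q))))⁻¹} := by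
  have hMu : IsUnit (M' : R) := hunit M' ((Nat.Prime.coprime_iff_not_dvd hq).2 hM').symm
  have e : algebraMap R ↥(modularFunctionFieldFullC K (M' * q * q)) π =
      algebraMap K ↥(modularFunctionFieldFullC K (M' * q * q)) (algebraMap R K π) :=
    IsScalarTower.algebraMap_apply R K _ π
  have hV₂' : ∀ c ∈ cm85_Vinf (K := K) (M' * q) hπ,
      cm15_incl K (M' * q) (M' * q * q) (dvd_mul_right (M' * q) q) c ∈ V₂ := fun c hc => hα₂ c hc
  have hπ₂' : (algebraMap R ↥(modularFunctionFieldFullC K (M' * q * q)) π)⁻¹ ∉ V₂ := by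
    rw [e]; exact hπ₂
  have hs' : V₂.valuation (v2g64_s K M' q) ^ (q - 1) =
      V₂.valuation (algebraMap R ↥(modularFunctionFieldFullC K (M' * q * q)) π) := by
    rw [e]; exact hs
  have hstep : bi93_F1 (K := K) (M' * q) (M' * q * q) (dvd_mul_right (M' * q) q) hπ :=
    obf72_F1 (K := K) (M' * q) q hq (dvd_mul_left q M') hπ V₂ hV₂' hπ₂' hne _ hs'
  have hf1 := sm7_F1_sq (R := R) (K := K) M' q hq hM' hπ hqR hstep
  obtain ⟨⟨hsurjA, -⟩, ⟨hsurjB, -⟩⟩ := bi93_level3 (R := R) (K := K) M' (M' * q * q)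
    ((dvd_mul_right M' q).trans (dvd_mul_right (M' * q) q)) hπ h3 hMu hf1
  obtain ⟨f1, f2, f3, f4, f5⟩ := sm7_mid_facts (R := R) (K := K) M' q hq hM' hπ hqR V₂ hV₂' hπ₂'
    hne _ hs'
  obtain ⟨-, -, -, -, hhV, hhV', -, -, -, -, hfrac₁, hfrac₂, -⟩ :=
    cm85_facts_level3 (R := R) (K := K) M' hπ h3
  obtain ⟨hs₁, hs₂, -⟩ := cm15_base_sat_level3 (R := R) (K := K) M' hπ h3 hMu
  obtain ⟨⟨hD₁, -⟩, ⟨hD₂, -⟩⟩ := sm79_level3 (R := R) K M' hπ hMu h3
  haveI hD₁' : IsDedekindDomain (pk15_chart R ({pk85_h3 K M' h3} :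
      Set ↥(modularFunctionFieldFullC K M')) ⧸ Ideal.span {algebraMap R (pk15_chart R
        ({pk85_h3 K M' h3} : Set ↥(modularFunctionFieldFullC K M'))) π}) := hD₁
  haveI hD₂' : IsDedekindDomain (pk15_chart R ({(pk85_h3 K M' h3)⁻¹} :
      Set ↥(modularFunctionFieldFullC K M')) ⧸ Ideal.span {algebraMap R (pk15_chart R
        ({(pk85_h3 K M' h3)⁻¹} : Set ↥(modularFunctionFieldFullC K M'))) π}) := hD₂
  have hh : cm15_incl K M' (M' * q * q) ((dvd_mul_right M' q).trans (dvd_mul_right (M' * q) q))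
      (pk85_h3 K M' h3) = pk85_h3 K (M' * q * q)
        (h3.trans ((dvd_mul_right M' q).trans (dvd_mul_right (M' * q) q))) :=
    Subtype.ext (cm15_incl_coe M' (M' * q * q) _ _)
  have k₁ := (bbi19_main M' (M' * q * q) ((dvd_mul_right M' q).trans (dvd_mul_right (M' * q) q))
    hπ ({pk85_h3 K M' h3} : Set ↥(modularFunctionFieldFullC K M'))
    (fun g hg => by rw [Set.mem_singleton_iff.mp hg]; exact hhV) hs₁ hfrac₁ V₂ _ f1 f2 f3
    f4 f5).2.1
  have k₂ := (bbi19_main M' (M' * q * q) ((dvd_mul_right M' q).trans (dvd_mul_right (M' * q) q))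
    hπ ({(pk85_h3 K M' h3)⁻¹} : Set ↥(modularFunctionFieldFullC K M'))
    (fun g hg => by rw [Set.mem_singleton_iff.mp hg]; exact hhV') hs₂ hfrac₂ V₂ _ f1 f2 f3
    f4 f5).2.1
  rw [Set.image_singleton, hh] at k₁
  rw [Set.image_singleton, map_inv₀, hh] at k₂
  -- the chart maps `α₁`, `β₁`
  have hhα : al97L_alpha K M' q (pk85_h3 K M' h3) =
      pk85_h3 K (M' * q) (h3.trans (dvd_mul_right M' q)) :=
    Subtype.ext (by rw [al97L_alpha_coe, pk85_h3_coe, pk85_h3_coe])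
  have hq2 : q ≠ 3 := by
    rintro rfl
    exact hM' h3
  have hα1 := cm71_alpha_charts (R := R) M' q (pk85_h3 K M' h3)
  have hβ1 := cm71_beta_charts (R := R) M' q hq hunit (pk85_h3 K M' h3) (Or.inr ⟨hq2, h3, rfl⟩)
  rw [hhα] at hα1 hβ1
  -- `w₂`-stability of the charts
  have hu : IsUnit (3 : R) := by
    obtain ⟨k, hk⟩ := h3
    have e' : (M' : R) = (3 : R) * (k : R) := by rw [hk]; push_cast; ring
    rw [e'] at hMu
    exact isUnit_of_mul_isUnit_left hMu
  have hM : 3 * q ∣ M' * q * q := by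
    obtain ⟨k, hk⟩ := h3
    exact ⟨k * q, by rw [hk]; ring⟩
  let g₁ : ↥(modularFunctionFieldFullC K (M' * q * q)) :=
    al97L_beta K (M' * q) q (al97L_alpha K M' q (pk85_h3 K M' h3))
  have hg₁ : (g₁ : LaurentSeries K) = qExpand K q (h34_h3R K) := by
    show ((al97L_beta K (M' * q) q (al97L_alpha K M' q (pk85_h3 K M' h3)) :
      ↥(modularFunctionFieldFullC K (M' * q * q))) : LaurentSeries K) = _
    rw [al97L_beta_coe, al97L_alpha_coe, pk85_h3_coe]
  obtain ⟨ia, ib, ic, id⟩ := hi70_level3_full (K := K) (M' * q * q) (R := R) q hq hq2 hu hM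
    (pk85_h3 K (M' * q * q) (h3.trans ((dvd_mul_right M' q).trans (dvd_mul_right (M' * q) q))))
    g₁ (pk85_h3_coe K (M' * q * q) _) hg₁
  obtain ⟨hB1, hB2⟩ := sm7_charts_stable_gen (R := R) M' q hq hM' (pk85_h3 K M' h3) _ g₁
    (by rw [pk85_h3_coe, pk85_h3_coe]) (by rw [hg₁, pk85_h3_coe]) ia ib ic id
  exact ⟨tl3_lifts_gen (R := R) (K := K) M' q hq hM' hπ hqR V₂ hα₂ hπ₂ hs f2
      ({pk85_h3 K M' h3} : Set ↥(modularFunctionFieldFullC K M')) _ _
      (pk15_chart_le_V (cm85_Vinf (K := K) M' hπ) (pk85_hRV M' hπ) _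
        (fun g hg => by rw [Set.mem_singleton_iff.mp hg]; exact hhV))
      hsurjA k₁ hα1.1 hβ1.1 hB1,
    tl3_lifts_gen (R := R) (K := K) M' q hq hM' hπ hqR V₂ hα₂ hπ₂ hs f2
      ({(pk85_h3 K M' h3)⁻¹} : Set ↥(modularFunctionFieldFullC K M')) _ _
      (pk15_chart_le_V (cm85_Vinf (K := K) M' hπ) (pk85_hRV M' hπ) _
        (fun g hg => by rw [Set.mem_singleton_iff.mp hg]; exact hhV'))
      hsurjB k₂ hα1.2 hβ1.2 hB2⟩

end tl3_inst

end Fermat.Agent.S36
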