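import Fermat.Agent.S36.HP3Canon3
import Fermat.Agent.S36.TripleLift3
import Fermat.Agent.S36.RegNodes68
import Fermat.Agent.S36.HPSplit62
import Fermat.Agent.S36.SmoothThree7
import Fermat.Agent.S36.NodeFrameInst79
import Fermat.Agent.S34.BetaChart95

/-!
# S36 lab (helper3): (HP-3) on the canonical frame — `s36i62g_HP3c2`, `s36i62g_HP3c3`

TWIN binder of the canonical (HP-3).  `hc3_TP` (HP3Canon3) gives `hp3x77_TripleData` at every
closed point on two branches of a pair of canonical charts; here the chart inputs are supplied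
for the Hauptmoduln of level 2 and 3:

* `hc3_TP_level2`, `hc3_TP_level3` : the two hypotheses `hTP`, `hTP'` of `hp3g94_level2/3`
  (helper94) at a rigid level (`r ≡ 11 mod 12` prime, `r ∣ M'`), `(q : R) = π`, `V₂` ANY
  valuation subring with the facts `hV₂ hπ₂ hne hs`.  Inputs used: `cf54_level2/3` (helper54),
  `tg71_level2/3`, `tg71_hD_level2/3` (helper71), `nrg68_regNodes_rigid` (helper68, (REG-q)),
  `sm7_three_smooth_sq_level2/3` (helper7), `tl3_lifts_level2/3`, `bc95_alpha`,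
  `bc95_beta_level2/3` (helper95), `nf79c_chart_facts` (helper79).
* `hc3_HP3c2 : s36i62g_HP3c2`, `hc3_HP3c3 : s36i62g_HP3c3` (the two (HP-3) statements of
  `HPSplit62`, helper62), by `hp3g94_level2/3` at `V₂ = v2g64_V2`.

No input from row 600 (the `C₂`-only points) is used.  All names are prefixed `hc3_`.
-/

set_option autoImplicit false
set_option linter.unusedSectionVars false
set_option linter.unusedVariables false
set_option linter.style.haveILetI false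
set_option linter.style.longLine false

open ModularCurve AlgebraicCurve IntermediateField
open Fermat.Agent.S24 Fermat.Agent.S28 Fermat.Agent.S18 Fermat.Agent.S37 Fermat.Agent.S34
open Fermat.Agent.S42 Fermat.Agent.S35

namespace Fermat.Agent.S36

open Fermat.Agent.S36.TripleLoc71

local notation "Q̄" => AlgebraicClosure ℚ

section hc3f

variable {R K : Type} [CommRing R] [IsDomain R] [IsDiscreteValuationRing R] [Field K]
  [NumberField K] [Algebra R K] [IsFractionRing R K] [Algebra K Q̄] [Algebra.IsAlgebraic K Q̄]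
  (M' q : ℕ) [NeZero M'] [NeZero q] (hq : q.Prime) (hM' : ¬ q ∣ M')
  {π : R} (hπ : Irreducible π)
  [Algebra R ↥(modularFunctionFieldFullC K M')]
  [IsScalarTower R K ↥(modularFunctionFieldFullC K M')]
  [Algebra R ↥(modularFunctionFieldFullC K (M' * q))]
  [IsScalarTower R K ↥(modularFunctionFieldFullC K (M' * q))]
  [Algebra R ↥(modularFunctionFieldFullC K (M' * q * q))]
  [IsScalarTower R K ↥(modularFunctionFieldFullC K (M' * q * q))]

include hq hM' in
/-- **The per-point triple data on both canonical charts, Hauptmodul of level 2** (`hTP`, `hTP'`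
of `hp3g94_level2`), at a rigid level. -/
theorem hc3_TP_level2 (hunit : ∀ n : ℕ, Nat.Coprime n q → IsUnit (n : R))
    (hqR : ¬ IsUnit (q : R)) (hqπ : ((q : ℕ) : R) = π)
    {r : ℕ} (hr : r.Prime) (hr12 : r % 12 = 11) (hrM : r ∣ M') (h2 : 2 ∣ M')
    (V₂ : ValuationSubring ↥(modularFunctionFieldFullC K (M' * q * q)))
    (hV₂ : ∀ c ∈ cm85_Vinf (K := K) (M' * q) hπ, al97L_alpha K (M' * q) q c ∈ V₂)
    (hπ₂ : (algebraMap K ↥(modularFunctionFieldFullC K (M' * q * q)) (algebraMap R K π))⁻¹ ∉ V₂)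
    (hne : cm85_Vinf (K := K) (M' * q * q) hπ ≠ V₂)
    (hs : V₂.valuation (v2g64_s K M' q) ^ (q - 1) =
      V₂.valuation (algebraMap K ↥(modularFunctionFieldFullC K (M' * q * q)) (algebraMap R K π)))
    (m : ℕ) (hm0 : 0 < m) :
    (∀ (n : Ideal (pk15_chart R ({pk85_h2 K (M' * q * q)
          (h2.trans ((dvd_mul_right M' q).trans (dvd_mul_right (M' * q) q)))} :
            Set ↥(modularFunctionFieldFullC K (M' * q * q))))) (hn : n.IsMaximal),
      algebraMap R _ π ∈ n →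
      ¬ cp57_OneBr π _ (cm85_Vinf (K := K) (M' * q * q) hπ) V₂
        (nsb86_V3 (K := K) M' q hq hM' hπ) n →
      @hp3x77_TripleData R ↥(modularFunctionFieldFullC K (M' * q))
        ↥(modularFunctionFieldFullC K (M' * q * q)) _ _ _ _ K _ _ _ π m _
        (al97L_alpha K (M' * q) q).toRingHom (al97L_beta K (M' * q) q).toRingHom
        (s35i62_normA K (M' * q) q) (s35i62_normB K (M' * q) q)
        (cm85_Vinf (K := K) (M' * q * q) hπ) V₂ (nsb86_V3 (K := K) M' q hq hM' hπ)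
        (cm85_Vinf (K := K) (M' * q) hπ) (s34i47c_V0 (K := K) M' q hq hM' hπ) n hn.isPrime) ∧
    (∀ (n : Ideal (pk15_chart R ({(pk85_h2 K (M' * q * q)
          (h2.trans ((dvd_mul_right M' q).trans (dvd_mul_right (M' * q) q))))⁻¹} :
            Set ↥(modularFunctionFieldFullC K (M' * q * q))))) (hn : n.IsMaximal),
      algebraMap R _ π ∈ n →
      ¬ cp57_OneBr π _ (cm85_Vinf (K := K) (M' * q * q) hπ) V₂
        (nsb86_V3 (K := K) M' q hq hM' hπ) n →
      @hp3x77_TripleData R ↥(modularFunctionFieldFullC K (M' * q))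
        ↥(modularFunctionFieldFullC K (M' * q * q)) _ _ _ _ K _ _ _ π m _
        (al97L_alpha K (M' * q) q).toRingHom (al97L_beta K (M' * q) q).toRingHom
        (s35i62_normA K (M' * q) q) (s35i62_normB K (M' * q) q)
        (cm85_Vinf (K := K) (M' * q * q) hπ) V₂ (nsb86_V3 (K := K) M' q hq hM' hπ)
        (cm85_Vinf (K := K) (M' * q) hπ) (s34i47c_V0 (K := K) M' q hq hM' hπ) n hn.isPrime) := by
  have hMu : IsUnit (M' : R) := hunit M' ((Nat.Prime.coprime_iff_not_dvd hq).2 hM').symm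
  have hqp : q ≠ 2 := by
    rintro rfl
    exact hM' h2
  have hh' : s34i47c_IsHaupt K (M' * q) q (pk85_h2 K (M' * q) (h2.trans (dvd_mul_right M' q))) :=
    Or.inl ⟨hqp, (h2.trans (dvd_mul_right M' q)), rfl⟩
  have hαh : al97L_alpha K (M' * q) q (pk85_h2 K (M' * q) (h2.trans (dvd_mul_right M' q))) =
      pk85_h2 K (M' * q * q) (h2.trans ((dvd_mul_right M' q).trans (dvd_mul_right (M' * q) q))) :=
    Subtype.ext (by rw [al97L_alpha_coe, pk85_h2_coe, pk85_h2_coe])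
  obtain ⟨hB, hB'⟩ := cf54_level2 (K := K) M' q hq hM' hπ hqR hMu h2 V₂ hV₂ hπ₂ hs
  obtain ⟨hout, hout'⟩ := tg71_level2 (K := K) M' q hq hM' hπ hunit hqR hMu h2 V₂ hV₂ hπ₂ hne hs
  obtain ⟨hreg, hreg'⟩ := nrg68_regNodes_rigid (K := K) M' q hq hM' hπ hunit hqR hqπ hr hr12 hrM
    (pk85_h2 K (M' * q) (h2.trans (dvd_mul_right M' q))) hh'
  obtain ⟨hD, hD'⟩ := tg71_hD_level2 (K := K) M' q hq hM' hπ hunit hqR h2 V₂ hV₂ hπ₂ hne hs
  obtain ⟨hD₁, hD₃⟩ := hD hreg
  obtain ⟨hD₁', hD₃'⟩ := hD' hreg'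
  have e : algebraMap R ↥(modularFunctionFieldFullC K (M' * q * q)) π =
      algebraMap K ↥(modularFunctionFieldFullC K (M' * q * q)) (algebraMap R K π) :=
    IsScalarTower.algebraMap_apply R K _ π
  have hπ₂' : (algebraMap R ↥(modularFunctionFieldFullC K (M' * q * q)) π)⁻¹ ∉ V₂ := by
    rw [e]; exact hπ₂
  have hs' : V₂.valuation (v2g64_s K M' q) ^ (q - 1) =
      V₂.valuation (algebraMap R ↥(modularFunctionFieldFullC K (M' * q * q)) π) := by
    rw [e]; exact hs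
  obtain ⟨⟨a1, a2, a3⟩, ⟨b1, b2, b3⟩⟩ := sm7_three_smooth_sq_level2 (R := R) (K := K) M' q hq hM'
    hπ hqR h2 hMu V₂ hV₂ hπ₂' hne (v2g64_s K M' q) hs'
  obtain ⟨hL, hL'⟩ := tl3_lifts_level2 (K := K) M' q hq hM' hπ hqR hunit h2 V₂ hV₂ hπ₂ hne hs
  obtain ⟨⟨fα, hfα, hfαi⟩, ⟨fα', hfα', hfαi'⟩⟩ := bc95_alpha (R := R) (M' * q) q
    (pk85_h2 K (M' * q) (h2.trans (dvd_mul_right M' q)))
    (pk85_h2 K (M' * q * q) (h2.trans ((dvd_mul_right M' q).trans (dvd_mul_right (M' * q) q))))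
    hαh
  have hcop : Nat.Coprime 2 q := (Nat.coprime_primes Nat.prime_two hq).mpr (Ne.symm hqp)
  have hlR : IsUnit (2 : R) := by simpa using hunit 2 hcop
  obtain ⟨⟨fβ, hfβ, hfβi⟩, ⟨fβ', hfβ', hfβi'⟩⟩ := bc95_beta_level2 (R := R) (M' * q) q hq hqp hlR
    (h2.trans (dvd_mul_right M' q))
    (pk85_h2 K (M' * q) (h2.trans (dvd_mul_right M' q)))
    (pk85_h2 K (M' * q * q) (h2.trans ((dvd_mul_right M' q).trans (dvd_mul_right (M' * q) q))))
    (pk85_h2_coe K (M' * q) _) (pk85_h2_coe K (M' * q * q) _)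
  obtain ⟨⟨hBW₁, -⟩, ⟨hBW₂, -⟩⟩ := nf79c_chart_facts (K := K) M' q hq hM' hπ hunit hqR
    (pk85_h2 K (M' * q) (h2.trans (dvd_mul_right M' q))) hh'
  exact ⟨fun n hn hπn hnot => hc3_TP (K := K) M' q hq hM' hπ hqR V₂ hV₂ hπ₂ hne hs _ _ hB hout hreg
      hD₁ hD₃ a1 a2 a3 hL fα hfα hfαi fβ hfβ hfβi hBW₁ m hm0 n hn hπn hnot,
    fun n hn hπn hnot => hc3_TP (K := K) M' q hq hM' hπ hqR V₂ hV₂ hπ₂ hne hs _ _ hB' hout' hreg'
      hD₁' hD₃' b1 b2 b3 hL' fα' hfα' hfαi' fβ' hfβ' hfβi' hBW₂ m hm0 n hn hπn hnot⟩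

include hq hM' in
/-- **The per-point triple data on both canonical charts, Hauptmodul of level 3** (`hTP`, `hTP'`
of `hp3g94_level3`), at a rigid level. -/
theorem hc3_TP_level3 (hunit : ∀ n : ℕ, Nat.Coprime n q → IsUnit (n : R))
    (hqR : ¬ IsUnit (q : R)) (hqπ : ((q : ℕ) : R) = π)
    {r : ℕ} (hr : r.Prime) (hr12 : r % 12 = 11) (hrM : r ∣ M') (h3 : 3 ∣ M')
    (V₂ : ValuationSubring ↥(modularFunctionFieldFullC K (M' * q * q)))
    (hV₂ : ∀ c ∈ cm85_Vinf (K := K) (M' * q) hπ, al97L_alpha K (M' * q) q c ∈ V₂)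
    (hπ₂ : (algebraMap K ↥(modularFunctionFieldFullC K (M' * q * q)) (algebraMap R K π))⁻¹ ∉ V₂)
    (hne : cm85_Vinf (K := K) (M' * q * q) hπ ≠ V₂)
    (hs : V₂.valuation (v2g64_s K M' q) ^ (q - 1) =
      V₂.valuation (algebraMap K ↥(modularFunctionFieldFullC K (M' * q * q)) (algebraMap R K π)))
    (m : ℕ) (hm0 : 0 < m) :
    (∀ (n : Ideal (pk15_chart R ({pk85_h3 K (M' * q * q)
          (h3.trans ((dvd_mul_right M' q).trans (dvd_mul_right (M' * q) q)))} :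
            Set ↥(modularFunctionFieldFullC K (M' * q * q))))) (hn : n.IsMaximal),
      algebraMap R _ π ∈ n →
      ¬ cp57_OneBr π _ (cm85_Vinf (K := K) (M' * q * q) hπ) V₂
        (nsb86_V3 (K := K) M' q hq hM' hπ) n →
      @hp3x77_TripleData R ↥(modularFunctionFieldFullC K (M' * q))
        ↥(modularFunctionFieldFullC K (M' * q * q)) _ _ _ _ K _ _ _ π m _
        (al97L_alpha K (M' * q) q).toRingHom (al97L_beta K (M' * q) q).toRingHom
        (s35i62_normA K (M' * q) q) (s35i62_normB K (M' * q) q)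
        (cm85_Vinf (K := K) (M' * q * q) hπ) V₂ (nsb86_V3 (K := K) M' q hq hM' hπ)
        (cm85_Vinf (K := K) (M' * q) hπ) (s34i47c_V0 (K := K) M' q hq hM' hπ) n hn.isPrime) ∧
    (∀ (n : Ideal (pk15_chart R ({(pk85_h3 K (M' * q * q)
          (h3.trans ((dvd_mul_right M' q).trans (dvd_mul_right (M' * q) q))))⁻¹} :
            Set ↥(modularFunctionFieldFullC K (M' * q * q))))) (hn : n.IsMaximal),
      algebraMap R _ π ∈ n →
      ¬ cp57_OneBr π _ (cm85_Vinf (K := K) (M' * q * q) hπ) V₂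
        (nsb86_V3 (K := K) M' q hq hM' hπ) n →
      @hp3x77_TripleData R ↥(modularFunctionFieldFullC K (M' * q))
        ↥(modularFunctionFieldFullC K (M' * q * q)) _ _ _ _ K _ _ _ π m _
        (al97L_alpha K (M' * q) q).toRingHom (al97L_beta K (M' * q) q).toRingHom
        (s35i62_normA K (M' * q) q) (s35i62_normB K (M' * q) q)
        (cm85_Vinf (K := K) (M' * q * q) hπ) V₂ (nsb86_V3 (K := K) M' q hq hM' hπ)
        (cm85_Vinf (K := K) (M' * q) hπ) (s34i47c_V0 (K := K) M' q hq hM' hπ) n hn.isPrime) := by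
  have hMu : IsUnit (M' : R) := hunit M' ((Nat.Prime.coprime_iff_not_dvd hq).2 hM').symm
  have hqp : q ≠ 3 := by
    rintro rfl
    exact hM' h3
  have hh' : s34i47c_IsHaupt K (M' * q) q (pk85_h3 K (M' * q) (h3.trans (dvd_mul_right M' q))) :=
    Or.inr ⟨hqp, (h3.trans (dvd_mul_right M' q)), rfl⟩
  have hαh : al97L_alpha K (M' * q) q (pk85_h3 K (M' * q) (h3.trans (dvd_mul_right M' q))) =
      pk85_h3 K (M' * q * q) (h3.trans ((dvd_mul_right M' q).trans (dvd_mul_right (M' * q) q))) :=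
    Subtype.ext (by rw [al97L_alpha_coe, pk85_h3_coe, pk85_h3_coe])
  obtain ⟨hB, hB'⟩ := cf54_level3 (K := K) M' q hq hM' hπ hqR hMu h3 V₂ hV₂ hπ₂ hs
  obtain ⟨hout, hout'⟩ := tg71_level3 (K := K) M' q hq hM' hπ hunit hqR hMu h3 V₂ hV₂ hπ₂ hne hs
  obtain ⟨hreg, hreg'⟩ := nrg68_regNodes_rigid (K := K) M' q hq hM' hπ hunit hqR hqπ hr hr12 hrM
    (pk85_h3 K (M' * q) (h3.trans (dvd_mul_right M' q))) hh'
  obtain ⟨hD, hD'⟩ := tg71_hD_level3 (K := K) M' q hq hM' hπ hunit hqR h3 V₂ hV₂ hπ₂ hne hs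
  obtain ⟨hD₁, hD₃⟩ := hD hreg
  obtain ⟨hD₁', hD₃'⟩ := hD' hreg'
  have e : algebraMap R ↥(modularFunctionFieldFullC K (M' * q * q)) π =
      algebraMap K ↥(modularFunctionFieldFullC K (M' * q * q)) (algebraMap R K π) :=
    IsScalarTower.algebraMap_apply R K _ π
  have hπ₂' : (algebraMap R ↥(modularFunctionFieldFullC K (M' * q * q)) π)⁻¹ ∉ V₂ := by
    rw [e]; exact hπ₂
  have hs' : V₂.valuation (v2g64_s K M' q) ^ (q - 1) =
      V₂.valuation (algebraMap R ↥(modularFunctionFieldFullC K (M' * q * q)) π) := by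
    rw [e]; exact hs
  obtain ⟨⟨a1, a2, a3⟩, ⟨b1, b2, b3⟩⟩ := sm7_three_smooth_sq_level3 (R := R) (K := K) M' q hq hM'
    hπ hqR h3 hMu V₂ hV₂ hπ₂' hne (v2g64_s K M' q) hs'
  obtain ⟨hL, hL'⟩ := tl3_lifts_level3 (K := K) M' q hq hM' hπ hqR hunit h3 V₂ hV₂ hπ₂ hne hs
  obtain ⟨⟨fα, hfα, hfαi⟩, ⟨fα', hfα', hfαi'⟩⟩ := bc95_alpha (R := R) (M' * q) q
    (pk85_h3 K (M' * q) (h3.trans (dvd_mul_right M' q)))
    (pk85_h3 K (M' * q * q) (h3.trans ((dvd_mul_right M' q).trans (dvd_mul_right (M' * q) q))))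
    hαh
  have hcop : Nat.Coprime 3 q := (Nat.coprime_primes Nat.prime_three hq).mpr (Ne.symm hqp)
  have hlR : IsUnit (3 : R) := by simpa using hunit 3 hcop
  obtain ⟨⟨fβ, hfβ, hfβi⟩, ⟨fβ', hfβ', hfβi'⟩⟩ := bc95_beta_level3 (R := R) (M' * q) q hq hqp hlR
    (h3.trans (dvd_mul_right M' q))
    (pk85_h3 K (M' * q) (h3.trans (dvd_mul_right M' q)))
    (pk85_h3 K (M' * q * q) (h3.trans ((dvd_mul_right M' q).trans (dvd_mul_right (M' * q) q))))
    (pk85_h3_coe K (M' * q) _) (pk85_h3_coe K (M' * q * q) _)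
  obtain ⟨⟨hBW₁, -⟩, ⟨hBW₂, -⟩⟩ := nf79c_chart_facts (K := K) M' q hq hM' hπ hunit hqR
    (pk85_h3 K (M' * q) (h3.trans (dvd_mul_right M' q))) hh'
  exact ⟨fun n hn hπn hnot => hc3_TP (K := K) M' q hq hM' hπ hqR V₂ hV₂ hπ₂ hne hs _ _ hB hout hreg
      hD₁ hD₃ a1 a2 a3 hL fα hfα hfαi fβ hfβ hfβi hBW₁ m hm0 n hn hπn hnot,
    fun n hn hπn hnot => hc3_TP (K := K) M' q hq hM' hπ hqR V₂ hV₂ hπ₂ hne hs _ _ hB' hout' hreg'
      hD₁' hD₃' b1 b2 b3 hL' fα' hfα' hfαi' fβ' hfβ' hfβi' hBW₂ m hm0 n hn hπn hnot⟩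

end hc3f

/-- **(HP-3), canonical, Hauptmodul of level 2** (`s36i62g_HP3c2` of `HPSplit62`). -/
theorem hc3_HP3c2 : s36i62g_HP3c2 := by
  intro M' q p r _ _ hq hM' hrig hp hpq h2 n R K _ _ _ _ _ _ _ _ _ _ hπ hunit
  haveI : Algebra.IsAlgebraic K Q̄ := fs85_isAlgebraic K
  letI ia1 : Algebra R ↥(modularFunctionFieldFullC K M') :=
    ((algebraMap K ↥(modularFunctionFieldFullC K M')).comp (algebraMap R K)).toAlgebra
  haveI t1 : IsScalarTower R K ↥(modularFunctionFieldFullC K M') :=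
    IsScalarTower.of_algebraMap_eq (fun _ => rfl)
  letI ia2 : Algebra R ↥(modularFunctionFieldFullC K (M' * q)) :=
    ((algebraMap K ↥(modularFunctionFieldFullC K (M' * q))).comp (algebraMap R K)).toAlgebra
  haveI t2 : IsScalarTower R K ↥(modularFunctionFieldFullC K (M' * q)) :=
    IsScalarTower.of_algebraMap_eq (fun _ => rfl)
  obtain ⟨-, -, hr, hr12, hrq, hrN⟩ := hrig
  have hrM : r ∣ M' := by
    rcases (Nat.Prime.dvd_mul hr).mp hrN with h | h
    · exact h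
    · exact absurd ((Nat.prime_dvd_prime_iff_eq hr hq).mp h) hrq
  have hMu : IsUnit ((M' : ℕ) : R) := hunit M' ((Nat.Prime.coprime_iff_not_dvd hq).2 hM').symm
  have hm0 : 0 < p ^ n := pow_pos hp.pos n
  have hmu : IsUnit ((p ^ n : ℕ) : R) :=
    hunit (p ^ n) (Nat.Coprime.pow_left n ((Nat.coprime_primes hp hq).mpr hpq))
  obtain ⟨hTP, hTP'⟩ := hc3_TP_level2 (K := K) M' q hq hM' hπ hunit hπ.not_isUnit rfl hr hr12 hrM h2
    (v2g64_V2 (algebraMap K Q̄) M' q hq hM' hπ (Associated.refl _))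
    (v2g64_V2_alpha (algebraMap K Q̄) M' q hq hM' hπ (Associated.refl _))
    (v2g64_V2_pi (algebraMap K Q̄) M' q hq hM' hπ (Associated.refl _))
    (v2g64_V2_ne (algebraMap K Q̄) M' q hq hM' hπ (Associated.refl _))
    (v2g64_V2_val (algebraMap K Q̄) M' q hq hM' hπ (Associated.refl _)) (p ^ n) hm0
  exact hp3g94_level2 M' q (p ^ n) hq hM' R K hπ hMu h2
    (v2g64_V2 (algebraMap K Q̄) M' q hq hM' hπ (Associated.refl _))
    (v2g64_V2_alpha (algebraMap K Q̄) M' q hq hM' hπ (Associated.refl _))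
    (v2g64_V2_pi (algebraMap K Q̄) M' q hq hM' hπ (Associated.refl _))
    (v2g64_V2_val (algebraMap K Q̄) M' q hq hM' hπ (Associated.refl _)) hm0 hmu hTP hTP'

/-- **(HP-3), canonical, Hauptmodul of level 3** (`s36i62g_HP3c3` of `HPSplit62`). -/
theorem hc3_HP3c3 : s36i62g_HP3c3 := by
  intro M' q p r _ _ hq hM' hrig hp hpq hq2 h3 n R K _ _ _ _ _ _ _ _ _ _ hπ hunit
  haveI : Algebra.IsAlgebraic K Q̄ := fs85_isAlgebraic K
  letI ia1 : Algebra R ↥(modularFunctionFieldFullC K M') :=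
    ((algebraMap K ↥(modularFunctionFieldFullC K M')).comp (algebraMap R K)).toAlgebra
  haveI t1 : IsScalarTower R K ↥(modularFunctionFieldFullC K M') :=
    IsScalarTower.of_algebraMap_eq (fun _ => rfl)
  letI ia2 : Algebra R ↥(modularFunctionFieldFullC K (M' * q)) :=
    ((algebraMap K ↥(modularFunctionFieldFullC K (M' * q))).comp (algebraMap R K)).toAlgebra
  haveI t2 : IsScalarTower R K ↥(modularFunctionFieldFullC K (M' * q)) :=
    IsScalarTower.of_algebraMap_eq (fun _ => rfl)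
  obtain ⟨-, -, hr, hr12, hrq, hrN⟩ := hrig
  have hrM : r ∣ M' := by
    rcases (Nat.Prime.dvd_mul hr).mp hrN with h | h
    · exact h
    · exact absurd ((Nat.prime_dvd_prime_iff_eq hr hq).mp h) hrq
  have hMu : IsUnit ((M' : ℕ) : R) := hunit M' ((Nat.Prime.coprime_iff_not_dvd hq).2 hM').symm
  have hm0 : 0 < p ^ n := pow_pos hp.pos n
  have hmu : IsUnit ((p ^ n : ℕ) : R) :=
    hunit (p ^ n) (Nat.Coprime.pow_left n ((Nat.coprime_primes hp hq).mpr hpq))
  obtain ⟨hTP, hTP'⟩ := hc3_TP_level3 (K := K) M' q hq hM' hπ hunit hπ.not_isUnit rfl hr hr12 hrM h3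
    (v2g64_V2 (algebraMap K Q̄) M' q hq hM' hπ (Associated.refl _))
    (v2g64_V2_alpha (algebraMap K Q̄) M' q hq hM' hπ (Associated.refl _))
    (v2g64_V2_pi (algebraMap K Q̄) M' q hq hM' hπ (Associated.refl _))
    (v2g64_V2_ne (algebraMap K Q̄) M' q hq hM' hπ (Associated.refl _))
    (v2g64_V2_val (algebraMap K Q̄) M' q hq hM' hπ (Associated.refl _)) (p ^ n) hm0
  exact hp3g94_level3 M' q (p ^ n) hq hM' R K hπ hMu h3
    (v2g64_V2 (algebraMap K Q̄) M' q hq hM' hπ (Associated.refl _))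
    (v2g64_V2_alpha (algebraMap K Q̄) M' q hq hM' hπ (Associated.refl _))
    (v2g64_V2_pi (algebraMap K Q̄) M' q hq hM' hπ (Associated.refl _))
    (v2g64_V2_val (algebraMap K Q̄) M' q hq hM' hπ (Associated.refl _)) hm0 hmu hTP hTP'

end Fermat.Agent.S36
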