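import Fermat.Agent.S36.WConst30

/-!
# S36 lab (helper30): LEMMA K in the valuation shape of `ci57x_UnitData` (row 605, (HB))

`R` a discrete valuation ring with uniformiser `π`, `K = Frac R`, `m` a unit of `R`.

* `lk30_Vinf_val_lt_one_iff` : for `V_∞ = cm85_Vinf M hπ` (any level `M`):
  `V_∞.valuation x < 1 ↔ (algebraMap R F π)⁻¹ * x ∈ V_∞`; `lk30_V0_val_lt_one_iff` for
  `V_0 = s34i47c_V0`.
* `lk30_Vinf_root` : `V_∞.valuation (c · A ^ m - 1) < 1`, `c ∈ Rˣ` ⟹
  `∃ t : Rˣ, V_∞.valuation (A - t) < 1` (constants written `algebraMap K F (algebraMap R K _)`,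
  literally as in `ci57x_UnitData`); `lk30_V0_root` the same on `V_0`.
* `lk30_unitData` : both at once on the level-`M' q` frame: the clauses
  `(∃ r : Rˣ, tinf = …) ∧ (∃ r : Rˣ, t0 = …) ∧ Vinf.valuation (A - tinf) < 1 ∧
  V0.valuation (A - t0) < 1` of `ci57x_UnitData` from `c · A ^ m ≡ 1` on both branches.
-/

set_option autoImplicit false
set_option linter.unusedSectionVars false

open ModularCurve

namespace Fermat.Agent.S36

open Fermat.Agent.S18 Fermat.Agent.S34

local notation "Q̄" => AlgebraicClosure ℚ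

/-- In a valuation subring: `x ^ m ∈ V`, `m ≠ 0` ⟹ `x ∈ V`. -/
theorem lk30_root_mem {F : Type*} [Field F] (V : ValuationSubring F) (m : ℕ) (hm : m ≠ 0)
    (x : F) (hx : x ^ m ∈ V) : x ∈ V := by
  rcases V.mem_or_inv_mem x with h | h
  · exact h
  · obtain ⟨k, rfl⟩ : ∃ k, m = k + 1 := ⟨m - 1, (Nat.succ_pred_eq_of_ne_zero hm).symm⟩
    by_cases hx0 : x = 0
    · rw [hx0]; exact V.zero_mem
    have h1 : x = x ^ (k + 1) * (x⁻¹) ^ k := by
      rw [pow_succ, inv_pow]
      field_simp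
    rw [h1]
    exact V.mul_mem _ _ hx (pow_mem h k)

/-- For a valuation subring with `𝔪 = ϖ V` in the elementary shape (`hmax`, `ϖ⁻¹ ∉ V`):
`V.valuation x < 1 ↔ ϖ⁻¹ x ∈ V`. -/
theorem lk30_val_lt_one_iff {F : Type*} [Field F] (V : ValuationSubring F) (ϖ : F)
    (hϖ : ϖ⁻¹ ∉ V) (hmax : ∀ x ∈ V, x⁻¹ ∉ V → ϖ⁻¹ * x ∈ V) (x : F) :
    V.valuation x < 1 ↔ ϖ⁻¹ * x ∈ V := by
  rw [← ValuationSubring.mem_nonunits_iff, ValuationSubring.mem_nonunits_iff_or]
  constructor
  · rintro (rfl | h)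
    · rw [mul_zero]; exact V.zero_mem
    · have hxV : x ∈ V := (V.mem_or_inv_mem x).resolve_right h
      exact hmax x hxV h
  · intro h
    by_cases hx0 : x = 0
    · exact Or.inl hx0
    · refine Or.inr fun hinv => hϖ ?_
      have h1 : ϖ⁻¹ = ϖ⁻¹ * x * x⁻¹ := by
        field_simp
      rw [h1]
      exact V.mul_mem _ _ h hinv

section lk30inf

variable {R K : Type} [CommRing R] [IsDomain R] [IsDiscreteValuationRing R] [Field K]
  [Algebra R K] [IsFractionRing R K] (M : ℕ) [NeZero M]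
  [Algebra R ↥(modularFunctionFieldFullC K M)]
  [IsScalarTower R K ↥(modularFunctionFieldFullC K M)]

theorem lk30_Vinf_val_lt_one_iff {π : R} (hπ : Irreducible π)
    (x : ↥(modularFunctionFieldFullC K M)) :
    (cm85_Vinf (K := K) M hπ).valuation x < 1 ↔
      (algebraMap R ↥(modularFunctionFieldFullC K M) π)⁻¹ * x ∈ cm85_Vinf (K := K) M hπ := by
  have hconv : ∀ r : R, algebraMap R ↥(modularFunctionFieldFullC K M) r =
      algebraMap K ↥(modularFunctionFieldFullC K M) (algebraMap R K r) :=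
    fun r => IsScalarTower.algebraMap_apply R K ↥(modularFunctionFieldFullC K M) r
  refine lk30_val_lt_one_iff _ _ ?_ ?_ x
  · rw [hconv]
    exact gv85_pi_inv_not_mem (IsLocalRing.residue R) π (pk85_res_iff hπ) hπ.ne_zero _ _
  · intro y hy hy'
    rw [hconv]
    exact gv85_hmax (IsLocalRing.residue R) π (pk85_res_iff hπ) hπ.ne_zero _ _ y hy hy'

/-- **LEMMA K on `V_∞`, valuation shape**: `c · A ^ m ≡ 1 mod 𝔪(V_∞)` ⟹ `A ≡ t mod 𝔪(V_∞)`
with `t ∈ Rˣ`. -/
theorem lk30_Vinf_root {π : R} (hπ : Irreducible π) (m : ℕ) (hm : IsUnit (m : R))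
    (A : ↥(modularFunctionFieldFullC K M)) (c : Rˣ)
    (h : (cm85_Vinf (K := K) M hπ).valuation
      (algebraMap K ↥(modularFunctionFieldFullC K M) (algebraMap R K c) * A ^ m - 1) < 1) :
    ∃ t : Rˣ, π ∣ (c : R) * (t : R) ^ m - 1 ∧
      (cm85_Vinf (K := K) M hπ).valuation
        (A - algebraMap K ↥(modularFunctionFieldFullC K M) (algebraMap R K t)) < 1 := by
  have hconv : ∀ r : R, algebraMap K ↥(modularFunctionFieldFullC K M) (algebraMap R K r) =
      algebraMap R ↥(modularFunctionFieldFullC K M) r :=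
    fun r => (IsScalarTower.algebraMap_apply R K ↥(modularFunctionFieldFullC K M) r).symm
  have hm0 : m ≠ 0 := by
    rintro rfl
    rw [Nat.cast_zero] at hm
    exact not_isUnit_zero hm
  rw [hconv] at h
  -- `A ∈ V`
  have h1 : algebraMap R ↥(modularFunctionFieldFullC K M) (c : R) * A ^ m - 1 ∈
      cm85_Vinf (K := K) M hπ :=
    (ValuationSubring.valuation_le_one_iff _ _).mp h.le
  have h2 : algebraMap R ↥(modularFunctionFieldFullC K M) (c : R) * A ^ m ∈
      cm85_Vinf (K := K) M hπ := by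
    have := (cm85_Vinf (K := K) M hπ).add_mem _ _ h1 (cm85_Vinf (K := K) M hπ).one_mem
    rwa [sub_add_cancel] at this
  have h3 : A ^ m ∈ cm85_Vinf (K := K) M hπ := by
    have h4 : A ^ m = algebraMap R ↥(modularFunctionFieldFullC K M) ((c⁻¹ : Rˣ) : R) *
        (algebraMap R ↥(modularFunctionFieldFullC K M) (c : R) * A ^ m) := by
      rw [← mul_assoc, ← map_mul, Units.inv_mul, map_one, one_mul]
    rw [h4]
    exact (cm85_Vinf (K := K) M hπ).mul_mem _ _ (pk85_hRV (K := K) M hπ _) h2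
  have hA : A ∈ cm85_Vinf (K := K) M hπ := lk30_root_mem _ m hm0 A h3
  rw [lk30_Vinf_val_lt_one_iff] at h
  have h5 : (algebraMap R ↥(modularFunctionFieldFullC K M) π)⁻¹ *
      (algebraMap R ↥(modularFunctionFieldFullC K M) (c : R) * A ^ m -
        algebraMap R ↥(modularFunctionFieldFullC K M) 1) ∈ cm85_Vinf (K := K) M hπ := by
    rw [map_one]
    exact h
  obtain ⟨a, hau, ha, hxa⟩ :=
    vc30_Vinf_const_unit (K := K) M hπ m hm A hA 1 (c : R) isUnit_one c.isUnit h5
  refine ⟨hau.unit, ?_, ?_⟩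
  · rw [IsUnit.unit_spec]
    exact ha
  · rw [lk30_Vinf_val_lt_one_iff, IsUnit.unit_spec, hconv]
    exact hxa

end lk30inf

section lk30zero

variable {R K : Type} [CommRing R] [IsDomain R] [IsDiscreteValuationRing R] [Field K]
  [Algebra R K] [IsFractionRing R K] [Algebra K Q̄]
  (M' q : ℕ) [NeZero M'] [NeZero q] (hq : q.Prime) (hM' : ¬ q ∣ M')
  [Algebra R ↥(modularFunctionFieldFullC K (M' * q))]
  [IsScalarTower R K ↥(modularFunctionFieldFullC K (M' * q))]

theorem lk30_V0_valuation_eq {π : R} (hπ : Irreducible π)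
    (x : ↥(modularFunctionFieldFullC K (M' * q))) :
    (s34i47c_V0 (K := K) M' q hq hM' hπ).valuation x < 1 ↔
      (cm85_Vinf (K := K) (M' * q) hπ).valuation (al97L_w (algebraMap K Q̄) M' q hq hM' x) < 1 := by
  rw [← ValuationSubring.mem_nonunits_iff, ← ValuationSubring.mem_nonunits_iff,
    ValuationSubring.mem_nonunits_iff_or, ValuationSubring.mem_nonunits_iff_or,
    s34i47c_mem_V0, map_inv₀]
  constructor
  · rintro (rfl | h)
    · exact Or.inl (map_zero _)
    · exact Or.inr h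
  · rintro (h | h)
    · exact Or.inl ((map_eq_zero_iff _ (AlgEquiv.injective _)).mp h)
    · exact Or.inr h

theorem lk30_V0_val_lt_one_iff {π : R} (hπ : Irreducible π)
    (x : ↥(modularFunctionFieldFullC K (M' * q))) :
    (s34i47c_V0 (K := K) M' q hq hM' hπ).valuation x < 1 ↔
      (algebraMap R ↥(modularFunctionFieldFullC K (M' * q)) π)⁻¹ * x ∈
        s34i47c_V0 (K := K) M' q hq hM' hπ := by
  rw [lk30_V0_valuation_eq, lk30_Vinf_val_lt_one_iff, s34i47c_mem_V0, map_mul, map_inv₀,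
    wc30_w_algebraMap]

/-- **LEMMA K on `V_0`, valuation shape.** -/
theorem lk30_V0_root {π : R} (hπ : Irreducible π) (m : ℕ) (hm : IsUnit (m : R))
    (A : ↥(modularFunctionFieldFullC K (M' * q))) (c : Rˣ)
    (h : (s34i47c_V0 (K := K) M' q hq hM' hπ).valuation
      (algebraMap K ↥(modularFunctionFieldFullC K (M' * q)) (algebraMap R K c) * A ^ m - 1) < 1) :
    ∃ t : Rˣ, π ∣ (c : R) * (t : R) ^ m - 1 ∧
      (s34i47c_V0 (K := K) M' q hq hM' hπ).valuation
        (A - algebraMap K ↥(modularFunctionFieldFullC K (M' * q)) (algebraMap R K t)) < 1 := by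
  rw [lk30_V0_valuation_eq, map_sub, map_mul, map_pow, map_one, AlgEquiv.commutes] at h
  obtain ⟨t, ht, hAt⟩ := lk30_Vinf_root (K := K) (M' * q) hπ m hm _ c h
  refine ⟨t, ht, ?_⟩
  rw [lk30_V0_valuation_eq, map_sub, AlgEquiv.commutes]
  exact hAt

/-- **The four constant clauses of `ci57x_UnitData` for one norm root `A`**: if
`c · A ^ m ≡ 1` modulo `𝔪(V_∞)` and modulo `𝔪(V_0)` (`c ∈ Rˣ`), then `A ≡ tinf` on `V_∞` and
`A ≡ t0` on `V_0` with `tinf`, `t0` images of units of `R`. -/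
theorem lk30_unitData {π : R} (hπ : Irreducible π) (m : ℕ) (hm : IsUnit (m : R))
    (A : ↥(modularFunctionFieldFullC K (M' * q))) (c : Rˣ)
    (hinf : (cm85_Vinf (K := K) (M' * q) hπ).valuation
      (algebraMap K ↥(modularFunctionFieldFullC K (M' * q)) (algebraMap R K c) * A ^ m - 1) < 1)
    (h0 : (s34i47c_V0 (K := K) M' q hq hM' hπ).valuation
      (algebraMap K ↥(modularFunctionFieldFullC K (M' * q)) (algebraMap R K c) * A ^ m - 1) < 1) :
    ∃ tinf t0 : ↥(modularFunctionFieldFullC K (M' * q)),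
      (∃ r : Rˣ, tinf = algebraMap K ↥(modularFunctionFieldFullC K (M' * q)) (algebraMap R K r)) ∧
      (∃ r : Rˣ, t0 = algebraMap K ↥(modularFunctionFieldFullC K (M' * q)) (algebraMap R K r)) ∧
      (cm85_Vinf (K := K) (M' * q) hπ).valuation (A - tinf) < 1 ∧
      (s34i47c_V0 (K := K) M' q hq hM' hπ).valuation (A - t0) < 1 := by
  obtain ⟨t, -, ht⟩ := lk30_Vinf_root (K := K) (M' * q) hπ m hm A c hinf
  obtain ⟨t', -, ht'⟩ := lk30_V0_root (K := K) M' q hq hM' hπ m hm A c h0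
  exact ⟨_, _, ⟨t, rfl⟩, ⟨t', rfl⟩, ht, ht'⟩

end lk30zero

end Fermat.Agent.S36
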