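import Fermat.Agent.S36.NormFov78
import Fermat.Agent.S36.ChartMaps71
import Fermat.Agent.S36.LemmaKVal30

/-!
# S36 lab, rows 617 / 602 / 605 (helper91): norms of chart elements are chart elements, and the
chart-level RADICIAL clauses of the point bookkeeping on the canonical charts

Level `N * q` over level `N` (`α = al97L_alpha K N q`, `β = al97L_beta K N q`,
`N_α = s35i62_normA K N q`, `N_β = s35i62_normB K N q`), charts `B' = pk15_chart R {h'}` /
`pk15_chart R {h'⁻¹}` of level `N` and `B = pk15_chart R {α h'}` / `pk15_chart R {(α h')⁻¹}` of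
level `N * q`.

* `nc91_norm_mem_chart` (abstract): for an `R`-algebra embedding `φ : F' → F` and `y` integral
  over `R[φ s']`, the norm of `y` along `φ` is integral over `R[s']`.
* `nc91_normA_chart` : `N_α B ⊆ B'` on both charts (any `h'`).
* `nc91_normB_chart` : `N_β B ⊆ B'` on both charts (`h'` an admissible Hauptmodul: `h` is
  integral over `R[h(Q^q)]`, `hi70_level2_full` / `hi70_level3_full`).
  These are `hNmB` of `to63_norm_unit` (helper63) / `hNB` of `bk81_norm_unit_loc` (helper81).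
* `nc91_V3_unif`, `nc91_V1_unif` : `π` is a uniformizer of `V₃ = nsb86_V3` and of
  `V₁ = cm85_Vinf (M' q q)` (nonunits form ⟹ `π⁻¹ * x ∈ V`).
* `nc91_rad_alpha_of` / `nc91_rad_beta_of` : for ANY pair of charts with `N_α B ⊆ B'`
  (resp. `N_β B ⊆ B'`) and `B ⊆ V₃` (resp. `B ⊆ V₁`):
  `∀ x : B, ∃ b : B', π⁻¹ * (x ^ q - α b) ∈ V₃` (resp. `π⁻¹ * (x ^ q - β b) ∈ V₁`)
  = literally the field `hq` of `bk63_Data` (helper63) for `α` (resp. for `β`), and
  `hαrad` / `hβrad` of `bk81_triple_of_two_val` in the valuation form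
  (`nc91_rad_alpha_val_of` / `nc91_rad_beta_val_of`).
* `nc91_rad_alpha` / `nc91_rad_beta` : the same on the canonical charts of an admissible
  Hauptmodul `h'` of level `M' * q` (both charts).

All names are prefixed `nc91_`.
-/

set_option autoImplicit false
set_option linter.unusedSectionVars false
set_option linter.unusedVariables false
set_option linter.style.longLine false
set_option linter.style.haveILetI false

open ModularCurve AlgebraicCurve IntermediateField
open Fermat.Agent.S24 Fermat.Agent.S28 Fermat.Agent.S18 Fermat.Agent.S37 Fermat.Agent.S34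
open Fermat.Agent.S42 Fermat.Agent.S35
open Fermat.Agent.S36.TripleLoc71

namespace Fermat.Agent.S36

section nc91_abs

variable {R F' F : Type*} [CommRing R] [Field F'] [Field F] [Algebra R F'] [Algebra R F]

/-- **The norm of an element of the chart of `φ '' s'` lies in the chart of `s'`**
(integrality of the norm). -/
theorem nc91_norm_mem_chart (φ : F' →ₐ[R] F) (s' : Set F') (y : F)
    (hy : y ∈ pk15_chart R (φ '' s')) :
    @Algebra.norm F' F _ _ φ.toRingHom.toAlgebra y ∈ pk15_chart R s' := by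
  letI : Algebra F' F := φ.toRingHom.toAlgebra
  rw [pk15_mem_chart] at hy ⊢
  have hmap : ∀ x ∈ Algebra.adjoin R s', φ x ∈ Algebra.adjoin R (φ '' s') := by
    intro x hx
    rw [← AlgHom.map_adjoin]
    exact ⟨x, hx, rfl⟩
  let g : ↥(Algebra.adjoin R s') →+* ↥(Algebra.adjoin R (φ '' s')) :=
    ((φ : F' →+* F).comp (algebraMap ↥(Algebra.adjoin R s') F')).codRestrict
      (Algebra.adjoin R (φ '' s')) (fun x => hmap x x.2)
  have hg : Function.Surjective g := by
    rintro ⟨b, hb⟩
    rw [← AlgHom.map_adjoin] at hb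
    obtain ⟨x, hx, rfl⟩ := hb
    exact ⟨⟨x, hx⟩, rfl⟩
  obtain ⟨p, hp, hpy⟩ := hy
  obtain ⟨p', hp'map, -, hp'monic⟩ := Polynomial.lifts_and_degree_eq_and_monic (f := g)
    ((Polynomial.mem_lifts _).mpr (Polynomial.map_surjective g hg p)) hp
  letI iAF : Algebra ↥(Algebra.adjoin R s') F :=
    ((algebraMap F' F).comp (algebraMap ↥(Algebra.adjoin R s') F')).toAlgebra
  haveI hST : IsScalarTower ↥(Algebra.adjoin R s') F' F :=
    IsScalarTower.of_algebraMap_eq (fun _ => rfl)
  have hy' : IsIntegral ↥(Algebra.adjoin R s') y := by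
    refine ⟨p', hp'monic, ?_⟩
    have e : (algebraMap ↥(Algebra.adjoin R s') F) =
        (algebraMap ↥(Algebra.adjoin R (φ '' s')) F).comp g := RingHom.ext fun _ => rfl
    rw [e, ← Polynomial.eval₂_map, hp'map]
    exact hpy
  exact @Algebra.isIntegral_norm ↥(Algebra.adjoin R s') _ F F' _ _ _ iAF _ hST y hy'

end nc91_abs

section nc91_concrete

variable {R K : Type} [CommRing R] [Field K] [CharZero K] [Algebra R K]
  (N q : ℕ) [NeZero N] [NeZero q]
  [Algebra R ↥(modularFunctionFieldFullC K N)]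
  [IsScalarTower R K ↥(modularFunctionFieldFullC K N)]
  [Algebra R ↥(modularFunctionFieldFullC K (N * q))]
  [IsScalarTower R K ↥(modularFunctionFieldFullC K (N * q))]

/-- **`N_α` maps the two charts of level `N * q` into those of level `N`** (any `h'`). -/
theorem nc91_normA_chart (h' : ↥(modularFunctionFieldFullC K N)) :
    (∀ x ∈ pk15_chart R ({al97L_alpha K N q h'} : Set ↥(modularFunctionFieldFullC K (N * q))),
      s35i62_normA K N q x ∈ pk15_chart R ({h'} : Set ↥(modularFunctionFieldFullC K N))) ∧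
    (∀ x ∈ pk15_chart R ({(al97L_alpha K N q h')⁻¹} :
        Set ↥(modularFunctionFieldFullC K (N * q))),
      s35i62_normA K N q x ∈ pk15_chart R ({h'⁻¹} : Set ↥(modularFunctionFieldFullC K N))) := by
  have e1 : ((al97L_alpha K N q).restrictScalars R) ''
      ({h'} : Set ↥(modularFunctionFieldFullC K N)) = {al97L_alpha K N q h'} := by
    rw [Set.image_singleton]
    rfl
  have e2 : ((al97L_alpha K N q).restrictScalars R) ''
      ({h'⁻¹} : Set ↥(modularFunctionFieldFullC K N)) = {(al97L_alpha K N q h')⁻¹} := by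
    rw [Set.image_singleton]
    show {al97L_alpha K N q h'⁻¹} = _
    rw [map_inv₀]
  constructor
  · intro x hx
    exact nc91_norm_mem_chart ((al97L_alpha K N q).restrictScalars R) {h'} x (by rw [e1]; exact hx)
  · intro x hx
    exact nc91_norm_mem_chart ((al97L_alpha K N q).restrictScalars R) {h'⁻¹} x
      (by rw [e2]; exact hx)

/-- **`N_β` maps the two charts of level `N * q` into those of level `N`** (admissible
Hauptmodul: `h` is integral over `R[h(Q^q)]`, `hi70_level2_full` / `hi70_level3_full`). -/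
theorem nc91_normB_chart (hq : q.Prime) (hunit : ∀ n : ℕ, Nat.Coprime n q → IsUnit (n : R))
    (h' : ↥(modularFunctionFieldFullC K N)) (hh' : s34i47c_IsHaupt K N q h') :
    (∀ x ∈ pk15_chart R ({al97L_alpha K N q h'} : Set ↥(modularFunctionFieldFullC K (N * q))),
      s35i62_normB K N q x ∈ pk15_chart R ({h'} : Set ↥(modularFunctionFieldFullC K N))) ∧
    (∀ x ∈ pk15_chart R ({(al97L_alpha K N q h')⁻¹} :
        Set ↥(modularFunctionFieldFullC K (N * q))),
      s35i62_normB K N q x ∈ pk15_chart R ({h'⁻¹} : Set ↥(modularFunctionFieldFullC K N))) := by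
  have key : IsIntegral (Algebra.adjoin R
        ({al97L_beta K N q h'} : Set ↥(modularFunctionFieldFullC K (N * q))))
        (al97L_alpha K N q h') ∧
      IsIntegral (Algebra.adjoin R
        ({(al97L_beta K N q h')⁻¹} : Set ↥(modularFunctionFieldFullC K (N * q))))
        (al97L_alpha K N q h')⁻¹ := by
    rcases hh' with ⟨hq2, h2, rfl⟩ | ⟨hq3, h3, rfl⟩
    · have hM : 2 * q ∣ N * q := Nat.mul_dvd_mul_right h2 q
      have hu : IsUnit (2 : R) := by
        have := hunit 2 ((Nat.coprime_primes Nat.prime_two hq).mpr (Ne.symm hq2))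
        simpa using this
      obtain ⟨-, -, i3, i4⟩ := hi70_level2_full (K := K) (N * q) (R := R) q hq hq2 hu hM
        (al97L_alpha K N q (pk85_h2 K N h2)) (al97L_beta K N q (pk85_h2 K N h2))
        (by rw [al97L_alpha_coe, pk85_h2_coe]) (by rw [al97L_beta_coe, pk85_h2_coe])
      exact ⟨i3, i4⟩
    · have hM : 3 * q ∣ N * q := Nat.mul_dvd_mul_right h3 q
      have hu : IsUnit (3 : R) := by
        have := hunit 3 ((Nat.coprime_primes Nat.prime_three hq).mpr (Ne.symm hq3))
        simpa using this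
      obtain ⟨-, -, i3, i4⟩ := hi70_level3_full (K := K) (N * q) (R := R) q hq hq3 hu hM
        (al97L_alpha K N q (pk85_h3 K N h3)) (al97L_beta K N q (pk85_h3 K N h3))
        (by rw [al97L_alpha_coe, pk85_h3_coe]) (by rw [al97L_beta_coe, pk85_h3_coe])
      exact ⟨i3, i4⟩
  have e1 : ((al97L_beta K N q).restrictScalars R) ''
      ({h'} : Set ↥(modularFunctionFieldFullC K N)) = {al97L_beta K N q h'} := by
    rw [Set.image_singleton]
    rfl
  have e2 : ((al97L_beta K N q).restrictScalars R) ''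
      ({h'⁻¹} : Set ↥(modularFunctionFieldFullC K N)) = {(al97L_beta K N q h')⁻¹} := by
    rw [Set.image_singleton]
    show {al97L_beta K N q h'⁻¹} = _
    rw [map_inv₀]
  constructor
  · intro x hx
    refine nc91_norm_mem_chart ((al97L_beta K N q).restrictScalars R) {h'} x ?_
    rw [e1]
    refine (pk15_mem_chart _ x).mpr (bz7_isIntegral_trans _ _ ?_ x ((pk15_mem_chart _ x).mp hx))
    intro y hy
    rw [Set.mem_singleton_iff.mp hy]
    exact key.1
  · intro x hx
    refine nc91_norm_mem_chart ((al97L_beta K N q).restrictScalars R) {h'⁻¹} x ?_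
    rw [e2]
    refine (pk15_mem_chart _ x).mpr (bz7_isIntegral_trans _ _ ?_ x ((pk15_mem_chart _ x).mp hx))
    intro y hy
    rw [Set.mem_singleton_iff.mp hy]
    exact key.2

end nc91_concrete

section nc91_frame

variable {R K : Type} [CommRing R] [IsDomain R] [IsDiscreteValuationRing R] [Field K]
  [CharZero K] [Algebra R K] [IsFractionRing R K] [Algebra K Kbar]
  (M' q : ℕ) [NeZero M'] [NeZero q] (hq : q.Prime) (hM' : ¬ q ∣ M')
  [Algebra R ↥(modularFunctionFieldFullC K (M' * q))]
  [IsScalarTower R K ↥(modularFunctionFieldFullC K (M' * q))]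
  [Algebra R ↥(modularFunctionFieldFullC K (M' * q * q))]
  [IsScalarTower R K ↥(modularFunctionFieldFullC K (M' * q * q))]

/-- `π` is a uniformizer of `V₁ = cm85_Vinf (M' q q)`: nonunits are divisible by `π`. -/
theorem nc91_V1_unif {π : R} (hπ : Irreducible π)
    (x : ↥(modularFunctionFieldFullC K (M' * q * q)))
    (hx : x ∈ (cm85_Vinf (K := K) (M' * q * q) hπ).nonunits) :
    (algebraMap R ↥(modularFunctionFieldFullC K (M' * q * q)) π)⁻¹ * x ∈
      cm85_Vinf (K := K) (M' * q * q) hπ :=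
  (lk30_Vinf_val_lt_one_iff (M' * q * q) hπ x).mp ((ValuationSubring.mem_nonunits_iff _).mp hx)

/-- `π` is a uniformizer of `V₃ = nsb86_V3`: nonunits are divisible by `π`. -/
theorem nc91_V3_unif {π : R} (hπ : Irreducible π)
    (x : ↥(modularFunctionFieldFullC K (M' * q * q)))
    (hx : x ∈ (nsb86_V3 M' q hq hM' hπ).nonunits) :
    (algebraMap R ↥(modularFunctionFieldFullC K (M' * q * q)) π)⁻¹ * x ∈
      nsb86_V3 M' q hq hM' hπ := by
  rw [nsb86_mem_V3_nonunits] at hx
  rw [nsb86_mem_V3, map_mul, map_inv₀,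
    IsScalarTower.algebraMap_apply R K ↥(modularFunctionFieldFullC K (M' * q * q)),
    AlgEquiv.commutes,
    ← IsScalarTower.algebraMap_apply R K ↥(modularFunctionFieldFullC K (M' * q * q))]
  exact nc91_V1_unif M' q hπ _ hx

/-- **Radicial along `α` modulo `V₃`, any pair of charts**: literally the field `hq` of
`bk63_Data` for `α`. -/
theorem nc91_rad_alpha_of {π : R} (hπ : Irreducible π) (hqR : ¬ IsUnit (q : R))
    (B' : Subalgebra R ↥(modularFunctionFieldFullC K (M' * q)))
    (B : Subalgebra R ↥(modularFunctionFieldFullC K (M' * q * q)))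
    (hB₃ : ∀ x ∈ B, x ∈ nsb86_V3 M' q hq hM' hπ)
    (hN : ∀ x ∈ B, s35i62_normA K (M' * q) q x ∈ B') :
    ∀ x : B, ∃ b : B', (algebraMap R ↥(modularFunctionFieldFullC K (M' * q * q)) π)⁻¹ *
      ((x : ↥(modularFunctionFieldFullC K (M' * q * q))) ^ q -
        al97L_alpha K (M' * q) q (b : ↥(modularFunctionFieldFullC K (M' * q)))) ∈
      nsb86_V3 M' q hq hM' hπ := by
  intro x
  refine ⟨⟨s35i62_normA K (M' * q) q x, hN x x.2⟩, ?_⟩
  apply nc91_V3_unif M' q hq hM' hπ
  have h1 : al97L_alpha K (M' * q) q (s35i62_normA K (M' * q) q (x : ↥(modularFunctionFieldFullC K (M' * q * q)))) -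
      (x : ↥(modularFunctionFieldFullC K (M' * q * q))) ^ q ∈
      (nsb86_V3 M' q hq hM' hπ).nonunits :=
    nsb86_alpha_cong_nonunits M' q hq hM' hπ hqR _ (hB₃ x x.2)
  have e : (x : ↥(modularFunctionFieldFullC K (M' * q * q))) ^ q -
      al97L_alpha K (M' * q) q (s35i62_normA K (M' * q) q (x : ↥(modularFunctionFieldFullC K (M' * q * q)))) =
      -(al97L_alpha K (M' * q) q (s35i62_normA K (M' * q) q (x : ↥(modularFunctionFieldFullC K (M' * q * q)))) -
        (x : ↥(modularFunctionFieldFullC K (M' * q * q))) ^ q) := by ring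
  show (x : ↥(modularFunctionFieldFullC K (M' * q * q))) ^ q -
      al97L_alpha K (M' * q) q (s35i62_normA K (M' * q) q (x : ↥(modularFunctionFieldFullC K (M' * q * q)))) ∈
      (nsb86_V3 M' q hq hM' hπ).nonunits
  rw [e]
  exact nfv78_nonunits_neg _ _ h1

include hq hM' in
/-- **Radicial along `β` modulo `V₁`, any pair of charts**: literally the field `hq` of
`bk63_Data` for `β`. -/
theorem nc91_rad_beta_of {π : R} (hπ : Irreducible π) (hqR : ¬ IsUnit (q : R))
    (B' : Subalgebra R ↥(modularFunctionFieldFullC K (M' * q)))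
    (B : Subalgebra R ↥(modularFunctionFieldFullC K (M' * q * q)))
    (hB₁ : ∀ x ∈ B, x ∈ cm85_Vinf (K := K) (M' * q * q) hπ)
    (hN : ∀ x ∈ B, s35i62_normB K (M' * q) q x ∈ B') :
    ∀ x : B, ∃ b : B', (algebraMap R ↥(modularFunctionFieldFullC K (M' * q * q)) π)⁻¹ *
      ((x : ↥(modularFunctionFieldFullC K (M' * q * q))) ^ q -
        al97L_beta K (M' * q) q (b : ↥(modularFunctionFieldFullC K (M' * q)))) ∈
      cm85_Vinf (K := K) (M' * q * q) hπ := by
  intro x
  refine ⟨⟨s35i62_normB K (M' * q) q x, hN x x.2⟩, ?_⟩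
  apply nc91_V1_unif M' q hπ
  have h1 : al97L_beta K (M' * q) q (s35i62_normB K (M' * q) q (x : ↥(modularFunctionFieldFullC K (M' * q * q)))) -
      (x : ↥(modularFunctionFieldFullC K (M' * q * q))) ^ q ∈
      (cm85_Vinf (K := K) (M' * q * q) hπ).nonunits :=
    nsb86_beta_cong_nonunits M' q hq hM' hπ hqR _ (hB₁ x x.2)
  have e : (x : ↥(modularFunctionFieldFullC K (M' * q * q))) ^ q -
      al97L_beta K (M' * q) q (s35i62_normB K (M' * q) q (x : ↥(modularFunctionFieldFullC K (M' * q * q)))) =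
      -(al97L_beta K (M' * q) q (s35i62_normB K (M' * q) q (x : ↥(modularFunctionFieldFullC K (M' * q * q)))) -
        (x : ↥(modularFunctionFieldFullC K (M' * q * q))) ^ q) := by ring
  show (x : ↥(modularFunctionFieldFullC K (M' * q * q))) ^ q -
      al97L_beta K (M' * q) q (s35i62_normB K (M' * q) q (x : ↥(modularFunctionFieldFullC K (M' * q * q)))) ∈
      (cm85_Vinf (K := K) (M' * q * q) hπ).nonunits
  rw [e]
  exact nfv78_nonunits_neg _ _ h1

/-- Valuation form of `nc91_rad_alpha_of` (`hαrad` of `bk81_triple_of_two_val`, exponent `q`). -/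
theorem nc91_rad_alpha_val_of {π : R} (hπ : Irreducible π) (hqR : ¬ IsUnit (q : R))
    (B' : Subalgebra R ↥(modularFunctionFieldFullC K (M' * q)))
    (B : Subalgebra R ↥(modularFunctionFieldFullC K (M' * q * q)))
    (hB₃ : ∀ x ∈ B, x ∈ nsb86_V3 M' q hq hM' hπ)
    (hN : ∀ x ∈ B, s35i62_normA K (M' * q) q x ∈ B') :
    ∀ x : B, ∃ b : B', (nsb86_V3 M' q hq hM' hπ).valuation
      ((x : ↥(modularFunctionFieldFullC K (M' * q * q))) ^ q -
        al97L_alpha K (M' * q) q (b : ↥(modularFunctionFieldFullC K (M' * q)))) < 1 := by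
  intro x
  refine ⟨⟨s35i62_normA K (M' * q) q x, hN x x.2⟩, ?_⟩
  have h1 : al97L_alpha K (M' * q) q (s35i62_normA K (M' * q) q (x : ↥(modularFunctionFieldFullC K (M' * q * q)))) -
      (x : ↥(modularFunctionFieldFullC K (M' * q * q))) ^ q ∈
      (nsb86_V3 M' q hq hM' hπ).nonunits :=
    nsb86_alpha_cong_nonunits M' q hq hM' hπ hqR _ (hB₃ x x.2)
  have e : (x : ↥(modularFunctionFieldFullC K (M' * q * q))) ^ q -
      al97L_alpha K (M' * q) q (s35i62_normA K (M' * q) q (x : ↥(modularFunctionFieldFullC K (M' * q * q)))) =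
      -(al97L_alpha K (M' * q) q (s35i62_normA K (M' * q) q (x : ↥(modularFunctionFieldFullC K (M' * q * q)))) -
        (x : ↥(modularFunctionFieldFullC K (M' * q * q))) ^ q) := by ring
  rw [← ValuationSubring.mem_nonunits_iff]
  show (x : ↥(modularFunctionFieldFullC K (M' * q * q))) ^ q -
      al97L_alpha K (M' * q) q (s35i62_normA K (M' * q) q (x : ↥(modularFunctionFieldFullC K (M' * q * q)))) ∈
      (nsb86_V3 M' q hq hM' hπ).nonunits
  rw [e]
  exact nfv78_nonunits_neg _ _ h1

include hq hM' in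
/-- Valuation form of `nc91_rad_beta_of` (`hβrad` of `bk81_triple_of_two_val`, exponent `q`). -/
theorem nc91_rad_beta_val_of {π : R} (hπ : Irreducible π) (hqR : ¬ IsUnit (q : R))
    (B' : Subalgebra R ↥(modularFunctionFieldFullC K (M' * q)))
    (B : Subalgebra R ↥(modularFunctionFieldFullC K (M' * q * q)))
    (hB₁ : ∀ x ∈ B, x ∈ cm85_Vinf (K := K) (M' * q * q) hπ)
    (hN : ∀ x ∈ B, s35i62_normB K (M' * q) q x ∈ B') :
    ∀ x : B, ∃ b : B', (cm85_Vinf (K := K) (M' * q * q) hπ).valuation
      ((x : ↥(modularFunctionFieldFullC K (M' * q * q))) ^ q -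
        al97L_beta K (M' * q) q (b : ↥(modularFunctionFieldFullC K (M' * q)))) < 1 := by
  intro x
  refine ⟨⟨s35i62_normB K (M' * q) q x, hN x x.2⟩, ?_⟩
  have h1 : al97L_beta K (M' * q) q (s35i62_normB K (M' * q) q (x : ↥(modularFunctionFieldFullC K (M' * q * q)))) -
      (x : ↥(modularFunctionFieldFullC K (M' * q * q))) ^ q ∈
      (cm85_Vinf (K := K) (M' * q * q) hπ).nonunits :=
    nsb86_beta_cong_nonunits M' q hq hM' hπ hqR _ (hB₁ x x.2)
  have e : (x : ↥(modularFunctionFieldFullC K (M' * q * q))) ^ q -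
      al97L_beta K (M' * q) q (s35i62_normB K (M' * q) q (x : ↥(modularFunctionFieldFullC K (M' * q * q)))) =
      -(al97L_beta K (M' * q) q (s35i62_normB K (M' * q) q (x : ↥(modularFunctionFieldFullC K (M' * q * q)))) -
        (x : ↥(modularFunctionFieldFullC K (M' * q * q))) ^ q) := by ring
  rw [← ValuationSubring.mem_nonunits_iff]
  show (x : ↥(modularFunctionFieldFullC K (M' * q * q))) ^ q -
      al97L_beta K (M' * q) q (s35i62_normB K (M' * q) q (x : ↥(modularFunctionFieldFullC K (M' * q * q)))) ∈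
      (cm85_Vinf (K := K) (M' * q * q) hπ).nonunits
  rw [e]
  exact nfv78_nonunits_neg _ _ h1

/-- **Radicial along `α` modulo `V₃` on the canonical charts** (both charts of `h = α h'`). -/
theorem nc91_rad_alpha {π : R} (hπ : Irreducible π) (hqR : ¬ IsUnit (q : R))
    (h' : ↥(modularFunctionFieldFullC K (M' * q)))
    (hB₃ : ∀ x ∈ pk15_chart R ({al97L_alpha K (M' * q) q h'} :
      Set ↥(modularFunctionFieldFullC K (M' * q * q))), x ∈ nsb86_V3 M' q hq hM' hπ)
    (hB₃' : ∀ x ∈ pk15_chart R ({(al97L_alpha K (M' * q) q h')⁻¹} :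
      Set ↥(modularFunctionFieldFullC K (M' * q * q))), x ∈ nsb86_V3 M' q hq hM' hπ) :
    (∀ x : pk15_chart R ({al97L_alpha K (M' * q) q h'} :
        Set ↥(modularFunctionFieldFullC K (M' * q * q))),
      ∃ b : pk15_chart R ({h'} : Set ↥(modularFunctionFieldFullC K (M' * q))),
        (algebraMap R ↥(modularFunctionFieldFullC K (M' * q * q)) π)⁻¹ *
          ((x : ↥(modularFunctionFieldFullC K (M' * q * q))) ^ q -
            al97L_alpha K (M' * q) q (b : ↥(modularFunctionFieldFullC K (M' * q)))) ∈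
          nsb86_V3 M' q hq hM' hπ) ∧
    (∀ x : pk15_chart R ({(al97L_alpha K (M' * q) q h')⁻¹} :
        Set ↥(modularFunctionFieldFullC K (M' * q * q))),
      ∃ b : pk15_chart R ({h'⁻¹} : Set ↥(modularFunctionFieldFullC K (M' * q))),
        (algebraMap R ↥(modularFunctionFieldFullC K (M' * q * q)) π)⁻¹ *
          ((x : ↥(modularFunctionFieldFullC K (M' * q * q))) ^ q -
            al97L_alpha K (M' * q) q (b : ↥(modularFunctionFieldFullC K (M' * q)))) ∈
          nsb86_V3 M' q hq hM' hπ) := by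
  obtain ⟨hN₁, hN₂⟩ := nc91_normA_chart (R := R) (K := K) (M' * q) q h'
  exact ⟨nc91_rad_alpha_of M' q hq hM' hπ hqR _ _ hB₃ hN₁,
    nc91_rad_alpha_of M' q hq hM' hπ hqR _ _ hB₃' hN₂⟩

include hq hM' in
/-- **Radicial along `β` modulo `V₁` on the canonical charts** (both charts of `h = α h'`,
`h'` an admissible Hauptmodul). -/
theorem nc91_rad_beta {π : R} (hπ : Irreducible π) (hqR : ¬ IsUnit (q : R))
    (hunit : ∀ n : ℕ, Nat.Coprime n q → IsUnit (n : R))
    (h' : ↥(modularFunctionFieldFullC K (M' * q)))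
    (hh' : s34i47c_IsHaupt K (M' * q) q h')
    (hB₁ : ∀ x ∈ pk15_chart R ({al97L_alpha K (M' * q) q h'} :
      Set ↥(modularFunctionFieldFullC K (M' * q * q))), x ∈ cm85_Vinf (K := K) (M' * q * q) hπ)
    (hB₁' : ∀ x ∈ pk15_chart R ({(al97L_alpha K (M' * q) q h')⁻¹} :
      Set ↥(modularFunctionFieldFullC K (M' * q * q))),
        x ∈ cm85_Vinf (K := K) (M' * q * q) hπ) :
    (∀ x : pk15_chart R ({al97L_alpha K (M' * q) q h'} :
        Set ↥(modularFunctionFieldFullC K (M' * q * q))),
      ∃ b : pk15_chart R ({h'} : Set ↥(modularFunctionFieldFullC K (M' * q))),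
        (algebraMap R ↥(modularFunctionFieldFullC K (M' * q * q)) π)⁻¹ *
          ((x : ↥(modularFunctionFieldFullC K (M' * q * q))) ^ q -
            al97L_beta K (M' * q) q (b : ↥(modularFunctionFieldFullC K (M' * q)))) ∈
          cm85_Vinf (K := K) (M' * q * q) hπ) ∧
    (∀ x : pk15_chart R ({(al97L_alpha K (M' * q) q h')⁻¹} :
        Set ↥(modularFunctionFieldFullC K (M' * q * q))),
      ∃ b : pk15_chart R ({h'⁻¹} : Set ↥(modularFunctionFieldFullC K (M' * q))),
        (algebraMap R ↥(modularFunctionFieldFullC K (M' * q * q)) π)⁻¹ *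
          ((x : ↥(modularFunctionFieldFullC K (M' * q * q))) ^ q -
            al97L_beta K (M' * q) q (b : ↥(modularFunctionFieldFullC K (M' * q)))) ∈
          cm85_Vinf (K := K) (M' * q * q) hπ) := by
  obtain ⟨hN₁, hN₂⟩ := nc91_normB_chart (R := R) (K := K) (M' * q) q hq hunit h' hh'
  exact ⟨nc91_rad_beta_of M' q hq hM' hπ hqR _ _ hB₁ hN₁,
    nc91_rad_beta_of M' q hq hM' hπ hqR _ _ hB₁' hN₂⟩

end nc91_frame

end Fermat.Agent.S36
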