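import Fermat.Agent.S36.NormSqBeta86
import Fermat.Agent.S36.OnlyBind72
import Fermat.Agent.S35.Iface62

/-!
# S36 lab, rows 594 / 605 (helper86): the norms along `α₂`, `β₂` on the image of the base

For the two degeneracy maps `α, β : F_K(N) → F_K(N q)` (`q` prime, `q ∣ N`) and the literal
norms `s35i62_normA K N q`, `s35i62_normB K N q` of the interface:

* `nse86_normA_alpha` : `N_α (α x) = x ^ q` (any level `N` with `q ∣ N`);
* `nse86_normB_beta`  : `N_β (β x) = x ^ q` (level `N = M' q`, `q ∤ M'`);
* `nse86_normA_alpha_mul`, `nse86_normB_beta_mul` : `N_α (α x * y) = x ^ q * N_α y`, same for `β`;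
* `nse86_normA_alpha_sq`, `nse86_normB_beta_sq` : the two statements at the literal level
  `M' * q` of the canonical frame (this is `hNmα` of `to63_norm_unit` with `d = q`, for
  `α := al97L_alpha K (M' * q) q` with `Nm := s35i62_normA K (M' * q) q`, and for
  `α := al97L_beta K (M' * q) q` with `Nm := s35i62_normB K (M' * q) q`).
-/

set_option autoImplicit false
set_option linter.unusedSectionVars false
set_option linter.style.haveILetI false
set_option linter.unusedVariables false
set_option linter.style.longLine false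

open ModularCurve AlgebraicCurve IntermediateField

namespace Fermat.Agent.S36

open Fermat.Agent.S24 Fermat.Agent.S28 Fermat.Agent.S18 Fermat.Agent.S37 Fermat.Agent.S34
open Fermat.Agent.S42 Fermat.Agent.S35

local notation "Q̄" => AlgebraicClosure ℚ

section nse86

variable {K : Type} [Field K] [CharZero K]

/-- `N_α (α x) = x ^ q` for a prime `q ∣ N`. -/
theorem nse86_normA_alpha (N q : ℕ) [NeZero N] [NeZero q] (hq : q.Prime) (hqN : q ∣ N)
    (x : ↥(modularFunctionFieldFullC K N)) :
    s35i62_normA K N q (al97L_alpha K N q x) = x ^ q := by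
  letI alg : Algebra ↥(modularFunctionFieldFullC K N) ↥(modularFunctionFieldFullC K (N * q)) :=
    (al97L_alpha K N q).toRingHom.toAlgebra
  have hfr := ob72_finrank K N q hq hqN
  have := Algebra.norm_algebraMap (R := ↥(modularFunctionFieldFullC K N))
    (S := ↥(modularFunctionFieldFullC K (N * q))) x
  rw [hfr] at this
  exact this

/-- `N_α (α x * y) = x ^ q * N_α y`. -/
theorem nse86_normA_alpha_mul (N q : ℕ) [NeZero N] [NeZero q] (hq : q.Prime) (hqN : q ∣ N)
    (x : ↥(modularFunctionFieldFullC K N)) (y : ↥(modularFunctionFieldFullC K (N * q))) :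
    s35i62_normA K N q (al97L_alpha K N q x * y) = x ^ q * s35i62_normA K N q y := by
  rw [map_mul, nse86_normA_alpha N q hq hqN]

variable [Algebra K Q̄] (M' q : ℕ) [NeZero M'] [NeZero q]

/-- `N_β (β x) = x ^ q` at level `M' q`, `q ∤ M'`. -/
theorem nse86_normB_beta (hq : q.Prime) (hM' : ¬ q ∣ M')
    (x : ↥(modularFunctionFieldFullC K (M' * q))) :
    s35i62_normB K (M' * q) q (al97L_beta K (M' * q) q x) = x ^ q := by
  letI alg : Algebra ↥(modularFunctionFieldFullC K (M' * q))
      ↥(modularFunctionFieldFullC K (M' * q * q)) :=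
    (al97L_beta K (M' * q) q).toRingHom.toAlgebra
  have hL : ((M' * q * q : ℕ) : K) ≠ 0 := Nat.cast_ne_zero.mpr (NeZero.ne _)
  have hfr : Module.finrank ↥(modularFunctionFieldFullC K (M' * q))
      ↥(modularFunctionFieldFullC K (M' * q * q)) = q :=
    als86_finrank_beta (algebraMap K Q̄) M' q hq hM' hL
  have := Algebra.norm_algebraMap (R := ↥(modularFunctionFieldFullC K (M' * q)))
    (S := ↥(modularFunctionFieldFullC K (M' * q * q))) x
  rw [hfr] at this
  exact this

/-- `N_β (β x * y) = x ^ q * N_β y`. -/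
theorem nse86_normB_beta_mul (hq : q.Prime) (hM' : ¬ q ∣ M')
    (x : ↥(modularFunctionFieldFullC K (M' * q)))
    (y : ↥(modularFunctionFieldFullC K (M' * q * q))) :
    s35i62_normB K (M' * q) q (al97L_beta K (M' * q) q x * y) =
      x ^ q * s35i62_normB K (M' * q) q y := by
  rw [map_mul, nse86_normB_beta M' q hq hM']

/-- `N_α (α x) = x ^ q` at the literal level `M' q` of the canonical frame. -/
theorem nse86_normA_alpha_sq (hq : q.Prime) (x : ↥(modularFunctionFieldFullC K (M' * q))) :
    s35i62_normA K (M' * q) q (al97L_alpha K (M' * q) q x) = x ^ q :=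
  nse86_normA_alpha (M' * q) q hq (dvd_mul_left q M') x

/-- `hNmα` of `to63_norm_unit` for `α₂` (ring-hom spelling, any subset `B'`). -/
theorem nse86_hNm_alpha (hq : q.Prime) (B' : Set ↥(modularFunctionFieldFullC K (M' * q))) :
    ∀ s ∈ B', s35i62_normA K (M' * q) q ((al97L_alpha K (M' * q) q).toRingHom s) = s ^ q :=
  fun s _ => nse86_normA_alpha_sq M' q hq s

/-- `hNmα` of `to63_norm_unit` for `β₂` (ring-hom spelling, any subset `B'`). -/
theorem nse86_hNm_beta (hq : q.Prime) (hM' : ¬ q ∣ M')
    (B' : Set ↥(modularFunctionFieldFullC K (M' * q))) :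
    ∀ s ∈ B', s35i62_normB K (M' * q) q ((al97L_beta K (M' * q) q).toRingHom s) = s ^ q :=
  fun s _ => nse86_normB_beta M' q hq hM' s

end nse86

end Fermat.Agent.S36
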