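import Fermat.Agent.S36.PointBind81
import Fermat.Agent.S36.TripleOwes63
import Fermat.Agent.S36.TripleLift3
import Fermat.Agent.S36.NormChart91
import Fermat.Agent.S36.NormSelf86
import Fermat.Agent.S36.HP3Abs53
import Fermat.Agent.S36.NodeFrameInst79
import Fermat.Agent.S36.ChartFacts54
import Fermat.Agent.S36.FrameClauses73
import Fermat.Agent.S36.BetaV2_66
import Fermat.Agent.S34.BetaChart95

/-!
# S36 lab, row 605 (T3) (helper53): the `∃ Aal Abe` block of `hp53_TripleData` on the canonical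
frame

At a prime `n` of the level-`M' q²` chart `B` lying on two of the three branches, with
`Aal := sf79_loc B' (n.comap fα)` and `Abe := sf79_loc B' (n.comap fβ)` (the local rings of the
level-`M' q` chart `B'` at the two contractions of `n`), the sixteen clauses of the existential
block of `hp53_TripleData` (= the local-ring hypotheses of `gcd26_datum_triple`) hold.

* `t3b53_side` : abstract, one map `α` (eight clauses), from `to63_*` (TripleOwes63);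
* `t3b53_block` : the block on the canonical frame for any pair of charts with chart maps
  `fα`, `fβ` (binders of `pbi81_triple`), from the four chart-level residue surjectivities
  (`tl3_Lifts`, helper3), the norm maps into the lower chart (`nc91_normA/B_chart`, helper91) and
  the radical clauses of the three branches;
* `t3b53_tripleData` : the full `hp53_TripleData` once the three branch root lifts are given
  (`bg76_lifts_all` / `tl32_three`).

All names are prefixed `t3b53_`.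
-/

set_option autoImplicit false
set_option linter.unusedSectionVars false
set_option linter.unusedVariables false
set_option linter.style.haveILetI false
set_option linter.style.longLine false

open ModularCurve AlgebraicCurve IntermediateField
open Fermat.Agent.S24 Fermat.Agent.S28 Fermat.Agent.S18 Fermat.Agent.S37 Fermat.Agent.S34
open Fermat.Agent.S42 Fermat.Agent.S35

namespace Fermat.Agent.S36

section abstract

variable {R F1 F2 : Type*} [CommRing R] [Field F1] [Field F2] [Algebra R F1] [Algebra R F2]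

/-- **One side of the block** (`α` or `β`): the eight clauses for
`A := sf79_loc B' (n.comap (bk63_res α B' B hαB))`. -/
theorem t3b53_side (π : R) (α : F1 →+* F2) (B' : Subalgebra R F1) (B : Subalgebra R F2)
    (hαB : ∀ x' ∈ B', α x' ∈ B)
    (hBint : ∀ x ∈ B, (α.comp (algebraMap B' F1)).IsIntegralElem x)
    (hB'n : ∀ t : F1, (algebraMap B' F1).IsIntegralElem t → t ∈ B')
    (V' : ValuationSubring F1) (hB'V' : ∀ x ∈ B', x ∈ V')
    (hrad' : ∀ x ∈ V', x⁻¹ ∉ V' → ∃ k : ℕ, (algebraMap R F1 π)⁻¹ * x ^ k ∈ V')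
    (Va Vb : ValuationSubring F2) (hBVa : ∀ x ∈ B, x ∈ Va) (hBVb : ∀ x ∈ B, x ∈ Vb)
    (hrada : ∀ x ∈ Va, x⁻¹ ∉ Va → ∃ k : ℕ, (algebraMap R F2 π)⁻¹ * x ^ k ∈ Va)
    (hradb : ∀ x ∈ Vb, x⁻¹ ∉ Vb → ∃ k : ℕ, (algebraMap R F2 π)⁻¹ * x ^ k ∈ Vb)
    (hLa : ∀ y ∈ B, ∃ a ∈ B', Va.valuation (α a - y) < 1)
    (hLb : ∀ y ∈ B, ∃ a ∈ B', Vb.valuation (α a - y) < 1)
    (Nm : F2 →* F1) (d : ℕ) (hd : d ≠ 0) (hNmB : ∀ y ∈ B, Nm y ∈ B')
    (hNmα : ∀ s' ∈ B', Nm (α s') = s' ^ d)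
    (m : ℕ) (hm0 : 0 < m)
    (n : Ideal B) [hn : n.IsPrime]
    (hOna : sf79_OnBr π B Va.toSubring n) (hOnb : sf79_OnBr π B Vb.toSubring n)
    (hOn' : sf79_OnBr π B' V'.toSubring (n.comap (bk63_res α B' B hαB)))
    (huniq : ∀ n₂ : Ideal B, n₂.IsPrime →
      n₂.comap (bk63_res α B' B hαB) = n.comap (bk63_res α B' B hαB) → n₂ = n) :
    (∀ x ∈ sf79_loc B' (n.comap (bk63_res α B' B hαB)), α x ∈ sf79_loc B n) ∧
    (∀ x ∈ sf79_loc B' (n.comap (bk63_res α B' B hαB)), x ∈ V') ∧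
    (∀ x ∈ sf79_loc B' (n.comap (bk63_res α B' B hαB)), (α x)⁻¹ ∈ sf79_loc B n →
      x⁻¹ ∈ sf79_loc B' (n.comap (bk63_res α B' B hαB))) ∧
    (∀ b ∈ sf79_loc B n, ∃ a ∈ sf79_loc B' (n.comap (bk63_res α B' B hαB)),
      Va.valuation (α a - b) < 1) ∧
    (∀ b ∈ sf79_loc B n, ∃ a ∈ sf79_loc B' (n.comap (bk63_res α B' B hαB)),
      Vb.valuation (α a - b) < 1) ∧
    (∀ x : F1, x ^ m ∈ sf79_loc B' (n.comap (bk63_res α B' B hαB)) →
      x ∈ sf79_loc B' (n.comap (bk63_res α B' B hαB))) ∧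
    (∀ r : R, algebraMap R F1 r ∈ sf79_loc B' (n.comap (bk63_res α B' B hαB))) ∧
    (∀ x ∈ sf79_loc B n, x⁻¹ ∈ sf79_loc B n →
      (Nm x)⁻¹ ∈ sf79_loc B' (n.comap (bk63_res α B' B hαB))) := by
  refine ⟨fun x hx => to63_hAB α B' B hαB n x hx, ?_, fun x hx h => to63_hloc α B' B hαB n x hx h,
    fun b hb => to63_lift α B' B hαB Va hBVa n (to63_cen π B Va hrada n hOna) hLa b hb,
    fun b hb => to63_lift α B' B hαB Vb hBVb n (to63_cen π B Vb hradb n hOnb) hLb b hb,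
    fun x hx => to63_root B' hB'n _ m hm0 x hx,
    fun r => sf79_le_loc B' _ _ (B'.algebraMap_mem r), ?_⟩
  · -- `A ⊆ V'`
    rintro x ⟨s, hs, hsx⟩
    have hs1 : V'.valuation (s : F1) = 1 := by
      refine le_antisymm ((V'.valuation_le_one_iff _).2 (hB'V' _ s.2)) ?_
      by_contra h
      exact hs (to63_cen π B' V' hrad' _ hOn' s (not_le.1 h))
    have h1 : V'.valuation ((s : F1) * x) ≤ 1 := (V'.valuation_le_one_iff _).2 (hB'V' _ hsx)
    rw [map_mul, hs1, one_mul] at h1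
    exact (V'.valuation_le_one_iff _).1 h1
  · -- norms of local units
    intro x hx hx'
    by_cases hx0 : x = 0
    · have h0 : Nm 0 = 0 := by
        have := hNmα 0 B'.zero_mem
        rw [map_zero, zero_pow hd] at this
        exact this
      rw [hx0, h0, inv_zero]
      exact Subring.zero_mem _
    · exact to63_norm_unit α B' B hαB hBint n huniq Nm d hNmB hNmα x hx0 hx'

end abstract

section blockdef

variable {R K F1 F2 : Type*} [CommRing R] [Field K] [Field F1] [Field F2] [Algebra R K]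
  [Algebra K F1] [Algebra R F2] [Algebra K F2]

/-- **(T3)**: the `∃ Aal Abe` block of `hp53_TripleData` (its last conjunct, literally). -/
def t3b53_Block (m : ℕ) (B : Subalgebra R F2) (al be : F1 →+* F2)
    (Nal Nbe : F2 →* F1) (V₁ V₂ V₃ : ValuationSubring F2) (Vinf V0 : ValuationSubring F1)
    (n : Ideal B) (hn : n.IsPrime) : Prop :=
  haveI := hn
  ∃ Aal Abe : Subring F1,
    (∀ x ∈ Aal, al x ∈ sf79_loc B n) ∧ (∀ x ∈ Aal, x ∈ Vinf) ∧
    (∀ x ∈ Aal, (al x)⁻¹ ∈ sf79_loc B n → x⁻¹ ∈ Aal) ∧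
    (∀ b ∈ sf79_loc B n, ∃ a ∈ Aal, V₁.valuation (al a - b) < 1) ∧
    (∀ b ∈ sf79_loc B n, ∃ a ∈ Aal, V₂.valuation (al a - b) < 1) ∧
    (∀ x ∈ Abe, be x ∈ sf79_loc B n) ∧ (∀ x ∈ Abe, x ∈ V0) ∧
    (∀ x ∈ Abe, (be x)⁻¹ ∈ sf79_loc B n → x⁻¹ ∈ Abe) ∧
    (∀ b ∈ sf79_loc B n, ∃ a ∈ Abe, V₃.valuation (be a - b) < 1) ∧
    (∀ b ∈ sf79_loc B n, ∃ a ∈ Abe, V₂.valuation (be a - b) < 1) ∧
    (∀ x : F1, x ^ m ∈ Aal → x ∈ Aal) ∧ (∀ x : F1, x ^ m ∈ Abe → x ∈ Abe) ∧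
    (∀ r : R, algebraMap K F1 (algebraMap R K r) ∈ Aal) ∧
    (∀ r : R, algebraMap K F1 (algebraMap R K r) ∈ Abe) ∧
    (∀ x ∈ sf79_loc B n, x⁻¹ ∈ sf79_loc B n → (Nal x)⁻¹ ∈ Aal) ∧
    (∀ x ∈ sf79_loc B n, x⁻¹ ∈ sf79_loc B n → (Nbe x)⁻¹ ∈ Abe)

/-- `hp53_TripleData` = the three branch conditions, the three branch root lifts
(`bg76_lifts_all` / `tl32_three`) and the block (T3). -/
theorem t3b53_tripleData (π : R) (m : ℕ) (B : Subalgebra R F2) (al be : F1 →+* F2)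
    (Nal Nbe : F2 →* F1) (V₁ V₂ V₃ : ValuationSubring F2) (Vinf V0 : ValuationSubring F1)
    (n : Ideal B) [hn : n.IsPrime]
    (h1 : sf79_OnBr π B V₁.toSubring n) (h2 : sf79_OnBr π B V₂.toSubring n)
    (h3 : sf79_OnBr π B V₃.toSubring n)
    (hl1 : ∀ c e : F2, c ∈ V₁ → e ≠ 0 → e ∈ sf79_loc B n → e⁻¹ ∈ sf79_loc B n →
      V₁.valuation (c ^ m - e) < 1 → ∃ b ∈ sf79_loc B n, V₁.valuation (c - b) < 1)
    (hl2 : ∀ c e : F2, c ∈ V₂ → e ≠ 0 → e ∈ sf79_loc B n → e⁻¹ ∈ sf79_loc B n →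
      V₂.valuation (c ^ m - e) < 1 → ∃ b ∈ sf79_loc B n, V₂.valuation (c - b) < 1)
    (hl3 : ∀ c e : F2, c ∈ V₃ → e ≠ 0 → e ∈ sf79_loc B n → e⁻¹ ∈ sf79_loc B n →
      V₃.valuation (c ^ m - e) < 1 → ∃ b ∈ sf79_loc B n, V₃.valuation (c - b) < 1)
    (hb : t3b53_Block (K := K) m B al be Nal Nbe V₁ V₂ V₃ Vinf V0 n hn) :
    hp53_TripleData (K := K) π m B al be Nal Nbe V₁ V₂ V₃ Vinf V0 n hn :=
  ⟨h1, h2, h3, hl1, hl2, hl3, hb⟩

/-- The block in the shape of the existential conjunct of `hp3x77_TripleData` (helper77): the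
same fourteen clauses and the two norm clauses merged. -/
theorem t3b53_block77 (m : ℕ) (B : Subalgebra R F2) (al be : F1 →+* F2)
    (Nal Nbe : F2 →* F1) (V₁ V₂ V₃ : ValuationSubring F2) (Vinf V0 : ValuationSubring F1)
    (n : Ideal B) [hn : n.IsPrime]
    (hb : t3b53_Block (K := K) m B al be Nal Nbe V₁ V₂ V₃ Vinf V0 n hn) :
    ∃ Aal Abe : Subring F1,
      (∀ x ∈ Aal, al x ∈ sf79_loc B n) ∧ (∀ x ∈ Aal, x ∈ Vinf) ∧
      (∀ x ∈ Aal, (al x)⁻¹ ∈ sf79_loc B n → x⁻¹ ∈ Aal) ∧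
      (∀ b ∈ sf79_loc B n, ∃ a ∈ Aal, V₁.valuation (al a - b) < 1) ∧
      (∀ b ∈ sf79_loc B n, ∃ a ∈ Aal, V₂.valuation (al a - b) < 1) ∧
      (∀ x ∈ Abe, be x ∈ sf79_loc B n) ∧ (∀ x ∈ Abe, x ∈ V0) ∧
      (∀ x ∈ Abe, (be x)⁻¹ ∈ sf79_loc B n → x⁻¹ ∈ Abe) ∧
      (∀ b ∈ sf79_loc B n, ∃ a ∈ Abe, V₃.valuation (be a - b) < 1) ∧
      (∀ b ∈ sf79_loc B n, ∃ a ∈ Abe, V₂.valuation (be a - b) < 1) ∧
      (∀ x : F1, x ^ m ∈ Aal → x ∈ Aal) ∧ (∀ x : F1, x ^ m ∈ Abe → x ∈ Abe) ∧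
      (∀ r : R, algebraMap K F1 (algebraMap R K r) ∈ Aal) ∧
      (∀ r : R, algebraMap K F1 (algebraMap R K r) ∈ Abe) ∧
      (∀ eps : F2, eps ≠ 0 → eps ∈ sf79_loc B n → eps⁻¹ ∈ sf79_loc B n →
        (Nal eps)⁻¹ ∈ Aal ∧ (Nbe eps)⁻¹ ∈ Abe) := by
  obtain ⟨Aal, Abe, c1, c2, c3, c4, c5, c6, c7, c8, c9, c10, c11, c12, c13, c14, c15, c16⟩ := hb
  exact ⟨Aal, Abe, c1, c2, c3, c4, c5, c6, c7, c8, c9, c10, c11, c12, c13, c14,
    fun eps _ h h' => ⟨c15 eps h h', c16 eps h h'⟩⟩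

end blockdef

section canonical

variable {R K : Type} [CommRing R] [IsDomain R] [IsDiscreteValuationRing R] [Field K]
  [CharZero K] [Algebra R K] [IsFractionRing R K] [Algebra K Kbar]
  (M' q : ℕ) [NeZero M'] [NeZero q] (hq : q.Prime) (hM' : ¬ q ∣ M')
  {π : R} (hπ : Irreducible π)
  [Algebra R ↥(modularFunctionFieldFullC K (M' * q))]
  [IsScalarTower R K ↥(modularFunctionFieldFullC K (M' * q))]
  [Algebra R ↥(modularFunctionFieldFullC K (M' * q * q))]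
  [IsScalarTower R K ↥(modularFunctionFieldFullC K (M' * q * q))]

/-- **(T3): the `∃ Aal Abe` block of `hp53_TripleData` on the canonical frame**, for any chart
`B' = pk15_chart R s'` of level `M' q`, any `B` of level `M' q²` and chart maps `fα`, `fβ`
(binders of `pbi81_triple`), at a prime `n` of `B` on two of the three branches.  Witnesses:
`Aal = sf79_loc B' (n.comap fα)`, `Abe = sf79_loc B' (n.comap fβ)`. -/
theorem t3b53_block (hqR : ¬ IsUnit (q : R))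
    (s' : Set ↥(modularFunctionFieldFullC K (M' * q)))
    (B : Subalgebra R ↥(modularFunctionFieldFullC K (M' * q * q)))
    (fα : ↥(pk15_chart R s') →+* ↥B)
    (hfα : ∀ x, ((fα x : ↥B) : ↥(modularFunctionFieldFullC K (M' * q * q))) =
      al97L_alpha K (M' * q) q (x : ↥(modularFunctionFieldFullC K (M' * q))))
    (hfαi : fα.IsIntegral)
    (fβ : ↥(pk15_chart R s') →+* ↥B)
    (hfβ : ∀ x, ((fβ x : ↥B) : ↥(modularFunctionFieldFullC K (M' * q * q))) =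
      al97L_beta K (M' * q) q (x : ↥(modularFunctionFieldFullC K (M' * q))))
    (hfβi : fβ.IsIntegral)
    (hB'Vi : ∀ x ∈ pk15_chart R s', x ∈ cm85_Vinf (K := K) (M' * q) hπ)
    (hB'V0 : ∀ x ∈ pk15_chart R s', x ∈ s34i47c_V0 (K := K) M' q hq hM' hπ)
    (V₂ : ValuationSubring ↥(modularFunctionFieldFullC K (M' * q * q)))
    (hα₂ : ∀ x ∈ cm85_Vinf (K := K) (M' * q) hπ, al97L_alpha K (M' * q) q x ∈ V₂)
    (hβ₂ : ∀ x ∈ s34i47c_V0 (K := K) M' q hq hM' hπ, al97L_beta K (M' * q) q x ∈ V₂)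
    (hπ₂ : (algebraMap R ↥(modularFunctionFieldFullC K (M' * q * q)) π)⁻¹ ∉ V₂)
    (hBV₁ : ∀ x ∈ B, x ∈ cm85_Vinf (K := K) (M' * q * q) hπ) (hBV₂ : ∀ x ∈ B, x ∈ V₂)
    (hBV₃ : ∀ x ∈ B, x ∈ nsb86_V3 M' q hq hM' hπ)
    (hrad₁ : ∀ x ∈ cm85_Vinf (K := K) (M' * q * q) hπ,
      x⁻¹ ∉ cm85_Vinf (K := K) (M' * q * q) hπ → ∃ k : ℕ,
        (algebraMap R ↥(modularFunctionFieldFullC K (M' * q * q)) π)⁻¹ * x ^ k ∈
          cm85_Vinf (K := K) (M' * q * q) hπ)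
    (hrad₂ : ∀ x ∈ V₂, x⁻¹ ∉ V₂ → ∃ k : ℕ,
        (algebraMap R ↥(modularFunctionFieldFullC K (M' * q * q)) π)⁻¹ * x ^ k ∈ V₂)
    (hrad₃ : ∀ x ∈ nsb86_V3 (K := K) M' q hq hM' hπ,
      x⁻¹ ∉ nsb86_V3 (K := K) M' q hq hM' hπ → ∃ k : ℕ,
        (algebraMap R ↥(modularFunctionFieldFullC K (M' * q * q)) π)⁻¹ * x ^ k ∈
          nsb86_V3 (K := K) M' q hq hM' hπ)
    (hNA : ∀ y ∈ B, s35i62_normA K (M' * q) q y ∈ pk15_chart R s')
    (hNB : ∀ y ∈ B, s35i62_normB K (M' * q) q y ∈ pk15_chart R s')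
    (hL1 : ∀ y ∈ B, ∃ a ∈ pk15_chart R s',
      (cm85_Vinf (K := K) (M' * q * q) hπ).valuation (al97L_alpha K (M' * q) q a - y) < 1)
    (hL2 : ∀ y ∈ B, ∃ a ∈ pk15_chart R s', V₂.valuation (al97L_alpha K (M' * q) q a - y) < 1)
    (hL3 : ∀ y ∈ B, ∃ a ∈ pk15_chart R s',
      (nsb86_V3 (K := K) M' q hq hM' hπ).valuation (al97L_beta K (M' * q) q a - y) < 1)
    (hL4 : ∀ y ∈ B, ∃ a ∈ pk15_chart R s', V₂.valuation (al97L_beta K (M' * q) q a - y) < 1)
    (m : ℕ) (hm0 : 0 < m)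
    (n : Ideal B) [hn : n.IsPrime]
    (htwo : (sf79_OnBr π B (cm85_Vinf (K := K) (M' * q * q) hπ).toSubring n ∧
        sf79_OnBr π B V₂.toSubring n) ∨
      (sf79_OnBr π B (cm85_Vinf (K := K) (M' * q * q) hπ).toSubring n ∧
        sf79_OnBr π B (nsb86_V3 M' q hq hM' hπ).toSubring n) ∨
      (sf79_OnBr π B V₂.toSubring n ∧
        sf79_OnBr π B (nsb86_V3 M' q hq hM' hπ).toSubring n)) :
    t3b53_Block (K := K) m B (al97L_alpha K (M' * q) q).toRingHom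
      (al97L_beta K (M' * q) q).toRingHom (s35i62_normA K (M' * q) q)
      (s35i62_normB K (M' * q) q) (cm85_Vinf (K := K) (M' * q * q) hπ) V₂
      (nsb86_V3 (K := K) M' q hq hM' hπ) (cm85_Vinf (K := K) (M' * q) hπ)
      (s34i47c_V0 (K := K) M' q hq hM' hπ) n hn := by
  obtain ⟨⟨hOn1, hOn2, hOn3⟩, ⟨hαi, hα0⟩, ⟨hβi, hβ0⟩, huα, huβ⟩ :=
    pbi81_triple M' q hq hM' hπ hqR s' B fα hfα hfαi fβ hfβ hfβi hB'Vi hB'V0 V₂ hα₂ hβ₂ hπ₂
      hBV₁ hBV₂ hBV₃ n htwo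
  obtain ⟨a1, a2, a3⟩ := pbi81_chart_fields (al97L_alpha K (M' * q) q).toRingHom s' B fα hfα hfαi
  obtain ⟨b1, b2, b3⟩ := pbi81_chart_fields (al97L_beta K (M' * q) q).toRingHom s' B fβ hfβ hfβi
  have eα : bk63_res (al97L_alpha K (M' * q) q).toRingHom (pk15_chart R s') B a1 = fα :=
    RingHom.ext fun x => Subtype.ext (by rw [bk63_res_coe]; exact (hfα x).symm)
  have eβ : bk63_res (al97L_beta K (M' * q) q).toRingHom (pk15_chart R s') B b1 = fβ :=
    RingHom.ext fun x => Subtype.ext (by rw [bk63_res_coe]; exact (hfβ x).symm)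
  have hB'n : ∀ t : ↥(modularFunctionFieldFullC K (M' * q)),
      (algebraMap ↥(pk15_chart R s') ↥(modularFunctionFieldFullC K (M' * q))).IsIntegralElem t →
        t ∈ pk15_chart R s' := fun t ht => pbi81_chart_closed s' t ht
  have hradi : ∀ x ∈ cm85_Vinf (K := K) (M' * q) hπ, x⁻¹ ∉ cm85_Vinf (K := K) (M' * q) hπ →
      ∃ k : ℕ, (algebraMap R ↥(modularFunctionFieldFullC K (M' * q)) π)⁻¹ * x ^ k ∈
        cm85_Vinf (K := K) (M' * q) hπ := by
    intro x hx hx'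
    refine ⟨1, ?_⟩
    rw [pow_one, IsScalarTower.algebraMap_apply R K ↥(modularFunctionFieldFullC K (M' * q))]
    exact gv85_hmax (IsLocalRing.residue R) π (pk85_res_iff hπ) hπ.ne_zero _
      (pk85_HF K (M' * q) hπ) x hx hx'
  have hrad0 : ∀ x ∈ s34i47c_V0 (K := K) M' q hq hM' hπ,
      x⁻¹ ∉ s34i47c_V0 (K := K) M' q hq hM' hπ →
      ∃ k : ℕ, (algebraMap R ↥(modularFunctionFieldFullC K (M' * q)) π)⁻¹ * x ^ k ∈
        s34i47c_V0 (K := K) M' q hq hM' hπ := by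
    intro x hx hx'
    refine ⟨1, ?_⟩
    rw [pow_one, IsScalarTower.algebraMap_apply R K ↥(modularFunctionFieldFullC K (M' * q))]
    exact (obi72_V0_dvr (K := K) M' q hq hM' hπ).hmax x hx hx'
  have hq0 : q ≠ 0 := hq.ne_zero
  have SA := t3b53_side π (al97L_alpha K (M' * q) q).toRingHom (pk15_chart R s') B a1 a2 hB'n
    (cm85_Vinf (K := K) (M' * q) hπ) hB'Vi hradi
    (cm85_Vinf (K := K) (M' * q * q) hπ) V₂ hBV₁ hBV₂ hrad₁ hrad₂ hL1 hL2
    (s35i62_normA K (M' * q) q) q hq0 hNA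
    (nse86_hNm_alpha M' q hq (pk15_chart R s' : Set ↥(modularFunctionFieldFullC K (M' * q))))
    m hm0 n hOn1 hOn2 (by rw [eα]; exact hαi) (by rw [eα]; exact huα)
  have SB := t3b53_side π (al97L_beta K (M' * q) q).toRingHom (pk15_chart R s') B b1 b2 hB'n
    (s34i47c_V0 (K := K) M' q hq hM' hπ) hB'V0 hrad0
    (nsb86_V3 (K := K) M' q hq hM' hπ) V₂ hBV₃ hBV₂ hrad₃ hrad₂ hL3 hL4
    (s35i62_normB K (M' * q) q) q hq0 hNB
    (nse86_hNm_beta M' q hq hM' (pk15_chart R s' : Set ↥(modularFunctionFieldFullC K (M' * q))))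
    m hm0 n hOn3 hOn2 (by rw [eβ]; exact hβ0) (by rw [eβ]; exact huβ)
  obtain ⟨A1, A2, A3, A4, A5, A6, A7, A8⟩ := SA
  obtain ⟨B1, B2, B3, B4, B5, B6, B7, B8⟩ := SB
  unfold t3b53_Block
  refine ⟨_, _, A1, A2, A3, A4, A5, B1, B2, B3, B4, B5, A6, B6, ?_, ?_, A8, B8⟩
  · intro r
    rw [← IsScalarTower.algebraMap_apply R K ↥(modularFunctionFieldFullC K (M' * q))]
    exact A7 r
  · intro r
    rw [← IsScalarTower.algebraMap_apply R K ↥(modularFunctionFieldFullC K (M' * q))]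
    exact B7 r

end canonical

section charts

local notation "Q̄" => AlgebraicClosure ℚ

variable {R K : Type} [CommRing R] [IsDomain R] [IsDiscreteValuationRing R] [Field K]
  [NumberField K] [Algebra R K] [IsFractionRing R K] [Algebra K Q̄] [Algebra.IsAlgebraic K Q̄]
  (M' q : ℕ) [NeZero M'] [NeZero q] (hq : q.Prime) (hM' : ¬ q ∣ M')
  {π : R} (hπ : Irreducible π)
  [Algebra R ↥(modularFunctionFieldFullC K M')]
  [IsScalarTower R K ↥(modularFunctionFieldFullC K M')]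
  [Algebra R ↥(modularFunctionFieldFullC K (M' * q))]
  [IsScalarTower R K ↥(modularFunctionFieldFullC K (M' * q))]
  [Algebra R ↥(modularFunctionFieldFullC K (M' * q * q))]
  [IsScalarTower R K ↥(modularFunctionFieldFullC K (M' * q * q))]

/-- **(T3) for one pair of charts** `B' = pk15_chart R s'`, `B = pk15_chart R s` of the canonical
frame: chart maps, `B' ⊆ W'`, the chart facts of `B`, the norm maps and the four chart-level
lifts as hypotheses; `V₂` any valuation subring with the four facts of `ob72_ram`. -/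
theorem t3b53_chart (hqR : ¬ IsUnit (q : R))
    (V₂ : ValuationSubring ↥(modularFunctionFieldFullC K (M' * q * q)))
    (hV₂ : ∀ c ∈ cm85_Vinf (K := K) (M' * q) hπ, al97L_alpha K (M' * q) q c ∈ V₂)
    (hπ₂ : (algebraMap K ↥(modularFunctionFieldFullC K (M' * q * q)) (algebraMap R K π))⁻¹ ∉ V₂)
    (hne : cm85_Vinf (K := K) (M' * q * q) hπ ≠ V₂)
    (hs : V₂.valuation (v2g64_s K M' q) ^ (q - 1) =
      V₂.valuation (algebraMap K ↥(modularFunctionFieldFullC K (M' * q * q)) (algebraMap R K π)))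
    (s' : Set ↥(modularFunctionFieldFullC K (M' * q)))
    (s : Set ↥(modularFunctionFieldFullC K (M' * q * q)))
    (hfα : ∃ f : ↥(pk15_chart R s') →+* ↥(pk15_chart R s),
      (∀ x : ↥(pk15_chart R s'), ((f x : ↥(pk15_chart R s)) :
        ↥(modularFunctionFieldFullC K (M' * q * q))) =
          al97L_alpha K (M' * q) q (x : ↥(modularFunctionFieldFullC K (M' * q)))) ∧
        f.IsIntegral)
    (hfβ : ∃ f : ↥(pk15_chart R s') →+* ↥(pk15_chart R s),
      (∀ x : ↥(pk15_chart R s'), ((f x : ↥(pk15_chart R s)) :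
        ↥(modularFunctionFieldFullC K (M' * q * q))) =
          al97L_beta K (M' * q) q (x : ↥(modularFunctionFieldFullC K (M' * q)))) ∧
        f.IsIntegral)
    (hB'W : ∀ x ∈ pk15_chart R s', x ∈ s34i47c_W (K := K) M' q hq hM' hπ)
    (hF : cf54_Facts π (pk15_chart R s) (cm85_Vinf (K := K) (M' * q * q) hπ) V₂
      (nsb86_V3 (K := K) M' q hq hM' hπ))
    (hNA : ∀ y ∈ pk15_chart R s, s35i62_normA K (M' * q) q y ∈ pk15_chart R s')
    (hNB : ∀ y ∈ pk15_chart R s, s35i62_normB K (M' * q) q y ∈ pk15_chart R s')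
    (hL : tl3_Lifts (K := K) M' q hq hM' hπ V₂ s' s)
    (m : ℕ) (hm0 : 0 < m)
    (n : Ideal ↥(pk15_chart R s)) (hn : n.IsPrime)
    (hnot : ¬ cp57_OneBr π (pk15_chart R s) (cm85_Vinf (K := K) (M' * q * q) hπ) V₂
      (nsb86_V3 (K := K) M' q hq hM' hπ) n) :
    t3b53_Block (K := K) m (pk15_chart R s) (al97L_alpha K (M' * q) q).toRingHom
      (al97L_beta K (M' * q) q).toRingHom (s35i62_normA K (M' * q) q)
      (s35i62_normB K (M' * q) q) (cm85_Vinf (K := K) (M' * q * q) hπ) V₂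
      (nsb86_V3 (K := K) M' q hq hM' hπ) (cm85_Vinf (K := K) (M' * q) hπ)
      (s34i47c_V0 (K := K) M' q hq hM' hπ) n hn := by
  haveI := hn
  obtain ⟨fα, hfα1, hfαi⟩ := hfα
  obtain ⟨fβ, hfβ1, hfβi⟩ := hfβ
  obtain ⟨-, hBV₁, hBV₂, hBV₃, -⟩ := hF
  obtain ⟨hL1, hL2, hL3, hL4⟩ := hL
  have e : algebraMap R ↥(modularFunctionFieldFullC K (M' * q * q)) π =
      algebraMap K ↥(modularFunctionFieldFullC K (M' * q * q)) (algebraMap R K π) :=
    IsScalarTower.algebraMap_apply R K _ π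
  have hπ₂' : (algebraMap R ↥(modularFunctionFieldFullC K (M' * q * q)) π)⁻¹ ∉ V₂ := by
    rw [e]; exact hπ₂
  have hLK := nsb86_hL K (M' * q * q)
  have hβ₂ : ∀ x ∈ s34i47c_V0 (K := K) M' q hq hM' hπ, al97L_beta K (M' * q) q x ∈ V₂ :=
    fun c hc => (bv66_beta_mem_V2 (K := K) M' q hq hM' hπ hqR hLK V₂ hV₂ hπ₂ hne c).mpr hc
  have hrad := fc73_rad (K := K) M' q hq hM' hπ hqR V₂ hV₂ hπ₂ hne hs
  have hB'Vi : ∀ x ∈ pk15_chart R s', x ∈ cm85_Vinf (K := K) (M' * q) hπ := fun x hx =>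
    ((wa5_mem_W (cm85_Vinf (K := K) (M' * q) hπ) (s34i47c_V0 (K := K) M' q hq hM' hπ) x).mp
      (hB'W x hx)).1
  have hB'V0 : ∀ x ∈ pk15_chart R s', x ∈ s34i47c_V0 (K := K) M' q hq hM' hπ := fun x hx =>
    ((wa5_mem_W (cm85_Vinf (K := K) (M' * q) hπ) (s34i47c_V0 (K := K) M' q hq hM' hπ) x).mp
      (hB'W x hx)).2
  have htwo : (sf79_OnBr π (pk15_chart R s) (cm85_Vinf (K := K) (M' * q * q) hπ).toSubring n ∧
        sf79_OnBr π (pk15_chart R s) V₂.toSubring n) ∨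
      (sf79_OnBr π (pk15_chart R s) (cm85_Vinf (K := K) (M' * q * q) hπ).toSubring n ∧
        sf79_OnBr π (pk15_chart R s) (nsb86_V3 M' q hq hM' hπ).toSubring n) ∨
      (sf79_OnBr π (pk15_chart R s) V₂.toSubring n ∧
        sf79_OnBr π (pk15_chart R s) (nsb86_V3 M' q hq hM' hπ).toSubring n) := by
    by_contra hcon
    exact hnot ⟨fun h => hcon (Or.inl h), fun h => hcon (Or.inr (Or.inl h)),
      fun h => hcon (Or.inr (Or.inr h))⟩
  exact t3b53_block (K := K) M' q hq hM' hπ hqR s' (pk15_chart R s) fα hfα1 hfαi fβ hfβ1 hfβi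
    hB'Vi hB'V0 V₂ hV₂ hβ₂ hπ₂' hBV₁ hBV₂ hBV₃ (hrad 0) (hrad 1) (hrad 2) hNA hNB
    hL1 hL2 hL3 hL4 m hm0 n htwo

/-- **(T3) on the canonical charts, Hauptmodul of level 2** (`2 ∣ M'`): at every prime `n` of
either chart which is not on at most one branch, the `∃ Aal Abe` block of `hp53_TripleData`.
`V₂` any valuation subring with the four facts of `ob72_ram` (e.g. `v2g64_V2`). -/
theorem t3b53_level2 (hunit : ∀ n : ℕ, Nat.Coprime n q → IsUnit (n : R))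
    (hqR : ¬ IsUnit (q : R)) (h2 : 2 ∣ M')
    (V₂ : ValuationSubring ↥(modularFunctionFieldFullC K (M' * q * q)))
    (hV₂ : ∀ c ∈ cm85_Vinf (K := K) (M' * q) hπ, al97L_alpha K (M' * q) q c ∈ V₂)
    (hπ₂ : (algebraMap K ↥(modularFunctionFieldFullC K (M' * q * q)) (algebraMap R K π))⁻¹ ∉ V₂)
    (hne : cm85_Vinf (K := K) (M' * q * q) hπ ≠ V₂)
    (hs : V₂.valuation (v2g64_s K M' q) ^ (q - 1) =
      V₂.valuation (algebraMap K ↥(modularFunctionFieldFullC K (M' * q * q)) (algebraMap R K π)))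
    (m : ℕ) (hm0 : 0 < m) :
    (∀ (n : Ideal ↥(pk15_chart R ({pk85_h2 K (M' * q * q)
          (h2.trans ((dvd_mul_right M' q).trans (dvd_mul_right (M' * q) q)))} :
            Set ↥(modularFunctionFieldFullC K (M' * q * q))))) (hn : n.IsPrime),
      ¬ cp57_OneBr π (pk15_chart R ({pk85_h2 K (M' * q * q)
          (h2.trans ((dvd_mul_right M' q).trans (dvd_mul_right (M' * q) q)))} :
            Set ↥(modularFunctionFieldFullC K (M' * q * q))))
        (cm85_Vinf (K := K) (M' * q * q) hπ) V₂ (nsb86_V3 (K := K) M' q hq hM' hπ) n →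
      t3b53_Block (K := K) m (pk15_chart R ({pk85_h2 K (M' * q * q)
          (h2.trans ((dvd_mul_right M' q).trans (dvd_mul_right (M' * q) q)))} :
            Set ↥(modularFunctionFieldFullC K (M' * q * q))))
        (al97L_alpha K (M' * q) q).toRingHom (al97L_beta K (M' * q) q).toRingHom
        (s35i62_normA K (M' * q) q) (s35i62_normB K (M' * q) q)
        (cm85_Vinf (K := K) (M' * q * q) hπ) V₂ (nsb86_V3 (K := K) M' q hq hM' hπ)
        (cm85_Vinf (K := K) (M' * q) hπ) (s34i47c_V0 (K := K) M' q hq hM' hπ) n hn) ∧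
    (∀ (n : Ideal ↥(pk15_chart R ({(pk85_h2 K (M' * q * q)
          (h2.trans ((dvd_mul_right M' q).trans (dvd_mul_right (M' * q) q))))⁻¹} :
            Set ↥(modularFunctionFieldFullC K (M' * q * q))))) (hn : n.IsPrime),
      ¬ cp57_OneBr π (pk15_chart R ({(pk85_h2 K (M' * q * q)
          (h2.trans ((dvd_mul_right M' q).trans (dvd_mul_right (M' * q) q))))⁻¹} :
            Set ↥(modularFunctionFieldFullC K (M' * q * q))))
        (cm85_Vinf (K := K) (M' * q * q) hπ) V₂ (nsb86_V3 (K := K) M' q hq hM' hπ) n →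
      t3b53_Block (K := K) m (pk15_chart R ({(pk85_h2 K (M' * q * q)
          (h2.trans ((dvd_mul_right M' q).trans (dvd_mul_right (M' * q) q))))⁻¹} :
            Set ↥(modularFunctionFieldFullC K (M' * q * q))))
        (al97L_alpha K (M' * q) q).toRingHom (al97L_beta K (M' * q) q).toRingHom
        (s35i62_normA K (M' * q) q) (s35i62_normB K (M' * q) q)
        (cm85_Vinf (K := K) (M' * q * q) hπ) V₂ (nsb86_V3 (K := K) M' q hq hM' hπ)
        (cm85_Vinf (K := K) (M' * q) hπ) (s34i47c_V0 (K := K) M' q hq hM' hπ) n hn) := by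
  have hq2 : q ≠ 2 := by
    intro h
    apply hM'
    rw [h]
    exact h2
  have h2' : 2 ∣ M' * q := h2.trans (dvd_mul_right M' q)
  have h2'' : 2 ∣ M' * q * q := h2.trans ((dvd_mul_right M' q).trans (dvd_mul_right (M' * q) q))
  have hh' : s34i47c_IsHaupt K (M' * q) q (pk85_h2 K (M' * q) h2') := Or.inl ⟨hq2, h2', rfl⟩
  have hαh : al97L_alpha K (M' * q) q (pk85_h2 K (M' * q) h2') = pk85_h2 K (M' * q * q) h2'' :=
    Subtype.ext (by rw [al97L_alpha_coe, pk85_h2_coe, pk85_h2_coe])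
  have hMu : IsUnit (M' : R) := hunit M' ((Nat.Prime.coprime_iff_not_dvd hq).2 hM').symm
  have h2R : IsUnit (2 : R) := by
    have := hunit 2 ((Nat.coprime_primes Nat.prime_two hq).mpr (Ne.symm hq2))
    simpa using this
  obtain ⟨fa1, fa2⟩ := bc95_alpha (R := R) (K := K) (M' * q) q (pk85_h2 K (M' * q) h2')
    (pk85_h2 K (M' * q * q) h2'') hαh
  obtain ⟨fb1, fb2⟩ := bc95_beta_level2 (R := R) (K := K) (M' * q) q hq hq2 h2R h2'
    (pk85_h2 K (M' * q) h2') (pk85_h2 K (M' * q * q) h2'') (pk85_h2_coe K (M' * q) h2')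
    (pk85_h2_coe K (M' * q * q) h2'')
  obtain ⟨⟨hBW₁, -⟩, ⟨hBW₂, -⟩⟩ := nf79c_chart_facts (K := K) M' q hq hM' hπ hunit hqR _ hh'
  obtain ⟨hF1, hF2⟩ := cf54_level2 (K := K) M' q hq hM' hπ hqR hMu h2 V₂ hV₂ hπ₂ hs
  obtain ⟨hNA1, hNA2⟩ := nc91_normA_chart (R := R) (K := K) (M' * q) q (pk85_h2 K (M' * q) h2')
  obtain ⟨hNB1, hNB2⟩ := nc91_normB_chart (R := R) (K := K) (M' * q) q hq hunit
    (pk85_h2 K (M' * q) h2') hh'
  rw [hαh] at hNA1 hNA2 hNB1 hNB2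
  obtain ⟨hLa, hLb⟩ := tl3_lifts_level2 (R := R) (K := K) M' q hq hM' hπ hqR hunit h2 V₂ hV₂ hπ₂
    hne hs
  exact ⟨fun n hn hnot => t3b53_chart (K := K) M' q hq hM' hπ hqR V₂ hV₂ hπ₂ hne hs _ _
      fa1 fb1 hBW₁ hF1 hNA1 hNB1 hLa m hm0 n hn hnot,
    fun n hn hnot => t3b53_chart (K := K) M' q hq hM' hπ hqR V₂ hV₂ hπ₂ hne hs _ _
      fa2 fb2 hBW₂ hF2 hNA2 hNB2 hLb m hm0 n hn hnot⟩

/-- **(T3) on the canonical charts, Hauptmodul of level 3** (`3 ∣ M'`). -/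
theorem t3b53_level3 (hunit : ∀ n : ℕ, Nat.Coprime n q → IsUnit (n : R))
    (hqR : ¬ IsUnit (q : R)) (h3 : 3 ∣ M')
    (V₂ : ValuationSubring ↥(modularFunctionFieldFullC K (M' * q * q)))
    (hV₂ : ∀ c ∈ cm85_Vinf (K := K) (M' * q) hπ, al97L_alpha K (M' * q) q c ∈ V₂)
    (hπ₂ : (algebraMap K ↥(modularFunctionFieldFullC K (M' * q * q)) (algebraMap R K π))⁻¹ ∉ V₂)
    (hne : cm85_Vinf (K := K) (M' * q * q) hπ ≠ V₂)
    (hs : V₂.valuation (v2g64_s K M' q) ^ (q - 1) =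
      V₂.valuation (algebraMap K ↥(modularFunctionFieldFullC K (M' * q * q)) (algebraMap R K π)))
    (m : ℕ) (hm0 : 0 < m) :
    (∀ (n : Ideal ↥(pk15_chart R ({pk85_h3 K (M' * q * q)
          (h3.trans ((dvd_mul_right M' q).trans (dvd_mul_right (M' * q) q)))} :
            Set ↥(modularFunctionFieldFullC K (M' * q * q))))) (hn : n.IsPrime),
      ¬ cp57_OneBr π (pk15_chart R ({pk85_h3 K (M' * q * q)
          (h3.trans ((dvd_mul_right M' q).trans (dvd_mul_right (M' * q) q)))} :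
            Set ↥(modularFunctionFieldFullC K (M' * q * q))))
        (cm85_Vinf (K := K) (M' * q * q) hπ) V₂ (nsb86_V3 (K := K) M' q hq hM' hπ) n →
      t3b53_Block (K := K) m (pk15_chart R ({pk85_h3 K (M' * q * q)
          (h3.trans ((dvd_mul_right M' q).trans (dvd_mul_right (M' * q) q)))} :
            Set ↥(modularFunctionFieldFullC K (M' * q * q))))
        (al97L_alpha K (M' * q) q).toRingHom (al97L_beta K (M' * q) q).toRingHom
        (s35i62_normA K (M' * q) q) (s35i62_normB K (M' * q) q)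
        (cm85_Vinf (K := K) (M' * q * q) hπ) V₂ (nsb86_V3 (K := K) M' q hq hM' hπ)
        (cm85_Vinf (K := K) (M' * q) hπ) (s34i47c_V0 (K := K) M' q hq hM' hπ) n hn) ∧
    (∀ (n : Ideal ↥(pk15_chart R ({(pk85_h3 K (M' * q * q)
          (h3.trans ((dvd_mul_right M' q).trans (dvd_mul_right (M' * q) q))))⁻¹} :
            Set ↥(modularFunctionFieldFullC K (M' * q * q))))) (hn : n.IsPrime),
      ¬ cp57_OneBr π (pk15_chart R ({(pk85_h3 K (M' * q * q)
          (h3.trans ((dvd_mul_right M' q).trans (dvd_mul_right (M' * q) q))))⁻¹} :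
            Set ↥(modularFunctionFieldFullC K (M' * q * q))))
        (cm85_Vinf (K := K) (M' * q * q) hπ) V₂ (nsb86_V3 (K := K) M' q hq hM' hπ) n →
      t3b53_Block (K := K) m (pk15_chart R ({(pk85_h3 K (M' * q * q)
          (h3.trans ((dvd_mul_right M' q).trans (dvd_mul_right (M' * q) q))))⁻¹} :
            Set ↥(modularFunctionFieldFullC K (M' * q * q))))
        (al97L_alpha K (M' * q) q).toRingHom (al97L_beta K (M' * q) q).toRingHom
        (s35i62_normA K (M' * q) q) (s35i62_normB K (M' * q) q)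
        (cm85_Vinf (K := K) (M' * q * q) hπ) V₂ (nsb86_V3 (K := K) M' q hq hM' hπ)
        (cm85_Vinf (K := K) (M' * q) hπ) (s34i47c_V0 (K := K) M' q hq hM' hπ) n hn) := by
  have hq3 : q ≠ 3 := by
    intro h
    apply hM'
    rw [h]
    exact h3
  have h3' : 3 ∣ M' * q := h3.trans (dvd_mul_right M' q)
  have h3'' : 3 ∣ M' * q * q := h3.trans ((dvd_mul_right M' q).trans (dvd_mul_right (M' * q) q))
  have hh' : s34i47c_IsHaupt K (M' * q) q (pk85_h3 K (M' * q) h3') := Or.inr ⟨hq3, h3', rfl⟩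
  have hαh : al97L_alpha K (M' * q) q (pk85_h3 K (M' * q) h3') = pk85_h3 K (M' * q * q) h3'' :=
    Subtype.ext (by rw [al97L_alpha_coe, pk85_h3_coe, pk85_h3_coe])
  have hMu : IsUnit (M' : R) := hunit M' ((Nat.Prime.coprime_iff_not_dvd hq).2 hM').symm
  have h3R : IsUnit (3 : R) := by
    have := hunit 3 ((Nat.coprime_primes Nat.prime_three hq).mpr (Ne.symm hq3))
    simpa using this
  obtain ⟨fa1, fa2⟩ := bc95_alpha (R := R) (K := K) (M' * q) q (pk85_h3 K (M' * q) h3')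
    (pk85_h3 K (M' * q * q) h3'') hαh
  obtain ⟨fb1, fb2⟩ := bc95_beta_level3 (R := R) (K := K) (M' * q) q hq hq3 h3R h3'
    (pk85_h3 K (M' * q) h3') (pk85_h3 K (M' * q * q) h3'') (pk85_h3_coe K (M' * q) h3')
    (pk85_h3_coe K (M' * q * q) h3'')
  obtain ⟨⟨hBW₁, -⟩, ⟨hBW₂, -⟩⟩ := nf79c_chart_facts (K := K) M' q hq hM' hπ hunit hqR _ hh'
  obtain ⟨hF1, hF2⟩ := cf54_level3 (K := K) M' q hq hM' hπ hqR hMu h3 V₂ hV₂ hπ₂ hs
  obtain ⟨hNA1, hNA2⟩ := nc91_normA_chart (R := R) (K := K) (M' * q) q (pk85_h3 K (M' * q) h3')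
  obtain ⟨hNB1, hNB2⟩ := nc91_normB_chart (R := R) (K := K) (M' * q) q hq hunit
    (pk85_h3 K (M' * q) h3') hh'
  rw [hαh] at hNA1 hNA2 hNB1 hNB2
  obtain ⟨hLa, hLb⟩ := tl3_lifts_level3 (R := R) (K := K) M' q hq hM' hπ hqR hunit h3 V₂ hV₂ hπ₂
    hne hs
  exact ⟨fun n hn hnot => t3b53_chart (K := K) M' q hq hM' hπ hqR V₂ hV₂ hπ₂ hne hs _ _
      fa1 fb1 hBW₁ hF1 hNA1 hNB1 hLa m hm0 n hn hnot,
    fun n hn hnot => t3b53_chart (K := K) M' q hq hM' hπ hqR V₂ hV₂ hπ₂ hne hs _ _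
      fa2 fb2 hBW₂ hF2 hNA2 hNB2 hLb m hm0 n hn hnot⟩

end charts

end Fermat.Agent.S36
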