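import Fermat.Agent.S36.HP3Canon77
import Fermat.Agent.S36.TripleBlock53
import Fermat.Agent.S36.RegNodes13
import Fermat.Agent.S36.HPSplit62

/-!
# S36 lab, row 605 (helper92): (HP-3) ON THE CANONICAL FRAME IS CLOSED

`hp3f92_HP3c2 : s36i62g_HP3c2` and `hp3f92_HP3c3 : s36i62g_HP3c3` — the two (HP-3) hypotheses
of `s36i62g_top` (helper62, `HPSplit62`) / `s36i62j_top` (`MidBind62`), with NO hypothesis left:

* `hp3c77_level2/3` (helper77, `HP3Canon77`): `cp57_HP3` on both canonical charts from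
  `tf71_RegNodes` on the level-`M' q` charts and the `∃ Aal Abe` block at the closed points on
  two branches;
* `t3b53_level2/3` + `t3b53_block77` (helper53, `TripleBlock53`): that block, unconditionally;
* `rg13_regNodes_rigid` (helper13, `RegNodes13`): (REG-q) at a strongly rigid level
  (`r ≡ 11 mod 12`, `r ∣ M'`);
* the middle valuation `v2g64_V2` with its four facts (helper64).

So with these two theorems the frozen S36 is
`s36i62g_top HP1c2 hp3f92_HP3c2 HP1c3 hp3f92_HP3c3 …` resp.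
`s36i62j_top Reg2 hp3f92_HP3c2 Reg3 hp3f92_HP3c3 …`: only (HP-1) = row 600 is left.

All names are prefixed `hp3f92_`.
-/

set_option autoImplicit false
set_option linter.style.longLine false
set_option linter.unusedVariables false
set_option linter.unusedSectionVars false
set_option linter.style.haveILetI false

open ModularCurve AlgebraicCurve

namespace Fermat.Agent.S36

open Fermat.Agent.S18 Fermat.Agent.S24 Fermat.Agent.S34 Fermat.Agent.S35
open Fermat.Agent.S36.TripleLoc71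

local notation "Q̄" => AlgebraicClosure ℚ

/-- A strongly rigid level `M' * q`: the auxiliary prime `r` divides `M'`. -/
theorem hp3f92_dvd (M' q r : ℕ) (hq : q.Prime) (hrig : s36c67_Rigid6 (M' * q) q r) :
    r.Prime ∧ r % 12 = 11 ∧ r ∣ M' := by
  obtain ⟨-, -, hr, hr12, hrq, hrN⟩ := hrig
  refine ⟨hr, hr12, ?_⟩
  rcases (Nat.Prime.dvd_mul hr).mp hrN with h | h
  · exact h
  · exact absurd ((Nat.prime_dvd_prime_iff_eq hr hq).mp h) hrq

/-- **(HP-3), canonical, Hauptmodul of level 2: CLOSED.** -/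
theorem hp3f92_HP3c2 : s36i62g_HP3c2 := by
  intro M' q p r _ _ hq hM' hrig hp hpq h2 n R K _ _ _ _ _ _ _ _ _ _ hπ hunit
  haveI : Algebra.IsAlgebraic K Q̄ := cx_isAlgebraic_closure K
  letI a1 : Algebra R ↥(modularFunctionFieldFullC K M') :=
    ((algebraMap K ↥(modularFunctionFieldFullC K M')).comp (algebraMap R K)).toAlgebra
  haveI : IsScalarTower R K ↥(modularFunctionFieldFullC K M') :=
    IsScalarTower.of_algebraMap_eq (fun _ => rfl)
  letI a2 : Algebra R ↥(modularFunctionFieldFullC K (M' * q)) :=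
    ((algebraMap K ↥(modularFunctionFieldFullC K (M' * q))).comp (algebraMap R K)).toAlgebra
  haveI : IsScalarTower R K ↥(modularFunctionFieldFullC K (M' * q)) :=
    IsScalarTower.of_algebraMap_eq (fun _ => rfl)
  have hmu : IsUnit ((p ^ n : ℕ) : R) :=
    hunit _ (Nat.Coprime.pow_left n ((Nat.coprime_primes hp hq).mpr hpq))
  have hqR : ¬ IsUnit ((q : ℕ) : R) := hπ.not_isUnit
  have hMu : IsUnit ((M' : ℕ) : R) := hunit M' ((Nat.Prime.coprime_iff_not_dvd hq).2 hM').symm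
  obtain ⟨hr, hr12, hrM⟩ := hp3f92_dvd M' q r hq hrig
  have hq2 : q ≠ 2 := fun h => hM' (h ▸ h2)
  obtain ⟨g1, g2⟩ := rg13_regNodes_rigid (K := K) M' q hq hM' hπ hunit (Associated.refl _)
    hr hr12 hrM (pk85_h2 K (M' * q) (h2.trans (dvd_mul_right M' q)))
    (Or.inl ⟨hq2, h2.trans (dvd_mul_right M' q), rfl⟩)
  obtain ⟨b1, b2⟩ := t3b53_level2 (K := K) M' q hq hM' hπ hunit hqR h2
    (v2g64_V2 (algebraMap K Q̄) M' q hq hM' hπ (Associated.refl _))
    (v2g64_V2_alpha (algebraMap K Q̄) M' q hq hM' hπ (Associated.refl _))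
    (v2g64_V2_pi (algebraMap K Q̄) M' q hq hM' hπ (Associated.refl _))
    (v2g64_V2_ne (algebraMap K Q̄) M' q hq hM' hπ (Associated.refl _))
    (v2g64_V2_val (algebraMap K Q̄) M' q hq hM' hπ (Associated.refl _))
    (p ^ n) (pow_pos hp.pos n)
  obtain ⟨k1, k2⟩ := hp3c77_level2 (K := K) M' q hq hM' hπ hunit hqR hMu h2
    (v2g64_V2 (algebraMap K Q̄) M' q hq hM' hπ (Associated.refl _))
    (v2g64_V2_alpha (algebraMap K Q̄) M' q hq hM' hπ (Associated.refl _))
    (v2g64_V2_pi (algebraMap K Q̄) M' q hq hM' hπ (Associated.refl _))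
    (v2g64_V2_ne (algebraMap K Q̄) M' q hq hM' hπ (Associated.refl _))
    (v2g64_V2_val (algebraMap K Q̄) M' q hq hM' hπ (Associated.refl _))
    (p ^ n) (pow_pos hp.pos n) hmu
  refine ⟨k1 g1 ?_, k2 g2 ?_⟩
  · intro n' hn' _ hnot
    haveI := hn'.isPrime
    exact t3b53_block77 (K := K) _ _ _ _ _ _ _ _ _ _ _ n' (b1 n' hn'.isPrime hnot)
  · intro n' hn' _ hnot
    haveI := hn'.isPrime
    exact t3b53_block77 (K := K) _ _ _ _ _ _ _ _ _ _ _ n' (b2 n' hn'.isPrime hnot)

/-- **(HP-3), canonical, Hauptmodul of level 3 (`q = 2`): CLOSED.** -/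
theorem hp3f92_HP3c3 : s36i62g_HP3c3 := by
  intro M' q p r _ _ hq hM' hrig hp hpq hq2 h3 n R K _ _ _ _ _ _ _ _ _ _ hπ hunit
  haveI : Algebra.IsAlgebraic K Q̄ := cx_isAlgebraic_closure K
  letI a1 : Algebra R ↥(modularFunctionFieldFullC K M') :=
    ((algebraMap K ↥(modularFunctionFieldFullC K M')).comp (algebraMap R K)).toAlgebra
  haveI : IsScalarTower R K ↥(modularFunctionFieldFullC K M') :=
    IsScalarTower.of_algebraMap_eq (fun _ => rfl)
  letI a2 : Algebra R ↥(modularFunctionFieldFullC K (M' * q)) :=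
    ((algebraMap K ↥(modularFunctionFieldFullC K (M' * q))).comp (algebraMap R K)).toAlgebra
  haveI : IsScalarTower R K ↥(modularFunctionFieldFullC K (M' * q)) :=
    IsScalarTower.of_algebraMap_eq (fun _ => rfl)
  have hmu : IsUnit ((p ^ n : ℕ) : R) :=
    hunit _ (Nat.Coprime.pow_left n ((Nat.coprime_primes hp hq).mpr hpq))
  have hqR : ¬ IsUnit ((q : ℕ) : R) := hπ.not_isUnit
  have hMu : IsUnit ((M' : ℕ) : R) := hunit M' ((Nat.Prime.coprime_iff_not_dvd hq).2 hM').symm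
  obtain ⟨hr, hr12, hrM⟩ := hp3f92_dvd M' q r hq hrig
  have hq3 : q ≠ 3 := fun h => hM' (h ▸ h3)
  obtain ⟨g1, g2⟩ := rg13_regNodes_rigid (K := K) M' q hq hM' hπ hunit (Associated.refl _)
    hr hr12 hrM (pk85_h3 K (M' * q) (h3.trans (dvd_mul_right M' q)))
    (Or.inr ⟨hq3, h3.trans (dvd_mul_right M' q), rfl⟩)
  obtain ⟨b1, b2⟩ := t3b53_level3 (K := K) M' q hq hM' hπ hunit hqR h3
    (v2g64_V2 (algebraMap K Q̄) M' q hq hM' hπ (Associated.refl _))
    (v2g64_V2_alpha (algebraMap K Q̄) M' q hq hM' hπ (Associated.refl _))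
    (v2g64_V2_pi (algebraMap K Q̄) M' q hq hM' hπ (Associated.refl _))
    (v2g64_V2_ne (algebraMap K Q̄) M' q hq hM' hπ (Associated.refl _))
    (v2g64_V2_val (algebraMap K Q̄) M' q hq hM' hπ (Associated.refl _))
    (p ^ n) (pow_pos hp.pos n)
  obtain ⟨k1, k2⟩ := hp3c77_level3 (K := K) M' q hq hM' hπ hunit hqR hMu h3
    (v2g64_V2 (algebraMap K Q̄) M' q hq hM' hπ (Associated.refl _))
    (v2g64_V2_alpha (algebraMap K Q̄) M' q hq hM' hπ (Associated.refl _))
    (v2g64_V2_pi (algebraMap K Q̄) M' q hq hM' hπ (Associated.refl _))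
    (v2g64_V2_ne (algebraMap K Q̄) M' q hq hM' hπ (Associated.refl _))
    (v2g64_V2_val (algebraMap K Q̄) M' q hq hM' hπ (Associated.refl _))
    (p ^ n) (pow_pos hp.pos n) hmu
  refine ⟨k1 g1 ?_, k2 g2 ?_⟩
  · intro n' hn' _ hnot
    haveI := hn'.isPrime
    exact t3b53_block77 (K := K) _ _ _ _ _ _ _ _ _ _ _ n' (b1 n' hn'.isPrime hnot)
  · intro n' hn' _ hnot
    haveI := hn'.isPrime
    exact t3b53_block77 (K := K) _ _ _ _ _ _ _ _ _ _ _ n' (b2 n' hn'.isPrime hnot)

end Fermat.Agent.S36
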