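import Mathlib
import Fermat.Agent.S36.HP3Canon28
import Fermat.Agent.S36.TripleNode81
import Fermat.Agent.S36.TripleLiftLoc3
import Fermat.Agent.S36.RegNodes68
import Fermat.Agent.S36.HPSplit62
import Fermat.Agent.S36.Rigid20
import Fermat.Agent.S36.FrameClauses73
import Fermat.Agent.S34.BetaChart95

/-!
# S36 lab (helper73), row 605: (HP-3) CLOSED on the canonical frame

`hp3f73_HP3c2 : s36i62g_HP3c2` and `hp3f73_HP3c3 : s36i62g_HP3c3` (the two (HP-3) statements of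
`HPSplit62`, helper62), with NO open hypothesis.

Chain (all on main):
* `hp3c28_core` (helper28): `cp57_HP3` for a pair of charts from `tf71_RegNodes` and the
  `∃ Aal Abe` block `hp3c28_Block` at every closed point on two branches;
* the block: `tn81_node` (helper81, the non-lift clauses) + `tll3_of_lifts` applied to
  `tl3_lifts_level2/3` (helper3, the four residue lifts) — `hp3f73_block`;
* (REG-q): `nrg68_regNodes_level2/3` (helper68) at a strongly rigid level;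
* frame plumbing as in `hp1c36_charts` (helper36): `fb85_frameV3_level2/3`,
  `sm7_three_smooth_sq_level2/3`, `kr65_Pkg_Krull`, `cm71_alpha_charts`, `cm71_beta_charts`,
  `nf79c_chart_facts`, chart maps `bc95_alpha`, `bc95_beta_level2/3`;
* the middle valuation `v2g64_V2` with `v2g64_V2_alpha/_pi/_ne/_val` (helper64).

All names are prefixed `hp3f73_`.
-/

set_option autoImplicit false
set_option linter.unusedSectionVars false
set_option linter.unusedVariables false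
set_option linter.style.haveILetI false
set_option linter.style.longLine false

open ModularCurve

namespace Fermat.Agent.S36

open Fermat.Agent.S34 Fermat.Agent.S18 Fermat.Agent.S24 Fermat.Agent.S35
  Fermat.Agent.S36.TripleLoc71

local notation "Q̄" => AlgebraicClosure ℚ

section HP3F

variable {R K : Type} [CommRing R] [IsDomain R] [IsDiscreteValuationRing R] [Field K]
  [NumberField K] [Algebra R K] [IsFractionRing R K] [Algebra K Q̄] [Algebra.IsAlgebraic K Q̄]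
  (M' q : ℕ) [NeZero M'] [NeZero q] (hq : q.Prime) (hM' : ¬ q ∣ M')
  {π : R} (hπ : Irreducible π)
  [Algebra R ↥(modularFunctionFieldFullC K M')]
  [IsScalarTower R K ↥(modularFunctionFieldFullC K M')]
  [Algebra R ↥(modularFunctionFieldFullC K (M' * q))]
  [IsScalarTower R K ↥(modularFunctionFieldFullC K (M' * q))]
  [Algebra R ↥(modularFunctionFieldFullC K (M' * q * q))]
  [IsScalarTower R K ↥(modularFunctionFieldFullC K (M' * q * q))]

include hq hM' in
/-- **The `∃ Aal Abe` block at a closed point on two branches**, for a pair of charts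
`(pk15_chart R s₁, pk15_chart R s₂)` of levels `M' q`, `M' q q` with integral chart maps
`fα`, `fβ` and the four chart-level residue lifts `tl3_Lifts`. -/
theorem hp3f73_block (hqR : ¬ IsUnit (q : R))
    (V₂ : ValuationSubring ↥(modularFunctionFieldFullC K (M' * q * q)))
    (hV₂ : ∀ c ∈ cm85_Vinf (K := K) (M' * q) hπ, al97L_alpha K (M' * q) q c ∈ V₂)
    (hπ₂ : (algebraMap K ↥(modularFunctionFieldFullC K (M' * q * q)) (algebraMap R K π))⁻¹ ∉ V₂)
    (hne : cm85_Vinf (K := K) (M' * q * q) hπ ≠ V₂)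
    (hs : V₂.valuation (v2g64_s K M' q) ^ (q - 1) =
      V₂.valuation (algebraMap K ↥(modularFunctionFieldFullC K (M' * q * q)) (algebraMap R K π)))
    (s₁ : Set ↥(modularFunctionFieldFullC K (M' * q)))
    (s₂ : Set ↥(modularFunctionFieldFullC K (M' * q * q)))
    (hL : tl3_Lifts (K := K) M' q hq hM' hπ V₂ s₁ s₂)
    (fα : ↥(pk15_chart R s₁) →+* ↥(pk15_chart R s₂))
    (hfα : ∀ x, ((fα x : ↥(pk15_chart R s₂)) : ↥(modularFunctionFieldFullC K (M' * q * q))) =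
      al97L_alpha K (M' * q) q (x : ↥(modularFunctionFieldFullC K (M' * q))))
    (hfαi : fα.IsIntegral)
    (fβ : ↥(pk15_chart R s₁) →+* ↥(pk15_chart R s₂))
    (hfβ : ∀ x, ((fβ x : ↥(pk15_chart R s₂)) : ↥(modularFunctionFieldFullC K (M' * q * q))) =
      al97L_beta K (M' * q) q (x : ↥(modularFunctionFieldFullC K (M' * q))))
    (hfβi : fβ.IsIntegral)
    (hB'W : ∀ x ∈ pk15_chart R s₁, x ∈ s34i47c_W (K := K) M' q hq hM' hπ)
    (hBW : ∀ x ∈ pk15_chart R s₂, x ∈ (cm85_Vinf (K := K) (M' * q * q) hπ).toSubring ⊓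
      V₂.toSubring ⊓ (nsb86_V3 (K := K) M' q hq hM' hπ).toSubring)
    (m : ℕ) (hm : 0 < m)
    (n : Ideal ↥(pk15_chart R s₂)) (hn : n.IsMaximal)
    (hnot : ¬ cp57_OneBr π (pk15_chart R s₂) (cm85_Vinf (K := K) (M' * q * q) hπ) V₂
      (nsb86_V3 (K := K) M' q hq hM' hπ) n) :
    @hp3c28_Block R _ _ _ _ _ _ K _ _ _ m (pk15_chart R s₂)
      (al97L_alpha K (M' * q) q).toRingHom
      (al97L_beta K (M' * q) q).toRingHom (s35i62_normA K (M' * q) q)
      (s35i62_normB K (M' * q) q) (cm85_Vinf (K := K) (M' * q * q) hπ) V₂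
      (nsb86_V3 (K := K) M' q hq hM' hπ) (cm85_Vinf (K := K) (M' * q) hπ)
      (s34i47c_V0 (K := K) M' q hq hM' hπ) n hn.isPrime := by
  classical
  haveI hnp : n.IsPrime := hn.isPrime
  have e : algebraMap R ↥(modularFunctionFieldFullC K (M' * q * q)) π =
      algebraMap K ↥(modularFunctionFieldFullC K (M' * q * q)) (algebraMap R K π) :=
    IsScalarTower.algebraMap_apply R K _ π
  have hπ₂' : (algebraMap R ↥(modularFunctionFieldFullC K (M' * q * q)) π)⁻¹ ∉ V₂ := by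
    rw [e]
    exact hπ₂
  have hβ₂ : ∀ x ∈ s34i47c_V0 (K := K) M' q hq hM' hπ, al97L_beta K (M' * q) q x ∈ V₂ :=
    vuc1_V2_beta (K := K) M' q hq hM' hπ hqR V₂ hV₂ hπ₂ hs
  have hBV₁ : ∀ x ∈ pk15_chart R s₂, x ∈ cm85_Vinf (K := K) (M' * q * q) hπ := fun x hx =>
    (Subring.mem_inf.mp (Subring.mem_inf.mp (hBW x hx)).1).1
  have hBV₂ : ∀ x ∈ pk15_chart R s₂, x ∈ V₂ := fun x hx =>
    (Subring.mem_inf.mp (Subring.mem_inf.mp (hBW x hx)).1).2
  have hBV₃ : ∀ x ∈ pk15_chart R s₂, x ∈ nsb86_V3 (K := K) M' q hq hM' hπ := fun x hx =>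
    (Subring.mem_inf.mp (hBW x hx)).2
  have hB'Vi : ∀ x ∈ pk15_chart R s₁, x ∈ cm85_Vinf (K := K) (M' * q) hπ := fun x hx =>
    ((s34i47c_mem_W M' q hq hM' hπ x).mp (hB'W x hx)).1
  have hB'V0 : ∀ x ∈ pk15_chart R s₁, x ∈ s34i47c_V0 (K := K) M' q hq hM' hπ := fun x hx =>
    (s34i47c_mem_V0 M' q hq hM' hπ x).mpr ((s34i47c_mem_W M' q hq hM' hπ x).mp (hB'W x hx)).2
  have htwo : (sf79_OnBr π (pk15_chart R s₂) (cm85_Vinf (K := K) (M' * q * q) hπ).toSubring n ∧
        sf79_OnBr π (pk15_chart R s₂) V₂.toSubring n) ∨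
      (sf79_OnBr π (pk15_chart R s₂) (cm85_Vinf (K := K) (M' * q * q) hπ).toSubring n ∧
        sf79_OnBr π (pk15_chart R s₂) (nsb86_V3 (K := K) M' q hq hM' hπ).toSubring n) ∨
      (sf79_OnBr π (pk15_chart R s₂) V₂.toSubring n ∧
        sf79_OnBr π (pk15_chart R s₂) (nsb86_V3 (K := K) M' q hq hM' hπ).toSubring n) := by
    by_contra hcon
    exact hnot ⟨fun h => hcon (Or.inl h), fun h => hcon (Or.inr (Or.inl h)),
      fun h => hcon (Or.inr (Or.inr h))⟩
  obtain ⟨⟨hOn1, hOn2, hOn3⟩, c1, c2, c3, c4, c5, c6, c7, c8, c9, c10, c11⟩ :=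
    tn81_node (K := K) M' q hq hM' hπ hqR s₁ (pk15_chart R s₂) fα hfα hfαi fβ hfβ hfβi
      hB'Vi hB'V0 V₂ hV₂ hβ₂ hπ₂' hBV₁ hBV₂ hBV₃ n htwo m hm
  have hrad := fc73_rad (K := K) M' q hq hM' hπ hqR V₂ hV₂ hπ₂ hne hs
  obtain ⟨o1, o2, o3, o4⟩ :=
    tll3_of_lifts (K := K) M' q hq hM' hπ V₂ s₁ s₂ hL fα hfα fβ hfβ hBV₁ hBV₂ hBV₃
      (hrad 0) (hrad 1) (hrad 2) n hOn1 hOn2 hOn3
  exact ⟨sf79_loc (pk15_chart R s₁) (n.comap fα), sf79_loc (pk15_chart R s₁) (n.comap fβ),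
    c1, c2, c3, o1, o2, c4, c5, c6, o3, o4, c7, c8, c9, c10, c11⟩

include hq hM' in
/-- **(HP-3) for a pair of charts** `(pk15_chart R s₁, pk15_chart R s₂)`: `hp3c28_core` with the
block discharged by `hp3f73_block`. -/
theorem hp3f73_pair (hqR : ¬ IsUnit (q : R))
    (V₂ : ValuationSubring ↥(modularFunctionFieldFullC K (M' * q * q)))
    (hV₂ : ∀ c ∈ cm85_Vinf (K := K) (M' * q) hπ, al97L_alpha K (M' * q) q c ∈ V₂)
    (hπ₂ : (algebraMap K ↥(modularFunctionFieldFullC K (M' * q * q)) (algebraMap R K π))⁻¹ ∉ V₂)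
    (hne : cm85_Vinf (K := K) (M' * q * q) hπ ≠ V₂)
    (hs : V₂.valuation (v2g64_s K M' q) ^ (q - 1) =
      V₂.valuation (algebraMap K ↥(modularFunctionFieldFullC K (M' * q * q)) (algebraMap R K π)))
    (s₁ : Set ↥(modularFunctionFieldFullC K (M' * q)))
    (s₂ : Set ↥(modularFunctionFieldFullC K (M' * q * q))) [IsNoetherianRing ↥(pk15_chart R s₂)]
    (hαB : ∀ x ∈ pk15_chart R s₁, al97L_alpha K (M' * q) q x ∈ pk15_chart R s₂)
    (hβB : ∀ x ∈ pk15_chart R s₁, al97L_beta K (M' * q) q x ∈ pk15_chart R s₂)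
    (hB'W : ∀ x ∈ pk15_chart R s₁, x ∈ s34i47c_W (K := K) M' q hq hM' hπ)
    (hBW : ∀ x ∈ pk15_chart R s₂, x ∈ (cm85_Vinf (K := K) (M' * q * q) hπ).toSubring ⊓
      V₂.toSubring ⊓ (nsb86_V3 (K := K) M' q hq hM' hπ).toSubring)
    (hsatW : ∀ x ∈ pk15_chart R s₂,
      (algebraMap R ↥(modularFunctionFieldFullC K (M' * q * q)) π)⁻¹ * x ∈
        (cm85_Vinf (K := K) (M' * q * q) hπ).toSubring ⊓ V₂.toSubring ⊓
          (nsb86_V3 (K := K) M' q hq hM' hπ).toSubring →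
      (algebraMap R ↥(modularFunctionFieldFullC K (M' * q * q)) π)⁻¹ * x ∈ pk15_chart R s₂)
    (hS₁ : sf79_Smooth π (pk15_chart R s₂) (cm85_Vinf (K := K) (M' * q * q) hπ).toSubring)
    (hS₂ : tl71_MidSmooth π (v2g64_s K M' q) (pk15_chart R s₂) V₂.toSubring)
    (hS₃ : sf79_Smooth π (pk15_chart R s₂) (nsb86_V3 (K := K) M' q hq hM' hπ).toSubring)
    (hfrac : ∀ t : ↥(modularFunctionFieldFullC K (M' * q * q)),
      ∃ a ∈ pk15_chart R s₂, ∃ b ∈ pk15_chart R s₂, b ≠ 0 ∧ t * b = a)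
    (hKr : s34i47_Krull π (pk15_chart R s₂))
    (m : ℕ) (hm : 0 < m)
    (hmB : ∃ μ ∈ pk15_chart R s₂, (m : ↥(modularFunctionFieldFullC K (M' * q * q))) * μ = 1)
    (hfα : ∃ f : ↥(pk15_chart R s₁) →+* ↥(pk15_chart R s₂),
      (∀ x, ((f x : ↥(pk15_chart R s₂)) : ↥(modularFunctionFieldFullC K (M' * q * q))) =
        al97L_alpha K (M' * q) q (x : ↥(modularFunctionFieldFullC K (M' * q)))) ∧ f.IsIntegral)
    (hfβ : ∃ f : ↥(pk15_chart R s₁) →+* ↥(pk15_chart R s₂),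
      (∀ x, ((f x : ↥(pk15_chart R s₂)) : ↥(modularFunctionFieldFullC K (M' * q * q))) =
        al97L_beta K (M' * q) q (x : ↥(modularFunctionFieldFullC K (M' * q)))) ∧ f.IsIntegral)
    (hL : tl3_Lifts (K := K) M' q hq hM' hπ V₂ s₁ s₂)
    (hreg : tf71_RegNodes (K := K) M' q hq hM' hπ (pk15_chart R s₁)) :
    cp57_HP3 (K := K) π q m (pk15_chart R s₂) (al97L_alpha K (M' * q) q).toRingHom
      (al97L_beta K (M' * q) q).toRingHom (s35i62_normA K (M' * q) q)
      (s35i62_normB K (M' * q) q) (cm85_Vinf (K := K) (M' * q * q) hπ) V₂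
      (nsb86_V3 (K := K) M' q hq hM' hπ) (cm85_Vinf (K := K) (M' * q) hπ)
      (s34i47c_V0 (K := K) M' q hq hM' hπ) := by
  obtain ⟨fα, hfα1, hfαi⟩ := hfα
  obtain ⟨fβ, hfβ1, hfβi⟩ := hfβ
  exact hp3c28_core (K := K) M' q hq hM' hπ hqR V₂ hV₂ hπ₂ hne hs s₁ (pk15_chart R s₂)
    hαB hβB hB'W hBW hsatW hS₁ hS₂ hS₃ hfrac hKr m hm hmB fα hfα1 hfαi fβ hfβ1 hfβi hreg
    (fun n hn hπn hnot => hp3f73_block (K := K) M' q hq hM' hπ hqR V₂ hV₂ hπ₂ hne hs s₁ s₂ hL
      fα hfα1 hfαi fβ hfβ1 hfβi hB'W hBW m hm n hn hnot)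

include hq hM' in
/-- **(HP-3) on both charts of a Hauptmodul** `h = α h'` of the canonical frame. -/
theorem hp3f73_charts (hunit : ∀ n : ℕ, Nat.Coprime n q → IsUnit (n : R))
    (hqR : ¬ IsUnit (q : R))
    (V₂ : ValuationSubring ↥(modularFunctionFieldFullC K (M' * q * q)))
    (hV₂ : ∀ c ∈ cm85_Vinf (K := K) (M' * q) hπ, al97L_alpha K (M' * q) q c ∈ V₂)
    (hπ₂ : (algebraMap K ↥(modularFunctionFieldFullC K (M' * q * q)) (algebraMap R K π))⁻¹ ∉ V₂)
    (hne : cm85_Vinf (K := K) (M' * q * q) hπ ≠ V₂)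
    (hs : V₂.valuation (v2g64_s K M' q) ^ (q - 1) =
      V₂.valuation (algebraMap K ↥(modularFunctionFieldFullC K (M' * q * q)) (algebraMap R K π)))
    (h' : ↥(modularFunctionFieldFullC K (M' * q))) (hh' : s34i47c_IsHaupt K (M' * q) q h')
    (h : ↥(modularFunctionFieldFullC K (M' * q * q))) (hαh : al97L_alpha K (M' * q) q h' = h)
    (hC : s34i47_ChartProps K π ((cm85_Vinf (K := K) (M' * q * q) hπ).toSubring ⊓ V₂.toSubring ⊓
      (nsb86_V3 (K := K) M' q hq hM' hπ).toSubring) h)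
    (hsm₁ : (sf79_Smooth π (pk15_chart R ({h} : Set ↥(modularFunctionFieldFullC K (M' * q * q)))) (cm85_Vinf (K := K) (M' * q * q) hπ).toSubring ∧
      tl71_MidSmooth π (v2g64_s K M' q) (pk15_chart R ({h} : Set ↥(modularFunctionFieldFullC K (M' * q * q)))) V₂.toSubring ∧
      sf79_Smooth π (pk15_chart R ({h} : Set ↥(modularFunctionFieldFullC K (M' * q * q)))) (nsb86_V3 (K := K) M' q hq hM' hπ).toSubring))
    (hsm₂ : (sf79_Smooth π (pk15_chart R ({h⁻¹} : Set ↥(modularFunctionFieldFullC K (M' * q * q)))) (cm85_Vinf (K := K) (M' * q * q) hπ).toSubring ∧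
      tl71_MidSmooth π (v2g64_s K M' q) (pk15_chart R ({h⁻¹} : Set ↥(modularFunctionFieldFullC K (M' * q * q)))) V₂.toSubring ∧
      sf79_Smooth π (pk15_chart R ({h⁻¹} : Set ↥(modularFunctionFieldFullC K (M' * q * q)))) (nsb86_V3 (K := K) M' q hq hM' hπ).toSubring))
    (m : ℕ) (hm0 : 0 < m) (hm : IsUnit (m : R))
    (hfα : (∃ f : ↥(pk15_chart R ({h'} : Set ↥(modularFunctionFieldFullC K (M' * q)))) →+*
        ↥(pk15_chart R ({h} : Set ↥(modularFunctionFieldFullC K (M' * q * q)))),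
      (∀ x, ((f x : ↥(pk15_chart R ({h} : Set ↥(modularFunctionFieldFullC K (M' * q * q))))) :
        ↥(modularFunctionFieldFullC K (M' * q * q))) =
        al97L_alpha K (M' * q) q (x : ↥(modularFunctionFieldFullC K (M' * q)))) ∧ f.IsIntegral) ∧
      (∃ f : ↥(pk15_chart R ({h'⁻¹} : Set ↥(modularFunctionFieldFullC K (M' * q)))) →+*
        ↥(pk15_chart R ({h⁻¹} : Set ↥(modularFunctionFieldFullC K (M' * q * q)))),
      (∀ x, ((f x : ↥(pk15_chart R ({h⁻¹} : Set ↥(modularFunctionFieldFullC K (M' * q * q))))) :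
        ↥(modularFunctionFieldFullC K (M' * q * q))) =
        al97L_alpha K (M' * q) q (x : ↥(modularFunctionFieldFullC K (M' * q)))) ∧ f.IsIntegral))
    (hfβ : (∃ f : ↥(pk15_chart R ({h'} : Set ↥(modularFunctionFieldFullC K (M' * q)))) →+*
        ↥(pk15_chart R ({h} : Set ↥(modularFunctionFieldFullC K (M' * q * q)))),
      (∀ x, ((f x : ↥(pk15_chart R ({h} : Set ↥(modularFunctionFieldFullC K (M' * q * q))))) :
        ↥(modularFunctionFieldFullC K (M' * q * q))) =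
        al97L_beta K (M' * q) q (x : ↥(modularFunctionFieldFullC K (M' * q)))) ∧ f.IsIntegral) ∧
      (∃ f : ↥(pk15_chart R ({h'⁻¹} : Set ↥(modularFunctionFieldFullC K (M' * q)))) →+*
        ↥(pk15_chart R ({h⁻¹} : Set ↥(modularFunctionFieldFullC K (M' * q * q)))),
      (∀ x, ((f x : ↥(pk15_chart R ({h⁻¹} : Set ↥(modularFunctionFieldFullC K (M' * q * q))))) :
        ↥(modularFunctionFieldFullC K (M' * q * q))) =
        al97L_beta K (M' * q) q (x : ↥(modularFunctionFieldFullC K (M' * q)))) ∧ f.IsIntegral))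
    (hL : tl3_Lifts (K := K) M' q hq hM' hπ V₂ {h'} {h} ∧
      tl3_Lifts (K := K) M' q hq hM' hπ V₂ {h'⁻¹} {h⁻¹})
    (hreg : tf71_RegNodes (K := K) M' q hq hM' hπ (pk15_chart R ({h'} : Set ↥(modularFunctionFieldFullC K (M' * q)))) ∧
      tf71_RegNodes (K := K) M' q hq hM' hπ (pk15_chart R ({h'⁻¹} : Set ↥(modularFunctionFieldFullC K (M' * q))))) :
    cp57_HP3 (K := K) π q m (pk15_chart R ({h} : Set ↥(modularFunctionFieldFullC K (M' * q * q))))
        (al97L_alpha K (M' * q) q).toRingHom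
        (al97L_beta K (M' * q) q).toRingHom (s35i62_normA K (M' * q) q)
        (s35i62_normB K (M' * q) q) (cm85_Vinf (K := K) (M' * q * q) hπ) V₂
        (nsb86_V3 (K := K) M' q hq hM' hπ) (cm85_Vinf (K := K) (M' * q) hπ)
        (s34i47c_V0 (K := K) M' q hq hM' hπ) ∧
      cp57_HP3 (K := K) π q m (pk15_chart R ({h⁻¹} : Set ↥(modularFunctionFieldFullC K (M' * q * q))))
        (al97L_alpha K (M' * q) q).toRingHom
        (al97L_beta K (M' * q) q).toRingHom (s35i62_normA K (M' * q) q)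
        (s35i62_normB K (M' * q) q) (cm85_Vinf (K := K) (M' * q * q) hπ) V₂
        (nsb86_V3 (K := K) M' q hq hM' hπ) (cm85_Vinf (K := K) (M' * q) hπ)
        (s34i47c_V0 (K := K) M' q hq hM' hπ) := by
  obtain ⟨hα1, hα2⟩ := cm71_alpha_charts (R := R) (K := K) (M' * q) q h'
  obtain ⟨hβ1, hβ2⟩ := cm71_beta_charts (R := R) (K := K) (M' * q) q hq hunit h' hh'
  rw [hαh] at hα1 hα2 hβ1 hβ2
  obtain ⟨⟨hBW₁, -⟩, ⟨hBW₂, -⟩⟩ := nf79c_chart_facts (K := K) M' q hq hM' hπ hunit hqR h' hh'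
  obtain ⟨htr, h12W, hsat1, hsat2, -, hN₁, hN₂, hfin, hfrac⟩ := hC
  have hh0 : h ≠ 0 := by
    rintro rfl
    exact htr isAlgebraic_zero
  have hfrac₂ := ca57_frac_inv (R := R) h hh0 hfrac
  obtain ⟨hKr₁, hKr₂⟩ := kr65_Pkg_Krull R K ↥(modularFunctionFieldFullC K (M' * q * q)) π hπ h htr
    hN₁ hN₂ hfin hfrac
  obtain ⟨μ, hμ⟩ := hm.exists_right_inv
  have hmB : ∀ B : Subalgebra R ↥(modularFunctionFieldFullC K (M' * q * q)),
      ∃ μ' ∈ B, (m : ↥(modularFunctionFieldFullC K (M' * q * q))) * μ' = 1 := by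
    intro B
    refine ⟨algebraMap R ↥(modularFunctionFieldFullC K (M' * q * q)) μ, B.algebraMap_mem μ, ?_⟩
    have e : (m : ↥(modularFunctionFieldFullC K (M' * q * q))) =
        algebraMap R ↥(modularFunctionFieldFullC K (M' * q * q)) (m : R) := by simp
    rw [e, ← map_mul, hμ, map_one]
  have hsub1 : ({h} : Set ↥(modularFunctionFieldFullC K (M' * q * q))) ⊆ {h, h⁻¹} := by
    intro x hx
    rw [Set.mem_singleton_iff.mp hx]
    exact Set.mem_insert _ _
  have hsub2 : ({h⁻¹} : Set ↥(modularFunctionFieldFullC K (M' * q * q))) ⊆ {h, h⁻¹} := by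
    intro x hx
    rw [Set.mem_singleton_iff.mp hx]
    exact Set.mem_insert_of_mem _ rfl
  obtain ⟨a1, a2, a3⟩ := hsm₁
  obtain ⟨b1, b2, b3⟩ := hsm₂
  constructor
  · haveI := hN₁
    exact hp3f73_pair (K := K) M' q hq hM' hπ hqR V₂ hV₂ hπ₂ hne hs {h'} {h} hα1 hβ1 hBW₁
      (fun x hx => h12W x (pk15_chart_mono hsub1 hx)) hsat1 a1 a2 a3 hfrac hKr₁ m hm0 (hmB _)
      hfα.1 hfβ.1 hL.1 hreg.1
  · haveI := hN₂
    exact hp3f73_pair (K := K) M' q hq hM' hπ hqR V₂ hV₂ hπ₂ hne hs {h'⁻¹} {h⁻¹} hα2 hβ2 hBW₂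
      (fun x hx => h12W x (pk15_chart_mono hsub2 hx)) hsat2 b1 b2 b3 hfrac₂ hKr₂ m hm0 (hmB _)
      hfα.2 hfβ.2 hL.2 hreg.2

include hq hM' in
/-- **(HP-3) on the canonical frame, Hauptmodul of level 2**: both affine charts (`V₂` ANY
valuation subring with the four facts of row B1-V2), from (REG-q) on the two charts of level
`M' q` alone. -/
theorem hp3f73_level2 (hunit : ∀ n : ℕ, Nat.Coprime n q → IsUnit (n : R))
    (hqR : ¬ IsUnit (q : R)) (hMu : IsUnit (M' : R)) (h2 : 2 ∣ M')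
    (V₂ : ValuationSubring ↥(modularFunctionFieldFullC K (M' * q * q)))
    (hV₂ : ∀ c ∈ cm85_Vinf (K := K) (M' * q) hπ, al97L_alpha K (M' * q) q c ∈ V₂)
    (hπ₂ : (algebraMap K ↥(modularFunctionFieldFullC K (M' * q * q)) (algebraMap R K π))⁻¹ ∉ V₂)
    (hne : cm85_Vinf (K := K) (M' * q * q) hπ ≠ V₂)
    (hs : V₂.valuation (v2g64_s K M' q) ^ (q - 1) =
      V₂.valuation (algebraMap K ↥(modularFunctionFieldFullC K (M' * q * q)) (algebraMap R K π)))
    (m : ℕ) (hm0 : 0 < m) (hm : IsUnit (m : R))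
    (hreg : tf71_RegNodes (K := K) M' q hq hM' hπ (pk15_chart R ({pk85_h2 K (M' * q) (h2.trans (dvd_mul_right M' q))} : Set ↥(modularFunctionFieldFullC K (M' * q)))) ∧
      tf71_RegNodes (K := K) M' q hq hM' hπ (pk15_chart R ({(pk85_h2 K (M' * q) (h2.trans (dvd_mul_right M' q)))⁻¹} : Set ↥(modularFunctionFieldFullC K (M' * q))))) :
    cp57_HP3 (K := K) π q m (pk15_chart R ({pk85_h2 K (M' * q * q) (h2.trans ((dvd_mul_right M' q).trans (dvd_mul_right (M' * q) q)))} : Set ↥(modularFunctionFieldFullC K (M' * q * q))))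
        (al97L_alpha K (M' * q) q).toRingHom
        (al97L_beta K (M' * q) q).toRingHom (s35i62_normA K (M' * q) q)
        (s35i62_normB K (M' * q) q) (cm85_Vinf (K := K) (M' * q * q) hπ) V₂
        (nsb86_V3 (K := K) M' q hq hM' hπ) (cm85_Vinf (K := K) (M' * q) hπ)
        (s34i47c_V0 (K := K) M' q hq hM' hπ) ∧
      cp57_HP3 (K := K) π q m (pk15_chart R ({(pk85_h2 K (M' * q * q) (h2.trans ((dvd_mul_right M' q).trans (dvd_mul_right (M' * q) q))))⁻¹} : Set ↥(modularFunctionFieldFullC K (M' * q * q))))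
        (al97L_alpha K (M' * q) q).toRingHom
        (al97L_beta K (M' * q) q).toRingHom (s35i62_normA K (M' * q) q)
        (s35i62_normB K (M' * q) q) (cm85_Vinf (K := K) (M' * q * q) hπ) V₂
        (nsb86_V3 (K := K) M' q hq hM' hπ) (cm85_Vinf (K := K) (M' * q) hπ)
        (s34i47c_V0 (K := K) M' q hq hM' hπ) := by
  have hqp : q ≠ 2 := by
    intro h
    apply hM'
    rw [h]
    exact h2
  have hh' : s34i47c_IsHaupt K (M' * q) q (pk85_h2 K (M' * q) (h2.trans (dvd_mul_right M' q))) :=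
    Or.inl ⟨hqp, (h2.trans (dvd_mul_right M' q)), rfl⟩
  have hαh : al97L_alpha K (M' * q) q (pk85_h2 K (M' * q) (h2.trans (dvd_mul_right M' q))) =
      pk85_h2 K (M' * q * q) (h2.trans ((dvd_mul_right M' q).trans (dvd_mul_right (M' * q) q))) :=
    Subtype.ext (by rw [al97L_alpha_coe, pk85_h2_coe, pk85_h2_coe])
  obtain ⟨-, hC, -⟩ := fb85_frameV3_level2 M' q hq hM' hπ hqR hMu h2 V₂ hV₂ hπ₂ hs
  have e : algebraMap R ↥(modularFunctionFieldFullC K (M' * q * q)) π = (algebraMap K ↥(modularFunctionFieldFullC K (M' * q * q)) (algebraMap R K π)) :=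
    IsScalarTower.algebraMap_apply R K _ π
  have hπ₂' : (algebraMap R ↥(modularFunctionFieldFullC K (M' * q * q)) π)⁻¹ ∉ V₂ := by
    rw [e]
    exact hπ₂
  have hs' : V₂.valuation (v2g64_s K M' q) ^ (q - 1) =
      V₂.valuation (algebraMap R ↥(modularFunctionFieldFullC K (M' * q * q)) π) := by
    rw [e]
    exact hs
  obtain ⟨hsm₁, hsm₂⟩ := sm7_three_smooth_sq_level2 (R := R) (K := K) M' q hq hM'
    hπ hqR h2 hMu V₂ hV₂ hπ₂' hne (v2g64_s K M' q) hs'
  have hcopn : Nat.Coprime 2 q :=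
    (Nat.coprime_primes (by norm_num) hq).mpr (Ne.symm hqp)
  have hnR : IsUnit ((2 : ℕ) : R) := hunit 2 hcopn
  have hnR' : IsUnit (2 : R) := by
    have e2 : ((2 : ℕ) : R) = (2 : R) := by norm_num
    rw [← e2]
    exact hnR
  have hfα := bc95_alpha (R := R) (K := K) (M' * q) q (pk85_h2 K (M' * q) (h2.trans (dvd_mul_right M' q))) (pk85_h2 K (M' * q * q) (h2.trans ((dvd_mul_right M' q).trans (dvd_mul_right (M' * q) q)))) hαh
  have hfβ := bc95_beta_level2 (R := R) (K := K) (M' * q) q hq hqp hnR'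
    (h2.trans (dvd_mul_right M' q)) (pk85_h2 K (M' * q) (h2.trans (dvd_mul_right M' q))) (pk85_h2 K (M' * q * q) (h2.trans ((dvd_mul_right M' q).trans (dvd_mul_right (M' * q) q))))
    (pk85_h2_coe K (M' * q) _) (pk85_h2_coe K (M' * q * q) _)
  have hL := tl3_lifts_level2 (K := K) M' q hq hM' hπ hqR hunit h2 V₂ hV₂ hπ₂ hne hs
  exact hp3f73_charts (K := K) M' q hq hM' hπ hunit hqR V₂ hV₂ hπ₂ hne hs _ hh' _ hαh hC
    hsm₁ hsm₂ m hm0 hm hfα hfβ hL hreg

include hq hM' in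
/-- **(HP-3) on the canonical frame, Hauptmodul of level 3**: both affine charts (`V₂` ANY
valuation subring with the four facts of row B1-V2), from (REG-q) on the two charts of level
`M' q` alone. -/
theorem hp3f73_level3 (hunit : ∀ n : ℕ, Nat.Coprime n q → IsUnit (n : R))
    (hqR : ¬ IsUnit (q : R)) (hMu : IsUnit (M' : R)) (h3 : 3 ∣ M')
    (V₂ : ValuationSubring ↥(modularFunctionFieldFullC K (M' * q * q)))
    (hV₂ : ∀ c ∈ cm85_Vinf (K := K) (M' * q) hπ, al97L_alpha K (M' * q) q c ∈ V₂)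
    (hπ₂ : (algebraMap K ↥(modularFunctionFieldFullC K (M' * q * q)) (algebraMap R K π))⁻¹ ∉ V₂)
    (hne : cm85_Vinf (K := K) (M' * q * q) hπ ≠ V₂)
    (hs : V₂.valuation (v2g64_s K M' q) ^ (q - 1) =
      V₂.valuation (algebraMap K ↥(modularFunctionFieldFullC K (M' * q * q)) (algebraMap R K π)))
    (m : ℕ) (hm0 : 0 < m) (hm : IsUnit (m : R))
    (hreg : tf71_RegNodes (K := K) M' q hq hM' hπ (pk15_chart R ({pk85_h3 K (M' * q) (h3.trans (dvd_mul_right M' q))} : Set ↥(modularFunctionFieldFullC K (M' * q)))) ∧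
      tf71_RegNodes (K := K) M' q hq hM' hπ (pk15_chart R ({(pk85_h3 K (M' * q) (h3.trans (dvd_mul_right M' q)))⁻¹} : Set ↥(modularFunctionFieldFullC K (M' * q))))) :
    cp57_HP3 (K := K) π q m (pk15_chart R ({pk85_h3 K (M' * q * q) (h3.trans ((dvd_mul_right M' q).trans (dvd_mul_right (M' * q) q)))} : Set ↥(modularFunctionFieldFullC K (M' * q * q))))
        (al97L_alpha K (M' * q) q).toRingHom
        (al97L_beta K (M' * q) q).toRingHom (s35i62_normA K (M' * q) q)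
        (s35i62_normB K (M' * q) q) (cm85_Vinf (K := K) (M' * q * q) hπ) V₂
        (nsb86_V3 (K := K) M' q hq hM' hπ) (cm85_Vinf (K := K) (M' * q) hπ)
        (s34i47c_V0 (K := K) M' q hq hM' hπ) ∧
      cp57_HP3 (K := K) π q m (pk15_chart R ({(pk85_h3 K (M' * q * q) (h3.trans ((dvd_mul_right M' q).trans (dvd_mul_right (M' * q) q))))⁻¹} : Set ↥(modularFunctionFieldFullC K (M' * q * q))))
        (al97L_alpha K (M' * q) q).toRingHom
        (al97L_beta K (M' * q) q).toRingHom (s35i62_normA K (M' * q) q)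
        (s35i62_normB K (M' * q) q) (cm85_Vinf (K := K) (M' * q * q) hπ) V₂
        (nsb86_V3 (K := K) M' q hq hM' hπ) (cm85_Vinf (K := K) (M' * q) hπ)
        (s34i47c_V0 (K := K) M' q hq hM' hπ) := by
  have hqp : q ≠ 3 := by
    intro h
    apply hM'
    rw [h]
    exact h3
  have hh' : s34i47c_IsHaupt K (M' * q) q (pk85_h3 K (M' * q) (h3.trans (dvd_mul_right M' q))) :=
    Or.inr ⟨hqp, (h3.trans (dvd_mul_right M' q)), rfl⟩
  have hαh : al97L_alpha K (M' * q) q (pk85_h3 K (M' * q) (h3.trans (dvd_mul_right M' q))) =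
      pk85_h3 K (M' * q * q) (h3.trans ((dvd_mul_right M' q).trans (dvd_mul_right (M' * q) q))) :=
    Subtype.ext (by rw [al97L_alpha_coe, pk85_h3_coe, pk85_h3_coe])
  obtain ⟨-, hC, -⟩ := fb85_frameV3_level3 M' q hq hM' hπ hqR hMu h3 V₂ hV₂ hπ₂ hs
  have e : algebraMap R ↥(modularFunctionFieldFullC K (M' * q * q)) π = (algebraMap K ↥(modularFunctionFieldFullC K (M' * q * q)) (algebraMap R K π)) :=
    IsScalarTower.algebraMap_apply R K _ π
  have hπ₂' : (algebraMap R ↥(modularFunctionFieldFullC K (M' * q * q)) π)⁻¹ ∉ V₂ := by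
    rw [e]
    exact hπ₂
  have hs' : V₂.valuation (v2g64_s K M' q) ^ (q - 1) =
      V₂.valuation (algebraMap R ↥(modularFunctionFieldFullC K (M' * q * q)) π) := by
    rw [e]
    exact hs
  obtain ⟨hsm₁, hsm₂⟩ := sm7_three_smooth_sq_level3 (R := R) (K := K) M' q hq hM'
    hπ hqR h3 hMu V₂ hV₂ hπ₂' hne (v2g64_s K M' q) hs'
  have hcopn : Nat.Coprime 3 q :=
    (Nat.coprime_primes (by norm_num) hq).mpr (Ne.symm hqp)
  have hnR : IsUnit ((3 : ℕ) : R) := hunit 3 hcopn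
  have hnR' : IsUnit (3 : R) := by
    have e2 : ((3 : ℕ) : R) = (3 : R) := by norm_num
    rw [← e2]
    exact hnR
  have hfα := bc95_alpha (R := R) (K := K) (M' * q) q (pk85_h3 K (M' * q) (h3.trans (dvd_mul_right M' q))) (pk85_h3 K (M' * q * q) (h3.trans ((dvd_mul_right M' q).trans (dvd_mul_right (M' * q) q)))) hαh
  have hfβ := bc95_beta_level3 (R := R) (K := K) (M' * q) q hq hqp hnR'
    (h3.trans (dvd_mul_right M' q)) (pk85_h3 K (M' * q) (h3.trans (dvd_mul_right M' q))) (pk85_h3 K (M' * q * q) (h3.trans ((dvd_mul_right M' q).trans (dvd_mul_right (M' * q) q))))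
    (pk85_h3_coe K (M' * q) _) (pk85_h3_coe K (M' * q * q) _)
  have hL := tl3_lifts_level3 (K := K) M' q hq hM' hπ hqR hunit h3 V₂ hV₂ hπ₂ hne hs
  exact hp3f73_charts (K := K) M' q hq hM' hπ hunit hqR V₂ hV₂ hπ₂ hne hs _ hh' _ hαh hC
    hsm₁ hsm₂ m hm0 hm hfα hfβ hL hreg

end HP3F

/-- `r ∣ M' * q`, `r ≠ q` primes ⟹ `r ∣ M'`. -/
theorem hp3f73_dvd {M' q r : ℕ} (hq : q.Prime) (hr : r.Prime) (hrq : r ≠ q)
    (hrN : r ∣ M' * q) : r ∣ M' :=
  (Nat.Coprime.dvd_mul_right ((Nat.coprime_primes hr hq).mpr hrq)).mp hrN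

/-- **(HP-3), canonical, Hauptmodul of level 2: PROVED** (the statement `s36i62g_HP3c2` of
`HPSplit62`). -/
theorem hp3f73_HP3c2 : s36i62g_HP3c2 := by
  intro M' q p r _ _ hq hM' hrig hp hpq h2 n R K _ _ _ _ _ _ _ _ _ _ hπ hunit
  haveI : Algebra.IsAlgebraic K Q̄ := fs85_isAlgebraic K
  letI a0 : Algebra R ↥(modularFunctionFieldFullC K M') :=
    ((algebraMap K ↥(modularFunctionFieldFullC K M')).comp (algebraMap R K)).toAlgebra
  haveI t0 : IsScalarTower R K ↥(modularFunctionFieldFullC K M') :=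
    IsScalarTower.of_algebraMap_eq (fun _ => rfl)
  letI a1 : Algebra R ↥(modularFunctionFieldFullC K (M' * q)) :=
    ((algebraMap K ↥(modularFunctionFieldFullC K (M' * q))).comp (algebraMap R K)).toAlgebra
  haveI t1 : IsScalarTower R K ↥(modularFunctionFieldFullC K (M' * q)) :=
    IsScalarTower.of_algebraMap_eq (fun _ => rfl)
  have hqR : ¬ IsUnit ((q : ℕ) : R) := hπ.not_isUnit
  have hMu : IsUnit ((M' : ℕ) : R) :=
    hunit M' (Nat.Coprime.symm ((Nat.Prime.coprime_iff_not_dvd hq).mpr hM'))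
  have hcop : Nat.Coprime (p ^ n) q :=
    Nat.Coprime.pow_left n ((Nat.coprime_primes hp hq).mpr hpq)
  obtain ⟨-, -, hr, hr12, hrq, hrN⟩ := hrig
  have hrM : r ∣ M' := hp3f73_dvd hq hr hrq hrN
  have hq2 : q ≠ 2 := by
    intro h
    apply hM'
    rw [h]
    exact h2
  have hreg := nrg68_regNodes_level2 (K := K) M' q hq hM' hπ hunit hqR rfl
    (rg20_nuThree_eq_zero hr hr12 hrM) (rg20_nuTwo_eq_zero hr hr12 hrM) h2 hq2
  exact hp3f73_level2 (K := K) M' q hq hM' hπ hunit hqR hMu h2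
    (v2g64_V2 (algebraMap K Q̄) M' q hq hM' hπ (Associated.refl _))
    (v2g64_V2_alpha (algebraMap K Q̄) M' q hq hM' hπ (Associated.refl _))
    (v2g64_V2_pi (algebraMap K Q̄) M' q hq hM' hπ (Associated.refl _))
    (v2g64_V2_ne (algebraMap K Q̄) M' q hq hM' hπ (Associated.refl _))
    (v2g64_V2_val (algebraMap K Q̄) M' q hq hM' hπ (Associated.refl _))
    (p ^ n) (pow_pos hp.pos n) (hunit (p ^ n) hcop) hreg

/-- **(HP-3), canonical, Hauptmodul of level 3 (`q = 2`): PROVED** (the statement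
`s36i62g_HP3c3` of `HPSplit62`). -/
theorem hp3f73_HP3c3 : s36i62g_HP3c3 := by
  intro M' q p r _ _ hq hM' hrig hp hpq hq2 h3 n R K _ _ _ _ _ _ _ _ _ _ hπ hunit
  haveI : Algebra.IsAlgebraic K Q̄ := fs85_isAlgebraic K
  letI a0 : Algebra R ↥(modularFunctionFieldFullC K M') :=
    ((algebraMap K ↥(modularFunctionFieldFullC K M')).comp (algebraMap R K)).toAlgebra
  haveI t0 : IsScalarTower R K ↥(modularFunctionFieldFullC K M') :=
    IsScalarTower.of_algebraMap_eq (fun _ => rfl)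
  letI a1 : Algebra R ↥(modularFunctionFieldFullC K (M' * q)) :=
    ((algebraMap K ↥(modularFunctionFieldFullC K (M' * q))).comp (algebraMap R K)).toAlgebra
  haveI t1 : IsScalarTower R K ↥(modularFunctionFieldFullC K (M' * q)) :=
    IsScalarTower.of_algebraMap_eq (fun _ => rfl)
  have hqR : ¬ IsUnit ((q : ℕ) : R) := hπ.not_isUnit
  have hMu : IsUnit ((M' : ℕ) : R) :=
    hunit M' (Nat.Coprime.symm ((Nat.Prime.coprime_iff_not_dvd hq).mpr hM'))
  have hcop : Nat.Coprime (p ^ n) q :=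
    Nat.Coprime.pow_left n ((Nat.coprime_primes hp hq).mpr hpq)
  obtain ⟨-, -, hr, hr12, hrq, hrN⟩ := hrig
  have hrM : r ∣ M' := hp3f73_dvd hq hr hrq hrN
  have hq3 : q ≠ 3 := by
    intro h
    apply hM'
    rw [h]
    exact h3
  have hreg := nrg68_regNodes_level3 (K := K) M' q hq hM' hπ hunit hqR rfl
    (rg20_nuThree_eq_zero hr hr12 hrM) (rg20_nuTwo_eq_zero hr hr12 hrM) h3 hq3
  exact hp3f73_level3 (K := K) M' q hq hM' hπ hunit hqR hMu h3
    (v2g64_V2 (algebraMap K Q̄) M' q hq hM' hπ (Associated.refl _))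
    (v2g64_V2_alpha (algebraMap K Q̄) M' q hq hM' hπ (Associated.refl _))
    (v2g64_V2_pi (algebraMap K Q̄) M' q hq hM' hπ (Associated.refl _))
    (v2g64_V2_ne (algebraMap K Q̄) M' q hq hM' hπ (Associated.refl _))
    (v2g64_V2_val (algebraMap K Q̄) M' q hq hM' hπ (Associated.refl _))
    (p ^ n) (pow_pos hp.pos n) (hunit (p ^ n) hcop) hreg

end Fermat.Agent.S36
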