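import Fermat.Agent.S36.HPThree77
import Fermat.Agent.S36.NormGcd94
import Fermat.Agent.S36.FrameDatum85
import Fermat.Agent.S36.ValUnitCanon1
import Fermat.Agent.S36.ChartFacts54

/-!
# S36 lab (helper94): (HP-3) on the canonical frame with every GLOBAL hypothesis discharged

`hp3x77_HP3` (helper77) proves `cp57_HP3` from global frame facts and one per-point Prop
`hp3x77_TripleData`.  On the canonical frame of level `M' q q`
(`V₁ = cm85_Vinf (M' * q * q) hπ`, `V₂` ANY valuation subring with the facts `hV₂ hπ₂ hs` of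
`cf57_IsMid`, `V₃ = nsb86_V3`, `Vinf = cm85_Vinf (M' * q) hπ`, `V0 = s34i47c_V0`,
`al/be = (al97L_alpha/beta K (M' * q) q).toRingHom`, `Nal/Nbe = s35i62_normA/B K (M' * q) q`,
`π = q`) all the global facts hold:

* `hp3g94_ne`     : `V₁ ≠ V₂` (from `hs`, `hπ₂` and `vuc1_s_unit`);
* `hp3g94_of_TP`  : for ANY chart `B` with `hmB`, `B ⊆ V₁, V₂, V₃`, `hFrac`:
  `(∀ n maximal ∋ π, ¬ cp57_OneBr … n → hp3x77_TripleData …) → cp57_HP3 …`;
* `hp3g94_level2`, `hp3g94_level3` : the same on BOTH canonical charts of `pk85_h2` / `pk85_h3`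
  (chart facts from `cf54_level2/3`), conclusion literally the two `cp57_HP3` conjuncts of
  `cf57_Six`.

So the canonical (HP-3) is reduced to the per-point triple data.  Names prefixed `hp3g94_`.
-/

set_option autoImplicit false
set_option linter.style.haveILetI false
set_option linter.unusedSectionVars false
set_option linter.unusedVariables false
set_option linter.style.longLine false

open ModularCurve AlgebraicCurve IntermediateField
open Fermat.Agent.S24 Fermat.Agent.S28 Fermat.Agent.S18 Fermat.Agent.S37 Fermat.Agent.S34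
open Fermat.Agent.S42 Fermat.Agent.S35

namespace Fermat.Agent.S36

local notation "Q̄" => AlgebraicClosure ℚ

/-- `V₁ ≠ V₂` from the three frame facts of `V₂`. -/
theorem hp3g94_ne (M' q : ℕ) [NeZero M'] [NeZero q] (hq : q.Prime)
    (R K : Type) [CommRing R] [IsDomain R] [IsDiscreteValuationRing R] [Field K]
    [CharZero K] [Algebra K Q̄] [Algebra R K] [IsFractionRing R K]
    {π : R} (hπ : Irreducible π)
    (V₂ : ValuationSubring ↥(modularFunctionFieldFullC K (M' * q * q)))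
    (hπ₂ : (algebraMap K ↥(modularFunctionFieldFullC K (M' * q * q)) (algebraMap R K π))⁻¹ ∉ V₂)
    (hs : V₂.valuation (v2g64_s K M' q) ^ (q - 1) =
      V₂.valuation (algebraMap K ↥(modularFunctionFieldFullC K (M' * q * q)) (algebraMap R K π))) :
    cm85_Vinf (K := K) (M' * q * q) hπ ≠ V₂ := by
  intro h
  have h1 : V₂.valuation (v2g64_s K M' q) = 1 := by
    rw [← h]
    exact vuc1_s_unit (K := K) M' q hq hπ
  rw [h1, one_pow] at hs
  have h2 := ab66_val_pi_lt_one V₂ _ hπ₂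
  rw [← hs] at h2
  exact lt_irrefl _ h2

/-- **(HP-3) on the canonical frame from the per-point triple data alone.** -/
theorem hp3g94_of_TP (M' q m : ℕ) [NeZero M'] [NeZero q] (hq : q.Prime) (hM' : ¬ q ∣ M')
    (R K : Type) [CommRing R] [IsDomain R] [IsDiscreteValuationRing R] [Field K]
    [NumberField K] [Algebra K Q̄] [Algebra R K] [IsFractionRing R K]
    [Algebra R ↥(modularFunctionFieldFullC K (M' * q * q))]
    [IsScalarTower R K ↥(modularFunctionFieldFullC K (M' * q * q))]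
    (hπ : Irreducible ((q : ℕ) : R))
    (V₂ : ValuationSubring ↥(modularFunctionFieldFullC K (M' * q * q)))
    (hV₂ : ∀ c ∈ cm85_Vinf (K := K) (M' * q) hπ, al97L_alpha K (M' * q) q c ∈ V₂)
    (hπ₂ : (algebraMap K ↥(modularFunctionFieldFullC K (M' * q * q))
      (algebraMap R K ((q : ℕ) : R)))⁻¹ ∉ V₂)
    (hs : V₂.valuation (v2g64_s K M' q) ^ (q - 1) =
      V₂.valuation (algebraMap K ↥(modularFunctionFieldFullC K (M' * q * q))
        (algebraMap R K ((q : ℕ) : R))))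
    (hm0 : 0 < m)
    (B : Subalgebra R ↥(modularFunctionFieldFullC K (M' * q * q)))
    (hmB : ∃ μ ∈ B, (m : ↥(modularFunctionFieldFullC K (M' * q * q))) * μ = 1)
    (hBV1 : ∀ x ∈ B, x ∈ cm85_Vinf (K := K) (M' * q * q) hπ)
    (hBV2 : ∀ x ∈ B, x ∈ V₂)
    (hBV3 : ∀ x ∈ B, x ∈ nsb86_V3 (K := K) M' q hq hM' hπ)
    (hFrac : ∀ x : ↥(modularFunctionFieldFullC K (M' * q * q)),
      ∃ a ∈ B, ∃ b ∈ B, b ≠ 0 ∧ x * b = a)
    (hTP : ∀ (n : Ideal B) (hn : n.IsMaximal), algebraMap R B ((q : ℕ) : R) ∈ n →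
      ¬ cp57_OneBr ((q : ℕ) : R) B (cm85_Vinf (K := K) (M' * q * q) hπ) V₂
        (nsb86_V3 (K := K) M' q hq hM' hπ) n →
      @hp3x77_TripleData R ↥(modularFunctionFieldFullC K (M' * q))
        ↥(modularFunctionFieldFullC K (M' * q * q)) _ _ _ _ K _ _ _ ((q : ℕ) : R) m B
        (al97L_alpha K (M' * q) q).toRingHom (al97L_beta K (M' * q) q).toRingHom
        (s35i62_normA K (M' * q) q) (s35i62_normB K (M' * q) q)
        (cm85_Vinf (K := K) (M' * q * q) hπ) V₂ (nsb86_V3 (K := K) M' q hq hM' hπ)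
        (cm85_Vinf (K := K) (M' * q) hπ) (s34i47c_V0 (K := K) M' q hq hM' hπ) n hn.isPrime) :
    cp57_HP3 (K := K) ((q : ℕ) : R) q m B
      (al97L_alpha K (M' * q) q).toRingHom (al97L_beta K (M' * q) q).toRingHom
      (s35i62_normA K (M' * q) q) (s35i62_normB K (M' * q) q)
      (cm85_Vinf (K := K) (M' * q * q) hπ) V₂ (nsb86_V3 (K := K) M' q hq hM' hπ)
      (cm85_Vinf (K := K) (M' * q) hπ) (s34i47c_V0 (K := K) M' q hq hM' hπ) := by
  have hqR : ¬ IsUnit ((q : ℕ) : R) := hπ.not_isUnit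
  have hne := hp3g94_ne M' q hq R K hπ V₂ hπ₂ hs
  have e : algebraMap R ↥(modularFunctionFieldFullC K (M' * q * q)) ((q : ℕ) : R) =
      algebraMap K ↥(modularFunctionFieldFullC K (M' * q * q)) (algebraMap R K ((q : ℕ) : R)) :=
    IsScalarTower.algebraMap_apply R K _ _
  have hπ1 := ab66_pi_V1 (K := K) M' q hπ
  have hπ3 := vuc1_V3_pi (K := K) M' q hq hM' hπ
  obtain ⟨hr1, ha1⟩ := fd85_over_inf (K := K) M' q hq hπ (cm85_Vinf (K := K) (M' * q * q) hπ)
    (fun c hc => (al97V_alpha_mem_Vinf (M' * q) q hπ c).mpr hc) hπ1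
  obtain ⟨hr2, ha2⟩ := fd85_over_inf (K := K) M' q hq hπ V₂ hV₂ hπ₂
  obtain ⟨hr3, ha3⟩ := fd85_over_zero (K := K) M' q hq hM' hπ (nsb86_V3 (K := K) M' q hq hM' hπ)
    (fun c hc => vuc1_V3_alpha (K := K) M' q hq hM' hπ c hc) hπ3
  refine hp3x77_HP3 (K := K) ((q : ℕ) : R) q m hm0 B _ _ _ _ _ _ _ _ _ hmB hBV1 hBV2 hBV3
    (by rw [e]; exact hπ1) (by rw [e]; exact hπ₂) (by rw [e]; exact hπ3)
    (by rw [e]; exact fun x _ hx' => hr1 x hx') (by rw [e]; exact fun x _ hx' => hr2 x hx')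
    (by rw [e]; exact fun x _ hx' => hr3 x hx')
    (by rw [e]; exact fun x _ hx0 => ha1 x hx0) (by rw [e]; exact fun x _ hx0 => ha2 x hx0)
    (by rw [e]; exact fun x _ hx0 => ha3 x hx0)
    hFrac ?_ ?_ ?_ ?_ ?_ ?_ ?_ ?_ hTP
  · intro r
    exact ((al97L_alpha K (M' * q) q).commutes (algebraMap R K r)).trans
      (IsScalarTower.algebraMap_apply R K _ r).symm
  · intro r
    exact ((al97L_beta K (M' * q) q).commutes (algebraMap R K r)).trans
      (IsScalarTower.algebraMap_apply R K _ r).symm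
  · exact fun x hx => ng94_hal3 (K := K) M' q hq hM' hπ x hx
  · exact fun x hx => ng94_hbe1 (K := K) M' q hπ x hx
  · exact fun c h1 h2 _ => ng94_N1 (K := K) M' q hq hπ V₂ hV₂ hπ₂ hne _ hs c h1.1 h2.1
  · exact fun c _ _ h3 => ng94_N2 (K := K) M' q hq hM' hπ hqR c h3.1
  · exact fun c _ h2 h3 => ng94_N4 (K := K) M' q hq hM' hπ hqR V₂ hV₂ hπ₂ hne _ hs c h3.1 h2.1
  · exact fun c h1 _ _ => ng94_N3 (K := K) M' q hq hM' hπ hqR c h1.1

/-- The same from the chart-facts bundle `cf54_Facts` (helper54) and `IsUnit (m : R)`. -/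
theorem hp3g94_of_facts (M' q m : ℕ) [NeZero M'] [NeZero q] (hq : q.Prime) (hM' : ¬ q ∣ M')
    (R K : Type) [CommRing R] [IsDomain R] [IsDiscreteValuationRing R] [Field K]
    [NumberField K] [Algebra K Q̄] [Algebra R K] [IsFractionRing R K]
    [Algebra R ↥(modularFunctionFieldFullC K (M' * q * q))]
    [IsScalarTower R K ↥(modularFunctionFieldFullC K (M' * q * q))]
    (hπ : Irreducible ((q : ℕ) : R))
    (V₂ : ValuationSubring ↥(modularFunctionFieldFullC K (M' * q * q)))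
    (hV₂ : ∀ c ∈ cm85_Vinf (K := K) (M' * q) hπ, al97L_alpha K (M' * q) q c ∈ V₂)
    (hπ₂ : (algebraMap K ↥(modularFunctionFieldFullC K (M' * q * q))
      (algebraMap R K ((q : ℕ) : R)))⁻¹ ∉ V₂)
    (hs : V₂.valuation (v2g64_s K M' q) ^ (q - 1) =
      V₂.valuation (algebraMap K ↥(modularFunctionFieldFullC K (M' * q * q))
        (algebraMap R K ((q : ℕ) : R))))
    (hm0 : 0 < m) (hmu : IsUnit ((m : ℕ) : R))
    (B : Subalgebra R ↥(modularFunctionFieldFullC K (M' * q * q)))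
    (hB : cf54_Facts ((q : ℕ) : R) B (cm85_Vinf (K := K) (M' * q * q) hπ) V₂
      (nsb86_V3 (K := K) M' q hq hM' hπ))
    (hTP : ∀ (n : Ideal B) (hn : n.IsMaximal), algebraMap R B ((q : ℕ) : R) ∈ n →
      ¬ cp57_OneBr ((q : ℕ) : R) B (cm85_Vinf (K := K) (M' * q * q) hπ) V₂
        (nsb86_V3 (K := K) M' q hq hM' hπ) n →
      @hp3x77_TripleData R ↥(modularFunctionFieldFullC K (M' * q))
        ↥(modularFunctionFieldFullC K (M' * q * q)) _ _ _ _ K _ _ _ ((q : ℕ) : R) m B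
        (al97L_alpha K (M' * q) q).toRingHom (al97L_beta K (M' * q) q).toRingHom
        (s35i62_normA K (M' * q) q) (s35i62_normB K (M' * q) q)
        (cm85_Vinf (K := K) (M' * q * q) hπ) V₂ (nsb86_V3 (K := K) M' q hq hM' hπ)
        (cm85_Vinf (K := K) (M' * q) hπ) (s34i47c_V0 (K := K) M' q hq hM' hπ) n hn.isPrime) :
    cp57_HP3 (K := K) ((q : ℕ) : R) q m B
      (al97L_alpha K (M' * q) q).toRingHom (al97L_beta K (M' * q) q).toRingHom
      (s35i62_normA K (M' * q) q) (s35i62_normB K (M' * q) q)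
      (cm85_Vinf (K := K) (M' * q * q) hπ) V₂ (nsb86_V3 (K := K) M' q hq hM' hπ)
      (cm85_Vinf (K := K) (M' * q) hπ) (s34i47c_V0 (K := K) M' q hq hM' hπ) := by
  obtain ⟨-, hBV1, hBV2, hBV3, -, -, hFrac, hmB⟩ := hB
  exact hp3g94_of_TP M' q m hq hM' R K hπ V₂ hV₂ hπ₂ hs hm0 B (hmB m hmu) hBV1 hBV2 hBV3 hFrac hTP

/-- **(HP-3) on BOTH canonical charts of `pk85_h2`** (`2 ∣ M'`) from the per-point triple data:
literally the two `cp57_HP3` conjuncts of `cf57_Six` for `h = pk85_h2 K (M' * q * q) _`. -/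
theorem hp3g94_level2 (M' q m : ℕ) [NeZero M'] [NeZero q] (hq : q.Prime) (hM' : ¬ q ∣ M')
    (R K : Type) [CommRing R] [IsDomain R] [IsDiscreteValuationRing R] [Field K]
    [NumberField K] [Algebra K Q̄] [Algebra R K] [IsFractionRing R K]
    [Algebra R ↥(modularFunctionFieldFullC K (M' * q * q))]
    [IsScalarTower R K ↥(modularFunctionFieldFullC K (M' * q * q))]
    (hπ : Irreducible ((q : ℕ) : R)) (hMu : IsUnit ((M' : ℕ) : R)) (h2 : 2 ∣ M')
    (V₂ : ValuationSubring ↥(modularFunctionFieldFullC K (M' * q * q)))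
    (hV₂ : ∀ c ∈ cm85_Vinf (K := K) (M' * q) hπ, al97L_alpha K (M' * q) q c ∈ V₂)
    (hπ₂ : (algebraMap K ↥(modularFunctionFieldFullC K (M' * q * q))
      (algebraMap R K ((q : ℕ) : R)))⁻¹ ∉ V₂)
    (hs : V₂.valuation (v2g64_s K M' q) ^ (q - 1) =
      V₂.valuation (algebraMap K ↥(modularFunctionFieldFullC K (M' * q * q))
        (algebraMap R K ((q : ℕ) : R))))
    (hm0 : 0 < m) (hmu : IsUnit ((m : ℕ) : R))
    (hTP : ∀ (n : Ideal (pk15_chart R ({pk85_h2 K (M' * q * q)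
          (h2.trans ((dvd_mul_right M' q).trans (dvd_mul_right (M' * q) q)))} :
            Set ↥(modularFunctionFieldFullC K (M' * q * q))))) (hn : n.IsMaximal),
      algebraMap R _ ((q : ℕ) : R) ∈ n →
      ¬ cp57_OneBr ((q : ℕ) : R) _ (cm85_Vinf (K := K) (M' * q * q) hπ) V₂
        (nsb86_V3 (K := K) M' q hq hM' hπ) n →
      @hp3x77_TripleData R ↥(modularFunctionFieldFullC K (M' * q))
        ↥(modularFunctionFieldFullC K (M' * q * q)) _ _ _ _ K _ _ _ ((q : ℕ) : R) m _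
        (al97L_alpha K (M' * q) q).toRingHom (al97L_beta K (M' * q) q).toRingHom
        (s35i62_normA K (M' * q) q) (s35i62_normB K (M' * q) q)
        (cm85_Vinf (K := K) (M' * q * q) hπ) V₂ (nsb86_V3 (K := K) M' q hq hM' hπ)
        (cm85_Vinf (K := K) (M' * q) hπ) (s34i47c_V0 (K := K) M' q hq hM' hπ) n hn.isPrime)
    (hTP' : ∀ (n : Ideal (pk15_chart R ({(pk85_h2 K (M' * q * q)
          (h2.trans ((dvd_mul_right M' q).trans (dvd_mul_right (M' * q) q))))⁻¹} :
            Set ↥(modularFunctionFieldFullC K (M' * q * q))))) (hn : n.IsMaximal),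
      algebraMap R _ ((q : ℕ) : R) ∈ n →
      ¬ cp57_OneBr ((q : ℕ) : R) _ (cm85_Vinf (K := K) (M' * q * q) hπ) V₂
        (nsb86_V3 (K := K) M' q hq hM' hπ) n →
      @hp3x77_TripleData R ↥(modularFunctionFieldFullC K (M' * q))
        ↥(modularFunctionFieldFullC K (M' * q * q)) _ _ _ _ K _ _ _ ((q : ℕ) : R) m _
        (al97L_alpha K (M' * q) q).toRingHom (al97L_beta K (M' * q) q).toRingHom
        (s35i62_normA K (M' * q) q) (s35i62_normB K (M' * q) q)
        (cm85_Vinf (K := K) (M' * q * q) hπ) V₂ (nsb86_V3 (K := K) M' q hq hM' hπ)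
        (cm85_Vinf (K := K) (M' * q) hπ) (s34i47c_V0 (K := K) M' q hq hM' hπ) n hn.isPrime) :
    cp57_HP3 (K := K) ((q : ℕ) : R) q m
        (pk15_chart R ({pk85_h2 K (M' * q * q)
          (h2.trans ((dvd_mul_right M' q).trans (dvd_mul_right (M' * q) q)))} :
            Set ↥(modularFunctionFieldFullC K (M' * q * q))))
        (al97L_alpha K (M' * q) q).toRingHom (al97L_beta K (M' * q) q).toRingHom
        (s35i62_normA K (M' * q) q) (s35i62_normB K (M' * q) q)
        (cm85_Vinf (K := K) (M' * q * q) hπ) V₂ (nsb86_V3 (K := K) M' q hq hM' hπ)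
        (cm85_Vinf (K := K) (M' * q) hπ) (s34i47c_V0 (K := K) M' q hq hM' hπ) ∧
      cp57_HP3 (K := K) ((q : ℕ) : R) q m
        (pk15_chart R ({(pk85_h2 K (M' * q * q)
          (h2.trans ((dvd_mul_right M' q).trans (dvd_mul_right (M' * q) q))))⁻¹} :
            Set ↥(modularFunctionFieldFullC K (M' * q * q))))
        (al97L_alpha K (M' * q) q).toRingHom (al97L_beta K (M' * q) q).toRingHom
        (s35i62_normA K (M' * q) q) (s35i62_normB K (M' * q) q)
        (cm85_Vinf (K := K) (M' * q * q) hπ) V₂ (nsb86_V3 (K := K) M' q hq hM' hπ)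
        (cm85_Vinf (K := K) (M' * q) hπ) (s34i47c_V0 (K := K) M' q hq hM' hπ) := by
  haveI : Algebra.IsAlgebraic K Q̄ := fs85_isAlgebraic K
  obtain ⟨hB, hB'⟩ := cf54_level2 (K := K) M' q hq hM' hπ hπ.not_isUnit hMu h2 V₂ hV₂ hπ₂ hs
  exact ⟨hp3g94_of_facts M' q m hq hM' R K hπ V₂ hV₂ hπ₂ hs hm0 hmu _ hB hTP,
    hp3g94_of_facts M' q m hq hM' R K hπ V₂ hV₂ hπ₂ hs hm0 hmu _ hB' hTP'⟩

/-- **(HP-3) on BOTH canonical charts of `pk85_h3`** (`3 ∣ M'`) from the per-point triple data: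
literally the two `cp57_HP3` conjuncts of `cf57_Six` for `h = pk85_h3 K (M' * q * q) _`. -/
theorem hp3g94_level3 (M' q m : ℕ) [NeZero M'] [NeZero q] (hq : q.Prime) (hM' : ¬ q ∣ M')
    (R K : Type) [CommRing R] [IsDomain R] [IsDiscreteValuationRing R] [Field K]
    [NumberField K] [Algebra K Q̄] [Algebra R K] [IsFractionRing R K]
    [Algebra R ↥(modularFunctionFieldFullC K (M' * q * q))]
    [IsScalarTower R K ↥(modularFunctionFieldFullC K (M' * q * q))]
    (hπ : Irreducible ((q : ℕ) : R)) (hMu : IsUnit ((M' : ℕ) : R)) (h3 : 3 ∣ M')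
    (V₂ : ValuationSubring ↥(modularFunctionFieldFullC K (M' * q * q)))
    (hV₂ : ∀ c ∈ cm85_Vinf (K := K) (M' * q) hπ, al97L_alpha K (M' * q) q c ∈ V₂)
    (hπ₂ : (algebraMap K ↥(modularFunctionFieldFullC K (M' * q * q))
      (algebraMap R K ((q : ℕ) : R)))⁻¹ ∉ V₂)
    (hs : V₂.valuation (v2g64_s K M' q) ^ (q - 1) =
      V₂.valuation (algebraMap K ↥(modularFunctionFieldFullC K (M' * q * q))
        (algebraMap R K ((q : ℕ) : R))))
    (hm0 : 0 < m) (hmu : IsUnit ((m : ℕ) : R))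
    (hTP : ∀ (n : Ideal (pk15_chart R ({pk85_h3 K (M' * q * q)
          (h3.trans ((dvd_mul_right M' q).trans (dvd_mul_right (M' * q) q)))} :
            Set ↥(modularFunctionFieldFullC K (M' * q * q))))) (hn : n.IsMaximal),
      algebraMap R _ ((q : ℕ) : R) ∈ n →
      ¬ cp57_OneBr ((q : ℕ) : R) _ (cm85_Vinf (K := K) (M' * q * q) hπ) V₂
        (nsb86_V3 (K := K) M' q hq hM' hπ) n →
      @hp3x77_TripleData R ↥(modularFunctionFieldFullC K (M' * q))
        ↥(modularFunctionFieldFullC K (M' * q * q)) _ _ _ _ K _ _ _ ((q : ℕ) : R) m _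
        (al97L_alpha K (M' * q) q).toRingHom (al97L_beta K (M' * q) q).toRingHom
        (s35i62_normA K (M' * q) q) (s35i62_normB K (M' * q) q)
        (cm85_Vinf (K := K) (M' * q * q) hπ) V₂ (nsb86_V3 (K := K) M' q hq hM' hπ)
        (cm85_Vinf (K := K) (M' * q) hπ) (s34i47c_V0 (K := K) M' q hq hM' hπ) n hn.isPrime)
    (hTP' : ∀ (n : Ideal (pk15_chart R ({(pk85_h3 K (M' * q * q)
          (h3.trans ((dvd_mul_right M' q).trans (dvd_mul_right (M' * q) q))))⁻¹} :
            Set ↥(modularFunctionFieldFullC K (M' * q * q))))) (hn : n.IsMaximal),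
      algebraMap R _ ((q : ℕ) : R) ∈ n →
      ¬ cp57_OneBr ((q : ℕ) : R) _ (cm85_Vinf (K := K) (M' * q * q) hπ) V₂
        (nsb86_V3 (K := K) M' q hq hM' hπ) n →
      @hp3x77_TripleData R ↥(modularFunctionFieldFullC K (M' * q))
        ↥(modularFunctionFieldFullC K (M' * q * q)) _ _ _ _ K _ _ _ ((q : ℕ) : R) m _
        (al97L_alpha K (M' * q) q).toRingHom (al97L_beta K (M' * q) q).toRingHom
        (s35i62_normA K (M' * q) q) (s35i62_normB K (M' * q) q)
        (cm85_Vinf (K := K) (M' * q * q) hπ) V₂ (nsb86_V3 (K := K) M' q hq hM' hπ)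
        (cm85_Vinf (K := K) (M' * q) hπ) (s34i47c_V0 (K := K) M' q hq hM' hπ) n hn.isPrime) :
    cp57_HP3 (K := K) ((q : ℕ) : R) q m
        (pk15_chart R ({pk85_h3 K (M' * q * q)
          (h3.trans ((dvd_mul_right M' q).trans (dvd_mul_right (M' * q) q)))} :
            Set ↥(modularFunctionFieldFullC K (M' * q * q))))
        (al97L_alpha K (M' * q) q).toRingHom (al97L_beta K (M' * q) q).toRingHom
        (s35i62_normA K (M' * q) q) (s35i62_normB K (M' * q) q)
        (cm85_Vinf (K := K) (M' * q * q) hπ) V₂ (nsb86_V3 (K := K) M' q hq hM' hπ)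
        (cm85_Vinf (K := K) (M' * q) hπ) (s34i47c_V0 (K := K) M' q hq hM' hπ) ∧
      cp57_HP3 (K := K) ((q : ℕ) : R) q m
        (pk15_chart R ({(pk85_h3 K (M' * q * q)
          (h3.trans ((dvd_mul_right M' q).trans (dvd_mul_right (M' * q) q))))⁻¹} :
            Set ↥(modularFunctionFieldFullC K (M' * q * q))))
        (al97L_alpha K (M' * q) q).toRingHom (al97L_beta K (M' * q) q).toRingHom
        (s35i62_normA K (M' * q) q) (s35i62_normB K (M' * q) q)
        (cm85_Vinf (K := K) (M' * q * q) hπ) V₂ (nsb86_V3 (K := K) M' q hq hM' hπ)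
        (cm85_Vinf (K := K) (M' * q) hπ) (s34i47c_V0 (K := K) M' q hq hM' hπ) := by
  haveI : Algebra.IsAlgebraic K Q̄ := fs85_isAlgebraic K
  obtain ⟨hB, hB'⟩ := cf54_level3 (K := K) M' q hq hM' hπ hπ.not_isUnit hMu h3 V₂ hV₂ hπ₂ hs
  exact ⟨hp3g94_of_facts M' q m hq hM' R K hπ V₂ hV₂ hπ₂ hs hm0 hmu _ hB hTP,
    hp3g94_of_facts M' q m hq hM' R K hπ V₂ hV₂ hπ₂ hs hm0 hmu _ hB' hTP'⟩

end Fermat.Agent.S36
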