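import Fermat.Agent.S36.StrongCanon9
import Fermat.Agent.S36.TwoGenFinal71

/-!
# S36 (helper9), row 605 (P2): the local roots `hroot` / `hLP` on the CANONICAL charts

Frame of level `M' q q`: `V₁ = cm85_Vinf (M' * q * q) hπ`, `V₂` ANY valuation subring with
`hV₂ hπ₂ hne hs` (`σ = v2g64_s K M' q`), `V₃ = nsb86_V3 M' q hq hM' hπ`; charts
`B = pk15_chart R {h}`, `B⁻ = pk15_chart R {h⁻¹}`, `h = pk85_h2 / pk85_h3 K (M' * q * q) _`.

Inputs (the integrator's final-chain shapes, exactly the hypotheses of `tg71_final_level2/3`):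
* (REG) `hreg₁ hreg₂ : tf71_RegNodes` on the two charts of level `M' q` (row 599);
* (C2) `hC₁ hC₂` = `hreg` of `mc25_hD2_level2/3(_inv)` on the two charts of level `M' q q`
  (row 600).

Outputs, each on BOTH charts (a conjunction `B ∧ B⁻`), for level 2 and level 3:
* `rc9_strong_level2/3` : `lps9_Strong π m B V₁ V₂ V₃ x` for every unit `x` of `V₁ V₂ V₃` with
  `s34i47_Ord`, `s34i47_Fin` (`tg71_final` for `tl71_TwoGen`, `tg71_hD` for `hD₁ hD₃`,
  `sc9_strong_level2/3(_inv)`);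
* `rc9_root_level2/3` : LITERALLY `hroot` of `hp53_HP3` (hypotheses `V_i.valuation (x - 1) < 1`);
* `rc9_LP_level2/3` : LITERALLY `hLP` of `hp1x90_HP1` / `hp1x90_HP1_of_C` for the family
  `fd85_V M' q hq hM' hπ V₂ = ![V₁, V₂, V₃]`;
* `rc9_tripleLP_level2/3` : LITERALLY the strong-LP clause of `hp3x77_TripleData` at every closed
  point on the three branches (`c` a unit of `V₁`, `V₂`, `V₃`).

Abstract adapters: `rc9_unit_of_val`, `rc9_root_of_strong`, `rc9_LP_of_strong`,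
`rc9_tripleLP_of_strong`.  All names are prefixed `rc9_`.
-/

set_option autoImplicit false
set_option linter.unusedSectionVars false
set_option linter.unusedVariables false
set_option linter.style.longLine false

open ModularCurve

namespace Fermat.Agent.S36

open Fermat.Agent.S34 Fermat.Agent.S18 Fermat.Agent.S24 Fermat.Agent.S36.TripleLoc71

local notation "Q̄" => AlgebraicClosure ℚ

section RC9Abs

/-- `v (u - 1) < 1` makes `u` a unit of `V`. -/
theorem rc9_unit_of_val {F : Type*} [Field F] (V : ValuationSubring F) (u : F)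
    (h : V.valuation (u - 1) < 1) : u ∈ V ∧ u⁻¹ ∈ V := by
  have h1 : V.valuation u = 1 := by
    have h2 := V.valuation.map_one_add_of_lt h
    rwa [add_sub_cancel] at h2
  constructor
  · exact (V.valuation_le_one_iff u).mp h1.le
  · apply (V.valuation_le_one_iff u⁻¹).mp
    rw [map_inv₀, h1, inv_one]

variable {R F : Type*} [CommRing R] [Field F] [Algebra R F]

/-- The literal `hroot` of `hp53_HP3` from `lps9_Strong` for every unit. -/
theorem rc9_root_of_strong (π : R) (m : ℕ) (B : Subalgebra R F) (V₁ V₂ V₃ : ValuationSubring F)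
    (hS : ∀ x : F, x ≠ 0 → (x ∈ V₁ ∧ x⁻¹ ∈ V₁) → (x ∈ V₂ ∧ x⁻¹ ∈ V₂) → (x ∈ V₃ ∧ x⁻¹ ∈ V₃) →
      s34i47_Ord π m x → s34i47_Fin π x → lps9_Strong π m B V₁ V₂ V₃ x) :
    ∀ x : F, x ≠ 0 → s34i47_Ord π m x → s34i47_Fin π x →
      V₁.valuation (x - 1) < 1 → V₂.valuation (x - 1) < 1 → V₃.valuation (x - 1) < 1 →
      ∀ n : Ideal B, n.IsMaximal → algebraMap R B π ∈ n →
        ∃ c : F, c ≠ 0 ∧ (∃ s : B, s ∉ n ∧ (s : F) * (x / c ^ m) ∈ B) ∧
          ∃ s : B, s ∉ n ∧ (s : F) * (c ^ m / x) ∈ B := by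
  intro x hx hO hF h1 h2 h3 n hn hπn
  obtain ⟨c, hc0, -, -, -, -, hs, hs'⟩ :=
    hS x hx (rc9_unit_of_val V₁ x h1) (rc9_unit_of_val V₂ x h2) (rc9_unit_of_val V₃ x h3) hO hF
      n hn hπn
  exact ⟨c, hc0, hs, hs'⟩

/-- The literal `hLP` of `hp1x90_HP1` from `lps9_Strong` for every unit. -/
theorem rc9_LP_of_strong (π : R) (m : ℕ) (B : Subalgebra R F) (V : Fin 3 → ValuationSubring F)
    (hS : ∀ x : F, x ≠ 0 → (x ∈ V 0 ∧ x⁻¹ ∈ V 0) → (x ∈ V 1 ∧ x⁻¹ ∈ V 1) →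
      (x ∈ V 2 ∧ x⁻¹ ∈ V 2) →
      s34i47_Ord π m x → s34i47_Fin π x → lps9_Strong π m B (V 0) (V 1) (V 2) x) :
    ∀ x : F, x ≠ 0 → (∀ i, x ∈ V i ∧ x⁻¹ ∈ V i) → s34i47_Ord π m x → s34i47_Fin π x →
      ∀ n : Ideal B, n.IsMaximal → algebraMap R B π ∈ n →
        ∃ c : F, c ≠ 0 ∧ (∃ s : B, s ∉ n ∧ (s : F) * (x / c ^ m) ∈ B) ∧
          ∃ s : B, s ∉ n ∧ (s : F) * (c ^ m / x) ∈ B := by
  intro x hx hV hO hF n hn hπn
  obtain ⟨c, hc0, -, -, -, -, hs, hs'⟩ := hS x hx (hV 0) (hV 1) (hV 2) hO hF n hn hπn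
  exact ⟨c, hc0, hs, hs'⟩

/-- The literal strong-LP clause of `hp3x77_TripleData` at a closed point on the three branches
from `lps9_Strong` for every unit. -/
theorem rc9_tripleLP_of_strong (π : R) (m : ℕ) (B : Subalgebra R F)
    (V₁ V₂ V₃ : ValuationSubring F)
    (hS : ∀ x : F, x ≠ 0 → (x ∈ V₁ ∧ x⁻¹ ∈ V₁) → (x ∈ V₂ ∧ x⁻¹ ∈ V₂) → (x ∈ V₃ ∧ x⁻¹ ∈ V₃) →
      s34i47_Ord π m x → s34i47_Fin π x → lps9_Strong π m B V₁ V₂ V₃ x)
    (n : Ideal B) (hn : n.IsMaximal) (hπn : algebraMap R B π ∈ n)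
    (hOn₁ : sf79_OnBr π B V₁.toSubring n) (hOn₂ : sf79_OnBr π B V₂.toSubring n)
    (hOn₃ : sf79_OnBr π B V₃.toSubring n) :
    ∀ x : F, x ≠ 0 → s34i47_Ord π m x → s34i47_Fin π x →
      (x ∈ V₁ ∧ x⁻¹ ∈ V₁) → (x ∈ V₂ ∧ x⁻¹ ∈ V₂) → (x ∈ V₃ ∧ x⁻¹ ∈ V₃) →
      ∃ c : F, c ≠ 0 ∧ (c ∈ V₁ ∧ c⁻¹ ∈ V₁) ∧ (c ∈ V₂ ∧ c⁻¹ ∈ V₂) ∧ (c ∈ V₃ ∧ c⁻¹ ∈ V₃) ∧
        (∃ s : B, s ∉ n ∧ (s : F) * (x / c ^ m) ∈ B) ∧
        (∃ s : B, s ∉ n ∧ (s : F) * (c ^ m / x) ∈ B) := by
  intro x hx hO hF h1 h2 h3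
  obtain ⟨c, hc0, hc1, hc2, hc3, -, hs, hs'⟩ := hS x hx h1 h2 h3 hO hF n hn hπn
  exact ⟨c, hc0, hc1 hOn₁, hc2 hOn₂, hc3 hOn₃, hs, hs'⟩

end RC9Abs

section RC9

variable {R K : Type} [CommRing R] [IsDomain R] [IsDiscreteValuationRing R] [Field K]
  [NumberField K] [Algebra R K] [IsFractionRing R K] [Algebra K Q̄] [Algebra.IsAlgebraic K Q̄]
  (M' q : ℕ) [NeZero M'] [NeZero q] (hq : q.Prime) (hM' : ¬ q ∣ M')
  {π : R} (hπ : Irreducible π)
  [Algebra R ↥(modularFunctionFieldFullC K M')]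
  [IsScalarTower R K ↥(modularFunctionFieldFullC K M')]
  [Algebra R ↥(modularFunctionFieldFullC K (M' * q))]
  [IsScalarTower R K ↥(modularFunctionFieldFullC K (M' * q))]
  [Algebra R ↥(modularFunctionFieldFullC K (M' * q * q))]
  [IsScalarTower R K ↥(modularFunctionFieldFullC K (M' * q * q))]

include hq hM' in
/-- **`lps9_Strong` on both canonical charts, Hauptmodul of level 2**, from (REG) + (C2) only. -/
theorem rc9_strong_level2 (hunit : ∀ n : ℕ, Nat.Coprime n q → IsUnit (n : R))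
    (hqR : ¬ IsUnit (q : R)) (hMu : IsUnit (M' : R)) (h2 : 2 ∣ M')
    (u u' : R) (huu' : u * u' = 1) (hqπ : (q : R) = u * π)
    (V₂ : ValuationSubring ↥(modularFunctionFieldFullC K (M' * q * q)))
    (hV₂ : ∀ c ∈ cm85_Vinf (K := K) (M' * q) hπ, al97L_alpha K (M' * q) q c ∈ V₂)
    (hπ₂ : (algebraMap K ↥(modularFunctionFieldFullC K (M' * q * q)) (algebraMap R K π))⁻¹ ∉ V₂)
    (hne : cm85_Vinf (K := K) (M' * q * q) hπ ≠ V₂)
    (hs : V₂.valuation (v2g64_s K M' q) ^ (q - 1) =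
      V₂.valuation (algebraMap K ↥(modularFunctionFieldFullC K (M' * q * q)) (algebraMap R K π)))
    (hreg₁ : tf71_RegNodes (K := K) M' q hq hM' hπ (pk15_chart R ({(pk85_h2 K (M' * q) (h2.trans (dvd_mul_right M' q)))} : Set ↥(modularFunctionFieldFullC K (M' * q)))))
    (hreg₂ : tf71_RegNodes (K := K) M' q hq hM' hπ (pk15_chart R ({(pk85_h2 K (M' * q) (h2.trans (dvd_mul_right M' q)))⁻¹} : Set ↥(modularFunctionFieldFullC K (M' * q)))))
    (hC₁ : (∀ n : Ideal ↥(pk15_chart R ({(pk85_h2 K (M' * q * q) (h2.trans ((dvd_mul_right M' q).trans (dvd_mul_right (M' * q) q))))} : Set ↥(modularFunctionFieldFullC K (M' * q * q)))), n.IsMaximal → algebraMap R ↥(pk15_chart R ({(pk85_h2 K (M' * q * q) (h2.trans ((dvd_mul_right M' q).trans (dvd_mul_right (M' * q) q))))} : Set ↥(modularFunctionFieldFullC K (M' * q * q)))) π ∈ n →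
        tl71_OnMid (v2g64_s K M' q) (pk15_chart R ({(pk85_h2 K (M' * q * q) (h2.trans ((dvd_mul_right M' q).trans (dvd_mul_right (M' * q) q))))} : Set ↥(modularFunctionFieldFullC K (M' * q * q)))) V₂.toSubring n →
        ¬ sf79_OnBr π (pk15_chart R ({(pk85_h2 K (M' * q * q) (h2.trans ((dvd_mul_right M' q).trans (dvd_mul_right (M' * q) q))))} : Set ↥(modularFunctionFieldFullC K (M' * q * q)))) (cm85_Vinf (K := K) (M' * q * q) hπ).toSubring n →
        ¬ sf79_OnBr π (pk15_chart R ({(pk85_h2 K (M' * q * q) (h2.trans ((dvd_mul_right M' q).trans (dvd_mul_right (M' * q) q))))} : Set ↥(modularFunctionFieldFullC K (M' * q * q)))) (nsb86_V3 (K := K) M' q hq hM' hπ).toSubring n →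
        (∃ s' b : ↥(pk15_chart R ({(pk85_h2 K (M' * q * q) (h2.trans ((dvd_mul_right M' q).trans (dvd_mul_right (M' * q) q))))} : Set ↥(modularFunctionFieldFullC K (M' * q * q)))), s' ∉ n ∧
          (s' : ↥(modularFunctionFieldFullC K (M' * q * q))) * rm90_j K (M' * q * q) = (b : ↥(modularFunctionFieldFullC K (M' * q * q)))) →
        mc25_MidPrinAt (v2g64_s K M' q) (pk15_chart R ({(pk85_h2 K (M' * q * q) (h2.trans ((dvd_mul_right M' q).trans (dvd_mul_right (M' * q) q))))} : Set ↥(modularFunctionFieldFullC K (M' * q * q)))) V₂.toSubring n))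
    (hC₂ : (∀ n : Ideal ↥(pk15_chart R ({(pk85_h2 K (M' * q * q) (h2.trans ((dvd_mul_right M' q).trans (dvd_mul_right (M' * q) q))))⁻¹} : Set ↥(modularFunctionFieldFullC K (M' * q * q)))), n.IsMaximal → algebraMap R ↥(pk15_chart R ({(pk85_h2 K (M' * q * q) (h2.trans ((dvd_mul_right M' q).trans (dvd_mul_right (M' * q) q))))⁻¹} : Set ↥(modularFunctionFieldFullC K (M' * q * q)))) π ∈ n →
        tl71_OnMid (v2g64_s K M' q) (pk15_chart R ({(pk85_h2 K (M' * q * q) (h2.trans ((dvd_mul_right M' q).trans (dvd_mul_right (M' * q) q))))⁻¹} : Set ↥(modularFunctionFieldFullC K (M' * q * q)))) V₂.toSubring n →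
        ¬ sf79_OnBr π (pk15_chart R ({(pk85_h2 K (M' * q * q) (h2.trans ((dvd_mul_right M' q).trans (dvd_mul_right (M' * q) q))))⁻¹} : Set ↥(modularFunctionFieldFullC K (M' * q * q)))) (cm85_Vinf (K := K) (M' * q * q) hπ).toSubring n →
        ¬ sf79_OnBr π (pk15_chart R ({(pk85_h2 K (M' * q * q) (h2.trans ((dvd_mul_right M' q).trans (dvd_mul_right (M' * q) q))))⁻¹} : Set ↥(modularFunctionFieldFullC K (M' * q * q)))) (nsb86_V3 (K := K) M' q hq hM' hπ).toSubring n →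
        (∃ s' b : ↥(pk15_chart R ({(pk85_h2 K (M' * q * q) (h2.trans ((dvd_mul_right M' q).trans (dvd_mul_right (M' * q) q))))⁻¹} : Set ↥(modularFunctionFieldFullC K (M' * q * q)))), s' ∉ n ∧
          (s' : ↥(modularFunctionFieldFullC K (M' * q * q))) * rm90_j K (M' * q * q) = (b : ↥(modularFunctionFieldFullC K (M' * q * q)))) →
        mc25_MidPrinAt (v2g64_s K M' q) (pk15_chart R ({(pk85_h2 K (M' * q * q) (h2.trans ((dvd_mul_right M' q).trans (dvd_mul_right (M' * q) q))))⁻¹} : Set ↥(modularFunctionFieldFullC K (M' * q * q)))) V₂.toSubring n))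
    (m : ℕ) (hm : 0 < m) :
    (∀ x : ↥(modularFunctionFieldFullC K (M' * q * q)), x ≠ 0 →
      (x ∈ (cm85_Vinf (K := K) (M' * q * q) hπ) ∧ x⁻¹ ∈ (cm85_Vinf (K := K) (M' * q * q) hπ)) → (x ∈ V₂ ∧ x⁻¹ ∈ V₂) →
      (x ∈ (nsb86_V3 (K := K) M' q hq hM' hπ) ∧ x⁻¹ ∈ (nsb86_V3 (K := K) M' q hq hM' hπ)) →
      s34i47_Ord π m x → s34i47_Fin π x →
      lps9_Strong π m (pk15_chart R ({(pk85_h2 K (M' * q * q) (h2.trans ((dvd_mul_right M' q).trans (dvd_mul_right (M' * q) q))))} : Set ↥(modularFunctionFieldFullC K (M' * q * q)))) (cm85_Vinf (K := K) (M' * q * q) hπ) V₂ (nsb86_V3 (K := K) M' q hq hM' hπ) x) ∧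
    (∀ x : ↥(modularFunctionFieldFullC K (M' * q * q)), x ≠ 0 →
      (x ∈ (cm85_Vinf (K := K) (M' * q * q) hπ) ∧ x⁻¹ ∈ (cm85_Vinf (K := K) (M' * q * q) hπ)) → (x ∈ V₂ ∧ x⁻¹ ∈ V₂) →
      (x ∈ (nsb86_V3 (K := K) M' q hq hM' hπ) ∧ x⁻¹ ∈ (nsb86_V3 (K := K) M' q hq hM' hπ)) →
      s34i47_Ord π m x → s34i47_Fin π x →
      lps9_Strong π m (pk15_chart R ({(pk85_h2 K (M' * q * q) (h2.trans ((dvd_mul_right M' q).trans (dvd_mul_right (M' * q) q))))⁻¹} : Set ↥(modularFunctionFieldFullC K (M' * q * q)))) (cm85_Vinf (K := K) (M' * q * q) hπ) V₂ (nsb86_V3 (K := K) M' q hq hM' hπ) x) := by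
  obtain ⟨hT1, hT2⟩ := tg71_final_level2 (K := K) M' q hq hM' hπ hunit hqR hMu h2 u u' huu' hqπ
    V₂ hV₂ hπ₂ hne hs hreg₁ hreg₂ hC₁ hC₂
  obtain ⟨hDa, hDb⟩ := tg71_hD_level2 (K := K) M' q hq hM' hπ hunit hqR h2 V₂ hV₂ hπ₂ hne hs
  obtain ⟨hD1a, hD3a⟩ := hDa hreg₁
  obtain ⟨hD1b, hD3b⟩ := hDb hreg₂
  exact ⟨fun x hx hx1 hx2 hx3 hO hF =>
      sc9_strong_level2 (K := K) M' q hq hM' hπ hqR hMu h2 V₂ hV₂ hπ₂ hne hs hT1 hD1a hD3a m hm
        x hx hx1 hx2 hx3 hO hF,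
    fun x hx hx1 hx2 hx3 hO hF =>
      sc9_strong_level2_inv (K := K) M' q hq hM' hπ hqR hMu h2 V₂ hV₂ hπ₂ hne hs hT2 hD1b hD3b
        m hm x hx hx1 hx2 hx3 hO hF⟩

include hq hM' in
/-- **`hroot` of `hp53_HP3` on both canonical charts, Hauptmodul of level 2** (literal shape). -/
theorem rc9_root_level2 (hunit : ∀ n : ℕ, Nat.Coprime n q → IsUnit (n : R))
    (hqR : ¬ IsUnit (q : R)) (hMu : IsUnit (M' : R)) (h2 : 2 ∣ M')
    (u u' : R) (huu' : u * u' = 1) (hqπ : (q : R) = u * π)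
    (V₂ : ValuationSubring ↥(modularFunctionFieldFullC K (M' * q * q)))
    (hV₂ : ∀ c ∈ cm85_Vinf (K := K) (M' * q) hπ, al97L_alpha K (M' * q) q c ∈ V₂)
    (hπ₂ : (algebraMap K ↥(modularFunctionFieldFullC K (M' * q * q)) (algebraMap R K π))⁻¹ ∉ V₂)
    (hne : cm85_Vinf (K := K) (M' * q * q) hπ ≠ V₂)
    (hs : V₂.valuation (v2g64_s K M' q) ^ (q - 1) =
      V₂.valuation (algebraMap K ↥(modularFunctionFieldFullC K (M' * q * q)) (algebraMap R K π)))
    (hreg₁ : tf71_RegNodes (K := K) M' q hq hM' hπ (pk15_chart R ({(pk85_h2 K (M' * q) (h2.trans (dvd_mul_right M' q)))} : Set ↥(modularFunctionFieldFullC K (M' * q)))))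
    (hreg₂ : tf71_RegNodes (K := K) M' q hq hM' hπ (pk15_chart R ({(pk85_h2 K (M' * q) (h2.trans (dvd_mul_right M' q)))⁻¹} : Set ↥(modularFunctionFieldFullC K (M' * q)))))
    (hC₁ : (∀ n : Ideal ↥(pk15_chart R ({(pk85_h2 K (M' * q * q) (h2.trans ((dvd_mul_right M' q).trans (dvd_mul_right (M' * q) q))))} : Set ↥(modularFunctionFieldFullC K (M' * q * q)))), n.IsMaximal → algebraMap R ↥(pk15_chart R ({(pk85_h2 K (M' * q * q) (h2.trans ((dvd_mul_right M' q).trans (dvd_mul_right (M' * q) q))))} : Set ↥(modularFunctionFieldFullC K (M' * q * q)))) π ∈ n →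
        tl71_OnMid (v2g64_s K M' q) (pk15_chart R ({(pk85_h2 K (M' * q * q) (h2.trans ((dvd_mul_right M' q).trans (dvd_mul_right (M' * q) q))))} : Set ↥(modularFunctionFieldFullC K (M' * q * q)))) V₂.toSubring n →
        ¬ sf79_OnBr π (pk15_chart R ({(pk85_h2 K (M' * q * q) (h2.trans ((dvd_mul_right M' q).trans (dvd_mul_right (M' * q) q))))} : Set ↥(modularFunctionFieldFullC K (M' * q * q)))) (cm85_Vinf (K := K) (M' * q * q) hπ).toSubring n →
        ¬ sf79_OnBr π (pk15_chart R ({(pk85_h2 K (M' * q * q) (h2.trans ((dvd_mul_right M' q).trans (dvd_mul_right (M' * q) q))))} : Set ↥(modularFunctionFieldFullC K (M' * q * q)))) (nsb86_V3 (K := K) M' q hq hM' hπ).toSubring n →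
        (∃ s' b : ↥(pk15_chart R ({(pk85_h2 K (M' * q * q) (h2.trans ((dvd_mul_right M' q).trans (dvd_mul_right (M' * q) q))))} : Set ↥(modularFunctionFieldFullC K (M' * q * q)))), s' ∉ n ∧
          (s' : ↥(modularFunctionFieldFullC K (M' * q * q))) * rm90_j K (M' * q * q) = (b : ↥(modularFunctionFieldFullC K (M' * q * q)))) →
        mc25_MidPrinAt (v2g64_s K M' q) (pk15_chart R ({(pk85_h2 K (M' * q * q) (h2.trans ((dvd_mul_right M' q).trans (dvd_mul_right (M' * q) q))))} : Set ↥(modularFunctionFieldFullC K (M' * q * q)))) V₂.toSubring n))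
    (hC₂ : (∀ n : Ideal ↥(pk15_chart R ({(pk85_h2 K (M' * q * q) (h2.trans ((dvd_mul_right M' q).trans (dvd_mul_right (M' * q) q))))⁻¹} : Set ↥(modularFunctionFieldFullC K (M' * q * q)))), n.IsMaximal → algebraMap R ↥(pk15_chart R ({(pk85_h2 K (M' * q * q) (h2.trans ((dvd_mul_right M' q).trans (dvd_mul_right (M' * q) q))))⁻¹} : Set ↥(modularFunctionFieldFullC K (M' * q * q)))) π ∈ n →
        tl71_OnMid (v2g64_s K M' q) (pk15_chart R ({(pk85_h2 K (M' * q * q) (h2.trans ((dvd_mul_right M' q).trans (dvd_mul_right (M' * q) q))))⁻¹} : Set ↥(modularFunctionFieldFullC K (M' * q * q)))) V₂.toSubring n →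
        ¬ sf79_OnBr π (pk15_chart R ({(pk85_h2 K (M' * q * q) (h2.trans ((dvd_mul_right M' q).trans (dvd_mul_right (M' * q) q))))⁻¹} : Set ↥(modularFunctionFieldFullC K (M' * q * q)))) (cm85_Vinf (K := K) (M' * q * q) hπ).toSubring n →
        ¬ sf79_OnBr π (pk15_chart R ({(pk85_h2 K (M' * q * q) (h2.trans ((dvd_mul_right M' q).trans (dvd_mul_right (M' * q) q))))⁻¹} : Set ↥(modularFunctionFieldFullC K (M' * q * q)))) (nsb86_V3 (K := K) M' q hq hM' hπ).toSubring n →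
        (∃ s' b : ↥(pk15_chart R ({(pk85_h2 K (M' * q * q) (h2.trans ((dvd_mul_right M' q).trans (dvd_mul_right (M' * q) q))))⁻¹} : Set ↥(modularFunctionFieldFullC K (M' * q * q)))), s' ∉ n ∧
          (s' : ↥(modularFunctionFieldFullC K (M' * q * q))) * rm90_j K (M' * q * q) = (b : ↥(modularFunctionFieldFullC K (M' * q * q)))) →
        mc25_MidPrinAt (v2g64_s K M' q) (pk15_chart R ({(pk85_h2 K (M' * q * q) (h2.trans ((dvd_mul_right M' q).trans (dvd_mul_right (M' * q) q))))⁻¹} : Set ↥(modularFunctionFieldFullC K (M' * q * q)))) V₂.toSubring n))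
    (m : ℕ) (hm : 0 < m) :
    (∀ x : ↥(modularFunctionFieldFullC K (M' * q * q)), x ≠ 0 → s34i47_Ord π m x → s34i47_Fin π x →
      (cm85_Vinf (K := K) (M' * q * q) hπ).valuation (x - 1) < 1 → V₂.valuation (x - 1) < 1 →
      (nsb86_V3 (K := K) M' q hq hM' hπ).valuation (x - 1) < 1 →
      ∀ n : Ideal ↥(pk15_chart R ({(pk85_h2 K (M' * q * q) (h2.trans ((dvd_mul_right M' q).trans (dvd_mul_right (M' * q) q))))} : Set ↥(modularFunctionFieldFullC K (M' * q * q)))), n.IsMaximal → algebraMap R ↥(pk15_chart R ({(pk85_h2 K (M' * q * q) (h2.trans ((dvd_mul_right M' q).trans (dvd_mul_right (M' * q) q))))} : Set ↥(modularFunctionFieldFullC K (M' * q * q)))) π ∈ n →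
        ∃ c : ↥(modularFunctionFieldFullC K (M' * q * q)), c ≠ 0 ∧
          (∃ s : ↥(pk15_chart R ({(pk85_h2 K (M' * q * q) (h2.trans ((dvd_mul_right M' q).trans (dvd_mul_right (M' * q) q))))} : Set ↥(modularFunctionFieldFullC K (M' * q * q)))), s ∉ n ∧ (s : ↥(modularFunctionFieldFullC K (M' * q * q))) * (x / c ^ m) ∈ (pk15_chart R ({(pk85_h2 K (M' * q * q) (h2.trans ((dvd_mul_right M' q).trans (dvd_mul_right (M' * q) q))))} : Set ↥(modularFunctionFieldFullC K (M' * q * q))))) ∧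
          ∃ s : ↥(pk15_chart R ({(pk85_h2 K (M' * q * q) (h2.trans ((dvd_mul_right M' q).trans (dvd_mul_right (M' * q) q))))} : Set ↥(modularFunctionFieldFullC K (M' * q * q)))), s ∉ n ∧ (s : ↥(modularFunctionFieldFullC K (M' * q * q))) * (c ^ m / x) ∈ (pk15_chart R ({(pk85_h2 K (M' * q * q) (h2.trans ((dvd_mul_right M' q).trans (dvd_mul_right (M' * q) q))))} : Set ↥(modularFunctionFieldFullC K (M' * q * q))))) ∧
    (∀ x : ↥(modularFunctionFieldFullC K (M' * q * q)), x ≠ 0 → s34i47_Ord π m x → s34i47_Fin π x →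
      (cm85_Vinf (K := K) (M' * q * q) hπ).valuation (x - 1) < 1 → V₂.valuation (x - 1) < 1 →
      (nsb86_V3 (K := K) M' q hq hM' hπ).valuation (x - 1) < 1 →
      ∀ n : Ideal ↥(pk15_chart R ({(pk85_h2 K (M' * q * q) (h2.trans ((dvd_mul_right M' q).trans (dvd_mul_right (M' * q) q))))⁻¹} : Set ↥(modularFunctionFieldFullC K (M' * q * q)))), n.IsMaximal → algebraMap R ↥(pk15_chart R ({(pk85_h2 K (M' * q * q) (h2.trans ((dvd_mul_right M' q).trans (dvd_mul_right (M' * q) q))))⁻¹} : Set ↥(modularFunctionFieldFullC K (M' * q * q)))) π ∈ n →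
        ∃ c : ↥(modularFunctionFieldFullC K (M' * q * q)), c ≠ 0 ∧
          (∃ s : ↥(pk15_chart R ({(pk85_h2 K (M' * q * q) (h2.trans ((dvd_mul_right M' q).trans (dvd_mul_right (M' * q) q))))⁻¹} : Set ↥(modularFunctionFieldFullC K (M' * q * q)))), s ∉ n ∧ (s : ↥(modularFunctionFieldFullC K (M' * q * q))) * (x / c ^ m) ∈ (pk15_chart R ({(pk85_h2 K (M' * q * q) (h2.trans ((dvd_mul_right M' q).trans (dvd_mul_right (M' * q) q))))⁻¹} : Set ↥(modularFunctionFieldFullC K (M' * q * q))))) ∧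
          ∃ s : ↥(pk15_chart R ({(pk85_h2 K (M' * q * q) (h2.trans ((dvd_mul_right M' q).trans (dvd_mul_right (M' * q) q))))⁻¹} : Set ↥(modularFunctionFieldFullC K (M' * q * q)))), s ∉ n ∧ (s : ↥(modularFunctionFieldFullC K (M' * q * q))) * (c ^ m / x) ∈ (pk15_chart R ({(pk85_h2 K (M' * q * q) (h2.trans ((dvd_mul_right M' q).trans (dvd_mul_right (M' * q) q))))⁻¹} : Set ↥(modularFunctionFieldFullC K (M' * q * q))))) := by
  obtain ⟨hS1, hS2⟩ := rc9_strong_level2 (K := K) M' q hq hM' hπ hunit hqR hMu h2 u u' huu' hqπ V₂ hV₂ hπ₂ hne hs hreg₁ hreg₂ hC₁ hC₂ m hm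
  exact ⟨rc9_root_of_strong π m _ _ _ _ hS1, rc9_root_of_strong π m _ _ _ _ hS2⟩

include hq hM' in
/-- **`hLP` of `hp1x90_HP1` on both canonical charts, Hauptmodul of level 2** (literal shape, family
`fd85_V`). -/
theorem rc9_LP_level2 (hunit : ∀ n : ℕ, Nat.Coprime n q → IsUnit (n : R))
    (hqR : ¬ IsUnit (q : R)) (hMu : IsUnit (M' : R)) (h2 : 2 ∣ M')
    (u u' : R) (huu' : u * u' = 1) (hqπ : (q : R) = u * π)
    (V₂ : ValuationSubring ↥(modularFunctionFieldFullC K (M' * q * q)))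
    (hV₂ : ∀ c ∈ cm85_Vinf (K := K) (M' * q) hπ, al97L_alpha K (M' * q) q c ∈ V₂)
    (hπ₂ : (algebraMap K ↥(modularFunctionFieldFullC K (M' * q * q)) (algebraMap R K π))⁻¹ ∉ V₂)
    (hne : cm85_Vinf (K := K) (M' * q * q) hπ ≠ V₂)
    (hs : V₂.valuation (v2g64_s K M' q) ^ (q - 1) =
      V₂.valuation (algebraMap K ↥(modularFunctionFieldFullC K (M' * q * q)) (algebraMap R K π)))
    (hreg₁ : tf71_RegNodes (K := K) M' q hq hM' hπ (pk15_chart R ({(pk85_h2 K (M' * q) (h2.trans (dvd_mul_right M' q)))} : Set ↥(modularFunctionFieldFullC K (M' * q)))))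
    (hreg₂ : tf71_RegNodes (K := K) M' q hq hM' hπ (pk15_chart R ({(pk85_h2 K (M' * q) (h2.trans (dvd_mul_right M' q)))⁻¹} : Set ↥(modularFunctionFieldFullC K (M' * q)))))
    (hC₁ : (∀ n : Ideal ↥(pk15_chart R ({(pk85_h2 K (M' * q * q) (h2.trans ((dvd_mul_right M' q).trans (dvd_mul_right (M' * q) q))))} : Set ↥(modularFunctionFieldFullC K (M' * q * q)))), n.IsMaximal → algebraMap R ↥(pk15_chart R ({(pk85_h2 K (M' * q * q) (h2.trans ((dvd_mul_right M' q).trans (dvd_mul_right (M' * q) q))))} : Set ↥(modularFunctionFieldFullC K (M' * q * q)))) π ∈ n →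
        tl71_OnMid (v2g64_s K M' q) (pk15_chart R ({(pk85_h2 K (M' * q * q) (h2.trans ((dvd_mul_right M' q).trans (dvd_mul_right (M' * q) q))))} : Set ↥(modularFunctionFieldFullC K (M' * q * q)))) V₂.toSubring n →
        ¬ sf79_OnBr π (pk15_chart R ({(pk85_h2 K (M' * q * q) (h2.trans ((dvd_mul_right M' q).trans (dvd_mul_right (M' * q) q))))} : Set ↥(modularFunctionFieldFullC K (M' * q * q)))) (cm85_Vinf (K := K) (M' * q * q) hπ).toSubring n →
        ¬ sf79_OnBr π (pk15_chart R ({(pk85_h2 K (M' * q * q) (h2.trans ((dvd_mul_right M' q).trans (dvd_mul_right (M' * q) q))))} : Set ↥(modularFunctionFieldFullC K (M' * q * q)))) (nsb86_V3 (K := K) M' q hq hM' hπ).toSubring n →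
        (∃ s' b : ↥(pk15_chart R ({(pk85_h2 K (M' * q * q) (h2.trans ((dvd_mul_right M' q).trans (dvd_mul_right (M' * q) q))))} : Set ↥(modularFunctionFieldFullC K (M' * q * q)))), s' ∉ n ∧
          (s' : ↥(modularFunctionFieldFullC K (M' * q * q))) * rm90_j K (M' * q * q) = (b : ↥(modularFunctionFieldFullC K (M' * q * q)))) →
        mc25_MidPrinAt (v2g64_s K M' q) (pk15_chart R ({(pk85_h2 K (M' * q * q) (h2.trans ((dvd_mul_right M' q).trans (dvd_mul_right (M' * q) q))))} : Set ↥(modularFunctionFieldFullC K (M' * q * q)))) V₂.toSubring n))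
    (hC₂ : (∀ n : Ideal ↥(pk15_chart R ({(pk85_h2 K (M' * q * q) (h2.trans ((dvd_mul_right M' q).trans (dvd_mul_right (M' * q) q))))⁻¹} : Set ↥(modularFunctionFieldFullC K (M' * q * q)))), n.IsMaximal → algebraMap R ↥(pk15_chart R ({(pk85_h2 K (M' * q * q) (h2.trans ((dvd_mul_right M' q).trans (dvd_mul_right (M' * q) q))))⁻¹} : Set ↥(modularFunctionFieldFullC K (M' * q * q)))) π ∈ n →
        tl71_OnMid (v2g64_s K M' q) (pk15_chart R ({(pk85_h2 K (M' * q * q) (h2.trans ((dvd_mul_right M' q).trans (dvd_mul_right (M' * q) q))))⁻¹} : Set ↥(modularFunctionFieldFullC K (M' * q * q)))) V₂.toSubring n →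
        ¬ sf79_OnBr π (pk15_chart R ({(pk85_h2 K (M' * q * q) (h2.trans ((dvd_mul_right M' q).trans (dvd_mul_right (M' * q) q))))⁻¹} : Set ↥(modularFunctionFieldFullC K (M' * q * q)))) (cm85_Vinf (K := K) (M' * q * q) hπ).toSubring n →
        ¬ sf79_OnBr π (pk15_chart R ({(pk85_h2 K (M' * q * q) (h2.trans ((dvd_mul_right M' q).trans (dvd_mul_right (M' * q) q))))⁻¹} : Set ↥(modularFunctionFieldFullC K (M' * q * q)))) (nsb86_V3 (K := K) M' q hq hM' hπ).toSubring n →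
        (∃ s' b : ↥(pk15_chart R ({(pk85_h2 K (M' * q * q) (h2.trans ((dvd_mul_right M' q).trans (dvd_mul_right (M' * q) q))))⁻¹} : Set ↥(modularFunctionFieldFullC K (M' * q * q)))), s' ∉ n ∧
          (s' : ↥(modularFunctionFieldFullC K (M' * q * q))) * rm90_j K (M' * q * q) = (b : ↥(modularFunctionFieldFullC K (M' * q * q)))) →
        mc25_MidPrinAt (v2g64_s K M' q) (pk15_chart R ({(pk85_h2 K (M' * q * q) (h2.trans ((dvd_mul_right M' q).trans (dvd_mul_right (M' * q) q))))⁻¹} : Set ↥(modularFunctionFieldFullC K (M' * q * q)))) V₂.toSubring n))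
    (m : ℕ) (hm : 0 < m) :
    (∀ x : ↥(modularFunctionFieldFullC K (M' * q * q)), x ≠ 0 →
      (∀ i, x ∈ (fd85_V (K := K) M' q hq hM' hπ V₂) i ∧ x⁻¹ ∈ (fd85_V (K := K) M' q hq hM' hπ V₂) i) →
      s34i47_Ord π m x → s34i47_Fin π x →
      ∀ n : Ideal ↥(pk15_chart R ({(pk85_h2 K (M' * q * q) (h2.trans ((dvd_mul_right M' q).trans (dvd_mul_right (M' * q) q))))} : Set ↥(modularFunctionFieldFullC K (M' * q * q)))), n.IsMaximal → algebraMap R ↥(pk15_chart R ({(pk85_h2 K (M' * q * q) (h2.trans ((dvd_mul_right M' q).trans (dvd_mul_right (M' * q) q))))} : Set ↥(modularFunctionFieldFullC K (M' * q * q)))) π ∈ n →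
        ∃ c : ↥(modularFunctionFieldFullC K (M' * q * q)), c ≠ 0 ∧
          (∃ s : ↥(pk15_chart R ({(pk85_h2 K (M' * q * q) (h2.trans ((dvd_mul_right M' q).trans (dvd_mul_right (M' * q) q))))} : Set ↥(modularFunctionFieldFullC K (M' * q * q)))), s ∉ n ∧ (s : ↥(modularFunctionFieldFullC K (M' * q * q))) * (x / c ^ m) ∈ (pk15_chart R ({(pk85_h2 K (M' * q * q) (h2.trans ((dvd_mul_right M' q).trans (dvd_mul_right (M' * q) q))))} : Set ↥(modularFunctionFieldFullC K (M' * q * q))))) ∧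
          ∃ s : ↥(pk15_chart R ({(pk85_h2 K (M' * q * q) (h2.trans ((dvd_mul_right M' q).trans (dvd_mul_right (M' * q) q))))} : Set ↥(modularFunctionFieldFullC K (M' * q * q)))), s ∉ n ∧ (s : ↥(modularFunctionFieldFullC K (M' * q * q))) * (c ^ m / x) ∈ (pk15_chart R ({(pk85_h2 K (M' * q * q) (h2.trans ((dvd_mul_right M' q).trans (dvd_mul_right (M' * q) q))))} : Set ↥(modularFunctionFieldFullC K (M' * q * q))))) ∧
    (∀ x : ↥(modularFunctionFieldFullC K (M' * q * q)), x ≠ 0 →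
      (∀ i, x ∈ (fd85_V (K := K) M' q hq hM' hπ V₂) i ∧ x⁻¹ ∈ (fd85_V (K := K) M' q hq hM' hπ V₂) i) →
      s34i47_Ord π m x → s34i47_Fin π x →
      ∀ n : Ideal ↥(pk15_chart R ({(pk85_h2 K (M' * q * q) (h2.trans ((dvd_mul_right M' q).trans (dvd_mul_right (M' * q) q))))⁻¹} : Set ↥(modularFunctionFieldFullC K (M' * q * q)))), n.IsMaximal → algebraMap R ↥(pk15_chart R ({(pk85_h2 K (M' * q * q) (h2.trans ((dvd_mul_right M' q).trans (dvd_mul_right (M' * q) q))))⁻¹} : Set ↥(modularFunctionFieldFullC K (M' * q * q)))) π ∈ n →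
        ∃ c : ↥(modularFunctionFieldFullC K (M' * q * q)), c ≠ 0 ∧
          (∃ s : ↥(pk15_chart R ({(pk85_h2 K (M' * q * q) (h2.trans ((dvd_mul_right M' q).trans (dvd_mul_right (M' * q) q))))⁻¹} : Set ↥(modularFunctionFieldFullC K (M' * q * q)))), s ∉ n ∧ (s : ↥(modularFunctionFieldFullC K (M' * q * q))) * (x / c ^ m) ∈ (pk15_chart R ({(pk85_h2 K (M' * q * q) (h2.trans ((dvd_mul_right M' q).trans (dvd_mul_right (M' * q) q))))⁻¹} : Set ↥(modularFunctionFieldFullC K (M' * q * q))))) ∧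
          ∃ s : ↥(pk15_chart R ({(pk85_h2 K (M' * q * q) (h2.trans ((dvd_mul_right M' q).trans (dvd_mul_right (M' * q) q))))⁻¹} : Set ↥(modularFunctionFieldFullC K (M' * q * q)))), s ∉ n ∧ (s : ↥(modularFunctionFieldFullC K (M' * q * q))) * (c ^ m / x) ∈ (pk15_chart R ({(pk85_h2 K (M' * q * q) (h2.trans ((dvd_mul_right M' q).trans (dvd_mul_right (M' * q) q))))⁻¹} : Set ↥(modularFunctionFieldFullC K (M' * q * q))))) := by
  obtain ⟨hS1, hS2⟩ := rc9_strong_level2 (K := K) M' q hq hM' hπ hunit hqR hMu h2 u u' huu' hqπ V₂ hV₂ hπ₂ hne hs hreg₁ hreg₂ hC₁ hC₂ m hm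
  exact ⟨rc9_LP_of_strong π m _ (fd85_V (K := K) M' q hq hM' hπ V₂) hS1,
    rc9_LP_of_strong π m _ (fd85_V (K := K) M' q hq hM' hπ V₂) hS2⟩

include hq hM' in
/-- **The strong-LP clause of `hp3x77_TripleData` on both canonical charts, Hauptmodul of level 2**, at every
closed point on the three branches (literal shape). -/
theorem rc9_tripleLP_level2 (hunit : ∀ n : ℕ, Nat.Coprime n q → IsUnit (n : R))
    (hqR : ¬ IsUnit (q : R)) (hMu : IsUnit (M' : R)) (h2 : 2 ∣ M')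
    (u u' : R) (huu' : u * u' = 1) (hqπ : (q : R) = u * π)
    (V₂ : ValuationSubring ↥(modularFunctionFieldFullC K (M' * q * q)))
    (hV₂ : ∀ c ∈ cm85_Vinf (K := K) (M' * q) hπ, al97L_alpha K (M' * q) q c ∈ V₂)
    (hπ₂ : (algebraMap K ↥(modularFunctionFieldFullC K (M' * q * q)) (algebraMap R K π))⁻¹ ∉ V₂)
    (hne : cm85_Vinf (K := K) (M' * q * q) hπ ≠ V₂)
    (hs : V₂.valuation (v2g64_s K M' q) ^ (q - 1) =
      V₂.valuation (algebraMap K ↥(modularFunctionFieldFullC K (M' * q * q)) (algebraMap R K π)))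
    (hreg₁ : tf71_RegNodes (K := K) M' q hq hM' hπ (pk15_chart R ({(pk85_h2 K (M' * q) (h2.trans (dvd_mul_right M' q)))} : Set ↥(modularFunctionFieldFullC K (M' * q)))))
    (hreg₂ : tf71_RegNodes (K := K) M' q hq hM' hπ (pk15_chart R ({(pk85_h2 K (M' * q) (h2.trans (dvd_mul_right M' q)))⁻¹} : Set ↥(modularFunctionFieldFullC K (M' * q)))))
    (hC₁ : (∀ n : Ideal ↥(pk15_chart R ({(pk85_h2 K (M' * q * q) (h2.trans ((dvd_mul_right M' q).trans (dvd_mul_right (M' * q) q))))} : Set ↥(modularFunctionFieldFullC K (M' * q * q)))), n.IsMaximal → algebraMap R ↥(pk15_chart R ({(pk85_h2 K (M' * q * q) (h2.trans ((dvd_mul_right M' q).trans (dvd_mul_right (M' * q) q))))} : Set ↥(modularFunctionFieldFullC K (M' * q * q)))) π ∈ n →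
        tl71_OnMid (v2g64_s K M' q) (pk15_chart R ({(pk85_h2 K (M' * q * q) (h2.trans ((dvd_mul_right M' q).trans (dvd_mul_right (M' * q) q))))} : Set ↥(modularFunctionFieldFullC K (M' * q * q)))) V₂.toSubring n →
        ¬ sf79_OnBr π (pk15_chart R ({(pk85_h2 K (M' * q * q) (h2.trans ((dvd_mul_right M' q).trans (dvd_mul_right (M' * q) q))))} : Set ↥(modularFunctionFieldFullC K (M' * q * q)))) (cm85_Vinf (K := K) (M' * q * q) hπ).toSubring n →
        ¬ sf79_OnBr π (pk15_chart R ({(pk85_h2 K (M' * q * q) (h2.trans ((dvd_mul_right M' q).trans (dvd_mul_right (M' * q) q))))} : Set ↥(modularFunctionFieldFullC K (M' * q * q)))) (nsb86_V3 (K := K) M' q hq hM' hπ).toSubring n →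
        (∃ s' b : ↥(pk15_chart R ({(pk85_h2 K (M' * q * q) (h2.trans ((dvd_mul_right M' q).trans (dvd_mul_right (M' * q) q))))} : Set ↥(modularFunctionFieldFullC K (M' * q * q)))), s' ∉ n ∧
          (s' : ↥(modularFunctionFieldFullC K (M' * q * q))) * rm90_j K (M' * q * q) = (b : ↥(modularFunctionFieldFullC K (M' * q * q)))) →
        mc25_MidPrinAt (v2g64_s K M' q) (pk15_chart R ({(pk85_h2 K (M' * q * q) (h2.trans ((dvd_mul_right M' q).trans (dvd_mul_right (M' * q) q))))} : Set ↥(modularFunctionFieldFullC K (M' * q * q)))) V₂.toSubring n))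
    (hC₂ : (∀ n : Ideal ↥(pk15_chart R ({(pk85_h2 K (M' * q * q) (h2.trans ((dvd_mul_right M' q).trans (dvd_mul_right (M' * q) q))))⁻¹} : Set ↥(modularFunctionFieldFullC K (M' * q * q)))), n.IsMaximal → algebraMap R ↥(pk15_chart R ({(pk85_h2 K (M' * q * q) (h2.trans ((dvd_mul_right M' q).trans (dvd_mul_right (M' * q) q))))⁻¹} : Set ↥(modularFunctionFieldFullC K (M' * q * q)))) π ∈ n →
        tl71_OnMid (v2g64_s K M' q) (pk15_chart R ({(pk85_h2 K (M' * q * q) (h2.trans ((dvd_mul_right M' q).trans (dvd_mul_right (M' * q) q))))⁻¹} : Set ↥(modularFunctionFieldFullC K (M' * q * q)))) V₂.toSubring n →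
        ¬ sf79_OnBr π (pk15_chart R ({(pk85_h2 K (M' * q * q) (h2.trans ((dvd_mul_right M' q).trans (dvd_mul_right (M' * q) q))))⁻¹} : Set ↥(modularFunctionFieldFullC K (M' * q * q)))) (cm85_Vinf (K := K) (M' * q * q) hπ).toSubring n →
        ¬ sf79_OnBr π (pk15_chart R ({(pk85_h2 K (M' * q * q) (h2.trans ((dvd_mul_right M' q).trans (dvd_mul_right (M' * q) q))))⁻¹} : Set ↥(modularFunctionFieldFullC K (M' * q * q)))) (nsb86_V3 (K := K) M' q hq hM' hπ).toSubring n →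
        (∃ s' b : ↥(pk15_chart R ({(pk85_h2 K (M' * q * q) (h2.trans ((dvd_mul_right M' q).trans (dvd_mul_right (M' * q) q))))⁻¹} : Set ↥(modularFunctionFieldFullC K (M' * q * q)))), s' ∉ n ∧
          (s' : ↥(modularFunctionFieldFullC K (M' * q * q))) * rm90_j K (M' * q * q) = (b : ↥(modularFunctionFieldFullC K (M' * q * q)))) →
        mc25_MidPrinAt (v2g64_s K M' q) (pk15_chart R ({(pk85_h2 K (M' * q * q) (h2.trans ((dvd_mul_right M' q).trans (dvd_mul_right (M' * q) q))))⁻¹} : Set ↥(modularFunctionFieldFullC K (M' * q * q)))) V₂.toSubring n))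
    (m : ℕ) (hm : 0 < m) :
    (∀ n : Ideal ↥(pk15_chart R ({(pk85_h2 K (M' * q * q) (h2.trans ((dvd_mul_right M' q).trans (dvd_mul_right (M' * q) q))))} : Set ↥(modularFunctionFieldFullC K (M' * q * q)))), n.IsMaximal → algebraMap R ↥(pk15_chart R ({(pk85_h2 K (M' * q * q) (h2.trans ((dvd_mul_right M' q).trans (dvd_mul_right (M' * q) q))))} : Set ↥(modularFunctionFieldFullC K (M' * q * q)))) π ∈ n →
      sf79_OnBr π (pk15_chart R ({(pk85_h2 K (M' * q * q) (h2.trans ((dvd_mul_right M' q).trans (dvd_mul_right (M' * q) q))))} : Set ↥(modularFunctionFieldFullC K (M' * q * q)))) (cm85_Vinf (K := K) (M' * q * q) hπ).toSubring n → sf79_OnBr π (pk15_chart R ({(pk85_h2 K (M' * q * q) (h2.trans ((dvd_mul_right M' q).trans (dvd_mul_right (M' * q) q))))} : Set ↥(modularFunctionFieldFullC K (M' * q * q)))) V₂.toSubring n →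
      sf79_OnBr π (pk15_chart R ({(pk85_h2 K (M' * q * q) (h2.trans ((dvd_mul_right M' q).trans (dvd_mul_right (M' * q) q))))} : Set ↥(modularFunctionFieldFullC K (M' * q * q)))) (nsb86_V3 (K := K) M' q hq hM' hπ).toSubring n →
      ∀ x : ↥(modularFunctionFieldFullC K (M' * q * q)), x ≠ 0 → s34i47_Ord π m x → s34i47_Fin π x →
        (x ∈ (cm85_Vinf (K := K) (M' * q * q) hπ) ∧ x⁻¹ ∈ (cm85_Vinf (K := K) (M' * q * q) hπ)) → (x ∈ V₂ ∧ x⁻¹ ∈ V₂) →
        (x ∈ (nsb86_V3 (K := K) M' q hq hM' hπ) ∧ x⁻¹ ∈ (nsb86_V3 (K := K) M' q hq hM' hπ)) →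
        ∃ c : ↥(modularFunctionFieldFullC K (M' * q * q)), c ≠ 0 ∧ (c ∈ (cm85_Vinf (K := K) (M' * q * q) hπ) ∧ c⁻¹ ∈ (cm85_Vinf (K := K) (M' * q * q) hπ)) ∧ (c ∈ V₂ ∧ c⁻¹ ∈ V₂) ∧
          (c ∈ (nsb86_V3 (K := K) M' q hq hM' hπ) ∧ c⁻¹ ∈ (nsb86_V3 (K := K) M' q hq hM' hπ)) ∧
          (∃ s : ↥(pk15_chart R ({(pk85_h2 K (M' * q * q) (h2.trans ((dvd_mul_right M' q).trans (dvd_mul_right (M' * q) q))))} : Set ↥(modularFunctionFieldFullC K (M' * q * q)))), s ∉ n ∧ (s : ↥(modularFunctionFieldFullC K (M' * q * q))) * (x / c ^ m) ∈ (pk15_chart R ({(pk85_h2 K (M' * q * q) (h2.trans ((dvd_mul_right M' q).trans (dvd_mul_right (M' * q) q))))} : Set ↥(modularFunctionFieldFullC K (M' * q * q))))) ∧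
          (∃ s : ↥(pk15_chart R ({(pk85_h2 K (M' * q * q) (h2.trans ((dvd_mul_right M' q).trans (dvd_mul_right (M' * q) q))))} : Set ↥(modularFunctionFieldFullC K (M' * q * q)))), s ∉ n ∧ (s : ↥(modularFunctionFieldFullC K (M' * q * q))) * (c ^ m / x) ∈ (pk15_chart R ({(pk85_h2 K (M' * q * q) (h2.trans ((dvd_mul_right M' q).trans (dvd_mul_right (M' * q) q))))} : Set ↥(modularFunctionFieldFullC K (M' * q * q)))))) ∧
    (∀ n : Ideal ↥(pk15_chart R ({(pk85_h2 K (M' * q * q) (h2.trans ((dvd_mul_right M' q).trans (dvd_mul_right (M' * q) q))))⁻¹} : Set ↥(modularFunctionFieldFullC K (M' * q * q)))), n.IsMaximal → algebraMap R ↥(pk15_chart R ({(pk85_h2 K (M' * q * q) (h2.trans ((dvd_mul_right M' q).trans (dvd_mul_right (M' * q) q))))⁻¹} : Set ↥(modularFunctionFieldFullC K (M' * q * q)))) π ∈ n →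
      sf79_OnBr π (pk15_chart R ({(pk85_h2 K (M' * q * q) (h2.trans ((dvd_mul_right M' q).trans (dvd_mul_right (M' * q) q))))⁻¹} : Set ↥(modularFunctionFieldFullC K (M' * q * q)))) (cm85_Vinf (K := K) (M' * q * q) hπ).toSubring n → sf79_OnBr π (pk15_chart R ({(pk85_h2 K (M' * q * q) (h2.trans ((dvd_mul_right M' q).trans (dvd_mul_right (M' * q) q))))⁻¹} : Set ↥(modularFunctionFieldFullC K (M' * q * q)))) V₂.toSubring n →
      sf79_OnBr π (pk15_chart R ({(pk85_h2 K (M' * q * q) (h2.trans ((dvd_mul_right M' q).trans (dvd_mul_right (M' * q) q))))⁻¹} : Set ↥(modularFunctionFieldFullC K (M' * q * q)))) (nsb86_V3 (K := K) M' q hq hM' hπ).toSubring n →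
      ∀ x : ↥(modularFunctionFieldFullC K (M' * q * q)), x ≠ 0 → s34i47_Ord π m x → s34i47_Fin π x →
        (x ∈ (cm85_Vinf (K := K) (M' * q * q) hπ) ∧ x⁻¹ ∈ (cm85_Vinf (K := K) (M' * q * q) hπ)) → (x ∈ V₂ ∧ x⁻¹ ∈ V₂) →
        (x ∈ (nsb86_V3 (K := K) M' q hq hM' hπ) ∧ x⁻¹ ∈ (nsb86_V3 (K := K) M' q hq hM' hπ)) →
        ∃ c : ↥(modularFunctionFieldFullC K (M' * q * q)), c ≠ 0 ∧ (c ∈ (cm85_Vinf (K := K) (M' * q * q) hπ) ∧ c⁻¹ ∈ (cm85_Vinf (K := K) (M' * q * q) hπ)) ∧ (c ∈ V₂ ∧ c⁻¹ ∈ V₂) ∧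
          (c ∈ (nsb86_V3 (K := K) M' q hq hM' hπ) ∧ c⁻¹ ∈ (nsb86_V3 (K := K) M' q hq hM' hπ)) ∧
          (∃ s : ↥(pk15_chart R ({(pk85_h2 K (M' * q * q) (h2.trans ((dvd_mul_right M' q).trans (dvd_mul_right (M' * q) q))))⁻¹} : Set ↥(modularFunctionFieldFullC K (M' * q * q)))), s ∉ n ∧ (s : ↥(modularFunctionFieldFullC K (M' * q * q))) * (x / c ^ m) ∈ (pk15_chart R ({(pk85_h2 K (M' * q * q) (h2.trans ((dvd_mul_right M' q).trans (dvd_mul_right (M' * q) q))))⁻¹} : Set ↥(modularFunctionFieldFullC K (M' * q * q))))) ∧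
          (∃ s : ↥(pk15_chart R ({(pk85_h2 K (M' * q * q) (h2.trans ((dvd_mul_right M' q).trans (dvd_mul_right (M' * q) q))))⁻¹} : Set ↥(modularFunctionFieldFullC K (M' * q * q)))), s ∉ n ∧ (s : ↥(modularFunctionFieldFullC K (M' * q * q))) * (c ^ m / x) ∈ (pk15_chart R ({(pk85_h2 K (M' * q * q) (h2.trans ((dvd_mul_right M' q).trans (dvd_mul_right (M' * q) q))))⁻¹} : Set ↥(modularFunctionFieldFullC K (M' * q * q)))))) := by
  obtain ⟨hS1, hS2⟩ := rc9_strong_level2 (K := K) M' q hq hM' hπ hunit hqR hMu h2 u u' huu' hqπ V₂ hV₂ hπ₂ hne hs hreg₁ hreg₂ hC₁ hC₂ m hm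
  exact ⟨fun n hn hπn h1 h2' h3' => rc9_tripleLP_of_strong π m _ _ _ _ hS1 n hn hπn h1 h2' h3',
    fun n hn hπn h1 h2' h3' => rc9_tripleLP_of_strong π m _ _ _ _ hS2 n hn hπn h1 h2' h3'⟩

include hq hM' in
/-- **`lps9_Strong` on both canonical charts, Hauptmodul of level 3**, from (REG) + (C2) only. -/
theorem rc9_strong_level3 (hunit : ∀ n : ℕ, Nat.Coprime n q → IsUnit (n : R))
    (hqR : ¬ IsUnit (q : R)) (hMu : IsUnit (M' : R)) (h3 : 3 ∣ M')
    (u u' : R) (huu' : u * u' = 1) (hqπ : (q : R) = u * π)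
    (V₂ : ValuationSubring ↥(modularFunctionFieldFullC K (M' * q * q)))
    (hV₂ : ∀ c ∈ cm85_Vinf (K := K) (M' * q) hπ, al97L_alpha K (M' * q) q c ∈ V₂)
    (hπ₂ : (algebraMap K ↥(modularFunctionFieldFullC K (M' * q * q)) (algebraMap R K π))⁻¹ ∉ V₂)
    (hne : cm85_Vinf (K := K) (M' * q * q) hπ ≠ V₂)
    (hs : V₂.valuation (v2g64_s K M' q) ^ (q - 1) =
      V₂.valuation (algebraMap K ↥(modularFunctionFieldFullC K (M' * q * q)) (algebraMap R K π)))
    (hreg₁ : tf71_RegNodes (K := K) M' q hq hM' hπ (pk15_chart R ({(pk85_h3 K (M' * q) (h3.trans (dvd_mul_right M' q)))} : Set ↥(modularFunctionFieldFullC K (M' * q)))))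
    (hreg₂ : tf71_RegNodes (K := K) M' q hq hM' hπ (pk15_chart R ({(pk85_h3 K (M' * q) (h3.trans (dvd_mul_right M' q)))⁻¹} : Set ↥(modularFunctionFieldFullC K (M' * q)))))
    (hC₁ : (∀ n : Ideal ↥(pk15_chart R ({(pk85_h3 K (M' * q * q) (h3.trans ((dvd_mul_right M' q).trans (dvd_mul_right (M' * q) q))))} : Set ↥(modularFunctionFieldFullC K (M' * q * q)))), n.IsMaximal → algebraMap R ↥(pk15_chart R ({(pk85_h3 K (M' * q * q) (h3.trans ((dvd_mul_right M' q).trans (dvd_mul_right (M' * q) q))))} : Set ↥(modularFunctionFieldFullC K (M' * q * q)))) π ∈ n →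
        tl71_OnMid (v2g64_s K M' q) (pk15_chart R ({(pk85_h3 K (M' * q * q) (h3.trans ((dvd_mul_right M' q).trans (dvd_mul_right (M' * q) q))))} : Set ↥(modularFunctionFieldFullC K (M' * q * q)))) V₂.toSubring n →
        ¬ sf79_OnBr π (pk15_chart R ({(pk85_h3 K (M' * q * q) (h3.trans ((dvd_mul_right M' q).trans (dvd_mul_right (M' * q) q))))} : Set ↥(modularFunctionFieldFullC K (M' * q * q)))) (cm85_Vinf (K := K) (M' * q * q) hπ).toSubring n →
        ¬ sf79_OnBr π (pk15_chart R ({(pk85_h3 K (M' * q * q) (h3.trans ((dvd_mul_right M' q).trans (dvd_mul_right (M' * q) q))))} : Set ↥(modularFunctionFieldFullC K (M' * q * q)))) (nsb86_V3 (K := K) M' q hq hM' hπ).toSubring n →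
        (∃ s' b : ↥(pk15_chart R ({(pk85_h3 K (M' * q * q) (h3.trans ((dvd_mul_right M' q).trans (dvd_mul_right (M' * q) q))))} : Set ↥(modularFunctionFieldFullC K (M' * q * q)))), s' ∉ n ∧
          (s' : ↥(modularFunctionFieldFullC K (M' * q * q))) * rm90_j K (M' * q * q) = (b : ↥(modularFunctionFieldFullC K (M' * q * q)))) →
        mc25_MidPrinAt (v2g64_s K M' q) (pk15_chart R ({(pk85_h3 K (M' * q * q) (h3.trans ((dvd_mul_right M' q).trans (dvd_mul_right (M' * q) q))))} : Set ↥(modularFunctionFieldFullC K (M' * q * q)))) V₂.toSubring n))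
    (hC₂ : (∀ n : Ideal ↥(pk15_chart R ({(pk85_h3 K (M' * q * q) (h3.trans ((dvd_mul_right M' q).trans (dvd_mul_right (M' * q) q))))⁻¹} : Set ↥(modularFunctionFieldFullC K (M' * q * q)))), n.IsMaximal → algebraMap R ↥(pk15_chart R ({(pk85_h3 K (M' * q * q) (h3.trans ((dvd_mul_right M' q).trans (dvd_mul_right (M' * q) q))))⁻¹} : Set ↥(modularFunctionFieldFullC K (M' * q * q)))) π ∈ n →
        tl71_OnMid (v2g64_s K M' q) (pk15_chart R ({(pk85_h3 K (M' * q * q) (h3.trans ((dvd_mul_right M' q).trans (dvd_mul_right (M' * q) q))))⁻¹} : Set ↥(modularFunctionFieldFullC K (M' * q * q)))) V₂.toSubring n →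
        ¬ sf79_OnBr π (pk15_chart R ({(pk85_h3 K (M' * q * q) (h3.trans ((dvd_mul_right M' q).trans (dvd_mul_right (M' * q) q))))⁻¹} : Set ↥(modularFunctionFieldFullC K (M' * q * q)))) (cm85_Vinf (K := K) (M' * q * q) hπ).toSubring n →
        ¬ sf79_OnBr π (pk15_chart R ({(pk85_h3 K (M' * q * q) (h3.trans ((dvd_mul_right M' q).trans (dvd_mul_right (M' * q) q))))⁻¹} : Set ↥(modularFunctionFieldFullC K (M' * q * q)))) (nsb86_V3 (K := K) M' q hq hM' hπ).toSubring n →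
        (∃ s' b : ↥(pk15_chart R ({(pk85_h3 K (M' * q * q) (h3.trans ((dvd_mul_right M' q).trans (dvd_mul_right (M' * q) q))))⁻¹} : Set ↥(modularFunctionFieldFullC K (M' * q * q)))), s' ∉ n ∧
          (s' : ↥(modularFunctionFieldFullC K (M' * q * q))) * rm90_j K (M' * q * q) = (b : ↥(modularFunctionFieldFullC K (M' * q * q)))) →
        mc25_MidPrinAt (v2g64_s K M' q) (pk15_chart R ({(pk85_h3 K (M' * q * q) (h3.trans ((dvd_mul_right M' q).trans (dvd_mul_right (M' * q) q))))⁻¹} : Set ↥(modularFunctionFieldFullC K (M' * q * q)))) V₂.toSubring n))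
    (m : ℕ) (hm : 0 < m) :
    (∀ x : ↥(modularFunctionFieldFullC K (M' * q * q)), x ≠ 0 →
      (x ∈ (cm85_Vinf (K := K) (M' * q * q) hπ) ∧ x⁻¹ ∈ (cm85_Vinf (K := K) (M' * q * q) hπ)) → (x ∈ V₂ ∧ x⁻¹ ∈ V₂) →
      (x ∈ (nsb86_V3 (K := K) M' q hq hM' hπ) ∧ x⁻¹ ∈ (nsb86_V3 (K := K) M' q hq hM' hπ)) →
      s34i47_Ord π m x → s34i47_Fin π x →
      lps9_Strong π m (pk15_chart R ({(pk85_h3 K (M' * q * q) (h3.trans ((dvd_mul_right M' q).trans (dvd_mul_right (M' * q) q))))} : Set ↥(modularFunctionFieldFullC K (M' * q * q)))) (cm85_Vinf (K := K) (M' * q * q) hπ) V₂ (nsb86_V3 (K := K) M' q hq hM' hπ) x) ∧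
    (∀ x : ↥(modularFunctionFieldFullC K (M' * q * q)), x ≠ 0 →
      (x ∈ (cm85_Vinf (K := K) (M' * q * q) hπ) ∧ x⁻¹ ∈ (cm85_Vinf (K := K) (M' * q * q) hπ)) → (x ∈ V₂ ∧ x⁻¹ ∈ V₂) →
      (x ∈ (nsb86_V3 (K := K) M' q hq hM' hπ) ∧ x⁻¹ ∈ (nsb86_V3 (K := K) M' q hq hM' hπ)) →
      s34i47_Ord π m x → s34i47_Fin π x →
      lps9_Strong π m (pk15_chart R ({(pk85_h3 K (M' * q * q) (h3.trans ((dvd_mul_right M' q).trans (dvd_mul_right (M' * q) q))))⁻¹} : Set ↥(modularFunctionFieldFullC K (M' * q * q)))) (cm85_Vinf (K := K) (M' * q * q) hπ) V₂ (nsb86_V3 (K := K) M' q hq hM' hπ) x) := by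
  obtain ⟨hT1, hT2⟩ := tg71_final_level3 (K := K) M' q hq hM' hπ hunit hqR hMu h3 u u' huu' hqπ
    V₂ hV₂ hπ₂ hne hs hreg₁ hreg₂ hC₁ hC₂
  obtain ⟨hDa, hDb⟩ := tg71_hD_level3 (K := K) M' q hq hM' hπ hunit hqR h3 V₂ hV₂ hπ₂ hne hs
  obtain ⟨hD1a, hD3a⟩ := hDa hreg₁
  obtain ⟨hD1b, hD3b⟩ := hDb hreg₂
  exact ⟨fun x hx hx1 hx2 hx3 hO hF =>
      sc9_strong_level3 (K := K) M' q hq hM' hπ hqR hMu h3 V₂ hV₂ hπ₂ hne hs hT1 hD1a hD3a m hm
        x hx hx1 hx2 hx3 hO hF,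
    fun x hx hx1 hx2 hx3 hO hF =>
      sc9_strong_level3_inv (K := K) M' q hq hM' hπ hqR hMu h3 V₂ hV₂ hπ₂ hne hs hT2 hD1b hD3b
        m hm x hx hx1 hx2 hx3 hO hF⟩

include hq hM' in
/-- **`hroot` of `hp53_HP3` on both canonical charts, Hauptmodul of level 3** (literal shape). -/
theorem rc9_root_level3 (hunit : ∀ n : ℕ, Nat.Coprime n q → IsUnit (n : R))
    (hqR : ¬ IsUnit (q : R)) (hMu : IsUnit (M' : R)) (h3 : 3 ∣ M')
    (u u' : R) (huu' : u * u' = 1) (hqπ : (q : R) = u * π)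
    (V₂ : ValuationSubring ↥(modularFunctionFieldFullC K (M' * q * q)))
    (hV₂ : ∀ c ∈ cm85_Vinf (K := K) (M' * q) hπ, al97L_alpha K (M' * q) q c ∈ V₂)
    (hπ₂ : (algebraMap K ↥(modularFunctionFieldFullC K (M' * q * q)) (algebraMap R K π))⁻¹ ∉ V₂)
    (hne : cm85_Vinf (K := K) (M' * q * q) hπ ≠ V₂)
    (hs : V₂.valuation (v2g64_s K M' q) ^ (q - 1) =
      V₂.valuation (algebraMap K ↥(modularFunctionFieldFullC K (M' * q * q)) (algebraMap R K π)))
    (hreg₁ : tf71_RegNodes (K := K) M' q hq hM' hπ (pk15_chart R ({(pk85_h3 K (M' * q) (h3.trans (dvd_mul_right M' q)))} : Set ↥(modularFunctionFieldFullC K (M' * q)))))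
    (hreg₂ : tf71_RegNodes (K := K) M' q hq hM' hπ (pk15_chart R ({(pk85_h3 K (M' * q) (h3.trans (dvd_mul_right M' q)))⁻¹} : Set ↥(modularFunctionFieldFullC K (M' * q)))))
    (hC₁ : (∀ n : Ideal ↥(pk15_chart R ({(pk85_h3 K (M' * q * q) (h3.trans ((dvd_mul_right M' q).trans (dvd_mul_right (M' * q) q))))} : Set ↥(modularFunctionFieldFullC K (M' * q * q)))), n.IsMaximal → algebraMap R ↥(pk15_chart R ({(pk85_h3 K (M' * q * q) (h3.trans ((dvd_mul_right M' q).trans (dvd_mul_right (M' * q) q))))} : Set ↥(modularFunctionFieldFullC K (M' * q * q)))) π ∈ n →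
        tl71_OnMid (v2g64_s K M' q) (pk15_chart R ({(pk85_h3 K (M' * q * q) (h3.trans ((dvd_mul_right M' q).trans (dvd_mul_right (M' * q) q))))} : Set ↥(modularFunctionFieldFullC K (M' * q * q)))) V₂.toSubring n →
        ¬ sf79_OnBr π (pk15_chart R ({(pk85_h3 K (M' * q * q) (h3.trans ((dvd_mul_right M' q).trans (dvd_mul_right (M' * q) q))))} : Set ↥(modularFunctionFieldFullC K (M' * q * q)))) (cm85_Vinf (K := K) (M' * q * q) hπ).toSubring n →
        ¬ sf79_OnBr π (pk15_chart R ({(pk85_h3 K (M' * q * q) (h3.trans ((dvd_mul_right M' q).trans (dvd_mul_right (M' * q) q))))} : Set ↥(modularFunctionFieldFullC K (M' * q * q)))) (nsb86_V3 (K := K) M' q hq hM' hπ).toSubring n →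
        (∃ s' b : ↥(pk15_chart R ({(pk85_h3 K (M' * q * q) (h3.trans ((dvd_mul_right M' q).trans (dvd_mul_right (M' * q) q))))} : Set ↥(modularFunctionFieldFullC K (M' * q * q)))), s' ∉ n ∧
          (s' : ↥(modularFunctionFieldFullC K (M' * q * q))) * rm90_j K (M' * q * q) = (b : ↥(modularFunctionFieldFullC K (M' * q * q)))) →
        mc25_MidPrinAt (v2g64_s K M' q) (pk15_chart R ({(pk85_h3 K (M' * q * q) (h3.trans ((dvd_mul_right M' q).trans (dvd_mul_right (M' * q) q))))} : Set ↥(modularFunctionFieldFullC K (M' * q * q)))) V₂.toSubring n))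
    (hC₂ : (∀ n : Ideal ↥(pk15_chart R ({(pk85_h3 K (M' * q * q) (h3.trans ((dvd_mul_right M' q).trans (dvd_mul_right (M' * q) q))))⁻¹} : Set ↥(modularFunctionFieldFullC K (M' * q * q)))), n.IsMaximal → algebraMap R ↥(pk15_chart R ({(pk85_h3 K (M' * q * q) (h3.trans ((dvd_mul_right M' q).trans (dvd_mul_right (M' * q) q))))⁻¹} : Set ↥(modularFunctionFieldFullC K (M' * q * q)))) π ∈ n →
        tl71_OnMid (v2g64_s K M' q) (pk15_chart R ({(pk85_h3 K (M' * q * q) (h3.trans ((dvd_mul_right M' q).trans (dvd_mul_right (M' * q) q))))⁻¹} : Set ↥(modularFunctionFieldFullC K (M' * q * q)))) V₂.toSubring n →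
        ¬ sf79_OnBr π (pk15_chart R ({(pk85_h3 K (M' * q * q) (h3.trans ((dvd_mul_right M' q).trans (dvd_mul_right (M' * q) q))))⁻¹} : Set ↥(modularFunctionFieldFullC K (M' * q * q)))) (cm85_Vinf (K := K) (M' * q * q) hπ).toSubring n →
        ¬ sf79_OnBr π (pk15_chart R ({(pk85_h3 K (M' * q * q) (h3.trans ((dvd_mul_right M' q).trans (dvd_mul_right (M' * q) q))))⁻¹} : Set ↥(modularFunctionFieldFullC K (M' * q * q)))) (nsb86_V3 (K := K) M' q hq hM' hπ).toSubring n →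
        (∃ s' b : ↥(pk15_chart R ({(pk85_h3 K (M' * q * q) (h3.trans ((dvd_mul_right M' q).trans (dvd_mul_right (M' * q) q))))⁻¹} : Set ↥(modularFunctionFieldFullC K (M' * q * q)))), s' ∉ n ∧
          (s' : ↥(modularFunctionFieldFullC K (M' * q * q))) * rm90_j K (M' * q * q) = (b : ↥(modularFunctionFieldFullC K (M' * q * q)))) →
        mc25_MidPrinAt (v2g64_s K M' q) (pk15_chart R ({(pk85_h3 K (M' * q * q) (h3.trans ((dvd_mul_right M' q).trans (dvd_mul_right (M' * q) q))))⁻¹} : Set ↥(modularFunctionFieldFullC K (M' * q * q)))) V₂.toSubring n))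
    (m : ℕ) (hm : 0 < m) :
    (∀ x : ↥(modularFunctionFieldFullC K (M' * q * q)), x ≠ 0 → s34i47_Ord π m x → s34i47_Fin π x →
      (cm85_Vinf (K := K) (M' * q * q) hπ).valuation (x - 1) < 1 → V₂.valuation (x - 1) < 1 →
      (nsb86_V3 (K := K) M' q hq hM' hπ).valuation (x - 1) < 1 →
      ∀ n : Ideal ↥(pk15_chart R ({(pk85_h3 K (M' * q * q) (h3.trans ((dvd_mul_right M' q).trans (dvd_mul_right (M' * q) q))))} : Set ↥(modularFunctionFieldFullC K (M' * q * q)))), n.IsMaximal → algebraMap R ↥(pk15_chart R ({(pk85_h3 K (M' * q * q) (h3.trans ((dvd_mul_right M' q).trans (dvd_mul_right (M' * q) q))))} : Set ↥(modularFunctionFieldFullC K (M' * q * q)))) π ∈ n →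
        ∃ c : ↥(modularFunctionFieldFullC K (M' * q * q)), c ≠ 0 ∧
          (∃ s : ↥(pk15_chart R ({(pk85_h3 K (M' * q * q) (h3.trans ((dvd_mul_right M' q).trans (dvd_mul_right (M' * q) q))))} : Set ↥(modularFunctionFieldFullC K (M' * q * q)))), s ∉ n ∧ (s : ↥(modularFunctionFieldFullC K (M' * q * q))) * (x / c ^ m) ∈ (pk15_chart R ({(pk85_h3 K (M' * q * q) (h3.trans ((dvd_mul_right M' q).trans (dvd_mul_right (M' * q) q))))} : Set ↥(modularFunctionFieldFullC K (M' * q * q))))) ∧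
          ∃ s : ↥(pk15_chart R ({(pk85_h3 K (M' * q * q) (h3.trans ((dvd_mul_right M' q).trans (dvd_mul_right (M' * q) q))))} : Set ↥(modularFunctionFieldFullC K (M' * q * q)))), s ∉ n ∧ (s : ↥(modularFunctionFieldFullC K (M' * q * q))) * (c ^ m / x) ∈ (pk15_chart R ({(pk85_h3 K (M' * q * q) (h3.trans ((dvd_mul_right M' q).trans (dvd_mul_right (M' * q) q))))} : Set ↥(modularFunctionFieldFullC K (M' * q * q))))) ∧
    (∀ x : ↥(modularFunctionFieldFullC K (M' * q * q)), x ≠ 0 → s34i47_Ord π m x → s34i47_Fin π x →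
      (cm85_Vinf (K := K) (M' * q * q) hπ).valuation (x - 1) < 1 → V₂.valuation (x - 1) < 1 →
      (nsb86_V3 (K := K) M' q hq hM' hπ).valuation (x - 1) < 1 →
      ∀ n : Ideal ↥(pk15_chart R ({(pk85_h3 K (M' * q * q) (h3.trans ((dvd_mul_right M' q).trans (dvd_mul_right (M' * q) q))))⁻¹} : Set ↥(modularFunctionFieldFullC K (M' * q * q)))), n.IsMaximal → algebraMap R ↥(pk15_chart R ({(pk85_h3 K (M' * q * q) (h3.trans ((dvd_mul_right M' q).trans (dvd_mul_right (M' * q) q))))⁻¹} : Set ↥(modularFunctionFieldFullC K (M' * q * q)))) π ∈ n →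
        ∃ c : ↥(modularFunctionFieldFullC K (M' * q * q)), c ≠ 0 ∧
          (∃ s : ↥(pk15_chart R ({(pk85_h3 K (M' * q * q) (h3.trans ((dvd_mul_right M' q).trans (dvd_mul_right (M' * q) q))))⁻¹} : Set ↥(modularFunctionFieldFullC K (M' * q * q)))), s ∉ n ∧ (s : ↥(modularFunctionFieldFullC K (M' * q * q))) * (x / c ^ m) ∈ (pk15_chart R ({(pk85_h3 K (M' * q * q) (h3.trans ((dvd_mul_right M' q).trans (dvd_mul_right (M' * q) q))))⁻¹} : Set ↥(modularFunctionFieldFullC K (M' * q * q))))) ∧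
          ∃ s : ↥(pk15_chart R ({(pk85_h3 K (M' * q * q) (h3.trans ((dvd_mul_right M' q).trans (dvd_mul_right (M' * q) q))))⁻¹} : Set ↥(modularFunctionFieldFullC K (M' * q * q)))), s ∉ n ∧ (s : ↥(modularFunctionFieldFullC K (M' * q * q))) * (c ^ m / x) ∈ (pk15_chart R ({(pk85_h3 K (M' * q * q) (h3.trans ((dvd_mul_right M' q).trans (dvd_mul_right (M' * q) q))))⁻¹} : Set ↥(modularFunctionFieldFullC K (M' * q * q))))) := by
  obtain ⟨hS1, hS2⟩ := rc9_strong_level3 (K := K) M' q hq hM' hπ hunit hqR hMu h3 u u' huu' hqπ V₂ hV₂ hπ₂ hne hs hreg₁ hreg₂ hC₁ hC₂ m hm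
  exact ⟨rc9_root_of_strong π m _ _ _ _ hS1, rc9_root_of_strong π m _ _ _ _ hS2⟩

include hq hM' in
/-- **`hLP` of `hp1x90_HP1` on both canonical charts, Hauptmodul of level 3** (literal shape, family
`fd85_V`). -/
theorem rc9_LP_level3 (hunit : ∀ n : ℕ, Nat.Coprime n q → IsUnit (n : R))
    (hqR : ¬ IsUnit (q : R)) (hMu : IsUnit (M' : R)) (h3 : 3 ∣ M')
    (u u' : R) (huu' : u * u' = 1) (hqπ : (q : R) = u * π)
    (V₂ : ValuationSubring ↥(modularFunctionFieldFullC K (M' * q * q)))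
    (hV₂ : ∀ c ∈ cm85_Vinf (K := K) (M' * q) hπ, al97L_alpha K (M' * q) q c ∈ V₂)
    (hπ₂ : (algebraMap K ↥(modularFunctionFieldFullC K (M' * q * q)) (algebraMap R K π))⁻¹ ∉ V₂)
    (hne : cm85_Vinf (K := K) (M' * q * q) hπ ≠ V₂)
    (hs : V₂.valuation (v2g64_s K M' q) ^ (q - 1) =
      V₂.valuation (algebraMap K ↥(modularFunctionFieldFullC K (M' * q * q)) (algebraMap R K π)))
    (hreg₁ : tf71_RegNodes (K := K) M' q hq hM' hπ (pk15_chart R ({(pk85_h3 K (M' * q) (h3.trans (dvd_mul_right M' q)))} : Set ↥(modularFunctionFieldFullC K (M' * q)))))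
    (hreg₂ : tf71_RegNodes (K := K) M' q hq hM' hπ (pk15_chart R ({(pk85_h3 K (M' * q) (h3.trans (dvd_mul_right M' q)))⁻¹} : Set ↥(modularFunctionFieldFullC K (M' * q)))))
    (hC₁ : (∀ n : Ideal ↥(pk15_chart R ({(pk85_h3 K (M' * q * q) (h3.trans ((dvd_mul_right M' q).trans (dvd_mul_right (M' * q) q))))} : Set ↥(modularFunctionFieldFullC K (M' * q * q)))), n.IsMaximal → algebraMap R ↥(pk15_chart R ({(pk85_h3 K (M' * q * q) (h3.trans ((dvd_mul_right M' q).trans (dvd_mul_right (M' * q) q))))} : Set ↥(modularFunctionFieldFullC K (M' * q * q)))) π ∈ n →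
        tl71_OnMid (v2g64_s K M' q) (pk15_chart R ({(pk85_h3 K (M' * q * q) (h3.trans ((dvd_mul_right M' q).trans (dvd_mul_right (M' * q) q))))} : Set ↥(modularFunctionFieldFullC K (M' * q * q)))) V₂.toSubring n →
        ¬ sf79_OnBr π (pk15_chart R ({(pk85_h3 K (M' * q * q) (h3.trans ((dvd_mul_right M' q).trans (dvd_mul_right (M' * q) q))))} : Set ↥(modularFunctionFieldFullC K (M' * q * q)))) (cm85_Vinf (K := K) (M' * q * q) hπ).toSubring n →
        ¬ sf79_OnBr π (pk15_chart R ({(pk85_h3 K (M' * q * q) (h3.trans ((dvd_mul_right M' q).trans (dvd_mul_right (M' * q) q))))} : Set ↥(modularFunctionFieldFullC K (M' * q * q)))) (nsb86_V3 (K := K) M' q hq hM' hπ).toSubring n →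
        (∃ s' b : ↥(pk15_chart R ({(pk85_h3 K (M' * q * q) (h3.trans ((dvd_mul_right M' q).trans (dvd_mul_right (M' * q) q))))} : Set ↥(modularFunctionFieldFullC K (M' * q * q)))), s' ∉ n ∧
          (s' : ↥(modularFunctionFieldFullC K (M' * q * q))) * rm90_j K (M' * q * q) = (b : ↥(modularFunctionFieldFullC K (M' * q * q)))) →
        mc25_MidPrinAt (v2g64_s K M' q) (pk15_chart R ({(pk85_h3 K (M' * q * q) (h3.trans ((dvd_mul_right M' q).trans (dvd_mul_right (M' * q) q))))} : Set ↥(modularFunctionFieldFullC K (M' * q * q)))) V₂.toSubring n))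
    (hC₂ : (∀ n : Ideal ↥(pk15_chart R ({(pk85_h3 K (M' * q * q) (h3.trans ((dvd_mul_right M' q).trans (dvd_mul_right (M' * q) q))))⁻¹} : Set ↥(modularFunctionFieldFullC K (M' * q * q)))), n.IsMaximal → algebraMap R ↥(pk15_chart R ({(pk85_h3 K (M' * q * q) (h3.trans ((dvd_mul_right M' q).trans (dvd_mul_right (M' * q) q))))⁻¹} : Set ↥(modularFunctionFieldFullC K (M' * q * q)))) π ∈ n →
        tl71_OnMid (v2g64_s K M' q) (pk15_chart R ({(pk85_h3 K (M' * q * q) (h3.trans ((dvd_mul_right M' q).trans (dvd_mul_right (M' * q) q))))⁻¹} : Set ↥(modularFunctionFieldFullC K (M' * q * q)))) V₂.toSubring n →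
        ¬ sf79_OnBr π (pk15_chart R ({(pk85_h3 K (M' * q * q) (h3.trans ((dvd_mul_right M' q).trans (dvd_mul_right (M' * q) q))))⁻¹} : Set ↥(modularFunctionFieldFullC K (M' * q * q)))) (cm85_Vinf (K := K) (M' * q * q) hπ).toSubring n →
        ¬ sf79_OnBr π (pk15_chart R ({(pk85_h3 K (M' * q * q) (h3.trans ((dvd_mul_right M' q).trans (dvd_mul_right (M' * q) q))))⁻¹} : Set ↥(modularFunctionFieldFullC K (M' * q * q)))) (nsb86_V3 (K := K) M' q hq hM' hπ).toSubring n →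
        (∃ s' b : ↥(pk15_chart R ({(pk85_h3 K (M' * q * q) (h3.trans ((dvd_mul_right M' q).trans (dvd_mul_right (M' * q) q))))⁻¹} : Set ↥(modularFunctionFieldFullC K (M' * q * q)))), s' ∉ n ∧
          (s' : ↥(modularFunctionFieldFullC K (M' * q * q))) * rm90_j K (M' * q * q) = (b : ↥(modularFunctionFieldFullC K (M' * q * q)))) →
        mc25_MidPrinAt (v2g64_s K M' q) (pk15_chart R ({(pk85_h3 K (M' * q * q) (h3.trans ((dvd_mul_right M' q).trans (dvd_mul_right (M' * q) q))))⁻¹} : Set ↥(modularFunctionFieldFullC K (M' * q * q)))) V₂.toSubring n))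
    (m : ℕ) (hm : 0 < m) :
    (∀ x : ↥(modularFunctionFieldFullC K (M' * q * q)), x ≠ 0 →
      (∀ i, x ∈ (fd85_V (K := K) M' q hq hM' hπ V₂) i ∧ x⁻¹ ∈ (fd85_V (K := K) M' q hq hM' hπ V₂) i) →
      s34i47_Ord π m x → s34i47_Fin π x →
      ∀ n : Ideal ↥(pk15_chart R ({(pk85_h3 K (M' * q * q) (h3.trans ((dvd_mul_right M' q).trans (dvd_mul_right (M' * q) q))))} : Set ↥(modularFunctionFieldFullC K (M' * q * q)))), n.IsMaximal → algebraMap R ↥(pk15_chart R ({(pk85_h3 K (M' * q * q) (h3.trans ((dvd_mul_right M' q).trans (dvd_mul_right (M' * q) q))))} : Set ↥(modularFunctionFieldFullC K (M' * q * q)))) π ∈ n →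
        ∃ c : ↥(modularFunctionFieldFullC K (M' * q * q)), c ≠ 0 ∧
          (∃ s : ↥(pk15_chart R ({(pk85_h3 K (M' * q * q) (h3.trans ((dvd_mul_right M' q).trans (dvd_mul_right (M' * q) q))))} : Set ↥(modularFunctionFieldFullC K (M' * q * q)))), s ∉ n ∧ (s : ↥(modularFunctionFieldFullC K (M' * q * q))) * (x / c ^ m) ∈ (pk15_chart R ({(pk85_h3 K (M' * q * q) (h3.trans ((dvd_mul_right M' q).trans (dvd_mul_right (M' * q) q))))} : Set ↥(modularFunctionFieldFullC K (M' * q * q))))) ∧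
          ∃ s : ↥(pk15_chart R ({(pk85_h3 K (M' * q * q) (h3.trans ((dvd_mul_right M' q).trans (dvd_mul_right (M' * q) q))))} : Set ↥(modularFunctionFieldFullC K (M' * q * q)))), s ∉ n ∧ (s : ↥(modularFunctionFieldFullC K (M' * q * q))) * (c ^ m / x) ∈ (pk15_chart R ({(pk85_h3 K (M' * q * q) (h3.trans ((dvd_mul_right M' q).trans (dvd_mul_right (M' * q) q))))} : Set ↥(modularFunctionFieldFullC K (M' * q * q))))) ∧
    (∀ x : ↥(modularFunctionFieldFullC K (M' * q * q)), x ≠ 0 →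
      (∀ i, x ∈ (fd85_V (K := K) M' q hq hM' hπ V₂) i ∧ x⁻¹ ∈ (fd85_V (K := K) M' q hq hM' hπ V₂) i) →
      s34i47_Ord π m x → s34i47_Fin π x →
      ∀ n : Ideal ↥(pk15_chart R ({(pk85_h3 K (M' * q * q) (h3.trans ((dvd_mul_right M' q).trans (dvd_mul_right (M' * q) q))))⁻¹} : Set ↥(modularFunctionFieldFullC K (M' * q * q)))), n.IsMaximal → algebraMap R ↥(pk15_chart R ({(pk85_h3 K (M' * q * q) (h3.trans ((dvd_mul_right M' q).trans (dvd_mul_right (M' * q) q))))⁻¹} : Set ↥(modularFunctionFieldFullC K (M' * q * q)))) π ∈ n →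
        ∃ c : ↥(modularFunctionFieldFullC K (M' * q * q)), c ≠ 0 ∧
          (∃ s : ↥(pk15_chart R ({(pk85_h3 K (M' * q * q) (h3.trans ((dvd_mul_right M' q).trans (dvd_mul_right (M' * q) q))))⁻¹} : Set ↥(modularFunctionFieldFullC K (M' * q * q)))), s ∉ n ∧ (s : ↥(modularFunctionFieldFullC K (M' * q * q))) * (x / c ^ m) ∈ (pk15_chart R ({(pk85_h3 K (M' * q * q) (h3.trans ((dvd_mul_right M' q).trans (dvd_mul_right (M' * q) q))))⁻¹} : Set ↥(modularFunctionFieldFullC K (M' * q * q))))) ∧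
          ∃ s : ↥(pk15_chart R ({(pk85_h3 K (M' * q * q) (h3.trans ((dvd_mul_right M' q).trans (dvd_mul_right (M' * q) q))))⁻¹} : Set ↥(modularFunctionFieldFullC K (M' * q * q)))), s ∉ n ∧ (s : ↥(modularFunctionFieldFullC K (M' * q * q))) * (c ^ m / x) ∈ (pk15_chart R ({(pk85_h3 K (M' * q * q) (h3.trans ((dvd_mul_right M' q).trans (dvd_mul_right (M' * q) q))))⁻¹} : Set ↥(modularFunctionFieldFullC K (M' * q * q))))) := by
  obtain ⟨hS1, hS2⟩ := rc9_strong_level3 (K := K) M' q hq hM' hπ hunit hqR hMu h3 u u' huu' hqπ V₂ hV₂ hπ₂ hne hs hreg₁ hreg₂ hC₁ hC₂ m hm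
  exact ⟨rc9_LP_of_strong π m _ (fd85_V (K := K) M' q hq hM' hπ V₂) hS1,
    rc9_LP_of_strong π m _ (fd85_V (K := K) M' q hq hM' hπ V₂) hS2⟩

include hq hM' in
/-- **The strong-LP clause of `hp3x77_TripleData` on both canonical charts, Hauptmodul of level 3**, at every
closed point on the three branches (literal shape). -/
theorem rc9_tripleLP_level3 (hunit : ∀ n : ℕ, Nat.Coprime n q → IsUnit (n : R))
    (hqR : ¬ IsUnit (q : R)) (hMu : IsUnit (M' : R)) (h3 : 3 ∣ M')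
    (u u' : R) (huu' : u * u' = 1) (hqπ : (q : R) = u * π)
    (V₂ : ValuationSubring ↥(modularFunctionFieldFullC K (M' * q * q)))
    (hV₂ : ∀ c ∈ cm85_Vinf (K := K) (M' * q) hπ, al97L_alpha K (M' * q) q c ∈ V₂)
    (hπ₂ : (algebraMap K ↥(modularFunctionFieldFullC K (M' * q * q)) (algebraMap R K π))⁻¹ ∉ V₂)
    (hne : cm85_Vinf (K := K) (M' * q * q) hπ ≠ V₂)
    (hs : V₂.valuation (v2g64_s K M' q) ^ (q - 1) =
      V₂.valuation (algebraMap K ↥(modularFunctionFieldFullC K (M' * q * q)) (algebraMap R K π)))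
    (hreg₁ : tf71_RegNodes (K := K) M' q hq hM' hπ (pk15_chart R ({(pk85_h3 K (M' * q) (h3.trans (dvd_mul_right M' q)))} : Set ↥(modularFunctionFieldFullC K (M' * q)))))
    (hreg₂ : tf71_RegNodes (K := K) M' q hq hM' hπ (pk15_chart R ({(pk85_h3 K (M' * q) (h3.trans (dvd_mul_right M' q)))⁻¹} : Set ↥(modularFunctionFieldFullC K (M' * q)))))
    (hC₁ : (∀ n : Ideal ↥(pk15_chart R ({(pk85_h3 K (M' * q * q) (h3.trans ((dvd_mul_right M' q).trans (dvd_mul_right (M' * q) q))))} : Set ↥(modularFunctionFieldFullC K (M' * q * q)))), n.IsMaximal → algebraMap R ↥(pk15_chart R ({(pk85_h3 K (M' * q * q) (h3.trans ((dvd_mul_right M' q).trans (dvd_mul_right (M' * q) q))))} : Set ↥(modularFunctionFieldFullC K (M' * q * q)))) π ∈ n →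
        tl71_OnMid (v2g64_s K M' q) (pk15_chart R ({(pk85_h3 K (M' * q * q) (h3.trans ((dvd_mul_right M' q).trans (dvd_mul_right (M' * q) q))))} : Set ↥(modularFunctionFieldFullC K (M' * q * q)))) V₂.toSubring n →
        ¬ sf79_OnBr π (pk15_chart R ({(pk85_h3 K (M' * q * q) (h3.trans ((dvd_mul_right M' q).trans (dvd_mul_right (M' * q) q))))} : Set ↥(modularFunctionFieldFullC K (M' * q * q)))) (cm85_Vinf (K := K) (M' * q * q) hπ).toSubring n →
        ¬ sf79_OnBr π (pk15_chart R ({(pk85_h3 K (M' * q * q) (h3.trans ((dvd_mul_right M' q).trans (dvd_mul_right (M' * q) q))))} : Set ↥(modularFunctionFieldFullC K (M' * q * q)))) (nsb86_V3 (K := K) M' q hq hM' hπ).toSubring n →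
        (∃ s' b : ↥(pk15_chart R ({(pk85_h3 K (M' * q * q) (h3.trans ((dvd_mul_right M' q).trans (dvd_mul_right (M' * q) q))))} : Set ↥(modularFunctionFieldFullC K (M' * q * q)))), s' ∉ n ∧
          (s' : ↥(modularFunctionFieldFullC K (M' * q * q))) * rm90_j K (M' * q * q) = (b : ↥(modularFunctionFieldFullC K (M' * q * q)))) →
        mc25_MidPrinAt (v2g64_s K M' q) (pk15_chart R ({(pk85_h3 K (M' * q * q) (h3.trans ((dvd_mul_right M' q).trans (dvd_mul_right (M' * q) q))))} : Set ↥(modularFunctionFieldFullC K (M' * q * q)))) V₂.toSubring n))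
    (hC₂ : (∀ n : Ideal ↥(pk15_chart R ({(pk85_h3 K (M' * q * q) (h3.trans ((dvd_mul_right M' q).trans (dvd_mul_right (M' * q) q))))⁻¹} : Set ↥(modularFunctionFieldFullC K (M' * q * q)))), n.IsMaximal → algebraMap R ↥(pk15_chart R ({(pk85_h3 K (M' * q * q) (h3.trans ((dvd_mul_right M' q).trans (dvd_mul_right (M' * q) q))))⁻¹} : Set ↥(modularFunctionFieldFullC K (M' * q * q)))) π ∈ n →
        tl71_OnMid (v2g64_s K M' q) (pk15_chart R ({(pk85_h3 K (M' * q * q) (h3.trans ((dvd_mul_right M' q).trans (dvd_mul_right (M' * q) q))))⁻¹} : Set ↥(modularFunctionFieldFullC K (M' * q * q)))) V₂.toSubring n →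
        ¬ sf79_OnBr π (pk15_chart R ({(pk85_h3 K (M' * q * q) (h3.trans ((dvd_mul_right M' q).trans (dvd_mul_right (M' * q) q))))⁻¹} : Set ↥(modularFunctionFieldFullC K (M' * q * q)))) (cm85_Vinf (K := K) (M' * q * q) hπ).toSubring n →
        ¬ sf79_OnBr π (pk15_chart R ({(pk85_h3 K (M' * q * q) (h3.trans ((dvd_mul_right M' q).trans (dvd_mul_right (M' * q) q))))⁻¹} : Set ↥(modularFunctionFieldFullC K (M' * q * q)))) (nsb86_V3 (K := K) M' q hq hM' hπ).toSubring n →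
        (∃ s' b : ↥(pk15_chart R ({(pk85_h3 K (M' * q * q) (h3.trans ((dvd_mul_right M' q).trans (dvd_mul_right (M' * q) q))))⁻¹} : Set ↥(modularFunctionFieldFullC K (M' * q * q)))), s' ∉ n ∧
          (s' : ↥(modularFunctionFieldFullC K (M' * q * q))) * rm90_j K (M' * q * q) = (b : ↥(modularFunctionFieldFullC K (M' * q * q)))) →
        mc25_MidPrinAt (v2g64_s K M' q) (pk15_chart R ({(pk85_h3 K (M' * q * q) (h3.trans ((dvd_mul_right M' q).trans (dvd_mul_right (M' * q) q))))⁻¹} : Set ↥(modularFunctionFieldFullC K (M' * q * q)))) V₂.toSubring n))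
    (m : ℕ) (hm : 0 < m) :
    (∀ n : Ideal ↥(pk15_chart R ({(pk85_h3 K (M' * q * q) (h3.trans ((dvd_mul_right M' q).trans (dvd_mul_right (M' * q) q))))} : Set ↥(modularFunctionFieldFullC K (M' * q * q)))), n.IsMaximal → algebraMap R ↥(pk15_chart R ({(pk85_h3 K (M' * q * q) (h3.trans ((dvd_mul_right M' q).trans (dvd_mul_right (M' * q) q))))} : Set ↥(modularFunctionFieldFullC K (M' * q * q)))) π ∈ n →
      sf79_OnBr π (pk15_chart R ({(pk85_h3 K (M' * q * q) (h3.trans ((dvd_mul_right M' q).trans (dvd_mul_right (M' * q) q))))} : Set ↥(modularFunctionFieldFullC K (M' * q * q)))) (cm85_Vinf (K := K) (M' * q * q) hπ).toSubring n → sf79_OnBr π (pk15_chart R ({(pk85_h3 K (M' * q * q) (h3.trans ((dvd_mul_right M' q).trans (dvd_mul_right (M' * q) q))))} : Set ↥(modularFunctionFieldFullC K (M' * q * q)))) V₂.toSubring n →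
      sf79_OnBr π (pk15_chart R ({(pk85_h3 K (M' * q * q) (h3.trans ((dvd_mul_right M' q).trans (dvd_mul_right (M' * q) q))))} : Set ↥(modularFunctionFieldFullC K (M' * q * q)))) (nsb86_V3 (K := K) M' q hq hM' hπ).toSubring n →
      ∀ x : ↥(modularFunctionFieldFullC K (M' * q * q)), x ≠ 0 → s34i47_Ord π m x → s34i47_Fin π x →
        (x ∈ (cm85_Vinf (K := K) (M' * q * q) hπ) ∧ x⁻¹ ∈ (cm85_Vinf (K := K) (M' * q * q) hπ)) → (x ∈ V₂ ∧ x⁻¹ ∈ V₂) →
        (x ∈ (nsb86_V3 (K := K) M' q hq hM' hπ) ∧ x⁻¹ ∈ (nsb86_V3 (K := K) M' q hq hM' hπ)) →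
        ∃ c : ↥(modularFunctionFieldFullC K (M' * q * q)), c ≠ 0 ∧ (c ∈ (cm85_Vinf (K := K) (M' * q * q) hπ) ∧ c⁻¹ ∈ (cm85_Vinf (K := K) (M' * q * q) hπ)) ∧ (c ∈ V₂ ∧ c⁻¹ ∈ V₂) ∧
          (c ∈ (nsb86_V3 (K := K) M' q hq hM' hπ) ∧ c⁻¹ ∈ (nsb86_V3 (K := K) M' q hq hM' hπ)) ∧
          (∃ s : ↥(pk15_chart R ({(pk85_h3 K (M' * q * q) (h3.trans ((dvd_mul_right M' q).trans (dvd_mul_right (M' * q) q))))} : Set ↥(modularFunctionFieldFullC K (M' * q * q)))), s ∉ n ∧ (s : ↥(modularFunctionFieldFullC K (M' * q * q))) * (x / c ^ m) ∈ (pk15_chart R ({(pk85_h3 K (M' * q * q) (h3.trans ((dvd_mul_right M' q).trans (dvd_mul_right (M' * q) q))))} : Set ↥(modularFunctionFieldFullC K (M' * q * q))))) ∧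
          (∃ s : ↥(pk15_chart R ({(pk85_h3 K (M' * q * q) (h3.trans ((dvd_mul_right M' q).trans (dvd_mul_right (M' * q) q))))} : Set ↥(modularFunctionFieldFullC K (M' * q * q)))), s ∉ n ∧ (s : ↥(modularFunctionFieldFullC K (M' * q * q))) * (c ^ m / x) ∈ (pk15_chart R ({(pk85_h3 K (M' * q * q) (h3.trans ((dvd_mul_right M' q).trans (dvd_mul_right (M' * q) q))))} : Set ↥(modularFunctionFieldFullC K (M' * q * q)))))) ∧
    (∀ n : Ideal ↥(pk15_chart R ({(pk85_h3 K (M' * q * q) (h3.trans ((dvd_mul_right M' q).trans (dvd_mul_right (M' * q) q))))⁻¹} : Set ↥(modularFunctionFieldFullC K (M' * q * q)))), n.IsMaximal → algebraMap R ↥(pk15_chart R ({(pk85_h3 K (M' * q * q) (h3.trans ((dvd_mul_right M' q).trans (dvd_mul_right (M' * q) q))))⁻¹} : Set ↥(modularFunctionFieldFullC K (M' * q * q)))) π ∈ n →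
      sf79_OnBr π (pk15_chart R ({(pk85_h3 K (M' * q * q) (h3.trans ((dvd_mul_right M' q).trans (dvd_mul_right (M' * q) q))))⁻¹} : Set ↥(modularFunctionFieldFullC K (M' * q * q)))) (cm85_Vinf (K := K) (M' * q * q) hπ).toSubring n → sf79_OnBr π (pk15_chart R ({(pk85_h3 K (M' * q * q) (h3.trans ((dvd_mul_right M' q).trans (dvd_mul_right (M' * q) q))))⁻¹} : Set ↥(modularFunctionFieldFullC K (M' * q * q)))) V₂.toSubring n →
      sf79_OnBr π (pk15_chart R ({(pk85_h3 K (M' * q * q) (h3.trans ((dvd_mul_right M' q).trans (dvd_mul_right (M' * q) q))))⁻¹} : Set ↥(modularFunctionFieldFullC K (M' * q * q)))) (nsb86_V3 (K := K) M' q hq hM' hπ).toSubring n →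
      ∀ x : ↥(modularFunctionFieldFullC K (M' * q * q)), x ≠ 0 → s34i47_Ord π m x → s34i47_Fin π x →
        (x ∈ (cm85_Vinf (K := K) (M' * q * q) hπ) ∧ x⁻¹ ∈ (cm85_Vinf (K := K) (M' * q * q) hπ)) → (x ∈ V₂ ∧ x⁻¹ ∈ V₂) →
        (x ∈ (nsb86_V3 (K := K) M' q hq hM' hπ) ∧ x⁻¹ ∈ (nsb86_V3 (K := K) M' q hq hM' hπ)) →
        ∃ c : ↥(modularFunctionFieldFullC K (M' * q * q)), c ≠ 0 ∧ (c ∈ (cm85_Vinf (K := K) (M' * q * q) hπ) ∧ c⁻¹ ∈ (cm85_Vinf (K := K) (M' * q * q) hπ)) ∧ (c ∈ V₂ ∧ c⁻¹ ∈ V₂) ∧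
          (c ∈ (nsb86_V3 (K := K) M' q hq hM' hπ) ∧ c⁻¹ ∈ (nsb86_V3 (K := K) M' q hq hM' hπ)) ∧
          (∃ s : ↥(pk15_chart R ({(pk85_h3 K (M' * q * q) (h3.trans ((dvd_mul_right M' q).trans (dvd_mul_right (M' * q) q))))⁻¹} : Set ↥(modularFunctionFieldFullC K (M' * q * q)))), s ∉ n ∧ (s : ↥(modularFunctionFieldFullC K (M' * q * q))) * (x / c ^ m) ∈ (pk15_chart R ({(pk85_h3 K (M' * q * q) (h3.trans ((dvd_mul_right M' q).trans (dvd_mul_right (M' * q) q))))⁻¹} : Set ↥(modularFunctionFieldFullC K (M' * q * q))))) ∧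
          (∃ s : ↥(pk15_chart R ({(pk85_h3 K (M' * q * q) (h3.trans ((dvd_mul_right M' q).trans (dvd_mul_right (M' * q) q))))⁻¹} : Set ↥(modularFunctionFieldFullC K (M' * q * q)))), s ∉ n ∧ (s : ↥(modularFunctionFieldFullC K (M' * q * q))) * (c ^ m / x) ∈ (pk15_chart R ({(pk85_h3 K (M' * q * q) (h3.trans ((dvd_mul_right M' q).trans (dvd_mul_right (M' * q) q))))⁻¹} : Set ↥(modularFunctionFieldFullC K (M' * q * q)))))) := by
  obtain ⟨hS1, hS2⟩ := rc9_strong_level3 (K := K) M' q hq hM' hπ hunit hqR hMu h3 u u' huu' hqπ V₂ hV₂ hπ₂ hne hs hreg₁ hreg₂ hC₁ hC₂ m hm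
  exact ⟨fun n hn hπn h1 h2' h3' => rc9_tripleLP_of_strong π m _ _ _ _ hS1 n hn hπn h1 h2' h3',
    fun n hn hπn h1 h2' h3' => rc9_tripleLP_of_strong π m _ _ _ _ hS2 n hn hπn h1 h2' h3'⟩

end RC9

end Fermat.Agent.S36
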