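import Fermat.Agent.S36.SmoothThree7
import Fermat.Agent.S36.V2Final64

/-!
# S36 lab, row 592 B1-3a (helper7): the three (3a)ᵢ on the CANONICAL frame of level `M' q²`,
unconditionally

`V₁ = cm85_Vinf (M' * q * q) hπ`, `V₂ = v2g64_V2 (algebraMap K ℚ̄) M' q hq hM' hπ hqπ` (helper64),
`V₃ = nsb86_V3 M' q hq hM' hπ` (helper86), `σ = v2g64_s K M' q = j(Q^(q²)) - j(Q)`.

* `sm7_three_smooth_K_level2/3` : `V₂` a parameter with the facts in the `ob72_ram` /
  `fd85_frame_level2/3` shapes (`al97L_alpha`, `algebraMap K`), plus `hne`.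
* `sm7_three_smooth_canon_level2/3` : NO hypothesis beyond the base (`π` irreducible, `q ~ π`,
  `p₀ ∣ M'`, `M'` a unit of `R`): for both affine charts `B = pk15_chart R {h}`, `{h⁻¹}`:
  `sf79_Smooth π B V₁ ∧ tl71_MidSmooth π σ B V₂ ∧ sf79_Smooth π B V₃`
  (the inputs `hS₁`, `hS₂`, `hS₃` of `tl71_twoGen` / `tf71b_twoGen`).

All names are prefixed `sm7_`.
-/

set_option autoImplicit false
set_option linter.unusedSectionVars false
set_option linter.style.haveILetI false

open ModularCurve AlgebraicCurve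

namespace Fermat.Agent.S36

open Fermat.Agent.S18 Fermat.Agent.S24 Fermat.Agent.S34 Fermat.Agent.S36.TripleLoc71

section sm7_canon

variable {R K : Type} [CommRing R] [IsDomain R] [IsDiscreteValuationRing R] [Field K]
  [CharZero K] [Algebra R K] [IsFractionRing R K] [Algebra K Kbar] [Algebra.IsAlgebraic K Kbar]
  (M' q : ℕ) [NeZero M'] [NeZero q] (hq : q.Prime) (hM' : ¬ q ∣ M')
  [Algebra R ↥(modularFunctionFieldFullC K M')]
  [IsScalarTower R K ↥(modularFunctionFieldFullC K M')]
  [Algebra R ↥(modularFunctionFieldFullC K (M' * q))]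
  [IsScalarTower R K ↥(modularFunctionFieldFullC K (M' * q))]
  [Algebra R ↥(modularFunctionFieldFullC K (M' * q * q))]
  [IsScalarTower R K ↥(modularFunctionFieldFullC K (M' * q * q))]

/-- **All three (3a)ᵢ, level 2**, `V₂` with the facts in the `ob72_ram` shapes. -/
theorem sm7_three_smooth_K_level2 {π : R} (hπ : Irreducible π) (hqR : ¬ IsUnit (q : R))
    (h2 : 2 ∣ M') (hMu : IsUnit (M' : R))
    (V₂ : ValuationSubring ↥(modularFunctionFieldFullC K (M' * q * q)))
    (hV₂ : ∀ c ∈ cm85_Vinf (K := K) (M' * q) hπ, al97L_alpha K (M' * q) q c ∈ V₂)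
    (hπ₂ : (algebraMap K ↥(modularFunctionFieldFullC K (M' * q * q)) (algebraMap R K π))⁻¹ ∉ V₂)
    (hne : cm85_Vinf (K := K) (M' * q * q) hπ ≠ V₂)
    (s : ↥(modularFunctionFieldFullC K (M' * q * q)))
    (hs : V₂.valuation s ^ (q - 1) =
      V₂.valuation (algebraMap K ↥(modularFunctionFieldFullC K (M' * q * q))
        (algebraMap R K π))) :
    (sf79_Smooth π (pk15_chart R {pk85_h2 K (M' * q * q)
          (h2.trans ((dvd_mul_right M' q).trans (dvd_mul_right (M' * q) q)))})
        (cm85_Vinf (K := K) (M' * q * q) hπ).toSubring ∧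
      tl71_MidSmooth π s (pk15_chart R {pk85_h2 K (M' * q * q)
          (h2.trans ((dvd_mul_right M' q).trans (dvd_mul_right (M' * q) q)))}) V₂.toSubring ∧
      sf79_Smooth π (pk15_chart R {pk85_h2 K (M' * q * q)
          (h2.trans ((dvd_mul_right M' q).trans (dvd_mul_right (M' * q) q)))})
        (nsb86_V3 (K := K) M' q hq hM' hπ).toSubring) ∧
    (sf79_Smooth π (pk15_chart R {(pk85_h2 K (M' * q * q)
          (h2.trans ((dvd_mul_right M' q).trans (dvd_mul_right (M' * q) q))))⁻¹})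
        (cm85_Vinf (K := K) (M' * q * q) hπ).toSubring ∧
      tl71_MidSmooth π s (pk15_chart R {(pk85_h2 K (M' * q * q)
          (h2.trans ((dvd_mul_right M' q).trans (dvd_mul_right (M' * q) q))))⁻¹}) V₂.toSubring ∧
      sf79_Smooth π (pk15_chart R {(pk85_h2 K (M' * q * q)
          (h2.trans ((dvd_mul_right M' q).trans (dvd_mul_right (M' * q) q))))⁻¹})
        (nsb86_V3 (K := K) M' q hq hM' hπ).toSubring) := by
  have e : algebraMap R ↥(modularFunctionFieldFullC K (M' * q * q)) π =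
      algebraMap K ↥(modularFunctionFieldFullC K (M' * q * q)) (algebraMap R K π) :=
    IsScalarTower.algebraMap_apply R K _ π
  exact sm7_three_smooth_sq_level2 (R := R) (K := K) M' q hq hM' hπ hqR h2 hMu V₂
    (fun c hc => hV₂ c hc) (by rw [e]; exact hπ₂) hne s (by rw [e]; exact hs)

/-- **All three (3a)ᵢ, level 3**, `V₂` with the facts in the `ob72_ram` shapes. -/
theorem sm7_three_smooth_K_level3 {π : R} (hπ : Irreducible π) (hqR : ¬ IsUnit (q : R))
    (h3 : 3 ∣ M') (hMu : IsUnit (M' : R))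
    (V₂ : ValuationSubring ↥(modularFunctionFieldFullC K (M' * q * q)))
    (hV₂ : ∀ c ∈ cm85_Vinf (K := K) (M' * q) hπ, al97L_alpha K (M' * q) q c ∈ V₂)
    (hπ₂ : (algebraMap K ↥(modularFunctionFieldFullC K (M' * q * q)) (algebraMap R K π))⁻¹ ∉ V₂)
    (hne : cm85_Vinf (K := K) (M' * q * q) hπ ≠ V₂)
    (s : ↥(modularFunctionFieldFullC K (M' * q * q)))
    (hs : V₂.valuation s ^ (q - 1) =
      V₂.valuation (algebraMap K ↥(modularFunctionFieldFullC K (M' * q * q))
        (algebraMap R K π))) :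
    (sf79_Smooth π (pk15_chart R {pk85_h3 K (M' * q * q)
          (h3.trans ((dvd_mul_right M' q).trans (dvd_mul_right (M' * q) q)))})
        (cm85_Vinf (K := K) (M' * q * q) hπ).toSubring ∧
      tl71_MidSmooth π s (pk15_chart R {pk85_h3 K (M' * q * q)
          (h3.trans ((dvd_mul_right M' q).trans (dvd_mul_right (M' * q) q)))}) V₂.toSubring ∧
      sf79_Smooth π (pk15_chart R {pk85_h3 K (M' * q * q)
          (h3.trans ((dvd_mul_right M' q).trans (dvd_mul_right (M' * q) q)))})
        (nsb86_V3 (K := K) M' q hq hM' hπ).toSubring) ∧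
    (sf79_Smooth π (pk15_chart R {(pk85_h3 K (M' * q * q)
          (h3.trans ((dvd_mul_right M' q).trans (dvd_mul_right (M' * q) q))))⁻¹})
        (cm85_Vinf (K := K) (M' * q * q) hπ).toSubring ∧
      tl71_MidSmooth π s (pk15_chart R {(pk85_h3 K (M' * q * q)
          (h3.trans ((dvd_mul_right M' q).trans (dvd_mul_right (M' * q) q))))⁻¹}) V₂.toSubring ∧
      sf79_Smooth π (pk15_chart R {(pk85_h3 K (M' * q * q)
          (h3.trans ((dvd_mul_right M' q).trans (dvd_mul_right (M' * q) q))))⁻¹})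
        (nsb86_V3 (K := K) M' q hq hM' hπ).toSubring) := by
  have e : algebraMap R ↥(modularFunctionFieldFullC K (M' * q * q)) π =
      algebraMap K ↥(modularFunctionFieldFullC K (M' * q * q)) (algebraMap R K π) :=
    IsScalarTower.algebraMap_apply R K _ π
  exact sm7_three_smooth_sq_level3 (R := R) (K := K) M' q hq hM' hπ hqR h3 hMu V₂
    (fun c hc => hV₂ c hc) (by rw [e]; exact hπ₂) hne s (by rw [e]; exact hs)

/-- **All three (3a)ᵢ on the canonical frame, level 2** — unconditional. -/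
theorem sm7_three_smooth_canon_level2 {π : R} (hπ : Irreducible π)
    (hqπ : Associated ((q : ℕ) : R) π) (h2 : 2 ∣ M') (hMu : IsUnit (M' : R)) :
    (sf79_Smooth π (pk15_chart R {pk85_h2 K (M' * q * q)
          (h2.trans ((dvd_mul_right M' q).trans (dvd_mul_right (M' * q) q)))})
        (cm85_Vinf (K := K) (M' * q * q) hπ).toSubring ∧
      tl71_MidSmooth π (v2g64_s K M' q) (pk15_chart R {pk85_h2 K (M' * q * q)
          (h2.trans ((dvd_mul_right M' q).trans (dvd_mul_right (M' * q) q)))})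
        (v2g64_V2 (algebraMap K Kbar) M' q hq hM' hπ hqπ).toSubring ∧
      sf79_Smooth π (pk15_chart R {pk85_h2 K (M' * q * q)
          (h2.trans ((dvd_mul_right M' q).trans (dvd_mul_right (M' * q) q)))})
        (nsb86_V3 (K := K) M' q hq hM' hπ).toSubring) ∧
    (sf79_Smooth π (pk15_chart R {(pk85_h2 K (M' * q * q)
          (h2.trans ((dvd_mul_right M' q).trans (dvd_mul_right (M' * q) q))))⁻¹})
        (cm85_Vinf (K := K) (M' * q * q) hπ).toSubring ∧
      tl71_MidSmooth π (v2g64_s K M' q) (pk15_chart R {(pk85_h2 K (M' * q * q)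
          (h2.trans ((dvd_mul_right M' q).trans (dvd_mul_right (M' * q) q))))⁻¹})
        (v2g64_V2 (algebraMap K Kbar) M' q hq hM' hπ hqπ).toSubring ∧
      sf79_Smooth π (pk15_chart R {(pk85_h2 K (M' * q * q)
          (h2.trans ((dvd_mul_right M' q).trans (dvd_mul_right (M' * q) q))))⁻¹})
        (nsb86_V3 (K := K) M' q hq hM' hπ).toSubring) := by
  have hqR : ¬ IsUnit (q : R) := fun hu => hπ.not_isUnit (hqπ.isUnit hu)
  exact sm7_three_smooth_K_level2 (R := R) (K := K) M' q hq hM' hπ hqR h2 hMu _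
    (v2g64_V2_alpha (algebraMap K Kbar) M' q hq hM' hπ hqπ)
    (v2g64_V2_pi (algebraMap K Kbar) M' q hq hM' hπ hqπ)
    (v2g64_V2_ne (algebraMap K Kbar) M' q hq hM' hπ hqπ) _
    (v2g64_V2_val (algebraMap K Kbar) M' q hq hM' hπ hqπ)

/-- **All three (3a)ᵢ on the canonical frame, level 3** — unconditional. -/
theorem sm7_three_smooth_canon_level3 {π : R} (hπ : Irreducible π)
    (hqπ : Associated ((q : ℕ) : R) π) (h3 : 3 ∣ M') (hMu : IsUnit (M' : R)) :
    (sf79_Smooth π (pk15_chart R {pk85_h3 K (M' * q * q)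
          (h3.trans ((dvd_mul_right M' q).trans (dvd_mul_right (M' * q) q)))})
        (cm85_Vinf (K := K) (M' * q * q) hπ).toSubring ∧
      tl71_MidSmooth π (v2g64_s K M' q) (pk15_chart R {pk85_h3 K (M' * q * q)
          (h3.trans ((dvd_mul_right M' q).trans (dvd_mul_right (M' * q) q)))})
        (v2g64_V2 (algebraMap K Kbar) M' q hq hM' hπ hqπ).toSubring ∧
      sf79_Smooth π (pk15_chart R {pk85_h3 K (M' * q * q)
          (h3.trans ((dvd_mul_right M' q).trans (dvd_mul_right (M' * q) q)))})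
        (nsb86_V3 (K := K) M' q hq hM' hπ).toSubring) ∧
    (sf79_Smooth π (pk15_chart R {(pk85_h3 K (M' * q * q)
          (h3.trans ((dvd_mul_right M' q).trans (dvd_mul_right (M' * q) q))))⁻¹})
        (cm85_Vinf (K := K) (M' * q * q) hπ).toSubring ∧
      tl71_MidSmooth π (v2g64_s K M' q) (pk15_chart R {(pk85_h3 K (M' * q * q)
          (h3.trans ((dvd_mul_right M' q).trans (dvd_mul_right (M' * q) q))))⁻¹})
        (v2g64_V2 (algebraMap K Kbar) M' q hq hM' hπ hqπ).toSubring ∧
      sf79_Smooth π (pk15_chart R {(pk85_h3 K (M' * q * q)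
          (h3.trans ((dvd_mul_right M' q).trans (dvd_mul_right (M' * q) q))))⁻¹})
        (nsb86_V3 (K := K) M' q hq hM' hπ).toSubring) := by
  have hqR : ¬ IsUnit (q : R) := fun hu => hπ.not_isUnit (hqπ.isUnit hu)
  exact sm7_three_smooth_K_level3 (R := R) (K := K) M' q hq hM' hπ hqR h3 hMu _
    (v2g64_V2_alpha (algebraMap K Kbar) M' q hq hM' hπ hqπ)
    (v2g64_V2_pi (algebraMap K Kbar) M' q hq hM' hπ hqπ)
    (v2g64_V2_ne (algebraMap K Kbar) M' q hq hM' hπ hqπ) _
    (v2g64_V2_val (algebraMap K Kbar) M' q hq hM' hπ hqπ)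

end sm7_canon

end Fermat.Agent.S36
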