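import Fermat.Agent.S36.HP3Global94
import Fermat.Agent.S36.TripleNode81
import Fermat.Agent.S36.TripleLiftLoc3
import Fermat.Agent.S36.BranchGenAll76
import Fermat.Agent.S36.RootCanon9
import Fermat.Agent.S36.SmoothCanon7
import Fermat.Agent.S34.BetaChart95

/-!
# S36 lab (helper76): (HP-3) on the canonical charts from (REG) + (C2), via the GLOBAL pieces

Independent twin of the canonical (HP-3) instance.  `hp3g94_level2/3` (helper94) reduce
`cp57_HP3` on both canonical charts of level `M' q q` to the per-point `hp3x77_TripleData`.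
Here the per-point data are assembled from landed global theorems:

* three branches + non-lift clauses of the `Aal / Abe` block : `tn81_node` (helper81);
* the four residue-degree-one clauses : `tll3_of_lifts` + `tl3_lifts_level2/3` (helper3);
* the strong (LP) clause : `rc9_tripleLP_level2/3` (helper9);
* the three branch root lifts : `bg76_lifts_all` (helper76);
* two generators : `tg71_final_level2/3`, `hD` : `tg71_hD_level2/3` (helper71);
* smoothness : `sm7_three_smooth_K_level2/3` (helper7); chart facts : `cf54_level2/3`.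

`hp3t76_TP` is the chart-generic per-point assembly.  All names are prefixed `hp3t76_`.
-/

set_option autoImplicit false
set_option linter.style.haveILetI false
set_option linter.unusedSectionVars false
set_option linter.unusedVariables false
set_option linter.style.longLine false

open ModularCurve AlgebraicCurve IntermediateField
open Fermat.Agent.S24 Fermat.Agent.S28 Fermat.Agent.S18 Fermat.Agent.S37 Fermat.Agent.S34
open Fermat.Agent.S42 Fermat.Agent.S35 Fermat.Agent.S36.TripleLoc71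

namespace Fermat.Agent.S36

local notation "Q̄" => AlgebraicClosure ℚ

/-- `σ` is a non-unit of `V` as soon as a power of it has the valuation of a non-unit `p`. -/
theorem hp3t76_sigma {F : Type*} [Field F] (V : ValuationSubring F) (σ p : F) (e : ℕ)
    (hp : p⁻¹ ∉ V) (hs : V.valuation σ ^ e = V.valuation p) : σ ∈ V ∧ σ⁻¹ ∉ V := by
  have hp1 : V.valuation p < 1 := ab66_val_pi_lt_one V p hp
  have hp0 : V.valuation p ≠ 0 := by
    intro h0
    apply hp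
    have h00 : p = 0 := (map_eq_zero V.valuation).mp h0
    rw [h00, inv_zero]
    exact V.zero_mem
  have hσ1 : V.valuation σ < 1 := by
    by_contra hcon
    have h1 : 1 ≤ V.valuation σ ^ e := one_le_pow₀ (not_lt.mp hcon)
    rw [hs] at h1
    exact absurd hp1 (not_lt.mpr h1)
  have hσ0 : V.valuation σ ≠ 0 := by
    intro h0
    rw [h0] at hs
    rcases Nat.eq_zero_or_pos e with he | he
    · rw [he, pow_zero] at hs
      rw [← hs] at hp1
      exact lt_irrefl _ hp1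
    · rw [zero_pow he.ne'] at hs
      exact hp0 hs.symm
  refine ⟨(V.valuation_le_one_iff σ).mp hσ1.le, fun hinv => ?_⟩
  have h2 : V.valuation σ⁻¹ ≤ 1 := (V.valuation_le_one_iff σ⁻¹).mpr hinv
  rw [map_inv₀] at h2
  have h3 : 1 < (V.valuation σ)⁻¹ := (one_lt_inv₀ (zero_lt_iff.mpr hσ0)).mpr hσ1
  exact absurd h2 (not_le.mpr h3)

section hp3t76

variable {R K : Type} [CommRing R] [IsDomain R] [IsDiscreteValuationRing R] [Field K]
  [NumberField K] [Algebra R K] [IsFractionRing R K] [Algebra K Q̄] [Algebra.IsAlgebraic K Q̄]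
  (M' q : ℕ) [NeZero M'] [NeZero q] (hq : q.Prime) (hM' : ¬ q ∣ M')
  {π : R} (hπ : Irreducible π)
  [Algebra R ↥(modularFunctionFieldFullC K M')]
  [IsScalarTower R K ↥(modularFunctionFieldFullC K M')]
  [Algebra R ↥(modularFunctionFieldFullC K (M' * q))]
  [IsScalarTower R K ↥(modularFunctionFieldFullC K (M' * q))]
  [Algebra R ↥(modularFunctionFieldFullC K (M' * q * q))]
  [IsScalarTower R K ↥(modularFunctionFieldFullC K (M' * q * q))]

include hq hM' in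
/-- **The per-point triple data, chart-generic assembly.** -/
theorem hp3t76_TP (hqR : ¬ IsUnit (q : R))
    (s₁ : Set ↥(modularFunctionFieldFullC K (M' * q)))
    (s₂ : Set ↥(modularFunctionFieldFullC K (M' * q * q)))
    [IsNoetherianRing ↥(pk15_chart R s₂)]
    (fα : ↥(pk15_chart R s₁) →+* ↥(pk15_chart R s₂))
    (hfα : ∀ x, ((fα x : ↥(pk15_chart R s₂)) : ↥(modularFunctionFieldFullC K (M' * q * q))) =
      al97L_alpha K (M' * q) q (x : ↥(modularFunctionFieldFullC K (M' * q))))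
    (hfαi : fα.IsIntegral)
    (fβ : ↥(pk15_chart R s₁) →+* ↥(pk15_chart R s₂))
    (hfβ : ∀ x, ((fβ x : ↥(pk15_chart R s₂)) : ↥(modularFunctionFieldFullC K (M' * q * q))) =
      al97L_beta K (M' * q) q (x : ↥(modularFunctionFieldFullC K (M' * q))))
    (hfβi : fβ.IsIntegral)
    (hB'Vi : ∀ x ∈ pk15_chart R s₁, x ∈ cm85_Vinf (K := K) (M' * q) hπ)
    (hB'V0 : ∀ x ∈ pk15_chart R s₁, x ∈ s34i47c_V0 (K := K) M' q hq hM' hπ)
    (V₂ : ValuationSubring ↥(modularFunctionFieldFullC K (M' * q * q)))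
    (hα₂ : ∀ x ∈ cm85_Vinf (K := K) (M' * q) hπ, al97L_alpha K (M' * q) q x ∈ V₂)
    (hβ₂ : ∀ x ∈ s34i47c_V0 (K := K) M' q hq hM' hπ, al97L_beta K (M' * q) q x ∈ V₂)
    (hBV₁ : ∀ x ∈ pk15_chart R s₂, x ∈ cm85_Vinf (K := K) (M' * q * q) hπ)
    (hBV₂ : ∀ x ∈ pk15_chart R s₂, x ∈ V₂)
    (hBV₃ : ∀ x ∈ pk15_chart R s₂, x ∈ nsb86_V3 (K := K) M' q hq hM' hπ)
    (hπ₁ : (algebraMap R ↥(modularFunctionFieldFullC K (M' * q * q)) π)⁻¹ ∉
      cm85_Vinf (K := K) (M' * q * q) hπ)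
    (hπ₂ : (algebraMap R ↥(modularFunctionFieldFullC K (M' * q * q)) π)⁻¹ ∉ V₂)
    (hπ₃ : (algebraMap R ↥(modularFunctionFieldFullC K (M' * q * q)) π)⁻¹ ∉
      nsb86_V3 (K := K) M' q hq hM' hπ)
    (hrad₁ : ∀ x ∈ cm85_Vinf (K := K) (M' * q * q) hπ,
      x⁻¹ ∉ cm85_Vinf (K := K) (M' * q * q) hπ → ∃ k : ℕ,
        (algebraMap R ↥(modularFunctionFieldFullC K (M' * q * q)) π)⁻¹ * x ^ k ∈
          cm85_Vinf (K := K) (M' * q * q) hπ)
    (hrad₂ : ∀ x ∈ V₂, x⁻¹ ∉ V₂ → ∃ k : ℕ,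
      (algebraMap R ↥(modularFunctionFieldFullC K (M' * q * q)) π)⁻¹ * x ^ k ∈ V₂)
    (hrad₃ : ∀ x ∈ nsb86_V3 (K := K) M' q hq hM' hπ,
      x⁻¹ ∉ nsb86_V3 (K := K) M' q hq hM' hπ → ∃ k : ℕ,
        (algebraMap R ↥(modularFunctionFieldFullC K (M' * q * q)) π)⁻¹ * x ^ k ∈
          nsb86_V3 (K := K) M' q hq hM' hπ)
    (harch₁ : ∀ x ∈ pk15_chart R s₂, x ≠ 0 → ∃ k : ℕ,
      (algebraMap R ↥(modularFunctionFieldFullC K (M' * q * q)) π ^ k)⁻¹ * x ∉
        cm85_Vinf (K := K) (M' * q * q) hπ)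
    (harch₂ : ∀ x ∈ pk15_chart R s₂, x ≠ 0 → ∃ k : ℕ,
      (algebraMap R ↥(modularFunctionFieldFullC K (M' * q * q)) π ^ k)⁻¹ * x ∉ V₂)
    (harch₃ : ∀ x ∈ pk15_chart R s₂, x ≠ 0 → ∃ k : ℕ,
      (algebraMap R ↥(modularFunctionFieldFullC K (M' * q * q)) π ^ k)⁻¹ * x ∉
        nsb86_V3 (K := K) M' q hq hM' hπ)
    (hFrac : ∀ x : ↥(modularFunctionFieldFullC K (M' * q * q)),
      ∃ a ∈ pk15_chart R s₂, ∃ b ∈ pk15_chart R s₂, b ≠ 0 ∧ x * b = a)
    (σ : ↥(modularFunctionFieldFullC K (M' * q * q))) (hσV : σ ∈ V₂) (hσinv : σ⁻¹ ∉ V₂)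
    (hL : tl3_Lifts (K := K) M' q hq hM' hπ V₂ s₁ s₂)
    (h2 : tl71_TwoGen π (pk15_chart R s₂))
    (hS₁ : sf79_Smooth π (pk15_chart R s₂) (cm85_Vinf (K := K) (M' * q * q) hπ).toSubring)
    (hS₃ : sf79_Smooth π (pk15_chart R s₂) (nsb86_V3 (K := K) M' q hq hM' hπ).toSubring)
    (hS₂ : tl71_MidSmooth π σ (pk15_chart R s₂) V₂.toSubring)
    (hD₁ : ∀ n : Ideal ↥(pk15_chart R s₂), n.IsMaximal →
      sf79_OnBr π (pk15_chart R s₂) (cm85_Vinf (K := K) (M' * q * q) hπ).toSubring n →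
      (tl71_OnMid σ (pk15_chart R s₂) V₂.toSubring n ∨
        sf79_OnBr π (pk15_chart R s₂) (nsb86_V3 (K := K) M' q hq hM' hπ).toSubring n) →
      tl71_DivAt π (pk15_chart R s₂) (cm85_Vinf (K := K) (M' * q * q) hπ).toSubring V₂.toSubring
        (nsb86_V3 (K := K) M' q hq hM' hπ).toSubring n)
    (hD₃ : ∀ n : Ideal ↥(pk15_chart R s₂), n.IsMaximal →
      sf79_OnBr π (pk15_chart R s₂) (nsb86_V3 (K := K) M' q hq hM' hπ).toSubring n →
      (tl71_OnMid σ (pk15_chart R s₂) V₂.toSubring n ∨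
        sf79_OnBr π (pk15_chart R s₂) (cm85_Vinf (K := K) (M' * q * q) hπ).toSubring n) →
      tl71_DivAt π (pk15_chart R s₂) (nsb86_V3 (K := K) M' q hq hM' hπ).toSubring V₂.toSubring
        (cm85_Vinf (K := K) (M' * q * q) hπ).toSubring n)
    (m : ℕ) (hm0 : 0 < m)
    (hLP : ∀ n : Ideal ↥(pk15_chart R s₂), n.IsMaximal →
      algebraMap R ↥(pk15_chart R s₂) π ∈ n →
      sf79_OnBr π (pk15_chart R s₂) (cm85_Vinf (K := K) (M' * q * q) hπ).toSubring n →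
      sf79_OnBr π (pk15_chart R s₂) V₂.toSubring n →
      sf79_OnBr π (pk15_chart R s₂) (nsb86_V3 (K := K) M' q hq hM' hπ).toSubring n →
      ∀ x : ↥(modularFunctionFieldFullC K (M' * q * q)), x ≠ 0 → s34i47_Ord π m x →
        s34i47_Fin π x →
        (x ∈ (cm85_Vinf (K := K) (M' * q * q) hπ) ∧ x⁻¹ ∈ (cm85_Vinf (K := K) (M' * q * q) hπ)) →
        (x ∈ V₂ ∧ x⁻¹ ∈ V₂) →
        (x ∈ (nsb86_V3 (K := K) M' q hq hM' hπ) ∧ x⁻¹ ∈ (nsb86_V3 (K := K) M' q hq hM' hπ)) →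
        ∃ c : ↥(modularFunctionFieldFullC K (M' * q * q)), c ≠ 0 ∧
          (c ∈ (cm85_Vinf (K := K) (M' * q * q) hπ) ∧
            c⁻¹ ∈ (cm85_Vinf (K := K) (M' * q * q) hπ)) ∧ (c ∈ V₂ ∧ c⁻¹ ∈ V₂) ∧
          (c ∈ (nsb86_V3 (K := K) M' q hq hM' hπ) ∧ c⁻¹ ∈ (nsb86_V3 (K := K) M' q hq hM' hπ)) ∧
          (∃ s : ↥(pk15_chart R s₂), s ∉ n ∧
            (s : ↥(modularFunctionFieldFullC K (M' * q * q))) * (x / c ^ m) ∈ pk15_chart R s₂) ∧
          (∃ s : ↥(pk15_chart R s₂), s ∉ n ∧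
            (s : ↥(modularFunctionFieldFullC K (M' * q * q))) * (c ^ m / x) ∈ pk15_chart R s₂)) :
    ∀ (n : Ideal ↥(pk15_chart R s₂)) (hn : n.IsMaximal),
      algebraMap R ↥(pk15_chart R s₂) π ∈ n →
      ¬ cp57_OneBr π (pk15_chart R s₂) (cm85_Vinf (K := K) (M' * q * q) hπ) V₂
        (nsb86_V3 (K := K) M' q hq hM' hπ) n →
      @hp3x77_TripleData R ↥(modularFunctionFieldFullC K (M' * q))
        ↥(modularFunctionFieldFullC K (M' * q * q)) _ _ _ _ K _ _ _ π m (pk15_chart R s₂)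
        (al97L_alpha K (M' * q) q).toRingHom (al97L_beta K (M' * q) q).toRingHom
        (s35i62_normA K (M' * q) q) (s35i62_normB K (M' * q) q)
        (cm85_Vinf (K := K) (M' * q * q) hπ) V₂ (nsb86_V3 (K := K) M' q hq hM' hπ)
        (cm85_Vinf (K := K) (M' * q) hπ) (s34i47c_V0 (K := K) M' q hq hM' hπ) n hn.isPrime := by
  intro n hn hπn hone
  haveI hnp : n.IsPrime := hn.isPrime
  have htwo : (sf79_OnBr π (pk15_chart R s₂) (cm85_Vinf (K := K) (M' * q * q) hπ).toSubring n ∧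
        sf79_OnBr π (pk15_chart R s₂) V₂.toSubring n) ∨
      (sf79_OnBr π (pk15_chart R s₂) (cm85_Vinf (K := K) (M' * q * q) hπ).toSubring n ∧
        sf79_OnBr π (pk15_chart R s₂) (nsb86_V3 M' q hq hM' hπ).toSubring n) ∨
      (sf79_OnBr π (pk15_chart R s₂) V₂.toSubring n ∧
        sf79_OnBr π (pk15_chart R s₂) (nsb86_V3 M' q hq hM' hπ).toSubring n) := by
    by_contra hcon
    exact hone ⟨fun h => hcon (Or.inl h), fun h => hcon (Or.inr (Or.inl h)),
      fun h => hcon (Or.inr (Or.inr h))⟩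
  obtain ⟨⟨hOn₁, hOn₂, hOn₃⟩, a1, a2, a3, b1, b2, b3, rA, rB, cA, cB, hN⟩ :=
    tn81_node (K := K) M' q hq hM' hπ hqR s₁ (pk15_chart R s₂) fα hfα hfαi fβ hfβ hfβi
      hB'Vi hB'V0 V₂ hα₂ hβ₂ hπ₂ hBV₁ hBV₂ hBV₃ n htwo m hm0
  obtain ⟨o1, o2, o3, o4⟩ :=
    tll3_of_lifts (K := K) M' q hq hM' hπ V₂ s₁ s₂ hL fα hfα fβ hfβ hBV₁ hBV₂ hBV₃
      hrad₁ hrad₂ hrad₃ n hOn₁ hOn₂ hOn₃
  have L := bg76_lifts_all π σ (pk15_chart R s₂) (cm85_Vinf (K := K) (M' * q * q) hπ) V₂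
    (nsb86_V3 (K := K) M' q hq hM' hπ) hBV₁ hBV₂ hBV₃ hπ₁ hπ₂ hπ₃ hrad₁ hrad₂ hrad₃
    harch₁ harch₂ harch₃ hFrac hσV hσinv h2 hS₁ hS₃ hS₂ hD₁ hD₃ m hm0 n hn hπn hOn₁ hOn₂ hOn₃
  exact ⟨hOn₁, hOn₂, hOn₃,
    ⟨sf79_loc (pk15_chart R s₁) (n.comap fα), sf79_loc (pk15_chart R s₁) (n.comap fβ),
      a1, a2, a3, o1, o2, b1, b2, b3, o3, o4, rA, rB, cA, cB, hN⟩,
    hLP n hn hπn hOn₁ hOn₂ hOn₃, L.1, L.2.1, L.2.2⟩

include hq hM' in
/-- **The per-point triple data `hp3x77_TripleData` at every closed point on two branches of BOTH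
canonical charts, Hauptmodul of level 2**, from (REG) + (C2) (the hypotheses of
`tg71_final_level2`): literally `hTP`, `hTP'` of `hp3g94_level2` (there `π = q`). -/
theorem hp3t76_TP_level2 (hunit : ∀ n : ℕ, Nat.Coprime n q → IsUnit (n : R))
    (hqR : ¬ IsUnit (q : R)) (hMu : IsUnit (M' : R)) (h2 : 2 ∣ M')
    (u u' : R) (huu' : u * u' = 1) (hqπ : (q : R) = u * π)
    (V₂ : ValuationSubring ↥(modularFunctionFieldFullC K (M' * q * q)))
    (hV₂ : ∀ c ∈ cm85_Vinf (K := K) (M' * q) hπ, al97L_alpha K (M' * q) q c ∈ V₂)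
    (hπ₂ : (algebraMap K ↥(modularFunctionFieldFullC K (M' * q * q)) (algebraMap R K π))⁻¹ ∉ V₂)
    (hne : cm85_Vinf (K := K) (M' * q * q) hπ ≠ V₂)
    (hs : V₂.valuation (v2g64_s K M' q) ^ (q - 1) =
      V₂.valuation (algebraMap K ↥(modularFunctionFieldFullC K (M' * q * q)) (algebraMap R K π)))
    (hreg₁ : tf71_RegNodes (K := K) M' q hq hM' hπ (pk15_chart R ({(pk85_h2 K (M' * q) (h2.trans (dvd_mul_right M' q)))} : Set ↥(modularFunctionFieldFullC K (M' * q)))))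
    (hreg₂ : tf71_RegNodes (K := K) M' q hq hM' hπ (pk15_chart R ({(pk85_h2 K (M' * q) (h2.trans (dvd_mul_right M' q)))⁻¹} : Set ↥(modularFunctionFieldFullC K (M' * q)))))
    (hC₁ : (∀ n : Ideal ↥(pk15_chart R ({(pk85_h2 K (M' * q * q) (h2.trans ((dvd_mul_right M' q).trans (dvd_mul_right (M' * q) q))))} : Set ↥(modularFunctionFieldFullC K (M' * q * q)))), n.IsMaximal → algebraMap R ↥(pk15_chart R ({(pk85_h2 K (M' * q * q) (h2.trans ((dvd_mul_right M' q).trans (dvd_mul_right (M' * q) q))))} : Set ↥(modularFunctionFieldFullC K (M' * q * q)))) π ∈ n →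
        tl71_OnMid (v2g64_s K M' q) (pk15_chart R ({(pk85_h2 K (M' * q * q) (h2.trans ((dvd_mul_right M' q).trans (dvd_mul_right (M' * q) q))))} : Set ↥(modularFunctionFieldFullC K (M' * q * q)))) V₂.toSubring n →
        ¬ sf79_OnBr π (pk15_chart R ({(pk85_h2 K (M' * q * q) (h2.trans ((dvd_mul_right M' q).trans (dvd_mul_right (M' * q) q))))} : Set ↥(modularFunctionFieldFullC K (M' * q * q)))) (cm85_Vinf (K := K) (M' * q * q) hπ).toSubring n →
        ¬ sf79_OnBr π (pk15_chart R ({(pk85_h2 K (M' * q * q) (h2.trans ((dvd_mul_right M' q).trans (dvd_mul_right (M' * q) q))))} : Set ↥(modularFunctionFieldFullC K (M' * q * q)))) (nsb86_V3 (K := K) M' q hq hM' hπ).toSubring n →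
        (∃ s' b : ↥(pk15_chart R ({(pk85_h2 K (M' * q * q) (h2.trans ((dvd_mul_right M' q).trans (dvd_mul_right (M' * q) q))))} : Set ↥(modularFunctionFieldFullC K (M' * q * q)))), s' ∉ n ∧
          (s' : ↥(modularFunctionFieldFullC K (M' * q * q))) * rm90_j K (M' * q * q) = (b : ↥(modularFunctionFieldFullC K (M' * q * q)))) →
        mc25_MidPrinAt (v2g64_s K M' q) (pk15_chart R ({(pk85_h2 K (M' * q * q) (h2.trans ((dvd_mul_right M' q).trans (dvd_mul_right (M' * q) q))))} : Set ↥(modularFunctionFieldFullC K (M' * q * q)))) V₂.toSubring n))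
    (hC₂ : (∀ n : Ideal ↥(pk15_chart R ({(pk85_h2 K (M' * q * q) (h2.trans ((dvd_mul_right M' q).trans (dvd_mul_right (M' * q) q))))⁻¹} : Set ↥(modularFunctionFieldFullC K (M' * q * q)))), n.IsMaximal → algebraMap R ↥(pk15_chart R ({(pk85_h2 K (M' * q * q) (h2.trans ((dvd_mul_right M' q).trans (dvd_mul_right (M' * q) q))))⁻¹} : Set ↥(modularFunctionFieldFullC K (M' * q * q)))) π ∈ n →
        tl71_OnMid (v2g64_s K M' q) (pk15_chart R ({(pk85_h2 K (M' * q * q) (h2.trans ((dvd_mul_right M' q).trans (dvd_mul_right (M' * q) q))))⁻¹} : Set ↥(modularFunctionFieldFullC K (M' * q * q)))) V₂.toSubring n →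
        ¬ sf79_OnBr π (pk15_chart R ({(pk85_h2 K (M' * q * q) (h2.trans ((dvd_mul_right M' q).trans (dvd_mul_right (M' * q) q))))⁻¹} : Set ↥(modularFunctionFieldFullC K (M' * q * q)))) (cm85_Vinf (K := K) (M' * q * q) hπ).toSubring n →
        ¬ sf79_OnBr π (pk15_chart R ({(pk85_h2 K (M' * q * q) (h2.trans ((dvd_mul_right M' q).trans (dvd_mul_right (M' * q) q))))⁻¹} : Set ↥(modularFunctionFieldFullC K (M' * q * q)))) (nsb86_V3 (K := K) M' q hq hM' hπ).toSubring n →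
        (∃ s' b : ↥(pk15_chart R ({(pk85_h2 K (M' * q * q) (h2.trans ((dvd_mul_right M' q).trans (dvd_mul_right (M' * q) q))))⁻¹} : Set ↥(modularFunctionFieldFullC K (M' * q * q)))), s' ∉ n ∧
          (s' : ↥(modularFunctionFieldFullC K (M' * q * q))) * rm90_j K (M' * q * q) = (b : ↥(modularFunctionFieldFullC K (M' * q * q)))) →
        mc25_MidPrinAt (v2g64_s K M' q) (pk15_chart R ({(pk85_h2 K (M' * q * q) (h2.trans ((dvd_mul_right M' q).trans (dvd_mul_right (M' * q) q))))⁻¹} : Set ↥(modularFunctionFieldFullC K (M' * q * q)))) V₂.toSubring n))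
    (m : ℕ) (hm : 0 < m) :
    (∀ (n : Ideal ↥(pk15_chart R ({pk85_h2 K (M' * q * q) (h2.trans ((dvd_mul_right M' q).trans (dvd_mul_right (M' * q) q)))} : Set ↥(modularFunctionFieldFullC K (M' * q * q))))) (hn : n.IsMaximal),
      algebraMap R ↥(pk15_chart R ({pk85_h2 K (M' * q * q) (h2.trans ((dvd_mul_right M' q).trans (dvd_mul_right (M' * q) q)))} : Set ↥(modularFunctionFieldFullC K (M' * q * q)))) π ∈ n →
      ¬ cp57_OneBr π (pk15_chart R ({pk85_h2 K (M' * q * q) (h2.trans ((dvd_mul_right M' q).trans (dvd_mul_right (M' * q) q)))} : Set ↥(modularFunctionFieldFullC K (M' * q * q)))) (cm85_Vinf (K := K) (M' * q * q) hπ) V₂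
        (nsb86_V3 (K := K) M' q hq hM' hπ) n →
      @hp3x77_TripleData R ↥(modularFunctionFieldFullC K (M' * q))
        ↥(modularFunctionFieldFullC K (M' * q * q)) _ _ _ _ K _ _ _ π m (pk15_chart R ({pk85_h2 K (M' * q * q) (h2.trans ((dvd_mul_right M' q).trans (dvd_mul_right (M' * q) q)))} : Set ↥(modularFunctionFieldFullC K (M' * q * q))))
        (al97L_alpha K (M' * q) q).toRingHom (al97L_beta K (M' * q) q).toRingHom
        (s35i62_normA K (M' * q) q) (s35i62_normB K (M' * q) q)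
        (cm85_Vinf (K := K) (M' * q * q) hπ) V₂ (nsb86_V3 (K := K) M' q hq hM' hπ)
        (cm85_Vinf (K := K) (M' * q) hπ) (s34i47c_V0 (K := K) M' q hq hM' hπ) n hn.isPrime) ∧
    (∀ (n : Ideal ↥(pk15_chart R ({(pk85_h2 K (M' * q * q) (h2.trans ((dvd_mul_right M' q).trans (dvd_mul_right (M' * q) q))))⁻¹} : Set ↥(modularFunctionFieldFullC K (M' * q * q))))) (hn : n.IsMaximal),
      algebraMap R ↥(pk15_chart R ({(pk85_h2 K (M' * q * q) (h2.trans ((dvd_mul_right M' q).trans (dvd_mul_right (M' * q) q))))⁻¹} : Set ↥(modularFunctionFieldFullC K (M' * q * q)))) π ∈ n →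
      ¬ cp57_OneBr π (pk15_chart R ({(pk85_h2 K (M' * q * q) (h2.trans ((dvd_mul_right M' q).trans (dvd_mul_right (M' * q) q))))⁻¹} : Set ↥(modularFunctionFieldFullC K (M' * q * q)))) (cm85_Vinf (K := K) (M' * q * q) hπ) V₂
        (nsb86_V3 (K := K) M' q hq hM' hπ) n →
      @hp3x77_TripleData R ↥(modularFunctionFieldFullC K (M' * q))
        ↥(modularFunctionFieldFullC K (M' * q * q)) _ _ _ _ K _ _ _ π m (pk15_chart R ({(pk85_h2 K (M' * q * q) (h2.trans ((dvd_mul_right M' q).trans (dvd_mul_right (M' * q) q))))⁻¹} : Set ↥(modularFunctionFieldFullC K (M' * q * q))))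
        (al97L_alpha K (M' * q) q).toRingHom (al97L_beta K (M' * q) q).toRingHom
        (s35i62_normA K (M' * q) q) (s35i62_normB K (M' * q) q)
        (cm85_Vinf (K := K) (M' * q * q) hπ) V₂ (nsb86_V3 (K := K) M' q hq hM' hπ)
        (cm85_Vinf (K := K) (M' * q) hπ) (s34i47c_V0 (K := K) M' q hq hM' hπ) n hn.isPrime) := by
  have hq2 : q ≠ 2 := by
    intro h
    apply hM'
    rw [h]
    exact h2
  have h2R : IsUnit (2 : R) := by
    have hc : Nat.Coprime 2 q := by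
      rw [Nat.coprime_comm]
      exact (Nat.Prime.coprime_iff_not_dvd hq).2
        (fun hd => hq2 ((Nat.prime_dvd_prime_iff_eq hq Nat.prime_two).mp hd))
    have h := hunit 2 hc
    exact_mod_cast h
  have hh' : s34i47c_IsHaupt K (M' * q) q (pk85_h2 K (M' * q) (h2.trans (dvd_mul_right M' q))) :=
    Or.inl ⟨hq2, (h2.trans (dvd_mul_right M' q)), rfl⟩
  have hαh : al97L_alpha K (M' * q) q (pk85_h2 K (M' * q) (h2.trans (dvd_mul_right M' q))) =
      (pk85_h2 K (M' * q * q) (h2.trans ((dvd_mul_right M' q).trans (dvd_mul_right (M' * q) q)))) :=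
    Subtype.ext (by rw [al97L_alpha_coe, pk85_h2_coe, pk85_h2_coe])
  obtain ⟨⟨fα, hfα, hfαi⟩, ⟨fα', hfα', hfαi'⟩⟩ :=
    bc95_alpha (R := R) (K := K) (M' * q) q (pk85_h2 K (M' * q) (h2.trans (dvd_mul_right M' q))) (pk85_h2 K (M' * q * q) (h2.trans ((dvd_mul_right M' q).trans (dvd_mul_right (M' * q) q)))) hαh
  obtain ⟨⟨fβ, hfβ, hfβi⟩, ⟨fβ', hfβ', hfβi'⟩⟩ :=
    bc95_beta_level2 (R := R) (K := K) (M' * q) q hq hq2 h2R (h2.trans (dvd_mul_right M' q))
      (pk85_h2 K (M' * q) (h2.trans (dvd_mul_right M' q))) (pk85_h2 K (M' * q * q) (h2.trans ((dvd_mul_right M' q).trans (dvd_mul_right (M' * q) q)))) (pk85_h2_coe K _ _) (pk85_h2_coe K _ _)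
  obtain ⟨⟨hBW₁, -⟩, ⟨hBW₂, -⟩⟩ := nf79c_chart_facts (K := K) M' q hq hM' hπ hunit hqR
    (pk85_h2 K (M' * q) (h2.trans (dvd_mul_right M' q))) hh'
  obtain ⟨-, -, -, -, hα₃, hβ₂, hβ₃⟩ :=
    tg71_inputs (K := K) M' q hq hM' hπ hqR V₂ hV₂ hπ₂ hne hs
  obtain ⟨hT1, hT2⟩ := tg71_final_level2 (K := K) M' q hq hM' hπ hunit hqR hMu h2 u u' huu' hqπ
    V₂ hV₂ hπ₂ hne hs hreg₁ hreg₂ hC₁ hC₂
  obtain ⟨hDa, hDb⟩ := tg71_hD_level2 (K := K) M' q hq hM' hπ hunit hqR h2 V₂ hV₂ hπ₂ hne hs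
  obtain ⟨hD1a, hD3a⟩ := hDa hreg₁
  obtain ⟨hD1b, hD3b⟩ := hDb hreg₂
  obtain ⟨⟨hS1a, hS2a, hS3a⟩, ⟨hS1b, hS2b, hS3b⟩⟩ :=
    sm7_three_smooth_K_level2 (R := R) (K := K) M' q hq hM' hπ hqR h2 hMu V₂ hV₂ hπ₂ hne
      (v2g64_s K M' q) hs
  obtain ⟨hLa, hLb⟩ := tl3_lifts_level2 (K := K) M' q hq hM' hπ hqR hunit h2 V₂ hV₂ hπ₂ hne hs
  obtain ⟨hLP1, hLP2⟩ := rc9_tripleLP_level2 (K := K) M' q hq hM' hπ hunit hqR hMu h2 u u' huu'
    hqπ V₂ hV₂ hπ₂ hne hs hreg₁ hreg₂ hC₁ hC₂ m hm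
  obtain ⟨⟨hNa, hBV1a, hBV2a, hBV3a, -, -, hFraca, -⟩,
      ⟨hNb, hBV1b, hBV2b, hBV3b, -, -, hFracb, -⟩⟩ :=
    cf54_level2 (K := K) M' q hq hM' hπ hqR hMu h2 V₂ hV₂ hπ₂ hs
  have e : algebraMap R ↥(modularFunctionFieldFullC K (M' * q * q)) π =
      algebraMap K ↥(modularFunctionFieldFullC K (M' * q * q)) (algebraMap R K π) :=
    IsScalarTower.algebraMap_apply R K _ _
  have hπ1 := ab66_pi_V1 (K := K) M' q hπ
  have hπ3 := vuc1_V3_pi (K := K) M' q hq hM' hπ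
  obtain ⟨hr1, ha1⟩ := fd85_over_inf (K := K) M' q hq hπ (cm85_Vinf (K := K) (M' * q * q) hπ)
    (fun c hc => (al97V_alpha_mem_Vinf (M' * q) q hπ c).mpr hc) hπ1
  obtain ⟨hr2, ha2⟩ := fd85_over_inf (K := K) M' q hq hπ V₂ hV₂ hπ₂
  obtain ⟨hr3, ha3⟩ := fd85_over_zero (K := K) M' q hq hM' hπ (nsb86_V3 (K := K) M' q hq hM' hπ)
    (fun c hc => vuc1_V3_alpha (K := K) M' q hq hM' hπ c hc) hπ3
  obtain ⟨hσV, hσinv⟩ := hp3t76_sigma V₂ (v2g64_s K M' q) _ (q - 1) hπ₂ hs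
  haveI := hNa
  haveI := hNb
  exact ⟨hp3t76_TP (K := K) M' q hq hM' hπ hqR _ _ fα hfα hfαi fβ hfβ hfβi
      (fun x hx => ((wa5_mem_W _ _ x).mp (hBW₁ x hx)).1)
      (fun x hx => ((wa5_mem_W _ _ x).mp (hBW₁ x hx)).2)
      V₂ hV₂ hβ₂ hBV1a hBV2a hBV3a (by rw [e]; exact hπ1) (by rw [e]; exact hπ₂)
      (by rw [e]; exact hπ3)
      (by rw [e]; exact fun x _ hx' => hr1 x hx') (by rw [e]; exact fun x _ hx' => hr2 x hx')
      (by rw [e]; exact fun x _ hx' => hr3 x hx')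
      (by rw [e]; exact fun x _ hx0 => ha1 x hx0) (by rw [e]; exact fun x _ hx0 => ha2 x hx0)
      (by rw [e]; exact fun x _ hx0 => ha3 x hx0)
      hFraca (v2g64_s K M' q) hσV hσinv hLa hT1 hS1a hS3a hS2a hD1a hD3a m hm hLP1,
    hp3t76_TP (K := K) M' q hq hM' hπ hqR _ _ fα' hfα' hfαi' fβ' hfβ' hfβi'
      (fun x hx => ((wa5_mem_W _ _ x).mp (hBW₂ x hx)).1)
      (fun x hx => ((wa5_mem_W _ _ x).mp (hBW₂ x hx)).2)
      V₂ hV₂ hβ₂ hBV1b hBV2b hBV3b (by rw [e]; exact hπ1) (by rw [e]; exact hπ₂)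
      (by rw [e]; exact hπ3)
      (by rw [e]; exact fun x _ hx' => hr1 x hx') (by rw [e]; exact fun x _ hx' => hr2 x hx')
      (by rw [e]; exact fun x _ hx' => hr3 x hx')
      (by rw [e]; exact fun x _ hx0 => ha1 x hx0) (by rw [e]; exact fun x _ hx0 => ha2 x hx0)
      (by rw [e]; exact fun x _ hx0 => ha3 x hx0)
      hFracb (v2g64_s K M' q) hσV hσinv hLb hT2 hS1b hS3b hS2b hD1b hD3b m hm hLP2⟩

include hq hM' in
/-- **(HP-3) on BOTH canonical charts of `pk85_h2`** from (REG) + (C2) (the hypotheses of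
`tg71_final_level2`), at `π = q` (`hπq`): the two `cp57_HP3` conjuncts of `cf57_Six` /
`s36i62g_HP3c2` for `V₂` any valuation subring with `hV₂ hπ₂ hne hs`. -/
theorem hp3t76_level2 (hunit : ∀ n : ℕ, Nat.Coprime n q → IsUnit (n : R))
    (hqR : ¬ IsUnit (q : R)) (hMu : IsUnit (M' : R)) (h2 : 2 ∣ M')
    (u u' : R) (huu' : u * u' = 1) (hqπ : (q : R) = u * π)
    (V₂ : ValuationSubring ↥(modularFunctionFieldFullC K (M' * q * q)))
    (hV₂ : ∀ c ∈ cm85_Vinf (K := K) (M' * q) hπ, al97L_alpha K (M' * q) q c ∈ V₂)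
    (hπ₂ : (algebraMap K ↥(modularFunctionFieldFullC K (M' * q * q)) (algebraMap R K π))⁻¹ ∉ V₂)
    (hne : cm85_Vinf (K := K) (M' * q * q) hπ ≠ V₂)
    (hs : V₂.valuation (v2g64_s K M' q) ^ (q - 1) =
      V₂.valuation (algebraMap K ↥(modularFunctionFieldFullC K (M' * q * q)) (algebraMap R K π)))
    (hreg₁ : tf71_RegNodes (K := K) M' q hq hM' hπ (pk15_chart R ({(pk85_h2 K (M' * q) (h2.trans (dvd_mul_right M' q)))} : Set ↥(modularFunctionFieldFullC K (M' * q)))))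
    (hreg₂ : tf71_RegNodes (K := K) M' q hq hM' hπ (pk15_chart R ({(pk85_h2 K (M' * q) (h2.trans (dvd_mul_right M' q)))⁻¹} : Set ↥(modularFunctionFieldFullC K (M' * q)))))
    (hC₁ : (∀ n : Ideal ↥(pk15_chart R ({(pk85_h2 K (M' * q * q) (h2.trans ((dvd_mul_right M' q).trans (dvd_mul_right (M' * q) q))))} : Set ↥(modularFunctionFieldFullC K (M' * q * q)))), n.IsMaximal → algebraMap R ↥(pk15_chart R ({(pk85_h2 K (M' * q * q) (h2.trans ((dvd_mul_right M' q).trans (dvd_mul_right (M' * q) q))))} : Set ↥(modularFunctionFieldFullC K (M' * q * q)))) π ∈ n →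
        tl71_OnMid (v2g64_s K M' q) (pk15_chart R ({(pk85_h2 K (M' * q * q) (h2.trans ((dvd_mul_right M' q).trans (dvd_mul_right (M' * q) q))))} : Set ↥(modularFunctionFieldFullC K (M' * q * q)))) V₂.toSubring n →
        ¬ sf79_OnBr π (pk15_chart R ({(pk85_h2 K (M' * q * q) (h2.trans ((dvd_mul_right M' q).trans (dvd_mul_right (M' * q) q))))} : Set ↥(modularFunctionFieldFullC K (M' * q * q)))) (cm85_Vinf (K := K) (M' * q * q) hπ).toSubring n →
        ¬ sf79_OnBr π (pk15_chart R ({(pk85_h2 K (M' * q * q) (h2.trans ((dvd_mul_right M' q).trans (dvd_mul_right (M' * q) q))))} : Set ↥(modularFunctionFieldFullC K (M' * q * q)))) (nsb86_V3 (K := K) M' q hq hM' hπ).toSubring n →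
        (∃ s' b : ↥(pk15_chart R ({(pk85_h2 K (M' * q * q) (h2.trans ((dvd_mul_right M' q).trans (dvd_mul_right (M' * q) q))))} : Set ↥(modularFunctionFieldFullC K (M' * q * q)))), s' ∉ n ∧
          (s' : ↥(modularFunctionFieldFullC K (M' * q * q))) * rm90_j K (M' * q * q) = (b : ↥(modularFunctionFieldFullC K (M' * q * q)))) →
        mc25_MidPrinAt (v2g64_s K M' q) (pk15_chart R ({(pk85_h2 K (M' * q * q) (h2.trans ((dvd_mul_right M' q).trans (dvd_mul_right (M' * q) q))))} : Set ↥(modularFunctionFieldFullC K (M' * q * q)))) V₂.toSubring n))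
    (hC₂ : (∀ n : Ideal ↥(pk15_chart R ({(pk85_h2 K (M' * q * q) (h2.trans ((dvd_mul_right M' q).trans (dvd_mul_right (M' * q) q))))⁻¹} : Set ↥(modularFunctionFieldFullC K (M' * q * q)))), n.IsMaximal → algebraMap R ↥(pk15_chart R ({(pk85_h2 K (M' * q * q) (h2.trans ((dvd_mul_right M' q).trans (dvd_mul_right (M' * q) q))))⁻¹} : Set ↥(modularFunctionFieldFullC K (M' * q * q)))) π ∈ n →
        tl71_OnMid (v2g64_s K M' q) (pk15_chart R ({(pk85_h2 K (M' * q * q) (h2.trans ((dvd_mul_right M' q).trans (dvd_mul_right (M' * q) q))))⁻¹} : Set ↥(modularFunctionFieldFullC K (M' * q * q)))) V₂.toSubring n →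
        ¬ sf79_OnBr π (pk15_chart R ({(pk85_h2 K (M' * q * q) (h2.trans ((dvd_mul_right M' q).trans (dvd_mul_right (M' * q) q))))⁻¹} : Set ↥(modularFunctionFieldFullC K (M' * q * q)))) (cm85_Vinf (K := K) (M' * q * q) hπ).toSubring n →
        ¬ sf79_OnBr π (pk15_chart R ({(pk85_h2 K (M' * q * q) (h2.trans ((dvd_mul_right M' q).trans (dvd_mul_right (M' * q) q))))⁻¹} : Set ↥(modularFunctionFieldFullC K (M' * q * q)))) (nsb86_V3 (K := K) M' q hq hM' hπ).toSubring n →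
        (∃ s' b : ↥(pk15_chart R ({(pk85_h2 K (M' * q * q) (h2.trans ((dvd_mul_right M' q).trans (dvd_mul_right (M' * q) q))))⁻¹} : Set ↥(modularFunctionFieldFullC K (M' * q * q)))), s' ∉ n ∧
          (s' : ↥(modularFunctionFieldFullC K (M' * q * q))) * rm90_j K (M' * q * q) = (b : ↥(modularFunctionFieldFullC K (M' * q * q)))) →
        mc25_MidPrinAt (v2g64_s K M' q) (pk15_chart R ({(pk85_h2 K (M' * q * q) (h2.trans ((dvd_mul_right M' q).trans (dvd_mul_right (M' * q) q))))⁻¹} : Set ↥(modularFunctionFieldFullC K (M' * q * q)))) V₂.toSubring n))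
    (m : ℕ) (hm : 0 < m) (hπq : ((q : ℕ) : R) = π) (hmu : IsUnit ((m : ℕ) : R)) :
    cp57_HP3 (K := K) π q m (pk15_chart R ({pk85_h2 K (M' * q * q) (h2.trans ((dvd_mul_right M' q).trans (dvd_mul_right (M' * q) q)))} : Set ↥(modularFunctionFieldFullC K (M' * q * q))))
        (al97L_alpha K (M' * q) q).toRingHom (al97L_beta K (M' * q) q).toRingHom
        (s35i62_normA K (M' * q) q) (s35i62_normB K (M' * q) q)
        (cm85_Vinf (K := K) (M' * q * q) hπ) V₂ (nsb86_V3 (K := K) M' q hq hM' hπ)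
        (cm85_Vinf (K := K) (M' * q) hπ) (s34i47c_V0 (K := K) M' q hq hM' hπ) ∧
    cp57_HP3 (K := K) π q m (pk15_chart R ({(pk85_h2 K (M' * q * q) (h2.trans ((dvd_mul_right M' q).trans (dvd_mul_right (M' * q) q))))⁻¹} : Set ↥(modularFunctionFieldFullC K (M' * q * q))))
        (al97L_alpha K (M' * q) q).toRingHom (al97L_beta K (M' * q) q).toRingHom
        (s35i62_normA K (M' * q) q) (s35i62_normB K (M' * q) q)
        (cm85_Vinf (K := K) (M' * q * q) hπ) V₂ (nsb86_V3 (K := K) M' q hq hM' hπ)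
        (cm85_Vinf (K := K) (M' * q) hπ) (s34i47c_V0 (K := K) M' q hq hM' hπ) := by
  obtain ⟨t1, t2⟩ := hp3t76_TP_level2 (K := K) M' q hq hM' hπ hunit hqR hMu h2 u u' huu' hqπ
    V₂ hV₂ hπ₂ hne hs hreg₁ hreg₂ hC₁ hC₂ m hm
  subst hπq
  exact hp3g94_level2 M' q m hq hM' R K hπ hMu h2 V₂ hV₂ hπ₂ hs hm hmu t1 t2

include hq hM' in
/-- **The per-point triple data `hp3x77_TripleData` at every closed point on two branches of BOTH
canonical charts, Hauptmodul of level 3**, from (REG) + (C2) (the hypotheses of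
`tg71_final_level3`): literally `hTP`, `hTP'` of `hp3g94_level3` (there `π = q`). -/
theorem hp3t76_TP_level3 (hunit : ∀ n : ℕ, Nat.Coprime n q → IsUnit (n : R))
    (hqR : ¬ IsUnit (q : R)) (hMu : IsUnit (M' : R)) (h3 : 3 ∣ M')
    (u u' : R) (huu' : u * u' = 1) (hqπ : (q : R) = u * π)
    (V₂ : ValuationSubring ↥(modularFunctionFieldFullC K (M' * q * q)))
    (hV₂ : ∀ c ∈ cm85_Vinf (K := K) (M' * q) hπ, al97L_alpha K (M' * q) q c ∈ V₂)
    (hπ₂ : (algebraMap K ↥(modularFunctionFieldFullC K (M' * q * q)) (algebraMap R K π))⁻¹ ∉ V₂)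
    (hne : cm85_Vinf (K := K) (M' * q * q) hπ ≠ V₂)
    (hs : V₂.valuation (v2g64_s K M' q) ^ (q - 1) =
      V₂.valuation (algebraMap K ↥(modularFunctionFieldFullC K (M' * q * q)) (algebraMap R K π)))
    (hreg₁ : tf71_RegNodes (K := K) M' q hq hM' hπ (pk15_chart R ({(pk85_h3 K (M' * q) (h3.trans (dvd_mul_right M' q)))} : Set ↥(modularFunctionFieldFullC K (M' * q)))))
    (hreg₂ : tf71_RegNodes (K := K) M' q hq hM' hπ (pk15_chart R ({(pk85_h3 K (M' * q) (h3.trans (dvd_mul_right M' q)))⁻¹} : Set ↥(modularFunctionFieldFullC K (M' * q)))))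
    (hC₁ : (∀ n : Ideal ↥(pk15_chart R ({(pk85_h3 K (M' * q * q) (h3.trans ((dvd_mul_right M' q).trans (dvd_mul_right (M' * q) q))))} : Set ↥(modularFunctionFieldFullC K (M' * q * q)))), n.IsMaximal → algebraMap R ↥(pk15_chart R ({(pk85_h3 K (M' * q * q) (h3.trans ((dvd_mul_right M' q).trans (dvd_mul_right (M' * q) q))))} : Set ↥(modularFunctionFieldFullC K (M' * q * q)))) π ∈ n →
        tl71_OnMid (v2g64_s K M' q) (pk15_chart R ({(pk85_h3 K (M' * q * q) (h3.trans ((dvd_mul_right M' q).trans (dvd_mul_right (M' * q) q))))} : Set ↥(modularFunctionFieldFullC K (M' * q * q)))) V₂.toSubring n →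
        ¬ sf79_OnBr π (pk15_chart R ({(pk85_h3 K (M' * q * q) (h3.trans ((dvd_mul_right M' q).trans (dvd_mul_right (M' * q) q))))} : Set ↥(modularFunctionFieldFullC K (M' * q * q)))) (cm85_Vinf (K := K) (M' * q * q) hπ).toSubring n →
        ¬ sf79_OnBr π (pk15_chart R ({(pk85_h3 K (M' * q * q) (h3.trans ((dvd_mul_right M' q).trans (dvd_mul_right (M' * q) q))))} : Set ↥(modularFunctionFieldFullC K (M' * q * q)))) (nsb86_V3 (K := K) M' q hq hM' hπ).toSubring n →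
        (∃ s' b : ↥(pk15_chart R ({(pk85_h3 K (M' * q * q) (h3.trans ((dvd_mul_right M' q).trans (dvd_mul_right (M' * q) q))))} : Set ↥(modularFunctionFieldFullC K (M' * q * q)))), s' ∉ n ∧
          (s' : ↥(modularFunctionFieldFullC K (M' * q * q))) * rm90_j K (M' * q * q) = (b : ↥(modularFunctionFieldFullC K (M' * q * q)))) →
        mc25_MidPrinAt (v2g64_s K M' q) (pk15_chart R ({(pk85_h3 K (M' * q * q) (h3.trans ((dvd_mul_right M' q).trans (dvd_mul_right (M' * q) q))))} : Set ↥(modularFunctionFieldFullC K (M' * q * q)))) V₂.toSubring n))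
    (hC₂ : (∀ n : Ideal ↥(pk15_chart R ({(pk85_h3 K (M' * q * q) (h3.trans ((dvd_mul_right M' q).trans (dvd_mul_right (M' * q) q))))⁻¹} : Set ↥(modularFunctionFieldFullC K (M' * q * q)))), n.IsMaximal → algebraMap R ↥(pk15_chart R ({(pk85_h3 K (M' * q * q) (h3.trans ((dvd_mul_right M' q).trans (dvd_mul_right (M' * q) q))))⁻¹} : Set ↥(modularFunctionFieldFullC K (M' * q * q)))) π ∈ n →
        tl71_OnMid (v2g64_s K M' q) (pk15_chart R ({(pk85_h3 K (M' * q * q) (h3.trans ((dvd_mul_right M' q).trans (dvd_mul_right (M' * q) q))))⁻¹} : Set ↥(modularFunctionFieldFullC K (M' * q * q)))) V₂.toSubring n →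
        ¬ sf79_OnBr π (pk15_chart R ({(pk85_h3 K (M' * q * q) (h3.trans ((dvd_mul_right M' q).trans (dvd_mul_right (M' * q) q))))⁻¹} : Set ↥(modularFunctionFieldFullC K (M' * q * q)))) (cm85_Vinf (K := K) (M' * q * q) hπ).toSubring n →
        ¬ sf79_OnBr π (pk15_chart R ({(pk85_h3 K (M' * q * q) (h3.trans ((dvd_mul_right M' q).trans (dvd_mul_right (M' * q) q))))⁻¹} : Set ↥(modularFunctionFieldFullC K (M' * q * q)))) (nsb86_V3 (K := K) M' q hq hM' hπ).toSubring n →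
        (∃ s' b : ↥(pk15_chart R ({(pk85_h3 K (M' * q * q) (h3.trans ((dvd_mul_right M' q).trans (dvd_mul_right (M' * q) q))))⁻¹} : Set ↥(modularFunctionFieldFullC K (M' * q * q)))), s' ∉ n ∧
          (s' : ↥(modularFunctionFieldFullC K (M' * q * q))) * rm90_j K (M' * q * q) = (b : ↥(modularFunctionFieldFullC K (M' * q * q)))) →
        mc25_MidPrinAt (v2g64_s K M' q) (pk15_chart R ({(pk85_h3 K (M' * q * q) (h3.trans ((dvd_mul_right M' q).trans (dvd_mul_right (M' * q) q))))⁻¹} : Set ↥(modularFunctionFieldFullC K (M' * q * q)))) V₂.toSubring n))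
    (m : ℕ) (hm : 0 < m) :
    (∀ (n : Ideal ↥(pk15_chart R ({pk85_h3 K (M' * q * q) (h3.trans ((dvd_mul_right M' q).trans (dvd_mul_right (M' * q) q)))} : Set ↥(modularFunctionFieldFullC K (M' * q * q))))) (hn : n.IsMaximal),
      algebraMap R ↥(pk15_chart R ({pk85_h3 K (M' * q * q) (h3.trans ((dvd_mul_right M' q).trans (dvd_mul_right (M' * q) q)))} : Set ↥(modularFunctionFieldFullC K (M' * q * q)))) π ∈ n →
      ¬ cp57_OneBr π (pk15_chart R ({pk85_h3 K (M' * q * q) (h3.trans ((dvd_mul_right M' q).trans (dvd_mul_right (M' * q) q)))} : Set ↥(modularFunctionFieldFullC K (M' * q * q)))) (cm85_Vinf (K := K) (M' * q * q) hπ) V₂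
        (nsb86_V3 (K := K) M' q hq hM' hπ) n →
      @hp3x77_TripleData R ↥(modularFunctionFieldFullC K (M' * q))
        ↥(modularFunctionFieldFullC K (M' * q * q)) _ _ _ _ K _ _ _ π m (pk15_chart R ({pk85_h3 K (M' * q * q) (h3.trans ((dvd_mul_right M' q).trans (dvd_mul_right (M' * q) q)))} : Set ↥(modularFunctionFieldFullC K (M' * q * q))))
        (al97L_alpha K (M' * q) q).toRingHom (al97L_beta K (M' * q) q).toRingHom
        (s35i62_normA K (M' * q) q) (s35i62_normB K (M' * q) q)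
        (cm85_Vinf (K := K) (M' * q * q) hπ) V₂ (nsb86_V3 (K := K) M' q hq hM' hπ)
        (cm85_Vinf (K := K) (M' * q) hπ) (s34i47c_V0 (K := K) M' q hq hM' hπ) n hn.isPrime) ∧
    (∀ (n : Ideal ↥(pk15_chart R ({(pk85_h3 K (M' * q * q) (h3.trans ((dvd_mul_right M' q).trans (dvd_mul_right (M' * q) q))))⁻¹} : Set ↥(modularFunctionFieldFullC K (M' * q * q))))) (hn : n.IsMaximal),
      algebraMap R ↥(pk15_chart R ({(pk85_h3 K (M' * q * q) (h3.trans ((dvd_mul_right M' q).trans (dvd_mul_right (M' * q) q))))⁻¹} : Set ↥(modularFunctionFieldFullC K (M' * q * q)))) π ∈ n →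
      ¬ cp57_OneBr π (pk15_chart R ({(pk85_h3 K (M' * q * q) (h3.trans ((dvd_mul_right M' q).trans (dvd_mul_right (M' * q) q))))⁻¹} : Set ↥(modularFunctionFieldFullC K (M' * q * q)))) (cm85_Vinf (K := K) (M' * q * q) hπ) V₂
        (nsb86_V3 (K := K) M' q hq hM' hπ) n →
      @hp3x77_TripleData R ↥(modularFunctionFieldFullC K (M' * q))
        ↥(modularFunctionFieldFullC K (M' * q * q)) _ _ _ _ K _ _ _ π m (pk15_chart R ({(pk85_h3 K (M' * q * q) (h3.trans ((dvd_mul_right M' q).trans (dvd_mul_right (M' * q) q))))⁻¹} : Set ↥(modularFunctionFieldFullC K (M' * q * q))))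
        (al97L_alpha K (M' * q) q).toRingHom (al97L_beta K (M' * q) q).toRingHom
        (s35i62_normA K (M' * q) q) (s35i62_normB K (M' * q) q)
        (cm85_Vinf (K := K) (M' * q * q) hπ) V₂ (nsb86_V3 (K := K) M' q hq hM' hπ)
        (cm85_Vinf (K := K) (M' * q) hπ) (s34i47c_V0 (K := K) M' q hq hM' hπ) n hn.isPrime) := by
  have hq3 : q ≠ 3 := by
    intro h
    apply hM'
    rw [h]
    exact h3
  have h3R : IsUnit (3 : R) := by
    have hc : Nat.Coprime 3 q := by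
      rw [Nat.coprime_comm]
      exact (Nat.Prime.coprime_iff_not_dvd hq).2
        (fun hd => hq3 ((Nat.prime_dvd_prime_iff_eq hq Nat.prime_three).mp hd))
    have h := hunit 3 hc
    exact_mod_cast h
  have hh' : s34i47c_IsHaupt K (M' * q) q (pk85_h3 K (M' * q) (h3.trans (dvd_mul_right M' q))) :=
    Or.inr ⟨hq3, (h3.trans (dvd_mul_right M' q)), rfl⟩
  have hαh : al97L_alpha K (M' * q) q (pk85_h3 K (M' * q) (h3.trans (dvd_mul_right M' q))) =
      (pk85_h3 K (M' * q * q) (h3.trans ((dvd_mul_right M' q).trans (dvd_mul_right (M' * q) q)))) :=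
    Subtype.ext (by rw [al97L_alpha_coe, pk85_h3_coe, pk85_h3_coe])
  obtain ⟨⟨fα, hfα, hfαi⟩, ⟨fα', hfα', hfαi'⟩⟩ :=
    bc95_alpha (R := R) (K := K) (M' * q) q (pk85_h3 K (M' * q) (h3.trans (dvd_mul_right M' q))) (pk85_h3 K (M' * q * q) (h3.trans ((dvd_mul_right M' q).trans (dvd_mul_right (M' * q) q)))) hαh
  obtain ⟨⟨fβ, hfβ, hfβi⟩, ⟨fβ', hfβ', hfβi'⟩⟩ :=
    bc95_beta_level3 (R := R) (K := K) (M' * q) q hq hq3 h3R (h3.trans (dvd_mul_right M' q))
      (pk85_h3 K (M' * q) (h3.trans (dvd_mul_right M' q))) (pk85_h3 K (M' * q * q) (h3.trans ((dvd_mul_right M' q).trans (dvd_mul_right (M' * q) q)))) (pk85_h3_coe K _ _) (pk85_h3_coe K _ _)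
  obtain ⟨⟨hBW₁, -⟩, ⟨hBW₂, -⟩⟩ := nf79c_chart_facts (K := K) M' q hq hM' hπ hunit hqR
    (pk85_h3 K (M' * q) (h3.trans (dvd_mul_right M' q))) hh'
  obtain ⟨-, -, -, -, hα₃, hβ₂, hβ₃⟩ :=
    tg71_inputs (K := K) M' q hq hM' hπ hqR V₂ hV₂ hπ₂ hne hs
  obtain ⟨hT1, hT2⟩ := tg71_final_level3 (K := K) M' q hq hM' hπ hunit hqR hMu h3 u u' huu' hqπ
    V₂ hV₂ hπ₂ hne hs hreg₁ hreg₂ hC₁ hC₂
  obtain ⟨hDa, hDb⟩ := tg71_hD_level3 (K := K) M' q hq hM' hπ hunit hqR h3 V₂ hV₂ hπ₂ hne hs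
  obtain ⟨hD1a, hD3a⟩ := hDa hreg₁
  obtain ⟨hD1b, hD3b⟩ := hDb hreg₂
  obtain ⟨⟨hS1a, hS2a, hS3a⟩, ⟨hS1b, hS2b, hS3b⟩⟩ :=
    sm7_three_smooth_K_level3 (R := R) (K := K) M' q hq hM' hπ hqR h3 hMu V₂ hV₂ hπ₂ hne
      (v2g64_s K M' q) hs
  obtain ⟨hLa, hLb⟩ := tl3_lifts_level3 (K := K) M' q hq hM' hπ hqR hunit h3 V₂ hV₂ hπ₂ hne hs
  obtain ⟨hLP1, hLP2⟩ := rc9_tripleLP_level3 (K := K) M' q hq hM' hπ hunit hqR hMu h3 u u' huu'
    hqπ V₂ hV₂ hπ₂ hne hs hreg₁ hreg₂ hC₁ hC₂ m hm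
  obtain ⟨⟨hNa, hBV1a, hBV2a, hBV3a, -, -, hFraca, -⟩,
      ⟨hNb, hBV1b, hBV2b, hBV3b, -, -, hFracb, -⟩⟩ :=
    cf54_level3 (K := K) M' q hq hM' hπ hqR hMu h3 V₂ hV₂ hπ₂ hs
  have e : algebraMap R ↥(modularFunctionFieldFullC K (M' * q * q)) π =
      algebraMap K ↥(modularFunctionFieldFullC K (M' * q * q)) (algebraMap R K π) :=
    IsScalarTower.algebraMap_apply R K _ _
  have hπ1 := ab66_pi_V1 (K := K) M' q hπ
  have hπ3 := vuc1_V3_pi (K := K) M' q hq hM' hπ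
  obtain ⟨hr1, ha1⟩ := fd85_over_inf (K := K) M' q hq hπ (cm85_Vinf (K := K) (M' * q * q) hπ)
    (fun c hc => (al97V_alpha_mem_Vinf (M' * q) q hπ c).mpr hc) hπ1
  obtain ⟨hr2, ha2⟩ := fd85_over_inf (K := K) M' q hq hπ V₂ hV₂ hπ₂
  obtain ⟨hr3, ha3⟩ := fd85_over_zero (K := K) M' q hq hM' hπ (nsb86_V3 (K := K) M' q hq hM' hπ)
    (fun c hc => vuc1_V3_alpha (K := K) M' q hq hM' hπ c hc) hπ3
  obtain ⟨hσV, hσinv⟩ := hp3t76_sigma V₂ (v2g64_s K M' q) _ (q - 1) hπ₂ hs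
  haveI := hNa
  haveI := hNb
  exact ⟨hp3t76_TP (K := K) M' q hq hM' hπ hqR _ _ fα hfα hfαi fβ hfβ hfβi
      (fun x hx => ((wa5_mem_W _ _ x).mp (hBW₁ x hx)).1)
      (fun x hx => ((wa5_mem_W _ _ x).mp (hBW₁ x hx)).2)
      V₂ hV₂ hβ₂ hBV1a hBV2a hBV3a (by rw [e]; exact hπ1) (by rw [e]; exact hπ₂)
      (by rw [e]; exact hπ3)
      (by rw [e]; exact fun x _ hx' => hr1 x hx') (by rw [e]; exact fun x _ hx' => hr2 x hx')
      (by rw [e]; exact fun x _ hx' => hr3 x hx')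
      (by rw [e]; exact fun x _ hx0 => ha1 x hx0) (by rw [e]; exact fun x _ hx0 => ha2 x hx0)
      (by rw [e]; exact fun x _ hx0 => ha3 x hx0)
      hFraca (v2g64_s K M' q) hσV hσinv hLa hT1 hS1a hS3a hS2a hD1a hD3a m hm hLP1,
    hp3t76_TP (K := K) M' q hq hM' hπ hqR _ _ fα' hfα' hfαi' fβ' hfβ' hfβi'
      (fun x hx => ((wa5_mem_W _ _ x).mp (hBW₂ x hx)).1)
      (fun x hx => ((wa5_mem_W _ _ x).mp (hBW₂ x hx)).2)
      V₂ hV₂ hβ₂ hBV1b hBV2b hBV3b (by rw [e]; exact hπ1) (by rw [e]; exact hπ₂)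
      (by rw [e]; exact hπ3)
      (by rw [e]; exact fun x _ hx' => hr1 x hx') (by rw [e]; exact fun x _ hx' => hr2 x hx')
      (by rw [e]; exact fun x _ hx' => hr3 x hx')
      (by rw [e]; exact fun x _ hx0 => ha1 x hx0) (by rw [e]; exact fun x _ hx0 => ha2 x hx0)
      (by rw [e]; exact fun x _ hx0 => ha3 x hx0)
      hFracb (v2g64_s K M' q) hσV hσinv hLb hT2 hS1b hS3b hS2b hD1b hD3b m hm hLP2⟩

include hq hM' in
/-- **(HP-3) on BOTH canonical charts of `pk85_h3`** from (REG) + (C2) (the hypotheses of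
`tg71_final_level3`), at `π = q` (`hπq`): the two `cp57_HP3` conjuncts of `cf57_Six` /
`s36i62g_HP3c2` for `V₂` any valuation subring with `hV₂ hπ₂ hne hs`. -/
theorem hp3t76_level3 (hunit : ∀ n : ℕ, Nat.Coprime n q → IsUnit (n : R))
    (hqR : ¬ IsUnit (q : R)) (hMu : IsUnit (M' : R)) (h3 : 3 ∣ M')
    (u u' : R) (huu' : u * u' = 1) (hqπ : (q : R) = u * π)
    (V₂ : ValuationSubring ↥(modularFunctionFieldFullC K (M' * q * q)))
    (hV₂ : ∀ c ∈ cm85_Vinf (K := K) (M' * q) hπ, al97L_alpha K (M' * q) q c ∈ V₂)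
    (hπ₂ : (algebraMap K ↥(modularFunctionFieldFullC K (M' * q * q)) (algebraMap R K π))⁻¹ ∉ V₂)
    (hne : cm85_Vinf (K := K) (M' * q * q) hπ ≠ V₂)
    (hs : V₂.valuation (v2g64_s K M' q) ^ (q - 1) =
      V₂.valuation (algebraMap K ↥(modularFunctionFieldFullC K (M' * q * q)) (algebraMap R K π)))
    (hreg₁ : tf71_RegNodes (K := K) M' q hq hM' hπ (pk15_chart R ({(pk85_h3 K (M' * q) (h3.trans (dvd_mul_right M' q)))} : Set ↥(modularFunctionFieldFullC K (M' * q)))))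
    (hreg₂ : tf71_RegNodes (K := K) M' q hq hM' hπ (pk15_chart R ({(pk85_h3 K (M' * q) (h3.trans (dvd_mul_right M' q)))⁻¹} : Set ↥(modularFunctionFieldFullC K (M' * q)))))
    (hC₁ : (∀ n : Ideal ↥(pk15_chart R ({(pk85_h3 K (M' * q * q) (h3.trans ((dvd_mul_right M' q).trans (dvd_mul_right (M' * q) q))))} : Set ↥(modularFunctionFieldFullC K (M' * q * q)))), n.IsMaximal → algebraMap R ↥(pk15_chart R ({(pk85_h3 K (M' * q * q) (h3.trans ((dvd_mul_right M' q).trans (dvd_mul_right (M' * q) q))))} : Set ↥(modularFunctionFieldFullC K (M' * q * q)))) π ∈ n →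
        tl71_OnMid (v2g64_s K M' q) (pk15_chart R ({(pk85_h3 K (M' * q * q) (h3.trans ((dvd_mul_right M' q).trans (dvd_mul_right (M' * q) q))))} : Set ↥(modularFunctionFieldFullC K (M' * q * q)))) V₂.toSubring n →
        ¬ sf79_OnBr π (pk15_chart R ({(pk85_h3 K (M' * q * q) (h3.trans ((dvd_mul_right M' q).trans (dvd_mul_right (M' * q) q))))} : Set ↥(modularFunctionFieldFullC K (M' * q * q)))) (cm85_Vinf (K := K) (M' * q * q) hπ).toSubring n →
        ¬ sf79_OnBr π (pk15_chart R ({(pk85_h3 K (M' * q * q) (h3.trans ((dvd_mul_right M' q).trans (dvd_mul_right (M' * q) q))))} : Set ↥(modularFunctionFieldFullC K (M' * q * q)))) (nsb86_V3 (K := K) M' q hq hM' hπ).toSubring n →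
        (∃ s' b : ↥(pk15_chart R ({(pk85_h3 K (M' * q * q) (h3.trans ((dvd_mul_right M' q).trans (dvd_mul_right (M' * q) q))))} : Set ↥(modularFunctionFieldFullC K (M' * q * q)))), s' ∉ n ∧
          (s' : ↥(modularFunctionFieldFullC K (M' * q * q))) * rm90_j K (M' * q * q) = (b : ↥(modularFunctionFieldFullC K (M' * q * q)))) →
        mc25_MidPrinAt (v2g64_s K M' q) (pk15_chart R ({(pk85_h3 K (M' * q * q) (h3.trans ((dvd_mul_right M' q).trans (dvd_mul_right (M' * q) q))))} : Set ↥(modularFunctionFieldFullC K (M' * q * q)))) V₂.toSubring n))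
    (hC₂ : (∀ n : Ideal ↥(pk15_chart R ({(pk85_h3 K (M' * q * q) (h3.trans ((dvd_mul_right M' q).trans (dvd_mul_right (M' * q) q))))⁻¹} : Set ↥(modularFunctionFieldFullC K (M' * q * q)))), n.IsMaximal → algebraMap R ↥(pk15_chart R ({(pk85_h3 K (M' * q * q) (h3.trans ((dvd_mul_right M' q).trans (dvd_mul_right (M' * q) q))))⁻¹} : Set ↥(modularFunctionFieldFullC K (M' * q * q)))) π ∈ n →
        tl71_OnMid (v2g64_s K M' q) (pk15_chart R ({(pk85_h3 K (M' * q * q) (h3.trans ((dvd_mul_right M' q).trans (dvd_mul_right (M' * q) q))))⁻¹} : Set ↥(modularFunctionFieldFullC K (M' * q * q)))) V₂.toSubring n →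
        ¬ sf79_OnBr π (pk15_chart R ({(pk85_h3 K (M' * q * q) (h3.trans ((dvd_mul_right M' q).trans (dvd_mul_right (M' * q) q))))⁻¹} : Set ↥(modularFunctionFieldFullC K (M' * q * q)))) (cm85_Vinf (K := K) (M' * q * q) hπ).toSubring n →
        ¬ sf79_OnBr π (pk15_chart R ({(pk85_h3 K (M' * q * q) (h3.trans ((dvd_mul_right M' q).trans (dvd_mul_right (M' * q) q))))⁻¹} : Set ↥(modularFunctionFieldFullC K (M' * q * q)))) (nsb86_V3 (K := K) M' q hq hM' hπ).toSubring n →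
        (∃ s' b : ↥(pk15_chart R ({(pk85_h3 K (M' * q * q) (h3.trans ((dvd_mul_right M' q).trans (dvd_mul_right (M' * q) q))))⁻¹} : Set ↥(modularFunctionFieldFullC K (M' * q * q)))), s' ∉ n ∧
          (s' : ↥(modularFunctionFieldFullC K (M' * q * q))) * rm90_j K (M' * q * q) = (b : ↥(modularFunctionFieldFullC K (M' * q * q)))) →
        mc25_MidPrinAt (v2g64_s K M' q) (pk15_chart R ({(pk85_h3 K (M' * q * q) (h3.trans ((dvd_mul_right M' q).trans (dvd_mul_right (M' * q) q))))⁻¹} : Set ↥(modularFunctionFieldFullC K (M' * q * q)))) V₂.toSubring n))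
    (m : ℕ) (hm : 0 < m) (hπq : ((q : ℕ) : R) = π) (hmu : IsUnit ((m : ℕ) : R)) :
    cp57_HP3 (K := K) π q m (pk15_chart R ({pk85_h3 K (M' * q * q) (h3.trans ((dvd_mul_right M' q).trans (dvd_mul_right (M' * q) q)))} : Set ↥(modularFunctionFieldFullC K (M' * q * q))))
        (al97L_alpha K (M' * q) q).toRingHom (al97L_beta K (M' * q) q).toRingHom
        (s35i62_normA K (M' * q) q) (s35i62_normB K (M' * q) q)
        (cm85_Vinf (K := K) (M' * q * q) hπ) V₂ (nsb86_V3 (K := K) M' q hq hM' hπ)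
        (cm85_Vinf (K := K) (M' * q) hπ) (s34i47c_V0 (K := K) M' q hq hM' hπ) ∧
    cp57_HP3 (K := K) π q m (pk15_chart R ({(pk85_h3 K (M' * q * q) (h3.trans ((dvd_mul_right M' q).trans (dvd_mul_right (M' * q) q))))⁻¹} : Set ↥(modularFunctionFieldFullC K (M' * q * q))))
        (al97L_alpha K (M' * q) q).toRingHom (al97L_beta K (M' * q) q).toRingHom
        (s35i62_normA K (M' * q) q) (s35i62_normB K (M' * q) q)
        (cm85_Vinf (K := K) (M' * q * q) hπ) V₂ (nsb86_V3 (K := K) M' q hq hM' hπ)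
        (cm85_Vinf (K := K) (M' * q) hπ) (s34i47c_V0 (K := K) M' q hq hM' hπ) := by
  obtain ⟨t1, t2⟩ := hp3t76_TP_level3 (K := K) M' q hq hM' hπ hunit hqR hMu h3 u u' huu' hqπ
    V₂ hV₂ hπ₂ hne hs hreg₁ hreg₂ hC₁ hC₂ m hm
  subst hπq
  exact hp3g94_level3 M' q m hq hM' R K hπ hMu h3 V₂ hV₂ hπ₂ hs hm hmu t1 t2

end hp3t76

end Fermat.Agent.S36
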