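import Mathlib
import Fermat.Agent.S36.CoreHP1_84
import Fermat.Agent.S36.MidCuspGen25

/-!
# S36 lab, row 605 (HP-1), PER POINT (helper93, seat 93)

`cp57_HP1` (CorePoints57) from the frame facts of the three-branch chart, with NO hypothesis at
the points lying on two branches: the only divisor input is, at the closed points lying on the
middle branch `V₂` alone, a local generator of the middle branch prime in the shape
`mc25_MidPrinAt` (helper25; implied by `tl71_MidDivAt` through `mc25_prinAt_of_midDiv`, and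
available at the cusps of the middle component, where `tl71_MidDivAt` is not).

* `hp1a93_gen_mem` : the generator `g` of `mc25_MidPrinAt` lies in the centre of `V₂`
  (Nakayama on the branch prime).
* `hp1a93_brData_mid` : coordinate + generator of the middle branch (`hp84_BrData`).
* `hp1a93_twoGen` : `hp84_BrData` gives two local generators of the closed point.
* `hp1a93_HP1` : the package `cp57_HP1`.

All names are prefixed `hp1a93_`.
-/

set_option autoImplicit false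
set_option linter.style.longLine false
set_option linter.unusedVariables false
set_option linter.unusedSectionVars false

namespace Fermat.Agent.S36

open Fermat.Agent.S18 Fermat.Agent.S34 Fermat.Agent.S35 Fermat.Agent.S36.TripleLoc71

section Branch

variable {R F : Type*} [CommRing R] [Field F] [Algebra R F]

/-- **Nakayama on the branch prime.**  If every element of the branch `p_V = B ∩ 𝔪 (V)` is,
locally at the closed point `n`, a multiple of `g ∈ n`, and `p_V ≠ 0`, then `g ∈ p_V`. -/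
theorem hp1a93_gen_mem (π : R) (hπ0 : algebraMap R F π ≠ 0) (B : Subalgebra R F)
    [IsNoetherianRing B] (V : ValuationSubring F) (hBV : ∀ x ∈ B, x ∈ V)
    (hπv : V.valuation (algebraMap R F π) < 1)
    (n : Ideal B) (hn : n.IsMaximal) (g t : B) (ht : t ∉ n) (hgn : g ∈ n)
    (hgen : ∀ y : B, V.valuation (y : F) < 1 → ∃ b : B, t * y = b * g) :
    V.valuation (g : F) < 1 := by
  classical
  by_contra hg
  have hg1 : V.valuation (g : F) = 1 :=
    le_antisymm ((V.valuation_le_one_iff _).mpr (hBV _ g.2)) (not_lt.mp hg)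
  obtain ⟨t', ν, hν, htν⟩ := hn.exists_inv ht
  -- the branch prime
  have hle : ld55_br B V hBV ≤ n • ld55_br B V hBV := by
    intro y hy
    have hy' : V.valuation (y : F) < 1 := hy
    obtain ⟨b, hb⟩ := hgen y hy'
    have hbv : V.valuation (b : F) < 1 := by
      have e1 : (t : F) * (y : F) = (b : F) * (g : F) := by
        have := congrArg (fun w : B => (w : F)) hb
        simpa using this
      have e2 : V.valuation (b : F) = V.valuation ((t : F) * (y : F)) := by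
        rw [e1, map_mul, hg1, mul_one]
      rw [e2]
      exact gc26_mul V (hBV _ t.2) hy'
    have hbI : b ∈ ld55_br B V hBV := hbv
    have e3 : y = g * (t' * b) + ν * y := by
      have h1 : y = (t' * t + ν) * y := by rw [htν, one_mul]
      calc y = (t' * t + ν) * y := h1
        _ = t' * (t * y) + ν * y := by ring
        _ = t' * (b * g) + ν * y := by rw [hb]
        _ = g * (t' * b) + ν * y := by ring
    rw [e3]
    refine Submodule.add_mem _ ?_ ?_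
    · exact Submodule.smul_mem_smul hgn (Ideal.mul_mem_left _ t' hbI)
    · exact Submodule.smul_mem_smul hν hy
  obtain ⟨r, hr1, hr0⟩ := Submodule.exists_sub_one_mem_and_smul_eq_zero_of_fg_of_le_smul n
    (ld55_br B V hBV) (IsNoetherian.noetherian _) hle
  have hπI : algebraMap R B π ∈ ld55_br B V hBV := by
    show V.valuation ((algebraMap R B π : B) : F) < 1
    exact hπv
  have h0 := hr0 _ hπI
  have h0' : (r : F) * algebraMap R F π = 0 := by
    have := congrArg (fun w : B => (w : F)) h0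
    simpa [smul_eq_mul] using this
  rcases mul_eq_zero.mp h0' with h | h
  · have hr : r = 0 := Subtype.ext h
    rw [hr, zero_sub] at hr1
    have h1n : (1 : B) ∈ n := by
      have := n.neg_mem hr1
      simpa using this
    exact hn.ne_top ((Ideal.eq_top_iff_one n).mpr h1n)
  · exact hπ0 h

/-- The middle branch at a point where its prime is locally principal (`mc25_MidPrinAt`):
coordinate from `tl71_MidSmooth`, generator `g` of `mc25_MidPrinAt`. -/
theorem hp1a93_brData_mid (π : R) (σ : F) (e : ℕ) (hπ0 : algebraMap R F π ≠ 0) (hσ0 : σ ≠ 0)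
    (B : Subalgebra R F) [IsNoetherianRing B] (V₂ : ValuationSubring F)
    (hB₂ : ∀ x ∈ B, x ∈ V₂)
    (hπ₂ : (algebraMap R F π)⁻¹ ∉ V₂)
    (hσe : (algebraMap R F π)⁻¹ * σ ^ e ∈ V₂)
    (hunif₂ : ∀ x : F, V₂.valuation x < 1 → x * σ⁻¹ ∈ V₂)
    (hS₂ : tl71_MidSmooth π σ B V₂.toSubring)
    (n : Ideal B) (hn : n.IsMaximal) (hπn : algebraMap R B π ∈ n)
    (hP : mc25_MidPrinAt σ B V₂.toSubring n)
    (hOn : sf79_OnBr π B V₂.toSubring n) :
    hp84_BrData B V₂ n := by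
  have hnp : n.IsPrime := hn.isPrime
  have hσv : V₂.valuation σ < 1 :=
    ld55_val_lt_of_pow V₂ σ e (ld84_val_lt V₂ _ _ hπ₂ hσe)
  have hmid : tl71_OnMid σ B V₂.toSubring n :=
    lps9_onMid_of_onBr π σ e B V₂.toSubring hσ0 hσe n hOn
  obtain ⟨z, hzn, hz⟩ := hS₂ n hn hπn hmid
  obtain ⟨g, t, ht, hgn, hgen⟩ := hP
  have hdiv : ∀ y : F, y * σ⁻¹ ∈ V₂ → V₂.valuation y < 1 := by
    intro y hy
    have e1 : y = (y * σ⁻¹) * σ := by field_simp
    rw [e1]
    exact gc26_mul V₂ hy hσv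
  have hgen' : ∀ y : B, V₂.valuation (y : F) < 1 → ∃ b : B, t * y = b * g :=
    fun y hy => hgen y (hunif₂ _ hy)
  have hgv : V₂.valuation (g : F) < 1 :=
    hp1a93_gen_mem π hπ0 B V₂ hB₂ (ld84_val_unif V₂ _ hπ₂) n hn g t ht hgn hgen'
  refine ⟨z, g, hzn, ?_, hgv, ?_⟩
  · intro x hx
    obtain ⟨s, hs, a, ha⟩ := hz x hx
    exact ⟨s, hs, a, hdiv _ ha⟩
  · intro x hx
    obtain ⟨b, hb⟩ := hgen' x hx
    exact ⟨t, ht, b, hb⟩

/-- A branch coordinate and a branch generator are two local generators of the closed point. -/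
theorem hp1a93_twoGen (B : Subalgebra R F) (V : ValuationSubring F) (n : Ideal B)
    [hnp : n.IsPrime] (hBr : hp84_BrData B V n)
    (hOnV : ∀ x : B, (x : F) ∈ ld55_mV V → x ∈ n) :
    ∃ x y : B, x ∈ n ∧ y ∈ n ∧
      ∀ v ∈ n, ∃ s : B, s ∉ n ∧ ∃ a b : B, s * v = a * x + b * y := by
  obtain ⟨z, ξ, hzn, hz, hξ, hgen⟩ := hBr
  refine ⟨z, ξ, hzn, hOnV ξ hξ, fun v hv => ?_⟩
  obtain ⟨s, hs, a, ha⟩ := hz v hv
  have hw : ((s * v - a * z : B) : F) ∈ ld55_mV V := by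
    have e : ((s * v - a * z : B) : F) = (s : F) * (v : F) - (a : F) * (z : F) := rfl
    rw [e]
    exact ha
  obtain ⟨t, ht, b, hb⟩ := hgen (s * v - a * z) hw
  refine ⟨t * s, fun h => (hnp.mem_or_mem h).elim ht hs, t * a, b, ?_⟩
  linear_combination hb

end Branch

section HP1

variable {R K F1 F2 : Type*} [CommRing R] [Field K] [Field F1] [Field F2] [Algebra R K]
  [Algebra K F1] [Algebra R F2] [Algebra K F2]

omit [Algebra K F2] in
/-- **(HP-1), per point**: the package `cp57_HP1` from the frame facts of the three-branch chart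
and, at the closed points lying on the middle branch alone, a local generator of the middle
branch prime (`mc25_MidPrinAt`).  Nothing is required at the points lying on two branches. -/
theorem hp1a93_HP1 (π : R) (σ : F2) (e : ℕ) (q m : ℕ) (hm : 0 < m)
    (B : Subalgebra R F2) [IsNoetherianRing B]
    (al be : F1 →+* F2) (Nal Nbe : F2 →* F1)
    (V₁ V₂ V₃ : ValuationSubring F2) (Vinf V0 : ValuationSubring F1)
    (hB₁ : ∀ x ∈ B, x ∈ V₁) (hB₂ : ∀ x ∈ B, x ∈ V₂) (hB₃ : ∀ x ∈ B, x ∈ V₃)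
    (hsat : ∀ x ∈ B, (algebraMap R F2 π)⁻¹ * x ∈ V₁ → (algebraMap R F2 π)⁻¹ * x ∈ V₂ →
      (algebraMap R F2 π)⁻¹ * x ∈ V₃ → (algebraMap R F2 π)⁻¹ * x ∈ B)
    (hπ0 : algebraMap R F2 π ≠ 0) (hσ0 : σ ≠ 0)
    (hσe : (algebraMap R F2 π)⁻¹ * σ ^ e ∈ V₂)
    (hπσ : algebraMap R F2 π * σ⁻¹ ∈ V₂)
    (hπ₁ : (algebraMap R F2 π)⁻¹ ∉ V₁) (hπ₂ : (algebraMap R F2 π)⁻¹ ∉ V₂)
    (hπ₃ : (algebraMap R F2 π)⁻¹ ∉ V₃)
    (hrad₁ : ∀ x ∈ V₁, x⁻¹ ∉ V₁ → ∃ k : ℕ, (algebraMap R F2 π)⁻¹ * x ^ k ∈ V₁)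
    (hrad₂ : ∀ x ∈ V₂, x⁻¹ ∉ V₂ → ∃ k : ℕ, (algebraMap R F2 π)⁻¹ * x ^ k ∈ V₂)
    (hrad₃ : ∀ x ∈ V₃, x⁻¹ ∉ V₃ → ∃ k : ℕ, (algebraMap R F2 π)⁻¹ * x ^ k ∈ V₃)
    (harch₁ : ∀ x ∈ B, x ≠ 0 → ∃ k : ℕ, (algebraMap R F2 π ^ k)⁻¹ * x ∉ V₁)
    (harch₂ : ∀ x ∈ B, x ≠ 0 → ∃ k : ℕ, (algebraMap R F2 π ^ k)⁻¹ * x ∉ V₂)
    (harch₃ : ∀ x ∈ B, x ≠ 0 → ∃ k : ℕ, (algebraMap R F2 π ^ k)⁻¹ * x ∉ V₃)
    (hfrac : ∀ t : F2, ∃ a ∈ B, ∃ b ∈ B, b ≠ 0 ∧ t * b = a)
    (hmB : ∃ μ ∈ B, (m : F2) * μ = 1)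
    (hunif₁ : ∀ x : F2, V₁.valuation x < 1 → (algebraMap R F2 π)⁻¹ * x ∈ V₁)
    (hunif₂ : ∀ x : F2, V₂.valuation x < 1 → x * σ⁻¹ ∈ V₂)
    (hunif₃ : ∀ x : F2, V₃.valuation x < 1 → (algebraMap R F2 π)⁻¹ * x ∈ V₃)
    (hKr : s34i47_Krull π B)
    (hS₁ : sf79_Smooth π B V₁.toSubring) (hS₃ : sf79_Smooth π B V₃.toSubring)
    (hS₂ : tl71_MidSmooth π σ B V₂.toSubring)
    (hP₂ : ∀ n : Ideal B, n.IsMaximal → algebraMap R B π ∈ n → tl71_OnMid σ B V₂.toSubring n →
      ¬ sf79_OnBr π B V₁.toSubring n → ¬ sf79_OnBr π B V₃.toSubring n →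
      mc25_MidPrinAt σ B V₂.toSubring n) :
    cp57_HP1 (K := K) π q m B al be Nal Nbe V₁ V₂ V₃ Vinf V0 := by
  classical
  intro u cu Au tinf t0 du Bu sinf s0 θ hu0 hOrd hFin hdata hθ n hn hπn hone
  have hnp : n.IsPrime := hn.isPrime
  obtain ⟨hθ0, -, -, -, -, hu21, hu22, hu23⟩ := hθ
  obtain ⟨hv1, hv2, hv3, -⟩ := hdata
  -- `u` is a unit of each `V i`
  have hunit : ∀ V : ValuationSubring F2, V.valuation (u - 1) < 1 → u ∈ V ∧ u⁻¹ ∈ V := by
    intro V hV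
    have e1 : u = 1 + (u - 1) := by ring
    constructor
    · rw [e1]; exact add_mem (one_mem _) (gc26_mem V hV)
    · rw [e1]; exact ld84_one_add_inv V _ hV
  have hmidbr : tl71_OnMid σ B V₂.toSubring n → sf79_OnBr π B V₂.toSubring n :=
    lps9_onBr_of_onMid π σ B V₂.toSubring hπ0 hπσ n
  have hmidbr' : sf79_OnBr π B V₂.toSubring n → tl71_OnMid σ B V₂.toSubring n :=
    lps9_onMid_of_onBr π σ e B V₂.toSubring hσ0 hσe n
  have hu20 : cp57_u2 q m u θ ≠ 0 := by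
    unfold cp57_u2
    exact pow_ne_zero _ (mul_ne_zero (pow_ne_zero _ hu0) (pow_ne_zero _ hθ0))
  -- the family `![V₁, V₂, V₃]`
  have hBV : ∀ i : Fin 3, ∀ x ∈ B, x ∈ (![V₁, V₂, V₃] : Fin 3 → ValuationSubring F2) i := by
    intro i; fin_cases i <;> assumption
  have hπV : ∀ i : Fin 3,
      (algebraMap R F2 π)⁻¹ ∉ (![V₁, V₂, V₃] : Fin 3 → ValuationSubring F2) i := by
    intro i; fin_cases i <;> assumption
  have hrad : ∀ i : Fin 3, ∀ x ∈ (![V₁, V₂, V₃] : Fin 3 → ValuationSubring F2) i,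
      x⁻¹ ∉ (![V₁, V₂, V₃] : Fin 3 → ValuationSubring F2) i →
      ∃ k : ℕ, (algebraMap R F2 π)⁻¹ * x ^ k ∈ (![V₁, V₂, V₃] : Fin 3 → ValuationSubring F2) i := by
    intro i; fin_cases i <;> assumption
  have harch : ∀ i : Fin 3, ∀ x ∈ B, x ≠ 0 → ∃ k : ℕ,
      (algebraMap R F2 π ^ k)⁻¹ * x ∉ (![V₁, V₂, V₃] : Fin 3 → ValuationSubring F2) i := by
    intro i; fin_cases i <;> assumption
  have hu2V : ∀ i : Fin 3, (algebraMap R F2 π)⁻¹ * (cp57_u2 q m u θ - 1)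
      ∈ (![V₁, V₂, V₃] : Fin 3 → ValuationSubring F2) i := by
    intro i; fin_cases i <;> assumption
  -- the common end: a branch `i₀` through `n` with coordinate + generator
  have hfin3 : ∀ (i₀ : Fin 3),
      (∀ i : Fin 3, sf79_OnBr π B ((![V₁, V₂, V₃] : Fin 3 → ValuationSubring F2) i).toSubring n →
        i = i₀) →
      hp84_BrData B ((![V₁, V₂, V₃] : Fin 3 → ValuationSubring F2) i₀) n →
      (∀ x : B, (x : F2) ∈ ld55_mV ((![V₁, V₂, V₃] : Fin 3 → ValuationSubring F2) i₀) → x ∈ n) →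
      ∃ φ : F2,
        (∀ i : Fin 3, (algebraMap R F2 π)⁻¹ * (φ - 1)
          ∈ (![V₁, V₂, V₃] : Fin 3 → ValuationSubring F2) i) ∧
        ∃ s : B, s ∉ n ∧ (s : F2) * (φ ^ m * cp57_u2 q m u θ) ∈ B := by
    intro i₀ honly hBr hOnV
    have h2n := hp1a93_twoGen B _ n hBr hOnV
    obtain ⟨c, hc0, -, -, -, -, hε, hε'⟩ := lps9_strong_three_at π σ e B V₁ V₂ V₃ hB₁ hB₂ hB₃
      hsat hπ0 hσ0 hσe hπ₁ hπ₂ hπ₃ hrad₁ hrad₂ hrad₃ hfrac n hn hπn h2n (hKr n hn hπn)
      (fun h1 h23 => h23.elim (fun h => absurd ⟨h1, hmidbr h⟩ hone.1)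
        (fun h => absurd ⟨h1, h⟩ hone.2.1))
      (fun h3 h21 => h21.elim (fun h => absurd ⟨hmidbr h, h3⟩ hone.2.2)
        (fun h => absurd ⟨h, h3⟩ hone.2.1))
      m hm u hu0 (hunit V₁ hv1) (hunit V₂ hv2) (hunit V₃ hv3) (fun O hO _ => hOrd O hO)
      (hFin.subset fun _ hO => ⟨hO.1, hO.2.2⟩)
    have hc20 : (c ^ ((q - 1 + 2) * (q - 1)) * θ) ^ q ≠ 0 :=
      pow_ne_zero _ (mul_ne_zero (pow_ne_zero _ hc0) hθ0)
    have hε₂ : cp57_u2 q m u θ / ((c ^ ((q - 1 + 2) * (q - 1)) * θ) ^ q) ^ m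
        ∈ sf79_loc B n := by
      have e1 : cp57_u2 q m u θ / ((c ^ ((q - 1 + 2) * (q - 1)) * θ) ^ q) ^ m
          = ((u / c ^ m) ^ ((q - 1 + 2) * (q - 1))) ^ q := by
        rw [div_eq_iff (pow_ne_zero _ hc20)]
        have hu_eq : u = (u / c ^ m) * c ^ m := by field_simp
        unfold cp57_u2
        conv_lhs => rw [hu_eq]
        ring
      rw [e1]
      exact pow_mem (pow_mem hε _) _
    have hε₂' : ((c ^ ((q - 1 + 2) * (q - 1)) * θ) ^ q) ^ m / cp57_u2 q m u θ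
        ∈ sf79_loc B n := by
      have e1 : ((c ^ ((q - 1 + 2) * (q - 1)) * θ) ^ q) ^ m / cp57_u2 q m u θ
          = ((c ^ m / u) ^ ((q - 1 + 2) * (q - 1))) ^ q := by
        rw [div_eq_iff hu20]
        have hc_eq : c ^ m = (c ^ m / u) * u := by field_simp
        unfold cp57_u2
        calc ((c ^ ((q - 1 + 2) * (q - 1)) * θ) ^ q) ^ m
            = ((c ^ m) ^ ((q - 1 + 2) * (q - 1))) ^ q * (θ ^ m) ^ q := by ring
          _ = (((c ^ m / u) * u) ^ ((q - 1 + 2) * (q - 1))) ^ q * (θ ^ m) ^ q := by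
              rw [← hc_eq]
          _ = ((c ^ m / u) ^ ((q - 1 + 2) * (q - 1))) ^ q
              * (u ^ ((q - 1 + 2) * (q - 1)) * θ ^ m) ^ q := by ring
      rw [e1]
      exact pow_mem (pow_mem hε' _) _
    obtain ⟨z, ξ, hzn, hz, hξ, hgen⟩ := hBr
    exact ld55_datum_at_one π m hm B hmB (![V₁, V₂, V₃] : Fin 3 → ValuationSubring F2)
      hBV hπV hrad harch hfrac n (hn := hn) (cp57_u2 q m u θ) hu2V _ hc20 hε₂ hε₂' i₀ honly
      z hzn hz ξ hξ hgen
  have key : ∃ φ : F2,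
      (∀ i : Fin 3, (algebraMap R F2 π)⁻¹ * (φ - 1)
        ∈ (![V₁, V₂, V₃] : Fin 3 → ValuationSubring F2) i) ∧
      ∃ s : B, s ∉ n ∧ (s : F2) * (φ ^ m * cp57_u2 q m u θ) ∈ B := by
    by_cases h1 : sf79_OnBr π B V₁.toSubring n
    · have h2' : ¬ sf79_OnBr π B V₂.toSubring n := fun h => hone.1 ⟨h1, h⟩
      have h3' : ¬ sf79_OnBr π B V₃.toSubring n := fun h => hone.2.1 ⟨h1, h⟩
      refine hfin3 0 ?_ (hp84_brData_red π hπ0 B V₁ V₂ V₃ hB₁ hB₂ hB₃ hsat
        hπ₁ hunif₁ hS₁ n hn hπn h1 h2' h3') (fun x hx => h1 x (hunif₁ (x : F2) hx))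
      intro i hi
      fin_cases i
      · rfl
      · exact absurd hi h2'
      · exact absurd hi h3'
    · by_cases h3 : sf79_OnBr π B V₃.toSubring n
      · have h2' : ¬ sf79_OnBr π B V₂.toSubring n := fun h => hone.2.2 ⟨h, h3⟩
        refine hfin3 2 ?_ (hp84_brData_red π hπ0 B V₃ V₂ V₁ hB₃ hB₂ hB₁
          (fun x hx h3x h2x h1x => hsat x hx h1x h2x h3x) hπ₃ hunif₃ hS₃ n hn hπn h3 h2' h1)
          (fun x hx => h3 x (hunif₃ (x : F2) hx))
        intro i hi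
        fin_cases i
        · exact absurd hi h1
        · exact absurd hi h2'
        · rfl
      · by_cases h2' : sf79_OnBr π B V₂.toSubring n
        · refine hfin3 1 ?_ (hp1a93_brData_mid π σ e hπ0 hσ0 B V₂ hB₂ hπ₂ hσe hunif₂ hS₂ n hn hπn
            (hP₂ n hn hπn (hmidbr' h2') h1 h3) h2') (fun x hx => hmidbr' h2' x (hunif₂ (x : F2) hx))
          intro i hi
          fin_cases i
          · exact absurd hi h1
          · rfl
          · exact absurd hi h3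
        · -- no branch through `n`: impossible by saturation
          exfalso
          obtain ⟨y₁, hy₁⟩ := not_forall.mp h1
          obtain ⟨hy₁V, hy₁n⟩ := Classical.not_imp.mp hy₁
          obtain ⟨y₂, hy₂⟩ := not_forall.mp h2'
          obtain ⟨hy₂V, hy₂n⟩ := Classical.not_imp.mp hy₂
          obtain ⟨y₃, hy₃⟩ := not_forall.mp h3
          obtain ⟨hy₃V, hy₃n⟩ := Classical.not_imp.mp hy₃
          have hmem : (y₁ : F2) * (y₂ : F2) * (y₃ : F2) ∈ B :=
            B.mul_mem (B.mul_mem y₁.2 y₂.2) y₃.2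
          have e1 : (algebraMap R F2 π)⁻¹ * ((y₁ : F2) * (y₂ : F2) * (y₃ : F2)) ∈ V₁ := by
            have : (algebraMap R F2 π)⁻¹ * ((y₁ : F2) * (y₂ : F2) * (y₃ : F2))
                = (algebraMap R F2 π)⁻¹ * (y₁ : F2) * ((y₂ : F2) * (y₃ : F2)) := by ring
            rw [this]; exact V₁.mul_mem _ _ hy₁V (V₁.mul_mem _ _ (hB₁ _ y₂.2) (hB₁ _ y₃.2))
          have e2 : (algebraMap R F2 π)⁻¹ * ((y₁ : F2) * (y₂ : F2) * (y₃ : F2)) ∈ V₂ := by
            have : (algebraMap R F2 π)⁻¹ * ((y₁ : F2) * (y₂ : F2) * (y₃ : F2))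
                = (algebraMap R F2 π)⁻¹ * (y₂ : F2) * ((y₁ : F2) * (y₃ : F2)) := by ring
            rw [this]; exact V₂.mul_mem _ _ hy₂V (V₂.mul_mem _ _ (hB₂ _ y₁.2) (hB₂ _ y₃.2))
          have e3 : (algebraMap R F2 π)⁻¹ * ((y₁ : F2) * (y₂ : F2) * (y₃ : F2)) ∈ V₃ := by
            have : (algebraMap R F2 π)⁻¹ * ((y₁ : F2) * (y₂ : F2) * (y₃ : F2))
                = (algebraMap R F2 π)⁻¹ * (y₃ : F2) * ((y₁ : F2) * (y₂ : F2)) := by ring
            rw [this]; exact V₃.mul_mem _ _ hy₃V (V₃.mul_mem _ _ (hB₃ _ y₁.2) (hB₃ _ y₂.2))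
          have hb := hsat _ hmem e1 e2 e3
          have hprod : y₁ * y₂ * y₃ ∈ n := by
            have : y₁ * y₂ * y₃ = algebraMap R B π * ⟨_, hb⟩ := by
              apply Subtype.ext
              show (y₁ : F2) * (y₂ : F2) * (y₃ : F2)
                = algebraMap R F2 π
                  * ((algebraMap R F2 π)⁻¹ * ((y₁ : F2) * (y₂ : F2) * (y₃ : F2)))
              field_simp
            rw [this]; exact n.mul_mem_right _ hπn
          rcases hnp.mem_or_mem hprod with h | h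
          · rcases hnp.mem_or_mem h with h | h
            · exact hy₁n h
            · exact hy₂n h
          · exact hy₃n h
  obtain ⟨φ, hφ, s, hs, hsφ⟩ := key
  exact ⟨φ, Subring.mem_inf.mpr ⟨Subring.mem_inf.mpr ⟨hφ 0, hφ 1⟩, hφ 2⟩, s, hs, hsφ⟩

end HP1

end Fermat.Agent.S36
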