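import Mathlib
import Fermat.Agent.S34.KrullTwin30
import Fermat.Agent.S34.CoreAsm57
import Fermat.Agent.S36.CoreHP1b_84
import Fermat.Agent.S36.TwoGenCanon71
import Fermat.Agent.S36.FrameClauses73
import Fermat.Agent.S36.OnlyThree72
import Fermat.Agent.S36.OnlyBind72
import Fermat.Agent.S36.StrongCanon67

/-!
# S36 lab, row 631 HP1-CANON, TWIN (helper2): `cp57_HP1` on the canonical charts of level `M' q q`

`cp57_HP1` (CorePoints57) = the clause of `s34i47_LocalDatum` for the twisted unit at the closed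
points lying on AT MOST ONE branch.  Route: `hp84_HP1_one` (CoreHP1b_84, helper84).  The two local
generators at the one-branch points (`h2one`) are derived INSIDE from `tl71_twoGen_at`, so the
only open input is `hD₂` = the divisor of the middle branch at the `C₂`-only points of the chart
(rows 600/601).  NO regular-node input (REG-q) is needed for (HP-1).

* `hp1c2_core`  : abstract chart `B` with the frame facts as hypotheses;
* `hp1c2_chart`, `hp1c2_chart_inv` : the charts of `h`, `h⁻¹` from `s34i47_ChartProps`;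
* `hp1c2_level2`, `hp1c2_level3` : the canonical frame
  (`V₁ = cm85_Vinf (M' q q)`, `V₂` ANY with the four `ob72_ram` facts, `V₃ = nsb86_V3`,
  `σ = v2g64_s K M' q`), both charts of `pk85_h2` / `pk85_h3`; `al be Nal Nbe Vinf V0` arbitrary.

All names are prefixed `hp1c2_`.
-/

set_option autoImplicit false
set_option linter.unusedSectionVars false
set_option linter.unusedVariables false
set_option linter.style.longLine false
set_option linter.style.haveILetI false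

open ModularCurve

namespace Fermat.Agent.S36

open Fermat.Agent.S18 Fermat.Agent.S24 Fermat.Agent.S34 Fermat.Agent.S36.TripleLoc71

local notation "Q̄" => AlgebraicClosure ℚ

section Abs

variable {R K F1 F : Type*} [CommRing R] [Field K] [Field F1] [Field F] [Algebra R K]
  [Algebra K F1] [Algebra R F] [Algebra K F]

/-- `v x < 1`, `x ≠ 0` ⟹ `x⁻¹ ∉ V`. -/
theorem hp1c2_inv_notMem (V : ValuationSubring F) {x : F} (hx0 : x ≠ 0)
    (hx : V.valuation x < 1) : x⁻¹ ∉ V := by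
  intro h
  have h1 : V.valuation x⁻¹ ≤ 1 := (ValuationSubring.valuation_le_one_iff V _).mpr h
  have hv0 : V.valuation x ≠ 0 := (map_ne_zero _).mpr hx0
  have h2 : V.valuation x * V.valuation x⁻¹ = 1 := by
    rw [map_inv₀, mul_inv_cancel₀ hv0]
  have h3 : V.valuation x * V.valuation x⁻¹ ≤ V.valuation x * 1 := by gcongr
  rw [h2, mul_one] at h3
  exact absurd hx (not_lt.mpr h3)

/-- the uniformiser property in valuation form. -/
theorem hp1c2_unif (V : ValuationSubring F) (p : F)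
    (h : ∀ x ∈ V, x⁻¹ ∉ V → p⁻¹ * x ∈ V) : ∀ x : F, V.valuation x < 1 → p⁻¹ * x ∈ V := by
  intro x hx
  by_cases hx0 : x = 0
  · rw [hx0, mul_zero]; exact V.zero_mem
  · exact h x ((ValuationSubring.valuation_le_one_iff V x).mp hx.le) (hp1c2_inv_notMem V hx0 hx)

/-- **(HP-1) on an abstract chart `B`** with the frame facts; the only point input is `hD₂`. -/
theorem hp1c2_core (π : R) (σ : F) (e q m : ℕ) (hm : 0 < m) (hmR : IsUnit (m : R))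
    (B : Subalgebra R F) [IsNoetherianRing B]
    (al be : F1 →+* F) (Nal Nbe : F →* F1)
    (V₁ V₂ V₃ : ValuationSubring F) (Vinf V0 : ValuationSubring F1)
    (hBW : ∀ x ∈ B, x ∈ V₁.toSubring ⊓ V₂.toSubring ⊓ V₃.toSubring)
    (hsatW : ∀ x ∈ B,
      (algebraMap R F π)⁻¹ * x ∈ V₁.toSubring ⊓ V₂.toSubring ⊓ V₃.toSubring →
      (algebraMap R F π)⁻¹ * x ∈ B)
    (hfrac : ∀ t : F, ∃ a ∈ B, ∃ b ∈ B, b ≠ 0 ∧ t * b = a)
    (hKr : s34i47_Krull π B)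
    (hσ0 : σ ≠ 0) (hσe : (algebraMap R F π)⁻¹ * σ ^ e ∈ V₂)
    (hπσ : algebraMap R F π * σ⁻¹ ∈ V₂)
    (hπ₁ : (algebraMap R F π)⁻¹ ∉ V₁) (hπ₂ : (algebraMap R F π)⁻¹ ∉ V₂)
    (hπ₃ : (algebraMap R F π)⁻¹ ∉ V₃)
    (hrad₁ : ∀ x ∈ V₁, x⁻¹ ∉ V₁ → ∃ k : ℕ, (algebraMap R F π)⁻¹ * x ^ k ∈ V₁)
    (hrad₂ : ∀ x ∈ V₂, x⁻¹ ∉ V₂ → ∃ k : ℕ, (algebraMap R F π)⁻¹ * x ^ k ∈ V₂)
    (hrad₃ : ∀ x ∈ V₃, x⁻¹ ∉ V₃ → ∃ k : ℕ, (algebraMap R F π)⁻¹ * x ^ k ∈ V₃)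
    (harch₁ : ∀ x : F, x ≠ 0 → ∃ k : ℕ, (algebraMap R F π ^ k)⁻¹ * x ∉ V₁)
    (harch₂ : ∀ x : F, x ≠ 0 → ∃ k : ℕ, (algebraMap R F π ^ k)⁻¹ * x ∉ V₂)
    (harch₃ : ∀ x : F, x ≠ 0 → ∃ k : ℕ, (algebraMap R F π ^ k)⁻¹ * x ∉ V₃)
    (hunif₁ : ∀ x ∈ V₁, x⁻¹ ∉ V₁ → (algebraMap R F π)⁻¹ * x ∈ V₁)
    (hunif₂ : ∀ x ∈ V₂, x⁻¹ ∉ V₂ → σ⁻¹ * x ∈ V₂)
    (hunif₃ : ∀ x ∈ V₃, x⁻¹ ∉ V₃ → (algebraMap R F π)⁻¹ * x ∈ V₃)
    (hS₁ : sf79_Smooth π B V₁.toSubring) (hS₂ : tl71_MidSmooth π σ B V₂.toSubring)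
    (hS₃ : sf79_Smooth π B V₃.toSubring)
    (hD₂ : ∀ n : Ideal B, n.IsMaximal → algebraMap R B π ∈ n → tl71_OnMid σ B V₂.toSubring n →
      ¬ sf79_OnBr π B V₁.toSubring n → ¬ sf79_OnBr π B V₃.toSubring n →
      tl71_MidDivAt π σ B V₁.toSubring V₂.toSubring V₃.toSubring n) :
    cp57_HP1 (K := K) π q m B al be Nal Nbe V₁ V₂ V₃ Vinf V0 := by
  have hπ0 : algebraMap R F π ≠ 0 := by
    intro h0
    apply hπ₁
    rw [h0, inv_zero]
    exact V₁.zero_mem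
  have hB₁ : ∀ x ∈ B, x ∈ V₁.toSubring := fun x hx =>
    (Subring.mem_inf.mp (Subring.mem_inf.mp (hBW x hx)).1).1
  have hB₂ : ∀ x ∈ B, x ∈ V₂.toSubring := fun x hx =>
    (Subring.mem_inf.mp (Subring.mem_inf.mp (hBW x hx)).1).2
  have hB₃ : ∀ x ∈ B, x ∈ V₃.toSubring := fun x hx => (Subring.mem_inf.mp (hBW x hx)).2
  have hsat : ∀ x ∈ B, (algebraMap R F π)⁻¹ * x ∈ V₁.toSubring →
      (algebraMap R F π)⁻¹ * x ∈ V₂.toSubring → (algebraMap R F π)⁻¹ * x ∈ V₃.toSubring →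
      (algebraMap R F π)⁻¹ * x ∈ B := fun x hx h1 h2 h3 =>
    hsatW x hx (Subring.mem_inf.mpr ⟨Subring.mem_inf.mpr ⟨h1, h2⟩, h3⟩)
  have hmB : ∃ μ ∈ B, (m : F) * μ = 1 := by
    obtain ⟨u, hu⟩ := hmR
    refine ⟨algebraMap R F (↑u⁻¹ : R), B.algebraMap_mem _, ?_⟩
    have h1 : (m : F) = algebraMap R F (u : R) := by rw [hu, map_natCast]
    rw [h1, ← map_mul, Units.mul_inv, map_one]
  have hmid : ∀ n : Ideal B, tl71_OnMid σ B V₂.toSubring n → sf79_OnBr π B V₂.toSubring n :=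
    fun n => lps9_onBr_of_onMid π σ B V₂.toSubring hπ0 hπσ n
  have h2one : ∀ n : Ideal B, n.IsMaximal → algebraMap R B π ∈ n →
      cp57_OneBr π B V₁ V₂ V₃ n →
      ∃ x y : B, x ∈ n ∧ y ∈ n ∧
        ∀ v ∈ n, ∃ s : B, s ∉ n ∧ ∃ a b : B, s * v = a * x + b * y := by
    intro n hn hπn hone
    exact tl71_twoGen_at π σ e B V₁.toSubring V₂.toSubring V₃.toSubring hB₁ hB₂ hB₃ hsat hπ0
      hσ0 hσe hS₁ hS₃ hS₂ n hn hπn
      (fun h1 h23 => h23.elim (fun h => absurd ⟨h1, hmid n h⟩ hone.1)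
        (fun h => absurd ⟨h1, h⟩ hone.2.1))
      (fun h3 h21 => h21.elim (fun h => absurd ⟨hmid n h, h3⟩ hone.2.2)
        (fun h => absurd ⟨h, h3⟩ hone.2.1))
      (fun h2 h1 h3 => hD₂ n hn hπn h2 h1 h3)
  exact hp84_HP1_one (K := K) π σ e q m hm B al be Nal Nbe V₁ V₂ V₃ Vinf V0 hB₁ hB₂ hB₃ hsat
    hπ0 hσ0 hσe hπ₁ hπ₂ hπ₃ hrad₁ hrad₂ hrad₃
    (fun x _ hx => harch₁ x hx) (fun x _ hx => harch₂ x hx) (fun x _ hx => harch₃ x hx)
    hfrac hmB (hp1c2_unif V₁ _ hunif₁)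
    (fun x hx => by
      have := hp1c2_unif V₂ σ hunif₂ x hx
      rwa [mul_comm] at this)
    (hp1c2_unif V₃ _ hunif₃) hKr hS₁ hS₃ hS₂ hD₂ h2one

end Abs

section Chart

variable {R K F1 F : Type} [CommRing R] [IsDomain R] [IsDiscreteValuationRing R] [Field K]
  [CharZero K] [Field F1] [Field F] [Algebra R K] [IsFractionRing R K] [Algebra K F1]
  [Algebra R F] [Algebra K F] [IsScalarTower R K F]

/-- **(HP-1) on the chart of `h`** of a three-component frame, from `s34i47_ChartProps`. -/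
theorem hp1c2_chart (π : R) (hπ : Irreducible π) (h σ : F) (e q m : ℕ) (hm : 0 < m)
    (hmR : IsUnit (m : R))
    (al be : F1 →+* F) (Nal Nbe : F →* F1)
    (V₁ V₂ V₃ : ValuationSubring F) (Vinf V0 : ValuationSubring F1)
    (hC : s34i47_ChartProps K π (V₁.toSubring ⊓ V₂.toSubring ⊓ V₃.toSubring) h)
    (hσ0 : σ ≠ 0) (hσe : (algebraMap R F π)⁻¹ * σ ^ e ∈ V₂)
    (hπσ : algebraMap R F π * σ⁻¹ ∈ V₂)
    (hπ₁ : (algebraMap R F π)⁻¹ ∉ V₁) (hπ₂ : (algebraMap R F π)⁻¹ ∉ V₂)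
    (hπ₃ : (algebraMap R F π)⁻¹ ∉ V₃)
    (hrad₁ : ∀ x ∈ V₁, x⁻¹ ∉ V₁ → ∃ k : ℕ, (algebraMap R F π)⁻¹ * x ^ k ∈ V₁)
    (hrad₂ : ∀ x ∈ V₂, x⁻¹ ∉ V₂ → ∃ k : ℕ, (algebraMap R F π)⁻¹ * x ^ k ∈ V₂)
    (hrad₃ : ∀ x ∈ V₃, x⁻¹ ∉ V₃ → ∃ k : ℕ, (algebraMap R F π)⁻¹ * x ^ k ∈ V₃)
    (harch₁ : ∀ x : F, x ≠ 0 → ∃ k : ℕ, (algebraMap R F π ^ k)⁻¹ * x ∉ V₁)
    (harch₂ : ∀ x : F, x ≠ 0 → ∃ k : ℕ, (algebraMap R F π ^ k)⁻¹ * x ∉ V₂)
    (harch₃ : ∀ x : F, x ≠ 0 → ∃ k : ℕ, (algebraMap R F π ^ k)⁻¹ * x ∉ V₃)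
    (hunif₁ : ∀ x ∈ V₁, x⁻¹ ∉ V₁ → (algebraMap R F π)⁻¹ * x ∈ V₁)
    (hunif₂ : ∀ x ∈ V₂, x⁻¹ ∉ V₂ → σ⁻¹ * x ∈ V₂)
    (hunif₃ : ∀ x ∈ V₃, x⁻¹ ∉ V₃ → (algebraMap R F π)⁻¹ * x ∈ V₃)
    (hS₁ : sf79_Smooth π (pk15_chart R ({h} : Set F)) V₁.toSubring)
    (hS₂ : tl71_MidSmooth π σ (pk15_chart R ({h} : Set F)) V₂.toSubring)
    (hS₃ : sf79_Smooth π (pk15_chart R ({h} : Set F)) V₃.toSubring)
    (hD₂ : ∀ n : Ideal (pk15_chart R ({h} : Set F)), n.IsMaximal →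
      algebraMap R (pk15_chart R ({h} : Set F)) π ∈ n →
      tl71_OnMid σ (pk15_chart R ({h} : Set F)) V₂.toSubring n →
      ¬ sf79_OnBr π (pk15_chart R ({h} : Set F)) V₁.toSubring n →
      ¬ sf79_OnBr π (pk15_chart R ({h} : Set F)) V₃.toSubring n →
      tl71_MidDivAt π σ (pk15_chart R ({h} : Set F)) V₁.toSubring V₂.toSubring V₃.toSubring n) :
    cp57_HP1 (K := K) π q m (pk15_chart R ({h} : Set F)) al be Nal Nbe V₁ V₂ V₃ Vinf V0 := by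
  obtain ⟨hT, hW, hs1, -, -, hN1, hN2, hfin, hfrac⟩ := hC
  haveI := hN1
  have hle : pk15_chart R ({h} : Set F) ≤ pk15_chart R ({h, h⁻¹} : Set F) :=
    pk15_chart_mono (by simp)
  have hKr := (kt30_Pkg_Krull R K F π hπ h hT hN1 hN2 hfin hfrac).1
  exact hp1c2_core (K := K) π σ e q m hm hmR _ al be Nal Nbe V₁ V₂ V₃ Vinf V0
    (fun x hx => hW x (hle hx)) hs1 hfrac hKr hσ0 hσe hπσ hπ₁ hπ₂ hπ₃ hrad₁ hrad₂ hrad₃
    harch₁ harch₂ harch₃ hunif₁ hunif₂ hunif₃ hS₁ hS₂ hS₃ hD₂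

/-- **(HP-1) on the chart of `h⁻¹`** of a three-component frame, from `s34i47_ChartProps`. -/
theorem hp1c2_chart_inv (π : R) (hπ : Irreducible π) (h σ : F) (e q m : ℕ) (hm : 0 < m)
    (hmR : IsUnit (m : R))
    (al be : F1 →+* F) (Nal Nbe : F →* F1)
    (V₁ V₂ V₃ : ValuationSubring F) (Vinf V0 : ValuationSubring F1)
    (hC : s34i47_ChartProps K π (V₁.toSubring ⊓ V₂.toSubring ⊓ V₃.toSubring) h)
    (hσ0 : σ ≠ 0) (hσe : (algebraMap R F π)⁻¹ * σ ^ e ∈ V₂)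
    (hπσ : algebraMap R F π * σ⁻¹ ∈ V₂)
    (hπ₁ : (algebraMap R F π)⁻¹ ∉ V₁) (hπ₂ : (algebraMap R F π)⁻¹ ∉ V₂)
    (hπ₃ : (algebraMap R F π)⁻¹ ∉ V₃)
    (hrad₁ : ∀ x ∈ V₁, x⁻¹ ∉ V₁ → ∃ k : ℕ, (algebraMap R F π)⁻¹ * x ^ k ∈ V₁)
    (hrad₂ : ∀ x ∈ V₂, x⁻¹ ∉ V₂ → ∃ k : ℕ, (algebraMap R F π)⁻¹ * x ^ k ∈ V₂)
    (hrad₃ : ∀ x ∈ V₃, x⁻¹ ∉ V₃ → ∃ k : ℕ, (algebraMap R F π)⁻¹ * x ^ k ∈ V₃)
    (harch₁ : ∀ x : F, x ≠ 0 → ∃ k : ℕ, (algebraMap R F π ^ k)⁻¹ * x ∉ V₁)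
    (harch₂ : ∀ x : F, x ≠ 0 → ∃ k : ℕ, (algebraMap R F π ^ k)⁻¹ * x ∉ V₂)
    (harch₃ : ∀ x : F, x ≠ 0 → ∃ k : ℕ, (algebraMap R F π ^ k)⁻¹ * x ∉ V₃)
    (hunif₁ : ∀ x ∈ V₁, x⁻¹ ∉ V₁ → (algebraMap R F π)⁻¹ * x ∈ V₁)
    (hunif₂ : ∀ x ∈ V₂, x⁻¹ ∉ V₂ → σ⁻¹ * x ∈ V₂)
    (hunif₃ : ∀ x ∈ V₃, x⁻¹ ∉ V₃ → (algebraMap R F π)⁻¹ * x ∈ V₃)
    (hS₁ : sf79_Smooth π (pk15_chart R ({h⁻¹} : Set F)) V₁.toSubring)
    (hS₂ : tl71_MidSmooth π σ (pk15_chart R ({h⁻¹} : Set F)) V₂.toSubring)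
    (hS₃ : sf79_Smooth π (pk15_chart R ({h⁻¹} : Set F)) V₃.toSubring)
    (hD₂ : ∀ n : Ideal (pk15_chart R ({h⁻¹} : Set F)), n.IsMaximal →
      algebraMap R (pk15_chart R ({h⁻¹} : Set F)) π ∈ n →
      tl71_OnMid σ (pk15_chart R ({h⁻¹} : Set F)) V₂.toSubring n →
      ¬ sf79_OnBr π (pk15_chart R ({h⁻¹} : Set F)) V₁.toSubring n →
      ¬ sf79_OnBr π (pk15_chart R ({h⁻¹} : Set F)) V₃.toSubring n →
      tl71_MidDivAt π σ (pk15_chart R ({h⁻¹} : Set F)) V₁.toSubring V₂.toSubring V₃.toSubring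
        n) :
    cp57_HP1 (K := K) π q m (pk15_chart R ({h⁻¹} : Set F)) al be Nal Nbe V₁ V₂ V₃ Vinf V0 := by
  obtain ⟨hT, hW, -, hs2, -, hN1, hN2, hfin, hfrac⟩ := hC
  haveI := hN2
  have hh0 : h ≠ 0 := by
    rintro rfl
    exact hT isAlgebraic_zero
  have hle : pk15_chart R ({h⁻¹} : Set F) ≤ pk15_chart R ({h, h⁻¹} : Set F) :=
    pk15_chart_mono (by simp)
  have hKr := (kt30_Pkg_Krull R K F π hπ h hT hN1 hN2 hfin hfrac).2
  have hfrac' := ca57_frac_inv (R := R) h hh0 hfrac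
  exact hp1c2_core (K := K) π σ e q m hm hmR _ al be Nal Nbe V₁ V₂ V₃ Vinf V0
    (fun x hx => hW x (hle hx)) hs2 hfrac' hKr hσ0 hσe hπσ hπ₁ hπ₂ hπ₃ hrad₁ hrad₂ hrad₃
    harch₁ harch₂ harch₃ hunif₁ hunif₂ hunif₃ hS₁ hS₂ hS₃ hD₂

end Chart

section Canon

variable {R K : Type} [CommRing R] [IsDomain R] [IsDiscreteValuationRing R] [Field K]
  [NumberField K] [Algebra R K] [IsFractionRing R K] [Algebra K Q̄] [Algebra.IsAlgebraic K Q̄]
  (M' q : ℕ) [NeZero M'] [NeZero q] (hq : q.Prime) (hM' : ¬ q ∣ M')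
  {π : R} (hπ : Irreducible π)
  [Algebra R ↥(modularFunctionFieldFullC K M')]
  [IsScalarTower R K ↥(modularFunctionFieldFullC K M')]
  [Algebra R ↥(modularFunctionFieldFullC K (M' * q))]
  [IsScalarTower R K ↥(modularFunctionFieldFullC K (M' * q))]
  [Algebra R ↥(modularFunctionFieldFullC K (M' * q * q))]
  [IsScalarTower R K ↥(modularFunctionFieldFullC K (M' * q * q))]

/-- **(MID)** on a chart `B` of level `M' q q`: the divisor of the middle branch at the closed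
points lying on the middle branch only (literally the hypothesis `hD₂` of `tg71_twoGen_of_out` /
clause (2) of `tg71_Out`; rows 600/601). -/
def hp1c2_Mid (V₂ : ValuationSubring ↥(modularFunctionFieldFullC K (M' * q * q)))
    (B : Subalgebra R ↥(modularFunctionFieldFullC K (M' * q * q))) : Prop :=
  ∀ n : Ideal B, n.IsMaximal → algebraMap R B π ∈ n →
    tl71_OnMid (v2g64_s K M' q) B V₂.toSubring n →
    ¬ sf79_OnBr π B (cm85_Vinf (K := K) (M' * q * q) hπ).toSubring n →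
    ¬ sf79_OnBr π B (nsb86_V3 (K := K) M' q hq hM' hπ).toSubring n →
    tl71_MidDivAt π (v2g64_s K M' q) B (cm85_Vinf (K := K) (M' * q * q) hπ).toSubring
      V₂.toSubring (nsb86_V3 (K := K) M' q hq hM' hπ).toSubring n

include hq hM' in
/-- **(HP-1) on both charts of a Hauptmodul `h` of the canonical frame**, from (C) and (3a). -/
theorem hp1c2_canon (hqR : ¬ IsUnit (q : R)) (m : ℕ) (hm : 0 < m) (hmR : IsUnit (m : R))
    (V₂ : ValuationSubring ↥(modularFunctionFieldFullC K (M' * q * q)))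
    (hV₂ : ∀ c ∈ cm85_Vinf (K := K) (M' * q) hπ, al97L_alpha K (M' * q) q c ∈ V₂)
    (hπ₂ : (algebraMap K ↥(modularFunctionFieldFullC K (M' * q * q)) (algebraMap R K π))⁻¹ ∉ V₂)
    (hne : cm85_Vinf (K := K) (M' * q * q) hπ ≠ V₂)
    (hs : V₂.valuation (v2g64_s K M' q) ^ (q - 1) =
      V₂.valuation (algebraMap K ↥(modularFunctionFieldFullC K (M' * q * q)) (algebraMap R K π)))
    (h : ↥(modularFunctionFieldFullC K (M' * q * q)))
    (hC : s34i47_ChartProps K π ((cm85_Vinf (K := K) (M' * q * q) hπ).toSubring ⊓ V₂.toSubring ⊓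
      (nsb86_V3 (K := K) M' q hq hM' hπ).toSubring) h)
    (hSa : sf79_Smooth π (pk15_chart R ({h} : Set ↥(modularFunctionFieldFullC K (M' * q * q))))
        (cm85_Vinf (K := K) (M' * q * q) hπ).toSubring ∧
      tl71_MidSmooth π (v2g64_s K M' q)
        (pk15_chart R ({h} : Set ↥(modularFunctionFieldFullC K (M' * q * q)))) V₂.toSubring ∧
      sf79_Smooth π (pk15_chart R ({h} : Set ↥(modularFunctionFieldFullC K (M' * q * q))))
        (nsb86_V3 (K := K) M' q hq hM' hπ).toSubring)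
    (hSb : sf79_Smooth π (pk15_chart R ({h⁻¹} : Set ↥(modularFunctionFieldFullC K (M' * q * q))))
        (cm85_Vinf (K := K) (M' * q * q) hπ).toSubring ∧
      tl71_MidSmooth π (v2g64_s K M' q)
        (pk15_chart R ({h⁻¹} : Set ↥(modularFunctionFieldFullC K (M' * q * q)))) V₂.toSubring ∧
      sf79_Smooth π (pk15_chart R ({h⁻¹} : Set ↥(modularFunctionFieldFullC K (M' * q * q))))
        (nsb86_V3 (K := K) M' q hq hM' hπ).toSubring)
    {F1 : Type} [Field F1] [Algebra K F1]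
    (al be : F1 →+* ↥(modularFunctionFieldFullC K (M' * q * q)))
    (Nal Nbe : ↥(modularFunctionFieldFullC K (M' * q * q)) →* F1)
    (Vinf V0 : ValuationSubring F1) :
    (hp1c2_Mid (K := K) M' q hq hM' hπ V₂
        (pk15_chart R ({h} : Set ↥(modularFunctionFieldFullC K (M' * q * q)))) →
      cp57_HP1 (K := K) π q m
        (pk15_chart R ({h} : Set ↥(modularFunctionFieldFullC K (M' * q * q)))) al be Nal Nbe
        (cm85_Vinf (K := K) (M' * q * q) hπ) V₂ (nsb86_V3 (K := K) M' q hq hM' hπ) Vinf V0) ∧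
    (hp1c2_Mid (K := K) M' q hq hM' hπ V₂
        (pk15_chart R ({h⁻¹} : Set ↥(modularFunctionFieldFullC K (M' * q * q)))) →
      cp57_HP1 (K := K) π q m
        (pk15_chart R ({h⁻¹} : Set ↥(modularFunctionFieldFullC K (M' * q * q)))) al be Nal Nbe
        (cm85_Vinf (K := K) (M' * q * q) hπ) V₂ (nsb86_V3 (K := K) M' q hq hM' hπ) Vinf V0) := by
  have e : algebraMap R ↥(modularFunctionFieldFullC K (M' * q * q)) π =
      algebraMap K ↥(modularFunctionFieldFullC K (M' * q * q)) (algebraMap R K π) :=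
    IsScalarTower.algebraMap_apply R K _ π
  obtain ⟨hσ0, hσe, hπσ⟩ := sc67_sigma_facts V₂
    (algebraMap R ↥(modularFunctionFieldFullC K (M' * q * q)) π) (v2g64_s K M' q) q hq.two_le
    (by rw [e]; exact hπ₂) (by rw [e]; exact hs)
  have hpi := fc73_pi (K := K) M' q hq hM' hπ V₂ hπ₂
  have hrad := fc73_rad (K := K) M' q hq hM' hπ hqR V₂ hV₂ hπ₂ hne hs
  have harch := fc73_arch (K := K) M' q hq hM' hπ V₂ hV₂ hπ₂
  have hunif₁ : ∀ x ∈ cm85_Vinf (K := K) (M' * q * q) hπ,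
      x⁻¹ ∉ cm85_Vinf (K := K) (M' * q * q) hπ →
      (algebraMap R ↥(modularFunctionFieldFullC K (M' * q * q)) π)⁻¹ * x ∈
        cm85_Vinf (K := K) (M' * q * q) hπ := by
    intro x hx hx'
    rw [e]
    exact gv85_hmax (IsLocalRing.residue R) π (pk85_res_iff hπ) hπ.ne_zero _ _ x hx hx'
  have hunif₂ : ∀ x ∈ V₂, x⁻¹ ∉ V₂ → (v2g64_s K M' q)⁻¹ * x ∈ V₂ :=
    (ob72_ram (K := K) (M' * q) q hq (dvd_mul_left q M') hπ V₂ hV₂ hπ₂ hne (v2g64_s K M' q)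
      hs).2.2.1
  have hunif₃ : ∀ x ∈ nsb86_V3 (K := K) M' q hq hM' hπ,
      x⁻¹ ∉ nsb86_V3 (K := K) M' q hq hM' hπ →
      (algebraMap R ↥(modularFunctionFieldFullC K (M' * q * q)) π)⁻¹ * x ∈
        nsb86_V3 (K := K) M' q hq hM' hπ := by
    intro x hx hx'
    rw [e]
    exact (o3x72_inert (K := K) M' q hq hM' hπ hqR (nsb86_hL K (M' * q * q)) _
      (nsb86_mem_V3 (K := K) M' q hq hM' hπ)).2.2.1 x hx hx'
  refine ⟨fun hD₂ => ?_, fun hD₂ => ?_⟩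
  · exact hp1c2_chart (K := K) π hπ h (v2g64_s K M' q) (q - 1) q m hm hmR al be Nal Nbe
      (cm85_Vinf (K := K) (M' * q * q) hπ) V₂ (nsb86_V3 (K := K) M' q hq hM' hπ) Vinf V0 hC
      hσ0 hσe hπσ (hpi 0) (hpi 1) (hpi 2) (hrad 0) (hrad 1) (hrad 2)
      (harch 0) (harch 1) (harch 2) hunif₁ hunif₂ hunif₃ hSa.1 hSa.2.1 hSa.2.2 hD₂
  · exact hp1c2_chart_inv (K := K) π hπ h (v2g64_s K M' q) (q - 1) q m hm hmR al be Nal Nbe
      (cm85_Vinf (K := K) (M' * q * q) hπ) V₂ (nsb86_V3 (K := K) M' q hq hM' hπ) Vinf V0 hC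
      hσ0 hσe hπσ (hpi 0) (hpi 1) (hpi 2) (hrad 0) (hrad 1) (hrad 2)
      (harch 0) (harch 1) (harch 2) hunif₁ hunif₂ hunif₃ hSb.1 hSb.2.1 hSb.2.2 hD₂

include hq hM' in
/-- **(HP-1) on both canonical charts, Hauptmodul of level 2** (`2 ∣ M'`): only input (MID). -/
theorem hp1c2_level2 (hqR : ¬ IsUnit (q : R)) (hMu : IsUnit (M' : R)) (h2 : 2 ∣ M')
    (m : ℕ) (hm : 0 < m) (hmR : IsUnit (m : R))
    (V₂ : ValuationSubring ↥(modularFunctionFieldFullC K (M' * q * q)))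
    (hV₂ : ∀ c ∈ cm85_Vinf (K := K) (M' * q) hπ, al97L_alpha K (M' * q) q c ∈ V₂)
    (hπ₂ : (algebraMap K ↥(modularFunctionFieldFullC K (M' * q * q)) (algebraMap R K π))⁻¹ ∉ V₂)
    (hne : cm85_Vinf (K := K) (M' * q * q) hπ ≠ V₂)
    (hs : V₂.valuation (v2g64_s K M' q) ^ (q - 1) =
      V₂.valuation (algebraMap K ↥(modularFunctionFieldFullC K (M' * q * q)) (algebraMap R K π)))
    {F1 : Type} [Field F1] [Algebra K F1]
    (al be : F1 →+* ↥(modularFunctionFieldFullC K (M' * q * q)))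
    (Nal Nbe : ↥(modularFunctionFieldFullC K (M' * q * q)) →* F1)
    (Vinf V0 : ValuationSubring F1) :
    (hp1c2_Mid (K := K) M' q hq hM' hπ V₂
        (pk15_chart R ({pk85_h2 K (M' * q * q) (h2.trans ((dvd_mul_right M' q).trans (dvd_mul_right (M' * q) q)))} : Set ↥(modularFunctionFieldFullC K (M' * q * q)))) →
      cp57_HP1 (K := K) π q m
        (pk15_chart R ({pk85_h2 K (M' * q * q) (h2.trans ((dvd_mul_right M' q).trans (dvd_mul_right (M' * q) q)))} : Set ↥(modularFunctionFieldFullC K (M' * q * q)))) al be Nal Nbe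
        (cm85_Vinf (K := K) (M' * q * q) hπ) V₂ (nsb86_V3 (K := K) M' q hq hM' hπ) Vinf V0) ∧
    (hp1c2_Mid (K := K) M' q hq hM' hπ V₂
        (pk15_chart R ({(pk85_h2 K (M' * q * q) (h2.trans ((dvd_mul_right M' q).trans (dvd_mul_right (M' * q) q))))⁻¹} : Set ↥(modularFunctionFieldFullC K (M' * q * q)))) →
      cp57_HP1 (K := K) π q m
        (pk15_chart R ({(pk85_h2 K (M' * q * q) (h2.trans ((dvd_mul_right M' q).trans (dvd_mul_right (M' * q) q))))⁻¹} : Set ↥(modularFunctionFieldFullC K (M' * q * q)))) al be Nal Nbe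
        (cm85_Vinf (K := K) (M' * q * q) hπ) V₂ (nsb86_V3 (K := K) M' q hq hM' hπ) Vinf V0) := by
  have e : algebraMap R ↥(modularFunctionFieldFullC K (M' * q * q)) π =
      algebraMap K ↥(modularFunctionFieldFullC K (M' * q * q)) (algebraMap R K π) :=
    IsScalarTower.algebraMap_apply R K _ π
  obtain ⟨-, hC, -⟩ := fb85_frameV3_level2 M' q hq hM' hπ hqR hMu h2 V₂ hV₂ hπ₂ hs
  obtain ⟨hSa, hSb⟩ := sm7_three_smooth_sq_level2 (R := R) (K := K) M' q hq hM'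
    hπ hqR h2 hMu V₂ hV₂ (by rw [e]; exact hπ₂) hne (v2g64_s K M' q) (by rw [e]; exact hs)
  exact hp1c2_canon (K := K) M' q hq hM' hπ hqR m hm hmR V₂ hV₂ hπ₂ hne hs _ hC hSa hSb
    al be Nal Nbe Vinf V0

include hq hM' in
/-- **(HP-1) on both canonical charts, Hauptmodul of level 3** (`3 ∣ M'`): only input (MID). -/
theorem hp1c2_level3 (hqR : ¬ IsUnit (q : R)) (hMu : IsUnit (M' : R)) (h3 : 3 ∣ M')
    (m : ℕ) (hm : 0 < m) (hmR : IsUnit (m : R))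
    (V₂ : ValuationSubring ↥(modularFunctionFieldFullC K (M' * q * q)))
    (hV₂ : ∀ c ∈ cm85_Vinf (K := K) (M' * q) hπ, al97L_alpha K (M' * q) q c ∈ V₂)
    (hπ₂ : (algebraMap K ↥(modularFunctionFieldFullC K (M' * q * q)) (algebraMap R K π))⁻¹ ∉ V₂)
    (hne : cm85_Vinf (K := K) (M' * q * q) hπ ≠ V₂)
    (hs : V₂.valuation (v2g64_s K M' q) ^ (q - 1) =
      V₂.valuation (algebraMap K ↥(modularFunctionFieldFullC K (M' * q * q)) (algebraMap R K π)))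
    {F1 : Type} [Field F1] [Algebra K F1]
    (al be : F1 →+* ↥(modularFunctionFieldFullC K (M' * q * q)))
    (Nal Nbe : ↥(modularFunctionFieldFullC K (M' * q * q)) →* F1)
    (Vinf V0 : ValuationSubring F1) :
    (hp1c2_Mid (K := K) M' q hq hM' hπ V₂
        (pk15_chart R ({pk85_h3 K (M' * q * q) (h3.trans ((dvd_mul_right M' q).trans (dvd_mul_right (M' * q) q)))} : Set ↥(modularFunctionFieldFullC K (M' * q * q)))) →
      cp57_HP1 (K := K) π q m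
        (pk15_chart R ({pk85_h3 K (M' * q * q) (h3.trans ((dvd_mul_right M' q).trans (dvd_mul_right (M' * q) q)))} : Set ↥(modularFunctionFieldFullC K (M' * q * q)))) al be Nal Nbe
        (cm85_Vinf (K := K) (M' * q * q) hπ) V₂ (nsb86_V3 (K := K) M' q hq hM' hπ) Vinf V0) ∧
    (hp1c2_Mid (K := K) M' q hq hM' hπ V₂
        (pk15_chart R ({(pk85_h3 K (M' * q * q) (h3.trans ((dvd_mul_right M' q).trans (dvd_mul_right (M' * q) q))))⁻¹} : Set ↥(modularFunctionFieldFullC K (M' * q * q)))) →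
      cp57_HP1 (K := K) π q m
        (pk15_chart R ({(pk85_h3 K (M' * q * q) (h3.trans ((dvd_mul_right M' q).trans (dvd_mul_right (M' * q) q))))⁻¹} : Set ↥(modularFunctionFieldFullC K (M' * q * q)))) al be Nal Nbe
        (cm85_Vinf (K := K) (M' * q * q) hπ) V₂ (nsb86_V3 (K := K) M' q hq hM' hπ) Vinf V0) := by
  have e : algebraMap R ↥(modularFunctionFieldFullC K (M' * q * q)) π =
      algebraMap K ↥(modularFunctionFieldFullC K (M' * q * q)) (algebraMap R K π) :=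
    IsScalarTower.algebraMap_apply R K _ π
  obtain ⟨-, hC, -⟩ := fb85_frameV3_level3 M' q hq hM' hπ hqR hMu h3 V₂ hV₂ hπ₂ hs
  obtain ⟨hSa, hSb⟩ := sm7_three_smooth_sq_level3 (R := R) (K := K) M' q hq hM'
    hπ hqR h3 hMu V₂ hV₂ (by rw [e]; exact hπ₂) hne (v2g64_s K M' q) (by rw [e]; exact hs)
  exact hp1c2_canon (K := K) M' q hq hM' hπ hqR m hm hmR V₂ hV₂ hπ₂ hne hs _ hC hSa hSb
    al be Nal Nbe Vinf V0

end Canon

end Fermat.Agent.S36
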