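import Fermat.Agent.S36.HPOneAbs93
import Fermat.Agent.S36.FrameDatum85
import Fermat.Agent.S36.SmoothThree7
import Fermat.Agent.S36.OnlyThree72
import Fermat.Agent.S36.OnlyBind72
import Fermat.Agent.S34.Krull65
import Fermat.Agent.S34.CoreAsm57

/-!
# S36 lab, row 605 (HP-1): the CANONICAL FRAME INSTANCE (helper93, seat 93)

`cp57_HP1` (CorePoints57) on BOTH charts of the Hauptmodul at level `M' q q`, for the canonical
frame `V₁ = cm85_Vinf (M' * q * q) hπ`, `V₃ = nsb86_V3 M' q hq hM' hπ`, `V₂` ANY valuation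
subring with the four facts of row B1-V2 (`hV₂ hπ₂ hne hs`; e.g. `v2g64_V2`), middle
uniformiser `σ = v2g64_s K M' q`.  The maps `al be Nal Nbe` and the rings `Vinf V0` of the lower
level are ARBITRARY ((HP-1) does not use them).

The ONLY hypothesis left is `hp1c93_MidPrin`: at the closed points of the chart lying on the
middle branch alone, the middle branch prime is locally principal (`mc25_MidPrinAt`, helper25;
implied by `tl71_MidDivAt` through `mc25_prinAt_of_midDiv`) = the output of rows 600 / 601.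
Nothing from row 599 (the points on two branches) is used.

* `hp1c93_core` : one chart with its chart facts as hypotheses.
* `hp1c93_level2`, `hp1c93_level3` : both charts of `pk85_h2` / `pk85_h3`.

Inside: `hp1a93_HP1` (per-point (HP-1)), `fd85_frame_level2/3` (frame), `sm7_three_smooth_sq`
((3a)), `kr65_krull` (Krull), `gv85_hmax` / `o3x72_inert` / `ob72_ram` (uniformisers).

All names are prefixed `hp1c93_`.
-/

set_option autoImplicit false
set_option linter.style.longLine false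
set_option linter.unusedVariables false
set_option linter.unusedSectionVars false
set_option linter.style.haveILetI false

open ModularCurve

namespace Fermat.Agent.S36

open Fermat.Agent.S34 Fermat.Agent.S18 Fermat.Agent.S24 Fermat.Agent.S35
  Fermat.Agent.S36.TripleLoc71

local notation "Q̄" => AlgebraicClosure ℚ

section HP1C93

variable {R K : Type} [CommRing R] [IsDomain R] [IsDiscreteValuationRing R] [Field K]
  [NumberField K] [Algebra R K] [IsFractionRing R K] [Algebra K Q̄]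
  (M' q : ℕ) [NeZero M'] [NeZero q] (hq : q.Prime) (hM' : ¬ q ∣ M')
  {π : R} (hπ : Irreducible π)
  [Algebra R ↥(modularFunctionFieldFullC K (M' * q * q))]
  [IsScalarTower R K ↥(modularFunctionFieldFullC K (M' * q * q))]

/-- The one hypothesis of the canonical (HP-1): at the closed points of the chart `B` lying on
the middle branch alone, the middle branch prime is locally principal. -/
def hp1c93_MidPrin (V₂ : ValuationSubring ↥(modularFunctionFieldFullC K (M' * q * q)))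
    (B : Subalgebra R ↥(modularFunctionFieldFullC K (M' * q * q))) : Prop :=
  ∀ n : Ideal B, n.IsMaximal → algebraMap R B π ∈ n →
    tl71_OnMid (v2g64_s K M' q) B V₂.toSubring n →
    ¬ sf79_OnBr π B (cm85_Vinf (K := K) (M' * q * q) hπ).toSubring n →
    ¬ sf79_OnBr π B (nsb86_V3 (K := K) M' q hq hM' hπ).toSubring n →
    mc25_MidPrinAt (v2g64_s K M' q) B V₂.toSubring n

/-- `tl71_MidDivAt` at the points of the middle branch alone gives `hp1c93_MidPrin`. -/
theorem hp1c93_midPrin_of_midDiv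
    (V₂ : ValuationSubring ↥(modularFunctionFieldFullC K (M' * q * q)))
    (B : Subalgebra R ↥(modularFunctionFieldFullC K (M' * q * q)))
    (hBW : ∀ x ∈ B, x ∈ (cm85_Vinf (K := K) (M' * q * q) hπ).toSubring ⊓ V₂.toSubring ⊓
      (nsb86_V3 (K := K) M' q hq hM' hπ).toSubring)
    (hsatW : ∀ x ∈ B, (algebraMap R ↥(modularFunctionFieldFullC K (M' * q * q)) π)⁻¹ * x ∈
        (cm85_Vinf (K := K) (M' * q * q) hπ).toSubring ⊓ V₂.toSubring ⊓
          (nsb86_V3 (K := K) M' q hq hM' hπ).toSubring →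
      (algebraMap R ↥(modularFunctionFieldFullC K (M' * q * q)) π)⁻¹ * x ∈ B)
    (hπ0 : algebraMap R ↥(modularFunctionFieldFullC K (M' * q * q)) π ≠ 0)
    (hσ0 : v2g64_s K M' q ≠ 0)
    (hD₂ : ∀ n : Ideal B, n.IsMaximal → algebraMap R B π ∈ n →
      tl71_OnMid (v2g64_s K M' q) B V₂.toSubring n →
      ¬ sf79_OnBr π B (cm85_Vinf (K := K) (M' * q * q) hπ).toSubring n →
      ¬ sf79_OnBr π B (nsb86_V3 (K := K) M' q hq hM' hπ).toSubring n →
      tl71_MidDivAt π (v2g64_s K M' q) B (cm85_Vinf (K := K) (M' * q * q) hπ).toSubring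
        V₂.toSubring (nsb86_V3 (K := K) M' q hq hM' hπ).toSubring n) :
    hp1c93_MidPrin (K := K) M' q hq hM' hπ V₂ B := by
  intro n hn hπn hmid h1 h3
  exact mc25_prinAt_of_midDiv π (v2g64_s K M' q) B _ _ _
    (fun x hx => (Subring.mem_inf.mp (Subring.mem_inf.mp (hBW x hx)).1).1)
    (fun x hx => (Subring.mem_inf.mp (Subring.mem_inf.mp (hBW x hx)).1).2)
    (fun x hx => (Subring.mem_inf.mp (hBW x hx)).2)
    (fun x hx h1 h2 h3 => hsatW x hx (Subring.mem_inf.mpr ⟨Subring.mem_inf.mpr ⟨h1, h2⟩, h3⟩))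
    hπ0 hσ0 n hmid (hD₂ n hn hπn hmid h1 h3)

include hq hM' in
/-- **(HP-1) on one chart of the canonical frame**, chart facts as hypotheses. -/
theorem hp1c93_core {F1 : Type*} [Field F1] [Algebra K F1]
    (hqR : ¬ IsUnit (q : R))
    (V₂ : ValuationSubring ↥(modularFunctionFieldFullC K (M' * q * q)))
    (hV₂ : ∀ c ∈ cm85_Vinf (K := K) (M' * q) hπ, al97L_alpha K (M' * q) q c ∈ V₂)
    (hπ₂ : (algebraMap K ↥(modularFunctionFieldFullC K (M' * q * q)) (algebraMap R K π))⁻¹ ∉ V₂)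
    (hne : cm85_Vinf (K := K) (M' * q * q) hπ ≠ V₂)
    (hs : V₂.valuation (v2g64_s K M' q) ^ (q - 1) =
      V₂.valuation (algebraMap K ↥(modularFunctionFieldFullC K (M' * q * q)) (algebraMap R K π)))
    (B : Subalgebra R ↥(modularFunctionFieldFullC K (M' * q * q))) [IsNoetherianRing B]
    (hBW : ∀ x ∈ B, x ∈ (cm85_Vinf (K := K) (M' * q * q) hπ).toSubring ⊓ V₂.toSubring ⊓
      (nsb86_V3 (K := K) M' q hq hM' hπ).toSubring)
    (hsatW : ∀ x ∈ B, (algebraMap R ↥(modularFunctionFieldFullC K (M' * q * q)) π)⁻¹ * x ∈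
        (cm85_Vinf (K := K) (M' * q * q) hπ).toSubring ⊓ V₂.toSubring ⊓
          (nsb86_V3 (K := K) M' q hq hM' hπ).toSubring →
      (algebraMap R ↥(modularFunctionFieldFullC K (M' * q * q)) π)⁻¹ * x ∈ B)
    (hfrac : ∀ t : ↥(modularFunctionFieldFullC K (M' * q * q)), ∃ a ∈ B, ∃ b ∈ B,
      b ≠ 0 ∧ t * b = a)
    (hKr : s34i47_Krull π B)
    (hrad₁ : ∀ x ∈ cm85_Vinf (K := K) (M' * q * q) hπ,
      x⁻¹ ∉ cm85_Vinf (K := K) (M' * q * q) hπ → ∃ k : ℕ,
        (algebraMap R ↥(modularFunctionFieldFullC K (M' * q * q)) π)⁻¹ * x ^ k ∈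
          cm85_Vinf (K := K) (M' * q * q) hπ)
    (hrad₂ : ∀ x ∈ V₂, x⁻¹ ∉ V₂ → ∃ k : ℕ,
        (algebraMap R ↥(modularFunctionFieldFullC K (M' * q * q)) π)⁻¹ * x ^ k ∈ V₂)
    (hrad₃ : ∀ x ∈ nsb86_V3 (K := K) M' q hq hM' hπ,
      x⁻¹ ∉ nsb86_V3 (K := K) M' q hq hM' hπ → ∃ k : ℕ,
        (algebraMap R ↥(modularFunctionFieldFullC K (M' * q * q)) π)⁻¹ * x ^ k ∈
          nsb86_V3 (K := K) M' q hq hM' hπ)
    (harch₁ : ∀ x : ↥(modularFunctionFieldFullC K (M' * q * q)), x ≠ 0 → ∃ k : ℕ,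
      (algebraMap R ↥(modularFunctionFieldFullC K (M' * q * q)) π ^ k)⁻¹ * x ∉
        cm85_Vinf (K := K) (M' * q * q) hπ)
    (harch₂ : ∀ x : ↥(modularFunctionFieldFullC K (M' * q * q)), x ≠ 0 → ∃ k : ℕ,
      (algebraMap R ↥(modularFunctionFieldFullC K (M' * q * q)) π ^ k)⁻¹ * x ∉ V₂)
    (harch₃ : ∀ x : ↥(modularFunctionFieldFullC K (M' * q * q)), x ≠ 0 → ∃ k : ℕ,
      (algebraMap R ↥(modularFunctionFieldFullC K (M' * q * q)) π ^ k)⁻¹ * x ∉
        nsb86_V3 (K := K) M' q hq hM' hπ)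
    (hS₁ : sf79_Smooth π B (cm85_Vinf (K := K) (M' * q * q) hπ).toSubring)
    (hS₂ : tl71_MidSmooth π (v2g64_s K M' q) B V₂.toSubring)
    (hS₃ : sf79_Smooth π B (nsb86_V3 (K := K) M' q hq hM' hπ).toSubring)
    (m : ℕ) (hm0 : 0 < m) (hmu : IsUnit (m : R))
    (al be : F1 →+* ↥(modularFunctionFieldFullC K (M' * q * q)))
    (Nal Nbe : ↥(modularFunctionFieldFullC K (M' * q * q)) →* F1)
    (Vinf V0 : ValuationSubring F1)
    (hP : hp1c93_MidPrin (K := K) M' q hq hM' hπ V₂ B) :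
    cp57_HP1 (K := K) π q m B al be Nal Nbe (cm85_Vinf (K := K) (M' * q * q) hπ) V₂
      (nsb86_V3 (K := K) M' q hq hM' hπ) Vinf V0 := by
  have e : algebraMap R ↥(modularFunctionFieldFullC K (M' * q * q)) π =
      (algebraMap K ↥(modularFunctionFieldFullC K (M' * q * q)) (algebraMap R K π)) :=
    IsScalarTower.algebraMap_apply R K _ π
  have hπ₁ : (algebraMap R ↥(modularFunctionFieldFullC K (M' * q * q)) π)⁻¹ ∉
      cm85_Vinf (K := K) (M' * q * q) hπ := (ci22_Vinf_pi (K := K) (M' * q * q) hπ).2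
  have hπ0 : algebraMap R ↥(modularFunctionFieldFullC K (M' * q * q)) π ≠ 0 := by
    intro h0
    apply hπ₁
    rw [h0, inv_zero]
    exact (cm85_Vinf (K := K) (M' * q * q) hπ).zero_mem
  have hπ₂' : (algebraMap R ↥(modularFunctionFieldFullC K (M' * q * q)) π)⁻¹ ∉ V₂ := by
    rw [e]
    exact hπ₂
  have hp0 : V₂.valuation (algebraMap R ↥(modularFunctionFieldFullC K (M' * q * q)) π) ≠ 0 :=
    (map_ne_zero V₂.valuation).mpr hπ0
  have hp1 : V₂.valuation (algebraMap R ↥(modularFunctionFieldFullC K (M' * q * q)) π) < 1 :=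
    ld84_val_unif V₂ _ hπ₂'
  have hs' : V₂.valuation (v2g64_s K M' q) ^ (q - 1) =
      V₂.valuation (algebraMap R ↥(modularFunctionFieldFullC K (M' * q * q)) π) := by
    rw [e]
    exact hs
  obtain ⟨ha0, -, ha2⟩ := sm7_aux_val (V₂.valuation (v2g64_s K M' q))
    (V₂.valuation (algebraMap R ↥(modularFunctionFieldFullC K (M' * q * q)) π)) q hq.two_le
    hp0 hp1 hs'
  have hσ0 : (v2g64_s K M' q) ≠ 0 := fun h => ha0 (by rw [h, map_zero])
  have hπσ : algebraMap R ↥(modularFunctionFieldFullC K (M' * q * q)) π * (v2g64_s K M' q)⁻¹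
      ∈ V₂ := by
    rw [← ValuationSubring.valuation_le_one_iff, map_mul, map_inv₀]
    exact (mul_comm _ _).le.trans ha2
  have hσe : (algebraMap R ↥(modularFunctionFieldFullC K (M' * q * q)) π)⁻¹ *
      (v2g64_s K M' q) ^ (q - 1) ∈ V₂ := by
    rw [← ValuationSubring.valuation_le_one_iff, map_mul, map_inv₀, map_pow, hs',
      inv_mul_cancel₀ hp0]
  have hL := nsb86_hL K (M' * q * q)
  have hV₃mem := nsb86_mem_V3 (K := K) M' q hq hM' hπ
  have hπ₃ : (algebraMap R ↥(modularFunctionFieldFullC K (M' * q * q)) π)⁻¹ ∉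
      nsb86_V3 (K := K) M' q hq hM' hπ := by
    rw [e]
    exact o3x72_V3_pi M' q hq hM' hπ hL _ hV₃mem
  have hB₁ : ∀ x ∈ B, x ∈ cm85_Vinf (K := K) (M' * q * q) hπ := fun x hx =>
    (Subring.mem_inf.mp (Subring.mem_inf.mp (hBW x hx)).1).1
  have hB₂ : ∀ x ∈ B, x ∈ V₂ := fun x hx =>
    (Subring.mem_inf.mp (Subring.mem_inf.mp (hBW x hx)).1).2
  have hB₃ : ∀ x ∈ B, x ∈ nsb86_V3 (K := K) M' q hq hM' hπ := fun x hx =>
    (Subring.mem_inf.mp (hBW x hx)).2
  have hsat : ∀ x ∈ B,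
      (algebraMap R ↥(modularFunctionFieldFullC K (M' * q * q)) π)⁻¹ * x ∈
        cm85_Vinf (K := K) (M' * q * q) hπ →
      (algebraMap R ↥(modularFunctionFieldFullC K (M' * q * q)) π)⁻¹ * x ∈ V₂ →
      (algebraMap R ↥(modularFunctionFieldFullC K (M' * q * q)) π)⁻¹ * x ∈
        nsb86_V3 (K := K) M' q hq hM' hπ →
      (algebraMap R ↥(modularFunctionFieldFullC K (M' * q * q)) π)⁻¹ * x ∈ B :=
    fun x hx h1 h2 h3 =>
      hsatW x hx (Subring.mem_inf.mpr ⟨Subring.mem_inf.mpr ⟨h1, h2⟩, h3⟩)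
  -- the uniformiser properties in valuation form
  have hunif₁ : ∀ x : ↥(modularFunctionFieldFullC K (M' * q * q)),
      (cm85_Vinf (K := K) (M' * q * q) hπ).valuation x < 1 →
      (algebraMap R ↥(modularFunctionFieldFullC K (M' * q * q)) π)⁻¹ * x ∈
        cm85_Vinf (K := K) (M' * q * q) hπ := by
    intro x hx
    by_cases hx0 : x = 0
    · rw [hx0, mul_zero]
      exact zero_mem _
    · rw [e]
      exact gv85_hmax (IsLocalRing.residue R) π (pk85_res_iff hπ) hπ.ne_zero _ _ x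
        (gc26_mem _ hx) (ld84_inv_not_mem _ x hx hx0)
  have hunif₃ : ∀ x : ↥(modularFunctionFieldFullC K (M' * q * q)),
      (nsb86_V3 (K := K) M' q hq hM' hπ).valuation x < 1 →
      (algebraMap R ↥(modularFunctionFieldFullC K (M' * q * q)) π)⁻¹ * x ∈
        nsb86_V3 (K := K) M' q hq hM' hπ := by
    intro x hx
    by_cases hx0 : x = 0
    · rw [hx0, mul_zero]
      exact zero_mem _
    · rw [e]
      exact (o3x72_inert (K := K) M' q hq hM' hπ hqR hL _ hV₃mem).2.2.1 x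
        (gc26_mem _ hx) (ld84_inv_not_mem _ x hx hx0)
  have hunif₂ : ∀ x : ↥(modularFunctionFieldFullC K (M' * q * q)),
      V₂.valuation x < 1 → x * (v2g64_s K M' q)⁻¹ ∈ V₂ := by
    intro x hx
    by_cases hx0 : x = 0
    · rw [hx0, zero_mul]
      exact zero_mem _
    · have h := (ob72_ram (K := K) (M' * q) q hq (dvd_mul_left q M') hπ V₂ hV₂ hπ₂ hne
        (v2g64_s K M' q) hs).2.2.1 x (gc26_mem _ hx) (ld84_inv_not_mem _ x hx hx0)
      rwa [mul_comm (v2g64_s K M' q)⁻¹ x] at h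
  obtain ⟨μ, hμ⟩ := hmu.exists_right_inv
  have hmB : ∃ μ' ∈ B, (m : ↥(modularFunctionFieldFullC K (M' * q * q))) * μ' = 1 := by
    refine ⟨algebraMap R _ μ, B.algebraMap_mem μ, ?_⟩
    have em : (m : ↥(modularFunctionFieldFullC K (M' * q * q))) =
        algebraMap R ↥(modularFunctionFieldFullC K (M' * q * q)) (m : R) := by simp
    rw [em, ← map_mul, hμ, map_one]
  exact hp1a93_HP1 (K := K) π (v2g64_s K M' q) (q - 1) q m hm0 B al be Nal Nbe
    (cm85_Vinf (K := K) (M' * q * q) hπ) V₂ (nsb86_V3 (K := K) M' q hq hM' hπ) Vinf V0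
    hB₁ hB₂ hB₃ hsat hπ0 hσ0 hσe hπσ hπ₁ hπ₂' hπ₃ hrad₁ hrad₂ hrad₃
    (fun x _ hx0 => harch₁ x hx0) (fun x _ hx0 => harch₂ x hx0) (fun x _ hx0 => harch₃ x hx0)
    hfrac hmB hunif₁ hunif₂ hunif₃ hKr hS₁ hS₃ hS₂ hP

include hq hM' in
/-- **(HP-1) on the canonical frame, Hauptmodul of level 2**: `cp57_HP1` on the chart of `h` and
on the chart of `h⁻¹`, each from `hp1c93_MidPrin` on that chart. -/
theorem hp1c93_level2 {F1 : Type*} [Field F1] [Algebra K F1]
    (hqR : ¬ IsUnit (q : R)) (hMu : IsUnit (M' : R)) (h2 : 2 ∣ M')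
    (V₂ : ValuationSubring ↥(modularFunctionFieldFullC K (M' * q * q)))
    (hV₂ : ∀ c ∈ cm85_Vinf (K := K) (M' * q) hπ, al97L_alpha K (M' * q) q c ∈ V₂)
    (hπ₂ : (algebraMap K ↥(modularFunctionFieldFullC K (M' * q * q)) (algebraMap R K π))⁻¹ ∉ V₂)
    (hne : cm85_Vinf (K := K) (M' * q * q) hπ ≠ V₂)
    (hs : V₂.valuation (v2g64_s K M' q) ^ (q - 1) =
      V₂.valuation (algebraMap K ↥(modularFunctionFieldFullC K (M' * q * q)) (algebraMap R K π)))
    (m : ℕ) (hm0 : 0 < m) (hmu : IsUnit (m : R))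
    (al be : F1 →+* ↥(modularFunctionFieldFullC K (M' * q * q)))
    (Nal Nbe : ↥(modularFunctionFieldFullC K (M' * q * q)) →* F1)
    (Vinf V0 : ValuationSubring F1) :
    (hp1c93_MidPrin (K := K) M' q hq hM' hπ V₂
        (pk15_chart R ({pk85_h2 K (M' * q * q)
          (h2.trans ((dvd_mul_right M' q).trans (dvd_mul_right (M' * q) q)))} :
            Set ↥(modularFunctionFieldFullC K (M' * q * q)))) →
      cp57_HP1 (K := K) π q m
        (pk15_chart R ({pk85_h2 K (M' * q * q)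
          (h2.trans ((dvd_mul_right M' q).trans (dvd_mul_right (M' * q) q)))} :
            Set ↥(modularFunctionFieldFullC K (M' * q * q))))
        al be Nal Nbe (cm85_Vinf (K := K) (M' * q * q) hπ) V₂
        (nsb86_V3 (K := K) M' q hq hM' hπ) Vinf V0) ∧
    (hp1c93_MidPrin (K := K) M' q hq hM' hπ V₂
        (pk15_chart R ({(pk85_h2 K (M' * q * q)
          (h2.trans ((dvd_mul_right M' q).trans (dvd_mul_right (M' * q) q))))⁻¹} :
            Set ↥(modularFunctionFieldFullC K (M' * q * q)))) →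
      cp57_HP1 (K := K) π q m
        (pk15_chart R ({(pk85_h2 K (M' * q * q)
          (h2.trans ((dvd_mul_right M' q).trans (dvd_mul_right (M' * q) q))))⁻¹} :
            Set ↥(modularFunctionFieldFullC K (M' * q * q))))
        al be Nal Nbe (cm85_Vinf (K := K) (M' * q * q) hπ) V₂
        (nsb86_V3 (K := K) M' q hq hM' hπ) Vinf V0) := by
  haveI : Algebra.IsAlgebraic K Q̄ := fs85_isAlgebraic K
  letI ia1 : Algebra R ↥(modularFunctionFieldFullC K M') :=
    ((algebraMap K ↥(modularFunctionFieldFullC K M')).comp (algebraMap R K)).toAlgebra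
  haveI t1 : IsScalarTower R K ↥(modularFunctionFieldFullC K M') :=
    IsScalarTower.of_algebraMap_eq (fun _ => rfl)
  letI ia2 : Algebra R ↥(modularFunctionFieldFullC K (M' * q)) :=
    ((algebraMap K ↥(modularFunctionFieldFullC K (M' * q))).comp (algebraMap R K)).toAlgebra
  haveI t2 : IsScalarTower R K ↥(modularFunctionFieldFullC K (M' * q)) :=
    IsScalarTower.of_algebraMap_eq (fun _ => rfl)
  obtain ⟨hW, hC, hπV, hrad, harch⟩ :=
    fd85_frame_level2 (K := K) M' q hq hM' hπ hqR hMu h2 V₂ hV₂ hπ₂ hs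
  obtain ⟨htr, h12W, hsat₁, hsat₂, -, hN₁, hN₂, -, hfrac⟩ := hC
  have hh0 : pk85_h2 K (M' * q * q)
      (h2.trans ((dvd_mul_right M' q).trans (dvd_mul_right (M' * q) q))) ≠ 0 := by
    intro h0
    apply htr
    rw [h0]
    exact isAlgebraic_zero
  have hfrac₂ := ca57_frac_inv (R := R) _ hh0 hfrac
  have e : algebraMap R ↥(modularFunctionFieldFullC K (M' * q * q)) π =
      (algebraMap K ↥(modularFunctionFieldFullC K (M' * q * q)) (algebraMap R K π)) :=
    IsScalarTower.algebraMap_apply R K _ π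
  have hπ0 : algebraMap R ↥(modularFunctionFieldFullC K (M' * q * q)) π ≠ 0 := by
    intro h0
    apply (ci22_Vinf_pi (K := K) (M' * q * q) hπ).2
    rw [h0, inv_zero]
    exact (cm85_Vinf (K := K) (M' * q * q) hπ).zero_mem
  have hπ₂' : (algebraMap R ↥(modularFunctionFieldFullC K (M' * q * q)) π)⁻¹ ∉ V₂ := by
    rw [e]
    exact hπ₂
  have hs' : V₂.valuation (v2g64_s K M' q) ^ (q - 1) =
      V₂.valuation (algebraMap R ↥(modularFunctionFieldFullC K (M' * q * q)) π) := by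
    rw [e]
    exact hs
  obtain ⟨⟨a1, a2, a3⟩, ⟨b1, b2, b3⟩⟩ := sm7_three_smooth_sq_level2 (R := R) (K := K) M' q hq hM'
    hπ hqR h2 hMu V₂ hV₂ hπ₂' hne (v2g64_s K M' q) hs'
  have hsub1 : ({pk85_h2 K (M' * q * q) (h2.trans ((dvd_mul_right M' q).trans (dvd_mul_right (M' * q) q)))} : Set ↥(modularFunctionFieldFullC K (M' * q * q))) ⊆
      {pk85_h2 K (M' * q * q) (h2.trans ((dvd_mul_right M' q).trans (dvd_mul_right (M' * q) q))), (pk85_h2 K (M' * q * q) (h2.trans ((dvd_mul_right M' q).trans (dvd_mul_right (M' * q) q))))⁻¹} := by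
    intro x hx
    rw [Set.mem_singleton_iff.mp hx]
    exact Set.mem_insert _ _
  have hsub2 : ({(pk85_h2 K (M' * q * q) (h2.trans ((dvd_mul_right M' q).trans (dvd_mul_right (M' * q) q))))⁻¹} : Set ↥(modularFunctionFieldFullC K (M' * q * q))) ⊆
      {pk85_h2 K (M' * q * q) (h2.trans ((dvd_mul_right M' q).trans (dvd_mul_right (M' * q) q))), (pk85_h2 K (M' * q * q) (h2.trans ((dvd_mul_right M' q).trans (dvd_mul_right (M' * q) q))))⁻¹} := by
    intro x hx
    rw [Set.mem_singleton_iff.mp hx]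
    exact Set.mem_insert_of_mem _ rfl
  haveI := hN₁
  haveI := hN₂
  refine ⟨fun hP => ?_, fun hP => ?_⟩
  · exact hp1c93_core (K := K) M' q hq hM' hπ hqR V₂ hV₂ hπ₂ hne hs _
      (fun x hx => h12W x (pk15_chart_mono hsub1 hx)) hsat₁ hfrac
      (kr65_krull π hπ0 _ (kr65_chart_closed _) hfrac)
      (hrad 0) (hrad 1) (hrad 2) (harch 0) (harch 1) (harch 2) a1 a2 a3
      m hm0 hmu al be Nal Nbe Vinf V0 hP
  · exact hp1c93_core (K := K) M' q hq hM' hπ hqR V₂ hV₂ hπ₂ hne hs _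
      (fun x hx => h12W x (pk15_chart_mono hsub2 hx)) hsat₂ hfrac₂
      (kr65_krull π hπ0 _ (kr65_chart_closed _) hfrac₂)
      (hrad 0) (hrad 1) (hrad 2) (harch 0) (harch 1) (harch 2) b1 b2 b3
      m hm0 hmu al be Nal Nbe Vinf V0 hP

include hq hM' in
/-- **(HP-1) on the canonical frame, Hauptmodul of level 3**: `cp57_HP1` on the chart of `h` and
on the chart of `h⁻¹`, each from `hp1c93_MidPrin` on that chart. -/
theorem hp1c93_level3 {F1 : Type*} [Field F1] [Algebra K F1]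
    (hqR : ¬ IsUnit (q : R)) (hMu : IsUnit (M' : R)) (h3 : 3 ∣ M')
    (V₂ : ValuationSubring ↥(modularFunctionFieldFullC K (M' * q * q)))
    (hV₂ : ∀ c ∈ cm85_Vinf (K := K) (M' * q) hπ, al97L_alpha K (M' * q) q c ∈ V₂)
    (hπ₂ : (algebraMap K ↥(modularFunctionFieldFullC K (M' * q * q)) (algebraMap R K π))⁻¹ ∉ V₂)
    (hne : cm85_Vinf (K := K) (M' * q * q) hπ ≠ V₂)
    (hs : V₂.valuation (v2g64_s K M' q) ^ (q - 1) =
      V₂.valuation (algebraMap K ↥(modularFunctionFieldFullC K (M' * q * q)) (algebraMap R K π)))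
    (m : ℕ) (hm0 : 0 < m) (hmu : IsUnit (m : R))
    (al be : F1 →+* ↥(modularFunctionFieldFullC K (M' * q * q)))
    (Nal Nbe : ↥(modularFunctionFieldFullC K (M' * q * q)) →* F1)
    (Vinf V0 : ValuationSubring F1) :
    (hp1c93_MidPrin (K := K) M' q hq hM' hπ V₂
        (pk15_chart R ({pk85_h3 K (M' * q * q)
          (h3.trans ((dvd_mul_right M' q).trans (dvd_mul_right (M' * q) q)))} :
            Set ↥(modularFunctionFieldFullC K (M' * q * q)))) →
      cp57_HP1 (K := K) π q m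
        (pk15_chart R ({pk85_h3 K (M' * q * q)
          (h3.trans ((dvd_mul_right M' q).trans (dvd_mul_right (M' * q) q)))} :
            Set ↥(modularFunctionFieldFullC K (M' * q * q))))
        al be Nal Nbe (cm85_Vinf (K := K) (M' * q * q) hπ) V₂
        (nsb86_V3 (K := K) M' q hq hM' hπ) Vinf V0) ∧
    (hp1c93_MidPrin (K := K) M' q hq hM' hπ V₂
        (pk15_chart R ({(pk85_h3 K (M' * q * q)
          (h3.trans ((dvd_mul_right M' q).trans (dvd_mul_right (M' * q) q))))⁻¹} :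
            Set ↥(modularFunctionFieldFullC K (M' * q * q)))) →
      cp57_HP1 (K := K) π q m
        (pk15_chart R ({(pk85_h3 K (M' * q * q)
          (h3.trans ((dvd_mul_right M' q).trans (dvd_mul_right (M' * q) q))))⁻¹} :
            Set ↥(modularFunctionFieldFullC K (M' * q * q))))
        al be Nal Nbe (cm85_Vinf (K := K) (M' * q * q) hπ) V₂
        (nsb86_V3 (K := K) M' q hq hM' hπ) Vinf V0) := by
  haveI : Algebra.IsAlgebraic K Q̄ := fs85_isAlgebraic K
  letI ia1 : Algebra R ↥(modularFunctionFieldFullC K M') :=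
    ((algebraMap K ↥(modularFunctionFieldFullC K M')).comp (algebraMap R K)).toAlgebra
  haveI t1 : IsScalarTower R K ↥(modularFunctionFieldFullC K M') :=
    IsScalarTower.of_algebraMap_eq (fun _ => rfl)
  letI ia2 : Algebra R ↥(modularFunctionFieldFullC K (M' * q)) :=
    ((algebraMap K ↥(modularFunctionFieldFullC K (M' * q))).comp (algebraMap R K)).toAlgebra
  haveI t2 : IsScalarTower R K ↥(modularFunctionFieldFullC K (M' * q)) :=
    IsScalarTower.of_algebraMap_eq (fun _ => rfl)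
  obtain ⟨hW, hC, hπV, hrad, harch⟩ :=
    fd85_frame_level3 (K := K) M' q hq hM' hπ hqR hMu h3 V₂ hV₂ hπ₂ hs
  obtain ⟨htr, h12W, hsat₁, hsat₂, -, hN₁, hN₂, -, hfrac⟩ := hC
  have hh0 : pk85_h3 K (M' * q * q)
      (h3.trans ((dvd_mul_right M' q).trans (dvd_mul_right (M' * q) q))) ≠ 0 := by
    intro h0
    apply htr
    rw [h0]
    exact isAlgebraic_zero
  have hfrac₂ := ca57_frac_inv (R := R) _ hh0 hfrac
  have e : algebraMap R ↥(modularFunctionFieldFullC K (M' * q * q)) π =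
      (algebraMap K ↥(modularFunctionFieldFullC K (M' * q * q)) (algebraMap R K π)) :=
    IsScalarTower.algebraMap_apply R K _ π
  have hπ0 : algebraMap R ↥(modularFunctionFieldFullC K (M' * q * q)) π ≠ 0 := by
    intro h0
    apply (ci22_Vinf_pi (K := K) (M' * q * q) hπ).2
    rw [h0, inv_zero]
    exact (cm85_Vinf (K := K) (M' * q * q) hπ).zero_mem
  have hπ₂' : (algebraMap R ↥(modularFunctionFieldFullC K (M' * q * q)) π)⁻¹ ∉ V₂ := by
    rw [e]
    exact hπ₂
  have hs' : V₂.valuation (v2g64_s K M' q) ^ (q - 1) =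
      V₂.valuation (algebraMap R ↥(modularFunctionFieldFullC K (M' * q * q)) π) := by
    rw [e]
    exact hs
  obtain ⟨⟨a1, a2, a3⟩, ⟨b1, b2, b3⟩⟩ := sm7_three_smooth_sq_level3 (R := R) (K := K) M' q hq hM'
    hπ hqR h3 hMu V₂ hV₂ hπ₂' hne (v2g64_s K M' q) hs'
  have hsub1 : ({pk85_h3 K (M' * q * q) (h3.trans ((dvd_mul_right M' q).trans (dvd_mul_right (M' * q) q)))} : Set ↥(modularFunctionFieldFullC K (M' * q * q))) ⊆
      {pk85_h3 K (M' * q * q) (h3.trans ((dvd_mul_right M' q).trans (dvd_mul_right (M' * q) q))), (pk85_h3 K (M' * q * q) (h3.trans ((dvd_mul_right M' q).trans (dvd_mul_right (M' * q) q))))⁻¹} := by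
    intro x hx
    rw [Set.mem_singleton_iff.mp hx]
    exact Set.mem_insert _ _
  have hsub2 : ({(pk85_h3 K (M' * q * q) (h3.trans ((dvd_mul_right M' q).trans (dvd_mul_right (M' * q) q))))⁻¹} : Set ↥(modularFunctionFieldFullC K (M' * q * q))) ⊆
      {pk85_h3 K (M' * q * q) (h3.trans ((dvd_mul_right M' q).trans (dvd_mul_right (M' * q) q))), (pk85_h3 K (M' * q * q) (h3.trans ((dvd_mul_right M' q).trans (dvd_mul_right (M' * q) q))))⁻¹} := by
    intro x hx
    rw [Set.mem_singleton_iff.mp hx]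
    exact Set.mem_insert_of_mem _ rfl
  haveI := hN₁
  haveI := hN₂
  refine ⟨fun hP => ?_, fun hP => ?_⟩
  · exact hp1c93_core (K := K) M' q hq hM' hπ hqR V₂ hV₂ hπ₂ hne hs _
      (fun x hx => h12W x (pk15_chart_mono hsub1 hx)) hsat₁ hfrac
      (kr65_krull π hπ0 _ (kr65_chart_closed _) hfrac)
      (hrad 0) (hrad 1) (hrad 2) (harch 0) (harch 1) (harch 2) a1 a2 a3
      m hm0 hmu al be Nal Nbe Vinf V0 hP
  · exact hp1c93_core (K := K) M' q hq hM' hπ hqR V₂ hV₂ hπ₂ hne hs _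
      (fun x hx => h12W x (pk15_chart_mono hsub2 hx)) hsat₂ hfrac₂
      (kr65_krull π hπ0 _ (kr65_chart_closed _) hfrac₂)
      (hrad 0) (hrad 1) (hrad 2) (harch 0) (harch 1) (harch 2) b1 b2 b3
      m hm0 hmu al be Nal Nbe Vinf V0 hP

end HP1C93

end Fermat.Agent.S36
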