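import Mathlib
import Fermat.Agent.S36.HPOne90
import Fermat.Agent.S36.MidCuspGen25

/-!
# S36 lab, row 605 (HP-1), the per-point binder (helper90, seat 90)

`hp1x90_HP1` (HPOne90) needs, at every closed point `n` on at most one branch, the branch
`V i₀`, a local coordinate of that branch at `n` and a generator of the branch prime at `n`
(hypothesis `hpt`).  This file produces `hpt` from the SAME inputs as the (C) assembler
`mc25_twoGen` (helper25) / `tl71_twoGen` (helper71):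

* `hS₁ : sf79_Smooth π B V₁`, `hS₃ : sf79_Smooth π B V₃`, `hS₂ : tl71_MidSmooth π σ B V₂`
  ((3a)_i, helper7 `sm7_three_smooth_*`),
* `hD₂` : at the closed points on the middle branch only: `mc25_MidPrinAt σ B V₂ n`
  (rows 600/601),
* uniformisers: `π` of `V₁`, `V₃`; `σ` of `V₂`; saturation of `B` in `V₁ ∩ V₂ ∩ V₃`.

At a `C₁`-only / `C₃`-only point the branch is cut out by `π` (saturation + two separators);
at a `C₂`-only point by the generator `g` of `mc25_MidPrinAt`; that `g` lies in `𝔪 (V₂)` is proved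
here by Krull's intersection theorem (`hp1x90_krull`, `hp1x90_mid_gen_mem`).

`hp1x90_HP1_of_C` : the composition with `hp1x90_HP1`, conclusion literally `cp57_HP1`.

All names are prefixed `hp1x90_`.
-/

set_option autoImplicit false
set_option linter.style.longLine false
set_option linter.unusedVariables false
set_option linter.unusedSectionVars false
set_option linter.style.haveILetI false

namespace Fermat.Agent.S36

open Fermat.Agent.S18 Fermat.Agent.S34 Fermat.Agent.S35 TripleLoc71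

/-- Krull: in a noetherian domain, `t ∉ n` (maximal), `g ∈ n` and `t ^ k y ∈ g ^ k B` for all
`k` force `y = 0`. -/
theorem hp1x90_krull {B : Type*} [CommRing B] [IsDomain B] [IsNoetherianRing B] (n : Ideal B)
    [hn : n.IsMaximal] (t g y : B) (ht : t ∉ n) (hg : g ∈ n)
    (hy : ∀ k : ℕ, ∃ b : B, t ^ k * y = b * g ^ k) : y = 0 := by
  have hmem : ∀ k : ℕ, y ∈ n ^ k := by
    intro k
    rcases Nat.eq_zero_or_pos k with rfl | hk
    · simp
    · obtain ⟨b, hb⟩ := hy k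
      have h1 : y * t ^ k ∈ n ^ k := by
        rw [mul_comm, hb]
        exact Ideal.mul_mem_left _ _ (Ideal.pow_mem_pow hg k)
      have hrad : (n ^ k).radical = n := by
        rw [Ideal.radical_pow n hk.ne', hn.isPrime.radical]
      have hprim : (n ^ k).IsPrimary :=
        Ideal.isPrimary_of_isMaximal_radical (by rw [hrad]; exact hn)
      rcases (Ideal.isPrimary_iff.mp hprim).2 h1 with h2 | h2
      · exact h2
      · rw [hrad] at h2
        exact absurd (hn.isPrime.mem_of_pow_mem k h2) ht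
  have h0 : y ∈ (⨅ i : ℕ, n ^ i) := by
    rw [Ideal.mem_iInf]
    exact hmem
  rw [Ideal.iInf_pow_eq_bot_of_isDomain n hn.ne_top] at h0
  exact h0

section

variable {R F2 : Type*} [CommRing R] [Field F2] [Algebra R F2]

/-- Valuation `< 1` in membership form. -/
theorem hp1x90_lt_one (W : ValuationSubring F2) (x : F2) (h : W.valuation x < 1) :
    x ∈ W ∧ (x = 0 ∨ x⁻¹ ∉ W) := by
  refine ⟨(W.valuation_le_one_iff x).mp h.le, ?_⟩
  by_cases hx : x = 0
  · exact Or.inl hx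
  · right
    intro hinv
    have h1 : W.valuation x⁻¹ ≤ 1 := (W.valuation_le_one_iff _).mpr hinv
    rw [map_inv₀] at h1
    have h2 : W.valuation x ≠ 0 := (Valuation.ne_zero_iff _).mpr hx
    have h3 := mul_le_mul_left h1 (W.valuation x)
    rw [inv_mul_cancel₀ h2, one_mul] at h3
    exact absurd h (not_lt.mpr h3)

/-- A nonunit of a valuation subring has valuation `< 1`. -/
theorem hp1x90_val_lt (W : ValuationSubring F2) (x : F2) (hx : x ∈ W) (hinv : x⁻¹ ∉ W) :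
    W.valuation x < 1 := by
  have h1 : W.valuation x ≤ 1 := (W.valuation_le_one_iff x).mpr hx
  refine lt_of_le_of_ne h1 ?_
  intro h
  apply hinv
  rw [← W.valuation_le_one_iff, map_inv₀, h, inv_one]

/-- The generator `g` of `mc25_MidPrinAt` lies in the maximal ideal of the middle valuation
ring (Krull). -/
theorem hp1x90_mid_gen_mem (π : R) (hπ0 : algebraMap R F2 π ≠ 0) (σ : F2)
    (B : Subalgebra R F2) [IsNoetherianRing B] (V₂ : ValuationSubring F2)
    (hBV : ∀ x ∈ B, x ∈ V₂) (hπV : (algebraMap R F2 π)⁻¹ ∉ V₂)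
    (hun : ∀ x ∈ V₂, x⁻¹ ∉ V₂ → σ⁻¹ * x ∈ V₂)
    (n : Ideal B) [hn : n.IsMaximal] (g t : B) (ht : t ∉ n) (hg : g ∈ n)
    (hgen : ∀ y : B, (y : F2) * σ⁻¹ ∈ V₂ → ∃ b : B, t * y = b * g) :
    V₂.valuation (g : F2) < 1 := by
  by_contra hcon
  have hg1 : V₂.valuation (g : F2) = 1 :=
    le_antisymm ((V₂.valuation_le_one_iff _).mpr (hBV _ g.2)) (not_lt.mp hcon)
  have hπB : (algebraMap R B π : F2) = algebraMap R F2 π := rfl
  have hπlt : V₂.valuation ((algebraMap R B π : B) : F2) < 1 := by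
    rw [hπB]
    exact hp1x90_val_lt V₂ _ (hBV _ (B.algebraMap_mem π)) hπV
  have key : ∀ k : ℕ, ∃ y : B, V₂.valuation (y : F2) < 1 ∧
      t ^ k * algebraMap R B π = y * g ^ k := by
    intro k
    induction k with
    | zero => exact ⟨algebraMap R B π, hπlt, by simp⟩
    | succ k ih =>
      obtain ⟨y, hy, hyk⟩ := ih
      have hyσ : (y : F2) * σ⁻¹ ∈ V₂ := by
        obtain ⟨hyV, hy0 | hyinv⟩ := hp1x90_lt_one V₂ _ hy
        · rw [hy0, zero_mul]; exact V₂.zero_mem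
        · rw [mul_comm]; exact hun _ hyV hyinv
      obtain ⟨b, hb⟩ := hgen y hyσ
      refine ⟨b, ?_, ?_⟩
      · have hbF : (t : F2) * (y : F2) = (b : F2) * (g : F2) := by
          have := congrArg (fun x : B => (x : F2)) hb
          simpa using this
        have hv : V₂.valuation (b : F2) = V₂.valuation (t : F2) * V₂.valuation (y : F2) := by
          have := congrArg V₂.valuation hbF
          rw [map_mul, map_mul, hg1, mul_one] at this
          exact this.symm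
        rw [hv]
        have ht1 : V₂.valuation (t : F2) ≤ 1 := (V₂.valuation_le_one_iff _).mpr (hBV _ t.2)
        calc V₂.valuation (t : F2) * V₂.valuation (y : F2)
            ≤ 1 * V₂.valuation (y : F2) := mul_le_mul_left ht1 _
          _ = V₂.valuation (y : F2) := one_mul _
          _ < 1 := hy
      · calc t ^ (k + 1) * algebraMap R B π = t * (t ^ k * algebraMap R B π) := by ring
          _ = t * (y * g ^ k) := by rw [hyk]
          _ = (t * y) * g ^ k := by ring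
          _ = (b * g) * g ^ k := by rw [hb]
          _ = b * g ^ (k + 1) := by ring
  have h0 : (algebraMap R B π : B) = 0 :=
    hp1x90_krull n t g _ ht hg (fun k => by
      obtain ⟨y, -, hyk⟩ := key k
      exact ⟨y, hyk⟩)
  apply hπ0
  rw [← hπB, h0]
  rfl

end

section

variable {R K F1 F2 : Type*} [CommRing R] [Field K] [Field F1] [Field F2] [Algebra R K]
  [Algebra K F1] [Algebra R F2] [Algebra K F2]

/-- A separator off a branch. -/
theorem hp1x90_sep (π : R) (B : Subalgebra R F2) (V : Subring F2) (n : Ideal B)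
    (h : ¬ sf79_OnBr π B V n) : ∃ t : B, t ∉ n ∧ (algebraMap R F2 π)⁻¹ * (t : F2) ∈ V := by
  unfold sf79_OnBr at h
  push Not at h
  obtain ⟨t, ht, htn⟩ := h
  exact ⟨t, htn, ht⟩

/-- At a closed point on the reduced branch `V` only, the branch prime is generated by `π`
(saturation and two separators). -/
theorem hp1x90_red_gen (π : R) (hπ0 : algebraMap R F2 π ≠ 0) (B : Subalgebra R F2)
    (V V' V'' : ValuationSubring F2)
    (hB : ∀ x ∈ B, x ∈ V) (hB' : ∀ x ∈ B, x ∈ V') (hB'' : ∀ x ∈ B, x ∈ V'')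
    (hsat : ∀ x ∈ B, (algebraMap R F2 π)⁻¹ * x ∈ V → (algebraMap R F2 π)⁻¹ * x ∈ V' →
      (algebraMap R F2 π)⁻¹ * x ∈ V'' → (algebraMap R F2 π)⁻¹ * x ∈ B)
    (hun : ∀ x ∈ V, x⁻¹ ∉ V → (algebraMap R F2 π)⁻¹ * x ∈ V)
    (n : Ideal B) [hn : n.IsPrime]
    (h' : ¬ sf79_OnBr π B V'.toSubring n) (h'' : ¬ sf79_OnBr π B V''.toSubring n)
    (x : B) (hx : (x : F2) ∈ ld55_mV V) :
    ∃ t : B, t ∉ n ∧ ∃ b : B, t * x = b * algebraMap R B π := by
  obtain ⟨t₁, ht₁, ht₁V⟩ := hp1x90_sep π B V'.toSubring n h'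
  obtain ⟨t₂, ht₂, ht₂V⟩ := hp1x90_sep π B V''.toSubring n h''
  have hxV : (algebraMap R F2 π)⁻¹ * (x : F2) ∈ V := by
    obtain ⟨hxV, hx0 | hxinv⟩ := hp1x90_lt_one V _ hx
    · rw [hx0, mul_zero]; exact V.zero_mem
    · exact hun _ hxV hxinv
  have hmem : (algebraMap R F2 π)⁻¹ * ((t₁ * t₂ * x : B) : F2) ∈ B := by
    apply hsat _ (t₁ * t₂ * x).2
    · have e : (algebraMap R F2 π)⁻¹ * ((t₁ * t₂ * x : B) : F2) =
          ((t₁ : F2) * (t₂ : F2)) * ((algebraMap R F2 π)⁻¹ * (x : F2)) := by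
        push_cast; ring
      rw [e]
      exact mul_mem (mul_mem (hB _ t₁.2) (hB _ t₂.2)) hxV
    · have e : (algebraMap R F2 π)⁻¹ * ((t₁ * t₂ * x : B) : F2) =
          ((algebraMap R F2 π)⁻¹ * (t₁ : F2)) * ((t₂ : F2) * (x : F2)) := by
        push_cast; ring
      rw [e]
      exact mul_mem ht₁V (mul_mem (hB' _ t₂.2) (hB' _ x.2))
    · have e : (algebraMap R F2 π)⁻¹ * ((t₁ * t₂ * x : B) : F2) =
          ((algebraMap R F2 π)⁻¹ * (t₂ : F2)) * ((t₁ : F2) * (x : F2)) := by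
        push_cast; ring
      rw [e]
      exact mul_mem ht₂V (mul_mem (hB'' _ t₁.2) (hB'' _ x.2))
  refine ⟨t₁ * t₂, fun h => (hn.mem_or_mem h).elim ht₁ ht₂, ⟨_, hmem⟩, ?_⟩
  apply Subtype.ext
  push_cast
  field_simp

/-- **The per-point input `hpt` of `hp1x90_HP1`** from (3a)_i, the uniformisers, saturation and
the middle generators `mc25_MidPrinAt` (the inputs of `mc25_twoGen`). -/
theorem hp1x90_pt (π : R) (hπ0 : algebraMap R F2 π ≠ 0) (σ : F2) (B : Subalgebra R F2)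
    [IsNoetherianRing B] (V : Fin 3 → ValuationSubring F2)
    (hBV : ∀ i, ∀ x ∈ B, x ∈ V i) (hπ : ∀ i, (algebraMap R F2 π)⁻¹ ∉ V i)
    (hrad : ∀ i, ∀ x ∈ V i, x⁻¹ ∉ V i → ∃ k : ℕ, (algebraMap R F2 π)⁻¹ * x ^ k ∈ V i)
    (hsat : ∀ x ∈ B, (algebraMap R F2 π)⁻¹ * x ∈ V 0 → (algebraMap R F2 π)⁻¹ * x ∈ V 1 →
      (algebraMap R F2 π)⁻¹ * x ∈ V 2 → (algebraMap R F2 π)⁻¹ * x ∈ B)
    (hun₀ : ∀ x ∈ V 0, x⁻¹ ∉ V 0 → (algebraMap R F2 π)⁻¹ * x ∈ V 0)
    (hun₂ : ∀ x ∈ V 2, x⁻¹ ∉ V 2 → (algebraMap R F2 π)⁻¹ * x ∈ V 2)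
    (hσV : σ ∈ V 1) (hσinv : σ⁻¹ ∉ V 1)
    (hun₁ : ∀ x ∈ V 1, x⁻¹ ∉ V 1 → σ⁻¹ * x ∈ V 1)
    (hS₁ : sf79_Smooth π B (V 0).toSubring) (hS₃ : sf79_Smooth π B (V 2).toSubring)
    (hS₂ : tl71_MidSmooth π σ B (V 1).toSubring)
    (hD₂ : ∀ n : Ideal B, n.IsMaximal → algebraMap R B π ∈ n →
      tl71_OnMid σ B (V 1).toSubring n → ¬ sf79_OnBr π B (V 0).toSubring n →
      ¬ sf79_OnBr π B (V 2).toSubring n → mc25_MidPrinAt σ B (V 1).toSubring n) :
    ∀ n : Ideal B, n.IsMaximal → algebraMap R B π ∈ n →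
      cp57_OneBr π B (V 0) (V 1) (V 2) n →
      ∃ i₀ : Fin 3, (∀ i, sf79_OnBr π B (V i).toSubring n → i = i₀) ∧
        ∃ z : B, z ∈ n ∧
          (∀ x ∈ n, ∃ s : B, s ∉ n ∧ ∃ a : B,
            (s : F2) * (x : F2) - (a : F2) * (z : F2) ∈ ld55_mV (V i₀)) ∧
          ∃ ξ : B, (ξ : F2) ∈ ld55_mV (V i₀) ∧
            ∀ x : B, (x : F2) ∈ ld55_mV (V i₀) → ∃ t : B, t ∉ n ∧ ∃ b : B, t * x = b * ξ := by
  intro n hn hπn hone
  haveI := hn
  have hnp : n.IsPrime := hn.isPrime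
  obtain ⟨h01, h02, h12⟩ := hone
  have hπmem : ∀ i, algebraMap R F2 π ∈ V i := fun i => hBV i _ (B.algebraMap_mem π)
  have hπm : ∀ i, ((algebraMap R B π : B) : F2) ∈ ld55_mV (V i) :=
    fun i => hp1x90_val_lt (V i) _ (hπmem i) (hπ i)
  by_cases hb0 : sf79_OnBr π B (V 0).toSubring n
  · -- a `C₁`-only point
    have hb1 : ¬ sf79_OnBr π B (V 1).toSubring n := fun h => h01 ⟨hb0, h⟩
    have hb2 : ¬ sf79_OnBr π B (V 2).toSubring n := fun h => h02 ⟨hb0, h⟩
    obtain ⟨z, hzn, hz⟩ := hS₁ n hn hπn hb0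
    refine ⟨0, ?_, z, hzn, ?_, algebraMap R B π, hπm 0, ?_⟩
    · intro i hi
      fin_cases i
      · rfl
      · exact absurd hi hb1
      · exact absurd hi hb2
    · intro x hx
      obtain ⟨s, hs, a, ha⟩ := hz x hx
      exact ⟨s, hs, a, ld55_mV_of_div (V 0) _ _ (hπmem 0) (hπ 0) ha⟩
    · intro x hx
      exact hp1x90_red_gen π hπ0 B (V 0) (V 1) (V 2) (hBV 0) (hBV 1) (hBV 2) hsat hun₀ n
        hb1 hb2 x hx
  · by_cases hb2 : sf79_OnBr π B (V 2).toSubring n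
    · -- a `C₃`-only point
      have hb1 : ¬ sf79_OnBr π B (V 1).toSubring n := fun h => h12 ⟨h, hb2⟩
      obtain ⟨z, hzn, hz⟩ := hS₃ n hn hπn hb2
      refine ⟨2, ?_, z, hzn, ?_, algebraMap R B π, hπm 2, ?_⟩
      · intro i hi
        fin_cases i
        · exact absurd hi hb0
        · exact absurd hi hb1
        · rfl
      · intro x hx
        obtain ⟨s, hs, a, ha⟩ := hz x hx
        exact ⟨s, hs, a, ld55_mV_of_div (V 2) _ _ (hπmem 2) (hπ 2) ha⟩
      · intro x hx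
        exact hp1x90_red_gen π hπ0 B (V 2) (V 0) (V 1) (hBV 2) (hBV 0) (hBV 1)
          (fun y hy h2 h0 h1 => hsat y hy h0 h1 h2) hun₂ n hb0 hb1 x hx
    · by_cases hb1 : sf79_OnBr π B (V 1).toSubring n
      · -- a `C₂`-only point
        have hmid : tl71_OnMid σ B (V 1).toSubring n := by
          intro x hx
          have hxm : (x : F2) ∈ ld55_mV (V 1) :=
            ld55_mV_of_div (V 1) σ _ hσV hσinv (by rw [mul_comm]; exact hx)
          obtain ⟨hxV, hx0 | hxinv⟩ := hp1x90_lt_one (V 1) _ hxm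
          · have : x = 0 := Subtype.ext hx0
            rw [this]
            exact n.zero_mem
          · obtain ⟨k, hk⟩ := hrad 1 _ hxV hxinv
            have hxk : x ^ k ∈ n := hb1 (x ^ k) (by push_cast; exact hk)
            exact hnp.mem_of_pow_mem k hxk
        obtain ⟨z, hzn, hz⟩ := hS₂ n hn hπn hmid
        obtain ⟨g, t, ht, hg, hgen⟩ := hD₂ n hn hπn hmid hb0 hb2
        have hgm : (g : F2) ∈ ld55_mV (V 1) :=
          hp1x90_mid_gen_mem π hπ0 σ B (V 1) (hBV 1) (hπ 1) hun₁ n g t ht hg hgen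
        refine ⟨1, ?_, z, hzn, ?_, g, hgm, ?_⟩
        · intro i hi
          fin_cases i
          · exact absurd hi hb0
          · rfl
          · exact absurd hi hb2
        · intro x hx
          obtain ⟨s, hs, a, ha⟩ := hz x hx
          exact ⟨s, hs, a, ld55_mV_of_div (V 1) σ _ hσV hσinv (by rw [mul_comm]; exact ha)⟩
        · intro x hx
          obtain ⟨hxV, hx0 | hxinv⟩ := hp1x90_lt_one (V 1) _ hx
          · have hx0' : x = 0 := Subtype.ext hx0
            exact ⟨t, ht, 0, by rw [hx0']; simp⟩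
          · obtain ⟨b, hb⟩ := hgen x (by rw [mul_comm]; exact hun₁ _ hxV hxinv)
            exact ⟨t, ht, b, hb⟩
      · -- no branch through `n`: impossible (saturation)
        exfalso
        obtain ⟨t₀, ht₀, ht₀V⟩ := hp1x90_sep π B _ n hb0
        obtain ⟨t₁, ht₁, ht₁V⟩ := hp1x90_sep π B _ n hb1
        obtain ⟨t₂, ht₂, ht₂V⟩ := hp1x90_sep π B _ n hb2
        have hmem : (algebraMap R F2 π)⁻¹ * ((t₀ * t₁ * t₂ : B) : F2) ∈ B := by
          apply hsat _ (t₀ * t₁ * t₂).2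
          · have e : (algebraMap R F2 π)⁻¹ * ((t₀ * t₁ * t₂ : B) : F2) =
                ((algebraMap R F2 π)⁻¹ * (t₀ : F2)) * ((t₁ : F2) * (t₂ : F2)) := by
              push_cast; ring
            rw [e]
            exact mul_mem ht₀V (mul_mem (hBV 0 _ t₁.2) (hBV 0 _ t₂.2))
          · have e : (algebraMap R F2 π)⁻¹ * ((t₀ * t₁ * t₂ : B) : F2) =
                ((algebraMap R F2 π)⁻¹ * (t₁ : F2)) * ((t₀ : F2) * (t₂ : F2)) := by
              push_cast; ring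
            rw [e]
            exact mul_mem ht₁V (mul_mem (hBV 1 _ t₀.2) (hBV 1 _ t₂.2))
          · have e : (algebraMap R F2 π)⁻¹ * ((t₀ * t₁ * t₂ : B) : F2) =
                ((algebraMap R F2 π)⁻¹ * (t₂ : F2)) * ((t₀ : F2) * (t₁ : F2)) := by
              push_cast; ring
            rw [e]
            exact mul_mem ht₂V (mul_mem (hBV 2 _ t₀.2) (hBV 2 _ t₁.2))
        have hprod : t₀ * t₁ * t₂ ∈ n := by
          have e : t₀ * t₁ * t₂ = algebraMap R B π * ⟨_, hmem⟩ := by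
            apply Subtype.ext
            push_cast
            field_simp
          rw [e]
          exact n.mul_mem_right _ hπn
        rcases hnp.mem_or_mem hprod with h | h
        · rcases hnp.mem_or_mem h with h | h
          · exact ht₀ h
          · exact ht₁ h
        · exact ht₂ h

/-- **(HP-1) from the (C) inputs**: the frame clauses, local roots (`hLP`), (3a)_i and the middle
generators give `cp57_HP1` on the chart `B`. -/
theorem hp1x90_HP1_of_C (π : R) (hπ0 : algebraMap R F2 π ≠ 0) (σ : F2) (q m : ℕ) (hm0 : 0 < m)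
    (B : Subalgebra R F2) [IsNoetherianRing B] (hmB : ∃ μ ∈ B, (m : F2) * μ = 1)
    (al be : F1 →+* F2) (Nal Nbe : F2 →* F1)
    (V : Fin 3 → ValuationSubring F2) (Vinf V0 : ValuationSubring F1)
    (hBV : ∀ i, ∀ x ∈ B, x ∈ V i) (hπ : ∀ i, (algebraMap R F2 π)⁻¹ ∉ V i)
    (hrad : ∀ i, ∀ x ∈ V i, x⁻¹ ∉ V i → ∃ k : ℕ, (algebraMap R F2 π)⁻¹ * x ^ k ∈ V i)
    (harch : ∀ i, ∀ x : F2, x ≠ 0 → ∃ k : ℕ, (algebraMap R F2 π ^ k)⁻¹ * x ∉ V i)
    (hFrac : ∀ x : F2, ∃ a ∈ B, ∃ b ∈ B, b ≠ 0 ∧ x * b = a)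
    (hsat : ∀ x ∈ B, (algebraMap R F2 π)⁻¹ * x ∈ V 0 → (algebraMap R F2 π)⁻¹ * x ∈ V 1 →
      (algebraMap R F2 π)⁻¹ * x ∈ V 2 → (algebraMap R F2 π)⁻¹ * x ∈ B)
    (hun₀ : ∀ x ∈ V 0, x⁻¹ ∉ V 0 → (algebraMap R F2 π)⁻¹ * x ∈ V 0)
    (hun₂ : ∀ x ∈ V 2, x⁻¹ ∉ V 2 → (algebraMap R F2 π)⁻¹ * x ∈ V 2)
    (hσV : σ ∈ V 1) (hσinv : σ⁻¹ ∉ V 1)
    (hun₁ : ∀ x ∈ V 1, x⁻¹ ∉ V 1 → σ⁻¹ * x ∈ V 1)
    (hLP : ∀ u : F2, u ≠ 0 → (∀ i, u ∈ V i ∧ u⁻¹ ∈ V i) → s34i47_Ord π m u → s34i47_Fin π u →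
      ∀ n : Ideal B, n.IsMaximal → algebraMap R B π ∈ n →
        ∃ c : F2, c ≠ 0 ∧ (∃ s : B, s ∉ n ∧ (s : F2) * (u / c ^ m) ∈ B) ∧
          ∃ s : B, s ∉ n ∧ (s : F2) * (c ^ m / u) ∈ B)
    (hS₁ : sf79_Smooth π B (V 0).toSubring) (hS₃ : sf79_Smooth π B (V 2).toSubring)
    (hS₂ : tl71_MidSmooth π σ B (V 1).toSubring)
    (hD₂ : ∀ n : Ideal B, n.IsMaximal → algebraMap R B π ∈ n →
      tl71_OnMid σ B (V 1).toSubring n → ¬ sf79_OnBr π B (V 0).toSubring n →
      ¬ sf79_OnBr π B (V 2).toSubring n → mc25_MidPrinAt σ B (V 1).toSubring n) :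
    cp57_HP1 (K := K) π q m B al be Nal Nbe (V 0) (V 1) (V 2) Vinf V0 :=
  hp1x90_HP1 π q m hm0 B hmB al be Nal Nbe V Vinf V0 hBV hπ hrad harch hFrac hLP
    (hp1x90_pt π hπ0 σ B V hBV hπ hrad hsat hun₀ hun₂ hσV hσinv hun₁ hS₁ hS₃ hS₂ hD₂)

end

end Fermat.Agent.S36
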