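import Mathlib
import Fermat.Agent.S36.CorePoints57
import Fermat.Agent.S36.LocalDatumB55
import Fermat.Agent.S36.LocStrThree71
import Fermat.Agent.S36.LocPrinStrongThree9

/-!
# S36 lab, row 605 (HP-1) (helper32): the ONE-BRANCH points of a three-component chart

Frame: a chart `B`, three vertical valuation rings `V 0`, `V 1`, `V 2` (`V : Fin 3 → _`;
`V 0`, `V 2` reduced with uniformiser `π`, `V 1` thick with uniformiser `σ`), saturation of `B`
in `V 0 ⊓ V 1 ⊓ V 2`, the three smoothness statements (3a)ᵢ (`sf79_Smooth`, `tl71_MidSmooth`,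
`sf79_Smooth`).

* `hp1p32_MidGen σ B V₂ n` : the middle branch is principal at `n`, with a generator lying ON the
  branch (`tl71_MidDivAt` gives it: `hp1p32_midGen_of_midDiv`);
* `hp1p32_red_gen` : at a point of a reduced branch which is on no other branch, the branch is
  generated by `π` (saturation);
* `hp1p32_LDAt_one` : the clause of `s34i47_LocalDatum` (`cp57_LDAt`) at a closed point on at
  most one branch, for every `u ≡ 1` modulo `π V i` with a local root `c`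
  (`ld55_datum_at_one` with the point data supplied by (3a)ᵢ + saturation + `hp1p32_MidGen`);
* `hp1p32_HP1` : **`cp57_HP1`** (literal def of `CorePoints57`) from the frame facts, the strong
  (LP) statement `hLP` (conclusion of `lps9_strong_three`) and `hp1p32_MidGen` at the points of
  the middle branch only.

All names are prefixed `hp1p32_`.
-/

set_option autoImplicit false
set_option linter.style.longLine false
set_option linter.unusedVariables false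
set_option linter.unusedSectionVars false

namespace Fermat.Agent.S36

open Fermat.Agent.S18 Fermat.Agent.S34 Fermat.Agent.S35 TripleLoc71

section Abs

variable {R F : Type*} [CommRing R] [Field F] [Algebra R F]

/-- The middle branch `p₂ = {x ∈ B | x σ⁻¹ ∈ V₂}` is principal at `n`, generated by an element
of `p₂`. -/
def hp1p32_MidGen (σ : F) (B : Subalgebra R F) (V₂ : Subring F) (n : Ideal B) : Prop :=
  ∃ g t : B, t ∉ n ∧ (g : F) * σ⁻¹ ∈ V₂ ∧ ∀ y : B, (y : F) * σ⁻¹ ∈ V₂ → ∃ b : B, t * y = b * g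

/-- `tl71_MidDivAt` implies `hp1p32_MidGen`. -/
theorem hp1p32_midGen_of_midDiv (π : R) (σ : F) (B : Subalgebra R F) (V₁ V₂ V₃ : Subring F)
    (hB₁ : ∀ x ∈ B, x ∈ V₁) (hB₂ : ∀ x ∈ B, x ∈ V₂) (hB₃ : ∀ x ∈ B, x ∈ V₃)
    (hsat : ∀ x ∈ B, (algebraMap R F π)⁻¹ * x ∈ V₁ → (algebraMap R F π)⁻¹ * x ∈ V₂ →
      (algebraMap R F π)⁻¹ * x ∈ V₃ → (algebraMap R F π)⁻¹ * x ∈ B)
    (hπ0 : algebraMap R F π ≠ 0) (hσ0 : σ ≠ 0)
    (n : Ideal B) (h : tl71_MidDivAt π σ B V₁ V₂ V₃ n) : hp1p32_MidGen σ B V₂ n := by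
  obtain ⟨g, c, t, k, ht, hgc, hgσ, hσg, hg₁, hg₃⟩ := h
  refine ⟨g, t, ht, hgσ, fun y hy => ?_⟩
  refine tl71_mid_principal π B V₁ V₂ V₃ hB₁ hB₂ hB₃ hsat hπ0 g c t k hgc hg₁ hg₃ y ?_
  have : (y : F) * (g : F)⁻¹ = (y : F) * σ⁻¹ * (σ * (g : F)⁻¹) := by
    field_simp
  rw [this]
  exact V₂.mul_mem hy hσg

/-- A nonzero element of the maximal ideal of a valuation ring has its inverse outside. -/
theorem hp1p32_inv_not_mem (V : ValuationSubring F) {x : F} (hx : V.valuation x < 1)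
    (hx0 : x ≠ 0) : x⁻¹ ∉ V := by
  intro hmem
  have h1 : V.valuation x⁻¹ ≤ 1 := (V.valuation_le_one_iff x⁻¹).mpr hmem
  have h2 : V.valuation x * V.valuation x⁻¹ = 1 := by
    rw [← map_mul, mul_inv_cancel₀ hx0, map_one]
  have h3 : V.valuation x * V.valuation x⁻¹ < 1 := by
    calc V.valuation x * V.valuation x⁻¹ ≤ V.valuation x * 1 := mul_le_mul' le_rfl h1
      _ = V.valuation x := mul_one _
      _ < 1 := hx
  rw [h2] at h3
  exact lt_irrefl _ h3

/-- `x ≡ 1` modulo `π V` is a unit of `V`. -/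
theorem hp1p32_unit_of_cong (V : ValuationSubring F) (p x : F) (hpV : p ∈ V) (hp : p⁻¹ ∉ V)
    (hx : p⁻¹ * (x - 1) ∈ V) : x ∈ V ∧ x⁻¹ ∈ V := by
  have h1 : V.valuation (x - 1) < 1 := ld55_mV_of_div V p (x - 1) hpV hp hx
  have h2 : V.valuation x = 1 := by
    have e : x = 1 + (x - 1) := by ring
    rw [e]
    exact V.valuation.map_one_add_of_lt h1
  refine ⟨(V.valuation_le_one_iff x).mp h2.le, (V.valuation_le_one_iff x⁻¹).mp ?_⟩
  rw [map_inv₀, h2, inv_one]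

/-- Off a branch there is a separator. -/
theorem hp1p32_sep (π : R) (B : Subalgebra R F) (V : Subring F) (n : Ideal B)
    (h : ¬ sf79_OnBr π B V n) : ∃ t : B, t ∉ n ∧ (algebraMap R F π)⁻¹ * (t : F) ∈ V := by
  by_contra hcon
  exact h fun x hx => by
    by_contra hxn
    exact hcon ⟨x, hxn, hx⟩

/-- **A reduced branch alone at `n` is generated by `π`**: if `n` is on no other branch, every
`x ∈ B` in the maximal ideal of `V i₀` (uniformiser `π`) satisfies `t * x = b * π`, `t ∉ n`. -/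
theorem hp1p32_red_gen (π : R) (B : Subalgebra R F) (V : Fin 3 → ValuationSubring F)
    (hBV : ∀ i, ∀ x ∈ B, x ∈ V i) (hπ : ∀ i, (algebraMap R F π)⁻¹ ∉ V i)
    (hsat : ∀ x ∈ B, (∀ i, (algebraMap R F π)⁻¹ * x ∈ V i) → (algebraMap R F π)⁻¹ * x ∈ B)
    (n : Ideal B) [hn : n.IsPrime] (i₀ j k : Fin 3) (hall : ∀ i, i = i₀ ∨ i = j ∨ i = k)
    (hun : ∀ x ∈ V i₀, x⁻¹ ∉ V i₀ → (algebraMap R F π)⁻¹ * x ∈ V i₀)
    (hj : ¬ sf79_OnBr π B (V j).toSubring n) (hk : ¬ sf79_OnBr π B (V k).toSubring n)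
    (x : B) (hx : (x : F) ∈ ld55_mV (V i₀)) :
    ∃ t : B, t ∉ n ∧ ∃ b : B, t * x = b * algebraMap R B π := by
  have hπ0 : algebraMap R F π ≠ 0 := by
    intro h0
    apply hπ i₀
    rw [h0, inv_zero]
    exact (V i₀).zero_mem
  obtain ⟨tj, htjn, htj⟩ := hp1p32_sep π B _ n hj
  obtain ⟨tk, htkn, htk⟩ := hp1p32_sep π B _ n hk
  have hx0 : (algebraMap R F π)⁻¹ * (x : F) ∈ V i₀ := by
    by_cases hz : (x : F) = 0
    · rw [hz, mul_zero]
      exact (V i₀).zero_mem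
    · exact hun _ (ld55_mV_le _ hx) (hp1p32_inv_not_mem _ hx hz)
  have hmem : ∀ i, (algebraMap R F π)⁻¹ * ((tj * tk * x : B) : F) ∈ V i := by
    intro i
    rcases hall i with rfl | rfl | rfl
    · have e : (algebraMap R F π)⁻¹ * ((tj * tk * x : B) : F) =
          ((tj : F) * (tk : F)) * ((algebraMap R F π)⁻¹ * (x : F)) := by
        push_cast
        ring
      rw [e]
      exact (V _).mul_mem _ _ ((V _).mul_mem _ _ (hBV _ _ tj.2) (hBV _ _ tk.2)) hx0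
    · have e : (algebraMap R F π)⁻¹ * ((tj * tk * x : B) : F) =
          ((algebraMap R F π)⁻¹ * (tj : F)) * ((tk : F) * (x : F)) := by
        push_cast
        ring
      rw [e]
      exact (V _).mul_mem _ _ htj ((V _).mul_mem _ _ (hBV _ _ tk.2) (hBV _ _ x.2))
    · have e : (algebraMap R F π)⁻¹ * ((tj * tk * x : B) : F) =
          ((algebraMap R F π)⁻¹ * (tk : F)) * ((tj : F) * (x : F)) := by
        push_cast
        ring
      rw [e]
      exact (V _).mul_mem _ _ htk ((V _).mul_mem _ _ (hBV _ _ tj.2) (hBV _ _ x.2))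
  have hb := hsat _ (tj * tk * x).2 hmem
  refine ⟨tj * tk, fun h => (hn.mem_or_mem h).elim htjn htkn, ⟨_, hb⟩, ?_⟩
  apply Subtype.ext
  push_cast
  field_simp

/-- **The local datum at a closed point on at most one branch.** -/
theorem hp1p32_LDAt_one (π : R) (m : ℕ) (hm0 : 0 < m) (B : Subalgebra R F)
    [IsNoetherianRing B] (hmB : ∃ μ ∈ B, (m : F) * μ = 1)
    (V : Fin 3 → ValuationSubring F) (σ : F) (e : ℕ)
    (hBV : ∀ i, ∀ x ∈ B, x ∈ V i) (hπ : ∀ i, (algebraMap R F π)⁻¹ ∉ V i)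
    (hrad : ∀ i, ∀ x ∈ V i, x⁻¹ ∉ V i → ∃ k : ℕ, (algebraMap R F π)⁻¹ * x ^ k ∈ V i)
    (harch : ∀ i, ∀ x : F, x ≠ 0 → ∃ k : ℕ, (algebraMap R F π ^ k)⁻¹ * x ∉ V i)
    (hFrac : ∀ x : F, ∃ a ∈ B, ∃ b ∈ B, b ≠ 0 ∧ x * b = a)
    (hsat : ∀ x ∈ B, (∀ i, (algebraMap R F π)⁻¹ * x ∈ V i) → (algebraMap R F π)⁻¹ * x ∈ B)
    (hun₀ : ∀ x ∈ V 0, x⁻¹ ∉ V 0 → (algebraMap R F π)⁻¹ * x ∈ V 0)
    (hun₂ : ∀ x ∈ V 2, x⁻¹ ∉ V 2 → (algebraMap R F π)⁻¹ * x ∈ V 2)
    (hσ0 : σ ≠ 0) (hσV : σ ∈ V 1) (hσi : σ⁻¹ ∉ V 1)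
    (hσe : (algebraMap R F π)⁻¹ * σ ^ e ∈ V 1)
    (hun₁ : ∀ x ∈ V 1, x⁻¹ ∉ V 1 → σ⁻¹ * x ∈ V 1)
    (hS₀ : sf79_Smooth π B (V 0).toSubring) (hS₂ : sf79_Smooth π B (V 2).toSubring)
    (hS₁ : tl71_MidSmooth π σ B (V 1).toSubring)
    (n : Ideal B) (hn : n.IsMaximal) (hπn : algebraMap R B π ∈ n)
    (hone : cp57_OneBr π B (V 0) (V 1) (V 2) n)
    (hmid : sf79_OnBr π B (V 1).toSubring n → ¬ sf79_OnBr π B (V 0).toSubring n →
      ¬ sf79_OnBr π B (V 2).toSubring n → hp1p32_MidGen σ B (V 1).toSubring n)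
    (u : F) (hu : ∀ i, (algebraMap R F π)⁻¹ * (u - 1) ∈ V i)
    (c : F) (hc : c ≠ 0)
    (hε : ∃ s : B, s ∉ n ∧ (s : F) * (u / c ^ m) ∈ B)
    (hε' : ∃ s : B, s ∉ n ∧ (s : F) * (c ^ m / u) ∈ B) :
    cp57_LDAt π m B (V 0) (V 1) (V 2) n u := by
  haveI hnp : n.IsPrime := hn.isPrime
  haveI : n.IsMaximal := hn
  obtain ⟨h01, h02, h12⟩ := hone
  have harch' : ∀ i, ∀ x ∈ B, x ≠ 0 → ∃ k : ℕ, (algebraMap R F π ^ k)⁻¹ * x ∉ V i :=
    fun i x _ hx0 => harch i x hx0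
  have hπV : ∀ i, algebraMap R F π ∈ V i := fun i => hBV i _ (B.algebraMap_mem π)
  have hπ0 : algebraMap R F π ≠ 0 := by
    intro h0
    apply hπ 0
    rw [h0, inv_zero]
    exact (V 0).zero_mem
  have hπm : ∀ i, ((algebraMap R B π : B) : F) ∈ ld55_mV (V i) := by
    intro i
    refine ld55_mV_of_div (V i) (algebraMap R F π) _ (hπV i) (hπ i) ?_
    have e1 : ((algebraMap R B π : B) : F) = algebraMap R F π := rfl
    rw [e1, inv_mul_cancel₀ hπ0]
    exact (V i).one_mem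
  have key : ∃ φ : F, (∀ i, (algebraMap R F π)⁻¹ * (φ - 1) ∈ V i) ∧
      ∃ s : B, s ∉ n ∧ (s : F) * (φ ^ m * u) ∈ B := by
    by_cases h0 : sf79_OnBr π B (V 0).toSubring n
    · -- on the first branch only
      have h1 : ¬ sf79_OnBr π B (V 1).toSubring n := fun h => h01 ⟨h0, h⟩
      have h2 : ¬ sf79_OnBr π B (V 2).toSubring n := fun h => h02 ⟨h0, h⟩
      obtain ⟨z, hzn, hz⟩ := hS₀ n hn hπn h0
      refine ld55_datum_at_one π m hm0 B hmB V hBV hπ hrad harch' hFrac n u hu c hc hε hε' 0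
        ?_ z hzn ?_ (algebraMap R B π) (hπm 0) ?_
      · intro i hi
        fin_cases i
        · rfl
        · exact absurd hi h1
        · exact absurd hi h2
      · intro x hx
        obtain ⟨s, hs, a, ha⟩ := hz x hx
        exact ⟨s, hs, a, ld55_mV_of_div (V 0) (algebraMap R F π) _ (hπV 0) (hπ 0) ha⟩
      · intro x hx
        exact hp1p32_red_gen π B V hBV hπ hsat n 0 1 2 (fun i => by fin_cases i <;> simp)
          hun₀ h1 h2 x hx
    · by_cases h2 : sf79_OnBr π B (V 2).toSubring n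
      · -- on the third branch only
        have h1 : ¬ sf79_OnBr π B (V 1).toSubring n := fun h => h12 ⟨h, h2⟩
        obtain ⟨z, hzn, hz⟩ := hS₂ n hn hπn h2
        refine ld55_datum_at_one π m hm0 B hmB V hBV hπ hrad harch' hFrac n u hu c hc hε hε' 2
          ?_ z hzn ?_ (algebraMap R B π) (hπm 2) ?_
        · intro i hi
          fin_cases i
          · exact absurd hi h0
          · exact absurd hi h1
          · rfl
        · intro x hx
          obtain ⟨s, hs, a, ha⟩ := hz x hx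
          exact ⟨s, hs, a, ld55_mV_of_div (V 2) (algebraMap R F π) _ (hπV 2) (hπ 2) ha⟩
        · intro x hx
          exact hp1p32_red_gen π B V hBV hπ hsat n 2 0 1 (fun i => by fin_cases i <;> simp)
            hun₂ h0 h1 x hx
      · by_cases h1 : sf79_OnBr π B (V 1).toSubring n
        · -- on the middle branch only
          have hon : tl71_OnMid σ B (V 1).toSubring n :=
            lps9_onMid_of_onBr π σ e B (V 1).toSubring hσ0 hσe n h1
          obtain ⟨z, hzn, hz⟩ := hS₁ n hn hπn hon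
          obtain ⟨g, t, ht, hgσ, hprin⟩ := hmid h1 h0 h2
          have hdiv : ∀ y : F, y * σ⁻¹ ∈ V 1 → y ∈ ld55_mV (V 1) := by
            intro y hy
            refine ld55_mV_of_div (V 1) σ y hσV hσi ?_
            rw [mul_comm]
            exact hy
          refine ld55_datum_at_one π m hm0 B hmB V hBV hπ hrad harch' hFrac n u hu c hc hε hε' 1
            ?_ z hzn ?_ g (hdiv _ hgσ) ?_
          · intro i hi
            fin_cases i
            · exact absurd hi h0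
            · rfl
            · exact absurd hi h2
          · intro x hx
            obtain ⟨s, hs, a, ha⟩ := hz x hx
            exact ⟨s, hs, a, hdiv _ ha⟩
          · intro x hx
            have hxσ : (x : F) * σ⁻¹ ∈ (V 1).toSubring := by
              by_cases hz0 : (x : F) = 0
              · rw [hz0, zero_mul]
                exact (V 1).zero_mem
              · have := hun₁ _ (ld55_mV_le _ hx) (hp1p32_inv_not_mem _ hx hz0)
                rw [mul_comm]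
                exact this
            obtain ⟨b, hb⟩ := hprin x hxσ
            exact ⟨t, ht, b, hb⟩
        · -- on no branch
          refine ld55_datum_at_lift π m hm0 B hmB V hBV hπ hrad harch' hFrac n u hu c hc hε hε' 1
            (Subring.one_mem _) ?_
          intro i hi
          fin_cases i
          · exact absurd hi h0
          · exact absurd hi h1
          · exact absurd hi h2
  obtain ⟨φ, hφ, s, hs, hsφ⟩ := key
  exact ⟨φ, ⟨⟨hφ 0, hφ 1⟩, hφ 2⟩, s, hs, hsφ⟩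

end Abs

section HP1

variable {R K F1 F2 : Type*} [CommRing R] [Field K] [Field F1] [Field F2] [Algebra R K]
  [Algebra K F1] [Algebra R F2] [Algebra K F2]

/-- `m ∣ ord` passes from `u` to the twisted function `u₂ = (u ^ E θ ^ m) ^ q`. -/
theorem hp1p32_ord_u2 (π : R) (q m : ℕ) (u θ : F2) (hOrd : s34i47_Ord π m u) :
    s34i47_Ord π m (cp57_u2 q m u θ) := by
  intro O hO
  obtain ⟨ε, w, hε, hεi, huw⟩ := hOrd O hO
  refine ⟨ε ^ ((q - 1 + 2) * (q - 1) * q), w ^ ((q - 1 + 2) * (q - 1) * q) * θ ^ q,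
    pow_mem hε _, ?_, ?_⟩
  · rw [← inv_pow]
    exact pow_mem hεi _
  · unfold cp57_u2
    rw [huw]
    ring

/-- **(HP-1)** `cp57_HP1` from the frame facts, the strong (LP) statement and the generator of
the middle branch at its one-branch points. -/
theorem hp1p32_HP1 (π : R) (q m : ℕ) (hm0 : 0 < m) (B : Subalgebra R F2)
    [IsNoetherianRing B] (hmB : ∃ μ ∈ B, (m : F2) * μ = 1)
    (V : Fin 3 → ValuationSubring F2) (σ : F2) (e : ℕ)
    (hBV : ∀ i, ∀ x ∈ B, x ∈ V i) (hπ : ∀ i, (algebraMap R F2 π)⁻¹ ∉ V i)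
    (hrad : ∀ i, ∀ x ∈ V i, x⁻¹ ∉ V i → ∃ k : ℕ, (algebraMap R F2 π)⁻¹ * x ^ k ∈ V i)
    (harch : ∀ i, ∀ x : F2, x ≠ 0 → ∃ k : ℕ, (algebraMap R F2 π ^ k)⁻¹ * x ∉ V i)
    (hFrac : ∀ x : F2, ∃ a ∈ B, ∃ b ∈ B, b ≠ 0 ∧ x * b = a)
    (hsat : ∀ x ∈ B, (∀ i, (algebraMap R F2 π)⁻¹ * x ∈ V i) → (algebraMap R F2 π)⁻¹ * x ∈ B)
    (hun₀ : ∀ x ∈ V 0, x⁻¹ ∉ V 0 → (algebraMap R F2 π)⁻¹ * x ∈ V 0)
    (hun₂ : ∀ x ∈ V 2, x⁻¹ ∉ V 2 → (algebraMap R F2 π)⁻¹ * x ∈ V 2)
    (hσ0 : σ ≠ 0) (hσV : σ ∈ V 1) (hσi : σ⁻¹ ∉ V 1)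
    (hσe : (algebraMap R F2 π)⁻¹ * σ ^ e ∈ V 1)
    (hun₁ : ∀ x ∈ V 1, x⁻¹ ∉ V 1 → σ⁻¹ * x ∈ V 1)
    (hS₀ : sf79_Smooth π B (V 0).toSubring) (hS₂ : sf79_Smooth π B (V 2).toSubring)
    (hS₁ : tl71_MidSmooth π σ B (V 1).toSubring)
    (hFinAll : ∀ v : F2, v ≠ 0 → s34i47_Fin π v)
    (hLP : ∀ v : F2, v ≠ 0 → (∀ i, v ∈ V i ∧ v⁻¹ ∈ V i) → s34i47_Ord π m v → s34i47_Fin π v →
      ∀ n : Ideal B, n.IsMaximal → algebraMap R B π ∈ n →
        ∃ c : F2, c ≠ 0 ∧ (∃ s : B, s ∉ n ∧ (s : F2) * (v / c ^ m) ∈ B) ∧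
          (∃ s : B, s ∉ n ∧ (s : F2) * (c ^ m / v) ∈ B))
    (hmid : ∀ n : Ideal B, n.IsMaximal → algebraMap R B π ∈ n →
      sf79_OnBr π B (V 1).toSubring n → ¬ sf79_OnBr π B (V 0).toSubring n →
      ¬ sf79_OnBr π B (V 2).toSubring n → hp1p32_MidGen σ B (V 1).toSubring n)
    (al be : F1 →+* F2) (Nal Nbe : F2 →* F1) (Vinf V0 : ValuationSubring F1) :
    cp57_HP1 (K := K) π q m B al be Nal Nbe (V 0) (V 1) (V 2) Vinf V0 := by
  intro u cu Au tinf t0 du Bu sinf s0 θ hu0 hOrd hFin hdata hθ n hn hπn hone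
  obtain ⟨hθ0, -, -, -, -, hu1, hu2, hu3⟩ := hθ
  have hu' : ∀ i, (algebraMap R F2 π)⁻¹ * (cp57_u2 q m u θ - 1) ∈ V i := by
    intro i
    fin_cases i
    · exact hu1
    · exact hu2
    · exact hu3
  have hπV : ∀ i, algebraMap R F2 π ∈ V i := fun i => hBV i _ (B.algebraMap_mem π)
  have hunit : ∀ i, cp57_u2 q m u θ ∈ V i ∧ (cp57_u2 q m u θ)⁻¹ ∈ V i :=
    fun i => hp1p32_unit_of_cong (V i) _ _ (hπV i) (hπ i) (hu' i)
  have hu20 : cp57_u2 q m u θ ≠ 0 :=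
    pow_ne_zero _ (mul_ne_zero (pow_ne_zero _ hu0) (pow_ne_zero _ hθ0))
  obtain ⟨c, hc, hε, hε'⟩ := hLP _ hu20 hunit (hp1p32_ord_u2 π q m u θ hOrd)
    (hFinAll _ hu20) n hn hπn
  exact hp1p32_LDAt_one π m hm0 B hmB V σ e hBV hπ hrad harch hFrac hsat hun₀ hun₂ hσ0 hσV hσi
    hσe hun₁ hS₀ hS₂ hS₁ n hn hπn hone (hmid n hn hπn) _ hu' c hc hε hε'

end HP1

end Fermat.Agent.S36
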