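import Fermat.Agent.S36.CorePoints57
import Fermat.Agent.S36.GlueDatum26

/-!
# S36 lab (helper77, row 605 sub-part): the package (HP-3) `cp57_HP3`, abstractly

`cp57_HP3` (CorePoints57, helper57): the clause of `s34i47_LocalDatum` for the twisted unit
`u₂ = (u ^ ((d+2) d) θ ^ m) ^ q` at the closed points of the chart `B` lying on two branches.

`hp3x77_HP3` : `cp57_HP3` from `gcd26_datum_triple` (helper26), with the frame facts as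
explicit hypotheses:

* global: `B ≤ V i`, `π⁻¹ ∉ V i`, `hrad`, `harch`, `hFrac`, `m` invertible in `B`; `α`, `β` fix
  the constants of `R`; `α 𝔪(V0) ⊆ 𝔪(V₃)`, `β 𝔪(Vinf) ⊆ 𝔪(V₁)`; the four norm congruences
  (N1)–(N4) for units `c` of the three branches (the `gc26_triple` shapes);
* per closed point `n` on two branches (`hp3x77_TripleData`): `n` lies on all three branches;
  local rings `Aal`, `Abe` of the level-`q` charts at `α(n)`, `β(n)` with the residue-degree-one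
  clauses `hO1 hO2 hO3' hO2'`, root-closedness, the constants of `R`, and norms of units of
  `B_n` being units; the strong local factorisation `u = ε c ^ m` (conclusion of
  `ud57_decomp_at`) and the three branch root lifts (conclusion of `gblc26_lift_at`).

All names are prefixed `hp3x77_`.
-/

set_option autoImplicit false
set_option linter.style.longLine false
set_option linter.unusedVariables false
set_option linter.unusedSectionVars false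

namespace Fermat.Agent.S36

open Fermat.Agent.S18 Fermat.Agent.S34 Fermat.Agent.S35

/-- A `1`-unit of a valuation subring is a unit. -/
theorem hp3x77_unit_of_one {F : Type*} [Field F] (V : ValuationSubring F) (u : F)
    (h : V.valuation (u - 1) < 1) : u ∈ V ∧ u⁻¹ ∈ V := by
  have h1 : V.valuation u = 1 := by
    have h2 : V.valuation (1 + (u - 1)) = V.valuation 1 :=
      Valuation.map_add_eq_of_lt_left _ (by rw [map_one]; exact h)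
    rw [map_one] at h2
    have e : (1 : F) + (u - 1) = u := by ring
    rwa [e] at h2
  constructor
  · rw [← ValuationSubring.valuation_le_one_iff]
    exact h1.le
  · rw [← ValuationSubring.valuation_le_one_iff, map_inv₀, h1, inv_one]

/-- `x ∈ V`, `v(y) < 1` ⟹ `v(x y) < 1`. -/
theorem hp3x77_val_mul_lt {F : Type*} [Field F] (V : ValuationSubring F) (x y : F) (hx : x ∈ V)
    (hy : V.valuation y < 1) : V.valuation (x * y) < 1 := by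
  rw [map_mul]
  have hx1 : V.valuation x ≤ 1 := (ValuationSubring.valuation_le_one_iff V x).mpr hx
  calc V.valuation x * V.valuation y ≤ 1 * V.valuation y := mul_le_mul' hx1 (le_refl _)
    _ = V.valuation y := one_mul _
    _ < 1 := hy

section Defs

variable {R K F1 F2 : Type*} [CommRing R] [Field K] [Field F1] [Field F2] [Algebra R K]
  [Algebra K F1] [Algebra R F2] [Algebra K F2]

/-- The frame data at a closed point `n` of the chart `B` on two branches (a triple point). -/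
def hp3x77_TripleData (K : Type*) [Field K] [Algebra R K] [Algebra K F1] (π : R) (m : ℕ)
    (B : Subalgebra R F2) (al be : F1 →+* F2) (Nal Nbe : F2 →* F1)
    (V₁ V₂ V₃ : ValuationSubring F2) (Vinf V0 : ValuationSubring F1)
    (n : Ideal B) [n.IsPrime] : Prop :=
  sf79_OnBr π B V₁.toSubring n ∧ sf79_OnBr π B V₂.toSubring n ∧ sf79_OnBr π B V₃.toSubring n ∧
  (∃ Aal Abe : Subring F1,
    (∀ x ∈ Aal, al x ∈ sf79_loc B n) ∧ (∀ x ∈ Aal, x ∈ Vinf) ∧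
    (∀ x ∈ Aal, (al x)⁻¹ ∈ sf79_loc B n → x⁻¹ ∈ Aal) ∧
    (∀ b ∈ sf79_loc B n, ∃ a ∈ Aal, V₁.valuation (al a - b) < 1) ∧
    (∀ b ∈ sf79_loc B n, ∃ a ∈ Aal, V₂.valuation (al a - b) < 1) ∧
    (∀ x ∈ Abe, be x ∈ sf79_loc B n) ∧ (∀ x ∈ Abe, x ∈ V0) ∧
    (∀ x ∈ Abe, (be x)⁻¹ ∈ sf79_loc B n → x⁻¹ ∈ Abe) ∧
    (∀ b ∈ sf79_loc B n, ∃ a ∈ Abe, V₃.valuation (be a - b) < 1) ∧
    (∀ b ∈ sf79_loc B n, ∃ a ∈ Abe, V₂.valuation (be a - b) < 1) ∧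
    (∀ x : F1, x ^ m ∈ Aal → x ∈ Aal) ∧ (∀ x : F1, x ^ m ∈ Abe → x ∈ Abe) ∧
    (∀ r : R, algebraMap K F1 (algebraMap R K r) ∈ Aal) ∧
    (∀ r : R, algebraMap K F1 (algebraMap R K r) ∈ Abe) ∧
    (∀ eps : F2, eps ≠ 0 → eps ∈ sf79_loc B n → eps⁻¹ ∈ sf79_loc B n →
      (Nal eps)⁻¹ ∈ Aal ∧ (Nbe eps)⁻¹ ∈ Abe)) ∧
  (∀ u : F2, u ≠ 0 → s34i47_Ord π m u → s34i47_Fin π u →
    (u ∈ V₁ ∧ u⁻¹ ∈ V₁) → (u ∈ V₂ ∧ u⁻¹ ∈ V₂) → (u ∈ V₃ ∧ u⁻¹ ∈ V₃) →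
    ∃ c : F2, c ≠ 0 ∧ (c ∈ V₁ ∧ c⁻¹ ∈ V₁) ∧ (c ∈ V₂ ∧ c⁻¹ ∈ V₂) ∧ (c ∈ V₃ ∧ c⁻¹ ∈ V₃) ∧
      (∃ s : B, s ∉ n ∧ (s : F2) * (u / c ^ m) ∈ B) ∧
      (∃ s : B, s ∉ n ∧ (s : F2) * (c ^ m / u) ∈ B)) ∧
  (∀ c e : F2, c ∈ V₁ → e ≠ 0 → e ∈ sf79_loc B n → e⁻¹ ∈ sf79_loc B n →
    V₁.valuation (c ^ m - e) < 1 → ∃ b ∈ sf79_loc B n, V₁.valuation (c - b) < 1) ∧
  (∀ c e : F2, c ∈ V₂ → e ≠ 0 → e ∈ sf79_loc B n → e⁻¹ ∈ sf79_loc B n →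
    V₂.valuation (c ^ m - e) < 1 → ∃ b ∈ sf79_loc B n, V₂.valuation (c - b) < 1) ∧
  (∀ c e : F2, c ∈ V₃ → e ≠ 0 → e ∈ sf79_loc B n → e⁻¹ ∈ sf79_loc B n →
    V₃.valuation (c ^ m - e) < 1 → ∃ b ∈ sf79_loc B n, V₃.valuation (c - b) < 1)

/-- **(HP-3)** from `gcd26_datum_triple` and the frame facts at the triple points. -/
theorem hp3x77_HP3 (π : R) (q m : ℕ) (hm0 : 0 < m) (B : Subalgebra R F2)
    (al be : F1 →+* F2) (Nal Nbe : F2 →* F1)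
    (V₁ V₂ V₃ : ValuationSubring F2) (Vinf V0 : ValuationSubring F1)
    (hmB : ∃ μ ∈ B, (m : F2) * μ = 1)
    (hBV1 : ∀ x ∈ B, x ∈ V₁) (hBV2 : ∀ x ∈ B, x ∈ V₂) (hBV3 : ∀ x ∈ B, x ∈ V₃)
    (hπ1 : (algebraMap R F2 π)⁻¹ ∉ V₁) (hπ2 : (algebraMap R F2 π)⁻¹ ∉ V₂)
    (hπ3 : (algebraMap R F2 π)⁻¹ ∉ V₃)
    (hrad1 : ∀ x ∈ V₁, x⁻¹ ∉ V₁ → ∃ k : ℕ, (algebraMap R F2 π)⁻¹ * x ^ k ∈ V₁)
    (hrad2 : ∀ x ∈ V₂, x⁻¹ ∉ V₂ → ∃ k : ℕ, (algebraMap R F2 π)⁻¹ * x ^ k ∈ V₂)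
    (hrad3 : ∀ x ∈ V₃, x⁻¹ ∉ V₃ → ∃ k : ℕ, (algebraMap R F2 π)⁻¹ * x ^ k ∈ V₃)
    (harch1 : ∀ x ∈ B, x ≠ 0 → ∃ k : ℕ, (algebraMap R F2 π ^ k)⁻¹ * x ∉ V₁)
    (harch2 : ∀ x ∈ B, x ≠ 0 → ∃ k : ℕ, (algebraMap R F2 π ^ k)⁻¹ * x ∉ V₂)
    (harch3 : ∀ x ∈ B, x ≠ 0 → ∃ k : ℕ, (algebraMap R F2 π ^ k)⁻¹ * x ∉ V₃)
    (hFrac : ∀ x : F2, ∃ a ∈ B, ∃ b ∈ B, b ≠ 0 ∧ x * b = a)
    (hal : ∀ r : R, al (algebraMap K F1 (algebraMap R K r)) = algebraMap R F2 r)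
    (hbe : ∀ r : R, be (algebraMap K F1 (algebraMap R K r)) = algebraMap R F2 r)
    (hal3 : ∀ x : F1, V0.valuation x < 1 → V₃.valuation (al x) < 1)
    (hbe1 : ∀ x : F1, Vinf.valuation x < 1 → V₁.valuation (be x) < 1)
    (hN1 : ∀ c : F2, (c ∈ V₁ ∧ c⁻¹ ∈ V₁) → (c ∈ V₂ ∧ c⁻¹ ∈ V₂) → (c ∈ V₃ ∧ c⁻¹ ∈ V₃) →
      ∀ y1 y2 : F1, V₁.valuation (al y1 - c) < 1 → V₂.valuation (al y2 - c) < 1 →
        Vinf.valuation (Nal c - y1 * y2 ^ (q - 1)) < 1)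
    (hN2 : ∀ c : F2, (c ∈ V₁ ∧ c⁻¹ ∈ V₁) → (c ∈ V₂ ∧ c⁻¹ ∈ V₂) → (c ∈ V₃ ∧ c⁻¹ ∈ V₃) →
      V₃.valuation (al (Nal c) - c ^ (q - 1 + 1)) < 1)
    (hN4 : ∀ c : F2, (c ∈ V₁ ∧ c⁻¹ ∈ V₁) → (c ∈ V₂ ∧ c⁻¹ ∈ V₂) → (c ∈ V₃ ∧ c⁻¹ ∈ V₃) →
      ∀ y3 y2 : F1, V₃.valuation (be y3 - c) < 1 → V₂.valuation (be y2 - c) < 1 →
        V0.valuation (Nbe c - y3 * y2 ^ (q - 1)) < 1)
    (hN3 : ∀ c : F2, (c ∈ V₁ ∧ c⁻¹ ∈ V₁) → (c ∈ V₂ ∧ c⁻¹ ∈ V₂) → (c ∈ V₃ ∧ c⁻¹ ∈ V₃) →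
      V₁.valuation (be (Nbe c) - c ^ (q - 1 + 1)) < 1)
    (hTP : ∀ (n : Ideal B) (hn : n.IsMaximal), algebraMap R B π ∈ n →
      ¬ cp57_OneBr π B V₁ V₂ V₃ n →
      @hp3x77_TripleData R F1 F2 _ _ _ _ K _ _ _ π m B al be Nal Nbe V₁ V₂ V₃ Vinf V0 n
        hn.isPrime) :
    cp57_HP3 (K := K) π q m B al be Nal Nbe V₁ V₂ V₃ Vinf V0 := by
  intro u cu Au tinf t0 du Bu sinf s0 θ hu0 hOrd hFin hdata htw n hn hπn hnot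
  haveI hnp : n.IsPrime := hn.isPrime
  obtain ⟨hOn1, hOn2, hOn3, ⟨Aal, Abe, hAB, hAinf, hloc, hO1, hO2, hAB', hA0', hloc', hO3',
    hO2', hrootA, hrootB, hRA, hRB, hNunit⟩, hLP, hL1, hL2, hL3⟩ := hTP n hn hπn hnot
  obtain ⟨hu1, hu2, hu3, hNu, hAu, hNu', hBu, ⟨rcu, hcu⟩, ⟨rti, hti⟩, ⟨rt0, ht0⟩, ⟨rdu, hdu⟩,
    ⟨rsi, hsi⟩, ⟨rs0, hs0⟩, hAuinf, hAu0, hBuinf, hBu0⟩ := hdata
  obtain ⟨hθ0, hθV1, hθV2, hθV3, ⟨w₁, w₂, hθ1, hθ2, hθ3, hw1, hw2⟩, hu'1, hu'2, hu'3⟩ := htw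
  -- the local factorisation `u = eps * c ^ m`
  obtain ⟨c, hc0, hcV1, hcV2, hcV3, ⟨s, hs, hsu⟩, ⟨s', hs', hsu'⟩⟩ :=
    hLP u hu0 hOrd hFin (hp3x77_unit_of_one V₁ u hu1) (hp3x77_unit_of_one V₂ u hu2)
      (hp3x77_unit_of_one V₃ u hu3)
  have hcm0 : c ^ m ≠ 0 := pow_ne_zero m hc0
  have heps0 : u / c ^ m ≠ 0 := div_ne_zero hu0 hcm0
  have heps : u / c ^ m ∈ sf79_loc B n := ⟨s, hs, hsu⟩
  have heps' : (u / c ^ m)⁻¹ ∈ sf79_loc B n := ⟨s', hs', by rw [inv_div]; exact hsu'⟩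
  have hueq : u = u / c ^ m * c ^ m := by field_simp
  -- `B_n ⊆ V i`
  have hB1 : ∀ x ∈ sf79_loc B n, x ∈ V₁ := fun x hx => ld55_loc_le π B V₁ hBV1 hrad1 n hOn1 x hx
  have hB2 : ∀ x ∈ sf79_loc B n, x ∈ V₂ := fun x hx => ld55_loc_le π B V₂ hBV2 hrad2 n hOn2 x hx
  have hB3 : ∀ x ∈ sf79_loc B n, x ∈ V₃ := fun x hx => ld55_loc_le π B V₃ hBV3 hrad3 n hOn3 x hx
  -- the branch lifts of `c`
  have hce : c ^ m - (u / c ^ m)⁻¹ = (u / c ^ m)⁻¹ * (u - 1) := by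
    field_simp
  obtain ⟨b1, hb1, hcb1⟩ := hL1 c (u / c ^ m)⁻¹ hcV1.1 (inv_ne_zero heps0) heps'
    (by rw [inv_inv]; exact heps)
    (by rw [hce]; exact hp3x77_val_mul_lt V₁ _ _ (hB1 _ heps') hu1)
  obtain ⟨b2, hb2, hcb2⟩ := hL2 c (u / c ^ m)⁻¹ hcV2.1 (inv_ne_zero heps0) heps'
    (by rw [inv_inv]; exact heps)
    (by rw [hce]; exact hp3x77_val_mul_lt V₂ _ _ (hB2 _ heps') hu2)
  obtain ⟨b3, hb3, hcb3⟩ := hL3 c (u / c ^ m)⁻¹ hcV3.1 (inv_ne_zero heps0) heps'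
    (by rw [inv_inv]; exact heps)
    (by rw [hce]; exact hp3x77_val_mul_lt V₃ _ _ (hB3 _ heps') hu3)
  -- constants
  have hκ0 : ∀ r : Rˣ, algebraMap K F1 (algebraMap R K (r : R)) ≠ 0 := fun r =>
    ((r.isUnit.map (algebraMap R K)).map (algebraMap K F1)).ne_zero
  have hinvB : ∀ r : Rˣ, (algebraMap R F2 (r : R))⁻¹ ∈ sf79_loc B n := by
    intro r
    have h1 : algebraMap R F2 ((r⁻¹ : Rˣ) : R) = (algebraMap R F2 (r : R))⁻¹ := by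
      apply eq_inv_of_mul_eq_one_left
      rw [← map_mul, ← Units.val_mul, inv_mul_cancel, Units.val_one, map_one]
    rw [← h1]
    exact sf79_le_loc B n _ (B.algebraMap_mem _)
  have hNeps := hNunit (u / c ^ m) heps0 heps heps'
  have hnm0 : sf79_nmem B n (0 : F2) :=
    ⟨1, (Ideal.ne_top_iff_one n).mp hnp.ne_top, 0, n.zero_mem, by simp⟩
  have key := gcd26_datum_triple π m (q - 1) hm0 B hmB V₁ V₂ V₃ hBV1 hBV2 hBV3 hπ1 hπ2 hπ3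
    hrad1 hrad2 hrad3 harch1 harch2 harch3 hFrac n hOn1 hOn2 hOn3 al be Nal Nbe Vinf V0
    Aal Abe hAB hAinf hloc hal3 hO1 hO2 hAB' hA0' hloc' hbe1 hO3' hO2' hrootA hrootB
    u c (u / c ^ m) hueq heps heps' hu1 hu2 hu3
    Au cu tinf t0 hNu hAu
    ((IsUnit.map Nal (isUnit_iff_ne_zero.mpr heps0)).ne_zero) hNeps.1
    (by rw [hcu]; exact hRA _) (by rw [hti]; exact hRA _) (by rw [ht0]; exact hRA _)
    hAuinf hAu0 (hN1 c hcV1 hcV2 hcV3) (hN2 c hcV1 hcV2 hcV3)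
    Bu du sinf s0 hNu' hBu
    ((IsUnit.map Nbe (isUnit_iff_ne_zero.mpr heps0)).ne_zero) hNeps.2
    (by rw [hdu]; exact hRB _) (by rw [hsi]; exact hRB _) (by rw [hs0]; exact hRB _)
    hBuinf hBu0 (hN4 c hcV1 hcV2 hcV3) (hN3 c hcV1 hcV2 hcV3)
    (by rw [hti]; exact hκ0 rti) (by rw [hsi]; exact hκ0 rsi) (by rw [hs0]; exact hκ0 rs0)
    (by rw [hti, hal]; exact hinvB rti) (by rw [hsi, hbe]; exact hinvB rsi)
    (by rw [hs0, hbe]; exact hinvB rs0)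
    b1 b2 b3 hb1 hb2 hb3 hcb1 hcb2 hcb3
    θ (algebraMap R F2 w₁) (algebraMap R F2 w₂)
    (sf79_le_loc B n _ (B.algebraMap_mem _)) (sf79_le_loc B n _ (B.algebraMap_mem _))
    hθ1 hθ2 hθ3
    (by rw [hw1, sub_self]; exact hnm0) (by rw [hw2, sub_self]; exact hnm0)
    q hu'1 hu'2 hu'3
  obtain ⟨φ, ⟨hφ1, hφ2, hφ3⟩, s₀, hs₀, hsφ⟩ := key
  exact ⟨φ, ⟨⟨hφ1, hφ2⟩, hφ3⟩, s₀, hs₀, hsφ⟩

end Defs

end Fermat.Agent.S36
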