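import Mathlib

/-!
S36 lab, registry row 600 (C-C2), special points (helper31, backup of helper24).

At a closed point of `C₂` lying over `j = 0` or `j = 1728` the function `j` is not a local
coordinate at a rigid level, and `s_j = j(q²τ) - j(τ)` does not generate `p₂`.  There one uses a
Hauptmodul `h` (level 2: `j h² = (h + 256)³`; level 3: `j h³ = (h + 27)(h + 243)³`) and
`s_h = h(q²τ) - h(τ)`.  This file transfers the GENERIC statement (in `O = V₂`)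

  `q ϑ = s_j^(q-1)`,  `ϑ + w_j = s_j y`      (conclusion of `c2b24_generic` / `uw31_generic`)

to the same statement for `(s_h, w_h)`, `w_h = (1/q) dh(qτ)/dh(τ)`, with NO modular equation
for `h`: only the relation between `j` and `h`, the Frobenius congruence `h(qτ) = h(τ)^q + q δ`
and the chain rule `w_j · (dj/dh)(τ) = w_h · (dj/dh)(qτ)` (polynomial form).

* `ht31_transfer`  : `S = s e`, `e` a unit, `w_h ≡ w_j e^{-(q-1)}` mod `s`.
* `ht31_quot`      : the identity in the quotient ring.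
* `ht31_core`      : local domain `O`, abstract `A₀(h)`, `W₀(h)`.
* `ht31_level2`, `ht31_level3` : the two Hauptmoduln.
-/

set_option autoImplicit false

namespace Fermat.Agent.S36

/-- Transfer along `S = s * e` (`e e' = 1`) when `w_h ≡ w_j e'^(q-1)` modulo `s`. -/
theorem ht31_transfer {O : Type*} [CommRing O] (q : ℕ)
    (S s ϑ y wj wh e e' c : O) (hϑ : (q : O) * ϑ = S ^ (q - 1)) (hcong : ϑ + wj = S * y)
    (hS : S = s * e) (he : e * e' = 1) (hw : wh - wj * e' ^ (q - 1) = s * c) :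
    ∃ ϑ' y' : O, (q : O) * ϑ' = s ^ (q - 1) ∧ ϑ' + wh = s * y' := by
  refine ⟨ϑ * e' ^ (q - 1), e * y * e' ^ (q - 1) + c, ?_, ?_⟩
  · rw [← mul_assoc, hϑ, hS, mul_pow, mul_assoc, ← mul_pow, he, one_pow, mul_one]
  · linear_combination e' ^ (q - 1) * hcong + hw + (y * e' ^ (q - 1)) * hS

/-- The identity in the quotient ring: `ε u² = v`, `w_j v (u^q)² = w_h v^q u²`
imply `w_h = w_j ε'^(q-1)`. -/
theorem ht31_quot {A : Type*} [CommRing A] (q : ℕ) (hq : 0 < q) (wj wh u v ε ε' : A)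
    (hu : IsUnit u) (hv : IsUnit v) (hε : ε * ε' = 1) (hεu : ε * u ^ 2 = v)
    (hrel : wj * (v * (u ^ q) ^ 2) = wh * (v ^ q * u ^ 2)) :
    wh = wj * ε' ^ (q - 1) := by
  obtain ⟨k, rfl⟩ : ∃ k, q = k + 1 := ⟨q - 1, by omega⟩
  have hU : IsUnit (v ^ (k + 1) * u ^ 2) := (hv.pow _).mul (hu.pow _)
  apply hU.mul_right_cancel
  have h1 : (ε' * ε) ^ k = 1 := by rw [mul_comm, hε, one_pow]
  have h2 : wj * ε' ^ (k + 1 - 1) * (v ^ (k + 1) * u ^ 2) = wj * (v * (u ^ (k + 1)) ^ 2) := by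
    rw [Nat.add_sub_cancel, ← hεu]
    have : wj * ε' ^ k * ((ε * u ^ 2) ^ (k + 1) * u ^ 2) =
        wj * (ε' * ε) ^ k * (ε * u ^ 2 * (u ^ (k + 1)) ^ 2) := by ring
    rw [this, h1]
    ring
  rw [h2, hrel]

/-- In a local ring, a unit plus an element of the maximal ideal is a unit. -/
theorem ht31_unit_add {O : Type*} [CommRing O] [IsLocalRing O] {a b : O} (ha : IsUnit a)
    (hb : b ∈ IsLocalRing.maximalIdeal O) : IsUnit (a + b) := by
  by_contra hcon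
  have hmem : a + b ∈ IsLocalRing.maximalIdeal O := (IsLocalRing.mem_maximalIdeal _).mpr hcon
  have h2 : a ∈ IsLocalRing.maximalIdeal O := by
    have := Ideal.sub_mem _ hmem hb
    rwa [add_sub_cancel_right] at this
  exact (IsLocalRing.mem_maximalIdeal _).mp h2 ha

/-- `q ∈ s O` from the generic statement for `S = s e` with `w_j` a unit (`q ≥ 2`). -/
theorem ht31_q_dvd {O : Type*} [CommRing O] [IsLocalRing O] {q : ℕ} (hq : q.Prime)
    (S s ϑ y wj e : O) (hϑ : (q : O) * ϑ = S ^ (q - 1)) (hcong : ϑ + wj = S * y)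
    (hS : S = s * e) (hs : s ∈ IsLocalRing.maximalIdeal O) (hwj : IsUnit wj) :
    ∃ c : O, (q : O) = s * c := by
  have hSm : S * y ∈ IsLocalRing.maximalIdeal O := by
    rw [hS, mul_assoc]
    exact Ideal.mul_mem_right _ _ hs
  have hϑu : IsUnit ϑ := by
    have h1 : ϑ = -wj + S * y := by linear_combination hcong
    rw [h1]
    exact ht31_unit_add hwj.neg hSm
  obtain ⟨v, hv⟩ := hϑu.exists_right_inv
  obtain ⟨m, hm⟩ : ∃ m, q = m + 2 := ⟨q - 2, by have := hq.two_le; omega⟩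
  have hq1 : q - 1 = m + 1 := by omega
  rw [hq1] at hϑ
  refine ⟨e * S ^ m * v, ?_⟩
  have h2 : (q : O) = (q : O) * ϑ * v := by rw [mul_assoc, hv, mul_one]
  rw [h2, hϑ, pow_succ, hS]
  ring

/-- **Core transfer.**  `O` a local domain (application: `V₂`), `s = s_h` in the maximal ideal,
`S = s_j` with `S a₁₃ = s E₀`; `U = A₀(h₁)`, `V = W₀(h₁)` units with `a₁₃ ≡ U²`, `E₀ ≡ V`,
`U_q ≡ U^q`, `V_q ≡ V^q` modulo `s`, and the chain rule `w_j V U_q² = w_h V_q U²`. -/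
theorem ht31_core {O : Type*} [CommRing O] [IsLocalRing O] {q : ℕ} (hq : q.Prime)
    (S s ϑ y wj wh : O) (hϑ : (q : O) * ϑ = S ^ (q - 1)) (hcong : ϑ + wj = S * y)
    (hs : s ∈ IsLocalRing.maximalIdeal O)
    (a13 E0 U V Uq Vq : O) (hSE : S * a13 = s * E0)
    (hU : IsUnit U) (hV : IsUnit V)
    (h13 : ∃ c, a13 - U ^ 2 = s * c) (hE : ∃ c, E0 - V = s * c)
    (hUq : ∃ c, Uq - U ^ q = s * c) (hVq : ∃ c, Vq - V ^ q = s * c)
    (hrel : wj * (V * Uq ^ 2) = wh * (Vq * U ^ 2)) :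
    ∃ ϑ' y' : O, (q : O) * ϑ' = s ^ (q - 1) ∧ ϑ' + wh = s * y' := by
  obtain ⟨c13, h13⟩ := h13
  obtain ⟨cE, hE⟩ := hE
  obtain ⟨cU, hUq⟩ := hUq
  obtain ⟨cV, hVq⟩ := hVq
  have ha13 : IsUnit a13 := by
    have : a13 = U ^ 2 + s * c13 := by linear_combination h13
    rw [this]
    exact ht31_unit_add (hU.pow 2) (Ideal.mul_mem_right _ _ hs)
  have hE0 : IsUnit E0 := by
    have : E0 = V + s * cE := by linear_combination hE
    rw [this]
    exact ht31_unit_add hV (Ideal.mul_mem_right _ _ hs)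
  obtain ⟨i13, hi13⟩ := ha13.exists_right_inv
  obtain ⟨iE, hiE⟩ := hE0.exists_right_inv
  -- S = s * e, e = E0 * i13, e' = a13 * iE
  have hS : S = s * (E0 * i13) := by
    have : S = S * a13 * i13 := by rw [mul_assoc, hi13, mul_one]
    rw [this, hSE]
    ring
  have he : (E0 * i13) * (a13 * iE) = 1 := by
    linear_combination (a13 * i13) * hiE + hi13
  -- the quotient ring
  let I : Ideal O := Ideal.span {s}
  let φ := Ideal.Quotient.mk I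
  have hφs : φ s = 0 := Ideal.Quotient.eq_zero_iff_mem.mpr (Ideal.subset_span rfl)
  have hquot : φ wh = φ wj * φ (a13 * iE) ^ (q - 1) := by
    refine ht31_quot q hq.pos (φ wj) (φ wh) (φ U) (φ V) (φ (E0 * i13)) (φ (a13 * iE))
      (hU.map φ) (hV.map φ) ?_ ?_ ?_
    · rw [← map_mul, he, map_one]
    · -- φ(E0 i13) φ(U)^2 = φ V
      have e1 : φ a13 = φ U ^ 2 := by
        have := congrArg φ h13
        rw [map_sub, map_mul, hφs, zero_mul, sub_eq_zero, map_pow] at this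
        exact this
      have e2 : φ E0 = φ V := by
        have := congrArg φ hE
        rw [map_sub, map_mul, hφs, zero_mul, sub_eq_zero] at this
        exact this
      have e3 : φ a13 * φ i13 = 1 := by rw [← map_mul, hi13, map_one]
      rw [map_mul, e2, ← e1]
      linear_combination (φ V) * e3
    · have e1 : φ Uq = φ U ^ q := by
        have := congrArg φ hUq
        rw [map_sub, map_mul, hφs, zero_mul, sub_eq_zero, map_pow] at this
        exact this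
      have e2 : φ Vq = φ V ^ q := by
        have := congrArg φ hVq
        rw [map_sub, map_mul, hφs, zero_mul, sub_eq_zero, map_pow] at this
        exact this
      have := congrArg φ hrel
      rw [map_mul, map_mul, map_mul, map_mul, map_pow, map_pow, e1, e2] at this
      exact this
  have hmem : wh - wj * (a13 * iE) ^ (q - 1) ∈ I := by
    rw [← Ideal.Quotient.eq_zero_iff_mem]
    show φ (wh - wj * (a13 * iE) ^ (q - 1)) = 0
    rw [map_sub, map_mul, map_pow, hquot, sub_self]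
  obtain ⟨c, hc⟩ := Ideal.mem_span_singleton.mp hmem
  exact ht31_transfer q S s ϑ y wj wh (E0 * i13) (a13 * iE) c hϑ hcong hS he hc

/-- Frobenius congruence helper: if `s ∣ q` and `s` is a nonunit of the local ring `O`, then for
`b = a^q + q δ` the images in `O ⧸ (s)` satisfy `φ b = (φ a)^q`, and `O ⧸ (s)` has
characteristic `q`. -/
theorem ht31_charP {O : Type*} [CommRing O] [IsLocalRing O] {q : ℕ} (hq : q.Prime) (s : O)
    (hs : s ∈ IsLocalRing.maximalIdeal O) (hqs : ∃ c : O, (q : O) = s * c) :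
    CharP (O ⧸ Ideal.span {s}) q := by
  have hne : Ideal.span {s} ≠ (⊤ : Ideal O) := by
    intro h
    exact (IsLocalRing.mem_maximalIdeal _).mp hs (Ideal.span_singleton_eq_top.mp h)
  have hnt : Nontrivial (O ⧸ Ideal.span {s}) := Ideal.Quotient.nontrivial_iff.mpr hne
  rw [CharP.charP_iff_prime_eq_zero hq]
  obtain ⟨c, hc⟩ := hqs
  have : ((q : O) : O ⧸ Ideal.span {s}) = 0 := by
    rw [Ideal.Quotient.eq_zero_iff_mem, Ideal.mem_span_singleton]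
    exact ⟨c, hc⟩
  simpa using this

/-- **Level 2.**  `x₁ = j(τ)`, `x₃ = j(q²τ)`, `h₁ = h(τ)`, `h₃ = h(q²τ)`, `h_q = h(qτ)` in the
local domain `O`; `j h² = (h + 256)³`; `h₁`, `h₁ + 256`, `h₁ - 512` units (the point is neither
a cusp, nor over `j = 0`... in `V₂` all three are units); `w_j` a unit;
chain rule `w_j (h₁+256)²(h₁-512) h_q³ = w_h (h_q+256)²(h_q-512) h₁³`. -/
theorem ht31_level2 {O : Type*} [CommRing O] [IsLocalRing O] {q : ℕ} (hq : q.Prime)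
    (x1 x3 h1 h3 hQ δ wj wh ϑ y : O)
    (hx1 : x1 * h1 ^ 2 = (h1 + 256) ^ 3) (hx3 : x3 * h3 ^ 2 = (h3 + 256) ^ 3)
    (hhq : hQ = h1 ^ q + q * δ)
    (hs : h3 - h1 ∈ IsLocalRing.maximalIdeal O)
    (hu1 : IsUnit h1) (hu2 : IsUnit (h1 + 256)) (hu3 : IsUnit (h1 - 512)) (hwj : IsUnit wj)
    (hrel : wj * ((h1 + 256) ^ 2 * (h1 - 512) * hQ ^ 3) =
      wh * ((hQ + 256) ^ 2 * (hQ - 512) * h1 ^ 3))
    (hϑ : (q : O) * ϑ = (x3 - x1) ^ (q - 1)) (hcong : ϑ + wj = (x3 - x1) * y) :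
    ∃ ϑ' y' : O, (q : O) * ϑ' = (h3 - h1) ^ (q - 1) ∧ ϑ' + wh = (h3 - h1) * y' := by
  -- S * a13 = s * E0
  have hSE : (x3 - x1) * (h1 ^ 2 * h3 ^ 2) = (h3 - h1) *
      (h1 ^ 2 * h3 ^ 2 - 196608 * (h1 * h3) - 16777216 * (h1 + h3)) := by
    linear_combination h1 ^ 2 * hx3 - h3 ^ 2 * hx1
  have hV : IsUnit (h1 * (h1 + 256) ^ 2 * (h1 - 512)) := (hu1.mul (hu2.pow 2)).mul hu3
  have hU : IsUnit (h1 ^ 2) := hu1.pow 2
  have h13 : ∃ c, h1 ^ 2 * h3 ^ 2 - (h1 ^ 2) ^ 2 = (h3 - h1) * c :=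
    ⟨h1 ^ 2 * (h3 + h1), by ring⟩
  have hE : ∃ c, (h1 ^ 2 * h3 ^ 2 - 196608 * (h1 * h3) - 16777216 * (h1 + h3))
      - h1 * (h1 + 256) ^ 2 * (h1 - 512) = (h3 - h1) * c :=
    ⟨h1 ^ 2 * (h3 + h1) - 196608 * h1 - 16777216, by ring⟩
  -- units for the q-divisibility
  have ha13 : IsUnit (h1 ^ 2 * h3 ^ 2) := by
    obtain ⟨c, hc⟩ := h13
    have : h1 ^ 2 * h3 ^ 2 = (h1 ^ 2) ^ 2 + (h3 - h1) * c := by linear_combination hc
    rw [this]
    exact ht31_unit_add (hU.pow 2) (Ideal.mul_mem_right _ _ hs)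
  obtain ⟨i13, hi13⟩ := ha13.exists_right_inv
  have hS : x3 - x1 = (h3 - h1) *
      ((h1 ^ 2 * h3 ^ 2 - 196608 * (h1 * h3) - 16777216 * (h1 + h3)) * i13) := by
    have : x3 - x1 = (x3 - x1) * (h1 ^ 2 * h3 ^ 2) * i13 := by rw [mul_assoc, hi13, mul_one]
    rw [this, hSE]
    ring
  have hqs := ht31_q_dvd hq (x3 - x1) (h3 - h1) ϑ y wj _ hϑ hcong hS hs hwj
  -- Frobenius in the quotient
  have hchar := ht31_charP hq (h3 - h1) hs hqs
  have hexp : ExpChar (O ⧸ Ideal.span {h3 - h1}) q := ExpChar.prime hq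
  let φ := Ideal.Quotient.mk (Ideal.span {h3 - h1})
  have hφq : φ (q : O) = 0 := by
    obtain ⟨c, hc⟩ := hqs
    rw [Ideal.Quotient.eq_zero_iff_mem, Ideal.mem_span_singleton]
    exact ⟨c, hc⟩
  have hφQ : φ hQ = φ h1 ^ q := by
    rw [hhq, map_add, map_mul, hφq, zero_mul, add_zero, map_pow]
  have toDvd : ∀ a b : O, φ a = φ b → ∃ c, a - b = (h3 - h1) * c := by
    intro a b hab
    have : a - b ∈ Ideal.span {h3 - h1} := by
      rw [← Ideal.Quotient.eq_zero_iff_mem]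
      show φ (a - b) = 0
      rw [map_sub, hab, sub_self]
    exact Ideal.mem_span_singleton.mp this
  have hUq : ∃ c, hQ ^ 2 - (h1 ^ 2) ^ q = (h3 - h1) * c := by
    apply toDvd
    rw [map_pow, map_pow, map_pow, hφQ]
    ring
  have hVq : ∃ c, hQ * (hQ + 256) ^ 2 * (hQ - 512) - (h1 * (h1 + 256) ^ 2 * (h1 - 512)) ^ q
      = (h3 - h1) * c := by
    apply toDvd
    have f1 : (φ h1 + 256) ^ q = φ h1 ^ q + 256 := by
      rw [← frobenius_def, map_add, map_ofNat, frobenius_def]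
    have f2 : (φ h1 - 512) ^ q = φ h1 ^ q - 512 := by
      rw [← frobenius_def, map_sub, map_ofNat, frobenius_def]
    rw [map_pow, map_mul, map_mul, map_mul, map_mul, map_pow, map_pow, map_add, map_add,
      map_sub, map_sub, map_ofNat, map_ofNat, hφQ, mul_pow, mul_pow, ← pow_mul, mul_comm 2 q,
      pow_mul, f1, f2]
  refine ht31_core hq (x3 - x1) (h3 - h1) ϑ y wj wh hϑ hcong hs (h1 ^ 2 * h3 ^ 2)
    (h1 ^ 2 * h3 ^ 2 - 196608 * (h1 * h3) - 16777216 * (h1 + h3)) (h1 ^ 2)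
    (h1 * (h1 + 256) ^ 2 * (h1 - 512)) (hQ ^ 2) (hQ * (hQ + 256) ^ 2 * (hQ - 512))
    hSE hU hV h13 hE hUq hVq ?_
  linear_combination (h1 * hQ) * hrel

/-- **Level 3.**  Same with `j h³ = (h + 27)(h + 243)³`; units `h₁`, `h₁ + 243`,
`h₁² - 486 h₁ - 19683`; chain rule
`w_j (h₁+243)² P(h₁) h_q⁴ = w_h (h_q+243)² P(h_q) h₁⁴`, `P = X² - 486 X - 19683`. -/
theorem ht31_level3 {O : Type*} [CommRing O] [IsLocalRing O] {q : ℕ} (hq : q.Prime)
    (x1 x3 h1 h3 hQ δ wj wh ϑ y : O)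
    (hx1 : x1 * h1 ^ 3 = (h1 + 27) * (h1 + 243) ^ 3)
    (hx3 : x3 * h3 ^ 3 = (h3 + 27) * (h3 + 243) ^ 3)
    (hhq : hQ = h1 ^ q + q * δ)
    (hs : h3 - h1 ∈ IsLocalRing.maximalIdeal O)
    (hu1 : IsUnit h1) (hu2 : IsUnit (h1 + 243)) (hu3 : IsUnit (h1 ^ 2 - 486 * h1 - 19683))
    (hwj : IsUnit wj)
    (hrel : wj * ((h1 + 243) ^ 2 * (h1 ^ 2 - 486 * h1 - 19683) * hQ ^ 4) =
      wh * ((hQ + 243) ^ 2 * (hQ ^ 2 - 486 * hQ - 19683) * h1 ^ 4))
    (hϑ : (q : O) * ϑ = (x3 - x1) ^ (q - 1)) (hcong : ϑ + wj = (x3 - x1) * y) :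
    ∃ ϑ' y' : O, (q : O) * ϑ' = (h3 - h1) ^ (q - 1) ∧ ϑ' + wh = (h3 - h1) * y' := by
  have hSE : (x3 - x1) * (h1 ^ 3 * h3 ^ 3) = (h3 - h1) *
      (h1 ^ 3 * h3 ^ 3 - 196830 * (h1 ^ 2 * h3 ^ 2) - 19131876 * (h1 * h3 * (h1 + h3))
        - 387420489 * (h1 ^ 2 + h1 * h3 + h3 ^ 2)) := by
    linear_combination h1 ^ 3 * hx3 - h3 ^ 3 * hx1
  have hV : IsUnit (h1 ^ 2 * (h1 + 243) ^ 2 * (h1 ^ 2 - 486 * h1 - 19683)) :=
    ((hu1.pow 2).mul (hu2.pow 2)).mul hu3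
  have hU : IsUnit (h1 ^ 3) := hu1.pow 3
  have h13 : ∃ c, h1 ^ 3 * h3 ^ 3 - (h1 ^ 3) ^ 2 = (h3 - h1) * c :=
    ⟨h1 ^ 3 * (h3 ^ 2 + h3 * h1 + h1 ^ 2), by ring⟩
  have hE : ∃ c, (h1 ^ 3 * h3 ^ 3 - 196830 * (h1 ^ 2 * h3 ^ 2)
      - 19131876 * (h1 * h3 * (h1 + h3)) - 387420489 * (h1 ^ 2 + h1 * h3 + h3 ^ 2))
      - h1 ^ 2 * (h1 + 243) ^ 2 * (h1 ^ 2 - 486 * h1 - 19683) = (h3 - h1) * c :=
    ⟨h1 ^ 3 * (h3 ^ 2 + h3 * h1 + h1 ^ 2) - 196830 * (h1 ^ 2 * (h3 + h1))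
      - 19131876 * (h1 * (h3 + 2 * h1)) - 387420489 * (h3 + 2 * h1), by ring⟩
  have ha13 : IsUnit (h1 ^ 3 * h3 ^ 3) := by
    obtain ⟨c, hc⟩ := h13
    have : h1 ^ 3 * h3 ^ 3 = (h1 ^ 3) ^ 2 + (h3 - h1) * c := by linear_combination hc
    rw [this]
    exact ht31_unit_add (hU.pow 2) (Ideal.mul_mem_right _ _ hs)
  obtain ⟨i13, hi13⟩ := ha13.exists_right_inv
  have hS : x3 - x1 = (h3 - h1) *
      ((h1 ^ 3 * h3 ^ 3 - 196830 * (h1 ^ 2 * h3 ^ 2) - 19131876 * (h1 * h3 * (h1 + h3))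
        - 387420489 * (h1 ^ 2 + h1 * h3 + h3 ^ 2)) * i13) := by
    have : x3 - x1 = (x3 - x1) * (h1 ^ 3 * h3 ^ 3) * i13 := by rw [mul_assoc, hi13, mul_one]
    rw [this, hSE]
    ring
  have hqs := ht31_q_dvd hq (x3 - x1) (h3 - h1) ϑ y wj _ hϑ hcong hS hs hwj
  have hchar := ht31_charP hq (h3 - h1) hs hqs
  have hexp : ExpChar (O ⧸ Ideal.span {h3 - h1}) q := ExpChar.prime hq
  let φ := Ideal.Quotient.mk (Ideal.span {h3 - h1})
  have hφq : φ (q : O) = 0 := by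
    obtain ⟨c, hc⟩ := hqs
    rw [Ideal.Quotient.eq_zero_iff_mem, Ideal.mem_span_singleton]
    exact ⟨c, hc⟩
  have hφQ : φ hQ = φ h1 ^ q := by
    rw [hhq, map_add, map_mul, hφq, zero_mul, add_zero, map_pow]
  have toDvd : ∀ a b : O, φ a = φ b → ∃ c, a - b = (h3 - h1) * c := by
    intro a b hab
    have : a - b ∈ Ideal.span {h3 - h1} := by
      rw [← Ideal.Quotient.eq_zero_iff_mem]
      show φ (a - b) = 0
      rw [map_sub, hab, sub_self]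
    exact Ideal.mem_span_singleton.mp this
  have hUq : ∃ c, hQ ^ 3 - (h1 ^ 3) ^ q = (h3 - h1) * c := by
    apply toDvd
    rw [map_pow, map_pow, map_pow, hφQ]
    ring
  have hVq : ∃ c, hQ ^ 2 * (hQ + 243) ^ 2 * (hQ ^ 2 - 486 * hQ - 19683)
      - (h1 ^ 2 * (h1 + 243) ^ 2 * (h1 ^ 2 - 486 * h1 - 19683)) ^ q = (h3 - h1) * c := by
    apply toDvd
    have f1 : (φ h1 + 243) ^ q = φ h1 ^ q + 243 := by
      rw [← frobenius_def, map_add, map_ofNat, frobenius_def]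
    have f2 : (φ h1 ^ 2 - 486 * φ h1 - 19683) ^ q = (φ h1 ^ q) ^ 2 - 486 * φ h1 ^ q - 19683 := by
      rw [← frobenius_def, map_sub, map_sub, map_mul, map_pow, map_ofNat, map_ofNat,
        frobenius_def]
    have e1 : φ (hQ ^ 2 * (hQ + 243) ^ 2 * (hQ ^ 2 - 486 * hQ - 19683)) =
        (φ h1 ^ q) ^ 2 * (φ h1 ^ q + 243) ^ 2 * ((φ h1 ^ q) ^ 2 - 486 * φ h1 ^ q - 19683) := by
      rw [← hφQ]
      simp only [map_pow, map_mul, map_add, map_sub, map_ofNat]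
    have e2 : φ (h1 ^ 2 * (h1 + 243) ^ 2 * (h1 ^ 2 - 486 * h1 - 19683)) =
        φ h1 ^ 2 * (φ h1 + 243) ^ 2 * (φ h1 ^ 2 - 486 * φ h1 - 19683) := by
      simp only [map_pow, map_mul, map_add, map_sub, map_ofNat]
    have e3 : (φ h1 ^ 2 * (φ h1 + 243) ^ 2 * (φ h1 ^ 2 - 486 * φ h1 - 19683)) ^ q =
        (φ h1 ^ q) ^ 2 * ((φ h1 + 243) ^ q) ^ 2 * (φ h1 ^ 2 - 486 * φ h1 - 19683) ^ q := by
      rw [mul_pow, mul_pow, pow_right_comm (φ h1) 2 q, pow_right_comm (φ h1 + 243) 2 q]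
    rw [e1, map_pow, e2, e3, f1, f2]
  refine ht31_core hq (x3 - x1) (h3 - h1) ϑ y wj wh hϑ hcong hs (h1 ^ 3 * h3 ^ 3)
    (h1 ^ 3 * h3 ^ 3 - 196830 * (h1 ^ 2 * h3 ^ 2) - 19131876 * (h1 * h3 * (h1 + h3))
        - 387420489 * (h1 ^ 2 + h1 * h3 + h3 ^ 2)) (h1 ^ 3)
    (h1 ^ 2 * (h1 + 243) ^ 2 * (h1 ^ 2 - 486 * h1 - 19683)) (hQ ^ 3)
    (hQ ^ 2 * (hQ + 243) ^ 2 * (hQ ^ 2 - 486 * hQ - 19683))
    hSE hU hV h13 hE hUq hVq ?_
  linear_combination (h1 ^ 2 * hQ ^ 2) * hrel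

end Fermat.Agent.S36
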