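import Fermat.Agent.S35.PkgNewFinal32

/-!
# S36 scouting (helper32): newness of the Kummer classes at EVERY prime `q ∣ M`, `q ≠ lam`

`pna32_pkg_new : pna32_Compat → pna32_Pkg_New`.

`pna32_Compat` is the single missing input: the compatibility of the two push-forwards
`α_*, β_* : J₀(N q) → J₀(N)` with additive maps of the lattices on all evaluated THETA-Z
families, at every prime `q` (no hypothesis `q ∤ N`).  On `main` it is known for `q ∤ N`
(`taf22_compat_alpha_push`, `tb87_compat_beta_pj40`).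

`pna32_NewClaim` is `s35i62_NewClaim` with the evaluation clauses of the family added and the
last clause for every prime `q ∣ M`, `q ≠ lam` (in particular for `q ^ 2 ∣ M`).

All names are prefixed `pna32_`.
-/

set_option autoImplicit false
set_option linter.unusedSectionVars false
set_option linter.unusedVariables false
set_option linter.style.longLine false
set_option linter.style.haveILetI false

open CongruenceSubgroup ModularCurve ModularCurve.Period AlgebraicCurve UpperHalfPlane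
open scoped MatrixGroups TensorProduct

namespace Fermat.Agent.S36

open Fermat.Agent.S35
open Fermat.Agent.S16 Fermat.Agent.S24 Fermat.Agent.S42 Fermat.Agent.S41 Fermat.Agent.S37
open Fermat.Agent.S30 Fermat.Agent.S31

local notation "Qb" => AlgebraicClosure ℚ
local notation "GQ" => AlgebraicClosure ℚ ≃ₐ[ℚ] AlgebraicClosure ℚ

/-! ## 0. The hypothesis and the claim -/

/-- **Hypothesis (2a) at every prime `q`**: `α_* ∘ Θ_n = Θ'_n ∘ corA` and
`β_* ∘ Θ_n = Θ'_n ∘ corB` for two additive maps of the lattices, for all evaluated THETA-Z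
families at every prime modulus. -/
def pna32_Compat : Prop :=
  ∀ (N q : ℕ) [NeZero N] [NeZero q], q.Prime →
    ∃ corA corB : ↥(parabolicHoms ℤ (Gamma0 (N * q)) ℤ) →+ ↥(parabolicHoms ℤ (Gamma0 N) ℤ),
      ∀ p : ℕ, p.Prime →
        ∀ (Θ : ℕ → (↥(parabolicHoms ℤ (Gamma0 (N * q)) ℤ) →+ JZero (N * q)))
          (Θ' : ℕ → (↥(parabolicHoms ℤ (Gamma0 N) ℤ) →+ JZero N)),
          s30i37_ThetaFamily (N * q) p Θ → pn32_Eval (N * q) p Θ →
          s30i37_ThetaFamily N p Θ' → pn32_Eval N p Θ' →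
          ∀ (n : ℕ) (c : ↥(parabolicHoms ℤ (Gamma0 (N * q)) ℤ)),
            pj40_alphaPush N q (Θ n c) = Θ' n (corA c) ∧
              pj40_betaPush N q (Θ n c) = Θ' n (corB c)

/-- **NEW at every prime of the level**: as `s35i62_NewClaim`, with the evaluation clauses of the
family and with the last clause for EVERY prime `q ∣ M`, `q ≠ lam`. -/
def pna32_NewClaim (M : ℕ) [NeZero M] (lam : ℕ) (S : Finset ℕ)
    (O' : Type) [CommRing O'] [IsDomain O'] [IsDiscreteValuationRing O']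
    (χ : CuspForm.heckeAlgebra M 2 (↑S : Set ℕ) →+* O') : Prop :=
  ∃ Θ : ℕ → (↥(parabolicHoms ℤ (Gamma0 M) ℤ) →+ JZero M), s30i37_ThetaFamily M lam Θ ∧
    pn32_Eval M lam Θ ∧
    ∃ Φ : CuspForm.heckeAlgebra M 2 (↑S : Set ℕ) →+*
        Module.End ℤ ↥(parabolicHoms ℤ (Gamma0 M) ℤ),
      (∀ (ℓ : ℕ) (hℓ : ℓ.Prime) (hℓN : ¬ ℓ ∣ M) (hℓS : ℓ ∉ (↑S : Set ℕ))
          (x : ↥(parabolicHoms ℤ (Gamma0 M) ℤ)),
        ((Φ (CuspForm.heckeAlgebra.T hℓ hℓN hℓS) x : ↥(parabolicHoms ℤ (Gamma0 M) ℤ)) :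
          Additive ↥(Gamma0 M) →+ ℤ) = heckeHom M ℓ ℤ (x : Additive ↥(Gamma0 M) →+ ℤ)) ∧
      ∃ (x0 : O' ⊗[ℤ] ↥(parabolicHoms ℤ (Gamma0 M) ℤ))
        (K : AddSubgroup ↥(parabolicHoms ℤ (Gamma0 M) ℤ)),
        x0 ∉ IsLocalRing.maximalIdeal O' •
          (⊤ : Submodule O' (O' ⊗[ℤ] ↥(parabolicHoms ℤ (Gamma0 M) ℤ))) ∧
        (∀ t : CuspForm.heckeAlgebra M 2 (↑S : Set ℕ), (Φ t).baseChange O' x0 = χ t • x0) ∧
        x0 ∈ Submodule.span O' ((fun k : ↥(parabolicHoms ℤ (Gamma0 M) ℤ) => (1 : O') ⊗ₜ[ℤ] k) ''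
          (K : Set ↥(parabolicHoms ℤ (Gamma0 M) ℤ))) ∧
        ∀ k ∈ K, ∀ (n q : ℕ), q.Prime → q ≠ lam → q ∣ M → s35i62_IsNewAt M q (Θ n k)

/-- **P-NEW at every prime of the level** (for the data of the frozen statements S35 / S36). -/
def pna32_Pkg_New : Prop :=
  ∀ (M : ℕ) [NeZero M] (g : CuspForm (Gamma0 M) 2), g.IsNewform →
    ∀ (lam : ℕ) [Fact lam.Prime] (S : Finset ℕ)
      (O' : Type) [CommRing O'] [IsDomain O'] [IsDiscreteValuationRing O']
      [IsAdicComplete (IsLocalRing.maximalIdeal O') O'] [Finite (IsLocalRing.ResidueField O')]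
      [CharZero O'], (lam : O') ∈ IsLocalRing.maximalIdeal O' →
      ∀ (chig : CuspForm.heckeAlgebra M 2 (↑S : Set ℕ) →+* ℂ),
        (∀ (ℓ : ℕ) (hℓ : ℓ.Prime) (hℓM : ¬ ℓ ∣ M) (hℓS : ℓ ∉ (↑S : Set ℕ)),
          chig (CuspForm.heckeAlgebra.T hℓ hℓM hℓS) = ModularFormClass.qCoeff g ℓ) →
        ∀ iota : chig.range →+* O', lam ∈ S → (∀ q : ℕ, q.Prime → q ∣ M → q ∈ S) →
          pna32_NewClaim M lam S O' (iota.comp chig.rangeRestrict)

/-! ## 1. The two corestrictions chosen from the hypothesis -/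

/-- The corestriction along `α` chosen from `pna32_Compat`. -/
noncomputable def pna32_corA (hc : pna32_Compat) (N q : ℕ) [NeZero N] [NeZero q]
    (hq : q.Prime) :
    ↥(parabolicHoms ℤ (Gamma0 (N * q)) ℤ) →+ ↥(parabolicHoms ℤ (Gamma0 N) ℤ) :=
  Classical.choose (hc N q hq)

/-- The corestriction along `β` chosen from `pna32_Compat`. -/
noncomputable def pna32_corB (hc : pna32_Compat) (N q : ℕ) [NeZero N] [NeZero q]
    (hq : q.Prime) :
    ↥(parabolicHoms ℤ (Gamma0 (N * q)) ℤ) →+ ↥(parabolicHoms ℤ (Gamma0 N) ℤ) :=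
  Classical.choose (Classical.choose_spec (hc N q hq))

theorem pna32_cor_spec (hc : pna32_Compat) (N q : ℕ) [NeZero N] [NeZero q]
    (hq : q.Prime) (p : ℕ) (hp : p.Prime)
    (Θ : ℕ → (↥(parabolicHoms ℤ (Gamma0 (N * q)) ℤ) →+ JZero (N * q)))
    (Θ' : ℕ → (↥(parabolicHoms ℤ (Gamma0 N) ℤ) →+ JZero N))
    (hΘ : s30i37_ThetaFamily (N * q) p Θ) (hE : pn32_Eval (N * q) p Θ)
    (hΘ' : s30i37_ThetaFamily N p Θ') (hE' : pn32_Eval N p Θ')
    (n : ℕ) (c : ↥(parabolicHoms ℤ (Gamma0 (N * q)) ℤ)) :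
    pj40_alphaPush N q (Θ n c) = Θ' n (pna32_corA hc N q hq c) ∧
      pj40_betaPush N q (Θ n c) = Θ' n (pna32_corB hc N q hq c) :=
  Classical.choose_spec (Classical.choose_spec (hc N q hq)) p hp Θ Θ' hΘ hE hΘ' hE' n c

/-- The two corestrictions at level `N q`, indexed by a Boolean (`true` = `α`, `false` = `β`). -/
noncomputable def pna32_cor (hc : pna32_Compat) (N q : ℕ) [NeZero N] [NeZero q]
    (hq : q.Prime) (b : Bool) :
    ↥(parabolicHoms ℤ (Gamma0 (N * q)) ℤ) →+ ↥(parabolicHoms ℤ (Gamma0 N) ℤ) :=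
  cond b (pna32_corA hc N q hq) (pna32_corB hc N q hq)

/-- Both corestrictions commute with `T_ℓ`, `ℓ ∤ N q`. -/
theorem pna32_cor_comm (hc : pna32_Compat) (N q : ℕ) [NeZero N] [NeZero q]
    (hq : q.Prime) (b : Bool) (ℓ : ℕ) (hℓ : ℓ.Prime) (hN : ¬ ℓ ∣ N * q)
    (c : ↥(parabolicHoms ℤ (Gamma0 (N * q)) ℤ)) :
    pna32_cor hc N q hq b (hl42_TL (N * q) ℓ c) = hl42_TL N ℓ (pna32_cor hc N q hq b c) := by
  cases b
  · exact pn32_comm_of_compat N q (pj40_betaPush N q) (fun g x => pj40_betaPush_smul N q g x)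
      (pna32_corB hc N q hq)
      (fun p hp Θ Θ' hΘ hE hΘ' hE' n c =>
        (pna32_cor_spec hc N q hq p hp Θ Θ' hΘ hE hΘ' hE' n c).2) ℓ hℓ hN c
  · exact pn32_comm_of_compat N q (pj40_alphaPush N q) (fun g x => pj40_alphaPush_smul N q g x)
      (pna32_corA hc N q hq)
      (fun p hp Θ Θ' hΘ hE hΘ' hE' n c =>
        (pna32_cor_spec hc N q hq p hp Θ Θ' hΘ hE hΘ' hE' n c).1) ℓ hℓ hN c

/-! ## 2. Newness of the Kummer classes of the common kernel -/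

/-- If both corestrictions of `k` vanish, then `Θ n k` is `q`-new (any prime `q`). -/
theorem pna32_isNew (hc : pna32_Compat) (N q : ℕ) [NeZero N] [NeZero q] (hq : q.Prime)
    (p : ℕ) (hp : p.Prime)
    (Θ : ℕ → (↥(parabolicHoms ℤ (Gamma0 (N * q)) ℤ) →+ JZero (N * q)))
    (hΘ : s30i37_ThetaFamily (N * q) p Θ) (hE : pn32_Eval (N * q) p Θ)
    (n : ℕ) (k : ↥(parabolicHoms ℤ (Gamma0 (N * q)) ℤ))
    (hkα : pna32_corA hc N q hq k = 0) (hkβ : pna32_corB hc N q hq k = 0) :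
    s35i62_IsNew N q (Θ n k) := by
  obtain ⟨Θ', hΘ', hE'⟩ := pn32_family N p hp.ne_zero
  obtain ⟨hA, hB⟩ := pna32_cor_spec hc N q hq p hp Θ Θ' hΘ hE hΘ' hE' n k
  have hα0 : pj40_alphaPush N q (Θ n k) = 0 := by rw [hA, hkα, map_zero]
  have hβ0 : pj40_betaPush N q (Θ n k) = 0 := by rw [hB, hkβ, map_zero]
  obtain ⟨D, hD⟩ := Pic0.mk_surjective (Θ n k)
  refine ⟨hx63_heckeAlphaBarIntegral N q, hx63_heckeBetaBarIntegral N q, D, hD.symm, ?_, ?_⟩
  · rw [← hD] at hα0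
    exact (pj40_alphaPush_mk_eq_zero_iff N q (hx63_heckeAlphaBarIntegral N q) D).mp hα0
  · rw [← hD] at hβ0
    exact (pj40_betaPush_mk_eq_zero_iff N q (hx63_heckeBetaBarIntegral N q) D).mp hβ0

/-- The cast form of `pna32_isNew`: the statement consumed by `s35i62_IsNewAt`. -/
theorem pna32_isNewAt_aux (hc : pna32_Compat) (M : ℕ) [NeZero M] (p : ℕ) (hp : p.Prime)
    (Θ : ℕ → (↥(parabolicHoms ℤ (Gamma0 M) ℤ) →+ JZero M))
    (hΘ : s30i37_ThetaFamily M p Θ) (hE : pn32_Eval M p Θ)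
    (M' q : ℕ) [NeZero M'] [NeZero q] (h : M = M' * q) (hq : q.Prime)
    (n : ℕ) (k : ↥(parabolicHoms ℤ (Gamma0 M) ℤ))
    (hkα : pna32_corA hc M' q hq (pn32_castL h k) = 0)
    (hkβ : pna32_corB hc M' q hq (pn32_castL h k) = 0) :
    s35i62_IsNew M' q (h ▸ Θ n k) := by
  subst h
  exact pna32_isNew hc M' q hq p hp Θ hΘ hE n k hkα hkβ

/-! ## 3. The family of corestrictions -/

/-- The factorisations `M = M' * q` with `q` prime, `q ≠ lam` (NO condition `q ∤ M'`). -/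
abbrev pna32_Idx (M lam : ℕ) : Type :=
  {t : ℕ × ℕ // M = t.1 * t.2 ∧ t.2.Prime ∧ t.2 ≠ lam}

theorem pna32_Idx_finite (M lam : ℕ) [NeZero M] : Finite (pna32_Idx M lam) := by
  have hfin : {t : ℕ × ℕ | M = t.1 * t.2 ∧ t.2.Prime ∧ t.2 ≠ lam}.Finite := by
    refine Set.Finite.subset (Finset.finite_toSet (Nat.divisorsAntidiagonal M)) ?_
    intro t ht
    simp only [Finset.mem_coe, Nat.mem_divisorsAntidiagonal]
    exact ⟨ht.1.symm, NeZero.ne M⟩
  exact hfin.to_subtype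

theorem pna32_Idx_neZero_fst {M lam : ℕ} [NeZero M] (t : pna32_Idx M lam) : NeZero t.1.1 :=
  ⟨fun h0 => NeZero.ne M (by rw [t.2.1, h0, zero_mul])⟩

theorem pna32_Idx_neZero_snd {M lam : ℕ} (t : pna32_Idx M lam) : NeZero t.1.2 :=
  ⟨t.2.2.1.ne_zero⟩

/-- The family of all corestrictions from level `M`: for every factorisation `M = M' * q`
(`q` prime, `q ≠ lam`) and both degeneracy maps. -/
noncomputable def pna32_c (hc : pna32_Compat) (M lam : ℕ) [NeZero M]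
    (i : pna32_Idx M lam × Bool) :
    ↥(parabolicHoms ℤ (Gamma0 M) ℤ) →ₗ[ℤ] ↥(parabolicHoms ℤ (Gamma0 i.1.1.1) ℤ) :=
  haveI := pna32_Idx_neZero_fst i.1
  haveI := pna32_Idx_neZero_snd i.1
  (pna32_cor hc i.1.1.1 i.1.1.2 i.1.2.2.1 i.2).toIntLinearMap ∘ₗ pn32_castL i.1.2.1

theorem pna32_c_comm (hc : pna32_Compat) (M lam : ℕ) [NeZero M] (i : pna32_Idx M lam × Bool)
    (ℓ : ℕ) (hℓ : ℓ.Prime) (hℓM : ¬ ℓ ∣ M) (x : ↥(parabolicHoms ℤ (Gamma0 M) ℤ)) :
    haveI := pna32_Idx_neZero_fst i.1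
    pna32_c hc M lam i (hl42_TL M ℓ x) = hl42_TL i.1.1.1 ℓ (pna32_c hc M lam i x) := by
  obtain ⟨⟨⟨M', q⟩, h, hq, hql⟩, b⟩ := i
  haveI : NeZero M' := pna32_Idx_neZero_fst (⟨(M', q), h, hq, hql⟩ : pna32_Idx M lam)
  haveI : NeZero q := ⟨hq.ne_zero⟩
  show pna32_cor hc M' q hq b (pn32_castL h (hl42_TL M ℓ x)) =
    hl42_TL M' ℓ (pna32_cor hc M' q hq b (pn32_castL h x))
  rw [pn32_castL_TL h]
  exact pna32_cor_comm hc M' q hq b ℓ hℓ (fun hd => hℓM (h ▸ hd)) _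

/-! ## 4. The package -/

/-- **P-NEW at every prime of the level** from (2a) at every prime and (N5) (`pn32_n5`). -/
theorem pna32_pkg_new (hc : pna32_Compat) : pna32_Pkg_New := by
  intro M _ g hg lam _ S O' _ _ _ _ _ _ hlam chig hchig iota hlamS hMS
  have hlamP : lam.Prime := Fact.out
  obtain ⟨Θ, hΘ, hE⟩ := pn32_family M lam hlamP.ne_zero
  haveI : Finite (pna32_Idx M lam) := pna32_Idx_finite M lam
  haveI : ∀ i : pna32_Idx M lam × Bool, NeZero i.1.1.1 := fun i => pna32_Idx_neZero_fst i.1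
  obtain ⟨Φ, hΦ, x0, hx0, hx0e, hx0c⟩ := pn32_n5 M g hg lam S O' hlam chig hchig iota hlamS hMS
    (pna32_Idx M lam × Bool) (fun i => i.1.1.1)
    (fun i => ⟨i.1.1.2, i.1.2.1⟩)
    (fun i h => i.1.2.2.1.one_lt.ne' (by
      have h1 : i.1.1.1 * i.1.1.2 = i.1.1.1 * 1 := by rw [mul_one, ← i.1.2.1, h]
      exact Nat.eq_of_mul_eq_mul_left (Nat.pos_of_ne_zero (NeZero.ne i.1.1.1)) h1))
    (pna32_c hc M lam) (fun i ℓ hℓ hℓM x => pna32_c_comm hc M lam i ℓ hℓ hℓM x)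
  haveI : Module.Flat ℤ O' := fk56_flat_int O'
  refine ⟨Θ, hΘ, hE, Φ, hΦ, x0, pn32_K (pna32_c hc M lam), hx0, hx0e, ?_, ?_⟩
  · rw [pn32_K_coe]
    exact ne34_mem_span_ker_family (pna32_c hc M lam) x0 hx0c
  · intro k hk n q hq hql hqM M' _ _ h
    have hkα : pna32_corA hc M' q hq (pn32_castL h k) = 0 :=
      hk (⟨(M', q), h, hq, hql⟩, true)
    have hkβ : pna32_corB hc M' q hq (pn32_castL h k) = 0 :=
      hk (⟨(M', q), h, hq, hql⟩, false)
    exact pna32_isNewAt_aux hc M lam hlamP Θ hΘ hE M' q h hq n k hkα hkβ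

end Fermat.Agent.S36
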