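import Mathlib
import Fermat.Agent.S36.Iface62
import Fermat.Agent.S36.GateInv67
import Fermat.Agent.S36.PkgNewAll32

/-!
# S36 lab: interface, part b (helper62, architect) — the TOP-LEVEL ASSEMBLY, proved

`s36i62b_top` : **the frozen statement S36 from exactly four closed packages**

* `pna32_Pkg_New` (newness at every prime of the level; `PkgNewAll32`, helper32),
* `s36i62_Pkg_Core`, `s36i62_Pkg_FieldDef`, `s36i62_Pkg_LevelFF` (Iface62),

through helper67's gate `s36g67_result_of_new_inv` (`GateInv67`).  Variants: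
`s36i62b_top_jac` (class-level level change `s36i62_Pkg_LevelJac`), `s36i62b_top_of_inv`
(directly from `∀ N q p …, s36i62_InvAt N q p`).

Adapters: `s36i62b_exists_place` (a place of `ℚ̄` over every prime), `s36i62b_pkg_new`
(`pna32_Pkg_New → s36g67_Pkg_New`), `s36i62b_pkg_inv` (`s36i62_InvAt` everywhere ⟹
`s36g67_Pkg_Inv`).  So `Fermat/Agent/S36.lean` is
`s36i62b_top hNew hCore hFD hLevel hg lam S O' hlamO' chig hchig iota hlamS hMS`.
-/

set_option autoImplicit false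
set_option linter.style.longLine false
set_option linter.unusedVariables false
set_option linter.unusedSectionVars false
set_option linter.style.haveILetI false

open ModularCurve AlgebraicCurve CongruenceSubgroup Polynomial

namespace Fermat.Agent.S36

open Fermat.Agent.S35

local notation "Q̄" => AlgebraicClosure ℚ
local notation "GQ" => AlgebraicClosure ℚ ≃ₐ[ℚ] AlgebraicClosure ℚ

/-- There is a valuation subring of `ℚ̄` lying over every prime `q`. -/
theorem s36i62b_exists_place (q : ℕ) (hq : q.Prime) :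
    ∃ A : ValuationSubring Q̄, A.LiesOverPrime q := by
  let f : ℤ →+* Q̄ := Int.castRingHom Q̄
  let A₀ : Subring Q̄ := f.range
  have hqmem : ((q : ℕ) : Q̄) ∈ A₀ := ⟨(q : ℤ), by simp [f]⟩
  let I : Ideal A₀ := Ideal.span {⟨(q : Q̄), hqmem⟩}
  have hI : I ≠ ⊤ := by
    intro h
    have h1 : (1 : A₀) ∈ I := by rw [h]; trivial
    obtain ⟨a, ha⟩ := Ideal.mem_span_singleton'.mp h1
    obtain ⟨n, hn⟩ := a.2
    have h3 : (a : Q̄) * (q : Q̄) = 1 := congrArg Subtype.val ha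
    rw [← hn] at h3
    have h4 : ((n * (q : ℤ) : ℤ) : Q̄) = ((1 : ℤ) : Q̄) := by
      push_cast
      simpa [f] using h3
    have h5 : n * (q : ℤ) = 1 := Int.cast_injective h4
    have h6 : ((q : ℤ)) ∣ 1 := ⟨n, by rw [mul_comm]; exact h5.symm⟩
    have h7 : (q : ℤ) = 1 ∨ (q : ℤ) = -1 := Int.isUnit_iff.mp (isUnit_of_dvd_one h6)
    have h8 := hq.one_lt
    omega
  obtain ⟨B, -, hB⟩ := Ideal.image_subset_nonunits_valuationSubring I hI
  refine ⟨B, ?_⟩
  unfold ValuationSubring.LiesOverPrime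
  have : ((q : ℕ) : Q̄) ∈ A₀.subtype '' (I : Set A₀) :=
    ⟨⟨(q : Q̄), hqmem⟩, Ideal.subset_span rfl, rfl⟩
  exact hB this

/-- (NEW) at every prime of the level gives (NEW) at the primes with `q² ∥ M`. -/
theorem s36i62b_pkg_new (h : pna32_Pkg_New) : s36g67_Pkg_New := by
  intro M _ g hg lam _ S O' _ _ _ _ _ _ hlamO' chig hchig iota hlamS hMS
  obtain ⟨Θ, hΘ, -, Φ, hΦ, x0, K, hx0, hx0e, hspan, hKnew⟩ :=
    h M g hg lam S O' hlamO' chig hchig iota hlamS hMS
  refine ⟨Θ, hΘ, Φ, hΦ, x0, K, hx0, hx0e, hspan, ?_⟩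
  intro k hk n q hq hqlam hq2
  refine hKnew k hk n q hq hqlam (Nat.dvd_of_factorization_pos ?_)
  rw [hq2]
  norm_num

/-- (INV) in the interface form at every level gives helper67's package P-INV. -/
theorem s36i62b_pkg_inv
    (h : ∀ (N q p : ℕ), q.Prime → p.Prime → p ≠ q → N.factorization q = 2 → s36i62_InvAt N q p) :
    s36g67_Pkg_Inv := by
  intro N q p _ hq hp hqp hN2
  obtain ⟨c, hc, hInv⟩ := h N q p hq hp (Ne.symm hqp) hN2
  obtain ⟨A, hA⟩ := s36i62b_exists_place q hq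
  exact ⟨c, Nat.pos_of_ne_zero hc, A, hA, fun n x hx hnew hfix => hInv A hA n x hx hnew hfix⟩

/-- **TOP-LEVEL ASSEMBLY (from (INV))**: the frozen statement S36 from P-NEW and (INV). -/
theorem s36i62b_top_of_inv (hNew : pna32_Pkg_New)
    (hInv : ∀ (N q p : ℕ), q.Prime → p.Prime → p ≠ q → N.factorization q = 2 →
      s36i62_InvAt N q p)
    {M : ℕ} [NeZero M] {g : CuspForm (CongruenceSubgroup.Gamma0 M) 2} (hg : g.IsNewform)
    (lam : ℕ) [Fact lam.Prime]
    (S : Finset ℕ)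
    (O' : Type) [CommRing O'] [IsDomain O'] [IsDiscreteValuationRing O']
    [IsAdicComplete (IsLocalRing.maximalIdeal O') O'] [Finite (IsLocalRing.ResidueField O')]
    [CharZero O'] (hlamO' : (lam : O') ∈ IsLocalRing.maximalIdeal O')
    (chig : CuspForm.heckeAlgebra M 2 (↑S : Set ℕ) →+* ℂ)
    (hchig : ∀ (ℓ : ℕ) (hℓ : ℓ.Prime) (hℓM : ¬ ℓ ∣ M) (hℓS : ℓ ∉ (↑S : Set ℕ)),
      chig (CuspForm.heckeAlgebra.T hℓ hℓM hℓS) = ModularFormClass.qCoeff g ℓ)
    (iota : chig.range →+* O')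
    (hlamS : lam ∈ S) (hMS : ∀ q : ℕ, q.Prime → q ∣ M → q ∈ S) :
    ∃ (O'' : Type) (_ : CommRing O'') (_ : IsDomain O'') (_ : IsDiscreteValuationRing O'')
      (_ : IsAdicComplete (IsLocalRing.maximalIdeal O'') O'') (_ : Finite (IsLocalRing.ResidueField O''))
      (_ : CharZero O'') (_ : Algebra O' O'') (_ : Module.Finite O' O'') (_ : IsLocalHom (algebraMap O' O'')),
      Function.Injective (algebraMap O' O'') ∧
      ∃ ρ : GaloisRepAdic O'',
        (∀ (ℓ : ℕ) (hℓ : ℓ.Prime) (hℓM : ¬ ℓ ∣ M) (hℓS : ℓ ∉ (↑S : Set ℕ)),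
          ∀ A : ValuationSubring (AlgebraicClosure ℚ), A.LiesOverPrime ℓ →
            ∀ σ : AlgebraicClosure ℚ ≃ₐ[ℚ] AlgebraicClosure ℚ, A.IsFrobeniusAt σ ℓ →
              LinearMap.charpoly (ρ.ρ σ) =
                X ^ 2 - C (algebraMap O' O'' ((iota.comp chig.rangeRestrict) (CuspForm.heckeAlgebra.T hℓ hℓM hℓS))) * X
                  + C ((ℓ : O''))) ∧
        (∀ q : ℕ, q.Prime → q ≠ lam → M.factorization q = 2 → ¬ ρ.IsUnipotentOnInertiaAt q) :=
  s36g67_result_of_new_inv (s36i62b_pkg_new hNew) (s36i62b_pkg_inv hInv)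
    hg lam S O' hlamO' chig hchig iota hlamS hMS

/-- **TOP-LEVEL ASSEMBLY**: the frozen statement S36 from P-NEW, P-CORE36, P-FD36 and P-LEVEL36
(function-field form). -/
theorem s36i62b_top (hNew : pna32_Pkg_New) (hCore : s36i62_Pkg_Core)
    (hFD : s36i62_Pkg_FieldDef) (hLevel : s36i62_Pkg_LevelFF)
    {M : ℕ} [NeZero M] {g : CuspForm (CongruenceSubgroup.Gamma0 M) 2} (hg : g.IsNewform)
    (lam : ℕ) [Fact lam.Prime]
    (S : Finset ℕ)
    (O' : Type) [CommRing O'] [IsDomain O'] [IsDiscreteValuationRing O']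
    [IsAdicComplete (IsLocalRing.maximalIdeal O') O'] [Finite (IsLocalRing.ResidueField O')]
    [CharZero O'] (hlamO' : (lam : O') ∈ IsLocalRing.maximalIdeal O')
    (chig : CuspForm.heckeAlgebra M 2 (↑S : Set ℕ) →+* ℂ)
    (hchig : ∀ (ℓ : ℕ) (hℓ : ℓ.Prime) (hℓM : ¬ ℓ ∣ M) (hℓS : ℓ ∉ (↑S : Set ℕ)),
      chig (CuspForm.heckeAlgebra.T hℓ hℓM hℓS) = ModularFormClass.qCoeff g ℓ)
    (iota : chig.range →+* O')
    (hlamS : lam ∈ S) (hMS : ∀ q : ℕ, q.Prime → q ∣ M → q ∈ S) :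
    ∃ (O'' : Type) (_ : CommRing O'') (_ : IsDomain O'') (_ : IsDiscreteValuationRing O'')
      (_ : IsAdicComplete (IsLocalRing.maximalIdeal O'') O'') (_ : Finite (IsLocalRing.ResidueField O''))
      (_ : CharZero O'') (_ : Algebra O' O'') (_ : Module.Finite O' O'') (_ : IsLocalHom (algebraMap O' O'')),
      Function.Injective (algebraMap O' O'') ∧
      ∃ ρ : GaloisRepAdic O'',
        (∀ (ℓ : ℕ) (hℓ : ℓ.Prime) (hℓM : ¬ ℓ ∣ M) (hℓS : ℓ ∉ (↑S : Set ℕ)),
          ∀ A : ValuationSubring (AlgebraicClosure ℚ), A.LiesOverPrime ℓ →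
            ∀ σ : AlgebraicClosure ℚ ≃ₐ[ℚ] AlgebraicClosure ℚ, A.IsFrobeniusAt σ ℓ →
              LinearMap.charpoly (ρ.ρ σ) =
                X ^ 2 - C (algebraMap O' O'' ((iota.comp chig.rangeRestrict) (CuspForm.heckeAlgebra.T hℓ hℓM hℓS))) * X
                  + C ((ℓ : O''))) ∧
        (∀ q : ℕ, q.Prime → q ≠ lam → M.factorization q = 2 → ¬ ρ.IsUnipotentOnInertiaAt q) :=
  s36i62b_top_of_inv hNew
    (fun N q p hq hp hpq h2 => s36i62_assembly hCore hFD hLevel N q p hq hp hpq h2)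
    hg lam S O' hlamO' chig hchig iota hlamS hMS

/-- **TOP-LEVEL ASSEMBLY**, class-level level change (`s36i62_Pkg_LevelJac`). -/
theorem s36i62b_top_jac (hNew : pna32_Pkg_New) (hCore : s36i62_Pkg_Core)
    (hFD : s36i62_Pkg_FieldDef) (hLevel : s36i62_Pkg_LevelJac)
    {M : ℕ} [NeZero M] {g : CuspForm (CongruenceSubgroup.Gamma0 M) 2} (hg : g.IsNewform)
    (lam : ℕ) [Fact lam.Prime]
    (S : Finset ℕ)
    (O' : Type) [CommRing O'] [IsDomain O'] [IsDiscreteValuationRing O']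
    [IsAdicComplete (IsLocalRing.maximalIdeal O') O'] [Finite (IsLocalRing.ResidueField O')]
    [CharZero O'] (hlamO' : (lam : O') ∈ IsLocalRing.maximalIdeal O')
    (chig : CuspForm.heckeAlgebra M 2 (↑S : Set ℕ) →+* ℂ)
    (hchig : ∀ (ℓ : ℕ) (hℓ : ℓ.Prime) (hℓM : ¬ ℓ ∣ M) (hℓS : ℓ ∉ (↑S : Set ℕ)),
      chig (CuspForm.heckeAlgebra.T hℓ hℓM hℓS) = ModularFormClass.qCoeff g ℓ)
    (iota : chig.range →+* O')
    (hlamS : lam ∈ S) (hMS : ∀ q : ℕ, q.Prime → q ∣ M → q ∈ S) :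
    ∃ (O'' : Type) (_ : CommRing O'') (_ : IsDomain O'') (_ : IsDiscreteValuationRing O'')
      (_ : IsAdicComplete (IsLocalRing.maximalIdeal O'') O'') (_ : Finite (IsLocalRing.ResidueField O''))
      (_ : CharZero O'') (_ : Algebra O' O'') (_ : Module.Finite O' O'') (_ : IsLocalHom (algebraMap O' O'')),
      Function.Injective (algebraMap O' O'') ∧
      ∃ ρ : GaloisRepAdic O'',
        (∀ (ℓ : ℕ) (hℓ : ℓ.Prime) (hℓM : ¬ ℓ ∣ M) (hℓS : ℓ ∉ (↑S : Set ℕ)),
          ∀ A : ValuationSubring (AlgebraicClosure ℚ), A.LiesOverPrime ℓ →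
            ∀ σ : AlgebraicClosure ℚ ≃ₐ[ℚ] AlgebraicClosure ℚ, A.IsFrobeniusAt σ ℓ →
              LinearMap.charpoly (ρ.ρ σ) =
                X ^ 2 - C (algebraMap O' O'' ((iota.comp chig.rangeRestrict) (CuspForm.heckeAlgebra.T hℓ hℓM hℓS))) * X
                  + C ((ℓ : O''))) ∧
        (∀ q : ℕ, q.Prime → q ≠ lam → M.factorization q = 2 → ¬ ρ.IsUnipotentOnInertiaAt q) :=
  s36i62b_top_of_inv hNew
    (fun N q p hq hp hpq h2 => s36i62_assembly_jac hCore hFD hLevel N q p hq hp hpq h2)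
    hg lam S O' hlamO' chig hchig iota hlamS hMS

end Fermat.Agent.S36
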