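import Mathlib
import Fermat.Agent.S18.FieldDef27

/-!
# S36 lab, row 587 (LVL-descent), sub-part (4) (helper29): descent of the field of constants

Laurent-series form, no Galois averaging, no finiteness of the constant field extension.

* `id29_mem_of_coeffMap_mem` : for fields `φ : K0 →+* K1` with `K1` algebraic over `K0`:
  a Laurent series `y` over `K0` whose image over `K1` lies in `F_{K1}(M)` lies in `F_{K0}(M)`.
  (`F_{K1}(M)` is spanned over the image of `F_{K0}(M)` by the constants `K1`; apply a
  `K0`-linear retraction `K1 → K0` coefficientwise.)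
* `id29_coeff_mem` : a Laurent series over `ℚ̄` fixed (coefficientwise) by every
  `σ ∈ Gal(ℚ̄/ℚ)` that fixes `K0` pointwise has coefficients in `K0`.
* `id29_descent`, `id29_descent_iota` : an element of `F_{ℚ̄}(M)` fixed by every such `σ`
  comes from `F_{K0}(M)` (`fd27_iota` form for `arithmeticRingAut`).
-/

set_option autoImplicit false
set_option linter.unusedSectionVars false
set_option linter.style.longLine false
set_option linter.style.haveILetI false

open ModularCurve IntermediateField

namespace Fermat.Agent.S36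

open Fermat.Agent.S18

local notation "Qbar" => AlgebraicClosure ℚ

/-- **Descent of constants, Laurent-series form.** `K1` algebraic over `K0` (via `φ`): if the
image over `K1` of a Laurent series `y` over `K0` lies in `F_{K1}(M)`, then `y ∈ F_{K0}(M)`. -/
theorem id29_mem_of_coeffMap_mem {K0 K1 : Type*} [Field K0] [Field K1] (φ : K0 →+* K1)
    (halg : ∀ c : K1, ∃ p : Polynomial K0, p ≠ 0 ∧ p.eval₂ φ c = 0) (M : ℕ)
    (y : LaurentSeries K0) (h : coeffMap φ y ∈ modularFunctionFieldFullC K1 M) :
    y ∈ modularFunctionFieldFullC K0 M := by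
  classical
  letI : Algebra K0 K1 := φ.toAlgebra
  let ψ : ↥(modularFunctionFieldFullC K0 M) →+* LaurentSeries K1 :=
    (coeffMap φ).comp (modularFunctionFieldFullC K0 M).toSubring.subtype
  letI : Algebra ↥(modularFunctionFieldFullC K0 M) (LaurentSeries K1) := ψ.toAlgebra
  have hψ : ∀ a : ↥(modularFunctionFieldFullC K0 M),
      algebraMap ↥(modularFunctionFieldFullC K0 M) (LaurentSeries K1) a =
        coeffMap φ (a : LaurentSeries K0) := fun _ => rfl
  -- Step 1: `F_{K1}(M)` is inside the field generated over the image of `F_{K0}(M)` by `K1`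
  have hE : ∀ x : LaurentSeries K1, x ∈ modularFunctionFieldFullC K1 M →
      x ∈ IntermediateField.adjoin ↥(modularFunctionFieldFullC K0 M)
        (Set.range (algebraMap K1 (LaurentSeries K1))) := by
    intro x hx
    unfold modularFunctionFieldFullC at hx
    induction hx using IntermediateField.adjoin_induction with
    | mem z hz =>
      obtain ⟨d, hne, hd, rfl⟩ := hz
      have := hne
      have h1 : coeffMap φ (qExpand K0 d (jqModC K0)) = qExpand K1 d (jqModC K1) :=
        coeffMap_jqNModC φ d
      rw [← h1]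
      exact IntermediateField.algebraMap_mem _
        (⟨qExpand K0 d (jqModC K0), jqModCd_mem_full K0 M hd⟩ :
          ↥(modularFunctionFieldFullC K0 M))
    | algebraMap c => exact IntermediateField.subset_adjoin _ _ ⟨c, rfl⟩
    | add x y _ _ hx hy => exact add_mem hx hy
    | inv x _ hx => exact inv_mem hx
    | mul x y _ _ hx hy => exact mul_mem hx hy
  -- Step 2: the constants are algebraic over the image of `F_{K0}(M)`
  have halg' : ∀ z ∈ Set.range (algebraMap K1 (LaurentSeries K1)),
      IsAlgebraic ↥(modularFunctionFieldFullC K0 M) z := by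
    rintro _ ⟨c, rfl⟩
    obtain ⟨p, hp0, hpc⟩ := halg c
    refine ⟨p.map (algebraMap K0 ↥(modularFunctionFieldFullC K0 M)),
      (Polynomial.map_ne_zero_iff (algebraMap K0 ↥(modularFunctionFieldFullC K0 M)).injective).mpr hp0, ?_⟩
    rw [Polynomial.aeval_def, Polynomial.eval₂_map]
    have hcomp : (algebraMap ↥(modularFunctionFieldFullC K0 M) (LaurentSeries K1)).comp
        (algebraMap K0 ↥(modularFunctionFieldFullC K0 M)) =
        (algebraMap K1 (LaurentSeries K1)).comp φ := by
      ext1 a
      show coeffMap φ (algebraMap K0 (LaurentSeries K0) a) = algebraMap K1 (LaurentSeries K1) (φ a)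
      exact fd27_coeffMap_algebraMap φ a
    rw [hcomp, ← Polynomial.hom_eval₂, hpc, map_zero]
  -- Step 3: hence that field is the span of the constants
  have hspan : ∀ x : LaurentSeries K1, x ∈ modularFunctionFieldFullC K1 M →
      x ∈ Submodule.span ↥(modularFunctionFieldFullC K0 M)
        (Set.range (algebraMap K1 (LaurentSeries K1))) := by
    intro x hx
    have h1 := hE x hx
    rw [← IntermediateField.mem_toSubalgebra,
      IntermediateField.adjoin_toSubalgebra_of_isAlgebraic halg', ← Subalgebra.mem_toSubmodule,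
      Algebra.adjoin_eq_span] at h1
    have h2 : (Submonoid.closure (Set.range (algebraMap K1 (LaurentSeries K1))) : Set (LaurentSeries K1)) =
        Set.range (algebraMap K1 (LaurentSeries K1)) := by
      have h3 : Submonoid.closure (Set.range (algebraMap K1 (LaurentSeries K1))) =
          (algebraMap K1 (LaurentSeries K1)).range.toSubmonoid := by
        apply le_antisymm
        · rw [Submonoid.closure_le]
          rintro _ ⟨c, rfl⟩
          exact ⟨c, rfl⟩
        · rintro _ ⟨c, rfl⟩
          exact Submonoid.subset_closure ⟨c, rfl⟩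
      rw [h3]
      ext z
      constructor
      · rintro ⟨c, rfl⟩
        exact ⟨c, rfl⟩
      · rintro ⟨c, rfl⟩
        exact ⟨c, rfl⟩
    rw [h2] at h1
    exact h1
  -- Step 4: a `K0`-linear retraction of `φ`
  obtain ⟨lam, hlam⟩ := LinearMap.exists_leftInverse_of_injective (Algebra.linearMap K0 K1)
    (LinearMap.ker_eq_bot.mpr φ.injective)
  have hlam1 : ∀ a : K0, lam (φ a) = a := fun a => by
    have h0 : lam (algebraMap K0 K1 a) = a := by
      have := congrArg (fun g : K0 →ₗ[K0] K0 => g a) hlam
      simpa using this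
    exact h0
  have hlam2 : ∀ (a : K0) (c : K1), lam (φ a * c) = a * lam c := fun a c => by
    have h1 : φ a * c = a • c := (Algebra.smul_def a c).symm
    rw [h1, map_smul, smul_eq_mul]
  -- Step 5: compare coefficients
  obtain ⟨w, hw⟩ := (Finsupp.mem_span_range_iff_exists_finsupp).mp (hspan _ h)
  have hy : y = ∑ c ∈ w.support, algebraMap K0 (LaurentSeries K0) (lam c) *
      ((w c : ↥(modularFunctionFieldFullC K0 M)) : LaurentSeries K0) := by
    ext n
    rw [HahnSeries.coeff_sum]
    have h1 : (coeffMap φ y).coeff n = ∑ c ∈ w.support, φ (((w c : ↥(modularFunctionFieldFullC K0 M)) : LaurentSeries K0).coeff n) * c := by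
      rw [← hw, Finsupp.sum, HahnSeries.coeff_sum]
      refine Finset.sum_congr rfl fun c _ => ?_
      rw [Algebra.smul_def, hψ, algebraMap_laurentSeries_eq_single, HahnSeries.coeff_mul_single_zero,
        coeffMap_coeff]
    have h2 := congrArg lam h1
    rw [coeffMap_coeff, hlam1, map_sum] at h2
    rw [h2]
    refine Finset.sum_congr rfl fun c _ => ?_
    rw [hlam2, algebraMap_laurentSeries_eq_single, HahnSeries.coeff_single_zero_mul, mul_comm]
  rw [hy]
  exact sum_mem fun c _ => mul_mem (IntermediateField.algebraMap_mem _ _) (w c).2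

/-- A Laurent series over `ℚ̄` that is fixed coefficientwise by every `σ ∈ Gal(ℚ̄/ℚ)` fixing
`K0` pointwise has all its coefficients in `K0`. -/
theorem id29_coeff_mem (K0 : IntermediateField ℚ Qbar) (x : LaurentSeries Qbar)
    (hfix : ∀ σ : Qbar ≃ₐ[ℚ] Qbar, (∀ c ∈ K0, σ c = c) →
      coeffMap (σ : Qbar →+* Qbar) x = x) (n : ℤ) : x.coeff n ∈ K0 := by
  haveI : IsAlgClosure ℚ Qbar := ⟨inferInstance, AlgebraicClosure.isAlgebraic ℚ⟩
  haveI : IsGalois ℚ Qbar := IsAlgClosure.isGalois ℚ Qbar
  rw [← InfiniteGalois.fixedField_fixingSubgroup K0, IntermediateField.mem_fixedField_iff]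
  intro σ hσ
  have h1 := hfix σ (fun c hc => (IntermediateField.mem_fixingSubgroup_iff K0 σ).mp hσ c hc)
  have h2 := congrArg (fun z : LaurentSeries Qbar => z.coeff n) h1
  simpa using h2

/-- **Sub-part (4) of the descent**: an element of `F_{ℚ̄}(M)` fixed by every `σ ∈ Gal(ℚ̄/ℚ)`
that fixes `K0` pointwise comes from `F_{K0}(M)`. -/
theorem id29_descent (K0 : IntermediateField ℚ Qbar) (M : ℕ) (x : LaurentSeries Qbar)
    (hx : x ∈ modularFunctionFieldBar M)
    (hfix : ∀ σ : Qbar ≃ₐ[ℚ] Qbar, (∀ c ∈ K0, σ c = c) →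
      coeffMap (σ : Qbar →+* Qbar) x = x) :
    ∃ y : LaurentSeries K0, y ∈ modularFunctionFieldFullC K0 M ∧
      coeffMap (algebraMap K0 Qbar) y = x := by
  obtain ⟨y, hy⟩ := fd27_exists_coeffMap_eq (algebraMap K0 Qbar) (algebraMap K0 Qbar).injective x
    (fun n => ⟨⟨x.coeff n, id29_coeff_mem K0 x hfix n⟩, rfl⟩)
  refine ⟨y, ?_, hy⟩
  refine id29_mem_of_coeffMap_mem (algebraMap K0 Qbar) ?_ M y ?_
  · intro c
    have hc : IsAlgebraic K0 c :=
      (((AlgebraicClosure.isAlgebraic ℚ).isAlgebraic c).tower_top K0)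
    obtain ⟨p, hp0, hp⟩ := hc
    exact ⟨p, hp0, by rwa [Polynomial.aeval_def] at hp⟩
  · rw [hy, ← fd27_bar_eq]
    exact hx

/-- The same in the `fd27_iota` / `arithmeticRingAut` form (the shape of `ji17_FFInv`). -/
theorem id29_descent_iota (K0 : IntermediateField ℚ Qbar) (M : ℕ)
    (f : ↥(modularFunctionFieldBar M))
    (hfix : ∀ σ : Qbar ≃ₐ[ℚ] Qbar, (∀ c ∈ K0, σ c = c) →
      arithmeticRingAut (modularFunctionFieldFull M) σ f = f) :
    ∃ y : ↥(modularFunctionFieldFullC K0 M), fd27_iota (algebraMap K0 Qbar) M y = f := by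
  obtain ⟨y, hy, hyx⟩ := id29_descent K0 M (f : LaurentSeries Qbar) f.2 (fun σ hσ => by
    have h1 := congrArg (fun z : ↥(modularFunctionFieldBar M) => (z : LaurentSeries Qbar)) (hfix σ hσ)
    exact h1)
  exact ⟨⟨y, hy⟩, Subtype.ext hyx⟩

end Fermat.Agent.S36
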