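import Fermat.Agent.S36.KappaMod56
import Fermat.Agent.S36.KappaDvd40
import Fermat.Agent.S36.RedHom19

/-!
# S36 lab, row C-REGq (helper40): the reduced `U`-relation inside the DVR of the `∞`-branch at a
node, and the divisibility `ϖ ^ 12 ∣ Ū`

* `kb40_dvd` (abstract).  `O` a discrete valuation ring with an INJECTIVE ring hom
  `ψ : O →+* κ((Q))` (`κ` a field of characteristic `q`), constants `c : κ →+* O` with
  `ψ (c x) = x`, elements `jj U0 : O` with `ψ jj = jqModC κ`, `ψ U0 = dq56_U κ q`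
  (the reductions of `J` and of `U = Δ(Q)/Δ(Q^q)`), `U0` a non-unit, `ϖ` a uniformizer, and the
  rigidity divisibilities at the elliptic values (`ϖ ^ 3 ∣ jj`, `ϖ ^ 2 ∣ jj - 1728` for
  `q ≠ 2, 3`; `ϖ ^ 6 ∣ jj` for `q = 3`; `ϖ ^ 12 ∣ jj` for `q = 2`; each only when the left side
  is a non-unit).  Then `ϖ ^ 12 ∣ U0`.
  Proof: `km56_reduced` + `km56_U_rel` pulled back along `ψ` give
  `U0 · N₀(jj)^6 = S₀(jj)^12 · (jj^4 (jj - 1728)^3)^(q-1)`.  If `S₀(jj)` is a non-unit the claim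
  is immediate (`N₀(jj)` is then a unit by the two Bezout relations).  Otherwise `jj` or
  `jj - 1728` is a non-unit and `k1d40_at_zero / at_1728 / char_three / char_two` apply.
* `kb40_transfer` : a divisibility `φ z ^ k ∣ φ u` in one DVR-valued hom `φ : B → O` whose
  elements are fractions passes to every other hom `ι : B → O'` with the same kernel inverting
  the complement of `n`.
* `kb40_chart` : chart language.  From `rh19_Red π B V ρ` (the reduction hom of RedHom19), the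
  reductions `ρ aJ = ρ sJ · j̄`, `ρ U = ρ sU · Ū`, and the rigidity divisibilities for every
  DVR-valued hom of `bd40_exists_dvr` shape, the hypothesis `hdata` of `nf40_node`:
  `ι y ^ 12 ∣ ι U` for EVERY `(O, ι)` as in `bd40_exists_dvr`.
* `kb40_rig_pow`, `kb40_rig_six` : the rigidity divisibilities from root data in the chart.

All names are prefixed `kb40_`.
-/

set_option autoImplicit false
set_option linter.overlappingInstances false

open ModularCurve Polynomial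

universe u

namespace Fermat.Agent.S36

open Fermat.Agent.S34 Fermat.Agent.S28

/-- Polynomial values pulled back along `ψ`. -/
theorem kb40_psi_eval {O κ : Type*} [CommRing O] [Field κ]
    (c : κ →+* O) (ψ : O →+* LaurentSeries κ)
    (hψc : ∀ x : κ, ψ (c x) = algebraMap κ (LaurentSeries κ) x)
    (jj : O) (hj : ψ jj = jqModC κ) (P : κ[X]) :
    ψ (Polynomial.eval₂ c jj P) = aeval (jqModC κ) P := by
  have hcomp : ψ.comp c = algebraMap κ (LaurentSeries κ) := RingHom.ext hψc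
  rw [Polynomial.hom_eval₂, hj, aeval_def, hcomp]

theorem kb40_j_ne_zero (κ : Type*) [Field κ] : jqModC κ ≠ 0 := by
  intro h0
  apply h63_transcendental_jqModC κ
  exact ⟨X, X_ne_zero, by rw [aeval_X, h0]⟩

theorem kb40_j_sub_ne_zero (κ : Type*) [Field κ] : jqModC κ - 1728 ≠ 0 := by
  intro h0
  apply h63_transcendental_jqModC κ
  refine ⟨X - C (1728 : κ), X_sub_C_ne_zero _, ?_⟩
  rw [map_sub, aeval_X, aeval_C, map_ofNat]
  exact h0

/-- **The divisibility `ϖ ^ 12 ∣ Ū` at a node**, all cases. -/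
theorem kb40_dvd {O κ : Type*} [CommRing O] [IsDomain O] [IsDiscreteValuationRing O] [Field κ]
    (q : ℕ) (hq : q.Prime) [CharP κ q]
    (c : κ →+* O) (ψ : O →+* LaurentSeries κ) (hψ : Function.Injective ψ)
    (hψc : ∀ x : κ, ψ (c x) = algebraMap κ (LaurentSeries κ) x)
    (jj U0 : O) (hj : ψ jj = jqModC κ) (hU : ψ U0 = dq56_U κ q) (hUn : ¬ IsUnit U0)
    (ϖ : O) (hϖ : Irreducible ϖ)
    (hR3 : q ≠ 2 → q ≠ 3 → ¬ IsUnit jj → ϖ ^ 3 ∣ jj)
    (hR2 : q ≠ 2 → q ≠ 3 → ¬ IsUnit (jj - 1728) → ϖ ^ 2 ∣ jj - 1728)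
    (hR6 : q = 3 → ¬ IsUnit jj → ϖ ^ 6 ∣ jj)
    (hR12 : q = 2 → ¬ IsUnit jj → ϖ ^ 12 ∣ jj) : ϖ ^ 12 ∣ U0 := by
  classical
  obtain ⟨P₀, S₀, a, b, c', d, hab, hcd, hred⟩ := km56_reduced κ q hq
  obtain ⟨N₀, hN₀⟩ : ∃ N₀ : κ[X],
      N₀ = derivative P₀ * S₀ - P₀ * derivative S₀ + X ^ (q - 1) * S₀ ^ 2 := ⟨_, rfl⟩
  rw [← hN₀] at hred
  have hrelL := km56_U_rel κ q hq (aeval (jqModC κ) S₀) (aeval (jqModC κ) N₀) hred
  obtain ⟨φ, hφdef⟩ : ∃ φ : κ[X] →+* O, φ = Polynomial.eval₂RingHom c jj := ⟨_, rfl⟩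
  have hφe : ∀ P : κ[X], φ P = Polynomial.eval₂ c jj P := fun P => by rw [hφdef]; rfl
  have hφ : ∀ P : κ[X], ψ (φ P) = aeval (jqModC κ) P := fun P => by
    rw [hφe]; exact kb40_psi_eval c ψ hψc jj hj P
  have hφX : φ X = jj := by rw [hφe, eval₂_X]
  have hφY : φ (X - C (1728 : κ)) = jj - 1728 := by
    rw [hφe, eval₂_sub, eval₂_X, eval₂_C, map_ofNat]
  have hW : ψ (φ (X ^ 4 * (X - C (1728 : κ)) ^ 3)) =
      jqModC κ ^ 4 * (jqModC κ - 1728) ^ 3 := by
    rw [hφ, map_mul, map_pow, map_pow, map_sub, aeval_X, aeval_C, map_ofNat]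
  have hrel : U0 * φ N₀ ^ 6 = φ S₀ ^ 12 * φ (X ^ 4 * (X - C (1728 : κ)) ^ 3) ^ (q - 1) := by
    apply hψ
    rw [map_mul, map_pow, map_mul, map_pow, map_pow, hU, hφ, hφ, hW]
    exact hrelL
  have hjj0 : jj ≠ 0 := by
    intro h0
    rw [h0, map_zero] at hj
    exact kb40_j_ne_zero κ hj.symm
  have hjj1 : jj - 1728 ≠ 0 := by
    intro h0
    have h1 : ψ (jj - 1728) = jqModC κ - 1728 := by rw [map_sub, hj, map_ofNat]
    rw [h0, map_zero] at h1
    exact kb40_j_sub_ne_zero κ h1.symm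
  by_cases hSu : IsUnit (φ S₀)
  · -- elliptic node
    have hS0 : φ S₀ ≠ 0 := hSu.ne_zero
    have hWn : ¬ IsUnit (φ (X ^ 4 * (X - C (1728 : κ)) ^ 3)) := by
      intro hWu
      have h1 : IsUnit (U0 * φ N₀ ^ 6) := hrel ▸ (hSu.pow 12).mul (hWu.pow (q - 1))
      exact hUn (isUnit_of_mul_isUnit_left h1)
    have hor : ¬ IsUnit jj ∨ ¬ IsUnit (jj - 1728) := by
      by_contra hcon
      rw [not_or, not_not, not_not] at hcon
      apply hWn
      rw [map_mul, map_pow, map_pow, hφX, hφY]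
      exact (hcon.1.pow 4).mul (hcon.2.pow 3)
    by_cases h2 : q = 2
    · subst h2
      have h1728 : (1728 : κ) = 0 := by
        have h : ((1728 : ℕ) : κ) = 0 := (CharP.cast_eq_zero_iff κ 2 1728).mpr (by norm_num)
        exact_mod_cast h
      have h1728O : (1728 : O) = 0 := by
        have := congrArg c h1728
        rwa [map_ofNat, map_zero] at this
      have hjn : ¬ IsUnit jj := by
        rcases hor with h | h
        · exact h
        · rwa [h1728O, sub_zero] at h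
      exact k1d40_char_two φ h1728 ϖ hϖ U0 hUn S₀ N₀ hS0 hrel (by rwa [hφX])
        (by rw [hφX]; exact hR12 rfl hjn)
    by_cases h3 : q = 3
    · subst h3
      have h1728 : (1728 : κ) = 0 := by
        have h : ((1728 : ℕ) : κ) = 0 := (CharP.cast_eq_zero_iff κ 3 1728).mpr (by norm_num)
        exact_mod_cast h
      have h1728O : (1728 : O) = 0 := by
        have := congrArg c h1728
        rwa [map_ofNat, map_zero] at this
      have hjn : ¬ IsUnit jj := by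
        rcases hor with h | h
        · exact h
        · rwa [h1728O, sub_zero] at h
      exact k1d40_char_three φ h1728 ϖ hϖ U0 hUn S₀ N₀ hS0 hrel (by rwa [hφX])
        (by rw [hφX]; exact hR6 rfl hjn)
    have h1728 : (1728 : κ) ≠ 0 := by
      intro h0
      have h : ((1728 : ℕ) : κ) = 0 := by exact_mod_cast h0
      have hdvd : q ∣ 1728 := (CharP.cast_eq_zero_iff κ q 1728).mp h
      have h1 : (1728 : ℕ) = 2 ^ 6 * 3 ^ 3 := by norm_num
      rw [h1] at hdvd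
      rcases (Nat.Prime.dvd_mul hq).mp hdvd with h | h
      · exact h2 ((Nat.prime_dvd_prime_iff_eq hq Nat.prime_two).mp (hq.dvd_of_dvd_pow h))
      · exact h3 ((Nat.prime_dvd_prime_iff_eq hq Nat.prime_three).mp (hq.dvd_of_dvd_pow h))
    have hq2 : q % 2 = 1 := by
      rcases hq.eq_two_or_odd with h | h
      · exact absurd h h2
      · exact h
    have hq3 : q % 3 ≠ 0 := by
      intro h
      exact h3 ((Nat.prime_dvd_prime_iff_eq Nat.prime_three hq).mp (Nat.dvd_of_mod_eq_zero h)).symm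
    rcases hor with hjn | hjn
    · exact k1d40_at_zero φ q hq3 h1728 ϖ hϖ U0 hUn S₀ N₀ hS0 hrel (by rwa [hφX])
        (by rw [hφX]; exact hR3 h2 h3 hjn)
    · exact k1d40_at_1728 φ q hq2 h1728 ϖ hϖ U0 hUn S₀ N₀ hS0 hrel (by rwa [hφY])
        (by rw [hφY]; exact hR2 h2 h3 hjn)
  · -- `S₀(jj)` is a non-unit: `N₀(jj)` is a unit
    have hSm : φ S₀ ∈ IsLocalRing.maximalIdeal O := (IsLocalRing.mem_maximalIdeal _).mpr hSu
    have hϖS : ϖ ∣ φ S₀ := by
      have hm : IsLocalRing.maximalIdeal O = Ideal.span {ϖ} :=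
        (IsDiscreteValuationRing.irreducible_iff_uniformizer ϖ).mp hϖ
      rw [hm] at hSm
      exact Ideal.mem_span_singleton.mp hSm
    have hunit_of : ∀ x y z : O, x * φ S₀ + y * z = 1 → IsUnit z := by
      intro x y z h
      have h1 : y * z = 1 - x * φ S₀ := by rw [← h]; ring
      have h2 : IsUnit (1 - x * φ S₀) :=
        IsLocalRing.isUnit_one_sub_self_of_mem_nonunits _
          ((IsLocalRing.mem_maximalIdeal _).mp
            ((IsLocalRing.maximalIdeal O).mul_mem_left x hSm))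
      rw [← h1] at h2
      exact isUnit_of_mul_isUnit_right h2
    have hS'u : IsUnit (φ (derivative S₀)) := by
      apply hunit_of (φ a) (φ b)
      rw [← map_mul, ← map_mul, ← map_add, hab, map_one]
    have hPu : IsUnit (φ P₀) := by
      apply hunit_of (φ d) (φ c')
      rw [← map_mul, ← map_mul, ← map_add, add_comm, hcd, map_one]
    have hNu : IsUnit (φ N₀) := by
      have hN : φ N₀ = φ S₀ * (φ (derivative P₀) + φ (X ^ (q - 1)) * φ S₀) +
          -(φ P₀ * φ (derivative S₀)) := by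
        rw [hN₀]
        simp only [map_add, map_sub, map_mul, map_pow]
        ring
      rw [hN]
      apply k1e40_isUnit_add
      · intro h
        exact hSu (isUnit_of_mul_isUnit_left h)
      · exact (hPu.mul hS'u).neg
    have h3 : ϖ ^ 12 ∣ U0 * φ N₀ ^ 6 := by
      rw [hrel]
      exact Dvd.dvd.mul_right (pow_dvd_pow_of_dvd hϖS 12) _
    exact ((hNu.pow 6).dvd_mul_right).mp h3

/-- **Transfer of a divisibility** from one DVR-valued hom whose elements are fractions to any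
other hom with (at least) the same kernel inverting the complement of `n`. -/
theorem kb40_transfer {B O O' : Type*} [CommRing B] [CommRing O] [CommRing O']
    (n P : Ideal B) (φ : B →+* O) (ι : B →+* O')
    (hφ0 : ∀ b : B, φ b = 0 → b ∈ P) (hι0 : ∀ b : B, b ∈ P → ι b = 0)
    (hιu : ∀ s : B, s ∉ n → IsUnit (ι s))
    (hsurj : ∀ x : O, ∃ a s : B, s ∉ n ∧ x * φ s = φ a)
    (z w : B) (k : ℕ) (h : φ z ^ k ∣ φ w) : ι z ^ k ∣ ι w := by
  obtain ⟨x, hx⟩ := h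
  obtain ⟨a, s, hs, hxs⟩ := hsurj x
  have h0 : φ (s * w - a * z ^ k) = 0 := by
    rw [map_sub, map_mul, map_mul, map_pow, hx, ← hxs]
    ring
  have h1 : ι (s * w - a * z ^ k) = 0 := hι0 _ (hφ0 _ h0)
  rw [map_sub, map_mul, map_mul, map_pow, sub_eq_zero] at h1
  obtain ⟨us, hus⟩ := hιu s hs
  refine ⟨(us⁻¹ : O'ˣ) * ι a, ?_⟩
  have h2 : ι w = (us⁻¹ : O'ˣ) * (ι s * ι w) := by
    rw [← hus, ← mul_assoc, Units.inv_mul, one_mul]
  rw [h2, h1]
  ring

/-- Rigidity divisibility from a root relation modulo the branch: `s · x ≡ a · b ^ k`,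
`s ∉ n`, `b ∈ n`. -/
theorem kb40_rig_pow {B O : Type*} [CommRing B] [CommRing O] [IsDomain O]
    [IsDiscreteValuationRing O] (n P : Ideal B) (φ : B →+* O)
    (hφ0 : ∀ b : B, b ∈ P → φ b = 0) (hφu : ∀ s : B, IsUnit (φ s) ↔ s ∉ n)
    (ϖ : O) (hϖ : Irreducible ϖ) (k : ℕ) (x s a b : B) (hs : s ∉ n) (hb : b ∈ n)
    (h : s * x - a * b ^ k ∈ P) : ϖ ^ k ∣ φ x := by
  have h1 := hφ0 _ h
  rw [map_sub, map_mul, map_mul, map_pow, sub_eq_zero] at h1
  have hbn : ¬ IsUnit (φ b) := fun hu => ((hφu b).mp hu) hb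
  have hϖb : ϖ ∣ φ b := by
    have hm : IsLocalRing.maximalIdeal O = Ideal.span {ϖ} :=
      (IsDiscreteValuationRing.irreducible_iff_uniformizer ϖ).mp hϖ
    have hmem : φ b ∈ IsLocalRing.maximalIdeal O := (IsLocalRing.mem_maximalIdeal _).mpr hbn
    rw [hm] at hmem
    exact Ideal.mem_span_singleton.mp hmem
  have h2 : ϖ ^ k ∣ φ s * φ x := by
    rw [h1]
    exact Dvd.dvd.mul_left (pow_dvd_pow_of_dvd hϖb k) _
  exact (((hφu s).mpr hs).dvd_mul_left).mp h2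

/-- Rigidity divisibility in characteristic `3`: a cube relation and a square relation with unit
coefficients for the same non-unit `x` give `ϖ ^ 6 ∣ φ x`. -/
theorem kb40_rig_six {B O : Type*} [CommRing B] [CommRing O] [IsDomain O]
    [IsDiscreteValuationRing O] (n P : Ideal B) (φ : B →+* O)
    (hφ0 : ∀ b : B, b ∈ P → φ b = 0) (hφu : ∀ s : B, IsUnit (φ s) ↔ s ∉ n)
    (ϖ : O) (hϖ : Irreducible ϖ) (x : B) (hx : x ∈ n)
    (s₁ a₁ b₁ : B) (hs₁ : s₁ ∉ n) (ha₁ : a₁ ∉ n) (h₁ : s₁ * x - a₁ * b₁ ^ 3 ∈ P)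
    (s₂ a₂ b₂ : B) (hs₂ : s₂ ∉ n) (ha₂ : a₂ ∉ n) (h₂ : s₂ * x - a₂ * b₂ ^ 2 ∈ P) :
    ϖ ^ 6 ∣ φ x := by
  have e1 := hφ0 _ h₁
  have e2 := hφ0 _ h₂
  rw [map_sub, map_mul, map_mul, map_pow, sub_eq_zero] at e1 e2
  by_cases hx0 : φ x = 0
  · rw [hx0]; exact dvd_zero _
  have hb1 : φ b₁ ≠ 0 := by
    intro h0
    rw [h0, zero_pow (by norm_num), mul_zero] at e1
    exact hx0 ((mul_eq_zero.mp e1).resolve_left ((hφu s₁).mpr hs₁).ne_zero)
  have hb2 : φ b₂ ≠ 0 := by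
    intro h0
    rw [h0, zero_pow (by norm_num), mul_zero] at e2
    exact hx0 ((mul_eq_zero.mp e2).resolve_left ((hφu s₂).mpr hs₂).ne_zero)
  obtain ⟨m₁, hm₁⟩ := IsDiscreteValuationRing.associated_pow_irreducible hb1 hϖ
  obtain ⟨m₂, hm₂⟩ := IsDiscreteValuationRing.associated_pow_irreducible hb2 hϖ
  obtain ⟨v₁, hv₁⟩ := hm₁.symm
  obtain ⟨v₂, hv₂⟩ := hm₂.symm
  obtain ⟨us₁, hus₁⟩ := (hφu s₁).mpr hs₁
  obtain ⟨ua₁, hua₁⟩ := (hφu a₁).mpr ha₁
  obtain ⟨us₂, hus₂⟩ := (hφu s₂).mpr hs₂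
  obtain ⟨ua₂, hua₂⟩ := (hφu a₂).mpr ha₂
  -- `φ x = unit * ϖ ^ (3 m₁) = unit * ϖ ^ (2 m₂)`
  have f1 : φ x = ((us₁⁻¹ * ua₁ * v₁ ^ 3 : Oˣ) : O) * ϖ ^ (3 * m₁) := by
    have : φ x = (us₁⁻¹ : Oˣ) * (φ s₁ * φ x) := by
      rw [← hus₁, ← mul_assoc, Units.inv_mul, one_mul]
    rw [this, e1, ← hua₁, ← hv₁]
    push_cast
    ring
  have f2 : φ x = ((us₂⁻¹ * ua₂ * v₂ ^ 2 : Oˣ) : O) * ϖ ^ (2 * m₂) := by
    have : φ x = (us₂⁻¹ : Oˣ) * (φ s₂ * φ x) := by
      rw [← hus₂, ← mul_assoc, Units.inv_mul, one_mul]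
    rw [this, e2, ← hua₂, ← hv₂]
    push_cast
    ring
  have hm : 3 * m₁ = 2 * m₂ :=
    IsDiscreteValuationRing.unit_mul_pow_congr_pow hϖ hϖ _ _ _ _ (f1.symm.trans f2)
  have hpos : m₁ ≠ 0 := by
    intro h0
    have hxu : IsUnit (φ x) := by
      rw [f1, h0, mul_zero, pow_zero, mul_one]
      exact Units.isUnit _
    exact ((hφu x).mp hxu) hx
  have h6 : 6 ≤ 3 * m₁ := by omega
  rw [f1]
  exact Dvd.dvd.mul_left (pow_dvd_pow ϖ h6) _

section kb40_chart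

variable {R : Type*} [CommRing R] [IsLocalRing R] {F : Type u} [Field F] [Algebra R F]

/-- **The hypothesis `hdata` of `nf40_node` at a node of the level-`q` frame**, from the reduction
hom of RedHom19, the reductions of `J` and `U`, and the rigidity divisibilities. -/
theorem kb40_chart (q : ℕ) (hq : q.Prime) [CharP (IsLocalRing.ResidueField R) q]
    (π : R) (B : Subalgebra R F) (V : Subring F)
    (ρ : F → LaurentSeries (IsLocalRing.ResidueField R)) (hRed : rh19_Red π B V ρ)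
    (hρc : ∀ r : R, ρ (algebraMap R F r) =
      algebraMap (IsLocalRing.ResidueField R) (LaurentSeries (IsLocalRing.ResidueField R))
        (IsLocalRing.residue R r))
    (P : Ideal B) (hP : ∀ x : B, x ∈ P ↔ (algebraMap R F π)⁻¹ * (x : F) ∈ V)
    (n : Ideal B) [hn : n.IsPrime] (hPn : P ≤ n)
    (y : B) (hyn : y ∈ n) (hyP : y ∉ P)
    (hunif : ∀ x ∈ n, ∃ s : B, s ∉ n ∧ ∃ a : B, s * x - a * y ∈ P)
    (sJ aJ : B) (hsJ : sJ ∉ n)
    (hρJ : ρ (aJ : F) = ρ (sJ : F) * jqModC (IsLocalRing.ResidueField R))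
    (U sU : B) (hsU : sU ∉ n)
    (hρU : ρ (U : F) = ρ (sU : F) * dq56_U (IsLocalRing.ResidueField R) q) (hUn : U ∈ n)
    (hrig : ∀ (O : Type u) [CommRing O] [IsDomain O] [IsDiscreteValuationRing O] (φ : B →+* O),
      (∀ x : B, φ x = 0 ↔ x ∈ P) → (∀ s : B, IsUnit (φ s) ↔ s ∉ n) → Irreducible (φ y) →
        (q ≠ 2 → q ≠ 3 → aJ ∈ n → φ y ^ 3 ∣ φ aJ) ∧
        (q ≠ 2 → q ≠ 3 → aJ - 1728 * sJ ∈ n → φ y ^ 2 ∣ φ (aJ - 1728 * sJ)) ∧
        (q = 3 → aJ ∈ n → φ y ^ 6 ∣ φ aJ) ∧ (q = 2 → aJ ∈ n → φ y ^ 12 ∣ φ aJ)) :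
    ∀ (O : Type u) [CommRing O] [IsDomain O] [IsDiscreteValuationRing O] (ι : B →+* O),
      (∀ x : B, ι x = 0 ↔ x ∈ P) → (∀ s : B, IsUnit (ι s) ↔ s ∉ n) → Irreducible (ι y) →
        ι y ^ 12 ∣ ι U := by
  intro O' _ _ _ ι hι0 hιu _
  have hOn : sf79_OnBr π B V n := fun x hx => hPn ((hP x).mpr hx)
  have hne : ∃ z ∈ n, (algebraMap R F π)⁻¹ * (z : F) ∉ V :=
    ⟨y, hyn, fun h => hyP ((hP y).mpr h)⟩
  obtain ⟨O, iC, iD, iV, φ, ψ, c, hinj, hcomp, hunit, hzero, hsurj, hirr, hc⟩ :=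
    hRed n hn hOn hne
  have hzero' : ∀ x : B, φ x = 0 ↔ x ∈ P := fun x => (hzero x).trans (hP x).symm
  have hyU : sf79_Unif π B V n y := by
    refine ⟨hyn, fun x hx => ?_⟩
    obtain ⟨s, hs, a, ha⟩ := hunif x hx
    refine ⟨s, hs, a, ?_⟩
    have := (hP _).mp ha
    simpa using this
  have hϖ : Irreducible (φ y) := hirr y hyU
  have hψc : ∀ x : IsLocalRing.ResidueField R, ψ (c x) =
      algebraMap (IsLocalRing.ResidueField R) (LaurentSeries (IsLocalRing.ResidueField R)) x := by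
    intro x
    obtain ⟨r, rfl⟩ := IsLocalRing.residue_surjective x
    rw [hc r, hcomp, ← hρc r]
    rfl
  obtain ⟨uJ, huJ⟩ := (hunit sJ).mpr hsJ
  obtain ⟨uU, huU⟩ := (hunit sU).mpr hsU
  have hψ0 : ∀ s : B, s ∉ n → ψ (φ s) ≠ 0 := by
    intro s hs h0
    have h1 : φ s = 0 := hinj (by rw [h0, map_zero])
    exact ((hunit s).mpr hs).ne_zero h1
  -- the elements `jj`, `U0` of `O`
  have hjjs : (φ aJ * (uJ⁻¹ : Oˣ)) * φ sJ = φ aJ := by
    rw [← huJ, mul_assoc, Units.inv_mul, mul_one]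
  have hU0s : (φ U * (uU⁻¹ : Oˣ)) * φ sU = φ U := by
    rw [← huU, mul_assoc, Units.inv_mul, mul_one]
  have hj : ψ (φ aJ * (uJ⁻¹ : Oˣ)) = jqModC (IsLocalRing.ResidueField R) := by
    apply mul_right_cancel₀ (hψ0 sJ hsJ)
    rw [← map_mul, hjjs, hcomp, hcomp, hρJ, mul_comm]
  have hU : ψ (φ U * (uU⁻¹ : Oˣ)) = dq56_U (IsLocalRing.ResidueField R) q := by
    apply mul_right_cancel₀ (hψ0 sU hsU)
    rw [← map_mul, hU0s, hcomp, hcomp, hρU, mul_comm]
  have hUnn : ¬ IsUnit (φ U * (uU⁻¹ : Oˣ)) := by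
    intro h
    have h1 : IsUnit (φ U) := by
      rw [← hU0s]
      exact h.mul ((hunit sU).mpr hsU)
    exact ((hunit U).mp h1) hUn
  obtain ⟨r3, r2, r6, r12⟩ := hrig O φ hzero' hunit hϖ
  have hjn : ¬ IsUnit (φ aJ * (uJ⁻¹ : Oˣ)) → aJ ∈ n := by
    intro h
    by_contra hcon
    exact h (((hunit aJ).mpr hcon).mul (Units.isUnit _))
  have hsub : φ aJ * (uJ⁻¹ : Oˣ) - 1728 = φ (aJ - 1728 * sJ) * (uJ⁻¹ : Oˣ) := by
    rw [map_sub, map_mul, map_ofNat, sub_mul, ← huJ, mul_assoc, Units.mul_inv, mul_one]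
  have hjn' : ¬ IsUnit (φ aJ * (uJ⁻¹ : Oˣ) - 1728) → aJ - 1728 * sJ ∈ n := by
    intro h
    by_contra hcon
    apply h
    rw [hsub]
    exact ((hunit _).mpr hcon).mul (Units.isUnit _)
  have hmain : φ y ^ 12 ∣ φ U * (uU⁻¹ : Oˣ) :=
    kb40_dvd q hq c ψ hinj hψc _ _ hj hU hUnn (φ y) hϖ
      (fun h2 h3 h => Dvd.dvd.mul_right (r3 h2 h3 (hjn h)) _)
      (fun h2 h3 h => by rw [hsub]; exact Dvd.dvd.mul_right (r2 h2 h3 (hjn' h)) _)
      (fun h3 h => Dvd.dvd.mul_right (r6 h3 (hjn h)) _)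
      (fun h2 h => Dvd.dvd.mul_right (r12 h2 (hjn h)) _)
  have hφU : φ y ^ 12 ∣ φ U := by
    rw [← hU0s]
    exact Dvd.dvd.mul_right hmain _
  exact kb40_transfer n P φ ι (fun b hb => (hzero' b).mp hb) (fun b hb => (hι0 b).mpr hb)
    (fun s hs => (hιu s).mpr hs) hsurj y U 12 hφU

end kb40_chart

end Fermat.Agent.S36
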