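import Fermat.Agent.S34.FrameLSInf7
import Fermat.Agent.S35.NewToricFrame35
import Fermat.Agent.S36.BranchRam19
import Fermat.Agent.S36.RedHom19

/-!
# S36 lab, row C-REGq, sub-part (helper19), instance: the reduction hom onto the DVR of the
`∞`-branch at a closed point of the canonical charts, inside `κ((Q))`

* `rhi19_dedekind_gen` : for `B' = pk15_chart R S₀` (good level `M'`), `B = pk15_chart R (ι '' S₀)`
  (level `M`) and a valuation subring `V` of `F(M)_K` with uniformizer `s` of residue degree one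
  over the Gauss ring of level `M'`: `B ⊆ V` and `B ⧸ (B ∩ s V)` is a DEDEKIND DOMAIN
  (`bb19_main`).
* `rhi19_red_level2/3` : **(RED)** `rh19_Red π B V_∞ (ntf35_red R M)` for both affine charts
  `{h}`, `{h⁻¹}` of the Hauptmodul of level `p₀` at level `M` (`M' ∣ M`, `M'` a good level,
  `bi93_F1 M' M`): at every prime `n` of `B` on the `∞`-branch and different from it there are a
  DISCRETE VALUATION RING `O`, `φ : B →+* O`, an INJECTIVE `ψ : O →+* κ((Q))` with
  `ψ (φ b) = ntf35_red R M b` (the reduction of the `q`-expansion), `IsUnit (φ b) ↔ b ∉ n`,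
  `φ b = 0 ↔ π⁻¹ b ∈ V_∞`, `φ z` irreducible for every `sf79_Unif` coordinate `z`, and residue
  constants `c : κ →+* O`.
* `rhi19_red_q_level2/3` : the same at level `M' * q`, `q ∤ M'` (`fl7_F1`).

All names are prefixed `rhi19_`.
-/

set_option autoImplicit false
set_option linter.unusedSectionVars false
set_option linter.style.haveILetI false

open ModularCurve IntermediateField Polynomial

namespace Fermat.Agent.S36

open Fermat.Agent.S18 Fermat.Agent.S24 Fermat.Agent.S34 Fermat.Agent.S35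

local notation "Q̄" => AlgebraicClosure ℚ

section gen

variable {R K : Type} [CommRing R] [IsDomain R] [IsDiscreteValuationRing R] [Field K] [CharZero K]
  [Algebra R K] [IsFractionRing R K]
  (M' M : ℕ) [NeZero M'] [NeZero M]
  [Algebra R ↥(modularFunctionFieldFullC K M')]
  [IsScalarTower R K ↥(modularFunctionFieldFullC K M')]
  [Algebra R ↥(modularFunctionFieldFullC K M)]
  [IsScalarTower R K ↥(modularFunctionFieldFullC K M)]

/-- **The branch `B ⧸ (B ∩ s V)` is a Dedekind domain** (charts `B' = pk15_chart R S₀` at the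
good level `M'`, `B = pk15_chart R (ι '' S₀)` at level `M`; `V` any valuation subring of
`F(M)_K` with uniformizer `s`, of residue degree one over the Gauss ring of level `M'`). -/
theorem rhi19_dedekind_gen (hdvd : M' ∣ M) {π : R} (hπ : Irreducible π)
    (S₀ : Set ↥(modularFunctionFieldFullC K M'))
    (hS₀V : ∀ g ∈ S₀, g ∈ cm85_Vinf (K := K) M' hπ)
    (hsat : cm15_Sat R π S₀ (cm85_Vinf (K := K) M' hπ).toSubring)
    (hfrac : ∀ x : ↥(modularFunctionFieldFullC K M'),
      ∃ a ∈ pk15_chart R S₀, ∃ b ∈ pk15_chart R S₀, b ≠ 0 ∧ x * b = a)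
    [IsDedekindDomain (pk15_chart R S₀ ⧸ Ideal.span {algebraMap R (pk15_chart R S₀) π})]
    (V : ValuationSubring ↥(modularFunctionFieldFullC K M))
    (s : ↥(modularFunctionFieldFullC K M))
    (hV'V : ∀ y ∈ cm85_Vinf (K := K) M' hπ, cm15_incl K M' M hdvd y ∈ V)
    (hsV : s⁻¹ ∉ V) (hmaxV : ∀ x ∈ V, x⁻¹ ∉ V → s⁻¹ * x ∈ V)
    (hsπ : s⁻¹ * algebraMap R ↥(modularFunctionFieldFullC K M) π ∈ V)
    (hf1 : ∀ x ∈ V, ∃ b ∈ cm85_Vinf (K := K) M' hπ,
      s⁻¹ * (x - cm15_incl K M' M hdvd b) ∈ V) :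
    ∃ hBV : ∀ x ∈ pk15_chart R ((cm15_incl K M' M hdvd) '' S₀), x ∈ V.toSubring,
      IsDedekindDomain (↥(pk15_chart R ((cm15_incl K M' M hdvd) '' S₀)) ⧸
        bi99_branch (pk15_chart R ((cm15_incl K M' M hdvd) '' S₀)) V.toSubring s hBV) := by
  classical
  let j : ↥(pk15_chart R S₀) →+* ↥(modularFunctionFieldFullC K M') :=
    (pk15_chart R S₀).val.toRingHom
  let ϖ : ↥(pk15_chart R S₀) := algebraMap R ↥(pk15_chart R S₀) π
  let ι : ↥(modularFunctionFieldFullC K M') →+* ↥(modularFunctionFieldFullC K M) :=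
    (cm15_incl K M' M hdvd).toRingHom
  have hjϖ : j ϖ = algebraMap R ↥(modularFunctionFieldFullC K M') π := rfl
  have hιϖ : ι (algebraMap R ↥(modularFunctionFieldFullC K M') π) =
      algebraMap R ↥(modularFunctionFieldFullC K M) π :=
    wi18_incl_algebraMap M' M hdvd π
  have hconv' : algebraMap R ↥(modularFunctionFieldFullC K M') π =
      algebraMap K ↥(modularFunctionFieldFullC K M') (algebraMap R K π) :=
    IsScalarTower.algebraMap_apply R K ↥(modularFunctionFieldFullC K M') π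
  have hπ0' : algebraMap R ↥(modularFunctionFieldFullC K M') π ≠ 0 := by
    rw [hconv']
    intro h0
    have h1 : algebraMap R K π = 0 :=
      (map_eq_zero (algebraMap K ↥(modularFunctionFieldFullC K M'))).mp h0
    exact hπ.ne_zero ((map_eq_zero_iff _ (IsFractionRing.injective R K)).mp h1)
  -- `B' ⊆ V'`
  have hB'V' : ∀ x ∈ pk15_chart R S₀, x ∈ (cm85_Vinf (K := K) M' hπ).toSubring := fun x hx =>
    pk15_chart_le_V (cm85_Vinf (K := K) M' hπ) (pk85_hRV M' hπ) S₀ hS₀V x hx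
  have hBV' : ∀ b : ↥(pk15_chart R S₀), j b ∈ cm85_Vinf (K := K) M' hπ := fun b =>
    hB'V' b b.2
  have hsat' : ∀ b : ↥(pk15_chart R S₀), (j ϖ)⁻¹ * j b ∈ cm85_Vinf (K := K) M' hπ →
      ∃ e : ↥(pk15_chart R S₀), b = ϖ * e := by
    intro b hb
    have h1 := hsat (b : ↥(modularFunctionFieldFullC K M')) b.2 hb
    refine ⟨⟨_, h1⟩, Subtype.ext ?_⟩
    show (b : ↥(modularFunctionFieldFullC K M')) =
      algebraMap R ↥(modularFunctionFieldFullC K M') π *
        ((algebraMap R ↥(modularFunctionFieldFullC K M') π)⁻¹ * b)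
    rw [← mul_assoc, mul_inv_cancel₀ hπ0', one_mul]
  have hfrac' : ∀ c : ↥(modularFunctionFieldFullC K M'),
      ∃ a d : ↥(pk15_chart R S₀), j d ≠ 0 ∧ c * j d = j a := by
    intro c
    obtain ⟨a, ha, d, hd, hd0, hcd⟩ := hfrac c
    exact ⟨⟨a, ha⟩, ⟨d, hd⟩, hd0, hcd⟩
  have hfracV := bi93_frac j ϖ (cm85_Vinf (K := K) M' hπ) hπ0' hBV' hsat'
    (fun y hy => wi18_arch M' hπ y hy) hfrac'
  -- `V'` is the localization of `B'` at the branch
  have hloc' : ∀ v ∈ (cm85_Vinf (K := K) M' hπ).toSubring, ∃ a ∈ pk15_chart R S₀,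
      ∃ a' ∈ pk15_chart R S₀,
        (algebraMap R ↥(modularFunctionFieldFullC K M') π)⁻¹ * a' ∉
          (cm85_Vinf (K := K) M' hπ).toSubring ∧ a' * v = a := by
    intro v hv
    obtain ⟨a, d, hd, hcd⟩ := hfracV v hv
    exact ⟨a, a.2, d, d.2, hd, by rw [mul_comm]; exact hcd⟩
  -- `π` is a uniformizer of `V'`
  have hmax' : ∀ y ∈ (cm85_Vinf (K := K) M' hπ).toSubring,
      (algebraMap R ↥(modularFunctionFieldFullC K M') π)⁻¹ * y ∉
        (cm85_Vinf (K := K) M' hπ).toSubring → y⁻¹ ∈ (cm85_Vinf (K := K) M' hπ).toSubring := by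
    intro y hy hy'
    by_contra hcon
    apply hy'
    rw [hconv']
    exact gv85_hmax (IsLocalRing.residue R) π (pk85_res_iff hπ) hπ.ne_zero _ _ y hy hcon
  have hV'V' : ∀ y ∈ (cm85_Vinf (K := K) M' hπ).toSubring, ι y ∈ V.toSubring := hV'V
  have hsq : s⁻¹ * ι (algebraMap R ↥(modularFunctionFieldFullC K M') π) ∈ V.toSubring := by
    rw [hιϖ]
    exact hsπ
  have hVV' : ∀ y ∈ (cm85_Vinf (K := K) M' hπ).toSubring, s⁻¹ * ι y ∈ V.toSubring →
      (algebraMap R ↥(modularFunctionFieldFullC K M') π)⁻¹ * y ∈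
        (cm85_Vinf (K := K) M' hπ).toSubring := fun y hy h =>
    bb19_contract (cm85_Vinf (K := K) M' hπ).toSubring _ ι V.toSubring s hmax' hV'V' hsV y hy h
  have hVs : ∀ x ∈ V.toSubring, s⁻¹ * x ∉ V.toSubring → x⁻¹ ∈ V.toSubring := by
    intro x hx h
    by_contra hcon
    exact h (hmaxV x hx hcon)
  -- `R ⊆ V` and `B ⊆ V`
  have hRV : ∀ r : R, algebraMap R ↥(modularFunctionFieldFullC K M) r ∈ V := by
    intro r
    rw [← wi18_incl_algebraMap M' M hdvd r]
    exact hV'V _ (pk85_hRV M' hπ r)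
  have hBV : ∀ x ∈ pk15_chart R ((cm15_incl K M' M hdvd) '' S₀), x ∈ V.toSubring := by
    refine pk15_chart_le_V V hRV _ ?_
    rintro _ ⟨g, hg, rfl⟩
    exact hV'V g (hS₀V g hg)
  -- the image of `B'` lies in `B`
  have himg : ∀ b' : ↥(pk15_chart R S₀), (ι.comp j) b' ∈
      pk15_chart R ((cm15_incl K M' M hdvd) '' S₀) := by
    intro b'
    obtain ⟨p, hp, hpb⟩ := (pk15_mem_chart S₀ (b' : ↥(modularFunctionFieldFullC K M'))).mp b'.2
    refine (cm15_mem_chart_image ((cm15_incl K M' M hdvd).restrictScalars R) S₀ _).mpr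
      ⟨p, hp, ?_⟩
    have h1 := Polynomial.hom_eval₂ p (algebraMap (Algebra.adjoin R S₀)
      ↥(modularFunctionFieldFullC K M')) ι (b' : ↥(modularFunctionFieldFullC K M'))
    have h2 : Polynomial.eval₂ (algebraMap (Algebra.adjoin R S₀)
        ↥(modularFunctionFieldFullC K M')) (b' : ↥(modularFunctionFieldFullC K M')) p = 0 := hpb
    rw [h2, map_zero] at h1
    exact h1.symm
  let α : ↥(pk15_chart R S₀) →+* ↥(pk15_chart R ((cm15_incl K M' M hdvd) '' S₀)) :=
    (ι.comp j).codRestrict (pk15_chart R ((cm15_incl K M' M hdvd) '' S₀)) himg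
  have hα : ∀ b' : ↥(pk15_chart R S₀),
      ((α b' : ↥(pk15_chart R ((cm15_incl K M' M hdvd) '' S₀))) :
        ↥(modularFunctionFieldFullC K M)) = ι (b' : ↥(modularFunctionFieldFullC K M')) :=
    fun _ => rfl
  -- `B` is integral over `α B'`
  have hle : Algebra.adjoin R S₀ ≤ pk15_chart R S₀ :=
    Algebra.adjoin_le fun y hy => pk15_subset_chart S₀ hy
  let θ : ↥(Algebra.adjoin R S₀) →+* ↥(pk15_chart R S₀) := (Subalgebra.inclusion hle).toRingHom
  have hint : α.IsIntegral := by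
    intro x
    obtain ⟨p0, hp0, hp0x⟩ :=
      (cm15_mem_chart_image ((cm15_incl K M' M hdvd).restrictScalars R) S₀
        (x : ↥(modularFunctionFieldFullC K M))).mp x.2
    refine ⟨p0.map θ, hp0.map θ, ?_⟩
    apply Subtype.ext
    have h1 := Polynomial.hom_eval₂ (p0.map θ) α
      (pk15_chart R ((cm15_incl K M' M hdvd) '' S₀)).val.toRingHom x
    have h2 : (pk15_chart R ((cm15_incl K M' M hdvd) '' S₀)).val.toRingHom
        (Polynomial.eval₂ α x (p0.map θ)) =
        ((Polynomial.eval₂ α x (p0.map θ) : ↥(pk15_chart R ((cm15_incl K M' M hdvd) '' S₀))) :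
          ↥(modularFunctionFieldFullC K M)) := rfl
    rw [← h2, h1, Polynomial.eval₂_map]
    exact hp0x
  -- residue degree one on `B`
  have hres : ∀ x ∈ pk15_chart R ((cm15_incl K M' M hdvd) '' S₀),
      ∃ b ∈ (cm85_Vinf (K := K) M' hπ).toSubring, s⁻¹ * (x - ι b) ∈ V.toSubring :=
    fun x hx => hf1 x (hBV x hx)
  -- the branch ideal of `B'`
  have hI : ∀ x : ↥(pk15_chart R S₀), x ∈ Ideal.span {ϖ} ↔
      (algebraMap R ↥(modularFunctionFieldFullC K M') π)⁻¹ *
        (x : ↥(modularFunctionFieldFullC K M')) ∈ (cm85_Vinf (K := K) M' hπ).toSubring := by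
    intro x
    constructor
    · intro hx
      obtain ⟨e, rfl⟩ := Ideal.mem_span_singleton'.mp hx
      have h1 : (algebraMap R ↥(modularFunctionFieldFullC K M') π)⁻¹ *
          ((e * ϖ : ↥(pk15_chart R S₀)) : ↥(modularFunctionFieldFullC K M')) =
          (e : ↥(modularFunctionFieldFullC K M')) := by
        show (algebraMap R ↥(modularFunctionFieldFullC K M') π)⁻¹ *
          ((e : ↥(modularFunctionFieldFullC K M')) *
            algebraMap R ↥(modularFunctionFieldFullC K M') π) = _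
        rw [mul_comm (e : ↥(modularFunctionFieldFullC K M')), ← mul_assoc,
          inv_mul_cancel₀ hπ0', one_mul]
      rw [h1]
      exact hB'V' e e.2
    · intro hx
      obtain ⟨e, he⟩ := hsat' x hx
      rw [he]
      exact Ideal.mul_mem_right _ _ (Ideal.mem_span_singleton_self ϖ)
  have hmain := bb19_main (pk15_chart R S₀) (cm85_Vinf (K := K) M' hπ).toSubring
    (algebraMap R ↥(modularFunctionFieldFullC K M') π) ι
    (pk15_chart R ((cm15_incl K M' M hdvd) '' S₀)) V.toSubring hB'V' (Ideal.span {ϖ}) hI hloc'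
    s hBV hsV hVs hV'V' hsq hVV' α hα hint hres
    (bi99_branch (pk15_chart R ((cm15_incl K M' M hdvd) '' S₀)) V.toSubring s hBV)
    (bi99_mem_branch (pk15_chart R ((cm15_incl K M' M hdvd) '' S₀)) V.toSubring s hBV)
  exact ⟨hBV, hmain.1⟩

/-- **(RED), generic chart**: `B = pk15_chart R (ι '' S₀)` at level `M` along the `∞`-branch
`V_∞ = cm85_Vinf M`, reduction `ntf35_red R M` into `κ((Q))`. -/
theorem rhi19_red_gen (hdvd : M' ∣ M) {π : R} (hπ : Irreducible π)
    (S₀ : Set ↥(modularFunctionFieldFullC K M'))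
    (hS₀V : ∀ g ∈ S₀, g ∈ cm85_Vinf (K := K) M' hπ)
    (hsat : cm15_Sat R π S₀ (cm85_Vinf (K := K) M' hπ).toSubring)
    (hfrac : ∀ x : ↥(modularFunctionFieldFullC K M'),
      ∃ a ∈ pk15_chart R S₀, ∃ b ∈ pk15_chart R S₀, b ≠ 0 ∧ x * b = a)
    [IsDedekindDomain (pk15_chart R S₀ ⧸ Ideal.span {algebraMap R (pk15_chart R S₀) π})]
    (hf1 : bi93_F1 (K := K) M' M hdvd hπ) :
    rh19_Red π (pk15_chart R ((cm15_incl K M' M hdvd) '' S₀))
      (cm85_Vinf (K := K) M hπ).toSubring (ntf35_red R M) := by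
  have hconv : algebraMap R ↥(modularFunctionFieldFullC K M) π =
      algebraMap K ↥(modularFunctionFieldFullC K M) (algebraMap R K π) :=
    IsScalarTower.algebraMap_apply R K ↥(modularFunctionFieldFullC K M) π
  have hπ0 : algebraMap R ↥(modularFunctionFieldFullC K M) π ≠ 0 := by
    rw [hconv]
    intro h0
    have h1 : algebraMap R K π = 0 :=
      (map_eq_zero (algebraMap K ↥(modularFunctionFieldFullC K M))).mp h0
    exact hπ.ne_zero ((map_eq_zero_iff _ (IsFractionRing.injective R K)).mp h1)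
  have hsV : (algebraMap R ↥(modularFunctionFieldFullC K M) π)⁻¹ ∉ cm85_Vinf (K := K) M hπ := by
    rw [hconv]
    exact gv85_pi_inv_not_mem (IsLocalRing.residue R) π (pk85_res_iff hπ) hπ.ne_zero _ _
  have hmaxV : ∀ x ∈ cm85_Vinf (K := K) M hπ, x⁻¹ ∉ cm85_Vinf (K := K) M hπ →
      (algebraMap R ↥(modularFunctionFieldFullC K M) π)⁻¹ * x ∈ cm85_Vinf (K := K) M hπ := by
    intro x hx hx'
    rw [hconv]
    exact gv85_hmax (IsLocalRing.residue R) π (pk85_res_iff hπ) hπ.ne_zero _ _ x hx hx'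
  have hsπ : (algebraMap R ↥(modularFunctionFieldFullC K M) π)⁻¹ *
      algebraMap R ↥(modularFunctionFieldFullC K M) π ∈ cm85_Vinf (K := K) M hπ := by
    rw [inv_mul_cancel₀ hπ0]
    exact (cm85_Vinf (K := K) M hπ).one_mem
  obtain ⟨hBV, hD⟩ := rhi19_dedekind_gen M' M hdvd hπ S₀ hS₀V hsat hfrac
    (cm85_Vinf (K := K) M hπ) (algebraMap R ↥(modularFunctionFieldFullC K M) π)
    (fun y hy => wi18_incl_mem M' M hdvd hπ y hy) hsV hmaxV hsπ hf1
  haveI := hD
  refine rh19_exists_chart π (pk15_chart R ((cm15_incl K M' M hdvd) '' S₀))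
    (cm85_Vinf (K := K) M hπ).toSubring hBV (ntf35_red R M) (ntf35_red_one M)
    (fun x hx y hy => ntf35_red_mul M hπ x y hx hy)
    (fun x hx y hy => ntf35_red_add M hπ x y hx hy) ?_ ?_
  · intro x hx
    rw [hconv]
    exact ntf35_red_eq_zero_iff M hπ x hx
  · intro r hr
    rw [Irreducible.maximalIdeal_eq hπ, Ideal.mem_span_singleton] at hr
    obtain ⟨r', rfl⟩ := hr
    rw [map_mul, ← mul_assoc, inv_mul_cancel₀ hπ0, one_mul]
    exact pk85_hRV M hπ r'

variable [Algebra K Q̄] [Algebra.IsAlgebraic K Q̄]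

/-- **(RED), level 2**: both affine charts of `h = pk85_h2 K M` at level `M`, along the
`∞`-branch. -/
theorem rhi19_red_level2 (hdvd : M' ∣ M) {π : R} (hπ : Irreducible π) (h2 : 2 ∣ M')
    (hMu : IsUnit (M' : R)) (hf1 : bi93_F1 (K := K) M' M hdvd hπ) :
    rh19_Red π (pk15_chart R {pk85_h2 K M (h2.trans hdvd)})
        (cm85_Vinf (K := K) M hπ).toSubring (ntf35_red R M) ∧
      rh19_Red π (pk15_chart R {(pk85_h2 K M (h2.trans hdvd))⁻¹})
        (cm85_Vinf (K := K) M hπ).toSubring (ntf35_red R M) := by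
  obtain ⟨-, -, -, -, hhV, hhV', -, -, -, -, hfrac₁, hfrac₂, -⟩ :=
    cm85_facts_level2 (R := R) (K := K) M' hπ h2
  obtain ⟨hs₁, hs₂, -⟩ := cm15_base_sat_level2 (R := R) (K := K) M' hπ h2 hMu
  obtain ⟨⟨hD₁, -⟩, ⟨hD₂, -⟩⟩ := sm79_level2 (R := R) K M' hπ hMu h2
  have hh : cm15_incl K M' M hdvd (pk85_h2 K M' h2) = pk85_h2 K M (h2.trans hdvd) :=
    Subtype.ext (cm15_incl_coe M' M hdvd _)
  haveI : IsDedekindDomain (↥(pk15_chart R ({pk85_h2 K M' h2} :
      Set ↥(modularFunctionFieldFullC K M'))) ⧸ Ideal.span {algebraMap R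
        ↥(pk15_chart R ({pk85_h2 K M' h2} : Set ↥(modularFunctionFieldFullC K M'))) π}) := hD₁
  haveI : IsDedekindDomain (↥(pk15_chart R ({(pk85_h2 K M' h2)⁻¹} :
      Set ↥(modularFunctionFieldFullC K M'))) ⧸ Ideal.span {algebraMap R
        ↥(pk15_chart R ({(pk85_h2 K M' h2)⁻¹} : Set ↥(modularFunctionFieldFullC K M'))) π}) :=
    hD₂
  have k₁ := rhi19_red_gen M' M hdvd hπ ({pk85_h2 K M' h2} : Set ↥(modularFunctionFieldFullC K M'))
    (fun g hg => by rw [Set.mem_singleton_iff.mp hg]; exact hhV) hs₁ hfrac₁ hf1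
  have k₂ := rhi19_red_gen M' M hdvd hπ
    ({(pk85_h2 K M' h2)⁻¹} : Set ↥(modularFunctionFieldFullC K M'))
    (fun g hg => by rw [Set.mem_singleton_iff.mp hg]; exact hhV') hs₂ hfrac₂ hf1
  rw [Set.image_singleton, hh] at k₁
  rw [Set.image_singleton, map_inv₀, hh] at k₂
  exact ⟨k₁, k₂⟩

/-- **(RED), level 3**. -/
theorem rhi19_red_level3 (hdvd : M' ∣ M) {π : R} (hπ : Irreducible π) (h3 : 3 ∣ M')
    (hMu : IsUnit (M' : R)) (hf1 : bi93_F1 (K := K) M' M hdvd hπ) :
    rh19_Red π (pk15_chart R {pk85_h3 K M (h3.trans hdvd)})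
        (cm85_Vinf (K := K) M hπ).toSubring (ntf35_red R M) ∧
      rh19_Red π (pk15_chart R {(pk85_h3 K M (h3.trans hdvd))⁻¹})
        (cm85_Vinf (K := K) M hπ).toSubring (ntf35_red R M) := by
  obtain ⟨-, -, -, -, hhV, hhV', -, -, -, -, hfrac₁, hfrac₂, -⟩ :=
    cm85_facts_level3 (R := R) (K := K) M' hπ h3
  obtain ⟨hs₁, hs₂, -⟩ := cm15_base_sat_level3 (R := R) (K := K) M' hπ h3 hMu
  obtain ⟨⟨hD₁, -⟩, ⟨hD₂, -⟩⟩ := sm79_level3 (R := R) K M' hπ hMu h3
  have hh : cm15_incl K M' M hdvd (pk85_h3 K M' h3) = pk85_h3 K M (h3.trans hdvd) :=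
    Subtype.ext (cm15_incl_coe M' M hdvd _)
  haveI : IsDedekindDomain (↥(pk15_chart R ({pk85_h3 K M' h3} :
      Set ↥(modularFunctionFieldFullC K M'))) ⧸ Ideal.span {algebraMap R
        ↥(pk15_chart R ({pk85_h3 K M' h3} : Set ↥(modularFunctionFieldFullC K M'))) π}) := hD₁
  haveI : IsDedekindDomain (↥(pk15_chart R ({(pk85_h3 K M' h3)⁻¹} :
      Set ↥(modularFunctionFieldFullC K M'))) ⧸ Ideal.span {algebraMap R
        ↥(pk15_chart R ({(pk85_h3 K M' h3)⁻¹} : Set ↥(modularFunctionFieldFullC K M'))) π}) :=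
    hD₂
  have k₁ := rhi19_red_gen M' M hdvd hπ ({pk85_h3 K M' h3} : Set ↥(modularFunctionFieldFullC K M'))
    (fun g hg => by rw [Set.mem_singleton_iff.mp hg]; exact hhV) hs₁ hfrac₁ hf1
  have k₂ := rhi19_red_gen M' M hdvd hπ
    ({(pk85_h3 K M' h3)⁻¹} : Set ↥(modularFunctionFieldFullC K M'))
    (fun g hg => by rw [Set.mem_singleton_iff.mp hg]; exact hhV') hs₂ hfrac₂ hf1
  rw [Set.image_singleton, hh] at k₁
  rw [Set.image_singleton, map_inv₀, hh] at k₂
  exact ⟨k₁, k₂⟩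

end gen

section levelq

variable {R K : Type} [CommRing R] [IsDomain R] [IsDiscreteValuationRing R] [Field K] [CharZero K]
  [Algebra R K] [IsFractionRing R K] [Algebra K Q̄] [Algebra.IsAlgebraic K Q̄]

/-- **(RED) at level `M' q`, level 2** (`q ∤ M'`): the canonical level-`q` frame. -/
theorem rhi19_red_q_level2 (M' q : ℕ) [NeZero M'] [NeZero q] (hq : q.Prime) (hM' : ¬ q ∣ M')
    [Algebra R ↥(modularFunctionFieldFullC K M')]
    [IsScalarTower R K ↥(modularFunctionFieldFullC K M')]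
    [Algebra R ↥(modularFunctionFieldFullC K (M' * q))]
    [IsScalarTower R K ↥(modularFunctionFieldFullC K (M' * q))]
    {π : R} (hπ : Irreducible π) (hqR : ¬ IsUnit (q : R)) (h2 : 2 ∣ M') (hMu : IsUnit (M' : R)) :
    rh19_Red π (pk15_chart R {pk85_h2 K (M' * q) (h2.trans (dvd_mul_right M' q))})
        (cm85_Vinf (K := K) (M' * q) hπ).toSubring (ntf35_red R (M' * q)) ∧
      rh19_Red π (pk15_chart R {(pk85_h2 K (M' * q) (h2.trans (dvd_mul_right M' q)))⁻¹})
        (cm85_Vinf (K := K) (M' * q) hπ).toSubring (ntf35_red R (M' * q)) :=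
  rhi19_red_level2 M' (M' * q) (dvd_mul_right M' q) hπ h2 hMu
    (fl7_F1 (R := R) (K := K) M' q hq hM' hπ hqR)

/-- **(RED) at level `M' q`, level 3** (`q ∤ M'`). -/
theorem rhi19_red_q_level3 (M' q : ℕ) [NeZero M'] [NeZero q] (hq : q.Prime) (hM' : ¬ q ∣ M')
    [Algebra R ↥(modularFunctionFieldFullC K M')]
    [IsScalarTower R K ↥(modularFunctionFieldFullC K M')]
    [Algebra R ↥(modularFunctionFieldFullC K (M' * q))]
    [IsScalarTower R K ↥(modularFunctionFieldFullC K (M' * q))]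
    {π : R} (hπ : Irreducible π) (hqR : ¬ IsUnit (q : R)) (h3 : 3 ∣ M') (hMu : IsUnit (M' : R)) :
    rh19_Red π (pk15_chart R {pk85_h3 K (M' * q) (h3.trans (dvd_mul_right M' q))})
        (cm85_Vinf (K := K) (M' * q) hπ).toSubring (ntf35_red R (M' * q)) ∧
      rh19_Red π (pk15_chart R {(pk85_h3 K (M' * q) (h3.trans (dvd_mul_right M' q)))⁻¹})
        (cm85_Vinf (K := K) (M' * q) hπ).toSubring (ntf35_red R (M' * q)) :=
  rhi19_red_level3 M' (M' * q) (dvd_mul_right M' q) hπ h3 hMu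
    (fl7_F1 (R := R) (K := K) M' q hq hM' hπ hqR)

end levelq

end Fermat.Agent.S36
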