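import Fermat.Agent.S36.KappaBind40
import Fermat.Agent.S36.RedHomInst19
import Fermat.Agent.S34.DeltaQuot56b

/-!
# S36 lab, row C-REGq (helper40): `kb40_chart` at the canonical level-`q` frame

The three reduction facts for `ρ = ntf35_red R M` (the reduction of `q`-expansions along the
Gauss valuation `V_∞ = cm85_Vinf M`):

* `kbi40_red_integral` : `ρ x = coeffMap res y` when the `q`-expansion of `x` is the image of
  the integral series `y`;
* `kbi40_red_J`     : `ρ J = jqModC κ`;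
* `kbi40_red_U`     : `ρ (dq56b_U M' q) = dq56_U κ q`;
* `kbi40_red_const` : `ρ r = residue r` (in the `algebraMap R F` form);

and the instance

* `kbi40_hdata` : for ANY chart `B ⊆ V_∞` of `F_K(M' q)` with `rh19_Red π B V_∞ ρ`
  (`rhi19_red_q_level2/3`), a prime `n` on the `∞`-branch with coordinate `y`, `J` and
  `U = dq56b_U` regular at `n` (`sJ · J = aJ`, `sU · U = Ub`, `sJ, sU ∉ n`), `Ub ∈ n`, and the
  rigidity divisibilities: the hypothesis `hdata` of `nf40_node` —
  `ι y ^ 12 ∣ ι Ub` for EVERY `(O, ι)` as in `bd40_exists_dvr`.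

All names are prefixed `kbi40_`.
-/

set_option autoImplicit false
set_option linter.overlappingInstances false
set_option linter.unusedSectionVars false

open ModularCurve Polynomial

namespace Fermat.Agent.S36

open Fermat.Agent.S18 Fermat.Agent.S28 Fermat.Agent.S34 Fermat.Agent.S35

section kbi40

variable {R K : Type} [CommRing R] [IsDomain R] [IsDiscreteValuationRing R] [Field K]
  [Algebra R K] [IsFractionRing R K]

/-- The reduction of an element with integral `q`-expansion. -/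
theorem kbi40_red_integral (M : ℕ) [NeZero M] (x : ↥(modularFunctionFieldFullC K M))
    (y : LaurentSeries R) (hxy : (x : LaurentSeries K) = coeffMap (algebraMap R K) y) :
    ntf35_red R M x = coeffMap (IsLocalRing.residue R) y := by
  have h : (x : LaurentSeries K) ∈ tv84_G K (IsLocalRing.residue R) :=
    ⟨1, y, by rw [map_one]; exact one_ne_zero, by rw [map_one, one_mul, hxy]⟩
  rw [ntf35_red, ntf35_redS_of_mem h]
  exact tv84_red_of_integral (IsLocalRing.residue R) ⟨_, h⟩ y hxy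

/-- `ρ J = j̄`. -/
theorem kbi40_red_J (M : ℕ) [NeZero M] :
    ntf35_red R M (rm90_j K M) = jqModC (IsLocalRing.ResidueField R) := by
  rw [kbi40_red_integral M (rm90_j K M) (jqModC R) (coeffMap_jqModC (algebraMap R K)).symm,
    coeffMap_jqModC]

/-- `ρ U = Ū`. -/
theorem kbi40_red_U [CharZero K] [Algebra K (AlgebraicClosure ℚ)] (M' q : ℕ) [NeZero M']
    [NeZero q] (hq : q.Prime) :
    ntf35_red R (M' * q) (dq56b_U (K := K) M' q hq) =
      dq56_U (IsLocalRing.ResidueField R) q := by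
  rw [kbi40_red_integral (M' * q) (dq56b_U (K := K) M' q hq) (dq56_U R q)
    (dq56b_U_coe M' q hq (algebraMap R K)), dq56_coeffMap_U]

theorem kbi40_algebraMap_eq_C (κ : Type*) [Field κ] (c : κ) :
    algebraMap κ (LaurentSeries κ) c = HahnSeries.C c := by
  have h1 : algebraMap κ (PowerSeries κ) c = PowerSeries.C c := by simp
  rw [HahnSeries.algebraMap_apply', h1, HahnSeries.ofPowerSeries_C]

/-- The reduction of a constant, `algebraMap R F` form. -/
theorem kbi40_red_const (M : ℕ) [NeZero M] [Algebra R ↥(modularFunctionFieldFullC K M)]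
    [IsScalarTower R K ↥(modularFunctionFieldFullC K M)] (r : R) :
    ntf35_red R M (algebraMap R ↥(modularFunctionFieldFullC K M) r) =
      algebraMap (IsLocalRing.ResidueField R) (LaurentSeries (IsLocalRing.ResidueField R))
        (IsLocalRing.residue R r) := by
  rw [IsScalarTower.algebraMap_apply R K ↥(modularFunctionFieldFullC K M), ntf35_red_algebraMap,
    kbi40_algebraMap_eq_C]

/-- **`hdata` of `nf40_node` at a node of the canonical level-`q` frame.** -/
theorem kbi40_hdata [CharZero K] [Algebra K (AlgebraicClosure ℚ)] (M' q : ℕ) [NeZero M']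
    [NeZero q] (hq : q.Prime)
    [CharP (IsLocalRing.ResidueField R) q]
    [Algebra R ↥(modularFunctionFieldFullC K (M' * q))]
    [IsScalarTower R K ↥(modularFunctionFieldFullC K (M' * q))]
    {π : R} (hπ : Irreducible π)
    (B : Subalgebra R ↥(modularFunctionFieldFullC K (M' * q)))
    (hBV : ∀ x ∈ B, x ∈ cm85_Vinf (K := K) (M' * q) hπ)
    (hRed : rh19_Red π B (cm85_Vinf (K := K) (M' * q) hπ).toSubring (ntf35_red R (M' * q)))
    (P : Ideal B)
    (hP : ∀ x : B, x ∈ P ↔
      (algebraMap R ↥(modularFunctionFieldFullC K (M' * q)) π)⁻¹ *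
        (x : ↥(modularFunctionFieldFullC K (M' * q))) ∈
          (cm85_Vinf (K := K) (M' * q) hπ).toSubring)
    (n : Ideal B) [hn : n.IsPrime] (hPn : P ≤ n)
    (y : B) (hyn : y ∈ n) (hyP : y ∉ P)
    (hunif : ∀ x ∈ n, ∃ s : B, s ∉ n ∧ ∃ a : B, s * x - a * y ∈ P)
    (sJ aJ : B) (hsJ : sJ ∉ n)
    (hJ : (sJ : ↥(modularFunctionFieldFullC K (M' * q))) * rm90_j K (M' * q) = aJ)
    (sU Ub : B) (hsU : sU ∉ n)
    (hU : (sU : ↥(modularFunctionFieldFullC K (M' * q))) * dq56b_U (K := K) M' q hq = Ub)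
    (hUn : Ub ∈ n)
    (hrig : ∀ (O : Type) [CommRing O] [IsDomain O] [IsDiscreteValuationRing O] (φ : B →+* O),
      (∀ x : B, φ x = 0 ↔ x ∈ P) → (∀ s : B, IsUnit (φ s) ↔ s ∉ n) → Irreducible (φ y) →
        (q ≠ 2 → q ≠ 3 → aJ ∈ n → φ y ^ 3 ∣ φ aJ) ∧
        (q ≠ 2 → q ≠ 3 → aJ - 1728 * sJ ∈ n → φ y ^ 2 ∣ φ (aJ - 1728 * sJ)) ∧
        (q = 3 → aJ ∈ n → φ y ^ 6 ∣ φ aJ) ∧ (q = 2 → aJ ∈ n → φ y ^ 12 ∣ φ aJ)) :
    ∀ (O : Type) [CommRing O] [IsDomain O] [IsDiscreteValuationRing O] (ι : B →+* O),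
      (∀ x : B, ι x = 0 ↔ x ∈ P) → (∀ s : B, IsUnit (ι s) ↔ s ∉ n) → Irreducible (ι y) →
        ι y ^ 12 ∣ ι Ub := by
  have hJV : rm90_j K (M' * q) ∈ cm85_Vinf (K := K) (M' * q) hπ :=
    gv85_mem_V_of_integral _ _ _ _ (jqModC R) (coeffMap_jqModC (algebraMap R K)).symm
  have hUV : dq56b_U (K := K) M' q hq ∈ cm85_Vinf (K := K) (M' * q) hπ :=
    dq56b_U_mem_Vinf M' q hq hπ
  have hρJ : ntf35_red R (M' * q) (aJ : ↥(modularFunctionFieldFullC K (M' * q))) =
      ntf35_red R (M' * q) (sJ : ↥(modularFunctionFieldFullC K (M' * q))) *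
        jqModC (IsLocalRing.ResidueField R) := by
    rw [← hJ, ntf35_red_mul (M' * q) hπ _ _ (hBV _ sJ.2) hJV, kbi40_red_J]
  have hρU : ntf35_red R (M' * q) (Ub : ↥(modularFunctionFieldFullC K (M' * q))) =
      ntf35_red R (M' * q) (sU : ↥(modularFunctionFieldFullC K (M' * q))) *
        dq56_U (IsLocalRing.ResidueField R) q := by
    rw [← hU, ntf35_red_mul (M' * q) hπ _ _ (hBV _ sU.2) hUV, kbi40_red_U]
  exact kb40_chart q hq π B (cm85_Vinf (K := K) (M' * q) hπ).toSubring (ntf35_red R (M' * q))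
    hRed (kbi40_red_const (M' * q)) P hP n hPn y hyn hyP hunif sJ aJ hsJ hρJ Ub sU hsU hρU hUn
    hrig

end kbi40

end Fermat.Agent.S36
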