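import Fermat.Agent.S34.DeltaQuot56
import Fermat.Agent.S37.Kronecker87

/-!
# S36 pre-lab (helper56): the exact `q`-expansion identities behind `kappa = 1` at a node

`K` a field of characteristic zero, `q` a prime, `J = jqModC K`, `J_q = JdC K q = J(Q^q)`,
`θ = Q d/dQ = partC_theta`, `U = Δ(Q)/Δ(Q^q) = dq56_U K q`.

* `kc56_T`          : `T = - θJ / (θJ)(Q^q)`;
* `kc56_T_mul`      : `T · (θJ)(Q^q) = - θJ`;
* `kc56_T_eq`       : `T = q · A / B`, `A = ∂Φ/∂X (J_q, J)`, `B = ∂Φ/∂Y (J_q, J)` (`dq56_E1`);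
* `kc56_T_mem`      : `T` lies in every subfield containing `J` and `J_q`;
* `kc56_T_pow_six`  : `T^6 · J_q^4 (J_q - 1728)^3 = U · J^4 (J - 1728)^3` (`dq56_Z1`);
* `kc56_g`          : `g = (J_q - J^q) / q`;
* `kc56_theta_g`    : `θ g = (θJ)(Q^q) - J^(q-1) · θJ`  (exact);
* `kc56_kron`       : there is `Ψ ∈ ℤ[Y][X]` with `(J_q^q - J) · g = - Ψ(J_q, J)` (Kronecker).

Modulo `q` along the Gauss valuation these read `T̄ = -(θ j)^(1-q)`,
`G'(j) = (θ j)^(q-1) - j^(q-1)`, `G(j) = Ψ̄(j^q, j) / (j - j^(q^2))`, the inputs of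
`k1x56_kappa_eq_one`.  All names are prefixed `kc56_`.
-/

set_option autoImplicit false

open ModularCurve Polynomial

namespace Fermat.Agent.S36

noncomputable section

open Fermat.Agent.S28 Fermat.Agent.S34 Fermat.Agent.S37

variable (K : Type*) [Field K] [CharZero K] (q : ℕ)

/-- `T = - θJ / (θJ)(Q^q)`. -/
def kc56_T [NeZero q] : LaurentSeries K :=
  - partC_theta (jqModC K) / qExpand K q (partC_theta (jqModC K))

omit [CharZero K] in
theorem kc56_thetaq_ne_zero [NeZero q] : qExpand K q (partC_theta (jqModC K)) ≠ 0 :=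
  (map_ne_zero_iff _ (qExpand_injective q)).mpr (dq56_theta_J_ne_zero K)

theorem kc56_T_mul [NeZero q] :
    kc56_T K q * qExpand K q (partC_theta (jqModC K)) = - partC_theta (jqModC K) :=
  div_mul_cancel₀ _ (kc56_thetaq_ne_zero K q)

/-- `T = q · A / B`. -/
theorem kc56_T_eq (hq : q.Prime) [NeZero q] :
    kc56_T K q = (q : LaurentSeries K) * dq56_A K q / dq56_B K q := by
  obtain ⟨-, hB, -, -⟩ := dq56_Z3 K q hq
  have hE1 := dq56_E1 K q hq
  unfold kc56_T
  rw [div_eq_div_iff (kc56_thetaq_ne_zero K q) hB]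
  linear_combination (-1 : LaurentSeries K) * hE1

/-- `T` lies in every subfield containing `J` and `J(Q^q)`. -/
theorem kc56_T_mem (hq : q.Prime) [NeZero q] (E : Subfield (LaurentSeries K))
    (hJ : jqModC K ∈ E) (hJq : JdC K q ∈ E) : kc56_T K q ∈ E := by
  have hev : ∀ Ψ : Polynomial (Polynomial ℤ), dq56_ev (JdC K q) (jqModC K) Ψ ∈ E := by
    intro Ψ
    have h : dq56_ev (JdC K q) (jqModC K) Ψ =
        E.subtype (dq56_ev ⟨JdC K q, hJq⟩ ⟨jqModC K, hJ⟩ Ψ) :=
      (dq56_ev_map E.subtype ⟨JdC K q, hJq⟩ ⟨jqModC K, hJ⟩ Ψ).symm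
    rw [h]
    exact SetLike.coe_mem _
  rw [kc56_T_eq K q hq]
  exact div_mem (mul_mem (natCast_mem E q) (hev _)) (hev _)

/-- `T^6 · J_q^4 (J_q - 1728)^3 = U · J^4 (J - 1728)^3`. -/
theorem kc56_T_pow_six (hq : q.Prime) [NeZero q] :
    kc56_T K q ^ 6 * (JdC K q ^ 4 * (JdC K q - 1728) ^ 3) =
      dq56_U K q * (jqModC K ^ 4 * (jqModC K - 1728) ^ 3) := by
  obtain ⟨-, hB, -, -⟩ := dq56_Z3 K q hq
  rw [kc56_T_eq K q hq, div_pow, div_mul_eq_mul_div, div_eq_iff (pow_ne_zero 6 hB)]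
  linear_combination (-1 : LaurentSeries K) * dq56_Z1 K q hq

/-- `g = (J(Q^q) - J^q) / q`. -/
def kc56_g : LaurentSeries K := (JdC K q - jqModC K ^ q) / (q : LaurentSeries K)

theorem kc56_q_mul_g [NeZero q] :
    (q : LaurentSeries K) * kc56_g K q = JdC K q - jqModC K ^ q :=
  mul_div_cancel₀ _ (dq56_natCast_ne_zero K q)

/-- `θ g = (θJ)(Q^q) - J^(q-1) · θJ` (exact). -/
theorem kc56_theta_g [NeZero q] :
    partC_theta (kc56_g K q) =
      qExpand K q (partC_theta (jqModC K)) - jqModC K ^ (q - 1) * partC_theta (jqModC K) := by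
  have hq0 : (q : LaurentSeries K) ≠ 0 := dq56_natCast_ne_zero K q
  have h1 : partC_theta ((q : LaurentSeries K) * kc56_g K q) =
      (q : LaurentSeries K) * partC_theta (kc56_g K q) := by
    rw [Derivation.leibniz, smul_eq_mul, smul_eq_mul]
    have : partC_theta ((q : ℕ) : LaurentSeries K) = 0 := by
      rw [← map_natCast (algebraMap K (LaurentSeries K)) q]
      exact Derivation.map_algebraMap _ _
    rw [this, mul_zero, add_zero]
  have h2 : partC_theta (JdC K q - jqModC K ^ q) =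
      (q : LaurentSeries K) * qExpand K q (partC_theta (jqModC K)) -
        (q : LaurentSeries K) * (jqModC K ^ (q - 1) * partC_theta (jqModC K)) := by
    rw [map_sub, JdC_of_neZero, partC_theta_qExpand, map_natCast, Derivation.leibniz_pow,
      nsmul_eq_mul, smul_eq_mul]
  rw [kc56_q_mul_g] at h1
  have h3 : (q : LaurentSeries K) * partC_theta (kc56_g K q) =
      (q : LaurentSeries K) * (qExpand K q (partC_theta (jqModC K)) -
        jqModC K ^ (q - 1) * partC_theta (jqModC K)) := by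
    rw [← h1, h2]; ring
  exact mul_left_cancel₀ hq0 h3

/-- **Kronecker**: `(J_q^q - J) · g = - Ψ(J_q, J)` for an integer polynomial `Ψ`. -/
theorem kc56_kron (hq : q.Prime) [NeZero q] :
    ∃ Ψ : Polynomial (Polynomial ℤ),
      (JdC K q ^ q - jqModC K) * kc56_g K q = - dq56_ev (JdC K q) (jqModC K) Ψ := by
  obtain ⟨Φ, -, -, h1, -, Ψ, hΨ⟩ := kc87_exists q hq
  refine ⟨Ψ, ?_⟩
  have h2 : dq56_ev (JdC ℤ q) (jqModC ℤ) Φ = 0 := h1
  have h3 := congrArg (coeffMap (Int.castRingHom K)) h2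
  rw [dq56_ev_map, coeffMap_JdC, coeffMap_jqModC, map_zero] at h3
  have h4 : dq56_ev (JdC K q) (jqModC K) Φ =
      (JdC K q - jqModC K ^ q) * (JdC K q ^ q - jqModC K) +
        (q : LaurentSeries K) * dq56_ev (JdC K q) (jqModC K) Ψ := by
    rw [hΨ]
    unfold dq56_ev
    simp only [Polynomial.eval₂_add, Polynomial.eval₂_mul, Polynomial.eval₂_sub,
      Polynomial.eval₂_X, Polynomial.eval₂_C, Polynomial.eval₂_pow,
      Polynomial.coe_eval₂RingHom, Polynomial.eval₂_natCast, map_natCast]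
  rw [h4] at h3
  have hq0 : (q : LaurentSeries K) ≠ 0 := dq56_natCast_ne_zero K q
  have h5 := kc56_q_mul_g K q
  apply mul_left_cancel₀ hq0
  linear_combination (JdC K q ^ q - jqModC K) * h5 + h3

end

end Fermat.Agent.S36
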