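import Mathlib

/-!
# S36 lab (helper44): `κ = 1` at the ELLIPTIC nodes by divisibility — abstract, Mathlib only

Row 599 (C-REGq), sub-part "elliptic nodes" (`j₀ = 0, 1728`; all nodes when `q = 2, 3`),
report #2931.  Companion of `k1x56_kappa_eq_one` (helper56, generic nodes).

`O` is a discrete valuation ring (in the application: `B_n / p_∞`, the local ring of the
`∞`-branch at the node `n`), `ϖ` a uniformiser, `U ∈ O` the reduction of `Δ(Q)/Δ(Q^q)`.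

* the node equation `z z' = π ^ κ · unit` and `U V = q ^ 12` give `U ^ κ = u * ϖ ^ 12`;
* `dq56_Z1` reduced to the `∞`-branch gives the cleared relation
  `P ^ 6 * j ^ (4 q) * l ^ (3 q) = U * S ^ 6 * j ^ 4 * l ^ 3`
  (`j = j̄`, `l = j̄ - 1728`, `T̄ = P / S` a rational function of `j̄`);
* at a rigid level `j̄ - j₀ = unit * c ^ 2` (`j₀ = 1728`) resp. `unit * c ^ 3` (`j₀ = 0`).

Then `κ = 1`:

* `k1e44_kappa_1728` : `j₀ = 1728`, `q` odd;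
* `k1e44_kappa_zero` : `j₀ = 0`, `3 ∤ q`;
* `k1e44_kappa_three` : `q = 3` (`j₀ = 0 = 1728`), `j̄ = unit * c ^ 3 = unit * d ^ 2`;
* `k1e44_kappa_two` : `q = 2`, `j̄ = unit * c ^ 3 = unit * d ^ 4`;
* `k1e44_kappa_of_dvd` : the common core, `12 ∣ ord U`.

The valuation is the `ℕ`-valued `k1e44_ord ϖ` (`x = unit * ϖ ^ (ord x)` for `x ≠ 0`).
-/

set_option autoImplicit false

namespace Fermat.Agent.S36

variable {O : Type*} [CommRing O] [IsDomain O] [IsDiscreteValuationRing O]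

open Classical in
/-- The `ϖ`-adic order of `x` (`0` for `x = 0` or `ϖ` not irreducible). -/
noncomputable def k1e44_ord (ϖ x : O) : ℕ :=
  if h : x ≠ 0 ∧ Irreducible ϖ then
    Classical.choose (IsDiscreteValuationRing.eq_unit_mul_pow_irreducible h.1 h.2)
  else 0

theorem k1e44_ord_spec (ϖ : O) (hϖ : Irreducible ϖ) (x : O) (hx : x ≠ 0) :
    ∃ u : Oˣ, x = (u : O) * ϖ ^ k1e44_ord ϖ x := by
  unfold k1e44_ord
  rw [dif_pos ⟨hx, hϖ⟩]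
  exact Classical.choose_spec (IsDiscreteValuationRing.eq_unit_mul_pow_irreducible hx hϖ)

theorem k1e44_ord_eq (ϖ : O) (hϖ : Irreducible ϖ) (x : O) (u : Oˣ) (n : ℕ)
    (h : x = (u : O) * ϖ ^ n) : k1e44_ord ϖ x = n := by
  have hx : x ≠ 0 := by
    rw [h]
    exact mul_ne_zero u.ne_zero (pow_ne_zero n hϖ.ne_zero)
  obtain ⟨v, hv⟩ := k1e44_ord_spec ϖ hϖ x hx
  exact IsDiscreteValuationRing.unit_mul_pow_congr_pow hϖ hϖ v u _ _ (hv.symm.trans h)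

theorem k1e44_ord_unit (ϖ : O) (hϖ : Irreducible ϖ) (x : O) (hx : IsUnit x) :
    k1e44_ord ϖ x = 0 := by
  obtain ⟨u, rfl⟩ := hx
  exact k1e44_ord_eq ϖ hϖ _ u 0 (by rw [pow_zero, mul_one])

theorem k1e44_ord_mul (ϖ : O) (hϖ : Irreducible ϖ) (x y : O) (hx : x ≠ 0) (hy : y ≠ 0) :
    k1e44_ord ϖ (x * y) = k1e44_ord ϖ x + k1e44_ord ϖ y := by
  obtain ⟨u, hu⟩ := k1e44_ord_spec ϖ hϖ x hx
  obtain ⟨v, hv⟩ := k1e44_ord_spec ϖ hϖ y hy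
  refine k1e44_ord_eq ϖ hϖ _ (u * v) _ ?_
  conv_lhs => rw [hu, hv]
  rw [Units.val_mul, pow_add]
  ring

theorem k1e44_ord_pow (ϖ : O) (hϖ : Irreducible ϖ) (x : O) (hx : x ≠ 0) (k : ℕ) :
    k1e44_ord ϖ (x ^ k) = k * k1e44_ord ϖ x := by
  obtain ⟨u, hu⟩ := k1e44_ord_spec ϖ hϖ x hx
  refine k1e44_ord_eq ϖ hϖ _ (u ^ k) _ ?_
  conv_lhs => rw [hu]
  rw [Units.val_pow_eq_pow_val, mul_pow, ← pow_mul, mul_comm k]

theorem k1e44_ord_self (ϖ : O) (hϖ : Irreducible ϖ) : k1e44_ord ϖ ϖ = 1 :=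
  k1e44_ord_eq ϖ hϖ _ 1 1 (by simp)

/-- `ord (unit * x) = ord x`. -/
theorem k1e44_ord_unit_mul (ϖ : O) (hϖ : Irreducible ϖ) (w x : O) (hw : IsUnit w) (hx : x ≠ 0) :
    k1e44_ord ϖ (w * x) = k1e44_ord ϖ x := by
  rw [k1e44_ord_mul ϖ hϖ w x hw.ne_zero hx, k1e44_ord_unit ϖ hϖ w hw, zero_add]

/-- The node equation in terms of orders: `κ * ord U = 12`. -/
theorem k1e44_kappa_mul_ord (ϖ : O) (hϖ : Irreducible ϖ) (κ : ℕ) (U u : O) (hu : IsUnit u)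
    (hU : U ^ κ = u * ϖ ^ 12) : κ * k1e44_ord ϖ U = 12 := by
  have hU0 : U ≠ 0 := by
    rintro rfl
    rcases Nat.eq_zero_or_pos κ with h | h
    · subst h
      rw [pow_zero] at hU
      have h1 : IsUnit (ϖ ^ 12) := isUnit_of_mul_isUnit_right (hU ▸ isUnit_one)
      exact hϖ.not_isUnit (isUnit_of_dvd_unit (dvd_pow_self ϖ (by norm_num)) h1)
    · rw [zero_pow (Nat.pos_iff_ne_zero.mp h)] at hU
      exact mul_ne_zero hu.ne_zero (pow_ne_zero 12 hϖ.ne_zero) hU.symm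
  have h1 : k1e44_ord ϖ (U ^ κ) = κ * k1e44_ord ϖ U := k1e44_ord_pow ϖ hϖ U hU0 κ
  have h2 : k1e44_ord ϖ (u * ϖ ^ 12) = 12 := by
    rw [k1e44_ord_unit_mul ϖ hϖ u _ hu (pow_ne_zero 12 hϖ.ne_zero),
      k1e44_ord_pow ϖ hϖ ϖ hϖ.ne_zero, k1e44_ord_self ϖ hϖ]
  rw [← h1, hU, h2]

/-- **Core**: if `12 ∣ ord U` then `κ = 1`. -/
theorem k1e44_kappa_of_dvd (ϖ : O) (hϖ : Irreducible ϖ) (κ : ℕ) (U u : O) (hu : IsUnit u)
    (hU : U ^ κ = u * ϖ ^ 12) (h12 : 12 ∣ k1e44_ord ϖ U) : κ = 1 := by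
  have h := k1e44_kappa_mul_ord ϖ hϖ κ U u hu hU
  obtain ⟨t, ht⟩ := h12
  rw [ht] at h
  have h1 : κ * t = 1 := by nlinarith
  exact Nat.eq_one_of_mul_eq_one_right h1

/-- Orders in the cleared relation `P^6 j^A₁ l^A₂ = U S^6 j^B₁ l^B₂`. -/
theorem k1e44_rel_ord (ϖ : O) (hϖ : Irreducible ϖ) (P S j l U : O) (hP : P ≠ 0) (hS : S ≠ 0)
    (hj : j ≠ 0) (hl : l ≠ 0) (hU0 : U ≠ 0) (A₁ A₂ B₁ B₂ : ℕ)
    (hrel : P ^ 6 * j ^ A₁ * l ^ A₂ = U * S ^ 6 * j ^ B₁ * l ^ B₂) :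
    6 * k1e44_ord ϖ P + A₁ * k1e44_ord ϖ j + A₂ * k1e44_ord ϖ l =
      k1e44_ord ϖ U + 6 * k1e44_ord ϖ S + B₁ * k1e44_ord ϖ j + B₂ * k1e44_ord ϖ l := by
  have h1 : k1e44_ord ϖ (P ^ 6 * j ^ A₁ * l ^ A₂) =
      6 * k1e44_ord ϖ P + A₁ * k1e44_ord ϖ j + A₂ * k1e44_ord ϖ l := by
    rw [k1e44_ord_mul ϖ hϖ _ _ (mul_ne_zero (pow_ne_zero _ hP) (pow_ne_zero _ hj))
        (pow_ne_zero _ hl),
      k1e44_ord_mul ϖ hϖ _ _ (pow_ne_zero _ hP) (pow_ne_zero _ hj),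
      k1e44_ord_pow ϖ hϖ P hP, k1e44_ord_pow ϖ hϖ j hj, k1e44_ord_pow ϖ hϖ l hl]
  have h2 : k1e44_ord ϖ (U * S ^ 6 * j ^ B₁ * l ^ B₂) =
      k1e44_ord ϖ U + 6 * k1e44_ord ϖ S + B₁ * k1e44_ord ϖ j + B₂ * k1e44_ord ϖ l := by
    rw [k1e44_ord_mul ϖ hϖ _ _
        (mul_ne_zero (mul_ne_zero hU0 (pow_ne_zero _ hS)) (pow_ne_zero _ hj)) (pow_ne_zero _ hl),
      k1e44_ord_mul ϖ hϖ _ _ (mul_ne_zero hU0 (pow_ne_zero _ hS)) (pow_ne_zero _ hj),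
      k1e44_ord_mul ϖ hϖ _ _ hU0 (pow_ne_zero _ hS),
      k1e44_ord_pow ϖ hϖ S hS, k1e44_ord_pow ϖ hϖ j hj, k1e44_ord_pow ϖ hϖ l hl]
  rw [← h1, hrel, h2]

/-- `ord (y ^ a * unit) = a * ord y`. -/
theorem k1e44_ord_pow_mul_unit (ϖ : O) (hϖ : Irreducible ϖ) (y p : O) (hy : y ≠ 0)
    (hp : IsUnit p) (a : ℕ) : k1e44_ord ϖ (y ^ a * p) = a * k1e44_ord ϖ y := by
  rw [mul_comm, k1e44_ord_unit_mul ϖ hϖ p _ hp (pow_ne_zero a hy), k1e44_ord_pow ϖ hϖ y hy]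

/-- `ord (unit * c ^ k) = k * ord c`. -/
theorem k1e44_ord_unit_mul_pow (ϖ : O) (hϖ : Irreducible ϖ) (w c : O) (hw : IsUnit w)
    (hc : c ≠ 0) (k : ℕ) : k1e44_ord ϖ (w * c ^ k) = k * k1e44_ord ϖ c := by
  rw [k1e44_ord_unit_mul ϖ hϖ w _ hw (pow_ne_zero k hc), k1e44_ord_pow ϖ hϖ c hc]

theorem k1e44_U_ne_zero (ϖ : O) (hϖ : Irreducible ϖ) (κ : ℕ) (U u : O) (hu : IsUnit u)
    (hU : U ^ κ = u * ϖ ^ 12) : U ≠ 0 := by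
  have h := k1e44_kappa_mul_ord ϖ hϖ κ U u hu hU
  rintro rfl
  have h0 : k1e44_ord ϖ (0 : O) = 0 := by
    unfold k1e44_ord
    rw [dif_neg (fun h => h.1 rfl)]
  rw [h0, mul_zero] at h
  exact absurd h (by norm_num)

/-- **`j₀ = 1728`, `q` odd.**  `l = j̄ - 1728 = w c²` (rigid level), `j = j̄` a unit,
`T̄ = P / S` with `P = l ^ a p₁`, `S = l ^ b s₁`.  Then `κ = 1`. -/
theorem k1e44_kappa_1728 (ϖ : O) (hϖ : Irreducible ϖ) (κ : ℕ) (U u : O) (hu : IsUnit u)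
    (hU : U ^ κ = u * ϖ ^ 12) (q : ℕ) (hq : Odd q) (j l c w P S p₁ s₁ : O) (a b : ℕ)
    (hj : IsUnit j) (hw : IsUnit w) (hl : l = w * c ^ 2) (hc : c ≠ 0)
    (hp₁ : IsUnit p₁) (hs₁ : IsUnit s₁) (hP : P = l ^ a * p₁) (hS : S = l ^ b * s₁)
    (hrel : P ^ 6 * j ^ (4 * q) * l ^ (3 * q) = U * S ^ 6 * j ^ 4 * l ^ 3) : κ = 1 := by
  have hU0 := k1e44_U_ne_zero ϖ hϖ κ U u hu hU
  have hl0 : l ≠ 0 := by rw [hl]; exact mul_ne_zero hw.ne_zero (pow_ne_zero 2 hc)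
  have hP0 : P ≠ 0 := by rw [hP]; exact mul_ne_zero (pow_ne_zero a hl0) hp₁.ne_zero
  have hS0 : S ≠ 0 := by rw [hS]; exact mul_ne_zero (pow_ne_zero b hl0) hs₁.ne_zero
  have h := k1e44_rel_ord ϖ hϖ P S j l U hP0 hS0 hj.ne_zero hl0 hU0 _ _ _ _ hrel
  have e1 : k1e44_ord ϖ l = 2 * k1e44_ord ϖ c := by
    rw [hl]; exact k1e44_ord_unit_mul_pow ϖ hϖ w c hw hc 2
  have e2 : k1e44_ord ϖ P = a * k1e44_ord ϖ l := by
    rw [hP]; exact k1e44_ord_pow_mul_unit ϖ hϖ l p₁ hl0 hp₁ a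
  have e3 : k1e44_ord ϖ S = b * k1e44_ord ϖ l := by
    rw [hS]; exact k1e44_ord_pow_mul_unit ϖ hϖ l s₁ hl0 hs₁ b
  have e4 : k1e44_ord ϖ j = 0 := k1e44_ord_unit ϖ hϖ j hj
  rw [e2, e3, e4, e1] at h
  obtain ⟨k, rfl⟩ := hq
  refine k1e44_kappa_of_dvd ϖ hϖ κ U u hu hU ?_
  set n := k1e44_ord ϖ c
  set N := k1e44_ord ϖ U
  have hz : (N : ℤ) = 12 * ((a : ℤ) * n + k * n - b * n) := by
    have h' := congrArg (Nat.cast : ℕ → ℤ) h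
    push_cast at h'
    linear_combination (-1 : ℤ) * h'
  exact Int.natCast_dvd_natCast.mp ⟨_, by exact_mod_cast hz⟩

/-- **`j₀ = 0`, `3 ∤ q`.**  `j = j̄ = w c³` (rigid level), `l = j̄ - 1728` a unit,
`T̄ = P / S` with `P = j ^ a p₁`, `S = j ^ b s₁`.  Then `κ = 1`. -/
theorem k1e44_kappa_zero (ϖ : O) (hϖ : Irreducible ϖ) (κ : ℕ) (U u : O) (hu : IsUnit u)
    (hU : U ^ κ = u * ϖ ^ 12) (q : ℕ) (hq : ¬ 3 ∣ q) (j l c w P S p₁ s₁ : O) (a b : ℕ)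
    (hl : IsUnit l) (hw : IsUnit w) (hj : j = w * c ^ 3) (hc : c ≠ 0)
    (hp₁ : IsUnit p₁) (hs₁ : IsUnit s₁) (hP : P = j ^ a * p₁) (hS : S = j ^ b * s₁)
    (hrel : P ^ 6 * j ^ (4 * q) * l ^ (3 * q) = U * S ^ 6 * j ^ 4 * l ^ 3) : κ = 1 := by
  have hU0 := k1e44_U_ne_zero ϖ hϖ κ U u hu hU
  have hj0 : j ≠ 0 := by rw [hj]; exact mul_ne_zero hw.ne_zero (pow_ne_zero 3 hc)
  have hP0 : P ≠ 0 := by rw [hP]; exact mul_ne_zero (pow_ne_zero a hj0) hp₁.ne_zero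
  have hS0 : S ≠ 0 := by rw [hS]; exact mul_ne_zero (pow_ne_zero b hj0) hs₁.ne_zero
  have h := k1e44_rel_ord ϖ hϖ P S j l U hP0 hS0 hj0 hl.ne_zero hU0 _ _ _ _ hrel
  have e1 : k1e44_ord ϖ j = 3 * k1e44_ord ϖ c := by
    rw [hj]; exact k1e44_ord_unit_mul_pow ϖ hϖ w c hw hc 3
  have e2 : k1e44_ord ϖ P = a * k1e44_ord ϖ j := by
    rw [hP]; exact k1e44_ord_pow_mul_unit ϖ hϖ j p₁ hj0 hp₁ a
  have e3 : k1e44_ord ϖ S = b * k1e44_ord ϖ j := by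
    rw [hS]; exact k1e44_ord_pow_mul_unit ϖ hϖ j s₁ hj0 hs₁ b
  have e4 : k1e44_ord ϖ l = 0 := k1e44_ord_unit ϖ hϖ l hl
  rw [e2, e3, e4, e1] at h
  have hκ := k1e44_kappa_mul_ord ϖ hϖ κ U u hu hU
  set n := k1e44_ord ϖ c
  set N := k1e44_ord ϖ U
  -- `N = 6 M`
  have h6 : 6 ∣ N := by
    have hz : (N : ℤ) = 6 * (3 * (a : ℤ) * n + 2 * q * n - 3 * b * n - 2 * n) := by
      have h' := congrArg (Nat.cast : ℕ → ℤ) h
      push_cast at h'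
      linear_combination (-1 : ℤ) * h'
    exact Int.natCast_dvd_natCast.mp ⟨_, by exact_mod_cast hz⟩
  obtain ⟨M, hM⟩ := h6
  have hκM : κ * M = 2 := by
    rw [hM] at hκ
    nlinarith
  have hκ12 : κ = 1 ∨ κ = 2 := by
    have hdvd : κ ∣ 2 := ⟨M, hκM.symm⟩
    have hle : κ ≤ 2 := Nat.le_of_dvd (by norm_num) hdvd
    interval_cases κ
    · simp at hκM
    · exact Or.inl rfl
    · exact Or.inr rfl
  rcases hκ12 with h1 | h2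
  · exact h1
  · exfalso
    have hM1 : M = 1 := by
      rw [h2] at hκM
      omega
    rw [hM, hM1] at h
    -- `3 a n + 2 q n = 1 + 3 b n + 2 n`
    have h3 : 3 * (a * n) + 2 * (q * n) = 1 + (3 * (b * n) + 2 * n) := by
      nlinarith
    have hn1 : n ∣ 1 := by
      have hd1 : n ∣ 3 * (a * n) + 2 * (q * n) :=
        Dvd.dvd.add (Dvd.dvd.mul_left (Dvd.intro_left a rfl) 3)
          (Dvd.dvd.mul_left (Dvd.intro_left q rfl) 2)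
      have hd2 : n ∣ 3 * (b * n) + 2 * n :=
        Dvd.dvd.add (Dvd.dvd.mul_left (Dvd.intro_left b rfl) 3) (Dvd.intro_left 2 rfl)
      rw [h3] at hd1
      exact (Nat.dvd_add_left hd2).mp hd1
    have hn : n = 1 := Nat.dvd_one.mp hn1
    rw [hn] at h3
    apply hq
    omega

/-- **`q = 3`** (`j₀ = 0 = 1728` in the residue field, so `j̄ - 1728 = j̄`):
`j = w c³ = w' d²`, `T̄ = P / S` with `P = j ^ a p₁`, `S = j ^ b s₁`.  Then `κ = 1`. -/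
theorem k1e44_kappa_three (ϖ : O) (hϖ : Irreducible ϖ) (κ : ℕ) (U u : O) (hu : IsUnit u)
    (hU : U ^ κ = u * ϖ ^ 12) (j c w d w' P S p₁ s₁ : O) (a b : ℕ)
    (hw : IsUnit w) (hj : j = w * c ^ 3) (hc : c ≠ 0)
    (hw' : IsUnit w') (hj' : j = w' * d ^ 2) (hd : d ≠ 0)
    (hp₁ : IsUnit p₁) (hs₁ : IsUnit s₁) (hP : P = j ^ a * p₁) (hS : S = j ^ b * s₁)
    (hrel : P ^ 6 * j ^ (4 * 3) * j ^ (3 * 3) = U * S ^ 6 * j ^ 4 * j ^ 3) : κ = 1 := by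
  have hU0 := k1e44_U_ne_zero ϖ hϖ κ U u hu hU
  have hj0 : j ≠ 0 := by rw [hj]; exact mul_ne_zero hw.ne_zero (pow_ne_zero 3 hc)
  have hP0 : P ≠ 0 := by rw [hP]; exact mul_ne_zero (pow_ne_zero a hj0) hp₁.ne_zero
  have hS0 : S ≠ 0 := by rw [hS]; exact mul_ne_zero (pow_ne_zero b hj0) hs₁.ne_zero
  have h := k1e44_rel_ord ϖ hϖ P S j j U hP0 hS0 hj0 hj0 hU0 _ _ _ _ hrel
  have e1 : k1e44_ord ϖ j = 3 * k1e44_ord ϖ c := by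
    conv_lhs => rw [hj]
    exact k1e44_ord_unit_mul_pow ϖ hϖ w c hw hc 3
  have e1' : k1e44_ord ϖ j = 2 * k1e44_ord ϖ d := by
    conv_lhs => rw [hj']
    exact k1e44_ord_unit_mul_pow ϖ hϖ w' d hw' hd 2
  have e2 : k1e44_ord ϖ P = a * k1e44_ord ϖ j := by
    rw [hP]; exact k1e44_ord_pow_mul_unit ϖ hϖ j p₁ hj0 hp₁ a
  have e3 : k1e44_ord ϖ S = b * k1e44_ord ϖ j := by
    rw [hS]; exact k1e44_ord_pow_mul_unit ϖ hϖ j s₁ hj0 hs₁ b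
  rw [e2, e3] at h
  refine k1e44_kappa_of_dvd ϖ hϖ κ U u hu hU ?_
  -- `ord j = 6 t`
  obtain ⟨t, ht⟩ : ∃ t, k1e44_ord ϖ j = 6 * t := ⟨k1e44_ord ϖ j / 6, by omega⟩
  rw [ht] at h
  set N := k1e44_ord ϖ U
  have hz : (N : ℤ) = 12 * (3 * (a : ℤ) * t + 7 * t - 3 * b * t) := by
    have h' := congrArg (Nat.cast : ℕ → ℤ) h
    push_cast at h'
    linear_combination (-1 : ℤ) * h'
  exact Int.natCast_dvd_natCast.mp ⟨_, by exact_mod_cast hz⟩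

/-- **`q = 2`** (`j₀ = 0 = 1728` in the residue field): `j = w c³ = w' d⁴`
(`4 ∣ ord j̄` from the level-3 Hauptmodul: `j = (h+27)(h+3)³/h ≡ (h+1)⁴/h mod 2`),
`T̄ = P / S` with `P = j ^ a p₁`, `S = j ^ b s₁`.  Then `κ = 1`. -/
theorem k1e44_kappa_two (ϖ : O) (hϖ : Irreducible ϖ) (κ : ℕ) (U u : O) (hu : IsUnit u)
    (hU : U ^ κ = u * ϖ ^ 12) (j c w d w' P S p₁ s₁ : O) (a b : ℕ)
    (hw : IsUnit w) (hj : j = w * c ^ 3) (hc : c ≠ 0)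
    (hw' : IsUnit w') (hj' : j = w' * d ^ 4) (hd : d ≠ 0)
    (hp₁ : IsUnit p₁) (hs₁ : IsUnit s₁) (hP : P = j ^ a * p₁) (hS : S = j ^ b * s₁)
    (hrel : P ^ 6 * j ^ (4 * 2) * j ^ (3 * 2) = U * S ^ 6 * j ^ 4 * j ^ 3) : κ = 1 := by
  have hU0 := k1e44_U_ne_zero ϖ hϖ κ U u hu hU
  have hj0 : j ≠ 0 := by rw [hj]; exact mul_ne_zero hw.ne_zero (pow_ne_zero 3 hc)
  have hP0 : P ≠ 0 := by rw [hP]; exact mul_ne_zero (pow_ne_zero a hj0) hp₁.ne_zero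
  have hS0 : S ≠ 0 := by rw [hS]; exact mul_ne_zero (pow_ne_zero b hj0) hs₁.ne_zero
  have h := k1e44_rel_ord ϖ hϖ P S j j U hP0 hS0 hj0 hj0 hU0 _ _ _ _ hrel
  have e1 : k1e44_ord ϖ j = 3 * k1e44_ord ϖ c := by
    conv_lhs => rw [hj]
    exact k1e44_ord_unit_mul_pow ϖ hϖ w c hw hc 3
  have e1' : k1e44_ord ϖ j = 4 * k1e44_ord ϖ d := by
    conv_lhs => rw [hj']
    exact k1e44_ord_unit_mul_pow ϖ hϖ w' d hw' hd 4
  have e2 : k1e44_ord ϖ P = a * k1e44_ord ϖ j := by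
    rw [hP]; exact k1e44_ord_pow_mul_unit ϖ hϖ j p₁ hj0 hp₁ a
  have e3 : k1e44_ord ϖ S = b * k1e44_ord ϖ j := by
    rw [hS]; exact k1e44_ord_pow_mul_unit ϖ hϖ j s₁ hj0 hs₁ b
  rw [e2, e3] at h
  refine k1e44_kappa_of_dvd ϖ hϖ κ U u hu hU ?_
  obtain ⟨t, ht⟩ : ∃ t, k1e44_ord ϖ j = 12 * t := ⟨k1e44_ord ϖ j / 12, by omega⟩
  rw [ht] at h
  set N := k1e44_ord ϖ U
  have hz : (N : ℤ) = 12 * (6 * (a : ℤ) * t + 7 * t - 6 * b * t) := by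
    have h' := congrArg (Nat.cast : ℕ → ℤ) h
    push_cast at h'
    linear_combination (-1 : ℤ) * h'
  exact Int.natCast_dvd_natCast.mp ⟨_, by exact_mod_cast hz⟩

end Fermat.Agent.S36
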