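import Mathlib

/-!
# S36 pre-lab (helper56): the last step of `kappa = 1` at a node, abstract form (Mathlib only)

`O` is the discrete valuation ring `B_n / p_∞` of the branch `C_∞` at a node `n`.
* `T` is the residue of `T = q · Φ_X(J_q,J) / Φ_Y(J_q,J) = - θJ / (θJ)(Q^q)`; the local structure
  `z z' = π ^ κ · unit` of the node and `div T = 2 C_0` give `T ^ κ = unit · ϖ ^ 2`.
* `G = P / S` with `S` separable and `gcd (P, S) = 1` (Kronecker: `G = Ψ̄(j^q, j) / (j - j^(q^2))`);
  `s, s', p, p'` are the values of `S, S', P, P'` at `j̄` and `e` is the value of `j̄ ^ (q - 1)`.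
* `-1 / T = (θ j)^(q-1) = G'(j) + j^(q-1)` reads `T * (p' * s - p * s' + e * s ^ 2) = - s ^ 2`.

Conclusion: `κ = 1` (and `s` is a uniformiser: the level is étale over the `j`-line at `n`).
All names are prefixed `k1x56_`.
-/

set_option autoImplicit false

namespace Fermat.Agent.S36

open IsDiscreteValuationRing

theorem k1x56_kappa_eq_one {O : Type*} [CommRing O] [IsDomain O] [IsDiscreteValuationRing O]
    (ϖ : O) (hϖ : Irreducible ϖ) (κ : ℕ) (T u s s' p p' e a b c d : O)
    (hu : IsUnit u) (hT : T ^ κ = u * ϖ ^ 2)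
    (hrel : T * (p' * s - p * s' + e * s ^ 2) = - s ^ 2)
    (h1 : a * s + b * s' = 1) (h2 : c * p + d * s = 1) :
    κ = 1 ∧ Associated s ϖ := by
  have hϖ0 : ϖ ≠ 0 := hϖ.ne_zero
  have hκ0 : κ ≠ 0 := by
    rintro rfl
    rw [pow_zero] at hT
    have : IsUnit (u * ϖ ^ 2) := hT ▸ isUnit_one
    exact hϖ.not_isUnit ((isUnit_pow_iff two_ne_zero).mp (isUnit_of_mul_isUnit_right this))
  have hT0 : T ≠ 0 := by
    rintro rfl
    rw [zero_pow hκ0] at hT
    exact mul_ne_zero hu.ne_zero (pow_ne_zero 2 hϖ0) hT.symm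
  -- `s` is not a unit: otherwise `T` is a unit and `T ^ κ` is not `unit * ϖ ^ 2`
  have hTnu : ¬ IsUnit T := by
    intro hTu
    have : IsUnit (u * ϖ ^ 2) := hT ▸ hTu.pow κ
    exact hϖ.not_isUnit ((isUnit_pow_iff two_ne_zero).mp (isUnit_of_mul_isUnit_right this))
  have hsnu : ¬ IsUnit s := by
    intro hsu
    have h : IsUnit (T * (p' * s - p * s' + e * s ^ 2)) := by
      rw [hrel]; exact (hsu.pow 2).neg
    exact hTnu (isUnit_of_mul_isUnit_left h)
  have hsm : s ∈ IsLocalRing.maximalIdeal O := (IsLocalRing.mem_maximalIdeal s).mpr hsnu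
  -- `s'` and `p` are units
  have hs'u : IsUnit s' := by
    by_contra hn
    have hs'm : s' ∈ IsLocalRing.maximalIdeal O := (IsLocalRing.mem_maximalIdeal s').mpr hn
    have : (1 : O) ∈ IsLocalRing.maximalIdeal O := by
      rw [← h1]
      exact Ideal.add_mem _ (Ideal.mul_mem_left _ a hsm) (Ideal.mul_mem_left _ b hs'm)
    exact (IsLocalRing.maximalIdeal.isMaximal O).ne_top ((Ideal.eq_top_iff_one _).mpr this)
  have hpu : IsUnit p := by
    by_contra hn
    have hpm : p ∈ IsLocalRing.maximalIdeal O := (IsLocalRing.mem_maximalIdeal p).mpr hn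
    have : (1 : O) ∈ IsLocalRing.maximalIdeal O := by
      rw [← h2]
      exact Ideal.add_mem _ (Ideal.mul_mem_left _ c hpm) (Ideal.mul_mem_left _ d hsm)
    exact (IsLocalRing.maximalIdeal.isMaximal O).ne_top ((Ideal.eq_top_iff_one _).mpr this)
  -- the numerator `N` is a unit
  have hNu : IsUnit (p' * s - p * s' + e * s ^ 2) := by
    by_contra hn
    have hNm : p' * s - p * s' + e * s ^ 2 ∈ IsLocalRing.maximalIdeal O :=
      (IsLocalRing.mem_maximalIdeal _).mpr hn
    have h3 : p * s' ∈ IsLocalRing.maximalIdeal O := by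
      have : p * s' = p' * s + e * s * s - (p' * s - p * s' + e * s ^ 2) := by ring
      rw [this]
      exact Ideal.sub_mem _ (Ideal.add_mem _ (Ideal.mul_mem_left _ _ hsm)
        (Ideal.mul_mem_left _ _ hsm)) hNm
    exact (IsLocalRing.mem_maximalIdeal _).mp h3 (hpu.mul hs'u)
  -- valuations
  have hs0 : s ≠ 0 := by
    rintro rfl
    apply hT0
    have h : T * (p' * 0 - p * s' + e * 0 ^ 2) = 0 := by rw [hrel]; ring
    rcases mul_eq_zero.mp h with h | h
    · exact h
    · exact absurd h hNu.ne_zero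
  obtain ⟨N, hN⟩ := hNu
  obtain ⟨u', hu'⟩ := hu
  have hvs : addVal O s ≠ ⊤ := fun h => hs0 (addVal_eq_top_iff.mp h)
  have hvT : addVal O T ≠ ⊤ := fun h => hT0 (addVal_eq_top_iff.mp h)
  obtain ⟨E, hE⟩ : ∃ E : ℕ, addVal O s = (E : ℕ∞) := ⟨_, (ENat.natCast_toNat hvs).symm⟩
  obtain ⟨t, ht⟩ : ∃ t : ℕ, addVal O T = (t : ℕ∞) := ⟨_, (ENat.natCast_toNat hvT).symm⟩
  -- `T * N = - s ^ 2` gives `t = 2 * E`
  have h4 : (t : ℕ∞) = ((2 * E : ℕ) : ℕ∞) := by
    have h := congrArg (addVal O) hrel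
    rw [← hN, AddValuation.map_mul, addVal_eq_zero_of_unit, add_zero, AddValuation.map_neg,
      AddValuation.map_pow, ht, hE] at h
    rw [h]; push_cast; rfl
  have ht2 : t = 2 * E := by exact_mod_cast h4
  -- `T ^ κ = u * ϖ ^ 2` gives `κ * t = 2`
  have h6 : ((κ * t : ℕ) : ℕ∞) = ((2 : ℕ) : ℕ∞) := by
    have h := congrArg (addVal O) hT
    rw [← hu', AddValuation.map_mul, addVal_eq_zero_of_unit, zero_add, AddValuation.map_pow,
      AddValuation.map_pow, addVal_uniformizer hϖ, ht] at h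
    push_cast
    simpa using h
  have htκ : κ * t = 2 := by exact_mod_cast h6
  have hEκ : κ * E = 1 := by
    rw [ht2] at htκ
    nlinarith [htκ]
  have hE1 : E = 1 := Nat.eq_one_of_mul_eq_one_left hEκ
  have hκ1 : κ = 1 := Nat.eq_one_of_mul_eq_one_right hEκ
  refine ⟨hκ1, ?_⟩
  rw [hE1] at hE
  have hs1 : addVal O s = addVal O ϖ := by rw [hE, addVal_uniformizer hϖ]; rfl
  exact (addVal_eq_iff_associated s ϖ).mp hs1

end Fermat.Agent.S36
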