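/-
S36 lab, row 587 LVL-descent support (helper17, seat 17).

The CONCRETE binding of `kd17_descent` (S36/KummerDescent17) on the modular function field:

`kb17_descent`: let `A` be a valuation subring of `ℚ̄` over the prime `q` and `f ≠ 0` in
`F̄(M)` such that `σ̂ f = f * h_σ ^ m` for every `σ` in the inertia group of `A`.  Then there is
a number field `K0 ⊆ ℚ̄` fixed pointwise by inertia, in which `q` is a uniformizer of `A ∩ K0`,
a constant `a ≠ 0` and `k ≠ 0` in `F̄(M)` such that `a * f * k ^ m` is fixed (coefficientwise) by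
every `σ` fixing `K0` pointwise.

Ingredients: `rs45_exists` (a finite Galois field of definition of `f`), `du77_inertia_field`
(the inertia field with the lifting clause), finiteness of the set of embeddings of a number
field, `kd17_descent`.
-/
import Mathlib
import Fermat.Agent.S34.RatSupp45
import Fermat.Agent.S36.DescentUnr77
import Fermat.Agent.S36.KummerDescent17

set_option autoImplicit false
set_option linter.unusedSectionVars false
set_option linter.style.longLine false
set_option linter.style.haveILetI false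

open ModularCurve AlgebraicCurve

namespace Fermat.Agent.S36

open Fermat.Agent.S18 Fermat.Agent.S34

local notation "Qb" => AlgebraicClosure ℚ
local notation "GQ" => AlgebraicClosure ℚ ≃ₐ[ℚ] AlgebraicClosure ℚ

/-- An automorphism fixing `L` pointwise fixes the base change of a series with coefficients
in `L`. -/
theorem kb17_coeffMap_fix (L : IntermediateField ℚ Qb) (y : LaurentSeries L) (h : GQ)
    (hh : ∀ x ∈ L, h x = x) :
    coeffMap (h : Qb →+* Qb) (coeffMap (algebraMap L Qb) y) = coeffMap (algebraMap L Qb) y := by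
  ext k
  rw [coeffMap_coeff, coeffMap_coeff]
  exact hh _ (y.coeff k).2

/-- The coercion of `a * f * k ^ m` to Laurent series. -/
theorem kb17_coe (M : ℕ) (a : Qb) (f k : ↥(modularFunctionFieldBar M)) (m : ℕ) :
    ((algebraMap Qb ↥(modularFunctionFieldBar M) a * f * k ^ m :
        ↥(modularFunctionFieldBar M)) : LaurentSeries Qb) =
      HahnSeries.C a * (f : LaurentSeries Qb) * (k : LaurentSeries Qb) ^ m := by
  have h1 : ((algebraMap Qb ↥(modularFunctionFieldBar M) a : ↥(modularFunctionFieldBar M)) :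
      LaurentSeries Qb) = HahnSeries.C a := by
    rw [HahnSeries.C_apply, ← algebraMap_laurentSeries_eq_single]
    rfl
  rw [← h1]
  rfl

/-- **Kummer descent to the inertia field** (concrete form). -/
theorem kb17_descent (M : ℕ) [NeZero M] (A : ValuationSubring Qb) {q : ℕ} (hq : q.Prime)
    (hA : A.LiesOverPrime q) {m : ℕ} (hm : 0 < m)
    (f : ↥(modularFunctionFieldBar M)) (hf : f ≠ 0)
    (hK : ∀ σ ∈ A.inertiaSubgroupIn ℚ, ∃ h : ↥(modularFunctionFieldBar M),
      arithmeticRingAut (modularFunctionFieldFull M) σ f = f * h ^ m) :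
    ∃ K0 : IntermediateField ℚ Qb, FiniteDimensional ℚ K0 ∧
      (∀ σ ∈ A.inertiaSubgroupIn ℚ, ∀ y ∈ K0, σ y = y) ∧
      (∀ y ∈ K0, y ∈ A.nonunits → ∃ z ∈ K0, z ∈ A ∧ y = q * z) ∧
      ∃ (a : Qb) (k : ↥(modularFunctionFieldBar M)), a ≠ 0 ∧ k ≠ 0 ∧
        ∀ σ : GQ, (∀ y ∈ K0, σ y = y) →
          arithmeticRingAut (modularFunctionFieldFull M) σ
              (algebraMap Qb ↥(modularFunctionFieldBar M) a * f * k ^ m) =
            algebraMap Qb ↥(modularFunctionFieldBar M) a * f * k ^ m := by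
  obtain ⟨L, hLfin, hLgal, -, ⟨fL, hfL⟩, -⟩ := rs45_exists M f ∅
  haveI := hLfin
  haveI := hLgal
  obtain ⟨K0, hK0L, ha, hb, -, hd⟩ := du77_inertia_field A hq hA L
  have hK0fin : FiniteDimensional ℚ K0 :=
    FiniteDimensional.of_injective (IntermediateField.inclusion hK0L).toLinearMap
      (IntermediateField.inclusion hK0L).injective
  refine ⟨K0, hK0fin, ha, hb, ?_⟩
  have hfcoe : (f : LaurentSeries Qb) = coeffMap (algebraMap L Qb) (fL : LaurentSeries L) := by
    rw [← hfL]
    rfl
  have hf0 : (f : LaurentSeries Qb) ≠ 0 := fun h => hf (Subtype.ext h)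
  let φ : K0.fixingSubgroup → Qb →+* Qb := fun g => ((g : GQ) : Qb →+* Qb)
  have hφ : ∀ g h : K0.fixingSubgroup, φ (g * h) = (φ g).comp (φ h) :=
    fun g h => RingHom.ext fun _ => rfl
  have hKall : ∀ g : K0.fixingSubgroup, ∃ h ∈ modularFunctionFieldBar M,
      coeffMap (φ g) (f : LaurentSeries Qb) = (f : LaurentSeries Qb) * h ^ m := by
    intro g
    have hg : ∀ x ∈ K0, (g : GQ) x = x :=
      (IntermediateField.mem_fixingSubgroup_iff K0 (g : GQ)).mp g.2
    obtain ⟨h, hh, hin⟩ := hd (g : GQ) hg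
    obtain ⟨k, hk⟩ := hK _ hin
    have hk' : coeffMap ((h * (g : GQ) : GQ) : Qb →+* Qb) (f : LaurentSeries Qb) =
        (f : LaurentSeries Qb) * (k : LaurentSeries Qb) ^ m := congrArg Subtype.val hk
    have h1 : coeffMap ((h : GQ) : Qb →+* Qb) (coeffMap (φ g) (f : LaurentSeries Qb)) =
        (f : LaurentSeries Qb) * (k : LaurentSeries Qb) ^ m := by
      rw [coeffMap_coeffMap]
      exact hk'
    have hinvfix : ∀ x ∈ L, (h⁻¹ : GQ) x = x := by
      intro x hx
      calc (h⁻¹ : GQ) x = (h⁻¹ : GQ) (h x) := by rw [hh x hx]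
        _ = x := h.symm_apply_apply x
    have h2 := congrArg (coeffMap ((h⁻¹ : GQ) : Qb →+* Qb)) h1
    have h3 : ((h⁻¹ : GQ) : Qb →+* Qb).comp ((h : GQ) : Qb →+* Qb) = RingHom.id Qb :=
      RingHom.ext fun x => h.symm_apply_apply x
    rw [coeffMap_coeffMap, map_mul, map_pow, h3, coeffMap_id, hfcoe,
      kb17_coeffMap_fix L _ h⁻¹ hinvfix, ← hfcoe] at h2
    exact ⟨coeffMap ((h⁻¹ : GQ) : Qb →+* Qb) (k : LaurentSeries Qb),
      coeffMap_mem_laurentBaseChange h⁻¹ k.2, h2⟩
  have hfin : (Set.range fun g : K0.fixingSubgroup =>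
      coeffMap (φ g) (f : LaurentSeries Qb)).Finite := by
    haveI : Finite (↥L →+* Qb) := Finite.of_equiv (↥L →ₐ[ℚ] Qb) (RingHom.equivRatAlgHom ↥L Qb).symm
    refine (Set.finite_range (fun ψ : ↥L →+* Qb => coeffMap ψ (fL : LaurentSeries L))).subset ?_
    rintro _ ⟨g, rfl⟩
    refine ⟨(φ g).comp (algebraMap L Qb), ?_⟩
    show coeffMap ((φ g).comp (algebraMap L Qb)) (fL : LaurentSeries L) =
      coeffMap (φ g) (f : LaurentSeries Qb)
    rw [hfcoe, coeffMap_coeffMap]
  obtain ⟨a, ha0, k, hkF, hk0, hinv⟩ :=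
    kd17_descent φ hφ (modularFunctionFieldBar M) hm hf0 hKall hfin
  refine ⟨a, ⟨k, hkF⟩, ha0, fun h => hk0 (congrArg Subtype.val h), fun σ hσ => ?_⟩
  apply Subtype.ext
  have hσmem : σ ∈ K0.fixingSubgroup := (IntermediateField.mem_fixingSubgroup_iff K0 σ).mpr hσ
  rw [coe_arithmeticRingAut_apply, kb17_coe]
  exact hinv ⟨σ, hσmem⟩

end Fermat.Agent.S36
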