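import Fermat.Agent.S36.LemmaKVal30

/-!
# S36 lab (helper30): LEMMA K in the literal shape `hK` of `abv94_intrinsic` (row 595 / 605)

`hK : ∀ x : F', Vi.valuation x = 1 → ∀ c, Vi.valuation (x ^ m - c' c) < 1 →
      ∃ a, Vi.valuation (x - c' a) < 1`
with `Kx := Rˣ`, `c' : Rˣ →* F'ˣ` the constants.

* `lk30_hK_gen` : for ANY `c' : Rˣ →* Fˣ` with `(c' c : F) = algebraMap R F c`, on
  `Vi = cm85_Vinf M hπ` (any level `M`), `m` a unit of `R`.
* `lk30_hK` : the instance `c' = Units.map (algebraMap R F : R →* F)`.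
* `lk30_hK0_gen`, `lk30_hK0` : the same on `V_0 = s34i47c_V0` (level `M' q`).
-/

set_option autoImplicit false
set_option linter.unusedSectionVars false

open ModularCurve

namespace Fermat.Agent.S36

open Fermat.Agent.S18 Fermat.Agent.S34

local notation "Q̄" => AlgebraicClosure ℚ

section lk30abv

variable {R K : Type} [CommRing R] [IsDomain R] [IsDiscreteValuationRing R] [Field K]
  [Algebra R K] [IsFractionRing R K] (M : ℕ) [NeZero M]
  [Algebra R ↥(modularFunctionFieldFullC K M)]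
  [IsScalarTower R K ↥(modularFunctionFieldFullC K M)]

/-- LEMMA K on `V_∞` in the shape `x ^ m ≡ c ⟹ x ≡ a` (constants `algebraMap R F` of units). -/
theorem lk30_Vinf_root' {π : R} (hπ : Irreducible π) (m : ℕ) (hm : IsUnit (m : R))
    (x : ↥(modularFunctionFieldFullC K M)) (c : Rˣ)
    (h : (cm85_Vinf (K := K) M hπ).valuation
      (x ^ m - algebraMap R ↥(modularFunctionFieldFullC K M) (c : R)) < 1) :
    ∃ a : Rˣ, (cm85_Vinf (K := K) M hπ).valuation
      (x - algebraMap R ↥(modularFunctionFieldFullC K M) (a : R)) < 1 := by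
  have hconv : ∀ r : R, algebraMap K ↥(modularFunctionFieldFullC K M) (algebraMap R K r) =
      algebraMap R ↥(modularFunctionFieldFullC K M) r :=
    fun r => (IsScalarTower.algebraMap_apply R K ↥(modularFunctionFieldFullC K M) r).symm
  -- `c⁻¹ x ^ m ≡ 1`
  have hcinv : algebraMap R ↥(modularFunctionFieldFullC K M) ((c⁻¹ : Rˣ) : R) ∈
      cm85_Vinf (K := K) M hπ := pk85_hRV (K := K) M hπ _
  have h1 : (cm85_Vinf (K := K) M hπ).valuation
      (algebraMap K ↥(modularFunctionFieldFullC K M) (algebraMap R K ((c⁻¹ : Rˣ) : R)) * x ^ m - 1)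
        < 1 := by
    have h2 : algebraMap K ↥(modularFunctionFieldFullC K M) (algebraMap R K ((c⁻¹ : Rˣ) : R)) *
        x ^ m - 1 = algebraMap R ↥(modularFunctionFieldFullC K M) ((c⁻¹ : Rˣ) : R) *
          (x ^ m - algebraMap R ↥(modularFunctionFieldFullC K M) (c : R)) := by
      rw [hconv, mul_sub, ← map_mul, Units.inv_mul, map_one]
    rw [h2, map_mul]
    calc (cm85_Vinf (K := K) M hπ).valuation
          (algebraMap R ↥(modularFunctionFieldFullC K M) ((c⁻¹ : Rˣ) : R)) *
          (cm85_Vinf (K := K) M hπ).valuation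
            (x ^ m - algebraMap R ↥(modularFunctionFieldFullC K M) (c : R))
        ≤ 1 * (cm85_Vinf (K := K) M hπ).valuation
            (x ^ m - algebraMap R ↥(modularFunctionFieldFullC K M) (c : R)) :=
          mul_le_mul' ((ValuationSubring.valuation_le_one_iff _ _).mpr hcinv) le_rfl
      _ < 1 := by rw [one_mul]; exact h
  obtain ⟨t, -, ht⟩ := lk30_Vinf_root (K := K) M hπ m hm x c⁻¹ h1
  refine ⟨t, ?_⟩
  rw [← hconv]
  exact ht

/-- **`hK` of `abv94_intrinsic`** on `V_∞ = cm85_Vinf M hπ`, for any constant map `c'`. -/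
theorem lk30_hK_gen {π : R} (hπ : Irreducible π) (m : ℕ) (hm : IsUnit (m : R))
    (c' : Rˣ →* (↥(modularFunctionFieldFullC K M))ˣ)
    (hc' : ∀ c : Rˣ, ((c' c : (↥(modularFunctionFieldFullC K M))ˣ) :
      ↥(modularFunctionFieldFullC K M)) = algebraMap R ↥(modularFunctionFieldFullC K M) (c : R)) :
    ∀ x : ↥(modularFunctionFieldFullC K M), (cm85_Vinf (K := K) M hπ).valuation x = 1 →
      ∀ c : Rˣ, (cm85_Vinf (K := K) M hπ).valuation
        (x ^ m - ((c' c : (↥(modularFunctionFieldFullC K M))ˣ) :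
          ↥(modularFunctionFieldFullC K M))) < 1 →
      ∃ a : Rˣ, (cm85_Vinf (K := K) M hπ).valuation
        (x - ((c' a : (↥(modularFunctionFieldFullC K M))ˣ) :
          ↥(modularFunctionFieldFullC K M))) < 1 := by
  intro x _ c h
  rw [hc'] at h
  obtain ⟨a, ha⟩ := lk30_Vinf_root' (K := K) M hπ m hm x c h
  exact ⟨a, by rw [hc']; exact ha⟩

/-- **`hK` of `abv94_intrinsic`** with `c' = Units.map (algebraMap R F)`. -/
theorem lk30_hK {π : R} (hπ : Irreducible π) (m : ℕ) (hm : IsUnit (m : R)) :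
    ∀ x : ↥(modularFunctionFieldFullC K M), (cm85_Vinf (K := K) M hπ).valuation x = 1 →
      ∀ c : Rˣ, (cm85_Vinf (K := K) M hπ).valuation
        (x ^ m - ((Units.map (algebraMap R ↥(modularFunctionFieldFullC K M) :
          R →* ↥(modularFunctionFieldFullC K M)) c : (↥(modularFunctionFieldFullC K M))ˣ) :
          ↥(modularFunctionFieldFullC K M))) < 1 →
      ∃ a : Rˣ, (cm85_Vinf (K := K) M hπ).valuation
        (x - ((Units.map (algebraMap R ↥(modularFunctionFieldFullC K M) :
          R →* ↥(modularFunctionFieldFullC K M)) a : (↥(modularFunctionFieldFullC K M))ˣ) :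
          ↥(modularFunctionFieldFullC K M))) < 1 :=
  lk30_hK_gen (K := K) M hπ m hm _ (fun _ => rfl)

end lk30abv

section lk30abvzero

variable {R K : Type} [CommRing R] [IsDomain R] [IsDiscreteValuationRing R] [Field K]
  [Algebra R K] [IsFractionRing R K] [Algebra K Q̄]
  (M' q : ℕ) [NeZero M'] [NeZero q] (hq : q.Prime) (hM' : ¬ q ∣ M')
  [Algebra R ↥(modularFunctionFieldFullC K (M' * q))]
  [IsScalarTower R K ↥(modularFunctionFieldFullC K (M' * q))]

/-- LEMMA K on `V_0` in the shape `x ^ m ≡ c ⟹ x ≡ a`. -/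
theorem lk30_V0_root' {π : R} (hπ : Irreducible π) (m : ℕ) (hm : IsUnit (m : R))
    (x : ↥(modularFunctionFieldFullC K (M' * q))) (c : Rˣ)
    (h : (s34i47c_V0 (K := K) M' q hq hM' hπ).valuation
      (x ^ m - algebraMap R ↥(modularFunctionFieldFullC K (M' * q)) (c : R)) < 1) :
    ∃ a : Rˣ, (s34i47c_V0 (K := K) M' q hq hM' hπ).valuation
      (x - algebraMap R ↥(modularFunctionFieldFullC K (M' * q)) (a : R)) < 1 := by
  rw [lk30_V0_valuation_eq, map_sub, map_pow, wc30_w_algebraMap] at h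
  obtain ⟨a, ha⟩ := lk30_Vinf_root' (K := K) (M' * q) hπ m hm _ c h
  refine ⟨a, ?_⟩
  rw [lk30_V0_valuation_eq, map_sub, wc30_w_algebraMap]
  exact ha

/-- **`hK`** on `V_0 = s34i47c_V0`, for any constant map `c'`. -/
theorem lk30_hK0_gen {π : R} (hπ : Irreducible π) (m : ℕ) (hm : IsUnit (m : R))
    (c' : Rˣ →* (↥(modularFunctionFieldFullC K (M' * q)))ˣ)
    (hc' : ∀ c : Rˣ, ((c' c : (↥(modularFunctionFieldFullC K (M' * q)))ˣ) :
      ↥(modularFunctionFieldFullC K (M' * q))) =
        algebraMap R ↥(modularFunctionFieldFullC K (M' * q)) (c : R)) :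
    ∀ x : ↥(modularFunctionFieldFullC K (M' * q)),
      (s34i47c_V0 (K := K) M' q hq hM' hπ).valuation x = 1 →
      ∀ c : Rˣ, (s34i47c_V0 (K := K) M' q hq hM' hπ).valuation
        (x ^ m - ((c' c : (↥(modularFunctionFieldFullC K (M' * q)))ˣ) :
          ↥(modularFunctionFieldFullC K (M' * q)))) < 1 →
      ∃ a : Rˣ, (s34i47c_V0 (K := K) M' q hq hM' hπ).valuation
        (x - ((c' a : (↥(modularFunctionFieldFullC K (M' * q)))ˣ) :
          ↥(modularFunctionFieldFullC K (M' * q)))) < 1 := by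
  intro x _ c h
  rw [hc'] at h
  obtain ⟨a, ha⟩ := lk30_V0_root' (K := K) M' q hq hM' hπ m hm x c h
  exact ⟨a, by rw [hc']; exact ha⟩

end lk30abvzero

end Fermat.Agent.S36
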