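import Fermat.Agent.S36.LemmaKAbv30

/-!
# S36 lab (helper30): LEMMA K in the `nonunits` shape `hK` of `abv94_of_nonunits` / `abv94_of_fov`

`hK : ∀ x ∈ Vi, x⁻¹ ∈ Vi → x ≠ 0 → ∀ c, x ^ m - (c' c : F') ∈ Vi.nonunits →
      ∃ a, x - (c' a : F') ∈ Vi.nonunits`   (`Kx := Rˣ`).

* `lk30_hK_nu_gen` : `Vi = cm85_Vinf M hπ` (any level), any `c' : Rˣ →* Fˣ` with
  `(c' c : F) = algebraMap R F c`.
* `lk30_hK0_nu_gen` : the same on `V_0 = s34i47c_V0`.
-/

set_option autoImplicit false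
set_option linter.unusedSectionVars false

open ModularCurve

namespace Fermat.Agent.S36

open Fermat.Agent.S18 Fermat.Agent.S34

local notation "Q̄" => AlgebraicClosure ℚ

section lk30nu

variable {R K : Type} [CommRing R] [IsDomain R] [IsDiscreteValuationRing R] [Field K]
  [Algebra R K] [IsFractionRing R K] (M : ℕ) [NeZero M]
  [Algebra R ↥(modularFunctionFieldFullC K M)]
  [IsScalarTower R K ↥(modularFunctionFieldFullC K M)]

theorem lk30_hK_nu_gen {π : R} (hπ : Irreducible π) (m : ℕ) (hm : IsUnit (m : R))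
    (c' : Rˣ →* (↥(modularFunctionFieldFullC K M))ˣ)
    (hc' : ∀ c : Rˣ, ((c' c : (↥(modularFunctionFieldFullC K M))ˣ) :
      ↥(modularFunctionFieldFullC K M)) = algebraMap R ↥(modularFunctionFieldFullC K M) (c : R)) :
    ∀ x ∈ cm85_Vinf (K := K) M hπ, x⁻¹ ∈ cm85_Vinf (K := K) M hπ → x ≠ 0 →
      ∀ c : Rˣ, x ^ m - ((c' c : (↥(modularFunctionFieldFullC K M))ˣ) :
          ↥(modularFunctionFieldFullC K M)) ∈ (cm85_Vinf (K := K) M hπ).nonunits →
      ∃ a : Rˣ, x - ((c' a : (↥(modularFunctionFieldFullC K M))ˣ) :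
          ↥(modularFunctionFieldFullC K M)) ∈ (cm85_Vinf (K := K) M hπ).nonunits := by
  intro x _ _ _ c h
  rw [ValuationSubring.mem_nonunits_iff, hc'] at h
  obtain ⟨a, ha⟩ := lk30_Vinf_root' (K := K) M hπ m hm x c h
  exact ⟨a, by rw [ValuationSubring.mem_nonunits_iff, hc']; exact ha⟩

end lk30nu

section lk30nuzero

variable {R K : Type} [CommRing R] [IsDomain R] [IsDiscreteValuationRing R] [Field K]
  [Algebra R K] [IsFractionRing R K] [Algebra K Q̄]
  (M' q : ℕ) [NeZero M'] [NeZero q] (hq : q.Prime) (hM' : ¬ q ∣ M')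
  [Algebra R ↥(modularFunctionFieldFullC K (M' * q))]
  [IsScalarTower R K ↥(modularFunctionFieldFullC K (M' * q))]

theorem lk30_hK0_nu_gen {π : R} (hπ : Irreducible π) (m : ℕ) (hm : IsUnit (m : R))
    (c' : Rˣ →* (↥(modularFunctionFieldFullC K (M' * q)))ˣ)
    (hc' : ∀ c : Rˣ, ((c' c : (↥(modularFunctionFieldFullC K (M' * q)))ˣ) :
      ↥(modularFunctionFieldFullC K (M' * q))) =
        algebraMap R ↥(modularFunctionFieldFullC K (M' * q)) (c : R)) :
    ∀ x ∈ s34i47c_V0 (K := K) M' q hq hM' hπ, x⁻¹ ∈ s34i47c_V0 (K := K) M' q hq hM' hπ → x ≠ 0 →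
      ∀ c : Rˣ, x ^ m - ((c' c : (↥(modularFunctionFieldFullC K (M' * q)))ˣ) :
          ↥(modularFunctionFieldFullC K (M' * q))) ∈
            (s34i47c_V0 (K := K) M' q hq hM' hπ).nonunits →
      ∃ a : Rˣ, x - ((c' a : (↥(modularFunctionFieldFullC K (M' * q)))ˣ) :
          ↥(modularFunctionFieldFullC K (M' * q))) ∈
            (s34i47c_V0 (K := K) M' q hq hM' hπ).nonunits := by
  intro x _ _ _ c h
  rw [ValuationSubring.mem_nonunits_iff, hc'] at h
  obtain ⟨a, ha⟩ := lk30_V0_root' (K := K) M' q hq hM' hπ m hm x c h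
  exact ⟨a, by rw [ValuationSubring.mem_nonunits_iff, hc']; exact ha⟩

end lk30nuzero

end Fermat.Agent.S36
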