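import Fermat.Agent.S36.LevelNormQ52
import Fermat.Agent.S36.JacInv17

/-!
# S36 lab (helper52): LVL-rigid — the level change for (FF-INV)

Row 586.  `ji17_FFInv N q m c` (JacInv17, helper17) is the function-field form of (INV) at level
`N * q` (`N = q M'` in the application, but nothing here uses it).

* `lq52_ffInv_mul_prime` : for a prime `s ∤ N q`:
  `ji17_FFInv (N * s) q m c → ji17_FFInv N q m (c * (s + 1))`.
  Proof: `ι f ∈ F(N s q)` satisfies the hypotheses at level `N s`: orders by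
  `Place.ord_restrictAlong`, the two norm conditions by `lq52_norm_alpha` / `lq52_norm_beta`
  (LevelNormQ52: the norms along `α_q`, `β_q` commute with raising the level, `q ∣ N` allowed),
  inertia by `lv52_arith_iota`; then `(ι f)^c = g₁^m`, and the norm from `F(N s q)` to `F(N q)`
  (degree `s + 1`) gives `f^(c (s+1)) = N(g₁)^m`.  No coprimality with `m` is needed.
* `lq52_ffInv_mono` : the constant may be enlarged.
* `lq52_ffInv_lcm_prime` : the same for `N'' = lcm(N, s)`, `s ≠ q` prime (whether `s ∣ N` or not).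
* `lq52_ffInv_rigid` : two primes `p₀ ≠ r`, both `≠ q`: (FF-INV) at `N'' = lcm(N, p₀ r)` with
  constant `c` gives (FF-INV) at `N` with constant `c * (r + 1) * (p₀ + 1)`.
-/

set_option autoImplicit false
set_option linter.style.haveILetI false
set_option linter.style.longLine false

open ModularCurve AlgebraicCurve IntermediateField
open Fermat.Agent.S24 Fermat.Agent.S28 Fermat.Agent.S18 Fermat.Agent.S37 Fermat.Agent.S35

namespace Fermat.Agent.S36

local notation "Qb" => AlgebraicClosure ℚ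

/-- Abstract: the norm of an `m`-th root of `u ^ c` (Mathlib only). -/
theorem lq52_pow_norm {F F' : Type*} [Field F] [Field F'] [Algebra F F']
    [FiniteDimensional F F'] {m c : ℕ} (u : F) (g₁ : F')
    (hg : g₁ ^ m = algebraMap F F' u ^ c) :
    Algebra.norm F g₁ ^ m = u ^ (c * Module.finrank F F') := by
  rw [← map_pow, hg, ← map_pow, Algebra.norm_algebraMap, ← pow_mul]

/-- The constant of (FF-INV) may be enlarged. -/
theorem lq52_ffInv_mono {N q m c : ℕ} [NeZero N] [NeZero q] (k : ℕ)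
    (h : ji17_FFInv N q m c) : ji17_FFInv N q m (c * k) := by
  intro A hA f hf hord ha hb hI
  obtain ⟨g, hg⟩ := h A hA f hf hord ha hb hI
  exact ⟨g ^ k, by rw [← pow_mul, mul_comm k m, pow_mul, hg, ← pow_mul]⟩

/-- **Level change for (FF-INV), one prime**: for a prime `s ∤ N q`, (FF-INV) at level `N s`
with constant `c` gives (FF-INV) at level `N` with constant `c * (s + 1)`. -/
theorem lq52_ffInv_mul_prime {N q s m c : ℕ} [NeZero N] [NeZero q] [NeZero s]
    (hs : s.Prime) (hsNq : ¬ s ∣ N * q)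
    (h : haveI : NeZero (N * s) := ⟨Nat.mul_ne_zero (NeZero.ne N) (NeZero.ne s)⟩
      ji17_FFInv (N * s) q m c) :
    ji17_FFInv N q m (c * (s + 1)) := by
  haveI : NeZero (N * s) := ⟨Nat.mul_ne_zero (NeZero.ne N) (NeZero.ne s)⟩
  haveI : NeZero (N * q) := ⟨Nat.mul_ne_zero (NeZero.ne N) (NeZero.ne q)⟩
  intro A hA f hf hord ha hb hI
  have hd1 : N ∣ N * s := dvd_mul_right N s
  have hd : N * q ∣ N * s * q := Nat.mul_dvd_mul_right hd1 q
  obtain ⟨a, ha⟩ := ha
  obtain ⟨b, hb⟩ := hb
  have hf₁ : tv1_iota hd f ≠ 0 := (map_ne_zero (tv1_iota hd)).mpr hf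
  have hord₁ : ∀ v : Place Qb ↥(modularFunctionFieldBar (N * s * q)),
      (m : ℤ) ∣ v.ord (tv1_iota hd f) := by
    intro v
    rw [Place.ord_restrictAlong (tv1_iota hd) (tv1_iota_integral hd) v f]
    exact Dvd.dvd.mul_left (hord _) _
  have ha₁ : ∃ a₁ : ↥(modularFunctionFieldBar (N * s)),
      s35i62_normABar (N * s) q (tv1_iota hd f) = a₁ ^ m := by
    refine ⟨tv1_iota hd1 a, ?_⟩
    have h1 := lq52_norm_alpha (N := N) (q := q) (s := s) hs hsNq f
    have h2 : s35i62_normABar N q f = a ^ m := ha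
    rw [← map_pow, ← h2]
    exact h1
  have hb₁ : ∃ b₁ : ↥(modularFunctionFieldBar (N * s)),
      s35i62_normBBar (N * s) q (tv1_iota hd f) = b₁ ^ m := by
    refine ⟨tv1_iota hd1 b, ?_⟩
    have h1 := lq52_norm_beta (N := N) (q := q) (s := s) hs hsNq f
    have h2 : s35i62_normBBar N q f = b ^ m := hb
    rw [← map_pow, ← h2]
    exact h1
  have hI₁ : ∀ σ ∈ A.inertiaSubgroupIn ℚ, ∃ h₁ : ↥(modularFunctionFieldBar (N * s * q)),
      arithmeticRingAut (modularFunctionFieldFull (N * s * q)) σ (tv1_iota hd f) =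
        tv1_iota hd f * h₁ ^ m := by
    intro σ hσ
    obtain ⟨h₀, hh₀⟩ := hI σ hσ
    refine ⟨tv1_iota hd h₀, ?_⟩
    rw [lv52_arith_iota hd σ f, hh₀, map_mul, map_pow]
  obtain ⟨g₁, hg₁⟩ := h A hA (tv1_iota hd f) hf₁ hord₁ ha₁ hb₁ hI₁
  -- norm down
  letI := algebraAlong (tv1_iota hd)
  haveI : Module.Finite ↥(modularFunctionFieldBar (N * q)) ↥(modularFunctionFieldBar (N * s * q)) :=
    tv1_iota_finite hd
  have hfr : Module.finrank ↥(modularFunctionFieldBar (N * q))
      ↥(modularFunctionFieldBar (N * s * q)) = s + 1 := by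
    have h1 : Module.finrank ↥(modularFunctionFieldBar (N * q))
        ↥(modularFunctionFieldBar (N * s * q)) =
        dedekindPsi (N * s * q) / dedekindPsi (N * q) := tv1_finrank hd
    rw [h1, Nat.mul_right_comm N s q, S34.lc52_psi_mul_prime hs hsNq]
  refine ⟨Algebra.norm ↥(modularFunctionFieldBar (N * q)) g₁, ?_⟩
  have h4 := lq52_pow_norm (F := ↥(modularFunctionFieldBar (N * q)))
    (F' := ↥(modularFunctionFieldBar (N * s * q))) (m := m) (c := c) f g₁ hg₁
  rw [hfr] at h4
  exact h4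

/-! ### Adjoining a prime to the level -/

/-- The level `N` with the prime `s` adjoined: `N` if `s ∣ N`, else `N * s`. -/
def lq52_lvl (N s : ℕ) : ℕ := if s ∣ N then N else N * s

theorem lq52_lvl_ne_zero {N s : ℕ} (hN : N ≠ 0) (hs : s ≠ 0) : lq52_lvl N s ≠ 0 := by
  unfold lq52_lvl
  split_ifs
  · exact hN
  · exact Nat.mul_ne_zero hN hs

theorem lq52_dvd_lvl (N s : ℕ) : N ∣ lq52_lvl N s := by
  unfold lq52_lvl
  split_ifs
  · exact dvd_rfl
  · exact dvd_mul_right N s

theorem lq52_self_dvd_lvl (N s : ℕ) : s ∣ lq52_lvl N s := by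
  unfold lq52_lvl
  split_ifs with h
  · exact h
  · exact dvd_mul_left s N

/-- Adjoining a prime `s ≠ q` does not change the `q`-part of the level. -/
theorem lq52_sq_dvd_lvl {N s q : ℕ} (hq : q.Prime) (hs : s.Prime) (hsq : s ≠ q)
    (h : q ^ 2 ∣ lq52_lvl N s) : q ^ 2 ∣ N := by
  unfold lq52_lvl at h
  split_ifs at h
  · exact h
  · have hcop : Nat.Coprime (q ^ 2) s :=
      Nat.Coprime.pow_left 2 ((Nat.coprime_primes hq hs).mpr (fun e => hsq e.symm))
    exact hcop.dvd_of_dvd_mul_right h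

/-- **Level change for (FF-INV), one prime adjoined**: for primes `s ≠ q`, (FF-INV) at the level
`N'' = lq52_lvl N s` with constant `c` gives (FF-INV) at level `N` with constant `c * (s + 1)`. -/
theorem lq52_ffInv_lvl {N q s m c : ℕ} [NeZero N] [NeZero q] (hq : q.Prime) (hs : s.Prime)
    (hsq : s ≠ q) :
    ∀ (N'' : ℕ) [NeZero N''], N'' = lq52_lvl N s → ji17_FFInv N'' q m c →
      ji17_FFInv N q m (c * (s + 1)) := by
  intro N'' _ hN'' h
  by_cases hsN : s ∣ N
  · have e : N'' = N := by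
      rw [hN'']
      unfold lq52_lvl
      rw [if_pos hsN]
    subst e
    exact lq52_ffInv_mono (s + 1) h
  · have e : N'' = N * s := by
      rw [hN'']
      unfold lq52_lvl
      rw [if_neg hsN]
    subst e
    haveI : NeZero s := ⟨hs.ne_zero⟩
    have hsNq : ¬ s ∣ N * q := by
      intro hd
      rcases (Nat.Prime.dvd_mul hs).mp hd with h1 | h1
      · exact hsN h1
      · exact hsq ((Nat.prime_dvd_prime_iff_eq hs hq).mp h1)
    exact lq52_ffInv_mul_prime hs hsNq h

/-- **Level change for (FF-INV) to a rigid level**: `p₀`, `r` primes different from `q`;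
(FF-INV) at the level `N₂ = lq52_lvl (lq52_lvl N p₀) r` (a multiple of `N`, `p₀`, `r` with the
same `q`-part as `N`) with constant `c` gives (FF-INV) at level `N` with constant
`c * (r + 1) * (p₀ + 1)`. -/
theorem lq52_ffInv_rigid {N q p₀ r m c : ℕ} [NeZero N] [NeZero q] (hq : q.Prime)
    (hp₀ : p₀.Prime) (hp₀q : p₀ ≠ q) (hr : r.Prime) (hrq : r ≠ q) :
    ∀ (N₂ : ℕ) [NeZero N₂], N₂ = lq52_lvl (lq52_lvl N p₀) r → ji17_FFInv N₂ q m c →
      ji17_FFInv N q m (c * (r + 1) * (p₀ + 1)) := by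
  intro N₂ _ hN₂ h
  haveI : NeZero (lq52_lvl N p₀) := ⟨lq52_lvl_ne_zero (NeZero.ne N) hp₀.ne_zero⟩
  exact lq52_ffInv_lvl hq hp₀ hp₀q (lq52_lvl N p₀) rfl (lq52_ffInv_lvl hq hr hrq N₂ hN₂ h)

end Fermat.Agent.S36
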