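import Fermat.Agent.S36.NormSwap52
import Fermat.Agent.S35.PkgLevel52

/-!
# S36 lab (helper52): level change, part 1 — the norm along `α_q` commutes with raising the
level by a prime `s ∤ N q` (no hypothesis `q ∤ N`)

For `N`, a prime `s ∤ N q`, `F(M) = modularFunctionFieldBar M`:

* `lq52_norm_alpha` : for `y ∈ F(N q)`, the norm of `ι y` from `F(N s q)` to `α_q F(N s)` is
  `ι'` of the norm of `y` from `F(N q)` to `α_q F(N)`.

Proof: `lv52_norm_alpha` (S35, on main) is the same statement with the roles of `q` and `s`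
exchanged (the norm along `α_s` commutes with the inclusion of level `N s` into level `N q s`;
there `s ∤ N q` is exactly its hypothesis); the abstract norm swap `ns52_norm_swap_tower`
exchanges the two directions of the square.
-/

set_option autoImplicit false
set_option linter.style.haveILetI false
set_option linter.style.longLine false

open ModularCurve AlgebraicCurve IntermediateField
open Fermat.Agent.S24 Fermat.Agent.S28 Fermat.Agent.S18 Fermat.Agent.S37 Fermat.Agent.S35

namespace Fermat.Agent.S36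

local notation "Qb" => AlgebraicClosure ℚ

/-- Two algebra structures with the same structure map have the same norm. -/
theorem lq52_norm_congr {A B : Type*} [CommRing A] [Ring B] (i₁ i₂ : Algebra A B)
    (h : ∀ r : A, @algebraMap A B _ _ i₁ r = @algebraMap A B _ _ i₂ r) (x : B) :
    @Algebra.norm A B _ _ i₁ x = @Algebra.norm A B _ _ i₂ x := by
  have : i₁ = i₂ := Algebra.algebra_ext _ _ h
  subst this
  rfl

/-- The identification `F(N) = F(N')` for `N = N'`, as a ring isomorphism. -/
noncomputable def lq52_cast {N N' : ℕ} [NeZero N] [NeZero N'] (h : N = N') :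
    ↥(modularFunctionFieldBar N) ≃+* ↥(modularFunctionFieldBar N') where
  toFun := tv1_iota (dvd_of_eq h)
  invFun := tv1_iota (dvd_of_eq h.symm)
  left_inv x := Subtype.ext (by rw [tv1_coe_iota, tv1_coe_iota])
  right_inv x := Subtype.ext (by rw [tv1_coe_iota, tv1_coe_iota])
  map_mul' := map_mul _
  map_add' := map_add _

theorem lq52_cast_coe {N N' : ℕ} [NeZero N] [NeZero N'] (h : N = N')
    (x : ↥(modularFunctionFieldBar N)) :
    ((lq52_cast h x : ↥(modularFunctionFieldBar N')) : LaurentSeries Qb) =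
      (x : LaurentSeries Qb) :=
  tv1_coe_iota (dvd_of_eq h) x

section NormAlpha

variable {N q s : ℕ} [NeZero N] [NeZero q] [NeZero s]

/-- **Base change of the norm along `α_q`** under raising the level by a prime `s ∤ N q`
(`q` arbitrary, `q ∣ N` allowed). -/
theorem lq52_norm_alpha (hs : s.Prime) (hsNq : ¬ s ∣ N * q)
    (y : ↥(modularFunctionFieldBar (N * q))) :
    @Algebra.norm ↥(modularFunctionFieldBar (N * s)) ↥(modularFunctionFieldBar (N * s * q)) _ _
        (algebraAlong (heckeAlphaBar Qb (N * s) q))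
        (tv1_iota (Nat.mul_dvd_mul_right (dvd_mul_right N s) q) y) =
      tv1_iota (dvd_mul_right N s)
        (@Algebra.norm ↥(modularFunctionFieldBar N) ↥(modularFunctionFieldBar (N * q)) _ _
          (algebraAlong (heckeAlphaBar Qb N q)) y) := by
  have hsN : ¬ s ∣ N := fun h => hsNq (h.trans (dvd_mul_right N q))
  have hd1 : N ∣ N * s := dvd_mul_right N s
  have hd2 : N * q ∣ N * s * q := Nat.mul_dvd_mul_right hd1 q
  have hd3 : N ∣ N * s * q := hd1.trans (dvd_mul_right (N * s) q)
  have heq : N * q * s = N * s * q := Nat.mul_right_comm N q s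
  letI iKL : Algebra ↥(modularFunctionFieldBar N) ↥(modularFunctionFieldBar (N * s)) :=
    algebraAlong (tv1_iota hd1)
  letI iKK' : Algebra ↥(modularFunctionFieldBar N) ↥(modularFunctionFieldBar (N * q)) :=
    algebraAlong (heckeAlphaBar Qb N q)
  letI iLE : Algebra ↥(modularFunctionFieldBar (N * s)) ↥(modularFunctionFieldBar (N * s * q)) :=
    algebraAlong (heckeAlphaBar Qb (N * s) q)
  letI iK'E : Algebra ↥(modularFunctionFieldBar (N * q)) ↥(modularFunctionFieldBar (N * s * q)) :=
    algebraAlong (tv1_iota hd2)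
  letI iKE : Algebra ↥(modularFunctionFieldBar N) ↥(modularFunctionFieldBar (N * s * q)) :=
    algebraAlong (tv1_iota hd3)
  haveI : IsScalarTower ↥(modularFunctionFieldBar N) ↥(modularFunctionFieldBar (N * s))
      ↥(modularFunctionFieldBar (N * s * q)) :=
    IsScalarTower.of_algebraMap_eq (fun x => Subtype.ext (by
      show ((tv1_iota hd3 x : ↥(modularFunctionFieldBar (N * s * q))) : LaurentSeries Qb) =
        ((heckeAlphaBar Qb (N * s) q (tv1_iota hd1 x) : ↥(modularFunctionFieldBar (N * s * q))) :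
          LaurentSeries Qb)
      rw [tv1_coe_iota, coe_heckeAlphaBar, tv1_coe_iota]))
  haveI : IsScalarTower ↥(modularFunctionFieldBar N) ↥(modularFunctionFieldBar (N * q))
      ↥(modularFunctionFieldBar (N * s * q)) :=
    IsScalarTower.of_algebraMap_eq (fun x => Subtype.ext (by
      show ((tv1_iota hd3 x : ↥(modularFunctionFieldBar (N * s * q))) : LaurentSeries Qb) =
        ((tv1_iota hd2 (heckeAlphaBar Qb N q x) : ↥(modularFunctionFieldBar (N * s * q))) :
          LaurentSeries Qb)
      rw [tv1_coe_iota, tv1_coe_iota, coe_heckeAlphaBar]))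
  haveI : Module.Finite ↥(modularFunctionFieldBar N) ↥(modularFunctionFieldBar (N * s * q)) :=
    tv1_iota_finite hd3
  haveI : CharZero ↥(modularFunctionFieldBar N) :=
    charZero_of_injective_algebraMap (algebraMap Qb ↥(modularFunctionFieldBar N)).injective
  haveI : NeZero (N * q) := ⟨Nat.mul_ne_zero (NeZero.ne N) (NeZero.ne q)⟩
  -- degrees
  have hdeg : Module.finrank ↥(modularFunctionFieldBar (N * q))
      ↥(modularFunctionFieldBar (N * s * q)) =
      Module.finrank ↥(modularFunctionFieldBar N) ↥(modularFunctionFieldBar (N * s)) := by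
    have h1 : Module.finrank ↥(modularFunctionFieldBar (N * q))
        ↥(modularFunctionFieldBar (N * s * q)) =
        dedekindPsi (N * s * q) / dedekindPsi (N * q) := tv1_finrank hd2
    have h2 : Module.finrank ↥(modularFunctionFieldBar N) ↥(modularFunctionFieldBar (N * s)) =
        dedekindPsi (N * s) / dedekindPsi N := tv1_finrank hd1
    rw [h1, h2, ← heq, S34.lc52_psi_mul_prime hs hsNq, S34.lc52_psi_mul_prime hs hsN]
  -- the norm along `α_s` commutes with the inclusion (S35, on main)
  have hnorm : ∀ x : ↥(modularFunctionFieldBar (N * s)),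
      Algebra.norm ↥(modularFunctionFieldBar (N * q))
          (algebraMap ↥(modularFunctionFieldBar (N * s)) ↥(modularFunctionFieldBar (N * s * q)) x) =
        algebraMap ↥(modularFunctionFieldBar N) ↥(modularFunctionFieldBar (N * q))
          (Algebra.norm ↥(modularFunctionFieldBar N) x) := by
    intro x
    have h0 := lv52_norm_alpha (N := N) (N₁ := N * q) (ℓ := s) (dvd_mul_right N q) hs hsNq x
    have hL := @Algebra.norm_eq_of_equiv_equiv ↥(modularFunctionFieldBar (N * q))
      ↥(modularFunctionFieldBar (N * q * s)) ↥(modularFunctionFieldBar (N * q))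
      ↥(modularFunctionFieldBar (N * s * q)) _ _ _ _
      (algebraAlong (heckeAlphaBar Qb (N * q) s)) iK'E (RingEquiv.refl _) (lq52_cast heq)
      (by
        ext1 z
        apply Subtype.ext
        show ((tv1_iota hd2 z : ↥(modularFunctionFieldBar (N * s * q))) : LaurentSeries Qb) =
          ((lq52_cast heq (heckeAlphaBar Qb (N * q) s z) :
            ↥(modularFunctionFieldBar (N * s * q))) : LaurentSeries Qb)
        rw [tv1_coe_iota, lq52_cast_coe, coe_heckeAlphaBar])
      (tv1_iota (Nat.mul_dvd_mul_right (dvd_mul_right N q) s) x)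
    have hx : lq52_cast heq (tv1_iota (Nat.mul_dvd_mul_right (dvd_mul_right N q) s) x) =
        algebraMap ↥(modularFunctionFieldBar (N * s)) ↥(modularFunctionFieldBar (N * s * q)) x := by
      apply Subtype.ext
      show _ = ((heckeAlphaBar Qb (N * s) q x : ↥(modularFunctionFieldBar (N * s * q))) :
        LaurentSeries Qb)
      rw [lq52_cast_coe, tv1_coe_iota, coe_heckeAlphaBar]
    rw [hx] at hL
    have hR := lq52_norm_congr (algebraAlong (heckeAlphaBar Qb N s)) iKL (fun r => Subtype.ext (by
      show ((heckeAlphaBar Qb N s r : ↥(modularFunctionFieldBar (N * s))) : LaurentSeries Qb) =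
        ((tv1_iota hd1 r : ↥(modularFunctionFieldBar (N * s))) : LaurentSeries Qb)
      rw [coe_heckeAlphaBar, tv1_coe_iota])) x
    have h3 : Algebra.norm ↥(modularFunctionFieldBar (N * q))
        (algebraMap ↥(modularFunctionFieldBar (N * s)) ↥(modularFunctionFieldBar (N * s * q)) x) =
        tv1_iota (dvd_mul_right N q)
          (@Algebra.norm ↥(modularFunctionFieldBar N) ↥(modularFunctionFieldBar (N * s)) _ _
            (algebraAlong (heckeAlphaBar Qb N s)) x) := by
      rw [← h0]
      exact hL.symm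
    rw [h3, hR]
    apply Subtype.ext
    show _ = ((heckeAlphaBar Qb N q (Algebra.norm ↥(modularFunctionFieldBar N) x) :
      ↥(modularFunctionFieldBar (N * q))) : LaurentSeries Qb)
    rw [tv1_coe_iota, coe_heckeAlphaBar]
  have hsw := ns52_norm_swap_tower (K := ↥(modularFunctionFieldBar N))
    (L := ↥(modularFunctionFieldBar (N * s))) (K' := ↥(modularFunctionFieldBar (N * q)))
    (E := ↥(modularFunctionFieldBar (N * s * q))) hdeg hnorm y
  exact hsw

end NormAlpha

section NormBeta

variable {N q s : ℕ} [NeZero N] [NeZero q] [NeZero s]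

/-- The Atkin-Lehner involution at `s` commutes with `β_q` (`s ∤ N q`). -/
theorem lq52_wBar_beta (hs : s.Prime) (hsNq : ¬ s ∣ N * q)
    (x : ↥(modularFunctionFieldBar (N * s))) :
    haveI : NeZero (N * q) := ⟨Nat.mul_ne_zero (NeZero.ne N) (NeZero.ne q)⟩
    ((S34.al97L_wBar (N * q) s hs hsNq
        (tv1_iota (dvd_of_eq (Nat.mul_right_comm N s q)) (heckeBetaBar Qb (N * s) q x)) :
        ↥(modularFunctionFieldBar (N * q * s))) : LaurentSeries Qb) =
      qExpand Qb q ((S34.al97L_wBar N s hs (fun h => hsNq (h.trans (dvd_mul_right N q))) x :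
        ↥(modularFunctionFieldBar (N * s))) : LaurentSeries Qb) := by
  haveI : NeZero (N * q) := ⟨Nat.mul_ne_zero (NeZero.ne N) (NeZero.ne q)⟩
  haveI : NeZero (N * s) := ⟨Nat.mul_ne_zero (NeZero.ne N) (NeZero.ne s)⟩
  have hsN : ¬ s ∣ N := fun h => hsNq (h.trans (dvd_mul_right N q))
  have hsq : ¬ s ∣ q := fun h => hsNq (h.trans (dvd_mul_left q N))
  have key : (S34.al97L_wBar (N * q) s hs hsNq).comp
        ((tv1_iota (dvd_of_eq (Nat.mul_right_comm N s q))).comp (heckeBetaBar Qb (N * s) q)) =
      (tv1_iota (dvd_of_eq (Nat.mul_right_comm N s q))).comp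
        ((heckeBetaBar Qb (N * s) q).comp (S34.al97L_wBar N s hs hsN)) := by
    apply IntermediateField.algHom_ext_of_eq_adjoin Kbar (asmAb_eq_adjoin (N * s))
    rintro x ⟨d, rfl⟩
    have hdN : d.1 ∣ N * s := Nat.dvd_of_mem_divisors d.2
    have hd0 : d.1 ≠ 0 := fun h0 => by
      rw [h0, zero_dvd_iff] at hdN
      exact (NeZero.ne (N * s)) hdN
    have hdq : d.1 * q ∣ N * q * s := by
      rw [Nat.mul_right_comm N q s]
      exact Nat.mul_dvd_mul_right hdN q
    have hsw : al97_swap s (d.1 * q) = al97_swap s d.1 * q := by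
      by_cases h : s ∣ d.1
      · rw [al97_swap_of_dvd h, al97_swap_of_dvd (h.trans (dvd_mul_right d.1 q))]
        obtain ⟨c, hc⟩ := h
        rw [hc, Nat.mul_div_cancel_left _ hs.pos, Nat.mul_assoc, Nat.mul_div_cancel_left _ hs.pos]
      · have h' : ¬ s ∣ d.1 * q := fun h2 =>
          (Nat.Prime.dvd_mul hs).mp h2 |>.elim h hsq
        rw [al97_swap_of_not_dvd h, al97_swap_of_not_dvd h', Nat.mul_right_comm]
    have hsw0 : al97_swap s d.1 ≠ 0 := by
      by_cases h : s ∣ d.1
      · rw [al97_swap_of_dvd h]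
        exact (Nat.div_pos (Nat.le_of_dvd (Nat.pos_of_ne_zero hd0) h) hs.pos).ne'
      · rw [al97_swap_of_not_dvd h]
        exact Nat.mul_ne_zero hd0 hs.ne_zero
    apply Subtype.ext
    rw [AlgHom.comp_apply, AlgHom.comp_apply, AlgHom.comp_apply, AlgHom.comp_apply,
      S34.al97L_wBar_gen (N * q) s hs hsNq (d.1 * q) hdq _ (by
        rw [tv1_coe_iota, coe_heckeBetaBar]
        exact al97_JJ_mul d.1 q hd0),
      tv1_coe_iota, coe_heckeBetaBar, S34.al97L_wBar_gen N s hs hsN d.1 hdN _ rfl,
      al97_JJ_mul _ q hsw0, hsw]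
  have := congrArg (fun φ : ↥(modularFunctionFieldBar (N * s)) →ₐ[Kbar]
    ↥(modularFunctionFieldBar (N * q * s)) => ((φ x : ↥(modularFunctionFieldBar (N * q * s))) :
      LaurentSeries Kbar)) key
  simpa using this

/-- **The norm along `α_s` commutes with `β_q`** (`s ∤ N q`). -/
theorem lq52_norm_alpha_beta (hs : s.Prime) (hsNq : ¬ s ∣ N * q)
    (x : ↥(modularFunctionFieldBar (N * s))) :
    haveI : NeZero (N * q) := ⟨Nat.mul_ne_zero (NeZero.ne N) (NeZero.ne q)⟩
    @Algebra.norm ↥(modularFunctionFieldBar (N * q)) ↥(modularFunctionFieldBar (N * q * s)) _ _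
        (algebraAlong (heckeAlphaBar Qb (N * q) s))
        (tv1_iota (dvd_of_eq (Nat.mul_right_comm N s q)) (heckeBetaBar Qb (N * s) q x)) =
      heckeBetaBar Qb N q
        (@Algebra.norm ↥(modularFunctionFieldBar N) ↥(modularFunctionFieldBar (N * s)) _ _
          (algebraAlong (heckeAlphaBar Qb N s)) x) := by
  haveI : NeZero (N * q) := ⟨Nat.mul_ne_zero (NeZero.ne N) (NeZero.ne q)⟩
  haveI : NeZero (s * q) := ⟨Nat.mul_ne_zero (NeZero.ne s) (NeZero.ne q)⟩
  haveI : NeZero (q * s) := ⟨Nat.mul_ne_zero (NeZero.ne q) (NeZero.ne s)⟩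
  have hsN : ¬ s ∣ N := fun h => hsNq (h.trans (dvd_mul_right N q))
  have hsq : ¬ s ∣ q := fun h => hsNq (h.trans (dvd_mul_left q N))
  letI := algebraAlong (heckeAlphaBar Kbar N s)
  letI := algebraAlong (heckeAlphaBar Kbar (N * q) s)
  obtain ⟨ζ', hζ'⟩ : ∃ ζ : Kbar, IsPrimitiveRoot ζ s :=
    HasEnoughRootsOfUnity.exists_primitiveRoot Kbar s
  have hζ0 : ζ' ≠ 0 := hζ'.ne_zero hs.ne_zero
  have hζu : IsPrimitiveRoot (Units.mk0 ζ' hζ0) s := by
    rw [← IsPrimitiveRoot.coe_units_iff]
    exact hζ'
  have hζq : IsPrimitiveRoot (Units.mk0 ζ' hζ0 ^ q) s :=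
    hζu.pow_of_coprime q ((Nat.Prime.coprime_iff_not_dvd hs).mpr hsq).symm
  have hJ : ∀ (M : ℕ) [NeZero M] (hM : ¬ s ∣ M) (x : ↥(modularFunctionFieldBar (M * s))),
      (x : LaurentSeries Kbar) = JJ s →
        ((S34.al97L_wBar M s hs hM x : ↥(modularFunctionFieldBar (M * s))) :
          LaurentSeries Kbar) = JJ 1 := by
    intro M _ hM x hx
    have := S34.al97L_wBar_gen M s hs hM s (dvd_mul_left s M) x hx
    rwa [al97_swap_of_dvd dvd_rfl, Nat.div_self hs.pos] at this
  have h1 := kn97_norm_gen N s hs hsN (Units.mk0 ζ' hζ0 ^ q) hζq (S34.al97L_wBar N s hs hsN)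
    (S34.al97L_wBar_alpha N s hs hsN) (hJ N hsN) x
  have h2 := kn97_norm_gen (N * q) s hs hsNq (Units.mk0 ζ' hζ0) hζu
    (S34.al97L_wBar (N * q) s hs hsNq) (S34.al97L_wBar_alpha (N * q) s hs hsNq) (hJ (N * q) hsNq)
    (tv1_iota (dvd_of_eq (Nat.mul_right_comm N s q)) (heckeBetaBar Qb (N * s) q x))
  have hcomm : ∀ f : LaurentSeries Kbar,
      qExpand Kbar s (qExpand Kbar q f) = qExpand Kbar q (qExpand Kbar s f) := by
    intro f
    rw [qExpand_qExpand, qExpand_qExpand]
    exact qExpand_congr (Nat.mul_comm s q) f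
  apply Subtype.ext
  rw [coe_heckeBetaBar]
  apply qExpand_injective (R := Kbar) (N := s)
  rw [h2, hcomm, h1, map_mul, map_prod, tv1_coe_iota, coe_heckeBetaBar, hcomm]
  congr 1
  apply Finset.prod_congr rfl
  intro b _
  rw [lq52_wBar_beta hs hsNq x, twist_qExpand, ← pow_mul, mul_comm (b : ℕ) q, pow_mul]

set_option maxHeartbeats 1000000 in
/-- **Base change of the norm along `β_q`** under raising the level by a prime `s ∤ N q`
(`q` arbitrary, `q ∣ N` allowed). -/
theorem lq52_norm_beta (hs : s.Prime) (hsNq : ¬ s ∣ N * q)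
    (y : ↥(modularFunctionFieldBar (N * q))) :
    @Algebra.norm ↥(modularFunctionFieldBar (N * s)) ↥(modularFunctionFieldBar (N * s * q)) _ _
        (algebraAlong (heckeBetaBar Qb (N * s) q))
        (tv1_iota (Nat.mul_dvd_mul_right (dvd_mul_right N s) q) y) =
      tv1_iota (dvd_mul_right N s)
        (@Algebra.norm ↥(modularFunctionFieldBar N) ↥(modularFunctionFieldBar (N * q)) _ _
          (algebraAlong (heckeBetaBar Qb N q)) y) := by
  have hsN : ¬ s ∣ N := fun h => hsNq (h.trans (dvd_mul_right N q))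
  have hd1 : N ∣ N * s := dvd_mul_right N s
  have hd2 : N * q ∣ N * s * q := Nat.mul_dvd_mul_right hd1 q
  have heq : N * q * s = N * s * q := Nat.mul_right_comm N q s
  haveI : NeZero (N * q) := ⟨Nat.mul_ne_zero (NeZero.ne N) (NeZero.ne q)⟩
  haveI : NeZero (N * s) := ⟨Nat.mul_ne_zero (NeZero.ne N) (NeZero.ne s)⟩
  haveI : NeZero (N * s * q) := ⟨Nat.mul_ne_zero (NeZero.ne (N * s)) (NeZero.ne q)⟩
  letI iKL : Algebra ↥(modularFunctionFieldBar N) ↥(modularFunctionFieldBar (N * s)) :=
    algebraAlong (tv1_iota hd1)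
  letI iKK' : Algebra ↥(modularFunctionFieldBar N) ↥(modularFunctionFieldBar (N * q)) :=
    algebraAlong (heckeBetaBar Qb N q)
  letI iLE : Algebra ↥(modularFunctionFieldBar (N * s)) ↥(modularFunctionFieldBar (N * s * q)) :=
    algebraAlong (heckeBetaBar Qb (N * s) q)
  letI iK'E : Algebra ↥(modularFunctionFieldBar (N * q)) ↥(modularFunctionFieldBar (N * s * q)) :=
    algebraAlong (tv1_iota hd2)
  letI iKE : Algebra ↥(modularFunctionFieldBar N) ↥(modularFunctionFieldBar (N * s * q)) :=
    algebraAlong ((tv1_iota hd2).comp (heckeBetaBar Qb N q))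
  haveI : IsScalarTower ↥(modularFunctionFieldBar N) ↥(modularFunctionFieldBar (N * s))
      ↥(modularFunctionFieldBar (N * s * q)) :=
    IsScalarTower.of_algebraMap_eq (fun x => Subtype.ext (by
      show ((tv1_iota hd2 (heckeBetaBar Qb N q x) : ↥(modularFunctionFieldBar (N * s * q))) :
          LaurentSeries Qb) =
        ((heckeBetaBar Qb (N * s) q (tv1_iota hd1 x) : ↥(modularFunctionFieldBar (N * s * q))) :
          LaurentSeries Qb)
      rw [tv1_coe_iota, coe_heckeBetaBar, coe_heckeBetaBar, tv1_coe_iota]))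
  haveI : IsScalarTower ↥(modularFunctionFieldBar N) ↥(modularFunctionFieldBar (N * q))
      ↥(modularFunctionFieldBar (N * s * q)) :=
    IsScalarTower.of_algebraMap_eq (fun x => rfl)
  haveI : Module.Finite ↥(modularFunctionFieldBar N) ↥(modularFunctionFieldBar (N * s * q)) := by
    haveI := hi63_hasPrincipalDivisors_bar (N * s * q)
    haveI := hi63_finite_x N
    haveI := hi63_finite_x (N * s * q)
    obtain ⟨-, hfin, -⟩ := hi63_along_all ((tv1_iota hd2).comp (heckeBetaBar Qb N q))
      (hi63_x N) (hi63_x_transcendental N) (hi63_x (N * s * q))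
      (hi63_x_transcendental (N * s * q))
    exact hfin
  haveI : CharZero ↥(modularFunctionFieldBar N) :=
    charZero_of_injective_algebraMap (algebraMap Qb ↥(modularFunctionFieldBar N)).injective
  have hdeg : Module.finrank ↥(modularFunctionFieldBar (N * q))
      ↥(modularFunctionFieldBar (N * s * q)) =
      Module.finrank ↥(modularFunctionFieldBar N) ↥(modularFunctionFieldBar (N * s)) := by
    have h1 : Module.finrank ↥(modularFunctionFieldBar (N * q))
        ↥(modularFunctionFieldBar (N * s * q)) =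
        dedekindPsi (N * s * q) / dedekindPsi (N * q) := tv1_finrank hd2
    have h2 : Module.finrank ↥(modularFunctionFieldBar N) ↥(modularFunctionFieldBar (N * s)) =
        dedekindPsi (N * s) / dedekindPsi N := tv1_finrank hd1
    rw [h1, h2, ← heq, S34.lc52_psi_mul_prime hs hsNq, S34.lc52_psi_mul_prime hs hsN]
  have hnorm : ∀ x : ↥(modularFunctionFieldBar (N * s)),
      Algebra.norm ↥(modularFunctionFieldBar (N * q))
          (algebraMap ↥(modularFunctionFieldBar (N * s)) ↥(modularFunctionFieldBar (N * s * q)) x) =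
        algebraMap ↥(modularFunctionFieldBar N) ↥(modularFunctionFieldBar (N * q))
          (Algebra.norm ↥(modularFunctionFieldBar N) x) := by
    intro x
    have h0 := lq52_norm_alpha_beta (N := N) (q := q) (s := s) hs hsNq x
    have hL := @Algebra.norm_eq_of_equiv_equiv ↥(modularFunctionFieldBar (N * q))
      ↥(modularFunctionFieldBar (N * q * s)) ↥(modularFunctionFieldBar (N * q))
      ↥(modularFunctionFieldBar (N * s * q)) _ _ _ _
      (algebraAlong (heckeAlphaBar Qb (N * q) s)) iK'E (RingEquiv.refl _) (lq52_cast heq)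
      (by
        ext1 z
        apply Subtype.ext
        show ((tv1_iota hd2 z : ↥(modularFunctionFieldBar (N * s * q))) : LaurentSeries Qb) =
          ((lq52_cast heq (heckeAlphaBar Qb (N * q) s z) :
            ↥(modularFunctionFieldBar (N * s * q))) : LaurentSeries Qb)
        rw [tv1_coe_iota, lq52_cast_coe, coe_heckeAlphaBar])
      (tv1_iota (dvd_of_eq (Nat.mul_right_comm N s q)) (heckeBetaBar Qb (N * s) q x))
    have hx : lq52_cast heq
        (tv1_iota (dvd_of_eq (Nat.mul_right_comm N s q)) (heckeBetaBar Qb (N * s) q x)) =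
        algebraMap ↥(modularFunctionFieldBar (N * s)) ↥(modularFunctionFieldBar (N * s * q)) x := by
      apply Subtype.ext
      show _ = ((heckeBetaBar Qb (N * s) q x : ↥(modularFunctionFieldBar (N * s * q))) :
        LaurentSeries Qb)
      rw [lq52_cast_coe, tv1_coe_iota]
    rw [hx] at hL
    have hR := lq52_norm_congr (algebraAlong (heckeAlphaBar Qb N s)) iKL (fun r => Subtype.ext (by
      show ((heckeAlphaBar Qb N s r : ↥(modularFunctionFieldBar (N * s))) : LaurentSeries Qb) =
        ((tv1_iota hd1 r : ↥(modularFunctionFieldBar (N * s))) : LaurentSeries Qb)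
      rw [coe_heckeAlphaBar, tv1_coe_iota])) x
    have h3 : Algebra.norm ↥(modularFunctionFieldBar (N * q))
        (algebraMap ↥(modularFunctionFieldBar (N * s)) ↥(modularFunctionFieldBar (N * s * q)) x) =
        heckeBetaBar Qb N q
          (@Algebra.norm ↥(modularFunctionFieldBar N) ↥(modularFunctionFieldBar (N * s)) _ _
            (algebraAlong (heckeAlphaBar Qb N s)) x) :=
      hL.symm.trans h0
    exact h3.trans (congrArg (heckeBetaBar Qb N q) hR)
  have hsw := ns52_norm_swap_tower (K := ↥(modularFunctionFieldBar N))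
    (L := ↥(modularFunctionFieldBar (N * s))) (K' := ↥(modularFunctionFieldBar (N * q)))
    (E := ↥(modularFunctionFieldBar (N * s * q))) hdeg hnorm y
  exact hsw

end NormBeta

end Fermat.Agent.S36
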