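import Mathlib
import Fermat.Agent.S36.BranchLiftChart26

/-!
# S36 lab, rows 605 / 625 (helper53): the branch root lift WITHOUT a branch generator

`gblc26_lift_at` (helper26) lifts an `m`-th root along a vertical valuation ring `V` to the local
ring `B_n`, and uses a local generator `g` of the branch prime at `n` (to write every element of
`V` as a fraction with a denominator which is a unit along `V`).  At a TRIPLE point no explicit
generator of the middle (thick) branch is available from the pulled-back divisors (they give only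
its `(q-1)`-st power).  This file replaces the generator by the property

`hfr : ∀ c ∈ V, ∃ a t : B, V.valuation t = 1 ∧ V.valuation (c * t - a) < 1`

("every residue class of `V` is a fraction of the chart with a denominator which is a unit of
`V`"), which follows from residue degree one over a lower level and the fraction property of the
lower chart (`hp53_frac_of_res`).

* `hp53_pow_sub`      : `x ≡ y` modulo `𝔪(V)` ⟹ `x ^ m ≡ y ^ m`;
* `hp53_lift_of_frac` : the branch root lift at a closed point from `hfr` (conclusion literally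
  that of `gblc26_lift_at`, i.e. the lift clauses of `hp53_TripleData` / `hp3x77_TripleData`);
* `hp53_frac_of_res`  : `hfr` for `V` over `V'` along `al : F' →+* F` from residue degree one
  (`∀ x ∈ V, ∃ v ∈ V', v(x - al v) < 1`), fractions on the lower chart `B'`
  (`∀ v ∈ V', ∃ a d ∈ B', d⁻¹ ∈ V' ∧ v * d = a`) and `al B' ⊆ B`, `al (V'ˣ) ⊆ Vˣ`.

All names are prefixed `hp53_`.
-/

set_option autoImplicit false
set_option linter.style.longLine false
set_option linter.unusedVariables false
set_option linter.unusedSectionVars false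

namespace Fermat.Agent.S36

open Fermat.Agent.S34

/-- `x ≡ y` modulo `𝔪(V)` ⟹ `x ^ m ≡ y ^ m`. -/
theorem hp53_pow_sub {F : Type*} [Field F] (V : ValuationSubring F) (x y : F) (hx : x ∈ V)
    (hy : y ∈ V) (h : V.valuation (x - y) < 1) (m : ℕ) : V.valuation (x ^ m - y ^ m) < 1 := by
  induction m with
  | zero => simp
  | succ k ih =>
    have e : x ^ (k + 1) - y ^ (k + 1) = x * (x ^ k - y ^ k) + y ^ k * (x - y) := by ring
    rw [e]
    exact gc26_add V (gc26_mul V hx ih) (gc26_mul V (pow_mem hy k) h)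

section

variable {R F : Type*} [CommRing R] [Field F] [Algebra R F]

/-- **The branch root lift at a closed point, without a branch generator.**  `B` a noetherian
chart, `V` a vertical valuation ring through the closed point `n` (thick branches allowed),
`z ∈ n` a branch coordinate at `n`, and every residue class of `V` a fraction of `B` with a
denominator which is a unit of `V`.  Then every `c ∈ V` whose `m`-th power is congruent modulo
`𝔪(V)` to a unit `e` of `B_n` has a lift `b ∈ B_n`. -/
theorem hp53_lift_of_frac (B : Subalgebra R F) [IsNoetherianRing B] (V : ValuationSubring F)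
    (hBV : ∀ x ∈ B, x ∈ V)
    (n : Ideal B) [hn : n.IsPrime]
    (hthr : ∀ t : B, t ∉ n → (t : F)⁻¹ ∈ V)
    (z : B) (hz : z ∈ n) (hzP : ¬ V.valuation (z : F) < 1)
    (hunif : ∀ x ∈ n, ∃ s : B, s ∉ n ∧ ∃ a : B,
      V.valuation ((s : F) * (x : F) - (a : F) * (z : F)) < 1)
    (hfr : ∀ c ∈ V, ∃ a t : B, V.valuation (t : F) = 1 ∧ V.valuation (c * (t : F) - (a : F)) < 1)
    (m : ℕ) (hm : 0 < m) (c e : F) (hc : c ∈ V) (he0 : e ≠ 0)
    (he : e ∈ sf79_loc B n) (he' : e⁻¹ ∈ sf79_loc B n)
    (hce : V.valuation (c ^ m - e) < 1) :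
    ∃ b ∈ sf79_loc B n, V.valuation (c - b) < 1 := by
  classical
  have hPp : (gblc26_P B V hBV).IsPrime := gblc26_P_isPrime B V hBV
  -- units of `B_n` along `V`
  have hsV : ∀ s : B, s ∉ n → V.valuation (s : F) = 1 := by
    intro s hs
    apply gblc26_val_eq_one V (hBV _ s.2)
    intro hlt
    rw [gcb26_val_lt_one_iff] at hlt
    rcases hlt.2 with h0 | hinv
    · exact sf79_ne_zero B n s hs h0
    · exact hinv (hthr s hs)
  have hPn : gblc26_P B V hBV ≤ n := by
    intro x hx
    by_contra hxn
    rw [gblc26_mem_P, hsV x hxn] at hx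
    exact lt_irrefl _ hx
  have hunif' : ∀ x ∈ n, ∃ s : B, s ∉ n ∧ ∃ a : B, s * x - a * z ∈ gblc26_P B V hBV := by
    intro x hx
    obtain ⟨s, hs, a, ha⟩ := hunif x hx
    refine ⟨s, hs, a, ?_⟩
    rw [gblc26_mem_P]
    push_cast
    exact ha
  -- (Q'): `c * t ≡ a` with `a, t ∈ B`, `t` a unit along `V`
  obtain ⟨a, t, htv, hcta⟩ := hfr c hc
  have htP : t ∉ gblc26_P B V hBV := by
    rw [gblc26_mem_P, htv]
    exact lt_irrefl _
  have htV : (t : F) ∈ V := hBV _ t.2
  have haV : (a : F) ∈ V := hBV _ a.2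
  -- the unit `e`
  obtain ⟨se, hse, hseB⟩ := he
  obtain ⟨se', hse', hse'B⟩ := he'
  set e1 : B := ⟨(se : F) * e, hseB⟩ with he1
  have he1n : e1 ∉ n := by
    intro h
    have h2 : e1 * ⟨(se' : F) * e⁻¹, hse'B⟩ = se * se' := by
      apply Subtype.ext
      rw [he1]
      push_cast
      field_simp
    have h3 : se * se' ∈ n := by
      rw [← h2]
      exact n.mul_mem_right _ h
    exact (hn.mem_or_mem h3).elim hse hse'
  have hrel : se * a ^ m - e1 * t ^ m ∈ gblc26_P B V hBV := by
    rw [gblc26_mem_P]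
    have e2 : ((se * a ^ m - e1 * t ^ m : B) : F) =
        (se : F) * (((a : F) ^ m - (c * (t : F)) ^ m) + (t : F) ^ m * (c ^ m - e)) := by
      rw [he1]
      push_cast
      ring
    rw [e2]
    refine gc26_mul V (hBV _ se.2) (gc26_add V ?_ (gc26_mul V (pow_mem htV m) hce))
    apply hp53_pow_sub V _ _ haV (mul_mem hc htV)
    rw [Valuation.map_sub_swap]
    exact hcta
  obtain ⟨b, s₁, hs₁, hb⟩ := gbl26_lift (gblc26_P B V hBV) n hPn z hz
    (by rw [gblc26_mem_P]; exact hzP) hunif' m hm a t se e1 htP hse he1n hrel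
  have hs₁0 := sf79_ne_zero B n s₁ hs₁
  refine ⟨(b : F) * (s₁ : F)⁻¹,
    (sf79_loc B n).mul_mem (sf79_le_loc B n _ b.2) (sf79_inv_mem_loc B n s₁ hs₁), ?_⟩
  rw [gblc26_mem_P] at hb
  have ht0 : (t : F) ≠ 0 := by
    intro h
    rw [h] at htv
    simp at htv
  have e3 : c - (b : F) * (s₁ : F)⁻¹ =
      ((c * (t : F) - (a : F)) * (s₁ : F) + ((a * s₁ - b * t : B) : F)) *
        ((t : F) * (s₁ : F))⁻¹ := by
    push_cast
    field_simp
    ring
  rw [e3, map_mul, map_inv₀, map_mul, htv, hsV s₁ hs₁, one_mul, inv_one, mul_one]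
  refine gc26_add V ?_ hb
  rw [mul_comm]
  exact gc26_mul V (hBV _ s₁.2) hcta

end

section

variable {R F F' : Type*} [CommRing R] [Field F] [Field F'] [Algebra R F] [Algebra R F']

/-- **The fraction property from residue degree one.**  `V` lies over `V'` along `al` with residue
degree one, every element of `V'` is a fraction of the lower chart `B'` with a denominator which
is a unit of `V'`, and `al B' ⊆ B`.  Then every residue class of `V` is a fraction of `B` with a
denominator which is a unit of `V`. -/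
theorem hp53_frac_of_res (B : Subalgebra R F) (B' : Subalgebra R F') (al : F' →+* F)
    (V : ValuationSubring F) (V' : ValuationSubring F')
    (halB : ∀ x ∈ B', al x ∈ B)
    (hal : ∀ x : F', al x ∈ V ↔ x ∈ V')
    (hres : ∀ x ∈ V, ∃ v ∈ V', V.valuation (x - al v) < 1)
    (hfr' : ∀ v ∈ V', ∃ a ∈ B', ∃ d ∈ B', V'.valuation d = 1 ∧ v * d = a)
    (c : F) (hc : c ∈ V) :
    ∃ a t : B, V.valuation (t : F) = 1 ∧ V.valuation (c * (t : F) - (a : F)) < 1 := by
  obtain ⟨v, hv, hcv⟩ := hres c hc
  obtain ⟨a, ha, d, hd, hd1, hvd⟩ := hfr' v hv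
  have hd0 : d ≠ 0 := by
    rintro rfl
    rw [map_zero] at hd1
    exact zero_ne_one hd1
  have hdV' : d ∈ V' := (V'.valuation_le_one_iff d).mp hd1.le
  have hdinvV' : d⁻¹ ∈ V' := by
    rw [← V'.valuation_le_one_iff, map_inv₀, hd1, inv_one]
  have hadV : al d ∈ V := (hal d).mpr hdV'
  have hadinvV : (al d)⁻¹ ∈ V := by
    rw [← map_inv₀]
    exact (hal d⁻¹).mpr hdinvV'
  have had1 : V.valuation (al d) = 1 := by
    refine le_antisymm ((V.valuation_le_one_iff _).mpr hadV) ?_
    have h1 : V.valuation (al d)⁻¹ ≤ 1 := (V.valuation_le_one_iff _).mpr hadinvV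
    have h0 : V.valuation (al d) ≠ 0 := (Valuation.ne_zero_iff _).mpr ((map_ne_zero al).mpr hd0)
    rw [map_inv₀] at h1
    exact (inv_le_one₀ (zero_lt_iff.mpr h0)).mp h1
  refine ⟨⟨al a, halB a ha⟩, ⟨al d, halB d hd⟩, had1, ?_⟩
  have e : c * al d - al a = al d * (c - al v) := by
    rw [← hvd, map_mul]
    ring
  show V.valuation (c * al d - al a) < 1
  rw [e]
  exact gc26_mul V hadV hcv

end

end Fermat.Agent.S36
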