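import Mathlib
import Fermat.Agent.S36.LocPrinTwoGen9
import Fermat.Agent.S36.Rigid20
import Fermat.Agent.S18.ConstExtModular25
import Fermat.Agent.S18.LPTwoChart7
import Fermat.Agent.S34.CoreAsm94
import Fermat.Agent.S34.FinSupp75
import Fermat.Agent.S37.PerPlace72

/-!
# S36 lab, row 599 (helper10): the input from rigidity of the divisibility routes

At a closed point `n` of a chart `B` whose maximal ideal is 2-generated (`h2`) and through which
exactly one vertical valuation ring `V` passes (a smooth point of the special fibre: the level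
prime to `q`):

* `lpw10_locPrin_at` : the LOCAL form of `lpz9_locPrin_at` — only the horizontal `O` THROUGH `n`
  are required to satisfy `m ∣ ord_O f` (poles of `f` at cusps elsewhere do not matter);
* `lpw10_mem_loc` : Krull + saturation: a function regular along `V` and along every horizontal
  `O` through `n` lies in `B_n`;
* `lpw10_local_power` : if moreover `f` is a unit of `V` and regular at `n`, then
  `f = u * c ^ m` with `u` a unit of `B_n` and `c ∈ B_n`;
* `lpw10_ord_1728`, `lpw10_ord_zero` : over a number field `K`, at a level `M` with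
  `nuTwo M = 0` (resp. `nuThree M = 0`), every zero of `J - 1728` (resp. `J`) on the generic
  fibre of `F_K(M)` has order exactly `2` (resp. `3`) (Rigid20 + constant field extension);
* `lpw10_J1728_local`, `lpw10_J_local` : hence `J - 1728 = u * d ^ 2` (resp. `J = u * c ^ 3`) in
  `B_n` at every closed point `n` as above where `J` is regular.
-/

set_option autoImplicit false

open ModularCurve AlgebraicCurve

namespace Fermat.Agent.S36

open Fermat.Agent.S34 Fermat.Agent.S18 Fermat.Agent.S35 Fermat.Agent.S24 Fermat.Agent.S37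

section Point

variable {R F : Type*} [CommRing R] [Field F] [Algebra R F]

/-- **Local form of `lpz9_locPrin_at`**: the divisibility of the orders and the finiteness are
only required at the horizontal `O` through `n`. -/
theorem lpw10_locPrin_at (π : R) (hπ0 : algebraMap R F π ≠ 0) (B : Subalgebra R F)
    [IsNoetherianRing B]
    (hfrac : ∀ t : F, ∃ a ∈ B, ∃ b ∈ B, b ≠ 0 ∧ t * b = a)
    (n : Ideal B) (hn : n.IsMaximal) (hπn : algebraMap R B π ∈ n)
    (h2 : ∃ x y : B, x ∈ n ∧ y ∈ n ∧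
      ∀ v ∈ n, ∃ s : B, s ∉ n ∧ ∃ a b : B, s * v = a * x + b * y)
    (m : ℕ) (hm : 0 < m) (f : F) (hf : f ≠ 0)
    (hOrd : ∀ O : ValuationSubring F, s34i47_IsHoriz π O → s34i47_Through B n O →
      ∃ ε w : F, ε ∈ O ∧ ε⁻¹ ∈ O ∧ f = ε * w ^ m)
    (hfin : {O : ValuationSubring F | s34i47_IsHoriz π O ∧ s34i47_Through B n O ∧
      ¬ (f ∈ O ∧ f⁻¹ ∈ O)}.Finite) :
    ∃ c : F, c ≠ 0 ∧ ∀ O : ValuationSubring F, s34i47_IsHoriz π O → s34i47_Through B n O →
      f / c ^ m ∈ O ∧ c ^ m / f ∈ O := by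
  classical
  set T : Finset (ValuationSubring F) := hfin.toFinset with hT
  have hmemT : ∀ O : ValuationSubring F, O ∈ T ↔
      s34i47_IsHoriz π O ∧ s34i47_Through B n O ∧ ¬ (f ∈ O ∧ f⁻¹ ∈ O) := by
    intro O
    rw [hT, Set.Finite.mem_toFinset]
    rfl
  have hex : ∀ O ∈ T, ∃ g : F, g ≠ 0 ∧ lp9_IsU O (f / g ^ m) ∧
      ∀ O' : ValuationSubring F, s34i47_IsHoriz π O' → s34i47_Through B n O' → O' ≠ O →
        lp9_IsU O' g := by
    intro O hO
    rw [hmemT] at hO
    obtain ⟨p, hp0, hpO, hpinv, hgen, hother⟩ :=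
      lpz9_UZ_at π hπ0 B hfrac n hn hπn h2 O hO.1 hO.2.1
    obtain ⟨ε, w, hε, hεinv, hfw⟩ := hOrd O hO.1 hO.2.1
    have hw : w ≠ 0 := by
      rintro rfl
      apply hf
      rw [hfw, zero_pow (by omega), mul_zero]
    obtain ⟨k, hk⟩ := lp9_exists_zpow O hO.1.2.1 p hp0 hpO hpinv hgen w hw
    refine ⟨p ^ k, zpow_ne_zero k hp0, ?_, ?_⟩
    · have he : f / (p ^ k) ^ m = ε * (w / p ^ k) ^ m := by
        rw [hfw, div_pow, mul_div_assoc]
      rw [he]
      exact lp9_IsU_mul ⟨hε, hεinv⟩ (lp9_IsU_pow hk m)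
    · intro O' hO' hOn' hne
      exact lp9_IsU_zpow (hother O' hO' hOn' hne) k
  choose! g hg0 hgU hgother using hex
  refine ⟨∏ O ∈ T, g O, Finset.prod_ne_zero_iff.mpr hg0, ?_⟩
  intro O hO hOn
  have key : lp9_IsU O (f / (∏ O' ∈ T, g O') ^ m) := by
    by_cases hOT : O ∈ T
    · have hsplit : ∏ O' ∈ T, g O' = g O * ∏ O' ∈ T.erase O, g O' :=
        (Finset.mul_prod_erase T g hOT).symm
      have hrest : lp9_IsU O (∏ O' ∈ T.erase O, g O') := by
        apply lp9_IsU_prod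
        intro O' hO'
        have h := Finset.mem_erase.mp hO'
        exact hgother O' h.2 O hO hOn (Ne.symm h.1)
      have he : f / (∏ O' ∈ T, g O') ^ m =
          (f / g O ^ m) * ((∏ O' ∈ T.erase O, g O') ^ m)⁻¹ := by
        rw [hsplit, mul_pow, div_mul_eq_div_div, div_eq_mul_inv (f / g O ^ m)]
      rw [he]
      exact lp9_IsU_mul (hgU O hOT) (lp9_IsU_inv (lp9_IsU_pow hrest m))
    · have hfU : lp9_IsU O f := by
        by_contra h
        exact hOT ((hmemT O).mpr ⟨hO, hOn, h⟩)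
      have hcU : lp9_IsU O (∏ O' ∈ T, g O') := by
        apply lp9_IsU_prod
        intro O' hO'
        exact hgother O' hO' O hO hOn (by rintro rfl; exact hOT hO')
      rw [div_eq_mul_inv]
      exact lp9_IsU_mul hfU (lp9_IsU_inv (lp9_IsU_pow hcU m))
  refine ⟨key.1, ?_⟩
  have h2' := key.2
  rwa [inv_div] at h2'

/-- **Krull + saturation**: from `π ^ k * (s * x) ∈ B` and `x ∈ W` to `s * x ∈ B`. -/
theorem lpw10_mem_loc (π : R) (B : Subalgebra R F) (W : Subring F) (hBW : ∀ x ∈ B, x ∈ W)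
    (hsat : ∀ x ∈ B, (algebraMap R F π)⁻¹ * x ∈ W → (algebraMap R F π)⁻¹ * x ∈ B)
    (hπ0 : algebraMap R F π ≠ 0) (n : Ideal B) (x : F) (hxW : x ∈ W)
    (hK : ∃ s : B, s ∉ n ∧ ∃ k : ℕ, algebraMap R F π ^ k * ((s : F) * x) ∈ B) :
    ∃ s : B, s ∉ n ∧ (s : F) * x ∈ B := by
  obtain ⟨s, hs, k, hk⟩ := hK
  refine ⟨s, hs, ?_⟩
  have hyW : (s : F) * x ∈ W := W.mul_mem (hBW _ s.2) hxW
  have hπW : algebraMap R F π ∈ W := hBW _ (B.algebraMap_mem π)
  induction k with
  | zero => simpa using hk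
  | succ j ih =>
    apply ih
    have h1 : algebraMap R F π ^ j * ((s : F) * x) =
        (algebraMap R F π)⁻¹ * (algebraMap R F π ^ (j + 1) * ((s : F) * x)) := by
      rw [pow_succ]
      field_simp
    rw [h1]
    apply hsat _ hk
    rw [← h1]
    exact W.mul_mem (pow_mem hπW j) hyW

/-- **Local power**: at a 2-generated closed point `n` through which the vertical valuation ring
`V` (uniformiser `π`) passes, a `V`-unit `f`, regular at `n`, all of whose orders at the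
horizontal `O` through `n` are divisible by `m`, is `u * c ^ m` with `u` a unit of `B_n` and
`c ∈ B_n`. -/
theorem lpw10_local_power (π : R) (hπ0 : algebraMap R F π ≠ 0) (B : Subalgebra R F)
    [IsNoetherianRing B]
    (hfrac : ∀ t : F, ∃ a ∈ B, ∃ b ∈ B, b ≠ 0 ∧ t * b = a)
    (n : Ideal B) (hn : n.IsMaximal) (hπn : algebraMap R B π ∈ n)
    (h2 : ∃ x y : B, x ∈ n ∧ y ∈ n ∧
      ∀ v ∈ n, ∃ s : B, s ∉ n ∧ ∃ a b : B, s * v = a * x + b * y)
    (V : ValuationSubring F) (hPIR : IsPrincipalIdealRing V)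
    (hπV : (algebraMap R F π)⁻¹ ∉ V)
    (hgen : ∀ x ∈ V, x⁻¹ ∉ V → x * (algebraMap R F π)⁻¹ ∈ V)
    (hBV : ∀ x ∈ B, x ∈ V)
    (hsat : ∀ x ∈ B, (algebraMap R F π)⁻¹ * x ∈ V → (algebraMap R F π)⁻¹ * x ∈ B)
    (hKr : ∀ x : F, (∀ O : ValuationSubring F, s34i47_IsHoriz π O → s34i47_Through B n O →
      x ∈ O) → ∃ s : B, s ∉ n ∧ ∃ k : ℕ, algebraMap R F π ^ k * ((s : F) * x) ∈ B)
    (m : ℕ) (hm : 0 < m) (f : F) (hf : f ≠ 0) (hfV : f ∈ V) (hfV' : f⁻¹ ∈ V)
    (hfB : ∃ s : B, s ∉ n ∧ (s : F) * f ∈ B)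
    (hOrd : ∀ O : ValuationSubring F, s34i47_IsHoriz π O → s34i47_Through B n O →
      ∃ ε w : F, ε ∈ O ∧ ε⁻¹ ∈ O ∧ f = ε * w ^ m)
    (hfin : {O : ValuationSubring F | s34i47_IsHoriz π O ∧ s34i47_Through B n O ∧
      ¬ (f ∈ O ∧ f⁻¹ ∈ O)}.Finite) :
    ∃ c u : F, c ≠ 0 ∧ f = u * c ^ m ∧ (∃ s : B, s ∉ n ∧ (s : F) * u ∈ B) ∧
      (∃ s : B, s ∉ n ∧ (s : F) * u⁻¹ ∈ B) ∧ (∃ s : B, s ∉ n ∧ (s : F) * c ∈ B) := by
  obtain ⟨c0, hc0, hc0U⟩ := lpw10_locPrin_at π hπ0 B hfrac n hn hπn h2 m hm f hf hOrd hfin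
  have hπVm : algebraMap R F π ∈ V := hBV _ (B.algebraMap_mem π)
  obtain ⟨k, hk⟩ := lp9_exists_zpow V hPIR (algebraMap R F π) hπ0 hπVm hπV hgen c0 hc0
  set c : F := c0 / algebraMap R F π ^ k with hc
  have hπk0 : algebraMap R F π ^ k ≠ 0 := zpow_ne_zero k hπ0
  have hc_ne : c ≠ 0 := div_ne_zero hc0 hπk0
  have hcm0 : c ^ m ≠ 0 := pow_ne_zero m hc_ne
  -- `u = f / c ^ m` is a unit of `V` and of every horizontal `O` through `n`
  have huV : lp9_IsU V (f / c ^ m) := by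
    rw [div_eq_mul_inv]
    exact lp9_IsU_mul ⟨hfV, hfV'⟩ (lp9_IsU_inv (lp9_IsU_pow hk m))
  have huO : ∀ O : ValuationSubring F, s34i47_IsHoriz π O → s34i47_Through B n O →
      lp9_IsU O (f / c ^ m) := by
    intro O hO hOn
    have hπO : lp9_IsU O (algebraMap R F π) := ⟨hO.2.2.1 π, hO.2.2.2⟩
    have h1 : lp9_IsU O (f / c0 ^ m) := by
      refine ⟨(hc0U O hO hOn).1, ?_⟩
      rw [inv_div]
      exact (hc0U O hO hOn).2
    have he : f / c ^ m = f / c0 ^ m * (algebraMap R F π ^ k) ^ m := by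
      rw [hc, div_pow]
      field_simp
    rw [he]
    exact lp9_IsU_mul h1 (lp9_IsU_pow (lp9_IsU_zpow hπO k) m)
  have hmem : ∀ x : F, x ∈ V → (∀ O : ValuationSubring F, s34i47_IsHoriz π O →
      s34i47_Through B n O → x ∈ O) → ∃ s : B, s ∉ n ∧ (s : F) * x ∈ B :=
    fun x hxV hxO => lpw10_mem_loc π B V.toSubring hBV hsat hπ0 n x hxV (hKr x hxO)
  -- `f` is regular along the horizontal `O` through `n`
  have hfO : ∀ O : ValuationSubring F, s34i47_IsHoriz π O → s34i47_Through B n O → f ∈ O := by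
    intro O _ hOn
    obtain ⟨s, hs, hsf⟩ := hfB
    have hs0 : (s : F) ≠ 0 := by
      intro h0
      apply hs
      have : s = 0 := Subtype.ext h0
      rw [this]
      exact n.zero_mem
    have h1 : f = (s : F)⁻¹ * ((s : F) * f) := by field_simp
    rw [h1]
    exact O.mul_mem _ _ (hOn.2 s hs) (hOn.1 _ hsf)
  -- `c` is regular along the horizontal `O` through `n`
  have hcO : ∀ O : ValuationSubring F, s34i47_IsHoriz π O → s34i47_Through B n O → c ∈ O := by
    intro O hO hOn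
    have hcm : c ^ m ∈ O := by
      have h1 : c ^ m = f * (f / c ^ m)⁻¹ := by field_simp
      rw [h1]
      exact O.mul_mem _ _ (hfO O hO hOn) (huO O hO hOn).2
    rcases O.mem_or_inv_mem c with h | h
    · exact h
    · obtain ⟨j, rfl⟩ : ∃ j, m = j + 1 := ⟨m - 1, by omega⟩
      have h1 : c = c ^ (j + 1) * c⁻¹ ^ j := by
        rw [pow_succ, inv_pow]
        field_simp
      rw [h1]
      exact O.mul_mem _ _ hcm (pow_mem h j)
  refine ⟨c, f / c ^ m, hc_ne, by field_simp, hmem _ huV.1 (fun O hO hOn => (huO O hO hOn).1),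
    hmem _ huV.2 (fun O hO hOn => (huO O hO hOn).2), hmem _ hk.1 hcO⟩

end Point

section Concrete

variable (K : Type) [Field K] [CharZero K] [Algebra K (AlgebraicClosure ℚ)] (M : ℕ) [NeZero M]

/-- The constant field extension `F_K(M) → F_ℚ̄(M)` sends `J` to `j`. -/
theorem lpw10_iota_J : cx_iota K M (relimc_J K M) = rg20_j M := by
  apply Subtype.ext
  rw [cx_iota_coe, relimc_J_coe, coeffMap_jqModC, rg20_coe_j]
  symm
  rw [asmAb_JJ_one, coeffEmb, ← jqModC_rat, coeffMap_jqModC]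

omit [NeZero M] in
/-- The constant field extension on constants. -/
theorem lpw10_iota_algebraMap (c : K) :
    cx_iota K M (algebraMap K ↥(modularFunctionFieldFullC K M) c) =
      algebraMap Kbar ↥(modularFunctionFieldBar M) (algebraMap K Kbar c) := by
  apply Subtype.ext
  rw [cx_iota_coe]
  exact cx_coeffMap_algebraMap _ c

/-- At a level with `nuTwo M = 0`, every zero of `J - 1728` on the generic fibre of `F_K(M)` has
order exactly `2`. -/
theorem lpw10_ord_1728 (h2 : nuTwo M = 0) (P : Place K ↥(modularFunctionFieldFullC K M))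
    (hP : 0 < P.ord (relimc_J K M - algebraMap K ↥(modularFunctionFieldFullC K M) 1728)) :
    P.ord (relimc_J K M - algebraMap K ↥(modularFunctionFieldFullC K M) 1728) = 2 := by
  obtain ⟨P', hP'⟩ := cx_modular_place_exists (cx_iota K M) (cx_iota_coe K M) P
  have h1 : cx_iota K M (relimc_J K M - algebraMap K ↥(modularFunctionFieldFullC K M) 1728) =
      rg20_j M - algebraMap Kbar ↥(modularFunctionFieldBar M) 1728 := by
    rw [map_sub, lpw10_iota_J, lpw10_iota_algebraMap, map_ofNat]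
  rw [← hP', h1] at hP ⊢
  exact rg20_ord_1728 M h2 P' hP

/-- At a level with `nuThree M = 0`, every zero of `J` on the generic fibre of `F_K(M)` has
order exactly `3`. -/
theorem lpw10_ord_zero (h3 : nuThree M = 0) (P : Place K ↥(modularFunctionFieldFullC K M))
    (hP : 0 < P.ord (relimc_J K M)) : P.ord (relimc_J K M) = 3 := by
  obtain ⟨P', hP'⟩ := cx_modular_place_exists (cx_iota K M) (cx_iota_coe K M) P
  rw [← hP', lpw10_iota_J] at hP ⊢
  exact rg20_ord_zero M h3 P' hP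

end Concrete

section Assembled

local notation "Q̄" => AlgebraicClosure ℚ

variable (K : Type) [Field K] [NumberField K] [Algebra K Q̄] (M : ℕ) [NeZero M]
  (R : Type) [CommRing R] [IsDomain R] [IsDiscreteValuationRing R] [Algebra R K]
  [IsFractionRing R K] [Algebra R ↥(modularFunctionFieldFullC K M)]
  [IsScalarTower R K ↥(modularFunctionFieldFullC K M)]

/-- **Local power from exact orders**: if every zero of `f` on the generic fibre has order `m`,
then at a 2-generated closed point `n` with one vertical valuation ring `V`, where `f` is a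
`V`-unit and regular, `f = u * c ^ m` with `u` a unit of `B_n` and `c ∈ B_n`. -/
theorem lpw10_local_of_ord (π : R) (hπ : Irreducible π)
    (hπ0 : algebraMap R ↥(modularFunctionFieldFullC K M) π ≠ 0)
    (B : Subalgebra R ↥(modularFunctionFieldFullC K M)) [IsNoetherianRing B]
    (hfrac : ∀ t : ↥(modularFunctionFieldFullC K M), ∃ a ∈ B, ∃ b ∈ B, b ≠ 0 ∧ t * b = a)
    (n : Ideal B) (hn : n.IsMaximal) (hπn : algebraMap R B π ∈ n)
    (h2 : ∃ x y : B, x ∈ n ∧ y ∈ n ∧
      ∀ v ∈ n, ∃ s : B, s ∉ n ∧ ∃ a b : B, s * v = a * x + b * y)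
    (V : ValuationSubring ↥(modularFunctionFieldFullC K M)) (hPIR : IsPrincipalIdealRing V)
    (hπV : (algebraMap R ↥(modularFunctionFieldFullC K M) π)⁻¹ ∉ V)
    (hgen : ∀ x ∈ V, x⁻¹ ∉ V → x * (algebraMap R ↥(modularFunctionFieldFullC K M) π)⁻¹ ∈ V)
    (hBV : ∀ x ∈ B, x ∈ V)
    (hsat : ∀ x ∈ B, (algebraMap R ↥(modularFunctionFieldFullC K M) π)⁻¹ * x ∈ V →
      (algebraMap R ↥(modularFunctionFieldFullC K M) π)⁻¹ * x ∈ B)
    (hKr : ∀ x : ↥(modularFunctionFieldFullC K M),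
      (∀ O : ValuationSubring ↥(modularFunctionFieldFullC K M), s34i47_IsHoriz π O →
        s34i47_Through B n O → x ∈ O) →
      ∃ s : B, s ∉ n ∧ ∃ k : ℕ,
        algebraMap R ↥(modularFunctionFieldFullC K M) π ^ k *
          ((s : ↥(modularFunctionFieldFullC K M)) * x) ∈ B)
    (m : ℕ) (hm : 0 < m) (f : ↥(modularFunctionFieldFullC K M)) (hf : f ≠ 0)
    (hord : ∀ P : Place K ↥(modularFunctionFieldFullC K M), 0 < P.ord f → P.ord f = m)
    (hfV : f ∈ V) (hfV' : f⁻¹ ∈ V)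
    (hfB : ∃ s : B, s ∉ n ∧ (s : ↥(modularFunctionFieldFullC K M)) * f ∈ B) :
    ∃ c u : ↥(modularFunctionFieldFullC K M), c ≠ 0 ∧ f = u * c ^ m ∧
      (∃ s : B, s ∉ n ∧ (s : ↥(modularFunctionFieldFullC K M)) * u ∈ B) ∧
      (∃ s : B, s ∉ n ∧ (s : ↥(modularFunctionFieldFullC K M)) * u⁻¹ ∈ B) ∧
      (∃ s : B, s ∉ n ∧ (s : ↥(modularFunctionFieldFullC K M)) * c ∈ B) := by
  refine lpw10_local_power π hπ0 B hfrac n hn hπn h2 V hPIR hπV hgen hBV hsat hKr m hm f hf
    hfV hfV' hfB ?_ ?_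
  · intro O hO hOn
    obtain ⟨P, rfl⟩ := ca94_place_of_horiz (K := K) π hπ O hO
    have hfO : f ∈ P.toValuationSubring := by
      obtain ⟨s, hs, hsf⟩ := hfB
      have hs0 : (s : ↥(modularFunctionFieldFullC K M)) ≠ 0 := by
        intro h0
        apply hs
        have : s = 0 := Subtype.ext h0
        rw [this]
        exact n.zero_mem
      have h1 : f = (s : ↥(modularFunctionFieldFullC K M))⁻¹ *
          ((s : ↥(modularFunctionFieldFullC K M)) * f) := by field_simp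
      rw [h1]
      exact P.toValuationSubring.mul_mem _ _ (hOn.2 s hs) (hOn.1 _ hsf)
    have h0 : 0 ≤ P.ord f := (pp72_mem_iff_ord_nonneg P f).mp hfO
    have hdvd : (m : ℤ) ∣ P.ord f := by
      rcases h0.eq_or_lt with h | h
      · rw [← h]
        exact dvd_zero _
      · rw [hord P h]
    exact lp7_place_factor P f hf m hdvd
  · have hF : s34i47_Fin π f := ca94_fin (K := K) π hπ f (fs75_finSupp M K f hf)
    exact hF.subset fun O hO => ⟨hO.1, hO.2.2⟩

omit [NumberField K] [Algebra K Q̄] [NeZero M] in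
/-- `J - a ≠ 0` in `F_K(M)`. -/
theorem lpw10_J_sub_ne_zero (a : K) :
    relimc_J K M - algebraMap K ↥(modularFunctionFieldFullC K M) a ≠ 0 := by
  intro h
  apply relimc_J_transcendental K M
  rw [sub_eq_zero.mp h]
  exact isAlgebraic_algebraMap a

/-- **`J - 1728 = u * d ^ 2` in `B_n`** at a level with `nuTwo M = 0`, at every 2-generated
closed point `n` with one vertical valuation ring `V` where `J - 1728` is a `V`-unit and regular. -/
theorem lpw10_J1728_local (hM2 : nuTwo M = 0) (π : R) (hπ : Irreducible π)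
    (hπ0 : algebraMap R ↥(modularFunctionFieldFullC K M) π ≠ 0)
    (B : Subalgebra R ↥(modularFunctionFieldFullC K M)) [IsNoetherianRing B]
    (hfrac : ∀ t : ↥(modularFunctionFieldFullC K M), ∃ a ∈ B, ∃ b ∈ B, b ≠ 0 ∧ t * b = a)
    (n : Ideal B) (hn : n.IsMaximal) (hπn : algebraMap R B π ∈ n)
    (h2 : ∃ x y : B, x ∈ n ∧ y ∈ n ∧
      ∀ v ∈ n, ∃ s : B, s ∉ n ∧ ∃ a b : B, s * v = a * x + b * y)
    (V : ValuationSubring ↥(modularFunctionFieldFullC K M)) (hPIR : IsPrincipalIdealRing V)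
    (hπV : (algebraMap R ↥(modularFunctionFieldFullC K M) π)⁻¹ ∉ V)
    (hgen : ∀ x ∈ V, x⁻¹ ∉ V → x * (algebraMap R ↥(modularFunctionFieldFullC K M) π)⁻¹ ∈ V)
    (hBV : ∀ x ∈ B, x ∈ V)
    (hsat : ∀ x ∈ B, (algebraMap R ↥(modularFunctionFieldFullC K M) π)⁻¹ * x ∈ V →
      (algebraMap R ↥(modularFunctionFieldFullC K M) π)⁻¹ * x ∈ B)
    (hKr : ∀ x : ↥(modularFunctionFieldFullC K M),
      (∀ O : ValuationSubring ↥(modularFunctionFieldFullC K M), s34i47_IsHoriz π O →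
        s34i47_Through B n O → x ∈ O) →
      ∃ s : B, s ∉ n ∧ ∃ k : ℕ,
        algebraMap R ↥(modularFunctionFieldFullC K M) π ^ k *
          ((s : ↥(modularFunctionFieldFullC K M)) * x) ∈ B)
    (hfV : relimc_J K M - algebraMap K ↥(modularFunctionFieldFullC K M) 1728 ∈ V)
    (hfV' : (relimc_J K M - algebraMap K ↥(modularFunctionFieldFullC K M) 1728)⁻¹ ∈ V)
    (hfB : ∃ s : B, s ∉ n ∧ (s : ↥(modularFunctionFieldFullC K M)) *
      (relimc_J K M - algebraMap K ↥(modularFunctionFieldFullC K M) 1728) ∈ B) :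
    ∃ c u : ↥(modularFunctionFieldFullC K M), c ≠ 0 ∧
      relimc_J K M - algebraMap K ↥(modularFunctionFieldFullC K M) 1728 = u * c ^ 2 ∧
      (∃ s : B, s ∉ n ∧ (s : ↥(modularFunctionFieldFullC K M)) * u ∈ B) ∧
      (∃ s : B, s ∉ n ∧ (s : ↥(modularFunctionFieldFullC K M)) * u⁻¹ ∈ B) ∧
      (∃ s : B, s ∉ n ∧ (s : ↥(modularFunctionFieldFullC K M)) * c ∈ B) :=
  lpw10_local_of_ord K M R π hπ hπ0 B hfrac n hn hπn h2 V hPIR hπV hgen hBV hsat hKr 2
    (by norm_num) _ (lpw10_J_sub_ne_zero K M 1728)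
    (fun P hP => by rw [lpw10_ord_1728 K M hM2 P hP]; rfl) hfV hfV' hfB

/-- **`J = u * c ^ 3` in `B_n`** at a level with `nuThree M = 0`, at every 2-generated closed
point `n` with one vertical valuation ring `V` where `J` is a `V`-unit and regular. -/
theorem lpw10_J_local (hM3 : nuThree M = 0) (π : R) (hπ : Irreducible π)
    (hπ0 : algebraMap R ↥(modularFunctionFieldFullC K M) π ≠ 0)
    (B : Subalgebra R ↥(modularFunctionFieldFullC K M)) [IsNoetherianRing B]
    (hfrac : ∀ t : ↥(modularFunctionFieldFullC K M), ∃ a ∈ B, ∃ b ∈ B, b ≠ 0 ∧ t * b = a)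
    (n : Ideal B) (hn : n.IsMaximal) (hπn : algebraMap R B π ∈ n)
    (h2 : ∃ x y : B, x ∈ n ∧ y ∈ n ∧
      ∀ v ∈ n, ∃ s : B, s ∉ n ∧ ∃ a b : B, s * v = a * x + b * y)
    (V : ValuationSubring ↥(modularFunctionFieldFullC K M)) (hPIR : IsPrincipalIdealRing V)
    (hπV : (algebraMap R ↥(modularFunctionFieldFullC K M) π)⁻¹ ∉ V)
    (hgen : ∀ x ∈ V, x⁻¹ ∉ V → x * (algebraMap R ↥(modularFunctionFieldFullC K M) π)⁻¹ ∈ V)
    (hBV : ∀ x ∈ B, x ∈ V)
    (hsat : ∀ x ∈ B, (algebraMap R ↥(modularFunctionFieldFullC K M) π)⁻¹ * x ∈ V →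
      (algebraMap R ↥(modularFunctionFieldFullC K M) π)⁻¹ * x ∈ B)
    (hKr : ∀ x : ↥(modularFunctionFieldFullC K M),
      (∀ O : ValuationSubring ↥(modularFunctionFieldFullC K M), s34i47_IsHoriz π O →
        s34i47_Through B n O → x ∈ O) →
      ∃ s : B, s ∉ n ∧ ∃ k : ℕ,
        algebraMap R ↥(modularFunctionFieldFullC K M) π ^ k *
          ((s : ↥(modularFunctionFieldFullC K M)) * x) ∈ B)
    (hfV : relimc_J K M ∈ V) (hfV' : (relimc_J K M)⁻¹ ∈ V)
    (hfB : ∃ s : B, s ∉ n ∧ (s : ↥(modularFunctionFieldFullC K M)) * relimc_J K M ∈ B) :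
    ∃ c u : ↥(modularFunctionFieldFullC K M), c ≠ 0 ∧ relimc_J K M = u * c ^ 3 ∧
      (∃ s : B, s ∉ n ∧ (s : ↥(modularFunctionFieldFullC K M)) * u ∈ B) ∧
      (∃ s : B, s ∉ n ∧ (s : ↥(modularFunctionFieldFullC K M)) * u⁻¹ ∈ B) ∧
      (∃ s : B, s ∉ n ∧ (s : ↥(modularFunctionFieldFullC K M)) * c ∈ B) := by
  have hJ0 : relimc_J K M ≠ 0 := by
    have h := lpw10_J_sub_ne_zero K M 0
    rwa [map_zero, sub_zero] at h
  exact lpw10_local_of_ord K M R π hπ hπ0 B hfrac n hn hπn h2 V hPIR hπV hgen hBV hsat hKr 3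
    (by norm_num) _ hJ0 (fun P hP => by rw [lpw10_ord_zero K M hM3 P hP]; rfl) hfV hfV' hfB

end Assembled

end Fermat.Agent.S36
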