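import Mathlib
import Fermat.Agent.S36.LocPrinTwoGen9

/-!
# S36 (helper9): adapter from `maximalIdeal (Localization.AtPrime n) = (x, y)` to `(LP)` at `n`

The C-rows of the S36 lab produce 2-generation of the local ring of a chart at a closed point in
the form `IsLocalRing.maximalIdeal (Localization.AtPrime n) = Ideal.span {x, y}` (images of
`x y : B`).  `LocPrinTwoGen9` consumes it in the S34 `LocStr` shape
`∀ v ∈ n, ∃ s ∉ n, ∃ a b, s * v = a * x + b * y`.  This file is the bridge:

* `lpa9_h2_of_maximalIdeal_eq` : the first shape implies the second (any commutative ring);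
* `lpa9_locPrin_at` : `(LP)` at `n` from the first shape, `Ord` and `Fin`;
* `lpa9_locPrin` : the literal `s34i47_LocPrin π m B f` when every closed point of the special
  fibre is 2-generated in the first shape.
-/

set_option autoImplicit false

namespace Fermat.Agent.S36

open Fermat.Agent.S34

/-- From `m_{B_n} = (x, y)` in `Localization.AtPrime n` to the `LocStr` shape in `B`. -/
theorem lpa9_h2_of_maximalIdeal_eq {B : Type*} [CommRing B] (n : Ideal B) [n.IsPrime] (x y : B)
    (hm : IsLocalRing.maximalIdeal (Localization.AtPrime n) =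
      Ideal.span {algebraMap B (Localization.AtPrime n) x,
        algebraMap B (Localization.AtPrime n) y}) :
    x ∈ n ∧ y ∈ n ∧ ∀ v ∈ n, ∃ s : B, s ∉ n ∧ ∃ a b : B, s * v = a * x + b * y := by
  have hmem : ∀ t : B, algebraMap B (Localization.AtPrime n) t ∈
      IsLocalRing.maximalIdeal (Localization.AtPrime n) ↔ t ∈ n :=
    fun t => IsLocalization.AtPrime.to_map_mem_maximal_iff (Localization.AtPrime n) n t
  refine ⟨(hmem x).mp ?_, (hmem y).mp ?_, ?_⟩
  · rw [hm]; exact Ideal.subset_span (by simp)
  · rw [hm]; exact Ideal.subset_span (by simp)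
  · intro v hv
    have hv' := (hmem v).mpr hv
    rw [hm] at hv'
    obtain ⟨a', b', hab⟩ := Ideal.mem_span_pair.mp hv'
    obtain ⟨a, s₁, rfl⟩ := IsLocalization.exists_mk'_eq n.primeCompl a'
    obtain ⟨b, s₂, rfl⟩ := IsLocalization.exists_mk'_eq n.primeCompl b'
    have h1 : algebraMap B (Localization.AtPrime n) ((s₂ : B) * a * x + (s₁ : B) * b * y) =
        algebraMap B (Localization.AtPrime n) ((s₁ : B) * (s₂ : B) * v) := by
      have e1 : algebraMap B (Localization.AtPrime n) (s₁ : B) *
          IsLocalization.mk' (Localization.AtPrime n) a s₁ =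
          algebraMap B (Localization.AtPrime n) a := by
        rw [mul_comm]; exact IsLocalization.mk'_spec _ a s₁
      have e2 : algebraMap B (Localization.AtPrime n) (s₂ : B) *
          IsLocalization.mk' (Localization.AtPrime n) b s₂ =
          algebraMap B (Localization.AtPrime n) b := by
        rw [mul_comm]; exact IsLocalization.mk'_spec _ b s₂
      simp only [map_add, map_mul]
      rw [← hab, ← e1, ← e2]
      ring
    obtain ⟨c, hc⟩ := (IsLocalization.eq_iff_exists n.primeCompl (Localization.AtPrime n)).mp h1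
    refine ⟨(c : B) * ((s₁ : B) * (s₂ : B)), ?_, (c : B) * (s₂ : B) * a, (c : B) * (s₁ : B) * b, ?_⟩
    · intro hmem'
      rcases Ideal.IsPrime.mem_or_mem inferInstance hmem' with h | h
      · exact c.2 h
      · rcases Ideal.IsPrime.mem_or_mem inferInstance h with h | h
        · exact s₁.2 h
        · exact s₂.2 h
    · linear_combination -hc

section Frame

variable {R F : Type*} [CommRing R] [Field F] [Algebra R F]

/-- **(LP) at a closed point `n`** whose local ring `B_n` (Mathlib's `Localization.AtPrime n`)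
has maximal ideal generated by the images of `x, y ∈ B`. -/
theorem lpa9_locPrin_at (π : R) (hπ0 : algebraMap R F π ≠ 0) (B : Subalgebra R F)
    [IsNoetherianRing B]
    (hfrac : ∀ t : F, ∃ a ∈ B, ∃ b ∈ B, b ≠ 0 ∧ t * b = a)
    (n : Ideal B) [hn : n.IsMaximal] (hπn : algebraMap R B π ∈ n) (x y : B)
    (hmax : IsLocalRing.maximalIdeal (Localization.AtPrime n) =
      Ideal.span {algebraMap B (Localization.AtPrime n) x,
        algebraMap B (Localization.AtPrime n) y})
    (m : ℕ) (hm : 0 < m) (f : F) (hf : f ≠ 0)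
    (hOrd : s34i47_Ord π m f) (hFin : s34i47_Fin π f) :
    ∃ c : F, c ≠ 0 ∧ ∀ O : ValuationSubring F, s34i47_IsHoriz π O → s34i47_Through B n O →
      f / c ^ m ∈ O ∧ c ^ m / f ∈ O := by
  obtain ⟨hx, hy, h2⟩ := lpa9_h2_of_maximalIdeal_eq n x y hmax
  exact lpz9_locPrin_at π hπ0 B hfrac n hn hπn ⟨x, y, hx, hy, h2⟩ m hm f hf hOrd hFin

/-- **(LP)** for a chart all of whose closed points of the special fibre are 2-generated, in the
`Localization.AtPrime` shape: the literal `s34i47_LocPrin π m B f`. -/
theorem lpa9_locPrin (π : R) (hπ0 : algebraMap R F π ≠ 0) (B : Subalgebra R F)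
    [IsNoetherianRing B]
    (hfrac : ∀ t : F, ∃ a ∈ B, ∃ b ∈ B, b ≠ 0 ∧ t * b = a)
    (h2 : ∀ (n : Ideal B) [n.IsMaximal], algebraMap R B π ∈ n →
      ∃ x y : B, IsLocalRing.maximalIdeal (Localization.AtPrime n) =
        Ideal.span {algebraMap B (Localization.AtPrime n) x,
          algebraMap B (Localization.AtPrime n) y})
    (m : ℕ) (hm : 0 < m) (f : F) (hf : f ≠ 0)
    (hOrd : s34i47_Ord π m f) (hFin : s34i47_Fin π f) :
    s34i47_LocPrin π m B f := by
  intro n hn hπn
  haveI := hn
  obtain ⟨x, y, hmax⟩ := h2 n hπn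
  exact lpa9_locPrin_at π hπ0 B hfrac n hπn x y hmax m hm f hf hOrd hFin

end Frame

end Fermat.Agent.S36
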