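import Fermat.Agent.S36.LocPrinTwoGen9

/-!
# S36 lab (helper22): `(LP)` at a 2-generated closed point, LOCAL hypotheses only

`lpl22_locPrin_at` is `lpz9_locPrin_at` (helper9) with the two global hypotheses
`s34i47_Ord π m f` (orders divisible by `m` at EVERY horizontal `O`) and `s34i47_Fin π f`
replaced by their restrictions to the horizontal `O` THROUGH the point `n`:

* `hOrdAt` : `f = ε * w ^ m`, `ε` a unit of `O`, for every horizontal `O` through `n`;
* `hFinAt` : only finitely many horizontal `O` through `n` are zeros or poles of `f`.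

Use: functions such as `J ^ 4 * (J - 1728) ^ 3` (all zeros through a non-cuspidal point `n` of a
level without elliptic points have order divisible by `6`, while the poles at the cusps do not):
`lpl22_root_at` gives `E` with `f / E ^ m` a unit of every horizontal `O` through `n`.
-/

set_option autoImplicit false

namespace Fermat.Agent.S36

open Fermat.Agent.S34 Fermat.Agent.S18 Fermat.Agent.S35

section lpl22

variable {R F : Type*} [CommRing R] [Field F] [Algebra R F]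

/-- **(LP) at a 2-generated point, local hypotheses.** -/
theorem lpl22_locPrin_at (π : R) (hπ0 : algebraMap R F π ≠ 0) (B : Subalgebra R F)
    [IsNoetherianRing B]
    (hfrac : ∀ t : F, ∃ a ∈ B, ∃ b ∈ B, b ≠ 0 ∧ t * b = a)
    (n : Ideal B) (hn : n.IsMaximal) (hπn : algebraMap R B π ∈ n)
    (h2 : ∃ x y : B, x ∈ n ∧ y ∈ n ∧
      ∀ v ∈ n, ∃ s : B, s ∉ n ∧ ∃ a b : B, s * v = a * x + b * y)
    (m : ℕ) (hm : 0 < m) (f : F) (hf : f ≠ 0)
    (hOrdAt : ∀ O : ValuationSubring F, s34i47_IsHoriz π O → s34i47_Through B n O →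
      ∃ ε w : F, ε ∈ O ∧ ε⁻¹ ∈ O ∧ f = ε * w ^ m)
    (hFinAt : {O : ValuationSubring F | s34i47_IsHoriz π O ∧ s34i47_Through B n O ∧
      ¬ (f ∈ O ∧ f⁻¹ ∈ O)}.Finite) :
    ∃ c : F, c ≠ 0 ∧ ∀ O : ValuationSubring F, s34i47_IsHoriz π O → s34i47_Through B n O →
      f / c ^ m ∈ O ∧ c ^ m / f ∈ O := by
  classical
  set T : Finset (ValuationSubring F) := hFinAt.toFinset with hT
  have hmemT : ∀ O : ValuationSubring F, O ∈ T ↔
      s34i47_IsHoriz π O ∧ s34i47_Through B n O ∧ ¬ (f ∈ O ∧ f⁻¹ ∈ O) := by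
    intro O
    rw [hT, Set.Finite.mem_toFinset]
    rfl
  have hex : ∀ O ∈ T, ∃ g : F, g ≠ 0 ∧ lp9_IsU O (f / g ^ m) ∧
      ∀ O' : ValuationSubring F, s34i47_IsHoriz π O' → s34i47_Through B n O' → O' ≠ O →
        lp9_IsU O' g := by
    intro O hO
    rw [hmemT] at hO
    obtain ⟨p, hp0, hpO, hpinv, hgen, hother⟩ :=
      lpz9_UZ_at π hπ0 B hfrac n hn hπn h2 O hO.1 hO.2.1
    obtain ⟨ε, w, hε, hεinv, hfw⟩ := hOrdAt O hO.1 hO.2.1
    have hw : w ≠ 0 := by
      rintro rfl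
      apply hf
      rw [hfw, zero_pow (by omega), mul_zero]
    obtain ⟨k, hk⟩ := lp9_exists_zpow O hO.1.2.1 p hp0 hpO hpinv hgen w hw
    refine ⟨p ^ k, zpow_ne_zero k hp0, ?_, ?_⟩
    · have he : f / (p ^ k) ^ m = ε * (w / p ^ k) ^ m := by
        rw [hfw, div_pow, mul_div_assoc]
      rw [he]
      exact lp9_IsU_mul ⟨hε, hεinv⟩ (lp9_IsU_pow hk m)
    · intro O' hO' hOn' hne
      exact lp9_IsU_zpow (hother O' hO' hOn' hne) k
  choose! g hg0 hgU hgother using hex
  refine ⟨∏ O ∈ T, g O, Finset.prod_ne_zero_iff.mpr hg0, ?_⟩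
  intro O hO hOn
  have key : lp9_IsU O (f / (∏ O' ∈ T, g O') ^ m) := by
    by_cases hOT : O ∈ T
    · have hsplit : ∏ O' ∈ T, g O' = g O * ∏ O' ∈ T.erase O, g O' :=
        (Finset.mul_prod_erase T g hOT).symm
      have hrest : lp9_IsU O (∏ O' ∈ T.erase O, g O') := by
        apply lp9_IsU_prod
        intro O' hO'
        have h := Finset.mem_erase.mp hO'
        exact hgother O' h.2 O hO hOn (Ne.symm h.1)
      have he : f / (∏ O' ∈ T, g O') ^ m =
          (f / g O ^ m) * ((∏ O' ∈ T.erase O, g O') ^ m)⁻¹ := by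
        rw [hsplit, mul_pow, div_mul_eq_div_div, div_eq_mul_inv (f / g O ^ m)]
      rw [he]
      exact lp9_IsU_mul (hgU O hOT) (lp9_IsU_inv (lp9_IsU_pow hrest m))
    · have hfU : lp9_IsU O f := by
        by_contra h
        exact hOT ((hmemT O).mpr ⟨hO, hOn, h⟩)
      have hcU : lp9_IsU O (∏ O' ∈ T, g O') := by
        apply lp9_IsU_prod
        intro O' hO'
        exact hgother O' hO' O hO hOn (by rintro rfl; exact hOT hO')
      rw [div_eq_mul_inv]
      exact lp9_IsU_mul hfU (lp9_IsU_inv (lp9_IsU_pow hcU m))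
  refine ⟨key.1, ?_⟩
  have h2' := key.2
  rwa [inv_div] at h2'

/-- The same with the global finiteness `s34i47_Fin π f` (only the divisibility is local). -/
theorem lpl22_locPrin_at_fin (π : R) (hπ0 : algebraMap R F π ≠ 0) (B : Subalgebra R F)
    [IsNoetherianRing B]
    (hfrac : ∀ t : F, ∃ a ∈ B, ∃ b ∈ B, b ≠ 0 ∧ t * b = a)
    (n : Ideal B) (hn : n.IsMaximal) (hπn : algebraMap R B π ∈ n)
    (h2 : ∃ x y : B, x ∈ n ∧ y ∈ n ∧
      ∀ v ∈ n, ∃ s : B, s ∉ n ∧ ∃ a b : B, s * v = a * x + b * y)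
    (m : ℕ) (hm : 0 < m) (f : F) (hf : f ≠ 0)
    (hOrdAt : ∀ O : ValuationSubring F, s34i47_IsHoriz π O → s34i47_Through B n O →
      ∃ ε w : F, ε ∈ O ∧ ε⁻¹ ∈ O ∧ f = ε * w ^ m)
    (hFin : s34i47_Fin π f) :
    ∃ c : F, c ≠ 0 ∧ ∀ O : ValuationSubring F, s34i47_IsHoriz π O → s34i47_Through B n O →
      f / c ^ m ∈ O ∧ c ^ m / f ∈ O :=
  lpl22_locPrin_at π hπ0 B hfrac n hn hπn h2 m hm f hf hOrdAt
    (hFin.subset fun _ hO => ⟨hO.1, hO.2.2⟩)

end lpl22

end Fermat.Agent.S36
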