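import Mathlib
import Fermat.Agent.S34.KrullTwin30
import Fermat.Agent.S34.CoreAsm57
import Fermat.Agent.S36.LocPrinStrongThree9

/-!
# S36 (helper9): the strong `(LP)` on the two charts of a three-component frame

`lps9_strong_three` (`LocPrinStrongThree9`) with the chart hypotheses read off the frame `Prop`
`s34i47_ChartProps K π (V₁ ⊓ V₂ ⊓ V₃) h` (the second conjunct of `ci57x_HF`): inclusions
`B ⊆ V_i`, saturation, noetherianity, fraction field, and the Krull property (`kt30_Pkg_Krull`)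
of `B = pk15_chart R {h}` and `B = pk15_chart R {h⁻¹}`.

* `lps9_Strong π m B V₁ V₂ V₃ u` : at every closed point `n` of the special fibre of `B` there is
  `c ≠ 0`, a unit of every `V_i` through `n`, with `u / c ^ m` a unit of `B_n` (and of every
  horizontal `O` through `n`).
* `lps9_strong_chart` / `lps9_strong_chart_inv` : `lps9_Strong` on the chart of `h` / of `h⁻¹`
  from `s34i47_ChartProps`, `hrad`, `tl71_TwoGen` and the literal `hD₁`, `hD₃` of `tl71_twoGen`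
  on that chart, for every `u` which is a unit of `V₁`, `V₂`, `V₃` with `s34i47_Ord`,
  `s34i47_Fin`.
-/

set_option autoImplicit false

namespace Fermat.Agent.S36

open Fermat.Agent.S34 Fermat.Agent.S18 Fermat.Agent.S36.TripleLoc71

section Chart

/-- The conclusion of the strong `(LP)` at every closed point of the special fibre of `B`. -/
def lps9_Strong {R F : Type*} [CommRing R] [Field F] [Algebra R F] (π : R) (m : ℕ)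
    (B : Subalgebra R F) (V₁ V₂ V₃ : ValuationSubring F) (u : F) : Prop :=
  ∀ n : Ideal B, n.IsMaximal → algebraMap R B π ∈ n →
    ∃ c : F, c ≠ 0 ∧
      (sf79_OnBr π B V₁.toSubring n → c ∈ V₁ ∧ c⁻¹ ∈ V₁) ∧
      (sf79_OnBr π B V₂.toSubring n → c ∈ V₂ ∧ c⁻¹ ∈ V₂) ∧
      (sf79_OnBr π B V₃.toSubring n → c ∈ V₃ ∧ c⁻¹ ∈ V₃) ∧
      (∀ O : ValuationSubring F, s34i47_IsHoriz π O → s34i47_Through B n O →
        u / c ^ m ∈ O ∧ c ^ m / u ∈ O) ∧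
      (∃ s : B, s ∉ n ∧ (s : F) * (u / c ^ m) ∈ B) ∧
      (∃ s : B, s ∉ n ∧ (s : F) * (c ^ m / u) ∈ B)

variable {R K F : Type} [CommRing R] [IsDomain R] [IsDiscreteValuationRing R] [Field K]
  [CharZero K] [Field F] [Algebra R K] [IsFractionRing R K] [Algebra R F] [Algebra K F]
  [IsScalarTower R K F]

/-- **Strong `(LP)` on the chart of `h`** of a three-component frame. -/
theorem lps9_strong_chart (π : R) (hπ : Irreducible π) (h σ : F) (e : ℕ)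
    (V₁ V₂ V₃ : ValuationSubring F)
    (hC : s34i47_ChartProps K π (V₁.toSubring ⊓ V₂.toSubring ⊓ V₃.toSubring) h)
    (hσ0 : σ ≠ 0) (hσe : (algebraMap R F π)⁻¹ * σ ^ e ∈ V₂)
    (hπ₁ : (algebraMap R F π)⁻¹ ∉ V₁) (hπ₂ : (algebraMap R F π)⁻¹ ∉ V₂)
    (hπ₃ : (algebraMap R F π)⁻¹ ∉ V₃)
    (hrad₁ : ∀ x ∈ V₁, x⁻¹ ∉ V₁ → ∃ k : ℕ, (algebraMap R F π)⁻¹ * x ^ k ∈ V₁)
    (hrad₂ : ∀ x ∈ V₂, x⁻¹ ∉ V₂ → ∃ k : ℕ, (algebraMap R F π)⁻¹ * x ^ k ∈ V₂)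
    (hrad₃ : ∀ x ∈ V₃, x⁻¹ ∉ V₃ → ∃ k : ℕ, (algebraMap R F π)⁻¹ * x ^ k ∈ V₃)
    (h2 : tl71_TwoGen π (pk15_chart R ({h} : Set F)))
    (hD₁ : ∀ n : Ideal (pk15_chart R ({h} : Set F)), n.IsMaximal →
      sf79_OnBr π (pk15_chart R ({h} : Set F)) V₁.toSubring n →
      (tl71_OnMid σ (pk15_chart R ({h} : Set F)) V₂.toSubring n ∨
        sf79_OnBr π (pk15_chart R ({h} : Set F)) V₃.toSubring n) →
      tl71_DivAt π (pk15_chart R ({h} : Set F)) V₁.toSubring V₂.toSubring V₃.toSubring n)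
    (hD₃ : ∀ n : Ideal (pk15_chart R ({h} : Set F)), n.IsMaximal →
      sf79_OnBr π (pk15_chart R ({h} : Set F)) V₃.toSubring n →
      (tl71_OnMid σ (pk15_chart R ({h} : Set F)) V₂.toSubring n ∨
        sf79_OnBr π (pk15_chart R ({h} : Set F)) V₁.toSubring n) →
      tl71_DivAt π (pk15_chart R ({h} : Set F)) V₃.toSubring V₂.toSubring V₁.toSubring n)
    (m : ℕ) (hm : 0 < m) (u : F) (hu : u ≠ 0)
    (hu₁ : u ∈ V₁ ∧ u⁻¹ ∈ V₁) (hu₂ : u ∈ V₂ ∧ u⁻¹ ∈ V₂) (hu₃ : u ∈ V₃ ∧ u⁻¹ ∈ V₃)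
    (hOrd : s34i47_Ord π m u) (hFin : s34i47_Fin π u) :
    lps9_Strong π m (pk15_chart R ({h} : Set F)) V₁ V₂ V₃ u := by
  obtain ⟨hT, hW, hs1, -, -, hN1, hN2, hfin, hfrac⟩ := hC
  haveI := hN1
  have hπ0 : algebraMap R F π ≠ 0 := by
    intro h0
    apply hπ₁
    rw [h0, inv_zero]
    exact V₁.zero_mem
  have hle : pk15_chart R ({h} : Set F) ≤ pk15_chart R ({h, h⁻¹} : Set F) :=
    pk15_chart_mono (by simp)
  have hBW : ∀ x ∈ pk15_chart R ({h} : Set F),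
      x ∈ V₁.toSubring ⊓ V₂.toSubring ⊓ V₃.toSubring := fun x hx => hW x (hle hx)
  have hB₁ : ∀ x ∈ pk15_chart R ({h} : Set F), x ∈ V₁ := fun x hx => (hBW x hx).1.1
  have hB₂ : ∀ x ∈ pk15_chart R ({h} : Set F), x ∈ V₂ := fun x hx => (hBW x hx).1.2
  have hB₃ : ∀ x ∈ pk15_chart R ({h} : Set F), x ∈ V₃ := fun x hx => (hBW x hx).2
  have hsat : ∀ x ∈ pk15_chart R ({h} : Set F), (algebraMap R F π)⁻¹ * x ∈ V₁ →
      (algebraMap R F π)⁻¹ * x ∈ V₂ → (algebraMap R F π)⁻¹ * x ∈ V₃ →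
      (algebraMap R F π)⁻¹ * x ∈ pk15_chart R ({h} : Set F) :=
    fun x hx h1 h2 h3 => hs1 x hx ⟨⟨h1, h2⟩, h3⟩
  have hKr := (kt30_Pkg_Krull R K F π hπ h hT hN1 hN2 hfin hfrac).1
  exact lps9_strong_three π σ e _ V₁ V₂ V₃ hB₁ hB₂ hB₃ hsat hπ0 hσ0 hσe hπ₁ hπ₂ hπ₃
    hrad₁ hrad₂ hrad₃ hfrac h2 hKr hD₁ hD₃ m hm u hu hu₁ hu₂ hu₃ hOrd hFin

/-- **Strong `(LP)` on the chart of `h⁻¹`** of a three-component frame. -/
theorem lps9_strong_chart_inv (π : R) (hπ : Irreducible π) (h σ : F) (e : ℕ)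
    (V₁ V₂ V₃ : ValuationSubring F)
    (hC : s34i47_ChartProps K π (V₁.toSubring ⊓ V₂.toSubring ⊓ V₃.toSubring) h)
    (hσ0 : σ ≠ 0) (hσe : (algebraMap R F π)⁻¹ * σ ^ e ∈ V₂)
    (hπ₁ : (algebraMap R F π)⁻¹ ∉ V₁) (hπ₂ : (algebraMap R F π)⁻¹ ∉ V₂)
    (hπ₃ : (algebraMap R F π)⁻¹ ∉ V₃)
    (hrad₁ : ∀ x ∈ V₁, x⁻¹ ∉ V₁ → ∃ k : ℕ, (algebraMap R F π)⁻¹ * x ^ k ∈ V₁)
    (hrad₂ : ∀ x ∈ V₂, x⁻¹ ∉ V₂ → ∃ k : ℕ, (algebraMap R F π)⁻¹ * x ^ k ∈ V₂)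
    (hrad₃ : ∀ x ∈ V₃, x⁻¹ ∉ V₃ → ∃ k : ℕ, (algebraMap R F π)⁻¹ * x ^ k ∈ V₃)
    (h2 : tl71_TwoGen π (pk15_chart R ({h⁻¹} : Set F)))
    (hD₁ : ∀ n : Ideal (pk15_chart R ({h⁻¹} : Set F)), n.IsMaximal →
      sf79_OnBr π (pk15_chart R ({h⁻¹} : Set F)) V₁.toSubring n →
      (tl71_OnMid σ (pk15_chart R ({h⁻¹} : Set F)) V₂.toSubring n ∨
        sf79_OnBr π (pk15_chart R ({h⁻¹} : Set F)) V₃.toSubring n) →
      tl71_DivAt π (pk15_chart R ({h⁻¹} : Set F)) V₁.toSubring V₂.toSubring V₃.toSubring n)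
    (hD₃ : ∀ n : Ideal (pk15_chart R ({h⁻¹} : Set F)), n.IsMaximal →
      sf79_OnBr π (pk15_chart R ({h⁻¹} : Set F)) V₃.toSubring n →
      (tl71_OnMid σ (pk15_chart R ({h⁻¹} : Set F)) V₂.toSubring n ∨
        sf79_OnBr π (pk15_chart R ({h⁻¹} : Set F)) V₁.toSubring n) →
      tl71_DivAt π (pk15_chart R ({h⁻¹} : Set F)) V₃.toSubring V₂.toSubring V₁.toSubring n)
    (m : ℕ) (hm : 0 < m) (u : F) (hu : u ≠ 0)
    (hu₁ : u ∈ V₁ ∧ u⁻¹ ∈ V₁) (hu₂ : u ∈ V₂ ∧ u⁻¹ ∈ V₂) (hu₃ : u ∈ V₃ ∧ u⁻¹ ∈ V₃)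
    (hOrd : s34i47_Ord π m u) (hFin : s34i47_Fin π u) :
    lps9_Strong π m (pk15_chart R ({h⁻¹} : Set F)) V₁ V₂ V₃ u := by
  obtain ⟨hT, hW, -, hs2, -, hN1, hN2, hfin, hfrac⟩ := hC
  haveI := hN2
  have hπ0 : algebraMap R F π ≠ 0 := by
    intro h0
    apply hπ₁
    rw [h0, inv_zero]
    exact V₁.zero_mem
  have hh0 : h ≠ 0 := by
    rintro rfl
    exact hT isAlgebraic_zero
  have hle : pk15_chart R ({h⁻¹} : Set F) ≤ pk15_chart R ({h, h⁻¹} : Set F) :=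
    pk15_chart_mono (by simp)
  have hBW : ∀ x ∈ pk15_chart R ({h⁻¹} : Set F),
      x ∈ V₁.toSubring ⊓ V₂.toSubring ⊓ V₃.toSubring := fun x hx => hW x (hle hx)
  have hB₁ : ∀ x ∈ pk15_chart R ({h⁻¹} : Set F), x ∈ V₁ := fun x hx => (hBW x hx).1.1
  have hB₂ : ∀ x ∈ pk15_chart R ({h⁻¹} : Set F), x ∈ V₂ := fun x hx => (hBW x hx).1.2
  have hB₃ : ∀ x ∈ pk15_chart R ({h⁻¹} : Set F), x ∈ V₃ := fun x hx => (hBW x hx).2
  have hsat : ∀ x ∈ pk15_chart R ({h⁻¹} : Set F), (algebraMap R F π)⁻¹ * x ∈ V₁ →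
      (algebraMap R F π)⁻¹ * x ∈ V₂ → (algebraMap R F π)⁻¹ * x ∈ V₃ →
      (algebraMap R F π)⁻¹ * x ∈ pk15_chart R ({h⁻¹} : Set F) :=
    fun x hx h1 h2 h3 => hs2 x hx ⟨⟨h1, h2⟩, h3⟩
  have hKr := (kt30_Pkg_Krull R K F π hπ h hT hN1 hN2 hfin hfrac).2
  have hfrac' := ca57_frac_inv (R := R) h hh0 hfrac
  exact lps9_strong_three π σ e _ V₁ V₂ V₃ hB₁ hB₂ hB₃ hsat hπ0 hσ0 hσe hπ₁ hπ₂ hπ₃
    hrad₁ hrad₂ hrad₃ hfrac' h2 hKr hD₁ hD₃ m hm u hu hu₁ hu₂ hu₃ hOrd hFin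

end Chart

end Fermat.Agent.S36
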