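import Mathlib
import Fermat.Agent.S36.LocPrinTwoGen9
import Fermat.Agent.S36.LocStrThree71

/-!
# S36 (helper9): `(LP)` on a three-component chart

Composition of helper71's `tl71_TwoGen` / `tl71_twoGen` (`LocStrThree71`: two generators at every
closed point of the special fibre of a saturated chart with the vertical components `V₁`, `V₂`,
`V₃`) with `lpz9_locPrin` (`LocPrinTwoGen9`): the literal `s34i47_LocPrin π m B f`, for every `f`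
with `m ∣ ord_O f` at all horizontal `O` and finitely many zeros and poles.  No rationality and
no unique-zero hypothesis.
-/

set_option autoImplicit false

namespace Fermat.Agent.S36

open Fermat.Agent.S34 Fermat.Agent.S36.TripleLoc71

section

variable {R F : Type*} [CommRing R] [Field F] [Algebra R F]

/-- `(LP)` from `tl71_TwoGen`. -/
theorem lp3x9_locPrin_of_twoGen (π : R) (hπ0 : algebraMap R F π ≠ 0) (B : Subalgebra R F)
    [IsNoetherianRing B]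
    (hfrac : ∀ t : F, ∃ a ∈ B, ∃ b ∈ B, b ≠ 0 ∧ t * b = a)
    (h2 : tl71_TwoGen π B)
    (m : ℕ) (hm : 0 < m) (f : F) (hf : f ≠ 0)
    (hOrd : s34i47_Ord π m f) (hFin : s34i47_Fin π f) :
    s34i47_LocPrin π m B f :=
  lpz9_locPrin π hπ0 B hfrac h2 m hm f hf hOrd hFin

/-- `(LP)` on a saturated chart with three vertical components, from the hypotheses of
`tl71_twoGen`. -/
theorem lp3x9_locPrin_three (π : R) (σ : F) (e : ℕ) (B : Subalgebra R F) [IsNoetherianRing B]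
    (V₁ V₂ V₃ : Subring F)
    (hB₁ : ∀ x ∈ B, x ∈ V₁) (hB₂ : ∀ x ∈ B, x ∈ V₂) (hB₃ : ∀ x ∈ B, x ∈ V₃)
    (hsat : ∀ x ∈ B, (algebraMap R F π)⁻¹ * x ∈ V₁ → (algebraMap R F π)⁻¹ * x ∈ V₂ →
      (algebraMap R F π)⁻¹ * x ∈ V₃ → (algebraMap R F π)⁻¹ * x ∈ B)
    (hπ0 : algebraMap R F π ≠ 0) (hσ0 : σ ≠ 0)
    (hσe : (algebraMap R F π)⁻¹ * σ ^ e ∈ V₂)
    (hS₁ : sf79_Smooth π B V₁) (hS₃ : sf79_Smooth π B V₃) (hS₂ : tl71_MidSmooth π σ B V₂)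
    (hD₁ : ∀ n : Ideal B, n.IsMaximal → sf79_OnBr π B V₁ n →
      (tl71_OnMid σ B V₂ n ∨ sf79_OnBr π B V₃ n) → tl71_DivAt π B V₁ V₂ V₃ n)
    (hD₃ : ∀ n : Ideal B, n.IsMaximal → sf79_OnBr π B V₃ n →
      (tl71_OnMid σ B V₂ n ∨ sf79_OnBr π B V₁ n) → tl71_DivAt π B V₃ V₂ V₁ n)
    (hD₂ : ∀ n : Ideal B, n.IsMaximal → algebraMap R B π ∈ n → tl71_OnMid σ B V₂ n →
      ¬ sf79_OnBr π B V₁ n → ¬ sf79_OnBr π B V₃ n → tl71_MidDivAt π σ B V₁ V₂ V₃ n)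
    (hfrac : ∀ t : F, ∃ a ∈ B, ∃ b ∈ B, b ≠ 0 ∧ t * b = a)
    (m : ℕ) (hm : 0 < m) (f : F) (hf : f ≠ 0)
    (hOrd : s34i47_Ord π m f) (hFin : s34i47_Fin π f) :
    s34i47_LocPrin π m B f :=
  lp3x9_locPrin_of_twoGen π hπ0 B hfrac
    (tl71_twoGen π σ e B V₁ V₂ V₃ hB₁ hB₂ hB₃ hsat hπ0 hσ0 hσe hS₁ hS₃ hS₂ hD₁ hD₃ hD₂)
    m hm f hf hOrd hFin

end

end Fermat.Agent.S36
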