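import Mathlib
import Fermat.Agent.S36.HP1Bind62
import Fermat.Agent.S36.TwoGenCanonB71

/-!
# S36 lab (helper50), rows 600/601: the LAST BINDER `hreg ⟹ s36i62h_Mid2 / s36i62h_Mid3`

`HP1Bind62` (helper62) reduced the frozen S36 to the four closed statements `s36i62h_Mid2`,
`s36i62h_Mid3`, `s36i62g_HP3c2`, `s36i62g_HP3c3`.  The two `Mid` statements ask that the middle
branch be principal (`mc25_MidPrinAt`) at EVERY closed point of the canonical charts lying on
`C₂` only.  helper25 (`MidCuspFrame25`) proved this at the cusps of `C₂`, so only the points where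
`j` is regular remain (row C-C2, the hypothesis `hreg` of `mc25_hD2_level2/3(_inv)`).

* `mb50_level2`, `mb50_level3` : for a parameter `V₂` with the four facts, on both charts:
  `hreg → (MidPrinAt at every C₂-only closed point)`.
* `mb50_Reg2`, `mb50_Reg3` : the closed statements `s36i62h_Mid2` / `s36i62h_Mid3` restricted to
  the `j`-regular points (binder block VERBATIM that of `s36i62h_Mid2/3`).
* `mb50_Mid2_of_reg : mb50_Reg2 → s36i62h_Mid2`, `mb50_Mid3_of_reg : mb50_Reg3 → s36i62h_Mid3`.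

All names are prefixed `mb50_`.
-/

set_option autoImplicit false
set_option linter.unusedSectionVars false
set_option linter.unusedVariables false
set_option linter.style.haveILetI false
set_option linter.style.longLine false

open ModularCurve AlgebraicCurve CongruenceSubgroup

namespace Fermat.Agent.S36

open Fermat.Agent.S34 Fermat.Agent.S18 Fermat.Agent.S24 Fermat.Agent.S35
open Fermat.Agent.S36.TripleLoc71

local notation "Q̄" => AlgebraicClosure ℚ

section MB50

variable {R K : Type} [CommRing R] [IsDomain R] [IsDiscreteValuationRing R] [Field K]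
  [NumberField K] [Algebra R K] [IsFractionRing R K] [Algebra K Q̄] [Algebra.IsAlgebraic K Q̄]
  (M' q : ℕ) [NeZero M'] [NeZero q] (hq : q.Prime) (hM' : ¬ q ∣ M')
  {π : R} (hπ : Irreducible π)
  [Algebra R ↥(modularFunctionFieldFullC K M')]
  [IsScalarTower R K ↥(modularFunctionFieldFullC K M')]
  [Algebra R ↥(modularFunctionFieldFullC K (M' * q))]
  [IsScalarTower R K ↥(modularFunctionFieldFullC K (M' * q))]
  [Algebra R ↥(modularFunctionFieldFullC K (M' * q * q))]
  [IsScalarTower R K ↥(modularFunctionFieldFullC K (M' * q * q))]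

include hq hM' in
/-- **Level 2: the middle branch is principal at EVERY closed point of `C₂` only** (both
charts), from the same statement at the points where `j` is regular (`hreg`, row C-C2); the cusps
are `mc25_hD2_level2` / `_inv` (helper25).  `V₂` is a parameter with the four facts. -/
theorem mb50_level2 (hunit : ∀ n : ℕ, Nat.Coprime n q → IsUnit (n : R))
    (hqR : ¬ IsUnit (q : R)) (hMu : IsUnit (M' : R)) (h2 : 2 ∣ M')
    (u u' : R) (huu' : u * u' = 1) (hqπ : (q : R) = u * π)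
    (V₂ : ValuationSubring ↥(modularFunctionFieldFullC K (M' * q * q)))
    (hV₂ : ∀ c ∈ cm85_Vinf (K := K) (M' * q) hπ, al97L_alpha K (M' * q) q c ∈ V₂)
    (hπ₂ : (algebraMap K ↥(modularFunctionFieldFullC K (M' * q * q)) (algebraMap R K π))⁻¹ ∉ V₂)
    (hne : cm85_Vinf (K := K) (M' * q * q) hπ ≠ V₂)
    (hs : V₂.valuation (v2g64_s K M' q) ^ (q - 1) =
      V₂.valuation (algebraMap K ↥(modularFunctionFieldFullC K (M' * q * q)) (algebraMap R K π))) :
    (
      (∀ n : Ideal ↥(pk15_chart R ({pk85_h2 K (M' * q * q) (h2.trans ((dvd_mul_right M' q).trans (dvd_mul_right (M' * q) q)))} : Set ↥(modularFunctionFieldFullC K (M' * q * q)))), n.IsMaximal → algebraMap R ↥(pk15_chart R ({pk85_h2 K (M' * q * q) (h2.trans ((dvd_mul_right M' q).trans (dvd_mul_right (M' * q) q)))} : Set ↥(modularFunctionFieldFullC K (M' * q * q)))) π ∈ n →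
          tl71_OnMid (v2g64_s K M' q) (pk15_chart R ({pk85_h2 K (M' * q * q) (h2.trans ((dvd_mul_right M' q).trans (dvd_mul_right (M' * q) q)))} : Set ↥(modularFunctionFieldFullC K (M' * q * q)))) V₂.toSubring n →
          ¬ sf79_OnBr π (pk15_chart R ({pk85_h2 K (M' * q * q) (h2.trans ((dvd_mul_right M' q).trans (dvd_mul_right (M' * q) q)))} : Set ↥(modularFunctionFieldFullC K (M' * q * q)))) (cm85_Vinf (K := K) (M' * q * q) hπ).toSubring n →
          ¬ sf79_OnBr π (pk15_chart R ({pk85_h2 K (M' * q * q) (h2.trans ((dvd_mul_right M' q).trans (dvd_mul_right (M' * q) q)))} : Set ↥(modularFunctionFieldFullC K (M' * q * q)))) (nsb86_V3 (K := K) M' q hq hM' hπ).toSubring n →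
          (∃ s' b : ↥(pk15_chart R ({pk85_h2 K (M' * q * q) (h2.trans ((dvd_mul_right M' q).trans (dvd_mul_right (M' * q) q)))} : Set ↥(modularFunctionFieldFullC K (M' * q * q)))), s' ∉ n ∧ (s' : ↥(modularFunctionFieldFullC K (M' * q * q))) * rm90_j K (M' * q * q) = (b : ↥(modularFunctionFieldFullC K (M' * q * q)))) →
          mc25_MidPrinAt (v2g64_s K M' q) (pk15_chart R ({pk85_h2 K (M' * q * q) (h2.trans ((dvd_mul_right M' q).trans (dvd_mul_right (M' * q) q)))} : Set ↥(modularFunctionFieldFullC K (M' * q * q)))) V₂.toSubring n) →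
      (∀ n : Ideal ↥(pk15_chart R ({pk85_h2 K (M' * q * q) (h2.trans ((dvd_mul_right M' q).trans (dvd_mul_right (M' * q) q)))} : Set ↥(modularFunctionFieldFullC K (M' * q * q)))), n.IsMaximal → algebraMap R ↥(pk15_chart R ({pk85_h2 K (M' * q * q) (h2.trans ((dvd_mul_right M' q).trans (dvd_mul_right (M' * q) q)))} : Set ↥(modularFunctionFieldFullC K (M' * q * q)))) π ∈ n →
          tl71_OnMid (v2g64_s K M' q) (pk15_chart R ({pk85_h2 K (M' * q * q) (h2.trans ((dvd_mul_right M' q).trans (dvd_mul_right (M' * q) q)))} : Set ↥(modularFunctionFieldFullC K (M' * q * q)))) V₂.toSubring n →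
          ¬ sf79_OnBr π (pk15_chart R ({pk85_h2 K (M' * q * q) (h2.trans ((dvd_mul_right M' q).trans (dvd_mul_right (M' * q) q)))} : Set ↥(modularFunctionFieldFullC K (M' * q * q)))) (cm85_Vinf (K := K) (M' * q * q) hπ).toSubring n →
          ¬ sf79_OnBr π (pk15_chart R ({pk85_h2 K (M' * q * q) (h2.trans ((dvd_mul_right M' q).trans (dvd_mul_right (M' * q) q)))} : Set ↥(modularFunctionFieldFullC K (M' * q * q)))) (nsb86_V3 (K := K) M' q hq hM' hπ).toSubring n →
          mc25_MidPrinAt (v2g64_s K M' q) (pk15_chart R ({pk85_h2 K (M' * q * q) (h2.trans ((dvd_mul_right M' q).trans (dvd_mul_right (M' * q) q)))} : Set ↥(modularFunctionFieldFullC K (M' * q * q)))) V₂.toSubring n)) ∧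
    (
      (∀ n : Ideal ↥(pk15_chart R ({(pk85_h2 K (M' * q * q) (h2.trans ((dvd_mul_right M' q).trans (dvd_mul_right (M' * q) q))))⁻¹} : Set ↥(modularFunctionFieldFullC K (M' * q * q)))), n.IsMaximal → algebraMap R ↥(pk15_chart R ({(pk85_h2 K (M' * q * q) (h2.trans ((dvd_mul_right M' q).trans (dvd_mul_right (M' * q) q))))⁻¹} : Set ↥(modularFunctionFieldFullC K (M' * q * q)))) π ∈ n →
          tl71_OnMid (v2g64_s K M' q) (pk15_chart R ({(pk85_h2 K (M' * q * q) (h2.trans ((dvd_mul_right M' q).trans (dvd_mul_right (M' * q) q))))⁻¹} : Set ↥(modularFunctionFieldFullC K (M' * q * q)))) V₂.toSubring n →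
          ¬ sf79_OnBr π (pk15_chart R ({(pk85_h2 K (M' * q * q) (h2.trans ((dvd_mul_right M' q).trans (dvd_mul_right (M' * q) q))))⁻¹} : Set ↥(modularFunctionFieldFullC K (M' * q * q)))) (cm85_Vinf (K := K) (M' * q * q) hπ).toSubring n →
          ¬ sf79_OnBr π (pk15_chart R ({(pk85_h2 K (M' * q * q) (h2.trans ((dvd_mul_right M' q).trans (dvd_mul_right (M' * q) q))))⁻¹} : Set ↥(modularFunctionFieldFullC K (M' * q * q)))) (nsb86_V3 (K := K) M' q hq hM' hπ).toSubring n →
          (∃ s' b : ↥(pk15_chart R ({(pk85_h2 K (M' * q * q) (h2.trans ((dvd_mul_right M' q).trans (dvd_mul_right (M' * q) q))))⁻¹} : Set ↥(modularFunctionFieldFullC K (M' * q * q)))), s' ∉ n ∧ (s' : ↥(modularFunctionFieldFullC K (M' * q * q))) * rm90_j K (M' * q * q) = (b : ↥(modularFunctionFieldFullC K (M' * q * q)))) →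
          mc25_MidPrinAt (v2g64_s K M' q) (pk15_chart R ({(pk85_h2 K (M' * q * q) (h2.trans ((dvd_mul_right M' q).trans (dvd_mul_right (M' * q) q))))⁻¹} : Set ↥(modularFunctionFieldFullC K (M' * q * q)))) V₂.toSubring n) →
      (∀ n : Ideal ↥(pk15_chart R ({(pk85_h2 K (M' * q * q) (h2.trans ((dvd_mul_right M' q).trans (dvd_mul_right (M' * q) q))))⁻¹} : Set ↥(modularFunctionFieldFullC K (M' * q * q)))), n.IsMaximal → algebraMap R ↥(pk15_chart R ({(pk85_h2 K (M' * q * q) (h2.trans ((dvd_mul_right M' q).trans (dvd_mul_right (M' * q) q))))⁻¹} : Set ↥(modularFunctionFieldFullC K (M' * q * q)))) π ∈ n →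
          tl71_OnMid (v2g64_s K M' q) (pk15_chart R ({(pk85_h2 K (M' * q * q) (h2.trans ((dvd_mul_right M' q).trans (dvd_mul_right (M' * q) q))))⁻¹} : Set ↥(modularFunctionFieldFullC K (M' * q * q)))) V₂.toSubring n →
          ¬ sf79_OnBr π (pk15_chart R ({(pk85_h2 K (M' * q * q) (h2.trans ((dvd_mul_right M' q).trans (dvd_mul_right (M' * q) q))))⁻¹} : Set ↥(modularFunctionFieldFullC K (M' * q * q)))) (cm85_Vinf (K := K) (M' * q * q) hπ).toSubring n →
          ¬ sf79_OnBr π (pk15_chart R ({(pk85_h2 K (M' * q * q) (h2.trans ((dvd_mul_right M' q).trans (dvd_mul_right (M' * q) q))))⁻¹} : Set ↥(modularFunctionFieldFullC K (M' * q * q)))) (nsb86_V3 (K := K) M' q hq hM' hπ).toSubring n →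
          mc25_MidPrinAt (v2g64_s K M' q) (pk15_chart R ({(pk85_h2 K (M' * q * q) (h2.trans ((dvd_mul_right M' q).trans (dvd_mul_right (M' * q) q))))⁻¹} : Set ↥(modularFunctionFieldFullC K (M' * q * q)))) V₂.toSubring n)) := by
  have hqp : q ≠ 2 := by
    intro h
    apply hM'
    rw [h]
    exact h2
  have hpu : IsUnit ((2 : ℕ) : R) :=
    hunit 2 ((Nat.coprime_primes Nat.prime_two hq).mpr (Ne.symm hqp))
  have hpu' : IsUnit (2 : R) := by
    simpa using hpu
  obtain ⟨-, hC, -⟩ := fb85_frameV3_level2 M' q hq hM' hπ hqR hMu h2 V₂ hV₂ hπ₂ hs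
  obtain ⟨-, h12W, hsat1, hsat2, -⟩ := hC
  have e : algebraMap R ↥(modularFunctionFieldFullC K (M' * q * q)) π = (algebraMap K ↥(modularFunctionFieldFullC K (M' * q * q)) (algebraMap R K π)) :=
    IsScalarTower.algebraMap_apply R K _ π
  have hπ₂' : (algebraMap R ↥(modularFunctionFieldFullC K (M' * q * q)) π)⁻¹ ∉ V₂ := by
    rw [e]
    exact hπ₂
  have hs' : V₂.valuation (v2g64_s K M' q) ^ (q - 1) =
      V₂.valuation (algebraMap R ↥(modularFunctionFieldFullC K (M' * q * q)) π) := by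
    rw [e]
    exact hs
  have hsub1 : ({pk85_h2 K (M' * q * q) (h2.trans ((dvd_mul_right M' q).trans (dvd_mul_right (M' * q) q)))} : Set ↥(modularFunctionFieldFullC K (M' * q * q))) ⊆
      {pk85_h2 K (M' * q * q) (h2.trans ((dvd_mul_right M' q).trans (dvd_mul_right (M' * q) q))), (pk85_h2 K (M' * q * q) (h2.trans ((dvd_mul_right M' q).trans (dvd_mul_right (M' * q) q))))⁻¹} := by
    intro x hx
    rw [Set.mem_singleton_iff.mp hx]
    exact Set.mem_insert _ _
  have hsub2 : ({(pk85_h2 K (M' * q * q) (h2.trans ((dvd_mul_right M' q).trans (dvd_mul_right (M' * q) q))))⁻¹} : Set ↥(modularFunctionFieldFullC K (M' * q * q))) ⊆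
      {pk85_h2 K (M' * q * q) (h2.trans ((dvd_mul_right M' q).trans (dvd_mul_right (M' * q) q))), (pk85_h2 K (M' * q * q) (h2.trans ((dvd_mul_right M' q).trans (dvd_mul_right (M' * q) q))))⁻¹} := by
    intro x hx
    rw [Set.mem_singleton_iff.mp hx]
    exact Set.mem_insert_of_mem _ rfl
  have hBW1 : ∀ x ∈ (pk15_chart R ({pk85_h2 K (M' * q * q) (h2.trans ((dvd_mul_right M' q).trans (dvd_mul_right (M' * q) q)))} : Set ↥(modularFunctionFieldFullC K (M' * q * q)))), x ∈ (cm85_Vinf (K := K) (M' * q * q) hπ).toSubring ⊓ V₂.toSubring ⊓ (nsb86_V3 (K := K) M' q hq hM' hπ).toSubring :=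
    fun x hx => h12W x (pk15_chart_mono hsub1 hx)
  have hBW2 : ∀ x ∈ (pk15_chart R ({(pk85_h2 K (M' * q * q) (h2.trans ((dvd_mul_right M' q).trans (dvd_mul_right (M' * q) q))))⁻¹} : Set ↥(modularFunctionFieldFullC K (M' * q * q)))), x ∈ (cm85_Vinf (K := K) (M' * q * q) hπ).toSubring ⊓ V₂.toSubring ⊓ (nsb86_V3 (K := K) M' q hq hM' hπ).toSubring :=
    fun x hx => h12W x (pk15_chart_mono hsub2 hx)
  refine ⟨fun hreg => ?_, fun hreg => ?_⟩
  · exact mc25_hD2_level2 (R := R) (K := K) M' q hq hM' hπ hqR h2 hpu' u u' huu' hqπ V₂ hV₂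
      hπ₂' hne (v2g64_s K M' q) hs' rfl (cm85_Vinf (K := K) (M' * q * q) hπ).toSubring (nsb86_V3 (K := K) M' q hq hM' hπ).toSubring
      (fun x hx => (Subring.mem_inf.mp (Subring.mem_inf.mp (hBW1 x hx)).1).1)
      (fun x hx => (Subring.mem_inf.mp (Subring.mem_inf.mp (hBW1 x hx)).1).2)
      (fun x hx => (Subring.mem_inf.mp (hBW1 x hx)).2)
      (fun x hx h1 h2 h3 => hsat1 x hx (Subring.mem_inf.mpr ⟨Subring.mem_inf.mpr ⟨h1, h2⟩, h3⟩))
      hreg
  · exact mc25_hD2_level2_inv (R := R) (K := K) M' q hq hM' hπ hqR h2 u u' huu' hqπ V₂ hV₂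
      hπ₂' hne (v2g64_s K M' q) hs' rfl (cm85_Vinf (K := K) (M' * q * q) hπ).toSubring (nsb86_V3 (K := K) M' q hq hM' hπ).toSubring
      (fun x hx => (Subring.mem_inf.mp (Subring.mem_inf.mp (hBW2 x hx)).1).1)
      (fun x hx => (Subring.mem_inf.mp (Subring.mem_inf.mp (hBW2 x hx)).1).2)
      (fun x hx => (Subring.mem_inf.mp (hBW2 x hx)).2)
      (fun x hx h1 h2 h3 => hsat2 x hx (Subring.mem_inf.mpr ⟨Subring.mem_inf.mpr ⟨h1, h2⟩, h3⟩))
      hreg

include hq hM' in
/-- **Level 3: the middle branch is principal at EVERY closed point of `C₂` only** (both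
charts), from the same statement at the points where `j` is regular (`hreg`, row C-C2); the cusps
are `mc25_hD2_level3` / `_inv` (helper25).  `V₂` is a parameter with the four facts. -/
theorem mb50_level3 (hunit : ∀ n : ℕ, Nat.Coprime n q → IsUnit (n : R))
    (hqR : ¬ IsUnit (q : R)) (hMu : IsUnit (M' : R)) (h3 : 3 ∣ M')
    (u u' : R) (huu' : u * u' = 1) (hqπ : (q : R) = u * π)
    (V₂ : ValuationSubring ↥(modularFunctionFieldFullC K (M' * q * q)))
    (hV₂ : ∀ c ∈ cm85_Vinf (K := K) (M' * q) hπ, al97L_alpha K (M' * q) q c ∈ V₂)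
    (hπ₂ : (algebraMap K ↥(modularFunctionFieldFullC K (M' * q * q)) (algebraMap R K π))⁻¹ ∉ V₂)
    (hne : cm85_Vinf (K := K) (M' * q * q) hπ ≠ V₂)
    (hs : V₂.valuation (v2g64_s K M' q) ^ (q - 1) =
      V₂.valuation (algebraMap K ↥(modularFunctionFieldFullC K (M' * q * q)) (algebraMap R K π))) :
    (
      (∀ n : Ideal ↥(pk15_chart R ({pk85_h3 K (M' * q * q) (h3.trans ((dvd_mul_right M' q).trans (dvd_mul_right (M' * q) q)))} : Set ↥(modularFunctionFieldFullC K (M' * q * q)))), n.IsMaximal → algebraMap R ↥(pk15_chart R ({pk85_h3 K (M' * q * q) (h3.trans ((dvd_mul_right M' q).trans (dvd_mul_right (M' * q) q)))} : Set ↥(modularFunctionFieldFullC K (M' * q * q)))) π ∈ n →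
          tl71_OnMid (v2g64_s K M' q) (pk15_chart R ({pk85_h3 K (M' * q * q) (h3.trans ((dvd_mul_right M' q).trans (dvd_mul_right (M' * q) q)))} : Set ↥(modularFunctionFieldFullC K (M' * q * q)))) V₂.toSubring n →
          ¬ sf79_OnBr π (pk15_chart R ({pk85_h3 K (M' * q * q) (h3.trans ((dvd_mul_right M' q).trans (dvd_mul_right (M' * q) q)))} : Set ↥(modularFunctionFieldFullC K (M' * q * q)))) (cm85_Vinf (K := K) (M' * q * q) hπ).toSubring n →
          ¬ sf79_OnBr π (pk15_chart R ({pk85_h3 K (M' * q * q) (h3.trans ((dvd_mul_right M' q).trans (dvd_mul_right (M' * q) q)))} : Set ↥(modularFunctionFieldFullC K (M' * q * q)))) (nsb86_V3 (K := K) M' q hq hM' hπ).toSubring n →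
          (∃ s' b : ↥(pk15_chart R ({pk85_h3 K (M' * q * q) (h3.trans ((dvd_mul_right M' q).trans (dvd_mul_right (M' * q) q)))} : Set ↥(modularFunctionFieldFullC K (M' * q * q)))), s' ∉ n ∧ (s' : ↥(modularFunctionFieldFullC K (M' * q * q))) * rm90_j K (M' * q * q) = (b : ↥(modularFunctionFieldFullC K (M' * q * q)))) →
          mc25_MidPrinAt (v2g64_s K M' q) (pk15_chart R ({pk85_h3 K (M' * q * q) (h3.trans ((dvd_mul_right M' q).trans (dvd_mul_right (M' * q) q)))} : Set ↥(modularFunctionFieldFullC K (M' * q * q)))) V₂.toSubring n) →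
      (∀ n : Ideal ↥(pk15_chart R ({pk85_h3 K (M' * q * q) (h3.trans ((dvd_mul_right M' q).trans (dvd_mul_right (M' * q) q)))} : Set ↥(modularFunctionFieldFullC K (M' * q * q)))), n.IsMaximal → algebraMap R ↥(pk15_chart R ({pk85_h3 K (M' * q * q) (h3.trans ((dvd_mul_right M' q).trans (dvd_mul_right (M' * q) q)))} : Set ↥(modularFunctionFieldFullC K (M' * q * q)))) π ∈ n →
          tl71_OnMid (v2g64_s K M' q) (pk15_chart R ({pk85_h3 K (M' * q * q) (h3.trans ((dvd_mul_right M' q).trans (dvd_mul_right (M' * q) q)))} : Set ↥(modularFunctionFieldFullC K (M' * q * q)))) V₂.toSubring n →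
          ¬ sf79_OnBr π (pk15_chart R ({pk85_h3 K (M' * q * q) (h3.trans ((dvd_mul_right M' q).trans (dvd_mul_right (M' * q) q)))} : Set ↥(modularFunctionFieldFullC K (M' * q * q)))) (cm85_Vinf (K := K) (M' * q * q) hπ).toSubring n →
          ¬ sf79_OnBr π (pk15_chart R ({pk85_h3 K (M' * q * q) (h3.trans ((dvd_mul_right M' q).trans (dvd_mul_right (M' * q) q)))} : Set ↥(modularFunctionFieldFullC K (M' * q * q)))) (nsb86_V3 (K := K) M' q hq hM' hπ).toSubring n →
          mc25_MidPrinAt (v2g64_s K M' q) (pk15_chart R ({pk85_h3 K (M' * q * q) (h3.trans ((dvd_mul_right M' q).trans (dvd_mul_right (M' * q) q)))} : Set ↥(modularFunctionFieldFullC K (M' * q * q)))) V₂.toSubring n)) ∧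
    (
      (∀ n : Ideal ↥(pk15_chart R ({(pk85_h3 K (M' * q * q) (h3.trans ((dvd_mul_right M' q).trans (dvd_mul_right (M' * q) q))))⁻¹} : Set ↥(modularFunctionFieldFullC K (M' * q * q)))), n.IsMaximal → algebraMap R ↥(pk15_chart R ({(pk85_h3 K (M' * q * q) (h3.trans ((dvd_mul_right M' q).trans (dvd_mul_right (M' * q) q))))⁻¹} : Set ↥(modularFunctionFieldFullC K (M' * q * q)))) π ∈ n →
          tl71_OnMid (v2g64_s K M' q) (pk15_chart R ({(pk85_h3 K (M' * q * q) (h3.trans ((dvd_mul_right M' q).trans (dvd_mul_right (M' * q) q))))⁻¹} : Set ↥(modularFunctionFieldFullC K (M' * q * q)))) V₂.toSubring n →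
          ¬ sf79_OnBr π (pk15_chart R ({(pk85_h3 K (M' * q * q) (h3.trans ((dvd_mul_right M' q).trans (dvd_mul_right (M' * q) q))))⁻¹} : Set ↥(modularFunctionFieldFullC K (M' * q * q)))) (cm85_Vinf (K := K) (M' * q * q) hπ).toSubring n →
          ¬ sf79_OnBr π (pk15_chart R ({(pk85_h3 K (M' * q * q) (h3.trans ((dvd_mul_right M' q).trans (dvd_mul_right (M' * q) q))))⁻¹} : Set ↥(modularFunctionFieldFullC K (M' * q * q)))) (nsb86_V3 (K := K) M' q hq hM' hπ).toSubring n →
          (∃ s' b : ↥(pk15_chart R ({(pk85_h3 K (M' * q * q) (h3.trans ((dvd_mul_right M' q).trans (dvd_mul_right (M' * q) q))))⁻¹} : Set ↥(modularFunctionFieldFullC K (M' * q * q)))), s' ∉ n ∧ (s' : ↥(modularFunctionFieldFullC K (M' * q * q))) * rm90_j K (M' * q * q) = (b : ↥(modularFunctionFieldFullC K (M' * q * q)))) →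
          mc25_MidPrinAt (v2g64_s K M' q) (pk15_chart R ({(pk85_h3 K (M' * q * q) (h3.trans ((dvd_mul_right M' q).trans (dvd_mul_right (M' * q) q))))⁻¹} : Set ↥(modularFunctionFieldFullC K (M' * q * q)))) V₂.toSubring n) →
      (∀ n : Ideal ↥(pk15_chart R ({(pk85_h3 K (M' * q * q) (h3.trans ((dvd_mul_right M' q).trans (dvd_mul_right (M' * q) q))))⁻¹} : Set ↥(modularFunctionFieldFullC K (M' * q * q)))), n.IsMaximal → algebraMap R ↥(pk15_chart R ({(pk85_h3 K (M' * q * q) (h3.trans ((dvd_mul_right M' q).trans (dvd_mul_right (M' * q) q))))⁻¹} : Set ↥(modularFunctionFieldFullC K (M' * q * q)))) π ∈ n →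
          tl71_OnMid (v2g64_s K M' q) (pk15_chart R ({(pk85_h3 K (M' * q * q) (h3.trans ((dvd_mul_right M' q).trans (dvd_mul_right (M' * q) q))))⁻¹} : Set ↥(modularFunctionFieldFullC K (M' * q * q)))) V₂.toSubring n →
          ¬ sf79_OnBr π (pk15_chart R ({(pk85_h3 K (M' * q * q) (h3.trans ((dvd_mul_right M' q).trans (dvd_mul_right (M' * q) q))))⁻¹} : Set ↥(modularFunctionFieldFullC K (M' * q * q)))) (cm85_Vinf (K := K) (M' * q * q) hπ).toSubring n →
          ¬ sf79_OnBr π (pk15_chart R ({(pk85_h3 K (M' * q * q) (h3.trans ((dvd_mul_right M' q).trans (dvd_mul_right (M' * q) q))))⁻¹} : Set ↥(modularFunctionFieldFullC K (M' * q * q)))) (nsb86_V3 (K := K) M' q hq hM' hπ).toSubring n →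
          mc25_MidPrinAt (v2g64_s K M' q) (pk15_chart R ({(pk85_h3 K (M' * q * q) (h3.trans ((dvd_mul_right M' q).trans (dvd_mul_right (M' * q) q))))⁻¹} : Set ↥(modularFunctionFieldFullC K (M' * q * q)))) V₂.toSubring n)) := by
  have hqp : q ≠ 3 := by
    intro h
    apply hM'
    rw [h]
    exact h3
  have hpu : IsUnit ((3 : ℕ) : R) :=
    hunit 3 ((Nat.coprime_primes Nat.prime_three hq).mpr (Ne.symm hqp))
  have hpu' : IsUnit (3 : R) := by
    simpa using hpu
  obtain ⟨-, hC, -⟩ := fb85_frameV3_level3 M' q hq hM' hπ hqR hMu h3 V₂ hV₂ hπ₂ hs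
  obtain ⟨-, h12W, hsat1, hsat2, -⟩ := hC
  have e : algebraMap R ↥(modularFunctionFieldFullC K (M' * q * q)) π = (algebraMap K ↥(modularFunctionFieldFullC K (M' * q * q)) (algebraMap R K π)) :=
    IsScalarTower.algebraMap_apply R K _ π
  have hπ₂' : (algebraMap R ↥(modularFunctionFieldFullC K (M' * q * q)) π)⁻¹ ∉ V₂ := by
    rw [e]
    exact hπ₂
  have hs' : V₂.valuation (v2g64_s K M' q) ^ (q - 1) =
      V₂.valuation (algebraMap R ↥(modularFunctionFieldFullC K (M' * q * q)) π) := by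
    rw [e]
    exact hs
  have hsub1 : ({pk85_h3 K (M' * q * q) (h3.trans ((dvd_mul_right M' q).trans (dvd_mul_right (M' * q) q)))} : Set ↥(modularFunctionFieldFullC K (M' * q * q))) ⊆
      {pk85_h3 K (M' * q * q) (h3.trans ((dvd_mul_right M' q).trans (dvd_mul_right (M' * q) q))), (pk85_h3 K (M' * q * q) (h3.trans ((dvd_mul_right M' q).trans (dvd_mul_right (M' * q) q))))⁻¹} := by
    intro x hx
    rw [Set.mem_singleton_iff.mp hx]
    exact Set.mem_insert _ _
  have hsub2 : ({(pk85_h3 K (M' * q * q) (h3.trans ((dvd_mul_right M' q).trans (dvd_mul_right (M' * q) q))))⁻¹} : Set ↥(modularFunctionFieldFullC K (M' * q * q))) ⊆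
      {pk85_h3 K (M' * q * q) (h3.trans ((dvd_mul_right M' q).trans (dvd_mul_right (M' * q) q))), (pk85_h3 K (M' * q * q) (h3.trans ((dvd_mul_right M' q).trans (dvd_mul_right (M' * q) q))))⁻¹} := by
    intro x hx
    rw [Set.mem_singleton_iff.mp hx]
    exact Set.mem_insert_of_mem _ rfl
  have hBW1 : ∀ x ∈ (pk15_chart R ({pk85_h3 K (M' * q * q) (h3.trans ((dvd_mul_right M' q).trans (dvd_mul_right (M' * q) q)))} : Set ↥(modularFunctionFieldFullC K (M' * q * q)))), x ∈ (cm85_Vinf (K := K) (M' * q * q) hπ).toSubring ⊓ V₂.toSubring ⊓ (nsb86_V3 (K := K) M' q hq hM' hπ).toSubring :=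
    fun x hx => h12W x (pk15_chart_mono hsub1 hx)
  have hBW2 : ∀ x ∈ (pk15_chart R ({(pk85_h3 K (M' * q * q) (h3.trans ((dvd_mul_right M' q).trans (dvd_mul_right (M' * q) q))))⁻¹} : Set ↥(modularFunctionFieldFullC K (M' * q * q)))), x ∈ (cm85_Vinf (K := K) (M' * q * q) hπ).toSubring ⊓ V₂.toSubring ⊓ (nsb86_V3 (K := K) M' q hq hM' hπ).toSubring :=
    fun x hx => h12W x (pk15_chart_mono hsub2 hx)
  refine ⟨fun hreg => ?_, fun hreg => ?_⟩
  · exact mc25_hD2_level3 (R := R) (K := K) M' q hq hM' hπ hqR h3 hpu' u u' huu' hqπ V₂ hV₂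
      hπ₂' hne (v2g64_s K M' q) hs' rfl (cm85_Vinf (K := K) (M' * q * q) hπ).toSubring (nsb86_V3 (K := K) M' q hq hM' hπ).toSubring
      (fun x hx => (Subring.mem_inf.mp (Subring.mem_inf.mp (hBW1 x hx)).1).1)
      (fun x hx => (Subring.mem_inf.mp (Subring.mem_inf.mp (hBW1 x hx)).1).2)
      (fun x hx => (Subring.mem_inf.mp (hBW1 x hx)).2)
      (fun x hx h1 h2 h3 => hsat1 x hx (Subring.mem_inf.mpr ⟨Subring.mem_inf.mpr ⟨h1, h2⟩, h3⟩))
      hreg
  · exact mc25_hD2_level3_inv (R := R) (K := K) M' q hq hM' hπ hqR h3 u u' huu' hqπ V₂ hV₂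
      hπ₂' hne (v2g64_s K M' q) hs' rfl (cm85_Vinf (K := K) (M' * q * q) hπ).toSubring (nsb86_V3 (K := K) M' q hq hM' hπ).toSubring
      (fun x hx => (Subring.mem_inf.mp (Subring.mem_inf.mp (hBW2 x hx)).1).1)
      (fun x hx => (Subring.mem_inf.mp (Subring.mem_inf.mp (hBW2 x hx)).1).2)
      (fun x hx => (Subring.mem_inf.mp (hBW2 x hx)).2)
      (fun x hx h1 h2 h3 => hsat2 x hx (Subring.mem_inf.mpr ⟨Subring.mem_inf.mpr ⟨h1, h2⟩, h3⟩))
      hreg

end MB50

/-- **`s36i62h_Mid2` restricted to the closed points where `j` is regular** (row C-C2). -/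
def mb50_Reg2 : Prop :=
  ∀ (M' q r : ℕ) [NeZero M'] [NeZero q] (hq : q.Prime) (hM' : ¬ q ∣ M'),
    s36c67_Rigid6 (M' * q) q r → ∀ (h2 : 2 ∣ M'),
    ∀ (R K : Type) [CommRing R] [IsDomain R] [IsDiscreteValuationRing R] [Field K]
      [NumberField K] [Algebra K Q̄] [Algebra R K] [IsFractionRing R K]
      [Algebra R ↥(modularFunctionFieldFullC K (M' * q * q))]
      [IsScalarTower R K ↥(modularFunctionFieldFullC K (M' * q * q))]
      (hπ : Irreducible ((q : ℕ) : R)), (∀ k : ℕ, Nat.Coprime k q → IsUnit (k : R)) →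
      (∀ n : Ideal ↥(pk15_chart R ({pk85_h2 K (M' * q * q) (h2.trans ((dvd_mul_right M' q).trans (dvd_mul_right (M' * q) q)))} : Set ↥(modularFunctionFieldFullC K (M' * q * q)))), n.IsMaximal → algebraMap R ↥(pk15_chart R ({pk85_h2 K (M' * q * q) (h2.trans ((dvd_mul_right M' q).trans (dvd_mul_right (M' * q) q)))} : Set ↥(modularFunctionFieldFullC K (M' * q * q)))) ((q : ℕ) : R) ∈ n →
        tl71_OnMid (v2g64_s K M' q) (pk15_chart R ({pk85_h2 K (M' * q * q) (h2.trans ((dvd_mul_right M' q).trans (dvd_mul_right (M' * q) q)))} : Set ↥(modularFunctionFieldFullC K (M' * q * q)))) (v2g64_V2 (algebraMap K Q̄) M' q hq hM' hπ (Associated.refl _)).toSubring n →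
        ¬ sf79_OnBr ((q : ℕ) : R) (pk15_chart R ({pk85_h2 K (M' * q * q) (h2.trans ((dvd_mul_right M' q).trans (dvd_mul_right (M' * q) q)))} : Set ↥(modularFunctionFieldFullC K (M' * q * q)))) (cm85_Vinf (K := K) (M' * q * q) hπ).toSubring n →
        ¬ sf79_OnBr ((q : ℕ) : R) (pk15_chart R ({pk85_h2 K (M' * q * q) (h2.trans ((dvd_mul_right M' q).trans (dvd_mul_right (M' * q) q)))} : Set ↥(modularFunctionFieldFullC K (M' * q * q)))) (nsb86_V3 (K := K) M' q hq hM' hπ).toSubring n →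
        (∃ s' b : ↥(pk15_chart R ({pk85_h2 K (M' * q * q) (h2.trans ((dvd_mul_right M' q).trans (dvd_mul_right (M' * q) q)))} : Set ↥(modularFunctionFieldFullC K (M' * q * q)))), s' ∉ n ∧ (s' : ↥(modularFunctionFieldFullC K (M' * q * q))) * rm90_j K (M' * q * q) = (b : ↥(modularFunctionFieldFullC K (M' * q * q)))) →
        mc25_MidPrinAt (v2g64_s K M' q) (pk15_chart R ({pk85_h2 K (M' * q * q) (h2.trans ((dvd_mul_right M' q).trans (dvd_mul_right (M' * q) q)))} : Set ↥(modularFunctionFieldFullC K (M' * q * q)))) (v2g64_V2 (algebraMap K Q̄) M' q hq hM' hπ (Associated.refl _)).toSubring n) ∧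
      (∀ n : Ideal ↥(pk15_chart R ({(pk85_h2 K (M' * q * q) (h2.trans ((dvd_mul_right M' q).trans (dvd_mul_right (M' * q) q))))⁻¹} : Set ↥(modularFunctionFieldFullC K (M' * q * q)))), n.IsMaximal → algebraMap R ↥(pk15_chart R ({(pk85_h2 K (M' * q * q) (h2.trans ((dvd_mul_right M' q).trans (dvd_mul_right (M' * q) q))))⁻¹} : Set ↥(modularFunctionFieldFullC K (M' * q * q)))) ((q : ℕ) : R) ∈ n →
        tl71_OnMid (v2g64_s K M' q) (pk15_chart R ({(pk85_h2 K (M' * q * q) (h2.trans ((dvd_mul_right M' q).trans (dvd_mul_right (M' * q) q))))⁻¹} : Set ↥(modularFunctionFieldFullC K (M' * q * q)))) (v2g64_V2 (algebraMap K Q̄) M' q hq hM' hπ (Associated.refl _)).toSubring n →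
        ¬ sf79_OnBr ((q : ℕ) : R) (pk15_chart R ({(pk85_h2 K (M' * q * q) (h2.trans ((dvd_mul_right M' q).trans (dvd_mul_right (M' * q) q))))⁻¹} : Set ↥(modularFunctionFieldFullC K (M' * q * q)))) (cm85_Vinf (K := K) (M' * q * q) hπ).toSubring n →
        ¬ sf79_OnBr ((q : ℕ) : R) (pk15_chart R ({(pk85_h2 K (M' * q * q) (h2.trans ((dvd_mul_right M' q).trans (dvd_mul_right (M' * q) q))))⁻¹} : Set ↥(modularFunctionFieldFullC K (M' * q * q)))) (nsb86_V3 (K := K) M' q hq hM' hπ).toSubring n →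
        (∃ s' b : ↥(pk15_chart R ({(pk85_h2 K (M' * q * q) (h2.trans ((dvd_mul_right M' q).trans (dvd_mul_right (M' * q) q))))⁻¹} : Set ↥(modularFunctionFieldFullC K (M' * q * q)))), s' ∉ n ∧ (s' : ↥(modularFunctionFieldFullC K (M' * q * q))) * rm90_j K (M' * q * q) = (b : ↥(modularFunctionFieldFullC K (M' * q * q)))) →
        mc25_MidPrinAt (v2g64_s K M' q) (pk15_chart R ({(pk85_h2 K (M' * q * q) (h2.trans ((dvd_mul_right M' q).trans (dvd_mul_right (M' * q) q))))⁻¹} : Set ↥(modularFunctionFieldFullC K (M' * q * q)))) (v2g64_V2 (algebraMap K Q̄) M' q hq hM' hπ (Associated.refl _)).toSubring n)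

/-- **`s36i62h_Mid3` restricted to the closed points where `j` is regular** (row C-C2). -/
def mb50_Reg3 : Prop :=
  ∀ (M' q r : ℕ) [NeZero M'] [NeZero q] (hq : q.Prime) (hM' : ¬ q ∣ M'),
    s36c67_Rigid6 (M' * q) q r → q = 2 → ∀ (h3 : 3 ∣ M'),
    ∀ (R K : Type) [CommRing R] [IsDomain R] [IsDiscreteValuationRing R] [Field K]
      [NumberField K] [Algebra K Q̄] [Algebra R K] [IsFractionRing R K]
      [Algebra R ↥(modularFunctionFieldFullC K (M' * q * q))]
      [IsScalarTower R K ↥(modularFunctionFieldFullC K (M' * q * q))]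
      (hπ : Irreducible ((q : ℕ) : R)), (∀ k : ℕ, Nat.Coprime k q → IsUnit (k : R)) →
      (∀ n : Ideal ↥(pk15_chart R ({pk85_h3 K (M' * q * q) (h3.trans ((dvd_mul_right M' q).trans (dvd_mul_right (M' * q) q)))} : Set ↥(modularFunctionFieldFullC K (M' * q * q)))), n.IsMaximal → algebraMap R ↥(pk15_chart R ({pk85_h3 K (M' * q * q) (h3.trans ((dvd_mul_right M' q).trans (dvd_mul_right (M' * q) q)))} : Set ↥(modularFunctionFieldFullC K (M' * q * q)))) ((q : ℕ) : R) ∈ n →
        tl71_OnMid (v2g64_s K M' q) (pk15_chart R ({pk85_h3 K (M' * q * q) (h3.trans ((dvd_mul_right M' q).trans (dvd_mul_right (M' * q) q)))} : Set ↥(modularFunctionFieldFullC K (M' * q * q)))) (v2g64_V2 (algebraMap K Q̄) M' q hq hM' hπ (Associated.refl _)).toSubring n →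
        ¬ sf79_OnBr ((q : ℕ) : R) (pk15_chart R ({pk85_h3 K (M' * q * q) (h3.trans ((dvd_mul_right M' q).trans (dvd_mul_right (M' * q) q)))} : Set ↥(modularFunctionFieldFullC K (M' * q * q)))) (cm85_Vinf (K := K) (M' * q * q) hπ).toSubring n →
        ¬ sf79_OnBr ((q : ℕ) : R) (pk15_chart R ({pk85_h3 K (M' * q * q) (h3.trans ((dvd_mul_right M' q).trans (dvd_mul_right (M' * q) q)))} : Set ↥(modularFunctionFieldFullC K (M' * q * q)))) (nsb86_V3 (K := K) M' q hq hM' hπ).toSubring n →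
        (∃ s' b : ↥(pk15_chart R ({pk85_h3 K (M' * q * q) (h3.trans ((dvd_mul_right M' q).trans (dvd_mul_right (M' * q) q)))} : Set ↥(modularFunctionFieldFullC K (M' * q * q)))), s' ∉ n ∧ (s' : ↥(modularFunctionFieldFullC K (M' * q * q))) * rm90_j K (M' * q * q) = (b : ↥(modularFunctionFieldFullC K (M' * q * q)))) →
        mc25_MidPrinAt (v2g64_s K M' q) (pk15_chart R ({pk85_h3 K (M' * q * q) (h3.trans ((dvd_mul_right M' q).trans (dvd_mul_right (M' * q) q)))} : Set ↥(modularFunctionFieldFullC K (M' * q * q)))) (v2g64_V2 (algebraMap K Q̄) M' q hq hM' hπ (Associated.refl _)).toSubring n) ∧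
      (∀ n : Ideal ↥(pk15_chart R ({(pk85_h3 K (M' * q * q) (h3.trans ((dvd_mul_right M' q).trans (dvd_mul_right (M' * q) q))))⁻¹} : Set ↥(modularFunctionFieldFullC K (M' * q * q)))), n.IsMaximal → algebraMap R ↥(pk15_chart R ({(pk85_h3 K (M' * q * q) (h3.trans ((dvd_mul_right M' q).trans (dvd_mul_right (M' * q) q))))⁻¹} : Set ↥(modularFunctionFieldFullC K (M' * q * q)))) ((q : ℕ) : R) ∈ n →
        tl71_OnMid (v2g64_s K M' q) (pk15_chart R ({(pk85_h3 K (M' * q * q) (h3.trans ((dvd_mul_right M' q).trans (dvd_mul_right (M' * q) q))))⁻¹} : Set ↥(modularFunctionFieldFullC K (M' * q * q)))) (v2g64_V2 (algebraMap K Q̄) M' q hq hM' hπ (Associated.refl _)).toSubring n →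
        ¬ sf79_OnBr ((q : ℕ) : R) (pk15_chart R ({(pk85_h3 K (M' * q * q) (h3.trans ((dvd_mul_right M' q).trans (dvd_mul_right (M' * q) q))))⁻¹} : Set ↥(modularFunctionFieldFullC K (M' * q * q)))) (cm85_Vinf (K := K) (M' * q * q) hπ).toSubring n →
        ¬ sf79_OnBr ((q : ℕ) : R) (pk15_chart R ({(pk85_h3 K (M' * q * q) (h3.trans ((dvd_mul_right M' q).trans (dvd_mul_right (M' * q) q))))⁻¹} : Set ↥(modularFunctionFieldFullC K (M' * q * q)))) (nsb86_V3 (K := K) M' q hq hM' hπ).toSubring n →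
        (∃ s' b : ↥(pk15_chart R ({(pk85_h3 K (M' * q * q) (h3.trans ((dvd_mul_right M' q).trans (dvd_mul_right (M' * q) q))))⁻¹} : Set ↥(modularFunctionFieldFullC K (M' * q * q)))), s' ∉ n ∧ (s' : ↥(modularFunctionFieldFullC K (M' * q * q))) * rm90_j K (M' * q * q) = (b : ↥(modularFunctionFieldFullC K (M' * q * q)))) →
        mc25_MidPrinAt (v2g64_s K M' q) (pk15_chart R ({(pk85_h3 K (M' * q * q) (h3.trans ((dvd_mul_right M' q).trans (dvd_mul_right (M' * q) q))))⁻¹} : Set ↥(modularFunctionFieldFullC K (M' * q * q)))) (v2g64_V2 (algebraMap K Q̄) M' q hq hM' hπ (Associated.refl _)).toSubring n)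

/-- **The closed statement `s36i62h_Mid2` from its restriction to the `j`-regular points**
(`mb50_Reg2`): the cusps of `C₂` are supplied by `mc25_hD2_level2` / `_inv`. -/
theorem mb50_Mid2_of_reg (hreg : mb50_Reg2) : s36i62h_Mid2 := by
  intro M' q r _ _ hq hM' hrig h2 R K _ _ _ _ _ _ _ _ _ _ hπ hunit
  haveI : Algebra.IsAlgebraic K Q̄ := fs85_isAlgebraic K
  letI a0 : Algebra R ↥(modularFunctionFieldFullC K M') :=
    ((algebraMap K ↥(modularFunctionFieldFullC K M')).comp (algebraMap R K)).toAlgebra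
  haveI t0 : IsScalarTower R K ↥(modularFunctionFieldFullC K M') :=
    IsScalarTower.of_algebraMap_eq (fun _ => rfl)
  letI a1 : Algebra R ↥(modularFunctionFieldFullC K (M' * q)) :=
    ((algebraMap K ↥(modularFunctionFieldFullC K (M' * q))).comp (algebraMap R K)).toAlgebra
  haveI t1 : IsScalarTower R K ↥(modularFunctionFieldFullC K (M' * q)) :=
    IsScalarTower.of_algebraMap_eq (fun _ => rfl)
  have hqR : ¬ IsUnit ((q : ℕ) : R) := hπ.not_isUnit
  have hMu : IsUnit ((M' : ℕ) : R) :=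
    hunit M' (Nat.Coprime.symm ((Nat.Prime.coprime_iff_not_dvd hq).mpr hM'))
  obtain ⟨hA, hB⟩ := hreg M' q r hq hM' hrig h2 R K hπ hunit
  obtain ⟨h1, h2'⟩ := mb50_level2 (K := K) M' q hq hM' hπ hunit hqR hMu h2 1 1 (one_mul 1)
    (one_mul _).symm
    (v2g64_V2 (algebraMap K Q̄) M' q hq hM' hπ (Associated.refl _))
    (v2g64_V2_alpha (algebraMap K Q̄) M' q hq hM' hπ (Associated.refl _))
    (v2g64_V2_pi (algebraMap K Q̄) M' q hq hM' hπ (Associated.refl _))
    (v2g64_V2_ne (algebraMap K Q̄) M' q hq hM' hπ (Associated.refl _))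
    (v2g64_V2_val (algebraMap K Q̄) M' q hq hM' hπ (Associated.refl _))
  exact ⟨h1 hA, h2' hB⟩

/-- **The closed statement `s36i62h_Mid3` from its restriction to the `j`-regular points**
(`mb50_Reg3`): the cusps of `C₂` are supplied by `mc25_hD2_level3` / `_inv`. -/
theorem mb50_Mid3_of_reg (hreg : mb50_Reg3) : s36i62h_Mid3 := by
  intro M' q r _ _ hq hM' hrig hq2 h3 R K _ _ _ _ _ _ _ _ _ _ hπ hunit
  haveI : Algebra.IsAlgebraic K Q̄ := fs85_isAlgebraic K
  letI a0 : Algebra R ↥(modularFunctionFieldFullC K M') :=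
    ((algebraMap K ↥(modularFunctionFieldFullC K M')).comp (algebraMap R K)).toAlgebra
  haveI t0 : IsScalarTower R K ↥(modularFunctionFieldFullC K M') :=
    IsScalarTower.of_algebraMap_eq (fun _ => rfl)
  letI a1 : Algebra R ↥(modularFunctionFieldFullC K (M' * q)) :=
    ((algebraMap K ↥(modularFunctionFieldFullC K (M' * q))).comp (algebraMap R K)).toAlgebra
  haveI t1 : IsScalarTower R K ↥(modularFunctionFieldFullC K (M' * q)) :=
    IsScalarTower.of_algebraMap_eq (fun _ => rfl)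
  have hqR : ¬ IsUnit ((q : ℕ) : R) := hπ.not_isUnit
  have hMu : IsUnit ((M' : ℕ) : R) :=
    hunit M' (Nat.Coprime.symm ((Nat.Prime.coprime_iff_not_dvd hq).mpr hM'))
  obtain ⟨hA, hB⟩ := hreg M' q r hq hM' hrig hq2 h3 R K hπ hunit
  obtain ⟨h1, h2'⟩ := mb50_level3 (K := K) M' q hq hM' hπ hunit hqR hMu h3 1 1 (one_mul 1)
    (one_mul _).symm
    (v2g64_V2 (algebraMap K Q̄) M' q hq hM' hπ (Associated.refl _))
    (v2g64_V2_alpha (algebraMap K Q̄) M' q hq hM' hπ (Associated.refl _))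
    (v2g64_V2_pi (algebraMap K Q̄) M' q hq hM' hπ (Associated.refl _))
    (v2g64_V2_ne (algebraMap K Q̄) M' q hq hM' hπ (Associated.refl _))
    (v2g64_V2_val (algebraMap K Q̄) M' q hq hM' hπ (Associated.refl _))
  exact ⟨h1 hA, h2' hB⟩

end Fermat.Agent.S36
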