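import Mathlib
import Fermat.Agent.S36.C2Alg24
import Fermat.Agent.S36.TripleLoc71

/-!
# S36 lab (helper25), row C-midcusp: the cusps of the middle component `C₂`

Mathlib-only algebra (plus the chart lemmas `tl71_*` and `c2a24_binom`).

* `mc25_core` : in a domain `A` with an ideal `I ∋ J, q, τ - 1, lam - 1`, the two Kronecker
  relations in the cusp normalisation (`J = 1/j`, `τ = j(qτ)/j^q`, `lam = j/j(q²τ)`)
  `(τ^q - J^(q²-1)) (τ - 1) + q H(J, τ) = 0` and the same at `(lam J, lam^q τ)`,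
  `H` a weighted sum of monomials `J^(q²+q-(q i+j)) τ^i`, give
  `(lam - 1)^(q-1) * u₁ = q * u₂` with `u₁ ≡ 1`, `u₂ ≡ -1` modulo `I`.
* `mc25_loc`, `mc25_max` : the local ring `B_n` of a chart at a prime, inside `F`, and its
  maximal ideal.
* `mc25_prin` / `mc25_maximalIdeal_eq` : chart form.  At a prime `n` of the saturated chart `B`
  through which only `C₂` passes (separator `a`), if `s' = lam - 1 ∈ B_n` (`z = d s'`, `d ∉ n`)
  is a uniformiser of `V₂` and `s'^(q-1) x₁ d₂ = q x₂ d₁` with `x₁, x₂, d₁, d₂ ∉ n`, then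
  `p₂ B_n = z B_n`, and with the branch parameter `t₀` of `(3a)₂` the maximal ideal of `B_n`
  is `(t₀, z)`.
-/

set_option autoImplicit false

namespace Fermat.Agent.S36

open Finset

/-- `(1 + x)^q - 1 = x (x^(q-1) + q (1 + x c))` for a prime `q`. -/
theorem mc25_binom {A : Type*} [CommRing A] {q : ℕ} (hq : q.Prime) (x : A) :
    ∃ c : A, (1 + x) ^ q - 1 = x * (x ^ (q - 1) + q * (1 + x * c)) := by
  obtain ⟨r, hr⟩ := c2a24_binom hq (1 : A) x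
  refine ⟨r, ?_⟩
  have hq1 : q = (q - 1) + 1 := by have := hq.pos; omega
  have hx : x ^ q = x * x ^ (q - 1) := by
    conv_lhs => rw [hq1]
    rw [pow_succ']
  rw [hr, hx]
  simp only [one_pow]
  ring

/-- **The local computation at a cusp of the middle component.** -/
theorem mc25_core {A : Type*} [CommRing A] [IsDomain A] {q : ℕ} (hq : q.Prime)
    (S : Finset (ℕ × ℕ)) (coef : ℕ × ℕ → A)
    (I : Ideal A) (J τ lam : A) (hJ : J ∈ I) (hqI : (q : A) ∈ I) (hτ : τ - 1 ∈ I)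
    (hlam : lam - 1 ∈ I) (hne : lam ≠ 1)
    (E1 : (τ ^ q - J ^ (q ^ 2 - 1)) * (τ - 1)
        + q * ∑ p ∈ S, coef p * J ^ (q ^ 2 + q - (q * p.1 + p.2)) * τ ^ p.1 = 0)
    (E3 : ((lam ^ q * τ) ^ q - (lam * J) ^ (q ^ 2 - 1)) * (lam ^ q * τ - 1)
        + q * ∑ p ∈ S, coef p * (lam * J) ^ (q ^ 2 + q - (q * p.1 + p.2))
            * (lam ^ q * τ) ^ p.1 = 0) :
    ∃ u₁ u₂ : A, (lam - 1) ^ (q - 1) * u₁ = q * u₂ ∧ u₁ - 1 ∈ I ∧ u₂ + 1 ∈ I := by
  have hq2 := hq.two_le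
  set G : ℕ → A := fun N => ∑ l ∈ range N, lam ^ l with hG
  have hgeom : ∀ N, lam ^ N - 1 = (lam - 1) * G N := fun N => by
    rw [hG, mul_comm]; exact (geom_sum_mul lam N).symm
  set e : ℕ × ℕ → ℕ := fun p => q ^ 2 + q - (q * p.1 + p.2) with he
  set H₁ : A := ∑ p ∈ S, coef p * J ^ e p * τ ^ p.1 with hH₁
  set H₃ : A := ∑ p ∈ S, coef p * (lam * J) ^ e p * (lam ^ q * τ) ^ p.1 with hH₃
  set ΔH : A := ∑ p ∈ S, coef p * J ^ e p * τ ^ p.1 * G (e p + q * p.1) with hΔH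
  set ε : A := τ ^ q - J ^ (q ^ 2 - 1) with hε
  set ε₃ : A := (lam ^ q * τ) ^ q - (lam * J) ^ (q ^ 2 - 1) with hε₃
  set Δε : A := G (q * q) * τ ^ q - G (q ^ 2 - 1) * J ^ (q ^ 2 - 1) with hΔε
  have hH : H₃ - H₁ = (lam - 1) * ΔH := by
    rw [hH₃, hH₁, hΔH, ← Finset.sum_sub_distrib, Finset.mul_sum]
    refine Finset.sum_congr rfl fun p _ => ?_
    have h := hgeom (e p + q * p.1)
    linear_combination (coef p * J ^ e p * τ ^ p.1) * h
  have hεε : ε₃ - ε = (lam - 1) * Δε := by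
    have h1 := hgeom (q * q)
    have h2 := hgeom (q ^ 2 - 1)
    rw [hε₃, hε, hΔε]
    linear_combination τ ^ q * h1 - J ^ (q ^ 2 - 1) * h2
  obtain ⟨c, hc⟩ := mc25_binom hq (lam - 1)
  have hc' : lam ^ q - 1 = (lam - 1) * ((lam - 1) ^ (q - 1) + q * (1 + (lam - 1) * c)) := by
    rw [← hc]; ring
  set M : A := ε * ΔH - Δε * H₁ with hM
  have hmain : ε * ε₃ * τ * (lam ^ q - 1) = -(q * (lam - 1) * M) := by
    rw [hM]
    linear_combination ε * E3 - ε₃ * E1 - q * ε * hH + q * H₁ * hεε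
  have hs0 : lam - 1 ≠ 0 := sub_ne_zero.mpr hne
  have hfin : (lam - 1) ^ (q - 1) * (ε * ε₃ * τ)
      = q * (-(ε * ε₃ * τ * (1 + (lam - 1) * c) + M)) := by
    apply mul_left_cancel₀ hs0
    rw [hc'] at hmain
    linear_combination hmain
  -- reduction modulo `I`
  set φ := Ideal.Quotient.mk I with hφ
  have φJ : φ J = 0 := Ideal.Quotient.eq_zero_iff_mem.mpr hJ
  have φq : (q : A ⧸ I) = 0 := by
    have := Ideal.Quotient.eq_zero_iff_mem.mpr hqI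
    rwa [map_natCast] at this
  have φτ : φ τ = 1 := by
    have := Ideal.Quotient.eq_zero_iff_mem.mpr hτ
    rw [map_sub, map_one, sub_eq_zero] at this
    exact this
  have φlam : φ lam = 1 := by
    have := Ideal.Quotient.eq_zero_iff_mem.mpr hlam
    rw [map_sub, map_one, sub_eq_zero] at this
    exact this
  have φG : ∀ N, φ (G N) = (N : A ⧸ I) := fun N => by
    rw [hG]
    simp [map_sum, map_pow, φlam]
  have hq21 : q ^ 2 - 1 ≠ 0 := by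
    have : 4 ≤ q ^ 2 := by nlinarith
    omega
  have φε : φ ε = 1 := by
    rw [hε, map_sub, map_pow, map_pow, φτ, φJ, one_pow, zero_pow hq21, sub_zero]
  have φε₃ : φ ε₃ = 1 := by
    rw [hε₃, map_sub, map_pow, map_pow, map_mul, map_mul, map_pow, φτ, φJ, φlam, one_pow,
      mul_one, one_pow, mul_zero, zero_pow hq21, sub_zero]
  have φΔH : φ ΔH = 0 := by
    rw [hΔH, map_sum]
    refine Finset.sum_eq_zero fun p hp => ?_
    rw [map_mul, map_mul, map_mul, map_pow, map_pow, φJ, φτ, φG]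
    by_cases h0 : e p = 0
    · rw [h0, zero_add, Nat.cast_mul, φq, zero_mul, mul_zero]
    · rw [zero_pow h0, mul_zero, zero_mul, zero_mul]
  have φΔε : φ Δε = 0 := by
    rw [hΔε, map_sub, map_mul, map_mul, map_pow, map_pow, φJ, φτ, φG, φG, Nat.cast_mul, φq,
      zero_pow hq21]
    ring
  have φM : φ M = 0 := by
    rw [hM, map_sub, map_mul, map_mul, φΔH, φΔε]
    ring
  refine ⟨ε * ε₃ * τ, -(ε * ε₃ * τ * (1 + (lam - 1) * c) + M), hfin, ?_, ?_⟩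
  · apply Ideal.Quotient.eq_zero_iff_mem.mp
    show φ (ε * ε₃ * τ - 1) = 0
    rw [map_sub, map_mul, map_mul, φε, φε₃, φτ, map_one]
    ring
  · apply Ideal.Quotient.eq_zero_iff_mem.mp
    show φ (-(ε * ε₃ * τ * (1 + (lam - 1) * c) + M) + 1) = 0
    have hs : φ (lam - 1) = 0 := by rw [map_sub, φlam, map_one, sub_self]
    have h1 : φ (ε * ε₃ * τ) = 1 := by rw [map_mul, map_mul, φε, φε₃, φτ]; ring
    rw [map_add, map_neg, map_add, map_mul, h1, map_add, map_mul, hs, φM, map_one]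
    ring

section chart

variable {R F : Type*} [CommRing R] [Field F] [Algebra R F]

/-- The localisation `B_n` of the chart `B` at the prime `n`, as a subring of `F`. -/
def mc25_loc (B : Subalgebra R F) (n : Ideal B) [hn : n.IsPrime] : Subring F where
  carrier := {x | ∃ s : B, s ∉ n ∧ (s : F) * x ∈ B}
  mul_mem' := by
    rintro x y ⟨s, hs, hsx⟩ ⟨t, ht, hty⟩
    refine ⟨s * t, fun h => (hn.mem_or_mem h).elim hs ht, ?_⟩
    have : ((s * t : B) : F) * (x * y) = ((s : F) * x) * ((t : F) * y) := by push_cast; ring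
    rw [this]; exact B.mul_mem hsx hty
  one_mem' := ⟨1, (Ideal.ne_top_iff_one n).mp hn.ne_top, by simp⟩
  add_mem' := by
    rintro x y ⟨s, hs, hsx⟩ ⟨t, ht, hty⟩
    refine ⟨s * t, fun h => (hn.mem_or_mem h).elim hs ht, ?_⟩
    have : ((s * t : B) : F) * (x + y) = (t : F) * ((s : F) * x) + (s : F) * ((t : F) * y) := by
      push_cast; ring
    rw [this]; exact B.add_mem (B.mul_mem t.2 hsx) (B.mul_mem s.2 hty)
  zero_mem' := ⟨1, (Ideal.ne_top_iff_one n).mp hn.ne_top, by simp⟩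
  neg_mem' := by
    rintro x ⟨s, hs, hsx⟩
    refine ⟨s, hs, ?_⟩
    rw [mul_neg]; exact B.neg_mem hsx

theorem mc25_mem_loc (B : Subalgebra R F) (n : Ideal B) [n.IsPrime] (x : F) :
    x ∈ mc25_loc B n ↔ ∃ s : B, s ∉ n ∧ (s : F) * x ∈ B := Iff.rfl

theorem mc25_le_loc (B : Subalgebra R F) (n : Ideal B) [hn : n.IsPrime] {x : F} (hx : x ∈ B) :
    x ∈ mc25_loc B n :=
  ⟨1, (Ideal.ne_top_iff_one n).mp hn.ne_top, by simpa using hx⟩

/-- The maximal ideal `n B_n` of `B_n`. -/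
def mc25_max (B : Subalgebra R F) (n : Ideal B) [hn : n.IsPrime] : Ideal (mc25_loc B n) where
  carrier := {x | ∃ s : B, s ∉ n ∧ ∃ y : B, y ∈ n ∧ (s : F) * (x : F) = (y : F)}
  add_mem' := by
    rintro x₁ x₂ ⟨s, hs, y, hy, h1⟩ ⟨t, ht, w, hw, h2⟩
    refine ⟨s * t, fun h => (hn.mem_or_mem h).elim hs ht, t * y + s * w,
      n.add_mem (n.mul_mem_left _ hy) (n.mul_mem_left _ hw), ?_⟩
    push_cast
    rw [← h1, ← h2]
    ring
  zero_mem' := ⟨1, (Ideal.ne_top_iff_one n).mp hn.ne_top, 0, n.zero_mem, by simp⟩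
  smul_mem' := by
    rintro ⟨c, t, ht, hc⟩ x ⟨s, hs, y, hy, h1⟩
    refine ⟨t * s, fun h => (hn.mem_or_mem h).elim ht hs, ⟨_, hc⟩ * y, n.mul_mem_left _ hy, ?_⟩
    show ((t * s : B) : F) * (c * (x : F)) = (t : F) * c * (y : F)
    push_cast
    rw [← h1]
    ring

theorem mc25_mem_max (B : Subalgebra R F) (n : Ideal B) [n.IsPrime] (x : mc25_loc B n) :
    x ∈ mc25_max B n ↔ ∃ s : B, s ∉ n ∧ ∃ y : B, y ∈ n ∧ (s : F) * (x : F) = (y : F) := Iff.rfl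

/-- An element `x / s` with `x ∈ n`, `s ∉ n` lies in the maximal ideal. -/
theorem mc25_max_of_frac (B : Subalgebra R F) (n : Ideal B) [n.IsPrime] (x : mc25_loc B n)
    (s y : B) (hs : s ∉ n) (hy : y ∈ n) (h : (s : F) * (x : F) = (y : F)) : x ∈ mc25_max B n :=
  ⟨s, hs, y, hy, h⟩

/-- `1 ∉ n B_n`. -/
theorem mc25_one_not_max (B : Subalgebra R F) (n : Ideal B) [hn : n.IsPrime] :
    (1 : mc25_loc B n) ∉ mc25_max B n := by
  rintro ⟨s, hs, y, hy, h⟩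
  apply hs
  have : s = y := Subtype.ext (by simpa using h)
  rw [this]; exact hy

/-- An element of `B_n` outside `n B_n` is a fraction of two elements of `B` outside `n`. -/
theorem mc25_frac_of_not_max (B : Subalgebra R F) (n : Ideal B) [hn : n.IsPrime]
    (x : mc25_loc B n) (hx : x ∉ mc25_max B n) :
    ∃ y d : B, y ∉ n ∧ d ∉ n ∧ (x : F) * (d : F) = (y : F) := by
  obtain ⟨d, hd, hdx⟩ := x.2
  refine ⟨⟨_, hdx⟩, d, fun hy => hx ⟨d, hd, ⟨_, hdx⟩, hy, rfl⟩, hd, ?_⟩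
  show (x : F) * (d : F) = (d : F) * (x : F)
  ring

/-- Units modulo the maximal ideal are fractions of elements outside `n`. -/
theorem mc25_frac_of_sub_one (B : Subalgebra R F) (n : Ideal B) [hn : n.IsPrime]
    (x : mc25_loc B n) (hx : x - 1 ∈ mc25_max B n) :
    ∃ y d : B, y ∉ n ∧ d ∉ n ∧ (x : F) * (d : F) = (y : F) := by
  refine mc25_frac_of_not_max B n x fun h => mc25_one_not_max B n ?_
  have := (mc25_max B n).sub_mem h hx
  simpa using this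

theorem mc25_frac_of_add_one (B : Subalgebra R F) (n : Ideal B) [hn : n.IsPrime]
    (x : mc25_loc B n) (hx : x + 1 ∈ mc25_max B n) :
    ∃ y d : B, y ∉ n ∧ d ∉ n ∧ (x : F) * (d : F) = (y : F) := by
  refine mc25_frac_of_not_max B n x fun h => mc25_one_not_max B n ?_
  have := (mc25_max B n).sub_mem hx h
  simpa using this

/-- **Localised saturation at a cusp of `C₂`: the middle branch is principal.**
`s'` (in the application `lam - 1`, `lam = j/j(q²τ)`) has the numerator `z = d s'`, divides the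
uniformiser `sF` of `V₂` in `V₂`, and satisfies `s'^(q-1) x₁ d₂ = q x₂ d₁`; `a` is a separator
(`π⁻¹ a ∈ V₁, V₃`).  Then `t * p₂ ⊆ z B` for the fixed `t = a u d^(q-1) x₂ d₁`. -/
theorem mc25_prin (π u : R) (q : ℕ) (hq2 : 2 ≤ q) (hqπ : (q : R) = u * π)
    (B : Subalgebra R F) (V₁ V₂ V₃ : Subring F)
    (hB₁ : ∀ x ∈ B, x ∈ V₁) (hB₂ : ∀ x ∈ B, x ∈ V₂) (hB₃ : ∀ x ∈ B, x ∈ V₃)
    (hsat : ∀ x ∈ B, (algebraMap R F π)⁻¹ * x ∈ V₁ → (algebraMap R F π)⁻¹ * x ∈ V₂ →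
      (algebraMap R F π)⁻¹ * x ∈ V₃ → (algebraMap R F π)⁻¹ * x ∈ B)
    (hπ0 : algebraMap R F π ≠ 0)
    (sF s' : F) (hsF0 : sF ≠ 0) (hs0 : s' ≠ 0) (hs' : sF * s'⁻¹ ∈ V₂)
    (a : B) (ha₁ : (algebraMap R F π)⁻¹ * (a : F) ∈ V₁)
    (ha₃ : (algebraMap R F π)⁻¹ * (a : F) ∈ V₃)
    (z d : B) (hz : (z : F) = (d : F) * s')
    (x₁ d₁ x₂ d₂ : B)
    (hid : s' ^ (q - 1) * ((x₁ : F) * (d₂ : F)) = (q : F) * ((x₂ : F) * (d₁ : F)))
    (y : B) (hy : (y : F) * sF⁻¹ ∈ V₂) :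
    ∃ b : B, (a * algebraMap R B u * d ^ (q - 1) * x₂ * d₁) * y = b * z := by
  have hqF : (q : F) = algebraMap R F u * algebraMap R F π := by
    have := congrArg (algebraMap R F) hqπ
    simpa using this
  have hq1 : q - 1 = (q - 2) + 1 := by omega
  -- the element `w = a y z^(q-2) x₁ d₂`
  have hwB : (a : F) * (y : F) * (z : F) ^ (q - 2) * (x₁ : F) * (d₂ : F) ∈ B :=
    B.mul_mem (B.mul_mem (B.mul_mem (B.mul_mem a.2 y.2) (B.pow_mem z.2 _)) x₁.2) d₂.2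
  have hid' : s' ^ (q - 2) * ((x₁ : F) * (d₂ : F))
      = algebraMap R F u * algebraMap R F π * ((x₂ : F) * (d₁ : F)) * s'⁻¹ := by
    rw [← hqF, ← hid, hq1, pow_succ]
    field_simp
  have hval : (algebraMap R F π)⁻¹ * ((a : F) * (y : F) * (z : F) ^ (q - 2) * (x₁ : F) * (d₂ : F))
      = (a : F) * algebraMap R F u * (d : F) ^ (q - 2) * (x₂ : F) * (d₁ : F)
          * ((y : F) * sF⁻¹) * (sF * s'⁻¹) := by
    have e1 : (a : F) * (y : F) * (z : F) ^ (q - 2) * (x₁ : F) * (d₂ : F)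
        = (a : F) * (y : F) * (d : F) ^ (q - 2) * (s' ^ (q - 2) * ((x₁ : F) * (d₂ : F))) := by
      rw [hz, mul_pow]; ring
    rw [e1, hid']
    field_simp
  have hV₁ : (algebraMap R F π)⁻¹ * ((a : F) * (y : F) * (z : F) ^ (q - 2) * (x₁ : F) * (d₂ : F))
      ∈ V₁ := by
    have : (algebraMap R F π)⁻¹ * ((a : F) * (y : F) * (z : F) ^ (q - 2) * (x₁ : F) * (d₂ : F))
        = ((algebraMap R F π)⁻¹ * (a : F)) * ((y : F) * (z : F) ^ (q - 2) * (x₁ : F) * (d₂ : F)) := by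
      ring
    rw [this]
    exact V₁.mul_mem ha₁ (V₁.mul_mem (V₁.mul_mem (V₁.mul_mem (hB₁ _ y.2)
      (V₁.pow_mem (hB₁ _ z.2) _)) (hB₁ _ x₁.2)) (hB₁ _ d₂.2))
  have hV₃ : (algebraMap R F π)⁻¹ * ((a : F) * (y : F) * (z : F) ^ (q - 2) * (x₁ : F) * (d₂ : F))
      ∈ V₃ := by
    have : (algebraMap R F π)⁻¹ * ((a : F) * (y : F) * (z : F) ^ (q - 2) * (x₁ : F) * (d₂ : F))
        = ((algebraMap R F π)⁻¹ * (a : F)) * ((y : F) * (z : F) ^ (q - 2) * (x₁ : F) * (d₂ : F)) := by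
      ring
    rw [this]
    exact V₃.mul_mem ha₃ (V₃.mul_mem (V₃.mul_mem (V₃.mul_mem (hB₃ _ y.2)
      (V₃.pow_mem (hB₃ _ z.2) _)) (hB₃ _ x₁.2)) (hB₃ _ d₂.2))
  have hV₂ : (algebraMap R F π)⁻¹ * ((a : F) * (y : F) * (z : F) ^ (q - 2) * (x₁ : F) * (d₂ : F))
      ∈ V₂ := by
    rw [hval]
    exact V₂.mul_mem (V₂.mul_mem (V₂.mul_mem (V₂.mul_mem (V₂.mul_mem (V₂.mul_mem (hB₂ _ a.2)
      (hB₂ _ (B.algebraMap_mem u))) (V₂.pow_mem (hB₂ _ d.2) _)) (hB₂ _ x₂.2)) (hB₂ _ d₁.2)) hy) hs'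
  refine ⟨⟨_, hsat _ hwB hV₁ hV₂ hV₃⟩, Subtype.ext ?_⟩
  show ((a * algebraMap R B u * d ^ (q - 1) * x₂ * d₁ * y : B) : F)
    = (algebraMap R F π)⁻¹ * ((a : F) * (y : F) * (z : F) ^ (q - 2) * (x₁ : F) * (d₂ : F)) * (z : F)
  have e1 : (a : F) * (y : F) * (z : F) ^ (q - 2) * (x₁ : F) * (d₂ : F)
      = (a : F) * (y : F) * (d : F) ^ (q - 2) * (s' ^ (q - 2) * ((x₁ : F) * (d₂ : F))) := by
    rw [hz, mul_pow]; ring
  rw [e1, hid', hz]
  push_cast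
  rw [hq1, pow_succ]
  field_simp

/-- **The local identity at a cusp of `C₂`, with denominators.**  From the two Kronecker
relations in `B_n` (cusp normalisation): `(lam - 1)^(q-1) x₁ d₂ = q x₂ d₁` with
`x₁, d₁, x₂, d₂ ∈ B` outside `n`. -/
theorem mc25_cusp_id (B : Subalgebra R F) (n : Ideal B) [hn : n.IsPrime] {q : ℕ} (hq : q.Prime)
    (S : Finset (ℕ × ℕ)) (coef : ℕ × ℕ → ℤ)
    (J τ lam : mc25_loc B n) (hJ : J ∈ mc25_max B n)
    (hqI : (q : mc25_loc B n) ∈ mc25_max B n) (hτ : τ - 1 ∈ mc25_max B n)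
    (hlam : lam - 1 ∈ mc25_max B n) (hne : lam ≠ 1)
    (E1 : (τ ^ q - J ^ (q ^ 2 - 1)) * (τ - 1)
        + q * ∑ p ∈ S, (coef p : mc25_loc B n) * J ^ (q ^ 2 + q - (q * p.1 + p.2)) * τ ^ p.1 = 0)
    (E3 : ((lam ^ q * τ) ^ q - (lam * J) ^ (q ^ 2 - 1)) * (lam ^ q * τ - 1)
        + q * ∑ p ∈ S, (coef p : mc25_loc B n) * (lam * J) ^ (q ^ 2 + q - (q * p.1 + p.2))
            * (lam ^ q * τ) ^ p.1 = 0) :
    ∃ x₁ d₁ x₂ d₂ : B, x₁ ∉ n ∧ d₁ ∉ n ∧ x₂ ∉ n ∧ d₂ ∉ n ∧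
      ((lam : F) - 1) ^ (q - 1) * ((x₁ : F) * (d₂ : F)) = (q : F) * ((x₂ : F) * (d₁ : F)) := by
  obtain ⟨u₁, u₂, h, h1, h2⟩ := mc25_core hq S (fun p => (coef p : mc25_loc B n))
    (mc25_max B n) J τ lam hJ hqI hτ hlam hne E1 E3
  obtain ⟨x₁, d₁, hx₁, hd₁, e1⟩ := mc25_frac_of_sub_one B n u₁ h1
  obtain ⟨x₂, d₂, hx₂, hd₂, e2⟩ := mc25_frac_of_add_one B n u₂ h2
  refine ⟨x₁, d₁, x₂, d₂, hx₁, hd₁, hx₂, hd₂, ?_⟩
  have hF : ((lam : F) - 1) ^ (q - 1) * (u₁ : F) = (q : F) * (u₂ : F) := by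
    have := congrArg (fun t : mc25_loc B n => (t : F)) h
    simpa using this
  rw [← e1, ← e2]
  linear_combination ((d₁ : F) * (d₂ : F)) * hF

/-- **Chart form at a cusp of `C₂`**: the maximal ideal of `B_n` is `(t₀, z)`, `z = d (lam - 1)`
the numerator of `lam - 1`, `t₀` the parameter of the branch `C₂` at `n` (row `(3a)₂`). -/
theorem mc25_maximalIdeal_eq (π u u' : R) (huu' : u * u' = 1) (q : ℕ) (hq2 : 2 ≤ q)
    (hqπ : (q : R) = u * π)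
    (B : Subalgebra R F) (V₁ V₂ V₃ : Subring F)
    (hB₁ : ∀ x ∈ B, x ∈ V₁) (hB₂ : ∀ x ∈ B, x ∈ V₂) (hB₃ : ∀ x ∈ B, x ∈ V₃)
    (hsat : ∀ x ∈ B, (algebraMap R F π)⁻¹ * x ∈ V₁ → (algebraMap R F π)⁻¹ * x ∈ V₂ →
      (algebraMap R F π)⁻¹ * x ∈ V₃ → (algebraMap R F π)⁻¹ * x ∈ B)
    (hπ0 : algebraMap R F π ≠ 0)
    (n : Ideal B) [hn : n.IsPrime]
    (sF s' : F) (hsF0 : sF ≠ 0) (hs0 : s' ≠ 0) (hs' : sF * s'⁻¹ ∈ V₂)
    (a : B) (ha : a ∉ n) (ha₁ : (algebraMap R F π)⁻¹ * (a : F) ∈ V₁)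
    (ha₃ : (algebraMap R F π)⁻¹ * (a : F) ∈ V₃)
    (z d : B) (hz : (z : F) = (d : F) * s') (hzn : z ∈ n) (hd : d ∉ n)
    (x₁ d₁ x₂ d₂ : B) (hx₂ : x₂ ∉ n) (hd₁ : d₁ ∉ n)
    (hid : s' ^ (q - 1) * ((x₁ : F) * (d₂ : F)) = (q : F) * ((x₂ : F) * (d₁ : F)))
    (t₀ : B) (ht₀ : t₀ ∈ n)
    (hbr : ∀ x ∈ n, ∃ s₀ : B, s₀ ∉ n ∧ ∃ a' : B,
      ((s₀ * x - a' * t₀ : B) : F) * sF⁻¹ ∈ V₂) :
    IsLocalRing.maximalIdeal (Localization.AtPrime n)
      = Ideal.span {algebraMap B (Localization.AtPrime n) t₀,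
          algebraMap B (Localization.AtPrime n) z} := by
  have hun : algebraMap R B u ∉ n := by
    intro h
    have h1 : algebraMap R B u * algebraMap R B u' = 1 := by rw [← map_mul, huu', map_one]
    exact (Ideal.ne_top_iff_one n).mp hn.ne_top (h1 ▸ n.mul_mem_right _ h)
  have htn : a * algebraMap R B u * d ^ (q - 1) * x₂ * d₁ ∉ n := by
    intro h
    rcases hn.mem_or_mem h with h | h
    · rcases hn.mem_or_mem h with h | h
      · rcases hn.mem_or_mem h with h | h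
        · rcases hn.mem_or_mem h with h | h
          · exact ha h
          · exact hun h
        · exact hd (hn.mem_of_pow_mem _ h)
      · exact hx₂ h
    · exact hd₁ h
  have hgen := TripleLoc71.tl71_max_two n (fun y : B => (y : F) * sF⁻¹ ∈ V₂) t₀ z
    (a * algebraMap R B u * d ^ (q - 1) * x₂ * d₁) htn hbr
    (fun y hy => mc25_prin π u q hq2 hqπ B V₁ V₂ V₃ hB₁ hB₂ hB₃ hsat hπ0 sF s' hsF0 hs0 hs'
      a ha₁ ha₃ z d hz x₁ d₁ x₂ d₂ hid y hy)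
  exact TripleLoc71.tl71_maximalIdeal_eq n t₀ z ht₀ hzn hgen

end chart

end Fermat.Agent.S36
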