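import Mathlib
import Fermat.Agent.S36.HP1Bind62
import Fermat.Agent.S36.TwoGenCanonB71
import Fermat.Agent.S36.C2Den66
import Fermat.Agent.S36.C2Den74
import Fermat.Agent.S36.C2GData11
import Fermat.Agent.S36.SmallQInst75

/-!
# S36 lab (helper49), rows 600 / 605: the closed statement `s36i62h_Mid3` (`q = 2`)

`s36i62h_Mid3` (HP1Bind62, helper62): for `q = 2`, `3 ∣ M'`, on both charts of the Hauptmodul
`pk85_h3` of level `M' q q`, the middle branch `V₂ = v2g64_V2` is principal at every closed point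
lying on the middle branch only (`mc25_MidPrinAt`).

Proof: the cusps are `mc25_hD2_level3` / `mc25_hD2_level3_inv` (helper25); at a point where `j`
is regular we feed `c2h66_prinAt` (helper66, coordinate route with a denominator) with the
coordinate `x = pk85_h3 K M' h3`:

* `(xR, hx, hθ)` : `c2g11_h3_exp` (helper11);
* `(b, sB)` : `c2p74_den_haupt` (helper74);
* `g = c2g11_G3 = (x³ (x + 27)⁴)⁻¹`, `hg = c2g11_G3_mul_theta` (helper11);
* `(ag, tg)` : `c2g11_agtg3` (helper11) with `α^* U` a unit at `n` (`usq75_alphaU_unit_at`,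
  helper75), `H ∉ n` (from the regularity of `j`; `H = pk85_h3 K (M' q q)`), and `H + 27 ∉ n`
  because `j` is a unit at every such point when `q = 2` (`sqi75_j_unit_at`, helper75).

For `q = 2` the uniformiser `σ = v2g64_s` of `V₂` has the valuation of `2`, so "on the middle
branch" (`tl71_OnMid`) is `sf79_OnBr` for `V₂`.

All names are prefixed `c2m49_`.
-/

set_option autoImplicit false
set_option linter.unusedSectionVars false
set_option linter.unusedVariables false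
set_option linter.style.haveILetI false
set_option linter.style.longLine false

open ModularCurve IntermediateField

namespace Fermat.Agent.S36

open Fermat.Agent.S18 Fermat.Agent.S24 Fermat.Agent.S28 Fermat.Agent.S37 Fermat.Agent.S34
open Fermat.Agent.S35 Fermat.Agent.S36.TripleLoc71

local notation "Q̄" => AlgebraicClosure ℚ

section c2m49_abs

variable {R' F : Type*} [CommRing R'] [Field F] [Algebra R' F]

/-- Chart `{h}`: at a prime `n` where `J` is regular and `3` is invertible, `h ∉ n`; and the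
data `s = h³`, `e₂ = h + 27` with `s J = (h + 27)(h + 243)³`. -/
theorem c2m49_absH (B : Subalgebra R' F) (n : Ideal B) [hnp : n.IsPrime] (J h : F)
    (hrel : J * h ^ 3 = (h + 27) * (h + 243) ^ 3) (hhB : h ∈ B)
    (u : B) (hu : (u : F) * 3 = 1)
    (s' b' : B) (hs' : s' ∉ n) (hsj' : (s' : F) * J = (b' : F)) :
    (⟨h, hhB⟩ : B) ∉ n ∧
    ∃ (s e₂ : B) (hsj : (s : F) * J ∈ B), s ∉ n ∧ (s : F) = h ^ 3 ∧ (e₂ : F) = h + 27 ∧
      ((⟨_, hsj⟩ : B) ∉ n → e₂ ∉ n) := by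
  have hnat : ∀ a : ℕ, (a : F) ∈ B := by
    intro a
    have := B.algebraMap_mem (a : R')
    rwa [map_natCast] at this
  have h27B : (27 : F) ∈ B := by
    have := hnat 27
    exact_mod_cast this
  have h243B : (243 : F) ∈ B := by
    have := hnat 243
    exact_mod_cast this
  have ha1 : h + 27 ∈ B := B.add_mem hhB h27B
  have ha2 : h + 243 ∈ B := B.add_mem hhB h243B
  have h1n : (1 : B) ∉ n := (Ideal.ne_top_iff_one n).mp hnp.ne_top
  have hHn : (⟨h, hhB⟩ : B) ∉ n := by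
    intro hn
    have e : s' * ((⟨h + 27, ha1⟩ : B) * (⟨h + 243, ha2⟩ : B) ^ 3) =
        b' * (⟨h, hhB⟩ : B) ^ 3 := by
      apply Subtype.ext
      push_cast
      rw [← hrel, ← hsj']; ring
    have h1 : s' * ((⟨h + 27, ha1⟩ : B) * (⟨h + 243, ha2⟩ : B) ^ 3) ∈ n := by
      rw [e]
      exact n.mul_mem_left _ (n.pow_mem_of_mem hn 3 (by norm_num))
    have h2 := (hnp.mem_or_mem h1).resolve_left hs'
    rcases hnp.mem_or_mem h2 with h3 | h3
    · apply h1n
      have e1 : (1 : B) = u ^ 3 * ((⟨h + 27, ha1⟩ : B) - ⟨h, hhB⟩) := by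
        apply Subtype.ext
        push_cast
        have : (u : F) ^ 3 * (h + 27 - h) = ((u : F) * 3) ^ 3 := by ring
        rw [this, hu, one_pow]
      rw [e1]
      exact n.mul_mem_left _ (n.sub_mem h3 hn)
    · have h4 := hnp.mem_of_pow_mem _ h3
      apply h1n
      have e1 : (1 : B) = u ^ 5 * ((⟨h + 243, ha2⟩ : B) - ⟨h, hhB⟩) := by
        apply Subtype.ext
        push_cast
        have : (u : F) ^ 5 * (h + 243 - h) = ((u : F) * 3) ^ 5 := by ring
        rw [this, hu, one_pow]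
      rw [e1]
      exact n.mul_mem_left _ (n.sub_mem h4 hn)
  have hsJ : (((⟨h, hhB⟩ : B) ^ 3 : B) : F) * J = (h + 27) * (h + 243) ^ 3 := by
    push_cast
    rw [← hrel]; ring
  have hsjB : (((⟨h, hhB⟩ : B) ^ 3 : B) : F) * J ∈ B := by
    rw [hsJ]
    exact B.mul_mem ha1 (B.pow_mem ha2 3)
  refine ⟨hHn, (⟨h, hhB⟩ : B) ^ 3, ⟨h + 27, ha1⟩, hsjB, ?_, ?_, rfl, ?_⟩
  · intro hmem
    exact hHn (hnp.mem_of_pow_mem _ hmem)
  · push_cast
    rfl
  · intro hj he
    apply hj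
    have e : (⟨_, hsjB⟩ : B) = (⟨h + 27, ha1⟩ : B) * (⟨h + 243, ha2⟩ : B) ^ 3 := by
      apply Subtype.ext
      refine hsJ.trans ?_
      push_cast
      rfl
    rw [e]
    exact n.mul_mem_right _ he

/-- Chart `{h⁻¹}`: at a prime `n` where `J` is regular, `h⁻¹ ∉ n`; and the datum
`e₂ = 1 + 27 h⁻¹` with `h⁻¹ J = (1 + 27 h⁻¹)(1 + 243 h⁻¹)³`. -/
theorem c2m49_absK (B : Subalgebra R' F) (n : Ideal B) [hnp : n.IsPrime] (J h : F) (hh0 : h ≠ 0)
    (hrel : J * h ^ 3 = (h + 27) * (h + 243) ^ 3) (htB : h⁻¹ ∈ B)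
    (s' b' : B) (hs' : s' ∉ n) (hsj' : (s' : F) * J = (b' : F)) :
    (⟨h⁻¹, htB⟩ : B) ∉ n ∧
    ∃ (e₂ : B) (hsj : ((⟨h⁻¹, htB⟩ : B) : F) * J ∈ B), (e₂ : F) = 1 + 27 * h⁻¹ ∧
      ((⟨_, hsj⟩ : B) ∉ n → e₂ ∉ n) := by
  have hnat : ∀ a : ℕ, (a : F) ∈ B := by
    intro a
    have := B.algebraMap_mem (a : R')
    rwa [map_natCast] at this
  have h27B : (27 : F) ∈ B := by
    have := hnat 27
    exact_mod_cast this
  have h243B : (243 : F) ∈ B := by
    have := hnat 243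
    exact_mod_cast this
  have ha1 : 1 + 27 * h⁻¹ ∈ B := B.add_mem B.one_mem (B.mul_mem h27B htB)
  have ha2 : 1 + 243 * h⁻¹ ∈ B := B.add_mem B.one_mem (B.mul_mem h243B htB)
  have htJ : h⁻¹ * J = (1 + 27 * h⁻¹) * (1 + 243 * h⁻¹) ^ 3 := by
    have e1 : (1 + 27 * h⁻¹) * (1 + 243 * h⁻¹) ^ 3 =
        h⁻¹ ^ 4 * ((h + 27) * (h + 243) ^ 3) := by
      field_simp
    rw [e1, ← hrel]; field_simp
  have h1n : (1 : B) ∉ n := (Ideal.ne_top_iff_one n).mp hnp.ne_top
  have hkn : (⟨h⁻¹, htB⟩ : B) ∉ n := by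
    intro htn
    have hprod : (⟨h⁻¹, htB⟩ : B) * b' =
        s' * ((⟨1 + 27 * h⁻¹, ha1⟩ : B) * (⟨1 + 243 * h⁻¹, ha2⟩ : B) ^ 3) := by
      apply Subtype.ext
      push_cast
      rw [← htJ, ← hsj']; ring
    have hmem : s' * ((⟨1 + 27 * h⁻¹, ha1⟩ : B) * (⟨1 + 243 * h⁻¹, ha2⟩ : B) ^ 3) ∈ n := by
      rw [← hprod]
      exact n.mul_mem_right _ htn
    rcases hnp.mem_or_mem hmem with hc | hc
    · exact hs' hc
    rcases hnp.mem_or_mem hc with hc | hc
    · apply h1n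
      have e : (1 : B) = (⟨1 + 27 * h⁻¹, ha1⟩ : B) - (⟨27, h27B⟩ : B) * ⟨h⁻¹, htB⟩ := by
        apply Subtype.ext
        push_cast
        ring
      rw [e]
      exact n.sub_mem hc (n.mul_mem_left _ htn)
    · have h' := hnp.mem_of_pow_mem 3 hc
      apply h1n
      have e : (1 : B) = (⟨1 + 243 * h⁻¹, ha2⟩ : B) - (⟨243, h243B⟩ : B) * ⟨h⁻¹, htB⟩ := by
        apply Subtype.ext
        push_cast
        ring
      rw [e]
      exact n.sub_mem h' (n.mul_mem_left _ htn)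
  have hsjB : ((⟨h⁻¹, htB⟩ : B) : F) * J ∈ B := by
    show h⁻¹ * J ∈ B
    rw [htJ]
    exact B.mul_mem ha1 (B.pow_mem ha2 3)
  refine ⟨hkn, ⟨1 + 27 * h⁻¹, ha1⟩, hsjB, rfl, ?_⟩
  intro hj he
  apply hj
  have e : (⟨_, hsjB⟩ : B) = (⟨1 + 27 * h⁻¹, ha1⟩ : B) * (⟨1 + 243 * h⁻¹, ha2⟩ : B) ^ 3 := by
    apply Subtype.ext
    show h⁻¹ * J = _
    rw [htJ]
    push_cast
    rfl
  rw [e]
  exact n.mul_mem_right _ he

end c2m49_abs

section c2m49_core

variable {R K : Type} [CommRing R] [IsDomain R] [IsDiscreteValuationRing R] [Field K]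
  [NumberField K] [Algebra R K] [IsFractionRing R K] [Algebra K Q̄] [Algebra.IsAlgebraic K Q̄]
  (M' q : ℕ) [NeZero M'] [NeZero q] (hq : q.Prime) (hM' : ¬ q ∣ M')
  [Algebra R ↥(modularFunctionFieldFullC K M')]
  [IsScalarTower R K ↥(modularFunctionFieldFullC K M')]
  [Algebra R ↥(modularFunctionFieldFullC K (M' * q))]
  [IsScalarTower R K ↥(modularFunctionFieldFullC K (M' * q))]
  [Algebra R ↥(modularFunctionFieldFullC K (M' * q * q))]
  [IsScalarTower R K ↥(modularFunctionFieldFullC K (M' * q * q))]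

include hq hM' in
/-- **The middle branch is principal at a `C₂`-only point where `j` is regular, `q = 2`**, on any
integrally closed saturated chart `B` of level `M' q q`, given the chart data `s` (`s j ∈ B`,
`s` a unit of `V₁`, `V₂`, `s ∉ n`), `e₁ = d₁ T`, `e₂ = d₂ (T + 27)` (`T = α₂ α₁ h₃`). -/
theorem c2m49_core (hq2 : q = 2) (hπ : Irreducible ((q : ℕ) : R))
    (hunit : ∀ k : ℕ, Nat.Coprime k q → IsUnit (k : R)) (h3 : 3 ∣ M')
    (V₂ V₃ : ValuationSubring ↥(modularFunctionFieldFullC K (M' * q * q)))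
    (hV₂ : ∀ c ∈ cm85_Vinf (K := K) (M' * q) hπ, al97L_alpha K (M' * q) q c ∈ V₂)
    (hπ₂ : (algebraMap K ↥(modularFunctionFieldFullC K (M' * q * q))
      (algebraMap R K ((q : ℕ) : R)))⁻¹ ∉ V₂)
    (hne : cm85_Vinf (K := K) (M' * q * q) hπ ≠ V₂)
    (hs : V₂.valuation (v2g64_s K M' q) ^ (q - 1) =
      V₂.valuation (algebraMap K ↥(modularFunctionFieldFullC K (M' * q * q))
        (algebraMap R K ((q : ℕ) : R))))
    (B : Subalgebra R ↥(modularFunctionFieldFullC K (M' * q * q)))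
    (hBint : ∀ z : ↥(modularFunctionFieldFullC K (M' * q * q)), IsIntegral B z → z ∈ B)
    (hB₁ : ∀ x ∈ B, x ∈ cm85_Vinf (K := K) (M' * q * q) hπ)
    (hB₂ : ∀ x ∈ B, x ∈ V₂) (hB₃ : ∀ x ∈ B, x ∈ V₃)
    (hsat : ∀ x ∈ B,
      (algebraMap R ↥(modularFunctionFieldFullC K (M' * q * q)) ((q : ℕ) : R))⁻¹ * x ∈
        cm85_Vinf (K := K) (M' * q * q) hπ →
      (algebraMap R ↥(modularFunctionFieldFullC K (M' * q * q)) ((q : ℕ) : R))⁻¹ * x ∈ V₂ →
      (algebraMap R ↥(modularFunctionFieldFullC K (M' * q * q)) ((q : ℕ) : R))⁻¹ * x ∈ V₃ →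
      (algebraMap R ↥(modularFunctionFieldFullC K (M' * q * q)) ((q : ℕ) : R))⁻¹ * x ∈ B)
    (n : Ideal B) [hn : n.IsPrime]
    (hmid : tl71_OnMid (v2g64_s K M' q) B V₂.toSubring n)
    (h1 : ¬ sf79_OnBr ((q : ℕ) : R) B (cm85_Vinf (K := K) (M' * q * q) hπ).toSubring n)
    (h3' : ¬ sf79_OnBr ((q : ℕ) : R) B V₃.toSubring n)
    (s' b' : B) (hs' : s' ∉ n)
    (hsj' : (s' : ↥(modularFunctionFieldFullC K (M' * q * q))) * rm90_j K (M' * q * q) =
      (b' : ↥(modularFunctionFieldFullC K (M' * q * q))))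
    (s : B) (hsn : s ∉ n)
    (hsj : (s : ↥(modularFunctionFieldFullC K (M' * q * q))) * rm90_j K (M' * q * q) ∈ B)
    (hs₁ : (s : ↥(modularFunctionFieldFullC K (M' * q * q)))⁻¹ ∈
      cm85_Vinf (K := K) (M' * q * q) hπ)
    (hs₂ : (s : ↥(modularFunctionFieldFullC K (M' * q * q)))⁻¹ ∈ V₂)
    (e₁ d₁ e₂ d₂ : B) (he₁n : e₁ ∉ n)
    (he₁ : (e₁ : ↥(modularFunctionFieldFullC K (M' * q * q))) =
      (d₁ : ↥(modularFunctionFieldFullC K (M' * q * q))) *
        al97L_alpha K (M' * q) q (al97L_alpha K M' q (pk85_h3 K M' h3)))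
    (he₂ : (e₂ : ↥(modularFunctionFieldFullC K (M' * q * q))) =
      (d₂ : ↥(modularFunctionFieldFullC K (M' * q * q))) *
        (al97L_alpha K (M' * q) q (al97L_alpha K M' q (pk85_h3 K M' h3)) + 27))
    (he₂n : (⟨_, hsj⟩ : B) ∉ n → e₂ ∉ n) :
    mc25_MidPrinAt (v2g64_s K M' q) B V₂.toSubring n := by
  have hq1 : q - 1 = 1 := by omega
  have hq3 : q ≠ 3 := by omega
  have eπ : algebraMap R ↥(modularFunctionFieldFullC K (M' * q * q)) ((q : ℕ) : R) =
      algebraMap K ↥(modularFunctionFieldFullC K (M' * q * q)) (algebraMap R K ((q : ℕ) : R)) :=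
    IsScalarTower.algebraMap_apply R K _ _
  have hπ0 : algebraMap R ↥(modularFunctionFieldFullC K (M' * q * q)) ((q : ℕ) : R) ≠ 0 := by
    rw [eπ]
    exact (map_ne_zero _).mpr ((map_ne_zero_iff _ (IsFractionRing.injective R K)).mpr hπ.ne_zero)
  have hvσ : V₂.valuation (v2g64_s K M' q) =
      V₂.valuation (algebraMap R ↥(modularFunctionFieldFullC K (M' * q * q)) ((q : ℕ) : R)) := by
    rw [eπ, ← hs, hq1, pow_one]
  have hσ0 : v2g64_s K M' q ≠ 0 := by
    intro h0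
    rw [h0, map_zero] at hvσ
    exact hπ0 ((map_eq_zero _).mp hvσ.symm)
  -- `q = 2`: on the middle branch = on the branch `V₂`
  have hOn₂ : ∀ x : B,
      (algebraMap R ↥(modularFunctionFieldFullC K (M' * q * q)) ((q : ℕ) : R))⁻¹ *
        (x : ↥(modularFunctionFieldFullC K (M' * q * q))) ∈ V₂ → x ∈ n := by
    intro x hx
    apply hmid
    change (x : ↥(modularFunctionFieldFullC K (M' * q * q))) * (v2g64_s K M' q)⁻¹ ∈ V₂
    have key : (x : ↥(modularFunctionFieldFullC K (M' * q * q))) * (v2g64_s K M' q)⁻¹ =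
        (algebraMap R ↥(modularFunctionFieldFullC K (M' * q * q)) ((q : ℕ) : R))⁻¹ *
          (x : ↥(modularFunctionFieldFullC K (M' * q * q))) *
          (algebraMap R ↥(modularFunctionFieldFullC K (M' * q * q)) ((q : ℕ) : R) *
            (v2g64_s K M' q)⁻¹) := by
      field_simp
    rw [key]
    refine V₂.mul_mem _ _ hx ?_
    rw [← V₂.valuation_le_one_iff, map_mul, map_inv₀, ← hvσ,
      mul_inv_cancel₀ ((Valuation.ne_zero_iff _).mpr hσ0)]
  -- separator for `V₃`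
  have h3'' := h3'
  unfold sf79_OnBr at h3''
  push Not at h3''
  obtain ⟨a, ha₃, ha⟩ := h3''
  -- `α^* U` and `j` are units at `n`
  obtain ⟨tU, U', htU, hU'n, hU'⟩ := usq75_alphaU_unit_at (K := K) M' q hq hM' hπ B hBint V₂ V₃
    hV₂ hB₁ hB₂ hB₃ hsat n s hsn hsj hs₁ hs₂ a ha ha₃
  have hj := sqi75_j_unit_at (K := K) M' q hq hM' (Or.inl hq2) hπ B hBint V₂ V₃ hV₂ hB₁ hB₂ hB₃
    hsat n hOn₂ s hsn hsj hs₁ hs₂ a ha ha₃
  -- denominators
  obtain ⟨b, sB, t1B, t3B, hb, hsB, -, -⟩ := c2p74_den_haupt (R := R) (K := K) M' q hq hunit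
    (pk85_h3 K M' h3) (Or.inr ⟨hq3, h3, rfl⟩) B hBint n s' b' hs' hsj'
  -- no pole of `G`
  obtain ⟨ag, tg, htg, hgn⟩ := c2g11_agtg3 (R := R) (K := K) M' q h3 B n
    (dq56b_U (K := K) M' q hq) e₁ d₁ e₂ d₂ he₁n (he₂n hj) he₁ he₂ tU U' htU hU'
  obtain ⟨hx, hθ⟩ := c2g11_h3_exp R K M' h3
  exact c2h66_prinAt (algebraMap K Q̄) M' q hq hM' hπ (Associated.refl _) V₂ hV₂ hπ₂ hne
    (v2g64_s K M' q) hs B (cm85_Vinf (K := K) (M' * q * q) hπ).toSubring V₃.toSubring
    (fun y hy => hB₁ y hy) (fun y hy => hB₂ y hy) (fun y hy => hB₃ y hy)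
    (fun y hy k1 k2 k3 => hsat y hy k1 k2 k3) n hmid h1 h3'
    (pk85_h3 K M' h3) (h34_h3R R) hx hθ b sB hb hsB (c2g11_G3 K M' h3)
    (dq56b_U (K := K) M' q hq) (c2g11_G3_mul_theta K M' h3) rfl ag tg htg hgn

end c2m49_core

section c2m49_level

variable {R K : Type} [CommRing R] [IsDomain R] [IsDiscreteValuationRing R] [Field K]
  [NumberField K] [Algebra R K] [IsFractionRing R K] [Algebra K Q̄] [Algebra.IsAlgebraic K Q̄]
  (M' q : ℕ) [NeZero M'] [NeZero q] (hq : q.Prime) (hM' : ¬ q ∣ M')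
  [Algebra R ↥(modularFunctionFieldFullC K M')]
  [IsScalarTower R K ↥(modularFunctionFieldFullC K M')]
  [Algebra R ↥(modularFunctionFieldFullC K (M' * q))]
  [IsScalarTower R K ↥(modularFunctionFieldFullC K (M' * q))]
  [Algebra R ↥(modularFunctionFieldFullC K (M' * q * q))]
  [IsScalarTower R K ↥(modularFunctionFieldFullC K (M' * q * q))]

include hq hM' in
/-- **`q = 2`, Hauptmodul of level 3, both charts**: the middle branch `V₂` (ANY valuation
subring with the four frame facts) is principal at every closed point on the middle branch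
only.  No hypothesis left. -/
theorem c2m49_level3 (hq2 : q = 2) (hπ : Irreducible ((q : ℕ) : R))
    (hunit : ∀ k : ℕ, Nat.Coprime k q → IsUnit (k : R)) (h3 : 3 ∣ M')
    (V₂ : ValuationSubring ↥(modularFunctionFieldFullC K (M' * q * q)))
    (hV₂ : ∀ c ∈ cm85_Vinf (K := K) (M' * q) hπ, al97L_alpha K (M' * q) q c ∈ V₂)
    (hπ₂ : (algebraMap K ↥(modularFunctionFieldFullC K (M' * q * q))
      (algebraMap R K ((q : ℕ) : R)))⁻¹ ∉ V₂)
    (hne : cm85_Vinf (K := K) (M' * q * q) hπ ≠ V₂)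
    (hs : V₂.valuation (v2g64_s K M' q) ^ (q - 1) =
      V₂.valuation (algebraMap K ↥(modularFunctionFieldFullC K (M' * q * q))
        (algebraMap R K ((q : ℕ) : R)))) :
      (∀ n : Ideal ↥(pk15_chart R ({pk85_h3 K (M' * q * q) (h3.trans ((dvd_mul_right M' q).trans (dvd_mul_right (M' * q) q)))} : Set ↥(modularFunctionFieldFullC K (M' * q * q)))), n.IsMaximal → algebraMap R ↥(pk15_chart R ({pk85_h3 K (M' * q * q) (h3.trans ((dvd_mul_right M' q).trans (dvd_mul_right (M' * q) q)))} : Set ↥(modularFunctionFieldFullC K (M' * q * q)))) ((q : ℕ) : R) ∈ n →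
        tl71_OnMid (v2g64_s K M' q) (pk15_chart R ({pk85_h3 K (M' * q * q) (h3.trans ((dvd_mul_right M' q).trans (dvd_mul_right (M' * q) q)))} : Set ↥(modularFunctionFieldFullC K (M' * q * q)))) V₂.toSubring n →
        ¬ sf79_OnBr ((q : ℕ) : R) (pk15_chart R ({pk85_h3 K (M' * q * q) (h3.trans ((dvd_mul_right M' q).trans (dvd_mul_right (M' * q) q)))} : Set ↥(modularFunctionFieldFullC K (M' * q * q)))) (cm85_Vinf (K := K) (M' * q * q) hπ).toSubring n →
        ¬ sf79_OnBr ((q : ℕ) : R) (pk15_chart R ({pk85_h3 K (M' * q * q) (h3.trans ((dvd_mul_right M' q).trans (dvd_mul_right (M' * q) q)))} : Set ↥(modularFunctionFieldFullC K (M' * q * q)))) (nsb86_V3 (K := K) M' q hq hM' hπ).toSubring n →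
        mc25_MidPrinAt (v2g64_s K M' q) (pk15_chart R ({pk85_h3 K (M' * q * q) (h3.trans ((dvd_mul_right M' q).trans (dvd_mul_right (M' * q) q)))} : Set ↥(modularFunctionFieldFullC K (M' * q * q)))) V₂.toSubring n) ∧
      (∀ n : Ideal ↥(pk15_chart R ({(pk85_h3 K (M' * q * q) (h3.trans ((dvd_mul_right M' q).trans (dvd_mul_right (M' * q) q))))⁻¹} : Set ↥(modularFunctionFieldFullC K (M' * q * q)))), n.IsMaximal → algebraMap R ↥(pk15_chart R ({(pk85_h3 K (M' * q * q) (h3.trans ((dvd_mul_right M' q).trans (dvd_mul_right (M' * q) q))))⁻¹} : Set ↥(modularFunctionFieldFullC K (M' * q * q)))) ((q : ℕ) : R) ∈ n →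
        tl71_OnMid (v2g64_s K M' q) (pk15_chart R ({(pk85_h3 K (M' * q * q) (h3.trans ((dvd_mul_right M' q).trans (dvd_mul_right (M' * q) q))))⁻¹} : Set ↥(modularFunctionFieldFullC K (M' * q * q)))) V₂.toSubring n →
        ¬ sf79_OnBr ((q : ℕ) : R) (pk15_chart R ({(pk85_h3 K (M' * q * q) (h3.trans ((dvd_mul_right M' q).trans (dvd_mul_right (M' * q) q))))⁻¹} : Set ↥(modularFunctionFieldFullC K (M' * q * q)))) (cm85_Vinf (K := K) (M' * q * q) hπ).toSubring n →
        ¬ sf79_OnBr ((q : ℕ) : R) (pk15_chart R ({(pk85_h3 K (M' * q * q) (h3.trans ((dvd_mul_right M' q).trans (dvd_mul_right (M' * q) q))))⁻¹} : Set ↥(modularFunctionFieldFullC K (M' * q * q)))) (nsb86_V3 (K := K) M' q hq hM' hπ).toSubring n →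
        mc25_MidPrinAt (v2g64_s K M' q) (pk15_chart R ({(pk85_h3 K (M' * q * q) (h3.trans ((dvd_mul_right M' q).trans (dvd_mul_right (M' * q) q))))⁻¹} : Set ↥(modularFunctionFieldFullC K (M' * q * q)))) V₂.toSubring n) := by
  have hqR : ¬ IsUnit ((q : ℕ) : R) := hπ.not_isUnit
  have hMu : IsUnit ((M' : ℕ) : R) :=
    hunit M' (Nat.Coprime.symm ((Nat.Prime.coprime_iff_not_dvd hq).mpr hM'))
  have hq3 : q ≠ 3 := by omega
  have hpu : IsUnit ((3 : ℕ) : R) :=
    hunit 3 ((Nat.coprime_primes Nat.prime_three hq).mpr (Ne.symm hq3))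
  have hpu' : IsUnit (3 : R) := by
    simpa using hpu
  obtain ⟨r3, hr3⟩ := hpu.exists_left_inv
  have hr3' : r3 * 3 = 1 := by
    rw [← hr3]; push_cast; ring
  obtain ⟨-, hC, -⟩ := fb85_frameV3_level3 M' q hq hM' hπ hqR hMu h3 V₂ hV₂ hπ₂ hs
  obtain ⟨-, h12W, hsat1, hsat2, -⟩ := hC
  have e : algebraMap R ↥(modularFunctionFieldFullC K (M' * q * q)) ((q : ℕ) : R) =
      (algebraMap K ↥(modularFunctionFieldFullC K (M' * q * q)) (algebraMap R K ((q : ℕ) : R))) :=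
    IsScalarTower.algebraMap_apply R K _ _
  have hπ₂' : (algebraMap R ↥(modularFunctionFieldFullC K (M' * q * q)) ((q : ℕ) : R))⁻¹ ∉ V₂ := by
    rw [e]
    exact hπ₂
  have hs' : V₂.valuation (v2g64_s K M' q) ^ (q - 1) =
      V₂.valuation (algebraMap R ↥(modularFunctionFieldFullC K (M' * q * q)) ((q : ℕ) : R)) := by
    rw [e]
    exact hs
  have hsub1 : ({pk85_h3 K (M' * q * q) (h3.trans ((dvd_mul_right M' q).trans (dvd_mul_right (M' * q) q)))} : Set ↥(modularFunctionFieldFullC K (M' * q * q))) ⊆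
      {pk85_h3 K (M' * q * q) (h3.trans ((dvd_mul_right M' q).trans (dvd_mul_right (M' * q) q))), (pk85_h3 K (M' * q * q) (h3.trans ((dvd_mul_right M' q).trans (dvd_mul_right (M' * q) q))))⁻¹} := by
    intro x hx
    rw [Set.mem_singleton_iff.mp hx]
    exact Set.mem_insert _ _
  have hsub2 : ({(pk85_h3 K (M' * q * q) (h3.trans ((dvd_mul_right M' q).trans (dvd_mul_right (M' * q) q))))⁻¹} : Set ↥(modularFunctionFieldFullC K (M' * q * q))) ⊆
      {pk85_h3 K (M' * q * q) (h3.trans ((dvd_mul_right M' q).trans (dvd_mul_right (M' * q) q))), (pk85_h3 K (M' * q * q) (h3.trans ((dvd_mul_right M' q).trans (dvd_mul_right (M' * q) q))))⁻¹} := by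
    intro x hx
    rw [Set.mem_singleton_iff.mp hx]
    exact Set.mem_insert_of_mem _ rfl
  have hBW1 : ∀ x ∈ (pk15_chart R ({pk85_h3 K (M' * q * q) (h3.trans ((dvd_mul_right M' q).trans (dvd_mul_right (M' * q) q)))} : Set ↥(modularFunctionFieldFullC K (M' * q * q)))), x ∈ (cm85_Vinf (K := K) (M' * q * q) hπ).toSubring ⊓ V₂.toSubring ⊓ (nsb86_V3 (K := K) M' q hq hM' hπ).toSubring :=
    fun x hx => h12W x (pk15_chart_mono hsub1 hx)
  have hBW2 : ∀ x ∈ (pk15_chart R ({(pk85_h3 K (M' * q * q) (h3.trans ((dvd_mul_right M' q).trans (dvd_mul_right (M' * q) q))))⁻¹} : Set ↥(modularFunctionFieldFullC K (M' * q * q)))), x ∈ (cm85_Vinf (K := K) (M' * q * q) hπ).toSubring ⊓ V₂.toSubring ⊓ (nsb86_V3 (K := K) M' q hq hM' hπ).toSubring :=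
    fun x hx => h12W x (pk15_chart_mono hsub2 hx)
  -- the Hauptmodul `H` of level `M' q q`
  have h3q : 3 ∣ M' * q := h3.trans (dvd_mul_right M' q)
  obtain ⟨hHtr, -, -, -, hHV, hHV', -⟩ := cm85_facts_level3 (R := R) (K := K) (M' * q * q) hπ
    (h3.trans ((dvd_mul_right M' q).trans (dvd_mul_right (M' * q) q)))
  obtain ⟨-, -, -, -, hhV, hhV', -⟩ := cm85_facts_level3 (R := R) (K := K) (M' * q) hπ h3q
  have hα₂ : al97L_alpha K (M' * q) q (pk85_h3 K (M' * q) h3q) = (pk85_h3 K (M' * q * q) (h3.trans ((dvd_mul_right M' q).trans (dvd_mul_right (M' * q) q)))) := by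
    apply Subtype.ext
    rw [al97L_alpha_coe]
    rfl
  have hT : al97L_alpha K (M' * q) q (al97L_alpha K M' q (pk85_h3 K M' h3)) = (pk85_h3 K (M' * q * q) (h3.trans ((dvd_mul_right M' q).trans (dvd_mul_right (M' * q) q)))) := by
    apply Subtype.ext
    rw [al97L_alpha_coe, al97L_alpha_coe]
    rfl
  have hH2 : (pk85_h3 K (M' * q * q) (h3.trans ((dvd_mul_right M' q).trans (dvd_mul_right (M' * q) q)))) ∈ V₂ := by
    rw [← hα₂]
    exact hV₂ _ hhV
  have hH2' : (pk85_h3 K (M' * q * q) (h3.trans ((dvd_mul_right M' q).trans (dvd_mul_right (M' * q) q))))⁻¹ ∈ V₂ := by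
    rw [← hα₂, ← map_inv₀]
    exact hV₂ _ hhV'
  have hrel := pk85_h3_rel K (M' * q * q) (h3.trans ((dvd_mul_right M' q).trans (dvd_mul_right (M' * q) q)))
  have hH0 : (pk85_h3 K (M' * q * q) (h3.trans ((dvd_mul_right M' q).trans (dvd_mul_right (M' * q) q)))) ≠ 0 := cap87_ne_zero _ hHtr
  refine ⟨?_, ?_⟩
  · refine mc25_hD2_level3 (R := R) (K := K) M' q hq hM' hπ hqR h3 hpu' 1 1 (one_mul 1)
      (one_mul _).symm V₂ hV₂ hπ₂' hne (v2g64_s K M' q) hs' rfl
      (cm85_Vinf (K := K) (M' * q * q) hπ).toSubring (nsb86_V3 (K := K) M' q hq hM' hπ).toSubring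
      (fun x hx => (Subring.mem_inf.mp (Subring.mem_inf.mp (hBW1 x hx)).1).1)
      (fun x hx => (Subring.mem_inf.mp (Subring.mem_inf.mp (hBW1 x hx)).1).2)
      (fun x hx => (Subring.mem_inf.mp (hBW1 x hx)).2)
      (fun x hx k1 k2 k3 => hsat1 x hx (Subring.mem_inf.mpr ⟨Subring.mem_inf.mpr ⟨k1, k2⟩, k3⟩))
      ?_
    rintro n hn hπn hmid h1 h3' ⟨s', b', hs', hsj'⟩
    haveI := hn.isPrime
    have hHB : (pk85_h3 K (M' * q * q) (h3.trans ((dvd_mul_right M' q).trans (dvd_mul_right (M' * q) q)))) ∈ (pk15_chart R ({pk85_h3 K (M' * q * q) (h3.trans ((dvd_mul_right M' q).trans (dvd_mul_right (M' * q) q)))} : Set ↥(modularFunctionFieldFullC K (M' * q * q)))) :=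
      pk15_subset_chart _ (Set.mem_singleton _)
    have hu3 : ((algebraMap R ↥(pk15_chart R ({pk85_h3 K (M' * q * q) (h3.trans ((dvd_mul_right M' q).trans (dvd_mul_right (M' * q) q)))} : Set ↥(modularFunctionFieldFullC K (M' * q * q)))) r3 : ↥(pk15_chart R ({pk85_h3 K (M' * q * q) (h3.trans ((dvd_mul_right M' q).trans (dvd_mul_right (M' * q) q)))} : Set ↥(modularFunctionFieldFullC K (M' * q * q))))) : ↥(modularFunctionFieldFullC K (M' * q * q))) * 3 = 1 := by
      have e1 : ((algebraMap R ↥(pk15_chart R ({pk85_h3 K (M' * q * q) (h3.trans ((dvd_mul_right M' q).trans (dvd_mul_right (M' * q) q)))} : Set ↥(modularFunctionFieldFullC K (M' * q * q)))) r3 : ↥(pk15_chart R ({pk85_h3 K (M' * q * q) (h3.trans ((dvd_mul_right M' q).trans (dvd_mul_right (M' * q) q)))} : Set ↥(modularFunctionFieldFullC K (M' * q * q))))) : ↥(modularFunctionFieldFullC K (M' * q * q))) = algebraMap R ↥(modularFunctionFieldFullC K (M' * q * q)) r3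 := rfl
      rw [e1, ← map_ofNat (algebraMap R ↥(modularFunctionFieldFullC K (M' * q * q))) 3, ← map_mul, hr3', map_one]
    obtain ⟨hHn, s, e₂, hsj, hsn, hsF, he₂F, he₂n⟩ := c2m49_absH _ n (rm90_j K (M' * q * q)) _
      hrel hHB _ hu3 s' b' hs' hsj'
    refine c2m49_core (K := K) M' q hq hM' hq2 hπ hunit h3 V₂ (nsb86_V3 (K := K) M' q hq hM' hπ)
      hV₂ hπ₂ hne hs _ (fun z hz => uv17_chart_intClosed _ z hz)
      (fun x hx => (Subring.mem_inf.mp (Subring.mem_inf.mp (hBW1 x hx)).1).1)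
      (fun x hx => (Subring.mem_inf.mp (Subring.mem_inf.mp (hBW1 x hx)).1).2)
      (fun x hx => (Subring.mem_inf.mp (hBW1 x hx)).2)
      (fun x hx k1 k2 k3 => hsat1 x hx (Subring.mem_inf.mpr ⟨Subring.mem_inf.mpr ⟨k1, k2⟩, k3⟩))
      n hmid h1 h3' s' b' hs' hsj' s hsn hsj ?_ ?_ ⟨_, hHB⟩ 1 e₂ 1 hHn ?_ ?_ he₂n
    · rw [hsF, ← inv_pow]
      exact pow_mem hHV' 3
    · rw [hsF, ← inv_pow]
      exact pow_mem hH2' 3
    · rw [hT]
      simp
    · rw [hT, he₂F]
      simp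
  · refine mc25_hD2_level3_inv (R := R) (K := K) M' q hq hM' hπ hqR h3 1 1 (one_mul 1)
      (one_mul _).symm V₂ hV₂ hπ₂' hne (v2g64_s K M' q) hs' rfl
      (cm85_Vinf (K := K) (M' * q * q) hπ).toSubring (nsb86_V3 (K := K) M' q hq hM' hπ).toSubring
      (fun x hx => (Subring.mem_inf.mp (Subring.mem_inf.mp (hBW2 x hx)).1).1)
      (fun x hx => (Subring.mem_inf.mp (Subring.mem_inf.mp (hBW2 x hx)).1).2)
      (fun x hx => (Subring.mem_inf.mp (hBW2 x hx)).2)
      (fun x hx k1 k2 k3 => hsat2 x hx (Subring.mem_inf.mpr ⟨Subring.mem_inf.mpr ⟨k1, k2⟩, k3⟩))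
      ?_
    rintro n hn hπn hmid h1 h3' ⟨s', b', hs', hsj'⟩
    haveI := hn.isPrime
    have hkB : (pk85_h3 K (M' * q * q) (h3.trans ((dvd_mul_right M' q).trans (dvd_mul_right (M' * q) q))))⁻¹ ∈ (pk15_chart R ({(pk85_h3 K (M' * q * q) (h3.trans ((dvd_mul_right M' q).trans (dvd_mul_right (M' * q) q))))⁻¹} : Set ↥(modularFunctionFieldFullC K (M' * q * q)))) :=
      pk15_subset_chart _ (Set.mem_singleton _)
    obtain ⟨hkn, e₂, hsj, he₂F, he₂n⟩ := c2m49_absK _ n (rm90_j K (M' * q * q)) _ hH0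
      hrel hkB s' b' hs' hsj'
    have h1n : (1 : ↥(pk15_chart R ({(pk85_h3 K (M' * q * q) (h3.trans ((dvd_mul_right M' q).trans (dvd_mul_right (M' * q) q))))⁻¹} : Set ↥(modularFunctionFieldFullC K (M' * q * q))))) ∉ n := (Ideal.ne_top_iff_one n).mp hn.ne_top
    refine c2m49_core (K := K) M' q hq hM' hq2 hπ hunit h3 V₂ (nsb86_V3 (K := K) M' q hq hM' hπ)
      hV₂ hπ₂ hne hs _ (fun z hz => uv17_chart_intClosed _ z hz)
      (fun x hx => (Subring.mem_inf.mp (Subring.mem_inf.mp (hBW2 x hx)).1).1)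
      (fun x hx => (Subring.mem_inf.mp (Subring.mem_inf.mp (hBW2 x hx)).1).2)
      (fun x hx => (Subring.mem_inf.mp (hBW2 x hx)).2)
      (fun x hx k1 k2 k3 => hsat2 x hx (Subring.mem_inf.mpr ⟨Subring.mem_inf.mpr ⟨k1, k2⟩, k3⟩))
      n hmid h1 h3' s' b' hs' hsj' ⟨_, hkB⟩ hkn hsj ?_ ?_ 1 ⟨_, hkB⟩ e₂ ⟨_, hkB⟩ h1n ?_ ?_ he₂n
    · show ((pk85_h3 K (M' * q * q) (h3.trans ((dvd_mul_right M' q).trans (dvd_mul_right (M' * q) q))))⁻¹)⁻¹ ∈ _
      rw [inv_inv]
      exact hHV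
    · show ((pk85_h3 K (M' * q * q) (h3.trans ((dvd_mul_right M' q).trans (dvd_mul_right (M' * q) q))))⁻¹)⁻¹ ∈ _
      rw [inv_inv]
      exact hH2
    · rw [hT]
      show (1 : ↥(modularFunctionFieldFullC K (M' * q * q))) = (pk85_h3 K (M' * q * q) (h3.trans ((dvd_mul_right M' q).trans (dvd_mul_right (M' * q) q))))⁻¹ * (pk85_h3 K (M' * q * q) (h3.trans ((dvd_mul_right M' q).trans (dvd_mul_right (M' * q) q))))
      rw [inv_mul_cancel₀ hH0]
    · rw [hT, he₂F]
      show 1 + 27 * (pk85_h3 K (M' * q * q) (h3.trans ((dvd_mul_right M' q).trans (dvd_mul_right (M' * q) q))))⁻¹ = (pk85_h3 K (M' * q * q) (h3.trans ((dvd_mul_right M' q).trans (dvd_mul_right (M' * q) q))))⁻¹ * ((pk85_h3 K (M' * q * q) (h3.trans ((dvd_mul_right M' q).trans (dvd_mul_right (M' * q) q)))) + 27)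
      field_simp

end c2m49_level

/-- **The closed statement `s36i62h_Mid3` (HP1Bind62) holds**: for `q = 2`, on both canonical
charts of `pk85_h3` at level `M' q q`, the middle branch `v2g64_V2` is principal at every closed
point lying on the middle branch only. -/
theorem c2m49_Mid3 : s36i62h_Mid3 := by
  intro M' q r _ _ hq hM' hrig hq2 h3 R K _ _ _ _ _ _ _ _ _ _ hπ hunit
  haveI : Algebra.IsAlgebraic K Q̄ := fs85_isAlgebraic K
  letI a0 : Algebra R ↥(modularFunctionFieldFullC K M') :=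
    ((algebraMap K ↥(modularFunctionFieldFullC K M')).comp (algebraMap R K)).toAlgebra
  haveI t0 : IsScalarTower R K ↥(modularFunctionFieldFullC K M') :=
    IsScalarTower.of_algebraMap_eq (fun _ => rfl)
  letI a1 : Algebra R ↥(modularFunctionFieldFullC K (M' * q)) :=
    ((algebraMap K ↥(modularFunctionFieldFullC K (M' * q))).comp (algebraMap R K)).toAlgebra
  haveI t1 : IsScalarTower R K ↥(modularFunctionFieldFullC K (M' * q)) :=
    IsScalarTower.of_algebraMap_eq (fun _ => rfl)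
  exact c2m49_level3 (K := K) M' q hq hM' hq2 hπ hunit h3
    (v2g64_V2 (algebraMap K Q̄) M' q hq hM' hπ (Associated.refl _))
    (v2g64_V2_alpha (algebraMap K Q̄) M' q hq hM' hπ (Associated.refl _))
    (v2g64_V2_pi (algebraMap K Q̄) M' q hq hM' hπ (Associated.refl _))
    (v2g64_V2_ne (algebraMap K Q̄) M' q hq hM' hπ (Associated.refl _))
    (v2g64_V2_val (algebraMap K Q̄) M' q hq hM' hπ (Associated.refl _))

end Fermat.Agent.S36
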