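import Mathlib

/-!
# S36 lab (helper44): monogenic node ring and Euler's formula for the trace dual

Mathlib-only package.

* `me44_adjoin_eq_top` / `me44_adjoin_eq_top_of_forall` : Nakayama. `B` finite over a local
  ring `A`, and `A[z] + m_A B = B`  ⟹  `B = A[z]`.
* `me44_field_adjoin_eq_top` : `B = A[z]`, `L = Frac B` algebraic over `K = Frac A`
  ⟹ `K[z] = L`.
* `me44_traceDual_one` : Euler's formula. `A` integrally closed, `B = A[z]`:
  the trace dual of `B` is `G'(z)⁻¹ B` (`G` = minimal polynomial of `z`).
* `me44_deriv_associated` : two generators of the same monogenic ring have associated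
  `G'`-values (so all valuations of `B` agree on them).
-/

namespace Fermat.Agent.S36.MonoEuler44

open Polynomial

/-- Nakayama, submodule form: `B` finite over the local ring `A` and `A[z] + m_A B = B`
imply `A[z] = B`. -/
theorem me44_adjoin_eq_top {A B : Type*} [CommRing A] [IsLocalRing A] [CommRing B]
    [Algebra A B] [Module.Finite A B] (z : B)
    (h : (⊤ : Submodule A B) ≤ Subalgebra.toSubmodule (Algebra.adjoin A {z}) ⊔
        (IsLocalRing.maximalIdeal A) • (⊤ : Submodule A B)) :
    Algebra.adjoin A {z} = ⊤ := by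
  have h1 : (⊤ : Submodule A B) ≤ Subalgebra.toSubmodule (Algebra.adjoin A {z}) :=
    Submodule.le_of_le_smul_of_le_jacobson_bot Module.Finite.fg_top
      (by rw [IsLocalRing.jacobson_eq_maximalIdeal ⊥ bot_ne_top]) h
  refine eq_top_iff.mpr fun b _ => ?_
  exact h1 (Submodule.mem_top : b ∈ (⊤ : Submodule A B))

/-- Nakayama, elementwise form: if every `b : B` is a polynomial in `z` modulo `m_A B`,
then `B = A[z]`. -/
theorem me44_adjoin_eq_top_of_forall {A B : Type*} [CommRing A] [IsLocalRing A] [CommRing B]
    [Algebra A B] [Module.Finite A B] (z : B)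
    (h : ∀ b : B, ∃ p : A[X],
      b - aeval z p ∈ (IsLocalRing.maximalIdeal A).map (algebraMap A B)) :
    Algebra.adjoin A {z} = ⊤ := by
  refine me44_adjoin_eq_top z fun b _ => ?_
  obtain ⟨p, hp⟩ := h b
  have hb : b = aeval z p + (b - aeval z p) := by ring
  rw [hb]
  refine Submodule.add_mem_sup ?_ ?_
  · change aeval z p ∈ Algebra.adjoin A {z}
    rw [Algebra.adjoin_singleton_eq_range_aeval]
    exact ⟨p, rfl⟩
  · rw [Ideal.smul_top_eq_map]
    exact hp

/-- The image of `B = A[z]` in `L` is `A[x]`, `x` the image of `z`. -/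
theorem me44_range_eq_adjoin {A B L : Type*} [CommRing A] [CommRing B] [CommRing L]
    [Algebra A B] [Algebra B L] [Algebra A L] [IsScalarTower A B L] (z : B)
    (hz : Algebra.adjoin A {z} = ⊤) :
    (IsScalarTower.toAlgHom A B L).range = Algebra.adjoin A {algebraMap B L z} := by
  have h1 : (Algebra.adjoin A {z}).map (IsScalarTower.toAlgHom A B L) =
      Algebra.adjoin A {algebraMap B L z} := by
    rw [AlgHom.map_adjoin]
    simp
  rw [← h1, hz, Algebra.map_top]

/-- `B = A[z]` with `L = Frac B` algebraic over `K = Frac A`: then `L = K[x]`. -/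
theorem me44_field_adjoin_eq_top {A K B L : Type*} [CommRing A] [Field K] [CommRing B] [Field L]
    [Algebra A K] [Algebra B L] [Algebra A B] [Algebra K L] [Algebra A L]
    [IsScalarTower A K L] [IsScalarTower A B L] [IsFractionRing B L]
    [Algebra.IsAlgebraic K L] (z : B) (hz : Algebra.adjoin A {z} = ⊤) :
    Algebra.adjoin K {algebraMap B L z} = ⊤ := by
  set x : L := algebraMap B L z with hx
  have halg : IsAlgebraic K x := Algebra.IsAlgebraic.isAlgebraic x
  rw [← IntermediateField.adjoin_simple_toSubalgebra_of_isAlgebraic halg]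
  have hB : ∀ b : B, algebraMap B L b ∈ IntermediateField.adjoin K {x} := by
    intro b
    have hb : b ∈ Algebra.adjoin A {z} := by rw [hz]; exact Algebra.mem_top
    rw [Algebra.adjoin_singleton_eq_range_aeval] at hb
    obtain ⟨p, hp⟩ := hb
    have hp' : aeval z p = b := hp
    have h1 : algebraMap B L b = aeval x (p.map (algebraMap A K)) := by
      rw [← hp', aeval_map_algebraMap, hx, aeval_algebraMap_apply]
    rw [h1]
    have h2 : aeval x (p.map (algebraMap A K)) ∈ Algebra.adjoin K {x} := by
      rw [Algebra.adjoin_singleton_eq_range_aeval]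
      exact ⟨_, rfl⟩
    rw [← IntermediateField.adjoin_simple_toSubalgebra_of_isAlgebraic halg] at h2
    exact h2
  have htop : IntermediateField.adjoin K {x} = ⊤ := by
    refine eq_top_iff.mpr fun y _ => ?_
    obtain ⟨b, s, -, rfl⟩ := IsFractionRing.div_surjective (A := B) y
    exact div_mem (hB b) (hB s)
  rw [htop]
  rfl

/-- The `A`-submodule `B ⊆ L` is `A[x]` when `B = A[z]`. -/
theorem me44_one_restrictScalars {A B L : Type*} [CommRing A] [CommRing B] [Field L]
    [Algebra A B] [Algebra B L] [Algebra A L] [IsScalarTower A B L] (z : B)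
    (hz : Algebra.adjoin A {z} = ⊤) :
    (1 : Submodule B L).restrictScalars A =
      Subalgebra.toSubmodule (Algebra.adjoin A {algebraMap B L z}) := by
  ext y
  rw [Submodule.restrictScalars_mem, Submodule.mem_one, Subalgebra.mem_toSubmodule,
    ← me44_range_eq_adjoin z hz]
  exact Iff.rfl

/-- **Euler's formula** for a monogenic extension `B = A[z]` of an integrally closed domain:
the trace dual of `B` is `G'(z)⁻¹ B`, `G` the minimal polynomial of `z`. -/
theorem me44_mem_traceDual_one {A K B L : Type*} [CommRing A] [IsDomain A]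
    [IsIntegrallyClosed A] [Field K] [CommRing B] [Field L]
    [Algebra A K] [Algebra B L] [Algebra A B] [Algebra K L] [Algebra A L]
    [IsScalarTower A K L] [IsScalarTower A B L] [IsFractionRing A K] [IsFractionRing B L]
    [FiniteDimensional K L] [Algebra.IsSeparable K L] [Algebra.IsIntegral A B]
    (z : B) (hz : Algebra.adjoin A {z} = ⊤) (y : L) :
    y ∈ Submodule.traceDual A K (1 : Submodule B L) ↔
      ∃ b : B, y = (aeval (algebraMap B L z)
        (derivative (minpoly K (algebraMap B L z))))⁻¹ * algebraMap B L b := by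
  have hK : Algebra.adjoin K {algebraMap B L z} = ⊤ := me44_field_adjoin_eq_top z hz
  have hint : IsIntegral A (algebraMap B L z) :=
    (Algebra.IsIntegral.isIntegral (R := A) z).map (IsScalarTower.toAlgHom A B L)
  have h1 := traceForm_dualSubmodule_adjoin A K hK hint
  have h2 : y ∈ Submodule.traceDual A K (1 : Submodule B L) ↔
      y ∈ (Algebra.traceForm K L).dualSubmodule ((1 : Submodule B L).restrictScalars A) :=
    Iff.rfl
  rw [h2, me44_one_restrictScalars z hz, h1, Submodule.mem_smul_pointwise_iff_exists]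
  constructor
  · rintro ⟨w, hw, rfl⟩
    rw [Subalgebra.mem_toSubmodule, ← me44_range_eq_adjoin z hz] at hw
    obtain ⟨b, rfl⟩ := hw
    exact ⟨b, rfl⟩
  · rintro ⟨b, rfl⟩
    refine ⟨algebraMap B L b, ?_, rfl⟩
    rw [Subalgebra.mem_toSubmodule, ← me44_range_eq_adjoin z hz]
    exact ⟨b, rfl⟩

/-- The Euler element `G'(x) ∈ L` comes from `B`: it is the image of
`(minpoly A z)'(z)`. -/
theorem me44_deriv_eq_algebraMap {A K B L : Type*} [CommRing A] [IsDomain A]
    [IsIntegrallyClosed A] [Field K] [CommRing B] [Field L]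
    [Algebra A K] [Algebra B L] [Algebra A B] [Algebra K L] [Algebra A L]
    [IsScalarTower A K L] [IsScalarTower A B L] [IsFractionRing A K] [IsFractionRing B L]
    [Algebra.IsIntegral A B] (z : B) :
    aeval (algebraMap B L z) (derivative (minpoly K (algebraMap B L z))) =
      algebraMap B L (aeval z (derivative (minpoly A z))) := by
  have hint : IsIntegral A (algebraMap B L z) :=
    (Algebra.IsIntegral.isIntegral (R := A) z).map (IsScalarTower.toAlgHom A B L)
  have hinj : Function.Injective (algebraMap B L) := IsFractionRing.injective B L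
  rw [minpoly.isIntegrallyClosed_eq_field_fractions' K hint, derivative_map,
    aeval_map_algebraMap, minpoly.algebraMap_eq hinj, aeval_algebraMap_apply]

/-- The Euler element is nonzero (separability). -/
theorem me44_deriv_ne_zero {K L : Type*} [Field K] [Field L] [Algebra K L]
    [Algebra.IsSeparable K L] (x : L) :
    aeval x (derivative (minpoly K x)) ≠ 0 :=
  (Algebra.IsSeparable.isSeparable K x).aeval_derivative_ne_zero (minpoly.aeval K x)

/-- Two generators of the same monogenic ring have Euler elements that differ by a unit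
of `B`. -/
theorem me44_deriv_associated {A K B L : Type*} [CommRing A] [IsDomain A]
    [IsIntegrallyClosed A] [Field K] [CommRing B] [Field L]
    [Algebra A K] [Algebra B L] [Algebra A B] [Algebra K L] [Algebra A L]
    [IsScalarTower A K L] [IsScalarTower A B L] [IsFractionRing A K] [IsFractionRing B L]
    [FiniteDimensional K L] [Algebra.IsSeparable K L] [Algebra.IsIntegral A B]
    (z₁ z₂ : B) (h₁ : Algebra.adjoin A {z₁} = ⊤) (h₂ : Algebra.adjoin A {z₂} = ⊤) :
    ∃ u : Bˣ, aeval (algebraMap B L z₁) (derivative (minpoly K (algebraMap B L z₁))) =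
      algebraMap B L u * aeval (algebraMap B L z₂) (derivative (minpoly K (algebraMap B L z₂))) := by
  set c₁ := aeval (algebraMap B L z₁) (derivative (minpoly K (algebraMap B L z₁))) with hc₁
  set c₂ := aeval (algebraMap B L z₂) (derivative (minpoly K (algebraMap B L z₂))) with hc₂
  have hc₁0 : c₁ ≠ 0 := me44_deriv_ne_zero (K := K) (algebraMap B L z₁)
  have hc₂0 : c₂ ≠ 0 := me44_deriv_ne_zero (K := K) (algebraMap B L z₂)
  have hinj : Function.Injective (algebraMap B L) := IsFractionRing.injective B L
  -- `c₂⁻¹ ∈ B^∨ = c₁⁻¹ B` and `c₁⁻¹ ∈ B^∨ = c₂⁻¹ B`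
  obtain ⟨b, hb⟩ := (me44_mem_traceDual_one (K := K) z₁ h₁ c₂⁻¹).mp
    ((me44_mem_traceDual_one (K := K) z₂ h₂ c₂⁻¹).mpr ⟨1, by rw [map_one, mul_one]⟩)
  obtain ⟨b', hb'⟩ := (me44_mem_traceDual_one (K := K) z₂ h₂ c₁⁻¹).mp
    ((me44_mem_traceDual_one (K := K) z₁ h₁ c₁⁻¹).mpr ⟨1, by rw [map_one, mul_one]⟩)
  rw [← hc₁] at hb
  rw [← hc₂] at hb'
  -- `c₁ = c₂ b` and `c₂ = c₁ b'`
  have e1 : c₁ = algebraMap B L b * c₂ := by
    field_simp at hb
    rw [hb]; ring
  have e2 : c₂ = algebraMap B L b' * c₁ := by
    field_simp at hb'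
    rw [hb']; ring
  have e3 : algebraMap B L (b * b') = 1 := by
    have : c₁ * 1 = c₁ * algebraMap B L (b * b') := by
      rw [map_mul]
      calc c₁ * 1 = c₁ := mul_one _
        _ = algebraMap B L b * c₂ := e1
        _ = algebraMap B L b * (algebraMap B L b' * c₁) := by rw [← e2]
        _ = c₁ * (algebraMap B L b * algebraMap B L b') := by ring
    exact (mul_left_cancel₀ hc₁0 this).symm
  have e4 : b * b' = 1 := hinj (by rw [e3, map_one])
  exact ⟨⟨b, b', e4, by rw [mul_comm]; exact e4⟩, e1⟩

/-- Consequently every "valuation" that is trivial on units of `B` takes the same value on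
the two Euler elements; stated for an arbitrary monoid hom out of `L`. -/
theorem me44_deriv_val_eq {A K B L M : Type*} [CommRing A] [IsDomain A]
    [IsIntegrallyClosed A] [Field K] [CommRing B] [Field L]
    [Algebra A K] [Algebra B L] [Algebra A B] [Algebra K L] [Algebra A L]
    [IsScalarTower A K L] [IsScalarTower A B L] [IsFractionRing A K] [IsFractionRing B L]
    [FiniteDimensional K L] [Algebra.IsSeparable K L] [Algebra.IsIntegral A B]
    [Monoid M] (v : L →* M) (hv : ∀ u : Bˣ, v (algebraMap B L u) = 1)
    (z₁ z₂ : B) (h₁ : Algebra.adjoin A {z₁} = ⊤) (h₂ : Algebra.adjoin A {z₂} = ⊤) :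
    v (aeval (algebraMap B L z₁) (derivative (minpoly K (algebraMap B L z₁)))) =
      v (aeval (algebraMap B L z₂) (derivative (minpoly K (algebraMap B L z₂)))) := by
  obtain ⟨u, hu⟩ := me44_deriv_associated (A := A) (K := K) (L := L) z₁ z₂ h₁ h₂
  rw [hu, map_mul, hv, one_mul]

end Fermat.Agent.S36.MonoEuler44
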