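import Fermat.Agent.S36.KappaEll40
import Fermat.Agent.S36.KappaMod56
import Fermat.Agent.S36.NodeDVR13
import Fermat.Agent.S36.NodeFinal40

/-!
# S36 lab, row 600 C-C2, sub-part (X) (helper75): no one-branch point over `j = 0` for `q = 2, 3`

The `J`-route of row 600 needs `J_q (J_q - 1728) ∉ n` at a non-cuspidal closed point `n` lying on
ONE component only.  For `q ∈ {2, 3}` (`1728 = 0` in characteristic `q`) this is the statement
"the only point over `j = 0` is the node"; the Hauptmodul routes (`h_2`, `h_3`) cannot help there.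

Proof = the divisibility argument of the `kappa = 1` lemmas (`k1e40_main`) with
`Ū ^ κ = unit · ϖ ^ 12` replaced by "`Ū` is a UNIT" (the point is off the other component):
in the discrete valuation ring `O` of the branch, `Ū · N(j̄)^6 = S(j̄)^12 · W(j̄)^(q-1)`,
`W = X^4 (X - 1728)^3`, and every polynomial in `j̄` has order a multiple of `e = ord (j̄ - j0)`,
so `6 ν = 12 σ + (q - 1) w` (`w` = the multiplicity of `j0` in `W`): impossible for `w = 7`,
`q ∈ {2, 3}`; for `w = 4` (`j0 = 0`, `q ≥ 5`) it forces `q ≡ 1 mod 3`.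

* `nse75_orders`        : the order identity, in the literal `k1e40_main` shape;
* `nse75_no_smooth_23`, `nse75_smooth_zero` : the two arithmetic conclusions;
* `nse75_unit_j`        : `O` a discrete valuation ring with an INJECTIVE `ι : O → 𝔽_q((Q))`,
  `ι j̄ = j`, `ι Ū = Δ(Q)/Δ(Q^q)` (the shape produced by `nd13_lift`), `Ū` a unit, `q ∈ {2, 3}`
  ⟹ `j̄` is a unit (uses `km56_unreduced` + `km56_U_rel`: no further input).

All names are prefixed `nse75_`.
-/

set_option autoImplicit false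

namespace Fermat.Agent.S36

open Polynomial IsDiscreteValuationRing

/-- **Orders at a one-branch point.**  Same hypotheses as `k1e40_main`, with `U0` a unit. -/
theorem nse75_orders {O k : Type*} [CommRing O] [IsDomain O] [IsDiscreteValuationRing O] [Field k]
    (φ : k[X] →+* O) (j0 : k) (q w : ℕ) (U0 : O) (hU0 : IsUnit U0)
    (S N W : k[X]) (hS : φ S ≠ 0)
    (hW : ∃ g : O, IsUnit g ∧ φ W = g * φ (X - C j0) ^ w)
    (hrel : U0 * φ N ^ 6 = φ S ^ 12 * φ W ^ (q - 1))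
    (ha0 : φ (X - C j0) ≠ 0) (ha : ¬ IsUnit (φ (X - C j0))) :
    ∃ σ ν : ℕ, 6 * ν = 12 * σ + (q - 1) * w := by
  obtain ⟨gW, hgW, hWeq⟩ := hW
  have hW0 : φ W ≠ 0 := by
    rw [hWeq]
    exact mul_ne_zero hgW.ne_zero (pow_ne_zero _ ha0)
  have hN0 : φ N ≠ 0 := by
    intro h
    rw [h, zero_pow (by norm_num), mul_zero] at hrel
    exact mul_ne_zero (pow_ne_zero _ hS) (pow_ne_zero _ hW0) hrel.symm
  have hS' : S ≠ 0 := fun h => hS (by rw [h, map_zero])
  have hN' : N ≠ 0 := fun h => hN0 (by rw [h, map_zero])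
  obtain ⟨σ, gS, hgS, hSeq⟩ := k1e40_eval_shape φ j0 ha S hS'
  obtain ⟨ν, gN, hgN, hNeq⟩ := k1e40_eval_shape φ j0 ha N hN'
  obtain ⟨e, he⟩ := k1e40_exists_addVal (φ (X - C j0)) ha0
  have he1 : 1 ≤ e := by
    rcases Nat.eq_zero_or_pos e with h | h
    · exfalso
      rw [h] at he
      exact ha (addVal_eq_zero_iff.mp (by simpa using he))
    · exact h
  have h2 : 6 * (ν * e) = 12 * (σ * e) + (q - 1) * (w * e) := by
    have h := congrArg (addVal O) hrel
    rw [hNeq, hSeq, hWeq, addVal_mul, addVal_pow, addVal_mul, addVal_pow, addVal_mul, addVal_pow,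
      addVal_mul, addVal_pow, addVal_pow, addVal_mul, addVal_pow, addVal_eq_zero_iff.mpr hgN,
      addVal_eq_zero_iff.mpr hgS, addVal_eq_zero_iff.mpr hgW, addVal_eq_zero_iff.mpr hU0, he] at h
    simp only [zero_add, nsmul_eq_mul] at h
    exact_mod_cast h
  refine ⟨σ, ν, ?_⟩
  have h3 : (6 * ν) * e = (12 * σ + (q - 1) * w) * e := by
    calc (6 * ν) * e = 6 * (ν * e) := by ring
      _ = 12 * (σ * e) + (q - 1) * (w * e) := h2
      _ = (12 * σ + (q - 1) * w) * e := by ring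
  exact Nat.eq_of_mul_eq_mul_right he1 h3

/-- `q ∈ {2, 3}`, `W = X^7 · unit` at `j0`: there is NO such point. -/
theorem nse75_no_smooth_23 {O k : Type*} [CommRing O] [IsDomain O] [IsDiscreteValuationRing O]
    [Field k] (φ : k[X] →+* O) (j0 : k) (q : ℕ) (hq : q = 2 ∨ q = 3) (U0 : O) (hU0 : IsUnit U0)
    (S N W : k[X]) (hS : φ S ≠ 0)
    (hW : ∃ g : O, IsUnit g ∧ φ W = g * φ (X - C j0) ^ 7)
    (hrel : U0 * φ N ^ 6 = φ S ^ 12 * φ W ^ (q - 1))
    (ha0 : φ (X - C j0) ≠ 0) (ha : ¬ IsUnit (φ (X - C j0))) : False := by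
  obtain ⟨σ, ν, h⟩ := nse75_orders φ j0 q 7 U0 hU0 S N W hS hW hrel ha0 ha
  rcases hq with rfl | rfl <;> omega

/-- `W = X^4 · unit` at `j0` (`j0 = 0`, `q ≥ 5`): a one-branch point over `j0` forces
`q ≡ 1 mod 3`. -/
theorem nse75_smooth_zero {O k : Type*} [CommRing O] [IsDomain O] [IsDiscreteValuationRing O]
    [Field k] (φ : k[X] →+* O) (j0 : k) (q : ℕ) (hq : 1 ≤ q) (U0 : O) (hU0 : IsUnit U0)
    (S N W : k[X]) (hS : φ S ≠ 0)
    (hW : ∃ g : O, IsUnit g ∧ φ W = g * φ (X - C j0) ^ 4)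
    (hrel : U0 * φ N ^ 6 = φ S ^ 12 * φ W ^ (q - 1))
    (ha0 : φ (X - C j0) ≠ 0) (ha : ¬ IsUnit (φ (X - C j0))) : q % 3 = 1 := by
  obtain ⟨σ, ν, h⟩ := nse75_orders φ j0 q 4 U0 hU0 S N W hS hW hrel ha0 ha
  omega

section LForm

open ModularCurve Fermat.Agent.S28 Fermat.Agent.S34

/-- **The branch ring inside `κ((Q))`: orders.**  `O` a discrete valuation ring, `ι : O → κ((Q))`
injective with `ι j̄ = j`, `ι Ū = Δ(Q)/Δ(Q^q)` (`κ` of characteristic `q`), `c : κ → O` the
constants.  If `Ū` is a unit and `j̄ - j0` is not, then `6 ν = 12 σ + (q - 1) w` for every `w` with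
`W(j̄) = unit · (j̄ - j0) ^ w`, `W = X^4 (X - 1728)^3`. -/
theorem nse75_orders_L {O : Type*} [CommRing O] [IsDomain O] [IsDiscreteValuationRing O]
    (κ : Type*) [Field κ] (q : ℕ) (hq : q.Prime) [CharP κ q]
    (c : κ →+* O) (ι : O →+* LaurentSeries κ) (hι : Function.Injective ι)
    (hc : ∀ a : κ, ι (c a) = algebraMap κ (LaurentSeries κ) a)
    (jb U0 : O) (hj : ι jb = jqModC κ) (hU : ι U0 = dq56_U κ q) (hU0 : IsUnit U0)
    (j0 : κ) (ha : ¬ IsUnit (jb - c j0)) (w : ℕ)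
    (hW : ∃ g : O, IsUnit g ∧ jb ^ 4 * (jb - c 1728) ^ 3 = g * (jb - c j0) ^ w) :
    ∃ σ ν : ℕ, 6 * ν = 12 * σ + (q - 1) * w := by
  classical
  let φ : κ[X] →+* O := eval₂RingHom c jb
  have hφ : ∀ f : κ[X], ι (φ f) = aeval (jqModC κ) f := by
    intro f
    show ι (eval₂ c jb f) = aeval (jqModC κ) f
    rw [hom_eval₂, hj, aeval_def]
    congr 1
    exact RingHom.ext hc
  have hφX : φ X = jb := by simp [φ]
  have hφC : ∀ a : κ, φ (C a) = c a := by intro a; simp [φ]
  have hφ0 : φ (X - C j0) = jb - c j0 := by rw [map_sub, hφX, hφC]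
  obtain ⟨P, hP⟩ := km56_unreduced κ q hq
  have hrelL := km56_U_rel κ q hq _ _ hP
  set S : κ[X] := X - X ^ (q ^ 2) with hSdef
  set N : κ[X] := derivative P * S - P * derivative S + X ^ (q - 1) * S ^ 2 with hNdef
  let W : κ[X] := X ^ 4 * (X - C 1728) ^ 3
  have hφW : φ W = jb ^ 4 * (jb - c 1728) ^ 3 := by
    show φ (X ^ 4 * (X - C 1728) ^ 3) = _
    rw [map_mul, map_pow, map_pow, map_sub, hφX, hφC]
  have hWL : aeval (jqModC κ) W = jqModC κ ^ 4 * (jqModC κ - 1728) ^ 3 := by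
    show aeval (jqModC κ) (X ^ 4 * (X - C 1728) ^ 3) = _
    rw [map_mul, map_pow, map_pow, map_sub, aeval_X, aeval_C]
    congr 3
    exact map_ofNat (algebraMap κ (LaurentSeries κ)) 1728
  have hrel : U0 * φ N ^ 6 = φ S ^ 12 * φ W ^ (q - 1) := by
    apply hι
    rw [map_mul, map_pow, map_mul, map_pow, map_pow, hφ, hφ, hφ, hU, hWL]
    exact hrelL
  have hS0 : S ≠ 0 := by
    intro h
    have h1 : (X : κ[X]) = X ^ (q ^ 2) := by
      have := h
      rw [hSdef] at this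
      linear_combination this
    have h2 := congrArg natDegree h1
    rw [natDegree_X, natDegree_X_pow] at h2
    have h3 : 2 ≤ q := hq.two_le
    nlinarith
  have hS : φ S ≠ 0 := by
    intro h
    have h1 : aeval (jqModC κ) S = 0 := by rw [← hφ, h, map_zero]
    exact h63_transcendental_jqModC κ ⟨S, hS0, h1⟩
  have ha0 : φ (X - C j0) ≠ 0 := by
    rw [hφ0]
    intro h
    have h1 : aeval (jqModC κ) (X - C j0) = 0 := by rw [← hφ, hφ0, h, map_zero]
    exact h63_transcendental_jqModC κ ⟨X - C j0, X_sub_C_ne_zero j0, h1⟩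
  have hW' : ∃ g : O, IsUnit g ∧ φ W = g * φ (X - C j0) ^ w := by
    obtain ⟨g, hg, hgW⟩ := hW
    exact ⟨g, hg, by rw [hφW, hφ0, hgW]⟩
  exact nse75_orders φ j0 q w U0 hU0 S N W hS hW' hrel ha0 (by rw [hφ0]; exact ha)

/-- **`q ∈ {2, 3}`: `j̄` is a unit at every point where `Ū` is a unit.** -/
theorem nse75_unit_j {O : Type*} [CommRing O] [IsDomain O] [IsDiscreteValuationRing O]
    (κ : Type*) [Field κ] (q : ℕ) (hq : q = 2 ∨ q = 3) [CharP κ q]
    (c : κ →+* O) (ι : O →+* LaurentSeries κ) (hι : Function.Injective ι)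
    (hc : ∀ a : κ, ι (c a) = algebraMap κ (LaurentSeries κ) a)
    (jb U0 : O) (hj : ι jb = jqModC κ) (hU : ι U0 = dq56_U κ q) (hU0 : IsUnit U0) :
    IsUnit jb := by
  by_contra hjb
  have hqp : q.Prime := by rcases hq with rfl | rfl <;> norm_num
  have h1728 : (1728 : κ) = 0 := by
    have h : ((1728 : ℕ) : κ) = 0 := by
      rw [CharP.cast_eq_zero_iff κ q]
      rcases hq with rfl | rfl <;> norm_num
    exact_mod_cast h
  have ha : ¬ IsUnit (jb - c 0) := by rwa [map_zero, sub_zero]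
  obtain ⟨σ, ν, h⟩ := nse75_orders_L κ q hqp c ι hι hc jb U0 hj hU hU0 0 ha 7
    ⟨1, isUnit_one, by rw [h1728, map_zero, sub_zero]; ring⟩
  rcases hq with rfl | rfl <;> omega

/-- The same over the prime field: no constants needed. -/
theorem nse75_unit_j_zmod {O : Type*} [CommRing O] [IsDomain O] [IsDiscreteValuationRing O]
    (q : ℕ) (hq : q = 2 ∨ q = 3) [Fact q.Prime]
    (ι : O →+* LaurentSeries (ZMod q)) (hι : Function.Injective ι)
    (jb U0 : O) (hj : ι jb = jqModC (ZMod q)) (hU : ι U0 = dq56_U (ZMod q) q) (hU0 : IsUnit U0) :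
    IsUnit jb := by
  have : CharP (LaurentSeries (ZMod q)) q :=
    charP_of_injective_algebraMap (algebraMap (ZMod q) (LaurentSeries (ZMod q))).injective q
  have : CharP O q := RingHom.charP ι hι q
  exact nse75_unit_j (ZMod q) q hq (ZMod.castHom (dvd_refl q) O) ι hι
    (fun a => RingHom.congr_fun (Subsingleton.elim (ι.comp (ZMod.castHom (dvd_refl q) O))
      (algebraMap (ZMod q) (LaurentSeries (ZMod q)))) a) jb U0 hj hU hU0

end LForm

section Chart

open ModularCurve Fermat.Agent.S28 Fermat.Agent.S34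

universe u v

variable {R : Type v} {F : Type u} [CommRing R] [Field F] [Algebra R F]

/-- **`U ∉ n` at a point off the other component.**  `U Vv = π ^ 12`, `U` a unit along `V`
(the branch through `n`), `a ∉ n` a separator vanishing along the other component `V'`
(`π⁻¹ a ∈ V'`): `π⁻¹² a¹² Vv ∈ B` by saturation and `(π⁻¹² a¹² Vv) · U = a¹²`. -/
theorem nse75_U_not_mem (π : R) (hπ0 : algebraMap R F π ≠ 0) (B : Subalgebra R F)
    (V V' : Subring F) (hBV : ∀ x ∈ B, x ∈ V) (hBV' : ∀ x ∈ B, x ∈ V')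
    (hsat : ∀ x ∈ B, (algebraMap R F π)⁻¹ * x ∈ V → (algebraMap R F π)⁻¹ * x ∈ V' →
      (algebraMap R F π)⁻¹ * x ∈ B)
    (n : Ideal B) [hn : n.IsPrime] (U Vv : B)
    (hUV : (U : F) * (Vv : F) = algebraMap R F π ^ 12) (hUinv : (U : F)⁻¹ ∈ V)
    (a : B) (ha : a ∉ n) (ha' : (algebraMap R F π)⁻¹ * (a : F) ∈ V') : U ∉ n := by
  have hπB : algebraMap R F π ∈ B := B.algebraMap_mem π
  have hU0 : (U : F) ≠ 0 := by
    intro h
    rw [h, zero_mul] at hUV
    exact pow_ne_zero 12 hπ0 hUV.symm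
  have hx : (a : F) ^ 12 * (Vv : F) ∈ B := B.mul_mem (B.pow_mem a.2 12) Vv.2
  have hc : ((algebraMap R F π)⁻¹) ^ 12 * ((a : F) ^ 12 * (Vv : F)) ∈ B := by
    refine nf40_sat_pow π B V V' hsat _ hx 12 ?_
    intro j h1 h2
    obtain ⟨i, hi⟩ : ∃ i : ℕ, 12 = j + i := ⟨12 - j, by omega⟩
    constructor
    · have e : ((algebraMap R F π)⁻¹) ^ j * ((a : F) ^ 12 * (Vv : F)) =
          (a : F) ^ 12 * (algebraMap R F π ^ i * (U : F)⁻¹) := by
        have hVv : (Vv : F) = algebraMap R F π ^ j * algebraMap R F π ^ i * (U : F)⁻¹ := by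
          rw [← pow_add, ← hi, ← hUV]
          field_simp
        have hjj : ((algebraMap R F π)⁻¹) ^ j * algebraMap R F π ^ j = 1 := by
          rw [← mul_pow, inv_mul_cancel₀ hπ0, one_pow]
        rw [hVv]
        linear_combination ((a : F) ^ 12 * algebraMap R F π ^ i * (U : F)⁻¹) * hjj
      rw [e]
      exact V.mul_mem (V.pow_mem (hBV _ a.2) 12)
        (V.mul_mem (V.pow_mem (hBV _ hπB) i) hUinv)
    · have e : ((algebraMap R F π)⁻¹) ^ j * ((a : F) ^ 12 * (Vv : F)) =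
          ((algebraMap R F π)⁻¹ * (a : F)) ^ j * ((a : F) ^ i * (Vv : F)) := by
        rw [hi, pow_add]
        ring
      rw [e]
      exact V'.mul_mem (V'.pow_mem ha' j)
        (V'.mul_mem (V'.pow_mem (hBV' _ a.2) i) (hBV' _ Vv.2))
  intro hUn
  apply ha
  have h12 : a ^ 12 ∈ n := by
    have e : a ^ 12 = ⟨_, hc⟩ * U := by
      apply Subtype.ext
      show (a : F) ^ 12 = ((algebraMap R F π)⁻¹) ^ 12 * ((a : F) ^ 12 * (Vv : F)) * (U : F)
      have : ((algebraMap R F π)⁻¹) ^ 12 * ((a : F) ^ 12 * (Vv : F)) * (U : F) =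
          ((algebraMap R F π)⁻¹) ^ 12 * (a : F) ^ 12 * ((U : F) * (Vv : F)) := by ring
      rw [this, hUV]
      have h12 : ((algebraMap R F π)⁻¹) ^ 12 * algebraMap R F π ^ 12 = 1 := by
        rw [← mul_pow, inv_mul_cancel₀ hπ0, one_pow]
      linear_combination (-(a : F) ^ 12) * h12
    rw [e]
    exact n.mul_mem_left _ hUn
  exact hn.mem_of_pow_mem 12 h12

/-- **Chart form, `q ∈ {2, 3}`: `j ∉ n` at every closed point of the branch `V` where `U ∉ n`.**
`red : V → κ((Q))` the reduction (kernel `π V`), `red j = j`, `red U = Δ(Q)/Δ(Q^q)`, constants of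
`κ` are reductions of chart functions. -/
theorem nse75_j_not_mem (π : R) (B : Subalgebra R F) [IsNoetherianRing B] (V : Subring F)
    (hBV : ∀ x ∈ B, x ∈ V) (hπV : (algebraMap R F π)⁻¹ ∉ V)
    (hV : ∀ x ∈ V, (algebraMap R F π)⁻¹ * x ∉ V → x⁻¹ ∈ V)
    (n : Ideal B) [hn : n.IsMaximal] (hOn : sf79_OnBr π B V n)
    (z : B) (hz : sf79_Unif π B V n z) (hzV : (algebraMap R F π)⁻¹ * (z : F) ∉ V)
    (κ : Type*) [Field κ] (q : ℕ) (hq : q = 2 ∨ q = 3) [CharP κ q]
    (red : V →+* LaurentSeries κ)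
    (hred : ∀ x : V, red x = 0 ↔ (algebraMap R F π)⁻¹ * (x : F) ∈ V)
    (hcst : ∀ a : κ, ∃ b : B, red ⟨(b : F), hBV _ b.2⟩ = algebraMap κ (LaurentSeries κ) a)
    (j U : B) (hj : red ⟨(j : F), hBV _ j.2⟩ = jqModC κ)
    (hU : red ⟨(U : F), hBV _ U.2⟩ = dq56_U κ q) (hUn : U ∉ n) : j ∉ n := by
  have hAV := nd13_sf_le π B V hBV hV n hOn
  have hdom : IsDomain (nd13_O (sf79_loc B n) V hAV (algebraMap R F π)) :=
    nd13_sf_isDomain π B V hBV hπV hV n hOn
  have hdvr : IsDiscreteValuationRing (nd13_O (sf79_loc B n) V hAV (algebraMap R F π)) :=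
    nd13_sf_dvr π B V hBV hπV hV n hOn z hz hzV
  have hι := nd13_lift_injective (sf79_loc B n) V hAV (algebraMap R F π) red hred
  have hlift : ∀ b : B, nd13_lift (sf79_loc B n) V hAV (algebraMap R F π) red
      (fun x hx => (hred x).mpr hx) (nd13_rho (sf79_loc B n) V hAV (algebraMap R F π)
        ⟨(b : F), sf79_le_loc B n _ b.2⟩) = red ⟨(b : F), hBV _ b.2⟩ := by
    intro b
    rw [nd13_lift_rho]
  choose cst hcst using hcst
  let c : κ →+* nd13_O (sf79_loc B n) V hAV (algebraMap R F π) :=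
    { toFun := fun a => nd13_rho (sf79_loc B n) V hAV (algebraMap R F π)
        ⟨(cst a : F), sf79_le_loc B n _ (cst a).2⟩
      map_one' := hι (by rw [hlift, hcst, map_one, map_one])
      map_mul' := fun a b => hι (by rw [map_mul, hlift, hlift, hlift, hcst, hcst, hcst, map_mul])
      map_zero' := hι (by rw [hlift, hcst, map_zero, map_zero])
      map_add' := fun a b => hι (by rw [map_add, hlift, hlift, hlift, hcst, hcst, hcst, map_add]) }
  have hunit := nse75_unit_j κ q hq c _ hι (fun a => (hlift (cst a)).trans (hcst a))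
    (nd13_rho (sf79_loc B n) V hAV (algebraMap R F π) ⟨(j : F), sf79_le_loc B n _ j.2⟩)
    (nd13_rho (sf79_loc B n) V hAV (algebraMap R F π) ⟨(U : F), sf79_le_loc B n _ U.2⟩)
    ((hlift j).trans hj) ((hlift U).trans hU)
    ((nd13_sf_rho_isUnit_iff π B V hBV hπV hV n hOn U).mpr hUn)
  exact (nd13_sf_rho_isUnit_iff π B V hBV hπV hV n hOn j).mp hunit

end Chart

end Fermat.Agent.S36
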