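/-
helper71: S36 lab row 598/599 adapter: a regular node given in the LOCAL ring `sf79_loc B n`
(the output shape of `nr10_node_regular` / `nf79_node_regular`: `g * g' = π * U`, `U` a unit of
`B_n`) gives the labelled CHART node `s * z * z' = π * s'`, `s, s' ∉ n`, `z ∈ p_V`, `z' ∈ p_{V'}`
which `tl71_divAt_of_node` / `tl71_reg_of_nodes` (TripleBind71 / TripleReg71) consume.

* `na71_node_of_loc` : the adapter at one prime `n`.
* `na71_reg_of_loc`  : (REG) in both directions on a two-branch chart from local regular nodes at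
  all maximal ideals on both branches.
-/
import Fermat.Agent.S36.TripleReg71

set_option autoImplicit false

namespace Fermat.Agent.S36.TripleLoc71

open Fermat.Agent.S34

section

variable {R F : Type*} [CommRing R] [Field F] [Algebra R F]

/-- **Local regular node ⇒ labelled chart node.** -/
theorem na71_node_of_loc (π : R) (B : Subalgebra R F) (V V' : Subring F)
    (hBV : ∀ x ∈ B, x ∈ V) (hBV' : ∀ x ∈ B, x ∈ V')
    (n : Ideal B) [hn : n.IsPrime] (g g' U : F) (hU0 : U ≠ 0)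
    (hg : g ∈ sf79_loc B n) (hg' : g' ∈ sf79_loc B n)
    (hU : U ∈ sf79_loc B n) (hU' : U⁻¹ ∈ sf79_loc B n)
    (hgg : g * g' = algebraMap R F π * U)
    (hgV : (algebraMap R F π)⁻¹ * g ∈ V) (hg'V : (algebraMap R F π)⁻¹ * g' ∈ V') :
    ∃ z z' s s' : B, s ∉ n ∧ s' ∉ n ∧ (algebraMap R F π)⁻¹ * (z : F) ∈ V ∧
      (algebraMap R F π)⁻¹ * (z' : F) ∈ V' ∧ s * z * z' = algebraMap R B π * s' := by
  obtain ⟨s₁, hs₁, h1⟩ := hg
  obtain ⟨s₂, hs₂, h2⟩ := hg'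
  obtain ⟨s₃, hs₃, h3⟩ := hU
  obtain ⟨s₄, hs₄, h4⟩ := hU'
  -- `b = s₃ U ∉ n`
  have hb : (⟨(s₃ : F) * U, h3⟩ : B) ∉ n := by
    intro hbn
    have hprod : (⟨(s₃ : F) * U, h3⟩ : B) * ⟨(s₄ : F) * U⁻¹, h4⟩ = s₃ * s₄ := by
      apply Subtype.ext
      show (s₃ : F) * U * ((s₄ : F) * U⁻¹) = (s₃ : F) * (s₄ : F)
      field_simp
    have : s₃ * s₄ ∈ n := by rw [← hprod]; exact n.mul_mem_right _ hbn
    exact (hn.mem_or_mem this).elim hs₃ hs₄
  refine ⟨⟨(s₁ : F) * g, h1⟩, ⟨(s₂ : F) * g', h2⟩, s₃, s₁ * s₂ * ⟨(s₃ : F) * U, h3⟩, hs₃, ?_, ?_,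
    ?_, ?_⟩
  · intro h
    rcases hn.mem_or_mem h with h | h
    · exact (hn.mem_or_mem h).elim hs₁ hs₂
    · exact hb h
  · show (algebraMap R F π)⁻¹ * ((s₁ : F) * g) ∈ V
    have : (algebraMap R F π)⁻¹ * ((s₁ : F) * g) = (s₁ : F) * ((algebraMap R F π)⁻¹ * g) := by
      ring
    rw [this]; exact V.mul_mem (hBV _ s₁.2) hgV
  · show (algebraMap R F π)⁻¹ * ((s₂ : F) * g') ∈ V'
    have : (algebraMap R F π)⁻¹ * ((s₂ : F) * g') = (s₂ : F) * ((algebraMap R F π)⁻¹ * g') := by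
      ring
    rw [this]; exact V'.mul_mem (hBV' _ s₂.2) hg'V
  · apply Subtype.ext
    show (s₃ : F) * ((s₁ : F) * g) * ((s₂ : F) * g')
      = algebraMap R F π * ((s₁ : F) * (s₂ : F) * ((s₃ : F) * U))
    linear_combination (s₁ : F) * (s₂ : F) * (s₃ : F) * hgg

/-- **(REG) in both directions from local regular nodes** at all maximal ideals on both
branches of a two-branch chart. -/
theorem na71_reg_of_loc (π : R) (B : Subalgebra R F) (U U' : Subring F)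
    (hBU : ∀ x ∈ B, x ∈ U) (hBU' : ∀ x ∈ B, x ∈ U')
    (hU : ∀ x ∈ U, (algebraMap R F π)⁻¹ * x ∉ U → x⁻¹ ∈ U)
    (hU' : ∀ x ∈ U', (algebraMap R F π)⁻¹ * x ∉ U' → x⁻¹ ∈ U')
    (hπ0 : algebraMap R F π ≠ 0)
    (hloc : ∀ (m : Ideal B) (hm : m.IsMaximal), sf79_OnBr π B U m → sf79_OnBr π B U' m →
      ∃ g g' u : F, u ≠ 0 ∧
        g ∈ @sf79_loc R F _ _ _ B m hm.isPrime ∧ g' ∈ @sf79_loc R F _ _ _ B m hm.isPrime ∧
        u ∈ @sf79_loc R F _ _ _ B m hm.isPrime ∧ u⁻¹ ∈ @sf79_loc R F _ _ _ B m hm.isPrime ∧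
        g * g' = algebraMap R F π * u ∧
        (algebraMap R F π)⁻¹ * g ∈ U ∧ (algebraMap R F π)⁻¹ * g' ∈ U') :
    (∀ m : Ideal B, m.IsMaximal → sf79_OnBr π B U m → sf79_OnBr π B U' m →
      tl71_DivAt π B U U' U' m) ∧
    (∀ m : Ideal B, m.IsMaximal → sf79_OnBr π B U' m → sf79_OnBr π B U m →
      tl71_DivAt π B U' U U m) := by
  refine tl71_reg_of_nodes π B U U' hBU hBU' hU hU' hπ0 ?_
  intro m hm h1 h2
  obtain ⟨g, g', u, hu0, hg, hg', hu, hu', hgg, hgU, hg'U⟩ := hloc m hm h1 h2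
  have := hm.isPrime
  exact na71_node_of_loc π B U U' hBU hBU' m g g' u hu0 hg hg' hu hu' hgg hgU hg'U

end

end Fermat.Agent.S36.TripleLoc71
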