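import Mathlib
import Fermat.Agent.S34.CuspChart1
import Fermat.Agent.S35.NewToricFrame35
import Fermat.Agent.S36.KappaBind40
import Fermat.Agent.S36.RedHomInst19
import Fermat.Agent.S36.NodeFrameInst21

/-!
# S36 lab, row 626 / row 599 C-REGq (helper21): `nf21c_Data` from the rigidity divisibilities

`kb40_chart` (helper40: `km56` relation + case split) plugged into the frame piece (F)
(`NodeFrameInst21`), on the canonical level-`q` frame (`(q : R) = π`).

* `nk21_red_integral`, `nk21_red_J`, `nk21_red_U`, `nk21_red_c` : the three reduction facts for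
  `ρ = ntf35_red R (M' * q)` (reduction of `q`-expansions along `V_∞`): constants, `ρ J = j̄`,
  `ρ (dq56b_U) = dq56_U κ q`.
* `nk21_Rig M' q hπ B n` : THE RIGIDITY INPUT at a node `n` of the chart `B`: for every
  presentation `sJ * J = aJ` (`sJ ∉ n`) and every discrete valuation ring `(O, φ)` of the
  `∞`-branch at `n` with uniformiser `ϖ`: `ϖ ^ 3 ∣ φ aJ` if `aJ ∈ n`, `ϖ ^ 2 ∣ φ (aJ - 1728 sJ)`
  if `aJ - 1728 sJ ∈ n` (`q ≠ 2, 3`); `ϖ ^ 6 ∣ φ aJ` (`q = 3`); `ϖ ^ 12 ∣ φ aJ` (`q = 2`)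
  [literally the clauses `hrig` of `kb40_chart`].
* `nk21_data_of_rig` : on a chart with the frame facts and `rh19_Red` (RedHom19),
  `nk21_Rig` at the node `n` gives `nf21c_Data` at `n`.
* `nk21_data` : both charts of an admissible Hauptmodul, all frame facts discharged
  (`rhi19_red_q_level2/3`).
* `nk21_reg` : `nk21_Rig` at every node of both charts ⟹ `nf21c_Reg` for both charts
  (= `hr₁`, `hr₂` of `tf71b_twoGen`).  So (REG-q) = (R) in the `nk21_Rig` shape.

All names are prefixed `nk21_`.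
-/

set_option autoImplicit false
set_option linter.unusedVariables false
set_option linter.unusedSectionVars false
set_option linter.style.longLine false
set_option linter.style.haveILetI false

open ModularCurve AlgebraicCurve IntermediateField

namespace Fermat.Agent.S36

open Fermat.Agent.S18 Fermat.Agent.S24 Fermat.Agent.S28 Fermat.Agent.S34 Fermat.Agent.S35
  Fermat.Agent.S36.TripleLoc71

local notation "Q̄" => AlgebraicClosure ℚ

section NK21

variable {R K : Type} [CommRing R] [IsDomain R] [IsDiscreteValuationRing R] [Field K]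
  [NumberField K] [Algebra K Q̄] [Algebra R K] [IsFractionRing R K]
  (M' q : ℕ) [NeZero M'] [NeZero q] (hq : q.Prime) (hM' : ¬ q ∣ M')
  [Algebra R ↥(modularFunctionFieldFullC K (M' * q))]
  [IsScalarTower R K ↥(modularFunctionFieldFullC K (M' * q))] {π : R} (hπ : Irreducible π)

/-- The reduction of a function with `R`-integral expansion is the coefficientwise reduction. -/
theorem nk21_red_integral (M : ℕ) [NeZero M] (x : ↥(modularFunctionFieldFullC K M))
    (y : LaurentSeries R) (hxy : (x : LaurentSeries K) = coeffMap (algebraMap R K) y) :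
    ntf35_red R M x = coeffMap (IsLocalRing.residue R) y := by
  have hmem : (x : LaurentSeries K) ∈ tv84_G K (IsLocalRing.residue R) := by
    rw [hxy]
    exact tv84_coeffMap_mem_G _ y
  show ntf35_redS R (x : LaurentSeries K) = _
  rw [ntf35_redS_of_mem hmem]
  exact tv84_red_of_integral (IsLocalRing.residue R) _ y hxy

/-- `ρ J = j̄`. -/
theorem nk21_red_J (M : ℕ) [NeZero M] :
    ntf35_red R M (rm90_j K M) = jqModC (IsLocalRing.ResidueField R) := by
  rw [nk21_red_integral M (rm90_j K M) (jqModC R) (coeffMap_jqModC (algebraMap R K)).symm,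
    coeffMap_jqModC]

/-- `ρ U = Ū` for the modular unit `U = Δ(Q)/Δ(Q^q)`. -/
theorem nk21_red_U :
    ntf35_red R (M' * q) (dq56b_U (K := K) M' q hq) =
      dq56_U (IsLocalRing.ResidueField R) q := by
  rw [nk21_red_integral (M' * q) (dq56b_U (K := K) M' q hq) (dq56_U R q)
    (dq56b_U_coe M' q hq (algebraMap R K)), dq56_coeffMap_U]

/-- The reduction of the constants. -/
theorem nk21_red_c (r : R) :
    ntf35_red R (M' * q) (algebraMap R ↥(modularFunctionFieldFullC K (M' * q)) r) =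
      algebraMap (IsLocalRing.ResidueField R) (LaurentSeries (IsLocalRing.ResidueField R))
        (IsLocalRing.residue R r) := by
  have h1 : algebraMap (IsLocalRing.ResidueField R) (PowerSeries (IsLocalRing.ResidueField R))
      (IsLocalRing.residue R r) = PowerSeries.C (IsLocalRing.residue R r) := by simp
  rw [IsScalarTower.algebraMap_apply R K ↥(modularFunctionFieldFullC K (M' * q)),
    ntf35_red_algebraMap, HahnSeries.algebraMap_apply', h1, HahnSeries.ofPowerSeries_C]

/-- `J ∈ V_∞`. -/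
theorem nk21_J_mem (M : ℕ) [NeZero M] :
    rm90_j K M ∈ cm85_Vinf (K := K) M hπ :=
  gv85_mem_V_of_integral _ _ _ _ (jqModC R) (coeffMap_jqModC (algebraMap R K)).symm

/-- **The rigidity input at a node `n` of the chart `B`** (the clauses `hrig` of `kb40_chart`,
for every presentation `sJ * J = aJ` of `J` at `n` and every uniformiser). -/
def nk21_Rig (B : Subalgebra R ↥(modularFunctionFieldFullC K (M' * q))) (n : Ideal B) : Prop :=
  ∀ aJ sJ : B, sJ ∉ n →
    (sJ : ↥(modularFunctionFieldFullC K (M' * q))) * rm90_j K (M' * q) =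
      (aJ : ↥(modularFunctionFieldFullC K (M' * q))) →
    ∀ (O : Type) [CommRing O] [IsDomain O] [IsDiscreteValuationRing O] (φ : B →+* O),
      (∀ x : B, φ x = 0 ↔
        (algebraMap R ↥(modularFunctionFieldFullC K (M' * q)) π)⁻¹ *
          (x : ↥(modularFunctionFieldFullC K (M' * q))) ∈ cm85_Vinf (K := K) (M' * q) hπ) →
      (∀ s : B, IsUnit (φ s) ↔ s ∉ n) → ∀ ϖ : O, Irreducible ϖ →
        (q ≠ 2 → q ≠ 3 → aJ ∈ n → ϖ ^ 3 ∣ φ aJ) ∧
        (q ≠ 2 → q ≠ 3 → aJ - 1728 * sJ ∈ n → ϖ ^ 2 ∣ φ (aJ - 1728 * sJ)) ∧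
        (q = 3 → aJ ∈ n → ϖ ^ 6 ∣ φ aJ) ∧ (q = 2 → aJ ∈ n → ϖ ^ 12 ∣ φ aJ)

/-- **`nf21c_Data` from the rigidity input**, on a chart with the frame facts. -/
theorem nk21_data_of_rig (hqR : ¬ IsUnit (q : R)) (hqπ : ((q : ℕ) : R) = π)
    (s : Set ↥(modularFunctionFieldFullC K (M' * q)))
    [IsNoetherianRing (pk15_chart R s)]
    (hBW : ∀ x ∈ pk15_chart R s, x ∈ s34i47c_W (K := K) M' q hq hM' hπ)
    (hSm : sf79_Smooth π (pk15_chart R s) (cm85_Vinf (K := K) (M' * q) hπ).toSubring)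
    (hTr : sf79_Transv π (pk15_chart R s) (cm85_Vinf (K := K) (M' * q) hπ).toSubring
      (s34i47c_V0 (K := K) M' q hq hM' hπ).toSubring)
    (hj : ∀ n : Ideal ↥(pk15_chart R s), n.IsPrime →
      (∀ y : ↥(pk15_chart R s),
        (algebraMap R ↥(modularFunctionFieldFullC K (M' * q)) π)⁻¹ *
          (y : ↥(modularFunctionFieldFullC K (M' * q))) ∈ cm85_Vinf (K := K) (M' * q) hπ → y ∈ n) →
      (∀ y : ↥(pk15_chart R s),
        (algebraMap R ↥(modularFunctionFieldFullC K (M' * q)) π)⁻¹ *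
          (y : ↥(modularFunctionFieldFullC K (M' * q))) ∈
            cm15_V0 (algebraMap K Q̄) M' q hq hM' hπ → y ∈ n) →
      ∃ a b : ↥(pk15_chart R s), a ∉ n ∧
        (a : ↥(modularFunctionFieldFullC K (M' * q))) * rm90_j K (M' * q) =
          (b : ↥(modularFunctionFieldFullC K (M' * q))))
    (hRed : rh19_Red π (pk15_chart R s) (cm85_Vinf (K := K) (M' * q) hπ).toSubring
      (ntf35_red R (M' * q)))
    (n : Ideal ↥(pk15_chart R s)) (hn : n.IsMaximal)
    (h1 : sf79_OnBr π (pk15_chart R s) (cm85_Vinf (K := K) (M' * q) hπ).toSubring n)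
    (h2 : sf79_OnBr π (pk15_chart R s) (s34i47c_V0 (K := K) M' q hq hM' hπ).toSubring n)
    (hrig : nk21_Rig M' q hπ (pk15_chart R s) n) :
    nf21c_Data M' q hq hπ (pk15_chart R s) n := by
  classical
  intro Ub a ha hUb O _ _ _ ι h0 hunit ϖ hϖ
  haveI hnp : n.IsPrime := hn.isPrime
  haveI : CharP (IsLocalRing.ResidueField R) q := cc1_charP_residue q hq hqR
  have hπ₁ : (algebraMap R ↥(modularFunctionFieldFullC K (M' * q)) π)⁻¹ ∉
      (cm85_Vinf (K := K) (M' * q) hπ).toSubring := al97C_pi_inv_not_mem_Vinf M' q hπ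
  have hπ₂ : (algebraMap R ↥(modularFunctionFieldFullC K (M' * q)) π)⁻¹ ∉
      (s34i47c_V0 (K := K) M' q hq hM' hπ).toSubring := al97C_pi_inv_not_mem_V0 M' q hq hM' hπ
  have hp0 : algebraMap R ↥(modularFunctionFieldFullC K (M' * q)) π ≠ 0 := fun h0 =>
    hπ₁ (by rw [h0, inv_zero]; exact Subring.zero_mem _)
  have hV₁ : ∀ x ∈ (cm85_Vinf (K := K) (M' * q) hπ).toSubring,
      (algebraMap R ↥(modularFunctionFieldFullC K (M' * q)) π)⁻¹ * x ∉
        (cm85_Vinf (K := K) (M' * q) hπ).toSubring →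
      x⁻¹ ∈ (cm85_Vinf (K := K) (M' * q) hπ).toSubring := by
    intro x hx hx'
    by_contra hcon
    apply hx'
    have hconv : algebraMap R ↥(modularFunctionFieldFullC K (M' * q)) π =
        algebraMap K ↥(modularFunctionFieldFullC K (M' * q)) (algebraMap R K π) :=
      IsScalarTower.algebraMap_apply R K ↥(modularFunctionFieldFullC K (M' * q)) π
    rw [hconv]
    exact gv85_hmax (IsLocalRing.residue R) π (pk85_res_iff hπ) hπ.ne_zero _ _ x hx hcon
  have hV₂ : ∀ x ∈ (s34i47c_V0 (K := K) M' q hq hM' hπ).toSubring,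
      (algebraMap R ↥(modularFunctionFieldFullC K (M' * q)) π)⁻¹ * x ∉
        (s34i47c_V0 (K := K) M' q hq hM' hπ).toSubring →
      x⁻¹ ∈ (s34i47c_V0 (K := K) M' q hq hM' hπ).toSubring := by
    intro x hx hx'
    by_contra hcon
    exact hx' (al97C_hmax_V0 M' q hq hM' hπ x hx hcon)
  have hmemW : ∀ x : ↥(modularFunctionFieldFullC K (M' * q)),
      x ∈ s34i47c_W (K := K) M' q hq hM' hπ →
      x ∈ (cm85_Vinf (K := K) (M' * q) hπ).toSubring ∧
        x ∈ (s34i47c_V0 (K := K) M' q hq hM' hπ).toSubring := by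
    intro x hx
    obtain ⟨h1, h2⟩ := (s34i47c_mem_W M' q hq hM' hπ x).mp hx
    exact ⟨h1, (s34i47c_mem_V0 M' q hq hM' hπ x).mpr h2⟩
  have hB₁ : ∀ x ∈ pk15_chart R s, x ∈ (cm85_Vinf (K := K) (M' * q) hπ).toSubring :=
    fun x hx => (hmemW x (hBW x hx)).1
  have hB₂ : ∀ x ∈ pk15_chart R s, x ∈ (s34i47c_V0 (K := K) M' q hq hM' hπ).toSubring :=
    fun x hx => (hmemW x (hBW x hx)).2
  have hπn : algebraMap R ↥(pk15_chart R s) π ∈ n := by
    apply h1
    have e : (algebraMap R ↥(modularFunctionFieldFullC K (M' * q)) π)⁻¹ *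
        ((algebraMap R ↥(pk15_chart R s) π : ↥(pk15_chart R s)) :
          ↥(modularFunctionFieldFullC K (M' * q))) = 1 := by
      show (algebraMap R ↥(modularFunctionFieldFullC K (M' * q)) π)⁻¹ *
        algebraMap R ↥(modularFunctionFieldFullC K (M' * q)) π = 1
      exact inv_mul_cancel₀ hp0
    rw [e]
    exact Subring.one_mem _
  obtain ⟨z₁, hz₁⟩ := hSm n hn hπn h1
  have hT := hTr n hn hπn h1 h2
  obtain ⟨aj, bj, haj, habj⟩ := hj n hnp h1 h2
  have ha0 : (a : ↥(modularFunctionFieldFullC K (M' * q))) ≠ 0 := sf79_ne_zero _ n a ha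
  have ha1 : (a : ↥(modularFunctionFieldFullC K (M' * q)))⁻¹ ∈
      (cm85_Vinf (K := K) (M' * q) hπ).toSubring :=
    sf79_inv_mem π _ _ hB₁ hV₁ n h1 a ha
  have hqF : algebraMap R ↥(modularFunctionFieldFullC K (M' * q)) π =
      (q : ↥(modularFunctionFieldFullC K (M' * q))) := by
    rw [← hqπ, map_natCast]
  -- `Ub` along the two branches
  have hUb1 : (algebraMap R ↥(modularFunctionFieldFullC K (M' * q)) π)⁻¹ *
      (Ub : ↥(modularFunctionFieldFullC K (M' * q))) ∉
      (cm85_Vinf (K := K) (M' * q) hπ).toSubring := by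
    intro hcon
    apply dq56b_pi_U_notMem_Vinf (K := K) M' q hq hπ
    have e : (algebraMap R ↥(modularFunctionFieldFullC K (M' * q)) π)⁻¹ *
        dq56b_U (K := K) M' q hq =
        (a : ↥(modularFunctionFieldFullC K (M' * q)))⁻¹ *
          ((algebraMap R ↥(modularFunctionFieldFullC K (M' * q)) π)⁻¹ *
            (Ub : ↥(modularFunctionFieldFullC K (M' * q)))) := by
      rw [hUb]
      field_simp
    rw [e]
    exact Subring.mul_mem _ ha1 hcon
  have hVn0 : dq56b_V (K := K) M' q hq hM' ≠ 0 := by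
    intro hV0
    have h3 := dq56b_mul (K := K) M' q hq hM'
    rw [hV0, mul_zero] at h3
    have hq0 : (q : ↥(modularFunctionFieldFullC K (M' * q))) ≠ 0 := by
      rw [← hqF]
      exact hp0
    exact (pow_ne_zero 12 hq0) h3.symm
  have hUb2 : (algebraMap R ↥(modularFunctionFieldFullC K (M' * q)) π)⁻¹ *
      (Ub : ↥(modularFunctionFieldFullC K (M' * q))) ∈
      (s34i47c_V0 (K := K) M' q hq hM' hπ).toSubring := by
    have hU : dq56b_U (K := K) M' q hq =
        algebraMap R ↥(modularFunctionFieldFullC K (M' * q)) π ^ 12 *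
          (dq56b_V (K := K) M' q hq hM')⁻¹ := by
      rw [hqF, ← dq56b_mul M' q hq hM']
      field_simp
    have e : (algebraMap R ↥(modularFunctionFieldFullC K (M' * q)) π)⁻¹ *
        (Ub : ↥(modularFunctionFieldFullC K (M' * q))) =
        (a : ↥(modularFunctionFieldFullC K (M' * q))) *
          (algebraMap R ↥(modularFunctionFieldFullC K (M' * q)) π ^ 11 *
            (dq56b_V (K := K) M' q hq hM')⁻¹) := by
      rw [hUb, hU]
      field_simp
    rw [e]
    exact Subring.mul_mem _ (hB₂ _ a.2)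
      (Subring.mul_mem _ (Subring.pow_mem _ (hB₂ _ (Subalgebra.algebraMap_mem _ π)) 11)
        (dq56b_Vinv_mem_V0 M' q hq hM' hπ))
  have hUbn : Ub ∈ n := h2 Ub hUb2
  -- the coordinate `y`
  obtain ⟨y, hyn, hy₂, hyP, hy₁, hunif⟩ :=
    nf21_coord π (pk15_chart R s) (cm85_Vinf (K := K) (M' * q) hπ).toSubring
      (s34i47c_V0 (K := K) M' q hq hM' hπ).toSubring hB₁ hπ₁ hV₁ n h1 h2 z₁ hz₁ hT Ub hUb1 hUb2
  have hyU : sf79_Unif π (pk15_chart R s) (cm85_Vinf (K := K) (M' * q) hπ).toSubring n y := by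
    refine ⟨hyn, fun x hx => ?_⟩
    obtain ⟨t, ht, b, hb⟩ := hunif x hx
    exact ⟨t, ht, b, by simpa using hb⟩
  -- the reduction DVR of RedHom19
  obtain ⟨O₁, iC, iD, iV, φ, ψ, c, hinj, hcomp, hunit₁, hzero₁, hsurj, hirr, hc⟩ :=
    hRed n hnp h1 ⟨y, hyn, hyP⟩
  have hφy : Irreducible (φ y) := hirr y hyU
  -- the reduction facts
  have hρJ : ntf35_red R (M' * q) (bj : ↥(modularFunctionFieldFullC K (M' * q))) =
      ntf35_red R (M' * q) (aj : ↥(modularFunctionFieldFullC K (M' * q))) *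
        jqModC (IsLocalRing.ResidueField R) := by
    rw [← habj, ntf35_red_mul (M' * q) hπ _ _ (hB₁ _ aj.2) (nk21_J_mem hπ (M' * q)), nk21_red_J]
  have hρU : ntf35_red R (M' * q) (Ub : ↥(modularFunctionFieldFullC K (M' * q))) =
      ntf35_red R (M' * q) (a : ↥(modularFunctionFieldFullC K (M' * q))) *
        dq56_U (IsLocalRing.ResidueField R) q := by
    rw [hUb, ntf35_red_mul (M' * q) hπ _ _ (hB₁ _ a.2) (dq56b_U_mem_Vinf M' q hq hπ), nk21_red_U]
  have key : φ y ^ 12 ∣ φ Ub :=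
    kb40_chart q hq π (pk15_chart R s) (cm85_Vinf (K := K) (M' * q) hπ).toSubring
      (ntf35_red R (M' * q)) hRed (fun r => nk21_red_c M' q r)
      (sf79_br π (pk15_chart R s) (cm85_Vinf (K := K) (M' * q) hπ).toSubring hB₁)
      (fun x => sf79_mem_br π _ _ hB₁ x) n (fun x hx => h1 x hx) y hyn (fun h => hyP h)
      (fun x hx => by
        obtain ⟨t, ht, b, hb⟩ := hunif x hx
        exact ⟨t, ht, b, hb⟩)
      aj bj haj hρJ Ub a ha hρU hUbn
      (fun O' _ _ _ φ' hz hu hi => hrig bj aj haj habj O' φ'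
        (fun x => (hz x).trans (sf79_mem_br π _ _ hB₁ x)) hu (φ' y) hi)
      O₁ φ (fun x => hzero₁ x) hunit₁ hφy
  have key2 : ι y ^ 12 ∣ ι Ub :=
    kb40_transfer n (sf79_br π (pk15_chart R s) (cm85_Vinf (K := K) (M' * q) hπ).toSubring hB₁)
      φ ι (fun b hb => (hzero₁ b).mp hb) (fun b hb => (h0 b).mpr hb)
      (fun t ht => (hunit t).mpr ht) hsurj y Ub 12 key
  have hϖy : ϖ ∣ ι y := by
    have hm : IsLocalRing.maximalIdeal O = Ideal.span {ϖ} :=
      (IsDiscreteValuationRing.irreducible_iff_uniformizer ϖ).mp hϖ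
    have hyn' : ¬ IsUnit (ι y) := fun hu => ((hunit y).mp hu) hyn
    have hmem : ι y ∈ IsLocalRing.maximalIdeal O := (IsLocalRing.mem_maximalIdeal _).mpr hyn'
    rw [hm] at hmem
    exact Ideal.mem_span_singleton.mp hmem
  exact (pow_dvd_pow_of_dvd hϖy 12).trans key2

include hq hM' in
/-- The reduction DVRs of RedHom19 for both charts of an admissible Hauptmodul. -/
theorem nk21_hRed (hunit : ∀ n : ℕ, Nat.Coprime n q → IsUnit (n : R)) (hqR : ¬ IsUnit (q : R))
    (h : ↥(modularFunctionFieldFullC K (M' * q))) (hh : s34i47c_IsHaupt K (M' * q) q h) :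
    rh19_Red π (pk15_chart R ({h} : Set ↥(modularFunctionFieldFullC K (M' * q))))
        (cm85_Vinf (K := K) (M' * q) hπ).toSubring (ntf35_red R (M' * q)) ∧
      rh19_Red π (pk15_chart R ({h⁻¹} : Set ↥(modularFunctionFieldFullC K (M' * q))))
        (cm85_Vinf (K := K) (M' * q) hπ).toSubring (ntf35_red R (M' * q)) := by
  haveI : Algebra.IsAlgebraic K Q̄ := cx_isAlgebraic_closure K
  letI : Algebra R ↥(modularFunctionFieldFullC K M') :=
    ((algebraMap K ↥(modularFunctionFieldFullC K M')).comp (algebraMap R K)).toAlgebra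
  haveI : IsScalarTower R K ↥(modularFunctionFieldFullC K M') :=
    IsScalarTower.of_algebraMap_eq (fun _ => rfl)
  have hMu : IsUnit (M' : R) :=
    hunit M' (Nat.Coprime.symm ((Nat.Prime.coprime_iff_not_dvd hq).mpr hM'))
  rcases hh with ⟨hq2, h2, rfl⟩ | ⟨hq3, h3, rfl⟩
  · have hcop : Nat.Coprime 2 q := (Nat.coprime_primes Nat.prime_two hq).mpr (Ne.symm hq2)
    have h2' : 2 ∣ M' := hcop.dvd_of_dvd_mul_right h2
    exact rhi19_red_q_level2 M' q hq hM' hπ hqR h2' hMu
  · have hcop : Nat.Coprime 3 q := (Nat.coprime_primes Nat.prime_three hq).mpr (Ne.symm hq3)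
    have h3' : 3 ∣ M' := hcop.dvd_of_dvd_mul_right h3
    exact rhi19_red_q_level3 M' q hq hM' hπ hqR h3' hMu

include hq hM' in
/-- **`nf21c_Data` from the rigidity input, both charts of an admissible Hauptmodul**
(all frame facts discharged). -/
theorem nk21_data (hunit : ∀ n : ℕ, Nat.Coprime n q → IsUnit (n : R)) (hqR : ¬ IsUnit (q : R))
    (hqπ : ((q : ℕ) : R) = π)
    (h : ↥(modularFunctionFieldFullC K (M' * q))) (hh : s34i47c_IsHaupt K (M' * q) q h) :
    (∀ n : Ideal ↥(pk15_chart R ({h} : Set ↥(modularFunctionFieldFullC K (M' * q)))),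
      n.IsMaximal →
      sf79_OnBr π (pk15_chart R ({h} : Set ↥(modularFunctionFieldFullC K (M' * q))))
        (cm85_Vinf (K := K) (M' * q) hπ).toSubring n →
      sf79_OnBr π (pk15_chart R ({h} : Set ↥(modularFunctionFieldFullC K (M' * q))))
        (s34i47c_V0 (K := K) M' q hq hM' hπ).toSubring n →
      nk21_Rig M' q hπ (pk15_chart R ({h} : Set ↥(modularFunctionFieldFullC K (M' * q)))) n →
      nf21c_Data M' q hq hπ
        (pk15_chart R ({h} : Set ↥(modularFunctionFieldFullC K (M' * q)))) n) ∧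
    (∀ n : Ideal ↥(pk15_chart R ({h⁻¹} : Set ↥(modularFunctionFieldFullC K (M' * q)))),
      n.IsMaximal →
      sf79_OnBr π (pk15_chart R ({h⁻¹} : Set ↥(modularFunctionFieldFullC K (M' * q))))
        (cm85_Vinf (K := K) (M' * q) hπ).toSubring n →
      sf79_OnBr π (pk15_chart R ({h⁻¹} : Set ↥(modularFunctionFieldFullC K (M' * q))))
        (s34i47c_V0 (K := K) M' q hq hM' hπ).toSubring n →
      nk21_Rig M' q hπ (pk15_chart R ({h⁻¹} : Set ↥(modularFunctionFieldFullC K (M' * q)))) n →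
      nf21c_Data M' q hq hπ
        (pk15_chart R ({h⁻¹} : Set ↥(modularFunctionFieldFullC K (M' * q)))) n) := by
  obtain ⟨⟨hBW1, -, -, -, hSm1⟩, ⟨hBW2, -, -, -, hSm2⟩⟩ :=
    nf79c_chart_facts M' q hq hM' hπ hunit hqR h hh
  obtain ⟨hTr1, hTr2⟩ := tvc73_pkg_frameTransv M' q hq hM' R K π hπ hunit hqR h hh
  obtain ⟨-, hC⟩ := fs85_frameSat M' q hq hM' R K π hπ hunit hqR
  obtain ⟨-, -, -, -, -, hN1, hN2, -, -⟩ := hC h hh
  obtain ⟨hj1, hj2⟩ := nf21c_hj M' q hq hM' hπ hunit hqR h hh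
  obtain ⟨hRed1, hRed2⟩ := nk21_hRed M' q hq hM' hπ hunit hqR h hh
  haveI := hN1
  haveI := hN2
  exact ⟨fun n hn h1 h2 hr => nk21_data_of_rig M' q hq hM' hπ hqR hqπ _ hBW1 hSm1 hTr1 hj1 hRed1
      n hn h1 h2 hr,
    fun n hn h1 h2 hr => nk21_data_of_rig M' q hq hM' hπ hqR hqπ _ hBW2 hSm2 hTr2 hj2 hRed2
      n hn h1 h2 hr⟩

include hq hM' in
/-- **(REG-q) for both charts of an admissible Hauptmodul from the rigidity input at every
node** (`nf21c_Reg` = the hypotheses `hr₁`, `hr₂` of `tf71b_twoGen`). -/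
theorem nk21_reg (hunit : ∀ n : ℕ, Nat.Coprime n q → IsUnit (n : R)) (hqR : ¬ IsUnit (q : R))
    (hqπ : ((q : ℕ) : R) = π)
    (h : ↥(modularFunctionFieldFullC K (M' * q))) (hh : s34i47c_IsHaupt K (M' * q) q h)
    (hrig₁ : ∀ n : Ideal ↥(pk15_chart R ({h} : Set ↥(modularFunctionFieldFullC K (M' * q)))),
      n.IsMaximal →
      sf79_OnBr π (pk15_chart R ({h} : Set ↥(modularFunctionFieldFullC K (M' * q))))
        (cm85_Vinf (K := K) (M' * q) hπ).toSubring n →
      sf79_OnBr π (pk15_chart R ({h} : Set ↥(modularFunctionFieldFullC K (M' * q))))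
        (s34i47c_V0 (K := K) M' q hq hM' hπ).toSubring n →
      nk21_Rig M' q hπ (pk15_chart R ({h} : Set ↥(modularFunctionFieldFullC K (M' * q)))) n)
    (hrig₂ : ∀ n : Ideal ↥(pk15_chart R ({h⁻¹} : Set ↥(modularFunctionFieldFullC K (M' * q)))),
      n.IsMaximal →
      sf79_OnBr π (pk15_chart R ({h⁻¹} : Set ↥(modularFunctionFieldFullC K (M' * q))))
        (cm85_Vinf (K := K) (M' * q) hπ).toSubring n →
      sf79_OnBr π (pk15_chart R ({h⁻¹} : Set ↥(modularFunctionFieldFullC K (M' * q))))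
        (s34i47c_V0 (K := K) M' q hq hM' hπ).toSubring n →
      nk21_Rig M' q hπ (pk15_chart R ({h⁻¹} : Set ↥(modularFunctionFieldFullC K (M' * q)))) n) :
    nf21c_Reg M' q hq hM' hπ
        (pk15_chart R ({h} : Set ↥(modularFunctionFieldFullC K (M' * q)))) ∧
      nf21c_Reg M' q hq hM' hπ
        (pk15_chart R ({h⁻¹} : Set ↥(modularFunctionFieldFullC K (M' * q)))) := by
  obtain ⟨hd1, hd2⟩ := nk21_data M' q hq hM' hπ hunit hqR hqπ h hh
  exact nf21c_reg M' q hq hM' hπ hunit hqR hqπ h hh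
    (fun n hn h1 h2 => hd1 n hn h1 h2 (hrig₁ n hn h1 h2))
    (fun n hn h1 h2 => hd2 n hn h1 h2 (hrig₂ n hn h1 h2))

end NK21

end Fermat.Agent.S36
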