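import Mathlib
import Fermat.Agent.S36.NodeFrameInst79
import Fermat.Agent.S36.LocStrThree71

/-!
# S36 lab, row C-REGq (helper79): the OUTPUT shape — local divisors of `π` at a regular node

* `nf79_divAt_of_regular`: from the conclusion of `nr10_node_regular` at `A = sf79_loc B n`
  (`N * (N / D) = π * U`, `U` a unit of `B_n`) to the two local divisors of `π` at `n` in the
  literal shape `tl71_DivAt` of `LocStrThree71` (with the third valuation equal to the second):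
  `z * c = t * π`, `t ∉ n`, `z, c, t ∈ B`, `z` cutting out the `V_∞`-branch exactly and a unit
  along `V_0` — and symmetrically for the `V_0`-branch.
* `nf79c_divAt`: the same on the canonical level-`q` frame from the function data `N`, `D` alone
  (hypotheses of `nf79c_aux`).

All names are prefixed `nf79_` / `nf79c_`.
-/

set_option autoImplicit false

open ModularCurve AlgebraicCurve IntermediateField

namespace Fermat.Agent.S36

open Fermat.Agent.S18 Fermat.Agent.S34 Fermat.Agent.S36.TripleLoc71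

local notation "Q̄" => AlgebraicClosure ℚ

section NF79D

variable {R F : Type*} [CommRing R] [Field F] [Algebra R F]

/-- Field bookkeeping: `x * y = t * p` gives `p / x = y / t`. -/
theorem nf79_aux_div {K : Type*} [Field K] (x y t p : K) (hx : x ≠ 0) (ht : t ≠ 0)
    (h : x * y = t * p) : p * x⁻¹ = y * t⁻¹ := by
  have h1 : p = x * y * t⁻¹ := by
    rw [h]
    field_simp
  rw [h1]
  field_simp

/-- Field bookkeeping: `x * y = t * p` gives `1 / x = (p⁻¹ y) / t`. -/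
theorem nf79_aux_inv {K : Type*} [Field K] (x y t p : K) (hx : x ≠ 0) (ht : t ≠ 0) (hp : p ≠ 0)
    (h : x * y = t * p) : x⁻¹ = p⁻¹ * y * t⁻¹ := by
  have h1 : p * x⁻¹ = y * t⁻¹ := nf79_aux_div x y t p hx ht h
  calc x⁻¹ = p⁻¹ * (p * x⁻¹) := by field_simp
    _ = p⁻¹ * y * t⁻¹ := by rw [h1]; ring

/-- **Regular node ⟹ the two local divisors of `π`.** -/
theorem nf79_divAt_of_regular (π : R) (B : Subalgebra R F) (Vi V0 : ValuationSubring F)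
    (hB₁ : ∀ x ∈ B, x ∈ Vi) (hB₂ : ∀ x ∈ B, x ∈ V0)
    (hπ₁ : (algebraMap R F π)⁻¹ ∉ Vi)
    (hV₁ : ∀ x ∈ Vi.toSubring, (algebraMap R F π)⁻¹ * x ∉ Vi.toSubring → x⁻¹ ∈ Vi.toSubring)
    (hV₂ : ∀ x ∈ V0.toSubring, (algebraMap R F π)⁻¹ * x ∉ V0.toSubring → x⁻¹ ∈ V0.toSubring)
    (n : Ideal B) [hn : n.IsPrime]
    (h1 : sf79_OnBr π B Vi.toSubring n) (h2 : sf79_OnBr π B V0.toSubring n)
    (N D U : F) (hD : D ≠ 0) (hNi : (algebraMap R F π)⁻¹ * N ∈ Vi)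
    (hD0 : (algebraMap R F π * D)⁻¹ ∈ V0)
    (hN : N ∈ sf79_loc B n) (hU' : U⁻¹ ∈ sf79_loc B n) (hND : N * D⁻¹ ∈ sf79_loc B n)
    (hNN : N * (N * D⁻¹) = algebraMap R F π * U) (hN0 : N ≠ 0) :
    tl71_DivAt π B Vi.toSubring V0.toSubring V0.toSubring n ∧
      tl71_DivAt π B V0.toSubring Vi.toSubring Vi.toSubring n := by
  set p : F := algebraMap R F π with hp
  have hp0 : p ≠ 0 := fun h0 => hπ₁ (by rw [h0, inv_zero]; exact Vi.zero_mem)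
  have hAi : ∀ x ∈ sf79_loc B n, x ∈ Vi :=
    fun x hx => sf79_loc_le π B Vi.toSubring hB₁ hV₁ n h1 hx
  have hA0 : ∀ x ∈ sf79_loc B n, x ∈ V0 :=
    fun x hx => sf79_loc_le π B V0.toSubring hB₂ hV₂ n h2 hx
  have hU0 : U ≠ 0 := by
    intro h
    rw [h, mul_zero] at hNN
    exact mul_ne_zero hN0 (mul_ne_zero hN0 (inv_ne_zero hD)) hNN
  obtain ⟨s₁, hs₁, hs₁N⟩ := hN
  obtain ⟨s₂, hs₂, hs₂N⟩ := hND
  obtain ⟨s₃, hs₃, hs₃U⟩ := hU'
  have hs₁0 := sf79_ne_zero B n s₁ hs₁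
  have hs₂0 := sf79_ne_zero B n s₂ hs₂
  have hs₃0 := sf79_ne_zero B n s₃ hs₃
  have ht : s₁ * s₂ * s₃ ∉ n := fun h =>
    (hn.mem_or_mem h).elim (fun h' => (hn.mem_or_mem h').elim hs₁ hs₂) hs₃
  have htinv_i : (((s₁ * s₂ * s₃ : B) : F))⁻¹ ∈ Vi :=
    sf79_inv_mem π B Vi.toSubring hB₁ hV₁ n h1 _ ht
  have htinv_0 : (((s₁ * s₂ * s₃ : B) : F))⁻¹ ∈ V0 :=
    sf79_inv_mem π B V0.toSubring hB₂ hV₂ n h2 _ ht
  have hNmemA : N ∈ sf79_loc B n := ⟨s₁, hs₁, hs₁N⟩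
  have hUmemA : U⁻¹ ∈ sf79_loc B n := ⟨s₃, hs₃, hs₃U⟩
  -- the two key memberships
  have hND0 : p⁻¹ * (N * D⁻¹) ∈ V0 := by
    have e : p⁻¹ * (N * D⁻¹) = N * (p * D)⁻¹ := by field_simp
    rw [e]
    exact V0.mul_mem _ _ (hA0 _ hNmemA) hD0
  have hprod : (s₁ : F) * N * ((s₂ : F) * (N * D⁻¹) * ((s₃ : F) * U⁻¹)) =
      ((s₁ * s₂ * s₃ : B) : F) * p := by
    have : (s₁ : F) * N * ((s₂ : F) * (N * D⁻¹) * ((s₃ : F) * U⁻¹)) =
        (s₁ : F) * (s₂ : F) * (s₃ : F) * (N * (N * D⁻¹)) * U⁻¹ := by ring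
    rw [this, hNN]
    push_cast
    field_simp
  have h3 : ((s₁ * s₂ * s₃ : B) : F) ≠ 0 := sf79_ne_zero B n _ ht
  have hz0 : (s₁ : F) * N ≠ 0 := mul_ne_zero hs₁0 hN0
  have hz0' : (s₂ : F) * (N * D⁻¹) ≠ 0 :=
    mul_ne_zero hs₂0 (mul_ne_zero hN0 (inv_ne_zero hD))
  have hprod' : (s₂ : F) * (N * D⁻¹) * ((s₁ : F) * N * ((s₃ : F) * U⁻¹)) =
      ((s₁ * s₂ * s₃ : B) : F) * p := by
    rw [← hprod]
    ring
  -- `π / z` and `1 / z`
  have e1 : p * ((s₁ : F) * N)⁻¹ =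
      ((s₂ : F) * (N * D⁻¹) * ((s₃ : F) * U⁻¹)) * (((s₁ * s₂ * s₃ : B) : F))⁻¹ :=
    nf79_aux_div _ _ _ _ hz0 h3 hprod
  have e2 : ((s₁ : F) * N)⁻¹ = (s₂ : F) * (p⁻¹ * (N * D⁻¹)) * ((s₃ : F) * U⁻¹) *
      (((s₁ * s₂ * s₃ : B) : F))⁻¹ := by
    rw [nf79_aux_inv _ _ _ _ hz0 h3 hp0 hprod]
    ring
  have e1' : p * ((s₂ : F) * (N * D⁻¹))⁻¹ =
      ((s₁ : F) * N * ((s₃ : F) * U⁻¹)) * (((s₁ * s₂ * s₃ : B) : F))⁻¹ :=
    nf79_aux_div _ _ _ _ hz0' h3 hprod'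
  have e2' : ((s₂ : F) * (N * D⁻¹))⁻¹ = (s₁ : F) * (p⁻¹ * N) * ((s₃ : F) * U⁻¹) *
      (((s₁ * s₂ * s₃ : B) : F))⁻¹ := by
    rw [nf79_aux_inv _ _ _ _ hz0' h3 hp0 hprod']
    ring
  have m2 : ((s₁ : F) * N)⁻¹ ∈ V0 := by
    rw [e2]
    exact V0.mul_mem _ _ (V0.mul_mem _ _ (V0.mul_mem _ _ (hB₂ _ s₂.2) hND0) (hB₂ _ hs₃U)) htinv_0
  have m2' : ((s₂ : F) * (N * D⁻¹))⁻¹ ∈ Vi := by
    rw [e2']
    exact Vi.mul_mem _ _ (Vi.mul_mem _ _ (Vi.mul_mem _ _ (hB₁ _ s₁.2) hNi) (hB₁ _ hs₃U)) htinv_i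
  refine ⟨⟨⟨(s₁ : F) * N, hs₁N⟩, ⟨(s₂ : F) * (N * D⁻¹), hs₂N⟩ * ⟨(s₃ : F) * U⁻¹, hs₃U⟩,
      s₁ * s₂ * s₃, ht, Subtype.ext hprod, ?_, ?_, m2, m2⟩,
    ⟨⟨(s₂ : F) * (N * D⁻¹), hs₂N⟩, ⟨(s₁ : F) * N, hs₁N⟩ * ⟨(s₃ : F) * U⁻¹, hs₃U⟩,
      s₁ * s₂ * s₃, ht, Subtype.ext hprod', ?_, ?_, m2', m2'⟩⟩
  · -- `π⁻¹ z ∈ Vi`
    show p⁻¹ * ((s₁ : F) * N) ∈ Vi
    have e : p⁻¹ * ((s₁ : F) * N) = (s₁ : F) * (p⁻¹ * N) := by ring
    rw [e]
    exact Vi.mul_mem _ _ (hB₁ _ s₁.2) hNi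
  · -- `π z⁻¹ ∈ Vi`
    show p * ((s₁ : F) * N)⁻¹ ∈ Vi
    rw [e1]
    exact Vi.mul_mem _ _ (Vi.mul_mem _ _ (hB₁ _ hs₂N) (hB₁ _ hs₃U)) htinv_i
  · -- `π⁻¹ z' ∈ V0`
    show p⁻¹ * ((s₂ : F) * (N * D⁻¹)) ∈ V0
    have e : p⁻¹ * ((s₂ : F) * (N * D⁻¹)) = (s₂ : F) * (p⁻¹ * (N * D⁻¹)) := by ring
    rw [e]
    exact V0.mul_mem _ _ (hB₂ _ s₂.2) hND0
  · -- `π z'⁻¹ ∈ V0`
    show p * ((s₂ : F) * (N * D⁻¹))⁻¹ ∈ V0
    rw [e1']
    exact V0.mul_mem _ _ (V0.mul_mem _ _ (hB₂ _ hs₁N) (hB₂ _ hs₃U)) htinv_0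

end NF79D

section NF79CD

variable {R K : Type} [CommRing R] [IsDomain R] [IsDiscreteValuationRing R] [Field K]
  [NumberField K] [Algebra K Q̄] [Algebra R K] [IsFractionRing R K]
  (M' q : ℕ) [NeZero M'] [NeZero q] (hq : q.Prime) (hM' : ¬ q ∣ M')
  [Algebra R ↥(modularFunctionFieldFullC K (M' * q))]
  [IsScalarTower R K ↥(modularFunctionFieldFullC K (M' * q))] {π : R} (hπ : Irreducible π)

/-- **The two local divisors of `π` at a node of the canonical level-`q` frame**, from the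
function data `N`, `D` of `nf79c_aux` alone (literal target shape of `LocStrThree71` /
`TripleBind71`). -/
theorem nf79c_divAt (B : Subalgebra R ↥(modularFunctionFieldFullC K (M' * q)))
    (hBW : ∀ x ∈ B, x ∈ s34i47c_W (K := K) M' q hq hM' hπ)
    (hsatB : ∀ x ∈ B, (algebraMap R ↥(modularFunctionFieldFullC K (M' * q)) π)⁻¹ * x ∈
      s34i47c_W (K := K) M' q hq hM' hπ →
      (algebraMap R ↥(modularFunctionFieldFullC K (M' * q)) π)⁻¹ * x ∈ B)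
    (hKrull : s34i47_Krull π B)
    (hUV : sf79_UVAt π B (cm85_Vinf (K := K) (M' * q) hπ).toSubring
      (s34i47c_V0 (K := K) M' q hq hM' hπ).toSubring)
    (n : Ideal B) (hn : n.IsMaximal) (hπn : algebraMap R B π ∈ n)
    (h1 : sf79_OnBr π B (cm85_Vinf (K := K) (M' * q) hπ).toSubring n)
    (h2 : sf79_OnBr π B (s34i47c_V0 (K := K) M' q hq hM' hπ).toSubring n)
    (z : B) (hz : sf79_Unif π B (cm85_Vinf (K := K) (M' * q) hπ).toSubring n z)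
    (N D : ↥(modularFunctionFieldFullC K (M' * q)))
    (hN : N ∈ sf79_loc B n)
    (hNi : (algebraMap R ↥(modularFunctionFieldFullC K (M' * q)) π)⁻¹ * N ∈
      cm85_Vinf (K := K) (M' * q) hπ)
    (hD : D ≠ 0)
    (hDi' : algebraMap R ↥(modularFunctionFieldFullC K (M' * q)) π * D⁻¹ ∈
      cm85_Vinf (K := K) (M' * q) hπ)
    (hD0 : (algebraMap R ↥(modularFunctionFieldFullC K (M' * q)) π * D)⁻¹ ∈
      s34i47c_V0 (K := K) M' q hq hM' hπ)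
    (hDH : ∀ O ∈ nf79_H π B n, D⁻¹ ∈ O)
    (hpole : ∃ k : ℕ, nr10_cong (sf79_loc B n) (cm85_Vinf (K := K) (M' * q) hπ)
      (algebraMap R ↥(modularFunctionFieldFullC K (M' * q)) π)
      ((z : ↥(modularFunctionFieldFullC K (M' * q))) ^ k *
        ((algebraMap R ↥(modularFunctionFieldFullC K (M' * q)) π)⁻¹ * N)))
    (hder0 : nr10_cong (sf79_loc B n) (cm85_Vinf (K := K) (M' * q) hπ)
        (algebraMap R ↥(modularFunctionFieldFullC K (M' * q)) π)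
        ((algebraMap R ↥(modularFunctionFieldFullC K (M' * q)) π)⁻¹ * N) →
      nr10_cong (sf79_loc B n) (cm85_Vinf (K := K) (M' * q) hπ)
        (algebraMap R ↥(modularFunctionFieldFullC K (M' * q)) π)
        ((algebraMap R ↥(modularFunctionFieldFullC K (M' * q)) π)⁻¹ * D))
    (hder : ∀ m : ℕ, 1 ≤ m →
      nr10_cong (sf79_loc B n) (cm85_Vinf (K := K) (M' * q) hπ)
        (algebraMap R ↥(modularFunctionFieldFullC K (M' * q)) π)
        ((z : ↥(modularFunctionFieldFullC K (M' * q))) ^ m *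
          ((algebraMap R ↥(modularFunctionFieldFullC K (M' * q)) π)⁻¹ * N)) →
      nr10_cong (sf79_loc B n) (cm85_Vinf (K := K) (M' * q) hπ)
        (algebraMap R ↥(modularFunctionFieldFullC K (M' * q)) π)
        ((z : ↥(modularFunctionFieldFullC K (M' * q))) ^ (m + 1) *
          ((algebraMap R ↥(modularFunctionFieldFullC K (M' * q)) π)⁻¹ * D))) :
    tl71_DivAt π B (cm85_Vinf (K := K) (M' * q) hπ).toSubring
        (s34i47c_V0 (K := K) M' q hq hM' hπ).toSubring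
        (s34i47c_V0 (K := K) M' q hq hM' hπ).toSubring n ∧
      tl71_DivAt π B (s34i47c_V0 (K := K) M' q hq hM' hπ).toSubring
        (cm85_Vinf (K := K) (M' * q) hπ).toSubring
        (cm85_Vinf (K := K) (M' * q) hπ).toSubring n := by
  haveI hnp : n.IsPrime := hn.isPrime
  obtain ⟨U, -, hU', hND, hNN, hN0, -, -, -⟩ := nf79c_aux M' q hq hM' hπ B hBW hsatB hKrull hUV
    n hn hπn h1 h2 z hz N D hN hNi hD hDi' hD0 hDH hpole hder0 hder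
  have hπ₁ : (algebraMap R ↥(modularFunctionFieldFullC K (M' * q)) π)⁻¹ ∉
      cm85_Vinf (K := K) (M' * q) hπ := al97C_pi_inv_not_mem_Vinf M' q hπ
  have hV₁ : ∀ x ∈ (cm85_Vinf (K := K) (M' * q) hπ).toSubring,
      (algebraMap R ↥(modularFunctionFieldFullC K (M' * q)) π)⁻¹ * x ∉
        (cm85_Vinf (K := K) (M' * q) hπ).toSubring →
      x⁻¹ ∈ (cm85_Vinf (K := K) (M' * q) hπ).toSubring := by
    intro x hx hx'
    by_contra hcon
    apply hx'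
    have hconv : algebraMap R ↥(modularFunctionFieldFullC K (M' * q)) π =
        algebraMap K ↥(modularFunctionFieldFullC K (M' * q)) (algebraMap R K π) :=
      IsScalarTower.algebraMap_apply R K ↥(modularFunctionFieldFullC K (M' * q)) π
    rw [hconv]
    exact gv85_hmax (IsLocalRing.residue R) π (pk85_res_iff hπ) hπ.ne_zero _ _ x hx hcon
  have hV₂ : ∀ x ∈ (s34i47c_V0 (K := K) M' q hq hM' hπ).toSubring,
      (algebraMap R ↥(modularFunctionFieldFullC K (M' * q)) π)⁻¹ * x ∉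
        (s34i47c_V0 (K := K) M' q hq hM' hπ).toSubring →
      x⁻¹ ∈ (s34i47c_V0 (K := K) M' q hq hM' hπ).toSubring := by
    intro x hx hx'
    by_contra hcon
    exact hx' (al97C_hmax_V0 M' q hq hM' hπ x hx hcon)
  have hmemW : ∀ x : ↥(modularFunctionFieldFullC K (M' * q)),
      x ∈ s34i47c_W (K := K) M' q hq hM' hπ →
      x ∈ (cm85_Vinf (K := K) (M' * q) hπ).toSubring ∧
        x ∈ (s34i47c_V0 (K := K) M' q hq hM' hπ).toSubring := by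
    intro x hx
    obtain ⟨h1, h2⟩ := (s34i47c_mem_W M' q hq hM' hπ x).mp hx
    exact ⟨h1, (s34i47c_mem_V0 M' q hq hM' hπ x).mpr h2⟩
  exact nf79_divAt_of_regular π B (cm85_Vinf (K := K) (M' * q) hπ)
    (s34i47c_V0 (K := K) M' q hq hM' hπ) (fun x hx => (hmemW x (hBW x hx)).1)
    (fun x hx => (hmemW x (hBW x hx)).2) hπ₁ hV₁ hV₂ n h1 h2 N D U hD hNi hD0 hN hU' hND hNN hN0

end NF79CD


end Fermat.Agent.S36
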