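import Mathlib
import Fermat.Agent.S36.NodeOrd44

/-!
# S36 lab, row 599 (C-REGq), helper44: `12 ≤ ord U` at the ELLIPTIC nodes, chart language

Companion of `NodeOrd44` (`rq44_node`: a labelled regular node from `a ≤ ord U`, `a = 12`).
`R` a discrete valuation ring with uniformiser `π`, `B` a chart, `V` the vertical valuation
subring of the `∞`-branch, `n` a closed point, `z` a local coordinate of the branch at `n`.

* `rq44_poly_factor` : `N ∈ R[X]` nonzero mod `π`, `a ∈ R`: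
  `N = (X - a) ^ ν N₁ + π N₂` with `N₁(a)` a unit.
* `rq44_Ord_aeval` : if `L = J - a ∈ n` has order `e`, then `N(J)` has order `ν e`.
* `rq44_Ord_of_factor` : `s x = u c ^ k` (`s, u ∉ n`) ⟹ `k ∣ ord x`.

(The DVR-language twin of the order bookkeeping is `KappaDvd40`; the binding (Z) is in
`RelTransfer44`.)
-/

set_option autoImplicit false

open Polynomial

namespace Fermat.Agent.S36

open Fermat.Agent.S34

/-- Factorisation modulo `π` at a point `a`. -/
theorem rq44_poly_factor {R : Type*} [CommRing R] [IsDomain R] [IsDiscreteValuationRing R]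
    (π : R) (hπ : Irreducible π) (N : R[X]) (hN : N.map (IsLocalRing.residue R) ≠ 0) (a : R) :
    ∃ (ν : ℕ) (N₁ N₂ : R[X]), N = (X - C a) ^ ν * N₁ + C π * N₂ ∧ IsUnit (N₁.eval a) := by
  obtain ⟨Q, hQ, hndvd⟩ := exists_eq_pow_rootMultiplicity_mul_and_not_dvd
    (N.map (IsLocalRing.residue R)) hN (IsLocalRing.residue R a)
  obtain ⟨N₁, hN₁⟩ := map_surjective (IsLocalRing.residue R) IsLocalRing.residue_surjective Q
  set ν := rootMultiplicity (IsLocalRing.residue R a) (N.map (IsLocalRing.residue R)) with hν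
  have hmap : (N - (X - C a) ^ ν * N₁).map (IsLocalRing.residue R) = 0 := by
    rw [Polynomial.map_sub, Polynomial.map_mul, Polynomial.map_pow, Polynomial.map_sub,
      map_X, map_C, hN₁, ← hQ, sub_self]
  have hdvd : C π ∣ N - (X - C a) ^ ν * N₁ := by
    rw [C_dvd_iff_dvd_coeff]
    intro i
    have h1 : IsLocalRing.residue R ((N - (X - C a) ^ ν * N₁).coeff i) = 0 := by
      rw [← coeff_map, hmap, coeff_zero]
    rw [IsLocalRing.residue_eq_zero_iff, hπ.maximalIdeal_eq, Ideal.mem_span_singleton] at h1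
    exact h1
  obtain ⟨N₂, hN₂⟩ := hdvd
  refine ⟨ν, N₁, N₂, by rw [← hN₂]; ring, ?_⟩
  rw [← IsLocalRing.notMem_maximalIdeal, ← IsLocalRing.residue_eq_zero_iff]
  intro h0
  apply hndvd
  rw [dvd_iff_isRoot, IsRoot.def, ← hN₁, eval_map_apply, h0]

section RQ44R

variable {R F : Type*} [CommRing R] [IsDomain R] [IsDiscreteValuationRing R] [Field F]
  [Algebra R F]

/-- The order of a polynomial value `N(J)` is a multiple of the order of `L = J - a ∈ n`. -/
theorem rq44_Ord_aeval (π : R) (hπ : Irreducible π) (hπ0 : algebraMap R F π ≠ 0)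
    (B : Subalgebra R F) (V : ValuationSubring F) (hBV : ∀ x ∈ B, x ∈ V)
    (n : Ideal B) [hn : n.IsPrime] (z J L : B) (a : R) (hL : L = J - algebraMap R B a)
    (hLn : L ∈ n) (e : ℕ) (hLe : rq44_Ord π B V n z L e)
    (N : R[X]) (hN : N.map (IsLocalRing.residue R) ≠ 0) :
    ∃ ν : ℕ, rq44_Ord π B V n z (aeval J N) (ν * e) := by
  obtain ⟨ν, N₁, N₂, hfac, hunit⟩ := rq44_poly_factor π hπ N hN a
  refine ⟨ν, ?_⟩
  have hXa : aeval J (X - C a : R[X]) = L := by
    rw [hL, map_sub, aeval_X, aeval_C]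
  have hval : aeval J N = L ^ ν * aeval J N₁ + algebraMap R B π * aeval J N₂ := by
    rw [hfac, map_add, map_mul, map_mul, map_pow, hXa, aeval_C]
  -- `N₁(J) ∉ n`
  have hN₁n : aeval J N₁ ∉ n := by
    intro hmem
    obtain ⟨Q, hQ⟩ := X_sub_C_dvd_sub_C_eval (a := a) (p := N₁)
    have h1 : aeval J N₁ - algebraMap R B (N₁.eval a) = L * aeval J Q := by
      have := congrArg (aeval J) hQ
      rw [map_sub, aeval_C, map_mul, hXa] at this
      exact this
    have h2 : algebraMap R B (N₁.eval a) ∈ n := by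
      have : algebraMap R B (N₁.eval a) = aeval J N₁ - L * aeval J Q := by rw [← h1]; ring
      rw [this]
      exact n.sub_mem hmem (n.mul_mem_right _ hLn)
    exact hn.ne_top (Ideal.eq_top_of_isUnit_mem n h2 (hunit.map (algebraMap R B)))
  have h3 : rq44_Ord π B V n z (L ^ ν * aeval J N₁) (ν * e + 0) :=
    rq44_Ord_mul π B V hBV n z _ _ _ _ (rq44_Ord_pow π B V hBV n z L e hLe ν)
      (rq44_Ord_unit π B V n z _ hN₁n)
  rw [Nat.add_zero] at h3
  refine rq44_Ord_congr π B V hBV n z _ _ _ ?_ h3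
  have e1 : (algebraMap R F π)⁻¹ * (((L ^ ν * aeval J N₁ : B) : F) - ((aeval J N : B) : F)) =
      -((aeval J N₂ : B) : F) := by
    rw [hval]
    push_cast
    field_simp
    ring
  rw [e1]
  exact V.neg_mem _ (hBV _ (aeval J N₂).2)

omit [IsDomain R] [IsDiscreteValuationRing R] in
/-- `s x = u c ^ k` with `s, u ∉ n` ⟹ the order of `x` is `k` times the order of `c`. -/
theorem rq44_Ord_of_factor (π : R) (B : Subalgebra R F) [IsNoetherianRing B]
    (V : ValuationSubring F) (hBV : ∀ x ∈ B, x ∈ V) (hπV : (algebraMap R F π)⁻¹ ∉ V)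
    (hV : ∀ x ∈ V, (algebraMap R F π)⁻¹ * x ∉ V → x⁻¹ ∈ V)
    (n : Ideal B) [hn : n.IsMaximal] (hOn : sf79_OnBr π B V.toSubring n)
    (z : B) (hz : sf79_Unif π B V.toSubring n z)
    (hzV : (algebraMap R F π)⁻¹ * (z : F) ∉ V)
    (x s u c : B) (k : ℕ) (hs : s ∉ n) (hu : u ∉ n) (hfac : s * x = u * c ^ k)
    (hxV : (algebraMap R F π)⁻¹ * (x : F) ∉ V) (e : ℕ) (hxe : rq44_Ord π B V n z x e) :
    ∃ γ : ℕ, e = k * γ := by
  have hnp : n.IsPrime := hn.isPrime
  have hsinv : (s : F)⁻¹ ∈ V := rq44_inv_mem π B V hBV hV n hOn s hs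
  have hs0 : (s : F) ≠ 0 := sf79_ne_zero B n s hs
  have hfacF : (s : F) * (x : F) = (u : F) * (c : F) ^ k := by
    have := congrArg (fun b : B => (b : F)) hfac
    simpa using this
  rcases Nat.eq_zero_or_pos k with hk | hk
  · -- `k = 0`: `s x = u`, so `x ∉ n` and `e = 0`
    subst hk
    refine ⟨0, ?_⟩
    have hxn : x ∉ n := by
      intro hx
      apply hu
      have : u = s * x := by rw [hfac, pow_zero, mul_one]
      rw [this]
      exact n.mul_mem_left s hx
    have := rq44_Ord_unique π B V hBV hV n hOn z hz.1 hzV _ _ _ hxe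
      (rq44_Ord_unit π B V n z x hxn)
    omega
  -- `c` is a unit along `V`
  have hcV : (algebraMap R F π)⁻¹ * (c : F) ∉ V := by
    intro hc
    obtain ⟨k', rfl⟩ : ∃ k', k = k' + 1 := ⟨k - 1, by omega⟩
    apply hxV
    have e1 : (algebraMap R F π)⁻¹ * (x : F) =
        (s : F)⁻¹ * ((u : F) * (c : F) ^ k' * ((algebraMap R F π)⁻¹ * (c : F))) := by
      have h2 : (x : F) = (s : F)⁻¹ * ((u : F) * (c : F) ^ (k' + 1)) := by
        rw [← hfacF]
        field_simp
      rw [h2, pow_succ]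
      ring
    rw [e1]
    exact V.mul_mem _ _ hsinv
      (V.mul_mem _ _ (V.mul_mem _ _ (hBV _ u.2) (pow_mem (hBV _ c.2) k')) hc)
  obtain ⟨γ, hγ⟩ := rq44_Ord_exists π B V hBV hπV hV n hOn z hz c hcV
  refine ⟨γ, ?_⟩
  have h1 : rq44_Ord π B V n z (s * x) (0 + e) :=
    rq44_Ord_mul π B V hBV n z _ _ _ _ (rq44_Ord_unit π B V n z s hs) hxe
  have h2 : rq44_Ord π B V n z (u * c ^ k) (0 + k * γ) :=
    rq44_Ord_mul π B V hBV n z _ _ _ _ (rq44_Ord_unit π B V n z u hu)
      (rq44_Ord_pow π B V hBV n z c γ hγ k)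
  rw [hfac] at h1
  have := rq44_Ord_unique π B V hBV hV n hOn z hz.1 hzV _ _ _ h1 h2
  omega

end RQ44R

end Fermat.Agent.S36
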