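import Mathlib
import Fermat.Agent.S34.SpecFibre79
import Fermat.Agent.S36.NodeRegen18
import Fermat.Agent.S36.NodeDVR13

/-!
# S36 lab, row 599 C-REGq, binding plan: pull-back of a divisibility in the branch ring
(helper18)

The divisibility `ϖ ^ m ∣ ū` in the discrete valuation ring `O` of the `V₁`-branch at a closed
point `n` (uniformiser `ϖ` = the class of a smooth coordinate `z₁`) is exactly the hypothesis
`hdiv` of `nb18_node` / `nb18_hnode_transv`: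
`∃ s a : B, s ∉ n ∧ π⁻¹ (s u - a z₁ ^ m) ∈ V₁`.

* `np18_pull_loc`   : for ANY surjective ring hom `φ : sf79_loc B n →+* O` whose kernel lies in
  `π V`;
* `np18_pull_chart` : for ANY ring hom `φ : B →+* O` whose kernel lies in `π V` and such that
  every element of `O` is a fraction `φ a / φ s` with `s ∉ n`;
* `np18_pull_nd13`  : for the branch ring `nd13_O` of `S36/NodeDVR13`;
* `np18_hnode_loc`, `np18_hnode_chart`, `np18_hnode_nd13` : the node clause `hnode` of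
  `tl71_reg_of_nodes` from transversality, a smooth coordinate `z₁` of the `V₁`-branch,
  `u v = π ^ (μ + 1) e` and `ϖ ^ (μ + 1) ∣ ū` in the branch ring.

All names are prefixed `np18_`.
-/

set_option autoImplicit false

namespace Fermat.Agent.S36

open Fermat.Agent.S34

section NP18

variable {R F : Type*} [CommRing R] [Field F] [Algebra R F]

/-- Pull-back of a divisibility along a surjection `B_n → O` with kernel in `π V`. -/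
theorem np18_pull_loc (π : R) (B : Subalgebra R F) (V : Subring F) (hBV : ∀ x ∈ B, x ∈ V)
    (n : Ideal B) [hn : n.IsPrime] {O : Type*} [CommRing O]
    (φ : sf79_loc B n →+* O) (hφs : Function.Surjective φ)
    (hφk : ∀ x : sf79_loc B n, φ x = 0 → (algebraMap R F π)⁻¹ * (x : F) ∈ V)
    (z u : B) (m : ℕ)
    (hdvd : φ ⟨(z : F), sf79_le_loc B n _ z.2⟩ ^ m ∣ φ ⟨(u : F), sf79_le_loc B n _ u.2⟩) :
    ∃ s a : B, s ∉ n ∧
      (algebraMap R F π)⁻¹ * ((s : F) * (u : F) - (a : F) * (z : F) ^ m) ∈ V := by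
  obtain ⟨c, hc⟩ := hdvd
  obtain ⟨x, rfl⟩ := hφs c
  have h0 : φ ((⟨(u : F), sf79_le_loc B n _ u.2⟩ : sf79_loc B n) -
      (⟨(z : F), sf79_le_loc B n _ z.2⟩ : sf79_loc B n) ^ m * x) = 0 := by
    rw [map_sub, map_mul, map_pow, hc, sub_self]
  have h := hφk _ h0
  obtain ⟨x, s, hs, hsx⟩ := x
  refine ⟨s, ⟨_, hsx⟩, hs, ?_⟩
  have e : (algebraMap R F π)⁻¹ * ((s : F) * (u : F) - (s : F) * x * (z : F) ^ m) =
      (s : F) * ((algebraMap R F π)⁻¹ * ((u : F) - (z : F) ^ m * x)) := by ring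
  show (algebraMap R F π)⁻¹ * ((s : F) * (u : F) - (s : F) * x * (z : F) ^ m) ∈ V
  rw [e]
  exact V.mul_mem (hBV _ s.2) h

/-- Pull-back of a divisibility along a ring hom `B → O` with kernel in `π V`, every element of
`O` being a fraction `φ a / φ s` with `s ∉ n`. -/
theorem np18_pull_chart (π : R) (B : Subalgebra R F) (V : Subring F)
    (n : Ideal B) {O : Type*} [CommRing O]
    (φ : B →+* O) (hfrac : ∀ x : O, ∃ a s : B, s ∉ n ∧ x * φ s = φ a)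
    (hφk : ∀ b : B, φ b = 0 → (algebraMap R F π)⁻¹ * (b : F) ∈ V)
    (z u : B) (m : ℕ) (hdvd : φ z ^ m ∣ φ u) :
    ∃ s a : B, s ∉ n ∧
      (algebraMap R F π)⁻¹ * ((s : F) * (u : F) - (a : F) * (z : F) ^ m) ∈ V := by
  obtain ⟨c, hc⟩ := hdvd
  obtain ⟨a, s, hs, hsa⟩ := hfrac c
  refine ⟨s, a, hs, ?_⟩
  have h0 : φ (s * u - a * z ^ m) = 0 := by
    rw [map_sub, map_mul, map_mul, map_pow, hc, ← hsa]
    ring
  have h := hφk _ h0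
  have e : ((s * u - a * z ^ m : B) : F) = (s : F) * (u : F) - (a : F) * (z : F) ^ m := by
    push_cast; ring
  rw [e] at h
  exact h

/-- Pull-back of a divisibility in the branch ring `nd13_O` of `S36/NodeDVR13`. -/
theorem np18_pull_nd13 (π : R) (B : Subalgebra R F) (V : Subring F) (hBV : ∀ x ∈ B, x ∈ V)
    (hV : ∀ x ∈ V, (algebraMap R F π)⁻¹ * x ∉ V → x⁻¹ ∈ V)
    (n : Ideal B) [hn : n.IsPrime] (hOn : sf79_OnBr π B V n)
    (z u : B) (m : ℕ)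
    (hdvd : nd13_rho (sf79_loc B n) V (nd13_sf_le π B V hBV hV n hOn) (algebraMap R F π)
        ⟨(z : F), sf79_le_loc B n _ z.2⟩ ^ m ∣
      nd13_rho (sf79_loc B n) V (nd13_sf_le π B V hBV hV n hOn) (algebraMap R F π)
        ⟨(u : F), sf79_le_loc B n _ u.2⟩) :
    ∃ s a : B, s ∉ n ∧
      (algebraMap R F π)⁻¹ * ((s : F) * (u : F) - (a : F) * (z : F) ^ m) ∈ V :=
  np18_pull_loc π B V hBV n
    (nd13_rho (sf79_loc B n) V (nd13_sf_le π B V hBV hV n hOn) (algebraMap R F π))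
    (nd13_rho_surjective _ _ _ _)
    (fun x hx => (nd13_rho_eq_zero_iff _ _ _ _ x).mp hx) z u m hdvd

/-- **The node clause from a divisibility in the branch ring** (any surjection
`φ : B_n → O` with kernel in `π V₁`). -/
theorem np18_hnode_loc (π : R) (B : Subalgebra R F) (V₁ V₂ : Subring F)
    (hB₁ : ∀ x ∈ B, x ∈ V₁) (hB₂ : ∀ x ∈ B, x ∈ V₂)
    (hπ₁ : (algebraMap R F π)⁻¹ ∉ V₁)
    (hV₁ : ∀ x ∈ V₁, (algebraMap R F π)⁻¹ * x ∉ V₁ → x⁻¹ ∈ V₁)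
    (hsat : ∀ x ∈ B, (algebraMap R F π)⁻¹ * x ∈ V₁ → (algebraMap R F π)⁻¹ * x ∈ V₂ →
      (algebraMap R F π)⁻¹ * x ∈ B)
    (hT : sf79_Transv π B V₁ V₂)
    (n : Ideal B) [hn : n.IsMaximal] (hπn : algebraMap R B π ∈ n)
    (h1 : sf79_OnBr π B V₁ n) (h2 : sf79_OnBr π B V₂ n)
    (z₁ : B) (hz₁ : sf79_Unif π B V₁ n z₁)
    (μ : ℕ) (u v e : B) (he : e ∉ n) (huv : u * v = algebraMap R B π ^ (μ + 1) * e)
    (hu : (algebraMap R F π)⁻¹ * (u : F) ∉ V₁)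
    {O : Type*} [CommRing O]
    (φ : sf79_loc B n →+* O) (hφs : Function.Surjective φ)
    (hφk : ∀ x : sf79_loc B n, φ x = 0 → (algebraMap R F π)⁻¹ * (x : F) ∈ V₁)
    (hdvd : φ ⟨(z₁ : F), sf79_le_loc B n _ z₁.2⟩ ^ (μ + 1) ∣
      φ ⟨(u : F), sf79_le_loc B n _ u.2⟩) :
    ∃ z z' s s' : B, s ∉ n ∧ s' ∉ n ∧ (algebraMap R F π)⁻¹ * (z : F) ∈ V₁ ∧
      (algebraMap R F π)⁻¹ * (z' : F) ∈ V₂ ∧ s * z * z' = algebraMap R B π * s' := by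
  obtain ⟨s, a, hs, hdiv⟩ := np18_pull_loc π B V₁ hB₁ n φ hφs hφk z₁ u (μ + 1) hdvd
  exact nb18_hnode_transv π B V₁ V₂ hB₁ hB₂ hπ₁ hV₁ hsat hT n hn hπn h1 h2 z₁ hz₁
    μ u v e he huv hu s a hs hdiv

/-- **The node clause from a divisibility in the branch ring** (any `φ : B → O` with kernel in
`π V₁` and fractions). -/
theorem np18_hnode_chart (π : R) (B : Subalgebra R F) (V₁ V₂ : Subring F)
    (hB₁ : ∀ x ∈ B, x ∈ V₁) (hB₂ : ∀ x ∈ B, x ∈ V₂)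
    (hπ₁ : (algebraMap R F π)⁻¹ ∉ V₁)
    (hV₁ : ∀ x ∈ V₁, (algebraMap R F π)⁻¹ * x ∉ V₁ → x⁻¹ ∈ V₁)
    (hsat : ∀ x ∈ B, (algebraMap R F π)⁻¹ * x ∈ V₁ → (algebraMap R F π)⁻¹ * x ∈ V₂ →
      (algebraMap R F π)⁻¹ * x ∈ B)
    (hT : sf79_Transv π B V₁ V₂)
    (n : Ideal B) [hn : n.IsMaximal] (hπn : algebraMap R B π ∈ n)
    (h1 : sf79_OnBr π B V₁ n) (h2 : sf79_OnBr π B V₂ n)
    (z₁ : B) (hz₁ : sf79_Unif π B V₁ n z₁)
    (μ : ℕ) (u v e : B) (he : e ∉ n) (huv : u * v = algebraMap R B π ^ (μ + 1) * e)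
    (hu : (algebraMap R F π)⁻¹ * (u : F) ∉ V₁)
    {O : Type*} [CommRing O]
    (φ : B →+* O) (hfrac : ∀ x : O, ∃ a s : B, s ∉ n ∧ x * φ s = φ a)
    (hφk : ∀ b : B, φ b = 0 → (algebraMap R F π)⁻¹ * (b : F) ∈ V₁)
    (hdvd : φ z₁ ^ (μ + 1) ∣ φ u) :
    ∃ z z' s s' : B, s ∉ n ∧ s' ∉ n ∧ (algebraMap R F π)⁻¹ * (z : F) ∈ V₁ ∧
      (algebraMap R F π)⁻¹ * (z' : F) ∈ V₂ ∧ s * z * z' = algebraMap R B π * s' := by
  obtain ⟨s, a, hs, hdiv⟩ := np18_pull_chart π B V₁ n φ hfrac hφk z₁ u (μ + 1) hdvd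
  exact nb18_hnode_transv π B V₁ V₂ hB₁ hB₂ hπ₁ hV₁ hsat hT n hn hπn h1 h2 z₁ hz₁
    μ u v e he huv hu s a hs hdiv

/-- **The node clause from a divisibility in the branch ring `nd13_O`** of `S36/NodeDVR13`. -/
theorem np18_hnode_nd13 (π : R) (B : Subalgebra R F) (V₁ V₂ : Subring F)
    (hB₁ : ∀ x ∈ B, x ∈ V₁) (hB₂ : ∀ x ∈ B, x ∈ V₂)
    (hπ₁ : (algebraMap R F π)⁻¹ ∉ V₁)
    (hV₁ : ∀ x ∈ V₁, (algebraMap R F π)⁻¹ * x ∉ V₁ → x⁻¹ ∈ V₁)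
    (hsat : ∀ x ∈ B, (algebraMap R F π)⁻¹ * x ∈ V₁ → (algebraMap R F π)⁻¹ * x ∈ V₂ →
      (algebraMap R F π)⁻¹ * x ∈ B)
    (hT : sf79_Transv π B V₁ V₂)
    (n : Ideal B) [hn : n.IsMaximal] (hπn : algebraMap R B π ∈ n)
    (h1 : sf79_OnBr π B V₁ n) (h2 : sf79_OnBr π B V₂ n)
    (z₁ : B) (hz₁ : sf79_Unif π B V₁ n z₁)
    (μ : ℕ) (u v e : B) (he : e ∉ n) (huv : u * v = algebraMap R B π ^ (μ + 1) * e)
    (hu : (algebraMap R F π)⁻¹ * (u : F) ∉ V₁)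
    (hdvd : nd13_rho (sf79_loc B n) V₁ (nd13_sf_le π B V₁ hB₁ hV₁ n h1) (algebraMap R F π)
        ⟨(z₁ : F), sf79_le_loc B n _ z₁.2⟩ ^ (μ + 1) ∣
      nd13_rho (sf79_loc B n) V₁ (nd13_sf_le π B V₁ hB₁ hV₁ n h1) (algebraMap R F π)
        ⟨(u : F), sf79_le_loc B n _ u.2⟩) :
    ∃ z z' s s' : B, s ∉ n ∧ s' ∉ n ∧ (algebraMap R F π)⁻¹ * (z : F) ∈ V₁ ∧
      (algebraMap R F π)⁻¹ * (z' : F) ∈ V₂ ∧ s * z * z' = algebraMap R B π * s' := by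
  obtain ⟨s, a, hs, hdiv⟩ := np18_pull_nd13 π B V₁ hB₁ hV₁ n h1 z₁ u (μ + 1) hdvd
  exact nb18_hnode_transv π B V₁ V₂ hB₁ hB₂ hπ₁ hV₁ hsat hT n hn hπn h1 h2 z₁ hz₁
    μ u v e he huv hu s a hs hdiv

end NP18

end Fermat.Agent.S36
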