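import Mathlib
import Fermat.Agent.S36.KappaBind40

/-!
# S36 lab, row 626 / row 599 C-REGq (helper21): the rigidity clauses from root data, abstract

Chart language, Mathlib + `kb40_rig_pow` / `kb40_rig_six` (helper40).  `B` a chart in the field
`F`, `n` a prime of `B`, `P` an ideal of `B` killed by `φ : B →+* O` (`O` a discrete valuation
ring, `IsUnit (φ s) ↔ s ∉ n`), `ϖ` a uniformiser.

* `nr21_root_pres` : root data `f = ε c ^ m` at `n` (`ε`, `ε⁻¹`, `c` in `B_n`, elementwise) and a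
  presentation `x = s₀ f` (`s₀ ∉ n`) give `s x = a b ^ m` in `B` with `s, a ∉ n`.
* `nr21_rig_abs` : root data for `j` (`m = 3`) and `j - 1728` (`m = 2`) ⟹ for every presentation
  `sJ j = aJ`: `ϖ ^ 3 ∣ φ aJ` if `aJ ∈ n`; `ϖ ^ 2 ∣ φ (aJ - 1728 sJ)` if `aJ - 1728 sJ ∈ n`;
  `ϖ ^ 6 ∣ φ aJ` if `aJ ∈ n` and `1728 ∈ P` (characteristic `3`).
* `nr21_rig_two` : characteristic `2` (`2 ∈ P`): `j h³ = (h + 27)(h + 243)³`, root data for
  `h + 27` (`m = 3`), `h` regular at `n` ⟹ `ϖ ^ 12 ∣ φ aJ` if `aJ ∈ n`.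
* `nr21_inv_not_mem` : on the chart of `h⁻¹`: if `j` is regular at `n` then `h⁻¹ ∉ n`.

All names are prefixed `nr21_`.
-/

set_option autoImplicit false
set_option linter.unusedVariables false
set_option linter.unusedSectionVars false
set_option linter.style.longLine false

namespace Fermat.Agent.S36

section

variable {R : Type*} {F : Type*} [CommRing R] [Field F] [Algebra R F]

/-- Root data at `n` and a presentation give a relation `s x = a b ^ m` in the chart. -/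
theorem nr21_root_pres (B : Subalgebra R F) (n : Ideal B) [hn : n.IsPrime] (m : ℕ) (f : F)
    (hf0 : f ≠ 0)
    (hroot : ∃ c ε : F, c ≠ 0 ∧ f = ε * c ^ m ∧ (∃ s : B, s ∉ n ∧ (s : F) * ε ∈ B) ∧
      (∃ s : B, s ∉ n ∧ (s : F) * ε⁻¹ ∈ B) ∧ ∃ s : B, s ∉ n ∧ (s : F) * c ∈ B)
    (x s₀ : B) (hs₀ : s₀ ∉ n) (hx : (x : F) = (s₀ : F) * f) :
    ∃ s a b : B, s ∉ n ∧ a ∉ n ∧ s * x = a * b ^ m := by
  obtain ⟨c, ε, hc, hf, ⟨s₁, hs₁, h₁⟩, ⟨s₂, hs₂, h₂⟩, ⟨s₃, hs₃, h₃⟩⟩ := hroot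
  have hε0 : ε ≠ 0 := by
    rintro rfl
    rw [zero_mul] at hf
    exact hf0 hf
  have he₁ : (⟨(s₁ : F) * ε, h₁⟩ : B) ∉ n := by
    intro hmem
    have h4 : (⟨(s₁ : F) * ε, h₁⟩ : B) * ⟨(s₂ : F) * ε⁻¹, h₂⟩ = s₁ * s₂ := by
      apply Subtype.ext
      show (s₁ : F) * ε * ((s₂ : F) * ε⁻¹) = (s₁ : F) * (s₂ : F)
      field_simp
    have h5 : s₁ * s₂ ∈ n := by
      rw [← h4]
      exact n.mul_mem_right _ hmem
    exact (hn.mem_or_mem h5).elim hs₁ hs₂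
  refine ⟨s₁ * s₃ ^ m, s₀ * ⟨(s₁ : F) * ε, h₁⟩, ⟨(s₃ : F) * c, h₃⟩, ?_, ?_, ?_⟩
  · intro hmem
    exact (hn.mem_or_mem hmem).elim hs₁ (fun h => hs₃ (hn.mem_of_pow_mem m h))
  · intro hmem
    exact (hn.mem_or_mem hmem).elim hs₀ he₁
  · apply Subtype.ext
    show (s₁ : F) * ((s₃ ^ m : B) : F) * (x : F) =
      (s₀ : F) * ((s₁ : F) * ε) * (((⟨(s₃ : F) * c, h₃⟩ : B) ^ m : B) : F)
    have e1 : ((s₃ ^ m : B) : F) = (s₃ : F) ^ m := by push_cast; rfl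
    have e2 : (((⟨(s₃ : F) * c, h₃⟩ : B) ^ m : B) : F) = ((s₃ : F) * c) ^ m := by
      push_cast; rfl
    rw [e1, e2, hx, hf, mul_pow]
    ring

variable {O : Type*} [CommRing O] [IsDomain O] [IsDiscreteValuationRing O]

/-- **The rigidity clauses for `q ≠ 2`** from root data for `j` and `j - 1728`. -/
theorem nr21_rig_abs (B : Subalgebra R F) (n : Ideal B) [hn : n.IsPrime] (P : Ideal B)
    (φ : B →+* O) (hφ0 : ∀ b : B, b ∈ P → φ b = 0) (hφu : ∀ s : B, IsUnit (φ s) ↔ s ∉ n)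
    (ϖ : O) (hϖ : Irreducible ϖ) (j : F) (hj0 : j ≠ 0) (hj1 : j - 1728 ≠ 0)
    (h3 : ∃ c ε : F, c ≠ 0 ∧ j = ε * c ^ 3 ∧ (∃ s : B, s ∉ n ∧ (s : F) * ε ∈ B) ∧
      (∃ s : B, s ∉ n ∧ (s : F) * ε⁻¹ ∈ B) ∧ ∃ s : B, s ∉ n ∧ (s : F) * c ∈ B)
    (h2 : ∃ c ε : F, c ≠ 0 ∧ j - 1728 = ε * c ^ 2 ∧ (∃ s : B, s ∉ n ∧ (s : F) * ε ∈ B) ∧
      (∃ s : B, s ∉ n ∧ (s : F) * ε⁻¹ ∈ B) ∧ ∃ s : B, s ∉ n ∧ (s : F) * c ∈ B)
    (aJ sJ : B) (hsJ : sJ ∉ n) (hJ : (sJ : F) * j = (aJ : F)) :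
    (aJ ∈ n → ϖ ^ 3 ∣ φ aJ) ∧ (aJ - 1728 * sJ ∈ n → ϖ ^ 2 ∣ φ (aJ - 1728 * sJ)) ∧
      ((1728 : B) ∈ P → aJ ∈ n → ϖ ^ 6 ∣ φ aJ) := by
  obtain ⟨s₁, a₁, b₁, hs₁, ha₁, e₁⟩ := nr21_root_pres B n 3 j hj0 h3 aJ sJ hsJ hJ.symm
  have hx2 : ((aJ - 1728 * sJ : B) : F) = (sJ : F) * (j - 1728) := by
    show (aJ : F) - 1728 * (sJ : F) = (sJ : F) * (j - 1728)
    rw [← hJ]
    ring
  obtain ⟨s₂, a₂, b₂, hs₂, ha₂, e₂⟩ :=
    nr21_root_pres B n 2 (j - 1728) hj1 h2 (aJ - 1728 * sJ) sJ hsJ hx2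
  have hb₁ : aJ ∈ n → b₁ ∈ n := by
    intro hx
    by_contra hb
    have h4 : a₁ * b₁ ^ 3 ∈ n := by rw [← e₁]; exact n.mul_mem_left _ hx
    exact (hn.mem_or_mem h4).elim ha₁ (fun h => hb (hn.mem_of_pow_mem 3 h))
  have hb₂ : aJ - 1728 * sJ ∈ n → b₂ ∈ n := by
    intro hx
    by_contra hb
    have h4 : a₂ * b₂ ^ 2 ∈ n := by rw [← e₂]; exact n.mul_mem_left _ hx
    exact (hn.mem_or_mem h4).elim ha₂ (fun h => hb (hn.mem_of_pow_mem 2 h))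
  refine ⟨fun hx => ?_, fun hx => ?_, fun h1728 hx => ?_⟩
  · exact kb40_rig_pow n P φ hφ0 hφu ϖ hϖ 3 aJ s₁ a₁ b₁ hs₁ (hb₁ hx)
      (by rw [e₁, sub_self]; exact P.zero_mem)
  · exact kb40_rig_pow n P φ hφ0 hφu ϖ hϖ 2 (aJ - 1728 * sJ) s₂ a₂ b₂ hs₂ (hb₂ hx)
      (by rw [e₂, sub_self]; exact P.zero_mem)
  · refine kb40_rig_six n P φ hφ0 hφu ϖ hϖ aJ hx s₁ a₁ b₁ hs₁ ha₁
      (by rw [e₁, sub_self]; exact P.zero_mem) s₂ a₂ b₂ hs₂ ha₂ ?_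
    have e : s₂ * aJ - a₂ * b₂ ^ 2 = 1728 * (s₂ * sJ) := by
      rw [← e₂]
      ring
    rw [e]
    exact P.mul_mem_right _ h1728

/-- **The rigidity clause for `q = 2`** from root data for `h + 27` (level-`3` Hauptmodul). -/
theorem nr21_rig_two (B : Subalgebra R F) (n : Ideal B) [hn : n.IsPrime] (P : Ideal B)
    (φ : B →+* O) (hφ0 : ∀ b : B, b ∈ P → φ b = 0) (hφu : ∀ s : B, IsUnit (φ s) ↔ s ∉ n)
    (ϖ : O) (hϖ : Irreducible ϖ) (h2P : (2 : B) ∈ P)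
    (j h : F) (hrel : j * h ^ 3 = (h + 27) * (h + 243) ^ 3) (hh27 : h + 27 ≠ 0)
    (hroot : ∃ c ε : F, c ≠ 0 ∧ h + 27 = ε * c ^ 3 ∧ (∃ s : B, s ∉ n ∧ (s : F) * ε ∈ B) ∧
      (∃ s : B, s ∉ n ∧ (s : F) * ε⁻¹ ∈ B) ∧ ∃ s : B, s ∉ n ∧ (s : F) * c ∈ B)
    (sh ah : B) (hsh : sh ∉ n) (hh : (sh : F) * h = (ah : F))
    (aJ sJ : B) (hsJ : sJ ∉ n) (hJ : (sJ : F) * j = (aJ : F)) (hx : aJ ∈ n) :
    ϖ ^ 12 ∣ φ aJ := by
  have hg : ((ah + 27 * sh : B) : F) = (sh : F) * (h + 27) := by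
    show (ah : F) + 27 * (sh : F) = (sh : F) * (h + 27)
    rw [← hh]
    ring
  obtain ⟨s, a, b, hs, ha, e⟩ := nr21_root_pres B n 3 (h + 27) hh27 hroot (ah + 27 * sh) sh hsh hg
  -- the relation in `B`
  have e1 : aJ * ah ^ 3 * sh = sJ * (ah + 27 * sh) * (ah + 243 * sh) ^ 3 := by
    apply Subtype.ext
    show (aJ : F) * (ah : F) ^ 3 * (sh : F) =
      (sJ : F) * ((ah : F) + 27 * (sh : F)) * ((ah : F) + 243 * (sh : F)) ^ 3
    rw [← hJ, ← hh]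
    have : (sJ : F) * j * ((sh : F) * h) ^ 3 * (sh : F) =
        (sJ : F) * (sh : F) ^ 4 * (j * h ^ 3) := by ring
    rw [this, hrel]
    ring
  have hφ2 : φ (2 : B) = 0 := hφ0 _ h2P
  have h2O : (2 : O) = 0 := by
    have := hφ2
    rwa [map_ofNat] at this
  have hg243 : φ (ah + 243 * sh) = φ (ah + 27 * sh) := by
    have : (ah + 243 * sh : B) = (ah + 27 * sh) + 2 * (108 * sh) := by ring
    rw [this, map_add, map_mul, hφ2, zero_mul, add_zero]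
  have E1 : φ aJ * φ ah ^ 3 * φ sh = φ sJ * φ (ah + 27 * sh) ^ 4 := by
    have := congrArg φ e1
    rw [map_mul, map_mul, map_pow, map_mul, map_mul, map_pow, hg243] at this
    rw [this]
    ring
  have E2 : φ s * φ (ah + 27 * sh) = φ a * φ b ^ 3 := by
    have := congrArg φ e
    rwa [map_mul, map_mul, map_pow] at this
  have hsJu : IsUnit (φ sJ) := (hφu sJ).mpr hsJ
  have hshu : IsUnit (φ sh) := (hφu sh).mpr hsh
  have hsu : IsUnit (φ s) := (hφu s).mpr hs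
  have hau : IsUnit (φ a) := (hφu a).mpr ha
  have hxn : ¬ IsUnit (φ aJ) := fun hu => ((hφu aJ).mp hu) hx
  -- `φ ah` is a unit
  have hahu : IsUnit (φ ah) := by
    by_contra hnu
    have hgu : IsUnit (φ (ah + 27 * sh)) := by
      have h27 : φ (ah + 27 * sh) = φ ah + φ sh := by
        have : (ah + 27 * sh : B) = ah + sh + 2 * (13 * sh) := by ring
        rw [this, map_add, map_add, map_mul, hφ2, zero_mul, add_zero]
      rw [h27]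
      have hmem : φ ah ∈ IsLocalRing.maximalIdeal O := (IsLocalRing.mem_maximalIdeal _).mpr hnu
      by_contra hcon
      have hmem2 : φ ah + φ sh ∈ IsLocalRing.maximalIdeal O :=
        (IsLocalRing.mem_maximalIdeal _).mpr hcon
      have hmem3 : φ sh ∈ IsLocalRing.maximalIdeal O := by
        have := (IsLocalRing.maximalIdeal O).sub_mem hmem2 hmem
        rwa [add_sub_cancel_left] at this
      exact ((IsLocalRing.mem_maximalIdeal _).mp hmem3) hshu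
    have hR : IsUnit (φ sJ * φ (ah + 27 * sh) ^ 4) := hsJu.mul (hgu.pow 4)
    rw [← E1] at hR
    have h5 : IsUnit (φ ah ^ 3) := isUnit_of_mul_isUnit_right (isUnit_of_mul_isUnit_left hR)
    exact hnu ((isUnit_pow_iff (by norm_num : (3 : ℕ) ≠ 0)).mp h5)
  -- the key identity
  have K : φ s ^ 4 * φ ah ^ 3 * φ sh * φ aJ = φ sJ * φ a ^ 4 * φ b ^ 12 := by
    calc φ s ^ 4 * φ ah ^ 3 * φ sh * φ aJ
        = φ s ^ 4 * (φ aJ * φ ah ^ 3 * φ sh) := by ring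
      _ = φ s ^ 4 * (φ sJ * φ (ah + 27 * sh) ^ 4) := by rw [E1]
      _ = φ sJ * (φ s * φ (ah + 27 * sh)) ^ 4 := by ring
      _ = φ sJ * (φ a * φ b ^ 3) ^ 4 := by rw [E2]
      _ = φ sJ * φ a ^ 4 * φ b ^ 12 := by ring
  have hUu : IsUnit (φ s ^ 4 * φ ah ^ 3 * φ sh) := ((hsu.pow 4).mul (hahu.pow 3)).mul hshu
  have hbn : ¬ IsUnit (φ b) := by
    intro hbu
    have hR : IsUnit (φ sJ * φ a ^ 4 * φ b ^ 12) := (hsJu.mul (hau.pow 4)).mul (hbu.pow 12)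
    rw [← K] at hR
    exact hxn (isUnit_of_mul_isUnit_right hR)
  have hϖb : ϖ ∣ φ b := by
    have hm : IsLocalRing.maximalIdeal O = Ideal.span {ϖ} :=
      (IsDiscreteValuationRing.irreducible_iff_uniformizer ϖ).mp hϖ
    have hmem : φ b ∈ IsLocalRing.maximalIdeal O := (IsLocalRing.mem_maximalIdeal _).mpr hbn
    rw [hm] at hmem
    exact Ideal.mem_span_singleton.mp hmem
  have hdvd : ϖ ^ 12 ∣ φ s ^ 4 * φ ah ^ 3 * φ sh * φ aJ := by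
    rw [K]
    exact Dvd.dvd.mul_left (pow_dvd_pow_of_dvd hϖb 12) _
  exact (hUu.dvd_mul_left).mp hdvd

omit [IsDomain O] [IsDiscreteValuationRing O] in
/-- On the chart of `h⁻¹`: where `j` is regular, `h⁻¹` is a unit (`j h³ = (h+27)(h+243)³`). -/
theorem nr21_inv_not_mem (B : Subalgebra R F) (n : Ideal B) [hn : n.IsPrime]
    (j h : F) (hh0 : h ≠ 0) (hrel : j * h ^ 3 = (h + 27) * (h + 243) ^ 3)
    (t : B) (ht : (t : F) = h⁻¹)
    (aJ sJ : B) (hsJ : sJ ∉ n) (hJ : (sJ : F) * j = (aJ : F)) : t ∉ n := by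
  intro htn
  have e1 : aJ * t = sJ * (1 + 27 * t) * (1 + 243 * t) ^ 3 := by
    apply Subtype.ext
    show (aJ : F) * (t : F) = (sJ : F) * (1 + 27 * (t : F)) * (1 + 243 * (t : F)) ^ 3
    rw [← hJ, ht]
    have hj : j = (h + 27) * (h + 243) ^ 3 * (h⁻¹) ^ 3 := by
      rw [← hrel]
      field_simp
    rw [hj]
    field_simp
  have h1 : ∀ k : B, (1 + k * t : B) ∉ n := by
    intro k hmem
    have : (1 : B) ∈ n := by
      have h2 := n.sub_mem hmem (n.mul_mem_left k htn)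
      rwa [add_sub_cancel_right] at h2
    exact hn.ne_top ((Ideal.eq_top_iff_one _).mpr this)
  have h3 : sJ * (1 + 27 * t) * (1 + 243 * t) ^ 3 ∈ n := by
    rw [← e1]
    exact n.mul_mem_left _ htn
  rcases hn.mem_or_mem h3 with h4 | h4
  · rcases hn.mem_or_mem h4 with h5 | h5
    · exact hsJ h5
    · exact h1 27 h5
  · exact h1 243 (hn.mem_of_pow_mem 3 h4)

end

end Fermat.Agent.S36
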