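import Mathlib
import Fermat.Agent.S36.RigidRedInst79
import Fermat.Agent.S36.HauptTwo49

/-!
# S36 lab, row 599 (helper79): the rigidity clauses for `q = 2` at the level-`N q` charts

`N` a good level with `3 ∣ N`, `nuThree N = 0`; `B` one of the two charts `pk15_chart R {h₃}`,
`pk15_chart R {h₃⁻¹}` at level `N q`, `J = rm90_j K (N q)`.

* `rr79c_h27_reg_inv` : on the chart `{h₃⁻¹}` (any level), `h₃ + 27` is regular wherever `J` is.
* `rr79c_rootAt_h27` : `rt79_RootAt π B J (h₃ + 27) 3` on both charts of level `N q`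
  (`rc43_level3_h27` at level `N` + the transport `rt79c_level3`).
* `rr79c_clauses_two_of_root`, `rr79c_clauses_two`, `rr79c_clauses_two_inv` : **for every closed
  point `n ∋ π` where `J` is regular and every ring hom `φ : B →+* O` inverting `B ∖ n` into a
  LOCAL ring `O` with `(2 : O) = 0`** (`Φ = rr79_ext B n φ hφ`):
  `Φ J = w * d ^ 12`, `Φ J = u * c ^ 3`, `Φ J = u * d ^ 4`, `Φ J - 1728 = u * d ^ 2`
  (the clauses `hj3`, `hj4`, `hj2` of `ka13_kappa_eq_one` at `q = 2`; `ϖ ^ 12 ∣ Φ J` by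
  `rr79_pow_dvd`).

All names are prefixed `rr79c_`.
-/

set_option autoImplicit false
set_option linter.unusedSectionVars false

open ModularCurve AlgebraicCurve

namespace Fermat.Agent.S36

open Fermat.Agent.S18 Fermat.Agent.S24 Fermat.Agent.S34

local notation "Q̄" => AlgebraicClosure ℚ

section RR79Two

variable {R K : Type} [CommRing R] [IsDomain R] [IsDiscreteValuationRing R] [Field K]
  [NumberField K] [Algebra K Q̄] [Algebra R K] [IsFractionRing R K]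

/-- On the chart `{h₃⁻¹}`, `h₃ + 27` is regular wherever `J` is. -/
theorem rr79c_h27_reg_inv (M : ℕ) [NeZero M] [Algebra R ↥(modularFunctionFieldFullC K M)]
    [IsScalarTower R K ↥(modularFunctionFieldFullC K M)] (h3 : 3 ∣ M)
    (n : Ideal ↥(pk15_chart R ({(pk85_h3 K M h3)⁻¹} : Set ↥(modularFunctionFieldFullC K M))))
    [hn : n.IsPrime]
    (hreg : ∃ s : ↥(pk15_chart R ({(pk85_h3 K M h3)⁻¹} : Set ↥(modularFunctionFieldFullC K M))),
      s ∉ n ∧ (s : ↥(modularFunctionFieldFullC K M)) * rm90_j K M ∈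
        pk15_chart R ({(pk85_h3 K M h3)⁻¹} : Set ↥(modularFunctionFieldFullC K M))) :
    ∃ s : ↥(pk15_chart R ({(pk85_h3 K M h3)⁻¹} : Set ↥(modularFunctionFieldFullC K M))),
      s ∉ n ∧ (s : ↥(modularFunctionFieldFullC K M)) * (pk85_h3 K M h3 + 27) ∈
        pk15_chart R ({(pk85_h3 K M h3)⁻¹} : Set ↥(modularFunctionFieldFullC K M)) := by
  have htB : (pk85_h3 K M h3)⁻¹ ∈
      pk15_chart R ({(pk85_h3 K M h3)⁻¹} : Set ↥(modularFunctionFieldFullC K M)) :=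
    pk15_subset_chart _ (Set.mem_singleton _)
  have hh0 : pk85_h3 K M h3 ≠ 0 := fun h0 =>
    pk85_h3_transcendental K M h3 (by rw [h0]; exact isAlgebraic_zero)
  have hrel : rm90_j K M * (pk85_h3 K M h3)⁻¹ =
      (1 + 27 * (pk85_h3 K M h3)⁻¹) * (1 + 243 * (pk85_h3 K M h3)⁻¹) ^ 3 := by
    have hrel := pk85_h3_rel K M h3
    have hj : rm90_j K M =
        (pk85_h3 K M h3 + 27) * (pk85_h3 K M h3 + 243) ^ 3 / pk85_h3 K M h3 ^ 3 := by
      rw [eq_div_iff (pow_ne_zero 3 hh0)]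
      exact hrel
    rw [hj]
    field_simp
  by_cases ht : (⟨(pk85_h3 K M h3)⁻¹, htB⟩ :
      ↥(pk15_chart R ({(pk85_h3 K M h3)⁻¹} : Set ↥(modularFunctionFieldFullC K M)))) ∈ n
  · exfalso
    obtain ⟨s, hs, hsJ⟩ := hreg
    have key : ∀ c : ↥(pk15_chart R ({(pk85_h3 K M h3)⁻¹} :
        Set ↥(modularFunctionFieldFullC K M))), 1 + c * ⟨(pk85_h3 K M h3)⁻¹, htB⟩ ∈ n → False := by
      intro c h1
      have h2' : (1 : ↥(pk15_chart R ({(pk85_h3 K M h3)⁻¹} :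
          Set ↥(modularFunctionFieldFullC K M)))) ∈ n := by
        have : (1 : ↥(pk15_chart R ({(pk85_h3 K M h3)⁻¹} :
            Set ↥(modularFunctionFieldFullC K M)))) =
            (1 + c * ⟨(pk85_h3 K M h3)⁻¹, htB⟩) - c * ⟨(pk85_h3 K M h3)⁻¹, htB⟩ := by ring
        rw [this]
        exact Ideal.sub_mem _ h1 (Ideal.mul_mem_left _ _ ht)
      exact hn.ne_top ((Ideal.eq_top_iff_one _).mpr h2')
    have hprod : (⟨_, hsJ⟩ : ↥(pk15_chart R ({(pk85_h3 K M h3)⁻¹} :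
        Set ↥(modularFunctionFieldFullC K M)))) * ⟨(pk85_h3 K M h3)⁻¹, htB⟩ =
        s * ((1 + algebraMap R _ 27 * ⟨(pk85_h3 K M h3)⁻¹, htB⟩) *
          (1 + algebraMap R _ 243 * ⟨(pk85_h3 K M h3)⁻¹, htB⟩) ^ 3) := by
      apply Subtype.ext
      show (s : ↥(modularFunctionFieldFullC K M)) * rm90_j K M * (pk85_h3 K M h3)⁻¹ =
        (s : ↥(modularFunctionFieldFullC K M)) *
          ((1 + algebraMap R ↥(modularFunctionFieldFullC K M) 27 * (pk85_h3 K M h3)⁻¹) *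
            (1 + algebraMap R ↥(modularFunctionFieldFullC K M) 243 * (pk85_h3 K M h3)⁻¹) ^ 3)
      rw [mul_assoc, hrel, map_ofNat, map_ofNat]
    have hmem : s * ((1 + algebraMap R _ 27 * ⟨(pk85_h3 K M h3)⁻¹, htB⟩) *
        (1 + algebraMap R _ 243 * ⟨(pk85_h3 K M h3)⁻¹, htB⟩) ^ 3) ∈ n := by
      rw [← hprod]
      exact n.mul_mem_left _ ht
    rcases hn.mem_or_mem hmem with h | h
    · exact hs h
    · rcases hn.mem_or_mem h with h1 | h1
      · exact key _ h1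
      · exact key _ (hn.mem_of_pow_mem _ h1)
  · refine ⟨⟨(pk85_h3 K M h3)⁻¹, htB⟩, ht, ?_⟩
    have e : (pk85_h3 K M h3)⁻¹ * (pk85_h3 K M h3 + 27) =
        1 + algebraMap R ↥(modularFunctionFieldFullC K M) 27 * (pk85_h3 K M h3)⁻¹ := by
      rw [map_ofNat]
      field_simp
    show (pk85_h3 K M h3)⁻¹ * (pk85_h3 K M h3 + 27) ∈ _
    rw [e]
    exact Subalgebra.add_mem _ (Subalgebra.one_mem _)
      (Subalgebra.mul_mem _ (Subalgebra.algebraMap_mem _ 27) htB)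

/-- **The clauses for `q = 2` from the root structure of `h₃ + 27`.** -/
theorem rr79c_clauses_two_of_root {π : R} (M : ℕ) [NeZero M]
    [Algebra R ↥(modularFunctionFieldFullC K M)]
    [IsScalarTower R K ↥(modularFunctionFieldFullC K M)] (h3 : 3 ∣ M)
    (B : Subalgebra R ↥(modularFunctionFieldFullC K M))
    (hroot : rt79_RootAt π B (rm90_j K M) (pk85_h3 K M h3 + 27) 3)
    (n : Ideal B) [hn : n.IsMaximal] (hπn : algebraMap R B π ∈ n)
    (hreg : ∃ s : B, s ∉ n ∧ (s : ↥(modularFunctionFieldFullC K M)) * rm90_j K M ∈ B)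
    {O : Type*} [CommRing O] [IsLocalRing O] (h2 : (2 : O) = 0)
    (φ : B →+* O) (hφ : ∀ b : B, b ∉ n → IsUnit (φ b)) :
    (∃ w d : O, IsUnit w ∧ rr79_ext B n φ hφ ⟨rm90_j K M, hreg⟩ = w * d ^ 12) ∧
    (∃ c' u' : O, IsUnit u' ∧ rr79_ext B n φ hφ ⟨rm90_j K M, hreg⟩ = u' * c' ^ 3) ∧
    (∃ d u' : O, IsUnit u' ∧ rr79_ext B n φ hφ ⟨rm90_j K M, hreg⟩ = u' * d ^ 4) ∧
    (∃ d u' : O, IsUnit u' ∧ rr79_ext B n φ hφ ⟨rm90_j K M, hreg⟩ - 1728 = u' * d ^ 2) := by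
  obtain ⟨c, ε, -, hfac, hε, hε', hc⟩ := hroot n hn hπn hreg
  have hε0 : ε ≠ 0 := by
    rintro rfl
    rw [zero_mul] at hfac
    apply pk85_h3_transcendental K M h3
    have h1 : pk85_h3 K M h3 = algebraMap K ↥(modularFunctionFieldFullC K M) (-27) := by
      rw [map_neg, map_ofNat]
      exact eq_neg_of_add_eq_zero_left hfac
    rw [h1]
    exact isAlgebraic_algebraMap _
  have hεm : ε ∈ sf79_loc B n := hε
  have hε'm : ε⁻¹ ∈ sf79_loc B n := hε'
  have hcm : c ∈ sf79_loc B n := hc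
  have hhm : pk85_h3 K M h3 ∈ sf79_loc B n := by
    have h1 : pk85_h3 K M h3 = ε * c ^ 3 - 27 := by rw [← hfac]; ring
    rw [h1]
    exact (sf79_loc B n).sub_mem ((sf79_loc B n).mul_mem hεm ((sf79_loc B n).pow_mem hcm 3))
      (by
        have h27 : (27 : ↥(modularFunctionFieldFullC K M)) = ((27 : ℕ) : _) := by norm_num
        rw [h27]
        exact natCast_mem _ 27)
  obtain ⟨⟨w, hw, hwJ⟩, h3c, h4c, h2c⟩ := ht49_clauses_map (sf79_loc B n)
    (rr79_ext B n φ hφ) h2 (rm90_j K M) (pk85_h3 K M h3) ε c hreg hhm hεm hε'm hcm hε0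
    (pk85_h3_rel K M h3) hfac
  exact ⟨⟨w, _, hw, hwJ⟩, h3c, h4c, h2c⟩

variable (N q : ℕ) [NeZero N] [NeZero q]
  [Algebra R ↥(modularFunctionFieldFullC K N)]
  [IsScalarTower R K ↥(modularFunctionFieldFullC K N)]
  [Algebra R ↥(modularFunctionFieldFullC K (N * q))]
  [IsScalarTower R K ↥(modularFunctionFieldFullC K (N * q))]

theorem rr79c_alpha_h27 (h3 : 3 ∣ N) :
    al97L_alpha K N q (pk85_h3 K N h3 + 27) =
      pk85_h3 K (N * q) (Dvd.dvd.mul_right h3 q) + 27 := by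
  rw [map_add, rt79c_alpha_h3, map_ofNat]

/-- **The root structure of `h₃ + 27` at level `N q`, both charts.** -/
theorem rr79c_rootAt_h27 {π : R} (hπ : Irreducible π) (h3 : 3 ∣ N) (hNu : IsUnit (N : R))
    (hν3 : nuThree N = 0) :
    rt79_RootAt π (pk15_chart R ({pk85_h3 K (N * q) (Dvd.dvd.mul_right h3 q)} :
        Set ↥(modularFunctionFieldFullC K (N * q)))) (rm90_j K (N * q))
      (pk85_h3 K (N * q) (Dvd.dvd.mul_right h3 q) + 27) 3 ∧
    rt79_RootAt π (pk15_chart R ({(pk85_h3 K (N * q) (Dvd.dvd.mul_right h3 q))⁻¹} :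
        Set ↥(modularFunctionFieldFullC K (N * q)))) (rm90_j K (N * q))
      (pk85_h3 K (N * q) (Dvd.dvd.mul_right h3 q) + 27) 3 := by
  obtain ⟨c1, c2⟩ := rc43_level3_h27 (R := R) (K := K) N hπ h3 hNu hν3
  have h3u : IsUnit (3 : R) := by
    have := rr79c_isUnit_of_dvd (R := R) N h3 hNu
    exact_mod_cast this
  constructor
  · have h := rt79c_level3 N q π h3 h3u (pk85_h3 K N h3 + 27) 3
      (rr79_rootAt_of_rc43 π _ (rm90_j K N) _ 3 (fun n hn _ => by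
        haveI := hn.isPrime
        refine ⟨1, (Ideal.ne_top_iff_one n).mp hn.ne_top, ?_⟩
        have h27 : (27 : ↥(modularFunctionFieldFullC K N)) =
            algebraMap R ↥(modularFunctionFieldFullC K N) 27 := (map_ofNat _ 27).symm
        rw [h27]
        simpa using Subalgebra.add_mem _
          (pk15_subset_chart (R := R) ({pk85_h3 K N h3} : Set ↥(modularFunctionFieldFullC K N))
            (Set.mem_singleton _)) (Subalgebra.algebraMap_mem _ (27 : R))) c1)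
    rwa [rr79c_alpha_h27] at h
  · have h := rt79c_level3_inv N q π h3 (pk85_h3 K N h3 + 27) 3
      (rr79_rootAt_of_rc43 π _ (rm90_j K N) _ 3 (fun n hn hj => by
        haveI := hn.isPrime
        exact rr79c_h27_reg_inv N h3 n hj) c2)
    rwa [rr79c_alpha_h27] at h

/-- **`q = 2`, chart `{h₃}` of level `N q`: the clauses in `O`.** -/
theorem rr79c_clauses_two {π : R} (hπ : Irreducible π) (h3 : 3 ∣ N) (hNu : IsUnit (N : R))
    (hν3 : nuThree N = 0)
    (n : Ideal ↥(pk15_chart R ({pk85_h3 K (N * q) (Dvd.dvd.mul_right h3 q)} :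
      Set ↥(modularFunctionFieldFullC K (N * q))))) [hn : n.IsMaximal]
    (hπn : algebraMap R _ π ∈ n)
    (hreg : ∃ s : ↥(pk15_chart R ({pk85_h3 K (N * q) (Dvd.dvd.mul_right h3 q)} :
      Set ↥(modularFunctionFieldFullC K (N * q)))), s ∉ n ∧
      (s : ↥(modularFunctionFieldFullC K (N * q))) * rm90_j K (N * q) ∈
        pk15_chart R ({pk85_h3 K (N * q) (Dvd.dvd.mul_right h3 q)} :
          Set ↥(modularFunctionFieldFullC K (N * q))))
    {O : Type*} [CommRing O] [IsLocalRing O] (h2 : (2 : O) = 0)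
    (φ : ↥(pk15_chart R ({pk85_h3 K (N * q) (Dvd.dvd.mul_right h3 q)} :
      Set ↥(modularFunctionFieldFullC K (N * q)))) →+* O)
    (hφ : ∀ b, b ∉ n → IsUnit (φ b)) :
    (∃ w d : O, IsUnit w ∧ rr79_ext _ n φ hφ ⟨rm90_j K (N * q), hreg⟩ = w * d ^ 12) ∧
    (∃ c' u' : O, IsUnit u' ∧ rr79_ext _ n φ hφ ⟨rm90_j K (N * q), hreg⟩ = u' * c' ^ 3) ∧
    (∃ d u' : O, IsUnit u' ∧ rr79_ext _ n φ hφ ⟨rm90_j K (N * q), hreg⟩ = u' * d ^ 4) ∧
    (∃ d u' : O, IsUnit u' ∧ rr79_ext _ n φ hφ ⟨rm90_j K (N * q), hreg⟩ - 1728 = u' * d ^ 2) :=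
  rr79c_clauses_two_of_root (N * q) (Dvd.dvd.mul_right h3 q) _
    (rr79c_rootAt_h27 N q hπ h3 hNu hν3).1 n hπn hreg h2 φ hφ

/-- **`q = 2`, chart `{h₃⁻¹}` of level `N q`: the clauses in `O`.** -/
theorem rr79c_clauses_two_inv {π : R} (hπ : Irreducible π) (h3 : 3 ∣ N) (hNu : IsUnit (N : R))
    (hν3 : nuThree N = 0)
    (n : Ideal ↥(pk15_chart R ({(pk85_h3 K (N * q) (Dvd.dvd.mul_right h3 q))⁻¹} :
      Set ↥(modularFunctionFieldFullC K (N * q))))) [hn : n.IsMaximal]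
    (hπn : algebraMap R _ π ∈ n)
    (hreg : ∃ s : ↥(pk15_chart R ({(pk85_h3 K (N * q) (Dvd.dvd.mul_right h3 q))⁻¹} :
      Set ↥(modularFunctionFieldFullC K (N * q)))), s ∉ n ∧
      (s : ↥(modularFunctionFieldFullC K (N * q))) * rm90_j K (N * q) ∈
        pk15_chart R ({(pk85_h3 K (N * q) (Dvd.dvd.mul_right h3 q))⁻¹} :
          Set ↥(modularFunctionFieldFullC K (N * q))))
    {O : Type*} [CommRing O] [IsLocalRing O] (h2 : (2 : O) = 0)
    (φ : ↥(pk15_chart R ({(pk85_h3 K (N * q) (Dvd.dvd.mul_right h3 q))⁻¹} :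
      Set ↥(modularFunctionFieldFullC K (N * q)))) →+* O)
    (hφ : ∀ b, b ∉ n → IsUnit (φ b)) :
    (∃ w d : O, IsUnit w ∧ rr79_ext _ n φ hφ ⟨rm90_j K (N * q), hreg⟩ = w * d ^ 12) ∧
    (∃ c' u' : O, IsUnit u' ∧ rr79_ext _ n φ hφ ⟨rm90_j K (N * q), hreg⟩ = u' * c' ^ 3) ∧
    (∃ d u' : O, IsUnit u' ∧ rr79_ext _ n φ hφ ⟨rm90_j K (N * q), hreg⟩ = u' * d ^ 4) ∧
    (∃ d u' : O, IsUnit u' ∧ rr79_ext _ n φ hφ ⟨rm90_j K (N * q), hreg⟩ - 1728 = u' * d ^ 2) :=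
  rr79c_clauses_two_of_root (N * q) (Dvd.dvd.mul_right h3 q) _
    (rr79c_rootAt_h27 N q hπ h3 hNu hν3).2 n hπn hreg h2 φ hφ

end RR79Two

end Fermat.Agent.S36
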