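import Fermat.Agent.S36.NodeData21
import Fermat.Agent.S36.RigidRedTwo79

/-!
# S36 lab, row 599 C-REGq (helper68): the rigidity input `nk21_Rig` at every node, ALL `q`
(including the `q = 2` clause), and hence (REG-q) = `hr₁`, `hr₂` of `tf71b_twoGen`

`nk21_reg` (helper21, `NodeData21`) reduces (REG-q) on the canonical level-`M' q` charts to the
rigidity input `nk21_Rig` at every node.  Here `nk21_Rig` is proved from helper79's clauses
(`rr79c_clauses_level2/3(_inv)`, `rr79c_clauses_two(_inv)`; `RigidRedInst79`, `RigidRedTwo79`):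

* `nrg68_core` : the four divisibility clauses of `nk21_Rig` from the clauses for
  `Φ J = rr79_ext B n φ hφ J` (`φ sJ * Φ J = φ aJ`, `rr79_ext_spec`).
* `nrg68_ofNat_zero` : `(k : O) = 0` for `k` a multiple of `q`, from the kernel clause of
  `nk21_Rig` and `(q : R) = π`.
* `nrg68_rig` : `nk21_Rig` at a closed point of a chart carrying the clauses.
* `nrg68_rig_haupt` : `nk21_Rig` at every closed point (`π ∈ n`) of both charts of an admissible
  Hauptmodul (`s34i47c_IsHaupt`), at a level with `nuThree M' = 0 = nuTwo M'`.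
* `nrg68_reg` : **(REG-q)**: `nf21c_Reg` for both charts (= `hr₁ ∧ hr₂` of `tf71b_twoGen`),
  hypotheses: `hunit`, `hqR`, `(q : R) = π`, `nuThree M' = 0`, `nuTwo M' = 0`.

All names are prefixed `nrg68_`.
-/

set_option autoImplicit false
set_option linter.unusedVariables false
set_option linter.unusedSectionVars false
set_option linter.style.longLine false
set_option linter.style.haveILetI false

open ModularCurve AlgebraicCurve IntermediateField

namespace Fermat.Agent.S36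

open Fermat.Agent.S18 Fermat.Agent.S24 Fermat.Agent.S28 Fermat.Agent.S34 Fermat.Agent.S35
  Fermat.Agent.S36.TripleLoc71

local notation "Q̄" => AlgebraicClosure ℚ

section nrg68_abs

variable {R F : Type*} [CommRing R] [Field F] [Algebra R F]

/-- **The four divisibility clauses** from the clauses for `Φ J`. -/
theorem nrg68_core (B : Subalgebra R F) (n : Ideal B) [hn : n.IsPrime]
    (J : F) (aJ sJ : B) (hsJ : sJ ∉ n) (hJ : (sJ : F) * J = (aJ : F))
    {O : Type*} [CommRing O] [IsDomain O] [IsDiscreteValuationRing O] (φ : B →+* O)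
    (hφu : ∀ s : B, IsUnit (φ s) ↔ s ∉ n) (hφ : ∀ b : B, b ∉ n → IsUnit (φ b))
    (hreg : ∃ s : B, s ∉ n ∧ (s : F) * J ∈ B) (ϖ : O) (hϖ : Irreducible ϖ) :
    ((∃ u d : O, IsUnit u ∧ rr79_ext B n φ hφ ⟨J, hreg⟩ = u * d ^ 3) →
      aJ ∈ n → ϖ ^ 3 ∣ φ aJ) ∧
    ((∃ u d : O, IsUnit u ∧ rr79_ext B n φ hφ ⟨J, hreg⟩ - 1728 = u * d ^ 2) →
      aJ - 1728 * sJ ∈ n → ϖ ^ 2 ∣ φ (aJ - 1728 * sJ)) ∧
    ((∃ u d : O, IsUnit u ∧ rr79_ext B n φ hφ ⟨J, hreg⟩ = u * d ^ 3) →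
      (∃ u d : O, IsUnit u ∧ rr79_ext B n φ hφ ⟨J, hreg⟩ - 1728 = u * d ^ 2) →
      (1728 : O) = 0 → aJ ∈ n → ϖ ^ 6 ∣ φ aJ) ∧
    ((∃ w d : O, IsUnit w ∧ rr79_ext B n φ hφ ⟨J, hreg⟩ = w * d ^ 12) →
      aJ ∈ n → ϖ ^ 12 ∣ φ aJ) := by
  have e : φ sJ * rr79_ext B n φ hφ ⟨J, hreg⟩ = φ aJ :=
    rr79_ext_spec B n φ hφ ⟨J, hreg⟩ sJ aJ hJ
  have husJ : IsUnit (φ sJ) := hφ sJ hsJ
  have hnu : aJ ∈ n → ¬ IsUnit (rr79_ext B n φ hφ ⟨J, hreg⟩) := fun ha hu =>
    (hφu aJ).mp (by rw [← e]; exact husJ.mul hu) ha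
  refine ⟨?_, ?_, ?_, ?_⟩
  · rintro ⟨u, d, hu, hud⟩ ha
    rw [← e]
    exact Dvd.dvd.mul_left (rr79_pow_dvd ϖ hϖ _ u d 3 hud hu (hnu ha)) _
  · rintro ⟨u, d, hu, hud⟩ ha
    have e2 : φ (aJ - 1728 * sJ) = φ sJ * (rr79_ext B n φ hφ ⟨J, hreg⟩ - 1728) := by
      rw [map_sub, map_mul, map_ofNat, ← e]; ring
    have hnu2 : ¬ IsUnit (rr79_ext B n φ hφ ⟨J, hreg⟩ - 1728) := fun hu' =>
      (hφu _).mp (by rw [e2]; exact husJ.mul hu') ha
    rw [e2]
    exact Dvd.dvd.mul_left (rr79_pow_dvd ϖ hϖ _ u d 2 hud hu hnu2) _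
  · rintro ⟨u, c, hu, huc⟩ ⟨u', d, hu', hud⟩ h1728 ha
    rw [h1728, sub_zero] at hud
    rw [← e]
    exact Dvd.dvd.mul_left (rr79_six_dvd ϖ hϖ _ u c u' d huc hu hud hu' (hnu ha)) _
  · rintro ⟨w, d, hw, hwd⟩ ha
    rw [← e]
    exact Dvd.dvd.mul_left (rr79_pow_dvd ϖ hϖ _ w d 12 hwd hw (hnu ha)) _

end nrg68_abs

section NRG68

variable {R K : Type} [CommRing R] [IsDomain R] [IsDiscreteValuationRing R] [Field K]
  [NumberField K] [Algebra K Q̄] [Algebra R K] [IsFractionRing R K]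
  (M' q : ℕ) [NeZero M'] [NeZero q] (hq : q.Prime) (hM' : ¬ q ∣ M')
  [Algebra R ↥(modularFunctionFieldFullC K (M' * q))]
  [IsScalarTower R K ↥(modularFunctionFieldFullC K (M' * q))] {π : R} (hπ : Irreducible π)

/-- `(k : O) = 0` for a multiple `k = q * k'` of `q`, from the kernel clause and `(q : R) = π`. -/
theorem nrg68_natCast_zero (hqπ : ((q : ℕ) : R) = π)
    (B : Subalgebra R ↥(modularFunctionFieldFullC K (M' * q)))
    {O : Type*} [CommRing O] (φ : B →+* O)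
    (hker : ∀ x : B, φ x = 0 ↔
      (algebraMap R ↥(modularFunctionFieldFullC K (M' * q)) π)⁻¹ *
        (x : ↥(modularFunctionFieldFullC K (M' * q))) ∈ cm85_Vinf (K := K) (M' * q) hπ)
    (k' : ℕ) : ((q * k' : ℕ) : O) = 0 := by
  have h1 : ((q * k' : ℕ) : O) = φ ((q * k' : ℕ) : B) := (map_natCast φ _).symm
  rw [h1, hker]
  have hq0 : ((q : ℕ) : ↥(modularFunctionFieldFullC K (M' * q))) ≠ 0 :=
    Nat.cast_ne_zero.mpr (NeZero.ne q)
  have h2 : (algebraMap R ↥(modularFunctionFieldFullC K (M' * q)) π)⁻¹ *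
      (((q * k' : ℕ) : B) : ↥(modularFunctionFieldFullC K (M' * q))) =
      ((k' : ℕ) : ↥(modularFunctionFieldFullC K (M' * q))) := by
    rw [← hqπ, map_natCast]
    push_cast
    field_simp
  rw [h2]
  exact natCast_mem _ k'

/-- **`nk21_Rig` at a closed point of a chart carrying helper79's clauses.** -/
theorem nrg68_rig (hqπ : ((q : ℕ) : R) = π)
    (B : Subalgebra R ↥(modularFunctionFieldFullC K (M' * q))) (n : Ideal B) [hn : n.IsMaximal]
    (hc : q ≠ 2 → ∀ (hreg : ∃ s : B, s ∉ n ∧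
        (s : ↥(modularFunctionFieldFullC K (M' * q))) * rm90_j K (M' * q) ∈ B)
      (O : Type) [CommRing O] (φ : B →+* O) (hφ : ∀ b : B, b ∉ n → IsUnit (φ b)),
      (∃ u d : O, IsUnit u ∧ rr79_ext B n φ hφ ⟨rm90_j K (M' * q), hreg⟩ = u * d ^ 3) ∧
      (∃ u d : O, IsUnit u ∧ rr79_ext B n φ hφ ⟨rm90_j K (M' * q), hreg⟩ - 1728 = u * d ^ 2))
    (hc2 : q = 2 → ∀ (hreg : ∃ s : B, s ∉ n ∧
        (s : ↥(modularFunctionFieldFullC K (M' * q))) * rm90_j K (M' * q) ∈ B)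
      (O : Type) [CommRing O] [IsLocalRing O] (h2 : (2 : O) = 0)
      (φ : B →+* O) (hφ : ∀ b : B, b ∉ n → IsUnit (φ b)),
      ∃ w d : O, IsUnit w ∧ rr79_ext B n φ hφ ⟨rm90_j K (M' * q), hreg⟩ = w * d ^ 12) :
    nk21_Rig M' q hπ B n := by
  intro aJ sJ hsJ hJ O _ _ _ φ hker hφu ϖ hϖ
  have hφ : ∀ b : B, b ∉ n → IsUnit (φ b) := fun b hb => (hφu b).mpr hb
  have hreg : ∃ s : B, s ∉ n ∧
      (s : ↥(modularFunctionFieldFullC K (M' * q))) * rm90_j K (M' * q) ∈ B :=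
    ⟨sJ, hsJ, by rw [hJ]; exact aJ.2⟩
  obtain ⟨cA, cB, cC, cD⟩ := nrg68_core B n (rm90_j K (M' * q)) aJ sJ hsJ hJ φ hφu hφ hreg ϖ hϖ
  refine ⟨fun h2 _ ha => cA (hc h2 hreg O φ hφ).1 ha,
    fun h2 _ ha => cB (hc h2 hreg O φ hφ).2 ha, fun h3 ha => ?_, fun h2 ha => ?_⟩
  · have hq2 : q ≠ 2 := by rw [h3]; norm_num
    have h1728 : (1728 : O) = 0 := by
      have h := nrg68_natCast_zero M' q hπ hqπ B φ hker 576
      rw [h3] at h
      have e : ((3 * 576 : ℕ) : O) = (1728 : O) := by norm_num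
      rw [← e]; exact h
    exact cC (hc hq2 hreg O φ hφ).1 (hc hq2 hreg O φ hφ).2 h1728 ha
  · have h2O : (2 : O) = 0 := by
      have h := nrg68_natCast_zero M' q hπ hqπ B φ hker 1
      rw [h2] at h
      have e : ((2 * 1 : ℕ) : O) = (2 : O) := by norm_num
      rw [← e]; exact h
    exact cD (hc2 h2 hreg O h2O φ hφ) ha

include hq hM' in
/-- **`nk21_Rig` at every closed point of both charts of an admissible Hauptmodul**, at a level
`M'` without elliptic points. -/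
theorem nrg68_rig_haupt (hunit : ∀ n : ℕ, Nat.Coprime n q → IsUnit (n : R))
    (hqπ : ((q : ℕ) : R) = π) (hν3 : nuThree M' = 0) (hν2 : nuTwo M' = 0)
    (h : ↥(modularFunctionFieldFullC K (M' * q))) (hh : s34i47c_IsHaupt K (M' * q) q h) :
    (∀ n : Ideal ↥(pk15_chart R ({h} : Set ↥(modularFunctionFieldFullC K (M' * q)))),
      n.IsMaximal → algebraMap R _ π ∈ n →
      nk21_Rig M' q hπ (pk15_chart R ({h} : Set ↥(modularFunctionFieldFullC K (M' * q)))) n) ∧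
    (∀ n : Ideal ↥(pk15_chart R ({h⁻¹} : Set ↥(modularFunctionFieldFullC K (M' * q)))),
      n.IsMaximal → algebraMap R _ π ∈ n →
      nk21_Rig M' q hπ (pk15_chart R ({h⁻¹} : Set ↥(modularFunctionFieldFullC K (M' * q)))) n) := by
  letI : Algebra R ↥(modularFunctionFieldFullC K M') :=
    ((algebraMap K ↥(modularFunctionFieldFullC K M')).comp (algebraMap R K)).toAlgebra
  haveI : IsScalarTower R K ↥(modularFunctionFieldFullC K M') :=
    IsScalarTower.of_algebraMap_eq (fun _ => rfl)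
  have hMu : IsUnit (M' : R) :=
    hunit M' (Nat.Coprime.symm ((Nat.Prime.coprime_iff_not_dvd hq).mpr hM'))
  rcases hh with ⟨hq2, h2, rfl⟩ | ⟨hq3, h3, rfl⟩
  · have hcop : Nat.Coprime 2 q := (Nat.coprime_primes Nat.prime_two hq).mpr (Ne.symm hq2)
    have h2' : 2 ∣ M' := hcop.dvd_of_dvd_mul_right h2
    refine ⟨fun n hn hπn => ?_, fun n hn hπn => ?_⟩
    · haveI := hn
      exact nrg68_rig M' q hπ hqπ _ n
        (fun _ hreg O _ φ hφ => rr79c_clauses_level2 M' q hπ h2' hMu hν3 hν2 n hπn hreg φ hφ)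
        (fun h2q => absurd h2q hq2)
    · haveI := hn
      exact nrg68_rig M' q hπ hqπ _ n
        (fun _ hreg O _ φ hφ => rr79c_clauses_level2_inv M' q hπ h2' hMu hν3 hν2 n hπn hreg φ hφ)
        (fun h2q => absurd h2q hq2)
  · have hcop : Nat.Coprime 3 q := (Nat.coprime_primes Nat.prime_three hq).mpr (Ne.symm hq3)
    have h3' : 3 ∣ M' := hcop.dvd_of_dvd_mul_right h3
    refine ⟨fun n hn hπn => ?_, fun n hn hπn => ?_⟩
    · haveI := hn
      exact nrg68_rig M' q hπ hqπ _ n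
        (fun _ hreg O _ φ hφ => rr79c_clauses_level3 M' q hπ h3' hMu hν3 hν2 n hπn hreg φ hφ)
        (fun _ hreg O _ _ h2O φ hφ =>
          (rr79c_clauses_two M' q hπ h3' hMu hν3 n hπn hreg h2O φ hφ).1)
    · haveI := hn
      exact nrg68_rig M' q hπ hqπ _ n
        (fun _ hreg O _ φ hφ => rr79c_clauses_level3_inv M' q hπ h3' hMu hν3 hν2 n hπn hreg φ hφ)
        (fun _ hreg O _ _ h2O φ hφ =>
          (rr79c_clauses_two_inv M' q hπ h3' hMu hν3 n hπn hreg h2O φ hφ).1)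

include hq hM' in
/-- **(REG-q)**: `nf21c_Reg` for both charts of an admissible Hauptmodul of level `M' q`
(= `hr₁ ∧ hr₂` of `tf71b_twoGen`), at a level `M'` without elliptic points. -/
theorem nrg68_reg (hunit : ∀ n : ℕ, Nat.Coprime n q → IsUnit (n : R)) (hqR : ¬ IsUnit (q : R))
    (hqπ : ((q : ℕ) : R) = π) (hν3 : nuThree M' = 0) (hν2 : nuTwo M' = 0)
    (h : ↥(modularFunctionFieldFullC K (M' * q))) (hh : s34i47c_IsHaupt K (M' * q) q h) :
    nf21c_Reg M' q hq hM' hπ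
        (pk15_chart R ({h} : Set ↥(modularFunctionFieldFullC K (M' * q)))) ∧
      nf21c_Reg M' q hq hM' hπ
        (pk15_chart R ({h⁻¹} : Set ↥(modularFunctionFieldFullC K (M' * q)))) := by
  obtain ⟨r1, r2⟩ := nrg68_rig_haupt M' q hq hM' hπ hunit hqπ hν3 hν2 h hh
  have hπ₁ : (algebraMap R ↥(modularFunctionFieldFullC K (M' * q)) π)⁻¹ ∉
      (cm85_Vinf (K := K) (M' * q) hπ).toSubring := al97C_pi_inv_not_mem_Vinf M' q hπ
  have hp0 : algebraMap R ↥(modularFunctionFieldFullC K (M' * q)) π ≠ 0 := fun h0 =>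
    hπ₁ (by rw [h0, inv_zero]; exact Subring.zero_mem _)
  have key : ∀ (B : Subalgebra R ↥(modularFunctionFieldFullC K (M' * q))) (n : Ideal B),
      sf79_OnBr π B (cm85_Vinf (K := K) (M' * q) hπ).toSubring n → algebraMap R B π ∈ n := by
    intro B n h1
    apply h1
    have e : (algebraMap R ↥(modularFunctionFieldFullC K (M' * q)) π)⁻¹ *
        ((algebraMap R B π : B) : ↥(modularFunctionFieldFullC K (M' * q))) = 1 :=
      inv_mul_cancel₀ hp0
    rw [e]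
    exact Subring.one_mem _
  exact nk21_reg M' q hq hM' hπ hunit hqR hqπ h hh
    (fun n hn h1 _ => r1 n hn (key _ n h1)) (fun n hn h1 _ => r2 n hn (key _ n h1))

include hq hM' in
/-- **(REG-q) at a rigid level**: a prime `r ≡ 11 mod 12` dividing `M'`. -/
theorem nrg68_reg_rigid (hunit : ∀ n : ℕ, Nat.Coprime n q → IsUnit (n : R))
    (hqR : ¬ IsUnit (q : R)) (hqπ : ((q : ℕ) : R) = π)
    {r : ℕ} (hr : r.Prime) (hr12 : r % 12 = 11) (hrM : r ∣ M')
    (h : ↥(modularFunctionFieldFullC K (M' * q))) (hh : s34i47c_IsHaupt K (M' * q) q h) :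
    nf21c_Reg M' q hq hM' hπ
        (pk15_chart R ({h} : Set ↥(modularFunctionFieldFullC K (M' * q)))) ∧
      nf21c_Reg M' q hq hM' hπ
        (pk15_chart R ({h⁻¹} : Set ↥(modularFunctionFieldFullC K (M' * q)))) :=
  nrg68_reg M' q hq hM' hπ hunit hqR hqπ (ro27_rigid_of_eleven hr hr12 hrM).2
    (ro27_rigid_of_eleven hr hr12 hrM).1 h hh

end NRG68

end Fermat.Agent.S36
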