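import Mathlib
import Fermat.Agent.S36.NodeData21
import Fermat.Agent.S36.RigidRedTwo79

/-!
# S36 lab, rows 599 / 626 (helper7, TWIN): the rigidity input `nk21_Rig` at every closed point of
the four canonical level-`M' q` charts, for EVERY prime `q` (including `q = 2` and `q = 3`)

`M'` a good rigid level (`IsUnit (M' : R)`, `nuThree M' = 0`, `nuTwo M' = 0`), `π = (q : R)`.

* `nr7_rig_abs` : abstract — in a DVR `O` receiving the chart `B` by a hom `φ` which inverts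
  exactly `B ∖ n`, the clauses `Φ J = u d ^ 3`, `Φ J - 1728 = u' d' ^ 2` (`q ≠ 2`),
  `Φ J = w d ^ 12` (`q = 2`) of helper79 (`Φ = rr79_ext B n φ hφ`) and `(3 : O) = 0` when `q = 3`
  give the four divisibilities of `nk21_Rig` / `hrig` of `kb40_chart`.
* `nr7_rig_level2`, `nr7_rig_level2_inv` (`q ≠ 2`, charts `{h₂}`, `{h₂⁻¹}`),
  `nr7_rig_level3`, `nr7_rig_level3_inv` (`q ≠ 3`, charts `{h₃}`, `{h₃⁻¹}`; covers `q = 2`) :
  `nk21_Rig M' q hπ B n` at every maximal `n ∋ π`.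
* `nr7_reg_level2`, `nr7_reg_level3` : **`nf21c_Reg` (= `hr₁`, `hr₂` of `tf71b_twoGen`, (REG-q))
  on both charts, UNCONDITIONAL at a rigid level** (`nk21_reg` of helper21).

All names are prefixed `nr7_`.
-/

set_option autoImplicit false
set_option linter.unusedVariables false
set_option linter.unusedSectionVars false
set_option linter.style.longLine false
set_option linter.style.haveILetI false

open ModularCurve AlgebraicCurve IntermediateField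

namespace Fermat.Agent.S36

open Fermat.Agent.S18 Fermat.Agent.S24 Fermat.Agent.S28 Fermat.Agent.S34 Fermat.Agent.S35
  Fermat.Agent.S36.TripleLoc71

local notation "Q̄" => AlgebraicClosure ℚ

section NR7abs

variable {R F : Type*} [CommRing R] [Field F] [Algebra R F]

/-- **The four divisibilities of `nk21_Rig` from the clauses in `O`.** -/
theorem nr7_rig_abs (B : Subalgebra R F) (n : Ideal B) [hn : n.IsPrime] (J : F) (q : ℕ)
    {O : Type*} [CommRing O] [IsDomain O] [IsDiscreteValuationRing O]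
    (φ : B →+* O) (hφ : ∀ b : B, b ∉ n → IsUnit (φ b)) (hφn : ∀ b : B, b ∈ n → ¬ IsUnit (φ b))
    (hreg : ∃ s : B, s ∉ n ∧ (s : F) * J ∈ B)
    (aJ sJ : B) (hsJ : sJ ∉ n) (hJ : (sJ : F) * J = (aJ : F))
    (ϖ : O) (hϖ : Irreducible ϖ)
    (h3 : q ≠ 2 → ∃ u d : O, IsUnit u ∧ rr79_ext B n φ hφ ⟨J, hreg⟩ = u * d ^ 3)
    (h2 : q ≠ 2 → ∃ u d : O, IsUnit u ∧ rr79_ext B n φ hφ ⟨J, hreg⟩ - 1728 = u * d ^ 2)
    (h12 : q = 2 → ∃ w d : O, IsUnit w ∧ rr79_ext B n φ hφ ⟨J, hreg⟩ = w * d ^ 12)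
    (hq3 : q = 3 → (3 : O) = 0) :
    (q ≠ 2 → q ≠ 3 → aJ ∈ n → ϖ ^ 3 ∣ φ aJ) ∧
    (q ≠ 2 → q ≠ 3 → aJ - 1728 * sJ ∈ n → ϖ ^ 2 ∣ φ (aJ - 1728 * sJ)) ∧
    (q = 3 → aJ ∈ n → ϖ ^ 6 ∣ φ aJ) ∧ (q = 2 → aJ ∈ n → ϖ ^ 12 ∣ φ aJ) := by
  have hspec : φ sJ * rr79_ext B n φ hφ ⟨J, hreg⟩ = φ aJ :=
    rr79_ext_spec B n φ hφ ⟨J, hreg⟩ sJ aJ hJ
  have husJ : IsUnit (φ sJ) := hφ sJ hsJ
  have hnu : aJ ∈ n → ¬ IsUnit (rr79_ext B n φ hφ ⟨J, hreg⟩) := fun haJ h =>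
    hφn aJ haJ (by rw [← hspec]; exact husJ.mul h)
  refine ⟨fun hq2 _ haJ => ?_, fun hq2 _ hmem => ?_, fun hq3e haJ => ?_, fun hq2e haJ => ?_⟩
  · obtain ⟨u, d, hu, hjj⟩ := h3 hq2
    rw [← hspec]
    exact Dvd.dvd.mul_left (rr79_pow_dvd ϖ hϖ _ u d 3 hjj hu (hnu haJ)) _
  · obtain ⟨u, d, hu, hjj⟩ := h2 hq2
    have e : φ (aJ - 1728 * sJ) = φ sJ * (rr79_ext B n φ hφ ⟨J, hreg⟩ - 1728) := by
      rw [map_sub, map_mul, map_ofNat, mul_sub, hspec]
      ring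
    have hnu' : ¬ IsUnit (rr79_ext B n φ hφ ⟨J, hreg⟩ - 1728) := fun h =>
      hφn _ hmem (by rw [e]; exact husJ.mul h)
    rw [e]
    exact Dvd.dvd.mul_left (rr79_pow_dvd ϖ hϖ _ u d 2 hjj hu hnu') _
  · have hq2 : q ≠ 2 := by omega
    obtain ⟨u, c, hu, hjj3⟩ := h3 hq2
    obtain ⟨u', d, hu', hjj2⟩ := h2 hq2
    have h1728 : (1728 : O) = 0 := by
      have e : (1728 : O) = 3 * 576 := by norm_num
      rw [e, hq3 hq3e, zero_mul]
    rw [h1728, sub_zero] at hjj2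
    rw [← hspec]
    exact Dvd.dvd.mul_left (rr79_six_dvd ϖ hϖ _ u c u' d hjj3 hu hjj2 hu' (hnu haJ)) _
  · obtain ⟨w, d, hw, hjj⟩ := h12 hq2e
    rw [← hspec]
    exact Dvd.dvd.mul_left (rr79_pow_dvd ϖ hϖ _ w d 12 hjj hw (hnu haJ)) _

end NR7abs

section NR7

variable {R K : Type} [CommRing R] [IsDomain R] [IsDiscreteValuationRing R] [Field K]
  [NumberField K] [Algebra K Q̄] [Algebra R K] [IsFractionRing R K]
  (M' q : ℕ) [NeZero M'] [NeZero q] (hq : q.Prime) (hM' : ¬ q ∣ M')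
  [Algebra R ↥(modularFunctionFieldFullC K (M' * q))]
  [IsScalarTower R K ↥(modularFunctionFieldFullC K (M' * q))] {π : R} (hπ : Irreducible π)

/-- The image of `q` in a DVR of the `∞`-branch is zero. -/
theorem nr7_q_eq_zero (hqπ : ((q : ℕ) : R) = π)
    (B : Subalgebra R ↥(modularFunctionFieldFullC K (M' * q)))
    {O : Type*} [CommRing O] (φ : B →+* O)
    (hker : ∀ x : B, φ x = 0 ↔
      (algebraMap R ↥(modularFunctionFieldFullC K (M' * q)) π)⁻¹ *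
        (x : ↥(modularFunctionFieldFullC K (M' * q))) ∈ cm85_Vinf (K := K) (M' * q) hπ) :
    ((q : ℕ) : O) = 0 := by
  have hπ0 : algebraMap R ↥(modularFunctionFieldFullC K (M' * q)) π ≠ 0 := by
    rw [IsScalarTower.algebraMap_apply R K ↥(modularFunctionFieldFullC K (M' * q))]
    intro h0
    have h1 : algebraMap R K π = 0 :=
      (algebraMap K ↥(modularFunctionFieldFullC K (M' * q))).injective (by rw [h0, map_zero])
    exact hπ.ne_zero ((IsFractionRing.injective R K) (by rw [h1, map_zero]))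
  have h1 : φ (algebraMap R B π) = 0 := by
    rw [hker]
    show (algebraMap R ↥(modularFunctionFieldFullC K (M' * q)) π)⁻¹ *
      algebraMap R ↥(modularFunctionFieldFullC K (M' * q)) π ∈ cm85_Vinf (K := K) (M' * q) hπ
    rw [inv_mul_cancel₀ hπ0]
    exact (cm85_Vinf (K := K) (M' * q) hπ).one_mem
  rw [← hqπ, map_natCast, map_natCast] at h1
  exact h1


/-- `π ∈ n` for a point on the `∞`-branch. -/
theorem nr7_pi_mem (B : Subalgebra R ↥(modularFunctionFieldFullC K (M' * q))) (n : Ideal B)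
    (h1 : sf79_OnBr π B (cm85_Vinf (K := K) (M' * q) hπ).toSubring n) : algebraMap R B π ∈ n := by
  have hπ0 : algebraMap R ↥(modularFunctionFieldFullC K (M' * q)) π ≠ 0 := by
    rw [IsScalarTower.algebraMap_apply R K ↥(modularFunctionFieldFullC K (M' * q))]
    intro h0
    have h1 : algebraMap R K π = 0 :=
      (algebraMap K ↥(modularFunctionFieldFullC K (M' * q))).injective (by rw [h0, map_zero])
    exact hπ.ne_zero ((IsFractionRing.injective R K) (by rw [h1, map_zero]))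
  refine h1 (algebraMap R B π) ?_
  show (algebraMap R ↥(modularFunctionFieldFullC K (M' * q)) π)⁻¹ * algebraMap R ↥(modularFunctionFieldFullC K (M' * q)) π ∈ cm85_Vinf (K := K) (M' * q) hπ
  rw [inv_mul_cancel₀ hπ0]
  exact (cm85_Vinf (K := K) (M' * q) hπ).one_mem

/-- **`nk21_Rig` at every closed point of the chart `{h₂}` of level `M' q`.** -/
theorem nr7_rig_level2 (hqπ : ((q : ℕ) : R) = π) (h2 : 2 ∣ M') (hq2 : q ≠ 2) (hNu : IsUnit (M' : R))
    (hν3 : nuThree M' = 0) (hν2 : nuTwo M' = 0)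
    (n : Ideal ↥(pk15_chart R ({pk85_h2 K (M' * q) (Dvd.dvd.mul_right h2 q)} : Set ↥(modularFunctionFieldFullC K (M' * q))))) (hn : n.IsMaximal)
    (hπn : algebraMap R ↥(pk15_chart R ({pk85_h2 K (M' * q) (Dvd.dvd.mul_right h2 q)} : Set ↥(modularFunctionFieldFullC K (M' * q)))) π ∈ n) :
    nk21_Rig M' q hπ (pk15_chart R ({pk85_h2 K (M' * q) (Dvd.dvd.mul_right h2 q)} : Set ↥(modularFunctionFieldFullC K (M' * q)))) n := by
  letI : Algebra R ↥(modularFunctionFieldFullC K M') :=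
    ((algebraMap K ↥(modularFunctionFieldFullC K M')).comp (algebraMap R K)).toAlgebra
  haveI : IsScalarTower R K ↥(modularFunctionFieldFullC K M') :=
    IsScalarTower.of_algebraMap_eq (fun _ => rfl)
  haveI := hn
  intro aJ sJ hsJ hJ O _ _ _ φ hker hunits ϖ hϖ
  have hφ : ∀ b, b ∉ n → IsUnit (φ b) := fun b hb => (hunits b).mpr hb
  have hφn : ∀ b, b ∈ n → ¬ IsUnit (φ b) := fun b hb h => (hunits b).mp h hb
  have hreg : ∃ s : ↥(pk15_chart R ({pk85_h2 K (M' * q) (Dvd.dvd.mul_right h2 q)} : Set ↥(modularFunctionFieldFullC K (M' * q)))), s ∉ n ∧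
      (s : ↥(modularFunctionFieldFullC K (M' * q))) * rm90_j K (M' * q) ∈ (pk15_chart R ({pk85_h2 K (M' * q) (Dvd.dvd.mul_right h2 q)} : Set ↥(modularFunctionFieldFullC K (M' * q)))) :=
    ⟨sJ, hsJ, by rw [hJ]; exact aJ.2⟩
  obtain ⟨c3, c2⟩ := rr79c_clauses_level2 M' q hπ h2 hNu hν3 hν2 n hπn hreg φ hφ
  exact nr7_rig_abs _ n (rm90_j K (M' * q)) q φ hφ hφn hreg aJ sJ hsJ hJ ϖ hϖ (fun _ => c3)
    (fun _ => c2) (fun h => absurd h hq2) (fun h3e => by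
      have h := nr7_q_eq_zero M' q hπ hqπ _ φ hker
      rw [h3e] at h
      simpa using h)

/-- **`nk21_Rig` at every closed point of the chart `{h₂⁻¹}` of level `M' q`.** -/
theorem nr7_rig_level2_inv (hqπ : ((q : ℕ) : R) = π) (h2 : 2 ∣ M') (hq2 : q ≠ 2) (hNu : IsUnit (M' : R))
    (hν3 : nuThree M' = 0) (hν2 : nuTwo M' = 0)
    (n : Ideal ↥(pk15_chart R ({(pk85_h2 K (M' * q) (Dvd.dvd.mul_right h2 q))⁻¹} : Set ↥(modularFunctionFieldFullC K (M' * q))))) (hn : n.IsMaximal)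
    (hπn : algebraMap R ↥(pk15_chart R ({(pk85_h2 K (M' * q) (Dvd.dvd.mul_right h2 q))⁻¹} : Set ↥(modularFunctionFieldFullC K (M' * q)))) π ∈ n) :
    nk21_Rig M' q hπ (pk15_chart R ({(pk85_h2 K (M' * q) (Dvd.dvd.mul_right h2 q))⁻¹} : Set ↥(modularFunctionFieldFullC K (M' * q)))) n := by
  letI : Algebra R ↥(modularFunctionFieldFullC K M') :=
    ((algebraMap K ↥(modularFunctionFieldFullC K M')).comp (algebraMap R K)).toAlgebra
  haveI : IsScalarTower R K ↥(modularFunctionFieldFullC K M') :=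
    IsScalarTower.of_algebraMap_eq (fun _ => rfl)
  haveI := hn
  intro aJ sJ hsJ hJ O _ _ _ φ hker hunits ϖ hϖ
  have hφ : ∀ b, b ∉ n → IsUnit (φ b) := fun b hb => (hunits b).mpr hb
  have hφn : ∀ b, b ∈ n → ¬ IsUnit (φ b) := fun b hb h => (hunits b).mp h hb
  have hreg : ∃ s : ↥(pk15_chart R ({(pk85_h2 K (M' * q) (Dvd.dvd.mul_right h2 q))⁻¹} : Set ↥(modularFunctionFieldFullC K (M' * q)))), s ∉ n ∧
      (s : ↥(modularFunctionFieldFullC K (M' * q))) * rm90_j K (M' * q) ∈ (pk15_chart R ({(pk85_h2 K (M' * q) (Dvd.dvd.mul_right h2 q))⁻¹} : Set ↥(modularFunctionFieldFullC K (M' * q)))) :=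
    ⟨sJ, hsJ, by rw [hJ]; exact aJ.2⟩
  obtain ⟨c3, c2⟩ := rr79c_clauses_level2_inv M' q hπ h2 hNu hν3 hν2 n hπn hreg φ hφ
  exact nr7_rig_abs _ n (rm90_j K (M' * q)) q φ hφ hφn hreg aJ sJ hsJ hJ ϖ hϖ (fun _ => c3)
    (fun _ => c2) (fun h => absurd h hq2) (fun h3e => by
      have h := nr7_q_eq_zero M' q hπ hqπ _ φ hker
      rw [h3e] at h
      simpa using h)

/-- **`nk21_Rig` at every closed point of the chart `{h₃}` of level `M' q`.** -/
theorem nr7_rig_level3 (hqπ : ((q : ℕ) : R) = π) (h3 : 3 ∣ M') (hq3 : q ≠ 3) (hNu : IsUnit (M' : R))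
    (hν3 : nuThree M' = 0) (hν2 : nuTwo M' = 0)
    (n : Ideal ↥(pk15_chart R ({pk85_h3 K (M' * q) (Dvd.dvd.mul_right h3 q)} : Set ↥(modularFunctionFieldFullC K (M' * q))))) (hn : n.IsMaximal)
    (hπn : algebraMap R ↥(pk15_chart R ({pk85_h3 K (M' * q) (Dvd.dvd.mul_right h3 q)} : Set ↥(modularFunctionFieldFullC K (M' * q)))) π ∈ n) :
    nk21_Rig M' q hπ (pk15_chart R ({pk85_h3 K (M' * q) (Dvd.dvd.mul_right h3 q)} : Set ↥(modularFunctionFieldFullC K (M' * q)))) n := by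
  letI : Algebra R ↥(modularFunctionFieldFullC K M') :=
    ((algebraMap K ↥(modularFunctionFieldFullC K M')).comp (algebraMap R K)).toAlgebra
  haveI : IsScalarTower R K ↥(modularFunctionFieldFullC K M') :=
    IsScalarTower.of_algebraMap_eq (fun _ => rfl)
  haveI := hn
  intro aJ sJ hsJ hJ O _ _ _ φ hker hunits ϖ hϖ
  have hφ : ∀ b, b ∉ n → IsUnit (φ b) := fun b hb => (hunits b).mpr hb
  have hφn : ∀ b, b ∈ n → ¬ IsUnit (φ b) := fun b hb h => (hunits b).mp h hb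
  have hreg : ∃ s : ↥(pk15_chart R ({pk85_h3 K (M' * q) (Dvd.dvd.mul_right h3 q)} : Set ↥(modularFunctionFieldFullC K (M' * q)))), s ∉ n ∧
      (s : ↥(modularFunctionFieldFullC K (M' * q))) * rm90_j K (M' * q) ∈ (pk15_chart R ({pk85_h3 K (M' * q) (Dvd.dvd.mul_right h3 q)} : Set ↥(modularFunctionFieldFullC K (M' * q)))) :=
    ⟨sJ, hsJ, by rw [hJ]; exact aJ.2⟩
  by_cases hq2 : q = 2
  · have h2O : (2 : O) = 0 := by
      have h := nr7_q_eq_zero M' q hπ hqπ _ φ hker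
      rw [hq2] at h
      simpa using h
    obtain ⟨c12, -, -, -⟩ := rr79c_clauses_two M' q hπ h3 hNu hν3 n hπn hreg h2O φ hφ
    exact nr7_rig_abs _ n (rm90_j K (M' * q)) q φ hφ hφn hreg aJ sJ hsJ hJ ϖ hϖ
      (fun h => absurd hq2 h) (fun h => absurd hq2 h) (fun _ => c12) (fun h => absurd h hq3)
  · obtain ⟨c3, c2⟩ := rr79c_clauses_level3 M' q hπ h3 hNu hν3 hν2 n hπn hreg φ hφ
    exact nr7_rig_abs _ n (rm90_j K (M' * q)) q φ hφ hφn hreg aJ sJ hsJ hJ ϖ hϖ (fun _ => c3)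
      (fun _ => c2) (fun h => absurd h hq2) (fun h => absurd h hq3)

/-- **`nk21_Rig` at every closed point of the chart `{h₃⁻¹}` of level `M' q`.** -/
theorem nr7_rig_level3_inv (hqπ : ((q : ℕ) : R) = π) (h3 : 3 ∣ M') (hq3 : q ≠ 3) (hNu : IsUnit (M' : R))
    (hν3 : nuThree M' = 0) (hν2 : nuTwo M' = 0)
    (n : Ideal ↥(pk15_chart R ({(pk85_h3 K (M' * q) (Dvd.dvd.mul_right h3 q))⁻¹} : Set ↥(modularFunctionFieldFullC K (M' * q))))) (hn : n.IsMaximal)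
    (hπn : algebraMap R ↥(pk15_chart R ({(pk85_h3 K (M' * q) (Dvd.dvd.mul_right h3 q))⁻¹} : Set ↥(modularFunctionFieldFullC K (M' * q)))) π ∈ n) :
    nk21_Rig M' q hπ (pk15_chart R ({(pk85_h3 K (M' * q) (Dvd.dvd.mul_right h3 q))⁻¹} : Set ↥(modularFunctionFieldFullC K (M' * q)))) n := by
  letI : Algebra R ↥(modularFunctionFieldFullC K M') :=
    ((algebraMap K ↥(modularFunctionFieldFullC K M')).comp (algebraMap R K)).toAlgebra
  haveI : IsScalarTower R K ↥(modularFunctionFieldFullC K M') :=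
    IsScalarTower.of_algebraMap_eq (fun _ => rfl)
  haveI := hn
  intro aJ sJ hsJ hJ O _ _ _ φ hker hunits ϖ hϖ
  have hφ : ∀ b, b ∉ n → IsUnit (φ b) := fun b hb => (hunits b).mpr hb
  have hφn : ∀ b, b ∈ n → ¬ IsUnit (φ b) := fun b hb h => (hunits b).mp h hb
  have hreg : ∃ s : ↥(pk15_chart R ({(pk85_h3 K (M' * q) (Dvd.dvd.mul_right h3 q))⁻¹} : Set ↥(modularFunctionFieldFullC K (M' * q)))), s ∉ n ∧
      (s : ↥(modularFunctionFieldFullC K (M' * q))) * rm90_j K (M' * q) ∈ (pk15_chart R ({(pk85_h3 K (M' * q) (Dvd.dvd.mul_right h3 q))⁻¹} : Set ↥(modularFunctionFieldFullC K (M' * q)))) :=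
    ⟨sJ, hsJ, by rw [hJ]; exact aJ.2⟩
  by_cases hq2 : q = 2
  · have h2O : (2 : O) = 0 := by
      have h := nr7_q_eq_zero M' q hπ hqπ _ φ hker
      rw [hq2] at h
      simpa using h
    obtain ⟨c12, -, -, -⟩ := rr79c_clauses_two_inv M' q hπ h3 hNu hν3 n hπn hreg h2O φ hφ
    exact nr7_rig_abs _ n (rm90_j K (M' * q)) q φ hφ hφn hreg aJ sJ hsJ hJ ϖ hϖ
      (fun h => absurd hq2 h) (fun h => absurd hq2 h) (fun _ => c12) (fun h => absurd h hq3)
  · obtain ⟨c3, c2⟩ := rr79c_clauses_level3_inv M' q hπ h3 hNu hν3 hν2 n hπn hreg φ hφ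
    exact nr7_rig_abs _ n (rm90_j K (M' * q)) q φ hφ hφn hreg aJ sJ hsJ hJ ϖ hϖ (fun _ => c3)
      (fun _ => c2) (fun h => absurd h hq2) (fun h => absurd h hq3)

include hq hM' in
/-- **(REG-q) on both charts of level `M' q`, UNCONDITIONAL at a rigid level**: the two conjuncts
of each `nf21c_Reg` are LITERALLY `hr₁`, `hr₂` of `tf71b_twoGen`. -/
theorem nr7_reg_level2 (hunit : ∀ n : ℕ, Nat.Coprime n q → IsUnit (n : R)) (hqR : ¬ IsUnit (q : R))
    (hqπ : ((q : ℕ) : R) = π) (h2 : 2 ∣ M') (hq2 : q ≠ 2) (hν3 : nuThree M' = 0) (hν2 : nuTwo M' = 0) :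
    nf21c_Reg M' q hq hM' hπ (pk15_chart R ({pk85_h2 K (M' * q) (Dvd.dvd.mul_right h2 q)} : Set ↥(modularFunctionFieldFullC K (M' * q)))) ∧
      nf21c_Reg M' q hq hM' hπ (pk15_chart R ({(pk85_h2 K (M' * q) (Dvd.dvd.mul_right h2 q))⁻¹} : Set ↥(modularFunctionFieldFullC K (M' * q)))) := by
  have hMu : IsUnit (M' : R) :=
    hunit M' (Nat.Coprime.symm ((Nat.Prime.coprime_iff_not_dvd hq).mpr hM'))
  exact nk21_reg M' q hq hM' hπ hunit hqR hqπ _ (Or.inl ⟨hq2, _, rfl⟩)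
    (fun n hn h1 _ => nr7_rig_level2 M' q hπ hqπ h2 hq2 hMu hν3 hν2 n hn
      (nr7_pi_mem M' q hπ _ n h1))
    (fun n hn h1 _ => nr7_rig_level2_inv M' q hπ hqπ h2 hq2 hMu hν3 hν2 n hn
      (nr7_pi_mem M' q hπ _ n h1))

include hq hM' in
/-- **(REG-q) on both charts of level `M' q`, UNCONDITIONAL at a rigid level**: the two conjuncts
of each `nf21c_Reg` are LITERALLY `hr₁`, `hr₂` of `tf71b_twoGen`. -/
theorem nr7_reg_level3 (hunit : ∀ n : ℕ, Nat.Coprime n q → IsUnit (n : R)) (hqR : ¬ IsUnit (q : R))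
    (hqπ : ((q : ℕ) : R) = π) (h3 : 3 ∣ M') (hq3 : q ≠ 3) (hν3 : nuThree M' = 0) (hν2 : nuTwo M' = 0) :
    nf21c_Reg M' q hq hM' hπ (pk15_chart R ({pk85_h3 K (M' * q) (Dvd.dvd.mul_right h3 q)} : Set ↥(modularFunctionFieldFullC K (M' * q)))) ∧
      nf21c_Reg M' q hq hM' hπ (pk15_chart R ({(pk85_h3 K (M' * q) (Dvd.dvd.mul_right h3 q))⁻¹} : Set ↥(modularFunctionFieldFullC K (M' * q)))) := by
  have hMu : IsUnit (M' : R) :=
    hunit M' (Nat.Coprime.symm ((Nat.Prime.coprime_iff_not_dvd hq).mpr hM'))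
  exact nk21_reg M' q hq hM' hπ hunit hqR hqπ _ (Or.inr ⟨hq3, _, rfl⟩)
    (fun n hn h1 _ => nr7_rig_level3 M' q hπ hqπ h3 hq3 hMu hν3 hν2 n hn
      (nr7_pi_mem M' q hπ _ n h1))
    (fun n hn h1 _ => nr7_rig_level3_inv M' q hπ hqπ h3 hq3 hMu hν3 hν2 n hn
      (nr7_pi_mem M' q hπ _ n h1))

end NR7

end Fermat.Agent.S36
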