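import Mathlib
import Fermat.Agent.S36.NodeRig21
import Fermat.Agent.S36.NodeData21
import Fermat.Agent.S36.RigidRedTwo79

/-!
# S36 lab, row 626 / row 599 C-REGq (helper21): (REG-q) at the rigid levels, UNCONDITIONAL

Canonical level-`q` frame at level `M' * q` (`q ∤ M'`, `(q : R) = π`), `M'` RIGID
(`nuTwo M' = 0`, `nuThree M' = 0`).

* `nr21c_Two B` : the `q = 2` datum on a chart: a function `h` with
  `J h³ = (h + 27)(h + 243)³`, local cube roots of `h + 27`, regular wherever `J` is.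
* `nr21c_rig_of_root` : local roots of `J` (`m = 3`) and `J - 1728` (`m = 2`) on the chart
  (`rt79_RootAt`, helper79) [+ `nr21c_Two` if `q = 2`] ⟹ `nk21_Rig` at every closed point.
* the local roots on both level-`M' q` charts of an admissible Hauptmodul come from the rigid
  level `M'` : `rr79c_rootAt_level2/3`, `rr79c_rootAt_h27` (helper79, on `rc43_level2/3`,
  `rc43_level3_h27` of helper43).
* `nr21c_two` : `nr21c_Two` on both charts of `pk85_h3` (`rr79c_rootAt_h27`).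
* **`nr21c_reg`** : `nuTwo M' = 0 → nuThree M' = 0 →` (REG-q) in the `tl71_DivAt` shape for both
  charts of every admissible Hauptmodul at level `M' * q` — LITERALLY the hypotheses `hr₁`, `hr₂`
  of `tf71b_twoGen` (`nf21c_Reg`), ALL `q` (`q = 2, 3` included), all nodes.

All names are prefixed `nr21c_`.
-/

set_option autoImplicit false
set_option linter.unusedVariables false
set_option linter.unusedSectionVars false
set_option linter.style.longLine false
set_option linter.style.haveILetI false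

open ModularCurve AlgebraicCurve IntermediateField

namespace Fermat.Agent.S36

open Fermat.Agent.S18 Fermat.Agent.S24 Fermat.Agent.S28 Fermat.Agent.S34 Fermat.Agent.S35
  Fermat.Agent.S36.TripleLoc71

local notation "Q̄" => AlgebraicClosure ℚ

section NR21C

variable {R K : Type} [CommRing R] [IsDomain R] [IsDiscreteValuationRing R] [Field K]
  [NumberField K] [Algebra K Q̄] [Algebra R K] [IsFractionRing R K]
  (M' q : ℕ) [NeZero M'] [NeZero q] (hq : q.Prime) (hM' : ¬ q ∣ M')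
  [Algebra R ↥(modularFunctionFieldFullC K (M' * q))]
  [IsScalarTower R K ↥(modularFunctionFieldFullC K (M' * q))] {π : R} (hπ : Irreducible π)

/-- **The `q = 2` datum on a chart `B` of level `M' * q`**. -/
def nr21c_Two (π : R) (B : Subalgebra R ↥(modularFunctionFieldFullC K (M' * q))) : Prop :=
  ∃ h : ↥(modularFunctionFieldFullC K (M' * q)),
    rm90_j K (M' * q) * h ^ 3 = (h + 27) * (h + 243) ^ 3 ∧ h + 27 ≠ 0 ∧
    rt79_RootAt π B (rm90_j K (M' * q)) (h + 27) 3 ∧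
    ∀ n : Ideal B, n.IsPrime → ∀ aJ sJ : B, sJ ∉ n →
      (sJ : ↥(modularFunctionFieldFullC K (M' * q))) * rm90_j K (M' * q) =
        (aJ : ↥(modularFunctionFieldFullC K (M' * q))) →
      ∃ sh ah : B, sh ∉ n ∧ (sh : ↥(modularFunctionFieldFullC K (M' * q))) * h =
        (ah : ↥(modularFunctionFieldFullC K (M' * q)))

/-- `J ≠ 0`. -/
theorem nr21c_j_ne_zero (M : ℕ) [NeZero M] : rm90_j K M ≠ 0 := by
  intro h0
  exact kb40_j_ne_zero K (congrArg (fun x : ↥(modularFunctionFieldFullC K M) =>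
    (x : LaurentSeries K)) h0)

/-- **`nk21_Rig` from the local roots on the chart.** -/
theorem nr21c_rig_of_root (hqπ : ((q : ℕ) : R) = π)
    (s : Set ↥(modularFunctionFieldFullC K (M' * q)))
    (hBW : ∀ x ∈ pk15_chart R s, x ∈ s34i47c_W (K := K) M' q hq hM' hπ)
    (hR3 : rt79_RootAt π (pk15_chart R s) (rm90_j K (M' * q)) (rm90_j K (M' * q)) 3)
    (hR2 : rt79_RootAt π (pk15_chart R s) (rm90_j K (M' * q)) (rm90_j K (M' * q) - 1728) 2)
    (hq2 : q = 2 → nr21c_Two M' q π (pk15_chart R s))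
    (n : Ideal ↥(pk15_chart R s)) (hn : n.IsMaximal)
    (hπn : algebraMap R ↥(pk15_chart R s) π ∈ n) :
    nk21_Rig M' q hπ (pk15_chart R s) n := by
  classical
  intro aJ sJ hsJ hJ O _ _ _ φ h0 hu ϖ hϖ
  haveI hnp : n.IsPrime := hn.isPrime
  have hπ₁ : (algebraMap R ↥(modularFunctionFieldFullC K (M' * q)) π)⁻¹ ∉
      (cm85_Vinf (K := K) (M' * q) hπ).toSubring := al97C_pi_inv_not_mem_Vinf M' q hπ
  have hp0 : algebraMap R ↥(modularFunctionFieldFullC K (M' * q)) π ≠ 0 := fun h0 =>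
    hπ₁ (by rw [h0, inv_zero]; exact Subring.zero_mem _)
  have hB₁ : ∀ x ∈ pk15_chart R s, x ∈ (cm85_Vinf (K := K) (M' * q) hπ).toSubring :=
    fun x hx => ((s34i47c_mem_W M' q hq hM' hπ x).mp (hBW x hx)).1
  have hqF : algebraMap R ↥(modularFunctionFieldFullC K (M' * q)) π =
      ((q : ℕ) : ↥(modularFunctionFieldFullC K (M' * q))) := by
    rw [← hqπ, map_natCast]
  have hreg : ∃ t : ↥(pk15_chart R s), t ∉ n ∧
      (t : ↥(modularFunctionFieldFullC K (M' * q))) * rm90_j K (M' * q) ∈ pk15_chart R s :=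
    ⟨sJ, hsJ, by rw [hJ]; exact aJ.2⟩
  have hφ0 : ∀ b : ↥(pk15_chart R s),
      b ∈ sf79_br π (pk15_chart R s) (cm85_Vinf (K := K) (M' * q) hπ).toSubring hB₁ → φ b = 0 :=
    fun b hb => (h0 b).mpr hb
  have hj1 : rm90_j K (M' * q) - 1728 ≠ 0 := rc43_J1728_ne_zero (K := K) (M' * q)
  obtain ⟨cA, cB, cC⟩ := nr21_rig_abs (pk15_chart R s) n
    (sf79_br π (pk15_chart R s) (cm85_Vinf (K := K) (M' * q) hπ).toSubring hB₁) φ hφ0 hu ϖ hϖ
    (rm90_j K (M' * q)) (nr21c_j_ne_zero (M' * q)) hj1 (hR3 n hn hπn hreg) (hR2 n hn hπn hreg)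
    aJ sJ hsJ hJ
  refine ⟨fun _ _ hx => cA hx, fun _ _ hx => cB hx, fun h3 hx => cC ?_ hx, fun h2 hx => ?_⟩
  · -- `1728 ∈ P` for `q = 3`
    show (algebraMap R ↥(modularFunctionFieldFullC K (M' * q)) π)⁻¹ *
      (1728 : ↥(modularFunctionFieldFullC K (M' * q))) ∈
        (cm85_Vinf (K := K) (M' * q) hπ).toSubring
    have e : (1728 : ↥(modularFunctionFieldFullC K (M' * q))) =
        algebraMap R ↥(modularFunctionFieldFullC K (M' * q)) π * ((576 : ℕ) : _) := by
      rw [hqF, h3]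
      push_cast
      norm_num
    rw [e, ← mul_assoc, inv_mul_cancel₀ hp0, one_mul]
    exact dq56b_natCast_mem_Vinf M' q hπ 576
  · -- `q = 2`
    obtain ⟨h, hrel, hh27, hR27, hregh⟩ := hq2 h2
    obtain ⟨sh, ah, hsh, hh⟩ := hregh n hnp aJ sJ hsJ hJ
    refine nr21_rig_two (pk15_chart R s) n
      (sf79_br π (pk15_chart R s) (cm85_Vinf (K := K) (M' * q) hπ).toSubring hB₁) φ hφ0 hu ϖ hϖ
      ?_ (rm90_j K (M' * q)) h hrel hh27 (hR27 n hn hπn hreg) sh ah hsh hh aJ sJ hsJ hJ hx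
    show (algebraMap R ↥(modularFunctionFieldFullC K (M' * q)) π)⁻¹ *
      (2 : ↥(modularFunctionFieldFullC K (M' * q))) ∈
        (cm85_Vinf (K := K) (M' * q) hπ).toSubring
    have e : (2 : ↥(modularFunctionFieldFullC K (M' * q))) =
        algebraMap R ↥(modularFunctionFieldFullC K (M' * q)) π := by
      rw [hqF, h2]
      push_cast
      rfl
    rw [e, inv_mul_cancel₀ hp0]
    exact Subring.one_mem _

include hπ in
/-- **`nr21c_Two` on both charts of `pk85_h3` at level `M' q`** (`3 ∣ M'`, `nuThree M' = 0`). -/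
theorem nr21c_two [Algebra R ↥(modularFunctionFieldFullC K M')]
    [IsScalarTower R K ↥(modularFunctionFieldFullC K M')] (h3 : 3 ∣ M') (hMu : IsUnit (M' : R))
    (hν3 : nuThree M' = 0) :
    nr21c_Two M' q π (pk15_chart R ({pk85_h3 K (M' * q) (Dvd.dvd.mul_right h3 q)} :
        Set ↥(modularFunctionFieldFullC K (M' * q)))) ∧
      nr21c_Two M' q π (pk15_chart R ({(pk85_h3 K (M' * q) (Dvd.dvd.mul_right h3 q))⁻¹} :
        Set ↥(modularFunctionFieldFullC K (M' * q)))) := by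
  obtain ⟨r1, r2⟩ := rr79c_rootAt_h27 (R := R) (K := K) M' q hπ h3 hMu hν3
  have hne : pk85_h3 K (M' * q) (Dvd.dvd.mul_right h3 q) + 27 ≠ 0 := by
    intro h0
    apply pk85_h3_transcendental K (M' * q) (Dvd.dvd.mul_right h3 q)
    have h1 : pk85_h3 K (M' * q) (Dvd.dvd.mul_right h3 q) =
        algebraMap K ↥(modularFunctionFieldFullC K (M' * q)) (-27) := by
      rw [map_neg, map_ofNat]
      exact eq_neg_of_add_eq_zero_left h0
    rw [h1]
    exact isAlgebraic_algebraMap _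
  refine ⟨⟨_, pk85_h3_rel K (M' * q) (Dvd.dvd.mul_right h3 q), hne, r1, ?_⟩,
    ⟨_, pk85_h3_rel K (M' * q) (Dvd.dvd.mul_right h3 q), hne, r2, ?_⟩⟩
  · intro n hn aJ sJ hsJ hJ
    refine ⟨1, ⟨_, pk15_subset_chart (R := R)
      ({pk85_h3 K (M' * q) (Dvd.dvd.mul_right h3 q)} :
        Set ↥(modularFunctionFieldFullC K (M' * q))) (Set.mem_singleton _)⟩, ?_, ?_⟩
    · exact (Ideal.ne_top_iff_one n).mp hn.ne_top
    · show (1 : ↥(modularFunctionFieldFullC K (M' * q))) *
        pk85_h3 K (M' * q) (Dvd.dvd.mul_right h3 q) = pk85_h3 K (M' * q) (Dvd.dvd.mul_right h3 q)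
      rw [one_mul]
  · intro n hn aJ sJ hsJ hJ
    haveI := hn
    obtain ⟨t, ht, hmem⟩ := rr79c_h27_reg_inv (R := R) (M' * q) (Dvd.dvd.mul_right h3 q) n
      ⟨sJ, hsJ, by rw [hJ]; exact aJ.2⟩
    have e : (t : ↥(modularFunctionFieldFullC K (M' * q))) *
        pk85_h3 K (M' * q) (Dvd.dvd.mul_right h3 q) =
        (t : ↥(modularFunctionFieldFullC K (M' * q))) *
          (pk85_h3 K (M' * q) (Dvd.dvd.mul_right h3 q) + 27) -
        algebraMap R ↥(modularFunctionFieldFullC K (M' * q)) 27 *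
          (t : ↥(modularFunctionFieldFullC K (M' * q))) := by
      rw [map_ofNat]
      ring
    refine ⟨t, ⟨(t : ↥(modularFunctionFieldFullC K (M' * q))) *
      pk85_h3 K (M' * q) (Dvd.dvd.mul_right h3 q), ?_⟩, ht, rfl⟩
    rw [e]
    exact Subalgebra.sub_mem _ hmem
      (Subalgebra.mul_mem _ (Subalgebra.algebraMap_mem _ (27 : R)) t.2)

include hq hM' in
/-- **`nk21_Rig` at every closed point over `π` of both charts of an admissible Hauptmodul**, at
a rigid level `M'` (`nuTwo M' = 0`, `nuThree M' = 0`). -/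
theorem nr21c_rig (hν2 : nuTwo M' = 0) (hν3 : nuThree M' = 0)
    (hunit : ∀ n : ℕ, Nat.Coprime n q → IsUnit (n : R)) (hqR : ¬ IsUnit (q : R))
    (hqπ : ((q : ℕ) : R) = π)
    (h : ↥(modularFunctionFieldFullC K (M' * q))) (hh : s34i47c_IsHaupt K (M' * q) q h) :
    (∀ n : Ideal ↥(pk15_chart R ({h} : Set ↥(modularFunctionFieldFullC K (M' * q)))),
      n.IsMaximal →
      algebraMap R ↥(pk15_chart R ({h} : Set ↥(modularFunctionFieldFullC K (M' * q)))) π ∈ n →
      nk21_Rig M' q hπ (pk15_chart R ({h} : Set ↥(modularFunctionFieldFullC K (M' * q)))) n) ∧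
    (∀ n : Ideal ↥(pk15_chart R ({h⁻¹} : Set ↥(modularFunctionFieldFullC K (M' * q)))),
      n.IsMaximal →
      algebraMap R ↥(pk15_chart R ({h⁻¹} : Set ↥(modularFunctionFieldFullC K (M' * q)))) π ∈ n →
      nk21_Rig M' q hπ (pk15_chart R ({h⁻¹} : Set ↥(modularFunctionFieldFullC K (M' * q)))) n) := by
  haveI : Algebra.IsAlgebraic K Q̄ := cx_isAlgebraic_closure K
  letI : Algebra R ↥(modularFunctionFieldFullC K M') :=
    ((algebraMap K ↥(modularFunctionFieldFullC K M')).comp (algebraMap R K)).toAlgebra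
  haveI : IsScalarTower R K ↥(modularFunctionFieldFullC K M') :=
    IsScalarTower.of_algebraMap_eq (fun _ => rfl)
  have hMu : IsUnit (M' : R) :=
    hunit M' (Nat.Coprime.symm ((Nat.Prime.coprime_iff_not_dvd hq).mpr hM'))
  obtain ⟨⟨hBW1, -, -, -, -⟩, ⟨hBW2, -, -, -, -⟩⟩ :=
    nf79c_chart_facts M' q hq hM' hπ hunit hqR h hh
  rcases hh with ⟨hq2, h2, rfl⟩ | ⟨hq3, h3, rfl⟩
  · have hcop : Nat.Coprime 2 q := (Nat.coprime_primes Nat.prime_two hq).mpr (Ne.symm hq2)
    have h2' : 2 ∣ M' := hcop.dvd_of_dvd_mul_right h2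
    obtain ⟨⟨a1, a2⟩, ⟨b1, b2⟩⟩ := rr79c_rootAt_level2 (R := R) (K := K) M' q hπ h2' hMu hν3 hν2
    rw [map_ofNat] at a2 b2
    exact ⟨fun n hn hπn => nr21c_rig_of_root M' q hq hM' hπ hqπ _ hBW1 a1 a2
        (fun h => absurd h hq2) n hn hπn,
      fun n hn hπn => nr21c_rig_of_root M' q hq hM' hπ hqπ _ hBW2 b1 b2
        (fun h => absurd h hq2) n hn hπn⟩
  · have hcop : Nat.Coprime 3 q := (Nat.coprime_primes Nat.prime_three hq).mpr (Ne.symm hq3)
    have h3' : 3 ∣ M' := hcop.dvd_of_dvd_mul_right h3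
    obtain ⟨⟨a1, a2⟩, ⟨b1, b2⟩⟩ := rr79c_rootAt_level3 (R := R) (K := K) M' q hπ h3' hMu hν3 hν2
    rw [map_ofNat] at a2 b2
    obtain ⟨t1, t2⟩ := nr21c_two (K := K) M' q hπ h3' hMu hν3
    exact ⟨fun n hn hπn => nr21c_rig_of_root M' q hq hM' hπ hqπ _ hBW1 a1 a2
        (fun _ => t1) n hn hπn,
      fun n hn hπn => nr21c_rig_of_root M' q hq hM' hπ hqπ _ hBW2 b1 b2
        (fun _ => t2) n hn hπn⟩

include hq hM' in
/-- **(REG-q) AT THE RIGID LEVELS, UNCONDITIONAL**: for `nuTwo M' = 0`, `nuThree M' = 0`, both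
charts of every admissible Hauptmodul at level `M' * q` satisfy `nf21c_Reg` — literally the
hypotheses `hr₁`, `hr₂` of `tf71b_twoGen` (all `q`, all nodes). -/
theorem nr21c_reg (hν2 : nuTwo M' = 0) (hν3 : nuThree M' = 0)
    (hunit : ∀ n : ℕ, Nat.Coprime n q → IsUnit (n : R)) (hqR : ¬ IsUnit (q : R))
    (hqπ : ((q : ℕ) : R) = π)
    (h : ↥(modularFunctionFieldFullC K (M' * q))) (hh : s34i47c_IsHaupt K (M' * q) q h) :
    nf21c_Reg M' q hq hM' hπ
        (pk15_chart R ({h} : Set ↥(modularFunctionFieldFullC K (M' * q)))) ∧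
      nf21c_Reg M' q hq hM' hπ
        (pk15_chart R ({h⁻¹} : Set ↥(modularFunctionFieldFullC K (M' * q)))) := by
  obtain ⟨k1, k2⟩ := nr21c_rig M' q hq hM' hπ hν2 hν3 hunit hqR hqπ h hh
  have hπ₁ : (algebraMap R ↥(modularFunctionFieldFullC K (M' * q)) π)⁻¹ ∉
      (cm85_Vinf (K := K) (M' * q) hπ).toSubring := al97C_pi_inv_not_mem_Vinf M' q hπ
  have hp0 : algebraMap R ↥(modularFunctionFieldFullC K (M' * q)) π ≠ 0 := fun h0 =>
    hπ₁ (by rw [h0, inv_zero]; exact Subring.zero_mem _)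
  have hπmem : ∀ (B : Subalgebra R ↥(modularFunctionFieldFullC K (M' * q))) (n : Ideal B),
      sf79_OnBr π B (cm85_Vinf (K := K) (M' * q) hπ).toSubring n → algebraMap R B π ∈ n := by
    intro B n hbr
    apply hbr
    show (algebraMap R ↥(modularFunctionFieldFullC K (M' * q)) π)⁻¹ *
      algebraMap R ↥(modularFunctionFieldFullC K (M' * q)) π ∈ _
    rw [inv_mul_cancel₀ hp0]
    exact Subring.one_mem _
  exact nk21_reg M' q hq hM' hπ hunit hqR hqπ h hh
    (fun n hn h1 _ => k1 n hn (hπmem _ n h1)) (fun n hn h1 _ => k2 n hn (hπmem _ n h1))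

end NR21C

end Fermat.Agent.S36
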