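/-
S36 lab, row 599 (C-REGq, the crux), helper49: THE `q = 2` CLAUSE OF THE RIGIDITY INPUT
`nk21_Rig` (helper21, `NodeData21`), unconditional.

For `q = 2` the admissible Hauptmodul of level `M' * q` is `h = pk85_h3 K (M' * q) _`
(`3 ∣ M'`).  At every closed point `n` of the special fibre of both charts `{h}`, `{h⁻¹}` where
`J` is regular:

* `rq43_level3_h27` (helper43 / helper79): `h + 27 = ε c³`, `ε` a unit of `B_n`, `c ∈ B_n`
  (rigid good level `M'`: `nuThree M' = 0`, transported along `α`);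
* `pk85_h3_rel` : `J h³ = (h + 27)(h + 243)³`;
* `ht49_clauses_map` (characteristic `2`): in every ring `O` with `2 = 0` receiving `B_n`,
  `Φ J = w (Φ c)¹²`, `w` a unit.

Hence for every discrete valuation ring `(O, φ)` of the `∞`-branch at `n` and every
presentation `sJ * J = aJ`: `aJ ∈ n → ϖ ^ 12 ∣ φ aJ`, which is the only non-vacuous clause of
`nk21_Rig` when `q = 2`.

* `nr49_twelve_dvd` : the abstract chart form (any chart `B`, any `φ : B →+* O` inverting
  `B ∖ n` with `(2 : O) = 0`, root structure of `h + 27` at `n`).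
* `nr49_rig_chart`, `nr49_rig_chart_inv` : `nk21_Rig M' q hπ B n` for `q = 2` on the two charts.
* `nr49_hrig` : the two hypotheses `hrig₁`, `hrig₂` of `nk21_reg` for `q = 2`, literally.
* `nr49_reg` : hence (REG-q) = `nf21c_Reg` for both charts when `q = 2`, with NO hypothesis left
  beyond the rigid good level (`nuThree M' = 0`).
-/
import Mathlib
import Fermat.Agent.S36.NodeData21
import Fermat.Agent.S36.RigidLevelQ43
import Fermat.Agent.S36.RigidRed79
import Fermat.Agent.S36.GoodFrame49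

set_option autoImplicit false
set_option linter.unusedVariables false
set_option linter.unusedSectionVars false
set_option linter.style.longLine false
set_option linter.style.haveILetI false

open ModularCurve AlgebraicCurve

namespace Fermat.Agent.S36

open Fermat.Agent.S18 Fermat.Agent.S24 Fermat.Agent.S28 Fermat.Agent.S34 Fermat.Agent.S35

local notation "Q̄" => AlgebraicClosure ℚ

section Abs

variable {R F : Type*} [CommRing R] [Field F] [Algebra R F]

/-- **Abstract chart form.**  `B` a chart, `n` a prime, `φ : B →+* O` a ring hom into a discrete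
valuation ring of characteristic `2` inverting `B ∖ n`; `J`, `h` regular at `n` with
`J h³ = (h + 27)(h + 243)³` and `h + 27 = ε c³`, `ε` a unit of `B_n`, `c ∈ B_n`.  Then for every
presentation `sJ * J = aJ`: if `φ aJ` is not a unit, `ϖ ^ 12 ∣ φ aJ`. -/
theorem nr49_twelve_dvd (B : Subalgebra R F) (n : Ideal B) [hn : n.IsPrime]
    {O : Type*} [CommRing O] [IsDomain O] [IsDiscreteValuationRing O]
    (φ : B →+* O) (hφ : ∀ b : B, b ∉ n → IsUnit (φ b)) (h2 : (2 : O) = 0)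
    (J h c ε : F) (hhA : h ∈ sf79_loc B n) (hεA : ε ∈ sf79_loc B n)
    (hεA' : ε⁻¹ ∈ sf79_loc B n) (hcA : c ∈ sf79_loc B n) (hε0 : ε ≠ 0)
    (hrel : J * h ^ 3 = (h + 27) * (h + 243) ^ 3) (hfac : h + 27 = ε * c ^ 3)
    (sJ aJ : B) (hsJ : sJ ∉ n) (hJ : (sJ : F) * J = (aJ : F))
    (ϖ : O) (hϖ : Irreducible ϖ) (haJ : ¬ IsUnit (φ aJ)) : ϖ ^ 12 ∣ φ aJ := by
  have hJA : J ∈ sf79_loc B n := ⟨sJ, hsJ, by rw [hJ]; exact aJ.2⟩
  obtain ⟨⟨w, hw, hwJ⟩, -⟩ :=
    ht49_clauses_map (sf79_loc B n) (rr79_ext B n φ hφ) h2 J h ε c hJA hhA hεA hεA' hcA hε0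
      hrel hfac
  have hspec : φ sJ * rr79_ext B n φ hφ ⟨J, hJA⟩ = φ aJ :=
    rr79_ext_spec B n φ hφ ⟨J, hJA⟩ sJ aJ hJ
  have hcnu : ¬ IsUnit (rr79_ext B n φ hφ ⟨c, hcA⟩) := by
    intro hcu
    apply haJ
    rw [← hspec, hwJ]
    exact (hφ sJ hsJ).mul (hw.mul (hcu.pow 12))
  have hdvd : ϖ ∣ rr79_ext B n φ hφ ⟨c, hcA⟩ := rr79_dvd_of_not_isUnit ϖ hϖ _ hcnu
  rw [← hspec, hwJ]
  exact Dvd.dvd.mul_left (Dvd.dvd.mul_left (pow_dvd_pow_of_dvd hdvd 12) w) (φ sJ)

end Abs

section Concrete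

variable {R K : Type} [CommRing R] [IsDomain R] [IsDiscreteValuationRing R] [Field K]
  [NumberField K] [Algebra K Q̄] [Algebra R K] [IsFractionRing R K]
  (M' q : ℕ) [NeZero M'] [NeZero q]
  [Algebra R ↥(modularFunctionFieldFullC K (M' * q))]
  [IsScalarTower R K ↥(modularFunctionFieldFullC K (M' * q))] {π : R} (hπ : Irreducible π)

/-- For `q = 2` the image of `2` vanishes in every `O` receiving the chart along the
`∞`-branch. -/
theorem nr49_two_eq_zero (hq2 : q = 2) (hqR : ¬ IsUnit ((q : ℕ) : R))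
    (B : Subalgebra R ↥(modularFunctionFieldFullC K (M' * q)))
    {O : Type*} [CommRing O] (φ : B →+* O)
    (hz : ∀ x : B, φ x = 0 ↔
      (algebraMap R ↥(modularFunctionFieldFullC K (M' * q)) π)⁻¹ *
        (x : ↥(modularFunctionFieldFullC K (M' * q))) ∈ cm85_Vinf (K := K) (M' * q) hπ) :
    (2 : O) = 0 := by
  have h2R : (2 : R) ∈ IsLocalRing.maximalIdeal R := by
    rw [IsLocalRing.mem_maximalIdeal, mem_nonunits_iff]
    intro hu
    apply hqR
    rw [hq2]
    exact_mod_cast hu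
  have hm : IsLocalRing.maximalIdeal R = Ideal.span {π} :=
    (IsDiscreteValuationRing.irreducible_iff_uniformizer π).mp hπ
  rw [hm] at h2R
  obtain ⟨r, hr⟩ := Ideal.mem_span_singleton'.mp h2R
  have hπ0 : algebraMap R ↥(modularFunctionFieldFullC K (M' * q)) π ≠ 0 := by
    rw [IsScalarTower.algebraMap_apply R K ↥(modularFunctionFieldFullC K (M' * q))]
    intro h0
    have h1 := (map_eq_zero (algebraMap K ↥(modularFunctionFieldFullC K (M' * q)))).mp h0
    exact hπ.ne_zero ((IsFractionRing.injective R K) (by rw [h1, map_zero]))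
  have h0 : φ (algebraMap R B (2 : R)) = 0 := by
    rw [hz]
    have e : (algebraMap R ↥(modularFunctionFieldFullC K (M' * q)) π)⁻¹ *
        ((algebraMap R B (2 : R) : B) : ↥(modularFunctionFieldFullC K (M' * q))) =
        algebraMap R ↥(modularFunctionFieldFullC K (M' * q)) r := by
      have e1 : ((algebraMap R B (2 : R) : B) : ↥(modularFunctionFieldFullC K (M' * q))) =
          algebraMap R ↥(modularFunctionFieldFullC K (M' * q)) (2 : R) := rfl
      rw [e1, ← hr, map_mul, ← mul_assoc, mul_comm _ (algebraMap R _ r), mul_assoc,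
        inv_mul_cancel₀ hπ0, mul_one]
    rw [e]
    exact pk85_hRV (M' * q) hπ r
  rw [map_ofNat] at h0
  rw [← h0, map_ofNat]

/-- **`nk21_Rig` for `q = 2`, from the root structure of `h₃ + 27`** (one chart `B`, `h₃`
regular at the points where `J` is). -/
theorem nr49_rig_of_root (hq2 : q = 2) (hqR : ¬ IsUnit ((q : ℕ) : R)) (h3 : 3 ∣ M' * q)
    (B : Subalgebra R ↥(modularFunctionFieldFullC K (M' * q)))
    (hroot : rt79_RootAt π B (rm90_j K (M' * q)) (pk85_h3 K (M' * q) h3 + 27) 3)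
    (n : Ideal B) (hn : n.IsMaximal) (hπn : algebraMap R B π ∈ n)
    (hhreg : (∃ s : B, s ∉ n ∧
        (s : ↥(modularFunctionFieldFullC K (M' * q))) * rm90_j K (M' * q) ∈ B) →
      ∃ s : B, s ∉ n ∧ (s : ↥(modularFunctionFieldFullC K (M' * q))) * pk85_h3 K (M' * q) h3 ∈ B) :
    nk21_Rig M' q hπ B n := by
  haveI hnp : n.IsPrime := hn.isPrime
  intro aJ sJ hsJ hJ O _ _ _ φ hz hunit ϖ hϖ
  refine ⟨fun h => absurd hq2 h, fun h => absurd hq2 h, fun h => ?_, fun _ haJ => ?_⟩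
  · exact absurd (hq2.symm.trans h) (by norm_num)
  have hreg : ∃ s : B, s ∉ n ∧
      (s : ↥(modularFunctionFieldFullC K (M' * q))) * rm90_j K (M' * q) ∈ B :=
    ⟨sJ, hsJ, by rw [hJ]; exact aJ.2⟩
  obtain ⟨c, ε, hc0, hfac, hεA, hεA', hcA⟩ := hroot n hn hπn hreg
  have hf0 : pk85_h3 K (M' * q) h3 + 27 ≠ 0 := by
    have := ht49_h3_add_ne_zero K (M' * q) h3 27
    exact_mod_cast this
  have hε0 : ε ≠ 0 := by
    rintro rfl
    rw [zero_mul] at hfac
    exact hf0 hfac
  have h2O : (2 : O) = 0 := nr49_two_eq_zero M' q hπ hq2 hqR B φ hz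
  have hφ : ∀ b : B, b ∉ n → IsUnit (φ b) := fun b hb => (hunit b).mpr hb
  have haJnu : ¬ IsUnit (φ aJ) := fun hu => ((hunit aJ).mp hu) haJ
  exact nr49_twelve_dvd B n φ hφ h2O (rm90_j K (M' * q)) (pk85_h3 K (M' * q) h3) c ε
    (hhreg hreg) hεA hεA' hcA hε0 (pk85_h3_rel K (M' * q) h3) hfac sJ aJ hsJ hJ ϖ hϖ haJnu

/-- **`nk21_Rig` for `q = 2`, both charts of `h₃` at level `M' * q`, unconditional** (good rigid
level `M'`: `3 ∣ M'`, `M'` a unit of `R`, no elliptic points of order `3`). -/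
theorem nr49_rig (hq2 : q = 2) (hqR : ¬ IsUnit ((q : ℕ) : R)) (h3 : 3 ∣ M')
    (hMu : IsUnit (M' : R)) (hν : nuThree M' = 0) :
    (∀ n : Ideal ↥(pk15_chart R ({pk85_h3 K (M' * q) (Dvd.dvd.mul_right h3 q)} :
        Set ↥(modularFunctionFieldFullC K (M' * q)))),
      n.IsMaximal →
      algebraMap R ↥(pk15_chart R ({pk85_h3 K (M' * q) (Dvd.dvd.mul_right h3 q)} :
        Set ↥(modularFunctionFieldFullC K (M' * q)))) π ∈ n →
      nk21_Rig M' q hπ (pk15_chart R ({pk85_h3 K (M' * q) (Dvd.dvd.mul_right h3 q)} :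
        Set ↥(modularFunctionFieldFullC K (M' * q)))) n) ∧
    (∀ n : Ideal ↥(pk15_chart R ({(pk85_h3 K (M' * q) (Dvd.dvd.mul_right h3 q))⁻¹} :
        Set ↥(modularFunctionFieldFullC K (M' * q)))),
      n.IsMaximal →
      algebraMap R ↥(pk15_chart R ({(pk85_h3 K (M' * q) (Dvd.dvd.mul_right h3 q))⁻¹} :
        Set ↥(modularFunctionFieldFullC K (M' * q)))) π ∈ n →
      nk21_Rig M' q hπ (pk15_chart R ({(pk85_h3 K (M' * q) (Dvd.dvd.mul_right h3 q))⁻¹} :
        Set ↥(modularFunctionFieldFullC K (M' * q)))) n) := by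
  letI : Algebra R ↥(modularFunctionFieldFullC K M') :=
    ((algebraMap K ↥(modularFunctionFieldFullC K M')).comp (algebraMap R K)).toAlgebra
  haveI : IsScalarTower R K ↥(modularFunctionFieldFullC K M') :=
    IsScalarTower.of_algebraMap_eq (fun _ => rfl)
  obtain ⟨hroot₁, hroot₂⟩ := rq43_level3_h27 (K := K) M' q hπ h3 hMu hν
  have hh0 : pk85_h3 K (M' * q) (Dvd.dvd.mul_right h3 q) ≠ 0 :=
    cap87_ne_zero _ (pk85_h3_transcendental K (M' * q) (Dvd.dvd.mul_right h3 q))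
  refine ⟨fun n hn hπn => ?_, fun n hn hπn => ?_⟩
  · refine nr49_rig_of_root M' q hπ hq2 hqR (Dvd.dvd.mul_right h3 q) _ hroot₁ n hn hπn ?_
    intro _
    haveI := hn.isPrime
    exact ⟨1, (Ideal.ne_top_iff_one n).mp hn.ne_top, by
      rw [OneMemClass.coe_one, one_mul]
      exact pk15_subset_chart _ (Set.mem_singleton _)⟩
  · refine nr49_rig_of_root M' q hπ hq2 hqR (Dvd.dvd.mul_right h3 q) _ hroot₂ n hn hπn ?_
    intro hreg
    haveI := hn.isPrime
    have htB : (pk85_h3 K (M' * q) (Dvd.dvd.mul_right h3 q))⁻¹ ∈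
        pk15_chart R ({(pk85_h3 K (M' * q) (Dvd.dvd.mul_right h3 q))⁻¹} :
          Set ↥(modularFunctionFieldFullC K (M' * q))) :=
      pk15_subset_chart _ (Set.mem_singleton _)
    have htn := gf49_inv_not_mem_abs _ n (rm90_j K (M' * q))
      (pk85_h3 K (M' * q) (Dvd.dvd.mul_right h3 q)) hh0
      (pk85_h3_rel K (M' * q) (Dvd.dvd.mul_right h3 q)) htB hreg
    refine ⟨⟨_, htB⟩, htn, ?_⟩
    show (pk85_h3 K (M' * q) (Dvd.dvd.mul_right h3 q))⁻¹ *
      pk85_h3 K (M' * q) (Dvd.dvd.mul_right h3 q) ∈ _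
    rw [inv_mul_cancel₀ hh0]
    exact Subalgebra.one_mem _

/-- **The hypotheses `hrig₁`, `hrig₂` of `nk21_reg` for `q = 2`**, literally (for the Hauptmodul
`pk85_h3 K (M' * q) h3'`, any proof `h3' : 3 ∣ M' * q`). -/
theorem nr49_hrig (hq : q.Prime) (hM' : ¬ q ∣ M') (hq2 : q = 2) (hqR : ¬ IsUnit ((q : ℕ) : R))
    (h3' : 3 ∣ M' * q) (hMu : IsUnit (M' : R)) (hν : nuThree M' = 0) :
    (∀ n : Ideal ↥(pk15_chart R ({pk85_h3 K (M' * q) h3'} :
        Set ↥(modularFunctionFieldFullC K (M' * q)))),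
      n.IsMaximal →
      sf79_OnBr π (pk15_chart R ({pk85_h3 K (M' * q) h3'} :
        Set ↥(modularFunctionFieldFullC K (M' * q))))
        (cm85_Vinf (K := K) (M' * q) hπ).toSubring n →
      sf79_OnBr π (pk15_chart R ({pk85_h3 K (M' * q) h3'} :
        Set ↥(modularFunctionFieldFullC K (M' * q))))
        (s34i47c_V0 (K := K) M' q hq hM' hπ).toSubring n →
      nk21_Rig M' q hπ (pk15_chart R ({pk85_h3 K (M' * q) h3'} :
        Set ↥(modularFunctionFieldFullC K (M' * q)))) n) ∧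
    (∀ n : Ideal ↥(pk15_chart R ({(pk85_h3 K (M' * q) h3')⁻¹} :
        Set ↥(modularFunctionFieldFullC K (M' * q)))),
      n.IsMaximal →
      sf79_OnBr π (pk15_chart R ({(pk85_h3 K (M' * q) h3')⁻¹} :
        Set ↥(modularFunctionFieldFullC K (M' * q))))
        (cm85_Vinf (K := K) (M' * q) hπ).toSubring n →
      sf79_OnBr π (pk15_chart R ({(pk85_h3 K (M' * q) h3')⁻¹} :
        Set ↥(modularFunctionFieldFullC K (M' * q))))
        (s34i47c_V0 (K := K) M' q hq hM' hπ).toSubring n →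
      nk21_Rig M' q hπ (pk15_chart R ({(pk85_h3 K (M' * q) h3')⁻¹} :
        Set ↥(modularFunctionFieldFullC K (M' * q)))) n) := by
  have h3 : 3 ∣ M' := by
    have hcop : Nat.Coprime 3 q := by rw [hq2]; norm_num
    exact hcop.dvd_of_dvd_mul_right h3'
  obtain ⟨H₁, H₂⟩ := nr49_rig (K := K) M' q hπ hq2 hqR h3 hMu hν
  have hπ0 : algebraMap R ↥(modularFunctionFieldFullC K (M' * q)) π ≠ 0 := by
    rw [IsScalarTower.algebraMap_apply R K ↥(modularFunctionFieldFullC K (M' * q))]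
    intro h0
    have h1 := (map_eq_zero (algebraMap K ↥(modularFunctionFieldFullC K (M' * q)))).mp h0
    exact hπ.ne_zero ((IsFractionRing.injective R K) (by rw [h1, map_zero]))
  have hπmem : ∀ (B : Subalgebra R ↥(modularFunctionFieldFullC K (M' * q))) (n : Ideal B),
      sf79_OnBr π B (cm85_Vinf (K := K) (M' * q) hπ).toSubring n → algebraMap R B π ∈ n := by
    intro B n h1
    apply h1
    have e : (algebraMap R ↥(modularFunctionFieldFullC K (M' * q)) π)⁻¹ *
        ((algebraMap R B π : B) : ↥(modularFunctionFieldFullC K (M' * q))) = 1 := by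
      show (algebraMap R ↥(modularFunctionFieldFullC K (M' * q)) π)⁻¹ *
        algebraMap R ↥(modularFunctionFieldFullC K (M' * q)) π = 1
      exact inv_mul_cancel₀ hπ0
    rw [e]
    exact Subring.one_mem _
  exact ⟨fun n hn h1 _ => H₁ n hn (hπmem _ n h1), fun n hn h1 _ => H₂ n hn (hπmem _ n h1)⟩

/-- **(REG-q) for `q = 2`, unconditional at a rigid good level**: `nf21c_Reg` (= `hr₁`, `hr₂` of
`tf71b_twoGen`) for both charts of the level-3 Hauptmodul at level `M' * q`. -/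
theorem nr49_reg (hq : q.Prime) (hM' : ¬ q ∣ M') (hq2 : q = 2)
    (hunit : ∀ n : ℕ, Nat.Coprime n q → IsUnit (n : R)) (hqR : ¬ IsUnit ((q : ℕ) : R))
    (hqπ : ((q : ℕ) : R) = π) (h3' : 3 ∣ M' * q) (hν : nuThree M' = 0) :
    nf21c_Reg M' q hq hM' hπ
        (pk15_chart R ({pk85_h3 K (M' * q) h3'} :
          Set ↥(modularFunctionFieldFullC K (M' * q)))) ∧
      nf21c_Reg M' q hq hM' hπ
        (pk15_chart R ({(pk85_h3 K (M' * q) h3')⁻¹} :
          Set ↥(modularFunctionFieldFullC K (M' * q)))) := by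
  have hMu : IsUnit (M' : R) :=
    hunit M' (Nat.Coprime.symm ((Nat.Prime.coprime_iff_not_dvd hq).mpr hM'))
  obtain ⟨H₁, H₂⟩ := nr49_hrig (K := K) M' q hπ hq hM' hq2 hqR h3' hMu hν
  have hq3 : q ≠ 3 := by rw [hq2]; norm_num
  exact nk21_reg M' q hq hM' hπ hunit hqR hqπ (pk85_h3 K (M' * q) h3')
    (Or.inr ⟨hq3, h3', rfl⟩) H₁ H₂

end Concrete

end Fermat.Agent.S36
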