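import Mathlib

/-!
# S36 (helper64): the norm as a product over a complete family of embeddings (Mathlib only)

`ne64_norm_eq_prod`: `E ⊆ F` finite separable, `Ω` any field over `E`, `σ : ι → (F →ₐ[E] Ω)` an
injective family with `card ι = [F : E]`.  Then `algebraMap E Ω (N_{F/E} y) = ∏ i, σ i y`.

`ne64_norm_red`: if moreover `O` is a subring of `Ω` containing all `σ i y` and `red : O →+* κ`,
then `algebraMap E Ω (N y) ∈ O` and `red (N y) = ∏ i, red (σ i y)`.

All names are prefixed `ne64_`.
-/

set_option autoImplicit false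

namespace Fermat.Agent.S36

open scoped BigOperators

section

variable {E F Ω : Type*} [Field E] [Field F] [Field Ω] [Algebra E F] [Algebra E Ω]
  [FiniteDimensional E F] [Algebra.IsSeparable E F]

/-- The norm is the product over any complete injective family of embeddings. -/
theorem ne64_norm_eq_prod {ι : Type*} [Fintype ι] (σ : ι → F →ₐ[E] Ω)
    (hσ : Function.Injective σ) (hcard : Fintype.card ι = Module.finrank E F) (y : F) :
    algebraMap E Ω (Algebra.norm E y) = ∏ i, σ i y := by
  classical
  let Ωb := AlgebraicClosure Ω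
  let j : Ω →ₐ[E] Ωb := IsScalarTower.toAlgHom E Ω Ωb
  have hj : Function.Injective j := (algebraMap Ω Ωb).injective
  let τ : ι → (F →ₐ[E] Ωb) := fun i => j.comp (σ i)
  have hτ : Function.Injective τ := by
    intro a b hab
    apply hσ
    ext x
    apply hj
    exact DFunLike.congr_fun hab x
  have hcard' : Fintype.card (F →ₐ[E] Ωb) = Module.finrank E F :=
    AlgHom.card E F Ωb
  have hbij : Function.Bijective τ := by
    rw [Fintype.bijective_iff_injective_and_card]
    exact ⟨hτ, by rw [hcard, hcard']⟩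
  have h1 := Algebra.norm_eq_prod_embeddings E Ωb y
  have h2 : ∏ i, τ i y = ∏ s : F →ₐ[E] Ωb, s y :=
    Fintype.prod_bijective τ hbij _ _ (fun _ => rfl)
  apply hj
  rw [map_prod]
  have h3 : j (algebraMap E Ω (Algebra.norm E y)) = algebraMap E Ωb (Algebra.norm E y) := by
    rw [AlgHom.commutes]
  rw [h3, h1, ← h2]
  rfl

/-- Reduction of the norm: if all conjugates lie in a subring `O` with a reduction map `red`,
then so does the norm, and `red (N y) = ∏ red (σ i y)`. -/
theorem ne64_norm_red {ι : Type*} [Fintype ι] (σ : ι → F →ₐ[E] Ω)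
    (hσ : Function.Injective σ) (hcard : Fintype.card ι = Module.finrank E F)
    (O : Subring Ω) {κ : Type*} [CommRing κ] (red : O →+* κ) (y : F)
    (hy : ∀ i, σ i y ∈ O) :
    ∃ h : algebraMap E Ω (Algebra.norm E y) ∈ O,
      red ⟨_, h⟩ = ∏ i, red ⟨σ i y, hy i⟩ := by
  classical
  have hN := ne64_norm_eq_prod σ hσ hcard y
  have hmem : algebraMap E Ω (Algebra.norm E y) ∈ O := by
    rw [hN]
    exact Subring.prod_mem O (fun i _ => hy i)
  refine ⟨hmem, ?_⟩
  have h1 : (⟨_, hmem⟩ : O) = ∏ i, (⟨σ i y, hy i⟩ : O) := by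
    apply Subtype.ext
    have h2 := map_prod O.subtype (fun i => (⟨σ i y, hy i⟩ : O)) Finset.univ
    show algebraMap E Ω (Algebra.norm E y) = O.subtype (∏ i, (⟨σ i y, hy i⟩ : O))
    rw [h2, hN]
    rfl
  rw [h1, map_prod]

end

end Fermat.Agent.S36
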