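import Fermat.Agent.S36.NormFov78
import Fermat.Agent.S36.BetaV2_66

/-!
# S36 lab, row 594 B2-norm (helper78): `ramβ` without the stability hypothesis

`nfv78_ram_beta` (NormFov78) takes the `w₂`-stability of the middle valuation `V₂` as a
hypothesis.  For ANY `V₂` with the facts of `ob72_ram` it holds (`o3x72_V2_stable` of helper72
with `hE2 = bv66_E2` of helper66), so:

* `nfb78_w2_mem` : `x ∈ V₂ → w₂ x ∈ V₂`;
* `nfb78_ram_beta` : the field `ramβ` of `fov50_Data` on the canonical frame from the `ob72_ram`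
  facts `hV₂ hπ₂ hne s hs` alone (and `hqR : ¬ IsUnit (q : R)`).

All names are prefixed `nfb78_`.
-/

set_option autoImplicit false
set_option linter.style.haveILetI false
set_option linter.unusedSectionVars false

open ModularCurve AlgebraicCurve IntermediateField
open Fermat.Agent.S24 Fermat.Agent.S28 Fermat.Agent.S18 Fermat.Agent.S37 Fermat.Agent.S34
open Fermat.Agent.S42 Fermat.Agent.S35

namespace Fermat.Agent.S36

section nfb78

variable {R K : Type} [CommRing R] [IsDomain R] [IsDiscreteValuationRing R] [Field K]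
  [Algebra R K] [IsFractionRing R K] [Algebra K Kbar]
  (M' q : ℕ) [NeZero M'] [NeZero q] (hq : q.Prime) (hM' : ¬ q ∣ M')

/-- `V₂` is stable under `w₂` (any `V₂` with the `ob72_ram` facts). -/
theorem nfb78_w2_mem {π : R} (hπ : Irreducible π) (hqR : ¬ IsUnit (q : R))
    (V₂ : ValuationSubring ↥(modularFunctionFieldFullC K (M' * q * q)))
    (hV₂ : ∀ c ∈ cm85_Vinf (K := K) (M' * q) hπ, al97L_alpha K (M' * q) q c ∈ V₂)
    (hπ₂ : (algebraMap K ↥(modularFunctionFieldFullC K (M' * q * q)) (algebraMap R K π))⁻¹ ∉ V₂)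
    (hne : cm85_Vinf (K := K) (M' * q * q) hπ ≠ V₂)
    (s : ↥(modularFunctionFieldFullC K (M' * q * q)))
    (hs : V₂.valuation s ^ (q - 1) =
      V₂.valuation (algebraMap K ↥(modularFunctionFieldFullC K (M' * q * q)) (algebraMap R K π))) :
    ∀ x ∈ V₂, als86_w2 (algebraMap K Kbar) M' q hq hM' (nsb86_hL K (M' * q * q)) x ∈ V₂ := by
  haveI : CharZero K := RingHom.charZero (algebraMap K Kbar)
  intro x hx
  exact (o3x72_V2_stable (K := K) M' q hq hM' hπ hqR (nsb86_hL K (M' * q * q)) V₂ hV₂ hπ₂ hne s hs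
    (bv66_E2 (K := K) M' q hq hM' hπ hqR (nsb86_hL K (M' * q * q)) V₂ hV₂ hπ₂ hne) x).mp hx

/-- **`ramβ`** on the canonical frame from the `ob72_ram` facts alone. -/
theorem nfb78_ram_beta {π : R} (hπ : Irreducible π) (hqR : ¬ IsUnit (q : R))
    (V₂ : ValuationSubring ↥(modularFunctionFieldFullC K (M' * q * q)))
    (hV₂ : ∀ c ∈ cm85_Vinf (K := K) (M' * q) hπ, al97L_alpha K (M' * q) q c ∈ V₂)
    (hπ₂ : (algebraMap K ↥(modularFunctionFieldFullC K (M' * q * q)) (algebraMap R K π))⁻¹ ∉ V₂)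
    (hne : cm85_Vinf (K := K) (M' * q * q) hπ ≠ V₂)
    (s : ↥(modularFunctionFieldFullC K (M' * q * q)))
    (hs : V₂.valuation s ^ (q - 1) =
      V₂.valuation (algebraMap K ↥(modularFunctionFieldFullC K (M' * q * q)) (algebraMap R K π))) :
    ∀ y ∈ nsb86_V3 M' q hq hM' hπ, y ∈ V₂ →
      ∀ v3 ∈ s34i47c_V0 (K := K) M' q hq hM' hπ, ∀ v2 ∈ s34i47c_V0 (K := K) M' q hq hM' hπ,
        y - al97L_beta K (M' * q) q v3 ∈ (nsb86_V3 M' q hq hM' hπ).nonunits →
        y - al97L_beta K (M' * q) q v2 ∈ V₂.nonunits →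
        s35i62_normB K (M' * q) q y - v3 * v2 ^ (q - 1) ∈
          (s34i47c_V0 (K := K) M' q hq hM' hπ).nonunits :=
  nfv78_ram_beta M' q hq hM' hπ V₂ hV₂ hπ₂ hne s hs
    (nfb78_w2_mem M' q hq hM' hπ hqR V₂ hV₂ hπ₂ hne s hs)

end nfb78

end Fermat.Agent.S36
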