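import Fermat.Agent.S36.NormInst88

/-!
# S36 lab, row B2-norm (helper88): norms of `1`-units on the literal level `M' q q` frame

`no88_hNU` = LITERALLY the hypothesis `hNU` of helper57's `cp57_HPT_of` (`CoreTwist57`) for the
canonical objects `V₁ = cm85_Vinf (M' q q)`, `V₂` (parameter with helper72's hypotheses),
`V₃` (with `hV₃mem`), `Vinf = cm85_Vinf (M' q)`, `V0 = s34i47c_V0 M' q`,
`Nal = s35i62_normA K (M' q) q`, `Nbe = s35i62_normB K (M' q) q`:

  `y ≡ 1` modulo `𝔪(V₁)`, `𝔪(V₂)`, `𝔪(V₃)`  ⟹  `N_α y ≡ 1` and `N_β y ≡ 1` modulo `𝔪(Vinf)`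
  and `𝔪(V0)`.

Proof: the norm congruences `ni88_ramα`, `ni88_inα`, `ni88_ramβ`, `ni88_inβ` with all lifts
equal to `1`.  All names are prefixed `no88_`.
-/

set_option autoImplicit false
set_option linter.unusedSectionVars false
set_option linter.unusedVariables false
set_option linter.style.longLine false
set_option linter.style.haveILetI false

open ModularCurve AlgebraicCurve IntermediateField Polynomial

namespace Fermat.Agent.S36

open Fermat.Agent.S18 Fermat.Agent.S24 Fermat.Agent.S37 Fermat.Agent.S34 Fermat.Agent.S35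

local notation "Q̄" => AlgebraicClosure ℚ

section gen

variable {F : Type*} [Field F]

/-- `y ≡ 1` modulo the maximal ideal gives `y ∈ V`. -/
theorem no88_mem (V : ValuationSubring F) {y : F} (h : V.valuation (y - 1) < 1) : y ∈ V := by
  have h1 : y - 1 ∈ V := (V.valuation_le_one_iff _).mp h.le
  have h2 : y = (y - 1) + 1 := by ring
  rw [h2]
  exact V.add_mem _ _ h1 V.one_mem

/-- `y ≡ 1` gives `y ^ n ≡ 1` modulo the maximal ideal. -/
theorem no88_pow (V : ValuationSubring F) {y : F} (h : V.valuation (y - 1) < 1) (n : ℕ) :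
    V.valuation (y ^ n - 1) < 1 := by
  have hy : V.valuation y ≤ 1 := (V.valuation_le_one_iff _).mpr (no88_mem V h)
  induction n with
  | zero => rw [pow_zero, sub_self, map_zero]; exact zero_lt_one
  | succ k ih =>
    have h2 : y ^ (k + 1) - 1 = y ^ k * (y - 1) + (y ^ k - 1) := by ring
    rw [h2]
    refine Valuation.map_add_lt _ ?_ ih
    rw [map_mul, map_pow]
    exact lt_of_le_of_lt (mul_le_of_le_one_left' (pow_le_one₀ zero_le hy)) h

end gen

section no88

variable {R K : Type} [CommRing R] [IsDomain R] [IsDiscreteValuationRing R] [Field K] [CharZero K]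
  [Algebra R K] [IsFractionRing R K] [Algebra K Q̄] (M' q : ℕ) [NeZero M'] [NeZero q]

/-- **`hNU` of `cp57_HPT_of` on the canonical frame**: the norms of an element `≡ 1` on the three
branches are `≡ 1` on both branches of the lower level. -/
theorem no88_hNU (hq : q.Prime) (hM' : ¬ q ∣ M') {π : R} (hπ : Irreducible π)
    (hqR : ¬ IsUnit (q : R)) (hL : ((M' * q * q : ℕ) : K) ≠ 0)
    (V₂ V₃ : ValuationSubring ↥(modularFunctionFieldFullC K (M' * q * q)))
    (hV₂ : ∀ c ∈ cm85_Vinf (K := K) (M' * q) hπ, al97L_alpha K (M' * q) q c ∈ V₂)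
    (hπ₂ : (algebraMap K ↥(modularFunctionFieldFullC K (M' * q * q)) (algebraMap R K π))⁻¹ ∉ V₂)
    (hne : cm85_Vinf (K := K) (M' * q * q) hπ ≠ V₂)
    (s : ↥(modularFunctionFieldFullC K (M' * q * q)))
    (hs : V₂.valuation s ^ (q - 1) =
      V₂.valuation (algebraMap K ↥(modularFunctionFieldFullC K (M' * q * q)) (algebraMap R K π)))
    (hE2 : ∀ a ∈ cm85_Vinf (K := K) M' hπ,
      al97L_beta K (M' * q) q (al97L_beta K M' q a) ∈ V₂)
    (hV₃mem : ∀ x, x ∈ V₃ ↔
      als86_w2 (algebraMap K Q̄) M' q hq hM' hL x ∈ cm85_Vinf (K := K) (M' * q * q) hπ)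
    (y : ↥(modularFunctionFieldFullC K (M' * q * q)))
    (h1 : (cm85_Vinf (K := K) (M' * q * q) hπ).valuation (y - 1) < 1)
    (h2 : V₂.valuation (y - 1) < 1) (h3 : V₃.valuation (y - 1) < 1) :
    (cm85_Vinf (K := K) (M' * q) hπ).valuation (s35i62_normA K (M' * q) q y - 1) < 1 ∧
    (s34i47c_V0 (K := K) M' q hq hM' hπ).valuation (s35i62_normA K (M' * q) q y - 1) < 1 ∧
    (cm85_Vinf (K := K) (M' * q) hπ).valuation (s35i62_normB K (M' * q) q y - 1) < 1 ∧
    (s34i47c_V0 (K := K) M' q hq hM' hπ).valuation (s35i62_normB K (M' * q) q y - 1) < 1 := by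
  have hy1 := no88_mem _ h1
  have hy2 := no88_mem _ h2
  have hy3 := no88_mem _ h3
  have e1 : ∀ z : ↥(modularFunctionFieldFullC K (M' * q)), z - 1 * 1 ^ (q - 1) = z - 1 := by
    intro z; rw [one_pow, mul_one]
  refine ⟨?_, ?_, ?_, ?_⟩
  · have key := ni88_ramα (K := K) M' q hq hM' hπ V₂ hV₂ hπ₂ hne s hs y hy1 hy2
      1 (ValuationSubring.one_mem _) 1 (ValuationSubring.one_mem _)
      (by rw [map_one, ValuationSubring.mem_nonunits_iff]; exact h1)
      (by rw [map_one, ValuationSubring.mem_nonunits_iff]; exact h2)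
    rw [e1, ValuationSubring.mem_nonunits_iff] at key
    exact key
  · have key := ni88_inα (K := K) M' q hq hM' hπ hqR hL V₃ hV₃mem y hy3
      1 (ValuationSubring.one_mem _)
      (by rw [map_one, ValuationSubring.mem_nonunits_iff]; exact no88_pow _ h3 q)
    rw [ValuationSubring.mem_nonunits_iff] at key
    exact key
  · have key := ni88_inβ (K := K) M' q hq hM' hπ hqR hL y hy1
      1 (ValuationSubring.one_mem _)
      (by rw [map_one, ValuationSubring.mem_nonunits_iff]; exact no88_pow _ h1 q)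
    rw [ValuationSubring.mem_nonunits_iff] at key
    exact key
  · have key := ni88_ramβ (K := K) M' q hq hM' hπ hqR hL V₂ V₃ hV₂ hπ₂ hne s hs hE2 hV₃mem
      y hy3 hy2 1 (ValuationSubring.one_mem _) 1 (ValuationSubring.one_mem _)
      (by rw [map_one, ValuationSubring.mem_nonunits_iff]; exact h3)
      (by rw [map_one, ValuationSubring.mem_nonunits_iff]; exact h2)
    rw [e1, ValuationSubring.mem_nonunits_iff] at key
    exact key

end no88

end Fermat.Agent.S36
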