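import Fermat.Agent.S36.OnlyBind72
import Fermat.Agent.S36.NormVal88
import Fermat.Agent.S36.NormSqBeta86

/-!
# S36 lab, row 594 B2-norm (helper78): INSTANCE of the "thick" norm congruences `(N1)`, `(N4)`
on the canonical level-`q²` frame

`nv88_ram_norm` (helper88, intrinsic valuation form) bound to the frame, with the middle
valuation `V₂` a PARAMETER carrying exactly the hypotheses of `ob72_ram` (helper72):

* `nri78_ram_alpha` (level `M q`, `q ∣ M`, along `α = al97L_alpha K M q`; `V' = cm85_Vinf M`,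
  `V₁ = cm85_Vinf (M q)`): for `y ∈ V₁ ⊓ V₂`, `v1 v2 ∈ V'` with `π⁻¹ (y - α v1) ∈ V₁`,
  `s⁻¹ (y - α v2) ∈ V₂`:  `N_α y ∈ V'` and `π⁻¹ (N_α y - v1 * v2 ^ (q - 1)) ∈ V'`
  (`red_∞'(N_α y) = red₁(y) red₂(y)^(q-1)`);
* `nri78_ram_beta` (level `M' q²`, `q ∤ M'`, along `β = al97L_beta K (M' q) q`;
  `V' = s34i47c_V0 M' q`, `V₃ = nsb86_V3`, `V₂` stable under `w₂ = als86_w2`): for
  `y ∈ V₃ ⊓ V₂`, `v1 v2 ∈ V_0'` with `π⁻¹ (y - β v1) ∈ V₃`, `(w₂ s)⁻¹ (y - β v2) ∈ V₂`:
  `N_β y ∈ V_0'` and `π⁻¹ (N_β y - v1 * v2 ^ (q - 1)) ∈ V_0'`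
  (`red_0'(N_β y) = red₃(y) red₂(y)^(q-1)`), by transport of the first along `w₂`.

Together with `nsb86_alpha_cong`, `nsb86_beta_cong` (helper86) these are the four norm
formulas of the level-`q²` frame.  All names are prefixed `nri78_`.
-/

set_option autoImplicit false
set_option linter.style.haveILetI false
set_option linter.unusedSectionVars false

open ModularCurve AlgebraicCurve IntermediateField
open Fermat.Agent.S24 Fermat.Agent.S28 Fermat.Agent.S18 Fermat.Agent.S37 Fermat.Agent.S34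
open Fermat.Agent.S42 Fermat.Agent.S35

namespace Fermat.Agent.S36

section nri78_alpha

variable {R K : Type} [CommRing R] [IsDomain R] [IsDiscreteValuationRing R] [Field K] [CharZero K]
  [Algebra R K] [IsFractionRing R K] (M q : ℕ) [NeZero M] [NeZero q]

set_option maxHeartbeats 1000000 in
/-- **`(N1)` on the frame, congruence form**: the norm along `α` of an element of `V₁ ⊓ V₂`. -/
theorem nri78_ram_alpha (hq : q.Prime) (hqM : q ∣ M) {π : R} (hπ : Irreducible π)
    (V₂ : ValuationSubring ↥(modularFunctionFieldFullC K (M * q)))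
    (hV₂ : ∀ c ∈ cm85_Vinf (K := K) M hπ, al97L_alpha K M q c ∈ V₂)
    (hπ₂ : (algebraMap K ↥(modularFunctionFieldFullC K (M * q)) (algebraMap R K π))⁻¹ ∉ V₂)
    (hne : cm85_Vinf (K := K) (M * q) hπ ≠ V₂)
    (s : ↥(modularFunctionFieldFullC K (M * q)))
    (hs : V₂.valuation s ^ (q - 1) =
      V₂.valuation (algebraMap K ↥(modularFunctionFieldFullC K (M * q)) (algebraMap R K π)))
    (y : ↥(modularFunctionFieldFullC K (M * q)))
    (hy1 : y ∈ cm85_Vinf (K := K) (M * q) hπ) (hy2 : y ∈ V₂)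
    (v1 v2 : ↥(modularFunctionFieldFullC K M))
    (hv1 : v1 ∈ cm85_Vinf (K := K) M hπ) (hv2 : v2 ∈ cm85_Vinf (K := K) M hπ)
    (hyv1 : (algebraMap K ↥(modularFunctionFieldFullC K (M * q)) (algebraMap R K π))⁻¹ *
      (y - al97L_alpha K M q v1) ∈ cm85_Vinf (K := K) (M * q) hπ)
    (hyv2 : s⁻¹ * (y - al97L_alpha K M q v2) ∈ V₂) :
    letI := algebraAlong (al97L_alpha K M q)
    Algebra.norm ↥(modularFunctionFieldFullC K M) y ∈ cm85_Vinf (K := K) M hπ ∧
      (algebraMap K ↥(modularFunctionFieldFullC K M) (algebraMap R K π))⁻¹ *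
        (Algebra.norm ↥(modularFunctionFieldFullC K M) y - v1 * v2 ^ (q - 1)) ∈
          cm85_Vinf (K := K) M hπ := by
  have hq2 := hq.two_le
  have hn1 : 1 ≤ q - 1 := by omega
  have hqq : q ≤ q - 1 + 1 := by omega
  letI alg : Algebra ↥(modularFunctionFieldFullC K M) ↥(modularFunctionFieldFullC K (M * q)) :=
    (al97L_alpha K M q).toRingHom.toAlgebra
  have hfr := ob72_finrank K M q hq hqM
  haveI : FiniteDimensional ↥(modularFunctionFieldFullC K M)
      ↥(modularFunctionFieldFullC K (M * q)) :=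
    Module.finite_of_finrank_pos (by rw [hfr]; exact hq.pos)
  haveI : CharZero ↥(modularFunctionFieldFullC K M) :=
    charZero_of_injective_algebraMap
      (algebraMap K ↥(modularFunctionFieldFullC K M)).injective
  haveI : Algebra.IsSeparable ↥(modularFunctionFieldFullC K M)
      ↥(modularFunctionFieldFullC K (M * q)) :=
    Algebra.IsAlgebraic.isSeparable_of_perfectField
  have hπEF : algebraMap ↥(modularFunctionFieldFullC K M) ↥(modularFunctionFieldFullC K (M * q))
      (algebraMap K ↥(modularFunctionFieldFullC K M) (algebraMap R K π)) =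
      algebraMap K ↥(modularFunctionFieldFullC K (M * q)) (algebraMap R K π) :=
    (al97L_alpha K M q).commutes _
  have hπV' : algebraMap K ↥(modularFunctionFieldFullC K M) (algebraMap R K π) ∈
      cm85_Vinf (K := K) M hπ :=
    gv85_mem_V_of_integral _ _ _ _ (HahnSeries.C π) (by rw [gv85_coe_algebraMap, gv85_coeffMap_C])
  have hπV'' : (algebraMap K ↥(modularFunctionFieldFullC K M) (algebraMap R K π))⁻¹ ∉
      cm85_Vinf (K := K) M hπ :=
    gv85_pi_inv_not_mem (IsLocalRing.residue R) π (pk85_res_iff hπ) hπ.ne_zero _ _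
  have hmax : ∀ x ∈ cm85_Vinf (K := K) M hπ, x⁻¹ ∉ cm85_Vinf (K := K) M hπ →
      (algebraMap K ↥(modularFunctionFieldFullC K M) (algebraMap R K π))⁻¹ * x ∈
        cm85_Vinf (K := K) M hπ := fun x hx hx' =>
    gv85_hmax (IsLocalRing.residue R) π (pk85_res_iff hπ) hπ.ne_zero _ _ x hx hx'
  have harch := fs85_harch (K := K) M hπ
  have hV₁ : ∀ c ∈ cm85_Vinf (K := K) M hπ,
      algebraMap ↥(modularFunctionFieldFullC K M) ↥(modularFunctionFieldFullC K (M * q)) c ∈
        cm85_Vinf (K := K) (M * q) hπ := fun c hc =>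
    (al97V_alpha_mem_Vinf M q hπ c).mpr hc
  have hπ₁ : (algebraMap ↥(modularFunctionFieldFullC K M) ↥(modularFunctionFieldFullC K (M * q))
      (algebraMap K ↥(modularFunctionFieldFullC K M) (algebraMap R K π)))⁻¹ ∉
        cm85_Vinf (K := K) (M * q) hπ := by
    rw [hπEF]
    exact gv85_pi_inv_not_mem (IsLocalRing.residue R) π (pk85_res_iff hπ) hπ.ne_zero _ _
  have hπ₂' : (algebraMap ↥(modularFunctionFieldFullC K M) ↥(modularFunctionFieldFullC K (M * q))
      (algebraMap K ↥(modularFunctionFieldFullC K M) (algebraMap R K π)))⁻¹ ∉ V₂ := by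
    rw [hπEF]; exact hπ₂
  have hs' : V₂.valuation s ^ (q - 1) = V₂.valuation
      (algebraMap ↥(modularFunctionFieldFullC K M) ↥(modularFunctionFieldFullC K (M * q))
        (algebraMap K ↥(modularFunctionFieldFullC K M) (algebraMap R K π))) := by
    rw [hπEF]; exact hs
  have hyv1' : (algebraMap ↥(modularFunctionFieldFullC K M)
      ↥(modularFunctionFieldFullC K (M * q))
      (algebraMap K ↥(modularFunctionFieldFullC K M) (algebraMap R K π)))⁻¹ *
      (y - algebraMap ↥(modularFunctionFieldFullC K M) ↥(modularFunctionFieldFullC K (M * q)) v1) ∈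
        cm85_Vinf (K := K) (M * q) hπ := by
    rw [hπEF]; exact hyv1
  have hmain := nv88_ram_norm (q - 1) hn1 (hfr.le.trans hqq)
    (cm85_Vinf (K := K) M hπ) (algebraMap K ↥(modularFunctionFieldFullC K M) (algebraMap R K π))
    hπV' hπV'' hmax harch (cm85_Vinf (K := K) (M * q) hπ) V₂ hne hV₁ hπ₁ hV₂ hπ₂' s hs'
    y hy1 hy2 v1 v2 hv1 hv2 hyv1' hyv2
  exact hmain

end nri78_alpha

section nri78_beta

variable {R K : Type} [CommRing R] [IsDomain R] [IsDiscreteValuationRing R] [Field K]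
  [Algebra R K] [IsFractionRing R K] [Algebra K Kbar]
  (M' q : ℕ) [NeZero M'] [NeZero q] (hq : q.Prime) (hM' : ¬ q ∣ M')

/-- **`(N4)` on the frame, congruence form**: the norm along `β` of an element of `V₃ ⊓ V₂`,
for a middle valuation `V₂` stable under `w₂`. -/
theorem nri78_ram_beta {π : R} (hπ : Irreducible π)
    (V₂ : ValuationSubring ↥(modularFunctionFieldFullC K (M' * q * q)))
    (hV₂ : ∀ c ∈ cm85_Vinf (K := K) (M' * q) hπ, al97L_alpha K (M' * q) q c ∈ V₂)
    (hπ₂ : (algebraMap K ↥(modularFunctionFieldFullC K (M' * q * q)) (algebraMap R K π))⁻¹ ∉ V₂)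
    (hne : cm85_Vinf (K := K) (M' * q * q) hπ ≠ V₂)
    (s : ↥(modularFunctionFieldFullC K (M' * q * q)))
    (hs : V₂.valuation s ^ (q - 1) =
      V₂.valuation (algebraMap K ↥(modularFunctionFieldFullC K (M' * q * q)) (algebraMap R K π)))
    (hw2 : ∀ x ∈ V₂, als86_w2 (algebraMap K Kbar) M' q hq hM' (nsb86_hL K (M' * q * q)) x ∈ V₂)
    (y : ↥(modularFunctionFieldFullC K (M' * q * q)))
    (hy3 : y ∈ nsb86_V3 M' q hq hM' hπ) (hy2 : y ∈ V₂)
    (v1 v2 : ↥(modularFunctionFieldFullC K (M' * q)))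
    (hv1 : v1 ∈ s34i47c_V0 (K := K) M' q hq hM' hπ)
    (hv2 : v2 ∈ s34i47c_V0 (K := K) M' q hq hM' hπ)
    (hyv1 : (algebraMap K ↥(modularFunctionFieldFullC K (M' * q * q)) (algebraMap R K π))⁻¹ *
      (y - al97L_beta K (M' * q) q v1) ∈ nsb86_V3 M' q hq hM' hπ)
    (hyv2 : (als86_w2 (algebraMap K Kbar) M' q hq hM' (nsb86_hL K (M' * q * q)) s)⁻¹ *
      (y - al97L_beta K (M' * q) q v2) ∈ V₂) :
    letI := algebraAlong (al97L_beta K (M' * q) q)
    Algebra.norm ↥(modularFunctionFieldFullC K (M' * q)) y ∈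
        s34i47c_V0 (K := K) M' q hq hM' hπ ∧
      (algebraMap K ↥(modularFunctionFieldFullC K (M' * q)) (algebraMap R K π))⁻¹ *
        (Algebra.norm ↥(modularFunctionFieldFullC K (M' * q)) y - v1 * v2 ^ (q - 1)) ∈
          s34i47c_V0 (K := K) M' q hq hM' hπ := by
  haveI : CharZero K := RingHom.charZero (algebraMap K Kbar)
  set φ : K →+* Kbar := algebraMap K Kbar with hφ
  set w2 := als86_w2 φ M' q hq hM' (nsb86_hL K (M' * q * q)) with hw2def
  set w := al97L_w φ M' q hq hM' with hwdef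
  have hqM : q ∣ M' * q := dvd_mul_left q M'
  -- transport to the `α`-side
  have hy1' : w2 y ∈ cm85_Vinf (K := K) (M' * q * q) hπ :=
    (nsb86_mem_V3 M' q hq hM' hπ y).mp hy3
  have hy2' : w2 y ∈ V₂ := hw2 y hy2
  have hv1' : w v1 ∈ cm85_Vinf (K := K) (M' * q) hπ :=
    (s34i47c_mem_V0 M' q hq hM' hπ v1).mp hv1
  have hv2' : w v2 ∈ cm85_Vinf (K := K) (M' * q) hπ :=
    (s34i47c_mem_V0 M' q hq hM' hπ v2).mp hv2
  have hyv1' : (algebraMap K ↥(modularFunctionFieldFullC K (M' * q * q)) (algebraMap R K π))⁻¹ *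
      (w2 y - al97L_alpha K (M' * q) q (w v1)) ∈ cm85_Vinf (K := K) (M' * q * q) hπ := by
    have h := (nsb86_mem_V3 M' q hq hM' hπ _).mp hyv1
    rw [map_mul, map_inv₀, AlgEquiv.commutes, map_sub] at h
    rw [als86_w2_beta] at h
    exact h
  have hyv2' : s⁻¹ * (w2 y - al97L_alpha K (M' * q) q (w v2)) ∈ V₂ := by
    have h := hw2 _ hyv2
    rw [map_mul, map_inv₀, map_sub] at h
    rw [als86_w2_w2, als86_w2_beta] at h
    exact h
  obtain ⟨h1, h2⟩ := nri78_ram_alpha (M' * q) q hq hqM hπ V₂ hV₂ hπ₂ hne s hs (w2 y) hy1' hy2'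
    (w v1) (w v2) hv1' hv2' hyv1' hyv2'
  have hN := als86_norm_beta φ M' q hq hM' (nsb86_hL K (M' * q * q)) y
  letI := algebraAlong (al97L_beta K (M' * q) q)
  constructor
  · rw [s34i47c_mem_V0]
    show w (Algebra.norm ↥(modularFunctionFieldFullC K (M' * q)) y) ∈ _
    rw [hN, al97L_w_w]
    exact h1
  · rw [s34i47c_mem_V0]
    show w ((algebraMap K ↥(modularFunctionFieldFullC K (M' * q)) (algebraMap R K π))⁻¹ *
      (Algebra.norm ↥(modularFunctionFieldFullC K (M' * q)) y - v1 * v2 ^ (q - 1))) ∈ _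
    rw [map_mul, map_inv₀, AlgEquiv.commutes, map_sub, map_mul, map_pow, hN, al97L_w_w]
    exact h2

end nri78_beta

end Fermat.Agent.S36
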