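/-
S36 lab, pre-GO helper lemmas (helper94): the norm formula modulo `π` for the degree-`q` maps
`α, β : level q² → level q`  ((B2) of the S36 outline), abstract form on top of the S35 file
`NormRed25` (on main).

* `nrs94_norm_add_nilpotent` : `N(c + n) = c ^ dim` for nilpotent `n` in a finite `k`-algebra;
* `nrs94_norm_pow_linear`    : the norm on `k[X]/((X - a)^e)` is `P ↦ P(a)^e`;
* `nrs94_norm_shape_inf`     : the norm on `k[X]/((X - a₁)(X - a₂)^e)`, `a₁ ≠ a₂`, is
                               `P ↦ P(a₁) · P(a₂)^e`;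
* `nrs94_norm_red_inf`       : ∞-branch: if `Φ` (monic, degree `e + 1`, killing `y`, with the power
                               basis `1, y, …, y^e`) reduces to `(X - a₁)(X - a₂)^e`, then
                               `red (N P(y)) = P̄(a₁) · P̄(a₂)^e`   (`e = q - 1`: `red₁ · red₂^(q-1)`);
* `nrs94_norm_red_zero`      : 0-branch: if `Φ` reduces to `X^q - b₀` in characteristic `q`, then
                               `red (N P(y)) = P̄^{(q)}(b₀)`       (Frobenius twist of `red₃`).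
-/
import Mathlib
import Fermat.Agent.S35.NormRed25

set_option autoImplicit false

namespace Fermat.Agent.S36

open Polynomial Fermat.Agent.S35

section Field

variable {k : Type*} [Field k]

/-- `N(c + n) = c ^ dim` for a nilpotent `n`. -/
theorem nrs94_norm_add_nilpotent {S : Type*} [CommRing S] [Algebra k S] [Module.Finite k S]
    (c : k) (n : S) (hn : IsNilpotent n) :
    Algebra.norm k (algebraMap k S c + n) = c ^ Module.finrank k S := by
  have hnil : IsNilpotent (Algebra.lmul k S (-n)) := hn.neg.map (Algebra.lmul k S)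
  have h1 := LinearMap.eval_charpoly (Algebra.lmul k S (-n)) c
  rw [hnil.charpoly_eq_X_pow_finrank, eval_pow, eval_X] at h1
  rw [Algebra.norm_apply, h1]
  congr 1
  ext x
  simp only [LinearMap.sub_apply, Module.algebraMap_end_apply, Algebra.coe_lmul_eq_mul,
    LinearMap.mul_apply', Algebra.smul_def]
  ring

/-- The norm on `k[X]/((X - a)^e)` is `P ↦ P(a)^e`. -/
theorem nrs94_norm_pow_linear (a : k) (e : ℕ) (P : k[X]) :
    Algebra.norm k (AdjoinRoot.mk ((X - C a) ^ e) P) = P.eval a ^ e := by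
  have hm : ((X - C a) ^ e).Monic := (monic_X_sub_C a).pow e
  have : Module.Free k (AdjoinRoot ((X - C a) ^ e)) := hm.free_adjoinRoot
  have : Module.Finite k (AdjoinRoot ((X - C a) ^ e)) := hm.finite_adjoinRoot
  have hfr : Module.finrank k (AdjoinRoot ((X - C a) ^ e)) = e := by
    rw [(AdjoinRoot.powerBasis' hm).finrank]
    show ((X - C a) ^ e).natDegree = e
    rw [natDegree_pow, natDegree_X_sub_C, mul_one]
  obtain ⟨Q, hQ⟩ := Polynomial.X_sub_C_dvd_sub_C_eval (a := a) (p := P)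
  have hP : P = C (P.eval a) + (X - C a) * Q := by rw [← hQ]; ring
  have hnil : IsNilpotent (AdjoinRoot.mk ((X - C a) ^ e) ((X - C a) * Q)) := by
    refine ⟨e, ?_⟩
    rw [← map_pow, mul_pow, AdjoinRoot.mk_eq_zero]
    exact dvd_mul_right _ _
  have h2 : AdjoinRoot.mk ((X - C a) ^ e) P
      = algebraMap k (AdjoinRoot ((X - C a) ^ e)) (P.eval a)
        + AdjoinRoot.mk ((X - C a) ^ e) ((X - C a) * Q) := by
    conv_lhs => rw [hP]
    rw [map_add, AdjoinRoot.mk_C, AdjoinRoot.algebraMap_eq]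
  rw [h2, nrs94_norm_add_nilpotent _ _ hnil, hfr]

/-- **Shape on the ∞-branch**: the norm on `k[X]/((X - a₁)(X - a₂)^e)` for `a₁ ≠ a₂`. -/
theorem nrs94_norm_shape_inf (a₁ a₂ : k) (h12 : a₁ ≠ a₂) (e : ℕ) (P : k[X]) :
    Algebra.norm k (AdjoinRoot.mk ((X - C a₁) * (X - C a₂) ^ e) P) =
      P.eval a₁ * P.eval a₂ ^ e := by
  have hcop : IsCoprime (X - C a₁) ((X - C a₂) ^ e : k[X]) := by
    refine IsCoprime.pow_right ?_
    exact Polynomial.isCoprime_X_sub_C_of_isUnit_sub (sub_ne_zero.mpr h12).isUnit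
  rw [nr25_norm_mul_coprime _ _ (monic_X_sub_C a₁) ((monic_X_sub_C a₂).pow e) hcop,
    nr25_norm_linear, nrs94_norm_pow_linear]

end Field

section Main

variable {A A' S k : Type*} [CommRing A] [CommRing A'] [CommRing S] [Algebra A' S] [Field k]

/-- **Norm formula modulo `π`, ∞-branch of `α : level q² → level q`** (abstract form).
`S` has the `A'`-basis `1, y, …, y^e`; `Φ ∈ A[X]` is monic with `Φ(y) = 0` and reduces under
`red : A → k` to `(X - a₁)(X - a₂)^e` with `a₁ ≠ a₂`.  Then for every `P ∈ A[X]` the norm of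
`P(y)` is (the image of) an element `N` of `A` and `red N = P̄(a₁) · P̄(a₂)^e`. -/
theorem nrs94_norm_red_inf (e : ℕ)
    (y : S) (b : Module.Basis (Fin (e + 1)) A' S) (hb : ∀ i, b i = y ^ (i : ℕ))
    (ι : A →+* A') (Φ : A[X]) (hΦ : Φ.Monic) (hy : aeval y (Φ.map ι) = 0)
    (red : A →+* k) (a₁ a₂ : k) (h12 : a₁ ≠ a₂)
    (hΦred : Φ.map red = (X - C a₁) * (X - C a₂) ^ e) (P : A[X]) :
    ∃ N : A, Algebra.norm A' (aeval y (P.map ι)) = ι N ∧
      red N = (P.map red).eval a₁ * (P.map red).eval a₂ ^ e := by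
  have hn : Φ.natDegree = e + 1 := by
    rw [← hΦ.natDegree_map red, hΦred,
      natDegree_mul (X_sub_C_ne_zero a₁) (pow_ne_zero _ (X_sub_C_ne_zero a₂)),
      natDegree_X_sub_C, natDegree_pow, natDegree_X_sub_C, mul_one, add_comm]
  obtain ⟨N, h1, h2⟩ := nr25_norm_base_change y (e + 1) b hb ι Φ hΦ hn hy red P
  refine ⟨N, h1, ?_⟩
  rw [h2, hΦred, nrs94_norm_shape_inf a₁ a₂ h12]

/-- **Norm formula modulo `π`, 0-branch** (purely inseparable of degree `q`): if `Φ` reduces to
`X^q - b₀` in characteristic `q`, then `red N = P̄^{(q)}(b₀)`. -/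
theorem nrs94_norm_red_zero (q : ℕ) [hq : Fact q.Prime] [CharP k q]
    (y : S) (b : Module.Basis (Fin q) A' S) (hb : ∀ i, b i = y ^ (i : ℕ))
    (ι : A →+* A') (Φ : A[X]) (hΦ : Φ.Monic) (hy : aeval y (Φ.map ι) = 0)
    (red : A →+* k) (b₀ : k)
    (hΦred : Φ.map red = X ^ q - C b₀) (P : A[X]) :
    ∃ N : A, Algebra.norm A' (aeval y (P.map ι)) = ι N ∧
      red N = ((P.map red).map (frobenius k q)).eval b₀ := by
  have hn : Φ.natDegree = q := by
    rw [← hΦ.natDegree_map red, hΦred, natDegree_X_pow_sub_C]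
  obtain ⟨N, h1, h2⟩ := nr25_norm_base_change y q b hb ι Φ hΦ hn hy red P
  refine ⟨N, h1, ?_⟩
  rw [h2, hΦred, nr25_norm_insep]

end Main

end Fermat.Agent.S36
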