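import Mathlib
import Fermat.Agent.S36.NormBCSq92
import Fermat.Agent.S36.CoeffDescent36

/-!
# S36 lab (helper92, registry row 587, step (5)): roots of norms over the inertia field `K₀`

`K₀ ⊆ ℚ̄` an intermediate field, `ι = fd27_iota (algebraMap K₀ ℚ̄)` the base change
`F_{K₀}(N) → F_{ℚ̄}(N)`.  The descent of invariants (step (4), `cd36_exists_of_fixed`) is taken
as the explicit hypothesis `hdesc`.

* `nr92_leadingCoeff_pow`, `nr92_leadingCoeff_coeffMap`, `nr92_leadingCoeff_C` : the leading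
  coefficient of a Laurent series is multiplicative and commutes with injective coefficient maps;
* `nr92_eq_one_of_pow` : a Laurent series over `ℚ̄` with `Z ^ m = 1` and leading coefficient `1`
  is `1`;
* `nr92_root` : `y ∈ F_{K₀}(N)`, `y ≠ 0`, `ι y = c · A ^ m` with `A ∈ F_{ℚ̄}(N)`, `c ∈ ℚ̄`
  ⟹ `y = ca · a₀ ^ m` with `a₀ ∈ F_{K₀}(N)`, `ca ∈ K₀`, both nonzero;
* `nr92_normA_root`, `nr92_normB_root` : for `q ∣ N`, `f₀ ∈ F_{K₀}(N q)`, `f₀ ≠ 0`:
  `N_α (ι f₀) = c · A ^ m` over `ℚ̄` ⟹ `N_α f₀ = ca · a₀ ^ m` over `K₀` (same for `β`) — the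
  hypotheses `hnA`, `hnB` of `s36i62_Core`;
* `nr92_root_closed`, `nr92_normA_root_closed`, `nr92_normB_root_closed` : the same three
  statements with `hdesc` discharged by `cd36_exists_of_fixed` (helper36), hypothesis-free.
-/

set_option autoImplicit false
set_option linter.style.haveILetI false
set_option linter.unusedSectionVars false
set_option linter.unusedVariables false
set_option linter.style.longLine false

open ModularCurve AlgebraicCurve IntermediateField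

namespace Fermat.Agent.S36

open Fermat.Agent.S18 Fermat.Agent.S24 Fermat.Agent.S34 Fermat.Agent.S35 Fermat.Agent.S37
  Fermat.Agent.S42

local notation "Q̄" => AlgebraicClosure ℚ
local notation "GQ" => AlgebraicClosure ℚ ≃ₐ[ℚ] AlgebraicClosure ℚ

section Laurent

theorem nr92_leadingCoeff_pow {R : Type*} [CommRing R] [IsDomain R] (x : LaurentSeries R)
    (m : ℕ) : (x ^ m).leadingCoeff = x.leadingCoeff ^ m := by
  induction m with
  | zero => rw [pow_zero, pow_zero, HahnSeries.leadingCoeff_one]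
  | succ k ih => rw [pow_succ, HahnSeries.leadingCoeff_mul, ih, pow_succ]

theorem nr92_order_coeffMap {R S : Type*} [CommRing R] [CommRing S] (φ : R →+* S)
    (hφ : Function.Injective φ) (x : LaurentSeries R) (hx : x ≠ 0) :
    (coeffMap φ x).order = x.order := by
  have hne : coeffMap φ x ≠ 0 := by
    intro h0
    apply hx
    ext k
    have h1 : (coeffMap φ x).coeff k = 0 := by rw [h0]; rfl
    rw [coeffMap_coeff] at h1
    rw [HahnSeries.coeff_zero]
    exact hφ (by rw [h1, map_zero])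
  apply le_antisymm
  · apply HahnSeries.order_le_of_coeff_ne_zero
    rw [coeffMap_coeff]
    intro h0
    exact (mt HahnSeries.coeff_order_eq_zero.mp hx) (hφ (by rw [h0, map_zero]))
  · apply HahnSeries.order_le_of_coeff_ne_zero
    intro h0
    apply mt HahnSeries.coeff_order_eq_zero.mp hne
    rw [coeffMap_coeff, h0, map_zero]

theorem nr92_leadingCoeff_coeffMap {R S : Type*} [CommRing R] [CommRing S] (φ : R →+* S)
    (hφ : Function.Injective φ) (x : LaurentSeries R) :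
    (coeffMap φ x).leadingCoeff = φ x.leadingCoeff := by
  by_cases hx : x = 0
  · subst hx
    rw [map_zero, HahnSeries.leadingCoeff_zero, HahnSeries.leadingCoeff_zero, map_zero]
  · rw [HahnSeries.leadingCoeff_eq, HahnSeries.leadingCoeff_eq, nr92_order_coeffMap φ hφ x hx,
      coeffMap_coeff]

theorem nr92_leadingCoeff_C {R : Type*} [CommRing R] (c : R) :
    (HahnSeries.C c : LaurentSeries R).leadingCoeff = c := by
  rw [HahnSeries.C_apply, HahnSeries.leadingCoeff_of_single]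

theorem nr92_leadingCoeff_algebraMap {R : Type*} [Field R] (c : R) :
    (algebraMap R (LaurentSeries R) c).leadingCoeff = c := by
  rw [algebraMap_laurentSeries_eq_single, HahnSeries.leadingCoeff_of_single]

/-- A Laurent series over `ℚ̄` with `Z ^ m = 1` and leading coefficient `1` is `1`. -/
theorem nr92_eq_one_of_pow (m : ℕ) (hm : 0 < m) (Z : LaurentSeries Q̄) (hZ : Z ^ m = 1)
    (hlc : Z.leadingCoeff = 1) : Z = 1 := by
  haveI : NeZero m := ⟨hm.ne'⟩
  obtain ⟨ξ, hξ⟩ := fd27_exists_primitiveRoot m hm.ne'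
  have hinj : Function.Injective (HahnSeries.C : Q̄ →+* LaurentSeries Q̄) :=
    HahnSeries.C_injective
  have hξ' : IsPrimitiveRoot ((HahnSeries.C : Q̄ →+* LaurentSeries Q̄) ξ) m :=
    hξ.map_of_injective hinj
  obtain ⟨i, -, hi⟩ := hξ'.eq_pow_of_pow_eq_one hZ
  rw [← map_pow] at hi
  have h1 : ξ ^ i = 1 := by
    rw [← hi, nr92_leadingCoeff_C] at hlc
    exact hlc
  rw [← hi, h1, map_one]

end Laurent

section Root

variable (K0 : IntermediateField ℚ Q̄) (N : ℕ) [NeZero N]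

/-- The coercion of a constant of `F_{ℚ̄}(N)`. -/
theorem nr92_coe_algebraMap_bar (c : Q̄) :
    ((algebraMap Q̄ ↥(modularFunctionFieldBar N) c : ↥(modularFunctionFieldBar N)) :
      LaurentSeries Q̄) = algebraMap Q̄ (LaurentSeries Q̄) c := rfl

/-- The coercion of a constant of `F_{K₀}(N)`. -/
theorem nr92_coe_algebraMap_fullC (c : ↥K0) :
    ((algebraMap ↥K0 ↥(modularFunctionFieldFullC ↥K0 N) c : ↥(modularFunctionFieldFullC ↥K0 N)) :
      LaurentSeries ↥K0) = algebraMap ↥K0 (LaurentSeries ↥K0) c := rfl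

/-- **Step (5), abstract form**: an element of `F_{K₀}(N)` which over `ℚ̄` is a constant times
an `m`-th power is, over `K₀`, a constant times an `m`-th power. -/
theorem nr92_root (m : ℕ) (hm : 0 < m)
    (hdesc : ∀ y : ↥(modularFunctionFieldBar N),
      (∀ σ : GQ, (∀ a ∈ K0, σ a = a) →
        arithmeticRingAut (modularFunctionFieldFull N) σ y = y) →
      ∃ y0 : ↥(modularFunctionFieldFullC ↥K0 N), fd27_iota (algebraMap ↥K0 Q̄) N y0 = y)
    (y : ↥(modularFunctionFieldFullC ↥K0 N)) (hy : y ≠ 0)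
    (A : ↥(modularFunctionFieldBar N)) (c : Q̄)
    (h : fd27_iota (algebraMap ↥K0 Q̄) N y = algebraMap Q̄ ↥(modularFunctionFieldBar N) c * A ^ m) :
    ∃ (a0 : ↥(modularFunctionFieldFullC ↥K0 N)) (ca : ↥K0), a0 ≠ 0 ∧ ca ≠ 0 ∧
      y = algebraMap ↥K0 ↥(modularFunctionFieldFullC ↥K0 N) ca * a0 ^ m := by
  set φ : ↥K0 →+* Q̄ := algebraMap ↥K0 Q̄ with hφdef
  have hφinj : Function.Injective φ := (algebraMap ↥K0 Q̄).injective
  have hιy : fd27_iota φ N y ≠ 0 := fun h0 =>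
    hy (fd27_iota_injective φ N (by rw [h0, map_zero]))
  -- `c ≠ 0`, `A ≠ 0`
  have hc : c ≠ 0 := by
    rintro rfl
    rw [map_zero, zero_mul] at h
    exact hιy h
  have hA : A ≠ 0 := by
    rintro rfl
    rw [zero_pow hm.ne', mul_zero] at h
    exact hιy h
  have hAcoe : (A : LaurentSeries Q̄) ≠ 0 := fun h0 => hA (Subtype.ext h0)
  have hycoe : (y : LaurentSeries ↥K0) ≠ 0 := fun h0 => hy (Subtype.ext h0)
  -- leading coefficients
  set lA : Q̄ := (A : LaurentSeries Q̄).leadingCoeff with hlA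
  set ly : ↥K0 := (y : LaurentSeries ↥K0).leadingCoeff with hly
  have hlA0 : lA ≠ 0 := HahnSeries.leadingCoeff_ne_zero.mpr hAcoe
  have hly0 : ly ≠ 0 := HahnSeries.leadingCoeff_ne_zero.mpr hycoe
  have hcoe : coeffMap φ (y : LaurentSeries ↥K0) =
      algebraMap Q̄ (LaurentSeries Q̄) c * (A : LaurentSeries Q̄) ^ m := by
    have h1 := congrArg (fun z : ↥(modularFunctionFieldBar N) => (z : LaurentSeries Q̄)) h
    have h2 : ((fd27_iota φ N y : ↥(modularFunctionFieldBar N)) : LaurentSeries Q̄) =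
        coeffMap φ (y : LaurentSeries ↥K0) := fd27_iota_coe φ N y
    rw [← h2]
    exact h1
  have hlead : φ ly = c * lA ^ m := by
    have h1 := congrArg HahnSeries.leadingCoeff hcoe
    rw [nr92_leadingCoeff_coeffMap φ hφinj, HahnSeries.leadingCoeff_mul,
      nr92_leadingCoeff_algebraMap, nr92_leadingCoeff_pow] at h1
    exact h1
  -- the normalised root
  set A1 : ↥(modularFunctionFieldBar N) :=
    algebraMap Q̄ ↥(modularFunctionFieldBar N) lA⁻¹ * A with hA1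
  have hA1ne : A1 ≠ 0 := mul_ne_zero
    (by rw [Ne, map_eq_zero]; exact inv_ne_zero hlA0) hA
  have hA1lc : (A1 : LaurentSeries Q̄).leadingCoeff = 1 := by
    have : (A1 : LaurentSeries Q̄) =
        algebraMap Q̄ (LaurentSeries Q̄) lA⁻¹ * (A : LaurentSeries Q̄) := rfl
    rw [this, HahnSeries.leadingCoeff_mul, nr92_leadingCoeff_algebraMap, ← hlA,
      inv_mul_cancel₀ hlA0]
  set y1 : ↥(modularFunctionFieldFullC ↥K0 N) :=
    algebraMap ↥K0 ↥(modularFunctionFieldFullC ↥K0 N) ly⁻¹ * y with hy1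
  -- `ι y1 = A1 ^ m`
  have hy1A : fd27_iota φ N y1 = A1 ^ m := by
    rw [hy1, map_mul, fd27_iota_algebraMap, h, hA1, mul_pow, ← map_pow, ← mul_assoc, ← map_mul]
    congr 2
    rw [map_inv₀, hlead, inv_pow]
    field_simp
  -- invariance of `A1`
  have hfix : ∀ σ : GQ, (∀ a ∈ K0, σ a = a) →
      arithmeticRingAut (modularFunctionFieldFull N) σ A1 = A1 := by
    intro σ hσ
    have hιfix : arithmeticRingAut (modularFunctionFieldFull N) σ (fd27_iota φ N y1) =
        fd27_iota φ N y1 := by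
      apply Subtype.ext
      rw [coe_arithmeticRingAut_apply, fd27_iota_coe, coeffMap_coeffMap]
      exact coeffMap_congr (RingHom.ext fun a => hσ _ a.2) _
    have hpow : (arithmeticRingAut (modularFunctionFieldFull N) σ A1) ^ m = A1 ^ m := by
      rw [← map_pow, ← hy1A, hιfix]
    set B : ↥(modularFunctionFieldBar N) := arithmeticRingAut (modularFunctionFieldFull N) σ A1
      with hB
    have hBcoe : (B : LaurentSeries Q̄) = coeffMap (σ : Q̄ →+* Q̄) (A1 : LaurentSeries Q̄) :=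
      coe_arithmeticRingAut_apply _ σ A1
    have hBlc : (B : LaurentSeries Q̄).leadingCoeff = 1 := by
      rw [hBcoe, nr92_leadingCoeff_coeffMap _ (RingHom.injective _), hA1lc, map_one]
    -- `Z = B / A1` has `Z ^ m = 1` and leading coefficient `1`
    have hA1coe : (A1 : LaurentSeries Q̄) ≠ 0 := fun h0 => hA1ne (Subtype.ext h0)
    have hZ : ((B : LaurentSeries Q̄) * (A1 : LaurentSeries Q̄)⁻¹) ^ m = 1 := by
      have h2 := congrArg (fun z : ↥(modularFunctionFieldBar N) => (z : LaurentSeries Q̄)) hpow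
      have h3 : (B : LaurentSeries Q̄) ^ m = (A1 : LaurentSeries Q̄) ^ m := by
        simpa using h2
      rw [mul_pow, h3, inv_pow, mul_inv_cancel₀ (pow_ne_zero m hA1coe)]
    have hZlc : ((B : LaurentSeries Q̄) * (A1 : LaurentSeries Q̄)⁻¹).leadingCoeff = 1 := by
      have h4 : ((B : LaurentSeries Q̄) * (A1 : LaurentSeries Q̄)⁻¹).leadingCoeff *
          (A1 : LaurentSeries Q̄).leadingCoeff = (B : LaurentSeries Q̄).leadingCoeff := by
        rw [← HahnSeries.leadingCoeff_mul, mul_assoc, inv_mul_cancel₀ hA1coe, mul_one]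
      rw [hA1lc, mul_one, hBlc] at h4
      exact h4
    have hZ1 := nr92_eq_one_of_pow m hm _ hZ hZlc
    apply Subtype.ext
    have h5 : (B : LaurentSeries Q̄) = (B : LaurentSeries Q̄) * (A1 : LaurentSeries Q̄)⁻¹ *
        (A1 : LaurentSeries Q̄) := by
      rw [mul_assoc, inv_mul_cancel₀ hA1coe, mul_one]
    rw [h5, hZ1, one_mul]
  obtain ⟨a0, ha0⟩ := hdesc A1 hfix
  have hy1eq : y1 = a0 ^ m := by
    apply fd27_iota_injective φ N
    rw [hy1A, map_pow, ha0]
  have ha0ne : a0 ≠ 0 := by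
    rintro rfl
    rw [map_zero] at ha0
    exact hA1ne ha0.symm
  refine ⟨a0, ly, ha0ne, hly0, ?_⟩
  rw [← hy1eq, hy1, ← mul_assoc, ← map_mul, mul_inv_cancel₀ hly0, map_one, one_mul]

end Root

section Norms

variable (K0 : IntermediateField ℚ Q̄) (N q : ℕ) [NeZero N] [NeZero q]

/-- The norm along `α` of a nonzero element is nonzero (`q ∣ N`, over `K₀`). -/
theorem nr92_normA_ne_zero (hq : q.Prime) (hqN : q ∣ N)
    (f0 : ↥(modularFunctionFieldFullC ↥K0 (N * q))) (hf0 : f0 ≠ 0) :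
    s35i62_normA ↥K0 N q f0 ≠ 0 := by
  letI a1 : Algebra ↥(modularFunctionFieldFullC ↥K0 N) ↥(modularFunctionFieldFullC ↥K0 (N * q)) :=
    algebraAlong (al97L_alpha ↥K0 N q)
  have hr1 : Module.finrank ↥(modularFunctionFieldFullC ↥K0 N)
      ↥(modularFunctionFieldFullC ↥K0 (N * q)) = q :=
    nbs92_finrank_alpha_dvd N q (algebraMap ↥K0 Q̄) hq hqN
  haveI hfd : FiniteDimensional ↥(modularFunctionFieldFullC ↥K0 N)
      ↥(modularFunctionFieldFullC ↥K0 (N * q)) :=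
    Module.finite_of_finrank_pos (by rw [hr1]; exact hq.pos)
  exact Algebra.norm_ne_zero_iff.mpr hf0

/-- The norm along `β` of a nonzero element is nonzero (`q ∣ N`, over `K₀`). -/
theorem nr92_normB_ne_zero (hq : q.Prime) (hqN : q ∣ N)
    (f0 : ↥(modularFunctionFieldFullC ↥K0 (N * q))) (hf0 : f0 ≠ 0) :
    s35i62_normB ↥K0 N q f0 ≠ 0 := by
  letI a1 : Algebra ↥(modularFunctionFieldFullC ↥K0 N) ↥(modularFunctionFieldFullC ↥K0 (N * q)) :=
    algebraAlong (al97L_beta ↥K0 N q)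
  have hr1 : Module.finrank ↥(modularFunctionFieldFullC ↥K0 N)
      ↥(modularFunctionFieldFullC ↥K0 (N * q)) = q :=
    nbs92_finrank_beta_dvd N q (algebraMap ↥K0 Q̄) hq hqN
  haveI hfd : FiniteDimensional ↥(modularFunctionFieldFullC ↥K0 N)
      ↥(modularFunctionFieldFullC ↥K0 (N * q)) :=
    Module.finite_of_finrank_pos (by rw [hr1]; exact hq.pos)
  exact Algebra.norm_ne_zero_iff.mpr hf0

/-- **Step (5) for `α`**: `N_α (ι f₀) = c · A ^ m` over `ℚ̄` ⟹ `N_α f₀ = ca · a₀ ^ m` over `K₀`. -/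
theorem nr92_normA_root (hq : q.Prime) (hqN : q ∣ N) (m : ℕ) (hm : 0 < m)
    (hdesc : ∀ y : ↥(modularFunctionFieldBar N),
      (∀ σ : GQ, (∀ a ∈ K0, σ a = a) →
        arithmeticRingAut (modularFunctionFieldFull N) σ y = y) →
      ∃ y0 : ↥(modularFunctionFieldFullC ↥K0 N), fd27_iota (algebraMap ↥K0 Q̄) N y0 = y)
    (f0 : ↥(modularFunctionFieldFullC ↥K0 (N * q))) (hf0 : f0 ≠ 0)
    (A : ↥(modularFunctionFieldBar N)) (c : Q̄)
    (h : s35i62_normABar N q (fd27_iota (algebraMap ↥K0 Q̄) (N * q) f0) =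
      algebraMap Q̄ ↥(modularFunctionFieldBar N) c * A ^ m) :
    ∃ (a0 : ↥(modularFunctionFieldFullC ↥K0 N)) (ca : ↥K0), a0 ≠ 0 ∧ ca ≠ 0 ∧
      s35i62_normA ↥K0 N q f0 = algebraMap ↥K0 ↥(modularFunctionFieldFullC ↥K0 N) ca * a0 ^ m :=
  nr92_root K0 N m hm hdesc _ (nr92_normA_ne_zero K0 N q hq hqN f0 hf0) A c
    (by rw [nbs92_normA (algebraMap ↥K0 Q̄) N q hq hqN f0]; exact h)

/-- **Step (5) for `β`**: `N_β (ι f₀) = c · B ^ m` over `ℚ̄` ⟹ `N_β f₀ = cb · b₀ ^ m` over `K₀`. -/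
theorem nr92_normB_root (hq : q.Prime) (hqN : q ∣ N) (m : ℕ) (hm : 0 < m)
    (hdesc : ∀ y : ↥(modularFunctionFieldBar N),
      (∀ σ : GQ, (∀ a ∈ K0, σ a = a) →
        arithmeticRingAut (modularFunctionFieldFull N) σ y = y) →
      ∃ y0 : ↥(modularFunctionFieldFullC ↥K0 N), fd27_iota (algebraMap ↥K0 Q̄) N y0 = y)
    (f0 : ↥(modularFunctionFieldFullC ↥K0 (N * q))) (hf0 : f0 ≠ 0)
    (B : ↥(modularFunctionFieldBar N)) (c : Q̄)
    (h : s35i62_normBBar N q (fd27_iota (algebraMap ↥K0 Q̄) (N * q) f0) =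
      algebraMap Q̄ ↥(modularFunctionFieldBar N) c * B ^ m) :
    ∃ (b0 : ↥(modularFunctionFieldFullC ↥K0 N)) (cb : ↥K0), b0 ≠ 0 ∧ cb ≠ 0 ∧
      s35i62_normB ↥K0 N q f0 = algebraMap ↥K0 ↥(modularFunctionFieldFullC ↥K0 N) cb * b0 ^ m :=
  nr92_root K0 N m hm hdesc _ (nr92_normB_ne_zero K0 N q hq hqN f0 hf0) B c
    (by rw [nbs92_normB (algebraMap ↥K0 Q̄) N q hq hqN f0]; exact h)

end Norms

section Closed

variable (K0 : IntermediateField ℚ Q̄) (N q : ℕ) [NeZero N] [NeZero q]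

/-- **Step (5), closed form** (`hdesc := cd36_exists_of_fixed`): an element of `F_{K₀}(N)` which
over `ℚ̄` is a constant times an `m`-th power is, over `K₀`, a constant times an `m`-th power. -/
theorem nr92_root_closed (m : ℕ) (hm : 0 < m)
    (y : ↥(modularFunctionFieldFullC ↥K0 N)) (A : ↥(modularFunctionFieldBar N)) (c : Q̄)
    (h : fd27_iota (algebraMap ↥K0 Q̄) N y = algebraMap Q̄ ↥(modularFunctionFieldBar N) c * A ^ m)
    (hy : y ≠ 0) :
    ∃ (ca : ↥K0) (a0 : ↥(modularFunctionFieldFullC ↥K0 N)), ca ≠ 0 ∧ a0 ≠ 0 ∧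
      y = algebraMap ↥K0 ↥(modularFunctionFieldFullC ↥K0 N) ca * a0 ^ m := by
  obtain ⟨a0, ca, ha0, hca, hEq⟩ :=
    nr92_root K0 N m hm (fun z hz => cd36_exists_of_fixed K0 N z hz) y hy A c h
  exact ⟨ca, a0, hca, ha0, hEq⟩

/-- **Step (5) for `α`, closed form**: `f₀ ∈ F_{K₀}(N q)`, `f₀ ≠ 0`, `q ∣ N`,
`N_α (ι f₀) = c · A ^ m` over `ℚ̄` ⟹ `N_α f₀ = ca · a₀ ^ m` over `K₀`. -/
theorem nr92_normA_root_closed (hq : q.Prime) (hqN : q ∣ N) (m : ℕ) (hm : 0 < m)
    (f0 : ↥(modularFunctionFieldFullC ↥K0 (N * q))) (hf0 : f0 ≠ 0)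
    (A : ↥(modularFunctionFieldBar N)) (c : Q̄)
    (h : s35i62_normABar N q (fd27_iota (algebraMap ↥K0 Q̄) (N * q) f0) =
      algebraMap Q̄ ↥(modularFunctionFieldBar N) c * A ^ m) :
    ∃ (ca : ↥K0) (a0 : ↥(modularFunctionFieldFullC ↥K0 N)), ca ≠ 0 ∧ a0 ≠ 0 ∧
      s35i62_normA ↥K0 N q f0 = algebraMap ↥K0 ↥(modularFunctionFieldFullC ↥K0 N) ca * a0 ^ m := by
  obtain ⟨a0, ca, ha0, hca, hEq⟩ :=
    nr92_normA_root K0 N q hq hqN m hm (fun z hz => cd36_exists_of_fixed K0 N z hz) f0 hf0 A c h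
  exact ⟨ca, a0, hca, ha0, hEq⟩

/-- **Step (5) for `β`, closed form**: `f₀ ∈ F_{K₀}(N q)`, `f₀ ≠ 0`, `q ∣ N`,
`N_β (ι f₀) = c · B ^ m` over `ℚ̄` ⟹ `N_β f₀ = cb · b₀ ^ m` over `K₀`. -/
theorem nr92_normB_root_closed (hq : q.Prime) (hqN : q ∣ N) (m : ℕ) (hm : 0 < m)
    (f0 : ↥(modularFunctionFieldFullC ↥K0 (N * q))) (hf0 : f0 ≠ 0)
    (B : ↥(modularFunctionFieldBar N)) (c : Q̄)
    (h : s35i62_normBBar N q (fd27_iota (algebraMap ↥K0 Q̄) (N * q) f0) =
      algebraMap Q̄ ↥(modularFunctionFieldBar N) c * B ^ m) :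
    ∃ (cb : ↥K0) (b0 : ↥(modularFunctionFieldFullC ↥K0 N)), cb ≠ 0 ∧ b0 ≠ 0 ∧
      s35i62_normB ↥K0 N q f0 = algebraMap ↥K0 ↥(modularFunctionFieldFullC ↥K0 N) cb * b0 ^ m := by
  obtain ⟨b0, cb, hb0, hcb, hEq⟩ :=
    nr92_normB_root K0 N q hq hqN m hm (fun z hz => cd36_exists_of_fixed K0 N z hz) f0 hf0 B c h
  exact ⟨cb, b0, hcb, hb0, hEq⟩

end Closed

end Fermat.Agent.S36
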