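import Mathlib
import Fermat.Agent.S36.CoeffDescent36

/-!
# S36 lab (helper36), row 587 (LVL-descent), step (5): `m`-th roots descend up to a constant

* `nr36_fixed_iota` : the image of `F_{K₀}(M)` in `F_{ℚ̄}(M)` is fixed by every `σ` fixing `K₀`.
* `nr36_const_of_pow_eq_one` : an element `u` of `F_{ℚ̄}(M)` with `u ^ m = 1` is a constant.
* `nr36_root_descent` : if `y ∈ F_{K₀}(M)` becomes an `m`-th power `A ^ m` in `F_{ℚ̄}(M)`, then
  `y = c_a * a₀ ^ m` with `a₀ ∈ F_{K₀}(M)`, `c_a ∈ K₀`, `c_a ≠ 0`, and `A = ℓ * ι a₀` for a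
  nonzero constant `ℓ ∈ ℚ̄`.

All names are prefixed `nr36_`.
-/

set_option autoImplicit false
set_option linter.style.haveILetI false

open ModularCurve IntermediateField

namespace Fermat.Agent.S36

open Fermat.Agent.S18

local notation "Qbar" => AlgebraicClosure ℚ

section Generic

variable {K : Type*} [Field K] (φ : K →+* Qbar) (M : ℕ)

/-- The image of `F_K(M)` is fixed by every `σ` fixing `φ K` pointwise. -/
theorem nr36_fixed_iota (y : ↥(modularFunctionFieldFullC K M)) (σ : Qbar ≃ₐ[ℚ] Qbar)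
    (hσ : ∀ x : K, σ (φ x) = φ x) :
    arithmeticRingAut (modularFunctionFieldFull M) σ (fd27_iota φ M y) = fd27_iota φ M y := by
  apply Subtype.ext
  rw [coe_arithmeticRingAut_apply, fd27_iota_coe, coeffMap_coeffMap]
  exact coeffMap_congr (RingHom.ext fun a => hσ a) _

/-- An `m`-th root of unity of `F_{ℚ̄}(M)` is a constant. -/
theorem nr36_const_of_pow_eq_one (m : ℕ) (hm : 0 < m) (u : ↥(modularFunctionFieldBar M))
    (hu : u ^ m = 1) : ∃ ζ : Qbar, u = algebraMap Qbar ↥(modularFunctionFieldBar M) ζ := by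
  have hint : IsIntegral Qbar u := by
    refine ⟨Polynomial.X ^ m - 1, Polynomial.monic_X_pow_sub_C (1 : Qbar) hm.ne', ?_⟩
    rw [← Polynomial.aeval_def]
    simp [hu]
  obtain ⟨ζ, hζ⟩ := hint.mem_range_algebraMap_of_minpoly_splits (K := Qbar)
    (IsAlgClosed.splits _)
  exact ⟨ζ, hζ.symm⟩

/-- The conclusion of the root descent: `y = c_a * a₀ ^ m`, `A = ℓ * ι a₀`, `φ c_a = ℓ ^ m`. -/
def nr36_Concl (m : ℕ) (y : ↥(modularFunctionFieldFullC K M))
    (A : ↥(modularFunctionFieldBar M)) : Prop :=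
  ∃ (a0 : ↥(modularFunctionFieldFullC K M)) (ca : K) (ℓ : Qbar), ca ≠ 0 ∧ ℓ ≠ 0 ∧
    y = algebraMap K ↥(modularFunctionFieldFullC K M) ca * a0 ^ m ∧
    A = algebraMap Qbar ↥(modularFunctionFieldBar M) ℓ * fd27_iota φ M a0 ∧
    φ ca = ℓ ^ m

/-- **Step (5), generic form.** Descent of an `m`-th root up to constants, from the descent of
fixed elements. -/
theorem nr36_root_descent_gen
    (hdesc : ∀ f : ↥(modularFunctionFieldBar M),
      (∀ σ : Qbar ≃ₐ[ℚ] Qbar, (∀ x : K, σ (φ x) = φ x) →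
        arithmeticRingAut (modularFunctionFieldFull M) σ f = f) →
      ∃ y0 : ↥(modularFunctionFieldFullC K M), fd27_iota φ M y0 = f)
    (m : ℕ) (hm : 0 < m) (y : ↥(modularFunctionFieldFullC K M))
    (A : ↥(modularFunctionFieldBar M)) (h : fd27_iota φ M y = A ^ m) :
    nr36_Concl φ M m y A := by
  by_cases hA : A = 0
  · subst hA
    rw [zero_pow hm.ne'] at h
    have hy : y = 0 := fd27_iota_injective φ M (by rw [h, map_zero])
    refine ⟨0, 1, 1, one_ne_zero, one_ne_zero, ?_, ?_, ?_⟩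
    · rw [hy, zero_pow hm.ne', mul_zero]
    · rw [map_zero, mul_zero]
    · rw [map_one, one_pow]
  -- a nonzero coefficient of `A`
  have hcoef : ∃ n0 : ℤ, (A : LaurentSeries Qbar).coeff n0 ≠ 0 := by
    by_contra hne
    apply hA
    apply Subtype.ext
    ext n
    have h0 : (A : LaurentSeries Qbar).coeff n = 0 := by
      by_contra h1
      exact hne ⟨n, h1⟩
    rw [h0]
    rfl
  obtain ⟨n0, hn0⟩ := hcoef
  set ℓ : Qbar := (A : LaurentSeries Qbar).coeff n0 with hℓ
  set A1 : ↥(modularFunctionFieldBar M) :=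
    algebraMap Qbar ↥(modularFunctionFieldBar M) ℓ⁻¹ * A with hA1
  have hfix : ∀ σ : Qbar ≃ₐ[ℚ] Qbar, (∀ x : K, σ (φ x) = φ x) →
      arithmeticRingAut (modularFunctionFieldFull M) σ A1 = A1 := by
    intro σ hσ
    have e1 := nr36_fixed_iota φ M y σ hσ
    rw [h, map_pow] at e1
    have hu : (arithmeticRingAut (modularFunctionFieldFull M) σ A / A) ^ m = 1 := by
      rw [div_pow, e1, div_self (pow_ne_zero m hA)]
    obtain ⟨ζ, hζ⟩ := nr36_const_of_pow_eq_one M m hm _ hu
    have e2 : arithmeticRingAut (modularFunctionFieldFull M) σ A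
        = algebraMap Qbar ↥(modularFunctionFieldBar M) ζ * A := by
      rw [← hζ, div_mul_cancel₀ _ hA]
    -- compare the coefficients at `n0`
    have e3 : σ ℓ = ζ * ℓ := by
      have h3 := congrArg (fun z : ↥(modularFunctionFieldBar M) =>
        (z : LaurentSeries Qbar).coeff n0) e2
      simp only [coe_arithmeticRingAut_apply, coeffMap_coeff] at h3
      have h4 : ((algebraMap Qbar ↥(modularFunctionFieldBar M) ζ * A :
          ↥(modularFunctionFieldBar M)) : LaurentSeries Qbar).coeff n0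
          = ζ * (A : LaurentSeries Qbar).coeff n0 := by
        show (algebraMap Qbar (LaurentSeries Qbar) ζ * (A : LaurentSeries Qbar)).coeff n0 = _
        rw [algebraMap_laurentSeries_eq_single, HahnSeries.coeff_single_zero_mul]
      rw [h4] at h3
      exact h3
    have hσℓ : σ ℓ ≠ 0 := fun h0 => hn0 ((map_eq_zero σ).mp h0)
    have hζ0 : ζ ≠ 0 := by
      rintro rfl
      rw [zero_mul] at e3
      exact hσℓ e3
    rw [hA1, map_mul, arithmeticRingAut_algebraMap, e2, ← mul_assoc, ← map_mul, map_inv₀, e3]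
    congr 2
    field_simp
  obtain ⟨a0, ha0⟩ := hdesc A1 hfix
  have hAeq : A = algebraMap Qbar ↥(modularFunctionFieldBar M) ℓ * fd27_iota φ M a0 := by
    rw [ha0, hA1, ← mul_assoc, ← map_mul, mul_inv_cancel₀ hn0, map_one, one_mul]
  have ha0ne : a0 ≠ 0 := by
    rintro rfl
    rw [map_zero, mul_zero] at hAeq
    exact hA hAeq
  -- the quotient is a constant
  set w : ↥(modularFunctionFieldFullC K M) := y / a0 ^ m with hw
  have hιw : fd27_iota φ M w = algebraMap Qbar ↥(modularFunctionFieldBar M) (ℓ ^ m) := by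
    rw [hw, map_div₀, h, map_pow, hAeq, mul_pow, ← map_pow, map_pow (algebraMap Qbar _),
      mul_div_assoc, div_self, mul_one]
    exact pow_ne_zero m ((map_ne_zero _).mpr ha0ne)
  set ca : K := (w : LaurentSeries K).coeff 0 with hca
  have hcaℓ : φ ca = ℓ ^ m := by
    have h5 := congrArg (fun z : ↥(modularFunctionFieldBar M) =>
      (z : LaurentSeries Qbar).coeff 0) hιw
    simp only [fd27_iota_coe, coeffMap_coeff] at h5
    rw [hca, h5]
    show (algebraMap Qbar (LaurentSeries Qbar) (ℓ ^ m)).coeff 0 = ℓ ^ m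
    rw [algebraMap_laurentSeries_eq_single, HahnSeries.coeff_single_same]
  have hwca : w = algebraMap K ↥(modularFunctionFieldFullC K M) ca := by
    apply fd27_iota_injective φ M
    rw [hιw, fd27_iota_algebraMap, hcaℓ]
  refine ⟨a0, ca, ℓ, ?_, hn0, ?_, hAeq, hcaℓ⟩
  · intro h0
    rw [h0, map_zero] at hcaℓ
    exact pow_ne_zero m hn0 hcaℓ.symm
  · rw [← hwca, hw, div_mul_cancel₀ _ (pow_ne_zero m ha0ne)]

end Generic

/-- **Step (5)** over `K₀ ⊆ ℚ̄`: if `y ∈ F_{K₀}(M)` becomes an `m`-th power `A ^ m` over `ℚ̄`, then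
`y = c_a * a₀ ^ m` with `a₀ ∈ F_{K₀}(M)`, `c_a ∈ K₀ \ {0}`, and `A = ℓ * ι a₀`, `c_a = ℓ ^ m`. -/
theorem nr36_root_descent (K0 : IntermediateField ℚ Qbar) (M : ℕ) (m : ℕ) (hm : 0 < m)
    (y : ↥(modularFunctionFieldFullC K0 M)) (A : ↥(modularFunctionFieldBar M))
    (h : fd27_iota (algebraMap K0 Qbar) M y = A ^ m) :
    nr36_Concl (algebraMap K0 Qbar) M m y A :=
  nr36_root_descent_gen (algebraMap K0 Qbar) M
    (fun f hf => cd36_exists_of_fixed K0 M f (fun σ hσ => hf σ (fun x => hσ x x.2))) m hm y A h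

end Fermat.Agent.S36
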