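import Fermat.Agent.S36.ConjEmb97

/-!
# S36 lab (helper97): the conjugate embeddings `Θ_c`, `Ξ_c` of `F(Nℓ²)_L` and the norm
product formulas along `α₂ : F(Nℓ)_L → F(Nℓ²)_L`

`ℓ` prime, `ℓ ∤ N`, `φ : L → ℚ̄`, `val_M = coeffMap φ : F(M)_L → ℚ̄((q))`, `w` the Atkin–Lehner
involution of `F(Nℓ)_L`, `V = qExpand ℓ` (`q ↦ q^ℓ`), `tw_c = twist c` (`q ↦ c q`).

* `nsq97_Theta c` (`c^ℓ = 1`, `c ≠ 1`): the ring hom `F(Nℓ²) → ℚ̄((q))` with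
  `Θ_c ∘ α₂ = val`, `Θ_c ∘ β₂ = tw_c ∘ val ∘ w`  (`j(q^{dℓ²}) ↦ j(c^d q^d)` for `d ∣ N`).
* `nsq97_Xi c` (`c^ℓ = 1`): the ring hom with `Ξ_c ∘ α₂ = V ∘ val ∘ w`, `Ξ_c ∘ β₂ = tw_c ∘ val ∘ w`.
* `nsq97_hom_ext`: ring homs out of `F(Nℓ²)` are determined by their restrictions along `α₂, β₂`.
* `nsq97_norm_alpha_inf`:  `val (N_α y) = val y · ∏_{k=1}^{ℓ-1} Θ_{ζ^k} y`.
* `nsq97_norm_alpha_zero`: `V (val (w (N_α y))) = ∏_{b<ℓ} Ξ_{ζ^b} y`.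

(The two formulas along `β₂` are in `NormSqBeta97.lean`.)

All names are prefixed `nsq97_`.
-/

set_option autoImplicit false

open ModularCurve AlgebraicCurve IntermediateField
open Fermat.Agent.S24 Fermat.Agent.S28 Fermat.Agent.S18 Fermat.Agent.S37 Fermat.Agent.S34
open Fermat.Agent.S42 Fermat.Agent.S35

namespace Fermat.Agent.S36

section nsq97

variable {L : Type} [Field L] (φ : L →+* Kbar)
variable (N ℓ : ℕ) [NeZero N] [NeZero ℓ] (hℓ : ℓ.Prime) (hN : ¬ ℓ ∣ N)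

/-- `val_M : F(M)_L → ℚ̄((q))`: the `q`-expansion with coefficients pushed along `φ`. -/
noncomputable def nsq97_val (M : ℕ) :
    ↥(modularFunctionFieldFullC L M) →+* LaurentSeries Kbar :=
  (coeffMap φ).comp (modularFunctionFieldFullC L M).val.toRingHom

theorem nsq97_val_apply (M : ℕ) (x : ↥(modularFunctionFieldFullC L M)) :
    nsq97_val φ M x = coeffMap φ (x : LaurentSeries L) := rfl

/-- A ring hom from `F(Nℓ²)_L` to a field is determined by its restrictions along `α₂`, `β₂`. -/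
theorem nsq97_hom_ext (L : Type) [Field L] (N ℓ : ℕ) [NeZero N] [NeZero ℓ] (hℓ : ℓ.Prime)
    {Ω : Type*} [Field Ω] (Θ Θ' : ↥(modularFunctionFieldFullC L (N * ℓ * ℓ)) →+* Ω)
    (hα : ∀ x, Θ (al97L_alpha L (N * ℓ) ℓ x) = Θ' (al97L_alpha L (N * ℓ) ℓ x))
    (hβ : ∀ x, Θ (al97L_beta L (N * ℓ) ℓ x) = Θ' (al97L_beta L (N * ℓ) ℓ x)) : Θ = Θ' := by
  have h := ce97_gen L N ℓ hℓ (RingHom.eqLocusField Θ Θ') hα hβ
  ext x
  have hx : x ∈ RingHom.eqLocusField Θ Θ' := by rw [h]; trivial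
  exact hx

/-- `x₀ = j(q^ℓ) ∈ F(Nℓ)_L`. -/
noncomputable def nsq97_x0 (L : Type) [Field L] (N ℓ : ℕ) [NeZero ℓ] :
    ↥(modularFunctionFieldFullC L (N * ℓ)) :=
  ⟨qExpand L ℓ (jqModC L), jqModCd_mem_full L (N * ℓ) (dvd_mul_left ℓ N)⟩

omit [NeZero ℓ] in
theorem nsq97_not_dvd (hℓ : ℓ.Prime) : ¬ ((ℓ : ℤ) ∣ (-1 : ℤ)) := by
  intro hd
  have h1 : (ℓ : ℤ) ∣ 1 := (dvd_neg).mp hd
  have h2 : ℓ ∣ 1 := by exact_mod_cast h1
  exact hℓ.one_lt.ne' (Nat.dvd_one.mp h2)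

/-- the compatibility `tw_c (val (w (α₁ e))) = V (val e)` for `c^ℓ = 1`. -/
theorem nsq97_tw_w_alpha (c : Kbarˣ) (hc : c ^ ℓ = 1) (e : ↥(modularFunctionFieldFullC L N)) :
    twist c (nsq97_val φ (N * ℓ) (al97L_w φ N ℓ hℓ hN (al97L_alpha L N ℓ e))) =
      qExpand Kbar ℓ (nsq97_val φ N e) := by
  rw [al97L_w_alpha_apply, nsq97_val_apply, al97L_beta_coe, coeffMap_qExpand,
    twist_qExpand_of_pow_eq_one c ℓ hc]
  rfl

/-- **Existence of `Θ_c`.** -/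
theorem nsq97_exists_theta (hL : ((N * ℓ * ℓ : ℕ) : L) ≠ 0) (c : Kbarˣ) (hc : c ^ ℓ = 1)
    (hc1 : c ≠ 1) :
    ∃ Θ : ↥(modularFunctionFieldFullC L (N * ℓ * ℓ)) →+* LaurentSeries Kbar,
      (∀ x, Θ (al97L_alpha L (N * ℓ) ℓ x) = nsq97_val φ (N * ℓ) x) ∧
      (∀ x, Θ (al97L_beta L (N * ℓ) ℓ x) =
        twist c (nsq97_val φ (N * ℓ) (al97L_w φ N ℓ hℓ hN x))) := by
  refine ce97_exists_hom φ N ℓ hℓ hN hL (nsq97_val φ (N * ℓ))
    ((twist c).comp ((nsq97_val φ (N * ℓ)).comp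
      (al97L_w φ N ℓ hℓ hN).toAlgHom.toRingHom)) ?_ (nsq97_x0 L N ℓ) ?_
  · intro e
    show twist c (nsq97_val φ (N * ℓ) (al97L_w φ N ℓ hℓ hN (al97L_alpha L N ℓ e))) = _
    rw [nsq97_tw_w_alpha φ N ℓ hℓ hN c hc, nsq97_val_apply φ (N * ℓ), al97L_beta_coe,
      coeffMap_qExpand]
    rfl
  · show twist c (nsq97_val φ (N * ℓ) (al97L_w φ N ℓ hℓ hN (nsq97_x0 L N ℓ))) ≠
      nsq97_val φ (N * ℓ) (al97L_w φ N ℓ hℓ hN (nsq97_x0 L N ℓ))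
    rw [nsq97_val_apply]
    unfold nsq97_x0
    rw [ce97_w_x0 φ N ℓ hℓ hN]
    intro h
    have h1 := congrArg (fun f : LaurentSeries Kbar => f.coeff (-1)) h
    simp only [twist_coeff, kn97_JJ_one_coeff, mul_one] at h1
    apply hc1
    have h2 : c ^ (-1 : ℤ) = 1 := Units.ext h1
    simpa using h2

/-- **Existence of `Ξ_c`.** -/
theorem nsq97_exists_xi (hL : ((N * ℓ * ℓ : ℕ) : L) ≠ 0) (c : Kbarˣ) (hc : c ^ ℓ = 1) :
    ∃ Ξ : ↥(modularFunctionFieldFullC L (N * ℓ * ℓ)) →+* LaurentSeries Kbar,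
      (∀ x, Ξ (al97L_alpha L (N * ℓ) ℓ x) =
        qExpand Kbar ℓ (nsq97_val φ (N * ℓ) (al97L_w φ N ℓ hℓ hN x))) ∧
      (∀ x, Ξ (al97L_beta L (N * ℓ) ℓ x) =
        twist c (nsq97_val φ (N * ℓ) (al97L_w φ N ℓ hℓ hN x))) := by
  refine ce97_exists_hom φ N ℓ hℓ hN hL
    ((qExpand Kbar ℓ).comp ((nsq97_val φ (N * ℓ)).comp
      (al97L_w φ N ℓ hℓ hN).toAlgHom.toRingHom))
    ((twist c).comp ((nsq97_val φ (N * ℓ)).comp
      (al97L_w φ N ℓ hℓ hN).toAlgHom.toRingHom)) ?_ (nsq97_x0 L N ℓ) ?_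
  · intro e
    show twist c (nsq97_val φ (N * ℓ) (al97L_w φ N ℓ hℓ hN (al97L_alpha L N ℓ e))) =
      qExpand Kbar ℓ (nsq97_val φ (N * ℓ) (al97L_w φ N ℓ hℓ hN (al97L_beta L N ℓ e)))
    rw [nsq97_tw_w_alpha φ N ℓ hℓ hN c hc, al97L_w_beta_apply, nsq97_val_apply φ (N * ℓ),
      nsq97_val_apply φ N, al97L_alpha_coe]
  · show twist c (nsq97_val φ (N * ℓ) (al97L_w φ N ℓ hℓ hN (nsq97_x0 L N ℓ))) ≠
      qExpand Kbar ℓ (nsq97_val φ (N * ℓ) (al97L_w φ N ℓ hℓ hN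
        (al97L_w φ N ℓ hℓ hN (nsq97_x0 L N ℓ))))
    rw [nsq97_val_apply]
    unfold nsq97_x0
    rw [ce97_w_x0 φ N ℓ hℓ hN]
    intro h
    have h1 := congrArg (fun f : LaurentSeries Kbar => f.coeff (-1)) h
    simp only [twist_coeff, kn97_JJ_one_coeff, mul_one] at h1
    rw [qExpand_coeff_of_not_dvd ℓ _ (nsq97_not_dvd ℓ hℓ)] at h1
    exact Units.ne_zero _ h1

open Classical in
/-- **`Θ_c`** (`c^ℓ = 1`, `c ≠ 1`; junk value `val` otherwise). -/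
noncomputable def nsq97_Theta (hL : ((N * ℓ * ℓ : ℕ) : L) ≠ 0) (c : Kbarˣ) :
    ↥(modularFunctionFieldFullC L (N * ℓ * ℓ)) →+* LaurentSeries Kbar :=
  if h : c ^ ℓ = 1 ∧ c ≠ 1 then
    Classical.choose (nsq97_exists_theta φ N ℓ hℓ hN hL c h.1 h.2)
  else nsq97_val φ (N * ℓ * ℓ)

theorem nsq97_Theta_alpha (hL : ((N * ℓ * ℓ : ℕ) : L) ≠ 0) (c : Kbarˣ) (hc : c ^ ℓ = 1)
    (hc1 : c ≠ 1) (x : ↥(modularFunctionFieldFullC L (N * ℓ))) :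
    nsq97_Theta φ N ℓ hℓ hN hL c (al97L_alpha L (N * ℓ) ℓ x) = nsq97_val φ (N * ℓ) x := by
  unfold nsq97_Theta
  rw [dif_pos ⟨hc, hc1⟩]
  exact (Classical.choose_spec (nsq97_exists_theta φ N ℓ hℓ hN hL c hc hc1)).1 x

theorem nsq97_Theta_beta (hL : ((N * ℓ * ℓ : ℕ) : L) ≠ 0) (c : Kbarˣ) (hc : c ^ ℓ = 1)
    (hc1 : c ≠ 1) (x : ↥(modularFunctionFieldFullC L (N * ℓ))) :
    nsq97_Theta φ N ℓ hℓ hN hL c (al97L_beta L (N * ℓ) ℓ x) =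
      twist c (nsq97_val φ (N * ℓ) (al97L_w φ N ℓ hℓ hN x)) := by
  unfold nsq97_Theta
  rw [dif_pos ⟨hc, hc1⟩]
  exact (Classical.choose_spec (nsq97_exists_theta φ N ℓ hℓ hN hL c hc hc1)).2 x

open Classical in
/-- **`Ξ_c`** (`c^ℓ = 1`; junk value `val` otherwise). -/
noncomputable def nsq97_Xi (hL : ((N * ℓ * ℓ : ℕ) : L) ≠ 0) (c : Kbarˣ) :
    ↥(modularFunctionFieldFullC L (N * ℓ * ℓ)) →+* LaurentSeries Kbar :=
  if h : c ^ ℓ = 1 then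
    Classical.choose (nsq97_exists_xi φ N ℓ hℓ hN hL c h)
  else nsq97_val φ (N * ℓ * ℓ)

theorem nsq97_Xi_alpha (hL : ((N * ℓ * ℓ : ℕ) : L) ≠ 0) (c : Kbarˣ) (hc : c ^ ℓ = 1)
    (x : ↥(modularFunctionFieldFullC L (N * ℓ))) :
    nsq97_Xi φ N ℓ hℓ hN hL c (al97L_alpha L (N * ℓ) ℓ x) =
      qExpand Kbar ℓ (nsq97_val φ (N * ℓ) (al97L_w φ N ℓ hℓ hN x)) := by
  unfold nsq97_Xi
  rw [dif_pos hc]
  exact (Classical.choose_spec (nsq97_exists_xi φ N ℓ hℓ hN hL c hc)).1 x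

theorem nsq97_Xi_beta (hL : ((N * ℓ * ℓ : ℕ) : L) ≠ 0) (c : Kbarˣ) (hc : c ^ ℓ = 1)
    (x : ↥(modularFunctionFieldFullC L (N * ℓ))) :
    nsq97_Xi φ N ℓ hℓ hN hL c (al97L_beta L (N * ℓ) ℓ x) =
      twist c (nsq97_val φ (N * ℓ) (al97L_w φ N ℓ hℓ hN x)) := by
  unfold nsq97_Xi
  rw [dif_pos hc]
  exact (Classical.choose_spec (nsq97_exists_xi φ N ℓ hℓ hN hL c hc)).2 x

omit [NeZero ℓ] in
theorem nsq97_pow_pow (ζ : Kbarˣ) (hζ : IsPrimitiveRoot ζ ℓ) (k : ℕ) : (ζ ^ k) ^ ℓ = 1 := by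
  rw [← pow_mul, mul_comm, pow_mul, hζ.pow_eq_one, one_pow]

/-- the value of `val ∘ w` at `x₀ = j(q^ℓ)` is `j(q)`. -/
theorem nsq97_val_w_x0 :
    nsq97_val φ (N * ℓ) (al97L_w φ N ℓ hℓ hN (nsq97_x0 L N ℓ)) = JJ 1 := by
  rw [nsq97_val_apply]
  unfold nsq97_x0
  exact ce97_w_x0 φ N ℓ hℓ hN

/-- **Norm along `α₂`, branch at `∞`**: `val (N_α y) = val y · ∏_{k=1}^{ℓ-1} Θ_{ζ^k} y`. -/
theorem nsq97_norm_alpha_inf (hL : ((N * ℓ * ℓ : ℕ) : L) ≠ 0) (ζ : Kbarˣ)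
    (hζ : IsPrimitiveRoot ζ ℓ) (y : ↥(modularFunctionFieldFullC L (N * ℓ * ℓ))) :
    letI := algebraAlong (al97L_alpha L (N * ℓ) ℓ)
    nsq97_val φ (N * ℓ) (Algebra.norm ↥(modularFunctionFieldFullC L (N * ℓ)) y) =
      nsq97_val φ (N * ℓ * ℓ) y *
        ∏ k : Fin (ℓ - 1), nsq97_Theta φ N ℓ hℓ hN hL (ζ ^ ((k : ℕ) + 1)) y := by
  letI := algebraAlong (al97L_alpha L (N * ℓ) ℓ)
  have hfr := ce97_finrank_sq L N ℓ hℓ hN hL
  haveI : FiniteDimensional ↥(modularFunctionFieldFullC L (N * ℓ))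
      ↥(modularFunctionFieldFullC L (N * ℓ * ℓ)) :=
    Module.finite_of_finrank_pos (by rw [hfr]; exact hℓ.pos)
  haveI : CharZero L := RingHom.charZero φ
  haveI : CharZero ↥(modularFunctionFieldFullC L (N * ℓ)) :=
    charZero_of_injective_algebraMap
      (algebraMap L ↥(modularFunctionFieldFullC L (N * ℓ))).injective
  haveI : Algebra.IsSeparable ↥(modularFunctionFieldFullC L (N * ℓ))
      ↥(modularFunctionFieldFullC L (N * ℓ * ℓ)) :=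
    Algebra.IsAlgebraic.isSeparable_of_perfectField
  have hk1 : ∀ k : Fin (ℓ - 1), ζ ^ ((k : ℕ) + 1) ≠ 1 := fun k =>
    hζ.pow_ne_one_of_pos_of_lt (Nat.succ_ne_zero _) (by have := k.2; omega)
  let σ : Option (Fin (ℓ - 1)) →
      (↥(modularFunctionFieldFullC L (N * ℓ * ℓ)) →+* LaurentSeries Kbar) := fun i =>
    match i with
    | none => nsq97_val φ (N * ℓ * ℓ)
    | some k => nsq97_Theta φ N ℓ hℓ hN hL (ζ ^ ((k : ℕ) + 1))
  have hσ : ∀ i, (σ i).comp (algebraMap ↥(modularFunctionFieldFullC L (N * ℓ))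
      ↥(modularFunctionFieldFullC L (N * ℓ * ℓ))) = nsq97_val φ (N * ℓ) := by
    intro i
    ext1 x
    have hx : algebraMap ↥(modularFunctionFieldFullC L (N * ℓ))
        ↥(modularFunctionFieldFullC L (N * ℓ * ℓ)) x = al97L_alpha L (N * ℓ) ℓ x := rfl
    rw [RingHom.comp_apply, hx]
    cases i with
    | none =>
      show nsq97_val φ (N * ℓ * ℓ) (al97L_alpha L (N * ℓ) ℓ x) = nsq97_val φ (N * ℓ) x
      rw [nsq97_val_apply, nsq97_val_apply, al97L_alpha_coe]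
    | some k =>
      exact nsq97_Theta_alpha φ N ℓ hℓ hN hL _ (nsq97_pow_pow ℓ ζ hζ _) (hk1 k) x
  -- distinctness: evaluate at `β₂ x₀ = j(q^{ℓ²})`, coefficient of `q⁻¹`
  have hnone : (σ none (al97L_beta L (N * ℓ) ℓ (nsq97_x0 L N ℓ))).coeff (-1) = 0 := by
    show (nsq97_val φ (N * ℓ * ℓ) (al97L_beta L (N * ℓ) ℓ (nsq97_x0 L N ℓ))).coeff (-1) = 0
    rw [nsq97_val_apply, al97L_beta_coe, coeffMap_qExpand]
    exact qExpand_coeff_of_not_dvd ℓ _ (nsq97_not_dvd ℓ hℓ)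
  have hsome : ∀ k : Fin (ℓ - 1),
      (σ (some k) (al97L_beta L (N * ℓ) ℓ (nsq97_x0 L N ℓ))).coeff (-1) =
        (((ζ ^ ((k : ℕ) + 1)) ^ (-1 : ℤ) : Kbarˣ) : Kbar) := by
    intro k
    show (nsq97_Theta φ N ℓ hℓ hN hL (ζ ^ ((k : ℕ) + 1))
      (al97L_beta L (N * ℓ) ℓ (nsq97_x0 L N ℓ))).coeff (-1) = _
    rw [nsq97_Theta_beta φ N ℓ hℓ hN hL _ (nsq97_pow_pow ℓ ζ hζ _) (hk1 k),
      nsq97_val_w_x0, twist_coeff, kn97_JJ_one_coeff, mul_one]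
  have hinj : Function.Injective σ := by
    intro i j hij
    have hc : (σ i (al97L_beta L (N * ℓ) ℓ (nsq97_x0 L N ℓ))).coeff (-1) =
        (σ j (al97L_beta L (N * ℓ) ℓ (nsq97_x0 L N ℓ))).coeff (-1) := by rw [hij]
    cases i with
    | none =>
      cases j with
      | none => rfl
      | some b =>
        rw [hnone, hsome] at hc
        exact absurd hc.symm (Units.ne_zero _)
    | some a =>
      cases j with
      | none =>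
        rw [hnone, hsome] at hc
        exact absurd hc (Units.ne_zero _)
      | some b =>
        rw [hsome, hsome] at hc
        have h1 : (ζ ^ ((a : ℕ) + 1)) ^ (-1 : ℤ) = (ζ ^ ((b : ℕ) + 1)) ^ (-1 : ℤ) :=
          Units.ext hc
        have h2 : ζ ^ ((a : ℕ) + 1) = ζ ^ ((b : ℕ) + 1) := by
          simpa using h1
        have h3 : (a : ℕ) + 1 = (b : ℕ) + 1 :=
          hζ.pow_inj (by have := a.2; omega) (by have := b.2; omega) h2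
        exact congrArg some (Fin.ext (by omega))
  have hn : Module.finrank ↥(modularFunctionFieldFullC L (N * ℓ))
      ↥(modularFunctionFieldFullC L (N * ℓ * ℓ)) = Fintype.card (Option (Fin (ℓ - 1))) := by
    rw [hfr, Fintype.card_option, Fintype.card_fin]
    have := hℓ.pos
    omega
  have hmain := kn97_norm_eq_prod (nsq97_val φ (N * ℓ)) σ hσ hinj hn y
  rw [Fintype.prod_option] at hmain
  exact hmain

/-- **Norm along `α₂`, branch at `0`**: `V (val (w (N_α y))) = ∏_{b<ℓ} Ξ_{ζ^b} y`. -/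
theorem nsq97_norm_alpha_zero (hL : ((N * ℓ * ℓ : ℕ) : L) ≠ 0) (ζ : Kbarˣ)
    (hζ : IsPrimitiveRoot ζ ℓ) (y : ↥(modularFunctionFieldFullC L (N * ℓ * ℓ))) :
    letI := algebraAlong (al97L_alpha L (N * ℓ) ℓ)
    qExpand Kbar ℓ (nsq97_val φ (N * ℓ) (al97L_w φ N ℓ hℓ hN
        (Algebra.norm ↥(modularFunctionFieldFullC L (N * ℓ)) y))) =
      ∏ b : Fin ℓ, nsq97_Xi φ N ℓ hℓ hN hL (ζ ^ (b : ℕ)) y := by
  letI := algebraAlong (al97L_alpha L (N * ℓ) ℓ)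
  have hfr := ce97_finrank_sq L N ℓ hℓ hN hL
  haveI : FiniteDimensional ↥(modularFunctionFieldFullC L (N * ℓ))
      ↥(modularFunctionFieldFullC L (N * ℓ * ℓ)) :=
    Module.finite_of_finrank_pos (by rw [hfr]; exact hℓ.pos)
  haveI : CharZero L := RingHom.charZero φ
  haveI : CharZero ↥(modularFunctionFieldFullC L (N * ℓ)) :=
    charZero_of_injective_algebraMap
      (algebraMap L ↥(modularFunctionFieldFullC L (N * ℓ))).injective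
  haveI : Algebra.IsSeparable ↥(modularFunctionFieldFullC L (N * ℓ))
      ↥(modularFunctionFieldFullC L (N * ℓ * ℓ)) :=
    Algebra.IsAlgebraic.isSeparable_of_perfectField
  let ι : ↥(modularFunctionFieldFullC L (N * ℓ)) →+* LaurentSeries Kbar :=
    (qExpand Kbar ℓ).comp ((nsq97_val φ (N * ℓ)).comp
      (al97L_w φ N ℓ hℓ hN).toAlgHom.toRingHom)
  let σ : Fin ℓ → (↥(modularFunctionFieldFullC L (N * ℓ * ℓ)) →+* LaurentSeries Kbar) :=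
    fun b => nsq97_Xi φ N ℓ hℓ hN hL (ζ ^ (b : ℕ))
  have hσ : ∀ i, (σ i).comp (algebraMap ↥(modularFunctionFieldFullC L (N * ℓ))
      ↥(modularFunctionFieldFullC L (N * ℓ * ℓ))) = ι := by
    intro i
    ext1 x
    have hx : algebraMap ↥(modularFunctionFieldFullC L (N * ℓ))
        ↥(modularFunctionFieldFullC L (N * ℓ * ℓ)) x = al97L_alpha L (N * ℓ) ℓ x := rfl
    rw [RingHom.comp_apply, hx]
    exact nsq97_Xi_alpha φ N ℓ hℓ hN hL _ (nsq97_pow_pow ℓ ζ hζ _) x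
  have hval : ∀ b : Fin ℓ,
      (σ b (al97L_beta L (N * ℓ) ℓ (nsq97_x0 L N ℓ))).coeff (-1) =
        (((ζ ^ (b : ℕ)) ^ (-1 : ℤ) : Kbarˣ) : Kbar) := by
    intro b
    show (nsq97_Xi φ N ℓ hℓ hN hL (ζ ^ (b : ℕ))
      (al97L_beta L (N * ℓ) ℓ (nsq97_x0 L N ℓ))).coeff (-1) = _
    rw [nsq97_Xi_beta φ N ℓ hℓ hN hL _ (nsq97_pow_pow ℓ ζ hζ _),
      nsq97_val_w_x0, twist_coeff, kn97_JJ_one_coeff, mul_one]
  have hinj : Function.Injective σ := by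
    intro a b hij
    have hc : (σ a (al97L_beta L (N * ℓ) ℓ (nsq97_x0 L N ℓ))).coeff (-1) =
        (σ b (al97L_beta L (N * ℓ) ℓ (nsq97_x0 L N ℓ))).coeff (-1) := by rw [hij]
    rw [hval, hval] at hc
    have h1 : (ζ ^ (a : ℕ)) ^ (-1 : ℤ) = (ζ ^ (b : ℕ)) ^ (-1 : ℤ) := Units.ext hc
    have h2 : ζ ^ (a : ℕ) = ζ ^ (b : ℕ) := by
      simpa using h1
    exact Fin.ext (hζ.pow_inj a.2 b.2 h2)
  have hn : Module.finrank ↥(modularFunctionFieldFullC L (N * ℓ))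
      ↥(modularFunctionFieldFullC L (N * ℓ * ℓ)) = Fintype.card (Fin ℓ) := by
    rw [hfr, Fintype.card_fin]
  exact kn97_norm_eq_prod ι σ hσ hinj hn y

end nsq97

end Fermat.Agent.S36
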