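import Fermat.Agent.S36.OnlyBind72
import Fermat.Agent.S36.NormVal88
import Fermat.Agent.S36.NormSqRed86

/-!
# S36 lab (helper86): the middle branch `V₂` — intrinsic reduction `r₂` and the norm formula (N1)

Level `M * q`, `q ∣ M` prime (`ob72` binders), `E = F_K(M) ⊆ F = F_K(M q)` along
`α = al97L_alpha K M q`, `V' = cm85_Vinf M`, `V₁ = cm85_Vinf (M * q)`.  The middle valuation `V₂`
and `s` are PARAMETERS with literally the hypotheses of `ob72_ram`
(`α V' ⊆ V₂`, `π⁻¹ ∉ V₂`, `V₁ ≠ V₂`, `v₂(s)^(q-1) = v₂(π)`).  No embedding of `V₂` is used: its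
residue field is that of `V'` (`ob72_ram`), so

* `nsm86_red2` : `r₂ x := r'(b)` for any `b ∈ V'` with `x ≡ α b mod s V₂`
  (`r' = ntf35_red R M`); `nsm86_red2_eq` (well defined), `nsm86_red2_alpha` (`h2al`),
  `nsm86_red2_mul`, `nsm86_red2_one`, `nsm86_red2_eq_zero_iff`;
* `nsm86_ram_norm` : `Nm_α y ∈ V'` and `π⁻¹ (Nm_α y - v₁ v₂^(q-1)) ∈ V'` (from `nv88_ram_norm`);
* `nsm86_N1` : **(N1)** `Nm_α y ∈ V'` and `r' (Nm_α y) = r₁ y * r₂ y ^ (q - 1)` for
  `y ∈ V₁ ⊓ V₂`.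

All names are prefixed `nsm86_`.
-/

set_option autoImplicit false
set_option linter.style.haveILetI false
set_option linter.unusedSectionVars false

open ModularCurve AlgebraicCurve IntermediateField
open Fermat.Agent.S24 Fermat.Agent.S28 Fermat.Agent.S18 Fermat.Agent.S37 Fermat.Agent.S34
open Fermat.Agent.S42 Fermat.Agent.S35

namespace Fermat.Agent.S36

section nsm86

variable {R K : Type} [CommRing R] [IsDomain R] [IsDiscreteValuationRing R] [Field K] [CharZero K]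
  [Algebra R K] [IsFractionRing R K] (M q : ℕ) [NeZero M] [NeZero q]

set_option maxHeartbeats 1600000 in
/-- **(N1), congruence form** (instance of `nv88_ram_norm` at `α : F(M) → F(M q)`, `q ∣ M`). -/
theorem nsm86_ram_norm (hq : q.Prime) (hqM : q ∣ M) {π : R} (hπ : Irreducible π)
    (V₂ : ValuationSubring ↥(modularFunctionFieldFullC K (M * q)))
    (hV₂ : ∀ c ∈ cm85_Vinf (K := K) M hπ, al97L_alpha K M q c ∈ V₂)
    (hπ₂ : (algebraMap K ↥(modularFunctionFieldFullC K (M * q)) (algebraMap R K π))⁻¹ ∉ V₂)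
    (hne : cm85_Vinf (K := K) (M * q) hπ ≠ V₂)
    (s : ↥(modularFunctionFieldFullC K (M * q)))
    (hs : V₂.valuation s ^ (q - 1) =
      V₂.valuation (algebraMap K ↥(modularFunctionFieldFullC K (M * q)) (algebraMap R K π)))
    (y : ↥(modularFunctionFieldFullC K (M * q)))
    (hy1 : y ∈ cm85_Vinf (K := K) (M * q) hπ) (hy2 : y ∈ V₂)
    (v1 v2 : ↥(modularFunctionFieldFullC K M))
    (hv1 : v1 ∈ cm85_Vinf (K := K) M hπ) (hv2 : v2 ∈ cm85_Vinf (K := K) M hπ)
    (hyv1 : (algebraMap K ↥(modularFunctionFieldFullC K (M * q)) (algebraMap R K π))⁻¹ *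
      (y - al97L_alpha K M q v1) ∈ cm85_Vinf (K := K) (M * q) hπ)
    (hyv2 : s⁻¹ * (y - al97L_alpha K M q v2) ∈ V₂) :
    letI : Algebra ↥(modularFunctionFieldFullC K M) ↥(modularFunctionFieldFullC K (M * q)) :=
      (al97L_alpha K M q).toRingHom.toAlgebra
    Algebra.norm ↥(modularFunctionFieldFullC K M) y ∈ cm85_Vinf (K := K) M hπ ∧
      (algebraMap K ↥(modularFunctionFieldFullC K M) (algebraMap R K π))⁻¹ *
        (Algebra.norm ↥(modularFunctionFieldFullC K M) y - v1 * v2 ^ (q - 1)) ∈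
          cm85_Vinf (K := K) M hπ := by
  letI alg : Algebra ↥(modularFunctionFieldFullC K M) ↥(modularFunctionFieldFullC K (M * q)) :=
    (al97L_alpha K M q).toRingHom.toAlgebra
  have hfr := ob72_finrank K M q hq hqM
  haveI : FiniteDimensional ↥(modularFunctionFieldFullC K M)
      ↥(modularFunctionFieldFullC K (M * q)) :=
    Module.finite_of_finrank_pos (by rw [hfr]; exact hq.pos)
  haveI : CharZero ↥(modularFunctionFieldFullC K M) :=
    charZero_of_injective_algebraMap (algebraMap K ↥(modularFunctionFieldFullC K M)).injective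
  haveI : Algebra.IsSeparable ↥(modularFunctionFieldFullC K M)
      ↥(modularFunctionFieldFullC K (M * q)) :=
    Algebra.IsAlgebraic.isSeparable_of_perfectField
  have hπEF : algebraMap ↥(modularFunctionFieldFullC K M) ↥(modularFunctionFieldFullC K (M * q))
      (algebraMap K ↥(modularFunctionFieldFullC K M) (algebraMap R K π)) =
      algebraMap K ↥(modularFunctionFieldFullC K (M * q)) (algebraMap R K π) :=
    (al97L_alpha K M q).commutes _
  have hπV' : algebraMap K ↥(modularFunctionFieldFullC K M) (algebraMap R K π) ∈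
      cm85_Vinf (K := K) M hπ :=
    gv85_mem_V_of_integral _ _ _ _ (HahnSeries.C π) (by rw [gv85_coe_algebraMap, gv85_coeffMap_C])
  have hπV'' : (algebraMap K ↥(modularFunctionFieldFullC K M) (algebraMap R K π))⁻¹ ∉
      cm85_Vinf (K := K) M hπ :=
    gv85_pi_inv_not_mem (IsLocalRing.residue R) π (pk85_res_iff hπ) hπ.ne_zero _ _
  have hmax : ∀ x ∈ cm85_Vinf (K := K) M hπ, x⁻¹ ∉ cm85_Vinf (K := K) M hπ →
      (algebraMap K ↥(modularFunctionFieldFullC K M) (algebraMap R K π))⁻¹ * x ∈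
        cm85_Vinf (K := K) M hπ := fun x hx hx' =>
    gv85_hmax (IsLocalRing.residue R) π (pk85_res_iff hπ) hπ.ne_zero _ _ x hx hx'
  have harch := fs85_harch (K := K) M hπ
  have hV₁ : ∀ c ∈ cm85_Vinf (K := K) M hπ,
      algebraMap ↥(modularFunctionFieldFullC K M) ↥(modularFunctionFieldFullC K (M * q)) c ∈
        cm85_Vinf (K := K) (M * q) hπ := fun c hc =>
    (al97V_alpha_mem_Vinf M q hπ c).mpr hc
  have hπ₁ : (algebraMap ↥(modularFunctionFieldFullC K M) ↥(modularFunctionFieldFullC K (M * q))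
      (algebraMap K ↥(modularFunctionFieldFullC K M) (algebraMap R K π)))⁻¹ ∉
        cm85_Vinf (K := K) (M * q) hπ := by
    rw [hπEF]
    exact gv85_pi_inv_not_mem (IsLocalRing.residue R) π (pk85_res_iff hπ) hπ.ne_zero _ _
  have hπ₂' : (algebraMap ↥(modularFunctionFieldFullC K M) ↥(modularFunctionFieldFullC K (M * q))
      (algebraMap K ↥(modularFunctionFieldFullC K M) (algebraMap R K π)))⁻¹ ∉ V₂ := by
    rw [hπEF]; exact hπ₂
  have hs' : V₂.valuation s ^ (q - 1) = V₂.valuation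
      (algebraMap ↥(modularFunctionFieldFullC K M) ↥(modularFunctionFieldFullC K (M * q))
        (algebraMap K ↥(modularFunctionFieldFullC K M) (algebraMap R K π))) := by
    rw [hπEF]; exact hs
  have hq2 := hq.two_le
  have hdeg : Module.finrank ↥(modularFunctionFieldFullC K M)
      ↥(modularFunctionFieldFullC K (M * q)) ≤ (q - 1) + 1 := by rw [hfr]; omega
  have hq1 : 1 ≤ q - 1 := by omega
  exact nv88_ram_norm (q - 1) hq1 hdeg
    (cm85_Vinf (K := K) M hπ) (algebraMap K ↥(modularFunctionFieldFullC K M) (algebraMap R K π))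
    hπV' hπV'' hmax harch (cm85_Vinf (K := K) (M * q) hπ) V₂ hne hV₁ hπ₁ hV₂ hπ₂' s hs'
    y hy1 hy2 v1 v2 hv1 hv2 (by rw [hπEF]; exact hyv1) hyv2

/-- `s` is not a unit of `V₂`. -/
theorem nsm86_s_inv_not_mem {π : R}
    (V₂ : ValuationSubring ↥(modularFunctionFieldFullC K (M * q)))
    (hπ₂ : (algebraMap K ↥(modularFunctionFieldFullC K (M * q)) (algebraMap R K π))⁻¹ ∉ V₂)
    (s : ↥(modularFunctionFieldFullC K (M * q)))
    (hs : V₂.valuation s ^ (q - 1) =
      V₂.valuation (algebraMap K ↥(modularFunctionFieldFullC K (M * q)) (algebraMap R K π))) :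
    s⁻¹ ∉ V₂ := by
  intro h
  apply hπ₂
  rw [← ValuationSubring.valuation_le_one_iff, map_inv₀, ← hs, ← inv_pow, ← map_inv₀]
  exact pow_le_one₀ zero_le ((ValuationSubring.valuation_le_one_iff _ _).mpr h)

/-- Two elements of `V'` congruent modulo `s V₂` are congruent modulo `π V'`. -/
theorem nsm86_cong_of_mid {π : R} (hπ : Irreducible π)
    (V₂ : ValuationSubring ↥(modularFunctionFieldFullC K (M * q)))
    (hV₂ : ∀ c ∈ cm85_Vinf (K := K) M hπ, al97L_alpha K M q c ∈ V₂)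
    (hπ₂ : (algebraMap K ↥(modularFunctionFieldFullC K (M * q)) (algebraMap R K π))⁻¹ ∉ V₂)
    (s : ↥(modularFunctionFieldFullC K (M * q)))
    (hs : V₂.valuation s ^ (q - 1) =
      V₂.valuation (algebraMap K ↥(modularFunctionFieldFullC K (M * q)) (algebraMap R K π)))
    (b b' : ↥(modularFunctionFieldFullC K M))
    (hb : b ∈ cm85_Vinf (K := K) M hπ) (hb' : b' ∈ cm85_Vinf (K := K) M hπ)
    (h : s⁻¹ * (al97L_alpha K M q b - al97L_alpha K M q b') ∈ V₂) :
    (algebraMap K ↥(modularFunctionFieldFullC K M) (algebraMap R K π))⁻¹ * (b - b') ∈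
      cm85_Vinf (K := K) M hπ := by
  by_contra hcon
  have hd : b - b' ∈ cm85_Vinf (K := K) M hπ := sub_mem hb hb'
  have hdinv : (b - b')⁻¹ ∈ cm85_Vinf (K := K) M hπ := by
    by_contra h2
    exact hcon (gv85_hmax (IsLocalRing.residue R) π (pk85_res_iff hπ) hπ.ne_zero _ _ _ hd h2)
  have hd0 : b - b' ≠ 0 := by
    intro h0
    apply hcon
    rw [h0, mul_zero]
    exact zero_mem _
  have h3 := V₂.mul_mem _ _ h (hV₂ _ hdinv)
  rw [← map_sub, map_inv₀, mul_inv_cancel_right₀ ((map_ne_zero _).mpr hd0)] at h3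
  exact nsm86_s_inv_not_mem M q V₂ hπ₂ s hs h3

open Classical in
/-- **The intrinsic reduction at `V₂`**: `r₂ x = r'(b)` for `b ∈ V'` with `x ≡ α b mod s V₂`
(`0` if there is no such `b`, i.e. outside `V₂`). -/
noncomputable def nsm86_red2 {π : R} (hπ : Irreducible π)
    (V₂ : ValuationSubring ↥(modularFunctionFieldFullC K (M * q)))
    (s : ↥(modularFunctionFieldFullC K (M * q)))
    (x : ↥(modularFunctionFieldFullC K (M * q))) :
    LaurentSeries (IsLocalRing.ResidueField R) :=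
  if h : ∃ b ∈ cm85_Vinf (K := K) M hπ, s⁻¹ * (x - al97L_alpha K M q b) ∈ V₂ then
    ntf35_red R M (Classical.choose h)
  else 0

/-- `r₂` is well defined. -/
theorem nsm86_red2_eq {π : R} (hπ : Irreducible π)
    (V₂ : ValuationSubring ↥(modularFunctionFieldFullC K (M * q)))
    (hV₂ : ∀ c ∈ cm85_Vinf (K := K) M hπ, al97L_alpha K M q c ∈ V₂)
    (hπ₂ : (algebraMap K ↥(modularFunctionFieldFullC K (M * q)) (algebraMap R K π))⁻¹ ∉ V₂)
    (s : ↥(modularFunctionFieldFullC K (M * q)))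
    (hs : V₂.valuation s ^ (q - 1) =
      V₂.valuation (algebraMap K ↥(modularFunctionFieldFullC K (M * q)) (algebraMap R K π)))
    (x : ↥(modularFunctionFieldFullC K (M * q))) (b : ↥(modularFunctionFieldFullC K M))
    (hb : b ∈ cm85_Vinf (K := K) M hπ) (hxb : s⁻¹ * (x - al97L_alpha K M q b) ∈ V₂) :
    nsm86_red2 M q hπ V₂ s x = ntf35_red R M b := by
  have hex : ∃ b ∈ cm85_Vinf (K := K) M hπ, s⁻¹ * (x - al97L_alpha K M q b) ∈ V₂ :=
    ⟨b, hb, hxb⟩
  rw [nsm86_red2, dif_pos hex]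
  obtain ⟨hb', hxb'⟩ := Classical.choose_spec hex
  have h1 : s⁻¹ * (al97L_alpha K M q (Classical.choose hex) - al97L_alpha K M q b) ∈ V₂ := by
    have h2 : s⁻¹ * (al97L_alpha K M q (Classical.choose hex) - al97L_alpha K M q b) =
        s⁻¹ * (x - al97L_alpha K M q b) -
          s⁻¹ * (x - al97L_alpha K M q (Classical.choose hex)) := by ring
    rw [h2]
    exact sub_mem hxb hxb'
  exact (ntf35_red_cong M hπ _ _ hb
    (nsm86_cong_of_mid M q hπ V₂ hV₂ hπ₂ s hs _ _ hb' hb h1)).2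

/-- (I2) `h2al`: `r₂ (α b) = r'(b)` for `b ∈ V'`. -/
theorem nsm86_red2_alpha {π : R} (hπ : Irreducible π)
    (V₂ : ValuationSubring ↥(modularFunctionFieldFullC K (M * q)))
    (hV₂ : ∀ c ∈ cm85_Vinf (K := K) M hπ, al97L_alpha K M q c ∈ V₂)
    (hπ₂ : (algebraMap K ↥(modularFunctionFieldFullC K (M * q)) (algebraMap R K π))⁻¹ ∉ V₂)
    (s : ↥(modularFunctionFieldFullC K (M * q)))
    (hs : V₂.valuation s ^ (q - 1) =
      V₂.valuation (algebraMap K ↥(modularFunctionFieldFullC K (M * q)) (algebraMap R K π)))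
    (b : ↥(modularFunctionFieldFullC K M)) (hb : b ∈ cm85_Vinf (K := K) M hπ) :
    nsm86_red2 M q hπ V₂ s (al97L_alpha K M q b) = ntf35_red R M b :=
  nsm86_red2_eq M q hπ V₂ hV₂ hπ₂ s hs _ b hb (by rw [sub_self, mul_zero]; exact zero_mem _)

/-- **(N1)**: `r'(Nm_α y) = r₁ y * r₂ y ^ (q - 1)` for `y ∈ V₁ ⊓ V₂`. -/
theorem nsm86_N1 (hq : q.Prime) (hqM : q ∣ M) {π : R} (hπ : Irreducible π)
    (V₂ : ValuationSubring ↥(modularFunctionFieldFullC K (M * q)))
    (hV₂ : ∀ c ∈ cm85_Vinf (K := K) M hπ, al97L_alpha K M q c ∈ V₂)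
    (hπ₂ : (algebraMap K ↥(modularFunctionFieldFullC K (M * q)) (algebraMap R K π))⁻¹ ∉ V₂)
    (hne : cm85_Vinf (K := K) (M * q) hπ ≠ V₂)
    (s : ↥(modularFunctionFieldFullC K (M * q)))
    (hs : V₂.valuation s ^ (q - 1) =
      V₂.valuation (algebraMap K ↥(modularFunctionFieldFullC K (M * q)) (algebraMap R K π)))
    (y : ↥(modularFunctionFieldFullC K (M * q)))
    (hy1 : y ∈ cm85_Vinf (K := K) (M * q) hπ) (hy2 : y ∈ V₂) :
    letI : Algebra ↥(modularFunctionFieldFullC K M) ↥(modularFunctionFieldFullC K (M * q)) :=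
      (al97L_alpha K M q).toRingHom.toAlgebra
    Algebra.norm ↥(modularFunctionFieldFullC K M) y ∈ cm85_Vinf (K := K) M hπ ∧
    ntf35_red R M (Algebra.norm ↥(modularFunctionFieldFullC K M) y) =
      ntf35_red R (M * q) y * nsm86_red2 M q hπ V₂ s y ^ (q - 1) := by
  obtain ⟨-, -, -, h4, h5⟩ := ob72_ram M q hq hqM hπ V₂ hV₂ hπ₂ hne s hs
  obtain ⟨v1, hv1, hyv1⟩ := h4 y hy1
  obtain ⟨v2, hv2, hyv2⟩ := h5 y hy2
  obtain ⟨hN, hcong⟩ := nsm86_ram_norm M q hq hqM hπ V₂ hV₂ hπ₂ hne s hs y hy1 hy2 v1 v2 hv1 hv2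
    hyv1 hyv2
  refine ⟨hN, ?_⟩
  have hv : v1 * v2 ^ (q - 1) ∈ cm85_Vinf (K := K) M hπ := mul_mem hv1 (pow_mem hv2 _)
  have hαv1 : al97L_alpha K M q v1 ∈ cm85_Vinf (K := K) (M * q) hπ :=
    (al97V_alpha_mem_Vinf M q hπ v1).mpr hv1
  rw [(ntf35_red_cong M hπ _ _ hv hcong).2, ntf35_red_mul M hπ _ _ hv1 (pow_mem hv2 _),
    nsr86_red_pow M hπ v2 hv2, nsm86_red2_eq M q hπ V₂ hV₂ hπ₂ s hs y v2 hv2 hyv2,
    (ntf35_red_cong (M * q) hπ y _ hαv1 hyv1).2,
    ntf35_red_congr_level (M * q) M _ v1 (al97L_alpha_coe K M q v1)]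

end nsm86

end Fermat.Agent.S36
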