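import Fermat.Agent.S36.V2Mid64
import Fermat.Agent.S36.NormSqMid86

/-!
# S36 lab (helper86): the canonical three-branch frame at level `M' q²` — `w₂`-symmetry of the
middle branch, the reduction `r₂`, and the FOUR norm formulas (N1)–(N4)

Canonical frame binders (`V2Mid64`): `R` a DVR, `K = Frac R` of characteristic zero,
`[Algebra K ℚ̄]`, `q` prime, `q ∤ M'`, `π` a uniformizer with `q ~ π` (unramified base).
`F₁ = F_K(M' q)`, `F₂ = F_K(M' q²)`, `α₂`, `β₂ : F₁ → F₂`, `w` / `w₂` the Atkin–Lehner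
involutions of `F₁` / `F₂` (`als86_w2`), `s = v2g64_s K M' q = j(Q^{q²}) - j(Q)`.

* `V₁ = cm85_Vinf (M' * q * q) hπ`, `V₂ = v2g64_V2 (algebraMap K ℚ̄) M' q hq hM' hπ hqπ`,
  `V₃ = nsb86_V3 M' q hq hM' hπ = V₁.comap w₂`;
* `r₁ = ntf35_red R (M' * q * q)`, `r₂ = nsf86_red2` (`= nsm86_red2` for `V₂`, `s`),
  `r₃ = nsr86_red3 R M' q hq hM'`; level `M' q`: `r_∞' = ntf35_red R (M' * q)`,
  `r_0' = ntf35_red0 R M' q hq hM'`.

Results:

* `nsf86_w2_s : w₂ s = -s`;  `nsf86_w2_mem_V2 : w₂ x ∈ V₂ ↔ x ∈ V₂` (`w₂` preserves `V₂`);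
* `nsf86_red2_alpha : r₂ (α₂ h) = r_∞' h`, `nsf86_red2_beta : r₂ (β₂ h) = r_0' h`,
  `nsf86_red2_w2 : r₂ (w₂ x) = r₂ x`, `nsf86_red2_mul`, `nsf86_red2_one`,
  `nsf86_red2_eq_zero_iff : r₂ x = 0 ↔ x ∈ 𝔪(V₂)` (`x ∈ V₂`);
* **(N1)** `nsf86_N1 : r_∞' (Nm_{α₂} y) = r₁ y * r₂ y ^ (q - 1)` for `y ∈ V₁ ⊓ V₂`;
* **(N4)** `nsf86_N4 : r_0' (Nm_{β₂} y) = r₃ y * r₂ y ^ (q - 1)` for `y ∈ V₃ ⊓ V₂`.

With `nsr86_N2`, `nsr86_N3`, `nsr86_red1_alpha/_beta`, `nsr86_red3_alpha/_beta` (`NormSqRed86`)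
this is the complete list (I2) + (N1)–(N4) of `ab94_main` / `tb50_main` on the canonical frame.
All names are prefixed `nsf86_`.
-/

set_option autoImplicit false
set_option linter.style.haveILetI false
set_option linter.unusedSectionVars false

open ModularCurve AlgebraicCurve IntermediateField
open Fermat.Agent.S24 Fermat.Agent.S28 Fermat.Agent.S18 Fermat.Agent.S37 Fermat.Agent.S34
open Fermat.Agent.S42 Fermat.Agent.S35

namespace Fermat.Agent.S36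

section nsf86

variable {R K : Type} [CommRing R] [IsDomain R] [IsDiscreteValuationRing R] [Field K] [CharZero K]
  [Algebra R K] [IsFractionRing R K] [Algebra K Kbar]
  (M' q : ℕ) [NeZero M'] [NeZero q] (hq : q.Prime) (hM' : ¬ q ∣ M')

/-- `w₂ s = -s` for `s = j(Q^{q²}) - j(Q)`. -/
theorem nsf86_w2_s : als86_w2 (algebraMap K Kbar) M' q hq hM' (nsb86_hL K (M' * q * q)) (v2g64_s K M' q) = -v2g64_s K M' q := by
  rw [v2g64_s, map_sub, als86_w2_beta, als86_w2_alpha, al97L_w_beta_apply, al97L_w_alpha_apply]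
  ring

/-- `s` is not a unit of `V₂`. -/
theorem nsf86_s_inv_not_mem {π : R} (hπ : Irreducible π) (hqπ : Associated ((q : ℕ) : R) π) :
    (v2g64_s K M' q)⁻¹ ∉ v2g64_V2 (algebraMap K Kbar) M' q hq hM' hπ hqπ :=
  nsm86_s_inv_not_mem (M' * q) q (v2g64_V2 (algebraMap K Kbar) M' q hq hM' hπ hqπ) (v2g64_V2_pi (algebraMap K Kbar) M' q hq hM' hπ hqπ)
    (v2g64_s K M' q) (v2g64_V2_val (algebraMap K Kbar) M' q hq hM' hπ hqπ)

/-- The maximal ideal of `V₂` is `s V₂`. -/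
theorem nsf86_s_inv_mul_mem {π : R} (hπ : Irreducible π) (hqπ : Associated ((q : ℕ) : R) π)
    (x : ↥(modularFunctionFieldFullC K (M' * q * q))) (hx : x ∈ (v2g64_V2 (algebraMap K Kbar) M' q hq hM' hπ hqπ).nonunits) : (v2g64_s K M' q)⁻¹ * x ∈ v2g64_V2 (algebraMap K Kbar) M' q hq hM' hπ hqπ := by
  have hxV : x ∈ v2g64_V2 (algebraMap K Kbar) M' q hq hM' hπ hqπ := by
    rw [← ValuationSubring.valuation_le_one_iff]
    exact ((ValuationSubring.mem_nonunits_iff _).mp hx).le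
  rcases (ValuationSubring.mem_nonunits_iff_or _).mp hx with h0 | h1
  · rw [h0, mul_zero]; exact zero_mem _
  · exact (ob72_ram (K := K) (M' * q) q hq (dvd_mul_left q M') hπ
      (v2g64_V2 (algebraMap K Kbar) M' q hq hM' hπ hqπ)
      (v2g64_V2_alpha (algebraMap K Kbar) M' q hq hM' hπ hqπ)
      (v2g64_V2_pi (algebraMap K Kbar) M' q hq hM' hπ hqπ)
      (v2g64_V2_ne (algebraMap K Kbar) M' q hq hM' hπ hqπ) (v2g64_s K M' q)
      (v2g64_V2_val (algebraMap K Kbar) M' q hq hM' hπ hqπ)).2.2.1 x hxV h1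

/-- **`w₂` preserves `V₂`.** -/
theorem nsf86_w2_mem_V2 {π : R} (hπ : Irreducible π) (hqπ : Associated ((q : ℕ) : R) π)
    (x : ↥(modularFunctionFieldFullC K (M' * q * q))) : als86_w2 (algebraMap K Kbar) M' q hq hM' (nsb86_hL K (M' * q * q)) x ∈ v2g64_V2 (algebraMap K Kbar) M' q hq hM' hπ hqπ ↔ x ∈ v2g64_V2 (algebraMap K Kbar) M' q hq hM' hπ hqπ := by
  have hcomap : (v2g64_V2 (algebraMap K Kbar) M' q hq hM' hπ hqπ).comap ((als86_w2 (algebraMap K Kbar) M' q hq hM' (nsb86_hL K (M' * q * q)) : ↥(modularFunctionFieldFullC K (M' * q * q)) ≃ₐ[K] ↥(modularFunctionFieldFullC K (M' * q * q))) : ↥(modularFunctionFieldFullC K (M' * q * q)) →+* ↥(modularFunctionFieldFullC K (M' * q * q))) = v2g64_V2 (algebraMap K Kbar) M' q hq hM' hπ hqπ := by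
    refine v2m64_unique M' q hq hM' (algebraMap K Kbar) hπ hqπ _ ?_ ?_ ?_
    · intro c hc
      show als86_w2 (algebraMap K Kbar) M' q hq hM' (nsb86_hL K (M' * q * q)) (al97L_alpha K (M' * q) q c) ∈ v2g64_V2 (algebraMap K Kbar) M' q hq hM' hπ hqπ
      rw [als86_w2_alpha]
      exact v2m64_beta_w M' q hq hM' hπ hqπ c hc
    · intro h
      have h' : als86_w2 (algebraMap K Kbar) M' q hq hM' (nsb86_hL K (M' * q * q)) (algebraMap K ↥(modularFunctionFieldFullC K (M' * q * q)) (algebraMap R K π))⁻¹ ∈ v2g64_V2 (algebraMap K Kbar) M' q hq hM' hπ hqπ := h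
      rw [map_inv₀, AlgEquiv.commutes] at h'
      exact v2g64_V2_pi (algebraMap K Kbar) M' q hq hM' hπ hqπ h'
    · intro heq
      have h1 : (v2g64_s K M' q)⁻¹ ∈ cm85_Vinf (K := K) (M' * q * q) hπ := v2m64_s_inv_mem_V1 (R := R) (K := K) M' q hq.two_le hπ
      rw [← heq] at h1
      have h2 : als86_w2 (algebraMap K Kbar) M' q hq hM' (nsb86_hL K (M' * q * q)) (v2g64_s K M' q)⁻¹ ∈ v2g64_V2 (algebraMap K Kbar) M' q hq hM' hπ hqπ := h1
      rw [map_inv₀, nsf86_w2_s, inv_neg] at h2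
      have h3 := neg_mem h2
      rw [neg_neg] at h3
      exact nsf86_s_inv_not_mem M' q hq hM' hπ hqπ h3
  constructor
  · intro h
    have h1 : x ∈ (v2g64_V2 (algebraMap K Kbar) M' q hq hM' hπ hqπ).comap ((als86_w2 (algebraMap K Kbar) M' q hq hM' (nsb86_hL K (M' * q * q)) : ↥(modularFunctionFieldFullC K (M' * q * q)) ≃ₐ[K] ↥(modularFunctionFieldFullC K (M' * q * q))) : ↥(modularFunctionFieldFullC K (M' * q * q)) →+* ↥(modularFunctionFieldFullC K (M' * q * q))) := h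
    rwa [hcomap] at h1
  · intro h
    rw [← hcomap] at h
    exact h

/-- The reduction at the middle branch `V₂` (canonical frame). -/
noncomputable def nsf86_red2 {π : R} (hπ : Irreducible π) (hqπ : Associated ((q : ℕ) : R) π)
    (x : ↥(modularFunctionFieldFullC K (M' * q * q))) : LaurentSeries (IsLocalRing.ResidueField R) :=
  nsm86_red2 (M' * q) q hπ (v2g64_V2 (algebraMap K Kbar) M' q hq hM' hπ hqπ) (v2g64_s K M' q) x

/-- `r₂ x = r_∞'(b)` whenever `x ≡ α₂ b` modulo `s V₂`, `b ∈ V_∞'`. -/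
theorem nsf86_red2_eq {π : R} (hπ : Irreducible π) (hqπ : Associated ((q : ℕ) : R) π)
    (x : ↥(modularFunctionFieldFullC K (M' * q * q))) (b : ↥(modularFunctionFieldFullC K (M' * q))) (hb : b ∈ cm85_Vinf (K := K) (M' * q) hπ) (hxb : (v2g64_s K M' q)⁻¹ * (x - al97L_alpha K (M' * q) q b) ∈ v2g64_V2 (algebraMap K Kbar) M' q hq hM' hπ hqπ) :
    nsf86_red2 M' q hq hM' hπ hqπ x = ntf35_red R (M' * q) b :=
  nsm86_red2_eq (M' * q) q hπ (v2g64_V2 (algebraMap K Kbar) M' q hq hM' hπ hqπ) (v2g64_V2_alpha (algebraMap K Kbar) M' q hq hM' hπ hqπ)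
    (v2g64_V2_pi (algebraMap K Kbar) M' q hq hM' hπ hqπ) (v2g64_s K M' q)
    (v2g64_V2_val (algebraMap K Kbar) M' q hq hM' hπ hqπ) x b hb hxb

/-- (I2) `r₂ (α₂ h) = r_∞' h` for `h ∈ V_∞'`. -/
theorem nsf86_red2_alpha {π : R} (hπ : Irreducible π) (hqπ : Associated ((q : ℕ) : R) π)
    (h : ↥(modularFunctionFieldFullC K (M' * q))) (hh : h ∈ cm85_Vinf (K := K) (M' * q) hπ) :
    nsf86_red2 M' q hq hM' hπ hqπ (al97L_alpha K (M' * q) q h) = ntf35_red R (M' * q) h :=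
  nsf86_red2_eq M' q hq hM' hπ hqπ _ h hh (by rw [sub_self, mul_zero]; exact zero_mem _)

/-- (I2) `r₂ (β₂ h) = r_0' h` for `h ∈ V_0'`. -/
theorem nsf86_red2_beta {π : R} (hπ : Irreducible π) (hqπ : Associated ((q : ℕ) : R) π)
    (h : ↥(modularFunctionFieldFullC K (M' * q))) (hh : al97L_w (algebraMap K Kbar) M' q hq hM' h ∈ cm85_Vinf (K := K) (M' * q) hπ) :
    nsf86_red2 M' q hq hM' hπ hqπ (al97L_beta K (M' * q) q h) = ntf35_red0 R M' q hq hM' h := by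
  have h1 := v2m64_mid M' q hq hM' hπ hqπ (al97L_w (algebraMap K Kbar) M' q hq hM' h) hh
  rw [al97L_w_w] at h1
  exact nsf86_red2_eq M' q hq hM' hπ hqπ _ (al97L_w (algebraMap K Kbar) M' q hq hM' h) hh
    (nsf86_s_inv_mul_mem M' q hq hM' hπ hqπ _ h1)

/-- **`r₂ ∘ w₂ = r₂`** on `V₂`. -/
theorem nsf86_red2_w2 {π : R} (hπ : Irreducible π) (hqπ : Associated ((q : ℕ) : R) π)
    (x : ↥(modularFunctionFieldFullC K (M' * q * q))) (hx : x ∈ v2g64_V2 (algebraMap K Kbar) M' q hq hM' hπ hqπ) :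
    nsf86_red2 M' q hq hM' hπ hqπ (als86_w2 (algebraMap K Kbar) M' q hq hM' (nsb86_hL K (M' * q * q)) x) = nsf86_red2 M' q hq hM' hπ hqπ x := by
  obtain ⟨b, hb, hxb⟩ := (ob72_ram (K := K) (M' * q) q hq (dvd_mul_left q M') hπ
      (v2g64_V2 (algebraMap K Kbar) M' q hq hM' hπ hqπ)
      (v2g64_V2_alpha (algebraMap K Kbar) M' q hq hM' hπ hqπ)
      (v2g64_V2_pi (algebraMap K Kbar) M' q hq hM' hπ hqπ)
      (v2g64_V2_ne (algebraMap K Kbar) M' q hq hM' hπ hqπ) (v2g64_s K M' q)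
      (v2g64_V2_val (algebraMap K Kbar) M' q hq hM' hπ hqπ)).2.2.2.2 x hx
  rw [nsf86_red2_eq M' q hq hM' hπ hqπ x b hb hxb]
  refine nsf86_red2_eq M' q hq hM' hπ hqπ _ b hb ?_
  have hmid := nsf86_s_inv_mul_mem M' q hq hM' hπ hqπ _ (v2m64_mid M' q hq hM' hπ hqπ b hb)
  have ht := (nsf86_w2_mem_V2 M' q hq hM' hπ hqπ _).mpr hxb
  rw [map_mul, map_inv₀, nsf86_w2_s, map_sub, als86_w2_alpha] at ht
  have hS0 : v2g64_s K M' q ≠ 0 := v2m64_s_ne_zero (K := K) M' q hq.two_le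
  have key : (v2g64_s K M' q)⁻¹ * (als86_w2 (algebraMap K Kbar) M' q hq hM' (nsb86_hL K (M' * q * q)) x - al97L_alpha K (M' * q) q b) =
      -((-v2g64_s K M' q)⁻¹ * (als86_w2 (algebraMap K Kbar) M' q hq hM' (nsb86_hL K (M' * q * q)) x - al97L_beta K (M' * q) q (al97L_w (algebraMap K Kbar) M' q hq hM' b))) + (v2g64_s K M' q)⁻¹ * (al97L_beta K (M' * q) q (al97L_w (algebraMap K Kbar) M' q hq hM' b) - al97L_alpha K (M' * q) q b) := by
    field_simp
    ring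
  rw [key]
  exact add_mem (neg_mem ht) hmid

/-- `r₂` is multiplicative on `V₂`. -/
theorem nsf86_red2_mul {π : R} (hπ : Irreducible π) (hqπ : Associated ((q : ℕ) : R) π)
    (x y : ↥(modularFunctionFieldFullC K (M' * q * q))) (hx : x ∈ v2g64_V2 (algebraMap K Kbar) M' q hq hM' hπ hqπ) (hy : y ∈ v2g64_V2 (algebraMap K Kbar) M' q hq hM' hπ hqπ) :
    nsf86_red2 M' q hq hM' hπ hqπ (x * y) =
      nsf86_red2 M' q hq hM' hπ hqπ x * nsf86_red2 M' q hq hM' hπ hqπ y := by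
  obtain ⟨b, hb, hxb⟩ := (ob72_ram (K := K) (M' * q) q hq (dvd_mul_left q M') hπ
      (v2g64_V2 (algebraMap K Kbar) M' q hq hM' hπ hqπ)
      (v2g64_V2_alpha (algebraMap K Kbar) M' q hq hM' hπ hqπ)
      (v2g64_V2_pi (algebraMap K Kbar) M' q hq hM' hπ hqπ)
      (v2g64_V2_ne (algebraMap K Kbar) M' q hq hM' hπ hqπ) (v2g64_s K M' q)
      (v2g64_V2_val (algebraMap K Kbar) M' q hq hM' hπ hqπ)).2.2.2.2 x hx
  obtain ⟨c, hc, hyc⟩ := (ob72_ram (K := K) (M' * q) q hq (dvd_mul_left q M') hπ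
      (v2g64_V2 (algebraMap K Kbar) M' q hq hM' hπ hqπ)
      (v2g64_V2_alpha (algebraMap K Kbar) M' q hq hM' hπ hqπ)
      (v2g64_V2_pi (algebraMap K Kbar) M' q hq hM' hπ hqπ)
      (v2g64_V2_ne (algebraMap K Kbar) M' q hq hM' hπ hqπ) (v2g64_s K M' q)
      (v2g64_V2_val (algebraMap K Kbar) M' q hq hM' hπ hqπ)).2.2.2.2 y hy
  rw [nsf86_red2_eq M' q hq hM' hπ hqπ x b hb hxb, nsf86_red2_eq M' q hq hM' hπ hqπ y c hc hyc,
    ← ntf35_red_mul (M' * q) hπ b c hb hc]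
  refine nsf86_red2_eq M' q hq hM' hπ hqπ _ (b * c) (mul_mem hb hc) ?_
  have key : (v2g64_s K M' q)⁻¹ * (x * y - al97L_alpha K (M' * q) q (b * c)) =
      (v2g64_s K M' q)⁻¹ * (x - al97L_alpha K (M' * q) q b) * y + al97L_alpha K (M' * q) q b * ((v2g64_s K M' q)⁻¹ * (y - al97L_alpha K (M' * q) q c)) := by
    rw [map_mul]
    ring
  rw [key]
  exact add_mem (mul_mem hxb hy)
    (mul_mem (v2g64_V2_alpha (algebraMap K Kbar) M' q hq hM' hπ hqπ b hb) hyc)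

/-- `r₂ 1 = 1`. -/
theorem nsf86_red2_one {π : R} (hπ : Irreducible π) (hqπ : Associated ((q : ℕ) : R) π) :
    nsf86_red2 M' q hq hM' hπ hqπ (1 : ↥(modularFunctionFieldFullC K (M' * q * q))) = 1 := by
  have h := nsf86_red2_alpha M' q hq hM' hπ hqπ (1 : ↥(modularFunctionFieldFullC K (M' * q))) (one_mem _)
  rw [map_one] at h
  rw [h]
  exact ntf35_red_one (M' * q)

/-- **Unit criterion for `r₂`**: `r₂ x = 0 ↔ x ∈ 𝔪(V₂)` for `x ∈ V₂`. -/
theorem nsf86_red2_eq_zero_iff {π : R} (hπ : Irreducible π) (hqπ : Associated ((q : ℕ) : R) π)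
    (x : ↥(modularFunctionFieldFullC K (M' * q * q))) (hx : x ∈ v2g64_V2 (algebraMap K Kbar) M' q hq hM' hπ hqπ) :
    nsf86_red2 M' q hq hM' hπ hqπ x = 0 ↔ x ∈ (v2g64_V2 (algebraMap K Kbar) M' q hq hM' hπ hqπ).nonunits := by
  obtain ⟨b, hb, hxb⟩ := (ob72_ram (K := K) (M' * q) q hq (dvd_mul_left q M') hπ
      (v2g64_V2 (algebraMap K Kbar) M' q hq hM' hπ hqπ)
      (v2g64_V2_alpha (algebraMap K Kbar) M' q hq hM' hπ hqπ)
      (v2g64_V2_pi (algebraMap K Kbar) M' q hq hM' hπ hqπ)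
      (v2g64_V2_ne (algebraMap K Kbar) M' q hq hM' hπ hqπ) (v2g64_s K M' q)
      (v2g64_V2_val (algebraMap K Kbar) M' q hq hM' hπ hqπ)).2.2.2.2 x hx
  have hsn : (v2g64_s K M' q)⁻¹ ∉ v2g64_V2 (algebraMap K Kbar) M' q hq hM' hπ hqπ :=
    nsf86_s_inv_not_mem M' q hq hM' hπ hqπ
  rw [nsf86_red2_eq M' q hq hM' hπ hqπ x b hb hxb]
  constructor
  · intro h0
    have h1 := (ntf35_red_eq_zero_iff (M' * q) hπ b hb).mp h0
    have h2 := v2g64_V2_alpha (algebraMap K Kbar) M' q hq hM' hπ hqπ _ h1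
    rw [map_mul, map_inv₀, AlgHom.commutes] at h2
    have hπ2 := v2g64_V2_pi (algebraMap K Kbar) M' q hq hM' hπ hqπ
    have hπv : (v2g64_V2 (algebraMap K Kbar) M' q hq hM' hπ hqπ).valuation (algebraMap K ↥(modularFunctionFieldFullC K (M' * q * q)) (algebraMap R K π)) < 1 :=
      (ValuationSubring.mem_nonunits_iff _).mp
        ((ValuationSubring.mem_nonunits_iff_or _).mpr (Or.inr hπ2))
    have hSv : (v2g64_V2 (algebraMap K Kbar) M' q hq hM' hπ hqπ).valuation (v2g64_s K M' q) < 1 :=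
      (ValuationSubring.mem_nonunits_iff _).mp
        ((ValuationSubring.mem_nonunits_iff_or _).mpr (Or.inr hsn))
    have hS0 : v2g64_s K M' q ≠ 0 := v2m64_s_ne_zero (K := K) M' q hq.two_le
    have hπ0 : algebraMap K ↥(modularFunctionFieldFullC K (M' * q * q)) (algebraMap R K π) ≠ 0 := by
      intro h
      apply hπ2
      rw [h, inv_zero]
      exact zero_mem _
    have e1 : x - al97L_alpha K (M' * q) q b = v2g64_s K M' q * ((v2g64_s K M' q)⁻¹ * (x - al97L_alpha K (M' * q) q b)) :=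
      (mul_inv_cancel_left₀ hS0 _).symm
    have e2 : al97L_alpha K (M' * q) q b = algebraMap K ↥(modularFunctionFieldFullC K (M' * q * q)) (algebraMap R K π) * ((algebraMap K ↥(modularFunctionFieldFullC K (M' * q * q)) (algebraMap R K π))⁻¹ * al97L_alpha K (M' * q) q b) :=
      (mul_inv_cancel_left₀ hπ0 _).symm
    have hv1 : (v2g64_V2 (algebraMap K Kbar) M' q hq hM' hπ hqπ).valuation (x - al97L_alpha K (M' * q) q b) < 1 := by
      rw [e1, map_mul]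
      exact mul_lt_one_of_lt_of_le hSv ((ValuationSubring.valuation_le_one_iff _ _).mpr hxb)
    have hv2 : (v2g64_V2 (algebraMap K Kbar) M' q hq hM' hπ hqπ).valuation (al97L_alpha K (M' * q) q b) < 1 := by
      rw [e2, map_mul]
      exact mul_lt_one_of_lt_of_le hπv ((ValuationSubring.valuation_le_one_iff _ _).mpr h2)
    rw [ValuationSubring.mem_nonunits_iff]
    have e3 : x = (x - al97L_alpha K (M' * q) q b) + al97L_alpha K (M' * q) q b := by ring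
    rw [e3]
    exact Valuation.map_add_lt _ hv1 hv2
  · intro hxn
    by_contra hne
    have hbi : b⁻¹ ∈ cm85_Vinf (K := K) (M' * q) hπ := ntf35_inv_mem (M' * q) hπ b hb hne
    have h1 := nsf86_s_inv_mul_mem M' q hq hM' hπ hqπ x hxn
    have h2 : (v2g64_s K M' q)⁻¹ * al97L_alpha K (M' * q) q b ∈ v2g64_V2 (algebraMap K Kbar) M' q hq hM' hπ hqπ := by
      have h3 : (v2g64_s K M' q)⁻¹ * al97L_alpha K (M' * q) q b = (v2g64_s K M' q)⁻¹ * x - (v2g64_s K M' q)⁻¹ * (x - al97L_alpha K (M' * q) q b) := by ring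
      rw [h3]
      exact sub_mem h1 hxb
    have h4 := mul_mem h2 (v2g64_V2_alpha (algebraMap K Kbar) M' q hq hM' hπ hqπ _ hbi)
    have hb0 : b ≠ 0 := fun h => hne (by rw [h]; exact ntf35_red_zero (M' * q))
    rw [map_inv₀, mul_inv_cancel_right₀ ((map_ne_zero _).mpr hb0)] at h4
    exact hsn h4

/-- **(N1)** on the canonical frame: `Nm_{α₂} y ∈ V_∞'` and
`r_∞' (Nm_{α₂} y) = r₁ y * r₂ y ^ (q - 1)` for `y ∈ V₁ ⊓ V₂`. -/
theorem nsf86_N1 {π : R} (hπ : Irreducible π) (hqπ : Associated ((q : ℕ) : R) π)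
    (y : ↥(modularFunctionFieldFullC K (M' * q * q))) (hy1 : y ∈ cm85_Vinf (K := K) (M' * q * q) hπ) (hy2 : y ∈ v2g64_V2 (algebraMap K Kbar) M' q hq hM' hπ hqπ) :
    letI := algebraAlong (al97L_alpha K (M' * q) q)
    Algebra.norm ↥(modularFunctionFieldFullC K (M' * q)) y ∈ cm85_Vinf (K := K) (M' * q) hπ ∧
    ntf35_red R (M' * q) (Algebra.norm ↥(modularFunctionFieldFullC K (M' * q)) y) =
      ntf35_red R (M' * q * q) y * nsf86_red2 M' q hq hM' hπ hqπ y ^ (q - 1) :=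
  nsm86_N1 (M' * q) q hq (dvd_mul_left q M') hπ (v2g64_V2 (algebraMap K Kbar) M' q hq hM' hπ hqπ)
    (v2g64_V2_alpha (algebraMap K Kbar) M' q hq hM' hπ hqπ)
    (v2g64_V2_pi (algebraMap K Kbar) M' q hq hM' hπ hqπ)
    (v2g64_V2_ne (algebraMap K Kbar) M' q hq hM' hπ hqπ) (v2g64_s K M' q)
    (v2g64_V2_val (algebraMap K Kbar) M' q hq hM' hπ hqπ) y hy1 hy2

/-- **(N4)** on the canonical frame: `w (Nm_{β₂} y) ∈ V_∞'` and
`r_0' (Nm_{β₂} y) = r₃ y * r₂ y ^ (q - 1)` for `y ∈ V₃ ⊓ V₂`. -/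
theorem nsf86_N4 {π : R} (hπ : Irreducible π) (hqπ : Associated ((q : ℕ) : R) π)
    (y : ↥(modularFunctionFieldFullC K (M' * q * q))) (hy3 : y ∈ nsb86_V3 M' q hq hM' hπ) (hy2 : y ∈ v2g64_V2 (algebraMap K Kbar) M' q hq hM' hπ hqπ) :
    letI := algebraAlong (al97L_beta K (M' * q) q)
    al97L_w (algebraMap K Kbar) M' q hq hM' (Algebra.norm ↥(modularFunctionFieldFullC K (M' * q)) y) ∈ cm85_Vinf (K := K) (M' * q) hπ ∧
    ntf35_red0 R M' q hq hM' (Algebra.norm ↥(modularFunctionFieldFullC K (M' * q)) y) =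
      nsr86_red3 R M' q hq hM' y * nsf86_red2 M' q hq hM' hπ hqπ y ^ (q - 1) := by
  have h1 := als86_norm_alpha (algebraMap K Kbar) M' q hq hM' (nsb86_hL K (M' * q * q))
    (als86_w2 (algebraMap K Kbar) M' q hq hM' (nsb86_hL K (M' * q * q)) y)
  rw [als86_w2_w2] at h1
  have h2 := nsf86_N1 M' q hq hM' hπ hqπ (als86_w2 (algebraMap K Kbar) M' q hq hM' (nsb86_hL K (M' * q * q)) y) hy3
    ((nsf86_w2_mem_V2 M' q hq hM' hπ hqπ y).mpr hy2)
  rw [h1, nsf86_red2_w2 M' q hq hM' hπ hqπ y hy2] at h2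
  exact h2

end nsf86

end Fermat.Agent.S36
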