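import Mathlib

/-!
# S36 lab (helper52): the norm-swap lemma (Mathlib only)

`ns52_norm_sub` : for a finite extension `E/F` of fields, `x : E`, `t : F`:
`N_{E/F}(t - x) = (minpoly F x)(t) ^ [E : F(x)]`.

`ns52_linearDisjoint` : `A B : IntermediateField F E`, characteristic `0`, `[E : A] = [B : F]`
and `N_{E/A}(x) = N_{B/F}(x)` for every `x ∈ B`.  Then `A ⊔ B = ⊤` and `A`, `B` are linearly
disjoint over `F`.

`ns52_norm_swap` : consequently `N_{E/B}(y) = N_{A/F}(y)` for every `y ∈ A`.
-/

set_option autoImplicit false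

open Polynomial IntermediateField

namespace Fermat.Agent.S36

/-- `N_{E/F}(t - x) = (minpoly F x)(t) ^ [E : F(x)]`. -/
theorem ns52_norm_sub {F E : Type*} [Field F] [Field E] [Algebra F E] [FiniteDimensional F E]
    (x : E) (t : F) :
    Algebra.norm F (algebraMap F E t - x) =
      ((minpoly F x).eval t) ^ Module.finrank F⟮x⟯ E := by
  have hx : IsIntegral F x := Algebra.IsIntegral.isIntegral x
  set pb := IntermediateField.adjoin.powerBasis hx with hpb
  have hgen : pb.gen = AdjoinSimple.gen F x := IntermediateField.adjoin.powerBasis_gen hx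
  have h1 : algebraMap F E t - x =
      algebraMap F⟮x⟯ E (algebraMap F F⟮x⟯ t - AdjoinSimple.gen F x) := by
    rw [map_sub, AdjoinSimple.algebraMap_gen, ← IsScalarTower.algebraMap_apply]
  have h2 : Algebra.norm F (algebraMap F F⟮x⟯ t - AdjoinSimple.gen F x) =
      (minpoly F x).eval t := by
    rw [Algebra.norm_eq_matrix_det pb.basis, map_sub, AlgHom.commutes, ← hgen,
      ← IntermediateField.minpoly_gen (F := F) x, ← hgen, ← charpoly_leftMulMatrix pb,
      Matrix.eval_charpoly]
    rfl
  rw [h1, ← Algebra.norm_norm (S := F⟮x⟯), Algebra.norm_algebraMap, map_pow, h2]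

/-- **Linear disjointness from norm compatibility** (characteristic `0`). -/
theorem ns52_linearDisjoint {F E : Type*} [Field F] [Field E] [Algebra F E]
    [FiniteDimensional F E] [CharZero F] (A B : IntermediateField F E)
    (hdeg : Module.finrank ↥A E = Module.finrank F ↥B)
    (hnorm : ∀ x : ↥B, Algebra.norm ↥A (algebraMap ↥B E x) =
      algebraMap F ↥A (Algebra.norm F x)) :
    A ⊔ B = ⊤ ∧ A.LinearDisjoint B := by
  obtain ⟨θ, hθ⟩ := Field.exists_primitive_element F ↥B
  have hθint : IsIntegral F θ := Algebra.IsIntegral.isIntegral θ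
  set θE : E := algebraMap ↥B E θ with hθE
  have hPdeg : (minpoly F θ).natDegree = Module.finrank F ↥B :=
    (Field.primitive_element_iff_minpoly_natDegree_eq F θ).mp hθ
  have hfr1 : Module.finrank F⟮θ⟯ ↥B = 1 := by
    rw [hθ]
    exact IntermediateField.finrank_top
  have key : ∀ k : F, ((minpoly ↥A θE).eval (algebraMap F ↥A k)) ^ Module.finrank A⟮θE⟯ E =
      algebraMap F ↥A ((minpoly F θ).eval k) := by
    intro k
    have h1 := ns52_norm_sub (F := ↥A) (E := E) θE (algebraMap F ↥A k)
    have h2 := ns52_norm_sub (F := F) (E := ↥B) θ k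
    rw [hfr1, pow_one] at h2
    have h3 := hnorm (algebraMap F ↥B k - θ)
    rw [h2] at h3
    rw [← h1, ← h3]
    congr 1
  set e := Module.finrank A⟮θE⟯ E with he
  have hpoly : (minpoly ↥A θE) ^ e = (minpoly F θ).map (algebraMap F ↥A) := by
    apply Polynomial.eq_of_infinite_eval_eq
    apply Set.Infinite.mono (s := Set.range (algebraMap F ↥A))
    · rintro _ ⟨k, rfl⟩
      simp only [Set.mem_ofPred_eq, eval_pow, eval_map_algebraMap]
      rw [key k]
      simp [aeval_algebraMap_apply]
    · exact Set.infinite_range_of_injective (algebraMap F ↥A).injective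
  have hsep : ((minpoly F θ).map (algebraMap F ↥A)).Separable :=
    (minpoly.irreducible hθint).separable.map
  have he1 : e = 1 := by
    by_contra hne
    have he0 : 0 < e := Module.finrank_pos
    have h2 : 2 ≤ e := by omega
    have hdvd : minpoly ↥A θE * minpoly ↥A θE ∣ (minpoly F θ).map (algebraMap F ↥A) := by
      rw [← hpoly]
      refine ⟨minpoly ↥A θE ^ (e - 2), ?_⟩
      rw [← pow_two, ← pow_add]
      congr 1
      omega
    exact minpoly.not_isUnit ↥A θE (hsep.squarefree _ hdvd)
  have hμdeg : (minpoly ↥A θE).natDegree = Module.finrank ↥A E := by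
    have := congrArg natDegree hpoly
    rw [he1, pow_one, natDegree_map] at this
    rw [this, hPdeg, hdeg]
  have htop : A⟮θE⟯ = ⊤ := (Field.primitive_element_iff_minpoly_natDegree_eq ↥A θE).mpr hμdeg
  have hsup : A ⊔ B = ⊤ := by
    rw [eq_top_iff]
    intro z _
    have hle : A ≤ A ⊔ B := le_sup_left
    have hz : z ∈ (⊤ : IntermediateField ↥A E) := IntermediateField.mem_top
    rw [← htop] at hz
    have hsub : A⟮θE⟯ ≤ IntermediateField.extendScalars hle := by
      rw [IntermediateField.adjoin_simple_le_iff, IntermediateField.mem_extendScalars]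
      exact (le_sup_right : B ≤ A ⊔ B) θ.2
    exact (IntermediateField.mem_extendScalars hle).mp (hsub hz)
  refine ⟨hsup, IntermediateField.LinearDisjoint.of_finrank_sup ?_⟩
  rw [hsup, IntermediateField.finrank_top', ← hdeg, Module.finrank_mul_finrank]

/-- **The norm swap**: under the hypotheses of `ns52_linearDisjoint`, the norm from `E` to `B`
of an element of `A` is its norm from `A` to `F`. -/
theorem ns52_norm_swap {F E : Type*} [Field F] [Field E] [Algebra F E]
    [FiniteDimensional F E] [CharZero F] (A B : IntermediateField F E)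
    (hdeg : Module.finrank ↥A E = Module.finrank F ↥B)
    (hnorm : ∀ x : ↥B, Algebra.norm ↥A (algebraMap ↥B E x) =
      algebraMap F ↥A (Algebra.norm F x))
    (y : ↥A) :
    Algebra.norm ↥B (algebraMap ↥A E y) = algebraMap F ↥B (Algebra.norm F y) := by
  obtain ⟨hsup, hld⟩ := ns52_linearDisjoint A B hdeg hnorm
  exact IntermediateField.LinearDisjoint.norm_algebraMap hld.symm (by rw [sup_comm]; exact hsup) y

/-- **The norm swap for a commutative square of field extensions** `K ⊆ L ⊆ E`, `K ⊆ K' ⊆ E`
(characteristic `0`, `[E : K'] = [L : K]`): if `N_{E/K'}(x) = N_{L/K}(x)` for all `x ∈ L`, then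
`N_{E/L}(y) = N_{K'/K}(y)` for all `y ∈ K'`. -/
theorem ns52_norm_swap_tower {K L K' E : Type*} [Field K] [Field L] [Field K'] [Field E]
    [CharZero K] [Algebra K L] [Algebra K K'] [Algebra K E] [Algebra L E] [Algebra K' E]
    [IsScalarTower K L E] [IsScalarTower K K' E] [FiniteDimensional K E]
    (hdeg : Module.finrank K' E = Module.finrank K L)
    (hnorm : ∀ x : L, Algebra.norm K' (algebraMap L E x) = algebraMap K K' (Algebra.norm K x))
    (y : K') :
    Algebra.norm L (algebraMap K' E y) = algebraMap K L (Algebra.norm K y) := by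
  let fL : L →ₐ[K] E := IsScalarTower.toAlgHom K L E
  let fK' : K' →ₐ[K] E := IsScalarTower.toAlgHom K K' E
  let B : IntermediateField K E := fL.fieldRange
  let A : IntermediateField K E := fK'.fieldRange
  let eL : L ≃ₐ[K] ↥B := fL.equivFieldRange
  let eK' : K' ≃ₐ[K] ↥A := fK'.equivFieldRange
  have hA : (algebraMap ↥A E).comp (eK' : K' ≃+* ↥A) = algebraMap K' E := by
    ext v
    rfl
  have hB : (algebraMap ↥B E).comp (eL : L ≃+* ↥B) = algebraMap L E := by
    ext v
    rfl
  have hdegA : Module.finrank ↥A E = Module.finrank K' E :=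
    (Algebra.finrank_eq_of_equiv_equiv (eK' : K' ≃+* ↥A) (RingEquiv.refl E) (by
      ext v
      rfl)).symm
  have hdegB : Module.finrank K ↥B = Module.finrank K L :=
    (LinearEquiv.finrank_eq eL.toLinearEquiv).symm
  have hnorm' : ∀ x : ↥B, Algebra.norm ↥A (algebraMap ↥B E x) =
      algebraMap K ↥A (Algebra.norm K x) := by
    intro x
    obtain ⟨x₀, rfl⟩ := eL.surjective x
    have h1 := Algebra.norm_eq_of_ringEquiv (eK' : K' ≃+* ↥A) hA (algebraMap L E x₀)
    have h2 : algebraMap ↥B E (eL x₀) = algebraMap L E x₀ := rfl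
    rw [h2, ← h1, hnorm x₀, Algebra.norm_eq_of_algEquiv]
    exact eK'.commutes _
  have hsw := ns52_norm_swap A B (hdegA.trans (hdeg.trans hdegB.symm)) hnorm' (eK' y)
  have h3 := Algebra.norm_eq_of_ringEquiv (eL : L ≃+* ↥B) hB (algebraMap K' E y)
  have h4 : algebraMap ↥A E (eK' y) = algebraMap K' E y := rfl
  rw [h4, ← h3, Algebra.norm_eq_of_algEquiv] at hsw
  apply eL.injective
  rw [show eL (Algebra.norm L (algebraMap K' E y)) =
    (eL : L ≃+* ↥B) (Algebra.norm L (algebraMap K' E y)) from rfl, hsw]
  exact (eL.commutes _).symm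

end Fermat.Agent.S36
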