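import Fermat.Agent.S36.NormFovB78

/-!
# S36 lab (helper78): the norm hypothesis `hN` of the twist lemma `tw41_HPT` / `hNU` of the
(HP-T) instance, on the canonical level-`q²` frame

For `u ≡ 1` modulo the maximal ideals of `V₁ = cm85_Vinf (M' * q * q) hπ`, `V₂`,
`V₃ = nsb86_V3 M' q hq hM' hπ`, the two norms `s35i62_normA K (M' * q) q u`,
`s35i62_normB K (M' * q) q u` are `≡ 1` modulo the maximal ideals of
`Vinf = cm85_Vinf (M' * q) hπ` and `V0 = s34i47c_V0 M' q hq hM' hπ`.

* `nuo78_hN` : literally the hypothesis `hN` of `tw41_HPT` (Twist41) for the canonical five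
  rings and `Nal = s35i62_normA K (M' * q) q`, `Nbe = s35i62_normB K (M' * q) q`;
  `V₂` is a parameter with the facts of `ob72_ram` (`hV₂ hπ₂ hne s hs`).

From the four norm congruences `nfv78_ram_alpha`, `nfv78_in_alpha`, `nfb78_ram_beta`,
`nfv78_in_beta` with `v = 1`.  All names are prefixed `nuo78_`.
-/

set_option autoImplicit false
set_option linter.style.haveILetI false
set_option linter.unusedSectionVars false

open ModularCurve AlgebraicCurve IntermediateField
open Fermat.Agent.S24 Fermat.Agent.S28 Fermat.Agent.S18 Fermat.Agent.S37 Fermat.Agent.S34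
open Fermat.Agent.S42 Fermat.Agent.S35

namespace Fermat.Agent.S36

/-- `u ≡ 1` modulo the maximal ideal gives `u ∈ V`. -/
theorem nuo78_mem {F : Type*} [Field F] (V : ValuationSubring F) (u : F)
    (h : V.valuation (u - 1) < 1) : u ∈ V := by
  have h1 : u - 1 ∈ V := (V.valuation_le_one_iff _).mp h.le
  have h2 : u = (u - 1) + 1 := by ring
  rw [h2]
  exact V.add_mem _ _ h1 V.one_mem

/-- `u ≡ 1` modulo the maximal ideal gives `u ^ k ≡ 1`. -/
theorem nuo78_pow {F : Type*} [Field F] (V : ValuationSubring F) (u : F)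
    (h : V.valuation (u - 1) < 1) (k : ℕ) : V.valuation (u ^ k - 1) < 1 := by
  have hu : u ∈ V := nuo78_mem V u h
  have h1 : u ^ k - 1 = (u - 1) * ∑ i ∈ Finset.range k, u ^ i := (mul_geom_sum u k).symm
  have h2 : ∑ i ∈ Finset.range k, u ^ i ∈ V :=
    Subring.sum_mem V.toSubring (fun i _ => pow_mem hu i)
  rw [h1, map_mul]
  exact mul_lt_one_of_lt_of_le h ((V.valuation_le_one_iff _).mpr h2)

section nuo78

variable {R K : Type} [CommRing R] [IsDomain R] [IsDiscreteValuationRing R] [Field K]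
  [Algebra R K] [IsFractionRing R K] [Algebra K Kbar]
  (M' q : ℕ) [NeZero M'] [NeZero q] (hq : q.Prime) (hM' : ¬ q ∣ M')

/-- **`hN` of `tw41_HPT` on the canonical frame**: the norms of a `1`-unit are `1`-units. -/
theorem nuo78_hN {π : R} (hπ : Irreducible π) (hqR : ¬ IsUnit (q : R))
    (V₂ : ValuationSubring ↥(modularFunctionFieldFullC K (M' * q * q)))
    (hV₂ : ∀ c ∈ cm85_Vinf (K := K) (M' * q) hπ, al97L_alpha K (M' * q) q c ∈ V₂)
    (hπ₂ : (algebraMap K ↥(modularFunctionFieldFullC K (M' * q * q)) (algebraMap R K π))⁻¹ ∉ V₂)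
    (hne : cm85_Vinf (K := K) (M' * q * q) hπ ≠ V₂)
    (s : ↥(modularFunctionFieldFullC K (M' * q * q)))
    (hs : V₂.valuation s ^ (q - 1) =
      V₂.valuation (algebraMap K ↥(modularFunctionFieldFullC K (M' * q * q)) (algebraMap R K π))) :
    ∀ u : ↥(modularFunctionFieldFullC K (M' * q * q)),
      (cm85_Vinf (K := K) (M' * q * q) hπ).valuation (u - 1) < 1 →
      V₂.valuation (u - 1) < 1 →
      (nsb86_V3 M' q hq hM' hπ).valuation (u - 1) < 1 →
      (cm85_Vinf (K := K) (M' * q) hπ).valuation (s35i62_normA K (M' * q) q u - 1) < 1 ∧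
      (s34i47c_V0 (K := K) M' q hq hM' hπ).valuation (s35i62_normA K (M' * q) q u - 1) < 1 ∧
      (cm85_Vinf (K := K) (M' * q) hπ).valuation (s35i62_normB K (M' * q) q u - 1) < 1 ∧
      (s34i47c_V0 (K := K) M' q hq hM' hπ).valuation (s35i62_normB K (M' * q) q u - 1) < 1 := by
  intro u h1 h2 h3
  have hu1 := nuo78_mem _ u h1
  have hu2 := nuo78_mem _ u h2
  have hu3 := nuo78_mem _ u h3
  have e1 : ∀ x : ↥(modularFunctionFieldFullC K (M' * q * q)),
      x - al97L_alpha K (M' * q) q 1 = x - 1 := fun x => by rw [map_one]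
  have e2 : ∀ x : ↥(modularFunctionFieldFullC K (M' * q * q)),
      x - al97L_beta K (M' * q) q 1 = x - 1 := fun x => by rw [map_one]
  have e3 : ∀ x : ↥(modularFunctionFieldFullC K (M' * q)), x - 1 * 1 ^ (q - 1) = x - 1 :=
    fun x => by rw [one_pow, mul_one]
  have o1 : (1 : ↥(modularFunctionFieldFullC K (M' * q))) ∈ cm85_Vinf (K := K) (M' * q) hπ :=
    (cm85_Vinf (K := K) (M' * q) hπ).one_mem
  have o0 : (1 : ↥(modularFunctionFieldFullC K (M' * q))) ∈
      s34i47c_V0 (K := K) M' q hq hM' hπ := (s34i47c_V0 (K := K) M' q hq hM' hπ).one_mem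
  refine ⟨?_, ?_, ?_, ?_⟩
  · have h := nfv78_ram_alpha M' q hq hπ V₂ hV₂ hπ₂ hne s hs u hu1 hu2 1 o1 1 o1
      (by rw [e1]; exact (ValuationSubring.mem_nonunits_iff _).mpr h1)
      (by rw [e1]; exact (ValuationSubring.mem_nonunits_iff _).mpr h2)
    rw [e3] at h
    exact (ValuationSubring.mem_nonunits_iff _).mp h
  · have h := nfv78_in_alpha M' q hq hM' hπ hqR u hu3 1 o0
      (by rw [e1]; exact (ValuationSubring.mem_nonunits_iff _).mpr (nuo78_pow _ u h3 q))
    exact (ValuationSubring.mem_nonunits_iff _).mp h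
  · have h := nfv78_in_beta M' q hq hM' hπ hqR u hu1 1 o1
      (by rw [e2]; exact (ValuationSubring.mem_nonunits_iff _).mpr (nuo78_pow _ u h1 q))
    exact (ValuationSubring.mem_nonunits_iff _).mp h
  · have h := nfb78_ram_beta M' q hq hM' hπ hqR V₂ hV₂ hπ₂ hne s hs u hu3 hu2 1 o0 1 o0
      (by rw [e2]; exact (ValuationSubring.mem_nonunits_iff _).mpr h3)
      (by rw [e2]; exact (ValuationSubring.mem_nonunits_iff _).mpr h2)
    rw [e3] at h
    exact (ValuationSubring.mem_nonunits_iff _).mp h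

end nuo78

end Fermat.Agent.S36
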