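import Fermat.Agent.S36.ValVec3

/-!
# S36 lab, row B2-val (helper3): the valuation of a norm, from integral bases (Mathlib only)

`L / K` finite of degree `q`, `V'` a discrete valuation subring of `K` with uniformizer `p'`.

* `nv3_pair`: `V1`, `V2` valuation subrings of `L` over `V'` such that `V1 ⊓ V2` has a
  `V'`-basis (output of `oe72_pair_basis` / `ob72_ram_basis`), `p'` a uniformizer of `V1`, `s` a
  uniformizer of `V2` with `v₂(p') = v₂(s)^(q-1)` and `v₁(s) = 1`.  Then
  `v'(N y) = v'(p') ^ (e₁ + e₂)` whenever `v₁(y) = v₁(p')^e₁`, `v₂(y) = v₂(s)^e₂`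
  (no embedding, no explicit norm computation: only integrality and `N(p') = p'^q`).
* `nv3_single`: one valuation subring `V` of `L` over `V'` with a `V'`-basis
  (output of `oe72_single_basis`): `v'(N y) = v'(p') ^ (q e)` whenever `v(y) = v(p')^e`.

These are the four norm-valuation identities of B2-val (`hαi`, `hα0`, `hβi`, `hβ0` of
`vv3_main`; `(I1)` of `b2v1_main` / `vb11_field` through `vv3_ord`).
-/

set_option autoImplicit false

namespace Fermat.Agent.S36

section matrix

variable {K L : Type*} [Field K] [Field L] [Algebra K L]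

/-- A polynomial with coefficients in `V'` evaluated at an element of `V` lies in `V`. -/
theorem nv3_eval₂_mem (V' : ValuationSubring K) (V : ValuationSubring L)
    (hle : ∀ c ∈ V', algebraMap K L c ∈ V) {x : L} (hx : x ∈ V) (P : Polynomial ↥V') :
    Polynomial.eval₂ ((algebraMap K L).comp V'.subtype) x P ∈ V := by
  rw [Polynomial.eval₂_eq_sum_range]
  exact sum_mem (fun i _ => V.mul_mem _ _ (hle _ (P.coeff i).2) (pow_mem hx i))

variable {κ : Type*} [Fintype κ] [DecidableEq κ]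

/-- The norm of an element whose multiplication matrix has entries in `V'` lies in `V'`. -/
theorem nv3_norm_mem (b : Module.Basis κ K L) (V' : ValuationSubring K) (x : L)
    (hM : ∀ i j, Algebra.leftMulMatrix b x i j ∈ V') : Algebra.norm K x ∈ V' := by
  let N : Matrix κ κ ↥V' := fun i j => ⟨Algebra.leftMulMatrix b x i j, hM i j⟩
  have hN : N.map V'.subtype = Algebra.leftMulMatrix b x := by
    ext i j
    rfl
  have h : Algebra.norm K x = V'.subtype N.det := by
    rw [Algebra.norm_eq_matrix_det b x, ← hN, RingHom.map_det]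
    rfl
  rw [h]
  exact N.det.2

/-- If moreover the norm is a unit of `V'`, the inverse lies in every valuation subring over
`V'` containing the element. -/
theorem nv3_inv_mem (b : Module.Basis κ K L) (V' : ValuationSubring K) (V : ValuationSubring L)
    (hle : ∀ c ∈ V', algebraMap K L c ∈ V) (x : L) (hx : x ∈ V)
    (hM : ∀ i j, Algebra.leftMulMatrix b x i j ∈ V')
    (hN1 : V'.valuation (Algebra.norm K x) = 1) : x⁻¹ ∈ V := by
  let N : Matrix κ κ ↥V' := fun i j => ⟨Algebra.leftMulMatrix b x i j, hM i j⟩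
  have hN : N.map V'.subtype = Algebra.leftMulMatrix b x := by
    ext i j
    rfl
  have hdet : Algebra.norm K x = V'.subtype N.det := by
    rw [Algebra.norm_eq_matrix_det b x, ← hN, RingHom.map_det]
    rfl
  -- the characteristic polynomial over `V'`
  have hroot : Polynomial.eval₂ ((algebraMap K L).comp V'.subtype) x N.charpoly = 0 := by
    rw [← Polynomial.eval₂_map, ← Matrix.charpoly_map, hN]
    apply Algebra.leftMulMatrix_injective b
    rw [map_zero, ← Polynomial.aeval_def, ← Polynomial.aeval_algHom_apply]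
    exact Matrix.aeval_self_charpoly _
  have hc0 : V'.valuation ((N.charpoly.coeff 0 : ↥V') : K) = 1 := by
    have h1 : N.det = (-1) ^ Fintype.card κ * N.charpoly.coeff 0 :=
      Matrix.det_eq_sign_charpoly_coeff N
    have h2 : Algebra.norm K x = (-1) ^ Fintype.card κ * ((N.charpoly.coeff 0 : ↥V') : K) := by
      rw [hdet, h1]
      simp
    rw [h2, map_mul, map_pow, Valuation.map_neg, map_one, one_pow, one_mul] at hN1
    exact hN1
  have hc0inv : ((N.charpoly.coeff 0 : ↥V') : K)⁻¹ ∈ V' := by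
    rw [← V'.valuation_le_one_iff, map_inv₀, hc0, inv_one]
  have hc0ne : ((N.charpoly.coeff 0 : ↥V') : K) ≠ 0 := by
    intro h0
    rw [h0, map_zero] at hc0
    exact zero_ne_one hc0
  -- `x * w = - c₀`
  have hsplit : Polynomial.eval₂ ((algebraMap K L).comp V'.subtype) x N.charpoly
      = Polynomial.eval₂ ((algebraMap K L).comp V'.subtype) x N.charpoly.divX * x
        + algebraMap K L ((N.charpoly.coeff 0 : ↥V') : K) := by
    conv_lhs => rw [← Polynomial.divX_mul_X_add N.charpoly]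
    rw [Polynomial.eval₂_add, Polynomial.eval₂_mul, Polynomial.eval₂_X, Polynomial.eval₂_C]
    rfl
  rw [hroot] at hsplit
  have hw := nv3_eval₂_mem V' V hle hx N.charpoly.divX
  have hcL : algebraMap K L ((N.charpoly.coeff 0 : ↥V') : K) ≠ 0 :=
    (_root_.map_ne_zero _).2 hc0ne
  have hx0 : x ≠ 0 := by
    rintro rfl
    rw [mul_zero, zero_add] at hsplit
    exact hcL hsplit.symm
  have hinv : x⁻¹ = -(Polynomial.eval₂ ((algebraMap K L).comp V'.subtype) x N.charpoly.divX
      * algebraMap K L (((N.charpoly.coeff 0 : ↥V') : K)⁻¹)) := by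
    rw [map_inv₀]
    field_simp
    linear_combination (-1 : L) * hsplit
  rw [hinv]
  exact V.neg_mem _ (V.mul_mem _ _ hw (hle _ hc0inv))

end matrix


section formulas

variable {K L : Type*} [Field K] [Field L] [Algebra K L] [FiniteDimensional K L]

/-- The norm as a monoid-with-zero homomorphism. -/
noncomputable def nv3_normHom (K L : Type*) [Field K] [Field L] [Algebra K L]
    [FiniteDimensional K L] : L →*₀ K where
  toFun := Algebra.norm K
  map_zero' := Algebra.norm_zero
  map_one' := map_one _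
  map_mul' := map_mul _

theorem nv3_normHom_apply (x : L) : nv3_normHom K L x = Algebra.norm K x := rfl

theorem nv3_norm_inv (x : L) : Algebra.norm K x⁻¹ = (Algebra.norm K x)⁻¹ :=
  map_inv₀ (nv3_normHom K L) x

variable {κ : Type*} [Fintype κ] [DecidableEq κ]

omit [FiniteDimensional K L] in
/-- Entries of the multiplication matrix of an element of `V1 ⊓ V2` in an integral basis. -/
theorem nv3_entries (b : Module.Basis κ K L) (V' : ValuationSubring K)
    (V1 V2 : ValuationSubring L) (hb : ∀ i, b i ∈ V1 ∧ b i ∈ V2)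
    (hrepr : ∀ x : L, x ∈ V1 → x ∈ V2 → ∀ i, b.repr x i ∈ V') {x : L} (hx1 : x ∈ V1)
    (hx2 : x ∈ V2) : ∀ i j, Algebra.leftMulMatrix b x i j ∈ V' := by
  intro i j
  rw [Algebra.leftMulMatrix_eq_repr_mul]
  exact hrepr _ (V1.mul_mem _ _ hx1 (hb j).1) (V2.mul_mem _ _ hx2 (hb j).2) i

/-- Unit form: the norm of a unit of `V1 ⊓ V2` is a unit of `V'`. -/
theorem nv3_unit (b : Module.Basis κ K L) (V' : ValuationSubring K)
    (V1 V2 : ValuationSubring L) (hb : ∀ i, b i ∈ V1 ∧ b i ∈ V2)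
    (hrepr : ∀ x : L, x ∈ V1 → x ∈ V2 → ∀ i, b.repr x i ∈ V') (y : L)
    (h1 : V1.valuation y = 1) (h2 : V2.valuation y = 1) :
    V'.valuation (Algebra.norm K y) = 1 := by
  obtain ⟨a1, a2, a0⟩ := (vv3_val_eq_one_iff V1 y).1 h1
  obtain ⟨c1, c2, -⟩ := (vv3_val_eq_one_iff V2 y).1 h2
  have m1 := nv3_norm_mem b V' y (nv3_entries b V' V1 V2 hb hrepr a1 c1)
  have m2 := nv3_norm_mem b V' y⁻¹ (nv3_entries b V' V1 V2 hb hrepr a2 c2)
  rw [nv3_norm_inv] at m2
  rw [vv3_val_eq_one_iff]
  refine ⟨m1, m2, ?_⟩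
  rw [Algebra.norm_ne_zero_iff]
  exact a0

/-- Non-unit form: the norm of a non-unit of `V1 ⊓ V2` is a non-unit of `V'`. -/
theorem nv3_nonunit (b : Module.Basis κ K L) (V' : ValuationSubring K)
    (V1 V2 : ValuationSubring L) (hle1 : ∀ c ∈ V', algebraMap K L c ∈ V1)
    (hle2 : ∀ c ∈ V', algebraMap K L c ∈ V2) (hb : ∀ i, b i ∈ V1 ∧ b i ∈ V2)
    (hrepr : ∀ x : L, x ∈ V1 → x ∈ V2 → ∀ i, b.repr x i ∈ V') (y : L)
    (h1 : V1.valuation y ≤ 1) (h2 : V2.valuation y ≤ 1)
    (hlt : V1.valuation y < 1 ∨ V2.valuation y < 1) :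
    V'.valuation (Algebra.norm K y) < 1 := by
  have a1 := (V1.valuation_le_one_iff _).1 h1
  have c1 := (V2.valuation_le_one_iff _).1 h2
  have hM := nv3_entries b V' V1 V2 hb hrepr a1 c1
  have m1 := nv3_norm_mem b V' y hM
  refine lt_of_le_of_ne ((V'.valuation_le_one_iff _).2 m1) (fun hN1 => ?_)
  rcases hlt with h | h
  · have hinv := nv3_inv_mem b V' V1 hle1 y a1 hM hN1
    have h3 := (V1.valuation_le_one_iff _).2 hinv
    rw [map_inv₀] at h3
    by_cases hy0 : y = 0
    · rw [hy0, Algebra.norm_zero, map_zero] at hN1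
      exact zero_ne_one hN1
    have hpos : 0 < V1.valuation y := zero_lt_iff.2 ((Valuation.ne_zero_iff _).2 hy0)
    exact absurd h (not_lt.2 ((inv_le_one₀ hpos).1 h3))
  · have hinv := nv3_inv_mem b V' V2 hle2 y c1 hM hN1
    have h3 := (V2.valuation_le_one_iff _).2 hinv
    rw [map_inv₀] at h3
    by_cases hy0 : y = 0
    · rw [hy0, Algebra.norm_zero, map_zero] at hN1
      exact zero_ne_one hN1
    have hpos : 0 < V2.valuation y := zero_lt_iff.2 ((Valuation.ne_zero_iff _).2 hy0)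
    exact absurd h (not_lt.2 ((inv_le_one₀ hpos).1 h3))

/-- The norm of the uniformizer `p'` of the base. -/
theorem nv3_norm_base (V' : ValuationSubring K) (p' : K) (q : ℕ)
    (hfr : Module.finrank K L = q) :
    V'.valuation (Algebra.norm K (algebraMap K L p')) = V'.valuation p' ^ (q : ℤ) := by
  rw [Algebra.norm_algebraMap, hfr, map_pow, zpow_natCast]

/-- **Valuation of a norm, one valuation above** (`e f = q`):
`v'(N y) = v'(p')^(q e)` when `v(y) = v(p')^e`. -/
theorem nv3_single (q : ℕ) (hfr : Module.finrank K L = q) (V' : ValuationSubring K)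
    (V : ValuationSubring L) (p' : K) (hp' : p' ≠ 0)
    (b : Module.Basis κ K L) (hb : ∀ i, b i ∈ V)
    (hrepr : ∀ x : L, x ∈ V → ∀ i, b.repr x i ∈ V') :
    ∀ (y : L) (e : ℤ), V.valuation y = V.valuation (algebraMap K L p') ^ e →
      V'.valuation (Algebra.norm K y) = V'.valuation p' ^ ((q : ℤ) * e) := by
  have hunit : ∀ y : L, V.valuation y = 1 → V'.valuation (nv3_normHom K L y) = 1 :=
    fun y hy => nv3_unit b V' V V (fun i => ⟨hb i, hb i⟩) (fun x hx _ i => hrepr x hx i) y hy hy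
  exact vv3_one_of_unit V V' (algebraMap K L p') p' ((_root_.map_ne_zero _).2 hp')
    (nv3_normHom K L) (q : ℤ) hunit (nv3_norm_base V' p' q hfr)

/-- **Valuation of a norm, ramified pair above** (`1 * 1 + (q - 1) * 1 = q`):
`v'(N y) = v'(p')^(e₁ + e₂)` when `v₁(y) = v₁(p')^e₁`, `v₂(y) = v₂(s)^e₂`. -/
theorem nv3_pair (q : ℕ) (hq : 2 ≤ q) (hfr : Module.finrank K L = q)
    (V' : ValuationSubring K) (V1 V2 : ValuationSubring L) (p' : K) (s : L)
    (hle1 : ∀ c ∈ V', algebraMap K L c ∈ V1) (hle2 : ∀ c ∈ V', algebraMap K L c ∈ V2)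
    (hd' : vv3_Disc V' p') (hp1 : V1.valuation (algebraMap K L p') < 1)
    (hd2 : vv3_Disc V2 s)
    (hp2 : V2.valuation (algebraMap K L p') = V2.valuation s ^ ((q : ℤ) - 1))
    (hs1 : V1.valuation s = 1)
    (b : Module.Basis κ K L) (hb : ∀ i, b i ∈ V1 ∧ b i ∈ V2)
    (hrepr : ∀ x : L, x ∈ V1 → x ∈ V2 → ∀ i, b.repr x i ∈ V') :
    ∀ (y : L) (e1 e2 : ℤ), V1.valuation y = V1.valuation (algebraMap K L p') ^ e1 →
      V2.valuation y = V2.valuation s ^ e2 →
      V'.valuation (Algebra.norm K y) = V'.valuation p' ^ (e1 + e2) := by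
  have hp'0 : p' ≠ 0 := hd'.1
  have hpL : algebraMap K L p' ≠ 0 := (_root_.map_ne_zero _).2 hp'0
  have hs0 : s ≠ 0 := hd2.1
  have hv2s : V2.valuation s ≠ 0 := vv3_val_ne_zero hd2
  have hvp' : V'.valuation p' ≠ 0 := vv3_val_ne_zero hd'
  have hunit : ∀ y : L, V1.valuation y = 1 → V2.valuation y = 1 →
      V'.valuation (nv3_normHom K L y) = 1 := fun y h1 h2 => nv3_unit b V' V1 V2 hb hrepr y h1 h2
  have hNp := nv3_norm_base (L := L) V' p' q hfr
  -- the norm of `s` is a non-unit
  have hNs_lt : V'.valuation (Algebra.norm K s) < 1 :=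
    nv3_nonunit b V' V1 V2 hle1 hle2 hb hrepr s hs1.le hd2.2.1.le (Or.inr hd2.2.1)
  -- `δ = p / s^(q-1)` has orders `(1, 0)`; its norm is a non-unit
  have hδ1 : V1.valuation (algebraMap K L p' * (s ^ (q - 1))⁻¹) = V1.valuation (algebraMap K L p') := by
    rw [map_mul, map_inv₀, map_pow, hs1, one_pow, inv_one, mul_one]
  have hδ2 : V2.valuation (algebraMap K L p' * (s ^ (q - 1))⁻¹) = 1 := by
    rw [map_mul, map_inv₀, map_pow, hp2]
    have e : ((q : ℤ) - 1) = ((q - 1 : ℕ) : ℤ) := by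
      rw [Nat.cast_sub (by omega : 1 ≤ q)]; simp
    rw [e, zpow_natCast, mul_inv_cancel₀ (pow_ne_zero _ hv2s)]
  have hNδ_lt : V'.valuation (Algebra.norm K (algebraMap K L p' * (s ^ (q - 1))⁻¹)) < 1 :=
    nv3_nonunit b V' V1 V2 hle1 hle2 hb hrepr _ (by rw [hδ1]; exact hp1.le) hδ2.le
      (Or.inl (by rw [hδ1]; exact hp1))
  -- orders
  have hNs0 : Algebra.norm K s ≠ 0 := by
    rw [Algebra.norm_ne_zero_iff]; exact hs0
  obtain ⟨a, ha⟩ := hd'.2.2 _ hNs0
  have ha1 : 1 ≤ a := by
    by_contra hcon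
    have hle : a ≤ 0 := by omega
    have h1 : V'.valuation p' ^ (0 : ℤ) ≤ V'.valuation p' ^ a :=
      (zpow_right_strictAnti₀ (zero_lt_iff.2 hvp') hd'.2.1).antitone hle
    rw [zpow_zero, ← ha] at h1
    exact absurd hNs_lt (not_lt.2 h1)
  have hNδ : V'.valuation (Algebra.norm K (algebraMap K L p' * (s ^ (q - 1))⁻¹))
      = V'.valuation p' ^ ((q : ℤ) - ((q - 1 : ℕ) : ℤ) * a) := by
    rw [← nv3_normHom_apply, map_mul, map_inv₀, map_pow, map_mul, map_inv₀, map_pow,
      nv3_normHom_apply, nv3_normHom_apply, hNp, ha, ← zpow_natCast (V'.valuation p' ^ a),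
      ← zpow_mul, ← zpow_neg, ← zpow_add₀ hvp']
    congr 1
    ring
  have ha2 : a ≤ 1 := by
    by_contra hcon
    have h2 : 2 ≤ a := by omega
    have hle : (q : ℤ) - ((q - 1 : ℕ) : ℤ) * a ≤ 0 := by
      have e : ((q - 1 : ℕ) : ℤ) = (q : ℤ) - 1 := by
        rw [Nat.cast_sub (by omega : 1 ≤ q)]; simp
      rw [e]
      have hq' : (2 : ℤ) ≤ (q : ℤ) := by exact_mod_cast hq
      nlinarith
    have h1 : V'.valuation p' ^ (0 : ℤ) ≤ V'.valuation p' ^ ((q : ℤ) - ((q - 1 : ℕ) : ℤ) * a) :=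
      (zpow_right_strictAnti₀ (zero_lt_iff.2 hvp') hd'.2.1).antitone hle
    rw [zpow_zero, ← hNδ] at h1
    exact absurd hNδ_lt (not_lt.2 h1)
  have ha' : a = 1 := by omega
  have hNs : V'.valuation (nv3_normHom K L s) = V'.valuation p' := by
    rw [nv3_normHom_apply, ha, ha', zpow_one]
  exact vv3_two_of_unit q V1 V2 V' (algebraMap K L p') s p' hpL hs0 hvp' hp2 hs1
    (nv3_normHom K L) hunit hNp hNs

end formulas

end Fermat.Agent.S36
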