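import Mathlib

/-!
# S36 lab (helper58), row C-13: one-branch closed points are 2-generated

Chart language of the S34 lab: `R` the base ring with the element `π`, `F` the function field,
`B : Subalgebra R F` a chart, `W : Subring F` the ring in which `B` is saturated
(`x ∈ B`, `π⁻¹ x ∈ W` ⟹ `π⁻¹ x ∈ B`).  At level `q² M''` one has `W = V₁ ⊓ V₂ ⊓ V₃`.

A closed point `n` of the special fibre lies on the component `C_V` ONLY (`V = V₁` or `V₃`,
a component of multiplicity one: the branch is `B ∩ π V`) when some chart function `t ∉ n`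
is divisible by `π` in the ring `U` = the intersection of the OTHER vertical valuation rings
(`hoff`).  Then

* `ob58_branch_principal` : localised saturation, `t * x ∈ π B` for every `x ∈ B ∩ π V`
  (so the branch is `π B_n` at `n`);
* `ob58_two_gen` : with the uniformiser property `(3a)` of the branch at `n`
  (`hu`, literally the shape of `hu₁` / `hu₂` in `lsw58b_exists_locStrW`, S34), every `v ∈ n`
  satisfies `s v = a z + b π` with `s ∉ n`: `n B_n = (z, π)`.  This is literally the hypothesis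
  `h2` of `lpz9_locPrin_at` (row C-LP-from-2gen);
* `ob58_maximalIdeal_eq` : the same in the form
  `maximalIdeal (Localization.AtPrime n) = span {z, π}` (hypothesis `hm` of the (LP2) lemmas);
* `ob58_off_mul`, `ob58_off_pow` : how to produce `hoff` from one function per other component
  (`U = U₂ ⊓ U₃`) and from a power of a function (the non-reduced component: `π⁻¹ y ^ k ∈ V₂`);
* `ob58_two_gen_three` : the three-valuation form, `W = V ⊓ U₂ ⊓ U₃` elementwise.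

Mathlib only.
-/

set_option autoImplicit false

namespace Fermat.Agent.S36

open IsLocalRing

section

variable {R F : Type*} [CommRing R] [Field F] [Algebra R F]

/-- **Localised saturation at a point off the other components.**  If `t ∈ B` is divisible by
`π` in `U` (the other vertical valuation rings) and `x ∈ B` is divisible by `π` in `V`, then
`t * x` is divisible by `π` in `B`. -/
theorem ob58_branch_principal (π : R) (hπ0 : algebraMap R F π ≠ 0) (B : Subalgebra R F)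
    (W V U : Subring F) (hW : ∀ x : F, x ∈ V → x ∈ U → x ∈ W)
    (hBV : ∀ x ∈ B, x ∈ V) (hBU : ∀ x ∈ B, x ∈ U)
    (hsat : ∀ x ∈ B, (algebraMap R F π)⁻¹ * x ∈ W → (algebraMap R F π)⁻¹ * x ∈ B)
    (t : B) (ht : (algebraMap R F π)⁻¹ * (t : F) ∈ U)
    (x : B) (hx : (algebraMap R F π)⁻¹ * (x : F) ∈ V) :
    ∃ c : B, t * x = c * algebraMap R B π := by
  have h1 : (algebraMap R F π)⁻¹ * ((t : F) * (x : F)) ∈ U := by
    have e : (algebraMap R F π)⁻¹ * ((t : F) * (x : F)) =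
        ((algebraMap R F π)⁻¹ * (t : F)) * (x : F) := by ring
    rw [e]
    exact U.mul_mem ht (hBU _ x.2)
  have h2 : (algebraMap R F π)⁻¹ * ((t : F) * (x : F)) ∈ V := by
    have e : (algebraMap R F π)⁻¹ * ((t : F) * (x : F)) =
        (t : F) * ((algebraMap R F π)⁻¹ * (x : F)) := by ring
    rw [e]
    exact V.mul_mem (hBV _ t.2) hx
  have h3 : (algebraMap R F π)⁻¹ * ((t : F) * (x : F)) ∈ B :=
    hsat _ (B.mul_mem t.2 x.2) (hW _ h2 h1)
  refine ⟨⟨_, h3⟩, ?_⟩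
  apply Subtype.ext
  show (t : F) * (x : F) = (algebraMap R F π)⁻¹ * ((t : F) * (x : F)) * algebraMap R F π
  field_simp

/-- **One-branch points are 2-generated** (elementwise form = hypothesis `h2` of
`lpz9_locPrin_at`): if `n` is off the other components (`hoff`) and the branch `B ∩ π V` has the
uniformiser property at `n` (`hu`), then `n B_n = (z, π)`. -/
theorem ob58_two_gen (π : R) (hπ0 : algebraMap R F π ≠ 0) (B : Subalgebra R F)
    (W V U : Subring F) (hW : ∀ x : F, x ∈ V → x ∈ U → x ∈ W)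
    (hBV : ∀ x ∈ B, x ∈ V) (hBU : ∀ x ∈ B, x ∈ U)
    (hsat : ∀ x ∈ B, (algebraMap R F π)⁻¹ * x ∈ W → (algebraMap R F π)⁻¹ * x ∈ B)
    (n : Ideal B) [hn : n.IsPrime] (hπn : algebraMap R B π ∈ n)
    (hoff : ∃ t : B, t ∉ n ∧ (algebraMap R F π)⁻¹ * (t : F) ∈ U)
    (hu : ∃ z : B, z ∈ n ∧ ∀ x ∈ n, ∃ s : B, s ∉ n ∧ ∃ a : B,
      (algebraMap R F π)⁻¹ * ((s * x - a * z : B) : F) ∈ V) :
    ∃ x y : B, x ∈ n ∧ y ∈ n ∧
      ∀ v ∈ n, ∃ s : B, s ∉ n ∧ ∃ a b : B, s * v = a * x + b * y := by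
  obtain ⟨t, htn, htU⟩ := hoff
  obtain ⟨z, hz, hzu⟩ := hu
  refine ⟨z, algebraMap R B π, hz, hπn, ?_⟩
  intro v hv
  obtain ⟨s, hs, a, ha⟩ := hzu v hv
  obtain ⟨c, hc⟩ := ob58_branch_principal π hπ0 B W V U hW hBV hBU hsat t htU (s * v - a * z) ha
  refine ⟨t * s, fun h => (hn.mem_or_mem h).elim htn hs, t * a, c, ?_⟩
  linear_combination hc

/-- The same with the generators named: `n B_n = (z, π)` for the given branch uniformiser `z`. -/
theorem ob58_two_gen_at (π : R) (hπ0 : algebraMap R F π ≠ 0) (B : Subalgebra R F)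
    (W V U : Subring F) (hW : ∀ x : F, x ∈ V → x ∈ U → x ∈ W)
    (hBV : ∀ x ∈ B, x ∈ V) (hBU : ∀ x ∈ B, x ∈ U)
    (hsat : ∀ x ∈ B, (algebraMap R F π)⁻¹ * x ∈ W → (algebraMap R F π)⁻¹ * x ∈ B)
    (n : Ideal B) [hn : n.IsPrime]
    (t : B) (htn : t ∉ n) (htU : (algebraMap R F π)⁻¹ * (t : F) ∈ U)
    (z : B) (hzu : ∀ x ∈ n, ∃ s : B, s ∉ n ∧ ∃ a : B,
      (algebraMap R F π)⁻¹ * ((s * x - a * z : B) : F) ∈ V) :
    ∀ v ∈ n, ∃ s : B, s ∉ n ∧ ∃ a b : B, s * v = a * z + b * algebraMap R B π := by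
  intro v hv
  obtain ⟨s, hs, a, ha⟩ := hzu v hv
  obtain ⟨c, hc⟩ := ob58_branch_principal π hπ0 B W V U hW hBV hBU hsat t htU (s * v - a * z) ha
  refine ⟨t * s, fun h => (hn.mem_or_mem h).elim htn hs, t * a, c, ?_⟩
  linear_combination hc

/-- The branch `B ∩ π V` is `π B_n` at a point off the other components: every element of the
branch is `π` times an element of `B`, up to a factor outside `n`. -/
theorem ob58_branch_eq_pi (π : R) (hπ0 : algebraMap R F π ≠ 0) (B : Subalgebra R F)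
    (W V U : Subring F) (hW : ∀ x : F, x ∈ V → x ∈ U → x ∈ W)
    (hBV : ∀ x ∈ B, x ∈ V) (hBU : ∀ x ∈ B, x ∈ U)
    (hsat : ∀ x ∈ B, (algebraMap R F π)⁻¹ * x ∈ W → (algebraMap R F π)⁻¹ * x ∈ B)
    (n : Ideal B) (hoff : ∃ t : B, t ∉ n ∧ (algebraMap R F π)⁻¹ * (t : F) ∈ U)
    (x : B) (hx : (algebraMap R F π)⁻¹ * (x : F) ∈ V) :
    ∃ t : B, t ∉ n ∧ ∃ c : B, t * x = c * algebraMap R B π := by
  obtain ⟨t, htn, htU⟩ := hoff
  exact ⟨t, htn, ob58_branch_principal π hπ0 B W V U hW hBV hBU hsat t htU x hx⟩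

/-! ### Producing `hoff` -/

/-- `hoff` for `U = U₂ ⊓ U₃` from one function per component. -/
theorem ob58_off_mul (π : R) (B : Subalgebra R F) (U₂ U₃ : Subring F)
    (hBU₂ : ∀ x ∈ B, x ∈ U₂) (hBU₃ : ∀ x ∈ B, x ∈ U₃)
    (n : Ideal B) [hn : n.IsPrime] (t₂ t₃ : B) (ht₂ : t₂ ∉ n) (ht₃ : t₃ ∉ n)
    (h₂ : (algebraMap R F π)⁻¹ * (t₂ : F) ∈ U₂) (h₃ : (algebraMap R F π)⁻¹ * (t₃ : F) ∈ U₃) :
    ∃ t : B, t ∉ n ∧ (algebraMap R F π)⁻¹ * (t : F) ∈ U₂ ⊓ U₃ := by
  refine ⟨t₂ * t₃, fun h => (hn.mem_or_mem h).elim ht₂ ht₃, ?_, ?_⟩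
  · have e : (algebraMap R F π)⁻¹ * ((t₂ * t₃ : B) : F) =
        ((algebraMap R F π)⁻¹ * (t₂ : F)) * (t₃ : F) := by
      push_cast; ring
    rw [e]
    exact U₂.mul_mem h₂ (hBU₂ _ t₃.2)
  · have e : (algebraMap R F π)⁻¹ * ((t₂ * t₃ : B) : F) =
        (t₂ : F) * ((algebraMap R F π)⁻¹ * (t₃ : F)) := by
      push_cast; ring
    rw [e]
    exact U₃.mul_mem (hBU₃ _ t₂.2) h₃

/-- `hoff` for one component from a power (the non-reduced component `V₂`, where
`π⁻¹ y ^ (q - 1) ∈ V₂` for every non-unit `y` of `V₂`). -/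
theorem ob58_off_pow (π : R) (B : Subalgebra R F) (U : Subring F)
    (n : Ideal B) [hn : n.IsPrime] (y : B) (hy : y ∉ n) (k : ℕ)
    (h : (algebraMap R F π)⁻¹ * (y : F) ^ k ∈ U) :
    ∃ t : B, t ∉ n ∧ (algebraMap R F π)⁻¹ * (t : F) ∈ U := by
  refine ⟨y ^ k, fun h' => hy (hn.mem_of_pow_mem k h'), ?_⟩
  simpa using h

/-- **Three-valuation form** (`W = V ⊓ U₂ ⊓ U₃` elementwise): a closed point on the component of
`V` only, witnessed by `t₂, t₃ ∉ n` divisible by `π` in `U₂`, `U₃`, is 2-generated by the branch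
uniformiser and `π`. -/
theorem ob58_two_gen_three (π : R) (hπ0 : algebraMap R F π ≠ 0) (B : Subalgebra R F)
    (W V U₂ U₃ : Subring F) (hW : ∀ x : F, x ∈ V → x ∈ U₂ → x ∈ U₃ → x ∈ W)
    (hBV : ∀ x ∈ B, x ∈ V) (hBU₂ : ∀ x ∈ B, x ∈ U₂) (hBU₃ : ∀ x ∈ B, x ∈ U₃)
    (hsat : ∀ x ∈ B, (algebraMap R F π)⁻¹ * x ∈ W → (algebraMap R F π)⁻¹ * x ∈ B)
    (n : Ideal B) [hn : n.IsPrime] (hπn : algebraMap R B π ∈ n)
    (t₂ t₃ : B) (ht₂ : t₂ ∉ n) (ht₃ : t₃ ∉ n)
    (h₂ : (algebraMap R F π)⁻¹ * (t₂ : F) ∈ U₂) (h₃ : (algebraMap R F π)⁻¹ * (t₃ : F) ∈ U₃)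
    (hu : ∃ z : B, z ∈ n ∧ ∀ x ∈ n, ∃ s : B, s ∉ n ∧ ∃ a : B,
      (algebraMap R F π)⁻¹ * ((s * x - a * z : B) : F) ∈ V) :
    ∃ x y : B, x ∈ n ∧ y ∈ n ∧
      ∀ v ∈ n, ∃ s : B, s ∉ n ∧ ∃ a b : B, s * v = a * x + b * y :=
  ob58_two_gen π hπ0 B W V (U₂ ⊓ U₃)
    (fun x hxV hxU => hW x hxV hxU.1 hxU.2) hBV
    (fun x hx => ⟨hBU₂ x hx, hBU₃ x hx⟩) hsat n hπn
    (ob58_off_mul π B U₂ U₃ hBU₂ hBU₃ n t₂ t₃ ht₂ ht₃ h₂ h₃) hu

/-! ### The localisation form -/

/-- **Two generators in the localisation**: if every `x ∈ n` satisfies `s x = a z + b y` with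
`s ∉ n` (`z, y ∈ n`), then the maximal ideal of `B_n` is `(z, y)`. -/
theorem ob58_maximalIdeal_eq {B : Type*} [CommRing B] (n : Ideal B) [hn : n.IsPrime]
    (z y : B) (hz : z ∈ n) (hy : y ∈ n)
    (hgen : ∀ x ∈ n, ∃ s : B, s ∉ n ∧ ∃ a b : B, s * x = a * z + b * y) :
    maximalIdeal (Localization.AtPrime n)
      = Ideal.span {algebraMap B (Localization.AtPrime n) z,
          algebraMap B (Localization.AtPrime n) y} := by
  apply le_antisymm
  · rw [← Localization.AtPrime.map_eq_maximalIdeal, Ideal.map_le_iff_le_comap]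
    intro x hx
    obtain ⟨s, hs, a, b, hab⟩ := hgen x hx
    rw [Ideal.mem_comap]
    have hsu : IsUnit (algebraMap B (Localization.AtPrime n) s) :=
      IsLocalization.map_units (Localization.AtPrime n) (⟨s, hs⟩ : n.primeCompl)
    have h1 : algebraMap B (Localization.AtPrime n) s * algebraMap B (Localization.AtPrime n) x
        ∈ Ideal.span {algebraMap B (Localization.AtPrime n) z,
          algebraMap B (Localization.AtPrime n) y} := by
      rw [← map_mul, hab, map_add, map_mul, map_mul]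
      exact Ideal.add_mem _
        (Ideal.mul_mem_left _ _ (Ideal.subset_span (Set.mem_insert _ _)))
        (Ideal.mul_mem_left _ _ (Ideal.subset_span (Set.mem_insert_of_mem _ rfl)))
    exact (Ideal.unit_mul_mem_iff_mem _ hsu).mp h1
  · rw [Ideal.span_le]
    rintro w (rfl | rfl)
    · rw [← Localization.AtPrime.map_eq_maximalIdeal]
      exact Ideal.mem_map_of_mem _ hz
    · rw [← Localization.AtPrime.map_eq_maximalIdeal]
      exact Ideal.mem_map_of_mem _ hy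

/-- **C-13, localisation form**: at a one-branch closed point the maximal ideal of `B_n` is
`(z, π)`, `z` the branch uniformiser. -/
theorem ob58_maximalIdeal_eq_span (π : R) (hπ0 : algebraMap R F π ≠ 0) (B : Subalgebra R F)
    (W V U : Subring F) (hW : ∀ x : F, x ∈ V → x ∈ U → x ∈ W)
    (hBV : ∀ x ∈ B, x ∈ V) (hBU : ∀ x ∈ B, x ∈ U)
    (hsat : ∀ x ∈ B, (algebraMap R F π)⁻¹ * x ∈ W → (algebraMap R F π)⁻¹ * x ∈ B)
    (n : Ideal B) [hn : n.IsPrime] (hπn : algebraMap R B π ∈ n)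
    (t : B) (htn : t ∉ n) (htU : (algebraMap R F π)⁻¹ * (t : F) ∈ U)
    (z : B) (hz : z ∈ n) (hzu : ∀ x ∈ n, ∃ s : B, s ∉ n ∧ ∃ a : B,
      (algebraMap R F π)⁻¹ * ((s * x - a * z : B) : F) ∈ V) :
    maximalIdeal (Localization.AtPrime n)
      = Ideal.span {algebraMap B (Localization.AtPrime n) z,
          algebraMap B (Localization.AtPrime n) (algebraMap R B π)} :=
  ob58_maximalIdeal_eq n z (algebraMap R B π) hz hπn
    (ob58_two_gen_at π hπ0 B W V U hW hBV hBU hsat n t htn htU z hzu)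

end

end Fermat.Agent.S36
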