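import Fermat.Agent.S34.OnlyExt18

/-!
# S36 lab (helper90): the extensions of a discrete valuation ring at level `q ^ 2` over level `q`

Abstract input (Mathlib + `S34/OnlyExt18` only) for the frame at level `q ^ 2 M''`: the step
"`∑ e f ≤ q` forces `e = q - 1`, `f = 1` and no further extension".

Setting as in `oe18_main`: `V'` a discrete valuation subring of `F'` with uniformizer `π`
(elementary shape `hmax`, `harch`), `F / F'` finite separable.

* `oer90_ram_main` (**ramified pair**): `finrank F' F ≤ r + 1`, `V₁ ≠ V₂` valuation subrings of `F`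
  over `V'`, and a witness `s ≠ 0`, non-unit of `V₂`, with `s ^ r ∣ π` in `V₂`.  Then `V₁`, `V₂`
  are the only valuation subrings over `V'`, `V₁ ⊓ V₂` is integral over `V'`, `V₁` is unramified
  of residue degree one, `𝔪_{V₂} = s V₂`, `s ^ r = π · unit` in `V₂`, and `V₂` has residue degree
  one.  (Use: `r = q - 1`, `V' = V_∞'` of level `q`, `V₁ = V_1`, `V₂ = V_2`,
  `s = t(q² τ) - t(τ)`.)
* `oer90_inert_main` (**inert single**): `finrank F' F ≤ q`, `V` over `V'` with a Kummer witness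
  `y ^ q ≡ a mod π V`, `a` not a `q`-th power modulo `π V'`.  Then `V` is the only valuation
  subring over `V'`, `V` is integral over `V'` and `𝔪_V = π V`.  (Use: `V' = V_0'`, `V = V_3`.)

All names are prefixed `oer90_`.
-/

set_option autoImplicit false
set_option linter.unusedSectionVars false

namespace Fermat.Agent.S36

open IsLocalRing Fermat.Agent.S34

section ram

variable {A F : Type*} [CommRing A] [IsDomain A] [IsDiscreteValuationRing A] [Field F]
  [Algebra A F] [FaithfulSMul A F]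
  [IsDedekindDomain (integralClosure A F)] [IsFractionRing (integralClosure A F) F]
  [Module.Finite A (integralClosure A F)]

/-- A ramification witness: if `ϖ = x ^ k y ^ j w` with `x`, `y` non-units and `w` in `V`, then
`k + j ≤ e(V / A)`. -/
theorem oer90_ram_ge (V : ValuationSubring F) (hV : ∀ a : A, algebraMap A F a ∈ V)
    (ϖ : A) (hϖ : Irreducible ϖ) (hVϖ : (algebraMap A F ϖ)⁻¹ ∉ V)
    (x y : F) (k j : ℕ) (hx0 : x ≠ 0) (hy0 : y ≠ 0)
    (hx : V.valuation x < 1) (hy : V.valuation y < 1)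
    (hdiv : algebraMap A F ϖ * (x ^ k * y ^ j)⁻¹ ∈ V) :
    k + j ≤ (oe18_center V hV).ramificationIdx A := by
  have hL := oe18_center_liesOver V hV ϖ hϖ hVϖ
  set P := oe18_center V hV with hP
  have hxV : x ∈ V := (V.valuation_le_one_iff x).mp hx.le
  have hyV : y ∈ V := (V.valuation_le_one_iff y).mp hy.le
  obtain ⟨a, t, ht, hxt⟩ := (oe18_mem_iff V hV ϖ hVϖ x).mp hxV
  obtain ⟨a', t', ht', hyt⟩ := (oe18_mem_iff V hV ϖ hVϖ y).mp hyV
  obtain ⟨b, u, hu, hbu⟩ := (oe18_mem_iff V hV ϖ hVϖ _).mp hdiv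
  have ha : a ∈ P := by
    rw [hP, oe18_mem_center, ← hxt, map_mul, (oe18_not_mem_center V hV t).mp ht, mul_one]
    exact hx
  have ha' : a' ∈ P := by
    rw [hP, oe18_mem_center, ← hyt, map_mul, (oe18_not_mem_center V hV t').mp ht', mul_one]
    exact hy
  -- the key identity in the integral closure
  have hkey : (t ^ k * t' ^ j * u) * algebraMap A (integralClosure A F) ϖ = a ^ k * a' ^ j * b := by
    apply Subtype.ext
    show ((t : F) ^ k * (t' : F) ^ j * (u : F)) * algebraMap A F ϖ = (a : F) ^ k * (a' : F) ^ j * (b : F)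
    rw [← hxt, ← hyt, ← hbu]
    have h1 : x ^ k ≠ 0 := pow_ne_zero _ hx0
    have h2 : y ^ j ≠ 0 := pow_ne_zero _ hy0
    field_simp
    ring
  have hmem : (t ^ k * t' ^ j * u) * algebraMap A (integralClosure A F) ϖ ∈ P ^ (k + j) := by
    rw [hkey, pow_add]
    exact Ideal.mul_mem_right _ _ (Ideal.mul_mem_mul (Ideal.pow_mem_pow ha k) (Ideal.pow_mem_pow ha' j))
  have hnot : t ^ k * t' ^ j * u ∉ P := by
    intro h
    rcases Ideal.IsPrime.mem_or_mem inferInstance h with h | h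
    · rcases Ideal.IsPrime.mem_or_mem inferInstance h with h | h
      · exact ht (Ideal.IsPrime.mem_of_pow_mem inferInstance k h)
      · exact ht' (Ideal.IsPrime.mem_of_pow_mem inferInstance j h)
    · exact hu h
  have hϖmem : algebraMap A (integralClosure A F) ϖ ∈ P ^ (k + j) :=
    (Ideal.IsPrime.mul_mem_pow P hmem).resolve_left hnot
  have hle : (maximalIdeal A).map (algebraMap A (integralClosure A F)) ≤ P ^ (k + j) := by
    rw [hϖ.maximalIdeal_eq, Ideal.map_span, Set.image_singleton, Ideal.span_singleton_le_iff_mem]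
    exact hϖmem
  have hne0 : (maximalIdeal A).map (algebraMap A (integralClosure A F)) ≠ ⊥ := by
    intro h
    have h1 : algebraMap A (integralClosure A F) ϖ ∈
        (maximalIdeal A).map (algebraMap A (integralClosure A F)) :=
      Ideal.mem_map_of_mem _ (by rw [hϖ.maximalIdeal_eq]; exact Ideal.mem_span_singleton_self ϖ)
    rw [h, Ideal.mem_bot] at h1
    apply oe18_unif_ne_zero V ϖ hVϖ
    have h2 : ((algebraMap A (integralClosure A F) ϖ : integralClosure A F) : F) = 0 := by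
      rw [h1]; rfl
    exact h2
  rw [Ideal.IsDedekindDomain.ramificationIdx_eq_multiplicity (maximalIdeal A) P hne0]
  have hPunit : ¬ IsUnit P := by
    rw [Ideal.isUnit_iff]
    exact Ideal.IsPrime.ne_top inferInstance
  exact (FiniteMultiplicity.of_not_isUnit hPunit hne0).le_multiplicity_of_pow_dvd
    (Ideal.dvd_iff_le.mpr hle)

/-- The counting argument, ramified pair. -/
theorem oer90_count_ram (r : ℕ) (hr : 0 < r)
    (hdeg : Module.finrank A (integralClosure A F) ≤ r + 1)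
    (P₁ P₂ : Ideal (integralClosure A F)) [hP₁ : P₁.IsPrime] [hP₂ : P₂.IsPrime]
    [hL₁ : P₁.LiesOver (maximalIdeal A)] [hL₂ : P₂.LiesOver (maximalIdeal A)] (hne : P₁ ≠ P₂)
    (he : r ≤ P₂.ramificationIdx A) :
    (∀ Q : Ideal (integralClosure A F), Q.IsPrime → Q.LiesOver (maximalIdeal A) →
      Q = P₁ ∨ Q = P₂) ∧
    P₁.ramificationIdx A = 1 ∧ P₁.inertiaDeg A = 1 ∧ P₂.ramificationIdx A = r ∧
    P₂.inertiaDeg A = 1 := by
  classical
  let : Fintype ((maximalIdeal A).primesOver (integralClosure A F)) :=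
    (Algebra.QuasiFinite.finite_primesOver (maximalIdeal A)).fintype
  have hsum := Ideal.sum_ramification_inertia_eq_finrank (maximalIdeal A) (integralClosure A F)
  set g : (maximalIdeal A).primesOver (integralClosure A F) → ℕ :=
    fun Q => Q.1.ramificationIdx A * Q.1.inertiaDeg A with hg
  have hgpos : ∀ Q, 1 ≤ g Q := by
    intro Q
    have : Q.1.IsPrime := Q.2.1
    exact Nat.mul_pos (Ideal.ramificationIdx_pos Q.1 A) (Ideal.inertiaDeg_pos Q.1 A)
  let Q₁ : (maximalIdeal A).primesOver (integralClosure A F) := ⟨P₁, hP₁, hL₁⟩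
  let Q₂ : (maximalIdeal A).primesOver (integralClosure A F) := ⟨P₂, hP₂, hL₂⟩
  have hQne : Q₁ ≠ Q₂ := fun h => hne (congrArg Subtype.val h)
  have he₁ : 1 ≤ P₁.ramificationIdx A := Ideal.ramificationIdx_pos P₁ A
  have hf₁ : 1 ≤ P₁.inertiaDeg A := Ideal.inertiaDeg_pos P₁ A
  have hf₂ : 1 ≤ P₂.inertiaDeg A := Ideal.inertiaDeg_pos P₂ A
  have hg₂ : r ≤ g Q₂ := by
    show r ≤ P₂.ramificationIdx A * P₂.inertiaDeg A
    calc r ≤ P₂.ramificationIdx A := he
      _ = P₂.ramificationIdx A * 1 := (mul_one _).symm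
      _ ≤ P₂.ramificationIdx A * P₂.inertiaDeg A := Nat.mul_le_mul_left _ hf₂
  have hpair : g Q₁ + g Q₂ ≤ r + 1 := by
    have h3 : ∑ x ∈ ({Q₁, Q₂} : Finset _), g x ≤ ∑ x, g x :=
      Finset.sum_le_univ_sum_of_nonneg (fun _ => Nat.zero_le _)
    rw [Finset.sum_pair hQne] at h3
    exact h3.trans (hsum.le.trans hdeg)
  refine ⟨?_, ?_⟩
  · intro Q hQ hQL
    by_contra hcon
    push Not at hcon
    let Q₃ : (maximalIdeal A).primesOver (integralClosure A F) := ⟨Q, hQ, hQL⟩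
    have h31 : Q₃ ≠ Q₁ := fun h => hcon.1 (congrArg Subtype.val h)
    have h32 : Q₃ ≠ Q₂ := fun h => hcon.2 (congrArg Subtype.val h)
    have h3 : ∑ x ∈ ({Q₃, Q₁, Q₂} : Finset _), g x ≤ ∑ x, g x :=
      Finset.sum_le_univ_sum_of_nonneg (fun _ => Nat.zero_le _)
    rw [Finset.sum_insert (by simp [h31, h32]), Finset.sum_pair hQne] at h3
    have h4 := h3.trans (hsum.le.trans hdeg)
    have h5 := hgpos Q₃
    have h6 := hgpos Q₁
    omega
  · have h6 := hgpos Q₁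
    have h7 : g Q₁ = 1 := by omega
    have h8 : g Q₂ = r := by omega
    have h7' : P₁.ramificationIdx A * P₁.inertiaDeg A = 1 := h7
    have h8' : P₂.ramificationIdx A * P₂.inertiaDeg A = r := h8
    have h9 : P₁.ramificationIdx A = 1 ∧ P₁.inertiaDeg A = 1 := by
      rcases Nat.eq_one_of_mul_eq_one_right h7' with h
      rw [h, one_mul] at h7'
      exact ⟨h, h7'⟩
    refine ⟨h9.1, h9.2, ?_⟩
    have h10 : P₂.inertiaDeg A = 1 := by
      by_contra h
      have h11 : 2 ≤ P₂.inertiaDeg A := by omega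
      have h12 : r * 2 ≤ P₂.ramificationIdx A * P₂.inertiaDeg A := Nat.mul_le_mul he h11
      omega
    refine ⟨?_, h10⟩
    rw [h10, mul_one] at h8'
    exact h8'

/-- The counting argument, inert single prime. -/
theorem oer90_count_inert (q : ℕ) (hq : 0 < q)
    (hdeg : Module.finrank A (integralClosure A F) ≤ q)
    (P : Ideal (integralClosure A F)) [hP : P.IsPrime]
    [hL : P.LiesOver (maximalIdeal A)] (hf : q ≤ P.inertiaDeg A) :
    (∀ Q : Ideal (integralClosure A F), Q.IsPrime → Q.LiesOver (maximalIdeal A) → Q = P) ∧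
    P.ramificationIdx A = 1 := by
  classical
  let : Fintype ((maximalIdeal A).primesOver (integralClosure A F)) :=
    (Algebra.QuasiFinite.finite_primesOver (maximalIdeal A)).fintype
  have hsum := Ideal.sum_ramification_inertia_eq_finrank (maximalIdeal A) (integralClosure A F)
  set g : (maximalIdeal A).primesOver (integralClosure A F) → ℕ :=
    fun Q => Q.1.ramificationIdx A * Q.1.inertiaDeg A with hg
  have hgpos : ∀ Q, 1 ≤ g Q := by
    intro Q
    have : Q.1.IsPrime := Q.2.1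
    exact Nat.mul_pos (Ideal.ramificationIdx_pos Q.1 A) (Ideal.inertiaDeg_pos Q.1 A)
  let Q₀ : (maximalIdeal A).primesOver (integralClosure A F) := ⟨P, hP, hL⟩
  have he : 1 ≤ P.ramificationIdx A := Ideal.ramificationIdx_pos P A
  have hg₀ : q ≤ g Q₀ := by
    show q ≤ P.ramificationIdx A * P.inertiaDeg A
    calc q ≤ P.inertiaDeg A := hf
      _ = 1 * P.inertiaDeg A := (one_mul _).symm
      _ ≤ P.ramificationIdx A * P.inertiaDeg A := Nat.mul_le_mul_right _ he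
  have hone : g Q₀ ≤ q := by
    have h3 : ∑ x ∈ ({Q₀} : Finset _), g x ≤ ∑ x, g x :=
      Finset.sum_le_univ_sum_of_nonneg (fun _ => Nat.zero_le _)
    rw [Finset.sum_singleton] at h3
    exact h3.trans (hsum.le.trans hdeg)
  refine ⟨?_, ?_⟩
  · intro Q hQ hQL
    by_contra hcon
    let Q₃ : (maximalIdeal A).primesOver (integralClosure A F) := ⟨Q, hQ, hQL⟩
    have h30 : Q₃ ≠ Q₀ := fun h => hcon (congrArg Subtype.val h)
    have h3 : ∑ x ∈ ({Q₃, Q₀} : Finset _), g x ≤ ∑ x, g x :=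
      Finset.sum_le_univ_sum_of_nonneg (fun _ => Nat.zero_le _)
    rw [Finset.sum_pair h30] at h3
    have h4 := h3.trans (hsum.le.trans hdeg)
    have h5 := hgpos Q₃
    omega
  · by_contra h
    have h11 : 2 ≤ P.ramificationIdx A := by omega
    have h12 : 2 * q ≤ P.ramificationIdx A * P.inertiaDeg A := Nat.mul_le_mul h11 hf
    have h13 : g Q₀ = P.ramificationIdx A * P.inertiaDeg A := rfl
    omega

end ram

section core

variable {A F : Type*} [CommRing A] [IsDomain A] [IsDiscreteValuationRing A] [Field F]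
  [Algebra A F]

/-- **Core statement, ramified pair.** -/
theorem oer90_ram_core (F' : Type*) [Field F'] [Algebra A F'] [IsFractionRing A F'] [Algebra F' F]
    [IsScalarTower A F' F] [FiniteDimensional F' F] [Algebra.IsSeparable F' F]
    (V₁ V₂ : ValuationSubring F)
    (h₁ : ∀ a : A, algebraMap A F a ∈ V₁) (h₂ : ∀ a : A, algebraMap A F a ∈ V₂)
    (ϖ : A) (hϖ : Irreducible ϖ)
    (h₁ϖ : (algebraMap A F ϖ)⁻¹ ∉ V₁) (h₂ϖ : (algebraMap A F ϖ)⁻¹ ∉ V₂)
    (hne : V₁ ≠ V₂) (r : ℕ) (hr : 0 < r) (hdeg : Module.finrank F' F ≤ r + 1)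
    (s : F) (hs0 : s ≠ 0) (hs : V₂.valuation s < 1)
    (hdiv : algebraMap A F ϖ * (s ^ r)⁻¹ ∈ V₂) :
    (∀ V : ValuationSubring F, (∀ a : A, algebraMap A F a ∈ V) → (algebraMap A F ϖ)⁻¹ ∉ V →
      V = V₁ ∨ V = V₂) ∧
    (∀ x : F, x ∈ V₁ → x ∈ V₂ → IsIntegral A x) ∧
    (∀ x : F, V₁.valuation x < 1 → (algebraMap A F ϖ)⁻¹ * x ∈ V₁) ∧
    (∀ x ∈ V₁, ∃ b : A, V₁.valuation (x - algebraMap A F b) < 1) ∧
    (∀ x : F, V₂.valuation x < 1 → s⁻¹ * x ∈ V₂) ∧
    (algebraMap A F ϖ)⁻¹ * s ^ r ∈ V₂ ∧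
    (∀ x ∈ V₂, ∃ b : A, V₂.valuation (x - algebraMap A F b) < 1) := by
  have hinj : Function.Injective (algebraMap A F) := by
    rw [IsScalarTower.algebraMap_eq A F' F]
    exact (algebraMap F' F).injective.comp (IsFractionRing.injective A F')
  have : FaithfulSMul A F := (faithfulSMul_iff_algebraMap_injective A F).mpr hinj
  have : IsDedekindDomain (integralClosure A F) := integralClosure.isDedekindDomain A F' F
  have : IsFractionRing (integralClosure A F) F :=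
    integralClosure.isFractionRing_of_finite_extension F' F
  have : Module.Finite A (integralClosure A F) := IsIntegralClosure.finite A F' F _
  have hdeg' : Module.finrank A (integralClosure A F) ≤ r + 1 := by
    rw [← IsFractionRing.finrank_eq A F' (integralClosure A F) F]; exact hdeg
  have hL₁ := oe18_center_liesOver V₁ h₁ ϖ hϖ h₁ϖ
  have hL₂ := oe18_center_liesOver V₂ h₂ ϖ hϖ h₂ϖ
  have hPne : oe18_center V₁ h₁ ≠ oe18_center V₂ h₂ := fun h =>
    hne (oe18_eq_of_center_eq V₁ V₂ h₁ h₂ ϖ h₁ϖ h₂ϖ h)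
  have hϖ0 : algebraMap A F ϖ ≠ 0 := oe18_unif_ne_zero V₂ ϖ h₂ϖ
  have hone : V₂.valuation (1 : F) < 1 → False := by
    intro h; rw [map_one] at h; exact lt_irrefl _ h
  have hge : r ≤ (oe18_center V₂ h₂).ramificationIdx A := by
    have h := oer90_ram_ge V₂ h₂ ϖ hϖ h₂ϖ s s r 0 hs0 hs0 hs hs (by rw [pow_zero, mul_one]; exact hdiv)
    simpa using h
  obtain ⟨hall, he₁, hf₁, he₂, hf₂⟩ :=
    oer90_count_ram r hr hdeg' (oe18_center V₁ h₁) (oe18_center V₂ h₂) hPne hge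
  have hlt' : ∀ (x : F), x ∈ V₂ → x⁻¹ ∉ V₂ → V₂.valuation x < 1 := by
    intro x _ hx
    rw [← ValuationSubring.mem_nonunits_iff, ValuationSubring.mem_nonunits_iff_or]
    exact Or.inr hx
  refine ⟨?_, ?_, ?_, ?_, ?_, ?_, ?_⟩
  · intro V hV hVϖ
    rcases hall (oe18_center V hV) inferInstance (oe18_center_liesOver V hV ϖ hϖ hVϖ) with h | h
    · exact Or.inl (oe18_eq_of_center_eq V V₁ hV h₁ ϖ hVϖ h₁ϖ h)
    · exact Or.inr (oe18_eq_of_center_eq V V₂ hV h₂ ϖ hVϖ h₂ϖ h)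
  · exact fun x hx₁ hx₂ => oe18_integral_of_mem V₁ V₂ h₁ h₂ ϖ h₁ϖ h₂ϖ hall x hx₁ hx₂
  · exact fun x hx => oe18_hmax_of_ram V₁ h₁ ϖ hϖ h₁ϖ he₁ x hx
  · exact fun x hx => oe18_res_of_inertia V₁ h₁ ϖ hϖ h₁ϖ hf₁ x hx
  · -- `𝔪_{V₂} = s V₂`
    intro x hx
    by_cases hx0 : x = 0
    · rw [hx0, mul_zero]; exact V₂.zero_mem
    by_contra hcon
    have hy0 : s * x⁻¹ ≠ 0 := mul_ne_zero hs0 (inv_ne_zero hx0)
    have hyV : s * x⁻¹ ∈ V₂ := by
      rcases V₂.mem_or_inv_mem (s⁻¹ * x) with h | h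
      · exact absurd h hcon
      · have : (s⁻¹ * x)⁻¹ = s * x⁻¹ := by
          rw [mul_inv, inv_inv]
        rwa [this] at h
    have hyinv : (s * x⁻¹)⁻¹ ∉ V₂ := by
      have : (s * x⁻¹)⁻¹ = s⁻¹ * x := by
        rw [mul_inv, inv_inv]
      rwa [this]
    have hy : V₂.valuation (s * x⁻¹) < 1 := hlt' _ hyV hyinv
    have hd : algebraMap A F ϖ * (x ^ r * (s * x⁻¹) ^ r)⁻¹ ∈ V₂ := by
      have h1 : x ^ r * (s * x⁻¹) ^ r = s ^ r := by
        rw [← mul_pow]
        congr 1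
        field_simp
      rw [h1]; exact hdiv
    have h := oer90_ram_ge V₂ h₂ ϖ hϖ h₂ϖ x (s * x⁻¹) r r hx0 hy0 hx hy hd
    omega
  · -- `s ^ r = ϖ · unit`
    by_contra hcon
    set w : F := algebraMap A F ϖ * (s ^ r)⁻¹ with hw
    have hw0 : w ≠ 0 := mul_ne_zero hϖ0 (inv_ne_zero (pow_ne_zero _ hs0))
    have hwinv : w⁻¹ ∉ V₂ := by
      have : w⁻¹ = (algebraMap A F ϖ)⁻¹ * s ^ r := by
        rw [hw, mul_inv, inv_inv]
      rwa [this]
    have hwlt : V₂.valuation w < 1 := hlt' _ hdiv hwinv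
    have hd : algebraMap A F ϖ * (s ^ r * w ^ 1)⁻¹ ∈ V₂ := by
      have h1 : s ^ r * w ^ 1 = algebraMap A F ϖ := by
        rw [pow_one, hw]
        have := pow_ne_zero r hs0
        field_simp
      rw [h1, mul_inv_cancel₀ hϖ0]
      exact V₂.one_mem
    have h := oer90_ram_ge V₂ h₂ ϖ hϖ h₂ϖ s w r 1 hs0 hw0 hs hwlt hd
    omega
  · exact fun x hx => oe18_res_of_inertia V₂ h₂ ϖ hϖ h₂ϖ hf₂ x hx

/-- **Core statement, inert single valuation.** -/
theorem oer90_inert_core (F' : Type*) [Field F'] [Algebra A F'] [IsFractionRing A F'] [Algebra F' F]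
    [IsScalarTower A F' F] [FiniteDimensional F' F] [Algebra.IsSeparable F' F]
    (V₀ : ValuationSubring F) (h₀ : ∀ a : A, algebraMap A F a ∈ V₀)
    (ϖ : A) (hϖ : Irreducible ϖ) (h₀ϖ : (algebraMap A F ϖ)⁻¹ ∉ V₀)
    (q : ℕ) (hq : q.Prime) (hdeg : Module.finrank F' F ≤ q)
    (y : F) (hy : y ∈ V₀) (a : A)
    (hya : V₀.valuation (y ^ q - algebraMap A F a) < 1)
    (hnot : ∀ b : A, b ^ q - a ∉ maximalIdeal A) :
    (∀ V : ValuationSubring F, (∀ a : A, algebraMap A F a ∈ V) → (algebraMap A F ϖ)⁻¹ ∉ V →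
      V = V₀) ∧
    (∀ x : F, x ∈ V₀ → IsIntegral A x) ∧
    (∀ x : F, V₀.valuation x < 1 → (algebraMap A F ϖ)⁻¹ * x ∈ V₀) := by
  have hinj : Function.Injective (algebraMap A F) := by
    rw [IsScalarTower.algebraMap_eq A F' F]
    exact (algebraMap F' F).injective.comp (IsFractionRing.injective A F')
  have : FaithfulSMul A F := (faithfulSMul_iff_algebraMap_injective A F).mpr hinj
  have : IsDedekindDomain (integralClosure A F) := integralClosure.isDedekindDomain A F' F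
  have : IsFractionRing (integralClosure A F) F :=
    integralClosure.isFractionRing_of_finite_extension F' F
  have : Module.Finite A (integralClosure A F) := IsIntegralClosure.finite A F' F _
  have hdeg' : Module.finrank A (integralClosure A F) ≤ q := by
    rw [← IsFractionRing.finrank_eq A F' (integralClosure A F) F]; exact hdeg
  have hL₀ := oe18_center_liesOver V₀ h₀ ϖ hϖ h₀ϖ
  have hf := oe18_inertia_ge V₀ h₀ ϖ hϖ h₀ϖ q hq y hy a hya hnot
  obtain ⟨hall, he⟩ := oer90_count_inert q hq.pos hdeg' (oe18_center V₀ h₀) hf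
  refine ⟨?_, ?_, ?_⟩
  · intro V hV hVϖ
    exact oe18_eq_of_center_eq V V₀ hV h₀ ϖ hVϖ h₀ϖ
      (hall (oe18_center V hV) inferInstance (oe18_center_liesOver V hV ϖ hϖ hVϖ))
  · exact fun x hx => oe18_integral_of_mem V₀ V₀ h₀ h₀ ϖ h₀ϖ h₀ϖ
      (fun Q hQ hQL => Or.inl (hall Q hQ hQL)) x hx hx
  · exact fun x hx => oe18_hmax_of_ram V₀ h₀ ϖ hϖ h₀ϖ he x hx

end core

section wrapper

variable {F' : Type*} [Field F']
variable {F : Type*} [Field F] [Algebra F' F] [FiniteDimensional F' F] [Algebra.IsSeparable F' F]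

/-- **Ramified pair, elementary shape** (the interface of `oe18_main`). -/
theorem oer90_ram_main (V' : ValuationSubring F') (π : F') (hπV : π ∈ V') (hπinv : π⁻¹ ∉ V')
    (hmax : ∀ x ∈ V', x⁻¹ ∉ V' → π⁻¹ * x ∈ V')
    (harch : ∀ x : F', x ≠ 0 → ∃ n : ℕ, (π ^ n)⁻¹ * x ∉ V')
    (V₁ V₂ : ValuationSubring F)
    (h₁ : ∀ a ∈ V', algebraMap F' F a ∈ V₁) (h₁π : (algebraMap F' F π)⁻¹ ∉ V₁)
    (h₂ : ∀ a ∈ V', algebraMap F' F a ∈ V₂) (h₂π : (algebraMap F' F π)⁻¹ ∉ V₂)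
    (hne : V₁ ≠ V₂) (r : ℕ) (hr : 0 < r) (hdeg : Module.finrank F' F ≤ r + 1)
    (s : F) (hs0 : s ≠ 0) (hsV : s ∈ V₂) (hsinv : s⁻¹ ∉ V₂)
    (hdiv : algebraMap F' F π * (s ^ r)⁻¹ ∈ V₂) :
    (∀ V : ValuationSubring F, (∀ a ∈ V', algebraMap F' F a ∈ V) →
      (algebraMap F' F π)⁻¹ ∉ V → V = V₁ ∨ V = V₂) ∧
    (∀ x : F, x ∈ V₁ → x ∈ V₂ → IsIntegral V' x) ∧
    (∀ x ∈ V₁, x⁻¹ ∉ V₁ → (algebraMap F' F π)⁻¹ * x ∈ V₁) ∧
    (∀ x ∈ V₁, ∃ b ∈ V', (algebraMap F' F π)⁻¹ * (x - algebraMap F' F b) ∈ V₁) ∧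
    (∀ x ∈ V₂, x⁻¹ ∉ V₂ → s⁻¹ * x ∈ V₂) ∧
    (algebraMap F' F π)⁻¹ * s ^ r ∈ V₂ ∧
    (∀ x ∈ V₂, ∃ b ∈ V', s⁻¹ * (x - algebraMap F' F b) ∈ V₂) := by
  obtain ⟨hDVR, hirr⟩ := oe18_isDVR V' π hπV hπinv hmax harch
  have hlt' : ∀ (V : ValuationSubring F) (x : F), x ∈ V → x⁻¹ ∉ V → V.valuation x < 1 := by
    intro V x _ hx
    rw [← ValuationSubring.mem_nonunits_iff, ValuationSubring.mem_nonunits_iff_or]
    exact Or.inr hx
  obtain ⟨c1, c2, c3, c4, c5, c6, c7⟩ := oer90_ram_core (A := V') F' V₁ V₂ (fun a => h₁ a a.2)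
    (fun a => h₂ a a.2) ⟨π, hπV⟩ hirr h₁π h₂π hne r hr hdeg s hs0 (hlt' V₂ s hsV hsinv) hdiv
  refine ⟨?_, c2, ?_, ?_, ?_, c6, ?_⟩
  · intro V hV hVπ
    exact c1 V (fun a => hV a a.2) hVπ
  · intro x hx hx'
    exact c3 x (hlt' V₁ x hx hx')
  · intro x hx
    obtain ⟨b, hb⟩ := c4 x hx
    exact ⟨b, b.2, c3 _ hb⟩
  · intro x hx hx'
    exact c5 x (hlt' V₂ x hx hx')
  · intro x hx
    obtain ⟨b, hb⟩ := c7 x hx
    exact ⟨b, b.2, c5 _ hb⟩

/-- **Inert single valuation, elementary shape.** -/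
theorem oer90_inert_main (V' : ValuationSubring F') (π : F') (hπV : π ∈ V') (hπinv : π⁻¹ ∉ V')
    (hmax : ∀ x ∈ V', x⁻¹ ∉ V' → π⁻¹ * x ∈ V')
    (harch : ∀ x : F', x ≠ 0 → ∃ n : ℕ, (π ^ n)⁻¹ * x ∉ V')
    (V₀ : ValuationSubring F)
    (h₀ : ∀ a ∈ V', algebraMap F' F a ∈ V₀) (h₀π : (algebraMap F' F π)⁻¹ ∉ V₀)
    (q : ℕ) (hq : q.Prime) (hdeg : Module.finrank F' F ≤ q)
    (y : F) (hy : y ∈ V₀) (a : F') (ha : a ∈ V')
    (hya : (algebraMap F' F π)⁻¹ * (y ^ q - algebraMap F' F a) ∈ V₀)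
    (hnot : ∀ b ∈ V', π⁻¹ * (b ^ q - a) ∉ V') :
    (∀ V : ValuationSubring F, (∀ a ∈ V', algebraMap F' F a ∈ V) →
      (algebraMap F' F π)⁻¹ ∉ V → V = V₀) ∧
    (∀ x : F, x ∈ V₀ → IsIntegral V' x) ∧
    (∀ x ∈ V₀, x⁻¹ ∉ V₀ → (algebraMap F' F π)⁻¹ * x ∈ V₀) := by
  obtain ⟨hDVR, hirr⟩ := oe18_isDVR V' π hπV hπinv hmax harch
  have hπ0 : π ≠ 0 := by
    intro h
    apply hπinv
    rw [h, inv_zero]; exact V'.zero_mem
  have hπF0 : algebraMap F' F π ≠ 0 := fun h => hπ0 ((algebraMap F' F).injective (by rw [h, map_zero]))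
  have hlt : ∀ (V : ValuationSubring F) (z : F), (algebraMap F' F π)⁻¹ ∉ V →
      (algebraMap F' F π)⁻¹ * z ∈ V → V.valuation z < 1 := by
    intro V z hV hz
    have h1 : V.valuation (algebraMap F' F π) < 1 := by
      rw [← ValuationSubring.mem_nonunits_iff, ValuationSubring.mem_nonunits_iff_or]
      exact Or.inr hV
    have h2 : z = algebraMap F' F π * ((algebraMap F' F π)⁻¹ * z) := by field_simp
    rw [h2, map_mul]
    exact mul_lt_one_of_lt_of_le h1 ((V.valuation_le_one_iff _).mpr hz)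
  have hlt' : ∀ (V : ValuationSubring F) (x : F), x ∈ V → x⁻¹ ∉ V → V.valuation x < 1 := by
    intro V x _ hx
    rw [← ValuationSubring.mem_nonunits_iff, ValuationSubring.mem_nonunits_iff_or]
    exact Or.inr hx
  have hnot' : ∀ b : V', b ^ q - ⟨a, ha⟩ ∉ maximalIdeal V' := by
    intro b hb
    rw [hirr.maximalIdeal_eq, Ideal.mem_span_singleton] at hb
    obtain ⟨c, hc⟩ := hb
    apply hnot b b.2
    have h1 : (b : F') ^ q - a = π * (c : F') := congrArg (fun z : V' => (z : F')) hc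
    rw [h1, ← mul_assoc, inv_mul_cancel₀ hπ0, one_mul]
    exact c.2
  obtain ⟨c1, c2, c3⟩ := oer90_inert_core (A := V') F' V₀ (fun a => h₀ a a.2)
    ⟨π, hπV⟩ hirr h₀π q hq hdeg y hy ⟨a, ha⟩ (hlt V₀ _ h₀π hya) hnot'
  refine ⟨?_, c2, ?_⟩
  · intro V hV hVπ
    exact c1 V (fun a => hV a a.2) hVπ
  · intro x hx hx'
    exact c3 x (hlt' V₀ x hx hx')

end wrapper

end Fermat.Agent.S36
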