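import Mathlib
import Fermat.Agent.S36.Iface62
import Fermat.Agent.S36.DescentUnr77
import Fermat.Agent.S36.KummerDescent17
import Fermat.Agent.S36.CoeffDescent36
import Fermat.Agent.S36.NormBCSq92
import Fermat.Agent.S35.FieldDef92

/-!
# S36 lab (helper32), row 587: the package P-FD36, `fd32_pkg_fieldDef : s36i62_Pkg_FieldDef`

CORE36 (over a number field with a DVR in which `q` is a uniformizer) ⟹ (FF-INV) over `ℚ̄`.

Given `f ∈ F_ℚ̄(N q)` with `σ f = f · h_σ ^ m` for all `σ` in the inertia group of `A`: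
* `L` a finite Galois field of definition of `f`, `K₀ ≤ L` the inertia field of `A`
  (`du77_inertia_field`): `q` is a uniformizer of `A ∩ K₀`, and every `σ` fixing `K₀` is
  `h⁻¹ τ` with `h` fixing `L` and `τ` in the inertia group;
* Kummer descent (`kd17_descent`): `f₀ = a · f · k ^ m` is fixed by `Gal(ℚ̄ / K₀)`, hence defined
  over `K₀` (`cd36_exists_of_fixed`);
* its two norms are constants times `m`-th powers over `K₀` (`fd32_root_descent`, from
  `kd17_root_descent`), the norms commuting with the base change (`nbs92_normA / nbs92_normB`);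
* CORE36 over `K₀` gives `f₀ ^ c = c' · g₀ ^ m`, hence `f ^ c = g ^ m` over `ℚ̄`.

All names are prefixed `fd32_`.
-/

set_option autoImplicit false
set_option linter.style.longLine false
set_option linter.unusedVariables false
set_option linter.unusedSectionVars false
set_option linter.style.haveILetI false
set_option synthInstance.maxHeartbeats 400000

open ModularCurve AlgebraicCurve CongruenceSubgroup IntermediateField

namespace Fermat.Agent.S36

open Fermat.Agent.S18 Fermat.Agent.S24 Fermat.Agent.S34 Fermat.Agent.S35 Fermat.Agent.S37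
open Fermat.Agent.S42

local notation "Q̄" => AlgebraicClosure ℚ
local notation "GQ" => AlgebraicClosure ℚ ≃ₐ[ℚ] AlgebraicClosure ℚ

/-- The action of `Gal(ℚ̄ / K₀)` on the coefficients. -/
noncomputable def fd32_phi (K0 : IntermediateField ℚ Q̄) (g : ↥K0.fixingSubgroup) : Q̄ →+* Q̄ :=
  ((g : GQ) : Q̄ →+* Q̄)

theorem fd32_phi_mul (K0 : IntermediateField ℚ Q̄) (g h : ↥K0.fixingSubgroup) :
    fd32_phi K0 (g * h) = (fd32_phi K0 g).comp (fd32_phi K0 h) := rfl

theorem fd32_phi_apply (K0 : IntermediateField ℚ Q̄) (g : ↥K0.fixingSubgroup) (x : Q̄) :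
    fd32_phi K0 g x = (g : GQ) x := rfl

/-- An algebraic number fixed by `Gal(ℚ̄ / K₀)` lies in `K₀`. -/
theorem fd32_mem_of_fixed (K0 : IntermediateField ℚ Q̄) (a : Q̄)
    (h : ∀ g : ↥K0.fixingSubgroup, (g : GQ) a = a) : a ∈ K0 := by
  have hmem : a ∈ IntermediateField.fixedField K0.fixingSubgroup := by
    rw [IntermediateField.mem_fixedField_iff]
    intro σ hσ
    exact h ⟨σ, hσ⟩
  haveI : Algebra.IsAlgebraic ℚ Q̄ := AlgebraicClosure.isAlgebraic ℚ
  haveI : IsAlgClosure ℚ Q̄ := ⟨inferInstance, inferInstance⟩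
  haveI : IsGalois ℚ Q̄ := IsGalois.mk
  rw [InfiniteGalois.fixedField_fixingSubgroup] at hmem
  exact hmem

/-- The image of a series over `K₀` is fixed by `Gal(ℚ̄ / K₀)`. -/
theorem fd32_coeffMap_fixed (K0 : IntermediateField ℚ Q̄) (g : ↥K0.fixingSubgroup)
    (y : LaurentSeries ↥K0) :
    coeffMap (fd32_phi K0 g) (coeffMap (algebraMap ↥K0 Q̄) y) = coeffMap (algebraMap ↥K0 Q̄) y := by
  rw [coeffMap_coeffMap]
  refine coeffMap_congr (RingHom.ext fun c => ?_) y
  rw [RingHom.comp_apply, fd32_phi_apply]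
  exact (IntermediateField.mem_fixingSubgroup_iff K0 (g : GQ)).mp g.2 _ c.2

/-- The underlying series of a constant. -/
theorem fd32_coe_algebraMap (M : ℕ) (c : Q̄) :
    ((algebraMap Q̄ ↥(modularFunctionFieldBar M) c : ↥(modularFunctionFieldBar M)) :
      LaurentSeries Q̄) = HahnSeries.C c := by
  show algebraMap Q̄ (LaurentSeries Q̄) c = HahnSeries.C c
  rw [algebraMap_laurentSeries_eq_single]
  rfl

section Root

variable (K0 : IntermediateField ℚ Q̄) (M : ℕ)

/-- **Roots over `K₀`** (step (5) of the descent): a function over `K₀` which is over `ℚ̄` a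
constant times an `m`-th power is over `K₀` a constant times an `m`-th power. -/
theorem fd32_root_descent {m : ℕ} (hm : 0 < m)
    (y : ↥(modularFunctionFieldFullC ↥K0 M)) (hy : y ≠ 0)
    (A : ↥(modularFunctionFieldBar M)) (c : Q̄)
    (h : fd27_iota (algebraMap ↥K0 Q̄) M y
      = algebraMap Q̄ ↥(modularFunctionFieldBar M) c * A ^ m) :
    ∃ (ca : ↥K0) (a0 : ↥(modularFunctionFieldFullC ↥K0 M)), ca ≠ 0 ∧ a0 ≠ 0 ∧
      y = algebraMap ↥K0 ↥(modularFunctionFieldFullC ↥K0 M) ca * a0 ^ m := by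
  have hy' : ((fd27_iota (algebraMap ↥K0 Q̄) M y : ↥(modularFunctionFieldBar M)) :
      LaurentSeries Q̄) ≠ 0 := by
    intro h0
    apply hy
    apply fd27_iota_injective (algebraMap ↥K0 Q̄) M
    rw [map_zero]
    exact Subtype.ext h0
  have hyA : ((fd27_iota (algebraMap ↥K0 Q̄) M y : ↥(modularFunctionFieldBar M)) :
      LaurentSeries Q̄) = HahnSeries.C c * (A : LaurentSeries Q̄) ^ m := by
    rw [h]
    show ((algebraMap Q̄ ↥(modularFunctionFieldBar M) c : ↥(modularFunctionFieldBar M)) :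
      LaurentSeries Q̄) * (A : LaurentSeries Q̄) ^ m = _
    rw [fd32_coe_algebraMap]
  obtain ⟨a, A1, ha0, hA1F, hA10, hafix, hA1fix, hyeq⟩ :=
    kd17_root_descent (fd32_phi K0) (modularFunctionFieldBar M) hm hy' A.2 hyA
      (fun g => by rw [fd27_iota_coe]; exact fd32_coeffMap_fixed K0 g _)
  have haK0 : a ∈ K0 := fd32_mem_of_fixed K0 a hafix
  obtain ⟨a0, ha0'⟩ := cd36_exists_of_fixed K0 M ⟨A1, hA1F⟩ (fun σ hσ => by
    apply Subtype.ext
    rw [coe_arithmeticRingAut_apply]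
    exact hA1fix ⟨σ, (IntermediateField.mem_fixingSubgroup_iff K0 σ).mpr hσ⟩)
  refine ⟨⟨a, haK0⟩, a0, ?_, ?_, ?_⟩
  · intro h0
    apply ha0
    exact congrArg Subtype.val h0
  · rintro rfl
    rw [map_zero] at ha0'
    exact hA10 (congrArg Subtype.val ha0').symm
  · apply fd27_iota_injective (algebraMap ↥K0 Q̄) M
    rw [map_mul, map_pow, ha0', fd27_iota_algebraMap]
    apply Subtype.ext
    rw [hyeq]
    show _ = ((algebraMap Q̄ ↥(modularFunctionFieldBar M) a : ↥(modularFunctionFieldBar M)) :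
      LaurentSeries Q̄) * A1 ^ m
    rw [fd32_coe_algebraMap]

end Root

section Main

variable (N q : ℕ) [NeZero N] [NeZero q]

/-- The norm along `α` of a nonzero function does not vanish (any level pair). -/
theorem fd32_normABar_ne_zero {f : ↥(modularFunctionFieldBar (N * q))} (hf : f ≠ 0) :
    s35i62_normABar N q f ≠ 0 := by
  haveI := hi63_hasPrincipalDivisors_bar (N * q)
  obtain ⟨-, hfin, -⟩ := hx63_inputs_gen (φ := heckeAlphaBar Q̄ N q)
    (hx63_heckeAlphaBarIntegral N q)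
  exact ht45_normAlong_ne_zero (heckeAlphaBar Q̄ N q) hfin hf

/-- The norm along `β` of a nonzero function does not vanish (any level pair). -/
theorem fd32_normBBar_ne_zero {f : ↥(modularFunctionFieldBar (N * q))} (hf : f ≠ 0) :
    s35i62_normBBar N q f ≠ 0 := by
  haveI := hi63_hasPrincipalDivisors_bar (N * q)
  obtain ⟨-, hfin, -⟩ := hx63_inputs_gen (φ := heckeBetaBar Q̄ N q)
    (hx63_heckeBetaBarIntegral N q)
  exact ht45_normAlong_ne_zero (heckeBetaBar Q̄ N q) hfin hf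

/-- The norm along `α` of a constant is a power of it. -/
theorem fd32_normABar_const (a : Q̄) :
    ∃ d : ℕ, s35i62_normABar N q (algebraMap Q̄ ↥(modularFunctionFieldBar (N * q)) a)
      = algebraMap Q̄ ↥(modularFunctionFieldBar N) (a ^ d) := by
  letI := algebraAlong (heckeAlphaBar Q̄ N q)
  refine ⟨Module.finrank ↥(modularFunctionFieldBar N) ↥(modularFunctionFieldBar (N * q)), ?_⟩
  have h1 : algebraMap Q̄ ↥(modularFunctionFieldBar (N * q)) a
      = algebraMap ↥(modularFunctionFieldBar N) ↥(modularFunctionFieldBar (N * q))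
          (algebraMap Q̄ ↥(modularFunctionFieldBar N) a) :=
    ((heckeAlphaBar Q̄ N q).commutes a).symm
  show Algebra.norm ↥(modularFunctionFieldBar N)
    (algebraMap Q̄ ↥(modularFunctionFieldBar (N * q)) a) = _
  rw [h1, Algebra.norm_algebraMap, map_pow]

/-- The norm along `β` of a constant is a power of it. -/
theorem fd32_normBBar_const (a : Q̄) :
    ∃ d : ℕ, s35i62_normBBar N q (algebraMap Q̄ ↥(modularFunctionFieldBar (N * q)) a)
      = algebraMap Q̄ ↥(modularFunctionFieldBar N) (a ^ d) := by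
  letI := algebraAlong (heckeBetaBar Q̄ N q)
  refine ⟨Module.finrank ↥(modularFunctionFieldBar N) ↥(modularFunctionFieldBar (N * q)), ?_⟩
  have h1 : algebraMap Q̄ ↥(modularFunctionFieldBar (N * q)) a
      = algebraMap ↥(modularFunctionFieldBar N) ↥(modularFunctionFieldBar (N * q))
          (algebraMap Q̄ ↥(modularFunctionFieldBar N) a) :=
    ((heckeBetaBar Q̄ N q).commutes a).symm
  show Algebra.norm ↥(modularFunctionFieldBar N)
    (algebraMap Q̄ ↥(modularFunctionFieldBar (N * q)) a) = _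
  rw [h1, Algebra.norm_algebraMap, map_pow]

set_option maxHeartbeats 3200000 in
/-- **CORE36 ⟹ (FF-INV)** at one exponent. -/
theorem fd32_ffInv (hq : q.Prime) (hqN : q ∣ N) (m : ℕ) (hm : 0 < m) (c : ℕ)
    (hcore : s36i62_Core N q m c) : ji17_FFInv N q m c := by
  intro A hA f hf hdiv ⟨a, ha⟩ ⟨b, hb⟩ hI
  haveI hNq : NeZero (N * q) := ⟨Nat.mul_ne_zero (NeZero.ne N) (NeZero.ne q)⟩
  have ha0 : a ≠ 0 := by
    rintro rfl
    rw [zero_pow hm.ne'] at ha
    exact fd32_normABar_ne_zero N q hf ha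
  have hb0 : b ≠ 0 := by
    rintro rfl
    rw [zero_pow hm.ne'] at hb
    exact fd32_normBBar_ne_zero N q hf hb
  -- a finite Galois field of definition `L` of `f`
  obtain ⟨L₁, hL₁fd, -, hL₁⟩ := s35fd92_exists_list (N * q) [f]
    (by
      intro y hy
      simp only [List.mem_cons, List.not_mem_nil, or_false] at hy
      rw [hy]
      exact hf) ∅
  haveI := hL₁fd
  have halg : Algebra.IsAlgebraic ℚ Q̄ := AlgebraicClosure.isAlgebraic ℚ
  haveI : IsAlgClosure ℚ Q̄ := ⟨inferInstance, halg⟩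
  haveI : Normal ℚ Q̄ := IsAlgClosure.normal ℚ Q̄
  obtain ⟨L, hLdef⟩ : ∃ L : IntermediateField ℚ Q̄,
      L = IntermediateField.normalClosure ℚ ↥L₁ Q̄ := ⟨_, rfl⟩
  have hle : L₁ ≤ L := by
    rw [hLdef]; exact L₁.le_normalClosure
  haveI hfd : FiniteDimensional ℚ ↥L := by
    rw [hLdef]; exact normalClosure.is_finiteDimensional ℚ ↥L₁ Q̄
  haveI hnorm : Normal ℚ ↥L := by
    rw [hLdef]; exact normalClosure.normal ℚ ↥L₁ Q̄
  haveI hgal : IsGalois ℚ ↥L := IsGalois.mk
  obtain ⟨⟨fL, hfL⟩, -⟩ := hL₁ L hle f (by simp)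
  have hcoef : ∀ n : ℤ, (f : LaurentSeries Q̄).coeff n
      = algebraMap ↥L Q̄ ((fL : LaurentSeries ↥L).coeff n) := by
    intro n
    rw [← hfL, fd27_iota_coe, coeffMap_coeff]
  -- the inertia field `K0`
  obtain ⟨K0, hK0L, hK0fix, hK0unif, -, hK0dec⟩ := du77_inertia_field A hq hA L
  have hLfix : ∀ h σ : GQ, (∀ x ∈ L, h x = x) →
      coeffMap ((h * σ : GQ) : Q̄ →+* Q̄) (f : LaurentSeries Q̄)
        = coeffMap ((σ : GQ) : Q̄ →+* Q̄) (f : LaurentSeries Q̄) := by
    intro h σ hh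
    ext n
    rw [coeffMap_coeff, coeffMap_coeff, hcoef n]
    show h (σ (algebraMap ↥L Q̄ ((fL : LaurentSeries ↥L).coeff n)))
      = σ (algebraMap ↥L Q̄ ((fL : LaurentSeries ↥L).coeff n))
    rw [← AlgEquiv.restrictNormal_commutes σ ↥L]
    exact hh _ (SetLike.coe_mem _)
  have hfLS : (f : LaurentSeries Q̄) ≠ 0 := fun h0 => hf (Subtype.ext h0)
  have hK : ∀ g : ↥K0.fixingSubgroup, ∃ h' ∈ modularFunctionFieldBar (N * q),
      coeffMap (fd32_phi K0 g) (f : LaurentSeries Q̄) = (f : LaurentSeries Q̄) * h' ^ m := by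
    intro g
    obtain ⟨h, hhL, hτ⟩ := hK0dec (g : GQ)
      (fun x hx => (IntermediateField.mem_fixingSubgroup_iff K0 (g : GQ)).mp g.2 x hx)
    obtain ⟨hh, hhh⟩ := hI (h * (g : GQ)) hτ
    refine ⟨(hh : LaurentSeries Q̄), hh.2, ?_⟩
    have h1 := congrArg (fun z : ↥(modularFunctionFieldBar (N * q)) => (z : LaurentSeries Q̄)) hhh
    simp only [coe_arithmeticRingAut_apply] at h1
    rw [hLfix h (g : GQ) hhL] at h1
    exact h1
  have hfin : (Set.range fun g : ↥K0.fixingSubgroup =>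
      coeffMap (fd32_phi K0 g) (f : LaurentSeries Q̄)).Finite := by
    refine Set.Finite.subset (Set.finite_range (fun τ : ↥L ≃ₐ[ℚ] ↥L =>
      coeffMap (algebraMap ↥L Q̄) (coeffMap ((τ : ↥L ≃ₐ[ℚ] ↥L) : ↥L →+* ↥L)
        (fL : LaurentSeries ↥L)))) ?_
    rintro _ ⟨g, rfl⟩
    refine ⟨(g : GQ).restrictNormal ↥L, ?_⟩
    ext n
    show algebraMap ↥L Q̄ (((g : GQ).restrictNormal ↥L) ((fL : LaurentSeries ↥L).coeff n))
      = (g : GQ) ((f : LaurentSeries Q̄).coeff n)
    rw [hcoef n]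
    exact AlgEquiv.restrictNormal_commutes (g : GQ) ↥L _
  -- Kummer descent
  obtain ⟨a1, ha1, k, hkF, hk0, hinv⟩ := kd17_descent (fd32_phi K0) (fd32_phi_mul K0)
    (modularFunctionFieldBar (N * q)) hm hfLS hK hfin
  obtain ⟨k', hk'⟩ : ∃ k' : ↥(modularFunctionFieldBar (N * q)), (k' : LaurentSeries Q̄) = k :=
    ⟨⟨k, hkF⟩, rfl⟩
  have hk'0 : k' ≠ 0 := by
    rintro rfl
    exact hk0 hk'.symm
  have hca1 : algebraMap Q̄ ↥(modularFunctionFieldBar (N * q)) a1 ≠ 0 :=
    (map_ne_zero _).mpr ha1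
  obtain ⟨f0, hf0def⟩ : ∃ f0 : ↥(modularFunctionFieldBar (N * q)),
      f0 = algebraMap Q̄ ↥(modularFunctionFieldBar (N * q)) a1 * f * k' ^ m := ⟨_, rfl⟩
  have hf00 : f0 ≠ 0 := by
    rw [hf0def]
    exact mul_ne_zero (mul_ne_zero hca1 hf) (pow_ne_zero m hk'0)
  have hf0coe : (f0 : LaurentSeries Q̄) = HahnSeries.C a1 * (f : LaurentSeries Q̄) * k ^ m := by
    rw [hf0def, ← hk']
    show ((algebraMap Q̄ ↥(modularFunctionFieldBar (N * q)) a1 :
      ↥(modularFunctionFieldBar (N * q))) : LaurentSeries Q̄) * (f : LaurentSeries Q̄)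
        * (k' : LaurentSeries Q̄) ^ m = _
    rw [fd32_coe_algebraMap]
  have hfix0 : ∀ σ : GQ, (∀ x ∈ K0, σ x = x) →
      arithmeticRingAut (modularFunctionFieldFull (N * q)) σ f0 = f0 := by
    intro σ hσ
    apply Subtype.ext
    rw [coe_arithmeticRingAut_apply, hf0coe]
    exact hinv ⟨σ, (IntermediateField.mem_fixingSubgroup_iff K0 σ).mpr hσ⟩
  obtain ⟨y0, hy0⟩ := cd36_exists_of_fixed K0 (N * q) f0 hfix0
  have hy00 : y0 ≠ 0 := by
    rintro rfl
    rw [map_zero] at hy0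
    exact hf00 hy0.symm
  -- the number field `K0` and the discrete valuation ring `A ∩ K0`
  haveI hK0fd : FiniteDimensional ℚ ↥K0 :=
    Module.Finite.of_injective (IntermediateField.inclusion hK0L).toLinearMap
      (IntermediateField.inclusion hK0L).injective
  haveI hNF : NumberField ↥K0 := fd27_numberField K0 hK0fd
  haveI hdvr : IsDiscreteValuationRing ↥(A.comap (algebraMap ↥K0 Q̄)) :=
    nf23_comap_isDVR_of_liesOverPrime (algebraMap ↥K0 Q̄) A hq.ne_zero hA
  letI alg : Algebra ↥(A.comap (algebraMap ↥K0 Q̄)) ↥(modularFunctionFieldFullC ↥K0 (N * q)) :=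
    ((algebraMap ↥K0 ↥(modularFunctionFieldFullC ↥K0 (N * q))).comp
      (algebraMap ↥(A.comap (algebraMap ↥K0 Q̄)) ↥K0)).toAlgebra
  haveI htower : IsScalarTower ↥(A.comap (algebraMap ↥K0 Q̄)) ↥K0
      ↥(modularFunctionFieldFullC ↥K0 (N * q)) := IsScalarTower.of_algebraMap_eq (fun _ => rfl)
  have hunit : ∀ n : ℕ, Nat.Coprime n q →
      IsUnit ((n : ℕ) : ↥(A.comap (algebraMap ↥K0 Q̄))) := by
    intro n hn
    obtain ⟨μ, hμ⟩ := nf23_exists_natCast_mul_eq_one (algebraMap ↥K0 Q̄) A hA hn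
    exact IsUnit.of_mul_eq_one _ hμ
  have hqirr : Irreducible ((q : ℕ) : ↥(A.comap (algebraMap ↥K0 Q̄))) := by
    rw [IsDiscreteValuationRing.irreducible_iff_uniformizer]
    apply le_antisymm
    · intro x hx
      have h1 : ((x : ↥K0)) ∈ (A.comap (algebraMap ↥K0 Q̄)).nonunits :=
        (ValuationSubring.coe_mem_nonunits_iff).mpr hx
      rw [nf23_mem_nonunits_comap] at h1
      obtain ⟨y, hyK0, hyA, hxy⟩ := hK0unif (algebraMap ↥K0 Q̄ (x : ↥K0)) (x : ↥K0).2 h1
      rw [Ideal.mem_span_singleton]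
      refine ⟨⟨⟨y, hyK0⟩, hyA⟩, ?_⟩
      apply Subtype.ext
      apply Subtype.ext
      simpa using hxy
    · rw [Ideal.span_singleton_le_iff_mem, ← ValuationSubring.coe_mem_nonunits_iff,
        nf23_mem_nonunits_comap]
      push_cast
      exact hA
  -- the hypotheses of CORE36
  have hιcoe : ∀ x : ↥(modularFunctionFieldFullC ↥K0 (N * q)),
      ((fd27_iota (algebraMap ↥K0 Q̄) (N * q) x : ↥(modularFunctionFieldBar (N * q))) :
        LaurentSeries Q̄) = coeffMap (algebraMap ↥K0 Q̄) (x : LaurentSeries ↥K0) :=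
    fun x => fd27_iota_coe _ _ x
  have hP1 : ∀ P : Place ↥K0 ↥(modularFunctionFieldFullC ↥K0 (N * q)), (m : ℤ) ∣ P.ord y0 := by
    intro P
    refine cx_modular_place_dvd (K0 := ↥K0) (fd27_iota (algebraMap ↥K0 Q̄) (N * q)) hιcoe
      (m : ℤ) y0 ?_ P
    intro P'
    rw [hy0, hf0def, P'.ord_mul (mul_ne_zero hca1 hf) (pow_ne_zero m hk'0),
      P'.ord_mul hca1 hf, relim_ord_algebraMap, relim_ord_pow, zero_add]
    exact dvd_add (hdiv P') (dvd_mul_right _ _)
  -- the two norms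
  obtain ⟨dA, hdA⟩ := fd32_normABar_const N q a1
  obtain ⟨dB, hdB⟩ := fd32_normBBar_const N q a1
  have hnAiota : fd27_iota (algebraMap ↥K0 Q̄) N (s35i62_normA ↥K0 N q y0)
      = algebraMap Q̄ ↥(modularFunctionFieldBar N) (a1 ^ dA)
        * (a * s35i62_normABar N q k') ^ m := by
    rw [nbs92_normA (algebraMap ↥K0 Q̄) N q hq hqN y0, hy0, hf0def, map_mul, map_mul, map_pow,
      hdA, ha, mul_pow, mul_assoc]
  have hnBiota : fd27_iota (algebraMap ↥K0 Q̄) N (s35i62_normB ↥K0 N q y0)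
      = algebraMap Q̄ ↥(modularFunctionFieldBar N) (a1 ^ dB)
        * (b * s35i62_normBBar N q k') ^ m := by
    rw [nbs92_normB (algebraMap ↥K0 Q̄) N q hq hqN y0, hy0, hf0def, map_mul, map_mul, map_pow,
      hdB, hb, mul_pow, mul_assoc]
  have hnA0 : s35i62_normA ↥K0 N q y0 ≠ 0 := by
    intro h0
    have h1 := hnAiota
    rw [h0, map_zero] at h1
    exact (mul_ne_zero ((map_ne_zero _).mpr (pow_ne_zero dA ha1))
      (pow_ne_zero m (mul_ne_zero ha0 (fd32_normABar_ne_zero N q hk'0)))) h1.symm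
  have hnB0 : s35i62_normB ↥K0 N q y0 ≠ 0 := by
    intro h0
    have h1 := hnBiota
    rw [h0, map_zero] at h1
    exact (mul_ne_zero ((map_ne_zero _).mpr (pow_ne_zero dB ha1))
      (pow_ne_zero m (mul_ne_zero hb0 (fd32_normBBar_ne_zero N q hk'0)))) h1.symm
  obtain ⟨ca, a0, hca, ha0', hnA⟩ := fd32_root_descent K0 N hm (s35i62_normA ↥K0 N q y0) hnA0
    (a * s35i62_normABar N q k') (a1 ^ dA) hnAiota
  obtain ⟨cb, b0, hcb, hb0', hnB⟩ := fd32_root_descent K0 N hm (s35i62_normB ↥K0 N q y0) hnB0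
    (b * s35i62_normBBar N q k') (a1 ^ dB) hnBiota
  -- CORE36 over `K0`
  obtain ⟨f₀, c', hf₀, hc', hmain⟩ := hcore ↥(A.comap (algebraMap ↥K0 Q̄)) ↥K0 hqirr hunit
    y0 a0 b0 ca cb hy00 ha0' hb0' hca hcb hP1 hnA hnB
  have hmain' := congrArg (fd27_iota (algebraMap ↥K0 Q̄) (N * q)) hmain
  rw [map_pow, hy0, map_mul, map_pow, fd27_iota_algebraMap, hf0def] at hmain'
  -- the `m`-th root of the constant
  obtain ⟨γ, hγ⟩ := IsAlgClosed.exists_pow_nat_eq ((algebraMap ↥K0 Q̄ c') / a1 ^ c) hm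
  refine ⟨algebraMap Q̄ ↥(modularFunctionFieldBar (N * q)) γ
    * fd27_iota (algebraMap ↥K0 Q̄) (N * q) f₀ / k' ^ c, ?_⟩
  have hΓ : (algebraMap Q̄ ↥(modularFunctionFieldBar (N * q)) γ) ^ m
      = algebraMap Q̄ ↥(modularFunctionFieldBar (N * q)) (algebraMap ↥K0 Q̄ c')
        / (algebraMap Q̄ ↥(modularFunctionFieldBar (N * q)) a1) ^ c := by
    rw [← map_pow, hγ, map_div₀, map_pow]
  have hpc : (algebraMap Q̄ ↥(modularFunctionFieldBar (N * q)) a1) ^ c ≠ 0 := pow_ne_zero c hca1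
  have hkc : (k' ^ c) ^ m ≠ 0 := pow_ne_zero m (pow_ne_zero c hk'0)
  rw [div_pow, mul_pow, hΓ, div_eq_iff hkc, div_mul_eq_mul_div, div_eq_iff hpc,
    ← hmain']
  ring

/-- **P-FD36**: `s36i62_Pkg_FieldDef` of `S36/Iface62`. -/
theorem fd32_pkg_fieldDef : s36i62_Pkg_FieldDef := by
  intro N q p _ _ hq hqN hq2N hp hpq hcore
  obtain ⟨c, hc0, hcore⟩ := hcore
  exact ⟨c, hc0, fun n => fd32_ffInv N q hq hqN (p ^ n) (pow_pos hp.pos n) c (hcore n)⟩

end Main

end Fermat.Agent.S36
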