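import Fermat.Agent.S36.LevelInv52
import Fermat.Agent.S36.Iface62

/-!
# S36 lab (helper52): the package P-LEVEL36, function-field form

Row 586 (LVL-rigid).  `lq52_pkg_levelFF : s36i62_Pkg_LevelFF` — the literal package `Prop` of
`Iface62` (helper62): (FF-INV) at the rigid levels `N''` (multiples of `N` with the same
`q`-part) gives (FF-INV) at level `N`.

Proof: `p₀ ∈ {2, 3}`, `p₀ ≠ q`; `r ∈ {11, 23}`, `r ≠ q`; the rigid level is
`N₂ = lq52_lvl (lq52_lvl N p₀) r` and `lq52_ffInv_rigid` (LevelInv52) brings (FF-INV) down with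
the constant `c * (r + 1) * (p₀ + 1)` (independent of the exponent `p ^ n`).
-/

set_option autoImplicit false
set_option linter.style.haveILetI false
set_option linter.style.longLine false

namespace Fermat.Agent.S36

/-- **P-LEVEL36 (function-field form)**: the literal package of `Iface62`. -/
theorem lq52_pkg_levelFF : s36i62_Pkg_LevelFF := by
  intro N q p _ _ hq hqN hq2N hp hpq hrig
  obtain ⟨p₀, hp₀, hp₀q⟩ : ∃ p₀ : ℕ, (p₀ = 2 ∨ p₀ = 3) ∧ p₀ ≠ q := by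
    by_cases h : q = 2
    · exact ⟨3, Or.inr rfl, by omega⟩
    · exact ⟨2, Or.inl rfl, fun e => h e.symm⟩
  obtain ⟨r, hr, hr12, hrq⟩ : ∃ r : ℕ, r.Prime ∧ r % 12 = 11 ∧ r ≠ q := by
    by_cases h : q = 11
    · exact ⟨23, by norm_num, by norm_num, by omega⟩
    · exact ⟨11, by norm_num, by norm_num, fun e => h e.symm⟩
  have hp₀prime : p₀.Prime := by
    rcases hp₀ with rfl | rfl
    · exact Nat.prime_two
    · exact Nat.prime_three
  haveI hN1 : NeZero (lq52_lvl N p₀) := ⟨lq52_lvl_ne_zero (NeZero.ne N) hp₀prime.ne_zero⟩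
  haveI hN2 : NeZero (lq52_lvl (lq52_lvl N p₀) r) :=
    ⟨lq52_lvl_ne_zero (NeZero.ne (lq52_lvl N p₀)) hr.ne_zero⟩
  have hqN2 : q ∣ lq52_lvl (lq52_lvl N p₀) r :=
    hqN.trans ((lq52_dvd_lvl N p₀).trans (lq52_dvd_lvl (lq52_lvl N p₀) r))
  have hq2N2 : ¬ q ^ 2 ∣ lq52_lvl (lq52_lvl N p₀) r := fun h =>
    hq2N (lq52_sq_dvd_lvl hq hp₀prime hp₀q (lq52_sq_dvd_lvl hq hr hrq h))
  have hR : s36i62_Rigid (lq52_lvl (lq52_lvl N p₀) r) q p₀ r :=
    ⟨hp₀, hp₀q, (lq52_self_dvd_lvl N p₀).trans (lq52_dvd_lvl (lq52_lvl N p₀) r), hr, hr12, hrq,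
      lq52_self_dvd_lvl (lq52_lvl N p₀) r⟩
  obtain ⟨c, hc, hff⟩ := hrig (lq52_lvl (lq52_lvl N p₀) r) p₀ r hqN2 hq2N2 hR
  refine ⟨c * (r + 1) * (p₀ + 1),
    Nat.mul_ne_zero (Nat.mul_ne_zero hc (Nat.succ_ne_zero r)) (Nat.succ_ne_zero p₀), fun n => ?_⟩
  exact lq52_ffInv_rigid hq hp₀prime hp₀q hr hrq (lq52_lvl (lq52_lvl N p₀) r) rfl (hff n)

end Fermat.Agent.S36
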