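import Fermat.Agent.S36.PkgNewAll32
import Fermat.Agent.S36.AlphaAll32
import Fermat.Agent.S36.BetaAll32

/-!
# S36 lab, NEW36 (helper32), registry row 583: newness at EVERY prime of the level, closed

* `pna32_compat : pna32_Compat` — (2a) at every prime `q` (no hypothesis `q ∤ N`): the `α` half is
  `pa32_alphaCompat` (`AlphaAll32`), the `β` half is `tb87_compat_beta_pj40` (on `main`, `q ∤ N`)
  resp. `pb32_betaCompat` (`BetaAll32`, `q ∣ N`); the two corestrictions are `taf22_corPar N q`
  and `tb87_corBpar N q` in both cases.
* `pna32_pkg_new_final : pna32_Pkg_New` — the newness package at every prime `q ∣ M`, `q ≠ lam`,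
  hypothesis-free.

All names are prefixed `pna32_`.
-/

set_option autoImplicit false
set_option linter.unusedSectionVars false
set_option linter.unusedVariables false
set_option linter.style.longLine false

open CongruenceSubgroup ModularCurve ModularCurve.Period AlgebraicCurve

namespace Fermat.Agent.S36

open Fermat.Agent.S35

/-- **(2a) at every prime `q`**, hypothesis-free. -/
theorem pna32_compat : pna32_Compat := by
  intro N q _ _ hq
  refine ⟨taf22_corPar N q, tb87_corBpar N q, fun p hp Θ Θ' hΘ hE hΘ' hE' n c => ⟨?_, ?_⟩⟩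
  · exact pa32_alphaCompat N q p hp.ne_zero Θ Θ' hE hE' n c
  · by_cases hqN : q ∣ N
    · exact pb32_betaCompat N q hq hqN p hp.ne_zero Θ Θ' hE hE' n c
    · exact tb87_compat_beta_pj40 N q hq hqN p hp.ne_zero Θ hE.1 hE.2 Θ' hE'.2 n c

/-- **P-NEW at every prime of the level**, hypothesis-free. -/
theorem pna32_pkg_new_final : pna32_Pkg_New :=
  pna32_pkg_new pna32_compat

end Fermat.Agent.S36
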