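/-
S36 lab, row 592 (B1-3a), sub-part POINT BOOKKEEPING (helper81; abstract, Mathlib only).

Setting: `φ : A →+* B` integral and injective, `A` integrally closed, `B` a domain
(`A` = a chart of level `q M''` along `α` or `β`, `B` = the chart of level `q² M''`), so that
Mathlib's going-down applies.

* `bk81_isIntegrallyClosed_of_field` : a domain that is integrally closed in SOME field containing
  it is integrally closed (the `IsIntegrallyClosed` input for charts = integral closures in the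
  function field);
* `bk81_injective_of_coe` : a chart map compatible with a field embedding is injective;
* `bk81_goingDown`, `bk81_goingUp`, `bk81_lyingOver` : the three classical statements in
  `Ideal.comap φ` form;
* `bk81_le_of_only`, `bk81_le_or_le_of_only` : if `p` is the only prime (resp. `p₁, p₂` the only
  primes) of `B` over the branch prime `p'`, every prime of `B` over a point of `V(p')` contains
  `p` (resp. `p₁` or `p₂`);
* `bk81_comap_eq_of_only` : the only prime over `p'` does lie over `p'`;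
* `bk81_eq_of_radicial` : radicial uniqueness (`b ^ N ∈ φ A + p` for all `b`): a prime containing
  `p` is determined by its contraction;
* `bk81_unique_over` : over a point `n'` of a branch `V(a')` with a unique, radicial prime `pu`
  above `a'` there is EXACTLY ONE prime `n` of `B`; it contains `pu` and every prime `P` of `B`
  with `P.comap φ ≤ n'`;
* `bk81_le_of_comap_le` : the same in "`P.comap φ ≤ n.comap φ → P ≤ n`" form;
* `bk81_unique_over_node` : over a NODE of level `q` (a prime containing both branch primes)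
  there is exactly one prime of `B`, and it contains `p₁, p₂, p₃` (a triple point);
* `bk81_triple_of_two` : with the two maps `α`, `β`: a prime of `B` containing two of
  `p₁, p₂, p₃` contains all three;
* `bk81_isMaximal_comap`, `bk81_isMaximal_of_comap` : maximality transfers both ways;
* `bk81_unit_transfer` : `x ∉ n` for the unique prime `n` over `n'`: some multiple of `x` is
  `φ a` with `a ∉ n'`.
-/
import Mathlib

set_option autoImplicit false

namespace Fermat.Agent.S36

section Closed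

/-- A domain which is integrally closed in SOME field containing it is integrally closed. -/
theorem bk81_isIntegrallyClosed_of_field {A F : Type*} [CommRing A] [IsDomain A] [Field F]
    (ι : A →+* F) (hι : Function.Injective ι)
    (hcl : ∀ x : F, ι.IsIntegralElem x → x ∈ ι.range) : IsIntegrallyClosed A := by
  refine (isIntegrallyClosed_iff (FractionRing A)).mpr fun {x} hx => ?_
  let g : FractionRing A →+* F := IsFractionRing.lift hι
  have hg : g.comp (algebraMap A (FractionRing A)) = ι :=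
    RingHom.ext fun a => IsFractionRing.lift_algebraMap hι a
  obtain ⟨p, hp, hpx⟩ := hx
  have hgx : ι.IsIntegralElem (g x) := by
    refine ⟨p, hp, ?_⟩
    have := Polynomial.hom_eval₂ p (algebraMap A (FractionRing A)) g x
    rw [hg] at this
    rw [← this, hpx, map_zero]
  obtain ⟨y, hy⟩ := hcl (g x) hgx
  refine ⟨y, g.injective ?_⟩
  rw [← hy, ← hg]; rfl

/-- A map of charts compatible with an embedding of the ambient fields is injective. -/
theorem bk81_injective_of_coe {A B F' F : Type*} [CommRing A] [CommRing B] [Field F'] [Field F]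
    (ιA : A →+* F') (hιA : Function.Injective ιA) (ιB : B →+* F) (α : F' →+* F)
    (φ : A →+* B) (hφ : ∀ x : A, ιB (φ x) = α (ιA x)) : Function.Injective φ := by
  intro x y hxy
  apply hιA
  apply α.injective
  rw [← hφ, ← hφ, hxy]

end Closed

section Single

variable {A B : Type*} [CommRing A] [CommRing B]

/-- Lying over, `comap` form. -/
theorem bk81_lyingOver (φ : A →+* B) (hinj : Function.Injective φ) (hint : φ.IsIntegral)
    (n' : Ideal A) [n'.IsPrime] : ∃ n : Ideal B, n.IsPrime ∧ n.comap φ = n' := by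
  let _ : Algebra A B := φ.toAlgebra
  have : Algebra.IsIntegral A B := ⟨hint⟩
  have hker : (⊥ : Ideal B).comap (algebraMap A B) ≤ n' := by
    intro x hx
    have h0 : φ x = 0 := hx
    have : x = 0 := hinj (by rw [h0, map_zero])
    rw [this]; exact n'.zero_mem
  obtain ⟨Q, -, hQ, hQc⟩ := Ideal.exists_ideal_over_prime_of_isIntegral n' (⊥ : Ideal B) hker
  exact ⟨Q, hQ, hQc⟩

/-- Going up, `comap` form. -/
theorem bk81_goingUp (φ : A →+* B) (hint : φ.IsIntegral)
    (P : Ideal B) [P.IsPrime] (n' : Ideal A) [n'.IsPrime] (hle : P.comap φ ≤ n') :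
    ∃ n : Ideal B, n.IsPrime ∧ P ≤ n ∧ n.comap φ = n' := by
  let _ : Algebra A B := φ.toAlgebra
  have : Algebra.IsIntegral A B := ⟨hint⟩
  obtain ⟨Q, hPQ, hQ, hQc⟩ := Ideal.exists_ideal_over_prime_of_isIntegral_of_isPrime n' P hle
  exact ⟨Q, hQ, hPQ, hQc⟩

/-- Maximality descends along an integral map. -/
theorem bk81_isMaximal_comap (φ : A →+* B) (hint : φ.IsIntegral) (n : Ideal B) [n.IsMaximal] :
    (n.comap φ).IsMaximal :=
  Ideal.isMaximal_comap_of_isIntegral_of_isMaximal' φ hint n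

/-- Maximality ascends along an integral map. -/
theorem bk81_isMaximal_of_comap (φ : A →+* B) (hint : φ.IsIntegral) (n : Ideal B) [n.IsPrime]
    (h : (n.comap φ).IsMaximal) : n.IsMaximal :=
  Ideal.isMaximal_of_isIntegral_of_isMaximal_comap' φ hint n h

/-- Radicial uniqueness: if every element of `B` has a positive power in `φ A + p`, a prime of
`B` containing `p` is determined by its contraction to `A`. -/
theorem bk81_le_of_radicial (φ : A →+* B) (p : Ideal B)
    (hrad : ∀ b : B, ∃ (N : ℕ) (a : A), 0 < N ∧ b ^ N - φ a ∈ p)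
    (n₁ n₂ : Ideal B) [n₂.IsPrime] (h₁ : p ≤ n₁) (h₂ : p ≤ n₂)
    (hc : n₁.comap φ ≤ n₂.comap φ) : n₁ ≤ n₂ := by
  intro b hb
  obtain ⟨N, a, hN, hNa⟩ := hrad b
  have hbN : b ^ N ∈ n₁ := Ideal.pow_mem_of_mem n₁ hb N hN
  have ha1 : φ a ∈ n₁ := by
    have := n₁.sub_mem hbN (h₁ hNa)
    simpa using this
  have ha2 : φ a ∈ n₂ := hc ha1
  have hbN2 : b ^ N ∈ n₂ := by
    have := n₂.add_mem (h₂ hNa) ha2
    simpa using this
  exact Ideal.IsPrime.mem_of_pow_mem inferInstance N hbN2

/-- Radicial uniqueness, equality form. -/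
theorem bk81_eq_of_radicial (φ : A →+* B) (p : Ideal B)
    (hrad : ∀ b : B, ∃ (N : ℕ) (a : A), 0 < N ∧ b ^ N - φ a ∈ p)
    (n₁ n₂ : Ideal B) [n₁.IsPrime] [n₂.IsPrime] (h₁ : p ≤ n₁) (h₂ : p ≤ n₂)
    (hc : n₁.comap φ = n₂.comap φ) : n₁ = n₂ :=
  le_antisymm (bk81_le_of_radicial φ p hrad n₁ n₂ h₁ h₂ hc.le)
    (bk81_le_of_radicial φ p hrad n₂ n₁ h₂ h₁ hc.ge)

variable [IsIntegrallyClosed A] [IsDomain B]

/-- Going down for an integral injective map out of an integrally closed domain, `comap` form. -/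
theorem bk81_goingDown (φ : A →+* B) (hinj : Function.Injective φ) (hint : φ.IsIntegral)
    (n : Ideal B) [n.IsPrime] (p' : Ideal A) [p'.IsPrime] (hle : p' ≤ n.comap φ) :
    ∃ P : Ideal B, P.IsPrime ∧ P ≤ n ∧ P.comap φ = p' := by
  let _ : Algebra A B := φ.toAlgebra
  have : FaithfulSMul A B := (faithfulSMul_iff_algebraMap_injective A B).mpr hinj
  have : Algebra.IsIntegral A B := ⟨hint⟩
  have : (n.comap φ).IsPrime := Ideal.comap_isPrime φ n
  have : n.LiesOver (n.comap φ) := ⟨rfl⟩
  obtain ⟨P, hPn, hP, hPo⟩ :=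
    Ideal.exists_ideal_le_liesOver_of_le (p := p') (q := n.comap φ) n hle
  exact ⟨P, hP, hPn, hPo.over.symm⟩

/-- If `p` is the only prime of `B` over `p'`, every prime of `B` over a point of `V(p')`
contains `p`. -/
theorem bk81_le_of_only (φ : A →+* B) (hinj : Function.Injective φ) (hint : φ.IsIntegral)
    (p' : Ideal A) [p'.IsPrime] (p : Ideal B)
    (honly : ∀ P : Ideal B, P.IsPrime → P.comap φ = p' → P = p)
    (n : Ideal B) [n.IsPrime] (hle : p' ≤ n.comap φ) : p ≤ n := by
  obtain ⟨P, hP, hPn, hPc⟩ := bk81_goingDown φ hinj hint n p' hle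
  rw [← honly P hP hPc]; exact hPn

/-- If `p₁`, `p₂` are the only primes of `B` over `p'`, every prime of `B` over a point of
`V(p')` contains `p₁` or `p₂`. -/
theorem bk81_le_or_le_of_only (φ : A →+* B) (hinj : Function.Injective φ) (hint : φ.IsIntegral)
    (p' : Ideal A) [p'.IsPrime] (p₁ p₂ : Ideal B)
    (honly : ∀ P : Ideal B, P.IsPrime → P.comap φ = p' → P = p₁ ∨ P = p₂)
    (n : Ideal B) [n.IsPrime] (hle : p' ≤ n.comap φ) : p₁ ≤ n ∨ p₂ ≤ n := by
  obtain ⟨P, hP, hPn, hPc⟩ := bk81_goingDown φ hinj hint n p' hle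
  rcases honly P hP hPc with h | h
  · left; rw [← h]; exact hPn
  · right; rw [← h]; exact hPn

omit [IsIntegrallyClosed A] [IsDomain B] in
/-- The only prime over `p'` does lie over `p'`. -/
theorem bk81_comap_eq_of_only (φ : A →+* B) (hinj : Function.Injective φ) (hint : φ.IsIntegral)
    (p' : Ideal A) [p'.IsPrime] (p : Ideal B)
    (honly : ∀ P : Ideal B, P.IsPrime → P.comap φ = p' → P = p) :
    p.IsPrime ∧ p.comap φ = p' := by
  obtain ⟨P, hP, hPc⟩ := bk81_lyingOver φ hinj hint p'
  rw [← honly P hP hPc]; exact ⟨hP, hPc⟩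

/-- Over a point `n'` of the branch `V(a')`, when `pu` is the only prime of `B` over `a'` and
`B / pu` is radicial over `A`: there is EXACTLY ONE prime `n` of `B` over `n'`; it contains `pu`
and every prime `P` of `B` with `P.comap φ ≤ n'`. -/
theorem bk81_unique_over (φ : A →+* B) (hinj : Function.Injective φ) (hint : φ.IsIntegral)
    (a' : Ideal A) [a'.IsPrime] (pu : Ideal B)
    (honly : ∀ P : Ideal B, P.IsPrime → P.comap φ = a' → P = pu)
    (hrad : ∀ b : B, ∃ (N : ℕ) (a : A), 0 < N ∧ b ^ N - φ a ∈ pu)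
    (n' : Ideal A) [n'.IsPrime] (ha : a' ≤ n') :
    ∃ n : Ideal B, n.IsPrime ∧ n.comap φ = n' ∧ pu ≤ n ∧
      (∀ m : Ideal B, m.IsPrime → m.comap φ = n' → m = n) ∧
      (∀ P : Ideal B, P.IsPrime → P.comap φ ≤ n' → P ≤ n) := by
  obtain ⟨n, hn, hnc⟩ := bk81_lyingOver φ hinj hint n'
  have hpu : ∀ m : Ideal B, m.IsPrime → m.comap φ = n' → pu ≤ m := by
    intro m hm hmc
    exact bk81_le_of_only φ hinj hint a' pu honly m (by rw [hmc]; exact ha)
  have huniq : ∀ m : Ideal B, m.IsPrime → m.comap φ = n' → m = n := by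
    intro m hm hmc
    exact bk81_eq_of_radicial φ pu hrad m n (hpu m hm hmc) (hpu n hn hnc) (by rw [hmc, hnc])
  refine ⟨n, hn, hnc, hpu n hn hnc, huniq, ?_⟩
  intro P hP hPc
  obtain ⟨Q, hQ, hPQ, hQc⟩ := bk81_goingUp φ hint P n' hPc
  rw [← huniq Q hQ hQc]; exact hPQ

/-- The same in relative form: over a point of the radicial branch, `P.comap φ ≤ n.comap φ`
implies `P ≤ n`. -/
theorem bk81_le_of_comap_le (φ : A →+* B) (hinj : Function.Injective φ) (hint : φ.IsIntegral)
    (a' : Ideal A) [a'.IsPrime] (pu : Ideal B)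
    (honly : ∀ P : Ideal B, P.IsPrime → P.comap φ = a' → P = pu)
    (hrad : ∀ b : B, ∃ (N : ℕ) (a : A), 0 < N ∧ b ^ N - φ a ∈ pu)
    (n : Ideal B) [n.IsPrime] (ha : a' ≤ n.comap φ)
    (P : Ideal B) [P.IsPrime] (hP : P.comap φ ≤ n.comap φ) : P ≤ n := by
  have : (n.comap φ).IsPrime := Ideal.comap_isPrime φ n
  obtain ⟨n₀, hn₀, hn₀c, -, huniq, hall⟩ :=
    bk81_unique_over φ hinj hint a' pu honly hrad (n.comap φ) ha
  rw [huniq n inferInstance rfl]
  exact hall P inferInstance hP

/-- **The triple point is the only point over a node.**  `a'` and `b'` the two branch primes of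
`A`, `pu` the only prime of `B` over `a'` (radicial), `p₁`, `p₂` primes of `B` over `b'`: over a
node `n'` (a prime containing `a'` and `b'`) there is exactly one prime `n` of `B`, and it
contains `pu`, `p₁`, `p₂`. -/
theorem bk81_unique_over_node (φ : A →+* B) (hinj : Function.Injective φ) (hint : φ.IsIntegral)
    (a' b' : Ideal A) [a'.IsPrime] (pu p₁ p₂ : Ideal B) [p₁.IsPrime] [p₂.IsPrime]
    (honly : ∀ P : Ideal B, P.IsPrime → P.comap φ = a' → P = pu)
    (hrad : ∀ b : B, ∃ (N : ℕ) (a : A), 0 < N ∧ b ^ N - φ a ∈ pu)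
    (h₁ : p₁.comap φ ≤ b') (h₂ : p₂.comap φ ≤ b')
    (n' : Ideal A) [n'.IsPrime] (ha : a' ≤ n') (hb : b' ≤ n') :
    ∃ n : Ideal B, n.IsPrime ∧ n.comap φ = n' ∧ pu ≤ n ∧ p₁ ≤ n ∧ p₂ ≤ n ∧
      (∀ m : Ideal B, m.IsPrime → m.comap φ = n' → m = n) := by
  obtain ⟨n, hn, hnc, hpu, huniq, hall⟩ :=
    bk81_unique_over φ hinj hint a' pu honly hrad n' ha
  exact ⟨n, hn, hnc, hpu, hall p₁ inferInstance (h₁.trans hb), hall p₂ inferInstance (h₂.trans hb),
    huniq⟩

omit [IsIntegrallyClosed A] [IsDomain B] in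
/-- Unit transfer: if `n` is the only prime of `B` over the prime `n'` of `A` and `x ∉ n`, then
some multiple of `x` is the image of an element of `A` outside `n'`. -/
theorem bk81_unit_transfer (φ : A →+* B) (hint : φ.IsIntegral)
    (n' : Ideal A) [n'.IsPrime] (n : Ideal B)
    (huniq : ∀ m : Ideal B, m.IsPrime → m.comap φ = n' → m = n)
    (x : B) (hx : x ∉ n) : ∃ (y : B) (a : A), a ∉ n' ∧ x * y = φ a := by
  by_contra hcon
  -- the ideal `(x)` has contraction inside `n'`, so some prime over `n'` contains `x`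
  have hle : (Ideal.span {x}).comap φ ≤ n' := by
    intro a ha
    by_contra han
    obtain ⟨y, hy⟩ := Ideal.mem_span_singleton'.mp ha
    exact hcon ⟨y, a, han, by rw [mul_comm]; exact hy⟩
  let _ : Algebra A B := φ.toAlgebra
  have : Algebra.IsIntegral A B := ⟨hint⟩
  obtain ⟨Q, hxQ, hQ, hQc⟩ := Ideal.exists_ideal_over_prime_of_isIntegral n' (Ideal.span {x}) hle
  have hQn : Q = n := huniq Q hQ hQc
  exact hx (hQn ▸ hxQ (Ideal.mem_span_singleton_self x))

end Single

section Two

variable {A₁ A₂ B : Type*} [CommRing A₁] [CommRing A₂] [CommRing B]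
  [IsIntegrallyClosed A₁] [IsIntegrallyClosed A₂] [IsDomain B]

/-- **Two branches meet only at triple points.**  `α : A₁ → B`, `β : A₂ → B` the two degeneracy
maps of charts; `p₁, p₂, p₃` the three branch primes of `B`.  Along `α`: `p₃` is the only prime
over `a₀` (radicial), `p₁` and `p₂` have the same contraction.  Along `β`: `p₁` is the only prime
over `bI` (radicial), `p₂` and `p₃` have the same contraction.  Then a prime of `B` containing two
of `p₁, p₂, p₃` contains all three. -/
theorem bk81_triple_of_two (α : A₁ →+* B) (hαinj : Function.Injective α) (hαint : α.IsIntegral)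
    (β : A₂ →+* B) (hβinj : Function.Injective β) (hβint : β.IsIntegral)
    (p₁ p₂ p₃ : Ideal B) [p₁.IsPrime] [p₂.IsPrime] [p₃.IsPrime]
    (a₀ : Ideal A₁) [a₀.IsPrime] (bI : Ideal A₂) [bI.IsPrime]
    (hα3 : ∀ P : Ideal B, P.IsPrime → P.comap α = a₀ → P = p₃)
    (hαrad : ∀ b : B, ∃ (N : ℕ) (a : A₁), 0 < N ∧ b ^ N - α a ∈ p₃)
    (hα12 : p₁.comap α = p₂.comap α)
    (hβ1 : ∀ P : Ideal B, P.IsPrime → P.comap β = bI → P = p₁)
    (hβrad : ∀ b : B, ∃ (N : ℕ) (a : A₂), 0 < N ∧ b ^ N - β a ∈ p₁)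
    (hβ23 : p₂.comap β = p₃.comap β)
    (n : Ideal B) [n.IsPrime]
    (h : (p₁ ≤ n ∧ p₂ ≤ n) ∨ (p₁ ≤ n ∧ p₃ ≤ n) ∨ (p₂ ≤ n ∧ p₃ ≤ n)) :
    p₁ ≤ n ∧ p₂ ≤ n ∧ p₃ ≤ n := by
  have e3 : p₃.comap α = a₀ := (bk81_comap_eq_of_only α hαinj hαint a₀ p₃ hα3).2
  have e1 : p₁.comap β = bI := (bk81_comap_eq_of_only β hβinj hβint bI p₁ hβ1).2
  rcases h with ⟨h1, h2⟩ | ⟨h1, h3⟩ | ⟨h2, h3⟩
  · refine ⟨h1, h2, ?_⟩
    refine bk81_le_of_comap_le β hβinj hβint bI p₁ hβ1 hβrad n ?_ p₃ ?_
    · rw [← e1]; exact Ideal.comap_mono h1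
    · rw [← hβ23]; exact Ideal.comap_mono h2
  · refine ⟨h1, ?_, h3⟩
    refine bk81_le_of_comap_le α hαinj hαint a₀ p₃ hα3 hαrad n ?_ p₂ ?_
    · rw [← e3]; exact Ideal.comap_mono h3
    · rw [← hα12]; exact Ideal.comap_mono h1
  · refine ⟨?_, h2, h3⟩
    refine bk81_le_of_comap_le α hαinj hαint a₀ p₃ hα3 hαrad n ?_ p₁ ?_
    · rw [← e3]; exact Ideal.comap_mono h3
    · rw [hα12]; exact Ideal.comap_mono h2

end Two

end Fermat.Agent.S36
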