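import Mathlib

/-!
# S36 lab, row 592 sub-part (helper91): point bookkeeping, abstract (Mathlib only)

`A ⊆ B` is an integral extension of domains with `A` integrally closed: the level-`q` chart `A`
inside the level-`q²` chart `B` along one of the two degeneracy maps `α`, `β`.  `p0` is a branch
prime of `A` and `p3` the ONLY prime of `B` over it (along `α`: `V_3` is the only valuation over
`V_0'`; along `β`: `V_1` is the only one over `V_∞'`), and `B / p3` is radicial over `A / p0`
(`x ^ N ∈ A + p3`; the Frobenius congruence).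

* `pb91_eq_of_radicial` : two primes `m, n ⊇ p` of `B` with the same contraction to `A` coincide
  when `B / p` is radicial over `A`.
* `pb91_going_down` : going-down in the `comap` form.
* `pb91_only_over` : the hypothesis "only `p3` over `p0`" makes `p3` prime with contraction `p0`.
* `pb91_unique_over` : over EVERY prime `n' ⊇ p0` of `A` there is exactly one prime `n` of `B`;
  it contains `p3` and every ideal `p` of `B` whose contraction lies in `n'`.  In particular, over
  a NODE `n' ⊇ p∞ + p0` the unique point `n` contains `p1`, `p2`, `p3`: it is a triple point, and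
  it is the only point of `B` over `n'`.
* `pb91_comap_le` : a point on a component maps into the image component (a point on two
  components of different image maps to a node).
* `pb91_exists_mul_eq` : unit transfer — if `x` lies in no prime of `B` over `n'` then
  `x * y = a` with `a ∈ A ∖ n'` (`B_n` is the whole semilocal ring over `n'`).
* `pb91_norm_not_mem` : hence any multiplicative `Nm : B →* A` with `Nm a = a ^ d` on `A` (the
  norm) maps such `x` outside `n'`: the norm maps `B_n^×` into `A_{n'}^×`.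
* `pb91_node` : the combined statement at a node.

All names are prefixed `pb91_`.
-/

set_option autoImplicit false

namespace Fermat.Agent.S36

section pb91

variable {A B : Type*} [CommRing A] [CommRing B] [Algebra A B]

/-- Two primes over the same prime of `A` which contain an ideal `p` with `B / p` radicial over
`A` are equal. -/
theorem pb91_eq_of_radicial (p : Ideal B)
    (hrad : ∀ x : B, ∃ (N : ℕ) (a : A), 0 < N ∧ x ^ N - algebraMap A B a ∈ p)
    (m n : Ideal B) [m.IsPrime] [n.IsPrime] (hpm : p ≤ m) (hpn : p ≤ n)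
    (hmn : m.comap (algebraMap A B) = n.comap (algebraMap A B)) : m = n := by
  have key : ∀ (m n : Ideal B), m.IsPrime → n.IsPrime → p ≤ m → p ≤ n →
      m.comap (algebraMap A B) = n.comap (algebraMap A B) → m ≤ n := by
    intro m n hm hn hpm hpn hmn x hx
    obtain ⟨N, a, hN, ha⟩ := hrad x
    have h1 : algebraMap A B a ∈ m := by
      have h2 : x ^ N ∈ m := Ideal.pow_mem_of_mem m hx N hN
      have h3 : x ^ N - (x ^ N - algebraMap A B a) ∈ m := m.sub_mem h2 (hpm ha)
      simpa using h3
    have h4 : a ∈ m.comap (algebraMap A B) := h1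
    rw [hmn] at h4
    have h5 : algebraMap A B a ∈ n := h4
    have h6 : x ^ N ∈ n := by
      have h7 : (x ^ N - algebraMap A B a) + algebraMap A B a ∈ n := n.add_mem (hpn ha) h5
      simpa using h7
    exact hn.mem_of_pow_mem N h6
  exact le_antisymm (key m n inferInstance inferInstance hpm hpn hmn)
    (key n m inferInstance inferInstance hpn hpm hmn.symm)

/-- Going-down for an integral extension of an integrally closed domain, `comap` form. -/
theorem pb91_going_down [IsDomain B] [FaithfulSMul A B] [Algebra.IsIntegral A B]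
    [IsIntegrallyClosed A] (n : Ideal B) [n.IsPrime] (P' : Ideal A) [P'.IsPrime]
    (h : P' ≤ n.comap (algebraMap A B)) :
    ∃ P : Ideal B, P.IsPrime ∧ P ≤ n ∧ P.comap (algebraMap A B) = P' := by
  obtain ⟨P, hPn, hP, hPo⟩ :=
    Ideal.exists_ideal_le_liesOver_of_le (p := P') (q := n.under A) n h
  exact ⟨P, hP, hPn, hPo.over.symm⟩

/-- "Only `p3` lies over `p0`" makes `p3` a prime with contraction `p0`. -/
theorem pb91_only_over [FaithfulSMul A B] [Algebra.IsIntegral A B]
    (p0 : Ideal A) [p0.IsPrime] (p3 : Ideal B)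
    (honly : ∀ P : Ideal B, P.IsPrime → P.comap (algebraMap A B) = p0 → P = p3) :
    p3.IsPrime ∧ p3.comap (algebraMap A B) = p0 := by
  obtain ⟨Q, -, hQ, hQ0⟩ := Ideal.exists_ideal_over_prime_of_isIntegral p0 (⊥ : Ideal B)
    (by
      rw [← RingHom.ker_eq_comap_bot,
        (RingHom.injective_iff_ker_eq_bot _).mp (FaithfulSMul.algebraMap_injective A B)]
      exact bot_le)
  obtain rfl := honly Q hQ hQ0
  exact ⟨hQ, hQ0⟩

/-- **Unique point over a point of the radicial branch.**  Over every prime `n' ⊇ p0` of `A`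
there is exactly one prime `n` of `B`; it contains `p3` and every ideal of `B` whose contraction
lies in `n'`. -/
theorem pb91_unique_over [IsDomain B] [FaithfulSMul A B] [Algebra.IsIntegral A B]
    [IsIntegrallyClosed A] (p0 : Ideal A) [p0.IsPrime] (p3 : Ideal B)
    (honly : ∀ P : Ideal B, P.IsPrime → P.comap (algebraMap A B) = p0 → P = p3)
    (hrad : ∀ x : B, ∃ (N : ℕ) (a : A), 0 < N ∧ x ^ N - algebraMap A B a ∈ p3)
    (n' : Ideal A) [n'.IsPrime] (h0 : p0 ≤ n') :
    ∃ n : Ideal B, n.IsPrime ∧ n.comap (algebraMap A B) = n' ∧ p3 ≤ n ∧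
      (∀ m : Ideal B, m.IsPrime → m.comap (algebraMap A B) = n' → m = n) ∧
      (∀ p : Ideal B, p.comap (algebraMap A B) ≤ n' → p ≤ n) := by
  obtain ⟨hp3, hp30⟩ := pb91_only_over p0 p3 honly
  obtain ⟨n, hp3n, hn, hnn'⟩ := Ideal.exists_ideal_over_prime_of_isIntegral n' p3
    (by rw [hp30]; exact h0)
  have huniq : ∀ m : Ideal B, m.IsPrime → m.comap (algebraMap A B) = n' → m = n := by
    intro m hm hmn'
    obtain ⟨P, hP, hPm, hP0⟩ := pb91_going_down m p0 (by rw [hmn']; exact h0)
    obtain rfl := honly P hP hP0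
    exact pb91_eq_of_radicial P hrad m n hPm hp3n (hmn'.trans hnn'.symm)
  refine ⟨n, hn, hnn', hp3n, huniq, ?_⟩
  intro p hp
  obtain ⟨Q, hpQ, hQ, hQn'⟩ := Ideal.exists_ideal_over_prime_of_isIntegral n' p hp
  obtain rfl := huniq Q hQ hQn'
  exact hpQ

/-- A point of `B` on a component maps into the image component. -/
theorem pb91_comap_le (p n : Ideal B) (hpn : p ≤ n) :
    p.comap (algebraMap A B) ≤ n.comap (algebraMap A B) :=
  Ideal.comap_mono hpn

/-- **Unit transfer.**  If `x ∈ B` lies in no prime of `B` over the prime `n'` of `A`, then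
`x * y = a` for some `y ∈ B` and `a ∈ A ∖ n'`. -/
theorem pb91_exists_mul_eq [Algebra.IsIntegral A B] (n' : Ideal A) [n'.IsPrime] (x : B)
    (hx : ∀ Q : Ideal B, Q.IsPrime → Q.comap (algebraMap A B) = n' → x ∉ Q) :
    ∃ (y : B) (a : A), a ∉ n' ∧ x * y = algebraMap A B a := by
  by_contra hcon
  replace hcon : ∀ (y : B) (a : A), a ∉ n' → x * y ≠ algebraMap A B a :=
    fun y a ha h => hcon ⟨y, a, ha, h⟩
  have hle : (Ideal.span ({x} : Set B)).comap (algebraMap A B) ≤ n' := by
    intro a ha
    have ha' : algebraMap A B a ∈ Ideal.span ({x} : Set B) := ha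
    obtain ⟨y, hy⟩ := Ideal.mem_span_singleton'.mp ha'
    by_contra han
    exact hcon y a han (by rw [← hy, mul_comm])
  obtain ⟨Q, hxQ, hQ, hQn'⟩ :=
    Ideal.exists_ideal_over_prime_of_isIntegral n' (Ideal.span ({x} : Set B)) hle
  exact hx Q hQ hQn' (hxQ (Ideal.subset_span (Set.mem_singleton x)))

/-- **The norm maps units at the points over `n'` to units at `n'`**: for a multiplicative map
`Nm : B →* A` with `Nm a = a ^ d` on `A`. -/
theorem pb91_norm_not_mem [Algebra.IsIntegral A B] (n' : Ideal A) [n'.IsPrime]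
    (Nm : B →* A) (d : ℕ) (hNm : ∀ a : A, Nm (algebraMap A B a) = a ^ d) (x : B)
    (hx : ∀ Q : Ideal B, Q.IsPrime → Q.comap (algebraMap A B) = n' → x ∉ Q) :
    Nm x ∉ n' := by
  obtain ⟨y, a, ha, hxy⟩ := pb91_exists_mul_eq n' x hx
  intro hmem
  have h1 : Nm x * Nm y = a ^ d := by rw [← map_mul, hxy, hNm]
  have h2 : a ^ d ∈ n' := by
    rw [← h1]
    exact n'.mul_mem_right _ hmem
  exact ha (Ideal.IsPrime.mem_of_pow_mem inferInstance d h2)

/-- **Node bookkeeping.**  `p∞`, `p0` the two branch primes of `A`; `p1`, `p2` primes of `B` over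
`p∞`; `p3` the only prime of `B` over `p0`, radicial.  Over a node `n' ⊇ p∞ + p0` of `A` there is
EXACTLY ONE prime `n` of `B`; it contains `p1`, `p2`, `p3` (a triple point), and every `x ∉ n`
divides an element of `A ∖ n'` (so a norm maps `B_n^×` into `A_{n'}^×`). -/
theorem pb91_node [IsDomain B] [FaithfulSMul A B] [Algebra.IsIntegral A B]
    [IsIntegrallyClosed A] (pinf p0 : Ideal A) [p0.IsPrime] (p1 p2 p3 : Ideal B)
    (h1 : p1.comap (algebraMap A B) ≤ pinf) (h2 : p2.comap (algebraMap A B) ≤ pinf)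
    (honly : ∀ P : Ideal B, P.IsPrime → P.comap (algebraMap A B) = p0 → P = p3)
    (hrad : ∀ x : B, ∃ (N : ℕ) (a : A), 0 < N ∧ x ^ N - algebraMap A B a ∈ p3)
    (n' : Ideal A) [n'.IsPrime] (hinf : pinf ≤ n') (h0 : p0 ≤ n') :
    ∃ n : Ideal B, n.IsPrime ∧ n.comap (algebraMap A B) = n' ∧ p1 ≤ n ∧ p2 ≤ n ∧ p3 ≤ n ∧
      (∀ m : Ideal B, m.IsPrime → m.comap (algebraMap A B) = n' → m = n) ∧
      (∀ x : B, x ∉ n → ∃ (y : B) (a : A), a ∉ n' ∧ x * y = algebraMap A B a) ∧
      (∀ (Nm : B →* A) (d : ℕ), (∀ a : A, Nm (algebraMap A B a) = a ^ d) →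
        ∀ x : B, x ∉ n → Nm x ∉ n') := by
  obtain ⟨n, hn, hnn', hp3n, huniq, hall⟩ := pb91_unique_over p0 p3 honly hrad n' h0
  refine ⟨n, hn, hnn', hall p1 (h1.trans hinf), hall p2 (h2.trans hinf), hp3n, huniq, ?_, ?_⟩
  · intro x hx
    exact pb91_exists_mul_eq n' x (fun Q hQ hQn' hxQ => hx (huniq Q hQ hQn' ▸ hxQ))
  · intro Nm d hNm x hx
    exact pb91_norm_not_mem n' Nm d hNm x (fun Q hQ hQn' hxQ => hx (huniq Q hQ hQn' ▸ hxQ))

end pb91

end Fermat.Agent.S36
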