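import Fermat.Agent.S36.TripleOwes63
import Fermat.Agent.S36.ChartMaps71
import Fermat.Agent.S36.OnlyBindBeta72
import Fermat.Agent.S36.BetaV2_66
import Fermat.Agent.S36.NormSqRed86
import Fermat.Agent.S36.Split3Inst66
import Fermat.Agent.S34.ChartM15

/-!
# S36 lab (helper63): the point bookkeeping on the canonical charts of level `M' q²`

Part 1 (abstract in the charts `pk15_chart`):
* `bki63_normal`   : a chart is integrally closed in the function field (`hB'n` of `bk63_*`);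
* `bki63_adjoin_le`: `R[s] ≤ pk15_chart R s`;
* `bki63_int`      : the chart of `φ '' s'` is integral over `φ (pk15_chart R s')` (`hBint`);
* `bki63_norm_mem` : the norm along `φ` maps the chart of `φ '' s'` into the chart of `s'`.
-/

set_option autoImplicit false
set_option linter.unusedSectionVars false
set_option linter.style.haveILetI false

open ModularCurve AlgebraicCurve IntermediateField Polynomial

namespace Fermat.Agent.S36

open Fermat.Agent.S18 Fermat.Agent.S24 Fermat.Agent.S37 Fermat.Agent.S34 Fermat.Agent.S35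

section BKI63Abs

variable {R F' F : Type*} [CommRing R] [Field F'] [Field F] [Algebra R F'] [Algebra R F]

/-- A chart is integrally closed in the function field. -/
theorem bki63_normal (s : Set F) (t : F)
    (ht : (algebraMap (pk15_chart R s) F).IsIntegralElem t) : t ∈ pk15_chart R s := by
  have h : t ∈ integralClosure (integralClosure (Algebra.adjoin R s) F) F := ht
  rw [integralClosure_idem] at h
  obtain ⟨y, rfl⟩ := Algebra.mem_bot.1 h
  exact y.2

/-- `R[s]` lies in the chart of `s`. -/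
theorem bki63_adjoin_le (s : Set F) (y : F) (hy : y ∈ Algebra.adjoin R s) :
    y ∈ pk15_chart R s :=
  (pk15_mem_chart s y).mpr (isIntegral_algebraMap (R := Algebra.adjoin R s) (x := ⟨y, hy⟩))

/-- The chart of `φ '' s'` is integral over the image of the chart of `s'`. -/
theorem bki63_int (φ : F' →ₐ[R] F) (s' : Set F') (x : F) (hx : x ∈ pk15_chart R (φ '' s')) :
    (φ.toRingHom.comp (algebraMap (pk15_chart R s') F')).IsIntegralElem x := by
  obtain ⟨p, hp, hpx⟩ := (cm15_mem_chart_image φ s' x).mp hx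
  let incl : ↥(Algebra.adjoin R s') →+* ↥(pk15_chart R s') :=
    { toFun := fun y => ⟨y, bki63_adjoin_le s' y y.2⟩
      map_one' := rfl
      map_mul' := fun _ _ => rfl
      map_zero' := rfl
      map_add' := fun _ _ => rfl }
  refine ⟨p.map incl, hp.map incl, ?_⟩
  rw [eval₂_map]
  exact hpx

/-- The norm along `φ` of an element of the chart of `φ '' s'` lies in the chart of `s'`. -/
theorem bki63_norm_mem (φ : F' →ₐ[R] F) (s' : Set F') (y : F)
    (hy : y ∈ pk15_chart R (φ '' s')) :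
    @Algebra.norm F' F _ _ φ.toRingHom.toAlgebra y ∈ pk15_chart R s' := by
  letI : Algebra F' F := φ.toRingHom.toAlgebra
  rw [pk15_mem_chart] at hy ⊢
  have hmap : ∀ x ∈ Algebra.adjoin R s', φ x ∈ Algebra.adjoin R (φ '' s') := by
    intro x hx
    rw [← AlgHom.map_adjoin]
    exact ⟨x, hx, rfl⟩
  let g : ↥(Algebra.adjoin R s') →+* ↥(Algebra.adjoin R (φ '' s')) :=
    ((φ : F' →+* F).comp (algebraMap ↥(Algebra.adjoin R s') F')).codRestrict
      (Algebra.adjoin R (φ '' s')) (fun x => hmap x x.2)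
  have hg : Function.Surjective g := by
    rintro ⟨b, hb⟩
    rw [← AlgHom.map_adjoin] at hb
    obtain ⟨x, hx, rfl⟩ := hb
    exact ⟨⟨x, hx⟩, rfl⟩
  obtain ⟨p, hp, hpy⟩ := hy
  obtain ⟨p', hp'map, -, hp'monic⟩ := Polynomial.lifts_and_degree_eq_and_monic (f := g)
    ((Polynomial.mem_lifts _).mpr (Polynomial.map_surjective g hg p)) hp
  letI iAF : Algebra ↥(Algebra.adjoin R s') F :=
    ((algebraMap F' F).comp (algebraMap ↥(Algebra.adjoin R s') F')).toAlgebra
  haveI : IsScalarTower ↥(Algebra.adjoin R s') F' F := IsScalarTower.of_algebraMap_eq (fun _ => rfl)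
  have hy' : IsIntegral ↥(Algebra.adjoin R s') y := by
    refine ⟨p', hp'monic, ?_⟩
    have e : (algebraMap ↥(Algebra.adjoin R s') F) =
        (algebraMap ↥(Algebra.adjoin R (φ '' s')) F).comp g := RingHom.ext fun _ => rfl
    rw [e, ← Polynomial.eval₂_map, hp'map]
    exact hpy
  exact @Algebra.isIntegral_norm ↥(Algebra.adjoin R s') _ F F' _ _ _ iAF _ this y hy'

end BKI63Abs

section BKI63Canon

local notation "Q̄" => AlgebraicClosure ℚ

variable {R K : Type} [CommRing R] [IsDomain R] [IsDiscreteValuationRing R] [Field K]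
  [CharZero K] [Algebra R K] [IsFractionRing R K] [Algebra K Q̄]
  (M' q : ℕ) [NeZero M'] [NeZero q] (hq : q.Prime) (hM' : ¬ q ∣ M')
  {π : R} (hπ : Irreducible π)
  [Algebra R ↥(modularFunctionFieldFullC K (M' * q))]
  [IsScalarTower R K ↥(modularFunctionFieldFullC K (M' * q))]
  [Algebra R ↥(modularFunctionFieldFullC K (M' * q * q))]
  [IsScalarTower R K ↥(modularFunctionFieldFullC K (M' * q * q))]

theorem bki63_neg_aux {F : Type*} [Field F] (a b N N' : F) (hN : N = N') :
    a * (b - N) = -(a * (N' - b)) := by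
  rw [hN]; ring

/-- `β₂ V_0' ⊆ V₃`. -/
theorem bki63_beta_mem_V3 (x : ↥(modularFunctionFieldFullC K (M' * q)))
    (hx : x ∈ s34i47c_V0 (K := K) M' q hq hM' hπ) :
    al97L_beta K (M' * q) q x ∈ nsb86_V3 M' q hq hM' hπ := by
  rw [nsb86_mem_V3, als86_w2_beta]
  exact (al97V_alpha_mem_Vinf (M' * q) q hπ _).mpr ((s34i47c_mem_V0 M' q hq hM' hπ x).1 hx)

/-- **The `α`-datum of `bk63_Data`** on the canonical frame of level `M' q²`: charts
`pk15_chart R s'` (level `M' q`) and `pk15_chart R (α₂ '' s')`, branches `V_∞'`, `V_0'` and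
`V₁ = cm85_Vinf`, `V₂` (parameter), `V₃ = nsb86_V3`. -/
theorem bki63_data_alpha (hqR : ¬ IsUnit (q : R)) (hL : ((M' * q * q : ℕ) : K) ≠ 0)
    (s' : Set ↥(modularFunctionFieldFullC K (M' * q)))
    (V₂ : ValuationSubring ↥(modularFunctionFieldFullC K (M' * q * q)))
    (hV₂ : ∀ c ∈ cm85_Vinf (K := K) (M' * q) hπ, al97L_alpha K (M' * q) q c ∈ V₂)
    (hBV₃ : ∀ x ∈ pk15_chart R (((al97L_alpha K (M' * q) q).restrictScalars R) '' s'),
      x ∈ nsb86_V3 M' q hq hM' hπ) :
    bk63_Data (al97L_alpha K (M' * q) q).toRingHom π (pk15_chart R s')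
      (pk15_chart R (((al97L_alpha K (M' * q) q).restrictScalars R) '' s'))
      (cm85_Vinf (K := K) (M' * q) hπ) (s34i47c_V0 (K := K) M' q hq hM' hπ)
      (cm85_Vinf (K := K) (M' * q * q) hπ) V₂ (nsb86_V3 M' q hq hM' hπ) q where
  hπα := s3i66_alpha_algebraMap M' q π
  hαB := fun x' hx' => sf79i_map_mem ((al97L_alpha K (M' * q) q).restrictScalars R) s' x' hx'
  hBint := fun x hx => bki63_int ((al97L_alpha K (M' * q) q).restrictScalars R) s' x hx
  hV₁ := fun t ht => (al97V_alpha_mem_Vinf (M' * q) q hπ t).2 ht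
  hV₂ := hV₂
  hV₃ := fun t ht => o3x72_V3_over M' q hq hM' hπ hL _
    (fun x => nsb86_mem_V3 M' q hq hM' hπ x) t ht
  hint := (o3x72_inert M' q hq hM' hπ hqR hL _ (fun x => nsb86_mem_V3 M' q hq hM' hπ x)).2.1
  hq := by
    intro x
    refine ⟨⟨_, bki63_norm_mem ((al97L_alpha K (M' * q) q).restrictScalars R) s' x x.2⟩, ?_⟩
    have h := nsb86_alpha_cong M' q hq hM' hπ hqR (x : ↥(modularFunctionFieldFullC K (M' * q * q)))
      (hBV₃ x x.2)
    have h2 := (nsb86_V3 M' q hq hM' hπ).neg_mem _ h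
    rw [IsScalarTower.algebraMap_apply R K ↥(modularFunctionFieldFullC K (M' * q * q))]
    convert h2 using 1
    exact bki63_neg_aux _ _ _ _ rfl

/-- **The `β`-datum of `bk63_Data`** on the canonical frame of level `M' q²` (roles: the pair
`V₂`, `V₃` over `V_0'`, the purely inseparable branch `V₁` over `V_∞'`). -/
theorem bki63_data_beta (hqR : ¬ IsUnit (q : R)) (hL : ((M' * q * q : ℕ) : K) ≠ 0)
    (s' : Set ↥(modularFunctionFieldFullC K (M' * q)))
    (s : Set ↥(modularFunctionFieldFullC K (M' * q * q)))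
    (hβB : ∀ x' ∈ pk15_chart R s', al97L_beta K (M' * q) q x' ∈ pk15_chart R s)
    (hBβ : ∀ x ∈ pk15_chart R s,
      x ∈ pk15_chart R (((al97L_beta K (M' * q) q).restrictScalars R) '' s'))
    (V₂ : ValuationSubring ↥(modularFunctionFieldFullC K (M' * q * q)))
    (hV₂ : ∀ c ∈ cm85_Vinf (K := K) (M' * q) hπ, al97L_alpha K (M' * q) q c ∈ V₂)
    (hπ₂ : (algebraMap K ↥(modularFunctionFieldFullC K (M' * q * q)) (algebraMap R K π))⁻¹ ∉ V₂)
    (hne : cm85_Vinf (K := K) (M' * q * q) hπ ≠ V₂)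
    (hBV₁ : ∀ x ∈ pk15_chart R s, x ∈ cm85_Vinf (K := K) (M' * q * q) hπ) :
    bk63_Data (al97L_beta K (M' * q) q).toRingHom π (pk15_chart R s') (pk15_chart R s)
      (s34i47c_V0 (K := K) M' q hq hM' hπ) (cm85_Vinf (K := K) (M' * q) hπ)
      V₂ (nsb86_V3 M' q hq hM' hπ) (cm85_Vinf (K := K) (M' * q * q) hπ) q where
  hπα := s3i66_beta_algebraMap M' q π
  hαB := hβB
  hBint := fun x hx => bki63_int ((al97L_beta K (M' * q) q).restrictScalars R) s' x (hBβ x hx)
  hV₁ := fun t ht => (bv66_beta_mem_V2 (K := K) M' q hq hM' hπ hqR hL V₂ hV₂ hπ₂ hne t).2 ht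
  hV₂ := fun t ht => bki63_beta_mem_V3 M' q hq hM' hπ t ht
  hV₃ := fun t ht => (al97V_beta_mem_Vinf (M' * q) q hπ t).2 ht
  hint := (obb72_inert (K := K) M' q hq hM' hπ hqR hL).2.1
  hq := by
    intro x
    refine ⟨⟨_, bki63_norm_mem ((al97L_beta K (M' * q) q).restrictScalars R) s' x (hBβ x x.2)⟩, ?_⟩
    have h := nsb86_beta_cong M' q hq hM' hπ hqR (x : ↥(modularFunctionFieldFullC K (M' * q * q)))
      (hBV₁ x x.2)
    have h2 := (cm85_Vinf (K := K) (M' * q * q) hπ).neg_mem _ h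
    rw [IsScalarTower.algebraMap_apply R K ↥(modularFunctionFieldFullC K (M' * q * q))]
    convert h2 using 1
    exact bki63_neg_aux _ _ _ _ rfl

/-- **Triple points on the canonical charts of level `M' q²`.**  `B' = pk15_chart R s'` (level
`M' q`), `B = pk15_chart R (α₂ '' s')`, with `β₂ B' ⊆ B` and `B` integral over `R[β₂ s']`
(`cm71_beta_charts`, `hi70_level2_full` / `hi70_level3_full`).  A prime `n` of `B` lying on two
of the three branches `V₁ = cm85_Vinf`, `V₂`, `V₃ = nsb86_V3` lies on all three; its `α₂`- and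
`β₂`-contractions are nodes of the level-`M' q` chart; and `n` is the only prime of `B` over each
of them. -/
theorem bki63_triple (hqR : ¬ IsUnit (q : R)) (hL : ((M' * q * q : ℕ) : K) ≠ 0)
    (s' : Set ↥(modularFunctionFieldFullC K (M' * q)))
    (hβB : ∀ x' ∈ pk15_chart R s', al97L_beta K (M' * q) q x' ∈
      pk15_chart R (((al97L_alpha K (M' * q) q).restrictScalars R) '' s'))
    (hBβ : ∀ x ∈ pk15_chart R (((al97L_alpha K (M' * q) q).restrictScalars R) '' s'),
      x ∈ pk15_chart R (((al97L_beta K (M' * q) q).restrictScalars R) '' s'))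
    (V₂ : ValuationSubring ↥(modularFunctionFieldFullC K (M' * q * q)))
    (hV₂ : ∀ c ∈ cm85_Vinf (K := K) (M' * q) hπ, al97L_alpha K (M' * q) q c ∈ V₂)
    (hπ₂ : (algebraMap K ↥(modularFunctionFieldFullC K (M' * q * q)) (algebraMap R K π))⁻¹ ∉ V₂)
    (hne : cm85_Vinf (K := K) (M' * q * q) hπ ≠ V₂)
    (hB'inf : ∀ x ∈ pk15_chart R s', x ∈ cm85_Vinf (K := K) (M' * q) hπ)
    (hB'0 : ∀ x ∈ pk15_chart R s', x ∈ s34i47c_V0 (K := K) M' q hq hM' hπ)
    (hBV₁ : ∀ x ∈ pk15_chart R (((al97L_alpha K (M' * q) q).restrictScalars R) '' s'),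
      x ∈ cm85_Vinf (K := K) (M' * q * q) hπ)
    (hBV₂ : ∀ x ∈ pk15_chart R (((al97L_alpha K (M' * q) q).restrictScalars R) '' s'), x ∈ V₂)
    (hBV₃ : ∀ x ∈ pk15_chart R (((al97L_alpha K (M' * q) q).restrictScalars R) '' s'),
      x ∈ nsb86_V3 M' q hq hM' hπ)
    (n : Ideal (pk15_chart R (((al97L_alpha K (M' * q) q).restrictScalars R) '' s')))
    [hn : n.IsPrime]
    (htwo : (sf79_OnBr π _ (cm85_Vinf (K := K) (M' * q * q) hπ).toSubring n ∧
        sf79_OnBr π _ V₂.toSubring n) ∨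
      (sf79_OnBr π _ (cm85_Vinf (K := K) (M' * q * q) hπ).toSubring n ∧
        sf79_OnBr π _ (nsb86_V3 M' q hq hM' hπ).toSubring n) ∨
      (sf79_OnBr π _ V₂.toSubring n ∧ sf79_OnBr π _ (nsb86_V3 M' q hq hM' hπ).toSubring n)) :
    (sf79_OnBr π _ (cm85_Vinf (K := K) (M' * q * q) hπ).toSubring n ∧
      sf79_OnBr π _ V₂.toSubring n ∧ sf79_OnBr π _ (nsb86_V3 M' q hq hM' hπ).toSubring n) ∧
    (sf79_OnBr π (pk15_chart R s') (cm85_Vinf (K := K) (M' * q) hπ).toSubring
        (n.comap (bk63_res (al97L_alpha K (M' * q) q).toRingHom (pk15_chart R s') _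
          (bki63_data_alpha M' q hq hM' hπ hqR hL s' V₂ hV₂ hBV₃).hαB)) ∧
      sf79_OnBr π (pk15_chart R s') (s34i47c_V0 (K := K) M' q hq hM' hπ).toSubring
        (n.comap (bk63_res (al97L_alpha K (M' * q) q).toRingHom (pk15_chart R s') _
          (bki63_data_alpha M' q hq hM' hπ hqR hL s' V₂ hV₂ hBV₃).hαB))) ∧
    (sf79_OnBr π (pk15_chart R s') (cm85_Vinf (K := K) (M' * q) hπ).toSubring
        (n.comap (bk63_res (al97L_beta K (M' * q) q).toRingHom (pk15_chart R s') _ hβB)) ∧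
      sf79_OnBr π (pk15_chart R s') (s34i47c_V0 (K := K) M' q hq hM' hπ).toSubring
        (n.comap (bk63_res (al97L_beta K (M' * q) q).toRingHom (pk15_chart R s') _ hβB))) ∧
    (∀ n₂ : Ideal (pk15_chart R (((al97L_alpha K (M' * q) q).restrictScalars R) '' s')),
      n₂.IsPrime →
      n₂.comap (bk63_res (al97L_alpha K (M' * q) q).toRingHom (pk15_chart R s') _
          (bki63_data_alpha M' q hq hM' hπ hqR hL s' V₂ hV₂ hBV₃).hαB) =
        n.comap (bk63_res (al97L_alpha K (M' * q) q).toRingHom (pk15_chart R s') _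
          (bki63_data_alpha M' q hq hM' hπ hqR hL s' V₂ hV₂ hBV₃).hαB) → n₂ = n) ∧
    (∀ n₂ : Ideal (pk15_chart R (((al97L_alpha K (M' * q) q).restrictScalars R) '' s')),
      n₂.IsPrime →
      n₂.comap (bk63_res (al97L_beta K (M' * q) q).toRingHom (pk15_chart R s') _ hβB) =
        n.comap (bk63_res (al97L_beta K (M' * q) q).toRingHom (pk15_chart R s') _ hβB) →
      n₂ = n) := by
  have hπ0 : algebraMap R ↥(modularFunctionFieldFullC K (M' * q)) π ≠ 0 := by
    rw [IsScalarTower.algebraMap_apply R K ↥(modularFunctionFieldFullC K (M' * q))]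
    exact (_root_.map_ne_zero _).2
      ((_root_.map_ne_zero_iff _ (IsFractionRing.injective R K)).2 hπ.ne_zero)
  have e1 : algebraMap R ↥(modularFunctionFieldFullC K (M' * q)) π =
      algebraMap K ↥(modularFunctionFieldFullC K (M' * q)) (algebraMap R K π) :=
    IsScalarTower.algebraMap_apply R K ↥(modularFunctionFieldFullC K (M' * q)) π
  have e2 : algebraMap R ↥(modularFunctionFieldFullC K (M' * q * q)) π =
      algebraMap K ↥(modularFunctionFieldFullC K (M' * q * q)) (algebraMap R K π) :=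
    IsScalarTower.algebraMap_apply R K ↥(modularFunctionFieldFullC K (M' * q * q)) π
  have hmaxi : ∀ x ∈ cm85_Vinf (K := K) (M' * q) hπ, x⁻¹ ∉ cm85_Vinf (K := K) (M' * q) hπ →
      (algebraMap R ↥(modularFunctionFieldFullC K (M' * q)) π)⁻¹ * x ∈
        cm85_Vinf (K := K) (M' * q) hπ := by
    intro x hx hxi
    rw [e1]
    exact gv85_hmax (IsLocalRing.residue R) π (pk85_res_iff hπ) hπ.ne_zero _
      (pk85_HF K (M' * q) hπ) x hx hxi
  have hmax0 : ∀ x ∈ s34i47c_V0 (K := K) M' q hq hM' hπ,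
      x⁻¹ ∉ s34i47c_V0 (K := K) M' q hq hM' hπ →
      (algebraMap R ↥(modularFunctionFieldFullC K (M' * q)) π)⁻¹ * x ∈
        s34i47c_V0 (K := K) M' q hq hM' hπ := by
    intro x hx hxi
    rw [e1]
    exact (obi72_V0_dvr (K := K) M' q hq hM' hπ).hmax x hx hxi
  have hπV₂ : (algebraMap R ↥(modularFunctionFieldFullC K (M' * q * q)) π)⁻¹ ∉ V₂ := by
    rw [e2]; exact hπ₂
  have hπV₃ : (algebraMap R ↥(modularFunctionFieldFullC K (M' * q * q)) π)⁻¹ ∉
      nsb86_V3 M' q hq hM' hπ := by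
    rw [e2]
    exact o3x72_V3_pi M' q hq hM' hπ hL _ (fun x => nsb86_mem_V3 M' q hq hM' hπ x)
  exact bk63_triple (al97L_alpha K (M' * q) q).toRingHom (al97L_beta K (M' * q) q).toRingHom π hπ0
    (pk15_chart R s') _ (fun t ht => bki63_normal s' t ht)
    (cm85_Vinf (K := K) (M' * q) hπ) (s34i47c_V0 (K := K) M' q hq hM' hπ) hB'inf hB'0 hmaxi hmax0
    (cm85_Vinf (K := K) (M' * q * q) hπ) V₂ (nsb86_V3 M' q hq hM' hπ) hBV₁ hBV₂ hBV₃
    (s3i66_pi_inv_not_mem_V1 M' q hπ) hπV₂ hπV₃ q hq.pos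
    (bki63_data_alpha M' q hq hM' hπ hqR hL s' V₂ hV₂ hBV₃)
    (bki63_data_beta M' q hq hM' hπ hqR hL s' _ hβB hBβ V₂ hV₂ hπ₂ hne hBV₁) n htwo

end BKI63Canon

end Fermat.Agent.S36
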