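/-
S36 lab, row 592 (B1-3a) / row 617, sub-part POINT BOOKKEEPING IN VALUATION LANGUAGE (helper81).
Mathlib + `S36/PointBook81` only.

Charts as abstract rings with embeddings into their function fields: `ιA : A →+* F'`,
`ιB : B →+* F` (for charts: the subtype coercions), a field embedding `α : F' →+* F` and the
chart map `φ : A →+* B` with `ιB (φ a) = α (ιA a)`.  Branches are valuation subrings; the branch
prime of a chart at a valuation subring `V` is its CENTRE `{b | V.valuation (ιB b) < 1}`.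

* `bk81_centre`, `bk81_mem_centre`, `bk81_centre_isPrime` : the centre ideal;
* `bk81_exists_valuation_over` : a prime `P` of `B` whose contraction to `A` is the centre of `U`
  (`U` = the local ring of `A` at its centre, hypothesis `hloc`) is the centre of a valuation
  subring `W` of `F` lying over `U` (`α x ∈ W ↔ x ∈ U`, nonunits to nonunits);
* `bk81_only_prime_of_only_valuation` : hence "only `V` over `U`" (output shape of row 590) gives
  "the centre of `V` is the only prime of `B` over the centre of `U`";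
* `bk81_onBr_of_only` : going down in branch language: a prime `n` of `B` whose contraction lies
  on the branch `U` lies on the branch of one of the valuation subrings over `U`;
* `bk81_triple_of_two_val` : with both degeneracy maps: a prime of `B` on two of the three
  branches `V₁, V₂, V₃` is on all three;
* `bk81_loc_reflects_units` : `A_{n'} → B_n` reflects units (shape (b) of row 617 / gc26_triple);
* `bk81_norm_unit_loc` : norms of units of `B_n` are units of `A_{n'}` when `n` is the only prime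
  over `n'` (shape (d) of row 617 / gc26_triple: `(Nal eps)⁻¹ ∈ Aal`);
* converters `bk81_val_eq_one_of_inv_mem`, `bk81_val_lt_one_iff` (`x = 0 ∨ x⁻¹ ∉ V`),
  `bk81_val_lt_one_iff_pi` (`ϖ⁻¹ * x ∈ V` for a uniformizer `ϖ`: the `sf79_OnBr` shape).
  The hypothesis `hloc` is the output of `tv66_frac` / `si25_frac` / `bi93_frac` (S34) composed
  with `bk81_val_eq_one_of_inv_mem`.
-/
import Mathlib
import Fermat.Agent.S36.PointBook81

set_option autoImplicit false

namespace Fermat.Agent.S36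

section Centre

variable {B F : Type*} [CommRing B] [Field F]

/-- The centre on `B` of a valuation subring of `F` containing the image of `B`. -/
def bk81_centre (ιB : B →+* F) (V : ValuationSubring F) (hBV : ∀ b, ιB b ∈ V) : Ideal B where
  carrier := {b | V.valuation (ιB b) < 1}
  add_mem' := by
    intro x y hx hy
    show V.valuation (ιB (x + y)) < 1
    rw [map_add]
    exact Valuation.map_add_lt _ hx hy
  zero_mem' := by
    show V.valuation (ιB 0) < 1
    rw [map_zero, map_zero]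
    exact zero_lt_one
  smul_mem' := by
    intro c x hx
    show V.valuation (ιB (c * x)) < 1
    rw [map_mul, map_mul]
    have hc : V.valuation (ιB c) ≤ 1 := (V.valuation_le_one_iff _).mpr (hBV c)
    calc V.valuation (ιB c) * V.valuation (ιB x) ≤ 1 * V.valuation (ιB x) :=
          mul_le_mul_left hc _
      _ = V.valuation (ιB x) := one_mul _
      _ < 1 := hx

theorem bk81_mem_centre (ιB : B →+* F) (V : ValuationSubring F) (hBV : ∀ b, ιB b ∈ V) (b : B) :
    b ∈ bk81_centre ιB V hBV ↔ V.valuation (ιB b) < 1 := Iff.rfl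

theorem bk81_centre_isPrime (ιB : B →+* F) (V : ValuationSubring F) (hBV : ∀ b, ιB b ∈ V) :
    (bk81_centre ιB V hBV).IsPrime := by
  refine ⟨?_, ?_⟩
  · rw [Ideal.ne_top_iff_one, bk81_mem_centre, map_one, map_one]
    exact lt_irrefl _
  · intro x y hxy
    rw [bk81_mem_centre, map_mul, map_mul] at hxy
    by_contra hcon
    rw [not_or, bk81_mem_centre, bk81_mem_centre] at hcon
    have hx : V.valuation (ιB x) = 1 :=
      le_antisymm ((V.valuation_le_one_iff _).mpr (hBV x)) (not_lt.mp hcon.1)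
    have hy : V.valuation (ιB y) = 1 :=
      le_antisymm ((V.valuation_le_one_iff _).mpr (hBV y)) (not_lt.mp hcon.2)
    rw [hx, hy, one_mul] at hxy
    exact lt_irrefl _ hxy

end Centre

section Conv

variable {F : Type*} [Field F]

/-- Converter: a nonzero element of `V` with inverse in `V` has valuation one. -/
theorem bk81_val_eq_one_of_inv_mem (V : ValuationSubring F) (x : F) (hx : x ∈ V) (hx0 : x ≠ 0)
    (hxi : x⁻¹ ∈ V) : V.valuation x = 1 := by
  have h1 : V.valuation x ≤ 1 := (V.valuation_le_one_iff x).mpr hx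
  have h2 : V.valuation x⁻¹ ≤ 1 := (V.valuation_le_one_iff _).mpr hxi
  have hv0 : V.valuation x ≠ 0 := fun h0 => hx0 ((V.valuation.zero_iff).mp h0)
  rw [map_inv₀] at h2
  have h3 : 1 ≤ V.valuation x := (inv_le_one₀ (zero_lt_iff.mpr hv0)).mp h2
  exact le_antisymm h1 h3

/-- Converter: `V.valuation x < 1` in the elementwise language. -/
theorem bk81_val_lt_one_iff (V : ValuationSubring F) (x : F) :
    V.valuation x < 1 ↔ x = 0 ∨ x⁻¹ ∉ V := by
  rw [← ValuationSubring.mem_nonunits_iff, ValuationSubring.mem_nonunits_iff_or]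

/-- Converter: for a valuation subring with uniformizer `ϖ` (shape of the S34 frame), the centre
is cut out by `ϖ⁻¹ * x ∈ V`. -/
theorem bk81_val_lt_one_iff_pi (V : ValuationSubring F) (ϖ : F) (hϖ : ϖ⁻¹ ∉ V)
    (hmax : ∀ x ∈ V, x⁻¹ ∉ V → ϖ⁻¹ * x ∈ V) (x : F) (hx : x ∈ V) :
    V.valuation x < 1 ↔ ϖ⁻¹ * x ∈ V := by
  rw [bk81_val_lt_one_iff]
  constructor
  · rintro (rfl | h)
    · rw [mul_zero]; exact V.zero_mem
    · exact hmax x hx h
  · intro h
    by_cases hx0 : x = 0
    · exact Or.inl hx0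
    · right
      intro hxi
      apply hϖ
      have e : ϖ⁻¹ = ϖ⁻¹ * x * x⁻¹ := by
        rw [mul_assoc, mul_inv_cancel₀ hx0, mul_one]
      rw [e]
      exact V.mul_mem _ _ h hxi

end Conv

section Val

variable {A B F' F : Type*} [CommRing A] [CommRing B] [Field F'] [Field F]

/-- **Centre of a dominating valuation.**  `U` a valuation subring of `F'` which is the local
ring of the chart `A` at its centre (`hloc`), `P` a prime of the chart `B` whose contraction to
`A` is the centre of `U`.  Then `P` is the centre of a valuation subring `W` of `F` over `U`. -/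
theorem bk81_exists_valuation_over
    (ιA : A →+* F') (ιB : B →+* F) (hιB : Function.Injective ιB) (α : F' →+* F)
    (φ : A →+* B) (hφ : ∀ a, ιB (φ a) = α (ιA a))
    (U : ValuationSubring F')
    (hloc : ∀ c ∈ U, ∃ a d : A, U.valuation (ιA d) = 1 ∧ c * ιA d = ιA a)
    (P : Ideal B) [P.IsPrime]
    (hP : ∀ a : A, φ a ∈ P ↔ U.valuation (ιA a) < 1) :
    ∃ W : ValuationSubring F, (∀ b, ιB b ∈ W) ∧ (∀ b, b ∈ P ↔ W.valuation (ιB b) < 1) ∧
      (∀ x : F', α x ∈ W ↔ x ∈ U) ∧ (∀ x, U.valuation x < 1 → W.valuation (α x) < 1) := by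
  classical
  have hunit : ∀ s : P.primeCompl, IsUnit (ιB s) := by
    intro s
    refine IsUnit.mk0 _ ?_
    intro h0
    have : (s : B) = 0 := hιB (by rw [h0, map_zero])
    exact s.2 (by rw [this]; exact P.zero_mem)
  let f : Localization.AtPrime P →+* F := IsLocalization.lift (M := P.primeCompl) hunit
  have hf : ∀ b : B, f (algebraMap B (Localization.AtPrime P) b) = ιB b :=
    fun b => IsLocalization.lift_eq hunit b
  obtain ⟨W, hW, hlocal⟩ := IsLocalRing.exists_factor_valuationRing f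
  have hBW : ∀ b, ιB b ∈ W := fun b => by rw [← hf]; exact hW _
  have hle : ∀ b, W.valuation (ιB b) ≤ 1 := fun b => (W.valuation_le_one_iff _).mpr (hBW b)
  have hPW : ∀ b, b ∈ P ↔ W.valuation (ιB b) < 1 := by
    intro b
    constructor
    · intro hb
      by_contra hlt
      have h1 : W.valuation (ιB b) = 1 := le_antisymm (hle b) (not_lt.mp hlt)
      have hb0 : ιB b ≠ 0 := by
        intro h0; rw [h0, map_zero] at h1; exact zero_ne_one h1
      have hinv : (ιB b)⁻¹ ∈ W := by
        rw [← W.valuation_le_one_iff, map_inv₀, h1, inv_one]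
      have hu : IsUnit (f.codRestrict W.toSubring hW
          (algebraMap B (Localization.AtPrime P) b)) := by
        refine isUnit_iff_exists_inv.mpr ⟨⟨(ιB b)⁻¹, hinv⟩, ?_⟩
        apply Subtype.ext
        show f (algebraMap B (Localization.AtPrime P) b) * (ιB b)⁻¹ = 1
        rw [hf, mul_inv_cancel₀ hb0]
      have hu' := hlocal.map_nonunit _ hu
      rw [IsLocalization.AtPrime.isUnit_to_map_iff (Localization.AtPrime P) P] at hu'
      exact hu' hb
    · intro hlt
      by_contra hbP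
      have hu : IsUnit (algebraMap B (Localization.AtPrime P) b) :=
        (IsLocalization.AtPrime.isUnit_to_map_iff (Localization.AtPrime P) P b).mpr hbP
      have hu' := hu.map (f.codRestrict W.toSubring hW)
      obtain ⟨v, hv⟩ := isUnit_iff_exists_inv.mp hu'
      have hv' : ιB b * (v : F) = 1 := by
        have := congrArg (fun z : W.toSubring => (z : F)) hv
        simpa [hf] using this
      have hvle : W.valuation (v : F) ≤ 1 := (W.valuation_le_one_iff _).mpr v.2
      have h1 : W.valuation (ιB b) * W.valuation (v : F) = 1 := by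
        rw [← map_mul, hv', map_one]
      have h2 : W.valuation (ιB b) * W.valuation (v : F) < 1 :=
        calc W.valuation (ιB b) * W.valuation (v : F) ≤ W.valuation (ιB b) * 1 :=
              mul_le_mul_right hvle _
          _ = W.valuation (ιB b) := mul_one _
          _ < 1 := hlt
      rw [h1] at h2
      exact lt_irrefl _ h2
  -- the local ring of `A` at the centre of `U` goes into `W`
  have key : ∀ c ∈ U, W.valuation (α c) ≤ 1 ∧ (U.valuation c < 1 → W.valuation (α c) < 1) := by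
    intro c hc
    obtain ⟨a, d, hd, hcd⟩ := hloc c hc
    have hdP : φ d ∉ P := by
      rw [hP, hd]; exact lt_irrefl _
    have hdW : W.valuation (ιB (φ d)) = 1 :=
      le_antisymm (hle _) (not_lt.mp (fun h => hdP ((hPW _).mpr h)))
    have e : α c * ιB (φ d) = ιB (φ a) := by
      rw [hφ, hφ, ← map_mul, hcd]
    have e2 : W.valuation (α c) = W.valuation (ιB (φ a)) := by
      rw [← e, map_mul, hdW, mul_one]
    refine ⟨e2 ▸ hle _, fun hlt => ?_⟩
    rw [e2, ← hPW, hP, ← hcd, map_mul, hd, mul_one]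
    exact hlt
  refine ⟨W, hBW, hPW, ?_, ?_⟩
  · intro x
    constructor
    · intro hx
      by_contra hxU
      have h1 : 1 < U.valuation x := not_le.mp (fun h => hxU ((U.valuation_le_one_iff x).mp h))
      have h2 : U.valuation x⁻¹ < 1 := by
        rw [map_inv₀]; exact inv_lt_one_of_one_lt₀ h1
      have h3 : x⁻¹ ∈ U := (U.valuation_le_one_iff _).mp h2.le
      have h4 := (key x⁻¹ h3).2 h2
      rw [map_inv₀, map_inv₀] at h4
      have h5 : W.valuation (α x) ≤ 1 := (W.valuation_le_one_iff _).mpr hx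
      have hx0 : W.valuation (α x) ≠ 0 := by
        intro h0
        rw [h0, inv_zero] at h4
        have hx00 : x = 0 := by
          have : α x = 0 := (W.valuation.zero_iff).mp h0
          exact (map_eq_zero α).mp this
        rw [hx00, map_zero] at h1
        exact not_lt_zero h1
      have h6 : 1 < W.valuation (α x) := (inv_lt_one₀ (zero_lt_iff.mpr hx0)).mp h4
      exact not_lt.mpr h5 h6
    · intro hx
      exact (W.valuation_le_one_iff _).mp (key x hx).1
  · intro x hx
    exact (key x ((U.valuation_le_one_iff _).mp hx.le)).2 hx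

/-- **Only valuation ⟹ only prime.**  If `V` is the only valuation subring of `F` over `U`,
every prime of `B` whose contraction is the centre of `U` is the centre of `V`. -/
theorem bk81_only_prime_of_only_valuation
    (ιA : A →+* F') (ιB : B →+* F) (hιB : Function.Injective ιB) (α : F' →+* F)
    (φ : A →+* B) (hφ : ∀ a, ιB (φ a) = α (ιA a))
    (U : ValuationSubring F')
    (hloc : ∀ c ∈ U, ∃ a d : A, U.valuation (ιA d) = 1 ∧ c * ιA d = ιA a)
    (V : ValuationSubring F)
    (honly : ∀ W : ValuationSubring F, (∀ x : F', α x ∈ W ↔ x ∈ U) →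
      (∀ x, U.valuation x < 1 → W.valuation (α x) < 1) → W = V)
    (P : Ideal B) [P.IsPrime] (hP : ∀ a : A, φ a ∈ P ↔ U.valuation (ιA a) < 1) (b : B) :
    b ∈ P ↔ V.valuation (ιB b) < 1 := by
  obtain ⟨W, -, hPW, h1, h2⟩ := bk81_exists_valuation_over ιA ιB hιB α φ hφ U hloc P hP
  rw [← honly W h1 h2]
  exact hPW b

/-- **Going down in branch language.**  A prime `n` of `B` whose contraction to `A` lies on the
branch `U` lies on the branch of some valuation subring `W` of `F` over `U`. -/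
theorem bk81_onBr_of_only [IsIntegrallyClosed A]
    (ιA : A →+* F') (hιA : Function.Injective ιA) (ιB : B →+* F) (hιB : Function.Injective ιB)
    (α : F' →+* F) (φ : A →+* B) (hφ : ∀ a, ιB (φ a) = α (ιA a)) (hint : φ.IsIntegral)
    (U : ValuationSubring F') (hAU : ∀ a, ιA a ∈ U)
    (hloc : ∀ c ∈ U, ∃ a d : A, U.valuation (ιA d) = 1 ∧ c * ιA d = ιA a)
    (n : Ideal B) [n.IsPrime] (hn : ∀ a : A, U.valuation (ιA a) < 1 → φ a ∈ n) :
    ∃ W : ValuationSubring F, (∀ b, ιB b ∈ W) ∧ (∀ x : F', α x ∈ W ↔ x ∈ U) ∧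
      (∀ x, U.valuation x < 1 → W.valuation (α x) < 1) ∧
      ∀ b : B, W.valuation (ιB b) < 1 → b ∈ n := by
  have : IsDomain B := hιB.isDomain ιB
  have hinj : Function.Injective φ := bk81_injective_of_coe ιA hιA ιB α φ hφ
  have : (bk81_centre ιA U hAU).IsPrime := bk81_centre_isPrime ιA U hAU
  obtain ⟨P, hP, hPn, hPc⟩ := bk81_goingDown φ hinj hint n (bk81_centre ιA U hAU)
    (fun a ha => hn a ha)
  have hP' : ∀ a : A, φ a ∈ P ↔ U.valuation (ιA a) < 1 := by
    intro a
    rw [← bk81_mem_centre ιA U hAU, ← hPc]; rfl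
  obtain ⟨W, hBW, hPW, h1, h2⟩ := bk81_exists_valuation_over ιA ιB hιB α φ hφ U hloc P hP'
  exact ⟨W, hBW, h1, h2, fun b hb => hPn ((hPW b).mpr hb)⟩

end Val

section Loc

variable {A B F' F : Type*} [CommRing A] [CommRing B] [Field F'] [Field F]

/-- **The map of local rings `A_{n'} → B_n` reflects units** (`n' = φ⁻¹ n`), elementwise:
`x ∈ A_{n'}` with `(α x)⁻¹ ∈ B_n` has `x⁻¹ ∈ A_{n'}`. -/
theorem bk81_loc_reflects_units
    (ιA : A →+* F') (ιB : B →+* F) (hιB : Function.Injective ιB) (α : F' →+* F)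
    (φ : A →+* B) (hφ : ∀ a, ιB (φ a) = α (ιA a))
    (n : Ideal B) [n.IsPrime] (x : F')
    (hx : ∃ s : A, φ s ∉ n ∧ ∃ a : A, ιA s * x = ιA a)
    (hxi : ∃ t : B, t ∉ n ∧ ∃ b : B, ιB t * (α x)⁻¹ = ιB b) :
    ∃ s : A, φ s ∉ n ∧ ∃ a : A, ιA s * x⁻¹ = ιA a := by
  by_cases hx0 : x = 0
  · refine ⟨1, ?_, 0, ?_⟩
    · rw [map_one]; exact (Ideal.ne_top_iff_one n).mp (Ideal.IsPrime.ne_top inferInstance)
    · rw [hx0, inv_zero, mul_zero, map_zero]
  · obtain ⟨s, hs, a, hsa⟩ := hx
    obtain ⟨t, ht, b, htb⟩ := hxi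
    have hαx0 : α x ≠ 0 := (map_ne_zero α).mpr hx0
    have e1 : ιB t = ιB b * α x := by
      rw [← htb, mul_assoc, inv_mul_cancel₀ hαx0, mul_one]
    have e2 : ιB (φ s) * α x = ιB (φ a) := by
      rw [hφ, hφ, ← map_mul, hsa]
    have e3 : t * φ s = b * φ a := by
      apply hιB
      rw [map_mul, map_mul, e1, ← e2]; ring
    have haP : φ a ∉ n := by
      intro ha
      have h1 : t * φ s ∈ n := by rw [e3]; exact n.mul_mem_left _ ha
      rcases Ideal.IsPrime.mem_or_mem inferInstance h1 with h | h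
      · exact ht h
      · exact hs h
    refine ⟨a, haP, s, ?_⟩
    rw [← hsa, mul_assoc, mul_inv_cancel₀ hx0, mul_one]

/-- **Norms of units of `B_n` are units of `A_{n'}`** when `n` is the only prime of `B` over
`n' = φ⁻¹ n` (a triple point over a node).  `Nm : F →* F'` multiplicative with
`Nm (α x) = x ^ d` and `Nm (B) ⊆ A`. -/
theorem bk81_norm_unit_loc
    (ιA : A →+* F') (hιA : Function.Injective ιA) (ιB : B →+* F) (hιB : Function.Injective ιB)
    (α : F' →+* F) (φ : A →+* B) (hφ : ∀ a, ιB (φ a) = α (ιA a)) (hint : φ.IsIntegral)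
    (Nm : F →* F') (d : ℕ) (hNα : ∀ x : F', Nm (α x) = x ^ d)
    (hNB : ∀ b : B, ∃ a : A, Nm (ιB b) = ιA a)
    (n : Ideal B) [n.IsPrime]
    (huniq : ∀ m : Ideal B, m.IsPrime → m.comap φ = n.comap φ → m = n)
    (x : F) (hx : ∃ s : B, s ∉ n ∧ ∃ b : B, ιB s * x = ιB b)
    (hxi : ∃ s : B, s ∉ n ∧ ∃ b : B, ιB s * x⁻¹ = ιB b) :
    ∃ s : A, φ s ∉ n ∧ ∃ a : A, ιA s * (Nm x)⁻¹ = ιA a := by
  have h1n : φ 1 ∉ n := by
    rw [map_one]; exact (Ideal.ne_top_iff_one n).mp (Ideal.IsPrime.ne_top inferInstance)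
  by_cases hx0 : x = 0
  · -- `Nm 0` is idempotent, hence `0` or `1`
    have hid : Nm 0 * Nm 0 = Nm 0 := by rw [← map_mul, mul_zero]
    have h01 : Nm (0 : F) = 0 ∨ Nm (0 : F) = 1 := by
      by_cases h0 : Nm (0 : F) = 0
      · exact Or.inl h0
      · right
        exact mul_left_cancel₀ h0 (by rw [hid, mul_one])
    rcases h01 with h | h
    · exact ⟨1, h1n, 0, by rw [hx0, h, inv_zero, mul_zero, map_zero]⟩
    · exact ⟨1, h1n, 1, by rw [hx0, h, inv_one, mul_one]⟩
  · obtain ⟨s, hs, b, hsb⟩ := hx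
    obtain ⟨s', hs', b', hsb'⟩ := hxi
    have e3 : s * s' = b * b' := by
      apply hιB
      rw [map_mul, map_mul, ← hsb, ← hsb']
      field_simp
    have hbn : b ∉ n := by
      intro hb
      have h1 : s * s' ∈ n := by rw [e3]; exact n.mul_mem_right _ hb
      rcases Ideal.IsPrime.mem_or_mem inferInstance h1 with h | h
      · exact hs h
      · exact hs' h
    have : (n.comap φ).IsPrime := Ideal.comap_isPrime φ n
    obtain ⟨y, a₀, ha₀, hby⟩ := bk81_unit_transfer φ hint (n.comap φ) n huniq b hbn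
    have ha₀' : φ a₀ ∉ n := ha₀
    have ha₀0 : ιA a₀ ≠ 0 := by
      intro h0
      have : a₀ = 0 := hιA (by rw [h0, map_zero])
      exact ha₀' (by rw [this, map_zero]; exact n.zero_mem)
    obtain ⟨c₁, hc₁⟩ := hNB s
    obtain ⟨c₂, hc₂⟩ := hNB y
    have hN1 : Nm (ιB b) * Nm (ιB y) = ιA a₀ ^ d := by
      rw [← map_mul, ← map_mul, hby, hφ, hNα]
    have hNb0 : Nm (ιB b) ≠ 0 := by
      intro h0
      rw [h0, zero_mul] at hN1
      exact pow_ne_zero d ha₀0 hN1.symm
    have hN2 : Nm (ιB s) * Nm x = Nm (ιB b) := by rw [← map_mul, hsb]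
    have hNx0 : Nm x ≠ 0 := by
      intro h0
      rw [h0, mul_zero] at hN2
      exact hNb0 hN2.symm
    refine ⟨a₀ ^ d, ?_, c₁ * c₂, ?_⟩
    · rw [map_pow]
      exact fun h => ha₀' (Ideal.IsPrime.mem_of_pow_mem inferInstance d h)
    · rw [map_pow, map_mul, ← hc₁, ← hc₂, ← hN1, ← hN2]
      field_simp

end Loc

section TwoVal

variable {A₁ A₂ B F₁ F₂ F : Type*} [CommRing A₁] [CommRing A₂] [CommRing B]
  [Field F₁] [Field F₂] [Field F]

/-- **Two branches meet only at triple points, valuation language.**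
Along `α`: `V₃` is the only valuation subring over `U0`, the chart `B` is radicial over `A₁`
modulo the centre of `V₃`, and `V₁`, `V₂` have the same centre on `A₁`.
Along `β`: `V₁` is the only valuation subring over `UI`, `B` is radicial over `A₂` modulo the
centre of `V₁`, and `V₂`, `V₃` have the same centre on `A₂`.
Then a prime `n` of `B` lying on two of the three branches lies on all three. -/
theorem bk81_triple_of_two_val [IsIntegrallyClosed A₁] [IsIntegrallyClosed A₂]
    (ι₁ : A₁ →+* F₁) (hι₁ : Function.Injective ι₁) (ι₂ : A₂ →+* F₂) (hι₂ : Function.Injective ι₂)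
    (ιB : B →+* F) (hιB : Function.Injective ιB)
    (α : F₁ →+* F) (φα : A₁ →+* B) (hφα : ∀ a, ιB (φα a) = α (ι₁ a)) (hαint : φα.IsIntegral)
    (β : F₂ →+* F) (φβ : A₂ →+* B) (hφβ : ∀ a, ιB (φβ a) = β (ι₂ a)) (hβint : φβ.IsIntegral)
    (V₁ V₂ V₃ : ValuationSubring F)
    (hB₁ : ∀ b, ιB b ∈ V₁) (hB₂ : ∀ b, ιB b ∈ V₂) (hB₃ : ∀ b, ιB b ∈ V₃)
    (U0 : ValuationSubring F₁) (hA0 : ∀ a, ι₁ a ∈ U0)
    (hloc0 : ∀ c ∈ U0, ∃ a d : A₁, U0.valuation (ι₁ d) = 1 ∧ c * ι₁ d = ι₁ a)
    (hα3 : ∀ W : ValuationSubring F, (∀ x : F₁, α x ∈ W ↔ x ∈ U0) →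
      (∀ x, U0.valuation x < 1 → W.valuation (α x) < 1) → W = V₃)
    (hαrad : ∀ b : B, ∃ (N : ℕ) (a : A₁), 0 < N ∧ V₃.valuation (ιB b ^ N - α (ι₁ a)) < 1)
    (hα12 : ∀ a : A₁, V₁.valuation (α (ι₁ a)) < 1 ↔ V₂.valuation (α (ι₁ a)) < 1)
    (UI : ValuationSubring F₂) (hAI : ∀ a, ι₂ a ∈ UI)
    (hlocI : ∀ c ∈ UI, ∃ a d : A₂, UI.valuation (ι₂ d) = 1 ∧ c * ι₂ d = ι₂ a)
    (hβ1 : ∀ W : ValuationSubring F, (∀ x : F₂, β x ∈ W ↔ x ∈ UI) →
      (∀ x, UI.valuation x < 1 → W.valuation (β x) < 1) → W = V₁)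
    (hβrad : ∀ b : B, ∃ (N : ℕ) (a : A₂), 0 < N ∧ V₁.valuation (ιB b ^ N - β (ι₂ a)) < 1)
    (hβ23 : ∀ a : A₂, V₂.valuation (β (ι₂ a)) < 1 ↔ V₃.valuation (β (ι₂ a)) < 1)
    (n : Ideal B) [n.IsPrime]
    (h : ((∀ b : B, V₁.valuation (ιB b) < 1 → b ∈ n) ∧ (∀ b : B, V₂.valuation (ιB b) < 1 → b ∈ n)) ∨
      ((∀ b : B, V₁.valuation (ιB b) < 1 → b ∈ n) ∧ (∀ b : B, V₃.valuation (ιB b) < 1 → b ∈ n)) ∨
      ((∀ b : B, V₂.valuation (ιB b) < 1 → b ∈ n) ∧ (∀ b : B, V₃.valuation (ιB b) < 1 → b ∈ n))) :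
    (∀ b : B, V₁.valuation (ιB b) < 1 → b ∈ n) ∧ (∀ b : B, V₂.valuation (ιB b) < 1 → b ∈ n) ∧
      (∀ b : B, V₃.valuation (ιB b) < 1 → b ∈ n) := by
  have : IsDomain B := hιB.isDomain ιB
  have hαinj : Function.Injective φα := bk81_injective_of_coe ι₁ hι₁ ιB α φα hφα
  have hβinj : Function.Injective φβ := bk81_injective_of_coe ι₂ hι₂ ιB β φβ hφβ
  have i1 : (bk81_centre ιB V₁ hB₁).IsPrime := bk81_centre_isPrime ιB V₁ hB₁
  have i2 : (bk81_centre ιB V₂ hB₂).IsPrime := bk81_centre_isPrime ιB V₂ hB₂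
  have i3 : (bk81_centre ιB V₃ hB₃).IsPrime := bk81_centre_isPrime ιB V₃ hB₃
  have i0 : (bk81_centre ι₁ U0 hA0).IsPrime := bk81_centre_isPrime ι₁ U0 hA0
  have iI : (bk81_centre ι₂ UI hAI).IsPrime := bk81_centre_isPrime ι₂ UI hAI
  have key := bk81_triple_of_two φα hαinj hαint φβ hβinj hβint
    (bk81_centre ιB V₁ hB₁) (bk81_centre ιB V₂ hB₂) (bk81_centre ιB V₃ hB₃)
    (bk81_centre ι₁ U0 hA0) (bk81_centre ι₂ UI hAI)
    (by
      intro P hP hPc
      have hP' : ∀ a : A₁, φα a ∈ P ↔ U0.valuation (ι₁ a) < 1 := by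
        intro a
        rw [← bk81_mem_centre ι₁ U0 hA0, ← hPc]; rfl
      ext b
      rw [bk81_mem_centre]
      exact bk81_only_prime_of_only_valuation ι₁ ιB hιB α φα hφα U0 hloc0 V₃ hα3 P hP' b)
    (by
      intro b
      obtain ⟨N, a, hN, hNa⟩ := hαrad b
      refine ⟨N, a, hN, ?_⟩
      rw [bk81_mem_centre, map_sub, map_pow, hφα]
      exact hNa)
    (by
      ext a
      rw [Ideal.mem_comap, Ideal.mem_comap, bk81_mem_centre, bk81_mem_centre, hφα]
      exact hα12 a)
    (by
      intro P hP hPc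
      have hP' : ∀ a : A₂, φβ a ∈ P ↔ UI.valuation (ι₂ a) < 1 := by
        intro a
        rw [← bk81_mem_centre ι₂ UI hAI, ← hPc]; rfl
      ext b
      rw [bk81_mem_centre]
      exact bk81_only_prime_of_only_valuation ι₂ ιB hιB β φβ hφβ UI hlocI V₁ hβ1 P hP' b)
    (by
      intro b
      obtain ⟨N, a, hN, hNa⟩ := hβrad b
      refine ⟨N, a, hN, ?_⟩
      rw [bk81_mem_centre, map_sub, map_pow, hφβ]
      exact hNa)
    (by
      ext a
      rw [Ideal.mem_comap, Ideal.mem_comap, bk81_mem_centre, bk81_mem_centre, hφβ]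
      exact hβ23 a)
    n h
  exact key

end TwoVal

end Fermat.Agent.S36
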