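import Mathlib
import Fermat.Agent.S35.NewToricFrame35
import Fermat.Agent.S35.Iface62
import Fermat.Agent.S36.ThreeBranch50
import Fermat.Agent.S36.Split3Inst66
import Fermat.Agent.S36.NormSqBeta86

/-!
# S36 lab (helper35, registry row 621 "B2-INST"): the canonical instance of `tb50_Frame`

Level `M' q²` over level `M' q` (`q ∤ M'`), `F₁ = F_K(M' q)`, `F₂ = F_K(M' q q)`,
`α₂ = al97L_alpha K (M' * q) q`, `β₂ = al97L_beta K (M' * q) q`.

* `V₁ = cm85_Vinf (M' * q * q) hπ` (Gauss ring), reduction `r1 = ntf35_red R (M' * q * q)`;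
* `V₃ = nsb86_V3 M' q hq hM' hπ = V₁.comap w₂`, reduction `r3 = rf35_r3 = r1 ∘ w₂`;
* `V₂` is a PARAMETER (a valuation subring of `F₂`) with: `α₂ V_∞' ⊆ V₂`, `β₂ V_0' ⊆ V₂`,
  `π⁻¹ ∉ V₂` and residue degree one over `V_∞'` along `α₂`
  (`∀ x ∈ V₂, ∃ b ∈ V_∞', x - α₂ b ∈ V₂.nonunits`, an output of `ob72_ram`);
  its reduction is `r2 = rf35_r2` (the transport of `ri = ntf35_red R (M' * q)` along `α₂`);
* `W = V₁ ⊓ V₂ ⊓ V₃`, `W' = s34i47c_W` (level `M' q`), `ri = ntf35_red R (M' * q)`,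
  `rz = ntf35_red0 R M' q hq hM'`, `V = qExpand κ q`.

Main results: `rf35_r2_eq` (well-definedness), `rf35_r2_RH`, `rf35_r2_alpha`, `rf35_r2_unit`,
`rf35_r1_beta`, `rf35_r3_alpha`, `rf35_r3_beta`, `rf35_sep`, `rf35_lift`, `rf35_N2`, `rf35_N3`
and `rf35_frame` (the instance of `tb50_Frame`; the two "ramified" norm formulas `N1`, `N4` and
the unit-preservation of the norms are hypotheses in the literal `tb50` shape).
All names are prefixed `rf35_`.
-/

set_option autoImplicit false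
set_option linter.unusedSectionVars false
set_option linter.unusedVariables false
set_option linter.style.haveILetI false

open ModularCurve AlgebraicCurve IntermediateField
open Fermat.Agent.S24 Fermat.Agent.S37 Fermat.Agent.S18 Fermat.Agent.S28 Fermat.Agent.S34
open Fermat.Agent.S35

namespace Fermat.Agent.S36

local notation "Q̄" => AlgebraicClosure ℚ

/-! ## 0. Non-units of a valuation subring (Mathlib only) -/

theorem rf35_nonunits_mul {F : Type*} [Field F] (V : ValuationSubring F) {x y : F} (hx : x ∈ V)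
    (hy : y ∈ V.nonunits) : x * y ∈ V.nonunits := by
  rw [ValuationSubring.mem_nonunits_iff] at hy ⊢
  rw [mul_comm, map_mul]
  exact mul_lt_one_of_lt_of_le hy ((V.valuation_le_one_iff x).mpr hx)

theorem rf35_nonunits_of_dvd {F : Type*} [Field F] (V : ValuationSubring F) {p z : F}
    (hp : p ∈ V) (hp' : p⁻¹ ∉ V) (hz : p⁻¹ * z ∈ V) : z ∈ V.nonunits := by
  have hp0 : p ≠ 0 := by
    rintro rfl
    exact hp' (by rw [inv_zero]; exact V.zero_mem)
  have hpn : p ∈ V.nonunits := (ValuationSubring.mem_nonunits_iff_or V).mpr (Or.inr hp')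
  have h2 : z = (p⁻¹ * z) * p := by
    rw [mul_comm, ← mul_assoc, mul_inv_cancel₀ hp0, one_mul]
  rw [h2]
  exact rf35_nonunits_mul V hz hpn

theorem rf35_inv_mem_of_not_nonunits {F : Type*} [Field F] (V : ValuationSubring F) {x : F}
    (hx : x ∉ V.nonunits) : x⁻¹ ∈ V := by
  by_contra h
  exact hx ((ValuationSubring.mem_nonunits_iff_or V).mpr (Or.inr h))

section RF35

variable {R K : Type} [CommRing R] [IsDomain R] [IsDiscreteValuationRing R] [Field K]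
  [CharZero K] [Algebra R K] [IsFractionRing R K] [Algebra K Q̄]
  (M' q : ℕ) [NeZero M'] [NeZero q] (hq : q.Prime) (hM' : ¬ q ∣ M')

/-! ## 1. The middle reduction `r2` -/

open Classical in
/-- The reduction along `V₂`: the transport of `ri = ntf35_red R (M' * q)` along `α₂`
(`V₂` has residue degree one over `V_∞'`); `0` outside `α₂ V_∞' + 𝔪(V₂)`. -/
noncomputable def rf35_r2 {π : R} (hπ : Irreducible π)
    (V₂ : ValuationSubring ↥(modularFunctionFieldFullC K (M' * q * q)))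
    (y : ↥(modularFunctionFieldFullC K (M' * q * q))) :
    LaurentSeries (IsLocalRing.ResidueField R) :=
  if h : ∃ b ∈ cm85_Vinf (K := K) (M' * q) hπ, y - al97L_alpha K (M' * q) q b ∈ V₂.nonunits
  then ntf35_red R (M' * q) h.choose else 0

variable {π : R} (hπ : Irreducible π)
  (V₂ : ValuationSubring ↥(modularFunctionFieldFullC K (M' * q * q)))

/-- `π` is a non-unit of `V_∞'`-algebras: `α₂` of a non-unit of `V_∞'` is a non-unit of `V₂`. -/
theorem rf35_alpha_nonunit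
    (hα₂ : ∀ x ∈ cm85_Vinf (K := K) (M' * q) hπ, al97L_alpha K (M' * q) q x ∈ V₂)
    (hπ₂ : (algebraMap K ↥(modularFunctionFieldFullC K (M' * q * q)) (algebraMap R K π))⁻¹ ∉ V₂)
    (b : ↥(modularFunctionFieldFullC K (M' * q)))
    (hb : (algebraMap K ↥(modularFunctionFieldFullC K (M' * q)) (algebraMap R K π))⁻¹ * b ∈
      cm85_Vinf (K := K) (M' * q) hπ) :
    al97L_alpha K (M' * q) q b ∈ V₂.nonunits := by
  have h1 := hα₂ _ hb
  rw [map_mul, map_inv₀, AlgHom.commutes] at h1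
  have hπV : algebraMap K ↥(modularFunctionFieldFullC K (M' * q * q)) (algebraMap R K π) ∈ V₂ := by
    have := hα₂ _ (ntf35_algebraMap_mem (M' * q) hπ π)
    rwa [AlgHom.commutes] at this
  exact rf35_nonunits_of_dvd V₂ hπV hπ₂ h1

/-- **Well-definedness of `r2`**: `r2 y = ri b` for ANY `b ∈ V_∞'` with `y ≡ α₂ b` modulo
`𝔪(V₂)`. -/
theorem rf35_r2_eq
    (hα₂ : ∀ x ∈ cm85_Vinf (K := K) (M' * q) hπ, al97L_alpha K (M' * q) q x ∈ V₂)
    (y : ↥(modularFunctionFieldFullC K (M' * q * q))) (b : ↥(modularFunctionFieldFullC K (M' * q)))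
    (hb : b ∈ cm85_Vinf (K := K) (M' * q) hπ)
    (hyb : y - al97L_alpha K (M' * q) q b ∈ V₂.nonunits) :
    rf35_r2 M' q hπ V₂ y = ntf35_red R (M' * q) b := by
  have hex : ∃ b ∈ cm85_Vinf (K := K) (M' * q) hπ,
      y - al97L_alpha K (M' * q) q b ∈ V₂.nonunits := ⟨b, hb, hyb⟩
  rw [rf35_r2, dif_pos hex]
  obtain ⟨hc, hyc⟩ := hex.choose_spec
  set c := hex.choose with hcdef
  -- `α₂ (c - b)` is a non-unit of `V₂`
  have hd : al97L_alpha K (M' * q) q (c - b) ∈ V₂.nonunits := by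
    have : al97L_alpha K (M' * q) q (c - b) =
        (y - al97L_alpha K (M' * q) q b) - (y - al97L_alpha K (M' * q) q c) := by
      rw [map_sub]; ring
    rw [this]
    exact sub_mem hyb hyc
  have hcb : c - b ∈ cm85_Vinf (K := K) (M' * q) hπ := sub_mem hc hb
  by_cases hcb0 : c - b = 0
  · rw [sub_eq_zero.mp hcb0]
  · have hinv : (c - b)⁻¹ ∉ cm85_Vinf (K := K) (M' * q) hπ := by
      intro hin
      have h1 := hα₂ _ hin
      rw [map_inv₀] at h1
      rcases (ValuationSubring.mem_nonunits_iff_or V₂).mp hd with h0 | h0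
      · exact hcb0 ((map_eq_zero_iff _ (al97L_alpha K (M' * q) q).toRingHom.injective).mp h0)
      · exact h0 h1
    have hmax := gv85_hmax (IsLocalRing.residue R) π (pk85_res_iff hπ) hπ.ne_zero _ _ (c - b)
      hcb hinv
    exact (ntf35_red_cong (M' * q) hπ c b hb hmax).2

/-- `r2` vanishes on the maximal ideal of `V₂`. -/
theorem rf35_r2_nonunit
    (hα₂ : ∀ x ∈ cm85_Vinf (K := K) (M' * q) hπ, al97L_alpha K (M' * q) q x ∈ V₂)
    (y : ↥(modularFunctionFieldFullC K (M' * q * q))) (hy : y ∈ V₂.nonunits) :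
    rf35_r2 M' q hπ V₂ y = 0 := by
  rw [rf35_r2_eq M' q hπ V₂ hα₂ y 0 (zero_mem _) (by rw [map_zero, sub_zero]; exact hy)]
  exact ntf35_red_zero (M' * q)

/-- `r2 ∘ α₂ = ri` on `V_∞'`. -/
theorem rf35_r2_alpha
    (hα₂ : ∀ x ∈ cm85_Vinf (K := K) (M' * q) hπ, al97L_alpha K (M' * q) q x ∈ V₂)
    (h : ↥(modularFunctionFieldFullC K (M' * q))) (hh : h ∈ cm85_Vinf (K := K) (M' * q) hπ) :
    rf35_r2 M' q hπ V₂ (al97L_alpha K (M' * q) q h) = ntf35_red R (M' * q) h :=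
  rf35_r2_eq M' q hπ V₂ hα₂ _ h hh (by rw [sub_self]; exact zero_mem _)

theorem rf35_r2_one
    (hα₂ : ∀ x ∈ cm85_Vinf (K := K) (M' * q) hπ, al97L_alpha K (M' * q) q x ∈ V₂) :
    rf35_r2 M' q hπ V₂ 1 = 1 := by
  have h := rf35_r2_alpha M' q hπ V₂ hα₂ 1 (one_mem _)
  rwa [map_one, ntf35_red_one] at h

theorem rf35_r2_add
    (hα₂ : ∀ x ∈ cm85_Vinf (K := K) (M' * q) hπ, al97L_alpha K (M' * q) q x ∈ V₂)
    (hf₂ : ∀ x ∈ V₂, ∃ b ∈ cm85_Vinf (K := K) (M' * q) hπ,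
      x - al97L_alpha K (M' * q) q b ∈ V₂.nonunits)
    (x y : ↥(modularFunctionFieldFullC K (M' * q * q))) (hx : x ∈ V₂) (hy : y ∈ V₂) :
    rf35_r2 M' q hπ V₂ (x + y) = rf35_r2 M' q hπ V₂ x + rf35_r2 M' q hπ V₂ y := by
  obtain ⟨a, ha, hxa⟩ := hf₂ x hx
  obtain ⟨b, hb, hyb⟩ := hf₂ y hy
  have hab : x + y - al97L_alpha K (M' * q) q (a + b) ∈ V₂.nonunits := by
    have : x + y - al97L_alpha K (M' * q) q (a + b) =
        (x - al97L_alpha K (M' * q) q a) + (y - al97L_alpha K (M' * q) q b) := by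
      rw [map_add]; ring
    rw [this]
    exact add_mem hxa hyb
  rw [rf35_r2_eq M' q hπ V₂ hα₂ x a ha hxa, rf35_r2_eq M' q hπ V₂ hα₂ y b hb hyb,
    rf35_r2_eq M' q hπ V₂ hα₂ (x + y) (a + b) (add_mem ha hb) hab,
    ntf35_red_add (M' * q) hπ a b ha hb]

theorem rf35_r2_mul
    (hα₂ : ∀ x ∈ cm85_Vinf (K := K) (M' * q) hπ, al97L_alpha K (M' * q) q x ∈ V₂)
    (hf₂ : ∀ x ∈ V₂, ∃ b ∈ cm85_Vinf (K := K) (M' * q) hπ,
      x - al97L_alpha K (M' * q) q b ∈ V₂.nonunits)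
    (x y : ↥(modularFunctionFieldFullC K (M' * q * q))) (hx : x ∈ V₂) (hy : y ∈ V₂) :
    rf35_r2 M' q hπ V₂ (x * y) = rf35_r2 M' q hπ V₂ x * rf35_r2 M' q hπ V₂ y := by
  obtain ⟨a, ha, hxa⟩ := hf₂ x hx
  obtain ⟨b, hb, hyb⟩ := hf₂ y hy
  have hab : x * y - al97L_alpha K (M' * q) q (a * b) ∈ V₂.nonunits := by
    have : x * y - al97L_alpha K (M' * q) q (a * b) =
        x * (y - al97L_alpha K (M' * q) q b) +
          al97L_alpha K (M' * q) q b * (x - al97L_alpha K (M' * q) q a) := by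
      rw [map_mul]; ring
    rw [this]
    exact add_mem (rf35_nonunits_mul V₂ hx hyb) (rf35_nonunits_mul V₂ (hα₂ b hb) hxa)
  rw [rf35_r2_eq M' q hπ V₂ hα₂ x a ha hxa, rf35_r2_eq M' q hπ V₂ hα₂ y b hb hyb,
    rf35_r2_eq M' q hπ V₂ hα₂ (x * y) (a * b) (mul_mem ha hb) hab,
    ntf35_red_mul (M' * q) hπ a b ha hb]

/-- Congruent elements have the same `r2`. -/
theorem rf35_r2_cong
    (hα₂ : ∀ x ∈ cm85_Vinf (K := K) (M' * q) hπ, al97L_alpha K (M' * q) q x ∈ V₂)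
    (hf₂ : ∀ x ∈ V₂, ∃ b ∈ cm85_Vinf (K := K) (M' * q) hπ,
      x - al97L_alpha K (M' * q) q b ∈ V₂.nonunits)
    (x y : ↥(modularFunctionFieldFullC K (M' * q * q))) (hy : y ∈ V₂)
    (hxy : x - y ∈ V₂.nonunits) :
    rf35_r2 M' q hπ V₂ x = rf35_r2 M' q hπ V₂ y := by
  obtain ⟨b, hb, hyb⟩ := hf₂ y hy
  have hxb : x - al97L_alpha K (M' * q) q b ∈ V₂.nonunits := by
    have : x - al97L_alpha K (M' * q) q b = (x - y) + (y - al97L_alpha K (M' * q) q b) := by ring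
    rw [this]
    exact add_mem hxy hyb
  rw [rf35_r2_eq M' q hπ V₂ hα₂ x b hb hxb, rf35_r2_eq M' q hπ V₂ hα₂ y b hb hyb]

/-- Unit criterion for `V₂`. -/
theorem rf35_r2_inv_mem
    (hα₂ : ∀ x ∈ cm85_Vinf (K := K) (M' * q) hπ, al97L_alpha K (M' * q) q x ∈ V₂)
    (x : ↥(modularFunctionFieldFullC K (M' * q * q)))
    (hr : rf35_r2 M' q hπ V₂ x ≠ 0) : x⁻¹ ∈ V₂ :=
  rf35_inv_mem_of_not_nonunits V₂ (fun hxn => hr (rf35_r2_nonunit M' q hπ V₂ hα₂ x hxn))

/-- `r2` is a ring homomorphism on any subring contained in `V₂`. -/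
theorem rf35_r2_RH
    (hα₂ : ∀ x ∈ cm85_Vinf (K := K) (M' * q) hπ, al97L_alpha K (M' * q) q x ∈ V₂)
    (hf₂ : ∀ x ∈ V₂, ∃ b ∈ cm85_Vinf (K := K) (M' * q) hπ,
      x - al97L_alpha K (M' * q) q b ∈ V₂.nonunits)
    (W : Subring ↥(modularFunctionFieldFullC K (M' * q * q))) (hW : ∀ x ∈ W, x ∈ V₂) :
    tb50_RH W (rf35_r2 M' q hπ V₂) :=
  { one := rf35_r2_one M' q hπ V₂ hα₂
    mul := fun x hx y hy => rf35_r2_mul M' q hπ V₂ hα₂ hf₂ x y (hW x hx) (hW y hy)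
    add := fun x hx y hy => rf35_r2_add M' q hπ V₂ hα₂ hf₂ x y (hW x hx) (hW y hy) }

/-! ## 2. The reductions `r1` (Gauss) and `r3 = r1 ∘ w₂` -/

/-- `r1 ∘ α₂ = ri`. -/
theorem rf35_r1_alpha (h : ↥(modularFunctionFieldFullC K (M' * q))) :
    ntf35_red R (M' * q * q) (al97L_alpha K (M' * q) q h) = ntf35_red R (M' * q) h :=
  ntf35_red_congr_level (M' * q * q) (M' * q) _ _ (al97L_alpha_coe K (M' * q) q h)

/-- `r1 ∘ β₂ = V ∘ ri` on `V_∞'`. -/
theorem rf35_r1_beta (h : ↥(modularFunctionFieldFullC K (M' * q)))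
    (hh : h ∈ cm85_Vinf (K := K) (M' * q) hπ) :
    ntf35_red R (M' * q * q) (al97L_beta K (M' * q) q h) =
      qExpand (IsLocalRing.ResidueField R) q (ntf35_red R (M' * q) h) := by
  show ntf35_redS R ((al97L_beta K (M' * q) q h : ↥(modularFunctionFieldFullC K (M' * q * q))) :
    LaurentSeries K) = _
  rw [al97L_beta_coe]
  exact ntf35_redS_qExpand q hh

variable (R) in
/-- The reduction along `V₃ = V₁.comap w₂`: `r3 = r1 ∘ w₂`. -/
noncomputable def rf35_r3 (y : ↥(modularFunctionFieldFullC K (M' * q * q))) :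
    LaurentSeries (IsLocalRing.ResidueField R) :=
  ntf35_red R (M' * q * q)
    (als86_w2 (algebraMap K Q̄) M' q hq hM' (nsb86_hL K (M' * q * q)) y)

/-- `r3 ∘ α₂ = V ∘ rz` on `V_0'`. -/
theorem rf35_r3_alpha (h : ↥(modularFunctionFieldFullC K (M' * q)))
    (hh : h ∈ s34i47c_V0 (K := K) M' q hq hM' hπ) :
    rf35_r3 R M' q hq hM' (al97L_alpha K (M' * q) q h) =
      qExpand (IsLocalRing.ResidueField R) q (ntf35_red0 R M' q hq hM' h) := by
  rw [rf35_r3, als86_w2_alpha]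
  exact rf35_r1_beta M' q hπ _ ((s34i47c_mem_V0 M' q hq hM' hπ h).mp hh)

/-- `r3 ∘ β₂ = rz`. -/
theorem rf35_r3_beta (h : ↥(modularFunctionFieldFullC K (M' * q))) :
    rf35_r3 R M' q hq hM' (al97L_beta K (M' * q) q h) = ntf35_red0 R M' q hq hM' h := by
  rw [rf35_r3, als86_w2_beta]
  exact rf35_r1_alpha M' q _

/-- `α₂ V_0' ⊆ V₃`. -/
theorem rf35_alpha_mem_V3 (h : ↥(modularFunctionFieldFullC K (M' * q)))
    (hh : h ∈ s34i47c_V0 (K := K) M' q hq hM' hπ) :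
    al97L_alpha K (M' * q) q h ∈ nsb86_V3 M' q hq hM' hπ := by
  rw [nsb86_mem_V3, als86_w2_alpha]
  exact (al97V_beta_mem_Vinf (M' * q) q hπ _).mpr ((s34i47c_mem_V0 M' q hq hM' hπ h).mp hh)

/-- `β₂ V_0' ⊆ V₃`. -/
theorem rf35_beta_mem_V3 (h : ↥(modularFunctionFieldFullC K (M' * q)))
    (hh : h ∈ s34i47c_V0 (K := K) M' q hq hM' hπ) :
    al97L_beta K (M' * q) q h ∈ nsb86_V3 M' q hq hM' hπ := by
  rw [nsb86_mem_V3, als86_w2_beta]
  exact (al97V_alpha_mem_Vinf (M' * q) q hπ _).mpr ((s34i47c_mem_V0 M' q hq hM' hπ h).mp hh)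

/-- `π⁻¹ ∉ V₃`. -/
theorem rf35_pi_inv_not_mem_V3 :
    (algebraMap K ↥(modularFunctionFieldFullC K (M' * q * q)) (algebraMap R K π))⁻¹ ∉
      nsb86_V3 M' q hq hM' hπ := by
  rw [nsb86_mem_V3, map_inv₀, AlgEquiv.commutes]
  exact gv85_pi_inv_not_mem (IsLocalRing.residue R) π (pk85_res_iff hπ) hπ.ne_zero _ _

/-- Membership in `W = V₁ ⊓ V₂ ⊓ V₃`. -/
theorem rf35_mem_W (y : ↥(modularFunctionFieldFullC K (M' * q * q))) :
    y ∈ (cm85_Vinf (K := K) (M' * q * q) hπ).toSubring ⊓ V₂.toSubring ⊓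
        (nsb86_V3 M' q hq hM' hπ).toSubring ↔
      y ∈ cm85_Vinf (K := K) (M' * q * q) hπ ∧ y ∈ V₂ ∧
        als86_w2 (algebraMap K Q̄) M' q hq hM' (nsb86_hL K (M' * q * q)) y ∈
          cm85_Vinf (K := K) (M' * q * q) hπ := by
  rw [Subring.mem_inf, Subring.mem_inf]
  exact and_assoc

/-! ## 3. Separators -/

/-- `π ∈ V₂`. -/
theorem rf35_pi_mem_V2
    (hα₂ : ∀ x ∈ cm85_Vinf (K := K) (M' * q) hπ, al97L_alpha K (M' * q) q x ∈ V₂) (r : R) :
    algebraMap K ↥(modularFunctionFieldFullC K (M' * q * q)) (algebraMap R K r) ∈ V₂ := by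
  have h := hα₂ _ (ntf35_algebraMap_mem (M' * q) hπ r)
  rwa [AlgHom.commutes] at h

/-- `π⁻¹ (ε - α₂ b) ∈ V₂` pins `r2 ε = ri b`. -/
theorem rf35_r2_of_cong
    (hα₂ : ∀ x ∈ cm85_Vinf (K := K) (M' * q) hπ, al97L_alpha K (M' * q) q x ∈ V₂)
    (hπ₂ : (algebraMap K ↥(modularFunctionFieldFullC K (M' * q * q)) (algebraMap R K π))⁻¹ ∉ V₂)
    (ε : ↥(modularFunctionFieldFullC K (M' * q * q))) (b : ↥(modularFunctionFieldFullC K (M' * q)))
    (hb : b ∈ cm85_Vinf (K := K) (M' * q) hπ)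
    (h : (algebraMap K ↥(modularFunctionFieldFullC K (M' * q * q)) (algebraMap R K π))⁻¹ *
      (ε - al97L_alpha K (M' * q) q b) ∈ V₂) :
    ε ∈ V₂ ∧ rf35_r2 M' q hπ V₂ ε = ntf35_red R (M' * q) b := by
  have hn : ε - al97L_alpha K (M' * q) q b ∈ V₂.nonunits :=
    rf35_nonunits_of_dvd V₂ (rf35_pi_mem_V2 M' q hπ V₂ hα₂ π) hπ₂ h
  refine ⟨?_, rf35_r2_eq M' q hπ V₂ hα₂ ε b hb hn⟩
  have h1 : ε = (ε - al97L_alpha K (M' * q) q b) + al97L_alpha K (M' * q) q b := by ring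
  rw [h1]
  exact V₂.add_mem _ _ (ValuationSubring.nonunits_subset hn) (hα₂ b hb)

/-- `π⁻¹ (ε - y) ∈ V₃` with `w₂ y ∈ V₁` pins `r3 ε = r3 y`. -/
theorem rf35_r3_of_cong (ε y : ↥(modularFunctionFieldFullC K (M' * q * q)))
    (hy : y ∈ nsb86_V3 M' q hq hM' hπ)
    (h : (algebraMap K ↥(modularFunctionFieldFullC K (M' * q * q)) (algebraMap R K π))⁻¹ *
      (ε - y) ∈ nsb86_V3 M' q hq hM' hπ) :
    ε ∈ nsb86_V3 M' q hq hM' hπ ∧ rf35_r3 R M' q hq hM' ε = rf35_r3 R M' q hq hM' y := by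
  have h' : (algebraMap K ↥(modularFunctionFieldFullC K (M' * q * q)) (algebraMap R K π))⁻¹ *
      (als86_w2 (algebraMap K Q̄) M' q hq hM' (nsb86_hL K (M' * q * q)) ε -
        als86_w2 (algebraMap K Q̄) M' q hq hM' (nsb86_hL K (M' * q * q)) y) ∈
      cm85_Vinf (K := K) (M' * q * q) hπ := by
    have h2 := (nsb86_mem_V3 M' q hq hM' hπ _).mp h
    rwa [map_mul, map_inv₀, AlgEquiv.commutes, map_sub] at h2
  obtain ⟨h3, h4⟩ := ntf35_red_cong (M' * q * q) hπ _ _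
    ((nsb86_mem_V3 M' q hq hM' hπ y).mp hy) h'
  exact ⟨(nsb86_mem_V3 M' q hq hM' hπ ε).mpr h3, h4⟩

/-- **The three separators**, in reduction form. -/
theorem rf35_sep (hqR : ¬ IsUnit (q : R))
    (hα₂ : ∀ x ∈ cm85_Vinf (K := K) (M' * q) hπ, al97L_alpha K (M' * q) q x ∈ V₂)
    (hβ₂ : ∀ x ∈ s34i47c_V0 (K := K) M' q hq hM' hπ, al97L_beta K (M' * q) q x ∈ V₂)
    (hπ₂ : (algebraMap K ↥(modularFunctionFieldFullC K (M' * q * q)) (algebraMap R K π))⁻¹ ∉ V₂) :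
    ∃ e1 e2 e3 : ↥(modularFunctionFieldFullC K (M' * q * q)),
      (e1 ∈ (cm85_Vinf (K := K) (M' * q * q) hπ).toSubring ⊓ V₂.toSubring ⊓
          (nsb86_V3 M' q hq hM' hπ).toSubring ∧
        e2 ∈ (cm85_Vinf (K := K) (M' * q * q) hπ).toSubring ⊓ V₂.toSubring ⊓
          (nsb86_V3 M' q hq hM' hπ).toSubring ∧
        e3 ∈ (cm85_Vinf (K := K) (M' * q * q) hπ).toSubring ⊓ V₂.toSubring ⊓
          (nsb86_V3 M' q hq hM' hπ).toSubring) ∧
      (ntf35_red R (M' * q * q) e1 = 1 ∧ rf35_r2 M' q hπ V₂ e1 = 0 ∧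
        rf35_r3 R M' q hq hM' e1 = 0) ∧
      (ntf35_red R (M' * q * q) e2 = 0 ∧ rf35_r2 M' q hπ V₂ e2 = 1 ∧
        rf35_r3 R M' q hq hM' e2 = 0) ∧
      (ntf35_red R (M' * q * q) e3 = 0 ∧ rf35_r2 M' q hπ V₂ e3 = 0 ∧
        rf35_r3 R M' q hq hM' e3 = 1) := by
  letI i1 : Algebra R ↥(modularFunctionFieldFullC K (M' * q)) :=
    ((algebraMap K ↥(modularFunctionFieldFullC K (M' * q))).comp (algebraMap R K)).toAlgebra
  haveI t1 : IsScalarTower R K ↥(modularFunctionFieldFullC K (M' * q)) :=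
    IsScalarTower.of_algebraMap_eq (fun _ => rfl)
  letI i2 : Algebra R ↥(modularFunctionFieldFullC K (M' * q * q)) :=
    ((algebraMap K ↥(modularFunctionFieldFullC K (M' * q * q))).comp (algebraMap R K)).toAlgebra
  haveI t2 : IsScalarTower R K ↥(modularFunctionFieldFullC K (M' * q * q)) :=
    IsScalarTower.of_algebraMap_eq (fun _ => rfl)
  obtain ⟨ε₁, ε₂, ε₃, ⟨h11, h12, h13⟩, ⟨h21, h22, h23⟩, ⟨h31, h32, h33⟩, -⟩ :=
    s3i66_sep (K := K) M' q hq hM' hπ V₂ (nsb86_V3 M' q hq hM' hπ) hqR hα₂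
      (rf35_alpha_mem_V3 M' q hq hM' hπ) hβ₂ (rf35_beta_mem_V3 M' q hq hM' hπ)
  have one1 : (1 : ↥(modularFunctionFieldFullC K (M' * q * q))) ∈
      cm85_Vinf (K := K) (M' * q * q) hπ := one_mem _
  have zero1 : (0 : ↥(modularFunctionFieldFullC K (M' * q * q))) ∈
      cm85_Vinf (K := K) (M' * q * q) hπ := zero_mem _
  have one3 : (1 : ↥(modularFunctionFieldFullC K (M' * q * q))) ∈
      nsb86_V3 M' q hq hM' hπ := one_mem _
  have zero3 : (0 : ↥(modularFunctionFieldFullC K (M' * q * q))) ∈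
      nsb86_V3 M' q hq hM' hπ := zero_mem _
  have r1one : ntf35_red R (M' * q * q) (1 : ↥(modularFunctionFieldFullC K (M' * q * q))) = 1 :=
    ntf35_red_one _
  have r1zero : ntf35_red R (M' * q * q) (0 : ↥(modularFunctionFieldFullC K (M' * q * q))) = 0 :=
    ntf35_red_zero _
  have rione : ntf35_red R (M' * q) (1 : ↥(modularFunctionFieldFullC K (M' * q))) = 1 :=
    ntf35_red_one _
  have rizero : ntf35_red R (M' * q) (0 : ↥(modularFunctionFieldFullC K (M' * q))) = 0 :=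
    ntf35_red_zero _
  have r3one : rf35_r3 R M' q hq hM' (1 : ↥(modularFunctionFieldFullC K (M' * q * q))) = 1 := by
    rw [rf35_r3, map_one]; exact ntf35_red_one _
  have r3zero : rf35_r3 R M' q hq hM' (0 : ↥(modularFunctionFieldFullC K (M' * q * q))) = 0 := by
    rw [rf35_r3, map_zero]; exact ntf35_red_zero _
  -- the nine congruences
  have a11 := ntf35_red_cong (M' * q * q) hπ ε₁ 1 one1 h11
  have a21 := ntf35_red_cong (M' * q * q) hπ ε₂ 0 zero1 (by rw [sub_zero]; exact h21)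
  have a31 := ntf35_red_cong (M' * q * q) hπ ε₃ 0 zero1 (by rw [sub_zero]; exact h31)
  have a12 := rf35_r2_of_cong M' q hπ V₂ hα₂ hπ₂ ε₁ 0 (zero_mem _)
    (by rw [map_zero, sub_zero]; exact h12)
  have a22 := rf35_r2_of_cong M' q hπ V₂ hα₂ hπ₂ ε₂ 1 (one_mem _)
    (by rw [map_one]; exact h22)
  have a32 := rf35_r2_of_cong M' q hπ V₂ hα₂ hπ₂ ε₃ 0 (zero_mem _)
    (by rw [map_zero, sub_zero]; exact h32)
  have a13 := rf35_r3_of_cong M' q hq hM' hπ ε₁ 0 zero3 (by rw [sub_zero]; exact h13)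
  have a23 := rf35_r3_of_cong M' q hq hM' hπ ε₂ 0 zero3 (by rw [sub_zero]; exact h23)
  have a33 := rf35_r3_of_cong M' q hq hM' hπ ε₃ 1 one3 h33
  refine ⟨ε₁, ε₂, ε₃, ⟨?_, ?_, ?_⟩, ⟨?_, ?_, ?_⟩, ⟨?_, ?_, ?_⟩, ?_, ?_, ?_⟩
  · exact (rf35_mem_W M' q hq hM' hπ V₂ ε₁).mpr ⟨a11.1, a12.1, a13.1⟩
  · exact (rf35_mem_W M' q hq hM' hπ V₂ ε₂).mpr ⟨a21.1, a22.1, a23.1⟩
  · exact (rf35_mem_W M' q hq hM' hπ V₂ ε₃).mpr ⟨a31.1, a32.1, a33.1⟩
  · rw [a11.2, r1one]
  · rw [a12.2, rizero]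
  · rw [a13.2, r3zero]
  · rw [a21.2, r1zero]
  · rw [a22.2, rione]
  · rw [a23.2, r3zero]
  · rw [a31.2, r1zero]
  · rw [a32.2, rizero]
  · rw [a33.2, r3one]

/-! ## 4. Constants -/

/-- The constants of `κ((Q))`. -/
noncomputable def rf35_Cst (κ : Type) [Field κ] : Subfield (LaurentSeries κ) :=
  (HahnSeries.C : κ →+* LaurentSeries κ).fieldRange

theorem rf35_mem_Cst (κ : Type) [Field κ] (c : LaurentSeries κ) :
    c ∈ rf35_Cst κ ↔ ∃ a : κ, HahnSeries.C a = c :=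
  RingHom.mem_fieldRange

/-- Constants of `R` lie in `W`. -/
theorem rf35_const_mem
    (hα₂ : ∀ x ∈ cm85_Vinf (K := K) (M' * q) hπ, al97L_alpha K (M' * q) q x ∈ V₂) (r : R) :
    algebraMap K ↥(modularFunctionFieldFullC K (M' * q * q)) (algebraMap R K r) ∈
      (cm85_Vinf (K := K) (M' * q * q) hπ).toSubring ⊓ V₂.toSubring ⊓
        (nsb86_V3 M' q hq hM' hπ).toSubring := by
  rw [rf35_mem_W]
  refine ⟨ntf35_algebraMap_mem (M' * q * q) hπ r, rf35_pi_mem_V2 M' q hπ V₂ hα₂ r, ?_⟩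
  rw [AlgEquiv.commutes]
  exact ntf35_algebraMap_mem (M' * q * q) hπ r

/-- The three reductions of a constant of `R`. -/
theorem rf35_const_red
    (hα₂ : ∀ x ∈ cm85_Vinf (K := K) (M' * q) hπ, al97L_alpha K (M' * q) q x ∈ V₂) (r : R) :
    ntf35_red R (M' * q * q)
        (algebraMap K ↥(modularFunctionFieldFullC K (M' * q * q)) (algebraMap R K r)) =
      HahnSeries.C (IsLocalRing.residue R r) ∧
    rf35_r2 M' q hπ V₂
        (algebraMap K ↥(modularFunctionFieldFullC K (M' * q * q)) (algebraMap R K r)) =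
      HahnSeries.C (IsLocalRing.residue R r) ∧
    rf35_r3 R M' q hq hM'
        (algebraMap K ↥(modularFunctionFieldFullC K (M' * q * q)) (algebraMap R K r)) =
      HahnSeries.C (IsLocalRing.residue R r) := by
  refine ⟨ntf35_red_algebraMap (M' * q * q) r, ?_, ?_⟩
  · have e : algebraMap K ↥(modularFunctionFieldFullC K (M' * q * q)) (algebraMap R K r) =
        al97L_alpha K (M' * q) q
          (algebraMap K ↥(modularFunctionFieldFullC K (M' * q)) (algebraMap R K r)) :=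
      (AlgHom.commutes _ _).symm
    rw [e, rf35_r2_alpha M' q hπ V₂ hα₂ _ (ntf35_algebraMap_mem (M' * q) hπ r)]
    exact ntf35_red_algebraMap (M' * q) r
  · rw [rf35_r3, AlgEquiv.commutes]
    exact ntf35_red_algebraMap (M' * q * q) r

/-- **Lifting of constants**: a nonzero constant of `κ((Q))` is the common reduction of a
constant unit of `W`. -/
theorem rf35_lift
    (hα₂ : ∀ x ∈ cm85_Vinf (K := K) (M' * q) hπ, al97L_alpha K (M' * q) q x ∈ V₂)
    (c : LaurentSeries (IsLocalRing.ResidueField R))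
    (hc : c ∈ rf35_Cst (IsLocalRing.ResidueField R)) (hc0 : c ≠ 0) :
    ∃ d ∈ Set.range (algebraMap K ↥(modularFunctionFieldFullC K (M' * q * q))),
      tb50_U ((cm85_Vinf (K := K) (M' * q * q) hπ).toSubring ⊓ V₂.toSubring ⊓
        (nsb86_V3 M' q hq hM' hπ).toSubring) d ∧
      ntf35_red R (M' * q * q) d = c ∧ rf35_r2 M' q hπ V₂ d = c ∧
      rf35_r3 R M' q hq hM' d = c := by
  obtain ⟨a, rfl⟩ := (rf35_mem_Cst _ c).mp hc
  obtain ⟨r, rfl⟩ := IsLocalRing.residue_surjective a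
  have hr : IsUnit r := by
    by_contra hnu
    apply hc0
    have : IsLocalRing.residue R r = 0 := by
      rw [IsLocalRing.residue_eq_zero_iff]
      exact (IsLocalRing.mem_maximalIdeal r).mpr hnu
    rw [this, map_zero]
  obtain ⟨u, rfl⟩ := hr
  have hK0 : algebraMap R K (u : R) ≠ 0 := fun h =>
    u.ne_zero (IsFractionRing.injective R K (by rw [h, map_zero]))
  have hinv : (algebraMap K ↥(modularFunctionFieldFullC K (M' * q * q))
      (algebraMap R K (u : R)))⁻¹ =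
      algebraMap K ↥(modularFunctionFieldFullC K (M' * q * q))
        (algebraMap R K ((u⁻¹ : Rˣ) : R)) := by
    rw [← map_inv₀]
    congr 1
    apply inv_eq_of_mul_eq_one_right
    rw [← map_mul, Units.mul_inv, map_one]
  obtain ⟨h1, h2, h3⟩ := rf35_const_red M' q hq hM' hπ V₂ hα₂ (u : R)
  refine ⟨_, ⟨algebraMap R K (u : R), rfl⟩, ⟨?_, rf35_const_mem M' q hq hM' hπ V₂ hα₂ _, ?_⟩,
    h1, h2, h3⟩
  · exact (map_ne_zero _).mpr hK0
  · rw [hinv]
    exact rf35_const_mem M' q hq hM' hπ V₂ hα₂ _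

/-! ## 5. The two "inert" norm formulas `N2`, `N3` (from `nsb86_alpha_cong`, `nsb86_beta_cong`) -/

theorem rf35_red_pow (M : ℕ) [NeZero M] (x : ↥(modularFunctionFieldFullC K M))
    (hx : x ∈ cm85_Vinf (K := K) M hπ) (n : ℕ) :
    ntf35_red R M (x ^ n) = ntf35_red R M x ^ n := by
  induction n with
  | zero => rw [pow_zero, pow_zero]; exact ntf35_red_one M
  | succ k ih => rw [pow_succ, pow_succ, ntf35_red_mul M hπ _ _ (pow_mem hx k) hx, ih]

include hq hM' in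
/-- **(N3)**: for `x ∈ V₁`, `N_β x ∈ V_∞'` and `V (ri (N_β x)) = r1 x ^ q`. -/
theorem rf35_N3 (hqR : ¬ IsUnit (q : R)) (x : ↥(modularFunctionFieldFullC K (M' * q * q)))
    (hx : x ∈ cm85_Vinf (K := K) (M' * q * q) hπ) :
    s35i62_normB K (M' * q) q x ∈ cm85_Vinf (K := K) (M' * q) hπ ∧
      qExpand (IsLocalRing.ResidueField R) q
          (ntf35_red R (M' * q) (s35i62_normB K (M' * q) q x)) =
        ntf35_red R (M' * q * q) x ^ q := by
  have hc : (algebraMap K ↥(modularFunctionFieldFullC K (M' * q * q)) (algebraMap R K π))⁻¹ *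
      (al97L_beta K (M' * q) q (s35i62_normB K (M' * q) q x) - x ^ q) ∈
        cm85_Vinf (K := K) (M' * q * q) hπ := nsb86_beta_cong M' q hq hM' hπ hqR x hx
  obtain ⟨hm, hred⟩ := ntf35_red_cong (M' * q * q) hπ _ _ (pow_mem hx q) hc
  have hN : s35i62_normB K (M' * q) q x ∈ cm85_Vinf (K := K) (M' * q) hπ :=
    (al97V_beta_mem_Vinf (M' * q) q hπ _).mp hm
  refine ⟨hN, ?_⟩
  rw [← rf35_r1_beta M' q hπ _ hN, hred, rf35_red_pow hπ (M' * q * q) x hx q]

/-- **(N2)**: for `x ∈ V₃`, `N_α x ∈ V_0'` and `V (rz (N_α x)) = r3 x ^ q`. -/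
theorem rf35_N2 (hqR : ¬ IsUnit (q : R)) (x : ↥(modularFunctionFieldFullC K (M' * q * q)))
    (hx : x ∈ nsb86_V3 M' q hq hM' hπ) :
    s35i62_normA K (M' * q) q x ∈ s34i47c_V0 (K := K) M' q hq hM' hπ ∧
      qExpand (IsLocalRing.ResidueField R) q
          (ntf35_red0 R M' q hq hM' (s35i62_normA K (M' * q) q x)) =
        rf35_r3 R M' q hq hM' x ^ q := by
  have hc : (algebraMap K ↥(modularFunctionFieldFullC K (M' * q * q)) (algebraMap R K π))⁻¹ *
      (al97L_alpha K (M' * q) q (s35i62_normA K (M' * q) q x) - x ^ q) ∈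
        nsb86_V3 M' q hq hM' hπ := nsb86_alpha_cong M' q hq hM' hπ hqR x hx
  have hx' := (nsb86_mem_V3 M' q hq hM' hπ x).mp hx
  have hc' : (algebraMap K ↥(modularFunctionFieldFullC K (M' * q * q)) (algebraMap R K π))⁻¹ *
      (al97L_beta K (M' * q) q (al97L_w (algebraMap K Q̄) M' q hq hM'
          (s35i62_normA K (M' * q) q x)) -
        (als86_w2 (algebraMap K Q̄) M' q hq hM' (nsb86_hL K (M' * q * q)) x) ^ q) ∈
      cm85_Vinf (K := K) (M' * q * q) hπ := by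
    have h2 := (nsb86_mem_V3 M' q hq hM' hπ _).mp hc
    rwa [map_mul, map_inv₀, AlgEquiv.commutes, map_sub, map_pow, als86_w2_alpha] at h2
  obtain ⟨hm, hred⟩ := ntf35_red_cong (M' * q * q) hπ _ _ (pow_mem hx' q) hc'
  have hN : al97L_w (algebraMap K Q̄) M' q hq hM' (s35i62_normA K (M' * q) q x) ∈
      cm85_Vinf (K := K) (M' * q) hπ := (al97V_beta_mem_Vinf (M' * q) q hπ _).mp hm
  refine ⟨(s34i47c_mem_V0 M' q hq hM' hπ _).mpr hN, ?_⟩
  have h3 := rf35_r1_beta M' q hπ _ hN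
  rw [hred, rf35_red_pow hπ (M' * q * q) _ hx' q] at h3
  exact h3.symm

/-! ## 6. The frame -/

/-- A unit-preserving monoid homomorphism: `N x⁻¹ = (N x)⁻¹`. -/
theorem rf35_map_inv {A B : Type*} [Field A] [Field B] (N : A →* B) (x : A) (hx : x ≠ 0) :
    N x⁻¹ = (N x)⁻¹ ∧ N x ≠ 0 := by
  have h : N x * N x⁻¹ = 1 := by rw [← map_mul, mul_inv_cancel₀ hx, map_one]
  exact ⟨eq_inv_of_mul_eq_one_right h, left_ne_zero_of_mul_eq_one h⟩

/-- **The canonical instance of `tb50_Frame`** at level `M' q²` over level `M' q`.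

`V₂` is a valuation subring of `F_K(M' q²)` with `α₂ V_∞' ⊆ V₂`, `β₂ V_0' ⊆ V₂`, `π⁻¹ ∉ V₂` and
residue degree one over `V_∞'` along `α₂` (`hf₂`).  The two RAMIFIED norm formulas are hypotheses,
in the shape `N x ∈ V' ∧ (reduction identity)` on the units of `W = V₁ ⊓ V₂ ⊓ V₃`:

* `hN1 : N_α x ∈ V_∞' ∧ ri (N_α x) = r1 x * r2 x ^ (q - 1)`;
* `hN4 : N_β x ∈ V_0' ∧ rz (N_β x) = r3 x * r2 x ^ (q - 1)`.

The two inert ones (`N2`, `N3`) are proved (`rf35_N2`, `rf35_N3`). -/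
theorem rf35_frame (hqR : ¬ IsUnit (q : R))
    (hα₂ : ∀ x ∈ cm85_Vinf (K := K) (M' * q) hπ, al97L_alpha K (M' * q) q x ∈ V₂)
    (hβ₂ : ∀ x ∈ s34i47c_V0 (K := K) M' q hq hM' hπ, al97L_beta K (M' * q) q x ∈ V₂)
    (hπ₂ : (algebraMap K ↥(modularFunctionFieldFullC K (M' * q * q)) (algebraMap R K π))⁻¹ ∉ V₂)
    (hf₂ : ∀ x ∈ V₂, ∃ b ∈ cm85_Vinf (K := K) (M' * q) hπ,
      x - al97L_alpha K (M' * q) q b ∈ V₂.nonunits)
    (hN1 : ∀ x : ↥(modularFunctionFieldFullC K (M' * q * q)),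
      tb50_U ((cm85_Vinf (K := K) (M' * q * q) hπ).toSubring ⊓ V₂.toSubring ⊓
        (nsb86_V3 M' q hq hM' hπ).toSubring) x →
      s35i62_normA K (M' * q) q x ∈ cm85_Vinf (K := K) (M' * q) hπ ∧
        ntf35_red R (M' * q) (s35i62_normA K (M' * q) q x) =
          ntf35_red R (M' * q * q) x * rf35_r2 M' q hπ V₂ x ^ (q - 1))
    (hN4 : ∀ x : ↥(modularFunctionFieldFullC K (M' * q * q)),
      tb50_U ((cm85_Vinf (K := K) (M' * q * q) hπ).toSubring ⊓ V₂.toSubring ⊓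
        (nsb86_V3 M' q hq hM' hπ).toSubring) x →
      s35i62_normB K (M' * q) q x ∈ s34i47c_V0 (K := K) M' q hq hM' hπ ∧
        ntf35_red0 R M' q hq hM' (s35i62_normB K (M' * q) q x) =
          rf35_r3 R M' q hq hM' x * rf35_r2 M' q hπ V₂ x ^ (q - 1)) :
    ∃ e1 e2 e3 : ↥(modularFunctionFieldFullC K (M' * q * q)),
      tb50_Frame q
        ((cm85_Vinf (K := K) (M' * q * q) hπ).toSubring ⊓ V₂.toSubring ⊓
          (nsb86_V3 M' q hq hM' hπ).toSubring)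
        (s34i47c_W (K := K) M' q hq hM' hπ)
        (ntf35_red R (M' * q * q)) (rf35_r2 M' q hπ V₂) (rf35_r3 R M' q hq hM')
        (ntf35_red R (M' * q)) (ntf35_red0 R M' q hq hM')
        (qExpand (IsLocalRing.ResidueField R) q)
        (al97L_alpha K (M' * q) q : ↥(modularFunctionFieldFullC K (M' * q)) →+*
          ↥(modularFunctionFieldFullC K (M' * q * q)))
        (al97L_beta K (M' * q) q : ↥(modularFunctionFieldFullC K (M' * q)) →+*
          ↥(modularFunctionFieldFullC K (M' * q * q)))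
        (s35i62_normA K (M' * q) q) (s35i62_normB K (M' * q) q) e1 e2 e3
        (rf35_Cst (IsLocalRing.ResidueField R))
        (Set.range (algebraMap K ↥(modularFunctionFieldFullC K (M' * q * q)))) := by
  obtain ⟨e1, e2, e3, ⟨he1, he2, he3⟩, ⟨a11, a12, a13⟩, ⟨a21, a22, a23⟩, ⟨a31, a32, a33⟩⟩ :=
    rf35_sep M' q hq hM' hπ V₂ hqR hα₂ hβ₂ hπ₂
  have hW : ∀ x, x ∈ (cm85_Vinf (K := K) (M' * q * q) hπ).toSubring ⊓ V₂.toSubring ⊓
        (nsb86_V3 M' q hq hM' hπ).toSubring →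
      x ∈ cm85_Vinf (K := K) (M' * q * q) hπ ∧ x ∈ V₂ ∧
        als86_w2 (algebraMap K Q̄) M' q hq hM' (nsb86_hL K (M' * q * q)) x ∈
          cm85_Vinf (K := K) (M' * q * q) hπ :=
    fun x hx => (rf35_mem_W M' q hq hM' hπ V₂ x).mp hx
  have hW' : ∀ x, x ∈ s34i47c_W (K := K) M' q hq hM' hπ →
      x ∈ cm85_Vinf (K := K) (M' * q) hπ ∧
        al97L_w (algebraMap K Q̄) M' q hq hM' x ∈ cm85_Vinf (K := K) (M' * q) hπ :=
    fun x hx => (s34i47c_mem_W M' q hq hM' hπ x).mp hx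
  -- the norms preserve units
  have hUinv : ∀ x : ↥(modularFunctionFieldFullC K (M' * q * q)),
      tb50_U ((cm85_Vinf (K := K) (M' * q * q) hπ).toSubring ⊓ V₂.toSubring ⊓
        (nsb86_V3 M' q hq hM' hπ).toSubring) x →
      tb50_U ((cm85_Vinf (K := K) (M' * q * q) hπ).toSubring ⊓ V₂.toSubring ⊓
        (nsb86_V3 M' q hq hM' hπ).toSubring) x⁻¹ := fun x hx => tb50_U_inv hx
  have hNαmem : ∀ x : ↥(modularFunctionFieldFullC K (M' * q * q)),
      tb50_U ((cm85_Vinf (K := K) (M' * q * q) hπ).toSubring ⊓ V₂.toSubring ⊓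
        (nsb86_V3 M' q hq hM' hπ).toSubring) x →
      s35i62_normA K (M' * q) q x ∈ s34i47c_W (K := K) M' q hq hM' hπ := fun x hx => by
    rw [s34i47c_mem_W]
    exact ⟨(hN1 x hx).1, (s34i47c_mem_V0 M' q hq hM' hπ _).mp
      (rf35_N2 M' q hq hM' hπ hqR x ((nsb86_mem_V3 M' q hq hM' hπ x).mpr (hW x hx.2.1).2.2)).1⟩
  have hNβmem : ∀ x : ↥(modularFunctionFieldFullC K (M' * q * q)),
      tb50_U ((cm85_Vinf (K := K) (M' * q * q) hπ).toSubring ⊓ V₂.toSubring ⊓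
        (nsb86_V3 M' q hq hM' hπ).toSubring) x →
      s35i62_normB K (M' * q) q x ∈ s34i47c_W (K := K) M' q hq hM' hπ := fun x hx => by
    rw [s34i47c_mem_W]
    exact ⟨(rf35_N3 M' q hq hM' hπ hqR x (hW x hx.2.1).1).1,
      (s34i47c_mem_V0 M' q hq hM' hπ _).mp (hN4 x hx).1⟩
  refine ⟨e1, e2, e3, ?_⟩
  exact
  { h1 :=
      { one := ntf35_red_one (M' * q * q)
        mul := fun x hx y hy => ntf35_red_mul (M' * q * q) hπ x y (hW x hx).1 (hW y hy).1
        add := fun x hx y hy => ntf35_red_add (M' * q * q) hπ x y (hW x hx).1 (hW y hy).1 }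
    h2 := rf35_r2_RH M' q hπ V₂ hα₂ hf₂ _ (fun x hx => (hW x hx).2.1)
    h3 :=
      { one := by
          rw [rf35_r3, map_one]
          exact ntf35_red_one (M' * q * q)
        mul := fun x hx y hy => by
          rw [rf35_r3, map_mul]
          exact ntf35_red_mul (M' * q * q) hπ _ _ (hW x hx).2.2 (hW y hy).2.2
        add := fun x hx y hy => by
          rw [rf35_r3, map_add]
          exact ntf35_red_add (M' * q * q) hπ _ _ (hW x hx).2.2 (hW y hy).2.2 }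
    hi :=
      { one := ntf35_red_one (M' * q)
        mul := fun x hx y hy => ntf35_red_mul (M' * q) hπ x y (hW' x hx).1 (hW' y hy).1 }
    hz :=
      { one := by
          rw [ntf35_red0, map_one]
          exact ntf35_red_one (M' * q)
        mul := fun x hx y hy => by
          rw [ntf35_red0, map_mul]
          exact ntf35_red_mul (M' * q) hπ _ _ (hW' x hx).2 (hW' y hy).2 }
    α_mem := fun h hh => by
      rw [rf35_mem_W]
      refine ⟨(al97V_alpha_mem_Vinf (M' * q) q hπ h).mpr (hW' h hh).1, hα₂ h (hW' h hh).1, ?_⟩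
      exact (nsb86_mem_V3 M' q hq hM' hπ _).mp (rf35_alpha_mem_V3 M' q hq hM' hπ h
        ((s34i47c_mem_V0 M' q hq hM' hπ h).mpr (hW' h hh).2))
    β_mem := fun h hh => by
      rw [rf35_mem_W]
      refine ⟨(al97V_beta_mem_Vinf (M' * q) q hπ h).mpr (hW' h hh).1,
        hβ₂ h ((s34i47c_mem_V0 M' q hq hM' hπ h).mpr (hW' h hh).2), ?_⟩
      exact (nsb86_mem_V3 M' q hq hM' hπ _).mp (rf35_beta_mem_V3 M' q hq hM' hπ h
        ((s34i47c_mem_V0 M' q hq hM' hπ h).mpr (hW' h hh).2))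
    r2_α := fun h hh => rf35_r2_alpha M' q hπ V₂ hα₂ h (hW' h hh).1
    r3_α := fun h hh => rf35_r3_alpha M' q hq hM' hπ h
      ((s34i47c_mem_V0 M' q hq hM' hπ h).mpr (hW' h hh).2)
    r1_β := fun h hh => rf35_r1_beta M' q hπ h (hW' h hh).1
    Nα_U := fun x hx => by
      obtain ⟨hinv, hne⟩ := rf35_map_inv (s35i62_normA K (M' * q) q) x hx.1
      refine ⟨hne, hNαmem x hx, ?_⟩
      rw [← hinv]
      exact hNαmem _ (hUinv x hx)
    Nβ_U := fun x hx => by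
      obtain ⟨hinv, hne⟩ := rf35_map_inv (s35i62_normB K (M' * q) q) x hx.1
      refine ⟨hne, hNβmem x hx, ?_⟩
      rw [← hinv]
      exact hNβmem _ (hUinv x hx)
    N1 := fun x hx => (hN1 x hx).2
    N2 := fun x hx => (rf35_N2 M' q hq hM' hπ hqR x
      ((nsb86_mem_V3 M' q hq hM' hπ x).mpr (hW x hx.2.1).2.2)).2
    N3 := fun x hx => (rf35_N3 M' q hq hM' hπ hqR x (hW x hx.2.1).1).2
    N4 := fun x hx => (hN4 x hx).2
    e1_mem := he1
    e2_mem := he2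
    e3_mem := he3
    r1_e1 := a11
    r2_e1 := a12
    r3_e1 := a13
    r1_e2 := a21
    r2_e2 := a22
    r3_e2 := a23
    r1_e3 := a31
    r2_e3 := a32
    r3_e3 := a33
    unit_crit := fun x hx h1 h2 h3 => by
      rw [rf35_mem_W]
      refine ⟨ntf35_inv_mem (M' * q * q) hπ x (hW x hx).1 h1,
        rf35_r2_inv_mem M' q hπ V₂ hα₂ x h2, ?_⟩
      rw [map_inv₀]
      exact ntf35_inv_mem (M' * q * q) hπ _ (hW x hx).2.2 h3
    V_cst := fun c hc => by
      obtain ⟨a, rfl⟩ := (rf35_mem_Cst _ c).mp hc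
      exact qExpand_C q a
    lift := fun c hc hc0 => rf35_lift M' q hq hM' hπ V₂ hα₂ c hc hc0 }

end RF35

end Fermat.Agent.S36
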