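import Fermat.Agent.S36.RedFrame35
import Fermat.Agent.S36.MidE3
import Fermat.Agent.S36.NormInst88

/-!
# S36 lab, rows 594 / 621 (helper88): the canonical `tb50_Frame` instance, UNCONDITIONAL

helper35's `rf35_frame` (`RedFrame35`) is the instance of `tb50_Frame` at level `M' q q` over
`M' q` with hypotheses `hβ₂`, `hf₂`, `hN1`, `hN4`.  Here they are discharged for ANY valuation
subring `V₂` with the ob72 facts (`hα₂`, `hπ₂`, `hne`, `hs` for `s = v2g64_s K M' q`):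

* `rfn88_s_lt`, `rfn88_s_ne` : `s` is a nonzero nonunit of `V₂`;
* `rfn88_hβ₂` : `β₂ V_0' ⊆ V₂` (from (MID) `me3_mid`);
* `rfn88_hE2` : `β₂ β₁ V_∞(M') ⊆ V₂`;
* `rfn88_hf₂` : residue degree one of `V₂` over `V_∞'` along `α₂`;
* `rfn88_hN1` : `N_α x ∈ V_∞' ∧ ri (N_α x) = r1 x * r2 x ^ (q - 1)` for `x ∈ V₁ ⊓ V₂`;
* `rfn88_hN4` : `N_β x ∈ V_0' ∧ rz (N_β x) = r3 x * r2 x ^ (q - 1)` for `x ∈ V₃ ⊓ V₂`
  (directly from `ni88_ramβ`, no `w₂`-transport);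
* `rfn88_frame` : `∃ e1 e2 e3, tb50_Frame …` (the conclusion of `rf35_frame`, no hypothesis left
  except the ob72 facts of `V₂`).

All names are prefixed `rfn88_`.
-/

set_option autoImplicit false
set_option linter.unusedSectionVars false
set_option linter.unusedVariables false
set_option linter.style.longLine false
set_option linter.style.haveILetI false

open ModularCurve AlgebraicCurve IntermediateField

namespace Fermat.Agent.S36

open Fermat.Agent.S24 Fermat.Agent.S37 Fermat.Agent.S18 Fermat.Agent.S28 Fermat.Agent.S34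
open Fermat.Agent.S35

local notation "Q̄" => AlgebraicClosure ℚ

section rfn88

variable {R K : Type} [CommRing R] [IsDomain R] [IsDiscreteValuationRing R] [Field K]
  [CharZero K] [Algebra R K] [IsFractionRing R K] [Algebra K Q̄]
  (M' q : ℕ) [NeZero M'] [NeZero q] (hq : q.Prime) (hM' : ¬ q ∣ M')

variable {π : R} (hπ : Irreducible π)
  (V₂ : ValuationSubring ↥(modularFunctionFieldFullC K (M' * q * q)))

/-- `π ∈ V₂`. -/
theorem rfn88_pi_mem
    (hα₂ : ∀ x ∈ cm85_Vinf (K := K) (M' * q) hπ, al97L_alpha K (M' * q) q x ∈ V₂) :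
    algebraMap K ↥(modularFunctionFieldFullC K (M' * q * q)) (algebraMap R K π) ∈ V₂ :=
  rf35_pi_mem_V2 M' q hπ V₂ hα₂ π

include hq in
/-- `v₂(s) < 1`. -/
theorem rfn88_s_lt
    (hα₂ : ∀ x ∈ cm85_Vinf (K := K) (M' * q) hπ, al97L_alpha K (M' * q) q x ∈ V₂)
    (hπ₂ : (algebraMap K ↥(modularFunctionFieldFullC K (M' * q * q)) (algebraMap R K π))⁻¹ ∉ V₂)
    (s : ↥(modularFunctionFieldFullC K (M' * q * q)))
    (hs : V₂.valuation s ^ (q - 1) =
      V₂.valuation (algebraMap K ↥(modularFunctionFieldFullC K (M' * q * q))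
        (algebraMap R K π))) :
    s ≠ 0 ∧ V₂.valuation s < 1 := by
  have hπ0 : algebraMap K ↥(modularFunctionFieldFullC K (M' * q * q)) (algebraMap R K π) ≠ 0 := by
    intro h
    apply hπ₂
    rw [h, inv_zero]; exact V₂.zero_mem
  have hπlt : V₂.valuation (algebraMap K ↥(modularFunctionFieldFullC K (M' * q * q))
      (algebraMap R K π)) < 1 :=
    (nv88_lt_one_iff V₂ _ hπ0).mpr ⟨rfn88_pi_mem M' q hπ V₂ hα₂, hπ₂⟩
  have hπpos : 0 < V₂.valuation (algebraMap K ↥(modularFunctionFieldFullC K (M' * q * q))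
      (algebraMap R K π)) := zero_lt_iff.mpr ((map_ne_zero _).mpr hπ0)
  have hq2 := hq.two_le
  constructor
  · intro h
    rw [h, map_zero, zero_pow (by omega)] at hs
    exact absurd hs.symm (ne_of_gt hπpos)
  · by_contra hcon
    push Not at hcon
    have h3 : 1 ≤ V₂.valuation s ^ (q - 1) := one_le_pow₀ hcon
    rw [hs] at h3
    exact absurd hπlt (not_lt.mpr h3)

include hq hM' in
/-- `β₂ V_0' ⊆ V₂`, from (MID). -/
theorem rfn88_hβ₂ (hqR : ¬ IsUnit (q : R))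
    (hα₂ : ∀ x ∈ cm85_Vinf (K := K) (M' * q) hπ, al97L_alpha K (M' * q) q x ∈ V₂)
    (hπ₂ : (algebraMap K ↥(modularFunctionFieldFullC K (M' * q * q)) (algebraMap R K π))⁻¹ ∉ V₂)
    (hs : V₂.valuation (v2g64_s K M' q) ^ (q - 1) =
      V₂.valuation (algebraMap K ↥(modularFunctionFieldFullC K (M' * q * q)) (algebraMap R K π)))
    (x : ↥(modularFunctionFieldFullC K (M' * q)))
    (hx : x ∈ s34i47c_V0 (K := K) M' q hq hM' hπ) :
    al97L_beta K (M' * q) q x ∈ V₂ ∧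
      al97L_beta K (M' * q) q x -
        al97L_alpha K (M' * q) q (al97L_w (algebraMap K Q̄) M' q hq hM' x) ∈ V₂.nonunits := by
  have hg : al97L_w (algebraMap K Q̄) M' q hq hM' x ∈ cm85_Vinf (K := K) (M' * q) hπ :=
    (s34i47c_mem_V0 M' q hq hM' hπ x).mp hx
  have hmid := me3_mid (K := K) M' q hq hM' hπ hqR V₂ hα₂ hπ₂ hs _ hg
  rw [al97L_w_w] at hmid
  refine ⟨?_, hmid⟩
  have h1 : al97L_beta K (M' * q) q x =
      (al97L_beta K (M' * q) q x -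
        al97L_alpha K (M' * q) q (al97L_w (algebraMap K Q̄) M' q hq hM' x)) +
      al97L_alpha K (M' * q) q (al97L_w (algebraMap K Q̄) M' q hq hM' x) := by ring
  rw [h1]
  exact V₂.add_mem _ _ (ValuationSubring.nonunits_subset hmid) (hα₂ _ hg)

include hq hM' in
/-- `β₂ β₁ V_∞(M') ⊆ V₂`. -/
theorem rfn88_hE2 (hqR : ¬ IsUnit (q : R))
    (hα₂ : ∀ x ∈ cm85_Vinf (K := K) (M' * q) hπ, al97L_alpha K (M' * q) q x ∈ V₂)
    (hπ₂ : (algebraMap K ↥(modularFunctionFieldFullC K (M' * q * q)) (algebraMap R K π))⁻¹ ∉ V₂)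
    (hs : V₂.valuation (v2g64_s K M' q) ^ (q - 1) =
      V₂.valuation (algebraMap K ↥(modularFunctionFieldFullC K (M' * q * q)) (algebraMap R K π)))
    (a : ↥(modularFunctionFieldFullC K M')) (ha : a ∈ cm85_Vinf (K := K) M' hπ) :
    al97L_beta K (M' * q) q (al97L_beta K M' q a) ∈ V₂ := by
  refine (rfn88_hβ₂ M' q hq hM' hπ V₂ hqR hα₂ hπ₂ hs _ ?_).1
  rw [s34i47c_mem_V0, al97L_w_beta_apply]
  exact (al97V_alpha_mem_Vinf M' q hπ a).mpr ha

include hq in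
/-- Residue degree one of `V₂` over `V_∞'` along `α₂` (`hf₂` of `rf35_frame`). -/
theorem rfn88_hf₂
    (hα₂ : ∀ x ∈ cm85_Vinf (K := K) (M' * q) hπ, al97L_alpha K (M' * q) q x ∈ V₂)
    (hπ₂ : (algebraMap K ↥(modularFunctionFieldFullC K (M' * q * q)) (algebraMap R K π))⁻¹ ∉ V₂)
    (hne : cm85_Vinf (K := K) (M' * q * q) hπ ≠ V₂)
    (s : ↥(modularFunctionFieldFullC K (M' * q * q)))
    (hs : V₂.valuation s ^ (q - 1) =
      V₂.valuation (algebraMap K ↥(modularFunctionFieldFullC K (M' * q * q)) (algebraMap R K π)))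
    (x : ↥(modularFunctionFieldFullC K (M' * q * q))) (hx : x ∈ V₂) :
    ∃ b ∈ cm85_Vinf (K := K) (M' * q) hπ,
      x - al97L_alpha K (M' * q) q b ∈ V₂.nonunits := by
  obtain ⟨b, hb, hxb⟩ :=
    (ob72_ram (K := K) (M' * q) q hq (dvd_mul_left q M') hπ V₂ hα₂ hπ₂ hne s hs).2.2.2.2 x hx
  obtain ⟨hs0, hs1⟩ := rfn88_s_lt M' q hq hπ V₂ hα₂ hπ₂ s hs
  refine ⟨b, hb, ?_⟩
  rw [ValuationSubring.mem_nonunits_iff]
  exact nv88_lt_one_of_dvd V₂ s _ hs0 hs1 hxb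

include hq hM' in
/-- **`hN1` of `rf35_frame`**, for `x ∈ V₁ ⊓ V₂`. -/
theorem rfn88_hN1
    (hα₂ : ∀ x ∈ cm85_Vinf (K := K) (M' * q) hπ, al97L_alpha K (M' * q) q x ∈ V₂)
    (hπ₂ : (algebraMap K ↥(modularFunctionFieldFullC K (M' * q * q)) (algebraMap R K π))⁻¹ ∉ V₂)
    (hne : cm85_Vinf (K := K) (M' * q * q) hπ ≠ V₂)
    (s : ↥(modularFunctionFieldFullC K (M' * q * q)))
    (hs : V₂.valuation s ^ (q - 1) =
      V₂.valuation (algebraMap K ↥(modularFunctionFieldFullC K (M' * q * q)) (algebraMap R K π)))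
    (x : ↥(modularFunctionFieldFullC K (M' * q * q)))
    (hx1 : x ∈ cm85_Vinf (K := K) (M' * q * q) hπ) (hx2 : x ∈ V₂) :
    s35i62_normA K (M' * q) q x ∈ cm85_Vinf (K := K) (M' * q) hπ ∧
      ntf35_red R (M' * q) (s35i62_normA K (M' * q) q x) =
        ntf35_red R (M' * q * q) x * rf35_r2 M' q hπ V₂ x ^ (q - 1) := by
  obtain ⟨v1, hv1, h1⟩ :=
    (ob72_ram (K := K) (M' * q) q hq (dvd_mul_left q M') hπ V₂ hα₂ hπ₂ hne s hs).2.2.2.1 x hx1
  obtain ⟨v2, hv2, h2⟩ := rfn88_hf₂ M' q hq hπ V₂ hα₂ hπ₂ hne s hs x hx2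
  have hπV1 : algebraMap K ↥(modularFunctionFieldFullC K (M' * q * q)) (algebraMap R K π) ∈
      cm85_Vinf (K := K) (M' * q * q) hπ := ntf35_algebraMap_mem (M' * q * q) hπ π
  have hπ₁0 : (algebraMap K ↥(modularFunctionFieldFullC K (M' * q * q)) (algebraMap R K π))⁻¹ ∉
      cm85_Vinf (K := K) (M' * q * q) hπ :=
    gv85_pi_inv_not_mem (IsLocalRing.residue R) π (pk85_res_iff hπ) hπ.ne_zero _ _
  have key := ni88_ramα (K := K) M' q hq hM' hπ V₂ hα₂ hπ₂ hne s hs x hx1 hx2 v1 hv1 v2 hv2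
    (ni88_nu_of_unif _ _ hπV1 hπ₁0 h1) h2
  have hmax : ∀ z ∈ cm85_Vinf (K := K) (M' * q) hπ, z⁻¹ ∉ cm85_Vinf (K := K) (M' * q) hπ →
      (algebraMap K ↥(modularFunctionFieldFullC K (M' * q)) (algebraMap R K π))⁻¹ * z ∈
        cm85_Vinf (K := K) (M' * q) hπ := fun z hz hz' =>
    gv85_hmax (IsLocalRing.residue R) π (pk85_res_iff hπ) hπ.ne_zero _ _ z hz hz'
  have hmem : v1 * v2 ^ (q - 1) ∈ cm85_Vinf (K := K) (M' * q) hπ :=
    (cm85_Vinf (K := K) (M' * q) hπ).mul_mem _ _ hv1 (pow_mem hv2 (q - 1))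
  obtain ⟨hN, hred⟩ := ntf35_red_cong (M' * q) hπ _ _ hmem (ni88_unif_of_nu _ _ hmax key)
  refine ⟨hN, ?_⟩
  have e1 : ntf35_red R (M' * q * q) x = ntf35_red R (M' * q) v1 := by
    rw [(ntf35_red_cong (M' * q * q) hπ x _
      ((al97V_alpha_mem_Vinf (M' * q) q hπ v1).mpr hv1) h1).2, rf35_r1_alpha]
  have e2 : rf35_r2 M' q hπ V₂ x = ntf35_red R (M' * q) v2 :=
    rf35_r2_eq M' q hπ V₂ hα₂ x v2 hv2 h2
  rw [hred, ntf35_red_mul (M' * q) hπ _ _ hv1 (pow_mem hv2 (q - 1)),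
    rf35_red_pow hπ (M' * q) v2 hv2, e1, e2]

include hq hM' in
/-- **`hN4` of `rf35_frame`**, for `x ∈ V₃ ⊓ V₂` (directly, no `w₂`-transport). -/
theorem rfn88_hN4 (hqR : ¬ IsUnit (q : R))
    (hα₂ : ∀ x ∈ cm85_Vinf (K := K) (M' * q) hπ, al97L_alpha K (M' * q) q x ∈ V₂)
    (hπ₂ : (algebraMap K ↥(modularFunctionFieldFullC K (M' * q * q)) (algebraMap R K π))⁻¹ ∉ V₂)
    (hne : cm85_Vinf (K := K) (M' * q * q) hπ ≠ V₂)
    (hs : V₂.valuation (v2g64_s K M' q) ^ (q - 1) =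
      V₂.valuation (algebraMap K ↥(modularFunctionFieldFullC K (M' * q * q)) (algebraMap R K π)))
    (x : ↥(modularFunctionFieldFullC K (M' * q * q)))
    (hx3 : x ∈ nsb86_V3 M' q hq hM' hπ) (hx2 : x ∈ V₂) :
    s35i62_normB K (M' * q) q x ∈ s34i47c_V0 (K := K) M' q hq hM' hπ ∧
      ntf35_red0 R M' q hq hM' (s35i62_normB K (M' * q) q x) =
        rf35_r3 R M' q hq hM' x * rf35_r2 M' q hπ V₂ x ^ (q - 1) := by
  have hL := nsb86_hL K (M' * q * q)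
  have hV₃mem : ∀ z, z ∈ nsb86_V3 M' q hq hM' hπ ↔
      als86_w2 (algebraMap K Q̄) M' q hq hM' hL z ∈ cm85_Vinf (K := K) (M' * q * q) hπ :=
    fun z => nsb86_mem_V3 M' q hq hM' hπ z
  have hE2 : ∀ a ∈ cm85_Vinf (K := K) M' hπ,
      al97L_beta K (M' * q) q (al97L_beta K M' q a) ∈ V₂ :=
    fun a ha => rfn88_hE2 M' q hq hM' hπ V₂ hqR hα₂ hπ₂ hs a ha
  obtain ⟨-, -, hres3, hres2⟩ := obb72_ram (K := K) M' q hq hM' hπ hqR hL V₂
    (nsb86_V3 M' q hq hM' hπ) hα₂ hπ₂ hne (v2g64_s K M' q) hs hE2 hV₃mem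
  obtain ⟨v3, hv3, h3⟩ := hres3 x hx3
  obtain ⟨v2, hv2, h2⟩ := hres2 x hx2
  obtain ⟨hs0, hs1⟩ := rfn88_s_lt M' q hq hπ V₂ hα₂ hπ₂ _ hs
  have h2n : x - al97L_beta K (M' * q) q v2 ∈ V₂.nonunits := by
    rw [ValuationSubring.mem_nonunits_iff]
    exact nv88_lt_one_of_dvd V₂ _ _ hs0 hs1 h2
  have hπ3 : algebraMap K ↥(modularFunctionFieldFullC K (M' * q * q)) (algebraMap R K π) ∈
      nsb86_V3 M' q hq hM' hπ := by
    rw [nsb86_mem_V3, AlgEquiv.commutes]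
    exact ntf35_algebraMap_mem (M' * q * q) hπ π
  have h3n : x - al97L_beta K (M' * q) q v3 ∈ (nsb86_V3 M' q hq hM' hπ).nonunits :=
    ni88_nu_of_unif _ _ hπ3 (rf35_pi_inv_not_mem_V3 M' q hq hM' hπ) h3
  have key := ni88_ramβ (K := K) M' q hq hM' hπ hqR hL V₂ (nsb86_V3 M' q hq hM' hπ) hα₂ hπ₂ hne
    _ hs hE2 hV₃mem x hx3 hx2 v3 hv3 v2 hv2 h3n h2n
  obtain ⟨d1, d2, d3, d4⟩ := obi72_V0_dvr (K := K) M' q hq hM' hπ
  have hdiv := ni88_unif_of_nu _ _ d3 key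
  rw [s34i47c_mem_V0, map_mul, map_inv₀, AlgEquiv.commutes, map_sub] at hdiv
  have hwv3 : al97L_w (algebraMap K Q̄) M' q hq hM' v3 ∈ cm85_Vinf (K := K) (M' * q) hπ :=
    (s34i47c_mem_V0 M' q hq hM' hπ v3).mp hv3
  have hwv2 : al97L_w (algebraMap K Q̄) M' q hq hM' v2 ∈ cm85_Vinf (K := K) (M' * q) hπ :=
    (s34i47c_mem_V0 M' q hq hM' hπ v2).mp hv2
  have hmem : al97L_w (algebraMap K Q̄) M' q hq hM' (v3 * v2 ^ (q - 1)) ∈
      cm85_Vinf (K := K) (M' * q) hπ := by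
    rw [map_mul, map_pow]
    exact (cm85_Vinf (K := K) (M' * q) hπ).mul_mem _ _ hwv3 (pow_mem hwv2 (q - 1))
  obtain ⟨hN, hred⟩ := ntf35_red_cong (M' * q) hπ _ _ hmem hdiv
  refine ⟨(s34i47c_mem_V0 M' q hq hM' hπ _).mpr hN, ?_⟩
  have e3 : rf35_r3 R M' q hq hM' x = ntf35_red0 R M' q hq hM' v3 := by
    rw [(rf35_r3_of_cong M' q hq hM' hπ x _ (rf35_beta_mem_V3 M' q hq hM' hπ v3 hv3) h3).2,
      rf35_r3_beta]
  have e2 : rf35_r2 M' q hπ V₂ x = ntf35_red0 R M' q hq hM' v2 := by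
    have hmid := (rfn88_hβ₂ M' q hq hM' hπ V₂ hqR hα₂ hπ₂ hs v2 hv2).2
    have hsum : x - al97L_alpha K (M' * q) q (al97L_w (algebraMap K Q̄) M' q hq hM' v2) ∈
        V₂.nonunits := by
      have h5 : x - al97L_alpha K (M' * q) q (al97L_w (algebraMap K Q̄) M' q hq hM' v2) =
          (x - al97L_beta K (M' * q) q v2) + (al97L_beta K (M' * q) q v2 -
            al97L_alpha K (M' * q) q (al97L_w (algebraMap K Q̄) M' q hq hM' v2)) := by ring
      rw [h5]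
      rw [ValuationSubring.mem_nonunits_iff] at h2n hmid ⊢
      exact Valuation.map_add_lt _ h2n hmid
    exact rf35_r2_eq M' q hπ V₂ hα₂ x _ hwv2 hsum
  show ntf35_red R (M' * q)
    (al97L_w (algebraMap K Q̄) M' q hq hM' (s35i62_normB K (M' * q) q x)) = _
  rw [hred, map_mul, map_pow, ntf35_red_mul (M' * q) hπ _ _ hwv3 (pow_mem hwv2 (q - 1)),
    rf35_red_pow hπ (M' * q) _ hwv2, e3, e2]
  rfl

include hq hM' in
/-- **The canonical instance of `tb50_Frame`, unconditional**: for any `V₂` with the ob72 facts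
(`s = v2g64_s K M' q`), e.g. `V₂ = v2g64_V2 …` (helper64). -/
theorem rfn88_frame (hqR : ¬ IsUnit (q : R))
    (hα₂ : ∀ x ∈ cm85_Vinf (K := K) (M' * q) hπ, al97L_alpha K (M' * q) q x ∈ V₂)
    (hπ₂ : (algebraMap K ↥(modularFunctionFieldFullC K (M' * q * q)) (algebraMap R K π))⁻¹ ∉ V₂)
    (hne : cm85_Vinf (K := K) (M' * q * q) hπ ≠ V₂)
    (hs : V₂.valuation (v2g64_s K M' q) ^ (q - 1) =
      V₂.valuation (algebraMap K ↥(modularFunctionFieldFullC K (M' * q * q))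
        (algebraMap R K π))) :
    ∃ e1 e2 e3 : ↥(modularFunctionFieldFullC K (M' * q * q)),
      tb50_Frame q
        ((cm85_Vinf (K := K) (M' * q * q) hπ).toSubring ⊓ V₂.toSubring ⊓
          (nsb86_V3 M' q hq hM' hπ).toSubring)
        (s34i47c_W (K := K) M' q hq hM' hπ)
        (ntf35_red R (M' * q * q)) (rf35_r2 M' q hπ V₂) (rf35_r3 R M' q hq hM')
        (ntf35_red R (M' * q)) (ntf35_red0 R M' q hq hM')
        (qExpand (IsLocalRing.ResidueField R) q)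
        (al97L_alpha K (M' * q) q : ↥(modularFunctionFieldFullC K (M' * q)) →+*
          ↥(modularFunctionFieldFullC K (M' * q * q)))
        (al97L_beta K (M' * q) q : ↥(modularFunctionFieldFullC K (M' * q)) →+*
          ↥(modularFunctionFieldFullC K (M' * q * q)))
        (s35i62_normA K (M' * q) q) (s35i62_normB K (M' * q) q) e1 e2 e3
        (rf35_Cst (IsLocalRing.ResidueField R))
        (Set.range (algebraMap K ↥(modularFunctionFieldFullC K (M' * q * q)))) := by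
  refine rf35_frame M' q hq hM' hπ V₂ hqR hα₂
    (fun x hx => (rfn88_hβ₂ M' q hq hM' hπ V₂ hqR hα₂ hπ₂ hs x hx).1) hπ₂
    (fun x hx => rfn88_hf₂ M' q hq hπ V₂ hα₂ hπ₂ hne _ hs x hx) ?_ ?_
  · intro x hx
    have hxW := (rf35_mem_W M' q hq hM' hπ V₂ x).mp hx.2.1
    exact rfn88_hN1 M' q hq hM' hπ V₂ hα₂ hπ₂ hne _ hs x hxW.1 hxW.2.1
  · intro x hx
    have hxW := (rf35_mem_W M' q hq hM' hπ V₂ x).mp hx.2.1
    exact rfn88_hN4 M' q hq hM' hπ V₂ hqR hα₂ hπ₂ hne hs x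
      ((nsb86_mem_V3 M' q hq hM' hπ x).mpr hxW.2.2) hxW.2.1

end rfn88

end Fermat.Agent.S36
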