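import Mathlib
import Fermat.Agent.S36.RedFrame35
import Fermat.Agent.S36.OnlyBind72
import Fermat.Agent.S36.NormVal88

/-!
# S36 lab (helper35, registry row 621 "B2-INST", part 2): the frame from the `ob72_ram` data

Same setting as `RedFrame35` (level `M' q²` over `M' q`).  Here the middle valuation ring `V₂`
comes with LITERALLY the hypotheses of `ob72_ram` (`α₂ V_∞' ⊆ V₂`, `π⁻¹ ∉ V₂`, `V₁ ≠ V₂`,
`v₂(s) ^ (q - 1) = v₂(π)`) plus the congruence

  (MID)  `∀ g ∈ V_∞', β₂ (w g) - α₂ g ∈ 𝔪(V₂)`.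

* `rfr35_hf2`  : residue degree one of `V₂` over `V_∞'` along `α₂` (hypothesis `hf₂` of
  `rf35_frame`), from `ob72_ram`;
* `rfr35_N1`   : for `x ∈ V₁ ⊓ V₂`: `N_α x ∈ V_∞'` and `ri (N_α x) = r1 x * r2 x ^ (q - 1)`
  (from `ob72_ram` + `nv88_ram_norm`);
* `rfr35_beta_mem_V2` : `β₂ V_0' ⊆ V₂` (from (MID));
* `rfr35_w2_mem_V2`   : `w₂ V₂ ⊆ V₂` (uniqueness part of `ob72_ram`);
* `rfr35_r2_w2`       : `r2 ∘ w₂ = r2` on `V₂` (from (MID));
* `rfr35_N4`   : for `x ∈ V₂ ⊓ V₃`: `N_β x ∈ V_0'` and `rz (N_β x) = r3 x * r2 x ^ (q - 1)`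
  (from `rfr35_N1` by `als86_norm_beta`);
* `rfr35_frame` : the instance of `tb50_Frame` with NO norm hypothesis.

All names are prefixed `rfr35_`.
-/

set_option autoImplicit false
set_option linter.unusedSectionVars false
set_option linter.unusedVariables false
set_option linter.style.haveILetI false

open ModularCurve AlgebraicCurve IntermediateField
open Fermat.Agent.S24 Fermat.Agent.S37 Fermat.Agent.S18 Fermat.Agent.S28 Fermat.Agent.S34
open Fermat.Agent.S35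

namespace Fermat.Agent.S36

local notation "Q̄" => AlgebraicClosure ℚ

section RFR35

variable {R K : Type} [CommRing R] [IsDomain R] [IsDiscreteValuationRing R] [Field K]
  [CharZero K] [Algebra R K] [IsFractionRing R K] [Algebra K Q̄]
  (M' q : ℕ) [NeZero M'] [NeZero q] (hq : q.Prime) (hM' : ¬ q ∣ M')
  {π : R} (hπ : Irreducible π)
  (V₂ : ValuationSubring ↥(modularFunctionFieldFullC K (M' * q * q)))

include hq in
/-- `s` is a non-unit of `V₂`, and `s ≠ 0`. -/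
theorem rfr35_s_nonunit
    (hα₂ : ∀ x ∈ cm85_Vinf (K := K) (M' * q) hπ, al97L_alpha K (M' * q) q x ∈ V₂)
    (hπ₂ : (algebraMap K ↥(modularFunctionFieldFullC K (M' * q * q)) (algebraMap R K π))⁻¹ ∉ V₂)
    (s : ↥(modularFunctionFieldFullC K (M' * q * q)))
    (hs : V₂.valuation s ^ (q - 1) =
      V₂.valuation (algebraMap K ↥(modularFunctionFieldFullC K (M' * q * q)) (algebraMap R K π))) :
    s ∈ V₂ ∧ s⁻¹ ∉ V₂ := by
  have hπn : algebraMap K ↥(modularFunctionFieldFullC K (M' * q * q)) (algebraMap R K π) ∈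
      V₂.nonunits := (ValuationSubring.mem_nonunits_iff_or V₂).mpr (Or.inr hπ₂)
  have hπ1 : V₂.valuation
      (algebraMap K ↥(modularFunctionFieldFullC K (M' * q * q)) (algebraMap R K π)) < 1 := hπn
  have hπ0 : algebraMap K ↥(modularFunctionFieldFullC K (M' * q * q)) (algebraMap R K π) ≠ 0 := by
    intro h
    apply hπ₂
    rw [h, inv_zero]
    exact zero_mem _
  have hs1 : V₂.valuation s < 1 := by
    by_contra hcon
    have h3 : 1 ≤ V₂.valuation s ^ (q - 1) := one_le_pow₀ (not_lt.mp hcon)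
    rw [hs] at h3
    exact absurd hπ1 (not_lt.mpr h3)
  have hs0 : s ≠ 0 := by
    rintro rfl
    rw [map_zero, zero_pow (by have := hq.two_le; omega)] at hs
    exact hπ0 ((map_eq_zero _).mp hs.symm)
  have hsn : s ∈ V₂.nonunits := hs1
  refine ⟨ValuationSubring.nonunits_subset hsn, ?_⟩
  rcases (ValuationSubring.mem_nonunits_iff_or V₂).mp hsn with h | h
  · exact absurd h hs0
  · exact h

include hq in
/-- **Residue degree one of `V₂` over `V_∞'` along `α₂`** (the hypothesis `hf₂` of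
`rf35_frame`), from `ob72_ram`. -/
theorem rfr35_hf2
    (hα₂ : ∀ x ∈ cm85_Vinf (K := K) (M' * q) hπ, al97L_alpha K (M' * q) q x ∈ V₂)
    (hπ₂ : (algebraMap K ↥(modularFunctionFieldFullC K (M' * q * q)) (algebraMap R K π))⁻¹ ∉ V₂)
    (hne : cm85_Vinf (K := K) (M' * q * q) hπ ≠ V₂)
    (s : ↥(modularFunctionFieldFullC K (M' * q * q)))
    (hs : V₂.valuation s ^ (q - 1) =
      V₂.valuation (algebraMap K ↥(modularFunctionFieldFullC K (M' * q * q)) (algebraMap R K π))) :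
    ∀ x ∈ V₂, ∃ b ∈ cm85_Vinf (K := K) (M' * q) hπ,
      x - al97L_alpha K (M' * q) q b ∈ V₂.nonunits := by
  obtain ⟨-, -, -, -, h5⟩ :=
    ob72_ram (M' * q) q hq (Dvd.intro_left M' rfl) hπ V₂ hα₂ hπ₂ hne s hs
  obtain ⟨hs1, hs2⟩ := rfr35_s_nonunit M' q hq hπ V₂ hα₂ hπ₂ s hs
  intro x hx
  obtain ⟨b, hb, hxb⟩ := h5 x hx
  exact ⟨b, hb, rf35_nonunits_of_dvd V₂ hs1 hs2 hxb⟩

include hq in
/-- **(N1)**: for `x ∈ V₁ ⊓ V₂`: `N_α x ∈ V_∞'` and `ri (N_α x) = r1 x * r2 x ^ (q - 1)`. -/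
theorem rfr35_N1
    (hα₂ : ∀ x ∈ cm85_Vinf (K := K) (M' * q) hπ, al97L_alpha K (M' * q) q x ∈ V₂)
    (hπ₂ : (algebraMap K ↥(modularFunctionFieldFullC K (M' * q * q)) (algebraMap R K π))⁻¹ ∉ V₂)
    (hne : cm85_Vinf (K := K) (M' * q * q) hπ ≠ V₂)
    (s : ↥(modularFunctionFieldFullC K (M' * q * q)))
    (hs : V₂.valuation s ^ (q - 1) =
      V₂.valuation (algebraMap K ↥(modularFunctionFieldFullC K (M' * q * q)) (algebraMap R K π)))
    (x : ↥(modularFunctionFieldFullC K (M' * q * q)))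
    (hx1 : x ∈ cm85_Vinf (K := K) (M' * q * q) hπ) (hx2 : x ∈ V₂) :
    s35i62_normA K (M' * q) q x ∈ cm85_Vinf (K := K) (M' * q) hπ ∧
      ntf35_red R (M' * q) (s35i62_normA K (M' * q) q x) =
        ntf35_red R (M' * q * q) x * rf35_r2 M' q hπ V₂ x ^ (q - 1) := by
  letI alg : Algebra ↥(modularFunctionFieldFullC K (M' * q))
      ↥(modularFunctionFieldFullC K (M' * q * q)) := algebraAlong (al97L_alpha K (M' * q) q)
  have hfr : Module.finrank ↥(modularFunctionFieldFullC K (M' * q))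
      ↥(modularFunctionFieldFullC K (M' * q * q)) = q :=
    ob72_finrank K (M' * q) q hq (Dvd.intro_left M' rfl)
  haveI : FiniteDimensional ↥(modularFunctionFieldFullC K (M' * q))
      ↥(modularFunctionFieldFullC K (M' * q * q)) :=
    Module.finite_of_finrank_pos (by rw [hfr]; exact hq.pos)
  haveI : CharZero ↥(modularFunctionFieldFullC K (M' * q)) :=
    charZero_of_injective_algebraMap
      (algebraMap K ↥(modularFunctionFieldFullC K (M' * q))).injective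
  haveI : Algebra.IsSeparable ↥(modularFunctionFieldFullC K (M' * q))
      ↥(modularFunctionFieldFullC K (M' * q * q)) :=
    Algebra.IsAlgebraic.isSeparable_of_perfectField
  obtain ⟨-, -, -, h4, h5⟩ :=
    ob72_ram (M' * q) q hq (Dvd.intro_left M' rfl) hπ V₂ hα₂ hπ₂ hne s hs
  obtain ⟨hs1, hs2⟩ := rfr35_s_nonunit M' q hq hπ V₂ hα₂ hπ₂ s hs
  obtain ⟨v1, hv1, hxv1⟩ := h4 x hx1
  obtain ⟨v2, hv2, hxv2⟩ := h5 x hx2
  have hπEF : algebraMap ↥(modularFunctionFieldFullC K (M' * q))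
      ↥(modularFunctionFieldFullC K (M' * q * q))
      (algebraMap K ↥(modularFunctionFieldFullC K (M' * q)) (algebraMap R K π)) =
      algebraMap K ↥(modularFunctionFieldFullC K (M' * q * q)) (algebraMap R K π) :=
    (al97L_alpha K (M' * q) q).commutes _
  have hq2 := hq.two_le
  obtain ⟨hNmem, hNcong⟩ := nv88_ram_norm (K := ↥(modularFunctionFieldFullC K (M' * q)))
    (L := ↥(modularFunctionFieldFullC K (M' * q * q))) (q - 1) (by omega) (by rw [hfr]; omega)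
    (cm85_Vinf (K := K) (M' * q) hπ)
    (algebraMap K ↥(modularFunctionFieldFullC K (M' * q)) (algebraMap R K π))
    (ntf35_algebraMap_mem (M' * q) hπ π)
    (gv85_pi_inv_not_mem (IsLocalRing.residue R) π (pk85_res_iff hπ) hπ.ne_zero _ _)
    (fun y hy hy' =>
      gv85_hmax (IsLocalRing.residue R) π (pk85_res_iff hπ) hπ.ne_zero _ _ y hy hy')
    (fs85_harch (K := K) (M' * q) hπ)
    (cm85_Vinf (K := K) (M' * q * q) hπ) V₂ hne
    (fun c hc => (al97V_alpha_mem_Vinf (M' * q) q hπ c).mpr hc)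
    (by
      rw [hπEF]
      exact gv85_pi_inv_not_mem (IsLocalRing.residue R) π (pk85_res_iff hπ) hπ.ne_zero _ _)
    hα₂ (by rw [hπEF]; exact hπ₂) s (by rw [hπEF]; exact hs)
    x hx1 hx2 v1 v2 hv1 hv2 (by rw [hπEF]; exact hxv1) hxv2
  have hv : v1 * v2 ^ (q - 1) ∈ cm85_Vinf (K := K) (M' * q) hπ :=
    mul_mem hv1 (pow_mem hv2 _)
  obtain ⟨-, hred⟩ := ntf35_red_cong (M' * q) hπ (s35i62_normA K (M' * q) q x)
    (v1 * v2 ^ (q - 1)) hv hNcong
  rw [ntf35_red_mul (M' * q) hπ _ _ hv1 (pow_mem hv2 _),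
    rf35_red_pow hπ (M' * q) v2 hv2 (q - 1)] at hred
  have hr1 : ntf35_red R (M' * q * q) x = ntf35_red R (M' * q) v1 := by
    have h := (ntf35_red_cong (M' * q * q) hπ x (al97L_alpha K (M' * q) q v1)
      ((al97V_alpha_mem_Vinf (M' * q) q hπ v1).mpr hv1) hxv1).2
    rw [h, rf35_r1_alpha]
  have hr2 : rf35_r2 M' q hπ V₂ x = ntf35_red R (M' * q) v2 :=
    rf35_r2_eq M' q hπ V₂ hα₂ x v2 hv2 (rf35_nonunits_of_dvd V₂ hs1 hs2 hxv2)
  exact ⟨hNmem, by rw [hred, hr1, hr2]⟩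

/-- **`β₂ V_0' ⊆ V₂`**, from (MID). -/
theorem rfr35_beta_mem_V2
    (hα₂ : ∀ x ∈ cm85_Vinf (K := K) (M' * q) hπ, al97L_alpha K (M' * q) q x ∈ V₂)
    (hmid : ∀ g ∈ cm85_Vinf (K := K) (M' * q) hπ,
      al97L_beta K (M' * q) q (al97L_w (algebraMap K Q̄) M' q hq hM' g) -
        al97L_alpha K (M' * q) q g ∈ V₂.nonunits) :
    ∀ x ∈ s34i47c_V0 (K := K) M' q hq hM' hπ, al97L_beta K (M' * q) q x ∈ V₂ := by
  intro x hx
  have hg := (s34i47c_mem_V0 M' q hq hM' hπ x).mp hx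
  have h1 := hmid _ hg
  rw [al97L_w_w] at h1
  have h2 : al97L_beta K (M' * q) q x =
      (al97L_beta K (M' * q) q x -
        al97L_alpha K (M' * q) q (al97L_w (algebraMap K Q̄) M' q hq hM' x)) +
      al97L_alpha K (M' * q) q (al97L_w (algebraMap K Q̄) M' q hq hM' x) := by ring
  rw [h2]
  exact V₂.add_mem _ _ (ValuationSubring.nonunits_subset h1) (hα₂ _ hg)

/-- **`w₂` preserves `V₂`** (uniqueness part of `ob72_ram`; `V₂ ≠ V₃` by the separators). -/
theorem rfr35_w2_mem_V2 (hqR : ¬ IsUnit (q : R))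
    (hα₂ : ∀ x ∈ cm85_Vinf (K := K) (M' * q) hπ, al97L_alpha K (M' * q) q x ∈ V₂)
    (hβ₂ : ∀ x ∈ s34i47c_V0 (K := K) M' q hq hM' hπ, al97L_beta K (M' * q) q x ∈ V₂)
    (hπ₂ : (algebraMap K ↥(modularFunctionFieldFullC K (M' * q * q)) (algebraMap R K π))⁻¹ ∉ V₂)
    (hne : cm85_Vinf (K := K) (M' * q * q) hπ ≠ V₂)
    (s : ↥(modularFunctionFieldFullC K (M' * q * q)))
    (hs : V₂.valuation s ^ (q - 1) =
      V₂.valuation (algebraMap K ↥(modularFunctionFieldFullC K (M' * q * q)) (algebraMap R K π)))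
    (x : ↥(modularFunctionFieldFullC K (M' * q * q))) (hx : x ∈ V₂) :
    als86_w2 (algebraMap K Q̄) M' q hq hM' (nsb86_hL K (M' * q * q)) x ∈ V₂ := by
  obtain ⟨h1, -, -, -, -⟩ :=
    ob72_ram (M' * q) q hq (Dvd.intro_left M' rfl) hπ V₂ hα₂ hπ₂ hne s hs
  have hV := h1 (V₂.comap
      ((als86_w2 (algebraMap K Q̄) M' q hq hM' (nsb86_hL K (M' * q * q)) :
        ↥(modularFunctionFieldFullC K (M' * q * q)) ≃ₐ[K]
          ↥(modularFunctionFieldFullC K (M' * q * q))) :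
        ↥(modularFunctionFieldFullC K (M' * q * q)) →+*
          ↥(modularFunctionFieldFullC K (M' * q * q))))
    (fun c hc => by
      show als86_w2 (algebraMap K Q̄) M' q hq hM' (nsb86_hL K (M' * q * q))
        (al97L_alpha K (M' * q) q c) ∈ V₂
      rw [als86_w2_alpha]
      refine hβ₂ _ ((s34i47c_mem_V0 M' q hq hM' hπ _).mpr ?_)
      rw [al97L_w_w]
      exact hc)
    (fun h => by
      have h2 : als86_w2 (algebraMap K Q̄) M' q hq hM' (nsb86_hL K (M' * q * q))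
          (algebraMap K ↥(modularFunctionFieldFullC K (M' * q * q)) (algebraMap R K π))⁻¹ ∈ V₂ := h
      rw [map_inv₀, AlgEquiv.commutes] at h2
      exact hπ₂ h2)
  rcases hV with hV | hV
  · exfalso
    -- then `V₃ ⊆ V₂`, against the separators
    have h32 : ∀ z ∈ nsb86_V3 M' q hq hM' hπ, z ∈ V₂ := by
      intro z hz
      have hz1 := (nsb86_mem_V3 M' q hq hM' hπ z).mp hz
      rw [← hV] at hz1
      have hz2 : als86_w2 (algebraMap K Q̄) M' q hq hM' (nsb86_hL K (M' * q * q))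
          (als86_w2 (algebraMap K Q̄) M' q hq hM' (nsb86_hL K (M' * q * q)) z) ∈ V₂ := hz1
      rwa [als86_w2_w2] at hz2
    letI i1 : Algebra R ↥(modularFunctionFieldFullC K (M' * q)) :=
      ((algebraMap K ↥(modularFunctionFieldFullC K (M' * q))).comp (algebraMap R K)).toAlgebra
    haveI t1 : IsScalarTower R K ↥(modularFunctionFieldFullC K (M' * q)) :=
      IsScalarTower.of_algebraMap_eq (fun _ => rfl)
    letI i2 : Algebra R ↥(modularFunctionFieldFullC K (M' * q * q)) :=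
      ((algebraMap K ↥(modularFunctionFieldFullC K (M' * q * q))).comp
        (algebraMap R K)).toAlgebra
    haveI t2 : IsScalarTower R K ↥(modularFunctionFieldFullC K (M' * q * q)) :=
      IsScalarTower.of_algebraMap_eq (fun _ => rfl)
    obtain ⟨ε₁, ε₂, ε₃, -, -, ⟨-, h32', h33⟩, -⟩ :=
      s3i66_sep (K := K) M' q hq hM' hπ V₂ (nsb86_V3 M' q hq hM' hπ) hqR hα₂
        (rf35_alpha_mem_V3 M' q hq hM' hπ) hβ₂ (rf35_beta_mem_V3 M' q hq hM' hπ)
    have k1 : (algebraMap K ↥(modularFunctionFieldFullC K (M' * q * q)) (algebraMap R K π))⁻¹ *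
        ε₃ ∈ V₂ := h32'
    have k2 : (algebraMap K ↥(modularFunctionFieldFullC K (M' * q * q)) (algebraMap R K π))⁻¹ *
        (ε₃ - 1) ∈ V₂ := h32 _ h33
    apply hπ₂
    have k3 : (algebraMap K ↥(modularFunctionFieldFullC K (M' * q * q)) (algebraMap R K π))⁻¹ =
        (algebraMap K ↥(modularFunctionFieldFullC K (M' * q * q)) (algebraMap R K π))⁻¹ * ε₃ -
        (algebraMap K ↥(modularFunctionFieldFullC K (M' * q * q)) (algebraMap R K π))⁻¹ *
          (ε₃ - 1) := by ring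
    rw [k3]
    exact sub_mem k1 k2
  · have hx' : x ∈ V₂.comap
        ((als86_w2 (algebraMap K Q̄) M' q hq hM' (nsb86_hL K (M' * q * q)) :
          ↥(modularFunctionFieldFullC K (M' * q * q)) ≃ₐ[K]
            ↥(modularFunctionFieldFullC K (M' * q * q))) :
          ↥(modularFunctionFieldFullC K (M' * q * q)) →+*
            ↥(modularFunctionFieldFullC K (M' * q * q))) := by
      rw [hV]; exact hx
    exact hx'

/-- **`r2 ∘ w₂ = r2` on `V₂`**, from (MID). -/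
theorem rfr35_r2_w2 (hqR : ¬ IsUnit (q : R))
    (hα₂ : ∀ x ∈ cm85_Vinf (K := K) (M' * q) hπ, al97L_alpha K (M' * q) q x ∈ V₂)
    (hπ₂ : (algebraMap K ↥(modularFunctionFieldFullC K (M' * q * q)) (algebraMap R K π))⁻¹ ∉ V₂)
    (hne : cm85_Vinf (K := K) (M' * q * q) hπ ≠ V₂)
    (s : ↥(modularFunctionFieldFullC K (M' * q * q)))
    (hs : V₂.valuation s ^ (q - 1) =
      V₂.valuation (algebraMap K ↥(modularFunctionFieldFullC K (M' * q * q)) (algebraMap R K π)))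
    (hmid : ∀ g ∈ cm85_Vinf (K := K) (M' * q) hπ,
      al97L_beta K (M' * q) q (al97L_w (algebraMap K Q̄) M' q hq hM' g) -
        al97L_alpha K (M' * q) q g ∈ V₂.nonunits)
    (x : ↥(modularFunctionFieldFullC K (M' * q * q))) (hx : x ∈ V₂) :
    rf35_r2 M' q hπ V₂ (als86_w2 (algebraMap K Q̄) M' q hq hM' (nsb86_hL K (M' * q * q)) x) =
      rf35_r2 M' q hπ V₂ x := by
  have hβ₂ := rfr35_beta_mem_V2 M' q hq hM' hπ V₂ hα₂ hmid
  have hw := rfr35_w2_mem_V2 M' q hq hM' hπ V₂ hqR hα₂ hβ₂ hπ₂ hne s hs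
  obtain ⟨b, hb, hxb⟩ := rfr35_hf2 M' q hq hπ V₂ hα₂ hπ₂ hne s hs x hx
  -- `w₂` preserves the non-units of `V₂`
  have hnon : als86_w2 (algebraMap K Q̄) M' q hq hM' (nsb86_hL K (M' * q * q))
      (x - al97L_alpha K (M' * q) q b) ∈ V₂.nonunits := by
    rcases (ValuationSubring.mem_nonunits_iff_or V₂).mp hxb with h0 | h0
    · rw [h0, map_zero]; exact zero_mem _
    · refine (ValuationSubring.mem_nonunits_iff_or V₂).mpr (Or.inr fun hin => h0 ?_)
      have h3 := hw _ hin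
      rwa [map_inv₀, als86_w2_w2] at h3
  have hsum : als86_w2 (algebraMap K Q̄) M' q hq hM' (nsb86_hL K (M' * q * q)) x -
      al97L_alpha K (M' * q) q b =
      als86_w2 (algebraMap K Q̄) M' q hq hM' (nsb86_hL K (M' * q * q))
        (x - al97L_alpha K (M' * q) q b) +
      (al97L_beta K (M' * q) q (al97L_w (algebraMap K Q̄) M' q hq hM' b) -
        al97L_alpha K (M' * q) q b) := by
    rw [map_sub, als86_w2_alpha]; ring
  rw [rf35_r2_eq M' q hπ V₂ hα₂ x b hb hxb]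
  refine rf35_r2_eq M' q hπ V₂ hα₂ _ b hb ?_
  rw [hsum]
  exact add_mem hnon (hmid b hb)

/-- **(N4)**: for `x ∈ V₂ ⊓ V₃`: `N_β x ∈ V_0'` and `rz (N_β x) = r3 x * r2 x ^ (q - 1)`. -/
theorem rfr35_N4 (hqR : ¬ IsUnit (q : R))
    (hα₂ : ∀ x ∈ cm85_Vinf (K := K) (M' * q) hπ, al97L_alpha K (M' * q) q x ∈ V₂)
    (hπ₂ : (algebraMap K ↥(modularFunctionFieldFullC K (M' * q * q)) (algebraMap R K π))⁻¹ ∉ V₂)
    (hne : cm85_Vinf (K := K) (M' * q * q) hπ ≠ V₂)
    (s : ↥(modularFunctionFieldFullC K (M' * q * q)))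
    (hs : V₂.valuation s ^ (q - 1) =
      V₂.valuation (algebraMap K ↥(modularFunctionFieldFullC K (M' * q * q)) (algebraMap R K π)))
    (hmid : ∀ g ∈ cm85_Vinf (K := K) (M' * q) hπ,
      al97L_beta K (M' * q) q (al97L_w (algebraMap K Q̄) M' q hq hM' g) -
        al97L_alpha K (M' * q) q g ∈ V₂.nonunits)
    (x : ↥(modularFunctionFieldFullC K (M' * q * q)))
    (hx2 : x ∈ V₂) (hx3 : x ∈ nsb86_V3 M' q hq hM' hπ) :
    s35i62_normB K (M' * q) q x ∈ s34i47c_V0 (K := K) M' q hq hM' hπ ∧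
      ntf35_red0 R M' q hq hM' (s35i62_normB K (M' * q) q x) =
        rf35_r3 R M' q hq hM' x * rf35_r2 M' q hπ V₂ x ^ (q - 1) := by
  have hβ₂ := rfr35_beta_mem_V2 M' q hq hM' hπ V₂ hα₂ hmid
  have hnb : s35i62_normB K (M' * q) q x =
      al97L_w (algebraMap K Q̄) M' q hq hM' (s35i62_normA K (M' * q) q
        (als86_w2 (algebraMap K Q̄) M' q hq hM' (nsb86_hL K (M' * q * q)) x)) :=
    als86_norm_beta (algebraMap K Q̄) M' q hq hM' (nsb86_hL K (M' * q * q)) x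
  obtain ⟨hm, hr⟩ := rfr35_N1 M' q hq hπ V₂ hα₂ hπ₂ hne s hs
    (als86_w2 (algebraMap K Q̄) M' q hq hM' (nsb86_hL K (M' * q * q)) x)
    ((nsb86_mem_V3 M' q hq hM' hπ x).mp hx3)
    (rfr35_w2_mem_V2 M' q hq hM' hπ V₂ hqR hα₂ hβ₂ hπ₂ hne s hs x hx2)
  rw [rfr35_r2_w2 M' q hq hM' hπ V₂ hqR hα₂ hπ₂ hne s hs hmid x hx2] at hr
  refine ⟨?_, ?_⟩
  · rw [s34i47c_mem_V0, hnb, al97L_w_w]
    exact hm
  · rw [ntf35_red0, hnb, al97L_w_w, hr]
    rfl

/-- **The canonical instance of `tb50_Frame`, without norm hypotheses.**  `V₂` satisfies the four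
hypotheses of `ob72_ram` and (MID). -/
theorem rfr35_frame (hqR : ¬ IsUnit (q : R))
    (hα₂ : ∀ x ∈ cm85_Vinf (K := K) (M' * q) hπ, al97L_alpha K (M' * q) q x ∈ V₂)
    (hπ₂ : (algebraMap K ↥(modularFunctionFieldFullC K (M' * q * q)) (algebraMap R K π))⁻¹ ∉ V₂)
    (hne : cm85_Vinf (K := K) (M' * q * q) hπ ≠ V₂)
    (s : ↥(modularFunctionFieldFullC K (M' * q * q)))
    (hs : V₂.valuation s ^ (q - 1) =
      V₂.valuation (algebraMap K ↥(modularFunctionFieldFullC K (M' * q * q)) (algebraMap R K π)))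
    (hmid : ∀ g ∈ cm85_Vinf (K := K) (M' * q) hπ,
      al97L_beta K (M' * q) q (al97L_w (algebraMap K Q̄) M' q hq hM' g) -
        al97L_alpha K (M' * q) q g ∈ V₂.nonunits) :
    ∃ e1 e2 e3 : ↥(modularFunctionFieldFullC K (M' * q * q)),
      tb50_Frame q
        ((cm85_Vinf (K := K) (M' * q * q) hπ).toSubring ⊓ V₂.toSubring ⊓
          (nsb86_V3 M' q hq hM' hπ).toSubring)
        (s34i47c_W (K := K) M' q hq hM' hπ)
        (ntf35_red R (M' * q * q)) (rf35_r2 M' q hπ V₂) (rf35_r3 R M' q hq hM')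
        (ntf35_red R (M' * q)) (ntf35_red0 R M' q hq hM')
        (qExpand (IsLocalRing.ResidueField R) q)
        (al97L_alpha K (M' * q) q : ↥(modularFunctionFieldFullC K (M' * q)) →+*
          ↥(modularFunctionFieldFullC K (M' * q * q)))
        (al97L_beta K (M' * q) q : ↥(modularFunctionFieldFullC K (M' * q)) →+*
          ↥(modularFunctionFieldFullC K (M' * q * q)))
        (s35i62_normA K (M' * q) q) (s35i62_normB K (M' * q) q) e1 e2 e3
        (rf35_Cst (IsLocalRing.ResidueField R))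
        (Set.range (algebraMap K ↥(modularFunctionFieldFullC K (M' * q * q)))) := by
  have hβ₂ := rfr35_beta_mem_V2 M' q hq hM' hπ V₂ hα₂ hmid
  have hf₂ := rfr35_hf2 M' q hq hπ V₂ hα₂ hπ₂ hne s hs
  refine rf35_frame M' q hq hM' hπ V₂ hqR hα₂ hβ₂ hπ₂ hf₂ (fun x hx => ?_) (fun x hx => ?_)
  · have hW := (rf35_mem_W M' q hq hM' hπ V₂ x).mp hx.2.1
    exact rfr35_N1 M' q hq hπ V₂ hα₂ hπ₂ hne s hs x hW.1 hW.2.1
  · have hW := (rf35_mem_W M' q hq hM' hπ V₂ x).mp hx.2.1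
    exact rfr35_N4 M' q hq hM' hπ V₂ hqR hα₂ hπ₂ hne s hs hmid x hW.2.1
      ((nsb86_mem_V3 M' q hq hM' hπ x).mpr hW.2.2)

end RFR35

end Fermat.Agent.S36
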