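import Mathlib
import Fermat.Agent.S36.KappaMod56
import Fermat.Agent.S36.KappaDvd40

/-!
# S36 lab, row C-REGq (helper19): `ϖ ^ 12 ∣ Ū` in a branch DVR embedded in `κ((Q))`

`O` a discrete valuation ring with an INJECTIVE ring hom `ψ : O →+* κ((Q))` (`κ` a field of
characteristic `q`) and constants `c : κ →+* O`, `ψ (c r) = r` (the output of `rh19_Red`,
`RedHom19`).  If `j̄, Ū ∈ O` reduce to `jqModC κ` and `dq56_U κ q` and `Ū` is not a unit, then
the mod-`q` identities `km56_reduced` / `km56_U_rel` (helper56) pull back to `O` by injectivity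
and the order bookkeeping `k1d40_*` (helper40) gives `ϖ ^ 12 ∣ Ū`, PROVIDED the rigidity
divisibilities hold in `O`:

* `j̄` not a unit ⟹ `j̄ = unit * x ^ 3`;
* `j̄ - 1728` not a unit ⟹ `j̄ - 1728 = unit * x ^ 2`;
* `q = 2`, `j̄` not a unit ⟹ `j̄ = unit * x ^ 12`.

`rr19_dvd` is this statement (all `q`, all nodes; no `κ`-exponent, no local structure).

All names are prefixed `rr19_`.
-/

set_option autoImplicit false
set_option linter.style.haveILetI false

open ModularCurve Polynomial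

namespace Fermat.Agent.S36

open Fermat.Agent.S18 Fermat.Agent.S28 Fermat.Agent.S34 Fermat.Agent.S37
open IsDiscreteValuationRing

/-- In a DVR a non-unit is divisible by every uniformizer. -/
theorem rr19_dvd_of_not_isUnit {O : Type*} [CommRing O] [IsDomain O] [IsDiscreteValuationRing O]
    (ϖ : O) (hϖ : Irreducible ϖ) (x : O) (hx : ¬ IsUnit x) : ϖ ∣ x := by
  have hm : IsLocalRing.maximalIdeal O = Ideal.span {ϖ} :=
    (IsDiscreteValuationRing.irreducible_iff_uniformizer ϖ).mp hϖ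
  have hmem : x ∈ IsLocalRing.maximalIdeal O := (IsLocalRing.mem_maximalIdeal x).mpr hx
  rw [hm] at hmem
  exact Ideal.mem_span_singleton.mp hmem

/-- `unit * x ^ m` with a non-unit value is divisible by `ϖ ^ m`. -/
theorem rr19_pow_dvd {O : Type*} [CommRing O] [IsDomain O] [IsDiscreteValuationRing O]
    (ϖ : O) (hϖ : Irreducible ϖ) (j w x : O) (m : ℕ) (hjn : ¬ IsUnit j) (hw : IsUnit w)
    (hx : j = w * x ^ m) : ϖ ^ m ∣ j := by
  have hxn : ¬ IsUnit x := fun hxu => hjn (hx ▸ hw.mul (hxu.pow m))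
  rw [hx]
  exact Dvd.dvd.mul_left (pow_dvd_pow_of_dvd (rr19_dvd_of_not_isUnit ϖ hϖ x hxn) m) w

/-- A non-unit which is both `unit * cube` and `unit * square` is divisible by `ϖ ^ 6`. -/
theorem rr19_six {O : Type*} [CommRing O] [IsDomain O] [IsDiscreteValuationRing O]
    (ϖ : O) (hϖ : Irreducible ϖ) (j w x w' y : O) (hj0 : j ≠ 0) (hjn : ¬ IsUnit j)
    (hw : IsUnit w) (hx : j = w * x ^ 3) (hw' : IsUnit w') (hy : j = w' * y ^ 2) :
    ϖ ^ 6 ∣ j := by
  have hx0 : x ≠ 0 := by
    rintro rfl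
    apply hj0
    rw [hx]
    simp
  have hy0 : y ≠ 0 := by
    rintro rfl
    apply hj0
    rw [hy]
    simp
  obtain ⟨tx, htx⟩ := k1e40_exists_addVal x hx0
  obtain ⟨ty, hty⟩ := k1e40_exists_addVal y hy0
  have h := congrArg (addVal O) (hx.symm.trans hy)
  rw [addVal_mul, addVal_pow, addVal_mul, addVal_pow, addVal_eq_zero_iff.mpr hw,
    addVal_eq_zero_iff.mpr hw', htx, hty] at h
  simp only [zero_add, nsmul_eq_mul] at h
  have h' : 3 * tx = 2 * ty := by exact_mod_cast h
  have htx1 : 1 ≤ tx := by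
    rcases Nat.eq_zero_or_pos tx with h0 | h0
    · exfalso
      rw [h0] at htx
      apply hjn
      rw [hx]
      exact hw.mul ((addVal_eq_zero_iff.mp (by simpa using htx)).pow 3)
    · exact h0
  apply addVal_le_iff_dvd.mp
  rw [addVal_pow, addVal_uniformizer hϖ, hx, addVal_mul, addVal_pow, addVal_eq_zero_iff.mpr hw,
    htx]
  simp only [zero_add, nsmul_eq_mul, mul_one]
  have h6 : 6 ≤ 3 * tx := by omega
  exact_mod_cast h6

/-- **`ϖ ^ 12 ∣ Ū` in a DVR embedded in `κ((Q))`** (all `q`, all nodes). -/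
theorem rr19_dvd {κ : Type*} [Field κ] (q : ℕ) (hq : q.Prime) [CharP κ q]
    {O : Type*} [CommRing O] [IsDomain O] [IsDiscreteValuationRing O]
    (c : κ →+* O) (ψ : O →+* LaurentSeries κ) (hψ : Function.Injective ψ)
    (hψc : ∀ r : κ, ψ (c r) = algebraMap κ (LaurentSeries κ) r)
    (jb U0 : O) (hj : ψ jb = jqModC κ) (hU : ψ U0 = dq56_U κ q) (hUn : ¬ IsUnit U0)
    (h3 : ¬ IsUnit jb → ∃ w x : O, IsUnit w ∧ jb = w * x ^ 3)
    (h2 : ¬ IsUnit (jb - 1728) → ∃ w x : O, IsUnit w ∧ jb - 1728 = w * x ^ 2)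
    (h12 : q = 2 → ¬ IsUnit jb → ∃ w x : O, IsUnit w ∧ jb = w * x ^ 12)
    (ϖ : O) (hϖ : Irreducible ϖ) : ϖ ^ 12 ∣ U0 := by
  classical
  obtain ⟨φ, hφ⟩ : ∃ φ : κ[X] →+* O, φ = eval₂RingHom c jb := ⟨_, rfl⟩
  have hφX : φ X = jb := by rw [hφ]; simp
  have hφC : ∀ r : κ, φ (C r) = c r := by intro r; rw [hφ]; simp
  have hψφ : ∀ f : κ[X], ψ (φ f) = aeval (jqModC κ) f := by
    intro f
    rw [hφ, coe_eval₂RingHom, hom_eval₂, hj, aeval_def]
    congr 1
    exact RingHom.ext hψc
  have hne : ∀ f : κ[X], f ≠ 0 → φ f ≠ 0 := by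
    intro f hf h0
    have h1 := hψφ f
    rw [h0, map_zero] at h1
    exact h63_transcendental_jqModC κ ⟨f, hf, h1.symm⟩
  obtain ⟨P₀, S₀, a, b, cc, d, hab, hcd, hid⟩ := km56_reduced κ q hq
  obtain ⟨N₀, hN₀⟩ : ∃ N₀ : κ[X],
      N₀ = derivative P₀ * S₀ - P₀ * derivative S₀ + X ^ (q - 1) * S₀ ^ 2 := ⟨_, rfl⟩
  rw [← hN₀] at hid
  have hrelL := km56_U_rel κ q hq (aeval (jqModC κ) S₀) (aeval (jqModC κ) N₀) hid
  have hW : ψ (φ (X ^ 4 * (X - C (1728 : κ)) ^ 3)) =
      jqModC κ ^ 4 * (jqModC κ - 1728) ^ 3 := by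
    rw [hψφ, map_mul, map_pow, map_pow, map_sub, aeval_X, aeval_C]
    congr 3
    exact map_ofNat (algebraMap κ (LaurentSeries κ)) 1728
  have hrel : U0 * φ N₀ ^ 6 = φ S₀ ^ 12 * φ (X ^ 4 * (X - C (1728 : κ)) ^ 3) ^ (q - 1) := by
    apply hψ
    rw [map_mul, map_pow, map_mul, map_pow, map_pow, hU, hψφ, hψφ, hW]
    exact hrelL
  have hS0 : S₀ ≠ 0 := by
    intro h
    rw [h] at hab
    simp at hab
  have hφS : φ S₀ ≠ 0 := hne S₀ hS0
  have h1728 : φ (X - C (1728 : κ)) = jb - 1728 := by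
    rw [map_sub, hφX, hφC, map_ofNat]
  have hφX0 : φ X ≠ 0 := hne X X_ne_zero
  by_cases hju : IsUnit jb
  · by_cases hju' : IsUnit (jb - 1728)
    · -- generic nodes
      have hWu : IsUnit (φ (X ^ 4 * (X - C (1728 : κ)) ^ 3)) := by
        rw [map_mul, map_pow, map_pow, hφX, h1728]
        exact (hju.pow 4).mul (hju'.pow 3)
      have hSn : ¬ IsUnit (φ S₀) := by
        intro hS
        have h1 : IsUnit (U0 * φ N₀ ^ 6) := hrel ▸ (hS.pow 12).mul (hWu.pow (q - 1))
        exact hUn (isUnit_of_mul_isUnit_left h1)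
      have hSm : φ S₀ ∈ IsLocalRing.maximalIdeal O := (IsLocalRing.mem_maximalIdeal _).mpr hSn
      have hone : (1 : O) ∉ IsLocalRing.maximalIdeal O := fun h1 =>
        (IsLocalRing.mem_maximalIdeal _).mp h1 isUnit_one
      have hS'u : IsUnit (φ (derivative S₀)) := by
        have h1 : φ a * φ S₀ + φ b * φ (derivative S₀) = 1 := by
          rw [← map_mul, ← map_mul, ← map_add, hab, map_one]
        by_contra hnu
        have hm : φ (derivative S₀) ∈ IsLocalRing.maximalIdeal O :=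
          (IsLocalRing.mem_maximalIdeal _).mpr hnu
        apply hone
        rw [← h1]
        exact Ideal.add_mem _ (Ideal.mul_mem_left _ _ hSm) (Ideal.mul_mem_left _ _ hm)
      have hPu : IsUnit (φ P₀) := by
        have h1 : φ cc * φ P₀ + φ d * φ S₀ = 1 := by
          rw [← map_mul, ← map_mul, ← map_add, hcd, map_one]
        by_contra hnu
        have hm : φ P₀ ∈ IsLocalRing.maximalIdeal O :=
          (IsLocalRing.mem_maximalIdeal _).mpr hnu
        apply hone
        rw [← h1]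
        exact Ideal.add_mem _ (Ideal.mul_mem_left _ _ hm) (Ideal.mul_mem_left _ _ hSm)
      have hNu : IsUnit (φ N₀) := by
        by_contra hnu
        have hm : φ N₀ ∈ IsLocalRing.maximalIdeal O :=
          (IsLocalRing.mem_maximalIdeal _).mpr hnu
        have hprod : φ P₀ * φ (derivative S₀) ∈ IsLocalRing.maximalIdeal O := by
          have e1 : φ P₀ * φ (derivative S₀) =
              φ (derivative P₀) * φ S₀ + φ X ^ (q - 1) * φ S₀ ^ 2 - φ N₀ := by
            rw [hN₀]
            simp only [map_add, map_sub, map_mul, map_pow]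
            ring
          rw [e1]
          exact Ideal.sub_mem _ (Ideal.add_mem _ (Ideal.mul_mem_left _ _ hSm)
            (Ideal.mul_mem_left _ _ (Ideal.pow_mem_of_mem _ hSm 2 (by norm_num)))) hm
        exact (IsLocalRing.mem_maximalIdeal _).mp hprod (hPu.mul hS'u)
      exact k1d40_generic ϖ hϖ q U0 (φ N₀) (φ S₀) _ hNu hWu hUn hrel
    · -- nodes over `1728 ≠ 0`
      have h1728κ : (1728 : κ) ≠ 0 := by
        intro h0
        apply hju'
        have e0 : (1728 : O) = 0 := by rw [← map_ofNat c 1728, h0, map_zero]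
        rw [e0, sub_zero]
        exact hju
      have hqodd : q % 2 = 1 := by
        rcases hq.eq_two_or_odd with h | h
        · exfalso
          apply h1728κ
          have e1 : (1728 : κ) = ((q : ℕ) : κ) * 864 := by
            rw [h]
            push_cast
            norm_num
          rw [e1, CharP.cast_eq_zero κ q, zero_mul]
        · exact h
      obtain ⟨w, x, hw, hx⟩ := h2 hju'
      have he0 : ϖ ^ 2 ∣ φ (X - C (1728 : κ)) := by
        rw [h1728]
        exact rr19_pow_dvd ϖ hϖ _ w x 2 hju' hw hx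
      exact k1d40_at_1728 φ q hqodd h1728κ ϖ hϖ U0 hUn S₀ N₀ hφS hrel
        (hne _ (X_sub_C_ne_zero _)) he0
  · by_cases h1728κ : (1728 : κ) = 0
    · -- characteristic `2` or `3`
      have hq23 : q = 2 ∨ q = 3 := by
        have h1 : ((1728 : ℕ) : κ) = 0 := by exact_mod_cast h1728κ
        have h2' : q ∣ 1728 := (CharP.cast_eq_zero_iff κ q 1728).mp h1
        have h3' : q ∣ 2 ^ 6 * 3 ^ 3 := by
          have e : 2 ^ 6 * 3 ^ 3 = 1728 := by norm_num
          rw [e]
          exact h2'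
        rcases (Nat.Prime.dvd_mul hq).mp h3' with h | h
        · left
          exact (Nat.prime_dvd_prime_iff_eq hq Nat.prime_two).mp (hq.dvd_of_dvd_pow h)
        · right
          exact (Nat.prime_dvd_prime_iff_eq hq Nat.prime_three).mp (hq.dvd_of_dvd_pow h)
      have h1728O : (1728 : O) = 0 := by rw [← map_ofNat c 1728, h1728κ, map_zero]
      rcases hq23 with h | h
      · obtain ⟨w, x, hw, hx⟩ := h12 h hju
        have he0 : ϖ ^ 12 ∣ φ X := by
          rw [hφX]
          exact rr19_pow_dvd ϖ hϖ _ w x 12 hju hw hx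
        rw [h] at hrel
        exact k1d40_char_two φ h1728κ ϖ hϖ U0 hUn S₀ N₀ hφS hrel hφX0 he0
      · obtain ⟨w, x, hw, hx⟩ := h3 hju
        have hju' : ¬ IsUnit (jb - 1728) := by
          rw [h1728O, sub_zero]
          exact hju
        obtain ⟨w', y, hw', hy⟩ := h2 hju'
        rw [h1728O, sub_zero] at hy
        have he0 : ϖ ^ 6 ∣ φ X := by
          rw [hφX]
          exact rr19_six ϖ hϖ jb w x w' y (hφX ▸ hφX0) hju hw hx hw' hy
        rw [h] at hrel
        exact k1d40_char_three φ h1728κ ϖ hϖ U0 hUn S₀ N₀ hφS hrel hφX0 he0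
    · -- nodes over `0`, `1728 ≠ 0`
      have hq3 : q % 3 ≠ 0 := by
        intro h
        have h3' : 3 ∣ q := Nat.dvd_of_mod_eq_zero h
        have hq3 : 3 = q := (Nat.prime_dvd_prime_iff_eq Nat.prime_three hq).mp h3'
        apply h1728κ
        have e1 : (1728 : κ) = ((q : ℕ) : κ) * 576 := by
          rw [← hq3]
          push_cast
          norm_num
        rw [e1, CharP.cast_eq_zero κ q, zero_mul]
      obtain ⟨w, x, hw, hx⟩ := h3 hju
      have he0 : ϖ ^ 3 ∣ φ X := by
        rw [hφX]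
        exact rr19_pow_dvd ϖ hϖ _ w x 3 hju hw hx
      exact k1d40_at_zero φ q hq3 h1728κ ϖ hϖ U0 hUn S₀ N₀ hφS hrel hφX0 he0

end Fermat.Agent.S36
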