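import Mathlib
import Fermat.Agent.S36.RedHom19
import Fermat.Agent.S36.RedHomRel19
import Fermat.Agent.S36.NodeRegen18

/-!
# S36 lab, row C-REGq (helper19): the labelled regular node from the reduction hom (RED)

Chart language of `SpecFibre79` + `rh19_Red` (`RedHom19`).  `B` a chart, `V₁`, `V₂` the two
branches, `ρ : F → κ((Q))` the reduction along `V₁` (multiplicative on `V₁`), `J`, `U ∈ V₁` with
`ρ J = jqModC κ`, `ρ U = dq56_U κ q`.  At a closed point `n` of both branches with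

* a local coordinate `z₁` of the `V₁`-branch (`sf79_Unif`), transversality (`sf79_Transv`),
* `J` regular at `n` (`aJ * J = bJ`, `aJ ∉ n`), `U` regular at `n` (`aU * U = u`),
  `u * v = π ^ 12 * e`, `e ∉ n`, `u ∈ n` a unit along `V₁`,
* the rigidity data at `n`: `J = ε c ^ 3`, `J - 1728 = ε c ^ 2` (and for `q = 2` a function `g`
  with `J g ^ 3 = (g + 27) (g + 243) ^ 3`, `g + 27 = ε c ^ 3`), `ε` a unit of `B_n`, `c ∈ B_n`,

`rn19_node` gives `s z z' = π s'` with `s, s' ∉ n`, `π⁻¹ z ∈ V₁`, `π⁻¹ z' ∈ V₂`: the LITERAL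
clause `hnode` of `tl71_reg_of_nodes` (`tf71_RegNodes`).  Proof: `rh19_Red` gives the branch DVR
`O ⊆ κ((Q))`; `rr19_dvd` gives `φ z₁ ^ 12 ∣ φ u`; this pulls back to
`π⁻¹ (s u - a z₁ ^ 12) ∈ V₁`, the hypothesis `hdiv` of `nb18_hnode_transv` (helper18).

All names are prefixed `rn19_`.
-/

set_option autoImplicit false
set_option linter.style.haveILetI false

open ModularCurve Polynomial

universe u

namespace Fermat.Agent.S36

open Fermat.Agent.S18 Fermat.Agent.S28 Fermat.Agent.S34 Fermat.Agent.S37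

section rn19

variable {R : Type*} [CommRing R] {F : Type u} [Field F] [Algebra R F]

/-- Root data at `n`: `f = ε * c ^ m` with `ε` a unit of `B_n` and `c ∈ B_n`. -/
def rn19_RootAt (B : Subalgebra R F) (n : Ideal B) (f : F) (m : ℕ) : Prop :=
  ∃ c ε : F, f = ε * c ^ m ∧ (∃ s : B, s ∉ n ∧ (s : F) * ε ∈ B) ∧
    (∃ s : B, s ∉ n ∧ (s : F) * ε⁻¹ ∈ B) ∧ (∃ s : B, s ∉ n ∧ (s : F) * c ∈ B)

/-- **Root data pass to any ring hom `φ : B → O` inverting `B ∖ n`**: if `f = ε c ^ m` at `n`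
and `f̄ ∈ O` is the value of `f` (`f̄ * φ a = φ b` for a presentation `a f = b`, `a ∉ n`), then
`f̄ = unit * x ^ m`. -/
theorem rn19_root_transfer {O : Type*} [CommRing O] [IsDomain O]
    (B : Subalgebra R F) (n : Ideal B) [hn : n.IsPrime] (φ : B →+* O)
    (hunit : ∀ b : B, IsUnit (φ b) ↔ b ∉ n)
    (f : F) (m : ℕ) (hm : m ≠ 0) (af bf : B) (haf : af ∉ n) (hf : (af : F) * f = bf)
    (hroot : rn19_RootAt B n f m)
    (fb : O) (hfb : fb * φ af = φ bf) : ∃ w x : O, IsUnit w ∧ fb = w * x ^ m := by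
  obtain ⟨c, ε, hfε, ⟨s₁, hs₁, hs₁B⟩, ⟨s₂, hs₂, hs₂B⟩, ⟨s₃, hs₃, hs₃B⟩⟩ := hroot
  have hafu : IsUnit (φ af) := (hunit af).mpr haf
  by_cases hε : ε = 0
  · have hf0 : f = 0 := by rw [hfε, hε, zero_mul]
    have hbf : bf = 0 := by
      apply Subtype.ext
      rw [← hf, hf0, mul_zero]
      rfl
    rw [hbf, map_zero] at hfb
    have hfb0 : fb = 0 := by
      rcases mul_eq_zero.mp hfb with h | h
      · exact h
      · exact absurd h hafu.ne_zero
    exact ⟨1, 0, isUnit_one, by rw [hfb0, zero_pow hm, mul_zero]⟩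
  · obtain ⟨e₁, he₁⟩ : ∃ e₁ : B, (e₁ : F) = (s₁ : F) * ε := ⟨⟨_, hs₁B⟩, rfl⟩
    obtain ⟨e₂, he₂⟩ : ∃ e₂ : B, (e₂ : F) = (s₂ : F) * ε⁻¹ := ⟨⟨_, hs₂B⟩, rfl⟩
    obtain ⟨c₁, hc₁⟩ : ∃ c₁ : B, (c₁ : F) = (s₃ : F) * c := ⟨⟨_, hs₃B⟩, rfl⟩
    have hB : bf * s₁ * s₃ ^ m = af * e₁ * c₁ ^ m := by
      apply Subtype.ext
      push_cast
      rw [← hf, he₁, hc₁, hfε]
      ring
    have hee : e₁ * e₂ = s₁ * s₂ := by
      apply Subtype.ext
      push_cast
      rw [he₁, he₂]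
      field_simp
    have he₁n : e₁ ∉ n := by
      intro h
      have h1 : s₁ * s₂ ∈ n := hee ▸ n.mul_mem_right e₂ h
      rcases hn.mem_or_mem h1 with h2 | h2
      · exact hs₁ h2
      · exact hs₂ h2
    obtain ⟨ia, hia⟩ := hafu.exists_right_inv
    obtain ⟨i₁, hi₁⟩ := ((hunit s₁).mpr hs₁).exists_right_inv
    obtain ⟨i₃, hi₃⟩ := ((hunit s₃).mpr hs₃).exists_right_inv
    have hB' : φ bf * φ s₁ * φ s₃ ^ m = φ af * φ e₁ * φ c₁ ^ m := by
      rw [← map_pow, ← map_mul, ← map_mul, hB, map_mul, map_mul, map_pow]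
    have h3m : φ s₃ ^ m * i₃ ^ m = 1 := by rw [← mul_pow, hi₃, one_pow]
    have hi₁u : IsUnit i₁ := IsUnit.of_mul_eq_one (φ s₁) (by rw [mul_comm]; exact hi₁)
    refine ⟨φ e₁ * i₁, φ c₁ * i₃, ((hunit e₁).mpr he₁n).mul hi₁u, ?_⟩
    rw [mul_pow]
    linear_combination (-(fb * (φ s₁ * i₁) * (φ s₃ ^ m * i₃ ^ m))) * hia
      - fb * (φ s₃ ^ m * i₃ ^ m) * hi₁ - fb * h3m
      + (φ s₁ * φ s₃ ^ m * ia * i₁ * i₃ ^ m) * hfb + (ia * i₁ * i₃ ^ m) * hB'
      + (φ e₁ * i₁ * φ c₁ ^ m * i₃ ^ m) * hia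

end rn19

section rn19_node

variable {R : Type*} [CommRing R] [IsLocalRing R] {F : Type u} [Field F] [Algebra R F]

/-- **The labelled regular node from (RED).** -/
theorem rn19_node (q : ℕ) (hq : q.Prime) [CharP (IsLocalRing.ResidueField R) q]
    (π : R) (B : Subalgebra R F) (V₁ V₂ : Subring F)
    (hB₁ : ∀ x ∈ B, x ∈ V₁) (hB₂ : ∀ x ∈ B, x ∈ V₂)
    (hπ₁ : (algebraMap R F π)⁻¹ ∉ V₁)
    (hV₁ : ∀ x ∈ V₁, (algebraMap R F π)⁻¹ * x ∉ V₁ → x⁻¹ ∈ V₁)
    (hsat : ∀ x ∈ B, (algebraMap R F π)⁻¹ * x ∈ V₁ → (algebraMap R F π)⁻¹ * x ∈ V₂ →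
      (algebraMap R F π)⁻¹ * x ∈ B)
    (hT : sf79_Transv π B V₁ V₂)
    (ρ : F → LaurentSeries (IsLocalRing.ResidueField R))
    (hρmul : ∀ x ∈ V₁, ∀ y ∈ V₁, ρ (x * y) = ρ x * ρ y)
    (hρC : ∀ r : R, ρ (algebraMap R F r) =
      algebraMap (IsLocalRing.ResidueField R) (LaurentSeries (IsLocalRing.ResidueField R))
        (IsLocalRing.residue R r))
    (hred : rh19_Red π B V₁ ρ)
    (J U : F) (hJV : J ∈ V₁) (hUV : U ∈ V₁)
    (hρJ : ρ J = jqModC (IsLocalRing.ResidueField R))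
    (hρU : ρ U = dq56_U (IsLocalRing.ResidueField R) q)
    (n : Ideal B) (hn : n.IsMaximal) (hπn : algebraMap R B π ∈ n)
    (h1 : sf79_OnBr π B V₁ n) (h2 : sf79_OnBr π B V₂ n)
    (z₁ : B) (hz₁ : sf79_Unif π B V₁ n z₁)
    (aJ bJ : B) (haJ : aJ ∉ n) (hJ : (aJ : F) * J = bJ)
    (aU u v e : B) (haU : aU ∉ n) (hu : (aU : F) * U = u) (he : e ∉ n)
    (huv : u * v = algebraMap R B π ^ 12 * e) (hun : u ∈ n)
    (hu1 : (algebraMap R F π)⁻¹ * (u : F) ∉ V₁)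
    (hR3 : rn19_RootAt B n J 3) (hR2 : rn19_RootAt B n (J - 1728) 2)
    (hR12 : q = 2 → ∃ g : F, ∃ ag bg : B, ag ∉ n ∧ (ag : F) * g = bg ∧
      J * g ^ 3 = (g + 27) * (g + 243) ^ 3 ∧ rn19_RootAt B n (g + 27) 3) :
    ∃ z z' s s' : B, s ∉ n ∧ s' ∉ n ∧ (algebraMap R F π)⁻¹ * (z : F) ∈ V₁ ∧
      (algebraMap R F π)⁻¹ * (z' : F) ∈ V₂ ∧ s * z * z' = algebraMap R B π * s' := by
  haveI : n.IsPrime := hn.isPrime
  obtain ⟨O, _, _, _, φ, ψ, c, hinj, hcomp, hunit, hzero, hsurj, hirr, hc⟩ :=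
    hred n hn.isPrime h1 ⟨u, hun, hu1⟩
  have haJu : IsUnit (φ aJ) := (hunit aJ).mpr haJ
  have haUu : IsUnit (φ aU) := (hunit aU).mpr haU
  obtain ⟨ia, hia⟩ := haJu.exists_right_inv
  obtain ⟨iu, hiu⟩ := haUu.exists_right_inv
  obtain ⟨jb, hjb⟩ : ∃ jb : O, jb * φ aJ = φ bJ :=
    ⟨φ bJ * ia, by rw [mul_assoc, mul_comm ia, hia, mul_one]⟩
  obtain ⟨U0, hU0⟩ : ∃ U0 : O, U0 * φ aU = φ u :=
    ⟨φ u * iu, by rw [mul_assoc, mul_comm iu, hiu, mul_one]⟩
  have hρne : ∀ b : B, b ∉ n → ρ (b : F) ≠ 0 := by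
    intro b hb h0
    rw [← hcomp] at h0
    exact ((hunit b).mpr hb).ne_zero (hinj (by rw [h0, map_zero]))
  have hψj : ψ jb = jqModC (IsLocalRing.ResidueField R) := by
    have e1 : ψ jb * ψ (φ aJ) = ρ (aJ : F) * ρ J := by
      rw [← map_mul, hjb, hcomp, ← hJ]
      exact hρmul _ (hB₁ _ aJ.2) _ hJV
    rw [hcomp] at e1
    rw [← hρJ]
    exact mul_right_cancel₀ (hρne aJ haJ) (e1.trans (mul_comm _ _))
  have hψU : ψ U0 = dq56_U (IsLocalRing.ResidueField R) q := by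
    have e1 : ψ U0 * ψ (φ aU) = ρ (aU : F) * ρ U := by
      rw [← map_mul, hU0, hcomp, ← hu]
      exact hρmul _ (hB₁ _ aU.2) _ hUV
    rw [hcomp] at e1
    rw [← hρU]
    exact mul_right_cancel₀ (hρne aU haU) (e1.trans (mul_comm _ _))
  have hψc : ∀ r : IsLocalRing.ResidueField R, ψ (c r) =
      algebraMap (IsLocalRing.ResidueField R) (LaurentSeries (IsLocalRing.ResidueField R)) r := by
    intro r
    obtain ⟨r', rfl⟩ := IsLocalRing.residue_surjective r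
    rw [hc, hcomp]
    exact hρC r'
  have hUn : ¬ IsUnit U0 := by
    intro hU
    exact (hunit u).mp (hU0 ▸ hU.mul haUu) hun
  have c1728 : ((1728 : B) : F) = 1728 := map_ofNat B.val 1728
  have c27 : ((27 : B) : F) = 27 := map_ofNat B.val 27
  have c243 : ((243 : B) : F) = 243 := map_ofNat B.val 243
  have h3 : ¬ IsUnit jb → ∃ w x : O, IsUnit w ∧ jb = w * x ^ 3 := fun _ =>
    rn19_root_transfer B n φ hunit J 3 (by norm_num) aJ bJ haJ hJ hR3 jb hjb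
  have h2' : ¬ IsUnit (jb - 1728) → ∃ w x : O, IsUnit w ∧ jb - 1728 = w * x ^ 2 := fun _ =>
    rn19_root_transfer B n φ hunit (J - 1728) 2 (by norm_num) aJ (bJ - 1728 * aJ) haJ
      (by rw [Subalgebra.coe_sub, Subalgebra.coe_mul, c1728, ← hJ]; ring) hR2 (jb - 1728)
      (by rw [map_sub, map_mul, map_ofNat, ← hjb]; ring)
  have h12 : q = 2 → ¬ IsUnit jb → ∃ w x : O, IsUnit w ∧ jb = w * x ^ 12 := by
    intro hq2 _
    obtain ⟨g, ag, bg, hag, hg, hrel, hR27⟩ := hR12 hq2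
    have hagu : IsUnit (φ ag) := (hunit ag).mpr hag
    obtain ⟨ig, hig⟩ := hagu.exists_right_inv
    obtain ⟨hb, hhb⟩ : ∃ hb : O, hb * φ ag = φ bg :=
      ⟨φ bg * ig, by rw [mul_assoc, mul_comm ig, hig, mul_one]⟩
    have h2O : (2 : O) = 0 := by
      have h2κ : (2 : IsLocalRing.ResidueField R) = 0 := by
        have := CharP.cast_eq_zero (IsLocalRing.ResidueField R) q
        rw [hq2] at this
        exact_mod_cast this
      rw [← map_ofNat c 2, h2κ, map_zero]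
    have hBrel : bJ * bg ^ 3 * ag = aJ * (bg + 27 * ag) * (bg + 243 * ag) ^ 3 := by
      apply Subtype.ext
      simp only [Subalgebra.coe_mul, Subalgebra.coe_pow, Subalgebra.coe_add, c27, c243]
      rw [← hJ, ← hg]
      linear_combination (aJ : F) * (ag : F) ^ 4 * hrel
    have hOrel : φ bJ * φ bg ^ 3 * φ ag = φ aJ * (φ bg + 27 * φ ag) * (φ bg + 243 * φ ag) ^ 3 := by
      have := congrArg φ hBrel
      simpa only [map_mul, map_pow, map_add, map_ofNat] using this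
    have e243 : (243 : O) = 27 := by
      have e : (243 : O) = 27 + 2 * 108 := by norm_num
      rw [e, h2O, zero_mul, add_zero]
    have e27 : (27 : O) = 1 := by
      have e : (27 : O) = 1 + 2 * 13 := by norm_num
      rw [e, h2O, zero_mul, add_zero]
    have hrel' : jb * hb ^ 3 = (hb + 27) ^ 4 := by
      have hne : φ aJ * φ ag ^ 4 ≠ 0 := mul_ne_zero haJu.ne_zero (pow_ne_zero 4 hagu.ne_zero)
      apply mul_left_cancel₀ hne
      rw [← hjb, ← hhb, e243] at hOrel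
      linear_combination hOrel
    obtain ⟨w, x, hw, hx⟩ := rn19_root_transfer B n φ hunit (g + 27) 3 (by norm_num) ag
      (bg + 27 * ag) hag
      (by rw [Subalgebra.coe_add, Subalgebra.coe_mul, c27, ← hg]; ring) hR27 (hb + 27)
      (by rw [map_add, map_mul, map_ofNat, ← hhb]; ring)
    have hhbu : IsUnit hb := by
      by_contra hnu
      have hm : hb ∈ IsLocalRing.maximalIdeal O := (IsLocalRing.mem_maximalIdeal _).mpr hnu
      have h27u : IsUnit (hb + 27) := by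
        by_contra hnu'
        have hm' : hb + 27 ∈ IsLocalRing.maximalIdeal O :=
          (IsLocalRing.mem_maximalIdeal _).mpr hnu'
        have h1m : (1 : O) ∈ IsLocalRing.maximalIdeal O := by
          have e : (1 : O) = hb + 27 - hb := by rw [e27]; ring
          rw [e]
          exact Ideal.sub_mem _ hm' hm
        exact (IsLocalRing.mem_maximalIdeal _).mp h1m isUnit_one
      have h4 : IsUnit (jb * hb ^ 3) := hrel' ▸ h27u.pow 4
      have h5 : IsUnit (hb ^ 3) := isUnit_of_mul_isUnit_right h4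
      exact hnu ((isUnit_pow_iff (by norm_num)).mp h5)
    obtain ⟨ih, hih⟩ := hhbu.exists_right_inv
    have hihu : IsUnit ih := IsUnit.of_mul_eq_one hb (by rw [mul_comm]; exact hih)
    have h13 : hb ^ 3 * ih ^ 3 = 1 := by rw [← mul_pow, hih, one_pow]
    rw [hx] at hrel'
    refine ⟨ih ^ 3 * w ^ 4, x, (hihu.pow 3).mul (hw.pow 4), ?_⟩
    linear_combination (-jb) * h13 + ih ^ 3 * hrel'
  obtain ⟨x, hx⟩ := rr19_dvd q hq c ψ hinj hψc jb U0 hψj hψU hUn h3 h2' h12 (φ z₁)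
    (hirr z₁ hz₁)
  obtain ⟨a, s, hs, hxs⟩ := hsurj (x * φ aU)
  have h0 : φ (s * u - a * z₁ ^ 12) = 0 := by
    rw [map_sub, map_mul, map_mul, map_pow, ← hU0, hx, ← hxs]
    ring
  have hdiv := (hzero _).mp h0
  have ecast : ((s * u - a * z₁ ^ 12 : B) : F) =
      (s : F) * (u : F) - (a : F) * (z₁ : F) ^ 12 := by
    push_cast
    ring
  rw [ecast] at hdiv
  exact nb18_hnode_transv π B V₁ V₂ hB₁ hB₂ hπ₁ hV₁ hsat hT n hn hπn h1 h2 z₁ hz₁ 11 u v e
    he huv hu1 s a hs hdiv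

end rn19_node

end Fermat.Agent.S36
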