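import Mathlib
import Fermat.Agent.S36.MidBind62
import Fermat.Agent.S36.C2Uniform16
import Fermat.Agent.S36.CoordGood27
import Fermat.Agent.S36.RigidOrd27

/-!
# S36 lab, row 600, helper95: `s36i62j_Reg2` on the uniform-coordinate route (route B)

`reg95_Reg2 : s36i62j_Reg2` (`MidBind62`, helper62), with no hypothesis: at every closed point
of the two canonical charts `{h₂}`, `{h₂⁻¹}` of level `M' q²` lying on the middle branch only at
which `j` is regular, the middle branch is principal (`mc25_MidPrinAt`).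

Composition (nothing new):

* `c2u16_hreg_level2` / `c2u16_hreg_level2_inv` (helper16, `C2Uniform16`) at `π := (q : R)`;
* the coordinate package `c2u16_Coord` at the two charts of the good level `M'` from
  `cg27_coord_level2` / `cg27_coord_level2_inv` (helper27, `CoordGood27`);
* `nuTwo M' = 0`, `nuThree M' = 0` from the rigid level (`ro27_rigid_of_eleven`, helper27).

All names are prefixed `reg95_`.
-/

set_option autoImplicit false
set_option linter.unusedSectionVars false
set_option linter.unusedVariables false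
set_option linter.style.haveILetI false
set_option linter.style.longLine false

open ModularCurve AlgebraicCurve

namespace Fermat.Agent.S36

open Fermat.Agent.S34 Fermat.Agent.S18 Fermat.Agent.S24 Fermat.Agent.S35
open Fermat.Agent.S36.TripleLoc71

local notation "Q̄" => AlgebraicClosure ℚ

/-- **Row 600 on the canonical frame, Hauptmodul of level 2: PROVED** (uniform-coordinate
route). -/
theorem reg95_Reg2 : s36i62j_Reg2 := by
  intro M' q r _ _ hq hM' hrig h2 R K _ _ _ _ _ _ _ _ _ _ hπ hunit
  haveI : Algebra.IsAlgebraic K Q̄ := fs85_isAlgebraic K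
  letI a0 : Algebra R ↥(modularFunctionFieldFullC K M') :=
    ((algebraMap K ↥(modularFunctionFieldFullC K M')).comp (algebraMap R K)).toAlgebra
  haveI t0 : IsScalarTower R K ↥(modularFunctionFieldFullC K M') :=
    IsScalarTower.of_algebraMap_eq (fun _ => rfl)
  letI a1 : Algebra R ↥(modularFunctionFieldFullC K (M' * q)) :=
    ((algebraMap K ↥(modularFunctionFieldFullC K (M' * q))).comp (algebraMap R K)).toAlgebra
  haveI t1 : IsScalarTower R K ↥(modularFunctionFieldFullC K (M' * q)) :=
    IsScalarTower.of_algebraMap_eq (fun _ => rfl)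
  have hMu : IsUnit ((M' : ℕ) : R) :=
    hunit M' (Nat.Coprime.symm ((Nat.Prime.coprime_iff_not_dvd hq).mpr hM'))
  obtain ⟨-, -, hr, hr12, hrq, hrN⟩ := hrig
  have hrM : r ∣ M' := by
    rcases (Nat.Prime.dvd_mul hr).mp hrN with h | h
    · exact h
    · exact absurd ((Nat.prime_dvd_prime_iff_eq hr hq).mp h) hrq
  obtain ⟨hν2, hν3⟩ := ro27_rigid_of_eleven hr hr12 hrM
  have hqπ : ∃ u₀ : R, ((q : ℕ) : R) = ((q : ℕ) : R) * u₀ := ⟨1, (mul_one _).symm⟩
  have hc1 : c2u16_Coord (R := R) (K := K) M' ((q : ℕ) : R)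
      (pk15_chart R ({pk85_h2 K M' h2} : Set ↥(modularFunctionFieldFullC K M'))) := by
    intro n₀ hn₀ hπn₀
    haveI := hn₀
    obtain ⟨x, -, hθ, -, hD⟩ := cg27_coord_level2 K M' hπ q hq hqπ hMu h2 n₀ hπn₀
    exact ⟨x, hθ, hD⟩
  have hc2 : c2u16_Coord (R := R) (K := K) M' ((q : ℕ) : R)
      (pk15_chart R ({(pk85_h2 K M' h2)⁻¹} : Set ↥(modularFunctionFieldFullC K M'))) := by
    intro n₀ hn₀ hπn₀
    haveI := hn₀
    obtain ⟨x, -, hθ, -, hD⟩ := cg27_coord_level2_inv K M' hπ q hq hqπ hMu h2 n₀ hπn₀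
    exact ⟨x, hθ, hD⟩
  exact ⟨c2u16_hreg_level2 (R := R) (K := K) M' q hq hM' hπ (Associated.refl _) hunit h2 hν2 hν3
      hc1,
    c2u16_hreg_level2_inv (R := R) (K := K) M' q hq hM' hπ (Associated.refl _) hunit h2 hν2 hν3
      hc2⟩

end Fermat.Agent.S36
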