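/-
S36 lab, row C-REGq (helper11, arithmetic twin; Mathlib only).

The integer arithmetic that turns the two identities available at a node `n` of the level-`q M''`
chart (branch `C_∞`, DVR `O = B_n / p_∞` with normalised valuation `ord`)

  (I)  `κ * ord(Ū) = 12`                      (`U = Δ(Q)/Δ(Q^q)`, `U V = q^12`, `z z' = π^κ · unit`)
  (II) `6 * ord(T̄) + q * (4 a + 3 b) = ord(Ū) + 4 a + 3 b`
       (`dq56_Z1` reduced on the branch: `T̄^6 · j̄^(4q) (j̄ - 1728)^(3q) = Ū · j̄^4 (j̄ - 1728)^3`,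
        `a = ord(j̄)`, `b = ord(j̄ - 1728)`)

into `κ = 1`, using only
  * `T̄ = τ(j̄)` is a rational function of `j̄`, so `ord(T̄)` is a multiple of `ord(j̄ - j₀)`;
  * over `j₀ = 0` / `1728` at a RIGID level: `3 ∣ a` / `2 ∣ b` (characteristic-0 ramification
    `e = 3` / `e = 2`, `ro27_modular_ord`, specialised through local principality);
  * over `j₀ ≠ 0, 1728`: `τ` has no simple zero at `j₀` (`-1/τ = G' + j^(q-1)`, a derivative
    has no simple pole).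
No derivation on the level-`M''` curve and no Hauptmodul of level 2 or 3 is needed for the nodes
over `j = 0, 1728` when `q ≥ 3`.  (`q = 2`: one needs `12 ∣ a`, see `ra11_two`.)

* `ra11_zero`     : node over `j₀ = 0`, `q ≥ 5` prime  (`3 ∣ a`, `0 < a`, `b = 0`);
* `ra11_1728`     : node over `j₀ = 1728`, `q` odd  (`2 ∣ b`, `0 < b`, `a = 0`);
* `ra11_three`    : `q = 3`, node over `j₀ = 0 = 1728`  (`6 ∣ a`, `a = b`);
* `ra11_two`      : `q = 2`, node over `j₀ = 0 = 1728`  (`12 ∣ a`, `a = b`);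
* `ra11_generic`  : node over `j₀ ≠ 0, 1728`  (`a = b = 0`, `ord(T̄) = c * ρ`, `ρ ≠ 1`).
-/
import Mathlib

set_option autoImplicit false

namespace Fermat.Agent.S36

/-- Three integers `x, y ≥ 1` and `μ` with `x * y * μ = d > 0`: then `1 ≤ μ ≤ d`. -/
theorem ra11_bounds (x y μ d : ℤ) (hx : 1 ≤ x) (hy : 1 ≤ y) (hd : 0 < d) (h : x * y * μ = d) :
    1 ≤ μ ∧ μ ≤ d := by
  have hxy : 1 ≤ x * y := by nlinarith
  constructor
  · by_contra hneg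
    have hle : μ ≤ 0 := by omega
    have : x * y * μ ≤ 0 := mul_nonpos_of_nonneg_of_nonpos (by linarith) hle
    linarith
  · by_contra hneg
    have hgt : d < μ := by omega
    nlinarith

/-- Two naturals `x, y` with `(x : ℤ) * y = 1` are both `1`. -/
theorem ra11_one (x y : ℕ) (h : (x : ℤ) * y = 1) : x = 1 ∧ y = 1 := by
  have h' : x * y = 1 := by exact_mod_cast h
  exact ⟨Nat.eq_one_of_mul_eq_one_right h', Nat.eq_one_of_mul_eq_one_left h'⟩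

/-- Node over `j₀ = 0`, `q ≥ 5` prime: `κ = 1` and `a = 3`. -/
theorem ra11_zero (q κ a : ℕ) (ρ u : ℤ) (hq : q.Prime) (hq5 : 5 ≤ q) (hκ : 1 ≤ κ)
    (hI : (κ : ℤ) * u = 12) (ha0 : 0 < a) (ha3 : 3 ∣ a)
    (hII : 6 * ((a : ℤ) * ρ) + q * (4 * a) = u + 4 * a) : κ = 1 ∧ a = 3 := by
  obtain ⟨a', rfl⟩ := ha3
  have ha' : 1 ≤ a' := by omega
  have hq3 : q % 3 ≠ 0 := by
    intro h
    have h3 : 3 ∣ q := Nat.dvd_of_mod_eq_zero h
    rcases (Nat.dvd_prime hq).mp h3 with h1 | h1 <;> omega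
  set μ : ℤ := 6 * ρ + 4 * ((q : ℤ) - 1) with hμ
  have hu : u = 3 * (a' : ℤ) * μ := by
    rw [hμ]; push_cast at hII; linarith
  have h4 : (κ : ℤ) * a' * μ = 4 := by
    have h12 : (κ : ℤ) * (3 * (a' : ℤ) * μ) = 12 := by rw [← hu]; exact hI
    linarith
  obtain ⟨hμ1, hμ4⟩ := ra11_bounds κ a' μ 4 (by exact_mod_cast hκ) (by exact_mod_cast ha')
    (by norm_num) h4
  have hμeq : μ = 4 := by omega
  rw [hμeq] at h4
  obtain ⟨h1, h2⟩ := ra11_one κ a' (by linarith)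
  exact ⟨h1, by rw [h2]⟩

/-- Node over `j₀ = 1728`, `q` odd: `κ = 1` and `b = 2`. -/
theorem ra11_1728 (q κ b : ℕ) (ρ u : ℤ) (hodd : q % 2 = 1) (hκ : 1 ≤ κ)
    (hI : (κ : ℤ) * u = 12) (hb0 : 0 < b) (hb2 : 2 ∣ b)
    (hII : 6 * ((b : ℤ) * ρ) + q * (3 * b) = u + 3 * b) : κ = 1 ∧ b = 2 := by
  obtain ⟨b', rfl⟩ := hb2
  have hb' : 1 ≤ b' := by omega
  set μ : ℤ := 6 * ρ + 3 * ((q : ℤ) - 1) with hμ
  have hu : u = 2 * (b' : ℤ) * μ := by
    rw [hμ]; push_cast at hII; linarith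
  have h6 : (κ : ℤ) * b' * μ = 6 := by
    have h12 : (κ : ℤ) * (2 * (b' : ℤ) * μ) = 12 := by rw [← hu]; exact hI
    linarith
  obtain ⟨hμ1, hμ6⟩ := ra11_bounds κ b' μ 6 (by exact_mod_cast hκ) (by exact_mod_cast hb')
    (by norm_num) h6
  have hμeq : μ = 6 := by omega
  rw [hμeq] at h6
  obtain ⟨h1, h2⟩ := ra11_one κ b' (by linarith)
  exact ⟨h1, by rw [h2]⟩

/-- `q = 3`, node over `j₀ = 0 = 1728` (`a = b`): `κ = 1` and `a = 6`. -/
theorem ra11_three (κ a : ℕ) (ρ u : ℤ) (hκ : 1 ≤ κ)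
    (hI : (κ : ℤ) * u = 12) (ha0 : 0 < a) (ha6 : 6 ∣ a)
    (hII : 6 * ((a : ℤ) * ρ) + 3 * (4 * a + 3 * a) = u + (4 * a + 3 * a)) : κ = 1 ∧ a = 6 := by
  obtain ⟨a', rfl⟩ := ha6
  have ha' : 1 ≤ a' := by omega
  set μ : ℤ := 6 * ρ + 14 with hμ
  have hu : u = 6 * (a' : ℤ) * μ := by
    rw [hμ]; push_cast at hII; linarith
  have h2 : (κ : ℤ) * a' * μ = 2 := by
    have h12 : (κ : ℤ) * (6 * (a' : ℤ) * μ) = 12 := by rw [← hu]; exact hI
    linarith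
  obtain ⟨hμ1, hμ2⟩ := ra11_bounds κ a' μ 2 (by exact_mod_cast hκ) (by exact_mod_cast ha')
    (by norm_num) h2
  have hμeq : μ = 2 := by omega
  rw [hμeq] at h2
  obtain ⟨h1, h2'⟩ := ra11_one κ a' (by linarith)
  exact ⟨h1, by rw [h2']⟩

/-- `q = 2`, node over `j₀ = 0 = 1728` (`a = b`), with `12 ∣ a`: `κ = 1` and `a = 12`. -/
theorem ra11_two (κ a : ℕ) (ρ u : ℤ) (hκ : 1 ≤ κ)
    (hI : (κ : ℤ) * u = 12) (ha0 : 0 < a) (ha12 : 12 ∣ a)
    (hII : 6 * ((a : ℤ) * ρ) + 2 * (4 * a + 3 * a) = u + (4 * a + 3 * a)) : κ = 1 ∧ a = 12 := by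
  obtain ⟨a', rfl⟩ := ha12
  have ha' : 1 ≤ a' := by omega
  set μ : ℤ := 6 * ρ + 7 with hμ
  have hu : u = 12 * (a' : ℤ) * μ := by
    rw [hμ]; push_cast at hII; linarith
  have h1 : (κ : ℤ) * a' * μ = 1 := by
    have h12 : (κ : ℤ) * (12 * (a' : ℤ) * μ) = 12 := by rw [← hu]; exact hI
    linarith
  obtain ⟨hμ1, hμ2⟩ := ra11_bounds κ a' μ 1 (by exact_mod_cast hκ) (by exact_mod_cast ha')
    (by norm_num) h1
  have hμeq : μ = 1 := by omega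
  rw [hμeq] at h1
  obtain ⟨h1', h2'⟩ := ra11_one κ a' (by linarith)
  exact ⟨h1', by rw [h2']⟩

/-- Node over `j₀ ≠ 0, 1728`: `ord(T̄) = c * ρ` with `c = ord(j̄ - j₀) ≥ 1` and `ρ ≠ 1` (no
simple zero of `τ` at `j₀`): `κ = 1`, `c = 1`, `ρ = 2`. -/
theorem ra11_generic (κ c : ℕ) (ρ u : ℤ) (hκ : 1 ≤ κ) (hc : 1 ≤ c)
    (hI : (κ : ℤ) * u = 12) (hII : 6 * ((c : ℤ) * ρ) = u) (hρ : ρ ≠ 1) :
    κ = 1 ∧ c = 1 ∧ ρ = 2 := by
  have h2 : (κ : ℤ) * c * ρ = 2 := by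
    have h12 : (κ : ℤ) * (6 * ((c : ℤ) * ρ)) = 12 := by rw [hII]; exact hI
    linarith
  obtain ⟨hρ1, hρ2⟩ := ra11_bounds κ c ρ 2 (by exact_mod_cast hκ) (by exact_mod_cast hc)
    (by norm_num) h2
  have hρeq : ρ = 2 := by omega
  rw [hρeq] at h2
  obtain ⟨h1, h2'⟩ := ra11_one κ c (by linarith)
  exact ⟨h1, h2', hρeq⟩

end Fermat.Agent.S36
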