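import Fermat.Agent.S36.MidBind62
import Fermat.Agent.S36.C2Uniform16
import Fermat.Agent.S36.CoordGood27

/-!
# S36 lab, row 600 (C-C2), seat 27: ROW 600 CLOSED on the canonical frame by the uniform
coordinate route (route B)

* `rb27_coord_level2` / `_level2_inv` / `_level3` / `_level3_inv` : the coordinate package
  `c2u16_Coord M' π B₀` (`C2Uniform16`) on the four charts of the good level `M'`, from
  `cg27_coord_level2/3(_inv)` (`CoordGood27`).
* `rb27_Reg2 : s36i62j_Reg2`, `rb27_Reg3 : s36i62j_Reg3` : the literal row-600 targets of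
  `MidBind62` (`mc25_MidPrinAt` at every `j`-regular closed point of the two canonical charts lying
  on the middle branch only), by `c2u16_hreg_level2/3(_inv)`.
* `rb27_Mid2 : s36i62h_Mid2`, `rb27_Mid3 : s36i62h_Mid3` (`HP1Bind62`, cusps included).
* Final line for the assembly: `s36i62j_top rb27_Reg2 HP3c2 rb27_Reg3 HP3c3` (`MidBind62`), i.e.
  only the two (HP-3) statements `s36i62g_HP3c2`, `s36i62g_HP3c3` remain.

All names are prefixed `rb27_`.
-/

set_option autoImplicit false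
set_option linter.unusedSectionVars false
set_option linter.unusedVariables false
set_option linter.style.haveILetI false
set_option linter.style.longLine false

open ModularCurve AlgebraicCurve CongruenceSubgroup Polynomial

namespace Fermat.Agent.S36

open Fermat.Agent.S34 Fermat.Agent.S18 Fermat.Agent.S24 Fermat.Agent.S35 Fermat.Agent.S28
open Fermat.Agent.S36.TripleLoc71

local notation "Q̄" => AlgebraicClosure ℚ

section Coord

variable {R : Type} [CommRing R] [IsDomain R] [IsDiscreteValuationRing R]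
  (K : Type) [Field K] [NumberField K] [Algebra K Q̄] [Algebra R K] [IsFractionRing R K]
  (M : ℕ) [NeZero M]
  [Algebra R ↥(modularFunctionFieldFullC K M)]
  [IsScalarTower R K ↥(modularFunctionFieldFullC K M)]

/-- The coordinate package of `C2Uniform16` on the chart `{h₂}` of a good level. -/
theorem rb27_coord_level2 {π : R} (hπ : Irreducible π) (q : ℕ) (hq : q.Prime)
    (hqπ : ∃ u₀ : R, (q : R) = π * u₀) (hMu : IsUnit (M : R)) (h2 : 2 ∣ M) :
    c2u16_Coord (K := K) M π
      (pk15_chart R ({pk85_h2 K M h2} : Set ↥(modularFunctionFieldFullC K M))) := by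
  intro n₀ hn₀ hπn₀
  obtain ⟨x, -, hθ, -, hD⟩ := cg27_coord_level2 K M hπ q hq hqπ hMu h2 n₀ (hn := hn₀) hπn₀
  exact ⟨x, hθ, hD⟩

/-- The coordinate package of `C2Uniform16` on the chart `{h₂⁻¹}` of a good level. -/
theorem rb27_coord_level2_inv {π : R} (hπ : Irreducible π) (q : ℕ) (hq : q.Prime)
    (hqπ : ∃ u₀ : R, (q : R) = π * u₀) (hMu : IsUnit (M : R)) (h2 : 2 ∣ M) :
    c2u16_Coord (K := K) M π
      (pk15_chart R ({(pk85_h2 K M h2)⁻¹} : Set ↥(modularFunctionFieldFullC K M))) := by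
  intro n₀ hn₀ hπn₀
  obtain ⟨x, -, hθ, -, hD⟩ := cg27_coord_level2_inv K M hπ q hq hqπ hMu h2 n₀ (hn := hn₀) hπn₀
  exact ⟨x, hθ, hD⟩

/-- The coordinate package of `C2Uniform16` on the chart `{h₃}` of a good level. -/
theorem rb27_coord_level3 {π : R} (hπ : Irreducible π) (q : ℕ) (hq : q.Prime)
    (hqπ : ∃ u₀ : R, (q : R) = π * u₀) (hMu : IsUnit (M : R)) (h3 : 3 ∣ M) :
    c2u16_Coord (K := K) M π
      (pk15_chart R ({pk85_h3 K M h3} : Set ↥(modularFunctionFieldFullC K M))) := by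
  intro n₀ hn₀ hπn₀
  obtain ⟨x, -, hθ, -, hD⟩ := cg27_coord_level3 K M hπ q hq hqπ hMu h3 n₀ (hn := hn₀) hπn₀
  exact ⟨x, hθ, hD⟩

/-- The coordinate package of `C2Uniform16` on the chart `{h₃⁻¹}` of a good level. -/
theorem rb27_coord_level3_inv {π : R} (hπ : Irreducible π) (q : ℕ) (hq : q.Prime)
    (hqπ : ∃ u₀ : R, (q : R) = π * u₀) (hMu : IsUnit (M : R)) (h3 : 3 ∣ M) :
    c2u16_Coord (K := K) M π
      (pk15_chart R ({(pk85_h3 K M h3)⁻¹} : Set ↥(modularFunctionFieldFullC K M))) := by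
  intro n₀ hn₀ hπn₀
  obtain ⟨x, -, hθ, -, hD⟩ := cg27_coord_level3_inv K M hπ q hq hqπ hMu h3 n₀ (hn := hn₀) hπn₀
  exact ⟨x, hθ, hD⟩

end Coord

/-- `ν₂ = ν₃ = 0` at the level `M'` of a strongly rigid level `M' q`. -/
theorem rb27_nu (M' q r : ℕ) (hq : q.Prime) (hrig : s36c67_Rigid6 (M' * q) q r) :
    nuTwo M' = 0 ∧ nuThree M' = 0 := by
  obtain ⟨-, -, hr, hr12, hrq, hrN⟩ := hrig
  have hrM : r ∣ M' := by
    rcases (Nat.Prime.dvd_mul hr).mp hrN with h | h
    · exact h
    · exact absurd ((Nat.prime_dvd_prime_iff_eq hr hq).mp h) hrq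
  exact ro27_rigid_of_eleven hr hr12 hrM

/-- **Row 600 on the canonical frame, Hauptmodul of level 2** (`MidBind62`). -/
theorem rb27_Reg2 : s36i62j_Reg2 := by
  intro M' q r _ _ hq hM' hrig h2 R K _ _ _ _ _ _ _ _ _ _ hπ hunit
  haveI : Algebra.IsAlgebraic K Q̄ := fs85_isAlgebraic K
  letI a0 : Algebra R ↥(modularFunctionFieldFullC K M') :=
    ((algebraMap K ↥(modularFunctionFieldFullC K M')).comp (algebraMap R K)).toAlgebra
  haveI t0 : IsScalarTower R K ↥(modularFunctionFieldFullC K M') :=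
    IsScalarTower.of_algebraMap_eq (fun _ => rfl)
  letI a1 : Algebra R ↥(modularFunctionFieldFullC K (M' * q)) :=
    ((algebraMap K ↥(modularFunctionFieldFullC K (M' * q))).comp (algebraMap R K)).toAlgebra
  haveI t1 : IsScalarTower R K ↥(modularFunctionFieldFullC K (M' * q)) :=
    IsScalarTower.of_algebraMap_eq (fun _ => rfl)
  have hMu : IsUnit ((M' : ℕ) : R) :=
    hunit M' (Nat.Coprime.symm ((Nat.Prime.coprime_iff_not_dvd hq).mpr hM'))
  obtain ⟨hν2, hν3⟩ := rb27_nu M' q r hq hrig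
  have hqπ : ∃ u₀ : R, ((q : ℕ) : R) = ((q : ℕ) : R) * u₀ := ⟨1, (mul_one _).symm⟩
  exact ⟨c2u16_hreg_level2 (K := K) M' q hq hM' hπ (Associated.refl _) hunit h2 hν2 hν3
      (rb27_coord_level2 K M' hπ q hq hqπ hMu h2),
    c2u16_hreg_level2_inv (K := K) M' q hq hM' hπ (Associated.refl _) hunit h2 hν2 hν3
      (rb27_coord_level2_inv K M' hπ q hq hqπ hMu h2)⟩

/-- **Row 600 on the canonical frame, Hauptmodul of level 3** (`MidBind62`). -/
theorem rb27_Reg3 : s36i62j_Reg3 := by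
  intro M' q r _ _ hq hM' hrig hq2 h3 R K _ _ _ _ _ _ _ _ _ _ hπ hunit
  haveI : Algebra.IsAlgebraic K Q̄ := fs85_isAlgebraic K
  letI a0 : Algebra R ↥(modularFunctionFieldFullC K M') :=
    ((algebraMap K ↥(modularFunctionFieldFullC K M')).comp (algebraMap R K)).toAlgebra
  haveI t0 : IsScalarTower R K ↥(modularFunctionFieldFullC K M') :=
    IsScalarTower.of_algebraMap_eq (fun _ => rfl)
  letI a1 : Algebra R ↥(modularFunctionFieldFullC K (M' * q)) :=
    ((algebraMap K ↥(modularFunctionFieldFullC K (M' * q))).comp (algebraMap R K)).toAlgebra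
  haveI t1 : IsScalarTower R K ↥(modularFunctionFieldFullC K (M' * q)) :=
    IsScalarTower.of_algebraMap_eq (fun _ => rfl)
  have hMu : IsUnit ((M' : ℕ) : R) :=
    hunit M' (Nat.Coprime.symm ((Nat.Prime.coprime_iff_not_dvd hq).mpr hM'))
  obtain ⟨hν2, hν3⟩ := rb27_nu M' q r hq hrig
  have hqπ : ∃ u₀ : R, ((q : ℕ) : R) = ((q : ℕ) : R) * u₀ := ⟨1, (mul_one _).symm⟩
  exact ⟨c2u16_hreg_level3 (K := K) M' q hq hM' hπ (Associated.refl _) hunit h3 hν2 hν3
      (rb27_coord_level3 K M' hπ q hq hqπ hMu h3),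
    c2u16_hreg_level3_inv (K := K) M' q hq hM' hπ (Associated.refl _) hunit h3 hν2 hν3
      (rb27_coord_level3_inv K M' hπ q hq hqπ hMu h3)⟩

/-- **The weak middle-branch statement, Hauptmodul of level 2** (`HP1Bind62`), unconditional. -/
theorem rb27_Mid2 : s36i62h_Mid2 := s36i62j_Mid2 rb27_Reg2

/-- **The weak middle-branch statement, Hauptmodul of level 3** (`HP1Bind62`), unconditional. -/
theorem rb27_Mid3 : s36i62h_Mid3 := s36i62j_Mid3 rb27_Reg3

end Fermat.Agent.S36
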