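import Mathlib
import Fermat.Agent.S36.NodeData21
import Fermat.Agent.S36.TripleFrame71

/-!
# S36 lab, row 605 INV-core (helper57, integrator): bridge between the two shapes of (REG-q)

Row 599 delivers (REG-q) on a level-`M' q` chart `B'` in the `tl71_DivAt` shape
(`nf21c_Reg`, helper21: `nf21c_reg`, `nk21_reg`); the two-generator / triple-point binders
(`tf71_hD`, `tg71_hD_level2/3`, `tg71_Out`, helper71) consume the labelled regular nodes
`tf71_RegNodes` (`s * z * z' = π * s'`).

* `rb57_regNodes_of_reg` : `B' ⊆ V_0` and `nf21c_Reg B'` ⟹ `tf71_RegNodes B'`.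

All names are prefixed `rb57_`.
-/

set_option autoImplicit false
set_option linter.style.longLine false
set_option linter.unusedVariables false
set_option linter.unusedSectionVars false

open ModularCurve AlgebraicCurve

namespace Fermat.Agent.S36

open Fermat.Agent.S18 Fermat.Agent.S34 Fermat.Agent.S36.TripleLoc71

local notation "Q̄" => AlgebraicClosure ℚ

section RB57

variable {R K : Type} [CommRing R] [IsDomain R] [IsDiscreteValuationRing R] [Field K]
  [NumberField K] [Algebra K Q̄] [Algebra R K] [IsFractionRing R K]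
  (M' q : ℕ) [NeZero M'] [NeZero q] (hq : q.Prime) (hM' : ¬ q ∣ M')
  [Algebra R ↥(modularFunctionFieldFullC K (M' * q))]
  [IsScalarTower R K ↥(modularFunctionFieldFullC K (M' * q))] {π : R} (hπ : Irreducible π)

/-- **(REG-q) in the `tl71_DivAt` shape gives the labelled regular nodes**: from
`z * c = t * π` with `π⁻¹ z ∈ V_∞` and `z⁻¹ ∈ V_0` take `z' = c`, `s = 1`, `s' = t`. -/
theorem rb57_regNodes_of_reg (B' : Subalgebra R ↥(modularFunctionFieldFullC K (M' * q)))
    (hB0 : ∀ x ∈ B', x ∈ s34i47c_V0 (K := K) M' q hq hM' hπ)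
    (hπ0 : algebraMap R ↥(modularFunctionFieldFullC K (M' * q)) π ≠ 0)
    (hreg : nf21c_Reg (K := K) M' q hq hM' hπ B') :
    tf71_RegNodes (K := K) M' q hq hM' hπ B' := by
  intro m' hm' h1 h2
  obtain ⟨z, c, t, ht, hzc, hz1, -, hz0, -⟩ := hreg.1 m' hm' h1 h2
  have hzcF : (z : ↥(modularFunctionFieldFullC K (M' * q))) * (c : ↥(modularFunctionFieldFullC K (M' * q))) =
      (t : ↥(modularFunctionFieldFullC K (M' * q))) * algebraMap R ↥(modularFunctionFieldFullC K (M' * q)) π := by
    have h := congrArg (fun x : B' => (x : ↥(modularFunctionFieldFullC K (M' * q)))) hzc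
    simpa using h
  have ht0 : (t : ↥(modularFunctionFieldFullC K (M' * q))) ≠ 0 := by
    intro h0
    apply ht
    have : t = 0 := Subtype.ext h0
    rw [this]
    exact m'.zero_mem
  have hz0' : (z : ↥(modularFunctionFieldFullC K (M' * q))) ≠ 0 := by
    intro h0
    rw [h0, zero_mul] at hzcF
    exact mul_ne_zero ht0 hπ0 hzcF.symm
  refine ⟨z, c, 1, t, fun h => hm'.ne_top ((Ideal.eq_top_iff_one _).mpr h), ht, hz1, ?_, ?_⟩
  · have hc : (algebraMap R ↥(modularFunctionFieldFullC K (M' * q)) π)⁻¹ *
        (c : ↥(modularFunctionFieldFullC K (M' * q))) =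
        (t : ↥(modularFunctionFieldFullC K (M' * q))) *
          (z : ↥(modularFunctionFieldFullC K (M' * q)))⁻¹ := by
      have hcz : (c : ↥(modularFunctionFieldFullC K (M' * q))) =
          (t : ↥(modularFunctionFieldFullC K (M' * q))) *
            algebraMap R ↥(modularFunctionFieldFullC K (M' * q)) π *
            (z : ↥(modularFunctionFieldFullC K (M' * q)))⁻¹ := by
        rw [← hzcF]
        field_simp
      rw [hcz]
      field_simp
    show _ ∈ (s34i47c_V0 (K := K) M' q hq hM' hπ)
    rw [hc]
    exact (s34i47c_V0 (K := K) M' q hq hM' hπ).mul_mem _ _ (hB0 _ t.2) hz0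
  · rw [one_mul, hzc]
    exact mul_comm _ _

end RB57

end Fermat.Agent.S36
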