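import Mathlib
import Fermat.Agent.S36.C2Final11
import Fermat.Agent.S36.C2JUnit88
import Fermat.Agent.S36.MidBind62
import Fermat.Agent.S36.MidTwo55
import Fermat.Agent.S36.TopReg62

/-!
# S36 lab (helper73), rows 600/605: the LAST open statement `s36i62j_Reg2` and the frozen S36

* `reg73_Reg2 : s36i62j_Reg2` (MidBind62, helper62): on the canonical frame of level `M' q q`
  (`2 ∣ M'`, strongly rigid level), at every closed point of the two charts `{H}`, `{H⁻¹}`
  (`H = pk85_h2 K (M' * q * q) _`) on the middle branch only at which `j` is regular, the middle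
  branch is principal (`mc25_MidPrinAt`).  Proof: `c2f11_hreg_gen` (helper11, chart-generic
  `hreg`) with the chart facts of `fb85_frameV3_level2` (helper85), `uv17_chart_intClosed`, and
  the denominator `sc = H ^ 2` resp. `sc = H⁻¹` (`c2j88_not_mem2(_inv)`, `c2j88_h2_mem_Vinf`,
  helper88); `V₂ = v2g64_V2` (helper64).
* `reg73_result` : the conclusion of the frozen statement S36, with NO hypothesis:
  `s36i62m_top reg73_Reg2 mid2x55_Reg3` (helper62 `TopReg62`, helper55 `MidTwo55`).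

All names are prefixed `reg73_`.
-/

set_option autoImplicit false
set_option linter.unusedSectionVars false
set_option linter.unusedVariables false
set_option linter.style.haveILetI false
set_option linter.style.longLine false

open ModularCurve AlgebraicCurve CongruenceSubgroup Polynomial

namespace Fermat.Agent.S36

open Fermat.Agent.S34 Fermat.Agent.S18 Fermat.Agent.S24 Fermat.Agent.S35
  Fermat.Agent.S36.TripleLoc71

local notation "Q̄" => AlgebraicClosure ℚ

/-- **Row 600 on the canonical frame, Hauptmodul of level 2: PROVED** (`s36i62j_Reg2`). -/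
theorem reg73_Reg2 : s36i62j_Reg2 := by
  intro M' q r _ _ hq hM' hrig h2 R K _ _ _ _ _ _ _ _ _ _ hπ hunit
  haveI : Algebra.IsAlgebraic K Q̄ := fs85_isAlgebraic K
  letI a0 : Algebra R ↥(modularFunctionFieldFullC K M') :=
    ((algebraMap K ↥(modularFunctionFieldFullC K M')).comp (algebraMap R K)).toAlgebra
  haveI t0 : IsScalarTower R K ↥(modularFunctionFieldFullC K M') :=
    IsScalarTower.of_algebraMap_eq (fun _ => rfl)
  letI a1 : Algebra R ↥(modularFunctionFieldFullC K (M' * q)) :=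
    ((algebraMap K ↥(modularFunctionFieldFullC K (M' * q))).comp (algebraMap R K)).toAlgebra
  haveI t1 : IsScalarTower R K ↥(modularFunctionFieldFullC K (M' * q)) :=
    IsScalarTower.of_algebraMap_eq (fun _ => rfl)
  have hqR : ¬ IsUnit ((q : ℕ) : R) := hπ.not_isUnit
  have hMu : IsUnit ((M' : ℕ) : R) :=
    hunit M' (Nat.Coprime.symm ((Nat.Prime.coprime_iff_not_dvd hq).mpr hM'))
  have hq2 : q ≠ 2 := by
    intro h
    apply hM'
    rw [h]
    exact h2
  have h2u : IsUnit (2 : R) := by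
    have h := hunit 2 ((Nat.coprime_primes Nat.prime_two hq).mpr (Ne.symm hq2))
    have e2 : ((2 : ℕ) : R) = (2 : R) := by norm_num
    rw [← e2]
    exact h
  have h3M : q ≠ 3 → 3 ∣ M' := fun hq3 =>
    (Nat.Coprime.dvd_mul_right
      ((Nat.coprime_primes Nat.prime_three hq).mpr (Ne.symm hq3))).mp (hrig.2.1 hq3)
  have hV₂ := v2g64_V2_alpha (algebraMap K Q̄) M' q hq hM' hπ (Associated.refl _)
  have hπ₂ := v2g64_V2_pi (algebraMap K Q̄) M' q hq hM' hπ (Associated.refl _)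
  have hne := v2g64_V2_ne (algebraMap K Q̄) M' q hq hM' hπ (Associated.refl _)
  have hs := v2g64_V2_val (algebraMap K Q̄) M' q hq hM' hπ (Associated.refl _)
  obtain ⟨-, hC, -⟩ := fb85_frameV3_level2 (K := K) M' q hq hM' hπ hqR hMu h2
    (v2g64_V2 (algebraMap K Q̄) M' q hq hM' hπ (Associated.refl _)) hV₂ hπ₂ hs
  obtain ⟨htr, h12W, hsat1, hsat2, -⟩ := hC
  have hrel := pk85_h2_rel K (M' * q * q) (h2.trans ((dvd_mul_right M' q).trans (dvd_mul_right (M' * q) q)))
  obtain ⟨hv1, hv1'⟩ := c2j88_h2_mem_Vinf (R := R) (K := K) (M' * q * q) hπ (h2.trans ((dvd_mul_right M' q).trans (dvd_mul_right (M' * q) q)))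
  have hsub1 : ({pk85_h2 K (M' * q * q) (h2.trans ((dvd_mul_right M' q).trans (dvd_mul_right (M' * q) q)))} : Set ↥(modularFunctionFieldFullC K (M' * q * q))) ⊆ {pk85_h2 K (M' * q * q) (h2.trans ((dvd_mul_right M' q).trans (dvd_mul_right (M' * q) q))), (pk85_h2 K (M' * q * q) (h2.trans ((dvd_mul_right M' q).trans (dvd_mul_right (M' * q) q))))⁻¹} := by
    intro x hx
    rw [Set.mem_singleton_iff.mp hx]
    exact Set.mem_insert _ _
  have hsub2 : ({(pk85_h2 K (M' * q * q) (h2.trans ((dvd_mul_right M' q).trans (dvd_mul_right (M' * q) q))))⁻¹} : Set ↥(modularFunctionFieldFullC K (M' * q * q))) ⊆ {pk85_h2 K (M' * q * q) (h2.trans ((dvd_mul_right M' q).trans (dvd_mul_right (M' * q) q))), (pk85_h2 K (M' * q * q) (h2.trans ((dvd_mul_right M' q).trans (dvd_mul_right (M' * q) q))))⁻¹} := by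
    intro x hx
    rw [Set.mem_singleton_iff.mp hx]
    exact Set.mem_insert_of_mem _ rfl
  constructor
  · intro n hn hπn hmid h1 h3 hreg
    haveI hnp : n.IsPrime := hn.isPrime
    obtain ⟨s', b', hs', hb'⟩ := hreg
    have hHmem : pk85_h2 K (M' * q * q) (h2.trans ((dvd_mul_right M' q).trans (dvd_mul_right (M' * q) q))) ∈ (pk15_chart R ({pk85_h2 K (M' * q * q) (h2.trans ((dvd_mul_right M' q).trans (dvd_mul_right (M' * q) q)))} : Set ↥(modularFunctionFieldFullC K (M' * q * q)))) := pk15_subset_chart _ (Set.mem_singleton _)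
    have ht : (⟨_, hHmem⟩ : ↥(pk15_chart R ({pk85_h2 K (M' * q * q) (h2.trans ((dvd_mul_right M' q).trans (dvd_mul_right (M' * q) q)))} : Set ↥(modularFunctionFieldFullC K (M' * q * q))))) ∉ n :=
      c2j88_not_mem2 _ n (rm90_j K (M' * q * q)) ⟨_, hHmem⟩ hrel h2u s' b' hs' hb'
    refine c2f11_hreg_gen (R := R) (K := K) M' q hq hM' hunit (fun _ => h2) h3M hπ
      (v2g64_V2 (algebraMap K Q̄) M' q hq hM' hπ (Associated.refl _)) (nsb86_V3 (K := K) M' q hq hM' hπ) hV₂ hπ₂ hne (v2g64_s K M' q) hs (pk15_chart R ({pk85_h2 K (M' * q * q) (h2.trans ((dvd_mul_right M' q).trans (dvd_mul_right (M' * q) q)))} : Set ↥(modularFunctionFieldFullC K (M' * q * q))))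
      (fun z hz => uv17_chart_intClosed _ z hz)
      (fun x hx => (Subring.mem_inf.mp (Subring.mem_inf.mp (h12W x (pk15_chart_mono hsub1 hx))).1).1)
      (fun x hx => (Subring.mem_inf.mp (Subring.mem_inf.mp (h12W x (pk15_chart_mono hsub1 hx))).1).2)
      (fun x hx => (Subring.mem_inf.mp (h12W x (pk15_chart_mono hsub1 hx))).2)
      (fun x hx a b c => hsat1 x hx (Subring.mem_inf.mpr ⟨Subring.mem_inf.mpr ⟨a, b⟩, c⟩))
      n hmid hπn h1 h3 ⟨s', b', hs', hb'⟩ ((⟨_, hHmem⟩ : ↥(pk15_chart R ({pk85_h2 K (M' * q * q) (h2.trans ((dvd_mul_right M' q).trans (dvd_mul_right (M' * q) q)))} : Set ↥(modularFunctionFieldFullC K (M' * q * q))))) ^ 2)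
      (fun h => ht (hnp.mem_of_pow_mem _ h)) ?_ ?_
    · show (pk85_h2 K (M' * q * q) (h2.trans ((dvd_mul_right M' q).trans (dvd_mul_right (M' * q) q)))) ^ 2 * rm90_j K (M' * q * q) ∈ (pk15_chart R ({pk85_h2 K (M' * q * q) (h2.trans ((dvd_mul_right M' q).trans (dvd_mul_right (M' * q) q)))} : Set ↥(modularFunctionFieldFullC K (M' * q * q))))
      have e : (pk85_h2 K (M' * q * q) (h2.trans ((dvd_mul_right M' q).trans (dvd_mul_right (M' * q) q)))) ^ 2 * rm90_j K (M' * q * q) = ((pk85_h2 K (M' * q * q) (h2.trans ((dvd_mul_right M' q).trans (dvd_mul_right (M' * q) q)))) + 256) ^ 3 := (mul_comm _ _).trans hrel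
      rw [e]
      exact pow_mem (add_mem hHmem (ofNat_mem _ 256)) 3
    · show ((pk85_h2 K (M' * q * q) (h2.trans ((dvd_mul_right M' q).trans (dvd_mul_right (M' * q) q)))) ^ 2)⁻¹ ∈ (cm85_Vinf (K := K) (M' * q * q) hπ)
      rw [← inv_pow]
      exact pow_mem hv1' 2
  · intro n hn hπn hmid h1 h3 hreg
    haveI hnp : n.IsPrime := hn.isPrime
    obtain ⟨s', b', hs', hb'⟩ := hreg
    have hh0 : pk85_h2 K (M' * q * q) (h2.trans ((dvd_mul_right M' q).trans (dvd_mul_right (M' * q) q))) ≠ 0 :=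
      fun h0 => pk85_h2_transcendental K (M' * q * q) _ (by rw [h0]; exact isAlgebraic_zero)
    have hrel' : rm90_j K (M' * q * q) * (pk85_h2 K (M' * q * q) (h2.trans ((dvd_mul_right M' q).trans (dvd_mul_right (M' * q) q))))⁻¹ = (1 + 256 * (pk85_h2 K (M' * q * q) (h2.trans ((dvd_mul_right M' q).trans (dvd_mul_right (M' * q) q))))⁻¹) ^ 3 := by
      have hj : rm90_j K (M' * q * q) = (pk85_h2 K (M' * q * q) (h2.trans ((dvd_mul_right M' q).trans (dvd_mul_right (M' * q) q))) + 256) ^ 3 / (pk85_h2 K (M' * q * q) (h2.trans ((dvd_mul_right M' q).trans (dvd_mul_right (M' * q) q)))) ^ 2 := by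
        rw [eq_div_iff (pow_ne_zero 2 hh0)]
        exact hrel
      rw [hj]
      field_simp
    have hHmem : (pk85_h2 K (M' * q * q) (h2.trans ((dvd_mul_right M' q).trans (dvd_mul_right (M' * q) q))))⁻¹ ∈ (pk15_chart R ({(pk85_h2 K (M' * q * q) (h2.trans ((dvd_mul_right M' q).trans (dvd_mul_right (M' * q) q))))⁻¹} : Set ↥(modularFunctionFieldFullC K (M' * q * q)))) := pk15_subset_chart _ (Set.mem_singleton _)
    have ht : (⟨_, hHmem⟩ : ↥(pk15_chart R ({(pk85_h2 K (M' * q * q) (h2.trans ((dvd_mul_right M' q).trans (dvd_mul_right (M' * q) q))))⁻¹} : Set ↥(modularFunctionFieldFullC K (M' * q * q))))) ∉ n :=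
      c2j88_not_mem2_inv _ n (rm90_j K (M' * q * q)) ⟨_, hHmem⟩ hrel' s' b' hs' hb'
    refine c2f11_hreg_gen (R := R) (K := K) M' q hq hM' hunit (fun _ => h2) h3M hπ
      (v2g64_V2 (algebraMap K Q̄) M' q hq hM' hπ (Associated.refl _)) (nsb86_V3 (K := K) M' q hq hM' hπ) hV₂ hπ₂ hne (v2g64_s K M' q) hs (pk15_chart R ({(pk85_h2 K (M' * q * q) (h2.trans ((dvd_mul_right M' q).trans (dvd_mul_right (M' * q) q))))⁻¹} : Set ↥(modularFunctionFieldFullC K (M' * q * q))))
      (fun z hz => uv17_chart_intClosed _ z hz)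
      (fun x hx => (Subring.mem_inf.mp (Subring.mem_inf.mp (h12W x (pk15_chart_mono hsub2 hx))).1).1)
      (fun x hx => (Subring.mem_inf.mp (Subring.mem_inf.mp (h12W x (pk15_chart_mono hsub2 hx))).1).2)
      (fun x hx => (Subring.mem_inf.mp (h12W x (pk15_chart_mono hsub2 hx))).2)
      (fun x hx a b c => hsat2 x hx (Subring.mem_inf.mpr ⟨Subring.mem_inf.mpr ⟨a, b⟩, c⟩))
      n hmid hπn h1 h3 ⟨s', b', hs', hb'⟩ (⟨_, hHmem⟩ : ↥(pk15_chart R ({(pk85_h2 K (M' * q * q) (h2.trans ((dvd_mul_right M' q).trans (dvd_mul_right (M' * q) q))))⁻¹} : Set ↥(modularFunctionFieldFullC K (M' * q * q))))) ht ?_ ?_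
    · show (pk85_h2 K (M' * q * q) (h2.trans ((dvd_mul_right M' q).trans (dvd_mul_right (M' * q) q))))⁻¹ * rm90_j K (M' * q * q) ∈ (pk15_chart R ({(pk85_h2 K (M' * q * q) (h2.trans ((dvd_mul_right M' q).trans (dvd_mul_right (M' * q) q))))⁻¹} : Set ↥(modularFunctionFieldFullC K (M' * q * q))))
      have e : (pk85_h2 K (M' * q * q) (h2.trans ((dvd_mul_right M' q).trans (dvd_mul_right (M' * q) q))))⁻¹ * rm90_j K (M' * q * q) = (1 + 256 * (pk85_h2 K (M' * q * q) (h2.trans ((dvd_mul_right M' q).trans (dvd_mul_right (M' * q) q))))⁻¹) ^ 3 := (mul_comm _ _).trans hrel'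
      rw [e]
      exact pow_mem (add_mem (one_mem _) (mul_mem (ofNat_mem _ 256) hHmem)) 3
    · show ((pk85_h2 K (M' * q * q) (h2.trans ((dvd_mul_right M' q).trans (dvd_mul_right (M' * q) q))))⁻¹)⁻¹ ∈ (cm85_Vinf (K := K) (M' * q * q) hπ)
      rw [inv_inv]
      exact hv1

/-- **The conclusion of the frozen statement S36, with no hypothesis**
(`s36i62m_top reg73_Reg2 mid2x55_Reg3`). -/
theorem reg73_result
    {M : ℕ} [NeZero M] {g : CuspForm (CongruenceSubgroup.Gamma0 M) 2} (hg : g.IsNewform)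
    (lam : ℕ) [Fact lam.Prime]
    (S : Finset ℕ)
    (O' : Type) [CommRing O'] [IsDomain O'] [IsDiscreteValuationRing O']
    [IsAdicComplete (IsLocalRing.maximalIdeal O') O'] [Finite (IsLocalRing.ResidueField O')]
    [CharZero O'] (hlamO' : (lam : O') ∈ IsLocalRing.maximalIdeal O')
    (chig : CuspForm.heckeAlgebra M 2 (↑S : Set ℕ) →+* ℂ)
    (hchig : ∀ (ℓ : ℕ) (hℓ : ℓ.Prime) (hℓM : ¬ ℓ ∣ M) (hℓS : ℓ ∉ (↑S : Set ℕ)),
      chig (CuspForm.heckeAlgebra.T hℓ hℓM hℓS) = ModularFormClass.qCoeff g ℓ)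
    (iota : chig.range →+* O')
    (hlamS : lam ∈ S) (hMS : ∀ q : ℕ, q.Prime → q ∣ M → q ∈ S) :
    ∃ (O'' : Type) (_ : CommRing O'') (_ : IsDomain O'') (_ : IsDiscreteValuationRing O'')
      (_ : IsAdicComplete (IsLocalRing.maximalIdeal O'') O'') (_ : Finite (IsLocalRing.ResidueField O''))
      (_ : CharZero O'') (_ : Algebra O' O'') (_ : Module.Finite O' O'') (_ : IsLocalHom (algebraMap O' O'')),
      Function.Injective (algebraMap O' O'') ∧
      ∃ ρ : GaloisRepAdic O'',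
        (∀ (ℓ : ℕ) (hℓ : ℓ.Prime) (hℓM : ¬ ℓ ∣ M) (hℓS : ℓ ∉ (↑S : Set ℕ)),
          ∀ A : ValuationSubring (AlgebraicClosure ℚ), A.LiesOverPrime ℓ →
            ∀ σ : AlgebraicClosure ℚ ≃ₐ[ℚ] AlgebraicClosure ℚ, A.IsFrobeniusAt σ ℓ →
              LinearMap.charpoly (ρ.ρ σ) =
                X ^ 2 - C (algebraMap O' O'' ((iota.comp chig.rangeRestrict) (CuspForm.heckeAlgebra.T hℓ hℓM hℓS))) * X
                  + C ((ℓ : O''))) ∧
        (∀ q : ℕ, q.Prime → q ≠ lam → M.factorization q = 2 → ¬ ρ.IsUnipotentOnInertiaAt q) :=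
  s36i62m_top reg73_Reg2 mid2x55_Reg3 hg lam S O' hlamO' chig hchig iota hlamS hMS

end Fermat.Agent.S36
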