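import Fermat.Agent.S36.RegNodeInst56
import Fermat.Agent.S36.NodeData21

/-!
# S36 lab, row 599 C-REGq (helper56): (REG-q) on the charts of an admissible Hauptmodul

Canonical level-`q` frame, unramified base `(q : R) = π * ε`, `h` an admissible Hauptmodul
(`s34i47c_IsHaupt K (M' * q) q h`), charts `pk15_chart R {h}` and `pk15_chart R {h⁻¹}`.

* `rn56_Rig M' q hπ B n` : the rigidity input at the point `n` of the chart `B`, in the chart
  shape `rn56_Pow` of `RegNode56` along the `∞`-branch: `j` is a unit times a cube,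
  `j - 1728` a unit times a square, and for `q = 2` `j` is a unit times a fourth power.
* `rn56_reg_haupt` : `rn56_Rig` at every point of both branches of both charts where `j` is
  regular ⟹ `nf21c_Reg` for both charts (literally `hr₁`, `hr₂` of `tf71b_twoGen`).
  All frame hypotheses of `rn56_reg_canon` are discharged (`nf79c_chart_facts`,
  `tvc73_pkg_frameTransv`, `nf21c_hj`, `nk21_hRed`, `uv17_chart_intClosed`).

All names are prefixed `rn56_`.
-/

set_option autoImplicit false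
set_option linter.unusedSectionVars false
set_option linter.style.haveILetI false

open ModularCurve AlgebraicCurve

namespace Fermat.Agent.S36

open Fermat.Agent.S18 Fermat.Agent.S24 Fermat.Agent.S34 Fermat.Agent.S35
open Fermat.Agent.S36.TripleLoc71

local notation "Q̄" => AlgebraicClosure ℚ

noncomputable section

section rn56h

variable {R K : Type} [CommRing R] [IsDomain R] [IsDiscreteValuationRing R] [Field K]
  [NumberField K] [Algebra K Q̄] [Algebra R K] [IsFractionRing R K]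
  (M' q : ℕ) [NeZero M'] [NeZero q] (hq : q.Prime) (hM' : ¬ q ∣ M')
  [Algebra R ↥(modularFunctionFieldFullC K (M' * q))]
  [IsScalarTower R K ↥(modularFunctionFieldFullC K (M' * q))] {π : R} (hπ : Irreducible π)

/-- **The rigidity input** at the point `n` of the chart `B` (chart shape). -/
def rn56_Rig (B : Subalgebra R ↥(modularFunctionFieldFullC K (M' * q))) (n : Ideal B) : Prop :=
  rn56_Pow π B (cm85_Vinf (K := K) (M' * q) hπ).toSubring n (rm90_j K (M' * q)) 3 ∧
  rn56_Pow π B (cm85_Vinf (K := K) (M' * q) hπ).toSubring n (rm90_j K (M' * q) - 1728) 2 ∧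
  (q = 2 → rn56_Pow π B (cm85_Vinf (K := K) (M' * q) hπ).toSubring n (rm90_j K (M' * q)) 4)

include hq hM' in
/-- (REG-q) on one chart from its frame facts and the rigidity input. -/
theorem rn56_reg_chart (ε : R) (hε : IsUnit ε) (hqπ : (q : R) = π * ε)
    (s : Set ↥(modularFunctionFieldFullC K (M' * q)))
    (hBW : ∀ x ∈ pk15_chart R s, x ∈ s34i47c_W (K := K) M' q hq hM' hπ)
    (hsatW : ∀ x ∈ pk15_chart R s,
      (algebraMap R ↥(modularFunctionFieldFullC K (M' * q)) π)⁻¹ * x ∈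
        s34i47c_W (K := K) M' q hq hM' hπ →
      (algebraMap R ↥(modularFunctionFieldFullC K (M' * q)) π)⁻¹ * x ∈ pk15_chart R s)
    (hS : sf79_Smooth π (pk15_chart R s) (cm85_Vinf (K := K) (M' * q) hπ).toSubring)
    (hT : sf79_Transv π (pk15_chart R s) (cm85_Vinf (K := K) (M' * q) hπ).toSubring
      (s34i47c_V0 (K := K) M' q hq hM' hπ).toSubring)
    (hRed : rh19_Red π (pk15_chart R s) (cm85_Vinf (K := K) (M' * q) hπ).toSubring
      (ntf35_red R (M' * q)))
    (hJ : ∀ n : Ideal ↥(pk15_chart R s), n.IsMaximal →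
      sf79_OnBr π (pk15_chart R s) (cm85_Vinf (K := K) (M' * q) hπ).toSubring n →
      sf79_OnBr π (pk15_chart R s) (s34i47c_V0 (K := K) M' q hq hM' hπ).toSubring n →
      ∃ t : ↥(pk15_chart R s), t ∉ n ∧
        (t : ↥(modularFunctionFieldFullC K (M' * q))) * rm90_j K (M' * q) ∈ pk15_chart R s)
    (hrig : ∀ n : Ideal ↥(pk15_chart R s), n.IsMaximal →
      sf79_OnBr π (pk15_chart R s) (cm85_Vinf (K := K) (M' * q) hπ).toSubring n →
      sf79_OnBr π (pk15_chart R s) (s34i47c_V0 (K := K) M' q hq hM' hπ).toSubring n →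
      (∃ t : ↥(pk15_chart R s), t ∉ n ∧
        (t : ↥(modularFunctionFieldFullC K (M' * q))) * rm90_j K (M' * q) ∈ pk15_chart R s) →
      rn56_Rig M' q hπ (pk15_chart R s) n) :
    nf21c_Reg M' q hq hM' hπ (pk15_chart R s) := by
  have hB₁ : ∀ x ∈ pk15_chart R s, x ∈ (cm85_Vinf (K := K) (M' * q) hπ).toSubring :=
    fun x hx => ((s34i47c_mem_W M' q hq hM' hπ x).mp (hBW x hx)).1
  have hB₂ : ∀ x ∈ pk15_chart R s, x ∈ (s34i47c_V0 (K := K) M' q hq hM' hπ).toSubring :=
    fun x hx => ((s34i47c_mem_W M' q hq hM' hπ x).mp (hBW x hx)).2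
  exact rn56_reg_canon M' q hq hM' hπ ε hε hqπ (pk15_chart R s) (uv17_chart_intClosed s) hB₁ hB₂
    (fun x hx h1 h2 => hsatW x hx ((s34i47c_mem_W M' q hq hM' hπ _).mpr ⟨h1, h2⟩))
    hS hT hRed hJ
    (fun n hn h1 h2 _ => (hrig n hn h1 h2 (hJ n hn h1 h2)).1)
    (fun n hn h1 h2 _ => (hrig n hn h1 h2 (hJ n hn h1 h2)).2.1)
    (fun hq2 n hn h1 h2 _ => (hrig n hn h1 h2 (hJ n hn h1 h2)).2.2 hq2)

include hq hM' in
/-- **(REG-q) for both charts of an admissible Hauptmodul from the rigidity input `rn56_Rig`**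
(`nf21c_Reg` = the hypotheses `hr₁`, `hr₂` of `tf71b_twoGen`). -/
theorem rn56_reg_haupt (hunit : ∀ n : ℕ, Nat.Coprime n q → IsUnit (n : R))
    (hqR : ¬ IsUnit (q : R)) (ε : R) (hε : IsUnit ε) (hqπ : (q : R) = π * ε)
    (h : ↥(modularFunctionFieldFullC K (M' * q))) (hh : s34i47c_IsHaupt K (M' * q) q h)
    (hrig₁ : ∀ n : Ideal ↥(pk15_chart R ({h} : Set ↥(modularFunctionFieldFullC K (M' * q)))),
      n.IsMaximal →
      sf79_OnBr π (pk15_chart R ({h} : Set ↥(modularFunctionFieldFullC K (M' * q))))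
        (cm85_Vinf (K := K) (M' * q) hπ).toSubring n →
      sf79_OnBr π (pk15_chart R ({h} : Set ↥(modularFunctionFieldFullC K (M' * q))))
        (s34i47c_V0 (K := K) M' q hq hM' hπ).toSubring n →
      (∃ t : ↥(pk15_chart R ({h} : Set ↥(modularFunctionFieldFullC K (M' * q)))), t ∉ n ∧
        (t : ↥(modularFunctionFieldFullC K (M' * q))) * rm90_j K (M' * q) ∈
          pk15_chart R ({h} : Set ↥(modularFunctionFieldFullC K (M' * q)))) →
      rn56_Rig M' q hπ (pk15_chart R ({h} : Set ↥(modularFunctionFieldFullC K (M' * q)))) n)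
    (hrig₂ : ∀ n : Ideal ↥(pk15_chart R ({h⁻¹} : Set ↥(modularFunctionFieldFullC K (M' * q)))),
      n.IsMaximal →
      sf79_OnBr π (pk15_chart R ({h⁻¹} : Set ↥(modularFunctionFieldFullC K (M' * q))))
        (cm85_Vinf (K := K) (M' * q) hπ).toSubring n →
      sf79_OnBr π (pk15_chart R ({h⁻¹} : Set ↥(modularFunctionFieldFullC K (M' * q))))
        (s34i47c_V0 (K := K) M' q hq hM' hπ).toSubring n →
      (∃ t : ↥(pk15_chart R ({h⁻¹} : Set ↥(modularFunctionFieldFullC K (M' * q)))), t ∉ n ∧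
        (t : ↥(modularFunctionFieldFullC K (M' * q))) * rm90_j K (M' * q) ∈
          pk15_chart R ({h⁻¹} : Set ↥(modularFunctionFieldFullC K (M' * q)))) →
      rn56_Rig M' q hπ (pk15_chart R ({h⁻¹} : Set ↥(modularFunctionFieldFullC K (M' * q)))) n) :
    nf21c_Reg M' q hq hM' hπ
        (pk15_chart R ({h} : Set ↥(modularFunctionFieldFullC K (M' * q)))) ∧
      nf21c_Reg M' q hq hM' hπ
        (pk15_chart R ({h⁻¹} : Set ↥(modularFunctionFieldFullC K (M' * q)))) := by
  obtain ⟨⟨hBW1, hsat1, -, -, hSm1⟩, ⟨hBW2, hsat2, -, -, hSm2⟩⟩ :=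
    nf79c_chart_facts M' q hq hM' hπ hunit hqR h hh
  obtain ⟨hTr1, hTr2⟩ := tvc73_pkg_frameTransv M' q hq hM' R K π hπ hunit hqR h hh
  obtain ⟨hj1, hj2⟩ := nf21c_hj M' q hq hM' hπ hunit hqR h hh
  obtain ⟨hRed1, hRed2⟩ := nk21_hRed M' q hq hM' hπ hunit hqR h hh
  refine ⟨rn56_reg_chart M' q hq hM' hπ ε hε hqπ _ hBW1 hsat1 hSm1 hTr1 hRed1 ?_ hrig₁,
    rn56_reg_chart M' q hq hM' hπ ε hε hqπ _ hBW2 hsat2 hSm2 hTr2 hRed2 ?_ hrig₂⟩
  · intro n hn h1 h2
    obtain ⟨a, b, ha, hab⟩ := hj1 n hn.isPrime h1 h2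
    exact ⟨a, ha, by rw [hab]; exact b.2⟩
  · intro n hn h1 h2
    obtain ⟨a, b, ha, hab⟩ := hj2 n hn.isPrime h1 h2
    exact ⟨a, ha, by rw [hab]; exact b.2⟩

end rn56h

end

end Fermat.Agent.S36
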