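import Fermat.Agent.S36.RegNodeChart56
import Fermat.Agent.S36.RigidLevelQ43

/-!
# S36 lab, row 599 C-REGq (helper56): (REG-q) at a rigid level, unconditionally

* `rn56_pow_of_root` : `f = ε c^m` with `ε`, `ε⁻¹`, `c` in the local ring `B_n` (the shape of
  `rt79_RootAt` / `rc43_RootAt`) gives `rn56_Pow π B V n f m`.
* `rn56_pow_four_h`, `rn56_pow_four_k` : for `(2 : R) = π ε`, from the level-3 Hauptmodul
  relation `J h^3 = (h + 27)(h + 243)^3`: `J` is a unit times a fourth power modulo `π` at every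
  point `n ∋ π` where `J` is regular, on the chart of `h` and on the chart of `h⁻¹`.
* `rn56_reg_final` : on the canonical level-`M' q` frame with `nuThree M' = 0`, `nuTwo M' = 0`
  (rigid level), unramified base, for both charts of an admissible Hauptmodul:
  `nf21c_Reg` (= `hr₁`, `hr₂` of `tf71b_twoGen`).  No hypothesis left.

All names are prefixed `rn56_`.
-/

set_option autoImplicit false
set_option linter.unusedSectionVars false
set_option linter.style.haveILetI false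
set_option linter.unnecessarySimpa false
set_option linter.unusedVariables false

open ModularCurve AlgebraicCurve

namespace Fermat.Agent.S36

open Fermat.Agent.S18 Fermat.Agent.S24 Fermat.Agent.S34 Fermat.Agent.S35
open Fermat.Agent.S36.TripleLoc71

local notation "Q̄" => AlgebraicClosure ℚ

noncomputable section

section rn56abs

universe u

variable {R : Type*} [CommRing R] [IsLocalRing R] {F : Type u} [Field F] [Algebra R F]

/-- From a root in the local ring `B_n` to `rn56_Pow`. -/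
theorem rn56_pow_of_root (π : R) (B : Subalgebra R F) (V : Subring F) (n : Ideal B)
    [hn : n.IsPrime] (f : F) (m : ℕ) (hm : m ≠ 0)
    (h : ∃ c ε : F, c ≠ 0 ∧ f = ε * c ^ m ∧ (∃ s : B, s ∉ n ∧ (s : F) * ε ∈ B) ∧
      (∃ s : B, s ∉ n ∧ (s : F) * ε⁻¹ ∈ B) ∧ (∃ s : B, s ∉ n ∧ (s : F) * c ∈ B)) :
    rn56_Pow π B V n f m := by
  obtain ⟨c, ε, -, hf, ⟨s1, hs1, h1⟩, ⟨s2, hs2, h2⟩, ⟨s3, hs3, h3⟩⟩ := h
  have h1n : (1 : B) ∉ n := (Ideal.ne_top_iff_one n).mp hn.ne_top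
  by_cases hε : ε = 0
  · refine rn56_pow_of_eq π B V n f m 1 1 0 h1n h1n ?_
    rw [hf, hε]
    show ((1 : B) : F) * (0 * c ^ m) = ((1 : B) : F) * ((0 : B) : F) ^ m
    rw [zero_mul, mul_zero, ZeroMemClass.coe_zero, zero_pow hm, mul_zero]
  · have he1 : (⟨_, h1⟩ : B) ∉ n := by
      intro hmem
      have e : (⟨_, h1⟩ : B) * ⟨_, h2⟩ = s1 * s2 := by
        apply Subtype.ext
        show (s1 : F) * ε * ((s2 : F) * ε⁻¹) = (s1 : F) * (s2 : F)
        field_simp
      have h4 : s1 * s2 ∈ n := e ▸ n.mul_mem_right _ hmem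
      exact (hn.mem_or_mem h4).elim hs1 hs2
    refine rn56_pow_of_eq π B V n f m (s1 * s3 ^ m) ⟨_, h1⟩ ⟨_, h3⟩ ?_ he1 ?_
    · intro hmem
      rcases hn.mem_or_mem hmem with h | h
      · exact hs1 h
      · exact hs3 (hn.mem_of_pow_mem m h)
    · show ((s1 : F) * (s3 : F) ^ m) * f = (s1 : F) * ε * ((s3 : F) * c) ^ m
      rw [hf]
      ring

/-- Numerals of a subalgebra. -/
theorem rn56_ofNat_mem (B : Subalgebra R F) (k : ℕ) : (k : F) ∈ B := natCast_mem B k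

/-- **`q = 2`, chart of `h`**: `J` is a unit times a fourth power modulo `π`. -/
theorem rn56_pow_four_h (π ε : R) (h2π : (2 : R) = π * ε) (hp0 : algebraMap R F π ≠ 0)
    (B : Subalgebra R F) (V : Subring F) (hBV : ∀ x ∈ B, x ∈ V) (n : Ideal B) [hn : n.IsPrime]
    (hπn : algebraMap R B π ∈ n) (J h : F) (hh : h ∈ B)
    (hrel : J * h ^ 3 = (h + 27) * (h + 243) ^ 3)
    (hJ : ∃ t : B, t ∉ n ∧ (t : F) * J ∈ B) :
    rn56_Pow π B V n J 4 := by
  obtain ⟨sJ, hsJ, hbJ⟩ := hJ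
  have h1n : (1 : B) ∉ n := (Ideal.ne_top_iff_one n).mp hn.ne_top
  have hnum : ∀ k : ℕ, (k : F) ∈ B := fun k => natCast_mem B k
  have h2F : (2 : F) = algebraMap R F π * algebraMap R F ε := by
    rw [← map_mul, ← h2π, map_ofNat]
  -- `2 y ∈ n` for `y ∈ B`
  have h2n : ∀ (y : F) (hy : y ∈ B), (⟨2 * y, B.mul_mem (by simpa using hnum 2) hy⟩ : B) ∈ n := by
    intro y hy
    have e : (⟨2 * y, B.mul_mem (by simpa using hnum 2) hy⟩ : B) =
        algebraMap R B π * (algebraMap R B ε * ⟨y, hy⟩) := by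
      apply Subtype.ext
      show 2 * y = algebraMap R F π * (algebraMap R F ε * y)
      rw [h2F]
      ring
    rw [e]
    exact n.mul_mem_right _ hπn
  have h27 : (27 : F) ∈ B := by simpa using hnum 27
  have h243 : (243 : F) ∈ B := by simpa using hnum 243
  have h216 : (216 : F) ∈ B := by simpa using hnum 216
  have h108 : (108 : F) ∈ B := by simpa using hnum 108
  have h3' : (3 : F) ∈ B := by simpa using hnum 3
  have h13 : (13 : F) ∈ B := by simpa using hnum 13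
  have h121 : (121 : F) ∈ B := by simpa using hnum 121
  have hx : h + 27 ∈ B := B.add_mem hh h27
  have hx' : h + 243 ∈ B := B.add_mem hh h243
  -- `h ∉ n`
  have hhn : (⟨h, hh⟩ : B) ∉ n := by
    intro hmem
    have e : (⟨_, hbJ⟩ : B) * (⟨h, hh⟩ : B) ^ 3 =
        sJ * ((⟨_, hx⟩ : B) * (⟨_, hx'⟩ : B) ^ 3) := by
      apply Subtype.ext
      show (sJ : F) * J * h ^ 3 = (sJ : F) * ((h + 27) * (h + 243) ^ 3)
      rw [mul_assoc, hrel]
    have h4 : sJ * ((⟨_, hx⟩ : B) * (⟨_, hx'⟩ : B) ^ 3) ∈ n :=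
      e ▸ n.mul_mem_left _ (n.pow_mem_of_mem hmem 3 (by norm_num))
    have h5 : (⟨_, hx⟩ : B) * (⟨_, hx'⟩ : B) ^ 3 ∈ n := (hn.mem_or_mem h4).resolve_left hsJ
    rcases hn.mem_or_mem h5 with h6 | h6
    · apply h1n
      have e1 : (1 : B) = ⟨_, hx⟩ - ⟨h, hh⟩ - ⟨2 * 13, B.mul_mem (by simpa using hnum 2) h13⟩ := by
        apply Subtype.ext
        show (1 : F) = h + 27 - h - 2 * 13
        ring
      rw [e1]
      exact n.sub_mem (n.sub_mem h6 hmem) (h2n 13 h13)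
    · have h7 := hn.mem_of_pow_mem 3 h6
      apply h1n
      have e1 : (1 : B) = ⟨_, hx'⟩ - ⟨h, hh⟩ -
          ⟨2 * 121, B.mul_mem (by simpa using hnum 2) h121⟩ := by
        apply Subtype.ext
        show (1 : F) = h + 243 - h - 2 * 121
        ring
      rw [e1]
      exact n.sub_mem (n.sub_mem h7 hmem) (h2n 121 h121)
  -- the congruence
  have hy : 108 * (h + 27) * (3 * (h + 27) ^ 2 + 3 * (h + 27) * 216 + 216 ^ 2) ∈ B :=
    B.mul_mem (B.mul_mem h108 hx) (B.add_mem (B.add_mem (B.mul_mem h3' (B.pow_mem hx 2))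
      (B.mul_mem (B.mul_mem h3' hx) h216)) (B.pow_mem h216 2))
  refine ⟨⟨h, hh⟩ ^ 3, 1, ⟨_, hx⟩, fun hmem => hhn (hn.mem_of_pow_mem 3 hmem), h1n, ?_⟩
  have e : (algebraMap R F π)⁻¹ * ((((⟨h, hh⟩ : B) ^ 3 : B) : F) * J -
      ((1 : B) : F) * ((⟨_, hx⟩ : B) : F) ^ 4) =
      algebraMap R F ε * (108 * (h + 27) * (3 * (h + 27) ^ 2 + 3 * (h + 27) * 216 + 216 ^ 2)) := by
    have e0 : (((⟨h, hh⟩ : B) ^ 3 : B) : F) * J - ((1 : B) : F) * ((⟨_, hx⟩ : B) : F) ^ 4 =
        J * h ^ 3 - (h + 27) ^ 4 := by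
      show h ^ 3 * J - 1 * (h + 27) ^ 4 = J * h ^ 3 - (h + 27) ^ 4
      ring
    rw [e0, hrel]
    have e2 : (h + 27) * (h + 243) ^ 3 - (h + 27) ^ 4 =
        2 * (108 * (h + 27) * (3 * (h + 27) ^ 2 + 3 * (h + 27) * 216 + 216 ^ 2)) := by ring
    rw [e2, h2F]
    field_simp
  rw [e]
  exact V.mul_mem (hBV _ (B.algebraMap_mem ε)) (hBV _ hy)

/-- **`q = 2`, chart of `k = h⁻¹`**: `J` is a unit times a fourth power modulo `π`. -/
theorem rn56_pow_four_k (π ε : R) (h2π : (2 : R) = π * ε) (hp0 : algebraMap R F π ≠ 0)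
    (B : Subalgebra R F) (V : Subring F) (hBV : ∀ x ∈ B, x ∈ V) (n : Ideal B) [hn : n.IsPrime]
    (hπn : algebraMap R B π ∈ n) (J h k : F) (hk : k ∈ B) (hhk : h * k = 1)
    (hrel : J * h ^ 3 = (h + 27) * (h + 243) ^ 3)
    (hJ : ∃ t : B, t ∉ n ∧ (t : F) * J ∈ B) :
    rn56_Pow π B V n J 4 := by
  obtain ⟨sJ, hsJ, hbJ⟩ := hJ
  have h1n : (1 : B) ∉ n := (Ideal.ne_top_iff_one n).mp hn.ne_top
  have hnum : ∀ m : ℕ, (m : F) ∈ B := fun m => natCast_mem B m
  have h2F : (2 : F) = algebraMap R F π * algebraMap R F ε := by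
    rw [← map_mul, ← h2π, map_ofNat]
  have h27 : (27 : F) ∈ B := by simpa using hnum 27
  have h243 : (243 : F) ∈ B := by simpa using hnum 243
  have h216 : (216 : F) ∈ B := by simpa using hnum 216
  have h108 : (108 : F) ∈ B := by simpa using hnum 108
  have h3' : (3 : F) ∈ B := by simpa using hnum 3
  have hx : 1 + 27 * k ∈ B := B.add_mem B.one_mem (B.mul_mem h27 hk)
  have hx' : 1 + 243 * k ∈ B := B.add_mem B.one_mem (B.mul_mem h243 hk)
  -- the relation in the coordinate `k`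
  have hrelk : J * k = (1 + 27 * k) * (1 + 243 * k) ^ 3 := by
    have e1 : J * k = J * h ^ 3 * k ^ 4 := by
      have e2 : J * h ^ 3 * k ^ 4 = J * k * (h * k) ^ 3 := by ring
      rw [e2, hhk, one_pow, mul_one]
    have e3 : (h + 27) * (h + 243) ^ 3 * k ^ 4 =
        (h * k + 27 * k) * (h * k + 243 * k) ^ 3 := by ring
    rw [e1, hrel, e3, hhk]
  -- `k ∉ n`
  have hkn : (⟨k, hk⟩ : B) ∉ n := by
    intro hmem
    have e : (⟨_, hbJ⟩ : B) * (⟨k, hk⟩ : B) =
        sJ * ((⟨_, hx⟩ : B) * (⟨_, hx'⟩ : B) ^ 3) := by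
      apply Subtype.ext
      show (sJ : F) * J * k = (sJ : F) * ((1 + 27 * k) * (1 + 243 * k) ^ 3)
      rw [mul_assoc, hrelk]
    have h4 : sJ * ((⟨_, hx⟩ : B) * (⟨_, hx'⟩ : B) ^ 3) ∈ n := e ▸ n.mul_mem_left _ hmem
    have h5 : (⟨_, hx⟩ : B) * (⟨_, hx'⟩ : B) ^ 3 ∈ n := (hn.mem_or_mem h4).resolve_left hsJ
    rcases hn.mem_or_mem h5 with h6 | h6
    · apply h1n
      have e1 : (1 : B) = ⟨_, hx⟩ - ⟨27, h27⟩ * ⟨k, hk⟩ := by
        apply Subtype.ext
        show (1 : F) = 1 + 27 * k - 27 * k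
        ring
      rw [e1]
      exact n.sub_mem h6 (n.mul_mem_left _ hmem)
    · have h7 := hn.mem_of_pow_mem 3 h6
      apply h1n
      have e1 : (1 : B) = ⟨_, hx'⟩ - ⟨243, h243⟩ * ⟨k, hk⟩ := by
        apply Subtype.ext
        show (1 : F) = 1 + 243 * k - 243 * k
        ring
      rw [e1]
      exact n.sub_mem h7 (n.mul_mem_left _ hmem)
  -- the congruence
  have hy : 108 * k * (1 + 27 * k) *
      (3 * (1 + 27 * k) ^ 2 + 3 * (1 + 27 * k) * (216 * k) + (216 * k) ^ 2) ∈ B :=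
    B.mul_mem (B.mul_mem (B.mul_mem h108 hk) hx)
      (B.add_mem (B.add_mem (B.mul_mem h3' (B.pow_mem hx 2))
        (B.mul_mem (B.mul_mem h3' hx) (B.mul_mem h216 hk))) (B.pow_mem (B.mul_mem h216 hk) 2))
  refine ⟨⟨k, hk⟩, 1, ⟨_, hx⟩, hkn, h1n, ?_⟩
  have e : (algebraMap R F π)⁻¹ * (((⟨k, hk⟩ : B) : F) * J -
      ((1 : B) : F) * ((⟨_, hx⟩ : B) : F) ^ 4) =
      algebraMap R F ε * (108 * k * (1 + 27 * k) *
        (3 * (1 + 27 * k) ^ 2 + 3 * (1 + 27 * k) * (216 * k) + (216 * k) ^ 2)) := by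
    have e0 : ((⟨k, hk⟩ : B) : F) * J - ((1 : B) : F) * ((⟨_, hx⟩ : B) : F) ^ 4 =
        J * k - (1 + 27 * k) ^ 4 := by
      show k * J - 1 * (1 + 27 * k) ^ 4 = J * k - (1 + 27 * k) ^ 4
      ring
    rw [e0, hrelk]
    have e2 : (1 + 27 * k) * (1 + 243 * k) ^ 3 - (1 + 27 * k) ^ 4 =
        2 * (108 * k * (1 + 27 * k) *
          (3 * (1 + 27 * k) ^ 2 + 3 * (1 + 27 * k) * (216 * k) + (216 * k) ^ 2)) := by ring
    rw [e2, h2F]
    field_simp
  rw [e]
  exact V.mul_mem (hBV _ (B.algebraMap_mem ε)) (hBV _ hy)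

end rn56abs

section rn56f

variable {R K : Type} [CommRing R] [IsDomain R] [IsDiscreteValuationRing R] [Field K]
  [NumberField K] [Algebra K Q̄] [Algebra R K] [IsFractionRing R K]
  (M' q : ℕ) [NeZero M'] [NeZero q] (hq : q.Prime) (hM' : ¬ q ∣ M')
  [Algebra R ↥(modularFunctionFieldFullC K (M' * q))]
  [IsScalarTower R K ↥(modularFunctionFieldFullC K (M' * q))] {π : R} (hπ : Irreducible π)

include hq hM' in
/-- **(REG-q) at a rigid level, no hypothesis left**: both charts of an admissible Hauptmodul on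
the canonical level-`M' q` frame (`nuThree M' = 0`, `nuTwo M' = 0`, unramified base). -/
theorem rn56_reg_final (hunit : ∀ n : ℕ, Nat.Coprime n q → IsUnit (n : R))
    (hqR : ¬ IsUnit (q : R)) (ε : R) (hε : IsUnit ε) (hqπ : (q : R) = π * ε)
    (hν3 : nuThree M' = 0) (hν2 : nuTwo M' = 0)
    (h : ↥(modularFunctionFieldFullC K (M' * q))) (hh : s34i47c_IsHaupt K (M' * q) q h) :
    nf21c_Reg M' q hq hM' hπ
        (pk15_chart R ({h} : Set ↥(modularFunctionFieldFullC K (M' * q)))) ∧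
      nf21c_Reg M' q hq hM' hπ
        (pk15_chart R ({h⁻¹} : Set ↥(modularFunctionFieldFullC K (M' * q)))) := by
  letI : Algebra R ↥(modularFunctionFieldFullC K M') :=
    ((algebraMap K ↥(modularFunctionFieldFullC K M')).comp (algebraMap R K)).toAlgebra
  haveI : IsScalarTower R K ↥(modularFunctionFieldFullC K M') :=
    IsScalarTower.of_algebraMap_eq (fun _ => rfl)
  have hMu : IsUnit (M' : R) :=
    hunit M' (Nat.Coprime.symm ((Nat.Prime.coprime_iff_not_dvd hq).mpr hM'))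
  have hp0 : algebraMap R ↥(modularFunctionFieldFullC K (M' * q)) π ≠ 0 :=
    fl56_pi_ne_zero M' q hπ
  -- `π ∈ n` at a point of the `∞`-branch
  have hπn : ∀ (B : Subalgebra R ↥(modularFunctionFieldFullC K (M' * q))) (n : Ideal B),
      sf79_OnBr π B (cm85_Vinf (K := K) (M' * q) hπ).toSubring n → algebraMap R B π ∈ n := by
    intro B n h1
    apply h1
    have e : (algebraMap R ↥(modularFunctionFieldFullC K (M' * q)) π)⁻¹ *
        ((algebraMap R B π : B) : ↥(modularFunctionFieldFullC K (M' * q))) = 1 :=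
      inv_mul_cancel₀ hp0
    rw [e]
    exact Subring.one_mem _
  refine rn56_reg_haupt M' q hq hM' hπ hunit hqR ε hε hqπ h hh ?_ ?_
  · -- the chart of `h`
    intro n hn h1 _ hJ
    haveI := hn.isPrime
    rcases hh with ⟨hq2, h2, rfl⟩ | ⟨hq3, h3, rfl⟩
    · have hcop : Nat.Coprime 2 q := (Nat.coprime_primes Nat.prime_two hq).mpr (Ne.symm hq2)
      have h2' : 2 ∣ M' := hcop.dvd_of_dvd_mul_right h2
      obtain ⟨hJ3, hJ2⟩ := rq43_level2 (K := K) M' q hπ h2' hMu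
      exact ⟨rn56_pow_of_root π _ _ n _ 3 (by norm_num) ((hJ3 hν3).1 n hn (hπn _ n h1) hJ),
        rn56_pow_of_root π _ _ n _ 2 (by norm_num) ((hJ2 hν2).1 n hn (hπn _ n h1) hJ),
        fun hq2' => absurd hq2' hq2⟩
    · have hcop : Nat.Coprime 3 q := (Nat.coprime_primes Nat.prime_three hq).mpr (Ne.symm hq3)
      have h3' : 3 ∣ M' := hcop.dvd_of_dvd_mul_right h3
      obtain ⟨hJ3, hJ2⟩ := rq43_level3 (K := K) M' q hπ h3' hMu
      refine ⟨rn56_pow_of_root π _ _ n _ 3 (by norm_num) ((hJ3 hν3).1 n hn (hπn _ n h1) hJ),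
        rn56_pow_of_root π _ _ n _ 2 (by norm_num) ((hJ2 hν2).1 n hn (hπn _ n h1) hJ), ?_⟩
      intro hq2
      have h2π : (2 : R) = π * ε := by
        rw [← hqπ, hq2, Nat.cast_ofNat]
      exact rn56_pow_four_h π ε h2π hp0 _ _
        (fun x hx => ((s34i47c_mem_W M' q hq hM' hπ x).mp
          ((nf79c_chart_facts M' q hq hM' hπ hunit hqR _ (Or.inr ⟨hq3, h3, rfl⟩)).1.1 x hx)).1)
        n (hπn _ n h1) (rm90_j K (M' * q)) (pk85_h3 K (M' * q) h3)
        (pk15_subset_chart _ (Set.mem_singleton _)) (pk85_h3_rel K (M' * q) h3) hJ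
  · -- the chart of `h⁻¹`
    intro n hn h1 _ hJ
    haveI := hn.isPrime
    rcases hh with ⟨hq2, h2, rfl⟩ | ⟨hq3, h3, rfl⟩
    · have hcop : Nat.Coprime 2 q := (Nat.coprime_primes Nat.prime_two hq).mpr (Ne.symm hq2)
      have h2' : 2 ∣ M' := hcop.dvd_of_dvd_mul_right h2
      obtain ⟨hJ3, hJ2⟩ := rq43_level2 (K := K) M' q hπ h2' hMu
      exact ⟨rn56_pow_of_root π _ _ n _ 3 (by norm_num) ((hJ3 hν3).2 n hn (hπn _ n h1) hJ),
        rn56_pow_of_root π _ _ n _ 2 (by norm_num) ((hJ2 hν2).2 n hn (hπn _ n h1) hJ),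
        fun hq2' => absurd hq2' hq2⟩
    · have hcop : Nat.Coprime 3 q := (Nat.coprime_primes Nat.prime_three hq).mpr (Ne.symm hq3)
      have h3' : 3 ∣ M' := hcop.dvd_of_dvd_mul_right h3
      obtain ⟨hJ3, hJ2⟩ := rq43_level3 (K := K) M' q hπ h3' hMu
      refine ⟨rn56_pow_of_root π _ _ n _ 3 (by norm_num) ((hJ3 hν3).2 n hn (hπn _ n h1) hJ),
        rn56_pow_of_root π _ _ n _ 2 (by norm_num) ((hJ2 hν2).2 n hn (hπn _ n h1) hJ), ?_⟩
      intro hq2
      have h2π : (2 : R) = π * ε := by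
        rw [← hqπ, hq2, Nat.cast_ofNat]
      have hh0 : pk85_h3 K (M' * q) h3 ≠ 0 := by
        intro h0
        have hrel := pk85_h3_rel K (M' * q) h3
        rw [h0] at hrel
        norm_num at hrel
      exact rn56_pow_four_k π ε h2π hp0 _ _
        (fun x hx => ((s34i47c_mem_W M' q hq hM' hπ x).mp
          ((nf79c_chart_facts M' q hq hM' hπ hunit hqR _ (Or.inr ⟨hq3, h3, rfl⟩)).2.1 x hx)).1)
        n (hπn _ n h1) (rm90_j K (M' * q)) (pk85_h3 K (M' * q) h3) (pk85_h3 K (M' * q) h3)⁻¹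
        (pk15_subset_chart _ (Set.mem_singleton _)) (mul_inv_cancel₀ hh0)
        (pk85_h3_rel K (M' * q) h3) hJ

end rn56f

end

end Fermat.Agent.S36
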