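import Fermat.Agent.S36.RegNode56
import Fermat.Agent.S36.RedHomInst19
import Fermat.Agent.S34.FrameLS56
import Fermat.Agent.S36.TripleReg71

/-!
# S36 lab, row 599 C-REGq (helper56): the regular nodes of the canonical level-`q` frame

Canonical frame of Iface47c at level `M' * q` (`V_∞ = cm85_Vinf (M' * q) hπ`,
`V_0 = s34i47c_V0 M' q hq hM' hπ`), unramified base (`(q : R) = π * ε`, `ε` a unit), `B` an
integrally closed chart inside both valuation rings, saturated, with the reduction datum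
`rh19_Red` of the `∞`-branch (`RedHomInst19`), smooth `∞`-branch and transversality.

* `rn56_red_J`, `rn56_red_U` : the reductions of `j` and of `U = Δ(Q)/Δ(Q^q)` are the `j`-series
  and `dq56_U κ q`;
* `rn56_hnode_canon` : at a point `n` of both branches at which `j` is regular, the rigidity
  inputs (`j` a unit times a cube where it vanishes, `j - 1728` a unit times a square where it
  vanishes, `j` a unit times a fourth power when `q = 2`; shape `rn56_Pow` of `RegNode56`) give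
  the labelled regular node `s z z' = π s'` (`z` on the `∞`-branch, `z'` on the `0`-branch);
* `rn56_reg_canon` : (REG) in both directions (`tl71_DivAt`, the input of `tf71b_twoGen`).

All names are prefixed `rn56_`.
-/

set_option autoImplicit false
set_option linter.unusedSectionVars false
set_option linter.style.haveILetI false

open ModularCurve AlgebraicCurve

namespace Fermat.Agent.S36

open Fermat.Agent.S18 Fermat.Agent.S24 Fermat.Agent.S34 Fermat.Agent.S35
open Fermat.Agent.S36.TripleLoc71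

local notation "Q̄" => AlgebraicClosure ℚ

noncomputable section

section rn56c

variable {R K : Type} [CommRing R] [IsDomain R] [IsDiscreteValuationRing R] [Field K] [CharZero K]
  [Algebra K Q̄] [Algebra R K] [IsFractionRing R K]
  (M' q : ℕ) [NeZero M'] [NeZero q] (hq : q.Prime) (hM' : ¬ q ∣ M')
  [Algebra R ↥(modularFunctionFieldFullC K (M' * q))]
  [IsScalarTower R K ↥(modularFunctionFieldFullC K (M' * q))] {π : R} (hπ : Irreducible π)

/-- The reduction of `j` is the `j`-series. -/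
theorem rn56_red_J :
    ntf35_red R (M' * q) (rm90_j K (M' * q)) = jqModC (IsLocalRing.ResidueField R) := by
  have h : (jqModC K : LaurentSeries K) ∈ tv84_G K (IsLocalRing.residue R) :=
    tv84_J_mem (IsLocalRing.residue R)
  show ntf35_redS R (jqModC K : LaurentSeries K) = _
  rw [ntf35_redS_of_mem h]
  exact tv84_red_J (IsLocalRing.residue R) h

/-- The reduction of `U = Δ(Q)/Δ(Q^q)` is `dq56_U κ q`. -/
theorem rn56_red_U :
    ntf35_red R (M' * q) (dq56b_U (K := K) M' q hq) =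
      dq56_U (IsLocalRing.ResidueField R) q := by
  obtain ⟨π', hπ'⟩ := IsDiscreteValuationRing.exists_irreducible R
  have h : (dq56_U K q : LaurentSeries K) ∈ tv84_G K (IsLocalRing.residue R) :=
    dq56b_U_mem_Vinf (K := K) M' q hq hπ'
  show ntf35_redS R (dq56_U K q : LaurentSeries K) = _
  rw [ntf35_redS_of_mem h, tv84_red_of_integral (IsLocalRing.residue R) _ (dq56_U R q)
    (dq56_coeffMap_U q (algebraMap R K)).symm, dq56_coeffMap_U]

/-- **The labelled regular node on the canonical level-`q` frame** (literal `hnode` clause of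
`tl71_reg_of_nodes` at the point `n`). -/
theorem rn56_hnode_canon (ε : R) (hε : IsUnit ε) (hqπ : (q : R) = π * ε)
    (B : Subalgebra R ↥(modularFunctionFieldFullC K (M' * q)))
    (hBint : ∀ z : ↥(modularFunctionFieldFullC K (M' * q)), IsIntegral B z → z ∈ B)
    (hB₁ : ∀ x ∈ B, x ∈ (cm85_Vinf (K := K) (M' * q) hπ).toSubring)
    (hB₂ : ∀ x ∈ B, x ∈ (s34i47c_V0 (K := K) M' q hq hM' hπ).toSubring)
    (hsat : ∀ x ∈ B,
      (algebraMap R ↥(modularFunctionFieldFullC K (M' * q)) π)⁻¹ * x ∈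
        (cm85_Vinf (K := K) (M' * q) hπ).toSubring →
      (algebraMap R ↥(modularFunctionFieldFullC K (M' * q)) π)⁻¹ * x ∈
        (s34i47c_V0 (K := K) M' q hq hM' hπ).toSubring →
      (algebraMap R ↥(modularFunctionFieldFullC K (M' * q)) π)⁻¹ * x ∈ B)
    (hS : sf79_Smooth π B (cm85_Vinf (K := K) (M' * q) hπ).toSubring)
    (hT : sf79_Transv π B (cm85_Vinf (K := K) (M' * q) hπ).toSubring
      (s34i47c_V0 (K := K) M' q hq hM' hπ).toSubring)
    (hRed : rh19_Red π B (cm85_Vinf (K := K) (M' * q) hπ).toSubring (ntf35_red R (M' * q)))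
    (n : Ideal B) (hn : n.IsMaximal)
    (h1 : sf79_OnBr π B (cm85_Vinf (K := K) (M' * q) hπ).toSubring n)
    (h2 : sf79_OnBr π B (s34i47c_V0 (K := K) M' q hq hM' hπ).toSubring n)
    (hJ : ∃ s : B, s ∉ n ∧
      (s : ↥(modularFunctionFieldFullC K (M' * q))) * rm90_j K (M' * q) ∈ B)
    (h0 : sf79_nmem B n (rm90_j K (M' * q)) →
      rn56_Pow π B (cm85_Vinf (K := K) (M' * q) hπ).toSubring n (rm90_j K (M' * q)) 3)
    (h1728 : sf79_nmem B n (rm90_j K (M' * q) - 1728) →
      rn56_Pow π B (cm85_Vinf (K := K) (M' * q) hπ).toSubring n (rm90_j K (M' * q) - 1728) 2)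
    (h4 : q = 2 → sf79_nmem B n (rm90_j K (M' * q)) →
      rn56_Pow π B (cm85_Vinf (K := K) (M' * q) hπ).toSubring n (rm90_j K (M' * q)) 4) :
    ∃ z z' s s' : B, s ∉ n ∧ s' ∉ n ∧
      (algebraMap R ↥(modularFunctionFieldFullC K (M' * q)) π)⁻¹ *
        (z : ↥(modularFunctionFieldFullC K (M' * q))) ∈
          (cm85_Vinf (K := K) (M' * q) hπ).toSubring ∧
      (algebraMap R ↥(modularFunctionFieldFullC K (M' * q)) π)⁻¹ *
        (z' : ↥(modularFunctionFieldFullC K (M' * q))) ∈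
          (s34i47c_V0 (K := K) M' q hq hM' hπ).toSubring ∧
      s * z * z' = algebraMap R B π * s' := by
  classical
  haveI hnp : n.IsPrime := hn.isPrime
  -- the residue characteristic
  haveI hchar : CharP (IsLocalRing.ResidueField R) q := by
    rw [CharP.charP_iff_prime_eq_zero hq]
    have e : ((q : ℕ) : IsLocalRing.ResidueField R) = IsLocalRing.residue R (q : R) :=
      (map_natCast (IsLocalRing.residue R) q).symm
    rw [e, IsLocalRing.residue_eq_zero_iff, hqπ]
    exact Ideal.mul_mem_right _ _ ((IsLocalRing.mem_maximalIdeal π).mpr hπ.not_isUnit)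
  have hp0 : algebraMap R ↥(modularFunctionFieldFullC K (M' * q)) π ≠ 0 :=
    fl56_pi_ne_zero M' q hπ
  have hπ₁ : (algebraMap R ↥(modularFunctionFieldFullC K (M' * q)) π)⁻¹ ∉
      (cm85_Vinf (K := K) (M' * q) hπ).toSubring := fl56_Vinf_pi_inv M' q hπ
  have hV₁ : ∀ x ∈ (cm85_Vinf (K := K) (M' * q) hπ).toSubring,
      (algebraMap R ↥(modularFunctionFieldFullC K (M' * q)) π)⁻¹ * x ∉
        (cm85_Vinf (K := K) (M' * q) hπ).toSubring →
      x⁻¹ ∈ (cm85_Vinf (K := K) (M' * q) hπ).toSubring := by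
    intro x hx hx'
    by_contra hinv
    exact hx' (cf22_Vinf_hmax M' q hπ x hx hinv)
  have hπn : algebraMap R B π ∈ n := by
    apply h1
    have e : (algebraMap R ↥(modularFunctionFieldFullC K (M' * q)) π)⁻¹ *
        ((algebraMap R B π : B) : ↥(modularFunctionFieldFullC K (M' * q))) = 1 :=
      inv_mul_cancel₀ hp0
    rw [e]
    exact Subring.one_mem _
  obtain ⟨z, hz⟩ := hS n hn hπn h1
  -- clearing denominators
  obtain ⟨sJ, hsJ, hsJB⟩ := hJ
  obtain ⟨kU, hkU⟩ := uv17_clear B hBint (rm90_j K (M' * q)) (dq56b_U (K := K) M' q hq)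
    (dq56b_U_integral M' q hq) (sJ : ↥(modularFunctionFieldFullC K (M' * q))) sJ.2 hsJB
  obtain ⟨kV, hkV⟩ := uv17_clear B hBint (rm90_j K (M' * q)) (dq56b_V (K := K) M' q hq hM')
    (dq56b_V_integral M' q hq hM') (sJ : ↥(modularFunctionFieldFullC K (M' * q))) sJ.2 hsJB
  have hpow : ∀ k : ℕ, sJ ^ k ∉ n := fun k h => hsJ (hnp.mem_of_pow_mem k h)
  -- `U V = π ^ 12 ε ^ 12`
  have hUV : dq56b_U (K := K) M' q hq * dq56b_V (K := K) M' q hq hM' =
      algebraMap R ↥(modularFunctionFieldFullC K (M' * q)) (π ^ 12 * ε ^ 12) := by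
    rw [dq56b_mul, ← mul_pow, ← hqπ, map_pow, map_natCast]
  have hV0 : dq56b_V (K := K) M' q hq hM' ≠ 0 := by
    intro h0
    rw [h0, mul_zero, map_mul, map_pow, map_pow] at hUV
    exact mul_ne_zero (pow_ne_zero 12 hp0) (pow_ne_zero 12 (hε.map _).ne_zero) hUV.symm
  have hU₂ : (algebraMap R ↥(modularFunctionFieldFullC K (M' * q)) π)⁻¹ *
      dq56b_U (K := K) M' q hq ∈ (s34i47c_V0 (K := K) M' q hq hM' hπ).toSubring := by
    have e : (algebraMap R ↥(modularFunctionFieldFullC K (M' * q)) π)⁻¹ *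
        dq56b_U (K := K) M' q hq =
        algebraMap R ↥(modularFunctionFieldFullC K (M' * q)) (π ^ 11 * ε ^ 12) *
          (dq56b_V (K := K) M' q hq hM')⁻¹ := by
      have e1 : dq56b_U (K := K) M' q hq =
          algebraMap R ↥(modularFunctionFieldFullC K (M' * q)) (π ^ 12 * ε ^ 12) *
            (dq56b_V (K := K) M' q hq hM')⁻¹ := by
        rw [← hUV, mul_assoc, mul_inv_cancel₀ hV0, mul_one]
      rw [e1, map_mul, map_mul, map_pow, map_pow, map_pow]
      field_simp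
    rw [e]
    exact Subring.mul_mem _ (hB₂ _ (B.algebraMap_mem _)) (dq56b_Vinv_mem_V0 M' q hq hM' hπ)
  have hρC : ∀ r : R, ntf35_red R (M' * q)
      (algebraMap R ↥(modularFunctionFieldFullC K (M' * q)) r) =
      HahnSeries.C (IsLocalRing.residue R r) := by
    intro r
    rw [IsScalarTower.algebraMap_apply R K ↥(modularFunctionFieldFullC K (M' * q))]
    exact ntf35_red_algebraMap (M' * q) r
  have hρmul : ∀ x ∈ (cm85_Vinf (K := K) (M' * q) hπ).toSubring,
      ∀ y ∈ (cm85_Vinf (K := K) (M' * q) hπ).toSubring,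
      ntf35_red R (M' * q) (x * y) = ntf35_red R (M' * q) x * ntf35_red R (M' * q) y :=
    fun x hx y hy => ntf35_red_mul (M' * q) hπ x y hx hy
  obtain ⟨bJ, hbJ⟩ : ∃ bJ : B, (sJ : ↥(modularFunctionFieldFullC K (M' * q))) *
      rm90_j K (M' * q) = (bJ : ↥(modularFunctionFieldFullC K (M' * q))) := ⟨⟨_, hsJB⟩, rfl⟩
  obtain ⟨bU, hbU⟩ : ∃ bU : B, ((sJ ^ kU : B) : ↥(modularFunctionFieldFullC K (M' * q))) *
      dq56b_U (K := K) M' q hq = (bU : ↥(modularFunctionFieldFullC K (M' * q))) :=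
    ⟨⟨_, hkU⟩, rfl⟩
  obtain ⟨bV, hbV⟩ : ∃ bV : B, ((sJ ^ kV : B) : ↥(modularFunctionFieldFullC K (M' * q))) *
      dq56b_V (K := K) M' q hq hM' = (bV : ↥(modularFunctionFieldFullC K (M' * q))) :=
    ⟨⟨_, hkV⟩, rfl⟩
  have h0' : bJ ∈ n →
      rn56_Pow π B (cm85_Vinf (K := K) (M' * q) hπ).toSubring n (rm90_j K (M' * q)) 3 :=
    fun hmem => h0 ⟨sJ, hsJ, bJ, hmem, hbJ⟩
  have h4' : q = 2 → bJ ∈ n →
      rn56_Pow π B (cm85_Vinf (K := K) (M' * q) hπ).toSubring n (rm90_j K (M' * q)) 4 :=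
    fun h2' hmem => h4 h2' ⟨sJ, hsJ, bJ, hmem, hbJ⟩
  have h1728' : bJ - 1728 * sJ ∈ n →
      rn56_Pow π B (cm85_Vinf (K := K) (M' * q) hπ).toSubring n
        (rm90_j K (M' * q) - 1728) 2 := by
    intro hmem
    refine h1728 ⟨sJ, hsJ, bJ - 1728 * sJ, hmem, ?_⟩
    have e1728 : ((1728 : B) : ↥(modularFunctionFieldFullC K (M' * q))) = 1728 := by
      rw [← map_ofNat (algebraMap R ↥B) 1728]
      exact map_ofNat (algebraMap R ↥(modularFunctionFieldFullC K (M' * q))) 1728
    have e0 : (((bJ - 1728 * sJ : B)) : ↥(modularFunctionFieldFullC K (M' * q))) =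
        (bJ : ↥(modularFunctionFieldFullC K (M' * q))) -
          ((1728 : B) : ↥(modularFunctionFieldFullC K (M' * q))) *
            (sJ : ↥(modularFunctionFieldFullC K (M' * q))) := rfl
    rw [e0, e1728, ← hbJ]
    ring
  have hUinv := dq56b_Uinv_mem_Vinf (K := K) M' q hq hπ
  have hUV₁ := dq56b_U_mem_Vinf (K := K) M' q hq hπ
  have hJV₁ : rm90_j K (M' * q) ∈ cm85_Vinf (K := K) (M' * q) hπ := alv73_j_mem (M' * q) hπ
  have hρJ := rn56_red_J (R := R) (K := K) M' q
  have hρU := rn56_red_U (R := R) (K := K) M' q hq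
  exact rn56_hnode q hq π B (cm85_Vinf (K := K) (M' * q) hπ).toSubring
    (s34i47c_V0 (K := K) M' q hq hM' hπ).toSubring hB₁ hB₂ hπ₁ hV₁ hsat hT
    (ntf35_red R (M' * q)) hρmul hρC hRed n hn hπn h1 h2
    z hz (rm90_j K (M' * q)) (dq56b_U (K := K) M' q hq) (dq56b_V (K := K) M' q hq hM')
    (ε ^ 12) (hε.pow 12) hUV hUinv hU₂ hUV₁ hJV₁ hρJ hρU
    sJ bJ hsJ hbJ (sJ ^ kU) bU (hpow kU) hbU (sJ ^ kV) bV (hpow kV) hbV h0' h1728' h4'

/-- **(REG) on the canonical level-`q` frame, in both directions** (`tl71_DivAt`: the hypotheses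
`hr₁`, `hr₂` of `tf71b_twoGen`), from the rigidity inputs at the points of both branches. -/
theorem rn56_reg_canon (ε : R) (hε : IsUnit ε) (hqπ : (q : R) = π * ε)
    (B : Subalgebra R ↥(modularFunctionFieldFullC K (M' * q)))
    (hBint : ∀ z : ↥(modularFunctionFieldFullC K (M' * q)), IsIntegral B z → z ∈ B)
    (hB₁ : ∀ x ∈ B, x ∈ (cm85_Vinf (K := K) (M' * q) hπ).toSubring)
    (hB₂ : ∀ x ∈ B, x ∈ (s34i47c_V0 (K := K) M' q hq hM' hπ).toSubring)
    (hsat : ∀ x ∈ B,
      (algebraMap R ↥(modularFunctionFieldFullC K (M' * q)) π)⁻¹ * x ∈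
        (cm85_Vinf (K := K) (M' * q) hπ).toSubring →
      (algebraMap R ↥(modularFunctionFieldFullC K (M' * q)) π)⁻¹ * x ∈
        (s34i47c_V0 (K := K) M' q hq hM' hπ).toSubring →
      (algebraMap R ↥(modularFunctionFieldFullC K (M' * q)) π)⁻¹ * x ∈ B)
    (hS : sf79_Smooth π B (cm85_Vinf (K := K) (M' * q) hπ).toSubring)
    (hT : sf79_Transv π B (cm85_Vinf (K := K) (M' * q) hπ).toSubring
      (s34i47c_V0 (K := K) M' q hq hM' hπ).toSubring)
    (hRed : rh19_Red π B (cm85_Vinf (K := K) (M' * q) hπ).toSubring (ntf35_red R (M' * q)))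
    (hJ : ∀ n : Ideal B, n.IsMaximal →
      sf79_OnBr π B (cm85_Vinf (K := K) (M' * q) hπ).toSubring n →
      sf79_OnBr π B (s34i47c_V0 (K := K) M' q hq hM' hπ).toSubring n →
      ∃ s : B, s ∉ n ∧
        (s : ↥(modularFunctionFieldFullC K (M' * q))) * rm90_j K (M' * q) ∈ B)
    (h0 : ∀ n : Ideal B, n.IsMaximal →
      sf79_OnBr π B (cm85_Vinf (K := K) (M' * q) hπ).toSubring n →
      sf79_OnBr π B (s34i47c_V0 (K := K) M' q hq hM' hπ).toSubring n →
      sf79_nmem B n (rm90_j K (M' * q)) →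
      rn56_Pow π B (cm85_Vinf (K := K) (M' * q) hπ).toSubring n (rm90_j K (M' * q)) 3)
    (h1728 : ∀ n : Ideal B, n.IsMaximal →
      sf79_OnBr π B (cm85_Vinf (K := K) (M' * q) hπ).toSubring n →
      sf79_OnBr π B (s34i47c_V0 (K := K) M' q hq hM' hπ).toSubring n →
      sf79_nmem B n (rm90_j K (M' * q) - 1728) →
      rn56_Pow π B (cm85_Vinf (K := K) (M' * q) hπ).toSubring n (rm90_j K (M' * q) - 1728) 2)
    (h4 : q = 2 → ∀ n : Ideal B, n.IsMaximal →
      sf79_OnBr π B (cm85_Vinf (K := K) (M' * q) hπ).toSubring n →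
      sf79_OnBr π B (s34i47c_V0 (K := K) M' q hq hM' hπ).toSubring n →
      sf79_nmem B n (rm90_j K (M' * q)) →
      rn56_Pow π B (cm85_Vinf (K := K) (M' * q) hπ).toSubring n (rm90_j K (M' * q)) 4) :
    (∀ m' : Ideal B, m'.IsMaximal →
      sf79_OnBr π B (cm85_Vinf (K := K) (M' * q) hπ).toSubring m' →
      sf79_OnBr π B (s34i47c_V0 (K := K) M' q hq hM' hπ).toSubring m' →
      tl71_DivAt π B (cm85_Vinf (K := K) (M' * q) hπ).toSubring
        (s34i47c_V0 (K := K) M' q hq hM' hπ).toSubring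
        (s34i47c_V0 (K := K) M' q hq hM' hπ).toSubring m') ∧
    (∀ m' : Ideal B, m'.IsMaximal →
      sf79_OnBr π B (s34i47c_V0 (K := K) M' q hq hM' hπ).toSubring m' →
      sf79_OnBr π B (cm85_Vinf (K := K) (M' * q) hπ).toSubring m' →
      tl71_DivAt π B (s34i47c_V0 (K := K) M' q hq hM' hπ).toSubring
        (cm85_Vinf (K := K) (M' * q) hπ).toSubring
        (cm85_Vinf (K := K) (M' * q) hπ).toSubring m') := by
  have hV₁ : ∀ x ∈ (cm85_Vinf (K := K) (M' * q) hπ).toSubring,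
      (algebraMap R ↥(modularFunctionFieldFullC K (M' * q)) π)⁻¹ * x ∉
        (cm85_Vinf (K := K) (M' * q) hπ).toSubring →
      x⁻¹ ∈ (cm85_Vinf (K := K) (M' * q) hπ).toSubring := by
    intro x hx hx'
    by_contra hinv
    exact hx' (cf22_Vinf_hmax M' q hπ x hx hinv)
  have hV₂ : ∀ x ∈ (s34i47c_V0 (K := K) M' q hq hM' hπ).toSubring,
      (algebraMap R ↥(modularFunctionFieldFullC K (M' * q)) π)⁻¹ * x ∉
        (s34i47c_V0 (K := K) M' q hq hM' hπ).toSubring →
      x⁻¹ ∈ (s34i47c_V0 (K := K) M' q hq hM' hπ).toSubring := by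
    intro x hx hx'
    by_contra hinv
    exact hx' (cf22_V0_hmax (algebraMap K Q̄) M' q hq hM' hπ x hx hinv)
  refine tl71_reg_of_nodes π B (cm85_Vinf (K := K) (M' * q) hπ).toSubring
    (s34i47c_V0 (K := K) M' q hq hM' hπ).toSubring hB₁ hB₂ hV₁ hV₂ (fl56_pi_ne_zero M' q hπ) ?_
  intro n hn h1 h2
  exact rn56_hnode_canon M' q hq hM' hπ ε hε hqπ B hBint hB₁ hB₂ hsat hS hT hRed n hn h1 h2
    (hJ n hn h1 h2) (h0 n hn h1 h2) (h1728 n hn h1 h2) (fun hq2 => h4 hq2 n hn h1 h2)

end rn56c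

end

end Fermat.Agent.S36
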