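import Mathlib
import Fermat.Agent.S34.UVAtFrame22
import Fermat.Agent.S34.FrameTransv49
import Fermat.Agent.S36.NodeFrameInst79
import Fermat.Agent.S36.RedHomInst19
import Fermat.Agent.S36.RedHomNode19
import Fermat.Agent.S36.TripleFrame71
import Fermat.Agent.S36.RigidTransferInst79
import Fermat.Agent.S36.RigidCubeInst43
import Fermat.Agent.S36.RigidCubeTwo43

/-!
# S36 lab, row 599 C-REGq (helper19): the labelled regular nodes of the level-`M' q` charts

`rgn19_of` : for a chart `B = pk15_chart R s` of level `M' q` inside `W = V_∞ ⊓ V_0`, saturated,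
with (3a) along `V_∞`, transversality, the reduction hom `rh19_Red` (`RedHomInst19`), `j` regular
at the nodes, and the rigidity roots `J = ε c ^ 3`, `J - 1728 = ε c ^ 2` at the nodes (for
`q = 2`: a function `g`, regular at the nodes, with `J g ^ 3 = (g + 27) (g + 243) ^ 3` and
`g + 27 = ε c ^ 3`): **`tf71_RegNodes M' q hq hM' hπ B`** (the hypothesis `hreg` of
`tf71_hD_haupt`, = (REG-q)).  Base: `q` a uniformizer (`Associated (q : R) π`).

`rgn19_regNodes` : **both affine charts of every admissible Hauptmodul** at a rigid good level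
`M'` (`nuTwo M' = 0`, `nuThree M' = 0`; all primes `q`, including `2` and `3`).

All names are prefixed `rgn19_`.
-/

set_option autoImplicit false
set_option linter.unusedSectionVars false
set_option linter.style.haveILetI false

open ModularCurve AlgebraicCurve IntermediateField

namespace Fermat.Agent.S36

open Fermat.Agent.S18 Fermat.Agent.S24 Fermat.Agent.S34 Fermat.Agent.S35
open Fermat.Agent.S36.TripleLoc71

local notation "Q̄" => AlgebraicClosure ℚ

section rgn19_red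

variable {R K : Type} [CommRing R] [IsDomain R] [IsDiscreteValuationRing R] [Field K] [CharZero K]
  [Algebra R K] [IsFractionRing R K] (M : ℕ) [NeZero M]

/-- The reduction of a function with `R`-integral expansion is the reduction of its expansion. -/
theorem rgn19_red_integral (x : ↥(modularFunctionFieldFullC K M)) (y : LaurentSeries R)
    (hxy : (x : LaurentSeries K) = coeffMap (algebraMap R K) y) :
    ntf35_red R M x = coeffMap (IsLocalRing.residue R) y := by
  have hmem : (x : LaurentSeries K) ∈ tv84_G K (IsLocalRing.residue R) := by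
    rw [hxy]
    exact tv84_coeffMap_mem_G _ y
  rw [ntf35_red, ntf35_redS_of_mem hmem]
  exact tv84_red_of_integral (IsLocalRing.residue R) ⟨_, hmem⟩ y hxy

end rgn19_red

section rgn19

variable {R K : Type} [CommRing R] [IsDomain R] [IsDiscreteValuationRing R] [Field K]
  [NumberField K] [Algebra K Q̄] [Algebra R K] [IsFractionRing R K]
  (M' q : ℕ) [NeZero M'] [NeZero q] (hq : q.Prime) (hM' : ¬ q ∣ M')
  [Algebra R ↥(modularFunctionFieldFullC K (M' * q))]
  [IsScalarTower R K ↥(modularFunctionFieldFullC K (M' * q))] {π : R} (hπ : Irreducible π)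

/-- **(REG-q) on a chart of level `M' q`** from the reduction hom, the frame facts and the
rigidity roots. -/
theorem rgn19_of (hqR : ¬ IsUnit (q : R)) (hqπ : Associated ((q : ℕ) : R) π)
    (s : Set ↥(modularFunctionFieldFullC K (M' * q)))
    (hBW : ∀ x ∈ pk15_chart R s, x ∈ s34i47c_W (K := K) M' q hq hM' hπ)
    (hsat : ∀ x ∈ pk15_chart R s,
      (algebraMap R ↥(modularFunctionFieldFullC K (M' * q)) π)⁻¹ * x ∈
        s34i47c_W (K := K) M' q hq hM' hπ →
      (algebraMap R ↥(modularFunctionFieldFullC K (M' * q)) π)⁻¹ * x ∈ pk15_chart R s)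
    (hT : sf79_Transv π (pk15_chart R s) (cm85_Vinf (K := K) (M' * q) hπ).toSubring
      (s34i47c_V0 (K := K) M' q hq hM' hπ).toSubring)
    (hSm : sf79_Smooth π (pk15_chart R s) (cm85_Vinf (K := K) (M' * q) hπ).toSubring)
    (hred : rh19_Red π (pk15_chart R s) (cm85_Vinf (K := K) (M' * q) hπ).toSubring
      (ntf35_red R (M' * q)))
    (hj : ∀ n : Ideal ↥(pk15_chart R s), n.IsPrime →
      sf79_OnBr π (pk15_chart R s) (cm85_Vinf (K := K) (M' * q) hπ).toSubring n →
      sf79_OnBr π (pk15_chart R s) (s34i47c_V0 (K := K) M' q hq hM' hπ).toSubring n →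
      ∃ a b : ↥(pk15_chart R s), a ∉ n ∧
        (a : ↥(modularFunctionFieldFullC K (M' * q))) * rm90_j K (M' * q) =
          (b : ↥(modularFunctionFieldFullC K (M' * q))))
    (hR3 : rt79_RootAt π (pk15_chart R s) (rm90_j K (M' * q)) (rm90_j K (M' * q)) 3)
    (hR2 : rt79_RootAt π (pk15_chart R s) (rm90_j K (M' * q)) (rm90_j K (M' * q) - 1728) 2)
    (hR12 : q = 2 → ∃ g : ↥(modularFunctionFieldFullC K (M' * q)),
      (∀ n : Ideal ↥(pk15_chart R s), n.IsPrime →
        (∃ a b : ↥(pk15_chart R s), a ∉ n ∧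
          (a : ↥(modularFunctionFieldFullC K (M' * q))) * rm90_j K (M' * q) =
            (b : ↥(modularFunctionFieldFullC K (M' * q)))) →
        ∃ ag bg : ↥(pk15_chart R s), ag ∉ n ∧
          (ag : ↥(modularFunctionFieldFullC K (M' * q))) * g =
            (bg : ↥(modularFunctionFieldFullC K (M' * q)))) ∧
      rm90_j K (M' * q) * g ^ 3 = (g + 27) * (g + 243) ^ 3 ∧
      rt79_RootAt π (pk15_chart R s) (rm90_j K (M' * q)) (g + 27) 3) :
    tf71_RegNodes (K := K) M' q hq hM' hπ (pk15_chart R s) := by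
  intro m' hm' h1 h2
  haveI hprime : m'.IsPrime := hm'.isPrime
  haveI : CharP (IsLocalRing.ResidueField R) q := by
    rw [CharP.charP_iff_prime_eq_zero hq]
    have hm1 : (q : R) ∈ IsLocalRing.maximalIdeal R := (IsLocalRing.mem_maximalIdeal _).mpr hqR
    have hm2 := (IsLocalRing.residue_eq_zero_iff _).mpr hm1
    rwa [map_natCast] at hm2
  have hπ0 : algebraMap R ↥(modularFunctionFieldFullC K (M' * q)) π ≠ 0 := by
    intro h0
    apply (ci22_Vinf_pi (K := K) (M' * q) hπ).2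
    rw [h0, inv_zero]
    exact (cm85_Vinf (K := K) (M' * q) hπ).zero_mem
  have hB₁ : ∀ x ∈ pk15_chart R s, x ∈ (cm85_Vinf (K := K) (M' * q) hπ).toSubring :=
    fun x hx => ((s34i47c_mem_W M' q hq hM' hπ x).mp (hBW x hx)).1
  have hB₂ : ∀ x ∈ pk15_chart R s, x ∈ (s34i47c_V0 (K := K) M' q hq hM' hπ).toSubring :=
    fun x hx => ((s34i47c_mem_W M' q hq hM' hπ x).mp (hBW x hx)).2
  have hπ₁ : (algebraMap R ↥(modularFunctionFieldFullC K (M' * q)) π)⁻¹ ∉
      (cm85_Vinf (K := K) (M' * q) hπ).toSubring := al97C_pi_inv_not_mem_Vinf M' q hπ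
  have hV₁ : ∀ x ∈ (cm85_Vinf (K := K) (M' * q) hπ).toSubring,
      (algebraMap R ↥(modularFunctionFieldFullC K (M' * q)) π)⁻¹ * x ∉
        (cm85_Vinf (K := K) (M' * q) hπ).toSubring →
      x⁻¹ ∈ (cm85_Vinf (K := K) (M' * q) hπ).toSubring := by
    intro x hx hx'
    by_contra hcon
    apply hx'
    show (algebraMap R ↥(modularFunctionFieldFullC K (M' * q)) π)⁻¹ * x ∈
      cm85_Vinf (K := K) (M' * q) hπ
    rw [IsScalarTower.algebraMap_apply R K ↥(modularFunctionFieldFullC K (M' * q))]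
    exact gv85_hmax (IsLocalRing.residue R) π (pk85_res_iff hπ) hπ.ne_zero _ _ x hx hcon
  have hsat' : ∀ x ∈ pk15_chart R s,
      (algebraMap R ↥(modularFunctionFieldFullC K (M' * q)) π)⁻¹ * x ∈
        (cm85_Vinf (K := K) (M' * q) hπ).toSubring →
      (algebraMap R ↥(modularFunctionFieldFullC K (M' * q)) π)⁻¹ * x ∈
        (s34i47c_V0 (K := K) M' q hq hM' hπ).toSubring →
      (algebraMap R ↥(modularFunctionFieldFullC K (M' * q)) π)⁻¹ * x ∈ pk15_chart R s :=
    fun x hx hx1 hx2 => hsat x hx ((s34i47c_mem_W M' q hq hM' hπ _).mpr ⟨hx1, hx2⟩)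
  have hπn : algebraMap R ↥(pk15_chart R s) π ∈ m' := by
    apply h1
    rw [Subalgebra.coe_algebraMap, inv_mul_cancel₀ hπ0]
    exact Subring.one_mem _
  obtain ⟨aJ, bJ, haJ, hJ⟩ := hj m' hprime h1 h2
  obtain ⟨z₁, hz₁⟩ := hSm m' hm' hπn h1
  -- the cleared `U`, `V`
  obtain ⟨kU, hkU⟩ := uv17_clear (pk15_chart R s) (uv17_chart_intClosed s) (rm90_j K (M' * q))
    (dq56b_U (K := K) M' q hq) (dq56b_U_integral M' q hq)
    (aJ : ↥(modularFunctionFieldFullC K (M' * q))) aJ.2 (by rw [hJ]; exact bJ.2)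
  obtain ⟨kV, hkV⟩ := uv17_clear (pk15_chart R s) (uv17_chart_intClosed s) (rm90_j K (M' * q))
    (dq56b_V (K := K) M' q hq hM') (dq56b_V_integral M' q hq hM')
    (aJ : ↥(modularFunctionFieldFullC K (M' * q))) aJ.2 (by rw [hJ]; exact bJ.2)
  obtain ⟨w, hw⟩ := hqπ
  have hqeq : ((q : ℕ) : R) = π * ((w⁻¹ : Rˣ) : R) := by
    rw [← hw, mul_assoc, Units.mul_inv, mul_one]
  have hUVF : dq56b_U (K := K) M' q hq * dq56b_V (K := K) M' q hq hM' =
      algebraMap R ↥(modularFunctionFieldFullC K (M' * q)) π ^ 12 *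
        algebraMap R ↥(modularFunctionFieldFullC K (M' * q)) (((w⁻¹ : Rˣ) : R) ^ 12) := by
    rw [dq56b_mul, ← map_pow, ← map_mul, ← mul_pow, ← hqeq, map_pow, map_natCast]
  have hεu : IsUnit (algebraMap R ↥(pk15_chart R s) (((w⁻¹ : Rˣ) : R) ^ 12)) :=
    ((Units.isUnit (w⁻¹ : Rˣ)).pow 12).map _
  have hεF : algebraMap R ↥(modularFunctionFieldFullC K (M' * q)) (((w⁻¹ : Rˣ) : R) ^ 12) ≠ 0 := by
    intro h0
    have h1' : ((algebraMap R ↥(pk15_chart R s) (((w⁻¹ : Rˣ) : R) ^ 12) : ↥(pk15_chart R s)) :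
        ↥(modularFunctionFieldFullC K (M' * q))) = 0 := by
      rw [Subalgebra.coe_algebraMap]
      exact h0
    exact hεu.ne_zero (Subtype.ext h1')
  have hU0 : dq56b_U (K := K) M' q hq ≠ 0 := dq56b_U_ne_zero M' q hq
  have hV0 : dq56b_V (K := K) M' q hq hM' ≠ 0 := by
    intro h0
    rw [h0, mul_zero] at hUVF
    exact mul_ne_zero (pow_ne_zero 12 hπ0) hεF hUVF.symm
  obtain ⟨u, hu⟩ : ∃ u : ↥(pk15_chart R s), (u : ↥(modularFunctionFieldFullC K (M' * q))) =
      (aJ : ↥(modularFunctionFieldFullC K (M' * q))) ^ kU * dq56b_U (K := K) M' q hq :=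
    ⟨⟨_, hkU⟩, rfl⟩
  obtain ⟨v, hv⟩ : ∃ v : ↥(pk15_chart R s), (v : ↥(modularFunctionFieldFullC K (M' * q))) =
      (aJ : ↥(modularFunctionFieldFullC K (M' * q))) ^ kV * dq56b_V (K := K) M' q hq hM' :=
    ⟨⟨_, hkV⟩, rfl⟩
  have haJk : ∀ k : ℕ, aJ ^ k ∉ m' := fun k hk => haJ (hprime.mem_of_pow_mem k hk)
  have he : aJ ^ (kU + kV) * algebraMap R ↥(pk15_chart R s) (((w⁻¹ : Rˣ) : R) ^ 12) ∉ m' := by
    intro hmem
    rcases hprime.mem_or_mem hmem with h | h
    · exact haJk _ h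
    · exact hprime.ne_top (Ideal.eq_top_of_isUnit_mem _ h hεu)
  have huv : u * v = algebraMap R ↥(pk15_chart R s) π ^ 12 *
      (aJ ^ (kU + kV) * algebraMap R ↥(pk15_chart R s) (((w⁻¹ : Rˣ) : R) ^ 12)) := by
    apply Subtype.ext
    simp only [Subalgebra.coe_mul, Subalgebra.coe_pow, Subalgebra.coe_algebraMap]
    rw [hu, hv, pow_add]
    linear_combination (aJ : ↥(modularFunctionFieldFullC K (M' * q))) ^ kU *
      (aJ : ↥(modularFunctionFieldFullC K (M' * q))) ^ kV * hUVF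
  have hun : u ∈ m' := by
    apply h2
    have hUeq : dq56b_U (K := K) M' q hq =
        algebraMap R ↥(modularFunctionFieldFullC K (M' * q)) π ^ 12 *
          algebraMap R ↥(modularFunctionFieldFullC K (M' * q)) (((w⁻¹ : Rˣ) : R) ^ 12) *
          (dq56b_V (K := K) M' q hq hM')⁻¹ := by
      rw [← hUVF, mul_assoc, mul_inv_cancel₀ hV0, mul_one]
    have e1 : (algebraMap R ↥(modularFunctionFieldFullC K (M' * q)) π)⁻¹ *
        (u : ↥(modularFunctionFieldFullC K (M' * q))) =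
        (aJ : ↥(modularFunctionFieldFullC K (M' * q))) ^ kU *
          (algebraMap R ↥(modularFunctionFieldFullC K (M' * q)) π ^ 11 *
            algebraMap R ↥(modularFunctionFieldFullC K (M' * q)) (((w⁻¹ : Rˣ) : R) ^ 12) *
            (dq56b_V (K := K) M' q hq hM')⁻¹) := by
      rw [hu]
      nth_rewrite 1 [hUeq]
      have h12 : algebraMap R ↥(modularFunctionFieldFullC K (M' * q)) π ^ 12 =
          algebraMap R ↥(modularFunctionFieldFullC K (M' * q)) π *
            algebraMap R ↥(modularFunctionFieldFullC K (M' * q)) π ^ 11 := by ring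
      rw [h12]
      field_simp
    rw [e1]
    exact Subring.mul_mem _ (hB₂ _ (pow_mem aJ.2 kU))
      (Subring.mul_mem _ (Subring.mul_mem _
        (pow_mem (hB₂ _ ((pk15_chart R s).algebraMap_mem π)) 11)
        (hB₂ _ ((pk15_chart R s).algebraMap_mem _))) (dq56b_Vinv_mem_V0 M' q hq hM' hπ))
  have hu1 : (algebraMap R ↥(modularFunctionFieldFullC K (M' * q)) π)⁻¹ *
      (u : ↥(modularFunctionFieldFullC K (M' * q))) ∉
        (cm85_Vinf (K := K) (M' * q) hπ).toSubring := by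
    intro hmem
    have h3 := Subring.mul_mem _ hmem (dq56b_Uinv_mem_Vinf M' q hq hπ)
    rw [hu, mul_assoc, mul_assoc, mul_inv_cancel₀ hU0, mul_one] at h3
    apply haJk kU
    apply h1
    rw [Subalgebra.coe_pow]
    exact h3
  -- the reduction
  have hρmul : ∀ x ∈ (cm85_Vinf (K := K) (M' * q) hπ).toSubring,
      ∀ y ∈ (cm85_Vinf (K := K) (M' * q) hπ).toSubring,
      ntf35_red R (M' * q) (x * y) = ntf35_red R (M' * q) x * ntf35_red R (M' * q) y :=
    fun x hx y hy => ntf35_red_mul (M' * q) hπ x y hx hy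
  have hρC : ∀ r : R, ntf35_red R (M' * q)
      (algebraMap R ↥(modularFunctionFieldFullC K (M' * q)) r) =
      algebraMap (IsLocalRing.ResidueField R) (LaurentSeries (IsLocalRing.ResidueField R))
        (IsLocalRing.residue R r) := by
    intro r
    rw [IsScalarTower.algebraMap_apply R K ↥(modularFunctionFieldFullC K (M' * q)),
      ntf35_red_algebraMap]
    exact (LaurentSeries.algebraMap_apply _ _).symm
  have hJcoe : ((rm90_j K (M' * q) : ↥(modularFunctionFieldFullC K (M' * q))) :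
      LaurentSeries K) = coeffMap (algebraMap R K) (jqModC R) :=
    (coeffMap_jqModC (algebraMap R K)).symm
  have hJV : rm90_j K (M' * q) ∈ (cm85_Vinf (K := K) (M' * q) hπ).toSubring :=
    (pk85_gauss (M' * q) hπ _ _ hJcoe).1
  have hUV : dq56b_U (K := K) M' q hq ∈ (cm85_Vinf (K := K) (M' * q) hπ).toSubring :=
    dq56b_U_mem_Vinf M' q hq hπ
  have hρJ : ntf35_red R (M' * q) (rm90_j K (M' * q)) = jqModC (IsLocalRing.ResidueField R) := by
    rw [rgn19_red_integral (M' * q) _ _ hJcoe, coeffMap_jqModC]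
  have hρU : ntf35_red R (M' * q) (dq56b_U (K := K) M' q hq) =
      dq56_U (IsLocalRing.ResidueField R) q := by
    rw [rgn19_red_integral (M' * q) _ _ (dq56b_U_coe M' q hq (algebraMap R K)), dq56_coeffMap_U]
  -- the rigidity roots at `m'`
  have hreg : ∃ s₀ : ↥(pk15_chart R s), s₀ ∉ m' ∧
      (s₀ : ↥(modularFunctionFieldFullC K (M' * q))) * rm90_j K (M' * q) ∈ pk15_chart R s :=
    ⟨aJ, haJ, by rw [hJ]; exact bJ.2⟩
  have hR3' : rn19_RootAt (pk15_chart R s) m' (rm90_j K (M' * q)) 3 := by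
    obtain ⟨c3, ε3, -, hf3, h3a, h3b, h3c⟩ := hR3 m' hm' hπn hreg
    exact ⟨c3, ε3, hf3, h3a, h3b, h3c⟩
  have hR2' : rn19_RootAt (pk15_chart R s) m' (rm90_j K (M' * q) - 1728) 2 := by
    obtain ⟨c2, ε2, -, hf2, h2a, h2b, h2c⟩ := hR2 m' hm' hπn hreg
    exact ⟨c2, ε2, hf2, h2a, h2b, h2c⟩
  have hR12' : q = 2 → ∃ g : ↥(modularFunctionFieldFullC K (M' * q)),
      ∃ ag bg : ↥(pk15_chart R s), ag ∉ m' ∧
        (ag : ↥(modularFunctionFieldFullC K (M' * q))) * g =
          (bg : ↥(modularFunctionFieldFullC K (M' * q))) ∧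
        rm90_j K (M' * q) * g ^ 3 = (g + 27) * (g + 243) ^ 3 ∧
        rn19_RootAt (pk15_chart R s) m' (g + 27) 3 := by
    intro hq2
    obtain ⟨g, hgreg, hrel, hroot⟩ := hR12 hq2
    obtain ⟨ag, bg, hag, hg⟩ := hgreg m' hprime ⟨aJ, bJ, haJ, hJ⟩
    obtain ⟨c, ε, -, hf, ha, hb, hc⟩ := hroot m' hm' hπn hreg
    exact ⟨g, ag, bg, hag, hg, hrel, ⟨c, ε, hf, ha, hb, hc⟩⟩
  exact rn19_node q hq π (pk15_chart R s) (cm85_Vinf (K := K) (M' * q) hπ).toSubring
    (s34i47c_V0 (K := K) M' q hq hM' hπ).toSubring hB₁ hB₂ hπ₁ hV₁ hsat' hT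
    (ntf35_red R (M' * q)) hρmul hρC hred (rm90_j K (M' * q)) (dq56b_U (K := K) M' q hq)
    hJV hUV hρJ hρU m' hm' hπn h1 h2 z₁ hz₁ aJ bJ haJ hJ (aJ ^ kU) u v _ (haJk kU)
    (by rw [Subalgebra.coe_pow, hu]) he huv hun hu1 hR3' hR2' hR12'

/-- `rc43_Root` for `J` is `rt79_RootAt` for `j`. -/
theorem rgn19_root_J (N : ℕ) [NeZero N] [Algebra R ↥(modularFunctionFieldFullC K N)]
    (π : R) (B : Subalgebra R ↥(modularFunctionFieldFullC K N))
    (h : rc43_Root π B 3 (relimc_J K N)) :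
    rt79_RootAt π B (rm90_j K N) (rm90_j K N) 3 :=
  fun n hn hπn hreg => h n hn hπn hreg

/-- `rc43_Root` for `J - 1728` is `rt79_RootAt` for `j - 1728`. -/
theorem rgn19_root_J1728 (N : ℕ) [NeZero N] [Algebra R ↥(modularFunctionFieldFullC K N)]
    (π : R) (B : Subalgebra R ↥(modularFunctionFieldFullC K N))
    (h : rc43_Root π B 2 (relimc_J K N - 1728)) :
    rt79_RootAt π B (rm90_j K N) (rm90_j K N - 1728) 2 := by
  intro n hn hπn hreg
  obtain ⟨s, hs, hsj⟩ := hreg
  refine h n hn hπn ⟨s, hs, ?_⟩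
  have e : (s : ↥(modularFunctionFieldFullC K N)) * (relimc_J K N - 1728) =
      (s : ↥(modularFunctionFieldFullC K N)) * rm90_j K N -
        ((1728 : ℕ) : ↥(modularFunctionFieldFullC K N)) *
          (s : ↥(modularFunctionFieldFullC K N)) := by
    have hJ : relimc_J K N = rm90_j K N := rfl
    rw [hJ]
    push_cast
    ring
  rw [e]
  exact B.sub_mem hsj (B.mul_mem (natCast_mem B 1728) s.2)

/-- **The Hauptmodul of level `3` is regular wherever `j` is** (chart of `h⁻¹`). -/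
theorem rgn19_h_regular {R₀ F : Type*} [CommRing R₀] [Field F] [Algebra R₀ F]
    (B : Subalgebra R₀ F) (n : Ideal B) [hn : n.IsPrime]
    (J h : F) (hrel : J * h ^ 3 = (h + 27) * (h + 243) ^ 3) (hinv : h⁻¹ ∈ B)
    (hJ : ∃ a b : B, a ∉ n ∧ (a : F) * J = b) : ∃ ag bg : B, ag ∉ n ∧ (ag : F) * h = bg := by
  obtain ⟨a, b, ha, hab⟩ := hJ
  have hone : (1 : B) ∉ n := fun h1 => hn.ne_top ((Ideal.eq_top_iff_one _).mpr h1)
  by_cases h0 : h = 0
  · exact ⟨1, 0, hone, by rw [h0, mul_zero]; rfl⟩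
  · obtain ⟨t, ht⟩ : ∃ t : B, (t : F) = h⁻¹ := ⟨⟨_, hinv⟩, rfl⟩
    have c27 : ((27 : B) : F) = 27 := map_ofNat B.val 27
    have c243 : ((243 : B) : F) = 243 := map_ofNat B.val 243
    have key : J * h⁻¹ = (1 + 27 * h⁻¹) * (1 + 243 * h⁻¹) ^ 3 := by
      calc J * h⁻¹ = (J * h ^ 3) * h⁻¹ ^ 4 := by field_simp
        _ = ((h + 27) * (h + 243) ^ 3) * h⁻¹ ^ 4 := by rw [hrel]
        _ = (1 + 27 * h⁻¹) * (1 + 243 * h⁻¹) ^ 3 := by field_simp
    have hB : b * t = a * (1 + 27 * t) * (1 + 243 * t) ^ 3 := by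
      apply Subtype.ext
      simp only [Subalgebra.coe_mul, Subalgebra.coe_pow, Subalgebra.coe_add, Subalgebra.coe_one,
        c27, c243]
      rw [← hab, ht]
      linear_combination (a : F) * key
    have htn : t ∉ n := by
      intro htn
      have h1 : a * (1 + 27 * t) * (1 + 243 * t) ^ 3 ∈ n := hB ▸ n.mul_mem_left b htn
      rcases hn.mem_or_mem h1 with h2 | h2
      · rcases hn.mem_or_mem h2 with h3 | h3
        · exact ha h3
        · apply hone
          have e : (1 : B) = (1 + 27 * t) - 27 * t := by ring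
          rw [e]
          exact n.sub_mem h3 (n.mul_mem_left 27 htn)
      · have h3 := hn.mem_of_pow_mem 3 h2
        apply hone
        have e : (1 : B) = (1 + 243 * t) - 243 * t := by ring
        rw [e]
        exact n.sub_mem h3 (n.mul_mem_left 243 htn)
    exact ⟨t, 1, htn, by rw [ht, inv_mul_cancel₀ h0]; rfl⟩

/-- **(REG-q), row 599: labelled regular nodes on both affine charts of every admissible
Hauptmodul of level `M' q`**, at a rigid good level `M'` (`nuTwo M' = 0`, `nuThree M' = 0`),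
unramified base (`q` a uniformizer of `R`).  All primes `q` (for `q = 2` the Hauptmodul is
`h₃`, for `q = 3` it is `h₂`). -/
theorem rgn19_regNodes (hunit : ∀ n : ℕ, Nat.Coprime n q → IsUnit (n : R))
    (hqR : ¬ IsUnit (q : R)) (hqπ : Associated ((q : ℕ) : R) π)
    (hν2 : nuTwo M' = 0) (hν3 : nuThree M' = 0)
    (h : ↥(modularFunctionFieldFullC K (M' * q))) (hh : s34i47c_IsHaupt K (M' * q) q h) :
    tf71_RegNodes (K := K) M' q hq hM' hπ
        (pk15_chart R ({h} : Set ↥(modularFunctionFieldFullC K (M' * q)))) ∧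
      tf71_RegNodes (K := K) M' q hq hM' hπ
        (pk15_chart R ({h⁻¹} : Set ↥(modularFunctionFieldFullC K (M' * q)))) := by
  letI : Algebra R ↥(modularFunctionFieldFullC K M') :=
    ((algebraMap K ↥(modularFunctionFieldFullC K M')).comp (algebraMap R K)).toAlgebra
  haveI : IsScalarTower R K ↥(modularFunctionFieldFullC K M') :=
    IsScalarTower.of_algebraMap_eq (fun _ => rfl)
  haveI : Algebra.IsAlgebraic K Q̄ := cx_isAlgebraic_closure K
  have hMu : IsUnit (M' : R) :=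
    hunit M' (Nat.Coprime.symm ((Nat.Prime.coprime_iff_not_dvd hq).mpr hM'))
  obtain ⟨⟨hBW1, hsat1, -, -, hSm1⟩, ⟨hBW2, hsat2, -, -, hSm2⟩⟩ :=
    nf79c_chart_facts (K := K) M' q hq hM' hπ hunit hqR h hh
  obtain ⟨hT1, hT2⟩ := ft49_frameTransv M' q hq hM' R K π hπ hunit hqR h hh
  rcases hh with ⟨hq2, h2, rfl⟩ | ⟨hq3, h3, rfl⟩
  · have hcop : Nat.Coprime 2 q := (Nat.coprime_primes Nat.prime_two hq).mpr (Ne.symm hq2)
    have h2' : 2 ∣ M' := hcop.dvd_of_dvd_mul_right h2
    have h2u : IsUnit (2 : R) := by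
      have := hunit 2 hcop
      rwa [Nat.cast_ofNat] at this
    obtain ⟨hred1, hred2⟩ := rhi19_red_q_level2 (R := R) (K := K) M' q hq hM' hπ hqR h2' hMu
    obtain ⟨h3a, h2a⟩ := rc43_level2 (R := R) (K := K) M' hπ h2' hMu
    obtain ⟨hJ3, hJ3'⟩ := h3a hν3
    obtain ⟨hJ2, hJ2'⟩ := h2a hν2
    have hR3 := rt79c_level2 M' q π h2' h2u (rm90_j K M') 3 (rgn19_root_J M' π _ hJ3)
    have hR3' := rt79c_level2_inv M' q π h2' (rm90_j K M') 3 (rgn19_root_J M' π _ hJ3')
    have hR2 := rt79c_level2 M' q π h2' h2u (rm90_j K M' - 1728) 2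
      (rgn19_root_J1728 M' π _ hJ2)
    have hR2' := rt79c_level2_inv M' q π h2' (rm90_j K M' - 1728) 2
      (rgn19_root_J1728 M' π _ hJ2')
    rw [rt79c_alpha_j] at hR3 hR3'
    rw [map_sub, rt79c_alpha_j, map_ofNat] at hR2 hR2'
    exact ⟨rgn19_of M' q hq hM' hπ hqR hqπ _ hBW1 hsat1 hT1 hSm1 hred1
        (fun n hn h1 h2 => by
          haveI := hn
          exact cf22_level2 (algebraMap K Q̄) M' q hq hM' hπ hqR h2' h2u n h1 h2)
        hR3 hR2 (fun hq2' => absurd hq2' hq2),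
      rgn19_of M' q hq hM' hπ hqR hqπ _ hBW2 hsat2 hT2 hSm2 hred2
        (fun n hn h1 h2 => by
          haveI := hn
          exact cf22_level2_inv (algebraMap K Q̄) M' q hq hM' hπ hqR h2' n h1 h2)
        hR3' hR2' (fun hq2' => absurd hq2' hq2)⟩
  · have hcop : Nat.Coprime 3 q := (Nat.coprime_primes Nat.prime_three hq).mpr (Ne.symm hq3)
    have h3' : 3 ∣ M' := hcop.dvd_of_dvd_mul_right h3
    have h3u : IsUnit (3 : R) := by
      have := hunit 3 hcop
      rwa [Nat.cast_ofNat] at this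
    obtain ⟨hred1, hred2⟩ := rhi19_red_q_level3 (R := R) (K := K) M' q hq hM' hπ hqR h3' hMu
    obtain ⟨h3a, h2a⟩ := rc43_level3 (R := R) (K := K) M' hπ h3' hMu
    obtain ⟨hJ3, hJ3'⟩ := h3a hν3
    obtain ⟨hJ2, hJ2'⟩ := h2a hν2
    obtain ⟨hH, hH'⟩ := rc43_level3_h27 (R := R) (K := K) M' hπ h3' hMu hν3
    have hR3 := rt79c_level3 M' q π h3' h3u (rm90_j K M') 3 (rgn19_root_J M' π _ hJ3)
    have hR3' := rt79c_level3_inv M' q π h3' (rm90_j K M') 3 (rgn19_root_J M' π _ hJ3')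
    have hR2 := rt79c_level3 M' q π h3' h3u (rm90_j K M' - 1728) 2
      (rgn19_root_J1728 M' π _ hJ2)
    have hR2' := rt79c_level3_inv M' q π h3' (rm90_j K M' - 1728) 2
      (rgn19_root_J1728 M' π _ hJ2')
    rw [rt79c_alpha_j] at hR3 hR3'
    rw [map_sub, rt79c_alpha_j, map_ofNat] at hR2 hR2'
    have hrelq : rm90_j K (M' * q) * pk85_h3 K (M' * q) h3 ^ 3 =
        (pk85_h3 K (M' * q) h3 + 27) * (pk85_h3 K (M' * q) h3 + 243) ^ 3 :=
      rc43_h3_rel (K := K) (M' * q) h3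
    have hrel' : rm90_j K M' * pk85_h3 K M' h3' ^ 3 =
        (pk85_h3 K M' h3' + 27) * (pk85_h3 K M' h3' + 243) ^ 3 :=
      rc43_h3_rel (K := K) M' h3'
    -- the root of `h₃ + 27` at the good level, in the `rt79_RootAt` form
    have hK : rt79_RootAt π
        (pk15_chart R ({pk85_h3 K M' h3'} : Set ↥(modularFunctionFieldFullC K M')))
        (rm90_j K M') (pk85_h3 K M' h3' + 27) 3 := by
      intro n hn hπn _
      refine hH n hn hπn ⟨1, fun h1 => hn.ne_top ((Ideal.eq_top_iff_one _).mpr h1), ?_⟩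
      rw [OneMemClass.coe_one, one_mul]
      exact Subalgebra.add_mem _ (pk15_subset_chart _ (Set.mem_singleton _))
        (by exact_mod_cast natCast_mem (pk15_chart R
          ({pk85_h3 K M' h3'} : Set ↥(modularFunctionFieldFullC K M'))) 27)
    have hK' : rt79_RootAt π
        (pk15_chart R ({(pk85_h3 K M' h3')⁻¹} : Set ↥(modularFunctionFieldFullC K M')))
        (rm90_j K M') (pk85_h3 K M' h3' + 27) 3 := by
      intro n hn hπn hreg
      haveI := hn.isPrime
      obtain ⟨s₀, hs₀, hs₀j⟩ := hreg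
      obtain ⟨ag, bg, hag, hg⟩ := rgn19_h_regular _ n (rm90_j K M') (pk85_h3 K M' h3') hrel'
        (pk15_subset_chart _ (Set.mem_singleton _)) ⟨s₀, ⟨_, hs₀j⟩, hs₀, rfl⟩
      refine hH' n hn hπn ⟨ag, hag, ?_⟩
      rw [mul_add, hg]
      exact Subalgebra.add_mem _ bg.2 (Subalgebra.mul_mem _ ag.2
        (by exact_mod_cast natCast_mem (pk15_chart R
          ({(pk85_h3 K M' h3')⁻¹} : Set ↥(modularFunctionFieldFullC K M'))) 27))
    have hK1 := rt79c_level3 M' q π h3' h3u (pk85_h3 K M' h3' + 27) 3 hK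
    have hK1' := rt79c_level3_inv M' q π h3' (pk85_h3 K M' h3' + 27) 3 hK'
    rw [map_add, rt79c_alpha_h3, map_ofNat] at hK1 hK1'
    exact ⟨rgn19_of M' q hq hM' hπ hqR hqπ _ hBW1 hsat1 hT1 hSm1 hred1
        (fun n hn h1 h2 => by
          haveI := hn
          exact cf22_level3 (algebraMap K Q̄) M' q hq hM' hπ hqR h3' h3u n h1 h2)
        hR3 hR2 (fun _ => ⟨pk85_h3 K (M' * q) h3,
          fun n hn _ => ⟨1, ⟨_, pk15_subset_chart _ (Set.mem_singleton _)⟩,
            fun h1 => hn.ne_top ((Ideal.eq_top_iff_one _).mpr h1),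
            by rw [OneMemClass.coe_one, one_mul]⟩,
          hrelq, hK1⟩),
      rgn19_of M' q hq hM' hπ hqR hqπ _ hBW2 hsat2 hT2 hSm2 hred2
        (fun n hn h1 h2 => by
          haveI := hn
          exact cf22_level3_inv (algebraMap K Q̄) M' q hq hM' hπ hqR h3' n h1 h2)
        hR3' hR2' (fun _ => ⟨pk85_h3 K (M' * q) h3,
          fun n hn hJ => by
            haveI := hn
            exact rgn19_h_regular _ n (rm90_j K (M' * q)) (pk85_h3 K (M' * q) h3) hrelq
              (pk15_subset_chart _ (Set.mem_singleton _)) hJ,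
          hrelq, hK1'⟩)⟩

end rgn19

end Fermat.Agent.S36
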