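import Mathlib
import Fermat.Agent.S36.C2Final11
import Fermat.Agent.S36.FrameBind85
import Fermat.Agent.S36.FrameCore6_47
import Fermat.Agent.S36.V2Final64
import Fermat.Agent.S36.MidBind62
import Fermat.Agent.S34.CuspInst22
import Fermat.Agent.S18.ConstExtModular25

/-!
# S36 lab, row 600 (helper84): `s36i62j_Reg2` — the middle branch at the `j`-regular `C₂`-only points

Twin binder of the last open statement of the S36 chain (`s36i62j_Reg2`, MidBind62): on the two
canonical charts `pk15_chart R {h}`, `pk15_chart R {h⁻¹}` (`h = pk85_h2 K (M' q q) _`) of level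
`M' q q` the middle branch is principal (`mc25_MidPrinAt`) at every closed point lying on the
middle branch only at which `j` is regular.

Route: `c2f11_hreg_gen` (C2Final11, helper11; chart-generic, case split inside) with
* the frame facts of the charts from `fb85_frameV3_level2` (FrameBind85) and `ci22_chart_closed`;
* the chart datum `sc` (`sc ∉ n`, `sc * j ∈ B`, `sc⁻¹ ∈ V₁`): `sc = h ^ 2` on `{h}` and
  `sc = h⁻¹` on `{h⁻¹}`, from the Hauptmodul relation `j h² = (h + 256)³` (`pk85_h2_rel`) and the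
  regularity of `j` at `n` (`reg84_sc_notMem`, `reg84_sc_notMem_inv`);
* `q ≠ 3 → 3 ∣ M'` from the strongly rigid level.

* `reg84_level2` : the statement at one level (binders of `s36i62j_Reg2` after `Rigid6`);
* `reg84_Reg2 : s36i62j_Reg2`.

All names are prefixed `reg84_`.
-/

set_option autoImplicit false
set_option linter.unusedSectionVars false
set_option linter.unusedVariables false
set_option linter.style.haveILetI false
set_option linter.style.longLine false

open ModularCurve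

namespace Fermat.Agent.S36

open Fermat.Agent.S18 Fermat.Agent.S24 Fermat.Agent.S34 Fermat.Agent.S35
open Fermat.Agent.S36.TripleLoc71

local notation "Q̄" => AlgebraicClosure ℚ

section Abs

variable {R F : Type*} [CommRing R] [Field F] [Algebra R F]

/-- `j` regular at `n` and `j H² = (H + 256)³`, `2` a unit: `H² ∉ n`. -/
theorem reg84_sc_notMem (B : Subalgebra R F) (n : Ideal B) [hn : n.IsPrime] (H j : F)
    (hH : H ∈ B) (h2 : IsUnit (2 : R)) (hrel : j * H ^ 2 = (H + 256) ^ 3) (s' b' : B)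
    (hs' : s' ∉ n) (hsj : (s' : F) * j = (b' : F)) : (⟨H, hH⟩ : B) ^ 2 ∉ n := by
  intro hmem
  have hHn : (⟨H, hH⟩ : B) ∈ n := hn.mem_of_pow_mem 2 hmem
  have e : b' * (⟨H, hH⟩ : B) ^ 2 = s' * ((⟨H, hH⟩ : B) + algebraMap R B 256) ^ 3 := by
    apply Subtype.ext
    show (b' : F) * H ^ 2 = (s' : F) * (H + algebraMap R F 256) ^ 3
    rw [map_ofNat, ← hsj, ← hrel]
    ring
  have h1 : s' * ((⟨H, hH⟩ : B) + algebraMap R B 256) ^ 3 ∈ n := by
    rw [← e]
    exact n.mul_mem_left _ hmem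
  have h3 : (⟨H, hH⟩ : B) + algebraMap R B 256 ∈ n :=
    hn.mem_of_pow_mem 3 ((hn.mem_or_mem h1).resolve_left hs')
  have h256 : algebraMap R B 256 ∈ n := by
    have h4 := n.sub_mem h3 hHn
    rwa [add_sub_cancel_left] at h4
  have h28 : algebraMap R B 2 ^ 8 ∈ n := by
    rw [← map_pow]
    norm_num
    exact h256
  have h2n : algebraMap R B 2 ∈ n := hn.mem_of_pow_mem 8 h28
  exact hn.ne_top (n.eq_top_of_isUnit_mem h2n (h2.map (algebraMap R B)))

/-- `j` regular at `n` and `g j = (1 + 256 g)³`: `g ∉ n`. -/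
theorem reg84_sc_notMem_inv (B : Subalgebra R F) (n : Ideal B) [hn : n.IsPrime] (g j : F)
    (hg : g ∈ B) (hrel : g * j = (1 + 256 * g) ^ 3) (s' b' : B)
    (hs' : s' ∉ n) (hsj : (s' : F) * j = (b' : F)) : (⟨g, hg⟩ : B) ∉ n := by
  intro hmem
  have e : b' * (⟨g, hg⟩ : B) = s' * (1 + algebraMap R B 256 * (⟨g, hg⟩ : B)) ^ 3 := by
    apply Subtype.ext
    show (b' : F) * g = (s' : F) * (1 + algebraMap R F 256 * g) ^ 3
    rw [map_ofNat, ← hrel, ← hsj]
    ring
  have h1 : s' * (1 + algebraMap R B 256 * (⟨g, hg⟩ : B)) ^ 3 ∈ n := by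
    rw [← e]
    exact n.mul_mem_left _ hmem
  have h3 : 1 + algebraMap R B 256 * (⟨g, hg⟩ : B) ∈ n :=
    hn.mem_of_pow_mem 3 ((hn.mem_or_mem h1).resolve_left hs')
  have h4 : (1 : B) ∈ n := by
    have h5 := n.sub_mem h3 (n.mul_mem_left (algebraMap R B 256) hmem)
    rwa [add_sub_cancel_right] at h5
  exact hn.ne_top ((Ideal.eq_top_iff_one n).mpr h4)

end Abs

section Canon

/-- **Row 600 at one level, Hauptmodul of level 2** (binders of `s36i62j_Reg2` after the rigidity
hypothesis, with `q ≠ 3 → 3 ∣ M'`). -/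
theorem reg84_level2 (M' q : ℕ) [NeZero M'] [NeZero q] (hq : q.Prime) (hM' : ¬ q ∣ M')
    (h2 : 2 ∣ M') (h3o : q ≠ 3 → 3 ∣ M')
    (R K : Type) [CommRing R] [IsDomain R] [IsDiscreteValuationRing R] [Field K]
    [NumberField K] [Algebra K Q̄] [Algebra R K] [IsFractionRing R K]
    [Algebra R ↥(modularFunctionFieldFullC K (M' * q * q))]
    [IsScalarTower R K ↥(modularFunctionFieldFullC K (M' * q * q))]
    (hπ : Irreducible ((q : ℕ) : R)) (hunit : ∀ k : ℕ, Nat.Coprime k q → IsUnit (k : R)) :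
    (∀ n : Ideal ↥(pk15_chart R ({(pk85_h2 K (M' * q * q) (h2.trans ((dvd_mul_right M' q).trans (dvd_mul_right (M' * q) q))))} : Set ↥(modularFunctionFieldFullC K (M' * q * q)))), n.IsMaximal →
        algebraMap R ↥(pk15_chart R ({(pk85_h2 K (M' * q * q) (h2.trans ((dvd_mul_right M' q).trans (dvd_mul_right (M' * q) q))))} : Set ↥(modularFunctionFieldFullC K (M' * q * q)))) ((q : ℕ) : R) ∈ n →
        tl71_OnMid (v2g64_s K M' q) (pk15_chart R ({(pk85_h2 K (M' * q * q) (h2.trans ((dvd_mul_right M' q).trans (dvd_mul_right (M' * q) q))))} : Set ↥(modularFunctionFieldFullC K (M' * q * q))))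
          (v2g64_V2 (algebraMap K Q̄) M' q hq hM' hπ (Associated.refl _)).toSubring n →
        ¬ sf79_OnBr ((q : ℕ) : R) (pk15_chart R ({(pk85_h2 K (M' * q * q) (h2.trans ((dvd_mul_right M' q).trans (dvd_mul_right (M' * q) q))))} : Set ↥(modularFunctionFieldFullC K (M' * q * q))))
          (cm85_Vinf (K := K) (M' * q * q) hπ).toSubring n →
        ¬ sf79_OnBr ((q : ℕ) : R) (pk15_chart R ({(pk85_h2 K (M' * q * q) (h2.trans ((dvd_mul_right M' q).trans (dvd_mul_right (M' * q) q))))} : Set ↥(modularFunctionFieldFullC K (M' * q * q))))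
          (nsb86_V3 (K := K) M' q hq hM' hπ).toSubring n →
        (∃ s' b : ↥(pk15_chart R ({(pk85_h2 K (M' * q * q) (h2.trans ((dvd_mul_right M' q).trans (dvd_mul_right (M' * q) q))))} : Set ↥(modularFunctionFieldFullC K (M' * q * q)))), s' ∉ n ∧
          (s' : ↥(modularFunctionFieldFullC K (M' * q * q))) * rm90_j K (M' * q * q) = (b : ↥(modularFunctionFieldFullC K (M' * q * q)))) →
        mc25_MidPrinAt (v2g64_s K M' q) (pk15_chart R ({(pk85_h2 K (M' * q * q) (h2.trans ((dvd_mul_right M' q).trans (dvd_mul_right (M' * q) q))))} : Set ↥(modularFunctionFieldFullC K (M' * q * q))))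
          (v2g64_V2 (algebraMap K Q̄) M' q hq hM' hπ (Associated.refl _)).toSubring n) ∧
    (∀ n : Ideal ↥(pk15_chart R ({(pk85_h2 K (M' * q * q) (h2.trans ((dvd_mul_right M' q).trans (dvd_mul_right (M' * q) q))))⁻¹} : Set ↥(modularFunctionFieldFullC K (M' * q * q)))), n.IsMaximal →
        algebraMap R ↥(pk15_chart R ({(pk85_h2 K (M' * q * q) (h2.trans ((dvd_mul_right M' q).trans (dvd_mul_right (M' * q) q))))⁻¹} : Set ↥(modularFunctionFieldFullC K (M' * q * q)))) ((q : ℕ) : R) ∈ n →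
        tl71_OnMid (v2g64_s K M' q) (pk15_chart R ({(pk85_h2 K (M' * q * q) (h2.trans ((dvd_mul_right M' q).trans (dvd_mul_right (M' * q) q))))⁻¹} : Set ↥(modularFunctionFieldFullC K (M' * q * q))))
          (v2g64_V2 (algebraMap K Q̄) M' q hq hM' hπ (Associated.refl _)).toSubring n →
        ¬ sf79_OnBr ((q : ℕ) : R) (pk15_chart R ({(pk85_h2 K (M' * q * q) (h2.trans ((dvd_mul_right M' q).trans (dvd_mul_right (M' * q) q))))⁻¹} : Set ↥(modularFunctionFieldFullC K (M' * q * q))))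
          (cm85_Vinf (K := K) (M' * q * q) hπ).toSubring n →
        ¬ sf79_OnBr ((q : ℕ) : R) (pk15_chart R ({(pk85_h2 K (M' * q * q) (h2.trans ((dvd_mul_right M' q).trans (dvd_mul_right (M' * q) q))))⁻¹} : Set ↥(modularFunctionFieldFullC K (M' * q * q))))
          (nsb86_V3 (K := K) M' q hq hM' hπ).toSubring n →
        (∃ s' b : ↥(pk15_chart R ({(pk85_h2 K (M' * q * q) (h2.trans ((dvd_mul_right M' q).trans (dvd_mul_right (M' * q) q))))⁻¹} : Set ↥(modularFunctionFieldFullC K (M' * q * q)))), s' ∉ n ∧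
          (s' : ↥(modularFunctionFieldFullC K (M' * q * q))) * rm90_j K (M' * q * q) = (b : ↥(modularFunctionFieldFullC K (M' * q * q)))) →
        mc25_MidPrinAt (v2g64_s K M' q) (pk15_chart R ({(pk85_h2 K (M' * q * q) (h2.trans ((dvd_mul_right M' q).trans (dvd_mul_right (M' * q) q))))⁻¹} : Set ↥(modularFunctionFieldFullC K (M' * q * q))))
          (v2g64_V2 (algebraMap K Q̄) M' q hq hM' hπ (Associated.refl _)).toSubring n) := by
  classical
  haveI : Algebra.IsAlgebraic K Q̄ := cx_isAlgebraic_closure K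
  letI a1 : Algebra R ↥(modularFunctionFieldFullC K M') :=
    ((algebraMap K ↥(modularFunctionFieldFullC K M')).comp (algebraMap R K)).toAlgebra
  haveI : IsScalarTower R K ↥(modularFunctionFieldFullC K M') :=
    IsScalarTower.of_algebraMap_eq (fun _ => rfl)
  letI a2 : Algebra R ↥(modularFunctionFieldFullC K (M' * q)) :=
    ((algebraMap K ↥(modularFunctionFieldFullC K (M' * q))).comp (algebraMap R K)).toAlgebra
  haveI : IsScalarTower R K ↥(modularFunctionFieldFullC K (M' * q)) :=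
    IsScalarTower.of_algebraMap_eq (fun _ => rfl)
  have hqR : ¬ IsUnit ((q : ℕ) : R) := hπ.not_isUnit
  have hMu : IsUnit (M' : R) :=
    hunit M' (Nat.coprime_comm.mp ((Nat.Prime.coprime_iff_not_dvd hq).mpr hM'))
  have h2c : Nat.Coprime 2 q := by
    rw [Nat.coprime_comm, Nat.Prime.coprime_iff_not_dvd hq]
    intro hd
    exact hM' (hd.trans h2)
  have h2u : IsUnit (2 : R) := by
    have h := hunit 2 h2c
    simpa using h
  have hV₂ := v2g64_V2_alpha (algebraMap K Q̄) M' q hq hM' hπ (Associated.refl _)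
  have hπ₂ := v2g64_V2_pi (algebraMap K Q̄) M' q hq hM' hπ (Associated.refl _)
  have hne := v2g64_V2_ne (algebraMap K Q̄) M' q hq hM' hπ (Associated.refl _)
  have hs := v2g64_V2_val (algebraMap K Q̄) M' q hq hM' hπ (Associated.refl _)
  obtain ⟨-, hC, -⟩ := fb85_frameV3_level2 M' q hq hM' hπ hqR hMu h2 _ hV₂ hπ₂ hs
  obtain ⟨htr, h12W, hsat1, hsat2, -⟩ := hC
  have hH0 : (pk85_h2 K (M' * q * q) (h2.trans ((dvd_mul_right M' q).trans (dvd_mul_right (M' * q) q)))) ≠ 0 := by
    intro h0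
    rw [h0] at htr
    exact htr isAlgebraic_zero
  have hrel := pk85_h2_rel K (M' * q * q)
    (h2.trans ((dvd_mul_right M' q).trans (dvd_mul_right (M' * q) q)))
  have hrel' : (pk85_h2 K (M' * q * q) (h2.trans ((dvd_mul_right M' q).trans (dvd_mul_right (M' * q) q))))⁻¹ * rm90_j K (M' * q * q) = (1 + 256 * (pk85_h2 K (M' * q * q) (h2.trans ((dvd_mul_right M' q).trans (dvd_mul_right (M' * q) q))))⁻¹) ^ 3 := by
    have e1 : (pk85_h2 K (M' * q * q) (h2.trans ((dvd_mul_right M' q).trans (dvd_mul_right (M' * q) q))))⁻¹ * rm90_j K (M' * q * q) =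
        (pk85_h2 K (M' * q * q) (h2.trans ((dvd_mul_right M' q).trans (dvd_mul_right (M' * q) q))))⁻¹ ^ 3 * (rm90_j K (M' * q * q) * (pk85_h2 K (M' * q * q) (h2.trans ((dvd_mul_right M' q).trans (dvd_mul_right (M' * q) q)))) ^ 2) := by
      rw [show (pk85_h2 K (M' * q * q) (h2.trans ((dvd_mul_right M' q).trans (dvd_mul_right (M' * q) q))))⁻¹ ^ 3 * (rm90_j K (M' * q * q) * (pk85_h2 K (M' * q * q) (h2.trans ((dvd_mul_right M' q).trans (dvd_mul_right (M' * q) q)))) ^ 2) =
        (pk85_h2 K (M' * q * q) (h2.trans ((dvd_mul_right M' q).trans (dvd_mul_right (M' * q) q))))⁻¹ * rm90_j K (M' * q * q) * ((pk85_h2 K (M' * q * q) (h2.trans ((dvd_mul_right M' q).trans (dvd_mul_right (M' * q) q))))⁻¹ * (pk85_h2 K (M' * q * q) (h2.trans ((dvd_mul_right M' q).trans (dvd_mul_right (M' * q) q))))) ^ 2 by ring, inv_mul_cancel₀ hH0]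
      ring
    have e2 : (pk85_h2 K (M' * q * q) (h2.trans ((dvd_mul_right M' q).trans (dvd_mul_right (M' * q) q))))⁻¹ * ((pk85_h2 K (M' * q * q) (h2.trans ((dvd_mul_right M' q).trans (dvd_mul_right (M' * q) q)))) + 256) = 1 + 256 * (pk85_h2 K (M' * q * q) (h2.trans ((dvd_mul_right M' q).trans (dvd_mul_right (M' * q) q))))⁻¹ := by
      rw [mul_add, inv_mul_cancel₀ hH0]
      ring
    rw [e1, hrel, ← mul_pow, e2]
  have hsub1 : ({(pk85_h2 K (M' * q * q) (h2.trans ((dvd_mul_right M' q).trans (dvd_mul_right (M' * q) q))))} : Set ↥(modularFunctionFieldFullC K (M' * q * q))) ⊆ {(pk85_h2 K (M' * q * q) (h2.trans ((dvd_mul_right M' q).trans (dvd_mul_right (M' * q) q)))), (pk85_h2 K (M' * q * q) (h2.trans ((dvd_mul_right M' q).trans (dvd_mul_right (M' * q) q))))⁻¹} := by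
    intro x hx
    rw [Set.mem_singleton_iff.mp hx]
    exact Set.mem_insert _ _
  have hsub2 : ({(pk85_h2 K (M' * q * q) (h2.trans ((dvd_mul_right M' q).trans (dvd_mul_right (M' * q) q))))⁻¹} : Set ↥(modularFunctionFieldFullC K (M' * q * q))) ⊆ {(pk85_h2 K (M' * q * q) (h2.trans ((dvd_mul_right M' q).trans (dvd_mul_right (M' * q) q)))), (pk85_h2 K (M' * q * q) (h2.trans ((dvd_mul_right M' q).trans (dvd_mul_right (M' * q) q))))⁻¹} := by
    intro x hx
    rw [Set.mem_singleton_iff.mp hx]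
    exact Set.mem_insert_of_mem _ rfl
  have hBW₁ := fun x hx => h12W x (pk15_chart_mono hsub1 hx)
  have hBW₂ := fun x hx => h12W x (pk15_chart_mono hsub2 hx)
  have hH1 : (pk85_h2 K (M' * q * q) (h2.trans ((dvd_mul_right M' q).trans (dvd_mul_right (M' * q) q)))) ∈ cm85_Vinf (K := K) (M' * q * q) hπ :=
    (Subring.mem_inf.mp (Subring.mem_inf.mp
      (h12W _ (pk15_subset_chart _ (Set.mem_insert _ _)))).1).1
  have hHi1 : (pk85_h2 K (M' * q * q) (h2.trans ((dvd_mul_right M' q).trans (dvd_mul_right (M' * q) q))))⁻¹ ∈ cm85_Vinf (K := K) (M' * q * q) hπ :=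
    (Subring.mem_inf.mp (Subring.mem_inf.mp
      (h12W _ (pk15_subset_chart _ (Set.mem_insert_of_mem _ rfl)))).1).1
  refine ⟨fun n hn hπn hmid h1 h3 hreg => ?_, fun n hn hπn hmid h1 h3 hreg => ?_⟩
  · haveI := hn.isPrime
    obtain ⟨s', b', hs', hsj⟩ := hreg
    have hHB : (pk85_h2 K (M' * q * q) (h2.trans ((dvd_mul_right M' q).trans (dvd_mul_right (M' * q) q)))) ∈ (pk15_chart R ({(pk85_h2 K (M' * q * q) (h2.trans ((dvd_mul_right M' q).trans (dvd_mul_right (M' * q) q))))} : Set ↥(modularFunctionFieldFullC K (M' * q * q)))) := pk15_subset_chart _ (Set.mem_singleton _)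
    have hsc := reg84_sc_notMem (pk15_chart R ({(pk85_h2 K (M' * q * q) (h2.trans ((dvd_mul_right M' q).trans (dvd_mul_right (M' * q) q))))} : Set ↥(modularFunctionFieldFullC K (M' * q * q)))) n (pk85_h2 K (M' * q * q) (h2.trans ((dvd_mul_right M' q).trans (dvd_mul_right (M' * q) q)))) (rm90_j K (M' * q * q)) hHB h2u hrel s' b' hs' hsj
    refine c2f11_hreg_gen (R := R) (K := K) M' q hq hM' hunit (fun _ => h2) h3o hπ _
      (nsb86_V3 (K := K) M' q hq hM' hπ) hV₂ hπ₂ hne (v2g64_s K M' q) hs _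
      (fun x hx => ci22_chart_closed _ x hx)
      (fun x hx => (Subring.mem_inf.mp (Subring.mem_inf.mp (hBW₁ x hx)).1).1)
      (fun x hx => (Subring.mem_inf.mp (Subring.mem_inf.mp (hBW₁ x hx)).1).2)
      (fun x hx => (Subring.mem_inf.mp (hBW₁ x hx)).2)
      (fun x hx h1 h2 h3 =>
        hsat1 x hx (Subring.mem_inf.mpr ⟨Subring.mem_inf.mpr ⟨h1, h2⟩, h3⟩))
      n hmid hπn h1 h3 ⟨s', b', hs', hsj⟩ (⟨(pk85_h2 K (M' * q * q) (h2.trans ((dvd_mul_right M' q).trans (dvd_mul_right (M' * q) q)))), hHB⟩ ^ 2) hsc ?_ ?_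
    · have e : (pk85_h2 K (M' * q * q) (h2.trans ((dvd_mul_right M' q).trans (dvd_mul_right (M' * q) q)))) ^ 2 * rm90_j K (M' * q * q) = ((pk85_h2 K (M' * q * q) (h2.trans ((dvd_mul_right M' q).trans (dvd_mul_right (M' * q) q)))) + 256) ^ 3 := by
        rw [← hrel]
        ring
      show (pk85_h2 K (M' * q * q) (h2.trans ((dvd_mul_right M' q).trans (dvd_mul_right (M' * q) q)))) ^ 2 * rm90_j K (M' * q * q) ∈ _
      rw [e]
      refine Subalgebra.pow_mem _ (Subalgebra.add_mem _ hHB ?_) 3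
      have h256 := (pk15_chart R ({(pk85_h2 K (M' * q * q) (h2.trans ((dvd_mul_right M' q).trans (dvd_mul_right (M' * q) q))))} : Set ↥(modularFunctionFieldFullC K (M' * q * q)))).algebraMap_mem (256 : R)
      rwa [map_ofNat] at h256
    · show ((pk85_h2 K (M' * q * q) (h2.trans ((dvd_mul_right M' q).trans (dvd_mul_right (M' * q) q)))) ^ 2)⁻¹ ∈ _
      rw [← inv_pow]
      exact pow_mem hHi1 2
  · haveI := hn.isPrime
    obtain ⟨s', b', hs', hsj⟩ := hreg
    have hgB : (pk85_h2 K (M' * q * q) (h2.trans ((dvd_mul_right M' q).trans (dvd_mul_right (M' * q) q))))⁻¹ ∈ (pk15_chart R ({(pk85_h2 K (M' * q * q) (h2.trans ((dvd_mul_right M' q).trans (dvd_mul_right (M' * q) q))))⁻¹} : Set ↥(modularFunctionFieldFullC K (M' * q * q)))) := pk15_subset_chart _ (Set.mem_singleton _)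
    have hsc := reg84_sc_notMem_inv (pk15_chart R ({(pk85_h2 K (M' * q * q) (h2.trans ((dvd_mul_right M' q).trans (dvd_mul_right (M' * q) q))))⁻¹} : Set ↥(modularFunctionFieldFullC K (M' * q * q)))) n (pk85_h2 K (M' * q * q) (h2.trans ((dvd_mul_right M' q).trans (dvd_mul_right (M' * q) q))))⁻¹ (rm90_j K (M' * q * q)) hgB hrel' s' b' hs' hsj
    refine c2f11_hreg_gen (R := R) (K := K) M' q hq hM' hunit (fun _ => h2) h3o hπ _
      (nsb86_V3 (K := K) M' q hq hM' hπ) hV₂ hπ₂ hne (v2g64_s K M' q) hs _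
      (fun x hx => ci22_chart_closed _ x hx)
      (fun x hx => (Subring.mem_inf.mp (Subring.mem_inf.mp (hBW₂ x hx)).1).1)
      (fun x hx => (Subring.mem_inf.mp (Subring.mem_inf.mp (hBW₂ x hx)).1).2)
      (fun x hx => (Subring.mem_inf.mp (hBW₂ x hx)).2)
      (fun x hx h1 h2 h3 =>
        hsat2 x hx (Subring.mem_inf.mpr ⟨Subring.mem_inf.mpr ⟨h1, h2⟩, h3⟩))
      n hmid hπn h1 h3 ⟨s', b', hs', hsj⟩ ⟨(pk85_h2 K (M' * q * q) (h2.trans ((dvd_mul_right M' q).trans (dvd_mul_right (M' * q) q))))⁻¹, hgB⟩ hsc ?_ ?_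
    · show (pk85_h2 K (M' * q * q) (h2.trans ((dvd_mul_right M' q).trans (dvd_mul_right (M' * q) q))))⁻¹ * rm90_j K (M' * q * q) ∈ _
      rw [hrel']
      refine Subalgebra.pow_mem _ (Subalgebra.add_mem _ (Subalgebra.one_mem _)
        (Subalgebra.mul_mem _ ?_ hgB)) 3
      have h256 := (pk15_chart R ({(pk85_h2 K (M' * q * q) (h2.trans ((dvd_mul_right M' q).trans (dvd_mul_right (M' * q) q))))⁻¹} : Set ↥(modularFunctionFieldFullC K (M' * q * q)))).algebraMap_mem (256 : R)
      rwa [map_ofNat] at h256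
    · show ((pk85_h2 K (M' * q * q) (h2.trans ((dvd_mul_right M' q).trans (dvd_mul_right (M' * q) q))))⁻¹)⁻¹ ∈ _
      rw [inv_inv]
      exact hH1

/-- **`s36i62j_Reg2`** (MidBind62): row 600 on the canonical frame, Hauptmodul of level 2. -/
theorem reg84_Reg2 : s36i62j_Reg2 := by
  intro M' q r _ _ hq hM' hrig h2 R K _ _ _ _ _ _ _ _ _ _ hπ hunit
  exact reg84_level2 M' q hq hM' h2
    (fun hq3 => s36f47_dvd_of_dvd_mul hq Nat.prime_three (fun e => hq3 e.symm) (hrig.2.1 hq3))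
    R K hπ hunit

end Canon

end Fermat.Agent.S36
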