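import Mathlib
import Fermat.Agent.S36.MidBind62
import Fermat.Agent.S36.C2Final11
import Fermat.Agent.S36.C2JUnit88

/-!
# S36 lab, row 600 (helper52): the closed statement `s36i62j_Reg2` of `MidBind62`

`rtf52_Reg2 : s36i62j_Reg2` — at every closed point of the two canonical charts of the Hauptmodul
of level 2 (level `M' q q`, `π = q`, `V₂ = v2g64_V2`) lying on the middle branch only at which `j`
is regular, the middle branch is principal (`mc25_MidPrinAt`).

Pure binding: `c2f11_hreg_gen` (helper11, chart-generic generator of the middle branch) on the two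
charts `pk15_chart R {h}`, `pk15_chart R {h⁻¹}`, with

* the frame facts `B ⊆ V₁ ⊓ V₂ ⊓ V₃` + saturation from `fb85_frameV3_level2` (helper85),
* integral closedness of the charts from `uv17_chart_intClosed` (helper17),
* the four facts of `V₂ = v2g64_V2` (helper64: `v2g64_V2_alpha/_pi/_ne/_val`),
* `q ≠ 3 → 3 ∣ M'` from the strongly rigid level `s36c67_Rigid6` (helper67),
* the chart element `sc` with `sc ∉ n`, `sc * j ∈ B`, `sc⁻¹ ∈ V₁`: `sc = h ^ 2` on the chart `{h}`
  (`j h² = (h + 256)³`, `c2j88_not_mem2`), `sc = h⁻¹` on the chart `{h⁻¹}`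
  (`j h⁻¹ = (1 + 256 h⁻¹)³`, `c2j88_not_mem2_inv`); `h`, `h⁻¹` are Gauss units
  (`c2j88_h2_mem_Vinf`, helper88).

With `mid2x55_Reg3 : s36i62j_Reg3` (helper55) this gives both arguments of
`s36i62m_top : s36i62j_Reg2 → s36i62j_Reg3 → (frozen S36)` (helper62, `TopReg62`).

All names are prefixed `rtf52_`.
-/

set_option autoImplicit false
set_option linter.unusedSectionVars false
set_option linter.unusedVariables false
set_option linter.style.haveILetI false
set_option linter.style.longLine false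

open ModularCurve AlgebraicCurve CongruenceSubgroup Polynomial

namespace Fermat.Agent.S36

open Fermat.Agent.S34 Fermat.Agent.S18 Fermat.Agent.S24 Fermat.Agent.S35 Fermat.Agent.S28
open Fermat.Agent.S36.TripleLoc71

local notation "Q̄" => AlgebraicClosure ℚ

/-- **`s36i62j_Reg2` (MidBind62) is a theorem**: row 600 on the canonical frame, Hauptmodul of
level 2. -/
theorem rtf52_Reg2 : s36i62j_Reg2 := by
  intro M' q r _ _ hq hM' hrig h2 R K _ _ _ _ _ _ _ _ _ _ hπ hunit
  haveI : Algebra.IsAlgebraic K Q̄ := fs85_isAlgebraic K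
  letI a0 : Algebra R ↥(modularFunctionFieldFullC K M') :=
    ((algebraMap K ↥(modularFunctionFieldFullC K M')).comp (algebraMap R K)).toAlgebra
  haveI t0 : IsScalarTower R K ↥(modularFunctionFieldFullC K M') :=
    IsScalarTower.of_algebraMap_eq (fun _ => rfl)
  letI a1 : Algebra R ↥(modularFunctionFieldFullC K (M' * q)) :=
    ((algebraMap K ↥(modularFunctionFieldFullC K (M' * q))).comp (algebraMap R K)).toAlgebra
  haveI t1 : IsScalarTower R K ↥(modularFunctionFieldFullC K (M' * q)) :=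
    IsScalarTower.of_algebraMap_eq (fun _ => rfl)
  have hqR : ¬ IsUnit ((q : ℕ) : R) := hπ.not_isUnit
  have hMu : IsUnit ((M' : ℕ) : R) :=
    hunit M' (Nat.Coprime.symm ((Nat.Prime.coprime_iff_not_dvd hq).mpr hM'))
  have hq2 : q ≠ 2 := by
    intro h
    apply hM'
    rw [h]
    exact h2
  have h2u : IsUnit (2 : R) := by
    have h := hunit 2 ((Nat.coprime_primes Nat.prime_two hq).mpr (Ne.symm hq2))
    simpa using h
  have h3M : q ≠ 3 → 3 ∣ M' := by
    intro hq3
    have h3N : 3 ∣ M' * q := hrig.2.1 hq3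
    rcases (Nat.Prime.dvd_mul Nat.prime_three).mp h3N with h | h
    · exact h
    · exact absurd ((Nat.prime_dvd_prime_iff_eq Nat.prime_three hq).mp h).symm hq3
  have hV₂ := v2g64_V2_alpha (algebraMap K Q̄) M' q hq hM' hπ (Associated.refl _)
  have hπ₂ := v2g64_V2_pi (algebraMap K Q̄) M' q hq hM' hπ (Associated.refl _)
  have hne := v2g64_V2_ne (algebraMap K Q̄) M' q hq hM' hπ (Associated.refl _)
  have hs := v2g64_V2_val (algebraMap K Q̄) M' q hq hM' hπ (Associated.refl _)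
  obtain ⟨-, hC, -⟩ := fb85_frameV3_level2 M' q hq hM' hπ hqR hMu h2 _ hV₂ hπ₂ hs
  obtain ⟨-, h12W, hsat1, hsat2, -⟩ := hC
  have hsub1 : ({pk85_h2 K (M' * q * q) (h2.trans ((dvd_mul_right M' q).trans (dvd_mul_right (M' * q) q)))} : Set ↥(modularFunctionFieldFullC K (M' * q * q))) ⊆ {pk85_h2 K (M' * q * q) (h2.trans ((dvd_mul_right M' q).trans (dvd_mul_right (M' * q) q))), (pk85_h2 K (M' * q * q) (h2.trans ((dvd_mul_right M' q).trans (dvd_mul_right (M' * q) q))))⁻¹} := by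
    intro x hx
    rw [Set.mem_singleton_iff.mp hx]
    exact Set.mem_insert _ _
  have hsub2 : ({(pk85_h2 K (M' * q * q) (h2.trans ((dvd_mul_right M' q).trans (dvd_mul_right (M' * q) q))))⁻¹} : Set ↥(modularFunctionFieldFullC K (M' * q * q))) ⊆ {pk85_h2 K (M' * q * q) (h2.trans ((dvd_mul_right M' q).trans (dvd_mul_right (M' * q) q))), (pk85_h2 K (M' * q * q) (h2.trans ((dvd_mul_right M' q).trans (dvd_mul_right (M' * q) q))))⁻¹} := by
    intro x hx
    rw [Set.mem_singleton_iff.mp hx]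
    exact Set.mem_insert_of_mem _ rfl
  have hrel := pk85_h2_rel K (M' * q * q) (h2.trans ((dvd_mul_right M' q).trans (dvd_mul_right (M' * q) q)))
  obtain ⟨hv1, hv1'⟩ := c2j88_h2_mem_Vinf (R := R) (K := K) (M' * q * q) hπ
    (h2.trans ((dvd_mul_right M' q).trans (dvd_mul_right (M' * q) q)))
  have hh0 : pk85_h2 K (M' * q * q) (h2.trans ((dvd_mul_right M' q).trans (dvd_mul_right (M' * q) q))) ≠ 0 :=
    fun h0 => pk85_h2_transcendental K (M' * q * q) _ (by rw [h0]; exact isAlgebraic_zero)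
  have hrel' : rm90_j K (M' * q * q) * (pk85_h2 K (M' * q * q) (h2.trans ((dvd_mul_right M' q).trans (dvd_mul_right (M' * q) q))))⁻¹ = (1 + 256 * (pk85_h2 K (M' * q * q) (h2.trans ((dvd_mul_right M' q).trans (dvd_mul_right (M' * q) q))))⁻¹) ^ 3 := by
    have hj : rm90_j K (M' * q * q) = (pk85_h2 K (M' * q * q) (h2.trans ((dvd_mul_right M' q).trans (dvd_mul_right (M' * q) q))) + 256) ^ 3 / pk85_h2 K (M' * q * q) (h2.trans ((dvd_mul_right M' q).trans (dvd_mul_right (M' * q) q))) ^ 2 := by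
      rw [eq_div_iff (pow_ne_zero 2 hh0)]
      exact hrel
    rw [hj]
    field_simp
  refine ⟨fun n hn hπn hmid hn1 hn3 hreg => ?_, fun n hn hπn hmid hn1 hn3 hreg => ?_⟩
  · haveI := hn.isPrime
    obtain ⟨s', b', hs', hb'⟩ := hreg
    have hHmem : pk85_h2 K (M' * q * q) (h2.trans ((dvd_mul_right M' q).trans (dvd_mul_right (M' * q) q))) ∈ (pk15_chart R ({pk85_h2 K (M' * q * q) (h2.trans ((dvd_mul_right M' q).trans (dvd_mul_right (M' * q) q)))} : Set ↥(modularFunctionFieldFullC K (M' * q * q)))) := pk15_subset_chart _ (Set.mem_singleton _)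
    have ht : (⟨_, hHmem⟩ : ↥(pk15_chart R ({pk85_h2 K (M' * q * q) (h2.trans ((dvd_mul_right M' q).trans (dvd_mul_right (M' * q) q)))} : Set ↥(modularFunctionFieldFullC K (M' * q * q))))) ∉ n :=
      c2j88_not_mem2 _ n (rm90_j K (M' * q * q)) ⟨_, hHmem⟩ hrel h2u s' b' hs' hb'
    have hscn : (⟨_, hHmem⟩ : ↥(pk15_chart R ({pk85_h2 K (M' * q * q) (h2.trans ((dvd_mul_right M' q).trans (dvd_mul_right (M' * q) q)))} : Set ↥(modularFunctionFieldFullC K (M' * q * q))))) ^ 2 ∉ n := fun h => ht (hn.isPrime.mem_of_pow_mem _ h)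
    have e : pk85_h2 K (M' * q * q) (h2.trans ((dvd_mul_right M' q).trans (dvd_mul_right (M' * q) q))) ^ 2 * rm90_j K (M' * q * q) = (pk85_h2 K (M' * q * q) (h2.trans ((dvd_mul_right M' q).trans (dvd_mul_right (M' * q) q))) + 256) ^ 3 := (mul_comm _ _).trans hrel
    have hscj : (((⟨_, hHmem⟩ : ↥(pk15_chart R ({pk85_h2 K (M' * q * q) (h2.trans ((dvd_mul_right M' q).trans (dvd_mul_right (M' * q) q)))} : Set ↥(modularFunctionFieldFullC K (M' * q * q))))) ^ 2 : ↥(pk15_chart R ({pk85_h2 K (M' * q * q) (h2.trans ((dvd_mul_right M' q).trans (dvd_mul_right (M' * q) q)))} : Set ↥(modularFunctionFieldFullC K (M' * q * q))))) : ↥(modularFunctionFieldFullC K (M' * q * q))) * rm90_j K (M' * q * q) ∈ (pk15_chart R ({pk85_h2 K (M' * q * q) (h2.trans ((dvd_mul_right M' q).trans (dvd_mul_right (M' * q) q)))} : Set ↥(modularFunctionFieldFullC K (M' * q * q)))) := by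
      show pk85_h2 K (M' * q * q) (h2.trans ((dvd_mul_right M' q).trans (dvd_mul_right (M' * q) q))) ^ 2 * rm90_j K (M' * q * q) ∈ (pk15_chart R ({pk85_h2 K (M' * q * q) (h2.trans ((dvd_mul_right M' q).trans (dvd_mul_right (M' * q) q)))} : Set ↥(modularFunctionFieldFullC K (M' * q * q))))
      rw [e]
      exact pow_mem (add_mem hHmem (ofNat_mem _ 256)) 3
    have hsc₁ : (((⟨_, hHmem⟩ : ↥(pk15_chart R ({pk85_h2 K (M' * q * q) (h2.trans ((dvd_mul_right M' q).trans (dvd_mul_right (M' * q) q)))} : Set ↥(modularFunctionFieldFullC K (M' * q * q))))) ^ 2 : ↥(pk15_chart R ({pk85_h2 K (M' * q * q) (h2.trans ((dvd_mul_right M' q).trans (dvd_mul_right (M' * q) q)))} : Set ↥(modularFunctionFieldFullC K (M' * q * q))))) : ↥(modularFunctionFieldFullC K (M' * q * q)))⁻¹ ∈ cm85_Vinf (K := K) (M' * q * q) hπ := by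
      show (pk85_h2 K (M' * q * q) (h2.trans ((dvd_mul_right M' q).trans (dvd_mul_right (M' * q) q))) ^ 2)⁻¹ ∈ cm85_Vinf (K := K) (M' * q * q) hπ
      rw [← inv_pow]
      exact pow_mem hv1' 2
    exact c2f11_hreg_gen (K := K) M' q hq hM' hunit (fun _ => h2) h3M hπ
      (v2g64_V2 (algebraMap K Q̄) M' q hq hM' hπ (Associated.refl _)) (nsb86_V3 (K := K) M' q hq hM' hπ) hV₂ hπ₂ hne (v2g64_s K M' q) hs (pk15_chart R ({pk85_h2 K (M' * q * q) (h2.trans ((dvd_mul_right M' q).trans (dvd_mul_right (M' * q) q)))} : Set ↥(modularFunctionFieldFullC K (M' * q * q))))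
      (fun z hz => uv17_chart_intClosed _ z hz)
      (fun x hx => (Subring.mem_inf.mp (Subring.mem_inf.mp (h12W x (pk15_chart_mono hsub1 hx))).1).1)
      (fun x hx => (Subring.mem_inf.mp (Subring.mem_inf.mp (h12W x (pk15_chart_mono hsub1 hx))).1).2)
      (fun x hx => (Subring.mem_inf.mp (h12W x (pk15_chart_mono hsub1 hx))).2)
      (fun x hx c1 c2 c3 => hsat1 x hx (Subring.mem_inf.mpr ⟨Subring.mem_inf.mpr ⟨c1, c2⟩, c3⟩))
      n hmid hπn hn1 hn3 ⟨s', b', hs', hb'⟩ ((⟨_, hHmem⟩ : ↥(pk15_chart R ({pk85_h2 K (M' * q * q) (h2.trans ((dvd_mul_right M' q).trans (dvd_mul_right (M' * q) q)))} : Set ↥(modularFunctionFieldFullC K (M' * q * q))))) ^ 2) hscn hscj hsc₁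
  · haveI := hn.isPrime
    obtain ⟨s', b', hs', hb'⟩ := hreg
    have hHmem : (pk85_h2 K (M' * q * q) (h2.trans ((dvd_mul_right M' q).trans (dvd_mul_right (M' * q) q))))⁻¹ ∈ (pk15_chart R ({(pk85_h2 K (M' * q * q) (h2.trans ((dvd_mul_right M' q).trans (dvd_mul_right (M' * q) q))))⁻¹} : Set ↥(modularFunctionFieldFullC K (M' * q * q)))) := pk15_subset_chart _ (Set.mem_singleton _)
    have ht : (⟨_, hHmem⟩ : ↥(pk15_chart R ({(pk85_h2 K (M' * q * q) (h2.trans ((dvd_mul_right M' q).trans (dvd_mul_right (M' * q) q))))⁻¹} : Set ↥(modularFunctionFieldFullC K (M' * q * q))))) ∉ n :=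
      c2j88_not_mem2_inv _ n (rm90_j K (M' * q * q)) ⟨_, hHmem⟩ hrel' s' b' hs' hb'
    have e : (pk85_h2 K (M' * q * q) (h2.trans ((dvd_mul_right M' q).trans (dvd_mul_right (M' * q) q))))⁻¹ * rm90_j K (M' * q * q) = (1 + 256 * (pk85_h2 K (M' * q * q) (h2.trans ((dvd_mul_right M' q).trans (dvd_mul_right (M' * q) q))))⁻¹) ^ 3 := (mul_comm _ _).trans hrel'
    have hscj : ((⟨_, hHmem⟩ : ↥(pk15_chart R ({(pk85_h2 K (M' * q * q) (h2.trans ((dvd_mul_right M' q).trans (dvd_mul_right (M' * q) q))))⁻¹} : Set ↥(modularFunctionFieldFullC K (M' * q * q))))) : ↥(modularFunctionFieldFullC K (M' * q * q))) * rm90_j K (M' * q * q) ∈ (pk15_chart R ({(pk85_h2 K (M' * q * q) (h2.trans ((dvd_mul_right M' q).trans (dvd_mul_right (M' * q) q))))⁻¹} : Set ↥(modularFunctionFieldFullC K (M' * q * q)))) := by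
      show (pk85_h2 K (M' * q * q) (h2.trans ((dvd_mul_right M' q).trans (dvd_mul_right (M' * q) q))))⁻¹ * rm90_j K (M' * q * q) ∈ (pk15_chart R ({(pk85_h2 K (M' * q * q) (h2.trans ((dvd_mul_right M' q).trans (dvd_mul_right (M' * q) q))))⁻¹} : Set ↥(modularFunctionFieldFullC K (M' * q * q))))
      rw [e]
      exact pow_mem (add_mem (one_mem _) (mul_mem (ofNat_mem _ 256) hHmem)) 3
    have hsc₁ : ((⟨_, hHmem⟩ : ↥(pk15_chart R ({(pk85_h2 K (M' * q * q) (h2.trans ((dvd_mul_right M' q).trans (dvd_mul_right (M' * q) q))))⁻¹} : Set ↥(modularFunctionFieldFullC K (M' * q * q))))) : ↥(modularFunctionFieldFullC K (M' * q * q)))⁻¹ ∈ cm85_Vinf (K := K) (M' * q * q) hπ := by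
      show ((pk85_h2 K (M' * q * q) (h2.trans ((dvd_mul_right M' q).trans (dvd_mul_right (M' * q) q))))⁻¹)⁻¹ ∈ cm85_Vinf (K := K) (M' * q * q) hπ
      rw [inv_inv]
      exact hv1
    exact c2f11_hreg_gen (K := K) M' q hq hM' hunit (fun _ => h2) h3M hπ
      (v2g64_V2 (algebraMap K Q̄) M' q hq hM' hπ (Associated.refl _)) (nsb86_V3 (K := K) M' q hq hM' hπ) hV₂ hπ₂ hne (v2g64_s K M' q) hs (pk15_chart R ({(pk85_h2 K (M' * q * q) (h2.trans ((dvd_mul_right M' q).trans (dvd_mul_right (M' * q) q))))⁻¹} : Set ↥(modularFunctionFieldFullC K (M' * q * q))))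
      (fun z hz => uv17_chart_intClosed _ z hz)
      (fun x hx => (Subring.mem_inf.mp (Subring.mem_inf.mp (h12W x (pk15_chart_mono hsub2 hx))).1).1)
      (fun x hx => (Subring.mem_inf.mp (Subring.mem_inf.mp (h12W x (pk15_chart_mono hsub2 hx))).1).2)
      (fun x hx => (Subring.mem_inf.mp (h12W x (pk15_chart_mono hsub2 hx))).2)
      (fun x hx c1 c2 c3 => hsat2 x hx (Subring.mem_inf.mpr ⟨Subring.mem_inf.mpr ⟨c1, c2⟩, c3⟩))
      n hmid hπn hn1 hn3 ⟨s', b', hs', hb'⟩ (⟨_, hHmem⟩ : ↥(pk15_chart R ({(pk85_h2 K (M' * q * q) (h2.trans ((dvd_mul_right M' q).trans (dvd_mul_right (M' * q) q))))⁻¹} : Set ↥(modularFunctionFieldFullC K (M' * q * q))))) ht hscj hsc₁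

end Fermat.Agent.S36
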