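import Mathlib

/-!
# S36 lab, row 599 (C-REGq), helper44: binding (Z) — transfer of reduced identities into ANY
branch ring `(O, ι)` (Mathlib only)

`B` the chart, `ι : B →+* O` a ring hom into a domain (the branch ring `(B ⧸ P)_n` of
`bd40_exists_dvr` / the `hdata` of `nf40_node`), `ρ : B →+* L` a ring hom into a field (the reduction
of `q`-expansions, `L = κ((Q))`) with THE SAME KERNEL (`ι x = 0 ↔ ρ x = 0`: both kernels are the
branch `P`), `res : R →+* κ` the residue map, `ρ (r) = res r` on constants.  `J ∈ B_n` is given as a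
fraction `Jd / d` (`Jd, d ∈ B`, `ι d` a unit, `ρ Jd = j * ρ d`).

* `zq44_away`     : `ι`, `ρ` extend to `B[1/d]` with the same kernel.
* `zq44_transfer` : there is `φ : κ[X] →+* O` with `φ X * ι d = ι Jd`, `φ (C (res r)) = ι r`, and
  for all `b₁ b₂ : B`, `p₁ p₂ : κ[X]`:
  `ι b₁ * φ p₁ = ι b₂ * φ p₂ ↔ ρ b₁ * p₁(j) = ρ b₂ * p₂(j)`.
* `zq44_hrel`     : the `hrel` of `k1d40_*` (KappaDvd40) from the reduced identity
  `Ū * N(j)^6 = S(j)^12 * (j^4 (j - 1728)^3)^(q-1)` in `L` (`km56_U_rel`), `U` a fraction `u / t`;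
  `φ` injective when `j` is transcendental over `κ`.
* `zq44_N_isUnit` : at a generic node the numerator `N(j̄)` is a unit (Bezout relations of
  `km56_reduced`, `U0` not a unit, `W(j̄)` a unit) — the `hN` of `k1d40_generic`.
-/

set_option autoImplicit false

open Polynomial

namespace Fermat.Agent.S36

/-- Two ring homs with the same kernel extend to `B[1/d]` with the same kernel. -/
theorem zq44_away {B O L : Type*} [CommRing B] [CommRing O] [IsDomain O] [Field L]
    (ι : B →+* O) (ρ : B →+* L) (hker : ∀ x, ι x = 0 ↔ ρ x = 0) (d : B) (hd : IsUnit (ι d)) :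
    ∃ (ι' : Localization.Away d →+* O) (ρ' : Localization.Away d →+* L),
      (∀ b, ι' (algebraMap B (Localization.Away d) b) = ι b) ∧
      (∀ b, ρ' (algebraMap B (Localization.Away d) b) = ρ b) ∧
      (∀ x, ι' x = 0 ↔ ρ' x = 0) := by
  have hρd0 : ρ d ≠ 0 := by
    intro h0
    have h1 := (hker d).mpr h0
    rw [h1] at hd
    exact not_isUnit_zero hd
  have hρd : IsUnit (ρ d) := IsUnit.mk0 _ hρd0
  have hιd0 : ι d ≠ 0 := hd.ne_zero
  refine ⟨IsLocalization.Away.lift d hd, IsLocalization.Away.lift d hρd,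
    fun b => IsLocalization.Away.lift_eq d hd b, fun b => IsLocalization.Away.lift_eq d hρd b, ?_⟩
  intro x
  obtain ⟨n, b, hb⟩ := IsLocalization.Away.surj d x
  have h1 : IsLocalization.Away.lift d hd x * ι d ^ n = ι b := by
    have := congrArg (IsLocalization.Away.lift d hd) hb
    rwa [map_mul, map_pow, IsLocalization.Away.lift_eq, IsLocalization.Away.lift_eq] at this
  have h2 : IsLocalization.Away.lift d hρd x * ρ d ^ n = ρ b := by
    have := congrArg (IsLocalization.Away.lift d hρd) hb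
    rwa [map_mul, map_pow, IsLocalization.Away.lift_eq, IsLocalization.Away.lift_eq] at this
  constructor
  · intro h0
    rw [h0, zero_mul] at h1
    have h3 : ρ b = 0 := (hker b).mp h1.symm
    rw [h3] at h2
    exact (mul_eq_zero.mp h2).resolve_right (pow_ne_zero n hρd0)
  · intro h0
    rw [h0, zero_mul] at h2
    have h3 : ι b = 0 := (hker b).mpr h2.symm
    rw [h3] at h1
    exact (mul_eq_zero.mp h1).resolve_right (pow_ne_zero n hιd0)

/-- **Transfer principle**: identities between reductions hold in `O`. -/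
theorem zq44_transfer {R B O κ L : Type*} [CommRing R] [CommRing B] [Algebra R B] [CommRing O]
    [IsDomain O] [Field κ] [Field L] [Algebra κ L]
    (res : R →+* κ) (hres : Function.Surjective res)
    (ι : B →+* O) (ρ : B →+* L) (hker : ∀ x, ι x = 0 ↔ ρ x = 0)
    (hρR : ∀ r : R, ρ (algebraMap R B r) = algebraMap κ L (res r))
    (d Jd : B) (hd : IsUnit (ι d)) (j : L) (hJ : ρ Jd = j * ρ d) :
    ∃ φ : κ[X] →+* O, φ X * ι d = ι Jd ∧ (∀ r : R, φ (C (res r)) = ι (algebraMap R B r)) ∧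
      ∀ (b₁ b₂ : B) (p₁ p₂ : κ[X]),
        ι b₁ * φ p₁ = ι b₂ * φ p₂ ↔ ρ b₁ * aeval j p₁ = ρ b₂ * aeval j p₂ := by
  obtain ⟨ι', ρ', hι', hρ', hker'⟩ := zq44_away ι ρ hker d hd
  have hρd0 : ρ d ≠ 0 := by
    intro h0
    have h1 := (hker d).mpr h0
    rw [h1] at hd
    exact not_isUnit_zero hd
  -- the constants
  have hg : RingHom.ker res ≤ RingHom.ker (ι.comp (algebraMap R B)) := by
    intro r hr
    rw [RingHom.mem_ker] at hr ⊢
    rw [RingHom.comp_apply, hker, hρR, hr, map_zero]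
  obtain ⟨c, hc⟩ : ∃ c : κ →+* O, ∀ r : R, c (res r) = ι (algebraMap R B r) :=
    ⟨res.liftOfRightInverse (Function.surjInv hres) (Function.rightInverse_surjInv hres)
        ⟨ι.comp (algebraMap R B), hg⟩,
      fun r => res.liftOfRightInverse_comp_apply (Function.surjInv hres)
        (Function.rightInverse_surjInv hres) ⟨ι.comp (algebraMap R B), hg⟩ r⟩
  -- `J` in the localisation
  obtain ⟨J', hJ'⟩ : ∃ J' : Localization.Away d, J' * algebraMap B _ d = algebraMap B _ Jd :=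
    ⟨IsLocalization.mk' _ Jd (⟨d, Submonoid.mem_powers d⟩ : Submonoid.powers d),
      IsLocalization.mk'_spec _ _ _⟩
  have hρJ : ρ' J' = j := by
    have := congrArg ρ' hJ'
    rw [map_mul, hρ', hρ', hJ] at this
    exact mul_right_cancel₀ hρd0 this
  have hιJ : ι' J' * ι d = ι Jd := by
    have := congrArg ι' hJ'
    rwa [map_mul, hι', hι'] at this
  have key : ∀ p : κ[X], ∃ x : Localization.Away d,
      ι' x = eval₂ c (ι' J') p ∧ ρ' x = aeval j p := by
    intro p
    obtain ⟨pt, rfl⟩ := Polynomial.map_surjective res hres p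
    refine ⟨eval₂ ((algebraMap B (Localization.Away d)).comp (algebraMap R B)) J' pt, ?_, ?_⟩
    · rw [hom_eval₂, eval₂_map]
      congr 1
      ext r
      simp only [RingHom.comp_apply]
      rw [hι', hc]
    · rw [hom_eval₂, aeval_def, eval₂_map, hρJ]
      congr 1
      ext r
      simp only [RingHom.comp_apply]
      rw [hρ', hρR]
  refine ⟨eval₂RingHom c (ι' J'), ?_, ?_, ?_⟩
  · rw [coe_eval₂RingHom, eval₂_X]
    exact hιJ
  · intro r
    rw [coe_eval₂RingHom, eval₂_C]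
    exact hc r
  · intro b₁ b₂ p₁ p₂
    obtain ⟨x₁, h1, h1'⟩ := key p₁
    obtain ⟨x₂, h2, h2'⟩ := key p₂
    have h := hker' (algebraMap B _ b₁ * x₁ - algebraMap B _ b₂ * x₂)
    rw [map_sub, map_mul, map_mul, map_sub, map_mul, map_mul, hι', hι', hρ', hρ', h1, h2, h1',
      h2', sub_eq_zero, sub_eq_zero] at h
    rw [coe_eval₂RingHom]
    exact h

/-- **Binding (Z)**: the `hrel` of `k1d40_generic` / `k1d40_at_1728` / `k1d40_at_zero` /
`k1d40_char_three` / `k1d40_char_two` in any branch ring `(O, ι)`, from the reduced identity in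
`L`.  `J = Jd / d`, `U = u / t` with `ι d`, `ι t` units. -/
theorem zq44_hrel {R B O κ L : Type*} [CommRing R] [CommRing B] [Algebra R B] [CommRing O]
    [IsDomain O] [Field κ] [Field L] [Algebra κ L]
    (res : R →+* κ) (hres : Function.Surjective res)
    (ι : B →+* O) (ρ : B →+* L) (hker : ∀ x, ι x = 0 ↔ ρ x = 0)
    (hρR : ∀ r : R, ρ (algebraMap R B r) = algebraMap κ L (res r))
    (d Jd : B) (hd : IsUnit (ι d)) (j : L) (hJ : ρ Jd = j * ρ d)
    (htr : Transcendental κ j)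
    (t u : B) (ht : IsUnit (ι t)) (Ubar : L) (hU : ρ u = Ubar * ρ t)
    (q : ℕ) (N S : κ[X])
    (hrelL : Ubar * aeval j N ^ 6 =
      aeval j S ^ 12 * (j ^ 4 * (j - 1728) ^ 3) ^ (q - 1)) :
    ∃ (φ : κ[X] →+* O) (U0 : O), φ X * ι d = ι Jd ∧
      (∀ r : R, φ (C (res r)) = ι (algebraMap R B r)) ∧ Function.Injective φ ∧
      U0 * ι t = ι u ∧
      U0 * φ N ^ 6 = φ S ^ 12 * φ (X ^ 4 * (X - C (1728 : κ)) ^ 3) ^ (q - 1) ∧
      (∀ (b₁ b₂ : B) (p₁ p₂ : κ[X]),
        ι b₁ * φ p₁ = ι b₂ * φ p₂ ↔ ρ b₁ * aeval j p₁ = ρ b₂ * aeval j p₂) := by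
  obtain ⟨φ, hφX, hφC, htrans⟩ := zq44_transfer res hres ι ρ hker hρR d Jd hd j hJ
  obtain ⟨tu, htu⟩ := ht
  refine ⟨φ, ι u * ((tu⁻¹ : Oˣ) : O), hφX, hφC, ?_, ?_, ?_, htrans⟩
  · rw [injective_iff_map_eq_zero]
    intro p hp
    have h := (htrans 1 0 p 0).mp (by rw [map_one, one_mul, hp, map_zero, zero_mul])
    rw [map_one, one_mul, map_zero, zero_mul] at h
    by_contra hp0
    exact htr ⟨p, hp0, h⟩
  · rw [mul_assoc, ← htu, Units.inv_mul, mul_one]
  · have h := (htrans u t (N ^ 6) (S ^ 12 * (X ^ 4 * (X - C (1728 : κ)) ^ 3) ^ (q - 1))).mpr (by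
      have e1728 : (algebraMap κ L) (1728 : κ) = (1728 : L) := map_ofNat _ 1728
      simp only [map_mul, map_pow, map_sub, aeval_X, aeval_C, e1728]
      rw [hU]
      linear_combination (ρ t) * hrelL)
    rw [map_pow, map_mul, map_pow, map_pow] at h
    have hu : ι u = ι u * ((tu⁻¹ : Oˣ) : O) * ι t := by
      rw [mul_assoc, ← htu, Units.inv_mul, mul_one]
    have htu0 : ι t ≠ 0 := by rw [← htu]; exact tu.ne_zero
    apply mul_right_cancel₀ htu0
    calc ι u * ((tu⁻¹ : Oˣ) : O) * φ N ^ 6 * ι t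
        = ι u * ((tu⁻¹ : Oˣ) : O) * ι t * φ N ^ 6 := by ring
      _ = ι u * φ N ^ 6 := by rw [← hu]
      _ = ι t * (φ S ^ 12 * (φ (X ^ 4 * (X - C (1728 : κ)) ^ 3)) ^ (q - 1)) := h
      _ = φ S ^ 12 * (φ (X ^ 4 * (X - C (1728 : κ)) ^ 3)) ^ (q - 1) * ι t := by ring

/-- **Generic nodes**: `N(j̄)` is a unit (the `hN` of `k1d40_generic`).  `O` local, `U0` not a
unit, `W(j̄)` a unit, Bezout relations of `km56_reduced`. -/
theorem zq44_N_isUnit {O κ : Type*} [CommRing O] [IsLocalRing O] [Field κ]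
    (φ : κ[X] →+* O) (q : ℕ) (U0 : O) (hUn : ¬ IsUnit U0)
    (P₀ S₀ a b c d : κ[X]) (hab : a * S₀ + b * derivative S₀ = 1) (hcd : c * P₀ + d * S₀ = 1)
    (hW : IsUnit (φ (X ^ 4 * (X - C (1728 : κ)) ^ 3)))
    (hrel : U0 * φ (derivative P₀ * S₀ - P₀ * derivative S₀ + X ^ (q - 1) * S₀ ^ 2) ^ 6 =
      φ S₀ ^ 12 * φ (X ^ 4 * (X - C (1728 : κ)) ^ 3) ^ (q - 1)) :
    IsUnit (φ (derivative P₀ * S₀ - P₀ * derivative S₀ + X ^ (q - 1) * S₀ ^ 2)) := by
  have hSn : ¬ IsUnit (φ S₀) := by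
    intro hS
    have h1 : IsUnit (U0 * φ (derivative P₀ * S₀ - P₀ * derivative S₀ +
        X ^ (q - 1) * S₀ ^ 2) ^ 6) := hrel ▸ (hS.pow 12).mul (hW.pow (q - 1))
    exact hUn (isUnit_of_mul_isUnit_left h1)
  have hSm : φ S₀ ∈ IsLocalRing.maximalIdeal O := (IsLocalRing.mem_maximalIdeal _).mpr hSn
  have hS'u : IsUnit (φ (derivative S₀)) := by
    by_contra hn
    have hm : φ (derivative S₀) ∈ IsLocalRing.maximalIdeal O :=
      (IsLocalRing.mem_maximalIdeal _).mpr hn
    have h1 : (1 : O) ∈ IsLocalRing.maximalIdeal O := by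
      have := congrArg φ hab
      rw [map_add, map_mul, map_mul, map_one] at this
      rw [← this]
      exact Ideal.add_mem _ (Ideal.mul_mem_left _ _ hSm) (Ideal.mul_mem_left _ _ hm)
    exact (IsLocalRing.maximalIdeal.isMaximal O).ne_top ((Ideal.eq_top_iff_one _).mpr h1)
  have hPu : IsUnit (φ P₀) := by
    by_contra hn
    have hm : φ P₀ ∈ IsLocalRing.maximalIdeal O := (IsLocalRing.mem_maximalIdeal _).mpr hn
    have h1 : (1 : O) ∈ IsLocalRing.maximalIdeal O := by
      have := congrArg φ hcd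
      rw [map_add, map_mul, map_mul, map_one] at this
      rw [← this]
      exact Ideal.add_mem _ (Ideal.mul_mem_left _ _ hm) (Ideal.mul_mem_left _ _ hSm)
    exact (IsLocalRing.maximalIdeal.isMaximal O).ne_top ((Ideal.eq_top_iff_one _).mpr h1)
  by_contra hn
  have hNm : φ (derivative P₀ * S₀ - P₀ * derivative S₀ + X ^ (q - 1) * S₀ ^ 2) ∈
      IsLocalRing.maximalIdeal O := (IsLocalRing.mem_maximalIdeal _).mpr hn
  have h3 : φ P₀ * φ (derivative S₀) ∈ IsLocalRing.maximalIdeal O := by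
    have e : φ P₀ * φ (derivative S₀) =
        φ (derivative P₀) * φ S₀ + φ (X ^ (q - 1)) * φ S₀ * φ S₀ -
          φ (derivative P₀ * S₀ - P₀ * derivative S₀ + X ^ (q - 1) * S₀ ^ 2) := by
      simp only [map_add, map_sub, map_mul, map_pow]
      ring
    rw [e]
    exact Ideal.sub_mem _ (Ideal.add_mem _ (Ideal.mul_mem_left _ _ hSm)
      (Ideal.mul_mem_left _ _ hSm)) hNm
  exact (IsLocalRing.mem_maximalIdeal _).mp h3 (hPu.mul hS'u)

end Fermat.Agent.S36
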