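import Fermat.Agent.S36.KappaMod56
import Fermat.Agent.S36.KappaDvd40
import Fermat.Agent.S36.RelTransfer44
import Fermat.Agent.S35.NewToricFrame35
import Fermat.Agent.S34.DeltaQuot56b
import Fermat.Agent.S34.CuspChart1

/-!
# S36 lab, row 599 (C-REGq), helper44: binding (Z) on the CANONICAL level-`q` frame

Canonical data: `F = F_K(M' q)`, `V_∞ = cm85_Vinf (M' * q) hπ`, `j = rm90_j K (M' * q)`,
`U = dq56b_U M' q hq` (`= Δ(Q)/Δ(Q^q)`), `κ = IsLocalRing.ResidueField R` of characteristic `q`.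
`B` ANY chart inside `V_∞` (`hBV`; e.g. `pk15_chart R {h}`, `pk15_chart R {h⁻¹}`).

* `zb44_hrel` : there are `P₀ S₀ ∈ κ[X]` with Bezout relations (`km56_reduced`) such that for
  EVERY domain `O` and ring hom `ι : B →+* O` whose kernel is the `∞`-branch
  (`ι x = 0 ↔ π⁻¹ x ∈ V_∞`: the `(O, ι)` of `bd40_exists_dvr` / of the `hdata` of `nf40_node` with
  `P = ` the `∞`-branch), and every presentation `a * j = b`, `t * U = u` (`a b t u ∈ B`,
  `ι a`, `ι t` units, i.e. `a, t ∉ n`: `cf22_level2/3(_inv)` and integrality of `U` over `R[j]`):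
  there are `φ : κ[X] →+* O` (injective, `φ X * ι a = ι b`, `φ (C r̄) = ι r`) and `U0 : O`
  (`U0 * ι t = ι u`) with
  `U0 * φ N ^ 6 = φ S₀ ^ 12 * φ (X ^ 4 * (X - C 1728) ^ 3) ^ (q - 1)`,
  `N = P₀' S₀ - P₀ S₀' + X ^ (q - 1) S₀ ^ 2`  — literally the `hrel` of `k1d40_*`.
* `zb44_dvd_generic` : at the GENERIC nodes (`b ∉ n`, `b - 1728 a ∉ n`, i.e. `j ≠ 0, 1728` at `n`)
  of the canonical frame, for every discrete valuation ring `(O, ι)` as above and `u ∈ n`:
  `ϖ ^ 12 ∣ ι u`  (the `hdata` of `nf40_node` with `U := u = t * dq56b_U`).  No rigidity input.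
* `zb44_dvd_special` : the special nodes, from the rigidity divisibilities
  `ϖ ^ 2 ∣ φ (X - C 1728)` (`q` odd), `ϖ ^ 3 ∣ φ X` (`3 ∤ q`), `ϖ ^ 6 ∣ φ X` (`q = 3`),
  `ϖ ^ 12 ∣ φ X` (`q = 2`).

All names are prefixed `zb44_`.
-/

set_option autoImplicit false
set_option linter.unusedSectionVars false
set_option linter.style.haveILetI false

open ModularCurve Polynomial

namespace Fermat.Agent.S36

open Fermat.Agent.S18 Fermat.Agent.S24 Fermat.Agent.S28 Fermat.Agent.S34 Fermat.Agent.S35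

local notation "Q̄" => AlgebraicClosure ℚ

universe w

section ZB44

variable {R K : Type} [CommRing R] [IsDomain R] [IsDiscreteValuationRing R] [Field K] [CharZero K]
  [Algebra R K] [IsFractionRing R K] [Algebra K Q̄]
  (M' q : ℕ) [NeZero M'] [NeZero q] (hq : q.Prime) (hM' : ¬ q ∣ M')
  [Algebra R ↥(modularFunctionFieldFullC K (M' * q))]
  [IsScalarTower R K ↥(modularFunctionFieldFullC K (M' * q))] {π : R} (hπ : Irreducible π)

/-- The reduction of `j` is `j`. -/
theorem zb44_red_j (M : ℕ) [NeZero M] :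
    ntf35_red R M (rm90_j K M) = jqModC (IsLocalRing.ResidueField R) := by
  have hmem : jqModC K ∈ tv84_G K (IsLocalRing.residue R) := tv84_J_mem (IsLocalRing.residue R)
  show ntf35_redS R (jqModC K) = _
  rw [ntf35_redS_of_mem hmem]
  exact tv84_red_J (IsLocalRing.residue R) hmem

/-- The reduction of `U = Δ(Q)/Δ(Q^q)` is `Ū`. -/
theorem zb44_red_U :
    ntf35_red R (M' * q) (dq56b_U (K := K) M' q hq) =
      dq56_U (IsLocalRing.ResidueField R) q := by
  have hco : dq56_U K q = coeffMap (algebraMap R K) (dq56_U R q) :=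
    (dq56_coeffMap_U q (algebraMap R K)).symm
  have hmem : dq56_U K q ∈ tv84_G K (IsLocalRing.residue R) := by
    rw [hco]
    exact tv84_coeffMap_mem_G (IsLocalRing.residue R) _
  show ntf35_redS R (dq56_U K q) = _
  rw [ntf35_redS_of_mem hmem, tv84_red_of_integral (IsLocalRing.residue R) _ (dq56_U R q) hco,
    dq56_coeffMap_U]

/-- **Binding (Z) on the canonical frame.** -/
theorem zb44_hrel (hqR : ¬ IsUnit (q : R))
    (B : Subalgebra R ↥(modularFunctionFieldFullC K (M' * q)))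
    (hBV : ∀ x ∈ B, x ∈ cm85_Vinf (K := K) (M' * q) hπ) :
    ∃ P₀ S₀ a₀ b₀ c₀ d₀ : (IsLocalRing.ResidueField R)[X],
      a₀ * S₀ + b₀ * derivative S₀ = 1 ∧ c₀ * P₀ + d₀ * S₀ = 1 ∧
      ∀ (O : Type w) [CommRing O] [IsDomain O] (ι : ↥B →+* O),
        (∀ x : ↥B, ι x = 0 ↔
          (algebraMap R ↥(modularFunctionFieldFullC K (M' * q)) π)⁻¹ *
            (x : ↥(modularFunctionFieldFullC K (M' * q))) ∈ cm85_Vinf (K := K) (M' * q) hπ) →
        ∀ a b t u : ↥B, IsUnit (ι a) → IsUnit (ι t) →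
          (a : ↥(modularFunctionFieldFullC K (M' * q))) * rm90_j K (M' * q) =
            (b : ↥(modularFunctionFieldFullC K (M' * q))) →
          (t : ↥(modularFunctionFieldFullC K (M' * q))) * dq56b_U (K := K) M' q hq =
            (u : ↥(modularFunctionFieldFullC K (M' * q))) →
          ∃ (φ : (IsLocalRing.ResidueField R)[X] →+* O) (U0 : O),
            φ X * ι a = ι b ∧
            (∀ r : R, φ (C (IsLocalRing.residue R r)) = ι (algebraMap R ↥B r)) ∧
            Function.Injective φ ∧ U0 * ι t = ι u ∧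
            U0 * φ (derivative P₀ * S₀ - P₀ * derivative S₀ + X ^ (q - 1) * S₀ ^ 2) ^ 6 =
              φ S₀ ^ 12 * φ (X ^ 4 * (X - C (1728 : IsLocalRing.ResidueField R)) ^ 3) ^ (q - 1) ∧
            (∀ (b₁ b₂ : ↥B) (p₁ p₂ : (IsLocalRing.ResidueField R)[X]),
              ι b₁ * φ p₁ = ι b₂ * φ p₂ ↔
                ntf35_red R (M' * q) (b₁ : ↥(modularFunctionFieldFullC K (M' * q))) *
                    aeval (jqModC (IsLocalRing.ResidueField R)) p₁ =
                  ntf35_red R (M' * q) (b₂ : ↥(modularFunctionFieldFullC K (M' * q))) *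
                    aeval (jqModC (IsLocalRing.ResidueField R)) p₂) := by
  haveI : CharP (IsLocalRing.ResidueField R) q := cc1_charP_residue q hq hqR
  obtain ⟨P₀, S₀, a₀, b₀, c₀, d₀, hab, hcd, hred⟩ :=
    km56_reduced (IsLocalRing.ResidueField R) q hq
  refine ⟨P₀, S₀, a₀, b₀, c₀, d₀, hab, hcd, ?_⟩
  intro O _ _ ι hι a b t u ha ht hab' htu
  have hrelL := km56_U_rel (IsLocalRing.ResidueField R) q hq _ _ hred
  -- the reduction as a ring hom on the chart
  obtain ⟨ρ, hρ⟩ : ∃ ρ : ↥B →+* LaurentSeries (IsLocalRing.ResidueField R),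
      ∀ x : ↥B, ρ x = ntf35_red R (M' * q) (x : ↥(modularFunctionFieldFullC K (M' * q))) :=
    ⟨{ toFun := fun x => ntf35_red R (M' * q) (x : ↥(modularFunctionFieldFullC K (M' * q)))
       map_one' := ntf35_red_one (M' * q)
       map_mul' := fun x y => ntf35_red_mul (M' * q) hπ _ _ (hBV x x.2) (hBV y y.2)
       map_zero' := ntf35_red_zero (M' * q)
       map_add' := fun x y => ntf35_red_add (M' * q) hπ _ _ (hBV x x.2) (hBV y y.2) },
      fun _ => rfl⟩
  have hconv : ∀ r : R, algebraMap R ↥(modularFunctionFieldFullC K (M' * q)) r =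
      algebraMap K ↥(modularFunctionFieldFullC K (M' * q)) (algebraMap R K r) := fun r =>
    IsScalarTower.algebraMap_apply R K ↥(modularFunctionFieldFullC K (M' * q)) r
  have hker : ∀ x : ↥B, ι x = 0 ↔ ρ x = 0 := by
    intro x
    rw [hι, hρ, ntf35_red_eq_zero_iff (M' * q) hπ _ (hBV x x.2), hconv]
  have hρR : ∀ r : R, ρ (algebraMap R ↥B r) =
      algebraMap (IsLocalRing.ResidueField R) (LaurentSeries (IsLocalRing.ResidueField R))
        (IsLocalRing.residue R r) := by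
    intro r
    rw [hρ]
    have e : ((algebraMap R ↥B r : ↥B) : ↥(modularFunctionFieldFullC K (M' * q))) =
        algebraMap K ↥(modularFunctionFieldFullC K (M' * q)) (algebraMap R K r) :=
      (Subalgebra.coe_algebraMap B r).trans (hconv r)
    rw [e, ntf35_red_algebraMap, tv84_C_eq_algebraMap]
  have hJ : ρ b = jqModC (IsLocalRing.ResidueField R) * ρ a := by
    have hjV : rm90_j K (M' * q) ∈ cm85_Vinf (K := K) (M' * q) hπ :=
      (pk85_gauss (M' * q) hπ (rm90_j K (M' * q)) (jqModC R)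
        (coeffMap_jqModC (algebraMap R K)).symm).1
    rw [hρ, hρ, ← hab', ntf35_red_mul (M' * q) hπ _ _ (hBV a a.2) hjV, zb44_red_j, mul_comm]
  have hU : ρ u = dq56_U (IsLocalRing.ResidueField R) q * ρ t := by
    rw [hρ, hρ, ← htu, ntf35_red_mul (M' * q) hπ _ _ (hBV t t.2)
      (dq56b_U_mem_Vinf M' q hq hπ), zb44_red_U, mul_comm]
  obtain ⟨φ, U0, h1, h2, h3, h4, h5, h6⟩ := zq44_hrel (IsLocalRing.residue R)
    IsLocalRing.residue_surjective ι ρ hker hρR a b ha (jqModC (IsLocalRing.ResidueField R)) hJ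
    (h63_transcendental_jqModC (IsLocalRing.ResidueField R)) t u ht
    (dq56_U (IsLocalRing.ResidueField R) q) hU q
    (derivative P₀ * S₀ - P₀ * derivative S₀ + X ^ (q - 1) * S₀ ^ 2) S₀ hrelL
  refine ⟨φ, U0, h1, h2, h3, h4, h5, ?_⟩
  intro b₁ b₂ p₁ p₂
  rw [h6, hρ, hρ]

/-- **`ϖ ^ 12 ∣ ι u` at EVERY node of the canonical frame** (the `hdata` of `nf40_node` with
`U := u = t * dq56b_U`), from the rigidity divisibilities at the special nodes only.  Generic nodes
(`b ∉ n`, `b - 1728 a ∉ n`) need no input.  `j = b / a`, `U = u / t` at `n` (`a, t ∉ n`),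
`u ∈ n` (`U` vanishes along the `0`-branch). -/
theorem zb44_dvd (hqR : ¬ IsUnit (q : R))
    (B : Subalgebra R ↥(modularFunctionFieldFullC K (M' * q)))
    (hBV : ∀ x ∈ B, x ∈ cm85_Vinf (K := K) (M' * q) hπ)
    (n : Ideal ↥B) (a b t u : ↥B) (ha : a ∉ n) (ht : t ∉ n) (hun : u ∈ n)
    (hab : (a : ↥(modularFunctionFieldFullC K (M' * q))) * rm90_j K (M' * q) =
      (b : ↥(modularFunctionFieldFullC K (M' * q))))
    (htu : (t : ↥(modularFunctionFieldFullC K (M' * q))) * dq56b_U (K := K) M' q hq =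
      (u : ↥(modularFunctionFieldFullC K (M' * q))))
    (O : Type w) [CommRing O] [IsDomain O] [IsDiscreteValuationRing O] (ι : ↥B →+* O)
    (hι : ∀ x : ↥B, ι x = 0 ↔
      (algebraMap R ↥(modularFunctionFieldFullC K (M' * q)) π)⁻¹ *
        (x : ↥(modularFunctionFieldFullC K (M' * q))) ∈ cm85_Vinf (K := K) (M' * q) hπ)
    (hunit : ∀ s : ↥B, IsUnit (ι s) ↔ s ∉ n) (ϖ : O) (hϖ : Irreducible ϖ)
    (hR1728 : 5 ≤ q → b - algebraMap R ↥B 1728 * a ∈ n →
      ϖ ^ 2 ∣ ι (b - algebraMap R ↥B 1728 * a))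
    (hR0 : 5 ≤ q → b ∈ n → ϖ ^ 3 ∣ ι b)
    (hR3 : q = 3 → b ∈ n → ϖ ^ 6 ∣ ι b)
    (hR2 : q = 2 → b ∈ n → ϖ ^ 12 ∣ ι b) :
    ϖ ^ 12 ∣ ι u := by
  haveI : CharP (IsLocalRing.ResidueField R) q := cc1_charP_residue q hq hqR
  obtain ⟨P₀, S₀, a₀, b₀, c₀, d₀, hbez1, hbez2, hall⟩ :=
    zb44_hrel.{w} M' q hq hπ hqR B hBV
  have hιa : IsUnit (ι a) := (hunit a).mpr ha
  have hιt : IsUnit (ι t) := (hunit t).mpr ht
  obtain ⟨φ, U0, hφX, hφC, hφinj, hU0, hrel, -⟩ := hall O ι hι a b t u hιa hιt hab htu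
  -- `U0` is not a unit
  have hUn : ¬ IsUnit U0 := by
    intro hU
    have h1 : IsUnit (ι u) := hU0 ▸ hU.mul hιt
    exact (hunit u).mp h1 hun
  have hdvd : ∀ k : ℕ, ϖ ^ k ∣ U0 → ϖ ^ k ∣ ι u := fun k h => hU0 ▸ Dvd.dvd.mul_right h _
  apply hdvd
  -- `S₀ ≠ 0`
  have hS0 : S₀ ≠ 0 := by
    intro h0
    rw [h0, derivative_zero, mul_zero, mul_zero, add_zero] at hbez1
    exact zero_ne_one hbez1
  have hφS : φ S₀ ≠ 0 := fun h => hS0 (hφinj (by rw [h, map_zero]))
  have hφX0 : φ X ≠ 0 := fun h => X_ne_zero (hφinj (by rw [h, map_zero]))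
  have hφX1728 : φ (X - C (1728 : IsLocalRing.ResidueField R)) ≠ 0 := fun h =>
    X_sub_C_ne_zero (1728 : IsLocalRing.ResidueField R) (hφinj (by rw [h, map_zero]))
  -- the values of `X` and `X - 1728`
  have h1728 : φ (C (1728 : IsLocalRing.ResidueField R)) = ι (algebraMap R ↥B 1728) := by
    have e : (IsLocalRing.residue R) (1728 : R) = (1728 : IsLocalRing.ResidueField R) :=
      map_ofNat _ 1728
    rw [← e]
    exact hφC 1728
  have hX1728 : φ (X - C (1728 : IsLocalRing.ResidueField R)) * ι a =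
      ι (b - algebraMap R ↥B 1728 * a) := by
    rw [map_sub, map_sub, map_mul, sub_mul, hφX, h1728]
  have hXunit : b ∉ n → IsUnit (φ X) := by
    intro hb
    have h1 : IsUnit (φ X * ι a) := hφX ▸ (hunit b).mpr hb
    exact isUnit_of_mul_isUnit_left h1
  have hX1728unit : b - algebraMap R ↥B 1728 * a ∉ n →
      IsUnit (φ (X - C (1728 : IsLocalRing.ResidueField R))) := by
    intro hb
    have h1 : IsUnit (φ (X - C (1728 : IsLocalRing.ResidueField R)) * ι a) :=
      hX1728 ▸ (hunit _).mpr hb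
    exact isUnit_of_mul_isUnit_left h1
  have hXdvd : ∀ k : ℕ, ϖ ^ k ∣ ι b → ϖ ^ k ∣ φ X := by
    intro k h
    rw [← hφX] at h
    exact (hιa.dvd_mul_right).mp h
  have hX1728dvd : ∀ k : ℕ, ϖ ^ k ∣ ι (b - algebraMap R ↥B 1728 * a) →
      ϖ ^ k ∣ φ (X - C (1728 : IsLocalRing.ResidueField R)) := by
    intro k h
    rw [← hX1728] at h
    exact (hιa.dvd_mul_right).mp h
  -- the generic case
  have hgen : IsUnit (φ X) → IsUnit (φ (X - C (1728 : IsLocalRing.ResidueField R))) →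
      ϖ ^ 12 ∣ U0 := by
    intro h1 h2
    have hW : IsUnit (φ (X ^ 4 * (X - C (1728 : IsLocalRing.ResidueField R)) ^ 3)) := by
      rw [map_mul, map_pow, map_pow]
      exact (h1.pow 4).mul (h2.pow 3)
    exact k1d40_generic ϖ hϖ q U0 _ _ _
      (zq44_N_isUnit φ q U0 hUn P₀ S₀ a₀ b₀ c₀ d₀ hbez1 hbez2 hW hrel) hW hUn hrel
  have hcast : ((1728 : ℕ) : IsLocalRing.ResidueField R) = 1728 := Nat.cast_ofNat
  rcases (by
    have h2 := hq.two_le
    rcases Nat.lt_or_ge q 5 with h | h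
    · have : q = 2 ∨ q = 3 ∨ q = 4 := by omega
      rcases this with h | h | h
      · exact Or.inl h
      · exact Or.inr (Or.inl h)
      · exfalso
        rw [h] at hq
        exact absurd hq (by decide)
    · exact Or.inr (Or.inr h) : q = 2 ∨ q = 3 ∨ 5 ≤ q) with h2 | h3 | h5
  · -- `q = 2`
    subst h2
    have hz : (1728 : IsLocalRing.ResidueField R) = 0 := by
      rw [← hcast, CharP.cast_eq_zero_iff (IsLocalRing.ResidueField R) 2]
      decide
    by_cases hb : b ∈ n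
    · exact k1d40_char_two φ hz ϖ hϖ U0 hUn S₀ _ hφS hrel hφX0 (hXdvd 12 (hR2 rfl hb))
    · have hXu := hXunit hb
      refine hgen hXu ?_
      rw [hz, map_zero, sub_zero]
      exact hXu
  · -- `q = 3`
    subst h3
    have hz : (1728 : IsLocalRing.ResidueField R) = 0 := by
      rw [← hcast, CharP.cast_eq_zero_iff (IsLocalRing.ResidueField R) 3]
      decide
    by_cases hb : b ∈ n
    · exact k1d40_char_three φ hz ϖ hϖ U0 hUn S₀ _ hφS hrel hφX0 (hXdvd 6 (hR3 rfl hb))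
    · have hXu := hXunit hb
      refine hgen hXu ?_
      rw [hz, map_zero, sub_zero]
      exact hXu
  · -- `q ≥ 5`
    have hnz : (1728 : IsLocalRing.ResidueField R) ≠ 0 := by
      rw [← hcast, Ne, CharP.cast_eq_zero_iff (IsLocalRing.ResidueField R) q]
      intro hd
      have e : (1728 : ℕ) = 2 ^ 6 * 3 ^ 3 := by norm_num
      rw [e] at hd
      rcases (Nat.Prime.dvd_mul hq).mp hd with h | h
      · have := Nat.le_of_dvd (by norm_num) (hq.dvd_of_dvd_pow h)
        omega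
      · have := Nat.le_of_dvd (by norm_num) (hq.dvd_of_dvd_pow h)
        omega
    have hodd : q % 2 = 1 := by
      rcases hq.eq_two_or_odd with h | h
      · omega
      · exact h
    have h3 : q % 3 ≠ 0 := by
      intro h
      have hd : 3 ∣ q := Nat.dvd_of_mod_eq_zero h
      have := (Nat.prime_dvd_prime_iff_eq Nat.prime_three hq).mp hd
      omega
    by_cases hb : b ∈ n
    · exact k1d40_at_zero φ q h3 hnz ϖ hϖ U0 hUn S₀ _ hφS hrel hφX0 (hXdvd 3 (hR0 h5 hb))
    · by_cases hb' : b - algebraMap R ↥B 1728 * a ∈ n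
      · exact k1d40_at_1728 φ q hodd hnz ϖ hϖ U0 hUn S₀ _ hφS hrel hφX1728
          (hX1728dvd 2 (hR1728 h5 hb'))
      · exact hgen (hXunit hb) (hX1728unit hb')

/-- **Generic nodes** (`j ≠ 0, 1728` at `n`): `ϖ ^ 12 ∣ ι u`, no rigidity input. -/
theorem zb44_dvd_generic (hqR : ¬ IsUnit (q : R))
    (B : Subalgebra R ↥(modularFunctionFieldFullC K (M' * q)))
    (hBV : ∀ x ∈ B, x ∈ cm85_Vinf (K := K) (M' * q) hπ)
    (n : Ideal ↥B) (a b t u : ↥B) (ha : a ∉ n) (ht : t ∉ n) (hun : u ∈ n)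
    (hab : (a : ↥(modularFunctionFieldFullC K (M' * q))) * rm90_j K (M' * q) =
      (b : ↥(modularFunctionFieldFullC K (M' * q))))
    (htu : (t : ↥(modularFunctionFieldFullC K (M' * q))) * dq56b_U (K := K) M' q hq =
      (u : ↥(modularFunctionFieldFullC K (M' * q))))
    (hb : b ∉ n) (hb' : b - algebraMap R ↥B 1728 * a ∉ n)
    (O : Type w) [CommRing O] [IsDomain O] [IsDiscreteValuationRing O] (ι : ↥B →+* O)
    (hι : ∀ x : ↥B, ι x = 0 ↔
      (algebraMap R ↥(modularFunctionFieldFullC K (M' * q)) π)⁻¹ *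
        (x : ↥(modularFunctionFieldFullC K (M' * q))) ∈ cm85_Vinf (K := K) (M' * q) hπ)
    (hunit : ∀ s : ↥B, IsUnit (ι s) ↔ s ∉ n) (ϖ : O) (hϖ : Irreducible ϖ) :
    ϖ ^ 12 ∣ ι u :=
  zb44_dvd M' q hq hπ hqR B hBV n a b t u ha ht hun hab htu O ι hι hunit ϖ hϖ
    (fun _ h => absurd h hb') (fun _ h => absurd h hb) (fun _ h => absurd h hb)
    (fun _ h => absurd h hb)

end ZB44

end Fermat.Agent.S36
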