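import Mathlib
import Fermat.Agent.S34.SpecFibre79

/-!
# S36 lab (helper92): residue degree one, read in the local rings of a triple point

The hypotheses `hO1`, `hO2`, `hO3'`, `hO2'` of `gcd26_datum_triple` / `gc26_triple` (row 602):
at a closed point `n` of the chart `B` lying on the branch `V`, every element of `B_n` is
congruent modulo `𝔪(V)` to the image under `al` of an element of the local ring `Aal` of the
lower chart.

* `rdl92_branch` : `sf79_OnBr` + `rad (π V) = 𝔪(V)` ⟹ the centre of `V` on `B` lies in `n`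
  (valuation form, also for the thick branch);
* `rdl92_hO` : the literal `hO` shape, from residue degree one of `V` over `V'` along `al`
  (outputs of `ob72_ram` / `obb72_ram`), `al Aal ⊆ B_n` reflecting units (`hloc`) and the fact
  `hval` that the image of `Aal` in the residue field of `V'` is a valuation ring;
* `rdl92_hval` : `hval` for `Aal = sf79_loc B' n'` from fractions + the power decomposition along a
  smooth branch (valuation form);
* `rdl92_hval_of_unif` : the same from the literal conclusion shape of `sf79_unif_pow`.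

All names are prefixed `rdl92_`.
-/

set_option autoImplicit false
set_option linter.unusedVariables false
set_option linter.unusedSectionVars false
set_option linter.style.longLine false

namespace Fermat.Agent.S36

open Fermat.Agent.S34

section Aux

variable {F : Type*} [Field F]

theorem rdl92_val_eq_one (V : ValuationSubring F) {x : F} (hx : x ∈ V) (h : ¬ V.valuation x < 1) :
    V.valuation x = 1 :=
  le_antisymm ((V.valuation_le_one_iff x).mpr hx) (not_lt.mp h)

theorem rdl92_sub_swap (V : ValuationSubring F) (x y : F) :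
    V.valuation (x - y) = V.valuation (y - x) := by
  rw [← neg_sub, Valuation.map_neg]

theorem rdl92_add_lt (V : ValuationSubring F) {x y : F} (hx : V.valuation x < 1)
    (hy : V.valuation y < 1) : V.valuation (x + y) < 1 :=
  Valuation.map_add_lt _ hx hy

theorem rdl92_sub_lt (V : ValuationSubring F) {x y : F} (hx : V.valuation x < 1)
    (hy : V.valuation y < 1) : V.valuation (x - y) < 1 := by
  rw [sub_eq_add_neg]
  exact rdl92_add_lt V hx (by rw [Valuation.map_neg]; exact hy)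

theorem rdl92_mul_lt (V : ValuationSubring F) {x y : F} (hx : V.valuation x ≤ 1)
    (hy : V.valuation y < 1) : V.valuation (x * y) < 1 := by
  rw [map_mul]
  exact mul_lt_one_of_nonneg_of_lt_one_right hx zero_le' hy

theorem rdl92_sub_mul_inv (v X D : F) (h0 : D ≠ 0) :
    v - X * D⁻¹ = D⁻¹ * (v * D - X) := by
  have h1 : D⁻¹ * (v * D) = v := by
    rw [mul_comm v D, ← mul_assoc, inv_mul_cancel₀ h0, one_mul]
  rw [mul_sub, h1, mul_comm D⁻¹ X]

end Aux

section Main

variable {R F1 F2 : Type*} [CommRing R] [Field F1] [Field F2] [Algebra R F2]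

/-- The centre of `V` on `B` lies in `n`, in valuation form, from `sf79_OnBr` and
`rad (π V) = 𝔪(V)` (the clause `hrad` of `ci57_Datum`); also for the thick branch. -/
theorem rdl92_branch (π : R) (B : Subalgebra R F2) (V : ValuationSubring F2)
    (hrad : ∀ x ∈ V, x⁻¹ ∉ V → ∃ k : ℕ, (algebraMap R F2 π)⁻¹ * x ^ k ∈ V)
    (n : Ideal B) [hn : n.IsPrime] (hOn : sf79_OnBr π B V.toSubring n) :
    ∀ x : B, V.valuation (x : F2) < 1 → x ∈ n := by
  intro x hx
  by_cases hx0 : (x : F2) = 0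
  · have : x = 0 := Subtype.ext hx0
    rw [this]; exact n.zero_mem
  have hxV : (x : F2) ∈ V := (V.valuation_le_one_iff _).mp hx.le
  have hxinv : (x : F2)⁻¹ ∉ V := by
    intro h
    have h1 := (V.valuation_le_one_iff _).mpr h
    rw [map_inv₀] at h1
    have h2 : (1 : _) ≤ V.valuation (x : F2) := by
      have hpos : 0 < V.valuation (x : F2) := zero_lt_iff.mpr ((map_ne_zero _).mpr hx0)
      exact (inv_le_one₀ hpos).mp h1
    exact absurd hx (not_lt.mpr h2)
  obtain ⟨k, hk⟩ := hrad _ hxV hxinv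
  have hmem : x ^ k ∈ n := hOn (x ^ k) (by push_cast; exact hk)
  exact hn.mem_of_pow_mem k hmem

/-- **The literal `hO` shape of `gcd26_datum_triple`**: residue degree one of `V` over `V'`
along `al`, read in the local rings. -/
theorem rdl92_hO (al : F1 →+* F2) (V : ValuationSubring F2) (V' : ValuationSubring F1)
    (B : Subalgebra R F2) (n : Ideal B) [hn : n.IsPrime] (Aal : Subring F1)
    (hBV : ∀ x ∈ B, x ∈ V)
    (hbr : ∀ x : B, V.valuation (x : F2) < 1 → x ∈ n)
    (hal : ∀ x : F1, al x ∈ V ↔ x ∈ V')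
    (hres : ∀ x ∈ V, ∃ v ∈ V', V.valuation (x - al v) < 1)
    (hAB : ∀ x ∈ Aal, al x ∈ sf79_loc B n)
    (hloc : ∀ x ∈ Aal, (al x)⁻¹ ∈ sf79_loc B n → x⁻¹ ∈ Aal)
    (hval : ∀ v : F1, V'.valuation v = 1 →
      (∃ a ∈ Aal, V'.valuation (v - a) < 1) ∨ ∃ a ∈ Aal, V'.valuation (v⁻¹ - a) < 1) :
    ∀ b ∈ sf79_loc B n, ∃ a ∈ Aal, V.valuation (al a - b) < 1 := by
  -- elements outside `n` are units of `V`
  have hunit : ∀ s : B, s ∉ n → V.valuation (s : F2) = 1 := fun s hs =>
    rdl92_val_eq_one V (hBV _ s.2) (fun h => hs (hbr s h))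
  -- `B_n ⊆ V`
  have hlocV : ∀ x ∈ sf79_loc B n, V.valuation x ≤ 1 := by
    rintro x ⟨s, hs, hsx⟩
    have h1 : V.valuation ((s : F2) * x) ≤ 1 := (V.valuation_le_one_iff _).mpr (hBV _ hsx)
    rwa [map_mul, hunit s hs, one_mul] at h1
  -- elements of `B_n` in `𝔪(V)` lie in `n B_n`
  have hnm : ∀ x ∈ sf79_loc B n, V.valuation x < 1 → sf79_nmem B n x := by
    rintro x ⟨s, hs, hsx⟩ hx
    refine ⟨s, hs, ⟨_, hsx⟩, hbr ⟨_, hsx⟩ ?_, rfl⟩
    show V.valuation ((s : F2) * x) < 1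
    rw [map_mul, hunit s hs, one_mul]; exact hx
  -- `al` maps `𝔪(V')` into `𝔪(V)` and `V'` into `V`
  have hal_le : ∀ v : F1, V'.valuation v ≤ 1 → V.valuation (al v) ≤ 1 := fun v hv =>
    (V.valuation_le_one_iff _).mpr ((hal v).mpr ((V'.valuation_le_one_iff _).mp hv))
  have hal_lt : ∀ v : F1, V'.valuation v < 1 → V.valuation (al v) < 1 := by
    intro v hv
    by_contra hcon
    have hv0 : v ≠ 0 := by
      rintro rfl
      rw [map_zero, map_zero] at hcon
      exact hcon zero_lt_one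
    have h1 : V.valuation (al v) = 1 :=
      le_antisymm (hal_le v hv.le) (not_lt.mp hcon)
    have h2 : V.valuation (al v⁻¹) = 1 := by rw [map_inv₀, map_inv₀, h1, inv_one]
    have h3 : v⁻¹ ∈ V' := (hal v⁻¹).mp ((V.valuation_le_one_iff _).mp h2.le)
    have h4 := (V'.valuation_le_one_iff _).mpr h3
    rw [map_inv₀] at h4
    have hpos : 0 < V'.valuation v := zero_lt_iff.mpr ((map_ne_zero _).mpr hv0)
    exact absurd hv (not_lt.mpr ((inv_le_one₀ hpos).mp h4))
  -- a non-unit of `B_n` of the form `al a`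
  have hnonunit : ∀ a ∈ Aal, a ≠ 0 → a⁻¹ ∉ Aal → sf79_nmem B n (al a) := by
    intro a ha ha0 hainv
    obtain ⟨s, hs, hsa⟩ := hAB a ha
    refine ⟨s, hs, ⟨_, hsa⟩, ?_, rfl⟩
    by_contra hy
    apply hainv
    apply hloc a ha
    refine ⟨⟨_, hsa⟩, hy, ?_⟩
    have hala0 : al a ≠ 0 := (map_ne_zero al).mpr ha0
    have : ((s : F2) * al a) * (al a)⁻¹ = (s : F2) := by
      rw [mul_assoc, mul_inv_cancel₀ hala0, mul_one]
    show ((s : F2) * al a) * (al a)⁻¹ ∈ B
    rw [this]; exact s.2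
  intro b hb
  have hbV : b ∈ V := (V.valuation_le_one_iff _).mp (hlocV b hb)
  obtain ⟨v, hv, hbv⟩ := hres b hbV
  by_cases hv1 : V'.valuation v < 1
  · -- `b ∈ 𝔪(V)`
    refine ⟨0, Aal.zero_mem, ?_⟩
    rw [map_zero, zero_sub, Valuation.map_neg]
    have : b = (b - al v) + al v := by ring
    rw [this]
    exact rdl92_add_lt V hbv (hal_lt v hv1)
  have hv1' : V'.valuation v = 1 := rdl92_val_eq_one V' hv hv1
  have hv0 : v ≠ 0 := by
    rintro rfl
    rw [map_zero] at hv1'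
    exact zero_ne_one hv1'
  -- from `v ≡ a` to the conclusion
  have key : ∀ a ∈ Aal, V'.valuation (v - a) < 1 → ∃ a ∈ Aal, V.valuation (al a - b) < 1 := by
    intro a ha hva
    refine ⟨a, ha, ?_⟩
    have h1 : V.valuation (al v - al a) < 1 := by
      rw [← map_sub]; exact hal_lt _ hva
    have e : al a - b = -((b - al v) + (al v - al a)) := by ring
    rw [e, Valuation.map_neg]
    exact rdl92_add_lt V hbv h1
  rcases hval v hv1' with ⟨a, ha, hva⟩ | ⟨a, ha, hva⟩
  · exact key a ha hva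
  · -- `v⁻¹ ≡ a`
    have hvinv : V'.valuation v⁻¹ = 1 := by rw [map_inv₀, hv1', inv_one]
    have ha0 : a ≠ 0 := by
      rintro rfl
      rw [sub_zero, hvinv] at hva
      exact lt_irrefl _ hva
    have ha1 : V'.valuation a = 1 := by
      apply le_antisymm
      · have e : a = v⁻¹ - (v⁻¹ - a) := by ring
        rw [e]
        refine le_trans (Valuation.map_sub _ _ _) (max_le hvinv.le hva.le)
      · by_contra hcon
        push Not at hcon
        have e : v⁻¹ = (v⁻¹ - a) + a := by ring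
        have h2 : V'.valuation v⁻¹ < 1 := by
          rw [e]; exact rdl92_add_lt V' hva hcon
        rw [hvinv] at h2
        exact lt_irrefl _ h2
    by_cases hainv : a⁻¹ ∈ Aal
    · apply key a⁻¹ hainv
      have e : v - a⁻¹ = (v * a⁻¹) * (a - v⁻¹) := by
        field_simp
      rw [e]
      apply rdl92_mul_lt V'
      · rw [map_mul, map_inv₀, hv1', ha1, inv_one, one_mul]
      · rw [rdl92_sub_swap]; exact hva
    · exfalso
      have hn1 : sf79_nmem B n (al a) := hnonunit a ha ha0 hainv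
      have hn2 : sf79_nmem B n (b * al a) := sf79_nmem_mul B n b (al a) hb hn1
      -- `al a * b - 1 ∈ 𝔪(V)`
      have h3 : V.valuation (b * al a - 1) < 1 := by
        have e : b * al a - 1 = al a * (b - al v) + al (v * (a - v⁻¹)) := by
          rw [map_mul, map_sub, map_inv₀]
          have hv0' : al v ≠ 0 := (map_ne_zero al).mpr hv0
          field_simp
          ring
        rw [e]
        apply rdl92_add_lt V
        · exact rdl92_mul_lt V (hal_le a ha1.le) hbv
        · apply hal_lt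
          apply rdl92_mul_lt V' hv1'.le
          rw [rdl92_sub_swap]; exact hva
      have hmem : b * al a - 1 ∈ sf79_loc B n :=
        (sf79_loc B n).sub_mem ((sf79_loc B n).mul_mem hb (hAB a ha)) (sf79_loc B n).one_mem
      have hn3 : sf79_nmem B n (b * al a - 1) := hnm _ hmem h3
      have hn4 : sf79_nmem B n ((-1 : F2) * (b * al a - 1)) :=
        sf79_nmem_mul B n (-1) _ ((sf79_loc B n).neg_mem (sf79_loc B n).one_mem) hn3
      have hn5 := sf79_nmem_add B n _ _ hn2 hn4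
      have e : b * al a + (-1 : F2) * (b * al a - 1) = 1 := by ring
      rw [e] at hn5
      exact sf79_not_nmem_one B n hn5

end Main

section Val

variable {R F1 : Type*} [CommRing R] [Field F1] [Algebra R F1]

/-- One half of `rdl92_hval`. -/
theorem rdl92_hval_aux (B' : Subalgebra R F1) (V' : ValuationSubring F1)
    (n' : Ideal B') [hn : n'.IsPrime]
    (hunit : ∀ s : B', s ∉ n' → V'.valuation (s : F1) = 1)
    (z : B') (v : F1) (hv1 : V'.valuation v = 1) (a d s₁ a₁ s₂ a₂ : B') (μ₁ μ₂ : ℕ)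
    (hvd : v * (d : F1) = (a : F1)) (hd1 : V'.valuation (d : F1) = 1)
    (hs₁ : s₁ ∉ n') (ha₁ : a₁ ∉ n') (hs₂ : s₂ ∉ n') (ha₂ : a₂ ∉ n')
    (h₁ : V'.valuation ((s₁ : F1) * (a : F1) - (a₁ : F1) * (z : F1) ^ μ₁) < 1)
    (h₂ : V'.valuation ((s₂ : F1) * (d : F1) - (a₂ : F1) * (z : F1) ^ μ₂) < 1)
    (hμ : μ₂ ≤ μ₁) :
    ∃ A ∈ sf79_loc B' n', V'.valuation (v - A) < 1 := by
  have hs₁1 := hunit s₁ hs₁
  have ha₁1 := hunit a₁ ha₁
  have hs₂1 := hunit s₂ hs₂
  have ha₂1 := hunit a₂ ha₂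
  have hden : a₂ * s₁ ∉ n' := fun h => (hn.mem_or_mem h).elim ha₂ hs₁
  have hden0 : ((a₂ * s₁ : B') : F1) ≠ 0 := sf79_ne_zero B' n' _ hden
  have hden1 : V'.valuation ((a₂ : F1) * (s₁ : F1)) = 1 := by rw [map_mul, ha₂1, hs₁1, one_mul]
  -- `z ^ μ₂` is a unit of `V'`
  have hz2 : V'.valuation ((z : F1) ^ μ₂) = 1 := by
    have hsd : V'.valuation ((s₂ : F1) * (d : F1)) = 1 := by rw [map_mul, hs₂1, hd1, one_mul]
    have h3 : V'.valuation ((a₂ : F1) * (z : F1) ^ μ₂) = 1 := by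
      apply le_antisymm
      · have e : (a₂ : F1) * (z : F1) ^ μ₂ =
            (s₂ : F1) * (d : F1) - ((s₂ : F1) * (d : F1) - (a₂ : F1) * (z : F1) ^ μ₂) := by ring
        rw [e]
        exact le_trans (Valuation.map_sub _ _ _) (max_le hsd.le h₂.le)
      · by_contra hcon
        push Not at hcon
        have e : (s₂ : F1) * (d : F1) =
            ((s₂ : F1) * (d : F1) - (a₂ : F1) * (z : F1) ^ μ₂) + (a₂ : F1) * (z : F1) ^ μ₂ := by
          ring
        have h4 : V'.valuation ((s₂ : F1) * (d : F1)) < 1 := by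
          rw [e]; exact rdl92_add_lt V' h₂ hcon
        rw [hsd] at h4
        exact lt_irrefl _ h4
    rwa [map_mul, ha₂1, one_mul] at h3
  have hz20 : (z : F1) ^ μ₂ ≠ 0 := by
    intro h0
    rw [h0, map_zero] at hz2
    exact zero_ne_one hz2
  refine ⟨((a₁ * s₂ * z ^ (μ₁ - μ₂) : B') : F1) * ((a₂ * s₁ : B') : F1)⁻¹, ?_, ?_⟩
  · refine ⟨a₂ * s₁, hden, ?_⟩
    rw [mul_comm (((a₁ * s₂ * z ^ (μ₁ - μ₂) : B') : F1)), ← mul_assoc, mul_inv_cancel₀ hden0,
      one_mul]
    exact (a₁ * s₂ * z ^ (μ₁ - μ₂) : B').2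
  · -- `z^μ₂ * (v * (a₂ s₁) - a₁ s₂ z^(μ₁-μ₂)) = s₂ x₁ - v s₁ x₂`
    have hkey : (z : F1) ^ μ₂ * (v * ((a₂ : F1) * (s₁ : F1)) -
        (a₁ : F1) * (s₂ : F1) * (z : F1) ^ (μ₁ - μ₂)) =
        (s₂ : F1) * ((s₁ : F1) * (a : F1) - (a₁ : F1) * (z : F1) ^ μ₁) -
          v * (s₁ : F1) * ((s₂ : F1) * (d : F1) - (a₂ : F1) * (z : F1) ^ μ₂) := by
      have hpow : (z : F1) ^ μ₁ = (z : F1) ^ μ₂ * (z : F1) ^ (μ₁ - μ₂) := by
        rw [← pow_add, Nat.add_sub_cancel' hμ]
      rw [hpow, ← hvd]; ring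
    have h5 : V'.valuation ((z : F1) ^ μ₂ * (v * ((a₂ : F1) * (s₁ : F1)) -
        (a₁ : F1) * (s₂ : F1) * (z : F1) ^ (μ₁ - μ₂))) < 1 := by
      rw [hkey]
      apply rdl92_sub_lt V'
      · exact rdl92_mul_lt V' hs₂1.le h₁
      · apply rdl92_mul_lt V' _ h₂
        rw [map_mul, hv1, hs₁1, one_mul]
    rw [map_mul, hz2, one_mul] at h5
    have e : v - ((a₁ * s₂ * z ^ (μ₁ - μ₂) : B') : F1) * ((a₂ * s₁ : B') : F1)⁻¹ =
        ((a₂ : F1) * (s₁ : F1))⁻¹ * (v * ((a₂ : F1) * (s₁ : F1)) -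
          (a₁ : F1) * (s₂ : F1) * (z : F1) ^ (μ₁ - μ₂)) := by
      have h0 : (a₂ : F1) * (s₁ : F1) ≠ 0 := by
        have := hden0
        push_cast at this
        exact this
      push_cast
      exact rdl92_sub_mul_inv _ _ _ h0
    rw [e, map_mul, map_inv₀, hden1, inv_one, one_mul]
    exact h5

/-- **`hval` for the local ring of a smooth point**: the image of `B'_{n'}` in the residue field
of `V'` is a valuation ring, from fractions (`bi93_frac` shape) and the power decomposition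
along the branch (conclusion shape of `sf79_unif_pow`, in valuation form). -/
theorem rdl92_hval (B' : Subalgebra R F1) (V' : ValuationSubring F1)
    (n' : Ideal B') [hn : n'.IsPrime]
    (hBV : ∀ x ∈ B', x ∈ V')
    (hbr : ∀ x : B', V'.valuation (x : F1) < 1 → x ∈ n')
    (hfrac : ∀ c ∈ V', ∃ a d : B', V'.valuation (d : F1) = 1 ∧ c * (d : F1) = (a : F1))
    (z : B')
    (hpow : ∀ u : B', V'.valuation (u : F1) = 1 → ∃ (μ : ℕ) (s a : B'), s ∉ n' ∧ a ∉ n' ∧
      V'.valuation ((s : F1) * (u : F1) - (a : F1) * (z : F1) ^ μ) < 1) :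
    ∀ v : F1, V'.valuation v = 1 →
      (∃ a ∈ sf79_loc B' n', V'.valuation (v - a) < 1) ∨
        ∃ a ∈ sf79_loc B' n', V'.valuation (v⁻¹ - a) < 1 := by
  have hunit : ∀ s : B', s ∉ n' → V'.valuation (s : F1) = 1 := fun s hs =>
    rdl92_val_eq_one V' (hBV _ s.2) (fun h => hs (hbr s h))
  intro v hv1
  have hvV : v ∈ V' := (V'.valuation_le_one_iff _).mp hv1.le
  obtain ⟨a, d, hd1, hvd⟩ := hfrac v hvV
  have ha1 : V'.valuation (a : F1) = 1 := by rw [← hvd, map_mul, hv1, hd1, one_mul]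
  obtain ⟨μ₁, s₁, a₁, hs₁, ha₁, h₁⟩ := hpow a ha1
  obtain ⟨μ₂, s₂, a₂, hs₂, ha₂, h₂⟩ := hpow d hd1
  have hv0 : v ≠ 0 := by
    rintro rfl
    rw [map_zero] at hv1
    exact zero_ne_one hv1
  have ha0 : (a : F1) ≠ 0 := by
    intro h0
    rw [h0, map_zero] at ha1
    exact zero_ne_one ha1
  rcases le_total μ₂ μ₁ with hμ | hμ
  · exact Or.inl (rdl92_hval_aux B' V' n' hunit z v hv1 a d s₁ a₁ s₂ a₂ μ₁ μ₂ hvd hd1
      hs₁ ha₁ hs₂ ha₂ h₁ h₂ hμ)
  · refine Or.inr (rdl92_hval_aux B' V' n' hunit z v⁻¹ (by rw [map_inv₀, hv1, inv_one])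
      d a s₂ a₂ s₁ a₁ μ₂ μ₁ ?_ ha1 hs₂ ha₂ hs₁ ha₁ h₂ h₁ hμ)
    rw [← hvd]
    field_simp

/-- `hval` from the literal hypotheses and conclusion shape of `sf79_unif_pow` (`π`-form; `π` a
uniformizer of `V'`). -/
theorem rdl92_hval_of_unif (π : R) (B' : Subalgebra R F1) (V' : ValuationSubring F1)
    (n' : Ideal B') [hn : n'.IsPrime]
    (hBV : ∀ x ∈ B', x ∈ V') (hπV : (algebraMap R F1 π)⁻¹ ∉ V')
    (hOn : sf79_OnBr π B' V'.toSubring n')
    (hmax : ∀ x ∈ V', x⁻¹ ∉ V' → (algebraMap R F1 π)⁻¹ * x ∈ V')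
    (hfrac : ∀ c ∈ V', ∃ a d : B', V'.valuation (d : F1) = 1 ∧ c * (d : F1) = (a : F1))
    (z : B')
    (hpow : ∀ u : B', (algebraMap R F1 π)⁻¹ * (u : F1) ∉ V' → ∃ (μ : ℕ) (s a : B'),
      s ∉ n' ∧ a ∉ n' ∧
      (algebraMap R F1 π)⁻¹ * ((s : F1) * (u : F1) - (a : F1) * (z : F1) ^ μ) ∈ V') :
    ∀ v : F1, V'.valuation v = 1 →
      (∃ a ∈ sf79_loc B' n', V'.valuation (v - a) < 1) ∨
        ∃ a ∈ sf79_loc B' n', V'.valuation (v⁻¹ - a) < 1 := by
  have hπ0 : algebraMap R F1 π ≠ 0 := by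
    intro h0
    apply hπV
    rw [h0, inv_zero]; exact V'.zero_mem
  have hπlt : V'.valuation (algebraMap R F1 π) < 1 := by
    by_contra hcon
    push Not at hcon
    apply hπV
    rw [← V'.valuation_le_one_iff, map_inv₀]
    exact inv_le_one_of_one_le₀ hcon
  -- `π⁻¹ x ∈ V' ↔ V'.valuation x < 1`
  have hiff : ∀ x : F1, (algebraMap R F1 π)⁻¹ * x ∈ V' → V'.valuation x < 1 := by
    intro x hx
    have h1 := (V'.valuation_le_one_iff _).mpr hx
    have e : x = algebraMap R F1 π * ((algebraMap R F1 π)⁻¹ * x) := by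
      rw [← mul_assoc, mul_inv_cancel₀ hπ0, one_mul]
    rw [e]
    rw [mul_comm]
    exact rdl92_mul_lt V' h1 hπlt
  have hiff' : ∀ x : F1, V'.valuation x = 1 → (algebraMap R F1 π)⁻¹ * x ∉ V' := by
    intro x hx h
    have := hiff x h
    rw [hx] at this
    exact lt_irrefl _ this
  refine rdl92_hval B' V' n' hBV ?_ hfrac z ?_
  · intro x hx
    apply hOn x
    show (algebraMap R F1 π)⁻¹ * (x : F1) ∈ V'
    by_cases hx0 : (x : F1) = 0
    · rw [hx0, mul_zero]; exact V'.zero_mem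
    apply hmax _ (hBV _ x.2)
    intro hinv
    have h1 := (V'.valuation_le_one_iff _).mpr hinv
    rw [map_inv₀] at h1
    have hpos : 0 < V'.valuation (x : F1) := zero_lt_iff.mpr ((map_ne_zero _).mpr hx0)
    exact absurd hx (not_lt.mpr ((inv_le_one₀ hpos).mp h1))
  · intro u hu
    obtain ⟨μ, s, a, hs, ha, h⟩ := hpow u (hiff' _ hu)
    exact ⟨μ, s, a, hs, ha, hiff _ h⟩

end Val

end Fermat.Agent.S36
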