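import Fermat.Agent.S36.RigidCubeInst43

/-!
# S36 lab, row C-REGq (helper40): root data at the good level, pushed into a DVR of the level-`q`
chart  (the rigidity input `hrig` of `kbi40_hdata`)

* `rb40_root_map` : `α : F' →+* F` with `α(B') ⊆ B`, `n` an ideal of `B`, `n'` an ideal of `B'`
  whose complement maps into the complement of `n`, `φ : B →+* O` inverting the complement of
  `n`, root data `rc43_RootAt B' n' m f` (`f = ε c^m`, `ε, ε⁻¹, c ∈ B'_{n'}`), and a presentation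
  `sf · α f = af` in `B` with `sf ∉ n`.  Then `φ af = w · d ^ m` with `w` a unit of `O`.
* `rb40_dvd` : in a discrete valuation ring, `ϖ ^ m ∣ φ af` as soon as `af ∈ n`.
* `rb40_six_core` : `x = w₁ d₁^3 = w₂ d₂^2` a non-unit of a DVR `⟹ ϖ ^ 6 ∣ x`.
* `rb40_rig` : the three clauses of `hrig` for `q ≠ 2` (cube for `J`, square for `J - 1728`,
  and `ϖ ^ 6 ∣ φ aJ` when `3 = 0` in `O`) from `rc43_RootAt B' n' 3 J'` and
  `rc43_RootAt B' n' 2 (J' - 1728)`.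

All names are prefixed `rb40_`.
-/

set_option autoImplicit false
set_option linter.overlappingInstances false

namespace Fermat.Agent.S36

section rb40_abs

variable {R F' F : Type*} [CommRing R] [Field F'] [Field F] [Algebra R F'] [Algebra R F]

/-- Root data at `(B', n')` pushed along `α` and `φ`. -/
theorem rb40_root_map (α : F' →+* F) (B' : Subalgebra R F') (B : Subalgebra R F)
    (hα : ∀ x ∈ B', α x ∈ B) (n : Ideal B) (n' : Ideal B')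
    (hn' : ∀ x : B', x ∉ n' → (⟨α x, hα x x.2⟩ : B) ∉ n)
    {O : Type*} [CommRing O] (φ : B →+* O) (hφu : ∀ s : B, s ∉ n → IsUnit (φ s))
    (m : ℕ) (f : F') (hf : f ≠ 0) (hroot : rc43_RootAt B' n' m f)
    (sf af : B) (hsf : sf ∉ n) (haf : (sf : F) * α f = af) :
    ∃ w d : O, IsUnit w ∧ φ af = w * d ^ m := by
  obtain ⟨c, ε, -, hfe, ⟨s₁, hs₁, h₁⟩, ⟨s₂, hs₂, h₂⟩, ⟨s₃, hs₃, h₃⟩⟩ := hroot
  have hε : ε ≠ 0 := by
    intro h0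
    rw [h0, zero_mul] at hfe
    exact hf hfe
  obtain ⟨S₁, hS₁⟩ : ∃ S₁ : B, S₁ = ⟨α s₁, hα _ s₁.2⟩ := ⟨_, rfl⟩
  obtain ⟨S₂, hS₂⟩ : ∃ S₂ : B, S₂ = ⟨α s₂, hα _ s₂.2⟩ := ⟨_, rfl⟩
  obtain ⟨S₃, hS₃⟩ : ∃ S₃ : B, S₃ = ⟨α s₃, hα _ s₃.2⟩ := ⟨_, rfl⟩
  obtain ⟨E₁, hE₁⟩ : ∃ E₁ : B, E₁ = ⟨α ((s₁ : F') * ε), hα _ h₁⟩ := ⟨_, rfl⟩
  obtain ⟨E₂, hE₂⟩ : ∃ E₂ : B, E₂ = ⟨α ((s₂ : F') * ε⁻¹), hα _ h₂⟩ := ⟨_, rfl⟩
  obtain ⟨C₃, hC₃⟩ : ∃ C₃ : B, C₃ = ⟨α ((s₃ : F') * c), hα _ h₃⟩ := ⟨_, rfl⟩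
  have hS₁n : S₁ ∉ n := hS₁ ▸ hn' s₁ hs₁
  have hS₂n : S₂ ∉ n := hS₂ ▸ hn' s₂ hs₂
  have hS₃n : S₃ ∉ n := hS₃ ▸ hn' s₃ hs₃
  have e1 : E₁ * E₂ = S₁ * S₂ := by
    apply Subtype.ext
    rw [hE₁, hE₂, hS₁, hS₂]
    show α ((s₁ : F') * ε) * α ((s₂ : F') * ε⁻¹) = α (s₁ : F') * α (s₂ : F')
    rw [← map_mul, ← map_mul]
    congr 1
    field_simp
  have e2 : S₁ * S₃ ^ m * af = sf * E₁ * C₃ ^ m := by
    apply Subtype.ext
    rw [hE₁, hC₃, hS₁, hS₃]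
    show α (s₁ : F') * (α (s₃ : F')) ^ m * (af : F) =
      (sf : F) * α ((s₁ : F') * ε) * (α ((s₃ : F') * c)) ^ m
    rw [← haf, hfe]
    simp only [map_mul, map_pow]
    ring
  have hE₁u : IsUnit (φ E₁) := by
    have h : IsUnit (φ E₁ * φ E₂) := by
      rw [← map_mul, e1, map_mul]
      exact (hφu S₁ hS₁n).mul (hφu S₂ hS₂n)
    exact isUnit_of_mul_isUnit_left h
  have e3 := congrArg φ e2
  rw [map_mul, map_mul, map_pow, map_mul, map_mul, map_pow] at e3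
  obtain ⟨u, hu⟩ := (hφu S₁ hS₁n).mul ((hφu S₃ hS₃n).pow m)
  obtain ⟨uf, huf⟩ := hφu sf hsf
  obtain ⟨uE, huE⟩ := hE₁u
  refine ⟨((u⁻¹ * uf * uE : Oˣ) : O), φ C₃, Units.isUnit _, ?_⟩
  have h4 : φ af = ((u⁻¹ : Oˣ) : O) * (φ S₁ * φ S₃ ^ m * φ af) := by
    rw [← hu, ← mul_assoc, Units.inv_mul, one_mul]
  rw [h4, e3, ← huf, ← huE]
  push_cast
  ring

end rb40_abs

section rb40_dvr

variable {O : Type*} [CommRing O] [IsDomain O] [IsDiscreteValuationRing O]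

/-- `x = w d ^ m` a non-unit of a DVR, `w` a unit: `ϖ ^ m ∣ x`. -/
theorem rb40_dvd (ϖ : O) (hϖ : Irreducible ϖ) (m : ℕ) (x w d : O) (hw : IsUnit w)
    (hx : x = w * d ^ m) (hxn : ¬ IsUnit x) : ϖ ^ m ∣ x := by
  have hdn : ¬ IsUnit d := by
    intro hd
    exact hxn (hx ▸ hw.mul (hd.pow m))
  have hϖd : ϖ ∣ d := by
    have hm : IsLocalRing.maximalIdeal O = Ideal.span {ϖ} :=
      (IsDiscreteValuationRing.irreducible_iff_uniformizer ϖ).mp hϖ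
    have hmem : d ∈ IsLocalRing.maximalIdeal O := (IsLocalRing.mem_maximalIdeal _).mpr hdn
    rw [hm] at hmem
    exact Ideal.mem_span_singleton.mp hmem
  rw [hx]
  exact Dvd.dvd.mul_left (pow_dvd_pow_of_dvd hϖd m) _

/-- `x = w₁ d₁ ^ 3 = w₂ d₂ ^ 2` a non-unit of a DVR: `ϖ ^ 6 ∣ x`. -/
theorem rb40_six_core (ϖ : O) (hϖ : Irreducible ϖ) (x w₁ d₁ w₂ d₂ : O) (hw₁ : IsUnit w₁)
    (hw₂ : IsUnit w₂) (h₁ : x = w₁ * d₁ ^ 3) (h₂ : x = w₂ * d₂ ^ 2) (hxn : ¬ IsUnit x) :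
    ϖ ^ 6 ∣ x := by
  by_cases hx0 : x = 0
  · rw [hx0]; exact dvd_zero _
  have hd1 : d₁ ≠ 0 := by
    intro h0
    rw [h0, zero_pow (by norm_num), mul_zero] at h₁
    exact hx0 h₁
  have hd2 : d₂ ≠ 0 := by
    intro h0
    rw [h0, zero_pow (by norm_num), mul_zero] at h₂
    exact hx0 h₂
  obtain ⟨m₁, hm₁⟩ := IsDiscreteValuationRing.associated_pow_irreducible hd1 hϖ
  obtain ⟨m₂, hm₂⟩ := IsDiscreteValuationRing.associated_pow_irreducible hd2 hϖ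
  obtain ⟨v₁, hv₁⟩ := hm₁.symm
  obtain ⟨v₂, hv₂⟩ := hm₂.symm
  obtain ⟨u₁, hu₁⟩ := hw₁
  obtain ⟨u₂, hu₂⟩ := hw₂
  have f1 : x = ((u₁ * v₁ ^ 3 : Oˣ) : O) * ϖ ^ (3 * m₁) := by
    rw [h₁, ← hu₁, ← hv₁]
    push_cast
    ring
  have f2 : x = ((u₂ * v₂ ^ 2 : Oˣ) : O) * ϖ ^ (2 * m₂) := by
    rw [h₂, ← hu₂, ← hv₂]
    push_cast
    ring
  have hm : 3 * m₁ = 2 * m₂ :=
    IsDiscreteValuationRing.unit_mul_pow_congr_pow hϖ hϖ _ _ _ _ (f1.symm.trans f2)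
  have hpos : m₁ ≠ 0 := by
    intro h0
    apply hxn
    rw [f1, h0, mul_zero, pow_zero, mul_one]
    exact Units.isUnit _
  have h6 : 6 ≤ 3 * m₁ := by omega
  rw [f1]
  exact Dvd.dvd.mul_left (pow_dvd_pow ϖ h6) _

end rb40_dvr

section rb40_rig

variable {R F' F : Type*} [CommRing R] [Field F'] [Field F] [Algebra R F'] [Algebra R F]

/-- **The clauses of `hrig` for `q ≠ 2`** from the root data of `J` (cube) and `J - 1728`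
(square) at the good level. -/
theorem rb40_rig (α : F' →+* F) (B' : Subalgebra R F') (B : Subalgebra R F)
    (hα : ∀ x ∈ B', α x ∈ B) (n : Ideal B) (n' : Ideal B')
    (hn' : ∀ x : B', x ∉ n' → (⟨α x, hα x x.2⟩ : B) ∉ n)
    {O : Type*} [CommRing O] [IsDomain O] [IsDiscreteValuationRing O]
    (φ : B →+* O) (hφu : ∀ s : B, IsUnit (φ s) ↔ s ∉ n)
    (J' : F') (hJ0 : J' ≠ 0) (hJ1 : J' - 1728 ≠ 0)
    (h3 : rc43_RootAt B' n' 3 J') (h2 : rc43_RootAt B' n' 2 (J' - 1728))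
    (sJ aJ : B) (hsJ : sJ ∉ n) (hJ : (sJ : F) * α J' = aJ) (ϖ : O) (hϖ : Irreducible ϖ) :
    (aJ ∈ n → ϖ ^ 3 ∣ φ aJ) ∧ (aJ - 1728 * sJ ∈ n → ϖ ^ 2 ∣ φ (aJ - 1728 * sJ)) ∧
      ((3 : O) = 0 → aJ ∈ n → ϖ ^ 6 ∣ φ aJ) := by
  have hc : ((1728 : B) : F) = (1728 : F) := map_ofNat B.val 1728
  have hJ' : (sJ : F) * α (J' - 1728) = ((aJ - 1728 * sJ : B) : F) := by
    rw [map_sub, map_ofNat, mul_sub, hJ, Subalgebra.coe_sub, Subalgebra.coe_mul, hc]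
    ring
  obtain ⟨w₁, d₁, hw₁, e₁⟩ := rb40_root_map α B' B hα n n' hn' φ (fun s hs => (hφu s).mpr hs)
    3 J' hJ0 h3 sJ aJ hsJ hJ
  obtain ⟨w₂, d₂, hw₂, e₂⟩ := rb40_root_map α B' B hα n n' hn' φ (fun s hs => (hφu s).mpr hs)
    2 (J' - 1728) hJ1 h2 sJ (aJ - 1728 * sJ) hsJ hJ'
  refine ⟨fun h => ?_, fun h => ?_, fun h30 h => ?_⟩
  · exact rb40_dvd ϖ hϖ 3 _ w₁ d₁ hw₁ e₁ (fun hu => ((hφu aJ).mp hu) h)
  · exact rb40_dvd ϖ hϖ 2 _ w₂ d₂ hw₂ e₂ (fun hu => ((hφu _).mp hu) h)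
  · have h1728 : (1728 : O) = 0 := by
      have : (1728 : O) = 3 * 576 := by norm_num
      rw [this, h30, zero_mul]
    have e₂' : φ aJ = w₂ * d₂ ^ 2 := by
      rw [← e₂, map_sub, map_mul, map_ofNat, h1728, zero_mul, sub_zero]
    exact rb40_six_core ϖ hϖ _ w₁ d₁ w₂ d₂ hw₁ hw₂ e₁ e₂' (fun hu => ((hφu aJ).mp hu) h)

end rb40_rig

end Fermat.Agent.S36
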