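import Fermat.Agent.S36.Rigid20
import Fermat.Agent.S24.Differentials

/-!
# S36 lab, row 588 (LVL-rigidity), seat 20: the `β` half

Abstract comparison of two functions on one curve (Riemann–Hurwitz twice, S24 `wp2_degree_eq`):
if `x` and `y` have the same degree, every pole of `y` is a pole of `x`, the ramification of `x`
over every finite value `a` is exactly `ε a` at every place, and the ramification of `y` over every
finite value `b` is at least `ε b` at every place, then the ramification of `y` over `b` is exactly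
`ε b` at every place.

* `rg20_two_fun`        : the abstract statement;
* `rg20_beta_unram_of`  : `heckeBetaBar` is unramified at every non-cuspidal place of level
  `N * ℓ` (for `N` without elliptic points), given the degree equality
  `[F(Nℓ) : ℚ̄(j(ℓτ))] = [F(Nℓ) : ℚ̄(j)]` and `poles of j(ℓτ) ⊆ poles of j`.
-/

set_option autoImplicit false
set_option linter.style.haveILetI false

open ModularCurve AlgebraicCurve MatrixGroups IntermediateField
open KaehlerDifferential

namespace Fermat.Agent.S36

open Fermat.Agent.S24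

section TwoFun

variable {K F : Type*} [Field K] [IsAlgClosed K] [CharZero K] [Field F] [Algebra K F]

/-- Fibre count: if every zero of `y - b` has order at least `e`, then `e * #zeros ≤ degree`,
and in case of equality every zero has order exactly `e`. -/
theorem rg20_fibre (y : F) (hy : Transcendental K y) [FiniteDimensional K⟮y⟯ F] (b : K) (e : ℕ)
    (hge : ∀ v : Place K F, 0 < v.ord (y - algebraMap K F b) →
      (e : ℤ) ≤ v.ord (y - algebraMap K F b)) :
    e * Nat.card {v : Place K F // 0 < v.ord (y - algebraMap K F b)} ≤ Module.finrank K⟮y⟯ F ∧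
    (e * Nat.card {v : Place K F // 0 < v.ord (y - algebraMap K F b)} = Module.finrank K⟮y⟯ F →
      ∀ v : Place K F, 0 < v.ord (y - algebraMap K F b) →
        v.ord (y - algebraMap K F b) = e) := by
  classical
  have hsum := wp2_sum_zeros y hy b
  have hcard := wp2_card_zeros y hy b
  have hnn : ∀ u ∈ wp2_zeros y hy b, 0 ≤ u.ord (y - algebraMap K F b) - (e : ℤ) := by
    intro u hu
    have := hge u ((wp2_mem_zeros y hy b u).mp hu)
    linarith
  have htot : ∑ u ∈ wp2_zeros y hy b, (u.ord (y - algebraMap K F b) - (e : ℤ)) =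
      (Module.finrank K⟮y⟯ F : ℤ) -
        (e : ℤ) * (Nat.card {v : Place K F // 0 < v.ord (y - algebraMap K F b)} : ℤ) := by
    rw [Finset.sum_sub_distrib, hsum, Finset.sum_const, hcard, nsmul_eq_mul]
    ring
  have h0 := Finset.sum_nonneg hnn
  rw [htot] at h0
  refine ⟨by exact_mod_cast (sub_nonneg.mp h0), fun heq v hv => ?_⟩
  have hz : ∑ u ∈ wp2_zeros y hy b, (u.ord (y - algebraMap K F b) - (e : ℤ)) = 0 := by
    rw [htot]
    have : ((e * Nat.card {v : Place K F // 0 < v.ord (y - algebraMap K F b)} : ℕ) : ℤ) =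
        (Module.finrank K⟮y⟯ F : ℤ) := by exact_mod_cast heq
    push_cast at this
    linarith
  have := (Finset.sum_eq_zero_iff_of_nonneg hnn).mp hz v ((wp2_mem_zeros y hy b v).mpr hv)
  linarith

/-- The value of a function at a place where it is regular is unique. -/
theorem rg20_value_unique (y : F) (v : Place K F) (b b' : K)
    (hb : 0 < v.ord (y - algebraMap K F b)) (hb' : 0 < v.ord (y - algebraMap K F b')) :
    b = b' := by
  by_contra hne
  have hne' : algebraMap K F (b - b') ≠ 0 := by
    rw [Ne, map_eq_zero, sub_eq_zero]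
    exact hne
  have h0 : v.ord (algebraMap K F (b - b')) = 0 := wp1_ord_algebraMap v (b - b')
  have hsum : (y - algebraMap K F b') + -(y - algebraMap K F b) = algebraMap K F (b - b') := by
    rw [map_sub]
    ring
  have hb0 : y - algebraMap K F b' ≠ 0 := by
    intro h
    rw [h, v.ord_zero] at hb'
    exact lt_irrefl _ hb'
  have ha0 : -(y - algebraMap K F b) ≠ 0 := by
    intro h
    rw [neg_eq_zero] at h
    rw [h, v.ord_zero] at hb
    exact lt_irrefl _ hb
  have h1 := wp1_ord_add v (y - algebraMap K F b') (-(y - algebraMap K F b))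
    (by rw [hsum]; exact hne') hb0 ha0
  rw [hsum, h0, wp2_ord_neg] at h1
  have := le_min hb'.le hb.le
  omega

/-- A regular place of a transcendental function has a value. -/
theorem rg20_exists_value (y : F) (hy : Transcendental K y) [FiniteDimensional K⟮y⟯ F]
    (v : Place K F) (hv : 0 ≤ v.ord y) : ∃ b : K, 0 < v.ord (y - algebraMap K F b) := by
  have hmem : y ∈ v.toValuationSubring := (wp1_mem_iff_ord_nonneg v y).mpr hv
  obtain ⟨c, hc | hc⟩ := wp1_exists_const y hy v y hmem
  · exact absurd (hc ▸ isAlgebraic_algebraMap (R := K) (A := F) c) hy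
  · exact ⟨c, hc⟩

/-- The order of `dy` at a place, for a transcendental `y`: the local term. -/
theorem rg20_ordDiff_D (y : F) (hy : Transcendental K y) [FiniteDimensional K⟮y⟯ F]
    (v : Place K F) (f : F) (hf : f ≠ 0) :
    (v.ord y < 0 ∧ v.ordDifferential (f • D K F y) = v.ord f + v.ord y - 1) ∨
    ∃ b : K, 0 < v.ord (y - algebraMap K F b) ∧
      v.ordDifferential (f • D K F y) = v.ord f + v.ord (y - algebraMap K F b) - 1 := by
  by_cases hp : v.ord y < 0
  · left
    refine ⟨hp, ?_⟩
    have h := wp2_ordDifferential_smul_D y hy v f hf 0 (by rw [map_zero, sub_zero]; exact hp.ne)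
    rwa [map_zero, sub_zero] at h
  · right
    obtain ⟨b, hb⟩ := rg20_exists_value y hy v (not_lt.mp hp)
    exact ⟨b, hb, wp2_ordDifferential_smul_D y hy v f hf b hb.ne'⟩

/-- **Two functions of the same degree on one curve.** -/
theorem rg20_two_fun (x y : F) (hx : Transcendental K x) (hy : Transcendental K y)
    [FiniteDimensional K⟮x⟯ F] [FiniteDimensional K⟮y⟯ F]
    (hn : Module.finrank K⟮y⟯ F = Module.finrank K⟮x⟯ F)
    (ε : K → ℕ) (S : Finset K) (hεpos : ∀ a, 0 < ε a) (hε1 : ∀ a, a ∉ S → ε a = 1)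
    (Hx : ∀ (a : K) (v : Place K F), 0 < v.ord (x - algebraMap K F a) →
      v.ord (x - algebraMap K F a) = ε a)
    (Hy : ∀ (b : K) (v : Place K F), 0 < v.ord (y - algebraMap K F b) →
      (ε b : ℤ) ≤ v.ord (y - algebraMap K F b))
    (Hp : ∀ v : Place K F, v.ord y < 0 → v.ord x < 0)
    (b₀ : K) (v₀ : Place K F) (hv₀ : 0 < v₀.ord (y - algebraMap K F b₀)) :
    v₀.ord (y - algebraMap K F b₀) = ε b₀ := by
  classical
  set n : ℕ := Module.finrank K⟮x⟯ F with hndef
  -- `dy = g dx`
  obtain ⟨g, hg⟩ := wp2_exists_eq_smul_D x hx (D K F y)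
  have hg0 : g ≠ 0 := by
    rintro rfl
    rw [zero_smul] at hg
    exact wp2_D_ne_zero y hy hg
  -- the divisor of `dx`
  set dx : Place K F → ℤ := fun v => v.ordDifferential ((1 : F) • D K F x) with hdx
  have hdx_pole : ∀ v : Place K F, v.ord x < 0 → dx v = v.ord x - 1 := by
    intro v hv
    rcases rg20_ordDiff_D x hx v 1 one_ne_zero with ⟨-, h⟩ | ⟨b, hb, -⟩
    · rw [hdx]
      simp only
      rw [h, v.ord_one, zero_add]
    · exfalso
      -- a pole has no value
      have hxmem : x - algebraMap K F b ∈ v.toValuationSubring :=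
        (wp1_mem_iff_ord_nonneg v _).mpr hb.le
      have hxm : x ∈ v.toValuationSubring := by
        have := v.toValuationSubring.add_mem _ _ hxmem (v.algebraMap_mem' b)
        rwa [sub_add_cancel] at this
      have := (wp1_mem_iff_ord_nonneg v x).mp hxm
      omega
  have hdx_val : ∀ (v : Place K F) (a : K), 0 < v.ord (x - algebraMap K F a) →
      dx v = (ε a : ℤ) - 1 := by
    intro v a ha
    have h := wp2_ordDifferential_smul_D x hx v 1 one_ne_zero a ha.ne'
    rw [hdx]
    simp only
    rw [h, v.ord_one, zero_add, Hx a v ha]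
  have hsmul : ∀ v : Place K F, v.ordDifferential (D K F y) = v.ord g + dx v := by
    intro v
    rw [hg]
    rcases rg20_ordDiff_D x hx v g hg0 with ⟨hp, h⟩ | ⟨b, hb, h⟩
    · rw [h, hdx_pole v hp]
      ring
    · rw [h, hdx_val v b hb, Hx b v hb]
      ring
  -- the support of `div(dx)`
  set sx : Finset (Place K F) := wp2_poles x hx ∪ S.biUnion (fun a => wp2_zeros x hx a) with hsx
  have hdx_supp : ∀ v : Place K F, dx v ≠ 0 → v ∈ sx := by
    intro v hv
    by_contra hvs
    rw [hsx, Finset.mem_union, not_or] at hvs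
    obtain ⟨hvP, hvU⟩ := hvs
    rw [wp2_mem_poles] at hvP
    obtain ⟨a, ha⟩ := rg20_exists_value x hx v (not_lt.mp hvP)
    have haS : a ∉ S := fun haS =>
      hvU (Finset.mem_biUnion.mpr ⟨a, haS, (wp2_mem_zeros x hx a v).mpr ha⟩)
    apply hv
    rw [hdx_val v a ha, hε1 a haS]
    simp
  set Dx : Divisor K F := Finsupp.onFinset sx dx hdx_supp with hDx
  have hDxv : ∀ v : Place K F, Dx v = v.ordDifferential ((1 : F) • D K F x) := fun v => rfl
  have hω : (1 : F) • D K F x ≠ 0 := by
    rw [one_smul]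
    exact wp2_D_ne_zero x hx
  -- Riemann–Hurwitz for `x`
  have hSx : ∀ a : K, a ∉ S → Nat.card {v : Place K F // 0 < v.ord (x - algebraMap K F a)}
      = Module.finrank K⟮x⟯ F := by
    intro a ha
    have h := rg20_fibre x hx a 1 (fun v hv => by
      have := Hx a v hv
      rw [hε1 a ha] at this
      rw [this])
    have h2 : 1 * Nat.card {v : Place K F // 0 < v.ord (x - algebraMap K F a)} =
        Module.finrank K⟮x⟯ F := by
      have hsum := wp2_sum_zeros x hx a
      have hcard := wp2_card_zeros x hx a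
      have h1 : ∑ v ∈ wp2_zeros x hx a, v.ord (x - algebraMap K F a) =
          ∑ v ∈ wp2_zeros x hx a, (1 : ℤ) :=
        Finset.sum_congr rfl fun v hv => by
          rw [Hx a v ((wp2_mem_zeros x hx a v).mp hv), hε1 a ha]
          rfl
      rw [h1, Finset.sum_const, ← hcard] at hsum
      have : ((Nat.card {v : Place K F // 0 < v.ord (x - algebraMap K F a)} : ℕ) : ℤ) =
          (Module.finrank K⟮x⟯ F : ℤ) := by simpa using hsum
      rw [one_mul]
      exact_mod_cast this
    rwa [one_mul] at h2
  have hRHx := wp2_degree_eq x hx S hSx ((1 : F) • D K F x) hω Dx hDxv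
  -- the bad values of `y`
  set R : Finset (Place K F) := (wp2_finite_ord_ne_zero x hx g hg0).toFinset ∪ sx with hR
  have hbadfin : {b : K | ∃ v ∈ R, 0 < v.ord (y - algebraMap K F b)}.Finite := by
    have : {b : K | ∃ v ∈ R, 0 < v.ord (y - algebraMap K F b)} =
        ⋃ v ∈ (R : Set (Place K F)), {b : K | 0 < v.ord (y - algebraMap K F b)} := by
      ext b
      simp
    rw [this]
    refine Set.Finite.biUnion R.finite_toSet (fun v _ => Set.Subsingleton.finite ?_)
    intro b hb b' hb'
    exact rg20_value_unique y v b b' hb hb'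
  set Sy : Finset K := S ∪ hbadfin.toFinset with hSydef
  have hSy : ∀ b : K, b ∉ Sy → Nat.card {v : Place K F // 0 < v.ord (y - algebraMap K F b)}
      = Module.finrank K⟮y⟯ F := by
    intro b hb
    rw [hSydef, Finset.mem_union, not_or] at hb
    obtain ⟨hbS, hbbad⟩ := hb
    have hone : ∀ v : Place K F, 0 < v.ord (y - algebraMap K F b) →
        v.ord (y - algebraMap K F b) = 1 := by
      intro v hv
      have hvR : v ∉ R := by
        intro hvR
        apply hbbad
        rw [Set.Finite.mem_toFinset]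
        exact ⟨v, hvR, hv⟩
      rw [hR, Finset.mem_union, not_or] at hvR
      obtain ⟨hvE, hvs⟩ := hvR
      have hg1 : v.ord g = 0 := by
        by_contra h
        apply hvE
        rw [Set.Finite.mem_toFinset]
        exact h
      have hd0 : dx v = 0 := by
        by_contra h
        exact hvs (hdx_supp v h)
      have h1 := hsmul v
      rw [hg1, hd0, add_zero] at h1
      have h2 := wp2_ordDifferential_smul_D y hy v 1 one_ne_zero b hv.ne'
      rw [one_smul, h1, v.ord_one, zero_add] at h2
      linarith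
    have hsum := wp2_sum_zeros y hy b
    have hcard := wp2_card_zeros y hy b
    have h1 : ∑ v ∈ wp2_zeros y hy b, v.ord (y - algebraMap K F b) =
        ∑ v ∈ wp2_zeros y hy b, (1 : ℤ) :=
      Finset.sum_congr rfl fun v hv => hone v ((wp2_mem_zeros y hy b v).mp hv)
    rw [h1, Finset.sum_const, ← hcard] at hsum
    have : ((Nat.card {v : Place K F // 0 < v.ord (y - algebraMap K F b)} : ℕ) : ℤ) =
        (Module.finrank K⟮y⟯ F : ℤ) := by simpa using hsum
    exact_mod_cast this
  have hRHy := wp2_degree_eq y hy Sy hSy ((1 : F) • D K F x) hω Dx hDxv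
  -- the numbers
  set cx : K → ℕ := fun a => Nat.card {v : Place K F // 0 < v.ord (x - algebraMap K F a)}
    with hcx
  set cy : K → ℕ := fun b => Nat.card {v : Place K F // 0 < v.ord (y - algebraMap K F b)}
    with hcy
  have hxfib : ∀ a : K, ε a * cx a = n := by
    intro a
    have hsum := wp2_sum_zeros x hx a
    have hcard := wp2_card_zeros x hx a
    have h1 : ∑ v ∈ wp2_zeros x hx a, v.ord (x - algebraMap K F a) =
        ∑ v ∈ wp2_zeros x hx a, (ε a : ℤ) :=
      Finset.sum_congr rfl fun v hv => Hx a v ((wp2_mem_zeros x hx a v).mp hv)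
    rw [h1, Finset.sum_const, ← hcard, nsmul_eq_mul] at hsum
    have : ((ε a * cx a : ℕ) : ℤ) = (n : ℤ) := by
      push_cast
      rw [mul_comm]
      exact hsum
    exact_mod_cast this
  have hyfib : ∀ b : K, ε b * cy b ≤ n ∧ (ε b * cy b = n →
      ∀ v : Place K F, 0 < v.ord (y - algebraMap K F b) → v.ord (y - algebraMap K F b) = ε b) := by
    intro b
    have h := rg20_fibre y hy b (ε b) (Hy b)
    rw [hn] at h
    exact h
  have hcy_le : ∀ b : K, cy b ≤ cx b := by
    intro b
    have h1 := (hyfib b).1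
    rw [← hxfib b] at h1
    exact Nat.le_of_mul_le_mul_left h1 (hεpos b)
  have hcy_le_n : ∀ b : K, cy b ≤ n := by
    intro b
    have h := (rg20_fibre y hy b 1 (fun v hv => by
      have : (0 : ℤ) < v.ord (y - algebraMap K F b) := hv
      push_cast
      omega)).1
    rw [hn, one_mul] at h
    exact h
  -- poles
  have hpoles : Nat.card {v : Place K F // v.ord y < 0} ≤ Nat.card {v : Place K F // v.ord x < 0} := by
    rw [wp2_card_poles x hx, wp2_card_poles y hy]
    refine Finset.card_le_card ?_
    intro v hv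
    rw [wp2_mem_poles] at hv ⊢
    exact Hp v hv
  -- compare the two Riemann–Hurwitz formulas
  rw [hRHx, hn] at hRHy
  have hsplit : ∑ b ∈ Sy, ((n : ℤ) - (cy b : ℤ)) =
      ∑ b ∈ Sy \ S, ((n : ℤ) - (cy b : ℤ)) + ∑ b ∈ S, ((n : ℤ) - (cy b : ℤ)) :=
    (Finset.sum_sdiff (Finset.subset_union_left (s₁ := S) (s₂ := hbadfin.toFinset))).symm
  have hkey : ∑ b ∈ Sy \ S, ((n : ℤ) - (cy b : ℤ)) + ∑ b ∈ S, ((cx b : ℤ) - (cy b : ℤ)) +
      ((Nat.card {v : Place K F // v.ord x < 0} : ℤ) -
        (Nat.card {v : Place K F // v.ord y < 0} : ℤ)) = 0 := by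
    have e1 : ∑ b ∈ S, ((cx b : ℤ) - (cy b : ℤ)) =
        ∑ b ∈ S, ((n : ℤ) - (cy b : ℤ)) - ∑ a ∈ S, ((n : ℤ) - (cx a : ℤ)) := by
      rw [← Finset.sum_sub_distrib]
      exact Finset.sum_congr rfl fun b _ => by ring
    rw [e1]
    have e2 : ∑ a ∈ S, ((n : ℤ) - (cx a : ℤ)) - (n : ℤ) -
        (Nat.card {v : Place K F // v.ord x < 0} : ℤ) =
        ∑ b ∈ Sy, ((n : ℤ) - (cy b : ℤ)) - (n : ℤ) -
        (Nat.card {v : Place K F // v.ord y < 0} : ℤ) := hRHy
    rw [hsplit] at e2
    linarith
  have hA : ∀ b ∈ Sy \ S, (0 : ℤ) ≤ (n : ℤ) - (cy b : ℤ) := fun b _ => by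
    have := hcy_le_n b
    have : ((cy b : ℕ) : ℤ) ≤ (n : ℤ) := by exact_mod_cast this
    linarith
  have hB : ∀ b ∈ S, (0 : ℤ) ≤ (cx b : ℤ) - (cy b : ℤ) := fun b _ => by
    have := hcy_le b
    have : ((cy b : ℕ) : ℤ) ≤ (cx b : ℤ) := by exact_mod_cast this
    linarith
  have hC : (0 : ℤ) ≤ (Nat.card {v : Place K F // v.ord x < 0} : ℤ) -
      (Nat.card {v : Place K F // v.ord y < 0} : ℤ) := by
    have : ((Nat.card {v : Place K F // v.ord y < 0} : ℕ) : ℤ) ≤
        (Nat.card {v : Place K F // v.ord x < 0} : ℤ) := by exact_mod_cast hpoles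
    linarith
  have hsA := Finset.sum_nonneg hA
  have hsB := Finset.sum_nonneg hB
  have hA0 : ∑ b ∈ Sy \ S, ((n : ℤ) - (cy b : ℤ)) = 0 := by linarith
  have hB0 : ∑ b ∈ S, ((cx b : ℤ) - (cy b : ℤ)) = 0 := by linarith
  -- conclusion
  have hfinal : ε b₀ * cy b₀ = n := by
    by_cases hbS : b₀ ∈ S
    · have := (Finset.sum_eq_zero_iff_of_nonneg hB).mp hB0 b₀ hbS
      have h2 : cy b₀ = cx b₀ := by
        have : ((cy b₀ : ℕ) : ℤ) = (cx b₀ : ℤ) := by linarith
        exact_mod_cast this
      rw [h2]
      exact hxfib b₀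
    · rw [hε1 b₀ hbS, one_mul]
      by_cases hbSy : b₀ ∈ Sy
      · have hmem : b₀ ∈ Sy \ S := Finset.mem_sdiff.mpr ⟨hbSy, hbS⟩
        have := (Finset.sum_eq_zero_iff_of_nonneg hA).mp hA0 b₀ hmem
        have : ((cy b₀ : ℕ) : ℤ) = (n : ℤ) := by linarith
        exact_mod_cast this
      · have := hSy b₀ hbSy
        rw [hn] at this
        exact this
  exact (hyfib b₀).2 hfinal v₀ hv₀

end TwoFun

/-! ### `β` is unramified off the cusps at a rigid level -/

open Classical in
/-- The ramification of `j` over a finite value at a rigid level. -/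
noncomputable def rg20_eps (a : Kbar) : ℕ := if a = 0 then 3 else if a = 1728 then 2 else 1

theorem rg20_eps_pos (a : Kbar) : 0 < rg20_eps a := by
  unfold rg20_eps
  split_ifs <;> norm_num

theorem rg20_ord_eq_eps (N : ℕ) [NeZero N] (h2 : nuTwo N = 0) (h3 : nuThree N = 0) (a : Kbar)
    (v : Place Kbar ↥(modularFunctionFieldBar N))
    (hv : 0 < v.ord (rg20_j N - algebraMap Kbar ↥(modularFunctionFieldBar N) a)) :
    v.ord (rg20_j N - algebraMap Kbar ↥(modularFunctionFieldBar N) a) = rg20_eps a := by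
  unfold rg20_eps
  by_cases ha0 : a = 0
  · subst ha0
    rw [if_pos rfl]
    have := rg20_ord_zero N h3 v (by simpa using hv)
    simpa using this
  · rw [if_neg ha0]
    by_cases ha1 : a = 1728
    · subst ha1
      rw [if_pos rfl]
      exact rg20_ord_1728 N h2 v hv
    · rw [if_neg ha1]
      exact rg20_ord_generic N a ha0 ha1 v hv

/-- `FiniteDimensional ℚ̄(j) F(N)`. -/
theorem rg20_finite_j (N : ℕ) [NeZero N] :
    FiniteDimensional Kbar⟮rg20_j N⟯ ↥(modularFunctionFieldBar N) := by
  obtain ⟨D⟩ := wpA_nonempty_modularData N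
  obtain ⟨ι, hι, hΓ⟩ := asmAb_exists_iota N D
  have hιx : ι (rg20_j N) = D.jd 1 := hι 1 (one_dvd N)
  exact (asmA_finrank N D ι (rg20_j N) ⟨JJ N, asmAb_JJ_mem N N dvd_rfl⟩ hιx
    (hι N dvd_rfl) hΓ).1

/-- A `ℚ̄`-embedding `φ` of the function field of a rigid level `N` into that of a rigid level
`N'` is unramified at every non-cuspidal place, as soon as `φ j` has the same degree as `j` and
every pole of `φ j` is a pole of `j`. -/
theorem rg20_unram_of_deg (N N' : ℕ) [NeZero N] [NeZero N']
    (h2 : nuTwo N = 0) (h3 : nuThree N = 0) (h2' : nuTwo N' = 0) (h3' : nuThree N' = 0)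
    (φ : ↥(modularFunctionFieldBar N) →ₐ[Kbar] ↥(modularFunctionFieldBar N'))
    (hφ : φ.toRingHom.IsIntegral)
    [FiniteDimensional Kbar⟮φ (rg20_j N)⟯ ↥(modularFunctionFieldBar N')]
    (hdeg : Module.finrank Kbar⟮φ (rg20_j N)⟯ ↥(modularFunctionFieldBar N') =
      Module.finrank Kbar⟮rg20_j N'⟯ ↥(modularFunctionFieldBar N'))
    (hpole : ∀ v : Place Kbar ↥(modularFunctionFieldBar N'),
      v.ord (φ (rg20_j N)) < 0 → v.ord (rg20_j N') < 0)
    (w : Place Kbar ↥(modularFunctionFieldBar N')) (hw : 0 ≤ w.ord (rg20_j N')) :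
    Place.ramificationIndexAlong φ w = 1 := by
  classical
  haveI := rg20_finite_j N'
  have hx : Transcendental Kbar (rg20_j N') := rg20_transcendental_j N'
  have hy : Transcendental Kbar (φ (rg20_j N)) := by
    intro halg
    apply rg20_transcendental_j N
    exact (isAlgebraic_algHom_iff φ φ.toRingHom.injective).mp halg
  have hmapb : ∀ b : Kbar, φ (rg20_j N - algebraMap Kbar ↥(modularFunctionFieldBar N) b) =
      φ (rg20_j N) - algebraMap Kbar ↥(modularFunctionFieldBar N') b := by
    intro b
    rw [map_sub, AlgHom.commutes]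
  -- ramification of `y = φ j` is at least `ε`
  have Hy : ∀ (b : Kbar) (v : Place Kbar ↥(modularFunctionFieldBar N')),
      0 < v.ord (φ (rg20_j N) - algebraMap Kbar ↥(modularFunctionFieldBar N') b) →
      v.ord (φ (rg20_j N) - algebraMap Kbar ↥(modularFunctionFieldBar N') b) =
        (Place.ramificationIndexAlong φ v : ℤ) * (rg20_eps b : ℤ) := by
    intro b v hv
    have hram := Place.ord_restrictAlong φ hφ v
      (rg20_j N - algebraMap Kbar ↥(modularFunctionFieldBar N) b)
    rw [hmapb] at hram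
    have htpos : 0 < (v.restrictAlong φ hφ).ord
        (rg20_j N - algebraMap Kbar ↥(modularFunctionFieldBar N) b) := by
      by_contra hcon
      have h1 : (Place.ramificationIndexAlong φ v : ℤ) * (v.restrictAlong φ hφ).ord
          (rg20_j N - algebraMap Kbar ↥(modularFunctionFieldBar N) b) ≤ 0 :=
        mul_nonpos_of_nonneg_of_nonpos (by exact_mod_cast Nat.zero_le _) (not_lt.mp hcon)
      linarith
    rw [hram, rg20_ord_eq_eps N h2 h3 b _ htpos]
  have hmain := rg20_two_fun (K := Kbar) (rg20_j N') (φ (rg20_j N)) hx hy hdeg rg20_eps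
    ({0, 1728} : Finset Kbar) rg20_eps_pos
    (fun a ha => by
      rw [Finset.mem_insert, Finset.mem_singleton, not_or] at ha
      unfold rg20_eps
      rw [if_neg ha.1, if_neg ha.2])
    (fun a v hv => rg20_ord_eq_eps N' h2' h3' a v hv)
    (fun b v hv => by
      rw [Hy b v hv]
      have hpos : 0 < (Place.ramificationIndexAlong φ v : ℤ) * (rg20_eps b : ℤ) := by
        rw [← Hy b v hv]; exact hv
      have hepos : (0 : ℤ) < (rg20_eps b : ℤ) := by exact_mod_cast rg20_eps_pos b
      have he1 : (1 : ℤ) ≤ (Place.ramificationIndexAlong φ v : ℤ) := by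
        by_contra hlt
        have h0 : (Place.ramificationIndexAlong φ v : ℤ) ≤ 0 := by omega
        have := mul_nonpos_of_nonpos_of_nonneg h0 hepos.le
        linarith
      nlinarith)
    hpole
  -- the value of `y` at `w`
  have hwy : 0 ≤ w.ord (φ (rg20_j N)) := by
    by_contra hcon
    have := hpole w (not_le.mp hcon)
    omega
  obtain ⟨b, hb⟩ := rg20_exists_value (φ (rg20_j N)) hy w hwy
  have h1 := hmain b w hb
  have h2 := Hy b w hb
  rw [h1] at h2
  have hepos : (0 : ℤ) < (rg20_eps b : ℤ) := by exact_mod_cast rg20_eps_pos b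
  have h3 : ((Place.ramificationIndexAlong φ w : ℤ) - 1) * (rg20_eps b : ℤ) = 0 := by linarith
  rcases mul_eq_zero.mp h3 with h4 | h4
  · have : (Place.ramificationIndexAlong φ w : ℤ) = 1 := by linarith
    exact_mod_cast this
  · omega

end Fermat.Agent.S36
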