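import Fermat.Agent.S36.RigidBeta20
import Fermat.Agent.S36.BetaDeg87

/-!
# S36 lab, row 588 (LVL-rigidity), seat 20: `β` is unramified off the cusps at a rigid level

Discharges the two hypotheses of `rg20_unram_of_deg` (`RigidBeta20.lean`) for `heckeBetaBar`:

* `rg20_JJ_regular` : at every non-cuspidal place of the function field of level `N` (a place
  where `j` is regular) every `j(dτ)`, `d ∣ N`, is regular (holomorphy on the upper half plane,
  through the analytic model of S24);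
* `rg20_finrank_beta_j` : `[F(N q) : ℚ̄(j(qτ))] = [F(N q) : ℚ̄(j)]` for a prime `q`
  (`bd87_finrank_beta_mul`);
* `rg20_beta_unram` : `Place.ramificationIndexAlong (heckeBetaBar Kbar N q) w = 1` at every
  place `w` of level `N q` where `j` is regular, for `N` without elliptic points and `q` prime.
-/

set_option autoImplicit false
set_option linter.style.haveILetI false

open ModularCurve AlgebraicCurve MatrixGroups IntermediateField UpperHalfPlane

namespace Fermat.Agent.S36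

open Fermat.Agent.S24

/-! ### Abstract: the embedding through which a zero of `y` is seen -/

section Abstract

variable {K F : Type*} [Field K] [IsAlgClosed K] [CharZero K] [Field F] [Algebra K F]
variable {M X : Type*} [Field M] [Algebra K M] [Fintype X]

theorem rg20_exists_sigma (σ : X → (F →ₐ[K] M)) (y : F) (hy : Transcendental K y)
    [FiniteDimensional K⟮y⟯ F] (a₀ : X)
    (hnorm : ∀ f : F, ∃ r : F, r ∈ K⟮y⟯ ∧ ∀ a : X, σ a r = ∏ b : X, σ b f)
    (hσy : ∀ a b : X, σ a y = σ b y)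
    (w : OrdFn K M) (e₀ : ℕ) (he₀ : 0 < e₀) (hw : ∀ a : X, w.ord (σ a y) = e₀)
    (v : Place K F) (hv : 0 < v.ord y) :
    ∃ a : X, ∀ f : F, f ≠ 0 → 0 ≤ w.ord (σ a f) → 0 ≤ v.ord f := by
  classical
  have hy0 : y ≠ 0 := by
    rintro rfl
    exact hy isAlgebraic_zero
  have he₀' : (0 : ℤ) < (e₀ : ℤ) := by exact_mod_cast he₀
  have hnt : ∀ a, ∃ y₀ : F, y₀ ≠ 0 ∧ 0 < (wp3_comap w (σ a)).ord y₀ := fun a =>
    ⟨y, hy0, by rw [wp3_comap_ord, hw]; exact he₀'⟩
  choose m ϖ hm hϖ0 hϖm hmul using fun a => wp3_ord_eq_mul (wp3_comap w (σ a)) (hnt a)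
  have hΦy : ∀ a, m a * (wp3_place (wp3_comap w (σ a)) (hnt a)).ord y = e₀ := fun a => by
    rw [← hmul a y hy0]
    exact hw a
  have hΦypos : ∀ a, 0 < (wp3_place (wp3_comap w (σ a)) (hnt a)).ord y := by
    intro a
    by_contra hle
    have := mul_nonpos_of_nonneg_of_nonpos (hm a).le (not_lt.mp hle)
    rw [hΦy a] at this
    linarith
  have hsurj : ∀ v : Place K F, 0 < v.ord y →
      ∃ a, wp3_place (wp3_comap w (σ a)) (hnt a) = v :=
    wp3_surj σ y hy hnorm hσy w (fun a => by rw [hw]; exact he₀')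
      (fun a => wp3_place (wp3_comap w (σ a)) (hnt a))
      (fun a f hf h0 => by rw [← wp3_comap_ord, hmul a f hf, h0, mul_zero]) hΦypos a₀
  obtain ⟨a, rfl⟩ := hsurj v hv
  refine ⟨a, fun f _ hwf => ?_⟩
  rw [← wp1_mem_iff_ord_nonneg]
  exact (wp3_mem_place _ (hnt a) f).mpr (Or.inr (by rw [wp3_comap_ord]; exact hwf))

end Abstract

attribute [local instance] ModularData.fieldM ModularData.algM ModularData.actM

section Core

variable {N : ℕ} {D : ModularData N} {F : Type*} [Field F] [Algebra Kbar F]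
  {ι : F →ₐ[Kbar] D.M}

theorem rg20_core_sigma [Fintype (Cosets N)]
    (hΓ : ∀ g ∈ CongruenceSubgroup.Gamma0 N, ∀ f : F, g • ι f = ι f) (x : F)
    (hιx : ι x = D.jd 1)
    (y : F) (hy : Transcendental Kbar y) [FiniteDimensional Kbar⟮y⟯ F] (hyx : Kbar⟮y⟯ = Kbar⟮x⟯)
    (hσy : ∀ g : SL(2, ℤ), g • ι y = ι y)
    (w : OrdFn Kbar D.M) (e₀ : ℕ) (he₀ : 0 < e₀) (hw : w.ord (ι y) = e₀)
    (v : Place Kbar F) (hv : 0 < v.ord y) :
    ∃ g : SL(2, ℤ), ∀ f : F, f ≠ 0 → 0 ≤ w.ord (g • ι f) → 0 ≤ v.ord f := by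
  have hnorm : ∀ f : F, ∃ r : F, r ∈ Kbar⟮y⟯ ∧
      ∀ a : Cosets N, asmB_sigma D ι a r = ∏ b : Cosets N, asmB_sigma D ι b f := by
    intro f
    have hfix : ∀ g : SL(2, ℤ), g • (∏ b : Cosets N, asmB_sigma D ι b f) =
        ∏ b, asmB_sigma D ι b f := fun g => asmB_smul_prod hΓ g f
    have hmem := D.fixed _ hfix
    have hmap : (Kbar⟮x⟯).map ι = IntermediateField.adjoin Kbar {D.jd 1} := by
      rw [IntermediateField.adjoin_map, Set.image_singleton, hιx]
    rw [← hmap] at hmem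
    obtain ⟨r, hr, hrP⟩ := hmem
    refine ⟨r, by rw [hyx]; exact hr, fun a => ?_⟩
    show a.out • ι r = _
    have hrP' : ι r = ∏ b : Cosets N, asmB_sigma D ι b f := hrP
    rw [hrP']
    exact hfix _
  have hσy' : ∀ a b : Cosets N, asmB_sigma D ι a y = asmB_sigma D ι b y := by
    intro a b
    show a.out • ι y = b.out • ι y
    rw [hσy, hσy]
  have hw' : ∀ a : Cosets N, w.ord (asmB_sigma D ι a y) = e₀ := by
    intro a
    show w.ord (a.out • ι y) = e₀
    rw [hσy]
    exact hw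
  obtain ⟨a, ha⟩ := rg20_exists_sigma (asmB_sigma D ι) y hy (QuotientGroup.mk 1) hnorm hσy'
    w e₀ he₀ hw' v hv
  exact ⟨a.out, ha⟩

end Core

/-! ### The analytic model of S24 as a definition -/

attribute [local instance] wpA5b3_fracAction

/-- The analytic inputs of S24 as a (local) instance. -/
theorem rg20_inputs (N : ℕ) [NeZero N] : wpA5b3_Inputs N := wpA5b3_inputs N

attribute [local instance] rg20_inputs

/-- The `ModularData N` of S24 (fraction field of the ring of modular functions), as a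
definition. -/
noncomputable abbrev rg20_modData (N : ℕ) [NeZero N] : ModularData N where
  M := FractionRing (wpA5b3_R N)
  fieldM := inferInstance
  algM := inferInstance
  actM := wpA5b3_fracAction SL(2, ℤ) (wpA5b3_R N)
  smul_const := wpA5b3_smul_const N
  jd := wpA5b3_jd N
  rel_iff := wpA5b3_rel_iff N
  smul_jd_one := wpA5b3_smul_jd_one N
  smul_jd := wpA5b3_smul_jd N
  stab := wpA5b3_stab N
  fixed := wpA5b3_fixed N
  ordGeneric := wpA5b3_ordGeneric N
  ordZero := wpA5b3_ordZero N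
  ordI := wpA5b3_ordI N
  ordInfty := wpA5b3_ordInfty N

/-- **Holomorphy**: at a place where `j` is regular, every `j(dτ)`, `d ∣ N`, is regular. -/
theorem rg20_JJ_regular (N : ℕ) [NeZero N] (d : ℕ) (hd : d ∣ N)
    (v : Place Kbar ↥(modularFunctionFieldBar N)) (hv : 0 ≤ v.ord (rg20_j N)) :
    0 ≤ v.ord (⟨JJ d, asmAb_JJ_mem N d hd⟩ : ↥(modularFunctionFieldBar N)) := by
  classical
  by_cases hJ0 : (⟨JJ d, asmAb_JJ_mem N d hd⟩ : ↥(modularFunctionFieldBar N)) = 0
  · rw [hJ0, v.ord_zero]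
  obtain ⟨ι, hι, hΓ⟩ := asmAb_exists_iota N (rg20_modData N)
  have hx := rg20_transcendental_j N
  have hιx : ι (rg20_j N) = wpA5b3_jd N 1 := hι 1 (one_dvd N)
  haveI := rg20_finite_j N
  have hfinC : Fintype (Cosets N) := Fintype.ofFinite _
  obtain ⟨a, ha⟩ := rg20_exists_value (rg20_j N) hx v hv
  obtain ⟨τ₀, hτ₀⟩ := wpA5b3_Inputs.kleinJ_surjective (N := N) (phi a)
  obtain ⟨w, hw, -, -⟩ := wpA5b3_exists_ordFn N (ordAt τ₀)
    (fun f hf g hg hf0 hg0 => wpA5b3_Inputs.ordAt_mul (N := N) τ₀ f g hf hg hf0 hg0)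
    (fun f hf g hg hf0 hg0 hfg => wpA5b3_Inputs.ordAt_add (N := N) τ₀ f g hf hg hf0 hg0 hfg)
    (wpA5b3_Inputs.ordAt_const (N := N) τ₀)
  have h1 : wpA5b3_jd N 1 - algebraMap Kbar (FractionRing (wpA5b3_R N)) a =
      algebraMap (wpA5b3_R N) (FractionRing (wpA5b3_R N))
        (wpA5b3_mk N kleinJ (wpA5b3_kleinJ_mem N) - algebraMap Kbar (wpA5b3_R N) a) := by
    rw [wpA5b3_jd_one, map_sub, ← IsScalarTower.algebraMap_apply]
  have hval : wpA5b3_val N (wpA5b3_mk N kleinJ (wpA5b3_kleinJ_mem N) -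
      algebraMap Kbar (wpA5b3_R N) a) = fun τ => kleinJ τ - phi a := by
    rw [map_sub, wpA5b3_val_mk, AlgHom.commutes]
    rfl
  have hιya : ι (rg20_j N - algebraMap Kbar ↥(modularFunctionFieldBar N) a) =
      algebraMap (wpA5b3_R N) (FractionRing (wpA5b3_R N))
        (wpA5b3_mk N kleinJ (wpA5b3_kleinJ_mem N) - algebraMap Kbar (wpA5b3_R N) a) := by
    rw [map_sub, hιx, AlgHom.commutes]
    exact h1
  have hne : wpA5b3_mk N kleinJ (wpA5b3_kleinJ_mem N) - algebraMap Kbar (wpA5b3_R N) a ≠ 0 := by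
    intro h0
    rw [h0, map_zero] at hιya
    have h2 := (map_eq_zero ι).mp hιya
    rw [h2, v.ord_zero] at ha
    exact lt_irrefl _ ha
  set fa : ℍ → ℂ := fun τ => kleinJ τ - phi a with hfa
  have hfa_mem : fa ∈ ModRing N := by
    rw [← hval]
    exact wpA5b3_val_mem N _
  have hfa_ne : fa ≠ 0 := by
    rw [← hval]
    exact wpA5b3_val_ne_zero N hne
  have han : AnalyticAt ℂ (fa ∘ ofComplex) (τ₀ : ℂ) := wpA5b3_analyticAt N τ₀ fa hfa_mem
  have htop := wpA5b3_Inputs.analyticOrderAt_ne_top (N := N) τ₀ fa hfa_mem hfa_ne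
  have hzero : (fa ∘ ofComplex) (τ₀ : ℂ) = 0 := by
    simp only [Function.comp_apply, hfa, ofComplex_apply, hτ₀, sub_self]
  have hord0 : analyticOrderAt (fa ∘ ofComplex) (τ₀ : ℂ) ≠ 0 := by
    rw [Ne, han.analyticOrderAt_eq_zero]
    exact not_not.mpr hzero
  set e₀ : ℕ := (analyticOrderAt (fa ∘ ofComplex) (τ₀ : ℂ)).toNat with he₀def
  have he₀ : 0 < e₀ := by
    refine Nat.pos_of_ne_zero fun h => ?_
    rcases (ENat.toNat_eq_zero).mp h with h | h
    · exact hord0 h
    · exact htop h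
  have hwy : w.ord (ι (rg20_j N - algebraMap Kbar ↥(modularFunctionFieldBar N) a)) = e₀ := by
    rw [hιya, hw _ hne, hval]
    rfl
  have hyx := asmB_adjoin_sub (K := Kbar) (rg20_j N) a
  haveI hfd : FiniteDimensional
      Kbar⟮rg20_j N - algebraMap Kbar ↥(modularFunctionFieldBar N) a⟯
      ↥(modularFunctionFieldBar N) := by
    rw [hyx]
    infer_instance
  obtain ⟨g, hg⟩ := rg20_core_sigma (D := rg20_modData N) (ι := ι) hΓ (rg20_j N) hιx
    (rg20_j N - algebraMap Kbar ↥(modularFunctionFieldBar N) a)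
    (asmB_transcendental_sub hx a) hyx (asmB_smul_sub (rg20_modData N) ι (rg20_j N) hιx a)
    w e₀ he₀ hwy v ha
  apply hg _ hJ0
  have hιd : ι ⟨JJ d, asmAb_JJ_mem N d hd⟩ = wpA5b3_jd N d := hι d hd
  have hr0 : wpA5b3_mk N (genFn 1 d) (genFn_mem_ModRing N 1 hd) ≠ 0 := by
    intro h0
    apply hJ0
    apply (map_eq_zero ι).mp
    rw [hιd, wpA5b3_jd_of_dvd N hd, h0, map_zero]
  rw [hιd, wpA5b3_jd_of_dvd N hd, wpA5b3_smul_algebraMap, hw _ (wpA5b3_smul_ne_zero' g hr0)]
  unfold ordAt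
  exact Int.natCast_nonneg _

/-! ### The degree of `j(qτ)` -/

/-- `[F(N) : ℚ̄(j)] = ψ(N)`. -/
theorem rg20_finrank_j (N : ℕ) [NeZero N] :
    Module.finrank Kbar⟮rg20_j N⟯ ↥(modularFunctionFieldBar N) = dedekindPsi N := by
  obtain ⟨D⟩ := wpA_nonempty_modularData N
  obtain ⟨ι, hι, hΓ⟩ := asmAb_exists_iota N D
  have hιx : ι (rg20_j N) = D.jd 1 := hι 1 (one_dvd N)
  rw [(asmA_finrank N D ι (rg20_j N) ⟨JJ N, asmAb_JJ_mem N N dvd_rfl⟩ hιx
    (hι N dvd_rfl) hΓ).2]
  exact Fermat.Agent.Lib.card_quotient_Gamma0 N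

/-- `[F(N q) : ℚ̄(β j)] = ψ(N q)` for a prime `q`. -/
theorem rg20_finrank_beta_j (N q : ℕ) [NeZero N] [NeZero q] (hq : q.Prime) :
    Module.finrank Kbar⟮heckeBetaBar Kbar N q (rg20_j N)⟯ ↥(modularFunctionFieldBar (N * q)) =
      dedekindPsi (N * q) := by
  have hdeg := bd87_finrank_beta_mul N q hq
  letI algF : Algebra ↥(modularFunctionFieldBar N) ↥(modularFunctionFieldBar (N * q)) :=
    algebraAlong (heckeBetaBar Kbar N q)
  letI algA : Algebra ↥Kbar⟮rg20_j N⟯ ↥(modularFunctionFieldBar (N * q)) :=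
    ((algebraMap ↥(modularFunctionFieldBar N) ↥(modularFunctionFieldBar (N * q))).comp
      (algebraMap ↥Kbar⟮rg20_j N⟯ ↥(modularFunctionFieldBar N))).toAlgebra
  haveI : IsScalarTower ↥Kbar⟮rg20_j N⟯ ↥(modularFunctionFieldBar N)
      ↥(modularFunctionFieldBar (N * q)) := IsScalarTower.of_algebraMap_eq (fun _ => rfl)
  have htower := Module.finrank_mul_finrank ↥Kbar⟮rg20_j N⟯ ↥(modularFunctionFieldBar N)
    ↥(modularFunctionFieldBar (N * q))
  rw [rg20_finrank_j N] at htower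
  have hmap : (Kbar⟮rg20_j N⟯).map (heckeBetaBar Kbar N q) =
      Kbar⟮heckeBetaBar Kbar N q (rg20_j N)⟯ := by
    rw [IntermediateField.adjoin_map, Set.image_singleton]
  let e₁ : ↥Kbar⟮rg20_j N⟯ ≃+* ↥Kbar⟮heckeBetaBar Kbar N q (rg20_j N)⟯ :=
    ((IntermediateField.equivMap Kbar⟮rg20_j N⟯ (heckeBetaBar Kbar N q)).trans
      (IntermediateField.equivOfEq hmap)).toRingEquiv
  have hfr : Module.finrank ↥Kbar⟮rg20_j N⟯ ↥(modularFunctionFieldBar (N * q)) =
      Module.finrank ↥Kbar⟮heckeBetaBar Kbar N q (rg20_j N)⟯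
        ↥(modularFunctionFieldBar (N * q)) :=
    Algebra.finrank_eq_of_equiv_equiv e₁ (RingEquiv.refl _) (RingHom.ext fun x => rfl)
  rw [← hfr, ← htower, mul_comm]
  exact hdeg

/-! ### `β` is unramified off the cusps -/

theorem rg20_beta_j (N q : ℕ) [NeZero N] [NeZero q] :
    heckeBetaBar Kbar N q (rg20_j N) =
      (⟨JJ q, asmAb_JJ_mem (N * q) q (dvd_mul_left q N)⟩ : ↥(modularFunctionFieldBar (N * q))) := by
  apply Subtype.ext
  rw [coe_heckeBetaBar]
  show qExpand Kbar q (JJ 1) = JJ q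
  rw [Fermat.Agent.S37.al47_qExpand_JJ 1 q, one_mul]

/-- **`heckeBetaBar` is unramified at every non-cuspidal place**, for a level `N` without
elliptic points and a prime `q`. -/
theorem rg20_beta_unram (N q : ℕ) [NeZero N] [NeZero q] (hq : q.Prime)
    (h2 : nuTwo N = 0) (h3 : nuThree N = 0)
    (hβ : HeckeBetaBarIntegral Kbar N q)
    (w : Place Kbar ↥(modularFunctionFieldBar (N * q))) (hw : 0 ≤ w.ord (rg20_j (N * q))) :
    Place.ramificationIndexAlong (heckeBetaBar Kbar N q) w = 1 := by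
  haveI := rg20_finite_j (N * q)
  have hx : Transcendental Kbar (rg20_j (N * q)) := rg20_transcendental_j (N * q)
  have hy : Transcendental Kbar (heckeBetaBar Kbar N q (rg20_j N)) := by
    intro halg
    apply rg20_transcendental_j N
    exact (isAlgebraic_algHom_iff (heckeBetaBar Kbar N q)
      (heckeBetaBar Kbar N q).toRingHom.injective).mp halg
  haveI : FiniteDimensional Kbar⟮heckeBetaBar Kbar N q (rg20_j N)⟯
      ↥(modularFunctionFieldBar (N * q)) :=
    wp1_finite_of_transcendental (rg20_j (N * q)) hx _ hy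
  refine rg20_unram_of_deg N (N * q) h2 h3 (rg20_nuTwo_of_dvd (dvd_mul_right N q) h2)
    (rg20_nuThree_of_dvd (dvd_mul_right N q) h3) (heckeBetaBar Kbar N q) hβ ?_ ?_ w hw
  · rw [rg20_finrank_beta_j N q hq, rg20_finrank_j (N * q)]
  · intro v hv
    by_contra hcon
    have hreg := rg20_JJ_regular (N * q) q (dvd_mul_left q N) v (not_lt.mp hcon)
    rw [rg20_beta_j] at hv
    omega

/-- The same with the rigidity supplied by a prime `r = 11 mod 12` dividing the level. -/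
theorem rg20_beta_unram_prime (N q r : ℕ) [NeZero N] [NeZero q] (hq : q.Prime)
    (hr : r.Prime) (hr12 : r % 12 = 11) (hrN : r ∣ N)
    (hβ : HeckeBetaBarIntegral Kbar N q)
    (w : Place Kbar ↥(modularFunctionFieldBar (N * q))) (hw : 0 ≤ w.ord (rg20_j (N * q))) :
    Place.ramificationIndexAlong (heckeBetaBar Kbar N q) w = 1 :=
  rg20_beta_unram N q hq (rg20_nuTwo_eq_zero hr hr12 hrN) (rg20_nuThree_eq_zero hr hr12 hrN) hβ w hw

end Fermat.Agent.S36
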