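import Mathlib
import Fermat.Agent.S36.RigidLevelQ43
import Fermat.Agent.S36.EllDiv49

/-!
# S36 lab, row C-REGq (helper43): the rigidity clauses `hj3`, `hj2`, `hj4` in ANY ring receiving
the local ring of a closed point of the level-`q` charts

For any ring hom `ρ : sf79_loc B n →+* O` (`nd13_rho` of `NodeDVR13`, `rr79_ext`, the `ρ` of
`bd54_exists`, ...), `jj := ρ J`:

* `rcl43_hj`  (abstract): `rt79_RootAt π B J J 3` ⟹ `∃ c u, IsUnit u ∧ jj = u * c ^ 3`, and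
  `rt79_RootAt π B J (J - 1728) 2` ⟹ `∃ d u, IsUnit u ∧ jj - 1728 = u * d ^ 2`
  (the clauses `hj3`, `hj2` of `kn13_kappa_eq_one` / `ka13_kappa_eq_one`, without the case split).
* `rcl43_hj4` (abstract): `J h³ = (h + 27)(h + 243)³`, `h ∈ B_n`, `O` local with `2 = 0` ⟹
  `∃ d u, IsUnit u ∧ jj = u * d ^ 4` (the clause `hj4`, `q = 2`).
* `rcl43_level2`, `rcl43_level2_inv`, `rcl43_level3`, `rcl43_level3_inv` : the clauses `hj3`, `hj2`
  at every closed point `n` (`π ∈ n`, `J` regular at `n`) of the canonical charts of level `N * q`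
  (`N` a good level), UNCONDITIONAL.
* `rcl43_level3_hj4`, `rcl43_level3_inv_hj4` : the clause `hj4` there.

All names are prefixed `rcl43_`.
-/

set_option autoImplicit false
set_option linter.unusedSectionVars false
set_option linter.style.haveILetI false

open ModularCurve AlgebraicCurve

namespace Fermat.Agent.S36

open Fermat.Agent.S18 Fermat.Agent.S24 Fermat.Agent.S34

local notation "Q̄" => AlgebraicClosure ℚ

section rcl43_abs

variable {R F : Type*} [CommRing R] [Field F] [Algebra R F]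

/-- **The clauses `hj3`, `hj2`** in any ring receiving `B_n`. -/
theorem rcl43_hj (π : R) (B : Subalgebra R F) (j : F) (hj0 : j ≠ 0) (hL0 : j - 1728 ≠ 0)
    (n : Ideal B) [hn : n.IsMaximal] (hπn : algebraMap R B π ∈ n) (hjA : j ∈ sf79_loc B n)
    {O : Type*} [CommRing O] (ρ : sf79_loc B n →+* O) :
    (rt79_RootAt π B j j 3 → ∃ c u : O, IsUnit u ∧ ρ ⟨j, hjA⟩ = u * c ^ 3) ∧
    (rt79_RootAt π B j (j - 1728) 2 → ∃ d u : O, IsUnit u ∧ ρ ⟨j, hjA⟩ - 1728 = u * d ^ 2) := by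
  refine ⟨fun h3 => rq43_image B n 3 j hj0 (h3 n hn hπn hjA) ρ hjA, fun h2 => ?_⟩
  have h1728 : (1728 : F) ∈ sf79_loc B n := by
    have := natCast_mem (sf79_loc B n) 1728
    rwa [Nat.cast_ofNat] at this
  have hLA : j - 1728 ∈ sf79_loc B n := (sf79_loc B n).sub_mem hjA h1728
  obtain ⟨d, u, hu, he⟩ := rq43_image B n 2 (j - 1728) hL0 (h2 n hn hπn hjA) ρ hLA
  refine ⟨d, u, hu, ?_⟩
  rw [← he]
  have e : (⟨j - 1728, hLA⟩ : sf79_loc B n) = ⟨j, hjA⟩ - 1728 := by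
    apply Subtype.ext
    push_cast
    rfl
  rw [e, map_sub, map_ofNat]

/-- **The clause `hj4`** (`q = 2`): from the level-3 relation in characteristic `2`. -/
theorem rcl43_hj4 (B : Subalgebra R F) (j h : F)
    (hrel : j * h ^ 3 = (h + 27) * (h + 243) ^ 3)
    (n : Ideal B) [hn : n.IsPrime] (hjA : j ∈ sf79_loc B n) (hhA : h ∈ sf79_loc B n)
    {O : Type*} [CommRing O] [IsLocalRing O] (h2 : (2 : O) = 0) (ρ : sf79_loc B n →+* O) :
    ∃ d u : O, IsUnit u ∧ ρ ⟨j, hjA⟩ = u * d ^ 4 := by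
  have e : (⟨j, hjA⟩ : sf79_loc B n) * ⟨h, hhA⟩ ^ 3 =
      (⟨h, hhA⟩ + 27) * (⟨h, hhA⟩ + 243) ^ 3 := by
    apply Subtype.ext
    push_cast
    exact hrel
  have e' : ρ ⟨j, hjA⟩ * ρ ⟨h, hhA⟩ ^ 3 = (ρ ⟨h, hhA⟩ + 27) * (ρ ⟨h, hhA⟩ + 243) ^ 3 := by
    have := congrArg ρ e
    simpa only [map_mul, map_pow, map_add, map_ofNat] using this
  obtain ⟨w, c, hw, hjc⟩ := ed49_level3_char_two h2 _ _ e'
  exact ⟨c, w, hw, hjc⟩

/-- In the chart `{h⁻¹}`: if `j` is regular at `n` and `j h³ = (h + 27)(h + 243)³`, then `h` is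
regular at `n`. -/
theorem rcl43_h_reg (B : Subalgebra R F) (n : Ideal B) [hn : n.IsMaximal] (j hh : F)
    (hh0 : hh ≠ 0) (hhB : hh⁻¹ ∈ B) (hrel : j * hh ^ 3 = (hh + 27) * (hh + 243) ^ 3)
    (hjA : j ∈ sf79_loc B n) : hh ∈ sf79_loc B n := by
  have h27 : (27 : F) ∈ B := by
    have := B.algebraMap_mem (27 : R)
    rwa [map_ofNat] at this
  obtain ⟨s, hs, hs27⟩ := rq43_reg_h27_abs B n hn j hh hh0 hhB hrel hjA
  refine ⟨s, hs, ?_⟩
  have e : (s : F) * hh = (s : F) * (hh + 27) - (s : F) * 27 := by ring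
  rw [e]
  exact B.sub_mem hs27 (B.mul_mem s.2 h27)

end rcl43_abs

section rcl43_concrete

variable {R K : Type} [CommRing R] [IsDomain R] [IsDiscreteValuationRing R] [Field K]
  [NumberField K] [Algebra K Q̄] [Algebra R K] [IsFractionRing R K] (N q : ℕ) [NeZero N] [NeZero q]
  [Algebra R ↥(modularFunctionFieldFullC K N)]
  [IsScalarTower R K ↥(modularFunctionFieldFullC K N)]
  [Algebra R ↥(modularFunctionFieldFullC K (N * q))]
  [IsScalarTower R K ↥(modularFunctionFieldFullC K (N * q))]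

/-- `J ≠ 0` and `J - 1728 ≠ 0` at any level. -/
theorem rcl43_ne (M : ℕ) [NeZero M] :
    rm90_j K M ≠ 0 ∧ (rm90_j K M - 1728 : ↥(modularFunctionFieldFullC K M)) ≠ 0 :=
  ⟨rh27_J_ne_zero K M (rm90_j K M) rfl, rc43_J1728_ne_zero (K := K) M⟩

/-- **`hj3`, `hj2` at the level-`N q` chart of `h₂`.** -/
theorem rcl43_level2 {π : R} (hπ : Irreducible π) (h2 : 2 ∣ N) (hNu : IsUnit (N : R))
    (n : Ideal ↥(pk15_chart R ({pk85_h2 K (N * q) (Dvd.dvd.mul_right h2 q)} :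
      Set ↥(modularFunctionFieldFullC K (N * q)))))
    [hn : n.IsMaximal] (hπn : algebraMap R _ π ∈ n)
    (hjA : rm90_j K (N * q) ∈ sf79_loc _ n)
    {O : Type*} [CommRing O] (ρ : sf79_loc _ n →+* O) :
    (nuThree N = 0 → ∃ c u : O, IsUnit u ∧ ρ ⟨rm90_j K (N * q), hjA⟩ = u * c ^ 3) ∧
    (nuTwo N = 0 → ∃ d u : O, IsUnit u ∧ ρ ⟨rm90_j K (N * q), hjA⟩ - 1728 = u * d ^ 2) := by
  obtain ⟨hj0, hL0⟩ := rcl43_ne (K := K) (N * q)
  obtain ⟨h3', h2'⟩ := rq43_level2 (K := K) N q hπ h2 hNu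
  obtain ⟨a, b⟩ := rcl43_hj π _ (rm90_j K (N * q)) hj0 hL0 n hπn hjA ρ
  exact ⟨fun h => a (h3' h).1, fun h => b (h2' h).1⟩

/-- **`hj3`, `hj2` at the level-`N q` chart of `h₂⁻¹`.** -/
theorem rcl43_level2_inv {π : R} (hπ : Irreducible π) (h2 : 2 ∣ N) (hNu : IsUnit (N : R))
    (n : Ideal ↥(pk15_chart R ({(pk85_h2 K (N * q) (Dvd.dvd.mul_right h2 q))⁻¹} :
      Set ↥(modularFunctionFieldFullC K (N * q)))))
    [hn : n.IsMaximal] (hπn : algebraMap R _ π ∈ n)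
    (hjA : rm90_j K (N * q) ∈ sf79_loc _ n)
    {O : Type*} [CommRing O] (ρ : sf79_loc _ n →+* O) :
    (nuThree N = 0 → ∃ c u : O, IsUnit u ∧ ρ ⟨rm90_j K (N * q), hjA⟩ = u * c ^ 3) ∧
    (nuTwo N = 0 → ∃ d u : O, IsUnit u ∧ ρ ⟨rm90_j K (N * q), hjA⟩ - 1728 = u * d ^ 2) := by
  obtain ⟨hj0, hL0⟩ := rcl43_ne (K := K) (N * q)
  obtain ⟨h3', h2'⟩ := rq43_level2 (K := K) N q hπ h2 hNu
  obtain ⟨a, b⟩ := rcl43_hj π _ (rm90_j K (N * q)) hj0 hL0 n hπn hjA ρ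
  exact ⟨fun h => a (h3' h).2, fun h => b (h2' h).2⟩

/-- **`hj3`, `hj2` at the level-`N q` chart of `h₃`.** -/
theorem rcl43_level3 {π : R} (hπ : Irreducible π) (h3 : 3 ∣ N) (hNu : IsUnit (N : R))
    (n : Ideal ↥(pk15_chart R ({pk85_h3 K (N * q) (Dvd.dvd.mul_right h3 q)} :
      Set ↥(modularFunctionFieldFullC K (N * q)))))
    [hn : n.IsMaximal] (hπn : algebraMap R _ π ∈ n)
    (hjA : rm90_j K (N * q) ∈ sf79_loc _ n)
    {O : Type*} [CommRing O] (ρ : sf79_loc _ n →+* O) :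
    (nuThree N = 0 → ∃ c u : O, IsUnit u ∧ ρ ⟨rm90_j K (N * q), hjA⟩ = u * c ^ 3) ∧
    (nuTwo N = 0 → ∃ d u : O, IsUnit u ∧ ρ ⟨rm90_j K (N * q), hjA⟩ - 1728 = u * d ^ 2) := by
  obtain ⟨hj0, hL0⟩ := rcl43_ne (K := K) (N * q)
  obtain ⟨h3', h2'⟩ := rq43_level3 (K := K) N q hπ h3 hNu
  obtain ⟨a, b⟩ := rcl43_hj π _ (rm90_j K (N * q)) hj0 hL0 n hπn hjA ρ
  exact ⟨fun h => a (h3' h).1, fun h => b (h2' h).1⟩

/-- **`hj3`, `hj2` at the level-`N q` chart of `h₃⁻¹`.** -/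
theorem rcl43_level3_inv {π : R} (hπ : Irreducible π) (h3 : 3 ∣ N) (hNu : IsUnit (N : R))
    (n : Ideal ↥(pk15_chart R ({(pk85_h3 K (N * q) (Dvd.dvd.mul_right h3 q))⁻¹} :
      Set ↥(modularFunctionFieldFullC K (N * q)))))
    [hn : n.IsMaximal] (hπn : algebraMap R _ π ∈ n)
    (hjA : rm90_j K (N * q) ∈ sf79_loc _ n)
    {O : Type*} [CommRing O] (ρ : sf79_loc _ n →+* O) :
    (nuThree N = 0 → ∃ c u : O, IsUnit u ∧ ρ ⟨rm90_j K (N * q), hjA⟩ = u * c ^ 3) ∧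
    (nuTwo N = 0 → ∃ d u : O, IsUnit u ∧ ρ ⟨rm90_j K (N * q), hjA⟩ - 1728 = u * d ^ 2) := by
  obtain ⟨hj0, hL0⟩ := rcl43_ne (K := K) (N * q)
  obtain ⟨h3', h2'⟩ := rq43_level3 (K := K) N q hπ h3 hNu
  obtain ⟨a, b⟩ := rcl43_hj π _ (rm90_j K (N * q)) hj0 hL0 n hπn hjA ρ
  exact ⟨fun h => a (h3' h).2, fun h => b (h2' h).2⟩

/-- **`hj4` at the chart of `h₃`** (any level `M` with `3 ∣ M`; `O` local with `2 = 0`). -/
theorem rcl43_level3_hj4 (M : ℕ) [NeZero M] [Algebra R ↥(modularFunctionFieldFullC K M)]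
    (h3 : 3 ∣ M)
    (n : Ideal ↥(pk15_chart R ({pk85_h3 K M h3} : Set ↥(modularFunctionFieldFullC K M))))
    [hn : n.IsMaximal] (hjA : rm90_j K M ∈ sf79_loc _ n)
    {O : Type*} [CommRing O] [IsLocalRing O] (h2 : (2 : O) = 0) (ρ : sf79_loc _ n →+* O) :
    ∃ d u : O, IsUnit u ∧ ρ ⟨rm90_j K M, hjA⟩ = u * d ^ 4 :=
  rcl43_hj4 _ (rm90_j K M) (pk85_h3 K M h3) (pk85_h3_rel K M h3) n hjA
    (sf79_le_loc _ n _ (pk15_subset_chart _ (Set.mem_singleton _))) h2 ρ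

/-- **`hj4` at the chart of `h₃⁻¹`.** -/
theorem rcl43_level3_inv_hj4 (M : ℕ) [NeZero M] [Algebra R ↥(modularFunctionFieldFullC K M)]
    (h3 : 3 ∣ M)
    (n : Ideal ↥(pk15_chart R ({(pk85_h3 K M h3)⁻¹} : Set ↥(modularFunctionFieldFullC K M))))
    [hn : n.IsMaximal] (hjA : rm90_j K M ∈ sf79_loc _ n)
    {O : Type*} [CommRing O] [IsLocalRing O] (h2 : (2 : O) = 0) (ρ : sf79_loc _ n →+* O) :
    ∃ d u : O, IsUnit u ∧ ρ ⟨rm90_j K M, hjA⟩ = u * d ^ 4 :=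
  rcl43_hj4 _ (rm90_j K M) (pk85_h3 K M h3) (pk85_h3_rel K M h3) n hjA
    (rcl43_h_reg _ n (rm90_j K M) (pk85_h3 K M h3) (ci22_h3_ne_zero (K := K) M h3)
      (pk15_subset_chart _ (Set.mem_singleton _)) (pk85_h3_rel K M h3) hjA) h2 ρ

end rcl43_concrete

end Fermat.Agent.S36
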