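/-
helper5, S36 lab: arithmetic of the RIGID auxiliary level (Mathlib + the Prelude genus numerics).

If a prime `r ≡ 11 (mod 12)` divides `N`, then `x ^ 2 + 1` and `x ^ 2 + x + 1` have no root in
`ZMod N`, i.e. `nuTwo N = 0 = nuThree N` (no elliptic points at level `N`); and for every `q`
there is such a prime `r ≠ q` (namely `11` or `23`).
-/
import Mathlib
import Fermat.Prelude.Def_ModularCurve_GenusNumerics

set_option autoImplicit false

namespace Fermat.Agent.RigidLevel5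

open ModularCurve

/-- `x ^ 2 + 1` has no root in `ZMod N` when a prime `r ≡ 3 (mod 4)` divides `N`. -/
theorem rl5_no_root_two {N r : ℕ} (hr : r.Prime) (hr4 : r % 4 = 3) (hrN : r ∣ N)
    (x : ZMod N) : x ^ 2 + 1 ≠ 0 := by
  intro hx
  have : Fact r.Prime := ⟨hr⟩
  have hy : (ZMod.castHom hrN (ZMod r) x) ^ 2 + 1 = 0 := by
    have := congrArg (ZMod.castHom hrN (ZMod r)) hx
    rw [map_add, map_pow, map_one, map_zero] at this
    exact this
  have hsq : IsSquare (-1 : ZMod r) := by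
    refine ⟨ZMod.castHom hrN (ZMod r) x, ?_⟩
    have : (ZMod.castHom hrN (ZMod r) x) ^ 2 = -1 := eq_neg_of_add_eq_zero_left hy
    rw [← this, sq]
  exact (ZMod.exists_sq_eq_neg_one_iff.mp hsq) hr4

/-- `x ^ 2 + x + 1` has no root in `ZMod N` when a prime `r ≡ 2 (mod 3)` divides `N`. -/
theorem rl5_no_root_three {N r : ℕ} (hr : r.Prime) (hr3 : r % 3 = 2) (hrN : r ∣ N)
    (x : ZMod N) : x ^ 2 + x + 1 ≠ 0 := by
  intro hx
  have : Fact r.Prime := ⟨hr⟩
  set y : ZMod r := ZMod.castHom hrN (ZMod r) x with hy_def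
  have hy : y ^ 2 + y + 1 = 0 := by
    have := congrArg (ZMod.castHom hrN (ZMod r)) hx
    rw [map_add, map_add, map_pow, map_one, map_zero] at this
    exact this
  have hy3 : y ^ 3 = 1 := by
    have : y ^ 3 - 1 = (y - 1) * (y ^ 2 + y + 1) := by ring
    rw [hy, mul_zero] at this
    exact sub_eq_zero.mp this
  have hy1 : y ≠ 1 := by
    intro h1
    rw [h1] at hy
    have h3 : ((3 : ℕ) : ZMod r) = 0 := by
      have : (1 : ZMod r) ^ 2 + 1 + 1 = ((3 : ℕ) : ZMod r) := by push_cast; ring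
      rw [← this]; exact hy
    have hdvd : r ∣ 3 := (ZMod.natCast_eq_zero_iff 3 r).mp h3
    have hle : r ≤ 3 := Nat.le_of_dvd (by norm_num) hdvd
    have h2 := hr.two_le
    interval_cases r <;> omega
  have hy0 : y ≠ 0 := by
    intro h0
    rw [h0] at hy3
    simp at hy3
  have hord : orderOf y = 3 := orderOf_eq_prime hy3 hy1
  have hpow : y ^ (r - 1) = 1 := ZMod.pow_card_sub_one_eq_one hy0
  have hdvd : 3 ∣ r - 1 := by
    rw [← hord]; exact orderOf_dvd_of_pow_eq_one hpow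
  have h2 := hr.two_le
  omega

/-- No elliptic points of order 2: `nuTwo N = 0` when a prime `r ≡ 3 (mod 4)` divides `N`. -/
theorem rl5_nuTwo_eq_zero {N r : ℕ} (hr : r.Prime) (hr4 : r % 4 = 3) (hrN : r ∣ N) :
    nuTwo N = 0 := by
  unfold nuTwo
  have : IsEmpty {x : ZMod N // x ^ 2 + 1 = 0} := ⟨fun x => rl5_no_root_two hr hr4 hrN x.1 x.2⟩
  exact Nat.card_of_isEmpty

/-- No elliptic points of order 3: `nuThree N = 0` when a prime `r ≡ 2 (mod 3)` divides `N`. -/
theorem rl5_nuThree_eq_zero {N r : ℕ} (hr : r.Prime) (hr3 : r % 3 = 2) (hrN : r ∣ N) :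
    nuThree N = 0 := by
  unfold nuThree
  have : IsEmpty {x : ZMod N // x ^ 2 + x + 1 = 0} :=
    ⟨fun x => rl5_no_root_three hr hr3 hrN x.1 x.2⟩
  exact Nat.card_of_isEmpty

/-- Both counts vanish at a level divisible by a prime `r ≡ 11 (mod 12)`. -/
theorem rl5_rigid {N r : ℕ} (hr : r.Prime) (hr12 : r % 12 = 11) (hrN : r ∣ N) :
    nuTwo N = 0 ∧ nuThree N = 0 :=
  ⟨rl5_nuTwo_eq_zero hr (by omega) hrN, rl5_nuThree_eq_zero hr (by omega) hrN⟩

/-- For every `q` there is a prime `r ≡ 11 (mod 12)` different from `q`. -/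
theorem rl5_exists_prime (q : ℕ) : ∃ r : ℕ, r.Prime ∧ r % 12 = 11 ∧ r ≠ q := by
  by_cases hq : q = 11
  · exact ⟨23, by norm_num, by norm_num, by omega⟩
  · exact ⟨11, by norm_num, by norm_num, fun h => hq h.symm⟩

/-- The rigid level `lcm`-free form: for every `q` and every `N` prime to `q` there is a prime
`r ≡ 11 (mod 12)`, `r ≠ q`, such that `N * r` is prime to `q` and has no elliptic points. -/
theorem rl5_exists_rigid_level (q N : ℕ) (hq : q.Prime) (hN : Nat.Coprime q N) :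
    ∃ r : ℕ, r.Prime ∧ r ≠ q ∧ Nat.Coprime q (N * r) ∧ nuTwo (N * r) = 0 ∧ nuThree (N * r) = 0 := by
  obtain ⟨r, hr, hr12, hrq⟩ := rl5_exists_prime q
  have hqr : Nat.Coprime q r := (Nat.coprime_primes hq hr).mpr (fun h => hrq h.symm)
  exact ⟨r, hr, hrq, Nat.Coprime.mul_right hN hqr,
    (rl5_rigid hr hr12 (Dvd.intro_left N rfl)).1, (rl5_rigid hr hr12 (Dvd.intro_left N rfl)).2⟩

end Fermat.Agent.RigidLevel5
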