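import Fermat.Agent.S36.RigidCubeInst43
import Fermat.Agent.S36.RigidCubeTwo43
import Fermat.Agent.S36.RigidTransferInst79
import Fermat.Agent.S36.EllDiv49

/-!
# S36 lab, rows 599 / 619 (helper68): the rigidity clauses `(R)` at the closed points of the
canonical level-`N q` charts, for ANY ring hom out of the local ring

`B` a chart of `F_K(N q)` (one of the four charts of `pk85_h2`, `pk85_h3` at level `N q`),
`n` a closed point of the special fibre at which `J` is regular (`J ∈ sf79_loc B n`; every node),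
`ρ : sf79_loc B n →+* O` any ring hom (e.g. `nd13_rho`, the reduction to the branch DVR
`O = B_n / p_V` of `NodeDVR13`).  With `jj := ρ J`:

* `rn68_hj3` : `∃ c u, IsUnit u ∧ jj = u * c ^ 3` (good level `N` with `nuThree N = 0`),
* `rn68_hj2` : `∃ d u, IsUnit u ∧ jj - 1728 = u * d ^ 2` (`nuTwo N = 0`),
* `rn68_hj4` : `∃ d u, IsUnit u ∧ jj = u * d ^ 4` (`O` local with `2 = 0`, level 3),

i.e. LITERALLY the conclusions of the hypotheses `hj3`, `hj2`, `hj4` of `kn13_kappa_eq_one` /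
`kn13_node` / `ka13_kappa_eq_one`.  Inputs: `rc43_level2/3` (helper43, the rigidity at the good
level `N`), `rt79c_level2/3(_inv)` (helper79, the transport along `α : F_K(N) → F_K(N q)`),
`ed49_level3_char_two` (helper49).

* `rn68_root_level2`, `rn68_root_level3` : `rt79_RootAt` for `J` (`m = 3`) and `J - 1728`
  (`m = 2`) on the four charts of level `N q` (the composition `rc43 ∘ rt79c`).
* `rn68_node_level2`, `rn68_node_level2_inv`, `rn68_node_level3`, `rn68_node_level3_inv` : the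
  clauses at a closed point of the four charts, in one call each.

All names are prefixed `rn68_`.
-/

set_option autoImplicit false
set_option linter.unusedSectionVars false
set_option linter.style.haveILetI false

open ModularCurve AlgebraicCurve

namespace Fermat.Agent.S36

open Fermat.Agent.S18 Fermat.Agent.S24 Fermat.Agent.S34

local notation "Q̄" => AlgebraicClosure ℚ

section rn68_abs

variable {R F : Type*} [CommRing R] [Field F] [Algebra R F]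

/-- `rc43_Root` (regularity of `f` asked) gives `rt79_RootAt` (regularity of `j` asked) as soon
as `f` is regular wherever `j` is. -/
theorem rn68_rootAt_of_root (π : R) (B : Subalgebra R F) (j f : F) (m : ℕ)
    (hreg : ∀ n : Ideal B, n.IsMaximal → (∃ s : B, s ∉ n ∧ (s : F) * j ∈ B) →
      ∃ s : B, s ∉ n ∧ (s : F) * f ∈ B)
    (h : rc43_Root π B m f) : rt79_RootAt π B j f m :=
  fun n hn hπn hj => h n hn hπn (hreg n hn hj)

/-- The image of a local root structure under any ring hom out of the local ring. -/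
theorem rn68_map_root (B : Subalgebra R F) (n : Ideal B) [n.IsPrime] {O : Type*} [CommRing O]
    (ρ : ↥(sf79_loc B n) →+* O) (m : ℕ) (f : F) (hf0 : f ≠ 0) (hfA : f ∈ sf79_loc B n)
    (h : ∃ c ε : F, c ≠ 0 ∧ f = ε * c ^ m ∧ (∃ s : B, s ∉ n ∧ (s : F) * ε ∈ B) ∧
      (∃ s : B, s ∉ n ∧ (s : F) * ε⁻¹ ∈ B) ∧ (∃ s : B, s ∉ n ∧ (s : F) * c ∈ B)) :
    ∃ c u : O, IsUnit u ∧ ρ ⟨f, hfA⟩ = u * c ^ m := by
  obtain ⟨c, ε, -, hf, hε, hε', hc⟩ := h
  have hε0 : ε ≠ 0 := by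
    rintro rfl
    exact hf0 (by rw [hf, zero_mul])
  have hεA : ε ∈ sf79_loc B n := hε
  have hεA' : ε⁻¹ ∈ sf79_loc B n := hε'
  have hcA : c ∈ sf79_loc B n := hc
  refine ⟨ρ ⟨c, hcA⟩, ρ ⟨ε, hεA⟩, ?_, ?_⟩
  · have hu : IsUnit (⟨ε, hεA⟩ : ↥(sf79_loc B n)) :=
      ⟨⟨⟨ε, hεA⟩, ⟨ε⁻¹, hεA'⟩, Subtype.ext (mul_inv_cancel₀ hε0),
        Subtype.ext (inv_mul_cancel₀ hε0)⟩, rfl⟩
    exact hu.map ρ
  · rw [← map_pow, ← map_mul]
    congr 1
    exact Subtype.ext hf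

/-- **Clause `hj3`-shape** for any `f` with a local `m`-th root structure where `j` is regular. -/
theorem rn68_hj (π : R) (B : Subalgebra R F) (j f : F) (m : ℕ)
    (hroot : rt79_RootAt π B j f m) (hf0 : f ≠ 0)
    (n : Ideal B) [hn : n.IsMaximal] (hπn : algebraMap R B π ∈ n)
    (hjA : j ∈ sf79_loc B n) (hfA : f ∈ sf79_loc B n) {O : Type*} [CommRing O]
    (ρ : ↥(sf79_loc B n) →+* O) :
    ∃ c u : O, IsUnit u ∧ ρ ⟨f, hfA⟩ = u * c ^ m :=
  rn68_map_root B n ρ m f hf0 hfA (hroot n hn hπn hjA)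

/-- **`hj3`**: `ρ J = u * c ^ 3`. -/
theorem rn68_hj3 (π : R) (B : Subalgebra R F) (J : F)
    (hroot : rt79_RootAt π B J J 3) (hJ0 : J ≠ 0)
    (n : Ideal B) [hn : n.IsMaximal] (hπn : algebraMap R B π ∈ n)
    (hJA : J ∈ sf79_loc B n) {O : Type*} [CommRing O] (ρ : ↥(sf79_loc B n) →+* O) :
    ∃ c u : O, IsUnit u ∧ ρ ⟨J, hJA⟩ = u * c ^ 3 :=
  rn68_hj π B J J 3 hroot hJ0 n hπn hJA hJA ρ

/-- **`hj2`**: `ρ J - 1728 = u * d ^ 2`. -/
theorem rn68_hj2 (π : R) (B : Subalgebra R F) (J : F)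
    (hroot : rt79_RootAt π B J (J - 1728) 2) (hJ0 : J - 1728 ≠ 0)
    (n : Ideal B) [hn : n.IsMaximal] (hπn : algebraMap R B π ∈ n)
    (hJA : J ∈ sf79_loc B n) {O : Type*} [CommRing O] (ρ : ↥(sf79_loc B n) →+* O) :
    ∃ d u : O, IsUnit u ∧ ρ ⟨J, hJA⟩ - 1728 = u * d ^ 2 := by
  have h1728 : (1728 : F) ∈ sf79_loc B n := by
    have : (1728 : F) = ((1728 : ↥(sf79_loc B n)) : F) := by push_cast; rfl
    rw [this]; exact (1728 : ↥(sf79_loc B n)).2
  have hfA : J - 1728 ∈ sf79_loc B n := (sf79_loc B n).sub_mem hJA h1728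
  obtain ⟨d, u, hu, h⟩ := rn68_hj π B J (J - 1728) 2 hroot hJ0 n hπn hJA hfA ρ
  refine ⟨d, u, hu, ?_⟩
  rw [← h]
  have e : (⟨J - 1728, hfA⟩ : ↥(sf79_loc B n)) = ⟨J, hJA⟩ - 1728 := by
    apply Subtype.ext
    push_cast
    rfl
  rw [e, map_sub, map_ofNat]

/-- **`hj4`** (`q = 2`, level 3): `ρ J = u * d ^ 4` from the Hauptmodul relation. -/
theorem rn68_hj4 (B : Subalgebra R F) (J h : F)
    (hrel : J * h ^ 3 = (h + 27) * (h + 243) ^ 3)
    (n : Ideal B) [hn : n.IsMaximal]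
    (hJA : J ∈ sf79_loc B n) (hhA : h ∈ sf79_loc B n) {O : Type*} [CommRing O] [IsLocalRing O]
    (h2O : (2 : O) = 0) (ρ : ↥(sf79_loc B n) →+* O) :
    ∃ d u : O, IsUnit u ∧ ρ ⟨J, hJA⟩ = u * d ^ 4 := by
  have hrel' : ρ ⟨J, hJA⟩ * ρ ⟨h, hhA⟩ ^ 3 = (ρ ⟨h, hhA⟩ + 27) * (ρ ⟨h, hhA⟩ + 243) ^ 3 := by
    have e : (⟨J, hJA⟩ : ↥(sf79_loc B n)) * ⟨h, hhA⟩ ^ 3 =
        (⟨h, hhA⟩ + 27) * (⟨h, hhA⟩ + 243) ^ 3 := by
      apply Subtype.ext
      push_cast
      exact hrel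
    have := congrArg ρ e
    simpa only [map_mul, map_pow, map_add, map_ofNat] using this
  obtain ⟨w, c, hw, hj⟩ := ed49_level3_char_two h2O (ρ ⟨J, hJA⟩) (ρ ⟨h, hhA⟩) hrel'
  exact ⟨c, w, hw, hj⟩

end rn68_abs

section rn68_concrete

variable {R K : Type} [CommRing R] [IsDomain R] [IsDiscreteValuationRing R] [Field K]
  [NumberField K] [Algebra K Q̄] [Algebra R K] [IsFractionRing R K] (N q : ℕ) [NeZero N] [NeZero q]
  [Algebra R ↥(modularFunctionFieldFullC K N)]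
  [IsScalarTower R K ↥(modularFunctionFieldFullC K N)]
  [Algebra R ↥(modularFunctionFieldFullC K (N * q))]
  [IsScalarTower R K ↥(modularFunctionFieldFullC K (N * q))]

/-- `J - 1728` is regular wherever `J` is. -/
theorem rn68_reg_sub {F : Type*} [Field F] [Algebra R F] (B : Subalgebra R F) (J : F)
    (n : Ideal B) (h : ∃ s : B, s ∉ n ∧ (s : F) * J ∈ B) :
    ∃ s : B, s ∉ n ∧ (s : F) * (J - 1728) ∈ B := by
  obtain ⟨s, hs, hsJ⟩ := h
  refine ⟨s, hs, ?_⟩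
  have h1728 : (1728 : F) ∈ B := by
    have := natCast_mem B 1728
    simpa using this
  have e : (s : F) * (J - 1728) = (s : F) * J - (1728 : F) * (s : F) := by ring
  rw [e]
  exact B.sub_mem hsJ (B.mul_mem h1728 s.2)

/-- `α (J - 1728) = J - 1728`. -/
theorem rn68_alpha_sub : al97L_alpha K N q (rm90_j K N - 1728) = rm90_j K (N * q) - 1728 := by
  rw [map_sub, rt79c_alpha_j, map_ofNat]

/-- **Level 2**: the root structures of `J` and `J - 1728` on both charts of level `N q`. -/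
theorem rn68_root_level2 {π : R} (hπ : Irreducible π) (h2 : 2 ∣ N) (hNu : IsUnit (N : R)) :
    (nuThree N = 0 →
      rt79_RootAt π (pk15_chart R ({pk85_h2 K (N * q) (Dvd.dvd.mul_right h2 q)} :
          Set ↥(modularFunctionFieldFullC K (N * q))))
        (rm90_j K (N * q)) (rm90_j K (N * q)) 3 ∧
      rt79_RootAt π (pk15_chart R ({(pk85_h2 K (N * q) (Dvd.dvd.mul_right h2 q))⁻¹} :
          Set ↥(modularFunctionFieldFullC K (N * q))))
        (rm90_j K (N * q)) (rm90_j K (N * q)) 3) ∧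
    (nuTwo N = 0 →
      rt79_RootAt π (pk15_chart R ({pk85_h2 K (N * q) (Dvd.dvd.mul_right h2 q)} :
          Set ↥(modularFunctionFieldFullC K (N * q))))
        (rm90_j K (N * q)) (rm90_j K (N * q) - 1728) 2 ∧
      rt79_RootAt π (pk15_chart R ({(pk85_h2 K (N * q) (Dvd.dvd.mul_right h2 q))⁻¹} :
          Set ↥(modularFunctionFieldFullC K (N * q))))
        (rm90_j K (N * q)) (rm90_j K (N * q) - 1728) 2) := by
  have h2u : IsUnit (2 : R) := by
    have := pk85_isUnit_of_dvd (R := R) N h2 hNu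
    simpa using this
  obtain ⟨hA, hB⟩ := rc43_level2 (R := R) (K := K) N hπ h2 hNu
  refine ⟨fun hν => ?_, fun hν => ?_⟩
  · obtain ⟨r1, r2⟩ := hA hν
    have t1 := rt79c_level2 N q π h2 h2u (rm90_j K N) 3
      (rn68_rootAt_of_root π _ (rm90_j K N) (rm90_j K N) 3 (fun n _ hj => hj) r1)
    have t2 := rt79c_level2_inv N q π h2 (rm90_j K N) 3
      (rn68_rootAt_of_root π _ (rm90_j K N) (rm90_j K N) 3 (fun n _ hj => hj) r2)
    rw [rt79c_alpha_j] at t1 t2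
    exact ⟨t1, t2⟩
  · obtain ⟨r1, r2⟩ := hB hν
    have t1 := rt79c_level2 N q π h2 h2u (rm90_j K N - 1728) 2
      (rn68_rootAt_of_root π _ (rm90_j K N) (rm90_j K N - 1728) 2
        (fun n _ hj => rn68_reg_sub _ _ n hj) r1)
    have t2 := rt79c_level2_inv N q π h2 (rm90_j K N - 1728) 2
      (rn68_rootAt_of_root π _ (rm90_j K N) (rm90_j K N - 1728) 2
        (fun n _ hj => rn68_reg_sub _ _ n hj) r2)
    rw [rn68_alpha_sub] at t1 t2
    exact ⟨t1, t2⟩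

/-- **Level 3**: the root structures of `J` and `J - 1728` on both charts of level `N q`. -/
theorem rn68_root_level3 {π : R} (hπ : Irreducible π) (h3 : 3 ∣ N) (hNu : IsUnit (N : R)) :
    (nuThree N = 0 →
      rt79_RootAt π (pk15_chart R ({pk85_h3 K (N * q) (Dvd.dvd.mul_right h3 q)} :
          Set ↥(modularFunctionFieldFullC K (N * q))))
        (rm90_j K (N * q)) (rm90_j K (N * q)) 3 ∧
      rt79_RootAt π (pk15_chart R ({(pk85_h3 K (N * q) (Dvd.dvd.mul_right h3 q))⁻¹} :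
          Set ↥(modularFunctionFieldFullC K (N * q))))
        (rm90_j K (N * q)) (rm90_j K (N * q)) 3) ∧
    (nuTwo N = 0 →
      rt79_RootAt π (pk15_chart R ({pk85_h3 K (N * q) (Dvd.dvd.mul_right h3 q)} :
          Set ↥(modularFunctionFieldFullC K (N * q))))
        (rm90_j K (N * q)) (rm90_j K (N * q) - 1728) 2 ∧
      rt79_RootAt π (pk15_chart R ({(pk85_h3 K (N * q) (Dvd.dvd.mul_right h3 q))⁻¹} :
          Set ↥(modularFunctionFieldFullC K (N * q))))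
        (rm90_j K (N * q)) (rm90_j K (N * q) - 1728) 2) := by
  have h3u : IsUnit (3 : R) := by
    have := pk85_isUnit_of_dvd (R := R) N h3 hNu
    simpa using this
  obtain ⟨hA, hB⟩ := rc43_level3 (R := R) (K := K) N hπ h3 hNu
  refine ⟨fun hν => ?_, fun hν => ?_⟩
  · obtain ⟨r1, r2⟩ := hA hν
    have t1 := rt79c_level3 N q π h3 h3u (rm90_j K N) 3
      (rn68_rootAt_of_root π _ (rm90_j K N) (rm90_j K N) 3 (fun n _ hj => hj) r1)
    have t2 := rt79c_level3_inv N q π h3 (rm90_j K N) 3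
      (rn68_rootAt_of_root π _ (rm90_j K N) (rm90_j K N) 3 (fun n _ hj => hj) r2)
    rw [rt79c_alpha_j] at t1 t2
    exact ⟨t1, t2⟩
  · obtain ⟨r1, r2⟩ := hB hν
    have t1 := rt79c_level3 N q π h3 h3u (rm90_j K N - 1728) 2
      (rn68_rootAt_of_root π _ (rm90_j K N) (rm90_j K N - 1728) 2
        (fun n _ hj => rn68_reg_sub _ _ n hj) r1)
    have t2 := rt79c_level3_inv N q π h3 (rm90_j K N - 1728) 2
      (rn68_rootAt_of_root π _ (rm90_j K N) (rm90_j K N - 1728) 2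
        (fun n _ hj => rn68_reg_sub _ _ n hj) r2)
    rw [rn68_alpha_sub] at t1 t2
    exact ⟨t1, t2⟩

/-- **The clauses `hj3`, `hj2`** at a closed point of a chart of level `N q` carrying the two
root structures. -/
theorem rn68_clauses (π : R) (B : Subalgebra R ↥(modularFunctionFieldFullC K (N * q)))
    (h3 : rt79_RootAt π B (rm90_j K (N * q)) (rm90_j K (N * q)) 3)
    (h2 : rt79_RootAt π B (rm90_j K (N * q)) (rm90_j K (N * q) - 1728) 2)
    (n : Ideal B) [hn : n.IsMaximal] (hπn : algebraMap R B π ∈ n)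
    (hJA : rm90_j K (N * q) ∈ sf79_loc B n) {O : Type*} [CommRing O]
    (ρ : ↥(sf79_loc B n) →+* O) :
    (∃ c u : O, IsUnit u ∧ ρ ⟨rm90_j K (N * q), hJA⟩ = u * c ^ 3) ∧
    (∃ d u : O, IsUnit u ∧ ρ ⟨rm90_j K (N * q), hJA⟩ - 1728 = u * d ^ 2) := by
  have hJ0 : rm90_j K (N * q) ≠ 0 := rh27_J_ne_zero K (N * q) (rm90_j K (N * q)) rfl
  have hJ1 : rm90_j K (N * q) - 1728 ≠ 0 := rc43_J1728_ne_zero (K := K) (N * q)
  exact ⟨rn68_hj3 π B _ h3 hJ0 n hπn hJA ρ, rn68_hj2 π B _ h2 hJ1 n hπn hJA ρ⟩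

/-- **Level 2, chart `{h₂}`**: `hj3`, `hj2` at every closed point of the special fibre of the
level-`N q` chart where `J` is regular, for any ring hom out of the local ring. -/
theorem rn68_node_level2 {π : R} (hπ : Irreducible π) (h2 : 2 ∣ N) (hNu : IsUnit (N : R))
    (hν3 : nuThree N = 0) (hν2 : nuTwo N = 0)
    (n : Ideal ↥(pk15_chart R ({pk85_h2 K (N * q) (Dvd.dvd.mul_right h2 q)} :
      Set ↥(modularFunctionFieldFullC K (N * q)))))
    [hn : n.IsMaximal] (hπn : algebraMap R _ π ∈ n)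
    (hJA : rm90_j K (N * q) ∈ sf79_loc _ n) {O : Type*} [CommRing O]
    (ρ : ↥(sf79_loc _ n) →+* O) :
    (∃ c u : O, IsUnit u ∧ ρ ⟨rm90_j K (N * q), hJA⟩ = u * c ^ 3) ∧
    (∃ d u : O, IsUnit u ∧ ρ ⟨rm90_j K (N * q), hJA⟩ - 1728 = u * d ^ 2) := by
  obtain ⟨hA, hB⟩ := rn68_root_level2 (R := R) (K := K) N q hπ h2 hNu
  exact rn68_clauses N q π _ (hA hν3).1 (hB hν2).1 n hπn hJA ρ

/-- **Level 2, chart `{h₂⁻¹}`.** -/
theorem rn68_node_level2_inv {π : R} (hπ : Irreducible π) (h2 : 2 ∣ N) (hNu : IsUnit (N : R))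
    (hν3 : nuThree N = 0) (hν2 : nuTwo N = 0)
    (n : Ideal ↥(pk15_chart R ({(pk85_h2 K (N * q) (Dvd.dvd.mul_right h2 q))⁻¹} :
      Set ↥(modularFunctionFieldFullC K (N * q)))))
    [hn : n.IsMaximal] (hπn : algebraMap R _ π ∈ n)
    (hJA : rm90_j K (N * q) ∈ sf79_loc _ n) {O : Type*} [CommRing O]
    (ρ : ↥(sf79_loc _ n) →+* O) :
    (∃ c u : O, IsUnit u ∧ ρ ⟨rm90_j K (N * q), hJA⟩ = u * c ^ 3) ∧
    (∃ d u : O, IsUnit u ∧ ρ ⟨rm90_j K (N * q), hJA⟩ - 1728 = u * d ^ 2) := by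
  obtain ⟨hA, hB⟩ := rn68_root_level2 (R := R) (K := K) N q hπ h2 hNu
  exact rn68_clauses N q π _ (hA hν3).2 (hB hν2).2 n hπn hJA ρ

/-- On a chart containing `h⁻¹` the function `h` is regular wherever `J` is, if
`J h³ = (h + 27)(h + 243)³`. -/
theorem rn68_reg_inv {F : Type*} [Field F] [Algebra R F] (B : Subalgebra R F) (J h : F)
    (hh0 : h ≠ 0) (hgB : h⁻¹ ∈ B) (hrel : J * h ^ 3 = (h + 27) * (h + 243) ^ 3)
    (n : Ideal B) [hn : n.IsPrime] (hJA : J ∈ sf79_loc B n) : h ∈ sf79_loc B n := by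
  classical
  by_cases hgn : (⟨h⁻¹, hgB⟩ : B) ∈ n
  · exfalso
    obtain ⟨s, hs, hsJ⟩ := hJA
    have hJg : J * h⁻¹ = (1 + 27 * h⁻¹) * (1 + 243 * h⁻¹) ^ 3 := by
      have e1 : J * h⁻¹ = (J * h ^ 3) * (h⁻¹) ^ 4 := by
        field_simp
      rw [e1, hrel]
      field_simp
    have key : s * ((1 + 27 * (⟨h⁻¹, hgB⟩ : B)) * (1 + 243 * (⟨h⁻¹, hgB⟩ : B)) ^ 3) =
        (⟨_, hsJ⟩ : B) * (⟨h⁻¹, hgB⟩ : B) := by
      apply Subtype.ext
      push_cast
      show (s : F) * ((1 + 27 * h⁻¹) * (1 + 243 * h⁻¹) ^ 3) = ((s : F) * J) * h⁻¹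
      rw [← hJg]; ring
    have hmem : s * ((1 + 27 * (⟨h⁻¹, hgB⟩ : B)) * (1 + 243 * (⟨h⁻¹, hgB⟩ : B)) ^ 3) ∈ n := by
      rw [key]; exact n.mul_mem_left _ hgn
    have h1 : ∀ k : B, 1 + k * (⟨h⁻¹, hgB⟩ : B) ∉ n := by
      intro k hk
      have : (1 : B) ∈ n := by
        have e : (1 : B) = (1 + k * (⟨h⁻¹, hgB⟩ : B)) - k * (⟨h⁻¹, hgB⟩ : B) := by ring
        rw [e]; exact n.sub_mem hk (n.mul_mem_left _ hgn)
      exact hn.ne_top ((Ideal.eq_top_iff_one n).mpr this)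
    rcases hn.mem_or_mem hmem with h' | h'
    · exact hs h'
    · rcases hn.mem_or_mem h' with h'' | h''
      · exact h1 27 h''
      · exact h1 243 (hn.mem_of_pow_mem 3 h'')
  · refine ⟨⟨h⁻¹, hgB⟩, hgn, ?_⟩
    have : ((⟨h⁻¹, hgB⟩ : B) : F) * h = 1 := inv_mul_cancel₀ hh0
    rw [this]
    exact B.one_mem

/-- On the chart `{h₃⁻¹}` the Hauptmodul `h₃` is regular wherever `J` is. -/
theorem rn68_h3_loc_inv (M : ℕ) [NeZero M] [Algebra R ↥(modularFunctionFieldFullC K M)]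
    (h3 : 3 ∣ M)
    (n : Ideal ↥(pk15_chart R ({(pk85_h3 K M h3)⁻¹} : Set ↥(modularFunctionFieldFullC K M))))
    [hn : n.IsPrime] (hJA : rm90_j K M ∈ sf79_loc _ n) :
    pk85_h3 K M h3 ∈ sf79_loc _ n :=
  rn68_reg_inv _ (rm90_j K M) (pk85_h3 K M h3)
    (fun h0 => pk85_h3_transcendental K M h3 (by rw [h0]; exact isAlgebraic_zero))
    (pk15_subset_chart _ (Set.mem_singleton _)) (rc43_h3_rel (K := K) M h3) n hJA

/-- **Level 3, chart `{h₃}`**: `hj3`, `hj2`, and `hj4` when `2 = 0` in `O`. -/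
theorem rn68_node_level3 {π : R} (hπ : Irreducible π) (h3 : 3 ∣ N) (hNu : IsUnit (N : R))
    (hν3 : nuThree N = 0) (hν2 : nuTwo N = 0)
    (n : Ideal ↥(pk15_chart R ({pk85_h3 K (N * q) (Dvd.dvd.mul_right h3 q)} :
      Set ↥(modularFunctionFieldFullC K (N * q)))))
    [hn : n.IsMaximal] (hπn : algebraMap R _ π ∈ n)
    (hJA : rm90_j K (N * q) ∈ sf79_loc _ n) {O : Type*} [CommRing O]
    (ρ : ↥(sf79_loc _ n) →+* O) :
    (∃ c u : O, IsUnit u ∧ ρ ⟨rm90_j K (N * q), hJA⟩ = u * c ^ 3) ∧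
    (∃ d u : O, IsUnit u ∧ ρ ⟨rm90_j K (N * q), hJA⟩ - 1728 = u * d ^ 2) ∧
    (IsLocalRing O → (2 : O) = 0 →
      ∃ d u : O, IsUnit u ∧ ρ ⟨rm90_j K (N * q), hJA⟩ = u * d ^ 4) := by
  obtain ⟨hA, hB⟩ := rn68_root_level3 (R := R) (K := K) N q hπ h3 hNu
  obtain ⟨c3, c2⟩ := rn68_clauses N q π _ (hA hν3).1 (hB hν2).1 n hπn hJA ρ
  refine ⟨c3, c2, fun hloc h2O => ?_⟩
  haveI := hloc
  have hhA : pk85_h3 K (N * q) (Dvd.dvd.mul_right h3 q) ∈ sf79_loc _ n :=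
    sf79_le_loc _ n _ (pk15_subset_chart _ (Set.mem_singleton _))
  exact rn68_hj4 _ _ _ (rc43_h3_rel (K := K) (N * q) (Dvd.dvd.mul_right h3 q)) n hJA hhA h2O ρ

/-- **Level 3, chart `{h₃⁻¹}`**: `hj3`, `hj2`, and `hj4` when `2 = 0` in `O`. -/
theorem rn68_node_level3_inv {π : R} (hπ : Irreducible π) (h3 : 3 ∣ N) (hNu : IsUnit (N : R))
    (hν3 : nuThree N = 0) (hν2 : nuTwo N = 0)
    (n : Ideal ↥(pk15_chart R ({(pk85_h3 K (N * q) (Dvd.dvd.mul_right h3 q))⁻¹} :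
      Set ↥(modularFunctionFieldFullC K (N * q)))))
    [hn : n.IsMaximal] (hπn : algebraMap R _ π ∈ n)
    (hJA : rm90_j K (N * q) ∈ sf79_loc _ n) {O : Type*} [CommRing O]
    (ρ : ↥(sf79_loc _ n) →+* O) :
    (∃ c u : O, IsUnit u ∧ ρ ⟨rm90_j K (N * q), hJA⟩ = u * c ^ 3) ∧
    (∃ d u : O, IsUnit u ∧ ρ ⟨rm90_j K (N * q), hJA⟩ - 1728 = u * d ^ 2) ∧
    (IsLocalRing O → (2 : O) = 0 →
      ∃ d u : O, IsUnit u ∧ ρ ⟨rm90_j K (N * q), hJA⟩ = u * d ^ 4) := by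
  obtain ⟨hA, hB⟩ := rn68_root_level3 (R := R) (K := K) N q hπ h3 hNu
  obtain ⟨c3, c2⟩ := rn68_clauses N q π _ (hA hν3).2 (hB hν2).2 n hπn hJA ρ
  refine ⟨c3, c2, fun hloc h2O => ?_⟩
  haveI := hloc
  have hhA : pk85_h3 K (N * q) (Dvd.dvd.mul_right h3 q) ∈ sf79_loc _ n :=
    rn68_h3_loc_inv (R := R) (K := K) (N * q) (Dvd.dvd.mul_right h3 q) n hJA
  exact rn68_hj4 _ _ _ (rc43_h3_rel (K := K) (N * q) (Dvd.dvd.mul_right h3 q)) n hJA hhA h2O ρ

end rn68_concrete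

end Fermat.Agent.S36
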