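import Fermat.Agent.S36.RigidRoot68
import Fermat.Agent.S36.RigidHoriz27
import Fermat.Agent.S34.FinSupp29

/-!
# S36 lab, row 619 C-REGq-RIG, composite binder (helper83)

`rr68_root` (helper68, abstract root extraction in the local ring of a 2-generated closed point)
fed with

* the LOCAL order hypothesis for `J` and `J - 1728` at a level without elliptic points
  (helper27, `rh27_horiz_cube` / `rh27_horiz_square`), for `J` only REGULAR at the point
  (`∃ s ∉ n, s * J ∈ B`; the chart need not contain `J`), and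
* the LOCAL finiteness hypothesis (helper29, `fs29_finSupp`, through `ca94_fin`).

What remains as hypotheses is the chart block only (the hypotheses `hfrac`, `hn`, `hπn`, `h2`,
`V`, `hBV`, `hmax`, `hdisc`, `hsat`, `hKr` of `rr68_root`) and "the function is a unit of `V`".

* `rb83_mem_through` : a function regular at `n` lies in every `O` through `n`.
* `rb83_hOrd_cube`, `rb83_hOrd_square` : the literal `hOrd` of `rr68_root` for `J` (`m = 3`,
  `ν₃(M) = 0`) and `J - 1728` (`m = 2`, `ν₂(M) = 0`).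
* `rb83_hFin` : the literal `hFin` of `rr68_root` for every nonzero function.
* `rb83_root_cube` : `J = u * c ^ 3`, `c ∈ B_n`, `u` a unit of `B_n`.
* `rb83_root_square` : `J - 1728 = u * c ^ 2`, `c ∈ B_n`, `u` a unit of `B_n`.

All names are prefixed `rb83_`.
-/

set_option autoImplicit false
set_option linter.style.haveILetI false
set_option linter.unusedSectionVars false

open ModularCurve AlgebraicCurve MatrixGroups IntermediateField

namespace Fermat.Agent.S36

open Fermat.Agent.S24 Fermat.Agent.S18 Fermat.Agent.S34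

section Through

variable {R F : Type*} [CommRing R] [Field F] [Algebra R F]

/-- A function regular at the point `n` of the chart `B` lies in every valuation subring
through `n`. -/
theorem rb83_mem_through (B : Subalgebra R F) (n : Ideal B) (f : F)
    (hfB : ∃ s : B, s ∉ n ∧ (s : F) * f ∈ B) (O : ValuationSubring F)
    (hOn : s34i47_Through B n O) : f ∈ O := by
  obtain ⟨s, hs, hsf⟩ := hfB
  have hs0 : (s : F) ≠ 0 := by
    intro h0
    apply hs
    have : s = 0 := Subtype.ext h0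
    rw [this]
    exact n.zero_mem
  have h1 : f = (s : F)⁻¹ * ((s : F) * f) := by
    rw [← mul_assoc, inv_mul_cancel₀ hs0, one_mul]
  rw [h1]
  exact O.mul_mem _ _ (hOn.2 s hs) (hOn.1 _ hsf)

end Through

section Bind

variable {R : Type*} [CommRing R] [IsDomain R] [IsDiscreteValuationRing R]
  (K : Type) [Field K] [NumberField K] [Algebra K (AlgebraicClosure ℚ)] [Algebra R K]
  [IsFractionRing R K] (M : ℕ) [NeZero M]
  [Algebra R ↥(modularFunctionFieldFullC K M)]
  [IsScalarTower R K ↥(modularFunctionFieldFullC K M)]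

/-- The literal `hOrd` of `rr68_root` for `J`, `m = 3`, at a level with `ν₃ = 0`. -/
theorem rb83_hOrd_cube (π : R) (hπ : Irreducible π) (h3 : nuThree M = 0)
    (J : ↥(modularFunctionFieldFullC K M)) (hJ : (J : LaurentSeries K) = jqModC K)
    (B : Subalgebra R ↥(modularFunctionFieldFullC K M)) (n : Ideal B)
    (hJB : ∃ s : B, s ∉ n ∧ (s : ↥(modularFunctionFieldFullC K M)) * J ∈ B) :
    ∀ O : ValuationSubring ↥(modularFunctionFieldFullC K M), s34i47_IsHoriz π O →
      s34i47_Through B n O →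
      ∃ ε w : ↥(modularFunctionFieldFullC K M), ε ∈ O ∧ ε⁻¹ ∈ O ∧ J = ε * w ^ 3 :=
  fun O hO hOn =>
    rh27_horiz_cube K M π hπ h3 J hJ O hO (rb83_mem_through B n J hJB O hOn)

/-- The literal `hOrd` of `rr68_root` for `J - 1728`, `m = 2`, at a level with `ν₂ = 0`. -/
theorem rb83_hOrd_square (π : R) (hπ : Irreducible π) (h2 : nuTwo M = 0)
    (J : ↥(modularFunctionFieldFullC K M)) (hJ : (J : LaurentSeries K) = jqModC K)
    (B : Subalgebra R ↥(modularFunctionFieldFullC K M)) (n : Ideal B)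
    (hJB : ∃ s : B, s ∉ n ∧ (s : ↥(modularFunctionFieldFullC K M)) * J ∈ B) :
    ∀ O : ValuationSubring ↥(modularFunctionFieldFullC K M), s34i47_IsHoriz π O →
      s34i47_Through B n O →
      ∃ ε w : ↥(modularFunctionFieldFullC K M), ε ∈ O ∧ ε⁻¹ ∈ O ∧ J - 1728 = ε * w ^ 2 :=
  fun O hO hOn =>
    rh27_horiz_square K M π hπ h2 J hJ O hO (rb83_mem_through B n J hJB O hOn)

/-- The literal `hFin` of `rr68_root` for a nonzero function. -/
theorem rb83_hFin (π : R) (hπ : Irreducible π) (f : ↥(modularFunctionFieldFullC K M))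
    (hf : f ≠ 0) (B : Subalgebra R ↥(modularFunctionFieldFullC K M)) (n : Ideal B) :
    {O : ValuationSubring ↥(modularFunctionFieldFullC K M) | s34i47_IsHoriz π O ∧
      s34i47_Through B n O ∧ ¬ (f ∈ O ∧ f⁻¹ ∈ O)}.Finite := by
  have hfin : s34i47_Fin π f := ca94_fin (K := K) π hπ f (fs29_finSupp M K f hf)
  exact hfin.subset (fun O hO => ⟨hO.1, hO.2.2⟩)

/-- `J - 1728 ≠ 0`. -/
theorem rb83_J_sub_ne_zero (J : ↥(modularFunctionFieldFullC K M))
    (hJ : (J : LaurentSeries K) = jqModC K) : J - 1728 ≠ 0 := by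
  have h1 : J = relimc_J K M := Subtype.ext (hJ.trans (relimc_J_coe K M).symm)
  intro h0
  apply relimc_J_transcendental K M
  rw [← h1, sub_eq_zero.mp h0]
  have h1728 : IsAlgebraic K
      (algebraMap K ↥(modularFunctionFieldFullC K M) (1728 : K)) := isAlgebraic_algebraMap _
  rwa [map_ofNat] at h1728

/-- **`J = u * c ^ 3` in the local ring** at a 2-generated closed point `n` of a one-branch chart
at a level with `ν₃(M) = 0`, where `J` is regular and a unit of the vertical valuation `V`. -/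
theorem rb83_root_cube (π : R) (hπ : Irreducible π)
    (hπ0 : algebraMap R ↥(modularFunctionFieldFullC K M) π ≠ 0) (h3 : nuThree M = 0)
    (J : ↥(modularFunctionFieldFullC K M)) (hJ : (J : LaurentSeries K) = jqModC K)
    (B : Subalgebra R ↥(modularFunctionFieldFullC K M)) [IsNoetherianRing B]
    (hfrac : ∀ t : ↥(modularFunctionFieldFullC K M), ∃ a ∈ B, ∃ b ∈ B, b ≠ 0 ∧ t * b = a)
    (n : Ideal B) (hn : n.IsMaximal) (hπn : algebraMap R B π ∈ n)
    (h2 : ∃ x y : B, x ∈ n ∧ y ∈ n ∧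
      ∀ v ∈ n, ∃ s : B, s ∉ n ∧ ∃ a b : B, s * v = a * x + b * y)
    (V : ValuationSubring ↥(modularFunctionFieldFullC K M)) (hBV : ∀ x ∈ B, x ∈ V)
    (hmax : ∀ x ∈ V, x⁻¹ ∉ V →
      (algebraMap R ↥(modularFunctionFieldFullC K M) π)⁻¹ * x ∈ V)
    (hdisc : ∀ x : ↥(modularFunctionFieldFullC K M), x ≠ 0 → ∃ k : ℤ,
      algebraMap R ↥(modularFunctionFieldFullC K M) π ^ k * x ∈ V ∧
      (algebraMap R ↥(modularFunctionFieldFullC K M) π ^ k * x)⁻¹ ∈ V)
    (hsat : ∀ x ∈ B, (algebraMap R ↥(modularFunctionFieldFullC K M) π)⁻¹ * x ∈ V →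
      (algebraMap R ↥(modularFunctionFieldFullC K M) π)⁻¹ * x ∈ B)
    (hKr : ∀ x : ↥(modularFunctionFieldFullC K M),
      (∀ O : ValuationSubring ↥(modularFunctionFieldFullC K M), s34i47_IsHoriz π O →
        s34i47_Through B n O → x ∈ O) →
      ∃ s : B, s ∉ n ∧ ∃ k : ℕ, algebraMap R ↥(modularFunctionFieldFullC K M) π ^ k *
        ((s : ↥(modularFunctionFieldFullC K M)) * x) ∈ B)
    (hJB : ∃ s : B, s ∉ n ∧ (s : ↥(modularFunctionFieldFullC K M)) * J ∈ B)
    (hJV : J ∈ V) (hJV' : J⁻¹ ∈ V) :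
    ∃ c u : ↥(modularFunctionFieldFullC K M),
      (∃ s : B, s ∉ n ∧ (s : ↥(modularFunctionFieldFullC K M)) * c ∈ B) ∧
      (∃ s : B, s ∉ n ∧ (s : ↥(modularFunctionFieldFullC K M)) * u ∈ B) ∧
      (∃ s : B, s ∉ n ∧ (s : ↥(modularFunctionFieldFullC K M)) * u⁻¹ ∈ B) ∧ J = u * c ^ 3 :=
  rr68_root π hπ0 B hfrac n hn hπn h2 V hBV hmax hdisc hsat hKr 3 (by norm_num) J
    (rh27_J_ne_zero K M J hJ) hJB hJV hJV'
    (rb83_hOrd_cube K M π hπ h3 J hJ B n hJB)
    (rb83_hFin K M π hπ J (rh27_J_ne_zero K M J hJ) B n)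

/-- **`J - 1728 = u * c ^ 2` in the local ring** at a 2-generated closed point `n` of a one-branch
chart at a level with `ν₂(M) = 0`, where `J` is regular and `J - 1728` is a unit of the vertical
valuation `V`. -/
theorem rb83_root_square (π : R) (hπ : Irreducible π)
    (hπ0 : algebraMap R ↥(modularFunctionFieldFullC K M) π ≠ 0) (h2' : nuTwo M = 0)
    (J : ↥(modularFunctionFieldFullC K M)) (hJ : (J : LaurentSeries K) = jqModC K)
    (B : Subalgebra R ↥(modularFunctionFieldFullC K M)) [IsNoetherianRing B]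
    (hfrac : ∀ t : ↥(modularFunctionFieldFullC K M), ∃ a ∈ B, ∃ b ∈ B, b ≠ 0 ∧ t * b = a)
    (n : Ideal B) (hn : n.IsMaximal) (hπn : algebraMap R B π ∈ n)
    (h2 : ∃ x y : B, x ∈ n ∧ y ∈ n ∧
      ∀ v ∈ n, ∃ s : B, s ∉ n ∧ ∃ a b : B, s * v = a * x + b * y)
    (V : ValuationSubring ↥(modularFunctionFieldFullC K M)) (hBV : ∀ x ∈ B, x ∈ V)
    (hmax : ∀ x ∈ V, x⁻¹ ∉ V →
      (algebraMap R ↥(modularFunctionFieldFullC K M) π)⁻¹ * x ∈ V)
    (hdisc : ∀ x : ↥(modularFunctionFieldFullC K M), x ≠ 0 → ∃ k : ℤ,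
      algebraMap R ↥(modularFunctionFieldFullC K M) π ^ k * x ∈ V ∧
      (algebraMap R ↥(modularFunctionFieldFullC K M) π ^ k * x)⁻¹ ∈ V)
    (hsat : ∀ x ∈ B, (algebraMap R ↥(modularFunctionFieldFullC K M) π)⁻¹ * x ∈ V →
      (algebraMap R ↥(modularFunctionFieldFullC K M) π)⁻¹ * x ∈ B)
    (hKr : ∀ x : ↥(modularFunctionFieldFullC K M),
      (∀ O : ValuationSubring ↥(modularFunctionFieldFullC K M), s34i47_IsHoriz π O →
        s34i47_Through B n O → x ∈ O) →
      ∃ s : B, s ∉ n ∧ ∃ k : ℕ, algebraMap R ↥(modularFunctionFieldFullC K M) π ^ k *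
        ((s : ↥(modularFunctionFieldFullC K M)) * x) ∈ B)
    (hJB : ∃ s : B, s ∉ n ∧ (s : ↥(modularFunctionFieldFullC K M)) * J ∈ B)
    (hJV : J - 1728 ∈ V) (hJV' : (J - 1728)⁻¹ ∈ V) :
    ∃ c u : ↥(modularFunctionFieldFullC K M),
      (∃ s : B, s ∉ n ∧ (s : ↥(modularFunctionFieldFullC K M)) * c ∈ B) ∧
      (∃ s : B, s ∉ n ∧ (s : ↥(modularFunctionFieldFullC K M)) * u ∈ B) ∧
      (∃ s : B, s ∉ n ∧ (s : ↥(modularFunctionFieldFullC K M)) * u⁻¹ ∈ B) ∧
      J - 1728 = u * c ^ 2 := by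
  have hJB' : ∃ s : B, s ∉ n ∧
      (s : ↥(modularFunctionFieldFullC K M)) * (J - 1728) ∈ B := by
    obtain ⟨s, hs, hsJ⟩ := hJB
    refine ⟨s, hs, ?_⟩
    rw [mul_sub]
    refine B.sub_mem hsJ (B.mul_mem s.2 ?_)
    have h := B.algebraMap_mem (1728 : R)
    rwa [map_ofNat] at h
  exact rr68_root π hπ0 B hfrac n hn hπn h2 V hBV hmax hdisc hsat hKr 2 (by norm_num) (J - 1728)
    (rb83_J_sub_ne_zero K M J hJ) hJB' hJV hJV'
    (rb83_hOrd_square K M π hπ h2' J hJ B n hJB)
    (rb83_hFin K M π hπ (J - 1728) (rb83_J_sub_ne_zero K M J hJ) B n)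

end Bind

end Fermat.Agent.S36
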