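import Mathlib
import Fermat.Agent.S34.Iface47
import Fermat.Agent.S34.LocPrin9
import Fermat.Agent.S36.LocPrinTwoGen9

/-!
# S36 (helper28): a function with `m ∣ ord` at a 2-generated point is `unit * m-th power` there

Sub-part (5) of the route `kappa = 1` at the nodes over `j = 0, 1728` of a rigid level
(row C-REGq): at a closed point `n` of a chart `B` of GOOD reduction (one vertical valuation
ring `V` with uniformiser `π`, the chart saturated in `V`), with `n B_n = (x, y)` 2-generated,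
a function `f ∈ B` which is a unit of `V` and has `m ∣ ord_O f` at the horizontal `O` THROUGH `n`
(only those: `lpz9_locPrin_at` asks for all horizontal `O`, which fails for `j` at the cusps) is
`unit of B_n * (element of B_n) ^ m`.

* `rp28_locPrin_at` : the per-point clause of `s34i47_LocPrin` from the LOCAL order hypothesis.
* `rp28_split`      : `a b = π ^ N s`, `s ∉ n` in a saturated chart ⟹ `a = π ^ i a'`, `a' ∉ n`.
* `rp28_unit_pow`   : `t ^ m * s * f = a * y ^ m` in `B` with `a, s, t ∉ n`.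
* `rp28_map_unit_pow` : under any ring hom `φ` inverting `B ∖ n` : `φ f = unit * c ^ m`
  (so `m ∣ ord (φ f)` in every discrete valuation ring receiving `B_n`).

All names are prefixed `rp28_`.
-/

set_option autoImplicit false

namespace Fermat.Agent.S36

open Fermat.Agent.S34 Fermat.Agent.S18 Fermat.Agent.S35

section RP28

variable {R F : Type*} [CommRing R] [Field F] [Algebra R F]

/-- **(LP) at a 2-generated point from the LOCAL order hypothesis**: only the horizontal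
valuation rings through `n` are asked to have `m ∣ ord_O f`. -/
theorem rp28_locPrin_at (π : R) (hπ0 : algebraMap R F π ≠ 0) (B : Subalgebra R F)
    [IsNoetherianRing B]
    (hfrac : ∀ t : F, ∃ a ∈ B, ∃ b ∈ B, b ≠ 0 ∧ t * b = a)
    (n : Ideal B) (hn : n.IsMaximal) (hπn : algebraMap R B π ∈ n)
    (h2 : ∃ x y : B, x ∈ n ∧ y ∈ n ∧
      ∀ v ∈ n, ∃ s : B, s ∉ n ∧ ∃ a b : B, s * v = a * x + b * y)
    (m : ℕ) (hm : 0 < m) (f : F) (hf : f ≠ 0)
    (hOrd : ∀ O : ValuationSubring F, s34i47_IsHoriz π O → s34i47_Through B n O →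
      ∃ ε w : F, ε ∈ O ∧ ε⁻¹ ∈ O ∧ f = ε * w ^ m)
    (hFin : {O : ValuationSubring F | s34i47_IsHoriz π O ∧ s34i47_Through B n O ∧
      ¬ (f ∈ O ∧ f⁻¹ ∈ O)}.Finite) :
    ∃ c : F, c ≠ 0 ∧ ∀ O : ValuationSubring F, s34i47_IsHoriz π O → s34i47_Through B n O →
      f / c ^ m ∈ O ∧ c ^ m / f ∈ O := by
  classical
  set T : Finset (ValuationSubring F) := hFin.toFinset with hT
  have hmemT : ∀ O : ValuationSubring F, O ∈ T ↔
      s34i47_IsHoriz π O ∧ s34i47_Through B n O ∧ ¬ (f ∈ O ∧ f⁻¹ ∈ O) := by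
    intro O
    rw [hT, Set.Finite.mem_toFinset]
    rfl
  have hex : ∀ O ∈ T, ∃ g : F, g ≠ 0 ∧ lp9_IsU O (f / g ^ m) ∧
      ∀ O' : ValuationSubring F, s34i47_IsHoriz π O' → s34i47_Through B n O' → O' ≠ O →
        lp9_IsU O' g := by
    intro O hO
    rw [hmemT] at hO
    obtain ⟨p, hp0, hpO, hpinv, hgen, hother⟩ :=
      lpz9_UZ_at π hπ0 B hfrac n hn hπn h2 O hO.1 hO.2.1
    obtain ⟨ε, w, hε, hεinv, hfw⟩ := hOrd O hO.1 hO.2.1
    have hw : w ≠ 0 := by
      rintro rfl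
      apply hf
      rw [hfw, zero_pow (by omega), mul_zero]
    obtain ⟨k, hk⟩ := lp9_exists_zpow O hO.1.2.1 p hp0 hpO hpinv hgen w hw
    refine ⟨p ^ k, zpow_ne_zero k hp0, ?_, ?_⟩
    · have he : f / (p ^ k) ^ m = ε * (w / p ^ k) ^ m := by
        rw [hfw, div_pow, mul_div_assoc]
      rw [he]
      exact lp9_IsU_mul ⟨hε, hεinv⟩ (lp9_IsU_pow hk m)
    · intro O' hO' hOn' hne
      exact lp9_IsU_zpow (hother O' hO' hOn' hne) k
  choose! g hg0 hgU hgother using hex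
  refine ⟨∏ O ∈ T, g O, Finset.prod_ne_zero_iff.mpr hg0, ?_⟩
  intro O hO hOn
  have key : lp9_IsU O (f / (∏ O' ∈ T, g O') ^ m) := by
    by_cases hOT : O ∈ T
    · have hsplit : ∏ O' ∈ T, g O' = g O * ∏ O' ∈ T.erase O, g O' :=
        (Finset.mul_prod_erase T g hOT).symm
      have hrest : lp9_IsU O (∏ O' ∈ T.erase O, g O') := by
        apply lp9_IsU_prod
        intro O' hO'
        have h := Finset.mem_erase.mp hO'
        exact hgother O' h.2 O hO hOn (Ne.symm h.1)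
      have he : f / (∏ O' ∈ T, g O') ^ m =
          (f / g O ^ m) * ((∏ O' ∈ T.erase O, g O') ^ m)⁻¹ := by
        rw [hsplit, mul_pow, div_mul_eq_div_div, div_eq_mul_inv (f / g O ^ m)]
      rw [he]
      exact lp9_IsU_mul (hgU O hOT) (lp9_IsU_inv (lp9_IsU_pow hrest m))
    · have hfU : lp9_IsU O f := by
        by_contra h
        exact hOT ((hmemT O).mpr ⟨hO, hOn, h⟩)
      have hcU : lp9_IsU O (∏ O' ∈ T, g O') := by
        apply lp9_IsU_prod
        intro O' hO'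
        exact hgother O' hO' O hO hOn (by rintro rfl; exact hOT hO')
      rw [div_eq_mul_inv]
      exact lp9_IsU_mul hfU (lp9_IsU_inv (lp9_IsU_pow hcU m))
  refine ⟨key.1, ?_⟩
  have h2' := key.2
  rwa [inv_div] at h2'

/-- In a chart saturated in a valuation ring `V` with uniformiser `π`: a product
`a b = π ^ N s` with `s ∉ n` forces `a = π ^ i a'` with `a' ∉ n` (`π` is a prime element). -/
theorem rp28_split (π : R) (hπ0 : algebraMap R F π ≠ 0) (B : Subalgebra R F)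
    (n : Ideal B)
    (V : ValuationSubring F) (hBV : ∀ x ∈ B, x ∈ V) (hπV : (algebraMap R F π)⁻¹ ∉ V)
    (hmax : ∀ x ∈ V, x⁻¹ ∉ V → (algebraMap R F π)⁻¹ * x ∈ V)
    (hsat : ∀ x ∈ B, (algebraMap R F π)⁻¹ * x ∈ V → (algebraMap R F π)⁻¹ * x ∈ B) :
    ∀ (N : ℕ) (a b s : B), s ∉ n → (a : F) * (b : F) = algebraMap R F π ^ N * (s : F) →
      ∃ i : ℕ, i ≤ N ∧ ∃ a' : B, a' ∉ n ∧ (a : F) = algebraMap R F π ^ i * (a' : F) := by
  intro N
  induction N with
  | zero =>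
    intro a b s hs hab
    refine ⟨0, le_refl 0, a, ?_, by rw [pow_zero, one_mul]⟩
    intro ha
    apply hs
    have : a * b = s := Subtype.ext (by
      show (a : F) * (b : F) = (s : F)
      rw [hab, pow_zero, one_mul])
    rw [← this]
    exact n.mul_mem_right b ha
  | succ N ih =>
    intro a b s hs hab
    have hs0 : (s : F) ≠ 0 := by
      intro h0
      apply hs
      have : s = 0 := Subtype.ext (by rw [h0]; rfl)
      rw [this]; exact n.zero_mem
    have hab0 : (a : F) * (b : F) ≠ 0 := by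
      rw [hab]; exact mul_ne_zero (pow_ne_zero _ hπ0) hs0
    have ha0 : (a : F) ≠ 0 := left_ne_zero_of_mul hab0
    have hb0 : (b : F) ≠ 0 := right_ne_zero_of_mul hab0
    have hred : (algebraMap R F π)⁻¹ * ((a : F) * (b : F)) = algebraMap R F π ^ N * (s : F) := by
      rw [hab, pow_succ, mul_assoc, ← mul_assoc (algebraMap R F π)⁻¹, mul_comm (algebraMap R F π)⁻¹,
        mul_assoc (algebraMap R F π ^ N), ← mul_assoc (algebraMap R F π)⁻¹,
        inv_mul_cancel₀ hπ0, one_mul]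
    have hV : (algebraMap R F π)⁻¹ * ((a : F) * (b : F)) ∈ V := by
      rw [hred]
      exact V.mul_mem _ _ (pow_mem (hBV _ (B.algebraMap_mem π)) N) (hBV _ s.2)
    have hor : (algebraMap R F π)⁻¹ * (a : F) ∈ V ∨ (algebraMap R F π)⁻¹ * (b : F) ∈ V := by
      by_contra hcon
      push Not at hcon
      have ha' : (a : F)⁻¹ ∈ V := by
        by_contra h
        exact hcon.1 (hmax _ (hBV _ a.2) h)
      have hb' : (b : F)⁻¹ ∈ V := by
        by_contra h
        exact hcon.2 (hmax _ (hBV _ b.2) h)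
      apply hπV
      have : (algebraMap R F π)⁻¹ =
          (algebraMap R F π)⁻¹ * ((a : F) * (b : F)) * ((a : F)⁻¹ * (b : F)⁻¹) := by
        rw [mul_assoc, ← mul_inv, mul_inv_cancel₀ hab0, mul_one]
      rw [this]
      exact V.mul_mem _ _ hV (V.mul_mem _ _ ha' hb')
    rcases hor with h | h
    · have hmem := hsat _ a.2 h
      obtain ⟨i, hi, a', ha', he⟩ := ih ⟨_, hmem⟩ b s hs (by
        show (algebraMap R F π)⁻¹ * (a : F) * (b : F) = _
        rw [mul_assoc, hred])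
      refine ⟨i + 1, Nat.succ_le_succ hi, a', ha', ?_⟩
      have he' : (algebraMap R F π)⁻¹ * (a : F) = algebraMap R F π ^ i * (a' : F) := he
      calc (a : F) = algebraMap R F π * ((algebraMap R F π)⁻¹ * (a : F)) := by
            rw [← mul_assoc, mul_inv_cancel₀ hπ0, one_mul]
        _ = algebraMap R F π ^ (i + 1) * (a' : F) := by rw [he', pow_succ]; ring
    · have hmem := hsat _ b.2 h
      obtain ⟨i, hi, a', ha', he⟩ := ih a ⟨_, hmem⟩ s hs (by
        show (a : F) * ((algebraMap R F π)⁻¹ * (b : F)) = _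
        rw [mul_left_comm, hred])
      exact ⟨i, Nat.le_succ_of_le hi, a', ha', he⟩

/-- An element whose `m`-th power lies in a valuation subring lies in it. -/
theorem rp28_mem_of_pow_mem (O : ValuationSubring F) (m : ℕ) (hm : 0 < m) (c : F)
    (h : c ^ m ∈ O) : c ∈ O := by
  rcases O.mem_or_inv_mem c with hc | hc
  · exact hc
  · by_cases hc0 : c = 0
    · rw [hc0]; exact O.zero_mem
    · have : c = c ^ m * (c⁻¹) ^ (m - 1) := by
        obtain ⟨k, rfl⟩ : ∃ k, m = k + 1 := ⟨m - 1, by omega⟩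
        rw [Nat.add_sub_cancel, pow_succ, inv_pow]
        field_simp
      rw [this]
      exact O.mul_mem _ _ h (pow_mem hc _)

/-- **`f = unit * m`-th power at a 2-generated point of a chart of good reduction.**
`B ⊆ V` saturated, `π` a uniformiser of `V`, `n B_n = (x, y)`, the Krull property at `n`,
`f ∈ B` a unit of `V` with `m ∣ ord_O f` at the horizontal `O` through `n`:
then `t ^ m * s * f = a * y ^ m` with `a, s, t ∉ n`, i.e. `f = (a / s) * (y / t) ^ m` in `B_n`. -/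
theorem rp28_unit_pow (π : R) (hπ0 : algebraMap R F π ≠ 0) (B : Subalgebra R F)
    [IsNoetherianRing B]
    (hfrac : ∀ t : F, ∃ a ∈ B, ∃ b ∈ B, b ≠ 0 ∧ t * b = a)
    (n : Ideal B) (hn : n.IsMaximal) (hπn : algebraMap R B π ∈ n)
    (h2 : ∃ x y : B, x ∈ n ∧ y ∈ n ∧
      ∀ v ∈ n, ∃ s : B, s ∉ n ∧ ∃ a b : B, s * v = a * x + b * y)
    (V : ValuationSubring F) (hBV : ∀ x ∈ B, x ∈ V) (hπV : (algebraMap R F π)⁻¹ ∉ V)
    (hmax : ∀ x ∈ V, x⁻¹ ∉ V → (algebraMap R F π)⁻¹ * x ∈ V)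
    (hsat : ∀ x ∈ B, (algebraMap R F π)⁻¹ * x ∈ V → (algebraMap R F π)⁻¹ * x ∈ B)
    (hKr : ∀ x : F, (∀ O : ValuationSubring F, s34i47_IsHoriz π O → s34i47_Through B n O →
        x ∈ O) → ∃ s : B, s ∉ n ∧ ∃ k : ℕ, algebraMap R F π ^ k * ((s : F) * x) ∈ B)
    (m : ℕ) (hm : 0 < m) (f : B) (hfV : ((f : B) : F)⁻¹ ∈ V)
    (hOrd : ∀ O : ValuationSubring F, s34i47_IsHoriz π O → s34i47_Through B n O →
      ∃ ε w : F, ε ∈ O ∧ ε⁻¹ ∈ O ∧ (f : F) = ε * w ^ m)
    (hFin : {O : ValuationSubring F | s34i47_IsHoriz π O ∧ s34i47_Through B n O ∧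
      ¬ ((f : F) ∈ O ∧ (f : F)⁻¹ ∈ O)}.Finite) :
    ∃ a s t y : B, a ∉ n ∧ s ∉ n ∧ t ∉ n ∧ t ^ m * s * f = a * y ^ m := by
  classical
  have h1n : (1 : B) ∉ n := (Ideal.ne_top_iff_one n).mp hn.ne_top
  by_cases hf0 : (f : F) = 0
  · refine ⟨1, 1, 1, 0, h1n, h1n, h1n, ?_⟩
    have : f = 0 := Subtype.ext (by rw [hf0]; rfl)
    rw [this, zero_pow hm.ne']; ring
  set P : F := algebraMap R F π with hPdef
  have hPV : P ∈ V := hBV _ (B.algebraMap_mem π)
  obtain ⟨c₀, hc₀, hc⟩ := rp28_locPrin_at π hπ0 B hfrac n hn hπn h2 m hm (f : F) hf0 hOrd hFin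
  have hcm : c₀ ^ m ≠ 0 := pow_ne_zero _ hc₀
  -- elements outside `n` are units of `V`
  have hunitV : ∀ x : B, x ∉ n → (x : F)⁻¹ ∈ V := by
    intro x hx
    by_contra h
    have h1 := hmax _ (hBV _ x.2) h
    have h2' := hsat _ x.2 h1
    apply hx
    have : x = algebraMap R B π * ⟨_, h2'⟩ := Subtype.ext (by
      show (x : F) = P * (P⁻¹ * (x : F))
      rw [← mul_assoc, mul_inv_cancel₀ hπ0, one_mul])
    rw [this]
    exact n.mul_mem_right _ hπn
  have hne0 : ∀ x : B, x ∉ n → (x : F) ≠ 0 := by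
    intro x hx h0
    apply hx
    have : x = 0 := Subtype.ext (by rw [h0]; rfl)
    rw [this]; exact n.zero_mem
  -- Krull for `w₀ = f / c₀ ^ m` and its inverse
  obtain ⟨s₁, hs₁, k₁, hk₁⟩ := hKr ((f : F) / c₀ ^ m) (fun O hO hOn => (hc O hO hOn).1)
  obtain ⟨s₂, hs₂, k₂, hk₂⟩ := hKr (c₀ ^ m / (f : F)) (fun O hO hOn => (hc O hO hOn).2)
  have hprod : ((⟨_, hk₁⟩ : B) : F) * ((⟨_, hk₂⟩ : B) : F) =
      P ^ (k₁ + k₂) * ((s₁ * s₂ : B) : F) := by
    show P ^ k₁ * ((s₁ : F) * ((f : F) / c₀ ^ m)) * (P ^ k₂ * ((s₂ : F) * (c₀ ^ m / (f : F)))) =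
      P ^ (k₁ + k₂) * ((s₁ : F) * (s₂ : F))
    rw [pow_add]
    field_simp
  obtain ⟨i, -, a', ha', hai⟩ := rp28_split π hπ0 B n V hBV hπV hmax hsat (k₁ + k₂)
    ⟨_, hk₁⟩ ⟨_, hk₂⟩ (s₁ * s₂) (fun h => (hn.isPrime.mem_or_mem h).elim hs₁ hs₂) hprod
  have hai' : P ^ k₁ * ((s₁ : F) * ((f : F) / c₀ ^ m)) = P ^ i * (a' : F) := hai
  have ha'0 : (a' : F) ≠ 0 := hne0 a' ha'
  have hs₁0 : (s₁ : F) ≠ 0 := hne0 s₁ hs₁
  -- the `V`-unit `g = s₁ f / a'`
  set g : F := (s₁ : F) * (f : F) / (a' : F) with hg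
  have hg0 : g ≠ 0 := div_ne_zero (mul_ne_zero hs₁0 hf0) ha'0
  have hgV : g ∈ V := by
    rw [hg, div_eq_mul_inv]
    exact V.mul_mem _ _ (V.mul_mem _ _ (hBV _ s₁.2) (hBV _ f.2)) (hunitV a' ha')
  have hgV' : g⁻¹ ∈ V := by
    have : g⁻¹ = (a' : F) * ((s₁ : F)⁻¹ * (f : F)⁻¹) := by
      rw [hg]; field_simp
    rw [this]
    exact V.mul_mem _ _ (hBV _ a'.2) (V.mul_mem _ _ (hunitV s₁ hs₁) hfV)
  -- `c₀ ^ m = P ^ (k₁ - i) * g`
  have hc₀g : c₀ ^ m = P ^ ((k₁ : ℤ) - (i : ℤ)) * g := by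
    rw [zpow_sub₀ hπ0, zpow_natCast, zpow_natCast, hg]
    have hPi : P ^ i ≠ 0 := pow_ne_zero _ hπ0
    have h5 : P ^ k₁ * ((s₁ : F) * (f : F)) = P ^ i * (a' : F) * c₀ ^ m := by
      rw [← hai']
      field_simp
    rw [div_mul_div_comm, eq_div_iff (mul_ne_zero hPi ha'0)]
    linear_combination (-1 : F) * h5
  -- `m ∣ k₁ - i`
  set Nz : ℤ := (k₁ : ℤ) - (i : ℤ) with hNz
  have hmz : (0 : ℤ) < (m : ℤ) := by exact_mod_cast hm
  set tq : ℤ := Nz / (m : ℤ) with htq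
  set r : ℤ := Nz % (m : ℤ) with hr
  have hr0 : 0 ≤ r := Int.emod_nonneg _ hmz.ne'
  have hrm : r < (m : ℤ) := Int.emod_lt_of_pos _ hmz
  have hNr : Nz = (m : ℤ) * tq + r := (Int.mul_ediv_add_emod Nz (m : ℤ)).symm
  set x : F := c₀ * P ^ (-tq) with hx
  have hxm : x ^ m = P ^ r * g := by
    rw [hx, mul_pow, hc₀g, ← zpow_natCast (P ^ (-tq)) m, ← zpow_mul, hNr]
    rw [show (m : ℤ) * tq + r = r + (-(-tq * (m : ℤ))) by ring, zpow_add₀ hπ0, zpow_neg]
    have : P ^ (-tq * (m : ℤ)) ≠ 0 := zpow_ne_zero _ hπ0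
    field_simp
  have hrzero : r = 0 := by
    by_contra hrne
    have hr1 : 1 ≤ r := by omega
    -- `P⁻¹ ∈ V` in both cases
    apply hπV
    by_cases hxinv : x⁻¹ ∈ V
    · have h1 : (x⁻¹) ^ m * g * P ^ (r - 1) ∈ V := by
        refine V.mul_mem _ _ (V.mul_mem _ _ (pow_mem hxinv m) hgV) ?_
        obtain ⟨j, hj⟩ := Int.eq_ofNat_of_zero_le (show 0 ≤ r - 1 by omega)
        rw [hj, zpow_natCast]
        exact pow_mem hPV j
      have h2 : (x⁻¹) ^ m * g * P ^ (r - 1) = P⁻¹ := by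
        rw [inv_pow, hxm, zpow_sub₀ hπ0, zpow_one]
        have : P ^ r ≠ 0 := zpow_ne_zero _ hπ0
        field_simp
      rw [← h2]
      exact h1
    · have hxV : x ∈ V := (V.mem_or_inv_mem x).resolve_right hxinv
      have h1 := hmax x hxV hxinv
      have h3 : (P⁻¹ * x) ^ m * g⁻¹ * P ^ ((m : ℤ) - r - 1) ∈ V := by
        refine V.mul_mem _ _ (V.mul_mem _ _ (pow_mem h1 m) hgV') ?_
        obtain ⟨j, hj⟩ := Int.eq_ofNat_of_zero_le (show 0 ≤ (m : ℤ) - r - 1 by omega)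
        rw [hj, zpow_natCast]
        exact pow_mem hPV j
      have h4 : (P⁻¹ * x) ^ m * g⁻¹ * P ^ ((m : ℤ) - r - 1) = P⁻¹ := by
        rw [mul_pow, hxm, zpow_sub₀ hπ0, zpow_sub₀ hπ0, zpow_one, zpow_natCast, inv_pow]
        have : P ^ r ≠ 0 := zpow_ne_zero _ hπ0
        have : P ^ m ≠ 0 := pow_ne_zero _ hπ0
        field_simp
      rw [← h4]
      exact h3
  have hxg : x ^ m = g := by rw [hxm, hrzero, zpow_zero, one_mul]
  have hx0 : x ≠ 0 := by
    intro h0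
    apply hg0
    rw [← hxg, h0, zero_pow hm.ne']
  -- `x ∈ V` and `x ∈ O` for the horizontal `O` through `n`
  have hxV : x ∈ V := rp28_mem_of_pow_mem V m hm x (by rw [hxg]; exact hgV)
  have hxO : ∀ O : ValuationSubring F, s34i47_IsHoriz π O → s34i47_Through B n O → x ∈ O := by
    intro O hO hOn
    apply rp28_mem_of_pow_mem O m hm x
    rw [hxg, hg, div_eq_mul_inv]
    exact O.mul_mem _ _ (O.mul_mem _ _ (hOn.1 _ s₁.2) (hOn.1 _ f.2)) (hOn.2 a' ha')
  obtain ⟨s₃, hs₃, k₃, hk₃⟩ := hKr x hxO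
  have hdesc : ∀ k : ℕ, P ^ k * ((s₃ : F) * x) ∈ B → (s₃ : F) * x ∈ B := by
    intro k
    induction k with
    | zero => intro h; simpa using h
    | succ k ih =>
      intro h
      apply ih
      have he : P ^ k * ((s₃ : F) * x) = P⁻¹ * (P ^ (k + 1) * ((s₃ : F) * x)) := by
        rw [pow_succ]; field_simp
      rw [he]
      apply hsat _ h
      rw [← he]
      exact V.mul_mem _ _ (pow_mem hPV k) (V.mul_mem _ _ (hBV _ s₃.2) hxV)
  have hyB : (s₃ : F) * x ∈ B := hdesc k₃ hk₃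
  refine ⟨a', s₁, s₃, ⟨_, hyB⟩, ha', hs₁, hs₃, Subtype.ext ?_⟩
  show (s₃ : F) ^ m * (s₁ : F) * (f : F) = (a' : F) * ((s₃ : F) * x) ^ m
  rw [mul_pow, hxg, hg]
  field_simp

end RP28

/-- **Transport**: under a ring hom inverting the elements outside `n`, the relation of
`rp28_unit_pow` reads `φ f = unit * c ^ m`. -/
theorem rp28_map_unit_pow {B O : Type*} [CommRing B] [CommRing O] (φ : B →+* O) (n : Ideal B)
    (hφ : ∀ x : B, x ∉ n → IsUnit (φ x)) (m : ℕ) (f a s t y : B)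
    (ha : a ∉ n) (hs : s ∉ n) (ht : t ∉ n) (h : t ^ m * s * f = a * y ^ m) :
    ∃ (w : Oˣ) (c : O), φ f = w * c ^ m := by
  obtain ⟨ua, hua⟩ := hφ a ha
  obtain ⟨us, hus⟩ := hφ s hs
  obtain ⟨ut, hut⟩ := hφ t ht
  have h' : φ t ^ m * φ s * φ f = φ a * φ y ^ m := by
    rw [← map_pow, ← map_mul, ← map_mul, h, map_mul, map_pow]
  refine ⟨ua * us⁻¹, (ut⁻¹ : Oˣ) * φ y, ?_⟩
  have e1 : φ f = ((us⁻¹ : Oˣ) : O) * ((ut⁻¹ : Oˣ) : O) ^ m * (φ t ^ m * φ s * φ f) := by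
    rw [← hut, ← hus]
    have h1 : ((ut⁻¹ : Oˣ) : O) ^ m * (ut : O) ^ m = 1 := by
      rw [← mul_pow, Units.inv_mul, one_pow]
    have h2 : ((us⁻¹ : Oˣ) : O) * (us : O) = 1 := Units.inv_mul us
    calc φ f = (((us⁻¹ : Oˣ) : O) * (us : O)) * (((ut⁻¹ : Oˣ) : O) ^ m * (ut : O) ^ m) * φ f := by
          rw [h1, h2, one_mul, one_mul]
      _ = _ := by ring
  rw [e1, h', ← hua]
  push_cast
  ring

/-- The same in a discrete valuation ring: `m ∣ ord (φ f)`. -/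
theorem rp28_dvd_addVal {B O : Type*} [CommRing B] [CommRing O] [IsDomain O]
    [IsDiscreteValuationRing O] (φ : B →+* O) (n : Ideal B)
    (hφ : ∀ x : B, x ∉ n → IsUnit (φ x)) (m : ℕ) (f a s t y : B)
    (ha : a ∉ n) (hs : s ∉ n) (ht : t ∉ n) (h : t ^ m * s * f = a * y ^ m) :
    ∃ e : ℕ∞, IsDiscreteValuationRing.addVal O (φ f) = (m : ℕ∞) * e := by
  obtain ⟨w, c, hwc⟩ := rp28_map_unit_pow φ n hφ m f a s t y ha hs ht h
  refine ⟨IsDiscreteValuationRing.addVal O c, ?_⟩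
  rw [hwc, AddValuation.map_mul, IsDiscreteValuationRing.addVal_eq_zero_of_unit, zero_add,
    AddValuation.map_pow, nsmul_eq_mul]

end Fermat.Agent.S36
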