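import Fermat.Agent.S36.RigidSpecOrd96
import Fermat.Agent.S34.BranchInf93
import Fermat.Agent.S34.Krull65
import Fermat.Agent.S34.FrameSat85

/-!
# S36 lab (helper96), row 599 complement: `J = unit * c ^ 3`, `J - 1728 = unit * c ^ 2` in the
local rings of the GOOD-level charts at a level without elliptic points

Binding of `rs96_spec_chart` (RigidSpec96) to the charts `pk15_chart R {h}`, `pk15_chart R {h⁻¹}`
of a good level `M` (`M` a unit of `R`, `h` the Hauptmodul of level `2` or `3`):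

* `rsb96_two_gen` : a chart with Dedekind special fibre is 2-generated at every closed point of
  the special fibre (`n B_n = (z, π)`), in the `h2` shape of `rs96_spec` / `lpz9_locPrin_at`.
* `rsb96_spec` : `rs96_spec_chart` for a chart `pk15_chart R s` with Dedekind special fibre
  (2-generation from `rsb96_two_gen`, the Krull clause from `kr65_krull`), `f` regular at `n`.
* `rsb96_gauss` : the same over the Gauss valuation ring `cm85_Vinf M` of `F_K(M)`, from "every
  zero of `f` on `F_K(M) / K` has order exactly `m`".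
* `rsb96_J_unit`, `rsb96_J1728_unit` : `J` and `J - 1728` are units of `cm85_Vinf M`.
* `rsb96_J`, `rsb96_J1728` : at a closed point `n` of the special fibre of a chart at which `J`
  is regular: `s * J = a * b ^ 3` if `ν₃(M) = 0`, `s * (J - 1728) = a * b ^ 2` if `ν₂(M) = 0`,
  with `s, a ∉ n`, and `b ∈ n` if the function vanishes at `n`.

Reduced modulo `π` this is the input `jbar - j0 = unit * c ^ e0` of the `U`-route for
`kappa = 1` at the nodes over `j = 0, 1728`.  All names are prefixed `rsb96_`.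
-/

set_option autoImplicit false
set_option linter.unusedSectionVars false
set_option linter.style.haveILetI false

open ModularCurve AlgebraicCurve

namespace Fermat.Agent.S36

open Fermat.Agent.S18 Fermat.Agent.S24 Fermat.Agent.S34

local notation "Qb" => AlgebraicClosure ℚ

section rsb96_abs

variable {R F : Type*} [CommRing R] [Field F] [Algebra R F]

/-- A chart with Dedekind special fibre is 2-generated at the closed points of the special
fibre: `n B_n = (z, π)`. -/
theorem rsb96_two_gen (π : R) (B : Subalgebra R F)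
    [IsDedekindDomain (B ⧸ Ideal.span {algebraMap R B π})]
    (n : Ideal B) (hn : n.IsMaximal) (hπn : algebraMap R B π ∈ n) :
    ∃ x y : B, x ∈ n ∧ y ∈ n ∧
      ∀ v ∈ n, ∃ s : B, s ∉ n ∧ ∃ a b : B, s * v = a * x + b * y := by
  haveI : n.IsPrime := hn.isPrime
  have hle : Ideal.span {algebraMap R B π} ≤ n := by
    rw [Ideal.span_le, Set.singleton_subset_iff]
    exact hπn
  obtain ⟨z, hz, hun⟩ := ls63_unif_of_dedekind (Ideal.span {algebraMap R B π}) n hle
  refine ⟨z, algebraMap R B π, hz, hπn, fun v hv => ?_⟩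
  obtain ⟨s, hs, a, ha⟩ := hun v hv
  obtain ⟨b, hb⟩ := Ideal.mem_span_singleton'.mp ha
  exact ⟨s, hs, a, b, by linear_combination (-1 : ↥B) * hb⟩

/-- `rs96_spec_chart` for a chart `pk15_chart R s` with Dedekind special fibre and a function
`f` regular at `n`. -/
theorem rsb96_spec (π : R) (hπ0 : algebraMap R F π ≠ 0) (s : Set F)
    [IsNoetherianRing (pk15_chart R s)]
    [IsDedekindDomain (pk15_chart R s ⧸ Ideal.span {algebraMap R (pk15_chart R s) π})]
    (hfrac : ∀ t : F, ∃ a ∈ pk15_chart R s, ∃ b ∈ pk15_chart R s, b ≠ 0 ∧ t * b = a)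
    (V : ValuationSubring F) (hBV : ∀ x ∈ pk15_chart R s, x ∈ V)
    (hsat : ∀ x ∈ pk15_chart R s, (algebraMap R F π)⁻¹ * x ∈ V →
      (algebraMap R F π)⁻¹ * x ∈ pk15_chart R s)
    (hmax : ∀ x ∈ V, x⁻¹ ∉ V → (algebraMap R F π)⁻¹ * x ∈ V)
    (harch : ∀ x : F, x ≠ 0 → ∃ k : ℕ, (algebraMap R F π ^ k)⁻¹ * x ∉ V)
    (n : Ideal (pk15_chart R s)) (hn : n.IsMaximal)
    (hπn : algebraMap R (pk15_chart R s) π ∈ n)
    (m : ℕ) (hm : 0 < m) (f : F) (hf : f ≠ 0) (hfV : f ∈ V) (hfV' : f⁻¹ ∈ V)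
    (hreg : ∃ t : pk15_chart R s, t ∉ n ∧ (t : F) * f ∈ pk15_chart R s)
    (hOrd : ∀ O : ValuationSubring F, s34i47_IsHoriz π O → f ∈ O →
      ∃ ε w : F, ε ∈ O ∧ ε⁻¹ ∈ O ∧ f = ε * w ^ m)
    (hFin : {O : ValuationSubring F | s34i47_IsHoriz π O ∧ ¬ (f ∈ O ∧ f⁻¹ ∈ O)}.Finite) :
    ∃ s' a b : pk15_chart R s, s' ∉ n ∧ a ∉ n ∧ (s' : F) * f = (a : F) * (b : F) ^ m ∧
      ((∃ t g : pk15_chart R s, t ∉ n ∧ g ∈ n ∧ (t : F) * f = g) → b ∈ n) := by
  have hfO : ∀ O : ValuationSubring F, s34i47_IsHoriz π O →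
      s34i47_Through (pk15_chart R s) n O → f ∈ O := by
    intro O _ hOn
    obtain ⟨t, ht, htf⟩ := hreg
    have ht0 : (t : F) ≠ 0 := by
      intro h0
      apply ht
      have : t = 0 := Subtype.ext h0
      rw [this]
      exact n.zero_mem
    have he : f = (t : F)⁻¹ * ((t : F) * f) := by
      field_simp
    rw [he]
    exact O.mul_mem _ _ (hOn.2 t ht) (hOn.1 _ htf)
  have hKr := kr65_krull π hπ0 (pk15_chart R s) (kr65_chart_closed s) hfrac n hn hπn
  exact rs96_spec_chart π hπ0 (pk15_chart R s) hfrac V hBV hsat hmax harch n hn hπn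
    (rsb96_two_gen π (pk15_chart R s) n hn hπn) hKr m hm f hf hfV hfV' hfO
    (fun O hO hOn => hOrd O hO (hfO O hO hOn))
    (hFin.subset fun O hO => ⟨hO.1, hO.2.2⟩)

end rsb96_abs

section rsb96_gauss

variable {R K : Type} [CommRing R] [IsDomain R] [IsDiscreteValuationRing R] [Field K]
  [NumberField K] [Algebra K Qb] [Algebra R K] [IsFractionRing R K] (M : ℕ) [NeZero M]
  [Algebra R ↥(modularFunctionFieldFullC K M)]
  [IsScalarTower R K ↥(modularFunctionFieldFullC K M)]

/-- The specialisation lemma over the Gauss valuation ring of `F_K(M)`: a chart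
`pk15_chart R s ⊆ V_∞`, saturated, noetherian, with fraction field `F_K(M)` and Dedekind special
fibre; `f` a unit of `V_∞`, regular at the closed point `n`, all of whose zeros on
`F_K(M) / K` have order exactly `m`.  Then `s' * f = a * b ^ m` with `s', a ∉ n`. -/
theorem rsb96_gauss {π : R} (hπ : Irreducible π)
    (s : Set ↥(modularFunctionFieldFullC K M))
    (hsV : ∀ g ∈ s, g ∈ cm85_Vinf (K := K) M hπ)
    (hN : IsNoetherianRing (pk15_chart R s))
    (hD : IsDedekindDomain (pk15_chart R s ⧸ Ideal.span {algebraMap R (pk15_chart R s) π}))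
    (hfrac : ∀ t : ↥(modularFunctionFieldFullC K M),
      ∃ a ∈ pk15_chart R s, ∃ b ∈ pk15_chart R s, b ≠ 0 ∧ t * b = a)
    (hsat : cm15_Sat R π s (cm85_Vinf (K := K) M hπ).toSubring)
    (n : Ideal (pk15_chart R s)) (hn : n.IsMaximal)
    (hπn : algebraMap R (pk15_chart R s) π ∈ n)
    (m : ℕ) (hm : 0 < m) (f : ↥(modularFunctionFieldFullC K M)) (hf : f ≠ 0)
    (hfV : f ∈ cm85_Vinf (K := K) M hπ) (hfV' : f⁻¹ ∈ cm85_Vinf (K := K) M hπ)
    (hreg : ∃ t : pk15_chart R s, t ∉ n ∧
      (t : ↥(modularFunctionFieldFullC K M)) * f ∈ pk15_chart R s)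
    (hord : ∀ P : Place K ↥(modularFunctionFieldFullC K M), 0 < P.ord f → P.ord f = m) :
    ∃ s' a b : pk15_chart R s, s' ∉ n ∧ a ∉ n ∧
      (s' : ↥(modularFunctionFieldFullC K M)) * f =
        (a : ↥(modularFunctionFieldFullC K M)) * (b : ↥(modularFunctionFieldFullC K M)) ^ m ∧
      ((∃ t g : pk15_chart R s, t ∉ n ∧ g ∈ n ∧
        (t : ↥(modularFunctionFieldFullC K M)) * f = g) → b ∈ n) := by
  haveI := hN
  haveI := hD
  have hconv : ∀ r : R, algebraMap R ↥(modularFunctionFieldFullC K M) r =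
      algebraMap K ↥(modularFunctionFieldFullC K M) (algebraMap R K r) :=
    fun r => IsScalarTower.algebraMap_apply R K ↥(modularFunctionFieldFullC K M) r
  have hπ0 : algebraMap R ↥(modularFunctionFieldFullC K M) π ≠ 0 := by
    rw [hconv]
    intro h0
    have h1 : algebraMap R K π = 0 :=
      (map_eq_zero (algebraMap K ↥(modularFunctionFieldFullC K M))).mp h0
    exact hπ.ne_zero ((map_eq_zero_iff _ (IsFractionRing.injective R K)).mp h1)
  have hRV : ∀ r : R, algebraMap R ↥(modularFunctionFieldFullC K M) r ∈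
      cm85_Vinf (K := K) M hπ := pk85_hRV M hπ
  have hmax : ∀ x ∈ cm85_Vinf (K := K) M hπ, x⁻¹ ∉ cm85_Vinf (K := K) M hπ →
      (algebraMap R ↥(modularFunctionFieldFullC K M) π)⁻¹ * x ∈ cm85_Vinf (K := K) M hπ := by
    intro x hx hx'
    rw [hconv]
    exact gv85_hmax (IsLocalRing.residue R) π (pk85_res_iff hπ) hπ.ne_zero _ _ x hx hx'
  have harch : ∀ x : ↥(modularFunctionFieldFullC K M), x ≠ 0 →
      ∃ k : ℕ, (algebraMap R ↥(modularFunctionFieldFullC K M) π ^ k)⁻¹ * x ∉
        cm85_Vinf (K := K) M hπ := by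
    intro x hx
    obtain ⟨k, hk⟩ := fs85_harch (K := K) M hπ x hx
    exact ⟨k, by rw [hconv]; exact hk⟩
  exact rsb96_spec π hπ0 s hfrac (cm85_Vinf (K := K) M hπ)
    (pk15_chart_le_V _ hRV s hsV) hsat hmax harch n hn hπn m hm f hf hfV hfV' hreg
    (fun O hO hfO => rso96_localOrd (K := K) hπ m f hf hord O hO hfO)
    ((ca57_fin (K := K) hπ f (fs75_finSupp M K f hf)).subset fun O hO => hO)

/-- A function with `R`-integral `q`-expansion whose reduction is nonzero is a unit of the Gauss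
valuation ring. -/
theorem rsb96_gauss_unit {π : R} (hπ : Irreducible π) (x : ↥(modularFunctionFieldFullC K M))
    (y : LaurentSeries R) (hxy : (x : LaurentSeries K) = coeffMap (algebraMap R K) y)
    (hy : coeffMap (IsLocalRing.residue R) y ≠ 0) :
    x ∈ cm85_Vinf (K := K) M hπ ∧ x⁻¹ ∈ cm85_Vinf (K := K) M hπ := by
  have hconv : ∀ r : R, algebraMap R ↥(modularFunctionFieldFullC K M) r =
      algebraMap K ↥(modularFunctionFieldFullC K M) (algebraMap R K r) :=
    fun r => IsScalarTower.algebraMap_apply R K ↥(modularFunctionFieldFullC K M) r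
  obtain ⟨h1, h2⟩ := pk85_gauss M hπ x y hxy
  refine ⟨h1, ?_⟩
  by_contra hinv
  have h3 : (algebraMap R ↥(modularFunctionFieldFullC K M) π)⁻¹ * x ∈
      cm85_Vinf (K := K) M hπ := by
    rw [hconv]
    exact gv85_hmax (IsLocalRing.residue R) π (pk85_res_iff hπ) hπ.ne_zero _ _ x h1 hinv
  exact hy (h2.mp h3)

/-- `J` is a unit of the Gauss valuation ring. -/
theorem rsb96_J_unit {π : R} (hπ : Irreducible π) :
    relimc_J K M ∈ cm85_Vinf (K := K) M hπ ∧ (relimc_J K M)⁻¹ ∈ cm85_Vinf (K := K) M hπ := by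
  refine rsb96_gauss_unit M hπ (relimc_J K M) (jqModC R) ?_ ?_
  · rw [relimc_J_coe, coeffMap_jqModC]
  · rw [coeffMap_jqModC]
    intro h0
    exact relimc_jqModC_transcendental (IsLocalRing.ResidueField R) (by rw [h0]; exact isAlgebraic_zero)

/-- `J - 1728` is a unit of the Gauss valuation ring. -/
theorem rsb96_J1728_unit {π : R} (hπ : Irreducible π) :
    relimc_J K M - 1728 ∈ cm85_Vinf (K := K) M hπ ∧
      (relimc_J K M - 1728)⁻¹ ∈ cm85_Vinf (K := K) M hπ := by
  refine rsb96_gauss_unit M hπ (relimc_J K M - 1728) (jqModC R - 1728) ?_ ?_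
  · have h1 : ((relimc_J K M - 1728 : ↥(modularFunctionFieldFullC K M)) : LaurentSeries K) =
        jqModC K - 1728 := by
      have h2 : ((1728 : ↥(modularFunctionFieldFullC K M)) : LaurentSeries K) = 1728 :=
        map_ofNat (algebraMap ↥(modularFunctionFieldFullC K M) (LaurentSeries K)) 1728
      rw [← relimc_J_coe (k := K) (N := M), ← h2]
      rfl
    rw [h1, map_sub, coeffMap_jqModC, map_ofNat]
  · rw [map_sub, coeffMap_jqModC, map_ofNat]
    intro h0
    apply relimc_jqModC_transcendental (IsLocalRing.ResidueField R)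
    have h1 : jqModC (IsLocalRing.ResidueField R) =
        algebraMap (IsLocalRing.ResidueField R) (LaurentSeries (IsLocalRing.ResidueField R))
          1728 := by
      rw [map_ofNat]
      exact sub_eq_zero.mp h0
    rw [h1]
    exact isAlgebraic_algebraMap _

/-- **`J = unit * c ^ 3` at the closed points of a good-level chart, `ν₃(M) = 0`.** -/
theorem rsb96_J {π : R} (hπ : Irreducible π) (hν : nuThree M = 0)
    (s : Set ↥(modularFunctionFieldFullC K M))
    (hsV : ∀ g ∈ s, g ∈ cm85_Vinf (K := K) M hπ)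
    (hN : IsNoetherianRing (pk15_chart R s))
    (hD : IsDedekindDomain (pk15_chart R s ⧸ Ideal.span {algebraMap R (pk15_chart R s) π}))
    (hfrac : ∀ t : ↥(modularFunctionFieldFullC K M),
      ∃ a ∈ pk15_chart R s, ∃ b ∈ pk15_chart R s, b ≠ 0 ∧ t * b = a)
    (hsat : cm15_Sat R π s (cm85_Vinf (K := K) M hπ).toSubring)
    (n : Ideal (pk15_chart R s)) (hn : n.IsMaximal)
    (hπn : algebraMap R (pk15_chart R s) π ∈ n)
    (hreg : ∃ t : pk15_chart R s, t ∉ n ∧
      (t : ↥(modularFunctionFieldFullC K M)) * relimc_J K M ∈ pk15_chart R s) :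
    ∃ s' a b : pk15_chart R s, s' ∉ n ∧ a ∉ n ∧
      (s' : ↥(modularFunctionFieldFullC K M)) * relimc_J K M =
        (a : ↥(modularFunctionFieldFullC K M)) * (b : ↥(modularFunctionFieldFullC K M)) ^ 3 ∧
      ((∃ t g : pk15_chart R s, t ∉ n ∧ g ∈ n ∧
        (t : ↥(modularFunctionFieldFullC K M)) * relimc_J K M = g) → b ∈ n) :=
  rsb96_gauss M hπ s hsV hN hD hfrac hsat n hn hπn 3 (by norm_num) (relimc_J K M)
    (fun h => relimc_J_transcendental K M (by rw [h]; exact isAlgebraic_zero))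
    (rsb96_J_unit M hπ).1 (rsb96_J_unit M hπ).2 hreg
    (fun P hP => by rw [rso96_ord_J K M hν P hP]; rfl)

/-- **`J - 1728 = unit * c ^ 2` at the closed points of a good-level chart, `ν₂(M) = 0`.** -/
theorem rsb96_J1728 {π : R} (hπ : Irreducible π) (hν : nuTwo M = 0)
    (s : Set ↥(modularFunctionFieldFullC K M))
    (hsV : ∀ g ∈ s, g ∈ cm85_Vinf (K := K) M hπ)
    (hN : IsNoetherianRing (pk15_chart R s))
    (hD : IsDedekindDomain (pk15_chart R s ⧸ Ideal.span {algebraMap R (pk15_chart R s) π}))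
    (hfrac : ∀ t : ↥(modularFunctionFieldFullC K M),
      ∃ a ∈ pk15_chart R s, ∃ b ∈ pk15_chart R s, b ≠ 0 ∧ t * b = a)
    (hsat : cm15_Sat R π s (cm85_Vinf (K := K) M hπ).toSubring)
    (n : Ideal (pk15_chart R s)) (hn : n.IsMaximal)
    (hπn : algebraMap R (pk15_chart R s) π ∈ n)
    (hreg : ∃ t : pk15_chart R s, t ∉ n ∧
      (t : ↥(modularFunctionFieldFullC K M)) * (relimc_J K M - 1728) ∈ pk15_chart R s) :
    ∃ s' a b : pk15_chart R s, s' ∉ n ∧ a ∉ n ∧
      (s' : ↥(modularFunctionFieldFullC K M)) * (relimc_J K M - 1728) =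
        (a : ↥(modularFunctionFieldFullC K M)) * (b : ↥(modularFunctionFieldFullC K M)) ^ 2 ∧
      ((∃ t g : pk15_chart R s, t ∉ n ∧ g ∈ n ∧
        (t : ↥(modularFunctionFieldFullC K M)) * (relimc_J K M - 1728) = g) → b ∈ n) := by
  have hne : relimc_J K M - 1728 ≠ 0 := by
    intro h
    apply relimc_J_transcendental K M
    have h1 : relimc_J K M = algebraMap K ↥(modularFunctionFieldFullC K M) 1728 := by
      rw [map_ofNat]
      exact sub_eq_zero.mp h
    rw [h1]
    exact isAlgebraic_algebraMap _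
  exact rsb96_gauss M hπ s hsV hN hD hfrac hsat n hn hπn 2 (by norm_num) (relimc_J K M - 1728)
    hne (rsb96_J1728_unit M hπ).1 (rsb96_J1728_unit M hπ).2 hreg
    (fun P hP => by rw [rso96_ord_J1728 K M hν P hP]; rfl)

end rsb96_gauss

end Fermat.Agent.S36
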