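import Fermat.Agent.S36.RigidOrd27
import Fermat.Agent.S36.RigidSpec96
import Fermat.Agent.S18.ConstExtModular25
import Fermat.Agent.S18.LPTwoChart7
import Fermat.Agent.S18.HorizGeom94b
import Fermat.Agent.S34.CoreAsm57
import Fermat.Agent.S34.FinSupp75
import Fermat.Agent.S34.PlaceDatum69

/-!
# S36 lab (helper96), row 599 complement: the characteristic-0 input of `rs96_spec` at a level
without elliptic points

`K` a field of characteristic `0` inside `ℚ̄`, `N` a level, `J = relimc_J K N` the function `j`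
in `F_K(N) = modularFunctionFieldFullC K N`.

* `rso96_ord_J` : if `nuThree N = 0`, every zero of `J` at a place of `F_K(N) / K` has order
  exactly `3`; `rso96_ord_J1728` : if `nuTwo N = 0`, every zero of `J - 1728` has order exactly `2`
  (from `ro27_modular_ord` over `ℚ̄` and the constant field extension `cx_modular_place_exists`).
* `rso96_localOrd` : the LOCAL `Ord` hypothesis of `rs96_spec` (valuation-subring form
  `f = ε * w ^ m` at a horizontal `O` along which `f` is regular) from "every zero has order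
  exactly `m`".
* `rso96_fin` : the finiteness hypothesis of `rs96_spec`.
* `rso96_localOrd_J`, `rso96_localOrd_J1728` : the two instances.

All names are prefixed `rso96_`.
-/

set_option autoImplicit false

open ModularCurve AlgebraicCurve

namespace Fermat.Agent.S36

open Fermat.Agent.S18 Fermat.Agent.S24 Fermat.Agent.S34

local notation "Qb" => AlgebraicClosure ℚ

section rso96_char0

variable (K0 : Type) [Field K0] [CharZero K0] [Algebra K0 Qb] (N : ℕ) [NeZero N]

/-- The constant field extension maps `J` to `j = JJ 1`. -/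
theorem rso96_iota_J :
    cx_iota K0 N (relimc_J K0 N) =
      (⟨JJ 1, asmAb_JJ_mem N 1 (one_dvd N)⟩ : ↥(modularFunctionFieldBar N)) := by
  apply Subtype.ext
  rw [cx_iota_coe, relimc_J_coe, coeffMap_jqModC]
  exact g94_JJ_one.symm

/-- At a level with `ν₃ = 0` every zero of `J` on `F_K(N) / K` has order exactly `3`. -/
theorem rso96_ord_J (hν : nuThree N = 0) (P : Place K0 ↥(modularFunctionFieldFullC K0 N))
    (hpos : 0 < P.ord (relimc_J K0 N)) : P.ord (relimc_J K0 N) = 3 := by
  obtain ⟨P', hP'⟩ := cx_modular_place_exists (cx_iota K0 N) (cx_iota_coe K0 N) P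
  have h := (ro27_modular_ord N).1 hν P'
  rw [← rso96_iota_J K0 N, hP'] at h
  exact h hpos

/-- At a level with `ν₂ = 0` every zero of `J - 1728` on `F_K(N) / K` has order exactly `2`. -/
theorem rso96_ord_J1728 (hν : nuTwo N = 0) (P : Place K0 ↥(modularFunctionFieldFullC K0 N))
    (hpos : 0 < P.ord (relimc_J K0 N - 1728)) : P.ord (relimc_J K0 N - 1728) = 2 := by
  obtain ⟨P', hP'⟩ := cx_modular_place_exists (cx_iota K0 N) (cx_iota_coe K0 N) P
  have h := (ro27_modular_ord N).2 hν P'
  have he : cx_iota K0 N (relimc_J K0 N - 1728) =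
      (⟨JJ 1, asmAb_JJ_mem N 1 (one_dvd N)⟩ : ↥(modularFunctionFieldBar N)) -
        algebraMap Kbar ↥(modularFunctionFieldBar N) 1728 := by
    rw [map_sub, rso96_iota_J, map_ofNat, map_ofNat]
  rw [← he, hP'] at h
  exact h hpos

end rso96_char0

section rso96_frame

variable {R K F : Type*} [CommRing R] [IsDomain R] [IsDiscreteValuationRing R] [Field K]
  [Algebra R K] [IsFractionRing R K] [Field F] [Algebra R F] [Algebra K F] [IsScalarTower R K F]

/-- **Local `Ord`.**  If every zero of `f` on `F / K` has order exactly `m`, then at every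
horizontal `O` along which `f` is regular, `f = ε * w ^ m` with `ε` a unit of `O`. -/
theorem rso96_localOrd {π : R} (hπ : Irreducible π) (m : ℕ) (f : F) (hf : f ≠ 0)
    (hord : ∀ P : Place K F, 0 < P.ord f → P.ord f = m)
    (O : ValuationSubring F) (hO : s34i47_IsHoriz π O) (hfO : f ∈ O) :
    ∃ ε w : F, ε ∈ O ∧ ε⁻¹ ∈ O ∧ f = ε * w ^ m := by
  by_cases hinv : f⁻¹ ∈ O
  · exact ⟨f, 1, hfO, hinv, by rw [one_pow, mul_one]⟩
  · have hpos : 0 < (ca57_place (K := K) hπ O hO).ord f :=
      pd69_ord_pos_of_not_mem (ca57_place (K := K) hπ O hO) hinv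
    have h := hord _ hpos
    exact lp7_place_factor (ca57_place (K := K) hπ O hO) f hf m ⟨1, by rw [h, mul_one]⟩

end rso96_frame

section rso96_inst

variable {R K : Type} [CommRing R] [IsDomain R] [IsDiscreteValuationRing R] [Field K]
  [NumberField K] [Algebra K Qb] [Algebra R K] [IsFractionRing R K] (N : ℕ) [NeZero N]
  [Algebra R ↥(modularFunctionFieldFullC K N)]
  [IsScalarTower R K ↥(modularFunctionFieldFullC K N)]

/-- The finiteness hypothesis of `rs96_spec` for any nonzero function of `F_K(N)`. -/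
theorem rso96_fin {π : R} (hπ : Irreducible π) (f : ↥(modularFunctionFieldFullC K N))
    (hf : f ≠ 0) (P : ValuationSubring ↥(modularFunctionFieldFullC K N) → Prop) :
    {O : ValuationSubring ↥(modularFunctionFieldFullC K N) | s34i47_IsHoriz π O ∧ P O ∧
      ¬ (f ∈ O ∧ f⁻¹ ∈ O)}.Finite :=
  (ca57_fin (K := K) hπ f (fs75_finSupp N K f hf)).subset fun _ hO => ⟨hO.1, hO.2.2⟩

/-- Local `Ord` for `J` with `m = 3` at a level with `ν₃ = 0`. -/
theorem rso96_localOrd_J {π : R} (hπ : Irreducible π) (hν : nuThree N = 0)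
    (O : ValuationSubring ↥(modularFunctionFieldFullC K N)) (hO : s34i47_IsHoriz π O)
    (hfO : relimc_J K N ∈ O) :
    ∃ ε w : ↥(modularFunctionFieldFullC K N), ε ∈ O ∧ ε⁻¹ ∈ O ∧ relimc_J K N = ε * w ^ 3 :=
  rso96_localOrd (K := K) hπ 3 (relimc_J K N)
    (fun h => relimc_J_transcendental K N (by rw [h]; exact isAlgebraic_zero))
    (fun P hP => by rw [rso96_ord_J K N hν P hP]; rfl) O hO hfO

/-- Local `Ord` for `J - 1728` with `m = 2` at a level with `ν₂ = 0`. -/
theorem rso96_localOrd_J1728 {π : R} (hπ : Irreducible π) (hν : nuTwo N = 0)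
    (O : ValuationSubring ↥(modularFunctionFieldFullC K N)) (hO : s34i47_IsHoriz π O)
    (hfO : relimc_J K N - 1728 ∈ O) :
    ∃ ε w : ↥(modularFunctionFieldFullC K N), ε ∈ O ∧ ε⁻¹ ∈ O ∧
      relimc_J K N - 1728 = ε * w ^ 2 := by
  have hne : relimc_J K N - 1728 ≠ 0 := by
    intro h
    apply relimc_J_transcendental K N
    have h1 : relimc_J K N = algebraMap K ↥(modularFunctionFieldFullC K N) 1728 := by
      rw [map_ofNat]
      exact sub_eq_zero.mp h
    rw [h1]
    exact isAlgebraic_algebraMap _
  exact rso96_localOrd (K := K) hπ 2 (relimc_J K N - 1728) hne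
    (fun P hP => by rw [rso96_ord_J1728 K N hν P hP]; rfl) O hO hfO

end rso96_inst

end Fermat.Agent.S36
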