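import Mathlib
import Fermat.Agent.S34.SpecFibre79
import Fermat.Agent.S36.LocalDatum84

/-!
# S36 lab, row 603 (B3-glue), helper84: the root lift on a branch at a closed point

The input `hres` of `ld84_datum_at` (and the lifts of `ci57_RootDatum`) at a closed point `n`:
the residue of a local `m`-th root `c` along a branch `V` through `n` lifts to `B_n`.  Any
valuation ring `V` (no reducedness: the non-reduced middle component is allowed).

* `rl84_primary`, `rl84_pow_coord`, `rl84_dvr_pow`, `rl84_dvr_root`: a noetherian domain `D` with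
  a maximal ideal `𝔫` which is principal at `𝔫` (`𝔫 D_𝔫 = z D_𝔫`, elementwise) is root closed at
  `𝔫`: `α ^ m * y = β ^ m * s₁` with `y, s₁ ∉ 𝔫` ⟹ `α * e' = β * e` with `e, e' ∉ 𝔫`.
* `rl84_decomp`: if the branch `{x ∈ B | v x < 1}` is principal at `n` with generator `g`
  (`t * x = b * g`, `t ∉ n`) and `v` is `g`-adically separated on `B`, every `x ≠ 0` of `B` is
  `s * x = x₁ * g ^ k` with `s ∉ n` and `v x₁ = 1`.
* `rl84_root_lift`: the root lift.  `B` noetherian, `F = Frac B`, the branch principal at `n`, a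
  local coordinate `z` of the branch at `n` ((3a)), `c` a unit of `V` with
  `c ^ m * y1 ≡ s1` modulo `𝔪(V)`, `y1, s1 ∉ n` ⟹ `c * e' ≡ e` modulo `𝔪(V)` with `e, e' ∉ n`.
* `rl84_res`: the same in the shape of `hres` of `ld84_datum_at`.
-/

set_option autoImplicit false

namespace Fermat.Agent.S36

open Fermat.Agent.S34

section Abstract

variable {D : Type*} [CommRing D]

/-- Powers of a maximal ideal are primary. -/
theorem rl84_primary (𝔫 : Ideal D) (h𝔫 : 𝔫.IsMaximal) (k : ℕ) (s x : D)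
    (hs : s ∉ 𝔫) (hsx : s * x ∈ 𝔫 ^ k) : x ∈ 𝔫 ^ k := by
  obtain ⟨r, y, hy, hry⟩ := h𝔫.exists_inv hs
  have key : ∀ k : ℕ, ∃ w : D, (r * s + y) ^ k = y ^ k + s * w := by
    intro k
    induction k with
    | zero => exact ⟨0, by simp⟩
    | succ k ih =>
      obtain ⟨w, hw⟩ := ih
      exact ⟨r * y ^ k + r * s * w + y * w, by rw [pow_succ, hw]; ring⟩
  obtain ⟨w, hw⟩ := key k
  have e : x = x * y ^ k + (s * x) * w := by
    have : x = x * (r * s + y) ^ k := by rw [hry, one_pow, mul_one]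
    rw [hw] at this
    linear_combination this
  rw [e]
  exact (𝔫 ^ k).add_mem ((𝔫 ^ k).mul_mem_left _ (Ideal.pow_mem_pow hy k))
    ((𝔫 ^ k).mul_mem_right _ hsx)

/-- Elements of `𝔫 ^ μ` are multiples of `z ^ μ` up to a factor outside `𝔫`. -/
theorem rl84_pow_coord (𝔫 : Ideal D) (h𝔫 : 𝔫.IsPrime) (z : D)
    (hz : ∀ x ∈ 𝔫, ∃ s : D, s ∉ 𝔫 ∧ ∃ a : D, s * x = a * z) (μ : ℕ) :
    ∀ x ∈ 𝔫 ^ μ, ∃ s : D, s ∉ 𝔫 ∧ ∃ a : D, s * x = a * z ^ μ := by
  induction μ with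
  | zero =>
    intro x _
    exact ⟨1, (Ideal.ne_top_iff_one 𝔫).mp h𝔫.ne_top, x, by simp⟩
  | succ μ ih =>
    intro x hx
    rw [pow_succ] at hx
    refine Submodule.mul_induction_on hx ?_ ?_
    · intro p hp q hq
      obtain ⟨s₁, hs₁, a₁, h₁⟩ := ih p hp
      obtain ⟨s₂, hs₂, a₂, h₂⟩ := hz q hq
      refine ⟨s₁ * s₂, fun h => (h𝔫.mem_or_mem h).elim hs₁ hs₂, a₁ * a₂, ?_⟩
      rw [pow_succ]
      linear_combination (s₂ * q) * h₁ + (a₁ * z ^ μ) * h₂
    · intro x₁ x₂ ⟨s₁, hs₁, a₁, h₁⟩ ⟨s₂, hs₂, a₂, h₂⟩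
      refine ⟨s₁ * s₂, fun h => (h𝔫.mem_or_mem h).elim hs₁ hs₂, s₂ * a₁ + s₁ * a₂, ?_⟩
      linear_combination s₂ * h₁ + s₁ * h₂

/-- In a noetherian domain with `𝔫 D_𝔫 = z D_𝔫`, every `x ≠ 0` is a unit at `𝔫` times a power of
`z`. -/
theorem rl84_dvr_pow [IsDomain D] [IsNoetherianRing D] (𝔫 : Ideal D) (h𝔫 : 𝔫.IsMaximal) (z : D)
    (hz𝔫 : z ∈ 𝔫) (hz : ∀ x ∈ 𝔫, ∃ s : D, s ∉ 𝔫 ∧ ∃ a : D, s * x = a * z)
    (x : D) (hx : x ≠ 0) :
    ∃ (μ : ℕ) (s a : D), s ∉ 𝔫 ∧ a ∉ 𝔫 ∧ s * x = a * z ^ μ := by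
  classical
  have hkr : ⨅ i : ℕ, 𝔫 ^ i = ⊥ := Ideal.iInf_pow_eq_bot_of_isDomain 𝔫 h𝔫.ne_top
  have hex : ∃ k : ℕ, x ∉ 𝔫 ^ k := by
    by_contra hcon
    apply hx
    have : x ∈ ⨅ i : ℕ, 𝔫 ^ i := by
      rw [Ideal.mem_iInf]
      intro i
      by_contra h
      exact hcon ⟨i, h⟩
    rw [hkr] at this
    exact (Ideal.mem_bot).mp this
  have hk0 : Nat.find hex ≠ 0 := by
    intro h0
    have h1 := Nat.find_spec hex
    rw [h0, pow_zero, Ideal.one_eq_top] at h1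
    exact h1 Submodule.mem_top
  obtain ⟨μ, hμ⟩ := Nat.exists_eq_succ_of_ne_zero hk0
  have hmem : x ∈ 𝔫 ^ μ := by
    by_contra hcon
    exact Nat.find_min hex (by omega : μ < Nat.find hex) hcon
  have hnot : x ∉ 𝔫 ^ (μ + 1) := by
    have h1 := Nat.find_spec hex
    rwa [hμ] at h1
  obtain ⟨s, hs, a, hsa⟩ := rl84_pow_coord 𝔫 h𝔫.isPrime z hz μ x hmem
  refine ⟨μ, s, a, hs, ?_, hsa⟩
  intro ha
  apply hnot
  apply rl84_primary 𝔫 h𝔫 (μ + 1) s x hs
  rw [hsa, pow_succ']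
  exact Ideal.mul_mem_mul ha (Ideal.pow_mem_pow hz𝔫 μ)

/-- **Root closedness at `𝔫`.** -/
theorem rl84_dvr_root [IsDomain D] [IsNoetherianRing D] (𝔫 : Ideal D) (h𝔫 : 𝔫.IsMaximal) (z : D)
    (hz𝔫 : z ∈ 𝔫) (hz : ∀ x ∈ 𝔫, ∃ s : D, s ∉ 𝔫 ∧ ∃ a : D, s * x = a * z)
    (m : ℕ) (hm : 0 < m) (α β y s₁ : D) (hα : α ≠ 0) (hβ : β ≠ 0) (hy : y ∉ 𝔫) (hs₁ : s₁ ∉ 𝔫)
    (h : α ^ m * y = β ^ m * s₁) :
    ∃ e e' : D, e ∉ 𝔫 ∧ e' ∉ 𝔫 ∧ α * e' = β * e := by
  have hp : 𝔫.IsPrime := h𝔫.isPrime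
  obtain ⟨μ, s, a, hs, ha, hsa⟩ := rl84_dvr_pow 𝔫 h𝔫 z hz𝔫 hz α hα
  obtain ⟨μ', s', a', hs', ha', hsa'⟩ := rl84_dvr_pow 𝔫 h𝔫 z hz𝔫 hz β hβ
  have hne : ∀ x : D, x ∉ 𝔫 → x ≠ 0 := fun x hx h0 => hx (h0 ▸ 𝔫.zero_mem)
  have hζμ : μ ≠ 0 → z ≠ 0 := by
    intro hμ h0
    rw [h0, zero_pow hμ, mul_zero] at hsa
    rcases mul_eq_zero.mp hsa with h' | h'
    · exact hne s hs h'
    · exact hα h'
  have hζμ' : μ' ≠ 0 → z ≠ 0 := by
    intro hμ h0
    rw [h0, zero_pow hμ, mul_zero] at hsa'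
    rcases mul_eq_zero.mp hsa' with h' | h'
    · exact hne s' hs' h'
    · exact hβ h'
  have key : (a ^ m * s' ^ m * y) * z ^ (m * μ) = (a' ^ m * s ^ m * s₁) * z ^ (m * μ') := by
    have k1 : (s * α) ^ m * s' ^ m * y = s ^ m * (s' * β) ^ m * s₁ := by
      rw [mul_pow, mul_pow]
      linear_combination (s ^ m * s' ^ m) * h
    rw [hsa, hsa'] at k1
    rw [pow_mul', pow_mul']
    rw [mul_pow, mul_pow] at k1
    linear_combination k1
  have hX : a ^ m * s' ^ m * y ∉ 𝔫 := by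
    intro h'
    rcases hp.mem_or_mem h' with h'' | h''
    · rcases hp.mem_or_mem h'' with h3 | h3
      · exact ha (hp.mem_of_pow_mem _ h3)
      · exact hs' (hp.mem_of_pow_mem _ h3)
    · exact hy h''
  have hY : a' ^ m * s ^ m * s₁ ∉ 𝔫 := by
    intro h'
    rcases hp.mem_or_mem h' with h'' | h''
    · rcases hp.mem_or_mem h'' with h3 | h3
      · exact ha' (hp.mem_of_pow_mem _ h3)
      · exact hs (hp.mem_of_pow_mem _ h3)
    · exact hs₁ h''
  have aux : ∀ (ν d : ℕ) (X Y : D), 0 < d → Y ∉ 𝔫 → (ν ≠ 0 → z ≠ 0) →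
      X * z ^ (m * (ν + d)) = Y * z ^ (m * ν) → False := by
    intro ν d X Y hd hY' hν hXY
    have hfac : z ^ (m * ν) * (X * z ^ (m * d) - Y) = 0 := by
      rw [mul_add, pow_add] at hXY
      linear_combination hXY
    rcases mul_eq_zero.mp hfac with h' | h'
    · by_cases hν0 : ν = 0
      · rw [hν0, mul_zero, pow_zero] at h'
        exact one_ne_zero h'
      · exact hν hν0 (pow_eq_zero_iff (mul_ne_zero (Nat.pos_iff_ne_zero.mp hm) hν0) |>.mp h')
    · apply hY'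
      have h5 : Y = X * z ^ (m * d) := by linear_combination -h'
      rw [h5]
      exact 𝔫.mul_mem_left _ (𝔫.pow_mem_of_mem hz𝔫 _ (Nat.mul_pos hm hd))
  have hμμ' : μ = μ' := by
    rcases lt_trichotomy μ μ' with hlt | heq | hgt
    · exfalso
      obtain ⟨d, hd⟩ := Nat.exists_eq_add_of_lt hlt
      have hd' : μ' = μ + (d + 1) := by omega
      rw [hd'] at key
      exact aux μ (d + 1) _ _ (Nat.succ_pos d) hX hζμ key.symm
    · exact heq
    · exfalso
      obtain ⟨d, hd⟩ := Nat.exists_eq_add_of_lt hgt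
      have hd' : μ = μ' + (d + 1) := by omega
      rw [hd'] at key
      exact aux μ' (d + 1) _ _ (Nat.succ_pos d) hY hζμ' key
  refine ⟨a * s', a' * s, fun h' => (hp.mem_or_mem h').elim ha hs',
    fun h' => (hp.mem_or_mem h').elim ha' hs, ?_⟩
  rw [hμμ'] at hsa
  linear_combination a' * hsa - a * hsa'

end Abstract

section Chart

variable {R F : Type*} [CommRing R] [Field F] [Algebra R F]

/-- A unit of `V` has valuation one. -/
theorem rl84_val_unit (V : ValuationSubring F) (x : F) (hx : x ∈ V) (hx' : x⁻¹ ∈ V)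
    (hx0 : x ≠ 0) : V.valuation x = 1 := by
  have h1 : V.valuation x ≤ 1 := (V.valuation_le_one_iff _).mpr hx
  have h2 : V.valuation x⁻¹ ≤ 1 := (V.valuation_le_one_iff _).mpr hx'
  rw [map_inv₀] at h2
  have h0 : V.valuation x ≠ 0 := (map_ne_zero _).mpr hx0
  exact le_antisymm h1 ((inv_le_one₀ (zero_lt_iff.mpr h0)).mp h2)

/-- Elements of `B` outside `n` have valuation one on a branch through `n`. -/
theorem rl84_val_one (B : Subalgebra R F) (V : ValuationSubring F) (hBV : ∀ x ∈ B, x ∈ V)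
    (n : Ideal B) (hthr : ∀ s : B, s ∉ n → (s : F)⁻¹ ∈ V) (s : B) (hs : s ∉ n) :
    V.valuation (s : F) = 1 :=
  rl84_val_unit V _ (hBV _ s.2) (hthr s hs) (sf79_ne_zero B n s hs)

/-- If the branch `{x ∈ B | v x < 1}` is principal at `n` with generator `g`, every element of
`B` of valuation `> v g ^ N` is a power of `g` times an element of valuation one, up to a factor
outside `n`. -/
theorem rl84_decomp (B : Subalgebra R F) (V : ValuationSubring F) (hBV : ∀ x ∈ B, x ∈ V)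
    (n : Ideal B) (hn : n.IsPrime) (hthr : ∀ s : B, s ∉ n → (s : F)⁻¹ ∈ V)
    (g t : B) (htn : t ∉ n) (hg0 : (g : F) ≠ 0)
    (hprin : ∀ x : B, V.valuation (x : F) < 1 → ∃ b : B, t * x = b * g) :
    ∀ (N : ℕ) (x : B), V.valuation (g : F) ^ N < V.valuation (x : F) →
      ∃ (k : ℕ) (s x₁ : B), s ∉ n ∧ V.valuation (x₁ : F) = 1 ∧ s * x = x₁ * g ^ k := by
  intro N
  induction N with
  | zero =>
    intro x hx
    rw [pow_zero] at hx
    exact absurd ((V.valuation_le_one_iff _).mpr (hBV _ x.2)) (not_le.mpr hx)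
  | succ N ih =>
    intro x hx
    have h1 : V.valuation (x : F) ≤ 1 := (V.valuation_le_one_iff _).mpr (hBV _ x.2)
    rcases lt_or_eq_of_le h1 with hlt | heq
    · obtain ⟨b, hb⟩ := hprin x hlt
      have hvt : V.valuation (t : F) = 1 := rl84_val_one B V hBV n hthr t htn
      have hval : V.valuation (x : F) = V.valuation (b : F) * V.valuation (g : F) := by
        have h2 : (t : F) * (x : F) = (b : F) * (g : F) := by
          have := congrArg (fun y : B => (y : F)) hb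
          simpa using this
        have h3 := congrArg V.valuation h2
        rw [map_mul, map_mul, hvt, one_mul] at h3
        exact h3
      have hg0' : 0 < V.valuation (g : F) := zero_lt_iff.mpr ((map_ne_zero _).mpr hg0)
      have hb' : V.valuation (g : F) ^ N < V.valuation (b : F) := by
        rw [hval, pow_succ] at hx
        exact (mul_lt_mul_iff_left₀ hg0').mp hx
      obtain ⟨k, s, x₁, hs, hx₁, hsx⟩ := ih b hb'
      refine ⟨k + 1, s * t, x₁, fun h => (hn.mem_or_mem h).elim hs htn, hx₁, ?_⟩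
      rw [pow_succ]
      linear_combination s * hb + g * hsx
    · exact ⟨0, 1, x, (Ideal.ne_top_iff_one n).mp hn.ne_top, heq, by simp⟩

/-- **The root lift on a branch at a closed point.**  `B` noetherian with fraction field `F`,
`V ⊇ B` a valuation ring through the maximal ideal `n` (`hthr`); the branch
`{x ∈ B | v x < 1}` is principal at `n` (`g`, `t`, `hprin`), `v` is `g`-adically separated on
`B` (`hdisc`), and `z` is a local coordinate of the branch at `n` (`hz`, (3a)).  If `c` is a unit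
of `V` with `c ^ m * y1 ≡ s1` modulo `𝔪(V)`, `y1, s1 ∉ n`, then `c * e' ≡ e` modulo `𝔪(V)` for
some `e, e' ∉ n`. -/
theorem rl84_root_lift (B : Subalgebra R F) [IsNoetherianRing B] (V : ValuationSubring F)
    (hBV : ∀ x ∈ B, x ∈ V)
    (hFrac : ∀ x : F, ∃ a ∈ B, ∃ b ∈ B, b ≠ 0 ∧ x * b = a)
    (n : Ideal B) (hn : n.IsMaximal)
    (hthr : ∀ s : B, s ∉ n → (s : F)⁻¹ ∈ V)
    (g t : B) (htn : t ∉ n) (hg : V.valuation (g : F) < 1) (hg0 : (g : F) ≠ 0)
    (hprin : ∀ x : B, V.valuation (x : F) < 1 → ∃ b : B, t * x = b * g)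
    (hdisc : ∀ x : B, x ≠ 0 → ∃ k : ℕ, V.valuation (g : F) ^ k < V.valuation (x : F))
    (z : B) (hzn : z ∈ n)
    (hz : ∀ x ∈ n, ∃ s : B, s ∉ n ∧ ∃ a : B,
      V.valuation ((s : F) * (x : F) - (a : F) * (z : F)) < 1)
    (m : ℕ) (hm : 0 < m) (c : F) (hc : c ∈ V) (hcinv : c⁻¹ ∈ V) (hc0 : c ≠ 0)
    (y1 s1 : B) (hy1 : y1 ∉ n) (hs1 : s1 ∉ n)
    (hrel : V.valuation (c ^ m * (y1 : F) - (s1 : F)) < 1) :
    ∃ e e' : B, e ∉ n ∧ e' ∉ n ∧ V.valuation (c * (e' : F) - (e : F)) < 1 := by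
  classical
  have hnp : n.IsPrime := hn.isPrime
  have hv1 : ∀ s : B, s ∉ n → V.valuation (s : F) = 1 := rl84_val_one B V hBV n hthr
  have hvc : V.valuation c = 1 := rl84_val_unit V c hc hcinv hc0
  have hg0' : 0 < V.valuation (g : F) := zero_lt_iff.mpr ((map_ne_zero _).mpr hg0)
  -- `c = α / β` with `α, β ∈ B` of valuation one
  obtain ⟨a, ha, b, hb, hb0, hcb⟩ := hFrac c
  have ha0 : a ≠ 0 := by rw [← hcb]; exact mul_ne_zero hc0 hb0
  have haB0 : (⟨a, ha⟩ : B) ≠ 0 := fun h => ha0 (congrArg Subtype.val h)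
  have hbB0 : (⟨b, hb⟩ : B) ≠ 0 := fun h => hb0 (congrArg Subtype.val h)
  obtain ⟨Ka, hKa⟩ := hdisc ⟨a, ha⟩ haB0
  obtain ⟨j, sa, a₁, hsa, ha₁, hsa₁⟩ :=
    rl84_decomp B V hBV n hnp hthr g t htn hg0 hprin Ka ⟨a, ha⟩ hKa
  obtain ⟨Kb, hKb⟩ := hdisc ⟨b, hb⟩ hbB0
  obtain ⟨k, sb, b₁, hsb, hb₁, hsb₁⟩ :=
    rl84_decomp B V hBV n hnp hthr g t htn hg0 hprin Kb ⟨b, hb⟩ hKb
  have h2a : (sa : F) * a = (a₁ : F) * (g : F) ^ j := by
    have := congrArg (fun y : B => (y : F)) hsa₁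
    simpa using this
  have h2b : (sb : F) * b = (b₁ : F) * (g : F) ^ k := by
    have := congrArg (fun y : B => (y : F)) hsb₁
    simpa using this
  have hva : V.valuation a = V.valuation (g : F) ^ j := by
    have h3 := congrArg V.valuation h2a
    rw [map_mul, map_mul, map_pow, hv1 sa hsa, ha₁, one_mul, one_mul] at h3
    exact h3
  have hvb : V.valuation b = V.valuation (g : F) ^ k := by
    have h3 := congrArg V.valuation h2b
    rw [map_mul, map_mul, map_pow, hv1 sb hsb, hb₁, one_mul, one_mul] at h3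
    exact h3
  have hvab : V.valuation a = V.valuation b := by rw [← hcb, map_mul, hvc, one_mul]
  have hjk : j = k := by
    have h4 : V.valuation (g : F) ^ j = V.valuation (g : F) ^ k := by rw [← hva, ← hvb, hvab]
    exact pow_right_injective₀ hg0' (ne_of_lt hg) h4
  set α : B := a₁ * sb with hα
  set β : B := b₁ * sa with hβ
  have hαF : (α : F) = (a₁ : F) * (sb : F) := rfl
  have hβF : (β : F) = (b₁ : F) * (sa : F) := rfl
  have hcαβ : c * (β : F) = (α : F) := by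
    have hgk : (g : F) ^ k ≠ 0 := pow_ne_zero _ hg0
    apply mul_right_cancel₀ hgk
    rw [hαF, hβF]
    rw [hjk] at h2a
    linear_combination (-(c * (sa : F))) * h2b + ((sa : F) * (sb : F)) * hcb + (sb : F) * h2a
  have hvα : V.valuation (α : F) = 1 := by rw [hαF, map_mul, ha₁, hv1 sb hsb, one_mul]
  have hvβ : V.valuation (β : F) = 1 := by rw [hβF, map_mul, hb₁, hv1 sa hsa, one_mul]
  have hβ0 : (β : F) ≠ 0 := by
    intro h0
    rw [h0, map_zero] at hvβ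
    exact zero_ne_one hvβ
  -- the branch prime
  let P : Ideal B :=
    { carrier := {x | V.valuation (x : F) < 1}
      add_mem' := fun {x y} hx hy => by
        show V.valuation ((x : F) + (y : F)) < 1
        exact gc26_add V hx hy
      zero_mem' := by
        show V.valuation ((0 : B) : F) < 1
        simp
      smul_mem' := fun c' {x} hx => by
        show V.valuation ((c' : F) * (x : F)) < 1
        exact gc26_mul V (hBV _ c'.2) hx }
  have hPmem : ∀ x : B, x ∈ P ↔ V.valuation (x : F) < 1 := fun x => Iff.rfl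
  have hPprime : P.IsPrime := by
    refine ⟨?_, ?_⟩
    · intro htop
      have h1 : (1 : B) ∈ P := by rw [htop]; exact Submodule.mem_top
      rw [hPmem] at h1
      simp at h1
    · intro x y hxy
      rw [hPmem] at hxy ⊢
      rw [hPmem]
      by_contra hcon
      rw [not_or] at hcon
      have hx1 : V.valuation (x : F) = 1 :=
        le_antisymm ((V.valuation_le_one_iff _).mpr (hBV _ x.2)) (not_lt.mp hcon.1)
      have hy1' : V.valuation (y : F) = 1 :=
        le_antisymm ((V.valuation_le_one_iff _).mpr (hBV _ y.2)) (not_lt.mp hcon.2)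
      have e1 : (((x * y : B) : B) : F) = (x : F) * (y : F) := rfl
      rw [e1, map_mul, hx1, hy1', one_mul] at hxy
      exact lt_irrefl _ hxy
  have hPn : P ≤ n := by
    intro x hx
    by_contra hxn
    rw [hPmem, hv1 x hxn] at hx
    exact lt_irrefl _ hx
  set mk := Ideal.Quotient.mk P with hmk
  have hsurj : Function.Surjective mk := Ideal.Quotient.mk_surjective
  have hmem : ∀ x : B, mk x ∈ n.map mk ↔ x ∈ n := fun x => Ideal.mem_quotient_iff_mem hPn
  have h𝔫 : (n.map mk).IsMaximal := by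
    rcases Ideal.map_eq_top_or_isMaximal_of_surjective mk hsurj hn with h | h
    · exfalso
      have h1 : mk 1 ∈ n.map mk := by rw [h]; exact Submodule.mem_top
      exact (Ideal.ne_top_iff_one n).mp hnp.ne_top ((hmem 1).mp h1)
    · exact h
  have hzD : ∀ X ∈ n.map mk, ∃ S : B ⧸ P, S ∉ n.map mk ∧ ∃ A : B ⧸ P, S * X = A * mk z := by
    intro X hX
    obtain ⟨x, rfl⟩ := hsurj X
    obtain ⟨s, hs, a', hsa'⟩ := hz x ((hmem x).mp hX)
    refine ⟨mk s, fun h => hs ((hmem s).mp h), mk a', ?_⟩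
    rw [← map_mul, ← map_mul, Ideal.Quotient.eq]
    exact hsa'
  have hrelD : mk α ^ m * mk y1 = mk β ^ m * mk s1 := by
    rw [← map_pow, ← map_pow, ← map_mul, ← map_mul, Ideal.Quotient.eq, hPmem]
    have e1 : (((α ^ m * y1 - β ^ m * s1 : B) : B) : F)
        = (β : F) ^ m * (c ^ m * (y1 : F) - (s1 : F)) := by
      have e2 : (((α ^ m * y1 - β ^ m * s1 : B) : B) : F)
          = (α : F) ^ m * (y1 : F) - (β : F) ^ m * (s1 : F) := rfl
      rw [e2, ← hcαβ]
      ring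
    rw [e1, map_mul, map_pow, hvβ, one_pow, one_mul]
    exact hrel
  have hαD : mk α ≠ 0 := by
    intro h0
    rw [Ideal.Quotient.eq_zero_iff_mem, hPmem, hvα] at h0
    exact lt_irrefl _ h0
  have hβD : mk β ≠ 0 := by
    intro h0
    rw [Ideal.Quotient.eq_zero_iff_mem, hPmem, hvβ] at h0
    exact lt_irrefl _ h0
  obtain ⟨E, E', hE, hE', hEE⟩ := rl84_dvr_root (n.map mk) h𝔫 (mk z) ((hmem z).mpr hzn) hzD
    m hm (mk α) (mk β) (mk y1) (mk s1) hαD hβD (fun h => hy1 ((hmem y1).mp h))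
    (fun h => hs1 ((hmem s1).mp h)) hrelD
  obtain ⟨e, rfl⟩ := hsurj E
  obtain ⟨e', rfl⟩ := hsurj E'
  refine ⟨e, e', fun h => hE ((hmem e).mpr h), fun h => hE' ((hmem e').mpr h), ?_⟩
  have h5 : α * e' - β * e ∈ P := by
    rw [← Ideal.Quotient.eq, map_mul, map_mul]
    exact hEE
  rw [hPmem] at h5
  have h6 : c * (e' : F) - (e : F)
      = (β : F)⁻¹ * (((α * e' - β * e : B) : B) : F) := by
    have e2 : (((α * e' - β * e : B) : B) : F)
        = (α : F) * (e' : F) - (β : F) * (e : F) := rfl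
    rw [e2, ← hcαβ]
    field_simp
  rw [h6, map_mul, map_inv₀, hvβ, inv_one, one_mul]
  exact h5

/-- The root lift in the shape of `hres` of `ld84_datum_at`: a lift `b ∈ B_n` of the residue of
`c` on the branch. -/
theorem rl84_res (B : Subalgebra R F) [IsNoetherianRing B] (V : ValuationSubring F)
    (hBV : ∀ x ∈ B, x ∈ V)
    (hFrac : ∀ x : F, ∃ a ∈ B, ∃ b ∈ B, b ≠ 0 ∧ x * b = a)
    (n : Ideal B) (hn : n.IsMaximal)
    (hthr : ∀ s : B, s ∉ n → (s : F)⁻¹ ∈ V)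
    (g t : B) (htn : t ∉ n) (hg : V.valuation (g : F) < 1) (hg0 : (g : F) ≠ 0)
    (hprin : ∀ x : B, V.valuation (x : F) < 1 → ∃ b : B, t * x = b * g)
    (hdisc : ∀ x : B, x ≠ 0 → ∃ k : ℕ, V.valuation (g : F) ^ k < V.valuation (x : F))
    (z : B) (hzn : z ∈ n)
    (hz : ∀ x ∈ n, ∃ s : B, s ∉ n ∧ ∃ a : B,
      V.valuation ((s : F) * (x : F) - (a : F) * (z : F)) < 1)
    (m : ℕ) (hm : 0 < m) (c : F) (hc : c ∈ V) (hcinv : c⁻¹ ∈ V) (hc0 : c ≠ 0)
    (y1 s1 : B) (hy1 : y1 ∉ n) (hs1 : s1 ∉ n)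
    (hrel : V.valuation (c ^ m * (y1 : F) - (s1 : F)) < 1) :
    ∃ b : F, (∃ s : B, s ∉ n ∧ (s : F) * b ∈ B) ∧ (∃ s : B, s ∉ n ∧ (s : F) * b⁻¹ ∈ B) ∧
      V.valuation (c - b) < 1 := by
  obtain ⟨e, e', he, he', h⟩ := rl84_root_lift B V hBV hFrac n hn hthr g t htn hg hg0 hprin
    hdisc z hzn hz m hm c hc hcinv hc0 y1 s1 hy1 hs1 hrel
  have he0 : (e : F) ≠ 0 := sf79_ne_zero B n e he
  have he'0 : (e' : F) ≠ 0 := sf79_ne_zero B n e' he'
  refine ⟨(e : F) * (e' : F)⁻¹, ⟨e', he', ?_⟩, ⟨e, he, ?_⟩, ?_⟩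
  · have e1 : (e' : F) * ((e : F) * (e' : F)⁻¹) = (e : F) := by field_simp
    rw [e1]; exact e.2
  · have e1 : (e : F) * ((e : F) * (e' : F)⁻¹)⁻¹ = (e' : F) := by field_simp
    rw [e1]; exact e'.2
  · have e1 : c - (e : F) * (e' : F)⁻¹ = (e' : F)⁻¹ * (c * (e' : F) - (e : F)) := by
      field_simp
    rw [e1, map_mul, map_inv₀, rl84_val_one B V hBV n hthr e' he', inv_one, one_mul]
    exact h

end Chart

end Fermat.Agent.S36
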