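/-
helper71: a Mathlib-only commutative-algebra lemma for the (B3) step of the S36 plan
(report #2798, helper51): descending an `m`-th root along a finite extension of a local ring.

`rn71_mem_range`: `A` a local ring, `m` a unit of `A`, `C` a finite `A`-algebra,
`x : C` with `x ^ m` in the image of `A` and `x - 1` in the Jacobson radical of `C`
(i.e. `x = 1` modulo every maximal ideal of `C`). Then `x` is in the image of `A`.
No injectivity, domain, noetherian or completeness hypothesis.
-/
import Mathlib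

set_option autoImplicit false

namespace Fermat.Agent.S36.RootNak71

open IsLocalRing Polynomial

/-- In a commutative ring, `x ^ i - 1` lies in every ideal containing `x - 1`. -/
theorem rn71_pow_sub_one_mem {S : Type*} [CommRing S] (J : Ideal S) (x : S) (hx : x - 1 ∈ J)
    (i : ℕ) : x ^ i - 1 ∈ J := by
  have h : (∑ j ∈ Finset.range i, x ^ j) * (x - 1) = x ^ i - 1 := geom_sum_mul x i
  rw [← h]
  exact J.mul_mem_left _ hx

/-- In a commutative ring, `∑_{i<m} x^i - m` lies in every ideal containing `x - 1`. -/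
theorem rn71_geom_sub_mem {S : Type*} [CommRing S] (J : Ideal S) (x : S) (hx : x - 1 ∈ J)
    (m : ℕ) : (∑ i ∈ Finset.range m, x ^ i) - (m : S) ∈ J := by
  have h : (∑ i ∈ Finset.range m, x ^ i) - (m : S) = ∑ i ∈ Finset.range m, (x ^ i - 1) := by
    rw [Finset.sum_sub_distrib]
    simp
  rw [h]
  exact J.sum_mem fun i _ => rn71_pow_sub_one_mem J x hx i

/-- If `x - 1` is in the Jacobson radical and `m` is a unit, then `∑_{i<m} x^i` is a unit. -/
theorem rn71_geom_isUnit {S : Type*} [CommRing S] (x : S)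
    (hx : x - 1 ∈ Ideal.jacobson (⊥ : Ideal S)) (m : ℕ) (hm : IsUnit (m : S)) :
    IsUnit (∑ i ∈ Finset.range m, x ^ i) := by
  obtain ⟨u, hu⟩ := hm
  have h1 : (∑ i ∈ Finset.range m, x ^ i) * (↑u⁻¹ : S) - 1 ∈ Ideal.jacobson (⊥ : Ideal S) := by
    have h2 : (∑ i ∈ Finset.range m, x ^ i) * (↑u⁻¹ : S) - 1
        = ((∑ i ∈ Finset.range m, x ^ i) - (m : S)) * (↑u⁻¹ : S) := by
      rw [sub_mul, ← hu, Units.mul_inv]
    rw [h2]
    exact Ideal.mul_mem_right _ _ (rn71_geom_sub_mem _ x hx m)
  have h3 : IsUnit ((∑ i ∈ Finset.range m, x ^ i) * (↑u⁻¹ : S)) :=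
    Ideal.isUnit_of_sub_one_mem_jacobson_bot _ h1
  have h4 : (∑ i ∈ Finset.range m, x ^ i)
      = ((∑ i ∈ Finset.range m, x ^ i) * (↑u⁻¹ : S)) * (u : S) := by
    rw [mul_assoc, Units.inv_mul, mul_one]
  rw [h4]
  exact h3.mul u.isUnit

/-- Lying over for an integral extension: the Jacobson radical of the big ring contracts into
the Jacobson radical of the small ring. -/
theorem rn71_jacobson_comap {S C : Type*} [CommRing S] [CommRing C] [Algebra S C]
    [Algebra.IsIntegral S C] (hinj : Function.Injective (algebraMap S C)) (s : S)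
    (hs : algebraMap S C s ∈ Ideal.jacobson (⊥ : Ideal C)) :
    s ∈ Ideal.jacobson (⊥ : Ideal S) := by
  rw [Ideal.jacobson, Ideal.mem_sInf]
  rintro N ⟨-, hN⟩
  have := hN
  have hker : RingHom.ker (algebraMap S C) ≤ N := by
    rw [(RingHom.injective_iff_ker_eq_bot _).mp hinj]
    exact bot_le
  obtain ⟨Q, hQ, hQN⟩ := Ideal.exists_ideal_over_maximal_of_isIntegral (S := C) N hker
  have hJQ : Ideal.jacobson (⊥ : Ideal C) ≤ Q := by
    intro c hc
    rw [Ideal.jacobson, Ideal.mem_sInf] at hc
    exact hc ⟨bot_le, hQ⟩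
  rw [← hQN]
  exact Ideal.mem_comap.mpr (hJQ hs)

/-- **Descent of an `m`-th root (helper51's Nakayama lemma).**  `A` local, `m` a unit of `A`,
`C` a finite `A`-algebra, `x : C` with `x ^ m = a` in the image of `A` and `x = 1` modulo
every maximal ideal of `C`.  Then `x` lies in the image of `A`. -/
theorem rn71_mem_range {A B : Type*} [CommRing A] [IsLocalRing A] [CommRing B] [Algebra A B]
    [Module.Finite A B] (m : ℕ) (hm : IsUnit (m : A)) (x : B) (a : A)
    (hxa : x ^ m = algebraMap A B a) (hx1 : x - 1 ∈ Ideal.jacobson (⊥ : Ideal B)) :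
    ∃ b : A, algebraMap A B b = x := by
  classical
  rcases subsingleton_or_nontrivial B with hC | hC
  · exact ⟨0, Subsingleton.elim _ _⟩
  have : Algebra.IsIntegral A B := Algebra.IsIntegral.of_finite A B
  -- `a - 1` lies in the maximal ideal of `A`
  have ha1 : a - 1 ∈ maximalIdeal A := by
    obtain ⟨Q, hQ⟩ := Ideal.exists_maximal B
    have := hQ
    have hQA : (Q.comap (algebraMap A B)).IsMaximal :=
      Ideal.isMaximal_comap_of_isIntegral_of_isMaximal Q
    have hQe : Q.comap (algebraMap A B) = maximalIdeal A := IsLocalRing.eq_maximalIdeal hQA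
    rw [← hQe, Ideal.mem_comap, map_sub, map_one, ← hxa]
    have hJQ : Ideal.jacobson (⊥ : Ideal B) ≤ Q := by
      intro c hc
      rw [Ideal.jacobson, Ideal.mem_sInf] at hc
      exact hc ⟨bot_le, hQ⟩
    exact hJQ (rn71_pow_sub_one_mem _ x hx1 m)
  -- the subalgebra `S = A[x]`
  set S : Subalgebra A B := Algebra.adjoin A {x} with hS
  have hxS : x ∈ S := Algebra.subset_adjoin (Set.mem_singleton x)
  have : Algebra.IsIntegral S B := Algebra.IsIntegral.tower_top (R := A) (S := S) (T := B)
  have hinjS : Function.Injective (algebraMap S B) := Subtype.coe_injective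
  set x' : S := ⟨x, hxS⟩ with hx'
  have hx'J : x' - 1 ∈ Ideal.jacobson (⊥ : Ideal S) := by
    apply rn71_jacobson_comap (C := B) hinjS
    simpa using hx1
  have hmS : IsUnit ((m : ℕ) : S) := by
    have := hm.map (algebraMap A S)
    simpa using this
  obtain ⟨G, hG⟩ := rn71_geom_isUnit x' hx'J m hmS
  -- `x - 1 = (a - 1) • G⁻¹`
  have hkey : x' - 1 = (a - 1) • (↑G⁻¹ : S) := by
    have h1 : (∑ i ∈ Finset.range m, x' ^ i) * (x' - 1) = x' ^ m - 1 := geom_sum_mul x' m
    have h2 : x' ^ m - 1 = algebraMap A S (a - 1) := by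
      apply hinjS
      simp only [map_sub, map_pow, map_one]
      change x ^ m - 1 = algebraMap A B a - 1
      rw [hxa]
    rw [← hG, h2] at h1
    rw [Algebra.smul_def, ← h1, mul_comm, ← mul_assoc, Units.inv_mul, one_mul]
  -- Nakayama inside `C`
  have hfg : (Subalgebra.toSubmodule S).FG :=
    IsIntegral.fg_adjoin_singleton (Algebra.IsIntegral.isIntegral x)
  have hle : Subalgebra.toSubmodule S
      ≤ LinearMap.range (Algebra.linearMap A B) ⊔ maximalIdeal A • Subalgebra.toSubmodule S := by
    intro c hc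
    have hc' : c ∈ Algebra.adjoin A {x} := hc
    rw [Algebra.adjoin_singleton_eq_range_aeval] at hc'
    obtain ⟨p, rfl⟩ := hc'
    have hp : p = C (p.eval 1) + (X - C 1) * (p /ₘ (X - C 1)) := by
      have := modByMonic_add_div p (X - C (1 : A))
      rw [modByMonic_X_sub_C_eq_C_eval] at this
      exact this.symm
    set q := p /ₘ (X - C 1) with hq
    have hqS : aeval x q ∈ S := by
      rw [hS, Algebra.adjoin_singleton_eq_range_aeval]
      exact ⟨q, rfl⟩
    have hval : aeval x p = algebraMap A B (p.eval 1)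
        + (a - 1) • (((↑G⁻¹ : S) : B) * aeval x q) := by
      conv_lhs => rw [hp]
      have hx1' : x - 1 = (a - 1) • ((↑G⁻¹ : S) : B) := by
        have := congrArg (fun s : S => (s : B)) hkey
        simpa using this
      simp only [map_add, map_mul, map_sub, aeval_C, aeval_X, map_one]
      rw [hx1', smul_mul_assoc]
    change aeval x p ∈ _
    rw [hval]
    refine Submodule.add_mem _ (Submodule.mem_sup_left ⟨p.eval 1, rfl⟩) (Submodule.mem_sup_right ?_)
    exact Submodule.smul_mem_smul ha1 (S.mul_mem (↑G⁻¹ : S).2 hqS)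
  have hfin : Subalgebra.toSubmodule S ≤ LinearMap.range (Algebra.linearMap A B) :=
    Submodule.le_of_le_smul_of_le_jacobson_bot hfg (IsLocalRing.maximalIdeal_le_jacobson ⊥) hle
  obtain ⟨b, hb⟩ := hfin hxS
  exact ⟨b, hb⟩

end Fermat.Agent.S36.RootNak71
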