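/-
S36 lab, pre-GO helper lemma (helper94), Mathlib only.

`ru94_upgrade`: in a commutative ring `A` with an ideal `I` such that `m` is invertible
modulo `I` (`m * m' - 1 ∈ I`; e.g. `q ∈ I` and `m` prime to `q`), every `u ≡ 1 mod I` can be
multiplied by an `m`-th power `φ ^ m`, `φ ≡ 1 mod I`, so that `φ ^ m * u ≡ 1 mod I ^ k`, for any
`k ≥ 1`.  (The group `(1 + I) / (1 + I ^ k)` is uniquely `m`-divisible.)

Use ((B2) of the S36 outline): `A = W = V₁ ⊓ V₂ ⊓ V₃`, `I = rad (π W)`, `I ^ (q - 1) ≤ π W`: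
a congruence `u ≡ 1` modulo the radical upgrades to `φ ^ m * u ≡ 1` modulo `π W`.
-/
import Mathlib

set_option autoImplicit false

namespace Fermat.Agent.S36

/-- `(1 + z) ^ m = 1 + m z + z ^ 2 r`. -/
theorem ru94_one_add_pow {A : Type*} [CommRing A] (z : A) (m : ℕ) :
    ∃ r : A, (1 + z) ^ m = 1 + (m : A) * z + z ^ 2 * r := by
  induction m with
  | zero => exact ⟨0, by simp⟩
  | succ n ih =>
    obtain ⟨r, hr⟩ := ih
    refine ⟨r * (1 + z) + n, ?_⟩
    rw [pow_succ, hr]
    push_cast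
    ring

/-- **Root upgrade.** -/
theorem ru94_upgrade {A : Type*} [CommRing A] (I : Ideal A) (m : ℕ) (m' : A)
    (hm : (m : A) * m' - 1 ∈ I) (u : A) (hu : u - 1 ∈ I) (k : ℕ) (hk : 1 ≤ k) :
    ∃ φ : A, φ - 1 ∈ I ∧ φ ^ m * u - 1 ∈ I ^ k := by
  induction k, hk using Nat.le_induction with
  | base => exact ⟨1, by simp, by simpa using hu⟩
  | succ k hk ih =>
    obtain ⟨φ, hφ, hy⟩ := ih
    set y : A := φ ^ m * u - 1 with hy_def
    set z : A := -m' * y with hz_def
    have hzk : z ∈ I ^ k := (I ^ k).mul_mem_left _ hy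
    have hIk : I ^ k ≤ I := Ideal.pow_le_self (by omega)
    obtain ⟨r, hr⟩ := ru94_one_add_pow z m
    refine ⟨φ * (1 + z), ?_, ?_⟩
    · have : φ * (1 + z) - 1 = (φ - 1) + φ * z := by ring
      rw [this]
      exact I.add_mem hφ (I.mul_mem_left _ (hIk hzk))
    · have h2k : I ^ (k + k) ≤ I ^ (k + 1) := Ideal.pow_le_pow_right (by omega)
      have hzz : z ^ 2 ∈ I ^ (k + 1) := by
        apply h2k
        rw [pow_add, sq]
        exact Ideal.mul_mem_mul hzk hzk
      have hzy : z * y ∈ I ^ (k + 1) := by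
        apply h2k
        rw [pow_add]
        exact Ideal.mul_mem_mul hzk hy
      have h1 : (1 - (m : A) * m') * y ∈ I ^ (k + 1) := by
        rw [pow_succ']
        refine Ideal.mul_mem_mul ?_ hy
        have : (1 - (m : A) * m') = -((m : A) * m' - 1) := by ring
        rw [this]; exact I.neg_mem hm
      have key : (φ * (1 + z)) ^ m * u - 1
          = (1 - (m : A) * m') * y + (m : A) * (z * y) + z ^ 2 * (r * (1 + y)) := by
        have hφu : φ ^ m * u = 1 + y := by rw [hy_def]; ring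
        rw [mul_pow, hr, mul_right_comm, hφu, hz_def]
        ring
      rw [key]
      refine (I ^ (k + 1)).add_mem ((I ^ (k + 1)).add_mem h1 ?_) ?_
      · exact (I ^ (k + 1)).mul_mem_left _ hzy
      · exact (I ^ (k + 1)).mul_mem_right _ hzz

/-- Version with a natural number `q ∈ I` and `m` prime to `q`. -/
theorem ru94_upgrade_coprime {A : Type*} [CommRing A] (I : Ideal A) (q m : ℕ)
    (hq : (q : A) ∈ I) (hmq : Nat.Coprime m q) (u : A) (hu : u - 1 ∈ I) (k : ℕ) (hk : 1 ≤ k) :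
    ∃ φ : A, φ - 1 ∈ I ∧ φ ^ m * u - 1 ∈ I ^ k := by
  have hb : (m : ℤ) * Int.gcdA m q + (q : ℤ) * Int.gcdB m q = 1 := by
    have := Int.gcd_eq_gcd_ab (m : ℤ) (q : ℤ)
    rw [Int.gcd_natCast_natCast, hmq] at this
    simpa using this.symm
  refine ru94_upgrade I m ((Int.gcdA m q : ℤ) : A) ?_ u hu k hk
  have h2 : (m : A) * ((Int.gcdA m q : ℤ) : A) - 1 = -((q : A) * ((Int.gcdB m q : ℤ) : A)) := by
    have := congrArg (fun t : ℤ => (t : A)) hb
    push_cast at this
    linear_combination this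
  rw [h2]
  exact I.neg_mem (I.mul_mem_right _ hq)

end Fermat.Agent.S36
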