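import Fermat.Agent.S36.NodeFinal40
import Fermat.Agent.S36.UnitW31
import Fermat.Agent.S36.UnitJSmall65
import Fermat.Agent.S36.UnitJSmallH65

/-!
# S36 lab, row 600 C-C2 (helper75): the one-branch points of the middle component for `q = 2, 3`,
composite in the literal chart setting of `c2c24_maximalIdeal_eq`

`B` the level-`q² M''` chart, `V₁ V₂ V₃` the three vertical valuation rings, saturation in
`V₁ ⊓ V₂ ⊓ V₃`, `n` a prime of `B` on the middle branch (`hOn : p⁻¹ x ∈ V₂ → x ∈ n`, `p` any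
element generating the centre of `V₂`, e.g. `p = s`), off the third branch (`a ∉ n`,
`π⁻¹ a ∈ V₃`).  `u, v ∈ B` with `u v = π ^ 12 s₀`, `s₀ ∉ n` (`u = α^* Δ(Q)/Δ(Q^q)`), `u` a unit
of `V₁` and of `V₂`.

* `sqc75_U_not_mem`   : `u ∉ n` (12-fold saturation; no condition on the first branch);
* `sqc75_j_not_mem`   : `q ∈ {2, 3}`, `u ≡ j^(q-1)` and `jq ≡ j^q` modulo the centre of `V₂`
  (`uj65_U_cong` pulled back) ⟹ `j ∉ n`, `jq ∉ n`, `jq - 1728 ∉ n`;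
* `sqc75_nozero`      : hence the level-`q` unit `w` (`uw31_w`, sixth-power identity `h6`) has
  `w * tw = aw`, `aw ∉ n` : LITERALLY the inputs `(aw tw haw hw)` of `c2c24_maximalIdeal_eq` /
  `c2b24_mid_dvd`, for EVERY such `n` when `q ∈ {2, 3}` (no Hauptmodul, no rigidity).

All names are prefixed `sqc75_`.
-/

set_option autoImplicit false

namespace Fermat.Agent.S36

section

universe u v

variable {R : Type v} {F : Type u} [CommRing R] [Field F] [Algebra R F]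

/-- **`u ∉ n` at a point off the third branch.** -/
theorem sqc75_U_not_mem (π : R) (hπ0 : algebraMap R F π ≠ 0) (B : Subalgebra R F)
    (V₁ V₂ V₃ : Subring F)
    (hB₁ : ∀ x ∈ B, x ∈ V₁) (hB₂ : ∀ x ∈ B, x ∈ V₂) (hB₃ : ∀ x ∈ B, x ∈ V₃)
    (hsat : ∀ x ∈ B, (algebraMap R F π)⁻¹ * x ∈ V₁ → (algebraMap R F π)⁻¹ * x ∈ V₂ →
      (algebraMap R F π)⁻¹ * x ∈ V₃ → (algebraMap R F π)⁻¹ * x ∈ B)
    (n : Ideal B) [hn : n.IsPrime] (U Vv s₀ : B) (hs₀ : s₀ ∉ n)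
    (hUV : (U : F) * (Vv : F) = algebraMap R F π ^ 12 * (s₀ : F))
    (hU₁ : (U : F)⁻¹ ∈ V₁) (hU₂ : (U : F)⁻¹ ∈ V₂)
    (a : B) (ha : a ∉ n) (ha₃ : (algebraMap R F π)⁻¹ * (a : F) ∈ V₃) : U ∉ n := by
  have hπB : algebraMap R F π ∈ B := B.algebraMap_mem π
  have hs0 : (s₀ : F) ≠ 0 := by
    intro h
    apply hs₀
    have : s₀ = 0 := Subtype.ext h
    rw [this]
    exact n.zero_mem
  have hU0 : (U : F) ≠ 0 := by
    intro h
    rw [h, zero_mul] at hUV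
    exact mul_ne_zero (pow_ne_zero 12 hπ0) hs0 hUV.symm
  have hVv : (Vv : F) = algebraMap R F π ^ 12 * (s₀ : F) * (U : F)⁻¹ := by
    rw [← hUV]
    field_simp
  have hx : (a : F) ^ 12 * (Vv : F) ∈ B := B.mul_mem (B.pow_mem a.2 12) Vv.2
  have hsat' : ∀ x ∈ B, (algebraMap R F π)⁻¹ * x ∈ V₁ ⊓ V₂ → (algebraMap R F π)⁻¹ * x ∈ V₃ →
      (algebraMap R F π)⁻¹ * x ∈ B := fun x hx h12 h3 =>
    hsat x hx (Subring.mem_inf.mp h12).1 (Subring.mem_inf.mp h12).2 h3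
  have hc : ((algebraMap R F π)⁻¹) ^ 12 * ((a : F) ^ 12 * (Vv : F)) ∈ B := by
    refine nf40_sat_pow π B (V₁ ⊓ V₂) V₃ hsat' _ hx 12 ?_
    intro j h1 h2
    obtain ⟨i, hi⟩ : ∃ i : ℕ, 12 = j + i := ⟨12 - j, by omega⟩
    have hjj : ((algebraMap R F π)⁻¹) ^ j * algebraMap R F π ^ j = 1 := by
      rw [← mul_pow, inv_mul_cancel₀ hπ0, one_pow]
    constructor
    · have e : ((algebraMap R F π)⁻¹) ^ j * ((a : F) ^ 12 * (Vv : F)) =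
          (a : F) ^ 12 * (algebraMap R F π ^ i * (s₀ : F) * (U : F)⁻¹) := by
        rw [hVv, hi, pow_add]
        linear_combination
          ((a : F) ^ (j + i) * algebraMap R F π ^ i * (s₀ : F) * (U : F)⁻¹) * hjj
      rw [e]
      refine Subring.mem_inf.mpr ⟨?_, ?_⟩
      · exact V₁.mul_mem (V₁.pow_mem (hB₁ _ a.2) 12)
          (V₁.mul_mem (V₁.mul_mem (V₁.pow_mem (hB₁ _ hπB) i) (hB₁ _ s₀.2)) hU₁)
      · exact V₂.mul_mem (V₂.pow_mem (hB₂ _ a.2) 12)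
          (V₂.mul_mem (V₂.mul_mem (V₂.pow_mem (hB₂ _ hπB) i) (hB₂ _ s₀.2)) hU₂)
    · have e : ((algebraMap R F π)⁻¹) ^ j * ((a : F) ^ 12 * (Vv : F)) =
          ((algebraMap R F π)⁻¹ * (a : F)) ^ j * ((a : F) ^ i * (Vv : F)) := by
        rw [hi, pow_add]
        ring
      rw [e]
      exact V₃.mul_mem (V₃.pow_mem ha₃ j)
        (V₃.mul_mem (V₃.pow_mem (hB₃ _ a.2) i) (hB₃ _ Vv.2))
  intro hUn
  have h12 : a ^ 12 * s₀ ∈ n := by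
    have e : a ^ 12 * s₀ = ⟨_, hc⟩ * U := by
      apply Subtype.ext
      show (a : F) ^ 12 * (s₀ : F) =
        ((algebraMap R F π)⁻¹) ^ 12 * ((a : F) ^ 12 * (Vv : F)) * (U : F)
      have h1 : ((algebraMap R F π)⁻¹) ^ 12 * algebraMap R F π ^ 12 = 1 := by
        rw [← mul_pow, inv_mul_cancel₀ hπ0, one_pow]
      have h2 : ((algebraMap R F π)⁻¹) ^ 12 * ((a : F) ^ 12 * (Vv : F)) * (U : F) =
          ((algebraMap R F π)⁻¹) ^ 12 * (a : F) ^ 12 * ((U : F) * (Vv : F)) := by ring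
      rw [h2, hUV]
      linear_combination (-((a : F) ^ 12 * (s₀ : F))) * h1
    rw [e]
    exact n.mul_mem_left _ hUn
  rcases hn.mem_or_mem h12 with h | h
  · exact ha (hn.mem_of_pow_mem 12 h)
  · exact hs₀ h

/-- **`q ∈ {2, 3}`: `j`, `j_q`, `j_q - 1728` are units at every point of the middle branch off
the third branch.** -/
theorem sqc75_j_not_mem (π : R) (hπ0 : algebraMap R F π ≠ 0) (B : Subalgebra R F)
    (V₁ V₂ V₃ : Subring F)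
    (hB₁ : ∀ x ∈ B, x ∈ V₁) (hB₂ : ∀ x ∈ B, x ∈ V₂) (hB₃ : ∀ x ∈ B, x ∈ V₃)
    (hsat : ∀ x ∈ B, (algebraMap R F π)⁻¹ * x ∈ V₁ → (algebraMap R F π)⁻¹ * x ∈ V₂ →
      (algebraMap R F π)⁻¹ * x ∈ V₃ → (algebraMap R F π)⁻¹ * x ∈ B)
    (n : Ideal B) [hn : n.IsPrime] (q : ℕ) (hq : q = 2 ∨ q = 3) (hqn : ((q : ℕ) : B) ∈ n)
    (p : F) (hOn : ∀ x : B, p⁻¹ * (x : F) ∈ V₂ → x ∈ n)
    (U Vv s₀ : B) (hs₀ : s₀ ∉ n)
    (hUV : (U : F) * (Vv : F) = algebraMap R F π ^ 12 * (s₀ : F))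
    (hU₁ : (U : F)⁻¹ ∈ V₁) (hU₂ : (U : F)⁻¹ ∈ V₂)
    (a : B) (ha : a ∉ n) (ha₃ : (algebraMap R F π)⁻¹ * (a : F) ∈ V₃)
    (j jq : B) (hcong : p⁻¹ * ((U : F) - (j : F) ^ (q - 1)) ∈ V₂)
    (hfrob : p⁻¹ * ((jq : F) - (j : F) ^ q) ∈ V₂) :
    j ∉ n ∧ jq ∉ n ∧ jq - 1728 ∉ n := by
  have hU : U ∉ n := sqc75_U_not_mem π hπ0 B V₁ V₂ V₃ hB₁ hB₂ hB₃ hsat n U Vv s₀ hs₀ hUV hU₁ hU₂
    a ha ha₃
  have hj : j ∉ n := uj65_not_mem p B V₂ n hOn U j (q - 1)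
    (by rcases hq with rfl | rfl <;> norm_num) hU hcong
  have hfr : jq - j ^ q ∈ n := by
    apply hOn
    push_cast
    exact hfrob
  have hjq : jq ∉ n := ujh65_frob n j jq q hfr hj
  have h1728 : (1728 : B) ∈ n := by
    rcases hq with rfl | rfl
    · have e : (1728 : B) = ((2 : ℕ) : B) * 864 := by norm_num
      rw [e]
      exact n.mul_mem_right _ hqn
    · have e : (1728 : B) = ((3 : ℕ) : B) * 576 := by norm_num
      rw [e]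
      exact n.mul_mem_right _ hqn
  refine ⟨hj, hjq, ?_⟩
  intro h
  apply hjq
  have e : jq = (jq - 1728) + 1728 := by ring
  rw [e]
  exact n.add_mem h h1728

/-- **`q ∈ {2, 3}`: the inputs `(aw tw haw hw)` of `c2c24_maximalIdeal_eq` at EVERY point of the
middle branch off the third branch.** -/
theorem sqc75_nozero (π : R) (hπ0 : algebraMap R F π ≠ 0) (B : Subalgebra R F)
    (hroot : ∀ x : F, x ^ 6 ∈ B → x ∈ B) (V₁ V₂ V₃ : Subring F)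
    (hB₁ : ∀ x ∈ B, x ∈ V₁) (hB₂ : ∀ x ∈ B, x ∈ V₂) (hB₃ : ∀ x ∈ B, x ∈ V₃)
    (hsat : ∀ x ∈ B, (algebraMap R F π)⁻¹ * x ∈ V₁ → (algebraMap R F π)⁻¹ * x ∈ V₂ →
      (algebraMap R F π)⁻¹ * x ∈ V₃ → (algebraMap R F π)⁻¹ * x ∈ B)
    (n : Ideal B) [hn : n.IsPrime] (q : ℕ) (hq : q = 2 ∨ q = 3) (hqn : ((q : ℕ) : B) ∈ n)
    (p : F) (hOn : ∀ x : B, p⁻¹ * (x : F) ∈ V₂ → x ∈ n)
    (U Vv s₀ : B) (hs₀ : s₀ ∉ n)
    (hUV : (U : F) * (Vv : F) = algebraMap R F π ^ 12 * (s₀ : F))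
    (hU₁ : (U : F)⁻¹ ∈ V₁) (hU₂ : (U : F)⁻¹ ∈ V₂)
    (a : B) (ha : a ∉ n) (ha₃ : (algebraMap R F π)⁻¹ * (a : F) ∈ V₃)
    (j jq : B) (hcong : p⁻¹ * ((U : F) - (j : F) ^ (q - 1)) ∈ V₂)
    (hfrob : p⁻¹ * ((jq : F) - (j : F) ^ q) ∈ V₂)
    (w : F) (h6 : w ^ 6 * ((j : F) ^ 4 * ((j : F) - 1728) ^ 3 * (U : F)) =
      (jq : F) ^ 4 * ((jq : F) - 1728) ^ 3) :
    ∃ aw tw : B, aw ∉ n ∧ w * (tw : F) = (aw : F) := by
  obtain ⟨-, hjq, hjq'⟩ := sqc75_j_not_mem π hπ0 B V₁ V₂ V₃ hB₁ hB₂ hB₃ hsat n q hq hqn p hOn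
    U Vv s₀ hs₀ hUV hU₁ hU₂ a ha ha₃ j jq hcong hfrob
  exact uw31_nozero_j B hroot n w j jq U h6 hjq hjq'

end

end Fermat.Agent.S36
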