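import Fermat.Agent.S34.FrameLSInf7

/-!
# S36 lab, row 592 B1-3a (helper7): (3a) for the first component `V₁ = cm85_Vinf M`
of a chart at ANY level `M` above a good level `M'`

* `sm7_F1_trans` : residue degree one (`bi93_F1`) is transitive along `M' ∣ N ∣ M`.
* `sm7_smooth1_level2/3` : for `M' ∣ M`, `M'` a good level (`p₀ ∣ M'`, `M'` a unit of `R`) and
  residue degree one `bi93_F1 M' M`, both affine charts `{h}`, `{h⁻¹}` of the Hauptmodul of
  level `p₀` at level `M` satisfy `sf79_Smooth π B V₁` for `V₁ = cm85_Vinf M` (the literal `hS₁`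
  of `tl71_twoGen`).  No hypothesis on the other vertical components.
* `sm7_F1_sq` : `bi93_F1 M' (M' * q * q)` from the level-`q` step `fl7_F1` and the step
  `bi93_F1 (M' * q) (M' * q * q)` (output of the only-extension package at `q ∣ N`).
* `sm7_smooth1_sq_level2/3` : (3a)₁ at level `M' * q * q`.

All names are prefixed `sm7_`.
-/

set_option autoImplicit false
set_option linter.unusedSectionVars false
set_option linter.style.haveILetI false

open ModularCurve AlgebraicCurve

namespace Fermat.Agent.S36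

open Fermat.Agent.S18 Fermat.Agent.S24 Fermat.Agent.S34

local notation "Q̄" => AlgebraicClosure ℚ

section sm7_gen

variable {R K : Type} [CommRing R] [IsDomain R] [IsDiscreteValuationRing R] [Field K] [CharZero K]
  [Algebra R K] [IsFractionRing R K]

/-- **Residue degree one is transitive** along `M' ∣ N ∣ M`. -/
theorem sm7_F1_trans (M' N M : ℕ) [NeZero M'] [NeZero N] [NeZero M]
    [Algebra R ↥(modularFunctionFieldFullC K M')]
    [IsScalarTower R K ↥(modularFunctionFieldFullC K M')]
    [Algebra R ↥(modularFunctionFieldFullC K N)]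
    [IsScalarTower R K ↥(modularFunctionFieldFullC K N)]
    [Algebra R ↥(modularFunctionFieldFullC K M)]
    [IsScalarTower R K ↥(modularFunctionFieldFullC K M)]
    (h1 : M' ∣ N) (h2 : N ∣ M) {π : R} (hπ : Irreducible π)
    (hf1 : bi93_F1 (K := K) M' N h1 hπ) (hf2 : bi93_F1 (K := K) N M h2 hπ) :
    bi93_F1 (K := K) M' M (h1.trans h2) hπ := by
  intro x hx
  obtain ⟨b, hb, hxb⟩ := hf2 x hx
  obtain ⟨c, hc, hbc⟩ := hf1 b hb
  refine ⟨c, hc, ?_⟩
  have hcomp : cm15_incl K M' M (h1.trans h2) c = cm15_incl K N M h2 (cm15_incl K M' N h1 c) :=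
    Subtype.ext (by
      have e1 : ((cm15_incl K M' M (h1.trans h2) c : ↥(modularFunctionFieldFullC K M)) :
          LaurentSeries K) = (c : LaurentSeries K) :=
        IntermediateField.coe_inclusion (full_degeneracyC_le K (h1.trans h2)) c
      have e2 : ((cm15_incl K N M h2 (cm15_incl K M' N h1 c) :
          ↥(modularFunctionFieldFullC K M)) : LaurentSeries K) =
          ((cm15_incl K M' N h1 c : ↥(modularFunctionFieldFullC K N)) : LaurentSeries K) :=
        IntermediateField.coe_inclusion (full_degeneracyC_le K h2) _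
      have e3 : ((cm15_incl K M' N h1 c : ↥(modularFunctionFieldFullC K N)) :
          LaurentSeries K) = (c : LaurentSeries K) :=
        IntermediateField.coe_inclusion (full_degeneracyC_le K h1) c
      rw [e1, e2, e3])
  have hconv : algebraMap R ↥(modularFunctionFieldFullC K M) π =
      algebraMap K ↥(modularFunctionFieldFullC K M) (algebraMap R K π) :=
    IsScalarTower.algebraMap_apply R K ↥(modularFunctionFieldFullC K M) π
  have hπ0 : algebraMap R ↥(modularFunctionFieldFullC K M) π ≠ 0 := by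
    rw [hconv]
    intro h0
    have h1' : algebraMap R K π = 0 :=
      (map_eq_zero (algebraMap K ↥(modularFunctionFieldFullC K M))).mp h0
    exact hπ.ne_zero ((map_eq_zero_iff _ (IsFractionRing.injective R K)).mp h1')
  have himg := wi18_incl_mem N M h2 hπ _ hbc
  have e : (algebraMap R ↥(modularFunctionFieldFullC K M) π)⁻¹ *
      (x - cm15_incl K M' M (h1.trans h2) c) =
      (algebraMap R ↥(modularFunctionFieldFullC K M) π)⁻¹ * (x - cm15_incl K N M h2 b) +
        cm15_incl K N M h2 ((algebraMap R ↥(modularFunctionFieldFullC K N) π)⁻¹ *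
          (b - cm15_incl K M' N h1 c)) := by
    rw [hcomp, map_mul, map_inv₀, wi18_incl_algebraMap N M h2 π, map_sub]
    ring
  rw [e]
  exact (cm85_Vinf (K := K) M hπ).add_mem _ _ hxb himg

variable [Algebra K Q̄] [Algebra.IsAlgebraic K Q̄]

/-- **(3a)₁, level 2**: both affine charts of `h = pk85_h2 K M` at level `M` are smooth along
the first component `V₁ = cm85_Vinf M`, as soon as `V₁` has residue degree one over the Gauss
ring of the good level `M'`. -/
theorem sm7_smooth1_level2 (M' M : ℕ) [NeZero M'] [NeZero M]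
    [Algebra R ↥(modularFunctionFieldFullC K M')]
    [IsScalarTower R K ↥(modularFunctionFieldFullC K M')]
    [Algebra R ↥(modularFunctionFieldFullC K M)]
    [IsScalarTower R K ↥(modularFunctionFieldFullC K M)]
    (hdvd : M' ∣ M) {π : R} (hπ : Irreducible π) (h2 : 2 ∣ M')
    (hMu : IsUnit (M' : R)) (hf1 : bi93_F1 (K := K) M' M hdvd hπ) :
    sf79_Smooth π (pk15_chart R {pk85_h2 K M (h2.trans hdvd)})
        (cm85_Vinf (K := K) M hπ).toSubring ∧
      sf79_Smooth π (pk15_chart R {(pk85_h2 K M (h2.trans hdvd))⁻¹})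
        (cm85_Vinf (K := K) M hπ).toSubring := by
  obtain ⟨⟨-, hU₁⟩, ⟨-, hU₂⟩⟩ := bi93_level2 (R := R) (K := K) M' M hdvd hπ h2 hMu hf1
  exact ⟨fl7_smooth_of_unif M' M hdvd hπ _ _ hU₁, fl7_smooth_of_unif M' M hdvd hπ _ _ hU₂⟩

/-- **(3a)₁, level 3**. -/
theorem sm7_smooth1_level3 (M' M : ℕ) [NeZero M'] [NeZero M]
    [Algebra R ↥(modularFunctionFieldFullC K M')]
    [IsScalarTower R K ↥(modularFunctionFieldFullC K M')]
    [Algebra R ↥(modularFunctionFieldFullC K M)]
    [IsScalarTower R K ↥(modularFunctionFieldFullC K M)]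
    (hdvd : M' ∣ M) {π : R} (hπ : Irreducible π) (h3 : 3 ∣ M')
    (hMu : IsUnit (M' : R)) (hf1 : bi93_F1 (K := K) M' M hdvd hπ) :
    sf79_Smooth π (pk15_chart R {pk85_h3 K M (h3.trans hdvd)})
        (cm85_Vinf (K := K) M hπ).toSubring ∧
      sf79_Smooth π (pk15_chart R {(pk85_h3 K M (h3.trans hdvd))⁻¹})
        (cm85_Vinf (K := K) M hπ).toSubring := by
  obtain ⟨⟨-, hU₁⟩, ⟨-, hU₂⟩⟩ := bi93_level3 (R := R) (K := K) M' M hdvd hπ h3 hMu hf1
  exact ⟨fl7_smooth_of_unif M' M hdvd hπ _ _ hU₁, fl7_smooth_of_unif M' M hdvd hπ _ _ hU₂⟩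

/-- **Residue degree one of the Gauss ring of level `M' q²` over that of level `M'`**, from the
step `M' q → M' q²` (the only-extension package at `q ∣ N`). -/
theorem sm7_F1_sq (M' q : ℕ) [NeZero M'] [NeZero q] (hq : q.Prime) (hM' : ¬ q ∣ M')
    [Algebra R ↥(modularFunctionFieldFullC K M')]
    [IsScalarTower R K ↥(modularFunctionFieldFullC K M')]
    [Algebra R ↥(modularFunctionFieldFullC K (M' * q))]
    [IsScalarTower R K ↥(modularFunctionFieldFullC K (M' * q))]
    [Algebra R ↥(modularFunctionFieldFullC K (M' * q * q))]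
    [IsScalarTower R K ↥(modularFunctionFieldFullC K (M' * q * q))]
    {π : R} (hπ : Irreducible π) (hqR : ¬ IsUnit (q : R))
    (hstep : bi93_F1 (K := K) (M' * q) (M' * q * q) (dvd_mul_right (M' * q) q) hπ) :
    bi93_F1 (K := K) M' (M' * q * q)
      ((dvd_mul_right M' q).trans (dvd_mul_right (M' * q) q)) hπ :=
  sm7_F1_trans M' (M' * q) (M' * q * q) (dvd_mul_right M' q) (dvd_mul_right (M' * q) q) hπ
    (fl7_F1 (R := R) (K := K) M' q hq hM' hπ hqR) hstep

/-- **(3a)₁ at level `M' q²`, level 2**: both affine charts of `h = pk85_h2 K (M' q²)` are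
smooth along `V₁ = cm85_Vinf (M' q²)`. -/
theorem sm7_smooth1_sq_level2 (M' q : ℕ) [NeZero M'] [NeZero q] (hq : q.Prime) (hM' : ¬ q ∣ M')
    [Algebra R ↥(modularFunctionFieldFullC K M')]
    [IsScalarTower R K ↥(modularFunctionFieldFullC K M')]
    [Algebra R ↥(modularFunctionFieldFullC K (M' * q))]
    [IsScalarTower R K ↥(modularFunctionFieldFullC K (M' * q))]
    [Algebra R ↥(modularFunctionFieldFullC K (M' * q * q))]
    [IsScalarTower R K ↥(modularFunctionFieldFullC K (M' * q * q))]
    {π : R} (hπ : Irreducible π) (hqR : ¬ IsUnit (q : R)) (h2 : 2 ∣ M') (hMu : IsUnit (M' : R))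
    (hstep : bi93_F1 (K := K) (M' * q) (M' * q * q) (dvd_mul_right (M' * q) q) hπ) :
    sf79_Smooth π (pk15_chart R {pk85_h2 K (M' * q * q)
          (h2.trans ((dvd_mul_right M' q).trans (dvd_mul_right (M' * q) q)))})
        (cm85_Vinf (K := K) (M' * q * q) hπ).toSubring ∧
      sf79_Smooth π (pk15_chart R {(pk85_h2 K (M' * q * q)
          (h2.trans ((dvd_mul_right M' q).trans (dvd_mul_right (M' * q) q))))⁻¹})
        (cm85_Vinf (K := K) (M' * q * q) hπ).toSubring :=
  sm7_smooth1_level2 M' (M' * q * q) ((dvd_mul_right M' q).trans (dvd_mul_right (M' * q) q)) hπ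
    h2 hMu (sm7_F1_sq M' q hq hM' hπ hqR hstep)

/-- **(3a)₁ at level `M' q²`, level 3**. -/
theorem sm7_smooth1_sq_level3 (M' q : ℕ) [NeZero M'] [NeZero q] (hq : q.Prime) (hM' : ¬ q ∣ M')
    [Algebra R ↥(modularFunctionFieldFullC K M')]
    [IsScalarTower R K ↥(modularFunctionFieldFullC K M')]
    [Algebra R ↥(modularFunctionFieldFullC K (M' * q))]
    [IsScalarTower R K ↥(modularFunctionFieldFullC K (M' * q))]
    [Algebra R ↥(modularFunctionFieldFullC K (M' * q * q))]
    [IsScalarTower R K ↥(modularFunctionFieldFullC K (M' * q * q))]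
    {π : R} (hπ : Irreducible π) (hqR : ¬ IsUnit (q : R)) (h3 : 3 ∣ M') (hMu : IsUnit (M' : R))
    (hstep : bi93_F1 (K := K) (M' * q) (M' * q * q) (dvd_mul_right (M' * q) q) hπ) :
    sf79_Smooth π (pk15_chart R {pk85_h3 K (M' * q * q)
          (h3.trans ((dvd_mul_right M' q).trans (dvd_mul_right (M' * q) q)))})
        (cm85_Vinf (K := K) (M' * q * q) hπ).toSubring ∧
      sf79_Smooth π (pk15_chart R {(pk85_h3 K (M' * q * q)
          (h3.trans ((dvd_mul_right M' q).trans (dvd_mul_right (M' * q) q))))⁻¹})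
        (cm85_Vinf (K := K) (M' * q * q) hπ).toSubring :=
  sm7_smooth1_level3 M' (M' * q * q) ((dvd_mul_right M' q).trans (dvd_mul_right (M' * q) q)) hπ
    h3 hMu (sm7_F1_sq M' q hq hM' hπ hqR hstep)

end sm7_gen

end Fermat.Agent.S36
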