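import Fermat.Agent.S36.Smooth1_7
import Fermat.Agent.S36.NormSqBeta86
import Fermat.Agent.S34.BranchZeroInst13

/-!
# S36 lab, row 592 B1-3a (helper7): (3a) for the THIRD component `V₃ = V₁.comap w₂`
of the charts at level `M' q²`, by `w_{q²}`-transport

Canonical data at level `M' * q * q` (`q ∤ M'`): `V₁ = cm85_Vinf (M' * q * q) hπ`,
`w₂ = als86_w2 (algebraMap K ℚ̄) M' q hq hM' _` (helper86), `V₃ = nsb86_V3 M' q hq hM' hπ`,
`h = pk85_h2 / pk85_h3 K (M' * q * q)` the Hauptmodul of level `p₀ ∈ {2, 3}`, `p₀ ∣ M'`.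

* `sm7_w2`, `sm7_w2_algebraMap`, `sm7_w2_haupt` (`w₂ h = h(Q^(q²))`), `sm7_w2_mid`
  (`w₂` fixes `h(Q^q)`).
* `sm7_charts_stable_gen` : `w₂(B) = B` for `B = pk15_chart R {h}`, `{h⁻¹}` from the four
  integrality statements between `h` and `g₁ = h(Q^q)` (`hi70_level2_full` / `hi70_level3_full`).
* `sm7_smooth3_level2/3` : `sf79_Smooth π B V₁ → sf79_Smooth π B V₃` for both affine charts.
* `sm7_smooth13_sq_level2/3` : **(3a)₁ and (3a)₃ at level `M' q²`** for both affine charts, from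
  the single input `hstep : bi93_F1 (M' q) (M' q²)` (`obf72_F1`, helper72): the literal `hS₁`,
  `hS₃` of `tl71_twoGen`.

All names are prefixed `sm7_`.
-/

set_option autoImplicit false
set_option linter.unusedSectionVars false
set_option linter.style.haveILetI false

open ModularCurve AlgebraicCurve

namespace Fermat.Agent.S36

open Fermat.Agent.S18 Fermat.Agent.S24 Fermat.Agent.S34

section sm7_three

variable {R K : Type} [CommRing R] [IsDomain R] [IsDiscreteValuationRing R] [Field K]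
  [CharZero K] [Algebra R K] [IsFractionRing R K] [Algebra K Kbar]
  (M' q : ℕ) [NeZero M'] [NeZero q] (hq : q.Prime) (hM' : ¬ q ∣ M')

/-- The Atkin–Lehner involution `w_{q²}` of `F_K(M' q²)` as a ring automorphism. -/
noncomputable def sm7_w2 : ↥(modularFunctionFieldFullC K (M' * q * q)) ≃+*
    ↥(modularFunctionFieldFullC K (M' * q * q)) :=
  (als86_w2 (algebraMap K Kbar) M' q hq hM' (nsb86_hL K (M' * q * q))).toRingEquiv

theorem sm7_w2_apply (x : ↥(modularFunctionFieldFullC K (M' * q * q))) :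
    sm7_w2 M' q hq hM' x =
      als86_w2 (algebraMap K Kbar) M' q hq hM' (nsb86_hL K (M' * q * q)) x := rfl

theorem sm7_w2_symm_apply (x : ↥(modularFunctionFieldFullC K (M' * q * q))) :
    (sm7_w2 M' q hq hM').symm x = sm7_w2 M' q hq hM' x := rfl

/-- `w₂` maps a function of level `M'` (seen at level `M' q²` through `α ∘ α`) to its
`β ∘ β`-image `f(Q^(q²))`. -/
theorem sm7_w2_haupt (h' : ↥(modularFunctionFieldFullC K M'))
    (h : ↥(modularFunctionFieldFullC K (M' * q * q)))
    (hcoe : (h : LaurentSeries K) = (h' : LaurentSeries K)) :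
    sm7_w2 M' q hq hM' h = al97L_beta K (M' * q) q (al97L_beta K M' q h') := by
  have e : h = al97L_alpha K (M' * q) q (al97L_alpha K M' q h') :=
    Subtype.ext (by rw [al97L_alpha_coe, al97L_alpha_coe]; exact hcoe)
  rw [e, sm7_w2_apply, als86_w2_alpha, al97L_w_alpha_apply]

/-- `w₂` fixes `g₁ = f(Q^q)` for `f` of level `M'`. -/
theorem sm7_w2_mid (h' : ↥(modularFunctionFieldFullC K M'))
    (g₁ : ↥(modularFunctionFieldFullC K (M' * q * q)))
    (hg₁ : (g₁ : LaurentSeries K) = qExpand K q (h' : LaurentSeries K)) :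
    sm7_w2 M' q hq hM' g₁ = g₁ := by
  have e : g₁ = al97L_beta K (M' * q) q (al97L_alpha K M' q h') :=
    Subtype.ext (by rw [al97L_beta_coe, al97L_alpha_coe]; exact hg₁)
  have e' : al97L_alpha K (M' * q) q (al97L_beta K M' q h') = g₁ :=
    Subtype.ext (by rw [al97L_alpha_coe, al97L_beta_coe]; exact hg₁.symm)
  rw [sm7_w2_apply]
  conv_lhs => rw [e]
  rw [als86_w2_beta, al97L_w_alpha_apply, e']

variable [Algebra R ↥(modularFunctionFieldFullC K (M' * q * q))]
  [IsScalarTower R K ↥(modularFunctionFieldFullC K (M' * q * q))]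

theorem sm7_w2_algebraMap (r : R) :
    sm7_w2 M' q hq hM' (algebraMap R ↥(modularFunctionFieldFullC K (M' * q * q)) r) =
      algebraMap R ↥(modularFunctionFieldFullC K (M' * q * q)) r := by
  rw [IsScalarTower.algebraMap_apply R K ↥(modularFunctionFieldFullC K (M' * q * q)), sm7_w2_apply]
  exact AlgEquiv.commutes _ _

/-- **`w₂(B) = B`** for the two affine charts of `h`, from the four integrality statements between
`h` and `g₁ = h(Q^q)`. -/
theorem sm7_charts_stable_gen (h' : ↥(modularFunctionFieldFullC K M'))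
    (h g₁ : ↥(modularFunctionFieldFullC K (M' * q * q)))
    (hcoe : (h : LaurentSeries K) = (h' : LaurentSeries K))
    (hg₁ : (g₁ : LaurentSeries K) = qExpand K q (h' : LaurentSeries K))
    (ia : IsIntegral (Algebra.adjoin R ({h} : Set ↥(modularFunctionFieldFullC K (M' * q * q)))) g₁)
    (ib : IsIntegral (Algebra.adjoin R ({h⁻¹} : Set ↥(modularFunctionFieldFullC K (M' * q * q))))
      g₁⁻¹)
    (ic : IsIntegral (Algebra.adjoin R ({g₁} : Set ↥(modularFunctionFieldFullC K (M' * q * q)))) h)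
    (id : IsIntegral (Algebra.adjoin R ({g₁⁻¹} : Set ↥(modularFunctionFieldFullC K (M' * q * q))))
      h⁻¹) :
    (∀ z : ↥(modularFunctionFieldFullC K (M' * q * q)),
      sm7_w2 M' q hq hM' z ∈
          pk15_chart R ({h} : Set ↥(modularFunctionFieldFullC K (M' * q * q))) ↔
        z ∈ pk15_chart R ({h} : Set ↥(modularFunctionFieldFullC K (M' * q * q)))) ∧
    (∀ z : ↥(modularFunctionFieldFullC K (M' * q * q)),
      sm7_w2 M' q hq hM' z ∈
          pk15_chart R ({h⁻¹} : Set ↥(modularFunctionFieldFullC K (M' * q * q))) ↔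
        z ∈ pk15_chart R ({h⁻¹} : Set ↥(modularFunctionFieldFullC K (M' * q * q)))) := by
  have hwR := sm7_w2_algebraMap (R := R) (K := K) M' q hq hM'
  have hwg := sm7_w2_mid M' q hq hM' h' g₁ hg₁
  have k1 : IsIntegral (Algebra.adjoin R ({g₁} : Set ↥(modularFunctionFieldFullC K (M' * q * q))))
      (sm7_w2 M' q hq hM' h) := by
    have h1 := bz7_isIntegral_map
      ((sm7_w2 M' q hq hM' : ↥(modularFunctionFieldFullC K (M' * q * q)) ≃+*
        ↥(modularFunctionFieldFullC K (M' * q * q))) :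
        ↥(modularFunctionFieldFullC K (M' * q * q)) →+*
          ↥(modularFunctionFieldFullC K (M' * q * q))) hwR
      ({g₁} : Set ↥(modularFunctionFieldFullC K (M' * q * q))) h ic
    rw [Set.image_singleton, RingEquiv.coe_toRingHom, hwg] at h1
    exact h1
  have k2 : IsIntegral
      (Algebra.adjoin R ({g₁⁻¹} : Set ↥(modularFunctionFieldFullC K (M' * q * q))))
      (sm7_w2 M' q hq hM' h)⁻¹ := by
    have h1 := bz7_isIntegral_map
      ((sm7_w2 M' q hq hM' : ↥(modularFunctionFieldFullC K (M' * q * q)) ≃+*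
        ↥(modularFunctionFieldFullC K (M' * q * q))) :
        ↥(modularFunctionFieldFullC K (M' * q * q)) →+*
          ↥(modularFunctionFieldFullC K (M' * q * q))) hwR
      ({g₁⁻¹} : Set ↥(modularFunctionFieldFullC K (M' * q * q))) h⁻¹ id
    rw [Set.image_singleton, RingEquiv.coe_toRingHom, map_inv₀, map_inv₀, hwg] at h1
    exact h1
  have i1 : IsIntegral (Algebra.adjoin R ({h} : Set ↥(modularFunctionFieldFullC K (M' * q * q))))
      (sm7_w2 M' q hq hM' h) :=
    bz7_isIntegral_trans _ _ (fun y hy => by rw [Set.mem_singleton_iff.mp hy]; exact ia) _ k1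
  have i2 : IsIntegral
      (Algebra.adjoin R ({h⁻¹} : Set ↥(modularFunctionFieldFullC K (M' * q * q))))
      (sm7_w2 M' q hq hM' h)⁻¹ :=
    bz7_isIntegral_trans _ _ (fun y hy => by rw [Set.mem_singleton_iff.mp hy]; exact ib) _ k2
  obtain ⟨s1, s2, -⟩ := bz7_charts_stable (sm7_w2 M' q hq hM') hwR h i1 i2 i1 i2
  exact ⟨s1, s2⟩

/-- **(3a)₃ from (3a)₁** for the two affine charts of `h` (generic form). -/
theorem sm7_smooth3_gen {π : R} (hπ : Irreducible π) (h' : ↥(modularFunctionFieldFullC K M'))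
    (h g₁ : ↥(modularFunctionFieldFullC K (M' * q * q)))
    (hcoe : (h : LaurentSeries K) = (h' : LaurentSeries K))
    (hg₁ : (g₁ : LaurentSeries K) = qExpand K q (h' : LaurentSeries K))
    (ia : IsIntegral (Algebra.adjoin R ({h} : Set ↥(modularFunctionFieldFullC K (M' * q * q)))) g₁)
    (ib : IsIntegral (Algebra.adjoin R ({h⁻¹} : Set ↥(modularFunctionFieldFullC K (M' * q * q))))
      g₁⁻¹)
    (ic : IsIntegral (Algebra.adjoin R ({g₁} : Set ↥(modularFunctionFieldFullC K (M' * q * q)))) h)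
    (id : IsIntegral (Algebra.adjoin R ({g₁⁻¹} : Set ↥(modularFunctionFieldFullC K (M' * q * q))))
      h⁻¹) :
    (sf79_Smooth π (pk15_chart R ({h} : Set ↥(modularFunctionFieldFullC K (M' * q * q))))
        (cm85_Vinf (K := K) (M' * q * q) hπ).toSubring →
      sf79_Smooth π (pk15_chart R ({h} : Set ↥(modularFunctionFieldFullC K (M' * q * q))))
        (nsb86_V3 (K := K) M' q hq hM' hπ).toSubring) ∧
    (sf79_Smooth π (pk15_chart R ({h⁻¹} : Set ↥(modularFunctionFieldFullC K (M' * q * q))))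
        (cm85_Vinf (K := K) (M' * q * q) hπ).toSubring →
      sf79_Smooth π (pk15_chart R ({h⁻¹} : Set ↥(modularFunctionFieldFullC K (M' * q * q))))
        (nsb86_V3 (K := K) M' q hq hM' hπ).toSubring) := by
  obtain ⟨hB1, hB2⟩ := sm7_charts_stable_gen (R := R) M' q hq hM' h' h g₁ hcoe hg₁ ia ib ic id
  exact ⟨bz13_smooth_comap π _ (sm7_w2 M' q hq hM') (sm7_w2_algebraMap (R := R) (K := K) M' q hq hM') hB1
      _ _ (fun x => Iff.rfl),
    bz13_smooth_comap π _ (sm7_w2 M' q hq hM') (sm7_w2_algebraMap (R := R) (K := K) M' q hq hM') hB2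
      _ _ (fun x => Iff.rfl)⟩

/-- **(3a)₃ from (3a)₁, level 2.** -/
theorem sm7_smooth3_level2 {π : R} (hπ : Irreducible π) (h2 : 2 ∣ M') (hMu : IsUnit (M' : R)) :
    (sf79_Smooth π (pk15_chart R {pk85_h2 K (M' * q * q)
          (h2.trans ((dvd_mul_right M' q).trans (dvd_mul_right (M' * q) q)))})
        (cm85_Vinf (K := K) (M' * q * q) hπ).toSubring →
      sf79_Smooth π (pk15_chart R {pk85_h2 K (M' * q * q)
          (h2.trans ((dvd_mul_right M' q).trans (dvd_mul_right (M' * q) q)))})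
        (nsb86_V3 (K := K) M' q hq hM' hπ).toSubring) ∧
    (sf79_Smooth π (pk15_chart R {(pk85_h2 K (M' * q * q)
          (h2.trans ((dvd_mul_right M' q).trans (dvd_mul_right (M' * q) q))))⁻¹})
        (cm85_Vinf (K := K) (M' * q * q) hπ).toSubring →
      sf79_Smooth π (pk15_chart R {(pk85_h2 K (M' * q * q)
          (h2.trans ((dvd_mul_right M' q).trans (dvd_mul_right (M' * q) q))))⁻¹})
        (nsb86_V3 (K := K) M' q hq hM' hπ).toSubring) := by
  have hq2 : q ≠ 2 := by
    rintro rfl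
    exact hM' h2
  have hu : IsUnit (2 : R) := by
    obtain ⟨k, hk⟩ := h2
    have e : (M' : R) = (2 : R) * (k : R) := by rw [hk]; push_cast; ring
    rw [e] at hMu
    exact isUnit_of_mul_isUnit_left hMu
  have hM : 2 * q ∣ M' * q * q := by
    obtain ⟨k, hk⟩ := h2
    exact ⟨k * q, by rw [hk]; ring⟩
  let g₁ : ↥(modularFunctionFieldFullC K (M' * q * q)) :=
    al97L_beta K (M' * q) q (al97L_alpha K M' q (pk85_h2 K M' h2))
  have hg₁ : (g₁ : LaurentSeries K) = qExpand K q (h70_h2 K) := by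
    show ((al97L_beta K (M' * q) q (al97L_alpha K M' q (pk85_h2 K M' h2)) :
      ↥(modularFunctionFieldFullC K (M' * q * q))) : LaurentSeries K) = _
    rw [al97L_beta_coe, al97L_alpha_coe, pk85_h2_coe]
  obtain ⟨ia, ib, ic, id⟩ := hi70_level2_full (K := K) (M' * q * q) (R := R) q hq hq2 hu hM
    (pk85_h2 K (M' * q * q) (h2.trans ((dvd_mul_right M' q).trans (dvd_mul_right (M' * q) q))))
    g₁ (pk85_h2_coe K (M' * q * q) _) hg₁
  exact sm7_smooth3_gen (R := R) M' q hq hM' hπ (pk85_h2 K M' h2) _ g₁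
    (by rw [pk85_h2_coe, pk85_h2_coe]) (by rw [hg₁, pk85_h2_coe]) ia ib ic id

/-- **(3a)₃ from (3a)₁, level 3.** -/
theorem sm7_smooth3_level3 {π : R} (hπ : Irreducible π) (h3 : 3 ∣ M') (hMu : IsUnit (M' : R)) :
    (sf79_Smooth π (pk15_chart R {pk85_h3 K (M' * q * q)
          (h3.trans ((dvd_mul_right M' q).trans (dvd_mul_right (M' * q) q)))})
        (cm85_Vinf (K := K) (M' * q * q) hπ).toSubring →
      sf79_Smooth π (pk15_chart R {pk85_h3 K (M' * q * q)
          (h3.trans ((dvd_mul_right M' q).trans (dvd_mul_right (M' * q) q)))})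
        (nsb86_V3 (K := K) M' q hq hM' hπ).toSubring) ∧
    (sf79_Smooth π (pk15_chart R {(pk85_h3 K (M' * q * q)
          (h3.trans ((dvd_mul_right M' q).trans (dvd_mul_right (M' * q) q))))⁻¹})
        (cm85_Vinf (K := K) (M' * q * q) hπ).toSubring →
      sf79_Smooth π (pk15_chart R {(pk85_h3 K (M' * q * q)
          (h3.trans ((dvd_mul_right M' q).trans (dvd_mul_right (M' * q) q))))⁻¹})
        (nsb86_V3 (K := K) M' q hq hM' hπ).toSubring) := by
  have hq3 : q ≠ 3 := by
    rintro rfl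
    exact hM' h3
  have hu : IsUnit (3 : R) := by
    obtain ⟨k, hk⟩ := h3
    have e : (M' : R) = (3 : R) * (k : R) := by rw [hk]; push_cast; ring
    rw [e] at hMu
    exact isUnit_of_mul_isUnit_left hMu
  have hM : 3 * q ∣ M' * q * q := by
    obtain ⟨k, hk⟩ := h3
    exact ⟨k * q, by rw [hk]; ring⟩
  let g₁ : ↥(modularFunctionFieldFullC K (M' * q * q)) :=
    al97L_beta K (M' * q) q (al97L_alpha K M' q (pk85_h3 K M' h3))
  have hg₁ : (g₁ : LaurentSeries K) = qExpand K q (h34_h3R K) := by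
    show ((al97L_beta K (M' * q) q (al97L_alpha K M' q (pk85_h3 K M' h3)) :
      ↥(modularFunctionFieldFullC K (M' * q * q))) : LaurentSeries K) = _
    rw [al97L_beta_coe, al97L_alpha_coe, pk85_h3_coe]
  obtain ⟨ia, ib, ic, id⟩ := hi70_level3_full (K := K) (M' * q * q) (R := R) q hq hq3 hu hM
    (pk85_h3 K (M' * q * q) (h3.trans ((dvd_mul_right M' q).trans (dvd_mul_right (M' * q) q))))
    g₁ (pk85_h3_coe K (M' * q * q) _) hg₁
  exact sm7_smooth3_gen (R := R) M' q hq hM' hπ (pk85_h3 K M' h3) _ g₁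
    (by rw [pk85_h3_coe, pk85_h3_coe]) (by rw [hg₁, pk85_h3_coe]) ia ib ic id

variable [Algebra.IsAlgebraic K Kbar]
  [Algebra R ↥(modularFunctionFieldFullC K M')]
  [IsScalarTower R K ↥(modularFunctionFieldFullC K M')]
  [Algebra R ↥(modularFunctionFieldFullC K (M' * q))]
  [IsScalarTower R K ↥(modularFunctionFieldFullC K (M' * q))]

/-- **(3a)₁ and (3a)₃ at level `M' q²`, level 2**: both affine charts of the Hauptmodul are
smooth along `V₁ = cm85_Vinf (M' q²)` and along `V₃ = nsb86_V3`. -/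
theorem sm7_smooth13_sq_level2 {π : R} (hπ : Irreducible π) (hqR : ¬ IsUnit (q : R))
    (h2 : 2 ∣ M') (hMu : IsUnit (M' : R))
    (hstep : bi93_F1 (K := K) (M' * q) (M' * q * q) (dvd_mul_right (M' * q) q) hπ) :
    (sf79_Smooth π (pk15_chart R {pk85_h2 K (M' * q * q)
          (h2.trans ((dvd_mul_right M' q).trans (dvd_mul_right (M' * q) q)))})
        (cm85_Vinf (K := K) (M' * q * q) hπ).toSubring ∧
      sf79_Smooth π (pk15_chart R {pk85_h2 K (M' * q * q)
          (h2.trans ((dvd_mul_right M' q).trans (dvd_mul_right (M' * q) q)))})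
        (nsb86_V3 (K := K) M' q hq hM' hπ).toSubring) ∧
    (sf79_Smooth π (pk15_chart R {(pk85_h2 K (M' * q * q)
          (h2.trans ((dvd_mul_right M' q).trans (dvd_mul_right (M' * q) q))))⁻¹})
        (cm85_Vinf (K := K) (M' * q * q) hπ).toSubring ∧
      sf79_Smooth π (pk15_chart R {(pk85_h2 K (M' * q * q)
          (h2.trans ((dvd_mul_right M' q).trans (dvd_mul_right (M' * q) q))))⁻¹})
        (nsb86_V3 (K := K) M' q hq hM' hπ).toSubring) := by
  obtain ⟨s1, s2⟩ := sm7_smooth1_sq_level2 (R := R) (K := K) M' q hq hM' hπ hqR h2 hMu hstep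
  obtain ⟨t1, t2⟩ := sm7_smooth3_level2 (R := R) (K := K) M' q hq hM' hπ h2 hMu
  exact ⟨⟨s1, t1 s1⟩, ⟨s2, t2 s2⟩⟩

/-- **(3a)₁ and (3a)₃ at level `M' q²`, level 3.** -/
theorem sm7_smooth13_sq_level3 {π : R} (hπ : Irreducible π) (hqR : ¬ IsUnit (q : R))
    (h3 : 3 ∣ M') (hMu : IsUnit (M' : R))
    (hstep : bi93_F1 (K := K) (M' * q) (M' * q * q) (dvd_mul_right (M' * q) q) hπ) :
    (sf79_Smooth π (pk15_chart R {pk85_h3 K (M' * q * q)
          (h3.trans ((dvd_mul_right M' q).trans (dvd_mul_right (M' * q) q)))})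
        (cm85_Vinf (K := K) (M' * q * q) hπ).toSubring ∧
      sf79_Smooth π (pk15_chart R {pk85_h3 K (M' * q * q)
          (h3.trans ((dvd_mul_right M' q).trans (dvd_mul_right (M' * q) q)))})
        (nsb86_V3 (K := K) M' q hq hM' hπ).toSubring) ∧
    (sf79_Smooth π (pk15_chart R {(pk85_h3 K (M' * q * q)
          (h3.trans ((dvd_mul_right M' q).trans (dvd_mul_right (M' * q) q))))⁻¹})
        (cm85_Vinf (K := K) (M' * q * q) hπ).toSubring ∧
      sf79_Smooth π (pk15_chart R {(pk85_h3 K (M' * q * q)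
          (h3.trans ((dvd_mul_right M' q).trans (dvd_mul_right (M' * q) q))))⁻¹})
        (nsb86_V3 (K := K) M' q hq hM' hπ).toSubring) := by
  obtain ⟨s1, s2⟩ := sm7_smooth1_sq_level3 (R := R) (K := K) M' q hq hM' hπ hqR h3 hMu hstep
  obtain ⟨t1, t2⟩ := sm7_smooth3_level3 (R := R) (K := K) M' q hq hM' hπ h3 hMu
  exact ⟨⟨s1, t1 s1⟩, ⟨s2, t2 s2⟩⟩

end sm7_three

end Fermat.Agent.S36
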