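import Fermat.Agent.S34.BranchInfAbs93
import Fermat.Agent.S34.LocStr63
import Fermat.Agent.S34.SpecFibre79
import Fermat.Agent.S34.BranchZero7

/-!
# S36 lab, row 592 B1-3a (helper7): (3a) for a REDUCED vertical component along ANY embedding

Abstract form of `bi93_surj` / `bi93_unif` (S34, helper93) for an arbitrary field embedding
`ι : F' →+* F` over `R` (NOT an inclusion of levels): `V'` a valuation subring of `F'` with
uniformiser `π`, `B'` an `R`-subalgebra of `F'` inside `V'`, saturated in `V'`, with fraction field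
`F'` and Dedekind special fibre `B' / π`; `V` a valuation subring of `F` with `ι(V') ⊆ V`,
`π⁻¹ ∉ V` and residue degree one over `ι(V')`; `B` an `R`-subalgebra of `F` inside `V`, integral
over `ι(B')` and containing `ι(B')`.

* `sa7_surj` : `B = ι(B') + (B ∩ π V)` elementwise.
* `sa7_smooth` : `sf79_Smooth π B V.toSubring` — every closed point of the branch `V` of `B` has a
  local coordinate (coming from `B'`).  This is (3a) for the component `V`; for the level-`q²`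
  frame it is used with `ι = β ∘ β` (`f ↦ f(q² τ)`) and `V = V₃`, and with `ι = α ∘ α` and `V = V₁`.
* `sa7_F1_comp` : residue degree one is transitive along a tower of embeddings.
* `sa7_isIntegral_map` : integrality over `R[s]` is transported by a ring homomorphism over `R`
  between two fields.

All names are prefixed `sa7_`.
-/

set_option autoImplicit false
set_option linter.unusedSectionVars false

namespace Fermat.Agent.S36

open Fermat.Agent.S34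

section sa7_abs

variable {R F' F : Type*} [CommRing R] [Field F'] [Field F] [Algebra R F'] [Algebra R F]

/-- **`B = ι(B') + (B ∩ π V)`**, elementwise: every `x ∈ V` integral over `ι(B')` is congruent
modulo `π V` to an element of `ι(B')`. -/
theorem sa7_surj (ι : F' →+* F) (hιR : ∀ r : R, ι (algebraMap R F' r) = algebraMap R F r)
    (π : R) (B' : Subalgebra R F') (V' : ValuationSubring F') (V : ValuationSubring F)
    (hπ0 : algebraMap R F' π ≠ 0)
    (hBV' : ∀ b ∈ B', b ∈ V')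
    (hsat : ∀ b ∈ B', (algebraMap R F' π)⁻¹ * b ∈ V' → (algebraMap R F' π)⁻¹ * b ∈ B')
    (harch : ∀ x : F', x ≠ 0 → ∃ n : ℕ, (algebraMap R F' π ^ n)⁻¹ * x ∉ V')
    (hfrac : ∀ x : F', ∃ a ∈ B', ∃ d ∈ B', d ≠ 0 ∧ x * d = a)
    (hmax : ∀ y ∈ V', y⁻¹ ∉ V' → (algebraMap R F' π)⁻¹ * y ∈ V')
    (hV'V : ∀ y ∈ V', ι y ∈ V)
    (hπV : (algebraMap R F π)⁻¹ ∉ V)
    [IsDedekindDomain (B' ⧸ Ideal.span {algebraMap R B' π})]
    (hf1 : ∀ x ∈ V, ∃ c ∈ V', (algebraMap R F π)⁻¹ * (x - ι c) ∈ V)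
    (x : F) (hxV : x ∈ V)
    (hint : ∃ p : Polynomial B', p.Monic ∧ p.eval₂ (ι.comp B'.val.toRingHom) x = 0) :
    ∃ x' ∈ B', (algebraMap R F π)⁻¹ * (x - ι x') ∈ V := by
  let j : ↥B' →+* F' := B'.val.toRingHom
  let ϖ : ↥B' := algebraMap R ↥B' π
  have hjϖ : j ϖ = algebraMap R F' π := rfl
  have hιϖ : ι (j ϖ) = algebraMap R F π := hιR π
  have hBV : ∀ b : ↥B', j b ∈ V' := fun b => hBV' b b.2
  have hsat' : ∀ b : ↥B', (j ϖ)⁻¹ * j b ∈ V' → ∃ e : ↥B', b = ϖ * e := by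
    intro b hb
    have h1 := hsat (b : F') b.2 hb
    refine ⟨⟨_, h1⟩, Subtype.ext ?_⟩
    show (b : F') = algebraMap R F' π * ((algebraMap R F' π)⁻¹ * b)
    rw [← mul_assoc, mul_inv_cancel₀ hπ0, one_mul]
  have hfrac' : ∀ c : F', ∃ a d : ↥B', j d ≠ 0 ∧ c * j d = j a := by
    intro c
    obtain ⟨a, ha, d, hd, hd0, hcd⟩ := hfrac c
    exact ⟨⟨a, ha⟩, ⟨d, hd⟩, hd0, hcd⟩
  have hfracV := bi93_frac j ϖ V' hπ0 hBV hsat' harch hfrac'
  have hVV' : ∀ y ∈ V', (ι (j ϖ))⁻¹ * ι y ∈ V → (j ϖ)⁻¹ * y ∈ V' := by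
    intro y hy h
    by_contra hcon
    have hyinv : y⁻¹ ∈ V' := by
      by_contra h'
      exact hcon (hmax y hy h')
    have hy0 : y ≠ 0 := by
      rintro rfl
      apply hcon
      rw [mul_zero]
      exact V'.zero_mem
    apply hπV
    have e : (algebraMap R F π)⁻¹ = (ι (j ϖ))⁻¹ * ι y * ι y⁻¹ := by
      rw [hιϖ, mul_assoc, ← map_mul, mul_inv_cancel₀ hy0, map_one, mul_one]
    rw [e]
    exact V.mul_mem _ _ h (hV'V _ hyinv)
  have hf1' : ∀ y ∈ V, ∃ c ∈ V', (ι (j ϖ))⁻¹ * (y - ι c) ∈ V := by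
    intro y hy
    rw [hιϖ]
    exact hf1 y hy
  obtain ⟨p, hp, hpx⟩ := hint
  obtain ⟨b', hb'⟩ := bi93_lift j ϖ ι V' V hBV hsat' hfracV hmax hV'V hVV' hf1' x hxV p hp hpx
  refine ⟨b', b'.2, ?_⟩
  rw [← hιϖ]
  exact hb'

/-- **(3a) for the branch `V` of `B`**: at every maximal ideal `n ∋ π` of `B` containing the
branch `B ∩ π V` there is a local coordinate of the branch (the image of an element of `B'`). -/
theorem sa7_smooth (ι : F' →+* F) (hιR : ∀ r : R, ι (algebraMap R F' r) = algebraMap R F r)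
    (π : R) (B' : Subalgebra R F') (B : Subalgebra R F)
    (V' : ValuationSubring F') (V : ValuationSubring F)
    (hπ0 : algebraMap R F' π ≠ 0)
    (hBV' : ∀ b ∈ B', b ∈ V')
    (hsat : ∀ b ∈ B', (algebraMap R F' π)⁻¹ * b ∈ V' → (algebraMap R F' π)⁻¹ * b ∈ B')
    (harch : ∀ x : F', x ≠ 0 → ∃ n : ℕ, (algebraMap R F' π ^ n)⁻¹ * x ∉ V')
    (hfrac : ∀ x : F', ∃ a ∈ B', ∃ d ∈ B', d ≠ 0 ∧ x * d = a)
    (hmax : ∀ y ∈ V', y⁻¹ ∉ V' → (algebraMap R F' π)⁻¹ * y ∈ V')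
    (hV'V : ∀ y ∈ V', ι y ∈ V)
    (hπV : (algebraMap R F π)⁻¹ ∉ V)
    [IsDedekindDomain (B' ⧸ Ideal.span {algebraMap R B' π})]
    (hf1 : ∀ x ∈ V, ∃ c ∈ V', (algebraMap R F π)⁻¹ * (x - ι c) ∈ V)
    (hBV : ∀ x ∈ B, x ∈ V)
    (hint : ∀ x ∈ B, ∃ p : Polynomial B', p.Monic ∧ p.eval₂ (ι.comp B'.val.toRingHom) x = 0)
    (himg : ∀ b ∈ B', ι b ∈ B) :
    sf79_Smooth π B V.toSubring := by
  intro n hn hπn hOn
  haveI hnp : n.IsPrime := hn.isPrime
  let j : ↥B' →+* F' := B'.val.toRingHom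
  let ϖ : ↥B' := algebraMap R ↥B' π
  have hιϖ : ι (j ϖ) = algebraMap R F π := hιR π
  have hπF0 : algebraMap R F π ≠ 0 := by
    rw [← hιR π]
    exact (map_ne_zero ι).mpr hπ0
  let α : ↥B' →+* ↥B := (ι.comp j).codRestrict B (fun b' => himg b' b'.2)
  have hα : ∀ b' : ↥B', ((α b' : ↥B) : F) = ι (j b') := fun _ => rfl
  have hϖn : α ϖ ∈ n := by
    have e : α ϖ = algebraMap R ↥B π := Subtype.ext (hιR π)
    rw [e]
    exact hπn
  have hle : Ideal.span {ϖ} ≤ n.comap α := by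
    rw [Ideal.span_le, Set.singleton_subset_iff]
    exact hϖn
  haveI : (n.comap α).IsPrime := Ideal.comap_isPrime α n
  obtain ⟨z', hz', hun⟩ := ls63_unif_of_dedekind (Ideal.span {ϖ}) (n.comap α) hle
  refine ⟨α z', hz', fun x hx => ?_⟩
  obtain ⟨x', hx'mem, hx'⟩ := sa7_surj ι hιR π B' V' V hπ0 hBV' hsat harch hfrac hmax hV'V hπV
    hf1 (x : F) (hBV _ x.2) (hint _ x.2)
  have hx''n : (⟨x', hx'mem⟩ : ↥B') ∈ n.comap α := by
    have h1 : x - α ⟨x', hx'mem⟩ ∈ n := hOn _ (by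
      have e : ((x - α ⟨x', hx'mem⟩ : ↥B) : F) = (x : F) - ι x' := rfl
      rw [e]
      exact hx')
    have h2 : α ⟨x', hx'mem⟩ = x - (x - α ⟨x', hx'mem⟩) := by ring
    show α ⟨x', hx'mem⟩ ∈ n
    rw [h2]
    exact n.sub_mem hx h1
  obtain ⟨s', hs', a', ha'⟩ := hun ⟨x', hx'mem⟩ hx''n
  obtain ⟨e', he'⟩ := Ideal.mem_span_singleton'.mp ha'
  refine ⟨α s', hs', α a', ?_⟩
  have he'' : ι (j s') * ι x' - ι (j a') * ι (j z') = algebraMap R F π * ι (j e') := by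
    have h1 := congrArg (fun t => ι (j t)) he'
    simp only [map_sub, map_mul] at h1
    rw [hιϖ] at h1
    rw [mul_comm (algebraMap R F π)]
    exact h1.symm
  have e : (algebraMap R F π)⁻¹ * (((α s' : ↥B) : F) * (x : F) -
        ((α a' : ↥B) : F) * ((α z' : ↥B) : F)) =
      ι (j s') * ((algebraMap R F π)⁻¹ * ((x : F) - ι x')) + ι (j e') := by
    rw [hα, hα, hα]
    have h3 : ι (j s') * (x : F) - ι (j a') * ι (j z') =
        ι (j s') * ((x : F) - ι x') + algebraMap R F π * ι (j e') := by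
      rw [← he'']
      ring
    rw [h3, mul_add, ← mul_assoc _ (algebraMap R F π), inv_mul_cancel₀ hπF0, one_mul]
    ring
  show (algebraMap R F π)⁻¹ * (((α s' : ↥B) : F) * (x : F) -
        ((α a' : ↥B) : F) * ((α z' : ↥B) : F)) ∈ V
  rw [e]
  exact V.add_mem _ _ (V.mul_mem _ _ (hV'V _ (hBV' _ s'.2)) hx') (hV'V _ (hBV' _ e'.2))

end sa7_abs

section sa7_tower

/-- **Residue degree one is transitive** along a tower of embeddings `F₀ → F₁ → F₂`. -/
theorem sa7_F1_comp {F₀ F₁ F₂ : Type*} [Field F₀] [Field F₁] [Field F₂]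
    (ι₁ : F₀ →+* F₁) (ι₂ : F₁ →+* F₂) (V₀ : Subring F₀) (V₁ : Subring F₁) (V₂ : Subring F₂)
    (p₁ : F₁) (p₂ : F₂) (hp : ι₂ p₁ = p₂) (hV : ∀ y ∈ V₁, ι₂ y ∈ V₂)
    (h1 : ∀ x ∈ V₁, ∃ c ∈ V₀, p₁⁻¹ * (x - ι₁ c) ∈ V₁)
    (h2 : ∀ x ∈ V₂, ∃ b ∈ V₁, p₂⁻¹ * (x - ι₂ b) ∈ V₂) :
    ∀ x ∈ V₂, ∃ c ∈ V₀, p₂⁻¹ * (x - (ι₂.comp ι₁) c) ∈ V₂ := by
  intro x hx
  obtain ⟨b, hb, hxb⟩ := h2 x hx
  obtain ⟨c, hc, hbc⟩ := h1 b hb
  refine ⟨c, hc, ?_⟩
  have e : p₂⁻¹ * (x - (ι₂.comp ι₁) c) =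
      p₂⁻¹ * (x - ι₂ b) + ι₂ (p₁⁻¹ * (b - ι₁ c)) := by
    rw [map_mul, map_inv₀, hp, map_sub, RingHom.comp_apply]
    ring
  rw [e]
  exact V₂.add_mem hxb (hV _ hbc)

variable {R F₁ F₂ : Type*} [CommRing R] [Field F₁] [Field F₂] [Algebra R F₁] [Algebra R F₂]

/-- Integrality over `R[s]` is transported by a ring homomorphism over `R`. -/
theorem sa7_isIntegral_map (w : F₁ →+* F₂)
    (hw : ∀ r : R, w (algebraMap R F₁ r) = algebraMap R F₂ r)
    (s : Set F₁) (z : F₁) (hz : IsIntegral (Algebra.adjoin R s) z) :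
    IsIntegral (Algebra.adjoin R (w '' s)) (w z) := by
  have hmem : ∀ y ∈ Algebra.adjoin R s, w y ∈ Algebra.adjoin R (w '' s) := by
    intro y hy
    induction hy using Algebra.adjoin_induction with
    | mem y hy => exact Algebra.subset_adjoin ⟨y, hy, rfl⟩
    | algebraMap r => rw [hw]; exact (Algebra.adjoin R (w '' s)).algebraMap_mem r
    | add a b _ _ ha hb => rw [map_add]; exact (Algebra.adjoin R (w '' s)).add_mem ha hb
    | mul a b _ _ ha hb => rw [map_mul]; exact (Algebra.adjoin R (w '' s)).mul_mem ha hb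
  let ρ : Algebra.adjoin R s →+* Algebra.adjoin R (w '' s) :=
    { toFun := fun y => ⟨w y, hmem y y.2⟩
      map_one' := Subtype.ext (map_one w)
      map_mul' := fun _ _ => Subtype.ext (map_mul w _ _)
      map_zero' := Subtype.ext (map_zero w)
      map_add' := fun _ _ => Subtype.ext (map_add w _ _) }
  obtain ⟨p, hp, hpz⟩ := hz
  refine ⟨p.map ρ, hp.map _, ?_⟩
  rw [Polynomial.eval₂_map]
  have hcomp : (algebraMap (Algebra.adjoin R (w '' s)) F₂).comp ρ =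
      w.comp (algebraMap (Algebra.adjoin R s) F₁) := RingHom.ext fun y => rfl
  rw [hcomp, ← Polynomial.hom_eval₂, hpz, map_zero]

end sa7_tower

end Fermat.Agent.S36
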