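import Fermat.Agent.S36.LocPrinStrongChart9
import Fermat.Agent.S36.FrameDatum85
import Fermat.Agent.S36.TwoGenInputs71

/-!
# S36 (helper9): the strong `(LP)` = (I6) on the CANONICAL charts of level `M' q q`

Frame: `V₁ = cm85_Vinf (M' * q * q) hπ`, `V₂` ANY valuation subring with the facts `hV₂ hπ₂ hne hs`
(`σ = v2g64_s K M' q`, `e = q - 1`), `V₃ = nsb86_V3 M' q hq hM' hπ`; charts
`B = pk15_chart R {h}`, `pk15_chart R {h⁻¹}`, `h = pk85_h2 / pk85_h3 K (M' * q * q) _`.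

`sc9_strong_level2`, `sc9_strong_level2_inv`, `sc9_strong_level3`, `sc9_strong_level3_inv`:
for every unit `u` of `V₁`, `V₂`, `V₃` with `s34i47_Ord π m u`, `s34i47_Fin π u`:
`lps9_Strong π m B V₁ V₂ V₃ u`, i.e. at every closed point `n` of the special fibre of `B` there is
`c ≠ 0`, a unit of every branch through `n`, with `u / c ^ m`, `c ^ m / u ∈ B_n`.

The ONLY hypotheses left are `tl71_TwoGen π B` (= `tg71_twoGen_of_out` / `tg7_twoGen_level2/3`) and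
the literal `hD₁`, `hD₃` on `B` (= the outputs of `tg71_hD_level2/3` / `tg71_hDb_level2/3`, i.e.
(REG-q) on the chart of level `M' q`).  `s34i47_ChartProps`, `π⁻¹ ∉ V i`, `hrad` come from
`fd85_frame_level2/3`; `σ ≠ 0`, `π⁻¹ σ ^ (q - 1) ∈ V₂` from `tg71_inputs`; Krull, `hfrac`,
saturation inside `lps9_strong_chart(_inv)`.

All names are prefixed `sc9_`.
-/

set_option autoImplicit false
set_option linter.unusedSectionVars false
set_option linter.unusedVariables false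
set_option linter.style.longLine false

open ModularCurve

namespace Fermat.Agent.S36

open Fermat.Agent.S34 Fermat.Agent.S18 Fermat.Agent.S24 Fermat.Agent.S36.TripleLoc71

local notation "Q̄" => AlgebraicClosure ℚ

section SC9

variable {R K : Type} [CommRing R] [IsDomain R] [IsDiscreteValuationRing R] [Field K]
  [NumberField K] [Algebra R K] [IsFractionRing R K] [Algebra K Q̄] [Algebra.IsAlgebraic K Q̄]
  (M' q : ℕ) [NeZero M'] [NeZero q] (hq : q.Prime) (hM' : ¬ q ∣ M')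
  {π : R} (hπ : Irreducible π)
  [Algebra R ↥(modularFunctionFieldFullC K M')]
  [IsScalarTower R K ↥(modularFunctionFieldFullC K M')]
  [Algebra R ↥(modularFunctionFieldFullC K (M' * q))]
  [IsScalarTower R K ↥(modularFunctionFieldFullC K (M' * q))]
  [Algebra R ↥(modularFunctionFieldFullC K (M' * q * q))]
  [IsScalarTower R K ↥(modularFunctionFieldFullC K (M' * q * q))]

include hq hM' in
/-- **(I6) on the canonical chart of `h`, Hauptmodul of level 2.** -/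
theorem sc9_strong_level2 (hqR : ¬ IsUnit (q : R)) (hMu : IsUnit (M' : R)) (h2 : 2 ∣ M')
    (V₂ : ValuationSubring ↥(modularFunctionFieldFullC K (M' * q * q)))
    (hV₂ : ∀ c ∈ cm85_Vinf (K := K) (M' * q) hπ, al97L_alpha K (M' * q) q c ∈ V₂)
    (hπ₂ : (algebraMap K ↥(modularFunctionFieldFullC K (M' * q * q)) (algebraMap R K π))⁻¹ ∉ V₂)
    (hne : cm85_Vinf (K := K) (M' * q * q) hπ ≠ V₂)
    (hs : V₂.valuation (v2g64_s K M' q) ^ (q - 1) =
      V₂.valuation (algebraMap K ↥(modularFunctionFieldFullC K (M' * q * q)) (algebraMap R K π)))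
    (hTG : tl71_TwoGen π (pk15_chart R ({(pk85_h2 K (M' * q * q) (h2.trans ((dvd_mul_right M' q).trans (dvd_mul_right (M' * q) q))))} : Set ↥(modularFunctionFieldFullC K (M' * q * q)))))
    (hD₁ : ∀ n : Ideal ↥(pk15_chart R ({(pk85_h2 K (M' * q * q) (h2.trans ((dvd_mul_right M' q).trans (dvd_mul_right (M' * q) q))))} : Set ↥(modularFunctionFieldFullC K (M' * q * q)))), n.IsMaximal →
      sf79_OnBr π (pk15_chart R ({(pk85_h2 K (M' * q * q) (h2.trans ((dvd_mul_right M' q).trans (dvd_mul_right (M' * q) q))))} : Set ↥(modularFunctionFieldFullC K (M' * q * q)))) (cm85_Vinf (K := K) (M' * q * q) hπ).toSubring n →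
      (tl71_OnMid (v2g64_s K M' q) (pk15_chart R ({(pk85_h2 K (M' * q * q) (h2.trans ((dvd_mul_right M' q).trans (dvd_mul_right (M' * q) q))))} : Set ↥(modularFunctionFieldFullC K (M' * q * q)))) V₂.toSubring n ∨
        sf79_OnBr π (pk15_chart R ({(pk85_h2 K (M' * q * q) (h2.trans ((dvd_mul_right M' q).trans (dvd_mul_right (M' * q) q))))} : Set ↥(modularFunctionFieldFullC K (M' * q * q)))) (nsb86_V3 (K := K) M' q hq hM' hπ).toSubring n) →
      tl71_DivAt π (pk15_chart R ({(pk85_h2 K (M' * q * q) (h2.trans ((dvd_mul_right M' q).trans (dvd_mul_right (M' * q) q))))} : Set ↥(modularFunctionFieldFullC K (M' * q * q)))) (cm85_Vinf (K := K) (M' * q * q) hπ).toSubring V₂.toSubring (nsb86_V3 (K := K) M' q hq hM' hπ).toSubring n)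
    (hD₃ : ∀ n : Ideal ↥(pk15_chart R ({(pk85_h2 K (M' * q * q) (h2.trans ((dvd_mul_right M' q).trans (dvd_mul_right (M' * q) q))))} : Set ↥(modularFunctionFieldFullC K (M' * q * q)))), n.IsMaximal →
      sf79_OnBr π (pk15_chart R ({(pk85_h2 K (M' * q * q) (h2.trans ((dvd_mul_right M' q).trans (dvd_mul_right (M' * q) q))))} : Set ↥(modularFunctionFieldFullC K (M' * q * q)))) (nsb86_V3 (K := K) M' q hq hM' hπ).toSubring n →
      (tl71_OnMid (v2g64_s K M' q) (pk15_chart R ({(pk85_h2 K (M' * q * q) (h2.trans ((dvd_mul_right M' q).trans (dvd_mul_right (M' * q) q))))} : Set ↥(modularFunctionFieldFullC K (M' * q * q)))) V₂.toSubring n ∨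
        sf79_OnBr π (pk15_chart R ({(pk85_h2 K (M' * q * q) (h2.trans ((dvd_mul_right M' q).trans (dvd_mul_right (M' * q) q))))} : Set ↥(modularFunctionFieldFullC K (M' * q * q)))) (cm85_Vinf (K := K) (M' * q * q) hπ).toSubring n) →
      tl71_DivAt π (pk15_chart R ({(pk85_h2 K (M' * q * q) (h2.trans ((dvd_mul_right M' q).trans (dvd_mul_right (M' * q) q))))} : Set ↥(modularFunctionFieldFullC K (M' * q * q)))) (nsb86_V3 (K := K) M' q hq hM' hπ).toSubring V₂.toSubring (cm85_Vinf (K := K) (M' * q * q) hπ).toSubring n)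
    (m : ℕ) (hm : 0 < m) (u : ↥(modularFunctionFieldFullC K (M' * q * q))) (hu : u ≠ 0)
    (hu₁ : u ∈ (cm85_Vinf (K := K) (M' * q * q) hπ) ∧ u⁻¹ ∈ (cm85_Vinf (K := K) (M' * q * q) hπ))
    (hu₂ : u ∈ V₂ ∧ u⁻¹ ∈ V₂)
    (hu₃ : u ∈ (nsb86_V3 (K := K) M' q hq hM' hπ) ∧ u⁻¹ ∈ (nsb86_V3 (K := K) M' q hq hM' hπ))
    (hOrd : s34i47_Ord π m u) (hFin : s34i47_Fin π u) :
    lps9_Strong π m (pk15_chart R ({(pk85_h2 K (M' * q * q) (h2.trans ((dvd_mul_right M' q).trans (dvd_mul_right (M' * q) q))))} : Set ↥(modularFunctionFieldFullC K (M' * q * q)))) (cm85_Vinf (K := K) (M' * q * q) hπ) V₂ (nsb86_V3 (K := K) M' q hq hM' hπ) u := by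
  obtain ⟨-, hC, hπV, hradV, -⟩ :=
    fd85_frame_level2 (R := R) (K := K) M' q hq hM' hπ hqR hMu h2 V₂ hV₂ hπ₂ hs
  obtain ⟨-, hσ0, -, hσe, -⟩ := tg71_inputs (K := K) M' q hq hM' hπ hqR V₂ hV₂ hπ₂ hne hs
  exact lps9_strong_chart π hπ _ (v2g64_s K M' q) (q - 1) (cm85_Vinf (K := K) (M' * q * q) hπ) V₂ (nsb86_V3 (K := K) M' q hq hM' hπ) hC hσ0 hσe
    (hπV 0) (hπV 1) (hπV 2) (hradV 0) (hradV 1) (hradV 2) hTG hD₁ hD₃ m hm u hu hu₁ hu₂ hu₃
    hOrd hFin

include hq hM' in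
/-- **(I6) on the canonical chart of `h⁻¹`, Hauptmodul of level 2.** -/
theorem sc9_strong_level2_inv (hqR : ¬ IsUnit (q : R)) (hMu : IsUnit (M' : R)) (h2 : 2 ∣ M')
    (V₂ : ValuationSubring ↥(modularFunctionFieldFullC K (M' * q * q)))
    (hV₂ : ∀ c ∈ cm85_Vinf (K := K) (M' * q) hπ, al97L_alpha K (M' * q) q c ∈ V₂)
    (hπ₂ : (algebraMap K ↥(modularFunctionFieldFullC K (M' * q * q)) (algebraMap R K π))⁻¹ ∉ V₂)
    (hne : cm85_Vinf (K := K) (M' * q * q) hπ ≠ V₂)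
    (hs : V₂.valuation (v2g64_s K M' q) ^ (q - 1) =
      V₂.valuation (algebraMap K ↥(modularFunctionFieldFullC K (M' * q * q)) (algebraMap R K π)))
    (hTG : tl71_TwoGen π (pk15_chart R ({(pk85_h2 K (M' * q * q) (h2.trans ((dvd_mul_right M' q).trans (dvd_mul_right (M' * q) q))))⁻¹} : Set ↥(modularFunctionFieldFullC K (M' * q * q)))))
    (hD₁ : ∀ n : Ideal ↥(pk15_chart R ({(pk85_h2 K (M' * q * q) (h2.trans ((dvd_mul_right M' q).trans (dvd_mul_right (M' * q) q))))⁻¹} : Set ↥(modularFunctionFieldFullC K (M' * q * q)))), n.IsMaximal →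
      sf79_OnBr π (pk15_chart R ({(pk85_h2 K (M' * q * q) (h2.trans ((dvd_mul_right M' q).trans (dvd_mul_right (M' * q) q))))⁻¹} : Set ↥(modularFunctionFieldFullC K (M' * q * q)))) (cm85_Vinf (K := K) (M' * q * q) hπ).toSubring n →
      (tl71_OnMid (v2g64_s K M' q) (pk15_chart R ({(pk85_h2 K (M' * q * q) (h2.trans ((dvd_mul_right M' q).trans (dvd_mul_right (M' * q) q))))⁻¹} : Set ↥(modularFunctionFieldFullC K (M' * q * q)))) V₂.toSubring n ∨
        sf79_OnBr π (pk15_chart R ({(pk85_h2 K (M' * q * q) (h2.trans ((dvd_mul_right M' q).trans (dvd_mul_right (M' * q) q))))⁻¹} : Set ↥(modularFunctionFieldFullC K (M' * q * q)))) (nsb86_V3 (K := K) M' q hq hM' hπ).toSubring n) →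
      tl71_DivAt π (pk15_chart R ({(pk85_h2 K (M' * q * q) (h2.trans ((dvd_mul_right M' q).trans (dvd_mul_right (M' * q) q))))⁻¹} : Set ↥(modularFunctionFieldFullC K (M' * q * q)))) (cm85_Vinf (K := K) (M' * q * q) hπ).toSubring V₂.toSubring (nsb86_V3 (K := K) M' q hq hM' hπ).toSubring n)
    (hD₃ : ∀ n : Ideal ↥(pk15_chart R ({(pk85_h2 K (M' * q * q) (h2.trans ((dvd_mul_right M' q).trans (dvd_mul_right (M' * q) q))))⁻¹} : Set ↥(modularFunctionFieldFullC K (M' * q * q)))), n.IsMaximal →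
      sf79_OnBr π (pk15_chart R ({(pk85_h2 K (M' * q * q) (h2.trans ((dvd_mul_right M' q).trans (dvd_mul_right (M' * q) q))))⁻¹} : Set ↥(modularFunctionFieldFullC K (M' * q * q)))) (nsb86_V3 (K := K) M' q hq hM' hπ).toSubring n →
      (tl71_OnMid (v2g64_s K M' q) (pk15_chart R ({(pk85_h2 K (M' * q * q) (h2.trans ((dvd_mul_right M' q).trans (dvd_mul_right (M' * q) q))))⁻¹} : Set ↥(modularFunctionFieldFullC K (M' * q * q)))) V₂.toSubring n ∨
        sf79_OnBr π (pk15_chart R ({(pk85_h2 K (M' * q * q) (h2.trans ((dvd_mul_right M' q).trans (dvd_mul_right (M' * q) q))))⁻¹} : Set ↥(modularFunctionFieldFullC K (M' * q * q)))) (cm85_Vinf (K := K) (M' * q * q) hπ).toSubring n) →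
      tl71_DivAt π (pk15_chart R ({(pk85_h2 K (M' * q * q) (h2.trans ((dvd_mul_right M' q).trans (dvd_mul_right (M' * q) q))))⁻¹} : Set ↥(modularFunctionFieldFullC K (M' * q * q)))) (nsb86_V3 (K := K) M' q hq hM' hπ).toSubring V₂.toSubring (cm85_Vinf (K := K) (M' * q * q) hπ).toSubring n)
    (m : ℕ) (hm : 0 < m) (u : ↥(modularFunctionFieldFullC K (M' * q * q))) (hu : u ≠ 0)
    (hu₁ : u ∈ (cm85_Vinf (K := K) (M' * q * q) hπ) ∧ u⁻¹ ∈ (cm85_Vinf (K := K) (M' * q * q) hπ))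
    (hu₂ : u ∈ V₂ ∧ u⁻¹ ∈ V₂)
    (hu₃ : u ∈ (nsb86_V3 (K := K) M' q hq hM' hπ) ∧ u⁻¹ ∈ (nsb86_V3 (K := K) M' q hq hM' hπ))
    (hOrd : s34i47_Ord π m u) (hFin : s34i47_Fin π u) :
    lps9_Strong π m (pk15_chart R ({(pk85_h2 K (M' * q * q) (h2.trans ((dvd_mul_right M' q).trans (dvd_mul_right (M' * q) q))))⁻¹} : Set ↥(modularFunctionFieldFullC K (M' * q * q)))) (cm85_Vinf (K := K) (M' * q * q) hπ) V₂ (nsb86_V3 (K := K) M' q hq hM' hπ) u := by
  obtain ⟨-, hC, hπV, hradV, -⟩ :=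
    fd85_frame_level2 (R := R) (K := K) M' q hq hM' hπ hqR hMu h2 V₂ hV₂ hπ₂ hs
  obtain ⟨-, hσ0, -, hσe, -⟩ := tg71_inputs (K := K) M' q hq hM' hπ hqR V₂ hV₂ hπ₂ hne hs
  exact lps9_strong_chart_inv π hπ _ (v2g64_s K M' q) (q - 1) (cm85_Vinf (K := K) (M' * q * q) hπ) V₂ (nsb86_V3 (K := K) M' q hq hM' hπ) hC hσ0 hσe
    (hπV 0) (hπV 1) (hπV 2) (hradV 0) (hradV 1) (hradV 2) hTG hD₁ hD₃ m hm u hu hu₁ hu₂ hu₃
    hOrd hFin

include hq hM' in
/-- **(I6) on the canonical chart of `h`, Hauptmodul of level 3.** -/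
theorem sc9_strong_level3 (hqR : ¬ IsUnit (q : R)) (hMu : IsUnit (M' : R)) (h3 : 3 ∣ M')
    (V₂ : ValuationSubring ↥(modularFunctionFieldFullC K (M' * q * q)))
    (hV₂ : ∀ c ∈ cm85_Vinf (K := K) (M' * q) hπ, al97L_alpha K (M' * q) q c ∈ V₂)
    (hπ₂ : (algebraMap K ↥(modularFunctionFieldFullC K (M' * q * q)) (algebraMap R K π))⁻¹ ∉ V₂)
    (hne : cm85_Vinf (K := K) (M' * q * q) hπ ≠ V₂)
    (hs : V₂.valuation (v2g64_s K M' q) ^ (q - 1) =
      V₂.valuation (algebraMap K ↥(modularFunctionFieldFullC K (M' * q * q)) (algebraMap R K π)))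
    (hTG : tl71_TwoGen π (pk15_chart R ({(pk85_h3 K (M' * q * q) (h3.trans ((dvd_mul_right M' q).trans (dvd_mul_right (M' * q) q))))} : Set ↥(modularFunctionFieldFullC K (M' * q * q)))))
    (hD₁ : ∀ n : Ideal ↥(pk15_chart R ({(pk85_h3 K (M' * q * q) (h3.trans ((dvd_mul_right M' q).trans (dvd_mul_right (M' * q) q))))} : Set ↥(modularFunctionFieldFullC K (M' * q * q)))), n.IsMaximal →
      sf79_OnBr π (pk15_chart R ({(pk85_h3 K (M' * q * q) (h3.trans ((dvd_mul_right M' q).trans (dvd_mul_right (M' * q) q))))} : Set ↥(modularFunctionFieldFullC K (M' * q * q)))) (cm85_Vinf (K := K) (M' * q * q) hπ).toSubring n →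
      (tl71_OnMid (v2g64_s K M' q) (pk15_chart R ({(pk85_h3 K (M' * q * q) (h3.trans ((dvd_mul_right M' q).trans (dvd_mul_right (M' * q) q))))} : Set ↥(modularFunctionFieldFullC K (M' * q * q)))) V₂.toSubring n ∨
        sf79_OnBr π (pk15_chart R ({(pk85_h3 K (M' * q * q) (h3.trans ((dvd_mul_right M' q).trans (dvd_mul_right (M' * q) q))))} : Set ↥(modularFunctionFieldFullC K (M' * q * q)))) (nsb86_V3 (K := K) M' q hq hM' hπ).toSubring n) →
      tl71_DivAt π (pk15_chart R ({(pk85_h3 K (M' * q * q) (h3.trans ((dvd_mul_right M' q).trans (dvd_mul_right (M' * q) q))))} : Set ↥(modularFunctionFieldFullC K (M' * q * q)))) (cm85_Vinf (K := K) (M' * q * q) hπ).toSubring V₂.toSubring (nsb86_V3 (K := K) M' q hq hM' hπ).toSubring n)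
    (hD₃ : ∀ n : Ideal ↥(pk15_chart R ({(pk85_h3 K (M' * q * q) (h3.trans ((dvd_mul_right M' q).trans (dvd_mul_right (M' * q) q))))} : Set ↥(modularFunctionFieldFullC K (M' * q * q)))), n.IsMaximal →
      sf79_OnBr π (pk15_chart R ({(pk85_h3 K (M' * q * q) (h3.trans ((dvd_mul_right M' q).trans (dvd_mul_right (M' * q) q))))} : Set ↥(modularFunctionFieldFullC K (M' * q * q)))) (nsb86_V3 (K := K) M' q hq hM' hπ).toSubring n →
      (tl71_OnMid (v2g64_s K M' q) (pk15_chart R ({(pk85_h3 K (M' * q * q) (h3.trans ((dvd_mul_right M' q).trans (dvd_mul_right (M' * q) q))))} : Set ↥(modularFunctionFieldFullC K (M' * q * q)))) V₂.toSubring n ∨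
        sf79_OnBr π (pk15_chart R ({(pk85_h3 K (M' * q * q) (h3.trans ((dvd_mul_right M' q).trans (dvd_mul_right (M' * q) q))))} : Set ↥(modularFunctionFieldFullC K (M' * q * q)))) (cm85_Vinf (K := K) (M' * q * q) hπ).toSubring n) →
      tl71_DivAt π (pk15_chart R ({(pk85_h3 K (M' * q * q) (h3.trans ((dvd_mul_right M' q).trans (dvd_mul_right (M' * q) q))))} : Set ↥(modularFunctionFieldFullC K (M' * q * q)))) (nsb86_V3 (K := K) M' q hq hM' hπ).toSubring V₂.toSubring (cm85_Vinf (K := K) (M' * q * q) hπ).toSubring n)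
    (m : ℕ) (hm : 0 < m) (u : ↥(modularFunctionFieldFullC K (M' * q * q))) (hu : u ≠ 0)
    (hu₁ : u ∈ (cm85_Vinf (K := K) (M' * q * q) hπ) ∧ u⁻¹ ∈ (cm85_Vinf (K := K) (M' * q * q) hπ))
    (hu₂ : u ∈ V₂ ∧ u⁻¹ ∈ V₂)
    (hu₃ : u ∈ (nsb86_V3 (K := K) M' q hq hM' hπ) ∧ u⁻¹ ∈ (nsb86_V3 (K := K) M' q hq hM' hπ))
    (hOrd : s34i47_Ord π m u) (hFin : s34i47_Fin π u) :
    lps9_Strong π m (pk15_chart R ({(pk85_h3 K (M' * q * q) (h3.trans ((dvd_mul_right M' q).trans (dvd_mul_right (M' * q) q))))} : Set ↥(modularFunctionFieldFullC K (M' * q * q)))) (cm85_Vinf (K := K) (M' * q * q) hπ) V₂ (nsb86_V3 (K := K) M' q hq hM' hπ) u := by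
  obtain ⟨-, hC, hπV, hradV, -⟩ :=
    fd85_frame_level3 (R := R) (K := K) M' q hq hM' hπ hqR hMu h3 V₂ hV₂ hπ₂ hs
  obtain ⟨-, hσ0, -, hσe, -⟩ := tg71_inputs (K := K) M' q hq hM' hπ hqR V₂ hV₂ hπ₂ hne hs
  exact lps9_strong_chart π hπ _ (v2g64_s K M' q) (q - 1) (cm85_Vinf (K := K) (M' * q * q) hπ) V₂ (nsb86_V3 (K := K) M' q hq hM' hπ) hC hσ0 hσe
    (hπV 0) (hπV 1) (hπV 2) (hradV 0) (hradV 1) (hradV 2) hTG hD₁ hD₃ m hm u hu hu₁ hu₂ hu₃
    hOrd hFin

include hq hM' in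
/-- **(I6) on the canonical chart of `h⁻¹`, Hauptmodul of level 3.** -/
theorem sc9_strong_level3_inv (hqR : ¬ IsUnit (q : R)) (hMu : IsUnit (M' : R)) (h3 : 3 ∣ M')
    (V₂ : ValuationSubring ↥(modularFunctionFieldFullC K (M' * q * q)))
    (hV₂ : ∀ c ∈ cm85_Vinf (K := K) (M' * q) hπ, al97L_alpha K (M' * q) q c ∈ V₂)
    (hπ₂ : (algebraMap K ↥(modularFunctionFieldFullC K (M' * q * q)) (algebraMap R K π))⁻¹ ∉ V₂)
    (hne : cm85_Vinf (K := K) (M' * q * q) hπ ≠ V₂)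
    (hs : V₂.valuation (v2g64_s K M' q) ^ (q - 1) =
      V₂.valuation (algebraMap K ↥(modularFunctionFieldFullC K (M' * q * q)) (algebraMap R K π)))
    (hTG : tl71_TwoGen π (pk15_chart R ({(pk85_h3 K (M' * q * q) (h3.trans ((dvd_mul_right M' q).trans (dvd_mul_right (M' * q) q))))⁻¹} : Set ↥(modularFunctionFieldFullC K (M' * q * q)))))
    (hD₁ : ∀ n : Ideal ↥(pk15_chart R ({(pk85_h3 K (M' * q * q) (h3.trans ((dvd_mul_right M' q).trans (dvd_mul_right (M' * q) q))))⁻¹} : Set ↥(modularFunctionFieldFullC K (M' * q * q)))), n.IsMaximal →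
      sf79_OnBr π (pk15_chart R ({(pk85_h3 K (M' * q * q) (h3.trans ((dvd_mul_right M' q).trans (dvd_mul_right (M' * q) q))))⁻¹} : Set ↥(modularFunctionFieldFullC K (M' * q * q)))) (cm85_Vinf (K := K) (M' * q * q) hπ).toSubring n →
      (tl71_OnMid (v2g64_s K M' q) (pk15_chart R ({(pk85_h3 K (M' * q * q) (h3.trans ((dvd_mul_right M' q).trans (dvd_mul_right (M' * q) q))))⁻¹} : Set ↥(modularFunctionFieldFullC K (M' * q * q)))) V₂.toSubring n ∨
        sf79_OnBr π (pk15_chart R ({(pk85_h3 K (M' * q * q) (h3.trans ((dvd_mul_right M' q).trans (dvd_mul_right (M' * q) q))))⁻¹} : Set ↥(modularFunctionFieldFullC K (M' * q * q)))) (nsb86_V3 (K := K) M' q hq hM' hπ).toSubring n) →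
      tl71_DivAt π (pk15_chart R ({(pk85_h3 K (M' * q * q) (h3.trans ((dvd_mul_right M' q).trans (dvd_mul_right (M' * q) q))))⁻¹} : Set ↥(modularFunctionFieldFullC K (M' * q * q)))) (cm85_Vinf (K := K) (M' * q * q) hπ).toSubring V₂.toSubring (nsb86_V3 (K := K) M' q hq hM' hπ).toSubring n)
    (hD₃ : ∀ n : Ideal ↥(pk15_chart R ({(pk85_h3 K (M' * q * q) (h3.trans ((dvd_mul_right M' q).trans (dvd_mul_right (M' * q) q))))⁻¹} : Set ↥(modularFunctionFieldFullC K (M' * q * q)))), n.IsMaximal →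
      sf79_OnBr π (pk15_chart R ({(pk85_h3 K (M' * q * q) (h3.trans ((dvd_mul_right M' q).trans (dvd_mul_right (M' * q) q))))⁻¹} : Set ↥(modularFunctionFieldFullC K (M' * q * q)))) (nsb86_V3 (K := K) M' q hq hM' hπ).toSubring n →
      (tl71_OnMid (v2g64_s K M' q) (pk15_chart R ({(pk85_h3 K (M' * q * q) (h3.trans ((dvd_mul_right M' q).trans (dvd_mul_right (M' * q) q))))⁻¹} : Set ↥(modularFunctionFieldFullC K (M' * q * q)))) V₂.toSubring n ∨
        sf79_OnBr π (pk15_chart R ({(pk85_h3 K (M' * q * q) (h3.trans ((dvd_mul_right M' q).trans (dvd_mul_right (M' * q) q))))⁻¹} : Set ↥(modularFunctionFieldFullC K (M' * q * q)))) (cm85_Vinf (K := K) (M' * q * q) hπ).toSubring n) →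
      tl71_DivAt π (pk15_chart R ({(pk85_h3 K (M' * q * q) (h3.trans ((dvd_mul_right M' q).trans (dvd_mul_right (M' * q) q))))⁻¹} : Set ↥(modularFunctionFieldFullC K (M' * q * q)))) (nsb86_V3 (K := K) M' q hq hM' hπ).toSubring V₂.toSubring (cm85_Vinf (K := K) (M' * q * q) hπ).toSubring n)
    (m : ℕ) (hm : 0 < m) (u : ↥(modularFunctionFieldFullC K (M' * q * q))) (hu : u ≠ 0)
    (hu₁ : u ∈ (cm85_Vinf (K := K) (M' * q * q) hπ) ∧ u⁻¹ ∈ (cm85_Vinf (K := K) (M' * q * q) hπ))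
    (hu₂ : u ∈ V₂ ∧ u⁻¹ ∈ V₂)
    (hu₃ : u ∈ (nsb86_V3 (K := K) M' q hq hM' hπ) ∧ u⁻¹ ∈ (nsb86_V3 (K := K) M' q hq hM' hπ))
    (hOrd : s34i47_Ord π m u) (hFin : s34i47_Fin π u) :
    lps9_Strong π m (pk15_chart R ({(pk85_h3 K (M' * q * q) (h3.trans ((dvd_mul_right M' q).trans (dvd_mul_right (M' * q) q))))⁻¹} : Set ↥(modularFunctionFieldFullC K (M' * q * q)))) (cm85_Vinf (K := K) (M' * q * q) hπ) V₂ (nsb86_V3 (K := K) M' q hq hM' hπ) u := by
  obtain ⟨-, hC, hπV, hradV, -⟩ :=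
    fd85_frame_level3 (R := R) (K := K) M' q hq hM' hπ hqR hMu h3 V₂ hV₂ hπ₂ hs
  obtain ⟨-, hσ0, -, hσe, -⟩ := tg71_inputs (K := K) M' q hq hM' hπ hqR V₂ hV₂ hπ₂ hne hs
  exact lps9_strong_chart_inv π hπ _ (v2g64_s K M' q) (q - 1) (cm85_Vinf (K := K) (M' * q * q) hπ) V₂ (nsb86_V3 (K := K) M' q hq hM' hπ) hC hσ0 hσe
    (hπV 0) (hπV 1) (hπV 2) (hradV 0) (hradV 1) (hradV 2) hTG hD₁ hD₃ m hm u hu hu₁ hu₂ hu₃
    hOrd hFin

end SC9

end Fermat.Agent.S36
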