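import Mathlib
import Fermat.Agent.S35.FlatKer70
import Fermat.Agent.S35.FlatKerFam56

/-!
# S36, endgame (helper18): the TRANSFER `(INV)` on `J` ⟹ kill on `O ⊗ J` (abstract part)

`O` flat over `ℤ`, `J` an abelian group with a family of additive operators `act σ` (`σ ∈ H`, the
inertia group; NO finiteness of `H`), two "newness" maps `A : J → J₁`, `B : J → J₂`.

* `tr18_lift`  : an element of the `O`-span of pure tensors `1 ⊗ l`, `l` in the image of
  `i : N → L`, comes from `O ⊗ N`;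
* `tr18_kill`  : **if `c` kills every `x ∈ J[m]` (`m ≠ 0`) fixed by all `act σ`, `σ ∈ H`, with
  `A x = 0 = B x`, then `c` kills every `y ∈ O ⊗ J` with `m y = 0`, `(1 ⊗ act σ) y = y` for all
  `σ ∈ H`, `(1 ⊗ A) y = 0 = (1 ⊗ B) y`.**

Proof: flat kernels (`fk70_*`, `fkf56_*` of the S35 lab) for `A`, `B` and multiplication by `m`;
`y` then lives on a finitely generated subgroup `L₁` of `J[m] ∩ ker A ∩ ker B`, which is FINITE, so
the fixed-point conditions for the (infinitely many) `σ ∈ H` reduce to finitely many (one `σ` for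
each fixed-point set in `L₁`), and the flat kernel for a finite family applies.

All names are prefixed `tr18_`.
-/

set_option autoImplicit false

open scoped TensorProduct

namespace Fermat.Agent.S36

open Fermat.Agent.S35

section tr18

variable {O : Type*} [CommRing O]

/-- Lifting along `i : N → L`: an element of the `O`-span of the pure tensors `1 ⊗ l`, `l ∈ S`,
with `S` contained in the image of `i`, is in the image of `O ⊗ N`. -/
theorem tr18_lift {L N : Type*} [AddCommGroup L] [AddCommGroup N] (i : N →ₗ[ℤ] L) (S : Set L)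
    (hS : ∀ l ∈ S, ∃ n : N, i n = l) (x : O ⊗[ℤ] L)
    (hx : x ∈ Submodule.span O ((fun l : L => (1 : O) ⊗ₜ[ℤ] l) '' S)) :
    ∃ x' : O ⊗[ℤ] N, i.baseChange O x' = x := by
  have hle : Submodule.span O ((fun l : L => (1 : O) ⊗ₜ[ℤ] l) '' S) ≤
      LinearMap.range (i.baseChange O) := by
    rw [Submodule.span_le]
    rintro _ ⟨l, hl, rfl⟩
    obtain ⟨n, rfl⟩ := hS l hl
    exact ⟨(1 : O) ⊗ₜ[ℤ] n, LinearMap.baseChange_tmul _ _ _⟩
  exact hle hx

/-- Base change of multiplication by an integer. -/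
theorem tr18_baseChange_zsmul {L : Type*} [AddCommGroup L] (m : ℤ) (y : O ⊗[ℤ] L) :
    (m • (LinearMap.id : L →ₗ[ℤ] L)).baseChange O y = m • y := by
  induction y using TensorProduct.induction_on with
  | zero => simp
  | tmul o l =>
    rw [LinearMap.baseChange_tmul, LinearMap.smul_apply, LinearMap.id_apply,
      TensorProduct.tmul_smul]
  | add a b ha hb => rw [map_add, ha, hb, smul_add]

variable [Module.Flat ℤ O]

/-- **TRANSFER, abstract form.** -/
theorem tr18_kill {J J₁ J₂ : Type*} [AddCommGroup J] [AddCommGroup J₁] [AddCommGroup J₂]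
    {G : Type*} (act : G → (J →ₗ[ℤ] J)) (H : Set G) (A : J →ₗ[ℤ] J₁) (B : J →ₗ[ℤ] J₂)
    (m : ℕ) (hm : m ≠ 0) (c : ℕ)
    (hINV : ∀ x : J, m • x = 0 → (∀ σ ∈ H, act σ x = x) → A x = 0 → B x = 0 → c • x = 0)
    (y : O ⊗[ℤ] J) (hym : m • y = 0) (hyfix : ∀ σ ∈ H, (act σ).baseChange O y = y)
    (hyA : A.baseChange O y = 0) (hyB : B.baseChange O y = 0) : c • y = 0 := by
  classical
  -- Step 1: restrict to `N₁ = ker A ⊓ ker B`.
  let N₁ : Submodule ℤ J := LinearMap.ker A ⊓ LinearMap.ker B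
  obtain ⟨y₁, hy₁⟩ := tr18_lift (O := O) N₁.subtype {l : J | A l = 0 ∧ B l = 0}
    (fun l hl => ⟨⟨l, Submodule.mem_inf.mpr ⟨LinearMap.mem_ker.mpr hl.1,
      LinearMap.mem_ker.mpr hl.2⟩⟩, rfl⟩) y (fk70_mem_span_ker₂_image A B y hyA hyB)
  -- Step 2: the `m`-torsion.
  let cm : ↥N₁ →ₗ[ℤ] J := ((m : ℤ) • (LinearMap.id : J →ₗ[ℤ] J)) ∘ₗ N₁.subtype
  have hcm : cm.baseChange O y₁ = 0 := by
    show (((m : ℤ) • (LinearMap.id : J →ₗ[ℤ] J)) ∘ₗ N₁.subtype).baseChange O y₁ = 0
    rw [LinearMap.baseChange_comp, LinearMap.comp_apply, hy₁, tr18_baseChange_zsmul,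
      natCast_zsmul]
    exact hym
  have hspan := fk70_mem_span_ker cm y₁ hcm
  -- Step 3: a finite subgroup carrying `y₁`.
  obtain ⟨T, hTS, hT⟩ := Submodule.mem_span_finite_of_mem_span hspan
  have hch : ∀ t : ↥T, ∃ l : ↥N₁, cm l = 0 ∧ (t : O ⊗[ℤ] ↥N₁) = (1 : O) ⊗ₜ[ℤ] l :=
    fun t => hTS t.2
  choose lt hlt0 hlt using hch
  let L₁ : Submodule ℤ ↥N₁ := Submodule.span ℤ (Set.range lt)
  have htors : ∀ x ∈ L₁, (m : ℤ) • ((x : ↥N₁) : J) = 0 := by
    intro x hx
    induction hx using Submodule.span_induction with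
    | mem x hx =>
      obtain ⟨t, rfl⟩ := hx
      exact hlt0 t
    | zero => simp
    | add a b _ _ ha hb =>
      rw [Submodule.coe_add, smul_add, ha, hb, add_zero]
    | smul r a _ ha =>
      rw [Submodule.coe_smul, smul_comm, ha, smul_zero]
  have hfinL : Module.Finite ℤ ↥L₁ :=
    Module.Finite.of_fg (Submodule.fg_span (Set.finite_range lt))
  have hTors : Module.IsTorsion ℤ ↥L₁ := by
    intro x
    refine ⟨⟨(m : ℤ), mem_nonZeroDivisors_of_ne_zero (by exact_mod_cast hm)⟩, ?_⟩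
    apply Subtype.ext
    apply Subtype.ext
    show (((m : ℤ) • x : ↥L₁) : ↥N₁).1 = 0
    rw [Submodule.coe_smul, Submodule.coe_smul]
    exact htors x.1 x.2
  have hfin : Finite ↥L₁ := Module.finite_of_fg_torsion ↥L₁ hTors
  obtain ⟨y₂, hy₂⟩ := tr18_lift (O := O) L₁.subtype (Set.range lt)
    (fun l hl => ⟨⟨l, Submodule.subset_span hl⟩, rfl⟩) y₁ (by
      refine Submodule.span_mono ?_ hT
      intro t ht
      exact ⟨lt ⟨t, ht⟩, ⟨⟨t, ht⟩, rfl⟩, (hlt ⟨t, ht⟩).symm⟩)
  -- Step 4: finitely many fixed-point conditions.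
  let incl : ↥L₁ →ₗ[ℤ] J := N₁.subtype ∘ₗ L₁.subtype
  have hincl : incl.baseChange O y₂ = y := by
    show (N₁.subtype ∘ₗ L₁.subtype).baseChange O y₂ = y
    rw [LinearMap.baseChange_comp, LinearMap.comp_apply, hy₂, hy₁]
  let g : Set ↥L₁ → (↥L₁ →ₗ[ℤ] J) := fun S =>
    if h : ∃ σ ∈ H, {x : ↥L₁ | act σ (incl x) = incl x} = S then
      (act (Classical.choose h) - LinearMap.id) ∘ₗ incl
    else 0
  have hg : ∀ S, (g S).baseChange O y₂ = 0 := by
    intro S
    by_cases h : ∃ σ ∈ H, {x : ↥L₁ | act σ (incl x) = incl x} = S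
    · have e : g S = (act (Classical.choose h) - LinearMap.id) ∘ₗ incl := dif_pos h
      rw [e, LinearMap.baseChange_comp, LinearMap.comp_apply, hincl, LinearMap.baseChange_sub,
        LinearMap.sub_apply, hyfix _ (Classical.choose_spec h).1, LinearMap.baseChange_id,
        LinearMap.id_apply, sub_self]
    · have e : g S = 0 := dif_neg h
      rw [e, LinearMap.baseChange_zero, LinearMap.zero_apply]
  have hfam := fkf56_mem_span_ker_family (O := O) g y₂ hg
  -- the kill on `L₁`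
  have hkill : ∀ x : ↥L₁, (∀ S, g S x = 0) → c • x = 0 := by
    intro x hx
    have hxm : m • incl x = 0 := by
      have := htors x.1 x.2
      rwa [natCast_zsmul] at this
    have hxN : (x : ↥N₁).1 ∈ LinearMap.ker A ⊓ LinearMap.ker B := (x : ↥N₁).2
    have hxA : A (incl x) = 0 := LinearMap.mem_ker.mp (Submodule.mem_inf.mp hxN).1
    have hxB : B (incl x) = 0 := LinearMap.mem_ker.mp (Submodule.mem_inf.mp hxN).2
    have hxfix : ∀ σ ∈ H, act σ (incl x) = incl x := by
      intro σ hσ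
      have h : ∃ σ' ∈ H, {x : ↥L₁ | act σ' (incl x) = incl x} =
          {x : ↥L₁ | act σ (incl x) = incl x} := ⟨σ, hσ, rfl⟩
      have e : g {x : ↥L₁ | act σ (incl x) = incl x} =
          (act (Classical.choose h) - LinearMap.id) ∘ₗ incl := dif_pos h
      have h0 := hx {x : ↥L₁ | act σ (incl x) = incl x}
      rw [e, LinearMap.comp_apply, LinearMap.sub_apply, LinearMap.id_apply, sub_eq_zero] at h0
      have hmem : x ∈ {x : ↥L₁ | act (Classical.choose h) (incl x) = incl x} := h0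
      rw [(Classical.choose_spec h).2] at hmem
      exact hmem
    have h0 := hINV (incl x) hxm hxfix hxA hxB
    apply Subtype.ext
    apply Subtype.ext
    show ((c • x : ↥L₁) : ↥N₁).1 = 0
    rw [Submodule.coe_smul_of_tower, Submodule.coe_smul_of_tower]
    exact h0
  have hall : ∀ z ∈ Submodule.span O ((fun x : ↥L₁ => (1 : O) ⊗ₜ[ℤ] x) '' {x | ∀ S, g S x = 0}),
      c • z = 0 := by
    intro z hz
    induction hz using Submodule.span_induction with
    | mem z hz =>
      obtain ⟨x, hx, rfl⟩ := hz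
      show c • ((1 : O) ⊗ₜ[ℤ] x) = 0
      rw [← TensorProduct.tmul_smul, hkill x hx, TensorProduct.tmul_zero]
    | zero => exact smul_zero c
    | add a b _ _ ha hb => rw [smul_add, ha, hb, add_zero]
    | smul r a _ ha => rw [smul_comm, ha, smul_zero]
  have hy₂0 : c • y₂ = 0 := hall y₂ hfam
  rw [← hincl, ← map_nsmul, hy₂0, map_zero]

end tr18

end Fermat.Agent.S36
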