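import Mathlib
import Fermat.Agent.S35.FlatKerFam56
import Fermat.Agent.S35.Marked60

/-!
# S36 lab (helper21, row A2-Transfer, TWIN): from inertia-fixed NEW classes to the clause (M9)

* `tr21_anticomm`, `tr21_two_triple`, `tr21_exists_fixed` (Mathlib only): a subgroup `H` acting
  quadratically unipotently (`(ρ g − 1)² = 0`) on a module without `2`-torsion fixes a NONZERO
  vector among `w0`, `(a − 1) w0`, `(b − 1)(a − 1) w0` (`a, b ∈ H`).
* `tr21_flat_fixed` (Mathlib + `FlatKerFam56`): flat base change of the invariants of a torsion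
  subgroup with finite orbits: if every `H`-fixed element of `A ≤ J` is killed by `c`, then every
  `H`-fixed element of the `O`-span of `1 ⊗ A` in `O ⊗ J` is killed by `c`.
* `tr21_orbit_finite` : the Galois orbit of a torsion point of `JZero N` is finite.
* `tr21_M9` : for the eigen-Tate module `ea21_M` of S30/S35 with marked vector `Θ(x0)`, `x0` in
  the `O`-span of `1 ⊗ Lnew`: if `New ≤ JZero N` is a subgroup stable under a subgroup `H` of the
  Galois group, containing all `Θ n c` (`c ∈ Lnew`), and every `H`-fixed `p`-power torsion element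
  of `New` is killed by a fixed integer `c ≠ 0` (this is (INV)), then `H` does NOT act
  quadratically unipotently on `ea21_M`.
* `tr21_ET` : the row (ET) for S36 in literal form (the body of `s36g67_ET`, Gate67): (M1), (M2),
  (M3), (M4), (M6), (M7) and (M9) at every prime `q ≠ p` with `q² ∥ N`.

All names are prefixed `tr21_`.
-/

set_option autoImplicit false
set_option linter.unusedSectionVars false
set_option linter.unusedVariables false
set_option linter.style.longLine false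
set_option linter.style.haveILetI false

open CongruenceSubgroup ModularCurve ModularCurve.Period AlgebraicCurve TensorProduct Polynomial

namespace Fermat.Agent.S36

open Fermat.Agent.S30 Fermat.Agent.S42 Fermat.Agent.S16 Fermat.Agent.S35

local notation "Qb" => AlgebraicClosure ℚ
local notation "GQ" => AlgebraicClosure ℚ ≃ₐ[ℚ] AlgebraicClosure ℚ

/-! ## 1. Quadratically unipotent subgroups fix a nonzero vector -/

section tr21_alg

variable {G O M : Type*} [Group G] [CommRing O] [AddCommGroup M] [Module O M]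

/-- For a subgroup acting with `(ρ g − 1)² = 0`, the nilpotents `ρ a − 1`, `ρ b − 1` anticommute. -/
theorem tr21_anticomm (ρ : G →* Module.End O M) (H : Subgroup G)
    (hu : ∀ g ∈ H, (ρ g - 1) * (ρ g - 1) = 0) {a b : G} (ha : a ∈ H) (hb : b ∈ H) :
    (ρ a - 1) * (ρ b - 1) + (ρ b - 1) * (ρ a - 1) = 0 := by
  have hinv : ∀ g ∈ H, ρ g⁻¹ = (1 + 1) - ρ g := by
    intro g hg
    have h1 : ρ g * ((1 + 1) - ρ g) = 1 := by
      have h2 : ρ g * ((1 + 1) - ρ g) = 1 - (ρ g - 1) * (ρ g - 1) := by noncomm_ring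
      rw [h2, hu g hg, sub_zero]
    have h3 : ρ g⁻¹ * ρ g = 1 := by rw [← map_mul, inv_mul_cancel, map_one]
    calc ρ g⁻¹ = ρ g⁻¹ * (ρ g * ((1 + 1) - ρ g)) := by rw [h1, mul_one]
      _ = (ρ g⁻¹ * ρ g) * ((1 + 1) - ρ g) := by rw [mul_assoc]
      _ = (1 + 1) - ρ g := by rw [h3, one_mul]
  have hab := hinv (a * b) (H.mul_mem ha hb)
  rw [mul_inv_rev, map_mul, map_mul, hinv a ha, hinv b hb] at hab
  have h4 : (ρ a - 1) * (ρ b - 1) + (ρ b - 1) * (ρ a - 1)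
      = ((1 + 1) - ρ b) * ((1 + 1) - ρ a) - ((1 + 1) - ρ a * ρ b) := by noncomm_ring
  rw [h4, hab, sub_self]

/-- `2 · (ρ c − 1)(ρ b − 1)(ρ a − 1) = 0` for `a, b, c` in a quadratically unipotent subgroup. -/
theorem tr21_two_triple (ρ : G →* Module.End O M) (H : Subgroup G)
    (hu : ∀ g ∈ H, (ρ g - 1) * (ρ g - 1) = 0) {a b c : G} (ha : a ∈ H) (hb : b ∈ H)
    (hc : c ∈ H) :
    (ρ c - 1) * (ρ b - 1) * (ρ a - 1) + (ρ c - 1) * (ρ b - 1) * (ρ a - 1) = 0 := by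
  have h1 := tr21_anticomm ρ H hu hc (H.mul_mem hb ha)
  have h2 := tr21_anticomm ρ H hu hc hb
  have h3 := tr21_anticomm ρ H hu hc ha
  rw [map_mul] at h1
  calc (ρ c - 1) * (ρ b - 1) * (ρ a - 1) + (ρ c - 1) * (ρ b - 1) * (ρ a - 1)
      = ((ρ c - 1) * (ρ b * ρ a - 1) + (ρ b * ρ a - 1) * (ρ c - 1))
        - ((ρ c - 1) * (ρ b - 1) + (ρ b - 1) * (ρ c - 1))
        - ((ρ c - 1) * (ρ a - 1) + (ρ a - 1) * (ρ c - 1))
        + ((ρ c - 1) * (ρ b - 1) + (ρ b - 1) * (ρ c - 1)) * (ρ a - 1)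
        - (ρ b - 1) * ((ρ c - 1) * (ρ a - 1) + (ρ a - 1) * (ρ c - 1)) := by noncomm_ring
    _ = 0 := by rw [h1, h2, h3]; simp

/-- `H` acts *quadratically unipotently* on `M`: `(ρ σ − 1)² = 0` for all `σ ∈ H`, written
elementwise (the negation of this, at an inertia group, is the clause (M9) of the S36 gate). -/
def tr21_Unip (ρ : G →* Module.End O M) (H : Subgroup G) : Prop :=
  ∀ σ ∈ H, ∀ w : M, ρ σ (ρ σ w) - (2 : O) • ρ σ w + w = 0

/-- **Fixed vector.**  A subgroup `H` acting quadratically unipotently on a torsion-free module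
(`2 ≠ 0` in `O`) fixes a nonzero vector, of the form `w0`, `ρ a w0 − w0` or
`ρ b (ρ a w0 − w0) − (ρ a w0 − w0)` with `a, b ∈ H`. -/
theorem tr21_exists_fixed (ρ : G →* Module.End O M) (H : Subgroup G)
    (hM1 : ∀ (b : O) (w : M), b • w = 0 → b = 0 ∨ w = 0) (h2O : (2 : O) ≠ 0)
    (hu : tr21_Unip ρ H)
    (w0 : M) (hw0 : w0 ≠ 0) :
    ∃ w : M, w ≠ 0 ∧ (∀ g ∈ H, ρ g w = w) ∧
      (w = w0 ∨ (∃ a ∈ H, w = ρ a w0 - w0) ∨
        ∃ a ∈ H, ∃ b ∈ H, w = ρ b (ρ a w0 - w0) - (ρ a w0 - w0)) := by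
  have h2 : ∀ v : M, v + v = 0 → v = 0 := by
    intro v hv
    have h : (2 : O) • v = 0 := by rw [two_smul]; exact hv
    rcases hM1 _ _ h with h | h
    · exact absurd h h2O
    · exact h
  have hu' : ∀ g ∈ H, (ρ g - 1) * (ρ g - 1) = 0 := by
    intro g hg
    refine LinearMap.ext fun v => ?_
    have h := hu g hg v
    rw [two_smul] at h
    simp only [Module.End.mul_apply, LinearMap.sub_apply, Module.End.one_apply, map_sub,
      LinearMap.zero_apply]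
    rw [← h]
    abel
  by_cases hfix0 : ∀ g ∈ H, ρ g w0 = w0
  · exact ⟨w0, hw0, hfix0, Or.inl rfl⟩
  push Not at hfix0
  obtain ⟨a, ha, hne⟩ := hfix0
  have hw1ne : ρ a w0 - w0 ≠ 0 := fun h => hne (sub_eq_zero.mp h)
  by_cases hfix1 : ∀ g ∈ H, ρ g (ρ a w0 - w0) = ρ a w0 - w0
  · exact ⟨ρ a w0 - w0, hw1ne, hfix1, Or.inr (Or.inl ⟨a, ha, rfl⟩)⟩
  push Not at hfix1
  obtain ⟨b, hb, hne1⟩ := hfix1
  have hw2ne : ρ b (ρ a w0 - w0) - (ρ a w0 - w0) ≠ 0 := fun h => hne1 (sub_eq_zero.mp h)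
  refine ⟨ρ b (ρ a w0 - w0) - (ρ a w0 - w0), hw2ne, fun c hc => ?_,
    Or.inr (Or.inr ⟨a, ha, b, hb, rfl⟩)⟩
  have h3 := tr21_two_triple ρ H hu' ha hb hc
  have h4 := congrArg (fun f : Module.End O M => f w0) h3
  simp only [LinearMap.add_apply, Module.End.mul_apply, LinearMap.sub_apply, Module.End.one_apply,
    LinearMap.zero_apply] at h4
  exact sub_eq_zero.mp (h2 _ h4)

/-- **Abstract transfer.**  `Mod` a torsion-free `O`-module with a `G`-action `ρ` and jointly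
injective, equivariant, `O`-linear component maps `comp n : Mod → B`.  If the components of a
nonzero `w0` lie in `H`-stable submodules `Sp n ≤ B` whose `H`-fixed elements are killed by a
fixed `c ≠ 0`, then `H` does not act quadratically unipotently on `Mod`. -/
theorem tr21_not_unip_abs {B : Type*} [AddCommGroup B] [Module O B]
    (ρ : G →* Module.End O M) (H : Subgroup G)
    (comp : ℕ → M →ₗ[O] B) (gal : G →* Module.End O B)
    (hcomp : ∀ (g : G) (w : M) (n : ℕ), comp n (ρ g w) = gal g (comp n w))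
    (hext : ∀ w : M, (∀ n, comp n w = 0) → w = 0)
    (hM1 : ∀ (b : O) (w : M), b • w = 0 → b = 0 ∨ w = 0) (h2O : (2 : O) ≠ 0)
    (Sp : ℕ → Submodule O B) (hSp : ∀ n, ∀ σ ∈ H, ∀ b ∈ Sp n, gal σ b ∈ Sp n)
    (c : O) (hc : c ≠ 0)
    (hkill : ∀ n, ∀ b ∈ Sp n, (∀ σ ∈ H, gal σ b = b) → c • b = 0)
    (w0 : M) (hw0 : w0 ≠ 0) (hw0Sp : ∀ n, comp n w0 ∈ Sp n) :
    ¬ tr21_Unip ρ H := by
  intro hU
  obtain ⟨y, hy, hyfix, hyform⟩ := tr21_exists_fixed ρ H hM1 h2O hU w0 hw0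
  have hrho : ∀ σ ∈ H, ∀ w : M, (∀ n, comp n w ∈ Sp n) → ∀ n, comp n (ρ σ w - w) ∈ Sp n := by
    intro σ hσ w hw n
    rw [map_sub, hcomp]
    exact Submodule.sub_mem _ (hSp n σ hσ _ (hw n)) (hw n)
  have hPy : ∀ n, comp n y ∈ Sp n := by
    rcases hyform with rfl | ⟨a₁, ha₁, rfl⟩ | ⟨a₁, ha₁, b₁, hb₁, rfl⟩
    · exact hw0Sp
    · exact hrho a₁ ha₁ _ hw0Sp
    · exact hrho b₁ hb₁ _ (hrho a₁ ha₁ _ hw0Sp)
  have hcy : c • y = 0 := by
    refine hext _ fun n => ?_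
    rw [map_smul]
    refine hkill n _ (hPy n) fun σ hσ => ?_
    rw [← hcomp, hyfix σ hσ]
  rcases hM1 c y hcy with h | h
  · exact hc h
  · exact hy h

end tr21_alg

/-! ## 2. Flat base change of the invariants of a torsion subgroup with finite orbits -/

section tr21_flat

variable {G : Type*} [Group G] (O : Type*) [CommRing O] [Module.Flat ℤ O]
  {J : Type*} [AddCommGroup J]

omit [Module.Flat ℤ O] in
/-- `(n : O) • (1 ⊗ x) = 1 ⊗ (n • x)`. -/
theorem tr21_natCast_smul_tmul (n : ℕ) (x : J) :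
    (n : O) • ((1 : O) ⊗ₜ[ℤ] x) = (1 : O) ⊗ₜ[ℤ] (n • x) := by
  have h1 : (n : O) • ((1 : O) ⊗ₜ[ℤ] x) = ((n : ℤ) • (1 : O)) ⊗ₜ[ℤ] x := by
    rw [TensorProduct.smul_tmul', smul_eq_mul, mul_one, zsmul_eq_mul, mul_one, Int.cast_natCast]
  rw [h1, TensorProduct.smul_tmul, natCast_zsmul]

omit [Module.Flat ℤ O] in
/-- Every element of the `O`-span of `1 ⊗ A` comes from `O ⊗ A'` for a finitely generated
`H`-stable subgroup `A' ≤ A` (finite orbits). -/
theorem tr21_exists_fg (g : G →* Module.End ℤ J) (H : Subgroup G) (A : AddSubgroup J)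
    (hstab : ∀ σ ∈ H, ∀ x ∈ A, g σ x ∈ A)
    (hfin : ∀ x ∈ A, (Set.range fun σ : H => g (σ : G) x).Finite)
    (b : O ⊗[ℤ] J)
    (hb : b ∈ Submodule.span O ((fun x : J => (1 : O) ⊗ₜ[ℤ] x) '' (A : Set J))) :
    ∃ A' : Submodule ℤ J, (∀ x ∈ A', x ∈ A) ∧ A'.FG ∧ (∀ σ ∈ H, ∀ x ∈ A', g σ x ∈ A') ∧
      ∃ b' : O ⊗[ℤ] ↥A', A'.subtype.baseChange O b' = b := by
  induction hb using Submodule.span_induction with
  | mem y hy =>
    obtain ⟨x, hx, rfl⟩ := hy
    refine ⟨Submodule.span ℤ (Set.range fun σ : H => g (σ : G) x), ?_,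
      Submodule.fg_span (hfin x hx), ?_, ?_⟩
    · intro z hz
      have hle : Submodule.span ℤ (Set.range fun σ : H => g (σ : G) x)
          ≤ AddSubgroup.toIntSubmodule A := by
        rw [Submodule.span_le]
        rintro _ ⟨σ, rfl⟩
        exact hstab σ σ.2 x hx
      exact hle hz
    · intro τ hτ z hz
      induction hz using Submodule.span_induction with
      | mem w hw =>
        obtain ⟨σ, rfl⟩ := hw
        refine Submodule.subset_span ⟨⟨τ * σ, H.mul_mem hτ σ.2⟩, ?_⟩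
        show g (τ * (σ : G)) x = g τ (g (σ : G) x)
        rw [map_mul]
        rfl
      | zero => rw [map_zero]; exact Submodule.zero_mem _
      | add u v _ _ hu hv => rw [map_add]; exact Submodule.add_mem _ hu hv
      | smul r u _ hu => rw [map_smul]; exact Submodule.smul_mem _ r hu
    · have hxmem : x ∈ Submodule.span ℤ (Set.range fun σ : H => g (σ : G) x) := by
        refine Submodule.subset_span ⟨1, ?_⟩
        show g ((1 : H) : G) x = x
        rw [Subgroup.coe_one, map_one]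
        rfl
      exact ⟨(1 : O) ⊗ₜ[ℤ] ⟨x, hxmem⟩, by rw [LinearMap.baseChange_tmul]; rfl⟩
  | zero =>
    refine ⟨⊥, fun x hx => ?_, Submodule.fg_bot, fun σ _ x hx => ?_, 0, map_zero _⟩
    · rw [(Submodule.mem_bot ℤ).mp hx]; exact A.zero_mem
    · rw [(Submodule.mem_bot ℤ).mp hx, map_zero]; exact Submodule.zero_mem _
  | add y z _ _ hy hz =>
    obtain ⟨A₁, h1A, h1fg, h1st, b₁, rfl⟩ := hy
    obtain ⟨A₂, h2A, h2fg, h2st, b₂, rfl⟩ := hz
    refine ⟨A₁ ⊔ A₂, ?_, h1fg.sup h2fg, ?_, ?_⟩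
    · intro x hx
      obtain ⟨x₁, hx₁, x₂, hx₂, rfl⟩ := Submodule.mem_sup.mp hx
      exact A.add_mem (h1A x₁ hx₁) (h2A x₂ hx₂)
    · intro σ hσ x hx
      obtain ⟨x₁, hx₁, x₂, hx₂, rfl⟩ := Submodule.mem_sup.mp hx
      rw [map_add]
      exact Submodule.add_mem _ (Submodule.mem_sup_left (h1st σ hσ x₁ hx₁))
        (Submodule.mem_sup_right (h2st σ hσ x₂ hx₂))
    · refine ⟨(Submodule.inclusion (le_sup_left : A₁ ≤ A₁ ⊔ A₂)).baseChange O b₁
        + (Submodule.inclusion (le_sup_right : A₂ ≤ A₁ ⊔ A₂)).baseChange O b₂, ?_⟩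
      rw [map_add, ← LinearMap.comp_apply, ← LinearMap.baseChange_comp,
        ← LinearMap.comp_apply, ← LinearMap.baseChange_comp,
        Submodule.subtype_comp_inclusion, Submodule.subtype_comp_inclusion]
  | smul r y _ hy =>
    obtain ⟨A', hA, hfg, hst, b', rfl⟩ := hy
    exact ⟨A', hA, hfg, hst, r • b', map_smul _ _ _⟩

/-- **Flat base change of invariants.**  `A ≤ J` an `H`-stable subgroup killed by `m ≠ 0`, with
finite `H`-orbits, all of whose `H`-fixed elements are killed by `c`.  Then every `H`-fixed element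
of the `O`-span of the pure tensors `1 ⊗ x`, `x ∈ A`, is killed by `c` (`O` flat over `ℤ`). -/
theorem tr21_flat_fixed (g : G →* Module.End ℤ J) (H : Subgroup G) (A : AddSubgroup J)
    (hstab : ∀ σ ∈ H, ∀ x ∈ A, g σ x ∈ A)
    (m : ℕ) (hm : m ≠ 0) (htors : ∀ x ∈ A, m • x = 0)
    (hfin : ∀ x ∈ A, (Set.range fun σ : H => g (σ : G) x).Finite)
    (c : ℕ) (hinv : ∀ x ∈ A, (∀ σ ∈ H, g σ x = x) → c • x = 0)
    (b : O ⊗[ℤ] J)
    (hb : b ∈ Submodule.span O ((fun x : J => (1 : O) ⊗ₜ[ℤ] x) '' (A : Set J)))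
    (hfix : ∀ σ ∈ H, (g σ).baseChange O b = b) :
    (c : O) • b = 0 := by
  classical
  obtain ⟨A', hA'A, hfg, hst, b', rfl⟩ := tr21_exists_fg O g H A hstab hfin b hb
  haveI : Module.Finite ℤ ↥A' := Module.Finite.iff_fg.mpr hfg
  have htorsA' : Module.IsTorsion ℤ ↥A' := by
    intro x
    refine ⟨⟨(m : ℤ), mem_nonZeroDivisors_of_ne_zero (by exact_mod_cast hm)⟩, ?_⟩
    show (m : ℤ) • x = 0
    rw [natCast_zsmul]
    exact Subtype.ext (htors x (hA'A x x.2))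
  haveI : Finite ↥A' := Module.finite_of_fg_torsion ↥A' htorsA'
  haveI : Finite (↥A' →ₗ[ℤ] ↥A') :=
    Finite.of_injective (fun f : ↥A' →ₗ[ℤ] ↥A' => (f : ↥A' → ↥A')) DFunLike.coe_injective
  let r : H → (↥A' →ₗ[ℤ] ↥A') := fun σ =>
    (g (σ : G)).restrict (fun x hx => hst σ σ.2 x hx) - LinearMap.id
  have hinj : Function.Injective (A'.subtype.baseChange O) := by
    have h := Module.Flat.lTensor_preserves_injective_linearMap (M := O) A'.subtype
      A'.injective_subtype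
    intro x y hxy
    apply h
    rw [← fk56_baseChange_apply, ← fk56_baseChange_apply]
    exact hxy
  have hker : ∀ i : Set.range r, ((i : ↥A' →ₗ[ℤ] ↥A')).baseChange O b' = 0 := by
    rintro ⟨_, σ, rfl⟩
    apply hinj
    rw [map_zero]
    have hcomp : A'.subtype ∘ₗ (r σ) = (g (σ : G)) ∘ₗ A'.subtype - A'.subtype := by
      ext x
      rfl
    have h1 : A'.subtype.baseChange O ((r σ).baseChange O b')
        = (g (σ : G)).baseChange O (A'.subtype.baseChange O b') - A'.subtype.baseChange O b' := by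
      rw [← LinearMap.comp_apply, ← LinearMap.baseChange_comp, hcomp, LinearMap.baseChange_sub,
        LinearMap.sub_apply, LinearMap.baseChange_comp]
      rfl
    rw [h1, hfix σ σ.2, sub_self]
  have hspan := fkf56_mem_span_ker_family (O := O)
    (fun i : Set.range r => (i : ↥A' →ₗ[ℤ] ↥A')) b' hker
  have hc0 : (c : O) • b' = 0 := by
    have hle : Submodule.span O ((fun x : ↥A' => (1 : O) ⊗ₜ[ℤ] x) ''
        {x | ∀ i : Set.range r, (i : ↥A' →ₗ[ℤ] ↥A') x = 0})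
        ≤ LinearMap.ker ((c : O) • (LinearMap.id : O ⊗[ℤ] ↥A' →ₗ[O] O ⊗[ℤ] ↥A')) := by
      rw [Submodule.span_le]
      rintro _ ⟨x, hx, rfl⟩
      show (c : O) • ((1 : O) ⊗ₜ[ℤ] x) = 0
      have hxfix : ∀ σ ∈ H, g σ (x : J) = x := by
        intro σ hσ
        have h0 := hx ⟨r ⟨σ, hσ⟩, ⟨σ, hσ⟩, rfl⟩
        have h' := congrArg (fun y : ↥A' => (y : J)) h0
        exact sub_eq_zero.mp h'
      have hcx : c • x = 0 := Subtype.ext (hinv x (hA'A x x.2) hxfix)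
      rw [tr21_natCast_smul_tmul, hcx, TensorProduct.tmul_zero]
    exact hle hspan
  rw [← map_smul, hc0, map_zero]

end tr21_flat

/-! ## 3. The eigen-Tate module: inertia-fixed new classes and (M9) -/

section tr21_orbit

/-- The Galois orbit of a torsion point of `JZero N` is finite (open stabilisers). -/
theorem tr21_orbit_finite (N : ℕ) (x : JZero N) (m : ℕ) (hm : m ≠ 0) (hx : m • x = 0) :
    (Set.range fun σ : GQ => σ • x).Finite := by
  classical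
  obtain ⟨E, hE, hfix⟩ := fi69_open_stab_tors N x m hm hx
  haveI := hE
  haveI : Fintype (↥E →ₐ[ℚ] Qb) := minpoly.AlgHom.fintype ℚ ↥E Qb
  let r : GQ → (↥E →ₐ[ℚ] Qb) := fun σ => (σ : Qb →ₐ[ℚ] Qb).comp E.val
  have hr : ∀ σ τ : GQ, r σ = r τ → σ • x = τ • x := by
    intro σ τ h
    have h1 : (τ⁻¹ * σ) • x = x := by
      apply hfix
      intro a ha
      have h3 : σ a = τ a := congrArg (fun f : ↥E →ₐ[ℚ] Qb => f ⟨a, ha⟩) h
      show τ⁻¹ (σ a) = a
      rw [h3]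
      exact τ.symm_apply_apply a
    rw [mul_smul] at h1
    have h4 := congrArg (fun y : JZero N => τ • y) h1
    simpa using h4
  refine Set.Finite.subset (Set.toFinite ((fun e : ↥E →ₐ[ℚ] Qb =>
    if h : ∃ σ : GQ, r σ = e then h.choose • x else 0) '' Set.univ)) ?_
  rintro _ ⟨σ, rfl⟩
  have h : ∃ τ : GQ, r τ = r σ := ⟨σ, rfl⟩
  refine ⟨r σ, Set.mem_univ _, ?_⟩
  show (if h : ∃ τ : GQ, r τ = r σ then h.choose • x else 0) = σ • x
  rw [dif_pos h]
  exact hr _ _ h.choose_spec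

end tr21_orbit

section tr21_main

variable (p : ℕ) [Fact p.Prime] (N : ℕ) [NeZero N] (S : Finset ℕ)
  (O : Type) [CommRing O] [IsDomain O] [IsDiscreteValuationRing O]
  [IsAdicComplete (IsLocalRing.maximalIdeal O) O] [CharZero O] (a : ℕ → O)

/-- The `p ^ n`-torsion of a subgroup of `JZero N`. -/
noncomputable def tr21_A (New : AddSubgroup (JZero N)) (n : ℕ) : AddSubgroup (JZero N) :=
  New ⊓ (nsmulAddMonoidHom (p ^ n) : JZero N →+ JZero N).ker

omit [Fact p.Prime] [NeZero N] in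
theorem tr21_mem_A (New : AddSubgroup (JZero N)) (n : ℕ) (x : JZero N) :
    x ∈ tr21_A p N New n ↔ x ∈ New ∧ p ^ n • x = 0 := by
  unfold tr21_A
  rw [AddSubgroup.mem_inf, AddMonoidHom.mem_ker, nsmulAddMonoidHom_apply]

/-- The `n`-th component map of the eigen-Tate module, as an `O`-linear map. -/
def tr21_compL (n : ℕ) : ea21_M p N S O a →ₗ[O] tt21_B O N where
  toFun w := ea21_comp p N S O a w n
  map_add' _ _ := rfl
  map_smul' _ _ := rfl

/-- **(M9) from (INV).**  Setting of `ea21_M3` with `x0` in the `O`-span of `1 ⊗ Lnew`.  Let `H`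
be a subgroup of the Galois group and `New ≤ JZero N` an `H`-stable subgroup containing all
`Θ n c`, `c ∈ Lnew`, such that every `H`-fixed element of `New` killed by a power of `p` is
killed by the fixed integer `c ≠ 0`.  Then `H` does not act quadratically unipotently on the
eigen-Tate module. -/
theorem tr21_M9 (hp : (p : O) ∈ IsLocalRing.maximalIdeal O)
    (hpS : p ∈ S) (hNS : ∀ q : ℕ, q.Prime → q ∣ N → q ∈ S)
    (TL : ℕ → Module.End ℤ ↥(parabolicHoms ℤ (Gamma0 N) ℤ))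
    (x0 : O ⊗[ℤ] ↥(parabolicHoms ℤ (Gamma0 N) ℤ))
    (Θ : ℕ → (↥(parabolicHoms ℤ (Gamma0 N) ℤ) →+ JZero N))
    (hTL : ∀ ℓ : ℕ, ℓ.Prime → ℓ ∉ S → ∀ x : ↥(parabolicHoms ℤ (Gamma0 N) ℤ),
      ((TL ℓ x : ↥(parabolicHoms ℤ (Gamma0 N) ℤ)) : Additive ↥(Gamma0 N) →+ ℤ) =
        heckeHom N ℓ ℤ (x : Additive ↥(Gamma0 N) →+ ℤ))
    (hx0 : x0 ∉ IsLocalRing.maximalIdeal O •
      (⊤ : Submodule O (O ⊗[ℤ] ↥(parabolicHoms ℤ (Gamma0 N) ℤ))))
    (hx0a : ∀ ℓ : ℕ, ℓ.Prime → ℓ ∉ S → (TL ℓ).baseChange O x0 = a ℓ • x0)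
    (hΘ : s30i37_ThetaFamily N p Θ)
    (Lnew : Set ↥(parabolicHoms ℤ (Gamma0 N) ℤ))
    (hnew : x0 ∈ Submodule.span O
      ((fun c : ↥(parabolicHoms ℤ (Gamma0 N) ℤ) => (1 : O) ⊗ₜ[ℤ] c) '' Lnew))
    (H : Subgroup GQ) (New : AddSubgroup (JZero N))
    (hstab : ∀ σ ∈ H, ∀ x ∈ New, σ • x ∈ New)
    (hΘnew : ∀ n : ℕ, ∀ c ∈ Lnew, Θ n c ∈ New)
    (c : ℕ) (hc : c ≠ 0)
    (hinv : ∀ (n : ℕ) (x : JZero N), x ∈ New → p ^ n • x = 0 → (∀ σ ∈ H, σ • x = x) →
      c • x = 0) :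
    ¬ tr21_Unip (G := GQ) (O := O) (M := ↥(ea21_M p N S O a)) (ea21_rho p N S O a) H := by
  have hpp : p.Prime := Fact.out
  have h1 : ∀ x, (p : ℤ) • Θ 1 x = 0 := by
    intro x
    have := hΘ.1 1 x
    rwa [pow_one] at this
  have hc' : ∀ n, 1 ≤ n → ∀ x, (p : ℤ) • Θ (n + 1) x = Θ n x := fun n _ x => hΘ.2.2.2 n x
  have hmem := s35v60_theta_mem p N S O a hpS hNS TL x0 Θ hTL hx0a hΘ h1 hc'
  have hne := s35v60_theta_ne p N O hp x0 Θ hx0 hΘ h1 hc'
  -- the spans of the new torsion classes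
  let Sp : ℕ → Submodule O (tt21_B O N) := fun n =>
    Submodule.span O ((fun x : JZero N => (1 : O) ⊗ₜ[ℤ] x) '' (tr21_A p N New n : Set (JZero N)))
  have hAstab : ∀ n : ℕ, ∀ σ ∈ H, ∀ x ∈ tr21_A p N New n, tt21_galZ N σ x ∈ tr21_A p N New n := by
    intro n σ hσ x hx
    obtain ⟨hx1, hx2⟩ := (tr21_mem_A p N New n x).mp hx
    refine (tr21_mem_A p N New n _).mpr ⟨hstab σ hσ x hx1, ?_⟩
    rw [← map_nsmul, hx2, map_zero]
  have hSpstab : ∀ n : ℕ, ∀ σ ∈ H, ∀ b ∈ Sp n, tt21_gal O N σ b ∈ Sp n := by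
    intro n σ hσ b hb
    induction hb using Submodule.span_induction with
    | mem z hz =>
      obtain ⟨x, hx, rfl⟩ := hz
      exact Submodule.subset_span ⟨tt21_galZ N σ x, hAstab n σ hσ x hx, rfl⟩
    | zero => rw [map_zero]; exact Submodule.zero_mem _
    | add u v _ _ hu hv => rw [map_add]; exact Submodule.add_mem _ hu hv
    | smul r u _ hu => rw [map_smul]; exact Submodule.smul_mem _ r hu
  -- the components of the marked vector
  have hP0 : ∀ n : ℕ, tr21_compL p N S O a n (⟨_, hmem⟩ : ea21_M p N S O a) ∈ Sp n := by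
    intro n
    cases n with
    | zero =>
      show ea21_comp p N S O a (⟨_, hmem⟩ : ea21_M p N S O a) 0 ∈ Sp 0
      rw [ea21_comp_zero]
      exact Submodule.zero_mem _
    | succ n =>
      show ((ts35_theta O p Θ h1 hc' x0 : ts35_T (p : O) (O ⊗[ℤ] JZero N)) :
        ℕ → O ⊗[ℤ] JZero N) (n + 1) ∈ Sp (n + 1)
      rw [ts35_theta_apply_succ]
      have hle : Submodule.span O
          ((fun c : ↥(parabolicHoms ℤ (Gamma0 N) ℤ) => (1 : O) ⊗ₜ[ℤ] c) '' Lnew)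
          ≤ (Sp (n + 1)).comap ((Θ (n + 1)).toIntLinearMap.baseChange O) := by
        rw [Submodule.span_le]
        rintro _ ⟨k, hk, rfl⟩
        show (Θ (n + 1)).toIntLinearMap.baseChange O ((1 : O) ⊗ₜ[ℤ] k) ∈ Sp (n + 1)
        rw [LinearMap.baseChange_tmul]
        have h5 := hΘ.1 (n + 1) k
        rw [natCast_zsmul] at h5
        exact Submodule.subset_span ⟨Θ (n + 1) k,
          (tr21_mem_A p N New (n + 1) _).mpr ⟨hΘnew (n + 1) k hk, h5⟩, rfl⟩
      exact hle hnew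
  -- every fixed element of the spans is killed by `c`
  have hkill : ∀ n, ∀ b ∈ Sp n, (∀ σ ∈ H, tt21_gal O N σ b = b) → (c : O) • b = 0 := by
    intro n b hb hbfix
    refine tr21_flat_fixed O (tt21_galZ N) H (tr21_A p N New n) (hAstab n) (p ^ n)
      (pow_ne_zero n hpp.ne_zero) (fun x hx => ((tr21_mem_A p N New n x).mp hx).2) ?_ c ?_ b
      hb hbfix
    · intro x hx
      refine Set.Finite.subset (tr21_orbit_finite N x (p ^ n) (pow_ne_zero n hpp.ne_zero)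
        ((tr21_mem_A p N New n x).mp hx).2) ?_
      rintro _ ⟨σ, rfl⟩
      exact ⟨(σ : GQ), rfl⟩
    · intro x hx hxfix
      obtain ⟨hx1, hx2⟩ := (tr21_mem_A p N New n x).mp hx
      exact hinv n x hx1 hx2 hxfix
  have hz := tr21_not_unip_abs (G := GQ) (O := O) (M := ↥(ea21_M p N S O a)) (B := tt21_B O N)
    (ea21_rho p N S O a) H (tr21_compL p N S O a) (tt21_gal O N)
    (fun g w n => rfl)
    (fun w h => ea21_ext p N S O a w 0 fun n => h n)
    (ea21_M1 p N S O a hp) two_ne_zero Sp hSpstab (c : O) (Nat.cast_ne_zero.mpr hc) hkill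
    (⟨_, hmem⟩ : ea21_M p N S O a) (fun h0 => hne (congrArg Subtype.val h0)) hP0
  exact hz

/-- **Row (ET) for S36, literal form** (the body of `s36g67_ET` of the gate): the eigen-Tate
module of S30 with (M1), (M2), (M3), (M4), (M6), (M7) and the clause (M9) at every prime `q ≠ p`
with `q² ∥ N`, from: the setting of `ea21_M3`, a set `Lnew` of lattice vectors whose `O`-span
contains `x0`, and for every such `q` a place `A` over `q`, a subgroup `New ≤ JZero N` stable under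
the inertia group of `A` and containing all `Θ n k` (`k ∈ Lnew`), and an integer `c ≠ 0` killing
every inertia-fixed `p`-power torsion element of `New` (this is (INV)). -/
theorem tr21_ET (hp : (p : O) ∈ IsLocalRing.maximalIdeal O)
    (hpS : p ∈ S) (hNS : ∀ q : ℕ, q.Prime → q ∣ N → q ∈ S)
    (TL : ℕ → Module.End ℤ ↥(parabolicHoms ℤ (Gamma0 N) ℤ))
    (x0 : O ⊗[ℤ] ↥(parabolicHoms ℤ (Gamma0 N) ℤ))
    (Θ : ℕ → (↥(parabolicHoms ℤ (Gamma0 N) ℤ) →+ JZero N))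
    (hTL : ∀ ℓ : ℕ, ℓ.Prime → ℓ ∉ S → ∀ x : ↥(parabolicHoms ℤ (Gamma0 N) ℤ),
      ((TL ℓ x : ↥(parabolicHoms ℤ (Gamma0 N) ℤ)) : Additive ↥(Gamma0 N) →+ ℤ) =
        heckeHom N ℓ ℤ (x : Additive ↥(Gamma0 N) →+ ℤ))
    (hx0 : x0 ∉ IsLocalRing.maximalIdeal O •
      (⊤ : Submodule O (O ⊗[ℤ] ↥(parabolicHoms ℤ (Gamma0 N) ℤ))))
    (hx0a : ∀ ℓ : ℕ, ℓ.Prime → ℓ ∉ S → (TL ℓ).baseChange O x0 = a ℓ • x0)
    (hΘ : s30i37_ThetaFamily N p Θ)
    (Lnew : Set ↥(parabolicHoms ℤ (Gamma0 N) ℤ))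
    (hnew : x0 ∈ Submodule.span O
      ((fun c : ↥(parabolicHoms ℤ (Gamma0 N) ℤ) => (1 : O) ⊗ₜ[ℤ] c) '' Lnew))
    (hQ : ∀ q : ℕ, q.Prime → q ≠ p → N.factorization q = 2 →
      ∃ (A : ValuationSubring Qb) (New : AddSubgroup (JZero N)) (c : ℕ),
        A.LiesOverPrime q ∧ c ≠ 0 ∧
        (∀ σ ∈ A.inertiaSubgroupIn ℚ, ∀ x ∈ New, σ • x ∈ New) ∧
        (∀ n : ℕ, ∀ k ∈ Lnew, Θ n k ∈ New) ∧
        (∀ (n : ℕ) (x : JZero N), x ∈ New → p ^ n • x = 0 →
          (∀ σ ∈ A.inertiaSubgroupIn ℚ, σ • x = x) → c • x = 0)) :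
    ∃ (M : Type) (_ : AddCommGroup M) (_ : Module O M) (ρ : GQ →* Module.End O M),
      (∀ (b : O) (w : M), b • w = 0 → b = 0 ∨ w = 0) ∧
      (∀ w : M, (∀ n : ℕ, w ∈ (IsLocalRing.maximalIdeal O ^ n) • (⊤ : Submodule O M)) → w = 0) ∧
      (∃ w : M, w ≠ 0) ∧
      (∀ (g : GQ) (w : M) (n : ℕ), ∃ b : O,
        ρ g w + ((ca15_eps p (IsLocalRing.maximalIdeal O) hp g : Oˣ) : O) • ρ g⁻¹ w - b • w ∈
          (IsLocalRing.maximalIdeal O ^ n) • (⊤ : Submodule O M)) ∧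
      (∀ (w : M) (n : ℕ), ∃ E : IntermediateField ℚ Qb, FiniteDimensional ℚ E ∧
        ∀ σ : GQ, (∀ x ∈ E, σ x = x) →
          ρ σ w - w ∈ (IsLocalRing.maximalIdeal O ^ n) • (⊤ : Submodule O M)) ∧
      (∀ ℓ : ℕ, ℓ.Prime → ¬ ℓ ∣ N → ℓ ∉ S →
        ∀ A : ValuationSubring Qb, A.LiesOverPrime ℓ →
          ∀ τ : GQ, A.IsFrobeniusAt τ ℓ →
            ∀ w : M, ρ τ (ρ τ w) - a ℓ • ρ τ w + (ℓ : O) • w = 0) ∧
      (∀ q : ℕ, q.Prime → q ≠ p → N.factorization q = 2 →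
        ∃ A : ValuationSubring Qb, A.LiesOverPrime q ∧
          ¬ (∀ σ ∈ A.inertiaSubgroupIn ℚ, ∀ w : M, ρ σ (ρ σ w) - (2 : O) • ρ σ w + w = 0)) := by
  have hM9 : ∀ q : ℕ, q.Prime → q ≠ p → N.factorization q = 2 →
      ∃ A : ValuationSubring Qb, A.LiesOverPrime q ∧
        ¬ tr21_Unip (G := GQ) (O := O) (M := ↥(ea21_M p N S O a)) (ea21_rho p N S O a)
          (A.inertiaSubgroupIn ℚ) := by
    intro q hq hqp hq2
    obtain ⟨A, New, c, hA, hc, hst, hΘn, hinv⟩ := hQ q hq hqp hq2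
    exact ⟨A, hA, tr21_M9 p N S O a hp hpS hNS TL x0 Θ hTL hx0 hx0a hΘ Lnew hnew
      (A.inertiaSubgroupIn ℚ) New hst hΘn c hc hinv⟩
  have hM3 : ∃ w : ea21_M p N S O a, w ≠ 0 :=
    ea21_M3 p N S O a hp hpS hNS TL x0 Θ hTL hx0 hx0a hΘ
  exact ⟨↥(ea21_M p N S O a), inferInstance, inferInstance, ea21_rho p N S O a,
    ea21_M1 p N S O a hp, ea21_M2 p N S O a, hM3,
    ea21_M4 p N S O a hp hpS hNS,
    ea21_M6 p N S O a hp,
    fun ℓ hℓ hℓN hℓS A hA τ hτ w => ea21_M7 p N S O a hpS ℓ hℓ hℓN hℓS A hA τ hτ w,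
    hM9⟩

end tr21_main

end Fermat.Agent.S36
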