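import Fermat.Agent.S36.TripleLift3
import Fermat.Agent.S36.TripleOwes63
import Fermat.Agent.S36.ChartFacts54
import Fermat.Agent.S36.FrameClauses73

/-!
# S36 lab, row 605 (HP-3), block (T3), helper92: the four `hO` clauses of `hp53_TripleData`
on the canonical frame

`hO1`, `hO2`, `hO3'`, `hO2'` of `gcd26_datum_triple` / `hp53_TripleData` / `hp3x77_TripleData`:
at a closed point `n` of the level-`M' q q` chart `B` lying on the three branches, every element
of `B_n = sf79_loc B n` is congruent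

* modulo `𝔪(V₁)` and modulo `𝔪(V₂)` to `α₂ a`, `a ∈ Aal := sf79_loc B' (n.comap fα)`;
* modulo `𝔪(V₃)` and modulo `𝔪(V₂)` to `β₂ a`, `a ∈ Abe := sf79_loc B' (n.comap fβ)`,

`B'` the level-`M' q` chart, `fα`, `fβ : B' →+* B` the chart maps (or `bk63_res α₂ …`,
`bk63_res β₂ …`).  Route: helper3's chart-level lifts `tl3_Lifts` (`tl3_lifts_level2/3`) +
helper63's `to63_lift` / `to63_cen`.

* `tho92_HO`            : the four clauses for local rings `Aal`, `Abe` (a `Prop`);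
* `tho92_hO`            : `tho92_HO` for `Aal = sf79_loc B' (n.comap (bk63_res α₂ B' B hαB))`,
  `Abe = sf79_loc B' (n.comap (bk63_res β₂ B' B hβB))` from `tl3_Lifts`, the chart containments,
  the radical clauses and `n` on the three branches;
* `tho92_hO_maps`       : the same with abstract chart maps `fα`, `fβ` (shape of `pbi81_triple`);
* `tho92_level2/3(_inv)`: the canonical charts of `pk85_h2` / `pk85_h3`, every frame hypothesis
  discharged (`V₂` ANY valuation subring with the four facts `hV₂ hπ₂ hne hs`).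

All names are prefixed `tho92_`.
-/

set_option autoImplicit false
set_option linter.unusedSectionVars false
set_option linter.style.haveILetI false
set_option linter.unusedVariables false
set_option linter.style.longLine false

open ModularCurve AlgebraicCurve

namespace Fermat.Agent.S36

open Fermat.Agent.S18 Fermat.Agent.S24 Fermat.Agent.S34 Fermat.Agent.S36.TripleLoc71

section tho92

variable {R K : Type} [CommRing R] [IsDomain R] [IsDiscreteValuationRing R] [Field K]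
  [CharZero K] [Algebra R K] [IsFractionRing R K] [Algebra K Kbar] [Algebra.IsAlgebraic K Kbar]
  (M' q : ℕ) [NeZero M'] [NeZero q] (hq : q.Prime) (hM' : ¬ q ∣ M')
  [Algebra R ↥(modularFunctionFieldFullC K M')]
  [IsScalarTower R K ↥(modularFunctionFieldFullC K M')]
  [Algebra R ↥(modularFunctionFieldFullC K (M' * q))]
  [IsScalarTower R K ↥(modularFunctionFieldFullC K (M' * q))]
  [Algebra R ↥(modularFunctionFieldFullC K (M' * q * q))]
  [IsScalarTower R K ↥(modularFunctionFieldFullC K (M' * q * q))]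

/-- **The four `hO` clauses** of `hp53_TripleData` (conjuncts `hO1`, `hO2`, `hO3'`, `hO2'` of the
`∃ Aal Abe` block, literally) on the canonical frame, for local rings `Aal`, `Abe`. -/
def tho92_HO {π : R} (hπ : Irreducible π)
    (V₂ : ValuationSubring ↥(modularFunctionFieldFullC K (M' * q * q)))
    (B : Subalgebra R ↥(modularFunctionFieldFullC K (M' * q * q))) (n : Ideal B) [n.IsPrime]
    (Aal Abe : Subring ↥(modularFunctionFieldFullC K (M' * q))) : Prop :=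
  (∀ b ∈ sf79_loc B n, ∃ a ∈ Aal, (cm85_Vinf (K := K) (M' * q * q) hπ).valuation
    ((al97L_alpha K (M' * q) q).toRingHom a - b) < 1) ∧
  (∀ b ∈ sf79_loc B n, ∃ a ∈ Aal,
    V₂.valuation ((al97L_alpha K (M' * q) q).toRingHom a - b) < 1) ∧
  (∀ b ∈ sf79_loc B n, ∃ a ∈ Abe, (nsb86_V3 (K := K) M' q hq hM' hπ).valuation
    ((al97L_beta K (M' * q) q).toRingHom a - b) < 1) ∧
  (∀ b ∈ sf79_loc B n, ∃ a ∈ Abe,
    V₂.valuation ((al97L_beta K (M' * q) q).toRingHom a - b) < 1)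

/-- **The four `hO` clauses from the chart-level lifts** (`bk63_res` form of the contractions). -/
theorem tho92_hO {π : R} (hπ : Irreducible π)
    (V₂ : ValuationSubring ↥(modularFunctionFieldFullC K (M' * q * q)))
    (s₁ : Set ↥(modularFunctionFieldFullC K (M' * q)))
    (s₂ : Set ↥(modularFunctionFieldFullC K (M' * q * q)))
    (hL : tl3_Lifts (K := K) M' q hq hM' hπ V₂ s₁ s₂)
    (hαB : ∀ x' ∈ pk15_chart R s₁, (al97L_alpha K (M' * q) q).toRingHom x' ∈ pk15_chart R s₂)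
    (hβB : ∀ x' ∈ pk15_chart R s₁, (al97L_beta K (M' * q) q).toRingHom x' ∈ pk15_chart R s₂)
    (hBV₁ : ∀ x ∈ pk15_chart R s₂, x ∈ cm85_Vinf (K := K) (M' * q * q) hπ)
    (hBV₂ : ∀ x ∈ pk15_chart R s₂, x ∈ V₂)
    (hBV₃ : ∀ x ∈ pk15_chart R s₂, x ∈ nsb86_V3 (K := K) M' q hq hM' hπ)
    (hrad₁ : ∀ x ∈ cm85_Vinf (K := K) (M' * q * q) hπ, x⁻¹ ∉ cm85_Vinf (K := K) (M' * q * q) hπ →
      ∃ k : ℕ, (algebraMap R ↥(modularFunctionFieldFullC K (M' * q * q)) π)⁻¹ * x ^ k ∈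
        cm85_Vinf (K := K) (M' * q * q) hπ)
    (hrad₂ : ∀ x ∈ V₂, x⁻¹ ∉ V₂ →
      ∃ k : ℕ, (algebraMap R ↥(modularFunctionFieldFullC K (M' * q * q)) π)⁻¹ * x ^ k ∈ V₂)
    (hrad₃ : ∀ x ∈ nsb86_V3 (K := K) M' q hq hM' hπ, x⁻¹ ∉ nsb86_V3 (K := K) M' q hq hM' hπ →
      ∃ k : ℕ, (algebraMap R ↥(modularFunctionFieldFullC K (M' * q * q)) π)⁻¹ * x ^ k ∈
        nsb86_V3 (K := K) M' q hq hM' hπ)
    (n : Ideal (pk15_chart R s₂)) [hn : n.IsPrime]
    (hOn₁ : sf79_OnBr π (pk15_chart R s₂) (cm85_Vinf (K := K) (M' * q * q) hπ).toSubring n)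
    (hOn₂ : sf79_OnBr π (pk15_chart R s₂) V₂.toSubring n)
    (hOn₃ : sf79_OnBr π (pk15_chart R s₂) (nsb86_V3 (K := K) M' q hq hM' hπ).toSubring n) :
    tho92_HO (K := K) M' q hq hM' hπ V₂ (pk15_chart R s₂) n
      (sf79_loc (pk15_chart R s₁) (n.comap (bk63_res (al97L_alpha K (M' * q) q).toRingHom
        (pk15_chart R s₁) (pk15_chart R s₂) hαB)))
      (sf79_loc (pk15_chart R s₁) (n.comap (bk63_res (al97L_beta K (M' * q) q).toRingHom
        (pk15_chart R s₁) (pk15_chart R s₂) hβB))) := by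
  obtain ⟨L1, L2, L3, L4⟩ := hL
  have c1 := to63_cen π (pk15_chart R s₂) (cm85_Vinf (K := K) (M' * q * q) hπ) hrad₁ n hOn₁
  have c2 := to63_cen π (pk15_chart R s₂) V₂ hrad₂ n hOn₂
  have c3 := to63_cen π (pk15_chart R s₂) (nsb86_V3 (K := K) M' q hq hM' hπ) hrad₃ n hOn₃
  refine ⟨?_, ?_, ?_, ?_⟩
  · intro b hb
    exact to63_lift (al97L_alpha K (M' * q) q).toRingHom (pk15_chart R s₁) (pk15_chart R s₂) hαB
      (cm85_Vinf (K := K) (M' * q * q) hπ) hBV₁ n c1 L1 b hb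
  · intro b hb
    exact to63_lift (al97L_alpha K (M' * q) q).toRingHom (pk15_chart R s₁) (pk15_chart R s₂) hαB
      V₂ hBV₂ n c2 L2 b hb
  · intro b hb
    exact to63_lift (al97L_beta K (M' * q) q).toRingHom (pk15_chart R s₁) (pk15_chart R s₂) hβB
      (nsb86_V3 (K := K) M' q hq hM' hπ) hBV₃ n c3 L3 b hb
  · intro b hb
    exact to63_lift (al97L_beta K (M' * q) q).toRingHom (pk15_chart R s₁) (pk15_chart R s₂) hβB
      V₂ hBV₂ n c2 L4 b hb

/-- **The four `hO` clauses, chart-map form** (`fα`, `fβ` as in `pbi81_triple` / the outputs of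
`bc95_alpha`, `bc95_beta_level2/3`): `Aal = sf79_loc B' (n.comap fα)`,
`Abe = sf79_loc B' (n.comap fβ)`. -/
theorem tho92_hO_maps {π : R} (hπ : Irreducible π)
    (V₂ : ValuationSubring ↥(modularFunctionFieldFullC K (M' * q * q)))
    (s₁ : Set ↥(modularFunctionFieldFullC K (M' * q)))
    (s₂ : Set ↥(modularFunctionFieldFullC K (M' * q * q)))
    (hL : tl3_Lifts (K := K) M' q hq hM' hπ V₂ s₁ s₂)
    (fα : ↥(pk15_chart R s₁) →+* ↥(pk15_chart R s₂))
    (hfα : ∀ x, ((fα x : ↥(pk15_chart R s₂)) : ↥(modularFunctionFieldFullC K (M' * q * q))) =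
      al97L_alpha K (M' * q) q (x : ↥(modularFunctionFieldFullC K (M' * q))))
    (fβ : ↥(pk15_chart R s₁) →+* ↥(pk15_chart R s₂))
    (hfβ : ∀ x, ((fβ x : ↥(pk15_chart R s₂)) : ↥(modularFunctionFieldFullC K (M' * q * q))) =
      al97L_beta K (M' * q) q (x : ↥(modularFunctionFieldFullC K (M' * q))))
    (hBV₁ : ∀ x ∈ pk15_chart R s₂, x ∈ cm85_Vinf (K := K) (M' * q * q) hπ)
    (hBV₂ : ∀ x ∈ pk15_chart R s₂, x ∈ V₂)
    (hBV₃ : ∀ x ∈ pk15_chart R s₂, x ∈ nsb86_V3 (K := K) M' q hq hM' hπ)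
    (hrad₁ : ∀ x ∈ cm85_Vinf (K := K) (M' * q * q) hπ, x⁻¹ ∉ cm85_Vinf (K := K) (M' * q * q) hπ →
      ∃ k : ℕ, (algebraMap R ↥(modularFunctionFieldFullC K (M' * q * q)) π)⁻¹ * x ^ k ∈
        cm85_Vinf (K := K) (M' * q * q) hπ)
    (hrad₂ : ∀ x ∈ V₂, x⁻¹ ∉ V₂ →
      ∃ k : ℕ, (algebraMap R ↥(modularFunctionFieldFullC K (M' * q * q)) π)⁻¹ * x ^ k ∈ V₂)
    (hrad₃ : ∀ x ∈ nsb86_V3 (K := K) M' q hq hM' hπ, x⁻¹ ∉ nsb86_V3 (K := K) M' q hq hM' hπ →
      ∃ k : ℕ, (algebraMap R ↥(modularFunctionFieldFullC K (M' * q * q)) π)⁻¹ * x ^ k ∈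
        nsb86_V3 (K := K) M' q hq hM' hπ)
    (n : Ideal (pk15_chart R s₂)) [hn : n.IsPrime]
    (hOn₁ : sf79_OnBr π (pk15_chart R s₂) (cm85_Vinf (K := K) (M' * q * q) hπ).toSubring n)
    (hOn₂ : sf79_OnBr π (pk15_chart R s₂) V₂.toSubring n)
    (hOn₃ : sf79_OnBr π (pk15_chart R s₂) (nsb86_V3 (K := K) M' q hq hM' hπ).toSubring n) :
    tho92_HO (K := K) M' q hq hM' hπ V₂ (pk15_chart R s₂) n
      (sf79_loc (pk15_chart R s₁) (n.comap fα)) (sf79_loc (pk15_chart R s₁) (n.comap fβ)) := by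
  have hαB : ∀ x' ∈ pk15_chart R s₁,
      (al97L_alpha K (M' * q) q).toRingHom x' ∈ pk15_chart R s₂ := by
    intro x' hx'
    have h := (fα ⟨x', hx'⟩).2
    rw [hfα] at h
    exact h
  have hβB : ∀ x' ∈ pk15_chart R s₁,
      (al97L_beta K (M' * q) q).toRingHom x' ∈ pk15_chart R s₂ := by
    intro x' hx'
    have h := (fβ ⟨x', hx'⟩).2
    rw [hfβ] at h
    exact h
  have eα : bk63_res (al97L_alpha K (M' * q) q).toRingHom (pk15_chart R s₁) (pk15_chart R s₂)
      hαB = fα :=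
    RingHom.ext fun x => Subtype.ext (by rw [bk63_res_coe]; exact (hfα x).symm)
  have eβ : bk63_res (al97L_beta K (M' * q) q).toRingHom (pk15_chart R s₁) (pk15_chart R s₂)
      hβB = fβ :=
    RingHom.ext fun x => Subtype.ext (by rw [bk63_res_coe]; exact (hfβ x).symm)
  have key := tho92_hO (K := K) M' q hq hM' hπ V₂ s₁ s₂ hL hαB hβB hBV₁ hBV₂ hBV₃ hrad₁ hrad₂
    hrad₃ n hOn₁ hOn₂ hOn₃
  rw [eα, eβ] at key
  exact key


/-- **The four `hO` clauses on the canonical charts, level 2** (both affine charts of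
`pk85_h2`), `bk63_res` form; `V₂` ANY valuation subring with the four facts. -/
theorem tho92_level2 {π : R} (hπ : Irreducible π) (hqR : ¬ IsUnit (q : R))
    (hunit : ∀ n : ℕ, Nat.Coprime n q → IsUnit (n : R)) (h2 : 2 ∣ M')
    (V₂ : ValuationSubring ↥(modularFunctionFieldFullC K (M' * q * q)))
    (hα₂ : ∀ x ∈ cm85_Vinf (K := K) (M' * q) hπ, al97L_alpha K (M' * q) q x ∈ V₂)
    (hπ₂ : (algebraMap K ↥(modularFunctionFieldFullC K (M' * q * q)) (algebraMap R K π))⁻¹ ∉ V₂)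
    (hne : cm85_Vinf (K := K) (M' * q * q) hπ ≠ V₂)
    (hs : V₂.valuation (v2g64_s K M' q) ^ (q - 1) =
      V₂.valuation (algebraMap K ↥(modularFunctionFieldFullC K (M' * q * q)) (algebraMap R K π))) :
    (∀ (hαB : ∀ x' ∈ pk15_chart R ({pk85_h2 K (M' * q) (h2.trans (dvd_mul_right M' q))} : Set ↥(modularFunctionFieldFullC K (M' * q))),
          (al97L_alpha K (M' * q) q).toRingHom x' ∈ pk15_chart R ({pk85_h2 K (M' * q * q) (h2.trans ((dvd_mul_right M' q).trans (dvd_mul_right (M' * q) q)))} : Set ↥(modularFunctionFieldFullC K (M' * q * q))))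
        (hβB : ∀ x' ∈ pk15_chart R ({pk85_h2 K (M' * q) (h2.trans (dvd_mul_right M' q))} : Set ↥(modularFunctionFieldFullC K (M' * q))),
          (al97L_beta K (M' * q) q).toRingHom x' ∈ pk15_chart R ({pk85_h2 K (M' * q * q) (h2.trans ((dvd_mul_right M' q).trans (dvd_mul_right (M' * q) q)))} : Set ↥(modularFunctionFieldFullC K (M' * q * q))))
        (n : Ideal (pk15_chart R ({pk85_h2 K (M' * q * q) (h2.trans ((dvd_mul_right M' q).trans (dvd_mul_right (M' * q) q)))} : Set ↥(modularFunctionFieldFullC K (M' * q * q))))) [n.IsPrime],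
        sf79_OnBr π (pk15_chart R ({pk85_h2 K (M' * q * q) (h2.trans ((dvd_mul_right M' q).trans (dvd_mul_right (M' * q) q)))} : Set ↥(modularFunctionFieldFullC K (M' * q * q))))
          (cm85_Vinf (K := K) (M' * q * q) hπ).toSubring n →
        sf79_OnBr π (pk15_chart R ({pk85_h2 K (M' * q * q) (h2.trans ((dvd_mul_right M' q).trans (dvd_mul_right (M' * q) q)))} : Set ↥(modularFunctionFieldFullC K (M' * q * q)))) V₂.toSubring n →
        sf79_OnBr π (pk15_chart R ({pk85_h2 K (M' * q * q) (h2.trans ((dvd_mul_right M' q).trans (dvd_mul_right (M' * q) q)))} : Set ↥(modularFunctionFieldFullC K (M' * q * q))))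
          (nsb86_V3 (K := K) M' q hq hM' hπ).toSubring n →
        tho92_HO (K := K) M' q hq hM' hπ V₂ (pk15_chart R ({pk85_h2 K (M' * q * q) (h2.trans ((dvd_mul_right M' q).trans (dvd_mul_right (M' * q) q)))} : Set ↥(modularFunctionFieldFullC K (M' * q * q)))) n
          (sf79_loc (pk15_chart R ({pk85_h2 K (M' * q) (h2.trans (dvd_mul_right M' q))} : Set ↥(modularFunctionFieldFullC K (M' * q))))
            (n.comap (bk63_res (al97L_alpha K (M' * q) q).toRingHom _ _ hαB)))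
          (sf79_loc (pk15_chart R ({pk85_h2 K (M' * q) (h2.trans (dvd_mul_right M' q))} : Set ↥(modularFunctionFieldFullC K (M' * q))))
            (n.comap (bk63_res (al97L_beta K (M' * q) q).toRingHom _ _ hβB)))) ∧
    (∀ (hαB : ∀ x' ∈ pk15_chart R ({(pk85_h2 K (M' * q) (h2.trans (dvd_mul_right M' q)))⁻¹} : Set ↥(modularFunctionFieldFullC K (M' * q))),
          (al97L_alpha K (M' * q) q).toRingHom x' ∈ pk15_chart R ({(pk85_h2 K (M' * q * q) (h2.trans ((dvd_mul_right M' q).trans (dvd_mul_right (M' * q) q))))⁻¹} : Set ↥(modularFunctionFieldFullC K (M' * q * q))))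
        (hβB : ∀ x' ∈ pk15_chart R ({(pk85_h2 K (M' * q) (h2.trans (dvd_mul_right M' q)))⁻¹} : Set ↥(modularFunctionFieldFullC K (M' * q))),
          (al97L_beta K (M' * q) q).toRingHom x' ∈ pk15_chart R ({(pk85_h2 K (M' * q * q) (h2.trans ((dvd_mul_right M' q).trans (dvd_mul_right (M' * q) q))))⁻¹} : Set ↥(modularFunctionFieldFullC K (M' * q * q))))
        (n : Ideal (pk15_chart R ({(pk85_h2 K (M' * q * q) (h2.trans ((dvd_mul_right M' q).trans (dvd_mul_right (M' * q) q))))⁻¹} : Set ↥(modularFunctionFieldFullC K (M' * q * q))))) [n.IsPrime],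
        sf79_OnBr π (pk15_chart R ({(pk85_h2 K (M' * q * q) (h2.trans ((dvd_mul_right M' q).trans (dvd_mul_right (M' * q) q))))⁻¹} : Set ↥(modularFunctionFieldFullC K (M' * q * q))))
          (cm85_Vinf (K := K) (M' * q * q) hπ).toSubring n →
        sf79_OnBr π (pk15_chart R ({(pk85_h2 K (M' * q * q) (h2.trans ((dvd_mul_right M' q).trans (dvd_mul_right (M' * q) q))))⁻¹} : Set ↥(modularFunctionFieldFullC K (M' * q * q)))) V₂.toSubring n →
        sf79_OnBr π (pk15_chart R ({(pk85_h2 K (M' * q * q) (h2.trans ((dvd_mul_right M' q).trans (dvd_mul_right (M' * q) q))))⁻¹} : Set ↥(modularFunctionFieldFullC K (M' * q * q))))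
          (nsb86_V3 (K := K) M' q hq hM' hπ).toSubring n →
        tho92_HO (K := K) M' q hq hM' hπ V₂ (pk15_chart R ({(pk85_h2 K (M' * q * q) (h2.trans ((dvd_mul_right M' q).trans (dvd_mul_right (M' * q) q))))⁻¹} : Set ↥(modularFunctionFieldFullC K (M' * q * q)))) n
          (sf79_loc (pk15_chart R ({(pk85_h2 K (M' * q) (h2.trans (dvd_mul_right M' q)))⁻¹} : Set ↥(modularFunctionFieldFullC K (M' * q))))
            (n.comap (bk63_res (al97L_alpha K (M' * q) q).toRingHom _ _ hαB)))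
          (sf79_loc (pk15_chart R ({(pk85_h2 K (M' * q) (h2.trans (dvd_mul_right M' q)))⁻¹} : Set ↥(modularFunctionFieldFullC K (M' * q))))
            (n.comap (bk63_res (al97L_beta K (M' * q) q).toRingHom _ _ hβB)))) := by
  have hMu : IsUnit (M' : R) := hunit M' ((Nat.Prime.coprime_iff_not_dvd hq).2 hM').symm
  obtain ⟨hL₁, hL₂⟩ := tl3_lifts_level2 (R := R) (K := K) M' q hq hM' hπ hqR hunit h2 V₂
    hα₂ hπ₂ hne hs
  obtain ⟨⟨-, a1, a2, a3, -⟩, ⟨-, b1, b2, b3, -⟩⟩ :=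
    cf54_level2 (R := R) (K := K) M' q hq hM' hπ hqR hMu h2 V₂ hα₂ hπ₂ hs
  have hr := fc73_rad (R := R) (K := K) M' q hq hM' hπ hqR V₂ hα₂ hπ₂ hne hs
  have hrad₁ : ∀ x ∈ cm85_Vinf (K := K) (M' * q * q) hπ,
      x⁻¹ ∉ cm85_Vinf (K := K) (M' * q * q) hπ →
      ∃ k : ℕ, (algebraMap R ↥(modularFunctionFieldFullC K (M' * q * q)) π)⁻¹ * x ^ k ∈
        cm85_Vinf (K := K) (M' * q * q) hπ := hr 0
  have hrad₂ : ∀ x ∈ V₂, x⁻¹ ∉ V₂ →
      ∃ k : ℕ, (algebraMap R ↥(modularFunctionFieldFullC K (M' * q * q)) π)⁻¹ * x ^ k ∈ V₂ := hr 1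
  have hrad₃ : ∀ x ∈ nsb86_V3 (K := K) M' q hq hM' hπ,
      x⁻¹ ∉ nsb86_V3 (K := K) M' q hq hM' hπ →
      ∃ k : ℕ, (algebraMap R ↥(modularFunctionFieldFullC K (M' * q * q)) π)⁻¹ * x ^ k ∈
        nsb86_V3 (K := K) M' q hq hM' hπ := hr 2
  refine ⟨?_, ?_⟩
  · intro hαB hβB n _ h1 h2 h3
    exact tho92_hO (K := K) M' q hq hM' hπ V₂ _ _ hL₁ hαB hβB a1 a2 a3 hrad₁ hrad₂ hrad₃ n
      h1 h2 h3
  · intro hαB hβB n _ h1 h2 h3
    exact tho92_hO (K := K) M' q hq hM' hπ V₂ _ _ hL₂ hαB hβB b1 b2 b3 hrad₁ hrad₂ hrad₃ n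
      h1 h2 h3

/-- **The four `hO` clauses on the canonical charts, level 2** (both affine charts of
`pk85_h2`), chart-map form (`fα`, `fβ` as in `pbi81_triple`). -/
theorem tho92_level2_maps {π : R} (hπ : Irreducible π) (hqR : ¬ IsUnit (q : R))
    (hunit : ∀ n : ℕ, Nat.Coprime n q → IsUnit (n : R)) (h2 : 2 ∣ M')
    (V₂ : ValuationSubring ↥(modularFunctionFieldFullC K (M' * q * q)))
    (hα₂ : ∀ x ∈ cm85_Vinf (K := K) (M' * q) hπ, al97L_alpha K (M' * q) q x ∈ V₂)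
    (hπ₂ : (algebraMap K ↥(modularFunctionFieldFullC K (M' * q * q)) (algebraMap R K π))⁻¹ ∉ V₂)
    (hne : cm85_Vinf (K := K) (M' * q * q) hπ ≠ V₂)
    (hs : V₂.valuation (v2g64_s K M' q) ^ (q - 1) =
      V₂.valuation (algebraMap K ↥(modularFunctionFieldFullC K (M' * q * q)) (algebraMap R K π))) :
    (∀ (fα : ↥(pk15_chart R ({pk85_h2 K (M' * q) (h2.trans (dvd_mul_right M' q))} : Set ↥(modularFunctionFieldFullC K (M' * q)))) →+* ↥(pk15_chart R ({pk85_h2 K (M' * q * q) (h2.trans ((dvd_mul_right M' q).trans (dvd_mul_right (M' * q) q)))} : Set ↥(modularFunctionFieldFullC K (M' * q * q)))))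
        (hfα : ∀ x, ((fα x : ↥(pk15_chart R ({pk85_h2 K (M' * q * q) (h2.trans ((dvd_mul_right M' q).trans (dvd_mul_right (M' * q) q)))} : Set ↥(modularFunctionFieldFullC K (M' * q * q))))) : ↥(modularFunctionFieldFullC K (M' * q * q))) =
          al97L_alpha K (M' * q) q (x : ↥(modularFunctionFieldFullC K (M' * q))))
        (fβ : ↥(pk15_chart R ({pk85_h2 K (M' * q) (h2.trans (dvd_mul_right M' q))} : Set ↥(modularFunctionFieldFullC K (M' * q)))) →+* ↥(pk15_chart R ({pk85_h2 K (M' * q * q) (h2.trans ((dvd_mul_right M' q).trans (dvd_mul_right (M' * q) q)))} : Set ↥(modularFunctionFieldFullC K (M' * q * q)))))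
        (hfβ : ∀ x, ((fβ x : ↥(pk15_chart R ({pk85_h2 K (M' * q * q) (h2.trans ((dvd_mul_right M' q).trans (dvd_mul_right (M' * q) q)))} : Set ↥(modularFunctionFieldFullC K (M' * q * q))))) : ↥(modularFunctionFieldFullC K (M' * q * q))) =
          al97L_beta K (M' * q) q (x : ↥(modularFunctionFieldFullC K (M' * q))))
        (n : Ideal (pk15_chart R ({pk85_h2 K (M' * q * q) (h2.trans ((dvd_mul_right M' q).trans (dvd_mul_right (M' * q) q)))} : Set ↥(modularFunctionFieldFullC K (M' * q * q))))) [n.IsPrime],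
        sf79_OnBr π (pk15_chart R ({pk85_h2 K (M' * q * q) (h2.trans ((dvd_mul_right M' q).trans (dvd_mul_right (M' * q) q)))} : Set ↥(modularFunctionFieldFullC K (M' * q * q))))
          (cm85_Vinf (K := K) (M' * q * q) hπ).toSubring n →
        sf79_OnBr π (pk15_chart R ({pk85_h2 K (M' * q * q) (h2.trans ((dvd_mul_right M' q).trans (dvd_mul_right (M' * q) q)))} : Set ↥(modularFunctionFieldFullC K (M' * q * q)))) V₂.toSubring n →
        sf79_OnBr π (pk15_chart R ({pk85_h2 K (M' * q * q) (h2.trans ((dvd_mul_right M' q).trans (dvd_mul_right (M' * q) q)))} : Set ↥(modularFunctionFieldFullC K (M' * q * q))))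
          (nsb86_V3 (K := K) M' q hq hM' hπ).toSubring n →
        tho92_HO (K := K) M' q hq hM' hπ V₂ (pk15_chart R ({pk85_h2 K (M' * q * q) (h2.trans ((dvd_mul_right M' q).trans (dvd_mul_right (M' * q) q)))} : Set ↥(modularFunctionFieldFullC K (M' * q * q)))) n
          (sf79_loc (pk15_chart R ({pk85_h2 K (M' * q) (h2.trans (dvd_mul_right M' q))} : Set ↥(modularFunctionFieldFullC K (M' * q)))) (n.comap fα))
          (sf79_loc (pk15_chart R ({pk85_h2 K (M' * q) (h2.trans (dvd_mul_right M' q))} : Set ↥(modularFunctionFieldFullC K (M' * q)))) (n.comap fβ))) ∧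
    (∀ (fα : ↥(pk15_chart R ({(pk85_h2 K (M' * q) (h2.trans (dvd_mul_right M' q)))⁻¹} : Set ↥(modularFunctionFieldFullC K (M' * q)))) →+* ↥(pk15_chart R ({(pk85_h2 K (M' * q * q) (h2.trans ((dvd_mul_right M' q).trans (dvd_mul_right (M' * q) q))))⁻¹} : Set ↥(modularFunctionFieldFullC K (M' * q * q)))))
        (hfα : ∀ x, ((fα x : ↥(pk15_chart R ({(pk85_h2 K (M' * q * q) (h2.trans ((dvd_mul_right M' q).trans (dvd_mul_right (M' * q) q))))⁻¹} : Set ↥(modularFunctionFieldFullC K (M' * q * q))))) : ↥(modularFunctionFieldFullC K (M' * q * q))) =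
          al97L_alpha K (M' * q) q (x : ↥(modularFunctionFieldFullC K (M' * q))))
        (fβ : ↥(pk15_chart R ({(pk85_h2 K (M' * q) (h2.trans (dvd_mul_right M' q)))⁻¹} : Set ↥(modularFunctionFieldFullC K (M' * q)))) →+* ↥(pk15_chart R ({(pk85_h2 K (M' * q * q) (h2.trans ((dvd_mul_right M' q).trans (dvd_mul_right (M' * q) q))))⁻¹} : Set ↥(modularFunctionFieldFullC K (M' * q * q)))))
        (hfβ : ∀ x, ((fβ x : ↥(pk15_chart R ({(pk85_h2 K (M' * q * q) (h2.trans ((dvd_mul_right M' q).trans (dvd_mul_right (M' * q) q))))⁻¹} : Set ↥(modularFunctionFieldFullC K (M' * q * q))))) : ↥(modularFunctionFieldFullC K (M' * q * q))) =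
          al97L_beta K (M' * q) q (x : ↥(modularFunctionFieldFullC K (M' * q))))
        (n : Ideal (pk15_chart R ({(pk85_h2 K (M' * q * q) (h2.trans ((dvd_mul_right M' q).trans (dvd_mul_right (M' * q) q))))⁻¹} : Set ↥(modularFunctionFieldFullC K (M' * q * q))))) [n.IsPrime],
        sf79_OnBr π (pk15_chart R ({(pk85_h2 K (M' * q * q) (h2.trans ((dvd_mul_right M' q).trans (dvd_mul_right (M' * q) q))))⁻¹} : Set ↥(modularFunctionFieldFullC K (M' * q * q))))
          (cm85_Vinf (K := K) (M' * q * q) hπ).toSubring n →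
        sf79_OnBr π (pk15_chart R ({(pk85_h2 K (M' * q * q) (h2.trans ((dvd_mul_right M' q).trans (dvd_mul_right (M' * q) q))))⁻¹} : Set ↥(modularFunctionFieldFullC K (M' * q * q)))) V₂.toSubring n →
        sf79_OnBr π (pk15_chart R ({(pk85_h2 K (M' * q * q) (h2.trans ((dvd_mul_right M' q).trans (dvd_mul_right (M' * q) q))))⁻¹} : Set ↥(modularFunctionFieldFullC K (M' * q * q))))
          (nsb86_V3 (K := K) M' q hq hM' hπ).toSubring n →
        tho92_HO (K := K) M' q hq hM' hπ V₂ (pk15_chart R ({(pk85_h2 K (M' * q * q) (h2.trans ((dvd_mul_right M' q).trans (dvd_mul_right (M' * q) q))))⁻¹} : Set ↥(modularFunctionFieldFullC K (M' * q * q)))) n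
          (sf79_loc (pk15_chart R ({(pk85_h2 K (M' * q) (h2.trans (dvd_mul_right M' q)))⁻¹} : Set ↥(modularFunctionFieldFullC K (M' * q)))) (n.comap fα))
          (sf79_loc (pk15_chart R ({(pk85_h2 K (M' * q) (h2.trans (dvd_mul_right M' q)))⁻¹} : Set ↥(modularFunctionFieldFullC K (M' * q)))) (n.comap fβ))) := by
  have hMu : IsUnit (M' : R) := hunit M' ((Nat.Prime.coprime_iff_not_dvd hq).2 hM').symm
  obtain ⟨hL₁, hL₂⟩ := tl3_lifts_level2 (R := R) (K := K) M' q hq hM' hπ hqR hunit h2 V₂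
    hα₂ hπ₂ hne hs
  obtain ⟨⟨-, a1, a2, a3, -⟩, ⟨-, b1, b2, b3, -⟩⟩ :=
    cf54_level2 (R := R) (K := K) M' q hq hM' hπ hqR hMu h2 V₂ hα₂ hπ₂ hs
  have hr := fc73_rad (R := R) (K := K) M' q hq hM' hπ hqR V₂ hα₂ hπ₂ hne hs
  have hrad₁ : ∀ x ∈ cm85_Vinf (K := K) (M' * q * q) hπ,
      x⁻¹ ∉ cm85_Vinf (K := K) (M' * q * q) hπ →
      ∃ k : ℕ, (algebraMap R ↥(modularFunctionFieldFullC K (M' * q * q)) π)⁻¹ * x ^ k ∈
        cm85_Vinf (K := K) (M' * q * q) hπ := hr 0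
  have hrad₂ : ∀ x ∈ V₂, x⁻¹ ∉ V₂ →
      ∃ k : ℕ, (algebraMap R ↥(modularFunctionFieldFullC K (M' * q * q)) π)⁻¹ * x ^ k ∈ V₂ := hr 1
  have hrad₃ : ∀ x ∈ nsb86_V3 (K := K) M' q hq hM' hπ,
      x⁻¹ ∉ nsb86_V3 (K := K) M' q hq hM' hπ →
      ∃ k : ℕ, (algebraMap R ↥(modularFunctionFieldFullC K (M' * q * q)) π)⁻¹ * x ^ k ∈
        nsb86_V3 (K := K) M' q hq hM' hπ := hr 2
  refine ⟨?_, ?_⟩
  · intro fα hfα fβ hfβ n _ h1 h2 h3
    exact tho92_hO_maps (K := K) M' q hq hM' hπ V₂ _ _ hL₁ fα hfα fβ hfβ a1 a2 a3 hrad₁ hrad₂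
      hrad₃ n h1 h2 h3
  · intro fα hfα fβ hfβ n _ h1 h2 h3
    exact tho92_hO_maps (K := K) M' q hq hM' hπ V₂ _ _ hL₂ fα hfα fβ hfβ b1 b2 b3 hrad₁ hrad₂
      hrad₃ n h1 h2 h3

/-- **The four `hO` clauses on the canonical charts, level 3** (both affine charts of
`pk85_h3`), `bk63_res` form; `V₂` ANY valuation subring with the four facts. -/
theorem tho92_level3 {π : R} (hπ : Irreducible π) (hqR : ¬ IsUnit (q : R))
    (hunit : ∀ n : ℕ, Nat.Coprime n q → IsUnit (n : R)) (h3 : 3 ∣ M')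
    (V₂ : ValuationSubring ↥(modularFunctionFieldFullC K (M' * q * q)))
    (hα₂ : ∀ x ∈ cm85_Vinf (K := K) (M' * q) hπ, al97L_alpha K (M' * q) q x ∈ V₂)
    (hπ₂ : (algebraMap K ↥(modularFunctionFieldFullC K (M' * q * q)) (algebraMap R K π))⁻¹ ∉ V₂)
    (hne : cm85_Vinf (K := K) (M' * q * q) hπ ≠ V₂)
    (hs : V₂.valuation (v2g64_s K M' q) ^ (q - 1) =
      V₂.valuation (algebraMap K ↥(modularFunctionFieldFullC K (M' * q * q)) (algebraMap R K π))) :
    (∀ (hαB : ∀ x' ∈ pk15_chart R ({pk85_h3 K (M' * q) (h3.trans (dvd_mul_right M' q))} : Set ↥(modularFunctionFieldFullC K (M' * q))),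
          (al97L_alpha K (M' * q) q).toRingHom x' ∈ pk15_chart R ({pk85_h3 K (M' * q * q) (h3.trans ((dvd_mul_right M' q).trans (dvd_mul_right (M' * q) q)))} : Set ↥(modularFunctionFieldFullC K (M' * q * q))))
        (hβB : ∀ x' ∈ pk15_chart R ({pk85_h3 K (M' * q) (h3.trans (dvd_mul_right M' q))} : Set ↥(modularFunctionFieldFullC K (M' * q))),
          (al97L_beta K (M' * q) q).toRingHom x' ∈ pk15_chart R ({pk85_h3 K (M' * q * q) (h3.trans ((dvd_mul_right M' q).trans (dvd_mul_right (M' * q) q)))} : Set ↥(modularFunctionFieldFullC K (M' * q * q))))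
        (n : Ideal (pk15_chart R ({pk85_h3 K (M' * q * q) (h3.trans ((dvd_mul_right M' q).trans (dvd_mul_right (M' * q) q)))} : Set ↥(modularFunctionFieldFullC K (M' * q * q))))) [n.IsPrime],
        sf79_OnBr π (pk15_chart R ({pk85_h3 K (M' * q * q) (h3.trans ((dvd_mul_right M' q).trans (dvd_mul_right (M' * q) q)))} : Set ↥(modularFunctionFieldFullC K (M' * q * q))))
          (cm85_Vinf (K := K) (M' * q * q) hπ).toSubring n →
        sf79_OnBr π (pk15_chart R ({pk85_h3 K (M' * q * q) (h3.trans ((dvd_mul_right M' q).trans (dvd_mul_right (M' * q) q)))} : Set ↥(modularFunctionFieldFullC K (M' * q * q)))) V₂.toSubring n →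
        sf79_OnBr π (pk15_chart R ({pk85_h3 K (M' * q * q) (h3.trans ((dvd_mul_right M' q).trans (dvd_mul_right (M' * q) q)))} : Set ↥(modularFunctionFieldFullC K (M' * q * q))))
          (nsb86_V3 (K := K) M' q hq hM' hπ).toSubring n →
        tho92_HO (K := K) M' q hq hM' hπ V₂ (pk15_chart R ({pk85_h3 K (M' * q * q) (h3.trans ((dvd_mul_right M' q).trans (dvd_mul_right (M' * q) q)))} : Set ↥(modularFunctionFieldFullC K (M' * q * q)))) n
          (sf79_loc (pk15_chart R ({pk85_h3 K (M' * q) (h3.trans (dvd_mul_right M' q))} : Set ↥(modularFunctionFieldFullC K (M' * q))))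
            (n.comap (bk63_res (al97L_alpha K (M' * q) q).toRingHom _ _ hαB)))
          (sf79_loc (pk15_chart R ({pk85_h3 K (M' * q) (h3.trans (dvd_mul_right M' q))} : Set ↥(modularFunctionFieldFullC K (M' * q))))
            (n.comap (bk63_res (al97L_beta K (M' * q) q).toRingHom _ _ hβB)))) ∧
    (∀ (hαB : ∀ x' ∈ pk15_chart R ({(pk85_h3 K (M' * q) (h3.trans (dvd_mul_right M' q)))⁻¹} : Set ↥(modularFunctionFieldFullC K (M' * q))),
          (al97L_alpha K (M' * q) q).toRingHom x' ∈ pk15_chart R ({(pk85_h3 K (M' * q * q) (h3.trans ((dvd_mul_right M' q).trans (dvd_mul_right (M' * q) q))))⁻¹} : Set ↥(modularFunctionFieldFullC K (M' * q * q))))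
        (hβB : ∀ x' ∈ pk15_chart R ({(pk85_h3 K (M' * q) (h3.trans (dvd_mul_right M' q)))⁻¹} : Set ↥(modularFunctionFieldFullC K (M' * q))),
          (al97L_beta K (M' * q) q).toRingHom x' ∈ pk15_chart R ({(pk85_h3 K (M' * q * q) (h3.trans ((dvd_mul_right M' q).trans (dvd_mul_right (M' * q) q))))⁻¹} : Set ↥(modularFunctionFieldFullC K (M' * q * q))))
        (n : Ideal (pk15_chart R ({(pk85_h3 K (M' * q * q) (h3.trans ((dvd_mul_right M' q).trans (dvd_mul_right (M' * q) q))))⁻¹} : Set ↥(modularFunctionFieldFullC K (M' * q * q))))) [n.IsPrime],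
        sf79_OnBr π (pk15_chart R ({(pk85_h3 K (M' * q * q) (h3.trans ((dvd_mul_right M' q).trans (dvd_mul_right (M' * q) q))))⁻¹} : Set ↥(modularFunctionFieldFullC K (M' * q * q))))
          (cm85_Vinf (K := K) (M' * q * q) hπ).toSubring n →
        sf79_OnBr π (pk15_chart R ({(pk85_h3 K (M' * q * q) (h3.trans ((dvd_mul_right M' q).trans (dvd_mul_right (M' * q) q))))⁻¹} : Set ↥(modularFunctionFieldFullC K (M' * q * q)))) V₂.toSubring n →
        sf79_OnBr π (pk15_chart R ({(pk85_h3 K (M' * q * q) (h3.trans ((dvd_mul_right M' q).trans (dvd_mul_right (M' * q) q))))⁻¹} : Set ↥(modularFunctionFieldFullC K (M' * q * q))))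
          (nsb86_V3 (K := K) M' q hq hM' hπ).toSubring n →
        tho92_HO (K := K) M' q hq hM' hπ V₂ (pk15_chart R ({(pk85_h3 K (M' * q * q) (h3.trans ((dvd_mul_right M' q).trans (dvd_mul_right (M' * q) q))))⁻¹} : Set ↥(modularFunctionFieldFullC K (M' * q * q)))) n
          (sf79_loc (pk15_chart R ({(pk85_h3 K (M' * q) (h3.trans (dvd_mul_right M' q)))⁻¹} : Set ↥(modularFunctionFieldFullC K (M' * q))))
            (n.comap (bk63_res (al97L_alpha K (M' * q) q).toRingHom _ _ hαB)))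
          (sf79_loc (pk15_chart R ({(pk85_h3 K (M' * q) (h3.trans (dvd_mul_right M' q)))⁻¹} : Set ↥(modularFunctionFieldFullC K (M' * q))))
            (n.comap (bk63_res (al97L_beta K (M' * q) q).toRingHom _ _ hβB)))) := by
  have hMu : IsUnit (M' : R) := hunit M' ((Nat.Prime.coprime_iff_not_dvd hq).2 hM').symm
  obtain ⟨hL₁, hL₂⟩ := tl3_lifts_level3 (R := R) (K := K) M' q hq hM' hπ hqR hunit h3 V₂
    hα₂ hπ₂ hne hs
  obtain ⟨⟨-, a1, a2, a3, -⟩, ⟨-, b1, b2, b3, -⟩⟩ :=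
    cf54_level3 (R := R) (K := K) M' q hq hM' hπ hqR hMu h3 V₂ hα₂ hπ₂ hs
  have hr := fc73_rad (R := R) (K := K) M' q hq hM' hπ hqR V₂ hα₂ hπ₂ hne hs
  have hrad₁ : ∀ x ∈ cm85_Vinf (K := K) (M' * q * q) hπ,
      x⁻¹ ∉ cm85_Vinf (K := K) (M' * q * q) hπ →
      ∃ k : ℕ, (algebraMap R ↥(modularFunctionFieldFullC K (M' * q * q)) π)⁻¹ * x ^ k ∈
        cm85_Vinf (K := K) (M' * q * q) hπ := hr 0
  have hrad₂ : ∀ x ∈ V₂, x⁻¹ ∉ V₂ →
      ∃ k : ℕ, (algebraMap R ↥(modularFunctionFieldFullC K (M' * q * q)) π)⁻¹ * x ^ k ∈ V₂ := hr 1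
  have hrad₃ : ∀ x ∈ nsb86_V3 (K := K) M' q hq hM' hπ,
      x⁻¹ ∉ nsb86_V3 (K := K) M' q hq hM' hπ →
      ∃ k : ℕ, (algebraMap R ↥(modularFunctionFieldFullC K (M' * q * q)) π)⁻¹ * x ^ k ∈
        nsb86_V3 (K := K) M' q hq hM' hπ := hr 2
  refine ⟨?_, ?_⟩
  · intro hαB hβB n _ h1 h2 h3
    exact tho92_hO (K := K) M' q hq hM' hπ V₂ _ _ hL₁ hαB hβB a1 a2 a3 hrad₁ hrad₂ hrad₃ n
      h1 h2 h3
  · intro hαB hβB n _ h1 h2 h3
    exact tho92_hO (K := K) M' q hq hM' hπ V₂ _ _ hL₂ hαB hβB b1 b2 b3 hrad₁ hrad₂ hrad₃ n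
      h1 h2 h3

/-- **The four `hO` clauses on the canonical charts, level 3** (both affine charts of
`pk85_h3`), chart-map form (`fα`, `fβ` as in `pbi81_triple`). -/
theorem tho92_level3_maps {π : R} (hπ : Irreducible π) (hqR : ¬ IsUnit (q : R))
    (hunit : ∀ n : ℕ, Nat.Coprime n q → IsUnit (n : R)) (h3 : 3 ∣ M')
    (V₂ : ValuationSubring ↥(modularFunctionFieldFullC K (M' * q * q)))
    (hα₂ : ∀ x ∈ cm85_Vinf (K := K) (M' * q) hπ, al97L_alpha K (M' * q) q x ∈ V₂)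
    (hπ₂ : (algebraMap K ↥(modularFunctionFieldFullC K (M' * q * q)) (algebraMap R K π))⁻¹ ∉ V₂)
    (hne : cm85_Vinf (K := K) (M' * q * q) hπ ≠ V₂)
    (hs : V₂.valuation (v2g64_s K M' q) ^ (q - 1) =
      V₂.valuation (algebraMap K ↥(modularFunctionFieldFullC K (M' * q * q)) (algebraMap R K π))) :
    (∀ (fα : ↥(pk15_chart R ({pk85_h3 K (M' * q) (h3.trans (dvd_mul_right M' q))} : Set ↥(modularFunctionFieldFullC K (M' * q)))) →+* ↥(pk15_chart R ({pk85_h3 K (M' * q * q) (h3.trans ((dvd_mul_right M' q).trans (dvd_mul_right (M' * q) q)))} : Set ↥(modularFunctionFieldFullC K (M' * q * q)))))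
        (hfα : ∀ x, ((fα x : ↥(pk15_chart R ({pk85_h3 K (M' * q * q) (h3.trans ((dvd_mul_right M' q).trans (dvd_mul_right (M' * q) q)))} : Set ↥(modularFunctionFieldFullC K (M' * q * q))))) : ↥(modularFunctionFieldFullC K (M' * q * q))) =
          al97L_alpha K (M' * q) q (x : ↥(modularFunctionFieldFullC K (M' * q))))
        (fβ : ↥(pk15_chart R ({pk85_h3 K (M' * q) (h3.trans (dvd_mul_right M' q))} : Set ↥(modularFunctionFieldFullC K (M' * q)))) →+* ↥(pk15_chart R ({pk85_h3 K (M' * q * q) (h3.trans ((dvd_mul_right M' q).trans (dvd_mul_right (M' * q) q)))} : Set ↥(modularFunctionFieldFullC K (M' * q * q)))))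
        (hfβ : ∀ x, ((fβ x : ↥(pk15_chart R ({pk85_h3 K (M' * q * q) (h3.trans ((dvd_mul_right M' q).trans (dvd_mul_right (M' * q) q)))} : Set ↥(modularFunctionFieldFullC K (M' * q * q))))) : ↥(modularFunctionFieldFullC K (M' * q * q))) =
          al97L_beta K (M' * q) q (x : ↥(modularFunctionFieldFullC K (M' * q))))
        (n : Ideal (pk15_chart R ({pk85_h3 K (M' * q * q) (h3.trans ((dvd_mul_right M' q).trans (dvd_mul_right (M' * q) q)))} : Set ↥(modularFunctionFieldFullC K (M' * q * q))))) [n.IsPrime],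
        sf79_OnBr π (pk15_chart R ({pk85_h3 K (M' * q * q) (h3.trans ((dvd_mul_right M' q).trans (dvd_mul_right (M' * q) q)))} : Set ↥(modularFunctionFieldFullC K (M' * q * q))))
          (cm85_Vinf (K := K) (M' * q * q) hπ).toSubring n →
        sf79_OnBr π (pk15_chart R ({pk85_h3 K (M' * q * q) (h3.trans ((dvd_mul_right M' q).trans (dvd_mul_right (M' * q) q)))} : Set ↥(modularFunctionFieldFullC K (M' * q * q)))) V₂.toSubring n →
        sf79_OnBr π (pk15_chart R ({pk85_h3 K (M' * q * q) (h3.trans ((dvd_mul_right M' q).trans (dvd_mul_right (M' * q) q)))} : Set ↥(modularFunctionFieldFullC K (M' * q * q))))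
          (nsb86_V3 (K := K) M' q hq hM' hπ).toSubring n →
        tho92_HO (K := K) M' q hq hM' hπ V₂ (pk15_chart R ({pk85_h3 K (M' * q * q) (h3.trans ((dvd_mul_right M' q).trans (dvd_mul_right (M' * q) q)))} : Set ↥(modularFunctionFieldFullC K (M' * q * q)))) n
          (sf79_loc (pk15_chart R ({pk85_h3 K (M' * q) (h3.trans (dvd_mul_right M' q))} : Set ↥(modularFunctionFieldFullC K (M' * q)))) (n.comap fα))
          (sf79_loc (pk15_chart R ({pk85_h3 K (M' * q) (h3.trans (dvd_mul_right M' q))} : Set ↥(modularFunctionFieldFullC K (M' * q)))) (n.comap fβ))) ∧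
    (∀ (fα : ↥(pk15_chart R ({(pk85_h3 K (M' * q) (h3.trans (dvd_mul_right M' q)))⁻¹} : Set ↥(modularFunctionFieldFullC K (M' * q)))) →+* ↥(pk15_chart R ({(pk85_h3 K (M' * q * q) (h3.trans ((dvd_mul_right M' q).trans (dvd_mul_right (M' * q) q))))⁻¹} : Set ↥(modularFunctionFieldFullC K (M' * q * q)))))
        (hfα : ∀ x, ((fα x : ↥(pk15_chart R ({(pk85_h3 K (M' * q * q) (h3.trans ((dvd_mul_right M' q).trans (dvd_mul_right (M' * q) q))))⁻¹} : Set ↥(modularFunctionFieldFullC K (M' * q * q))))) : ↥(modularFunctionFieldFullC K (M' * q * q))) =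
          al97L_alpha K (M' * q) q (x : ↥(modularFunctionFieldFullC K (M' * q))))
        (fβ : ↥(pk15_chart R ({(pk85_h3 K (M' * q) (h3.trans (dvd_mul_right M' q)))⁻¹} : Set ↥(modularFunctionFieldFullC K (M' * q)))) →+* ↥(pk15_chart R ({(pk85_h3 K (M' * q * q) (h3.trans ((dvd_mul_right M' q).trans (dvd_mul_right (M' * q) q))))⁻¹} : Set ↥(modularFunctionFieldFullC K (M' * q * q)))))
        (hfβ : ∀ x, ((fβ x : ↥(pk15_chart R ({(pk85_h3 K (M' * q * q) (h3.trans ((dvd_mul_right M' q).trans (dvd_mul_right (M' * q) q))))⁻¹} : Set ↥(modularFunctionFieldFullC K (M' * q * q))))) : ↥(modularFunctionFieldFullC K (M' * q * q))) =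
          al97L_beta K (M' * q) q (x : ↥(modularFunctionFieldFullC K (M' * q))))
        (n : Ideal (pk15_chart R ({(pk85_h3 K (M' * q * q) (h3.trans ((dvd_mul_right M' q).trans (dvd_mul_right (M' * q) q))))⁻¹} : Set ↥(modularFunctionFieldFullC K (M' * q * q))))) [n.IsPrime],
        sf79_OnBr π (pk15_chart R ({(pk85_h3 K (M' * q * q) (h3.trans ((dvd_mul_right M' q).trans (dvd_mul_right (M' * q) q))))⁻¹} : Set ↥(modularFunctionFieldFullC K (M' * q * q))))
          (cm85_Vinf (K := K) (M' * q * q) hπ).toSubring n →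
        sf79_OnBr π (pk15_chart R ({(pk85_h3 K (M' * q * q) (h3.trans ((dvd_mul_right M' q).trans (dvd_mul_right (M' * q) q))))⁻¹} : Set ↥(modularFunctionFieldFullC K (M' * q * q)))) V₂.toSubring n →
        sf79_OnBr π (pk15_chart R ({(pk85_h3 K (M' * q * q) (h3.trans ((dvd_mul_right M' q).trans (dvd_mul_right (M' * q) q))))⁻¹} : Set ↥(modularFunctionFieldFullC K (M' * q * q))))
          (nsb86_V3 (K := K) M' q hq hM' hπ).toSubring n →
        tho92_HO (K := K) M' q hq hM' hπ V₂ (pk15_chart R ({(pk85_h3 K (M' * q * q) (h3.trans ((dvd_mul_right M' q).trans (dvd_mul_right (M' * q) q))))⁻¹} : Set ↥(modularFunctionFieldFullC K (M' * q * q)))) n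
          (sf79_loc (pk15_chart R ({(pk85_h3 K (M' * q) (h3.trans (dvd_mul_right M' q)))⁻¹} : Set ↥(modularFunctionFieldFullC K (M' * q)))) (n.comap fα))
          (sf79_loc (pk15_chart R ({(pk85_h3 K (M' * q) (h3.trans (dvd_mul_right M' q)))⁻¹} : Set ↥(modularFunctionFieldFullC K (M' * q)))) (n.comap fβ))) := by
  have hMu : IsUnit (M' : R) := hunit M' ((Nat.Prime.coprime_iff_not_dvd hq).2 hM').symm
  obtain ⟨hL₁, hL₂⟩ := tl3_lifts_level3 (R := R) (K := K) M' q hq hM' hπ hqR hunit h3 V₂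
    hα₂ hπ₂ hne hs
  obtain ⟨⟨-, a1, a2, a3, -⟩, ⟨-, b1, b2, b3, -⟩⟩ :=
    cf54_level3 (R := R) (K := K) M' q hq hM' hπ hqR hMu h3 V₂ hα₂ hπ₂ hs
  have hr := fc73_rad (R := R) (K := K) M' q hq hM' hπ hqR V₂ hα₂ hπ₂ hne hs
  have hrad₁ : ∀ x ∈ cm85_Vinf (K := K) (M' * q * q) hπ,
      x⁻¹ ∉ cm85_Vinf (K := K) (M' * q * q) hπ →
      ∃ k : ℕ, (algebraMap R ↥(modularFunctionFieldFullC K (M' * q * q)) π)⁻¹ * x ^ k ∈
        cm85_Vinf (K := K) (M' * q * q) hπ := hr 0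
  have hrad₂ : ∀ x ∈ V₂, x⁻¹ ∉ V₂ →
      ∃ k : ℕ, (algebraMap R ↥(modularFunctionFieldFullC K (M' * q * q)) π)⁻¹ * x ^ k ∈ V₂ := hr 1
  have hrad₃ : ∀ x ∈ nsb86_V3 (K := K) M' q hq hM' hπ,
      x⁻¹ ∉ nsb86_V3 (K := K) M' q hq hM' hπ →
      ∃ k : ℕ, (algebraMap R ↥(modularFunctionFieldFullC K (M' * q * q)) π)⁻¹ * x ^ k ∈
        nsb86_V3 (K := K) M' q hq hM' hπ := hr 2
  refine ⟨?_, ?_⟩
  · intro fα hfα fβ hfβ n _ h1 h2 h3
    exact tho92_hO_maps (K := K) M' q hq hM' hπ V₂ _ _ hL₁ fα hfα fβ hfβ a1 a2 a3 hrad₁ hrad₂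
      hrad₃ n h1 h2 h3
  · intro fα hfα fβ hfβ n _ h1 h2 h3
    exact tho92_hO_maps (K := K) M' q hq hM' hπ V₂ _ _ hL₂ fα hfα fβ hfβ b1 b2 b3 hrad₁ hrad₂
      hrad₃ n h1 h2 h3

end tho92

end Fermat.Agent.S36
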