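/-
S36 lab, (HP-3) sub-binding (helper81): `tn81_node` in the `bk63_res` form of `TripleOwes63`
(`to63_lift`, `to63_norm_unit`) and of `PointBook63` - the chart maps are the restrictions
`bk63_res α B' B hαB`, `bk63_res β B' B hβB`, with integrality in the `IsIntegralElem` shape of
`bk63_Data.hBint`.  So `Aal = sf79_loc B' (n.comap (bk63_res α₂ B' B hαB))` LITERALLY as in
`to63_lift` (the four residue lifts `hO1 hO2 hO3' hO2'`).
-/
import Fermat.Agent.S36.TripleNode81

set_option autoImplicit false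
set_option linter.unusedSectionVars false
set_option linter.style.haveILetI false

open ModularCurve AlgebraicCurve IntermediateField
open Fermat.Agent.S24 Fermat.Agent.S28 Fermat.Agent.S18 Fermat.Agent.S37 Fermat.Agent.S34
open Fermat.Agent.S42 Fermat.Agent.S35

namespace Fermat.Agent.S36

section canonical

variable {R K : Type} [CommRing R] [IsDomain R] [IsDiscreteValuationRing R] [Field K]
  [CharZero K] [Algebra R K] [IsFractionRing R K] [Algebra K Kbar]
  (M' q : ℕ) [NeZero M'] [NeZero q] (hq : q.Prime) (hM' : ¬ q ∣ M')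
  {π : R} (hπ : Irreducible π)
  [Algebra R ↥(modularFunctionFieldFullC K (M' * q))]
  [IsScalarTower R K ↥(modularFunctionFieldFullC K (M' * q))]
  [Algebra R ↥(modularFunctionFieldFullC K (M' * q * q))]
  [IsScalarTower R K ↥(modularFunctionFieldFullC K (M' * q * q))]

/-- A restriction `bk63_res α B' B hαB` is integral as soon as `B` is integral over `α B'`
(`IsIntegralElem` shape). -/
theorem tn81_res_isIntegral {R K L : Type*} [CommRing R] [Field K] [Field L] [Algebra R K]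
    [Algebra R L] (α : K →+* L) (B' : Subalgebra R K) (B : Subalgebra R L)
    (hαB : ∀ x' ∈ B', α x' ∈ B)
    (hBint : ∀ x ∈ B, (α.comp (algebraMap B' K)).IsIntegralElem x) :
    (bk63_res α B' B hαB).IsIntegral := by
  letI : Algebra B' B := (bk63_res α B' B hαB).toAlgebra
  have h := bk63_isIntegral α B' B hαB hBint
  exact fun b => h.isIntegral b

/-- **`tn81_node` in the `bk63_res` form.** -/
theorem tn81_node_res (hqR : ¬ IsUnit (q : R))
    (s' : Set ↥(modularFunctionFieldFullC K (M' * q)))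
    (B : Subalgebra R ↥(modularFunctionFieldFullC K (M' * q * q)))
    (hαB : ∀ x' ∈ pk15_chart R s', (al97L_alpha K (M' * q) q).toRingHom x' ∈ B)
    (hαint : ∀ x ∈ B, ((al97L_alpha K (M' * q) q).toRingHom.comp
      (algebraMap ↥(pk15_chart R s') ↥(modularFunctionFieldFullC K (M' * q)))).IsIntegralElem x)
    (hβB : ∀ x' ∈ pk15_chart R s', (al97L_beta K (M' * q) q).toRingHom x' ∈ B)
    (hβint : ∀ x ∈ B, ((al97L_beta K (M' * q) q).toRingHom.comp
      (algebraMap ↥(pk15_chart R s') ↥(modularFunctionFieldFullC K (M' * q)))).IsIntegralElem x)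
    (hB'Vi : ∀ x ∈ pk15_chart R s', x ∈ cm85_Vinf (K := K) (M' * q) hπ)
    (hB'V0 : ∀ x ∈ pk15_chart R s', x ∈ s34i47c_V0 (K := K) M' q hq hM' hπ)
    (V₂ : ValuationSubring ↥(modularFunctionFieldFullC K (M' * q * q)))
    (hα₂ : ∀ x ∈ cm85_Vinf (K := K) (M' * q) hπ, al97L_alpha K (M' * q) q x ∈ V₂)
    (hβ₂ : ∀ x ∈ s34i47c_V0 (K := K) M' q hq hM' hπ, al97L_beta K (M' * q) q x ∈ V₂)
    (hπ₂ : (algebraMap R ↥(modularFunctionFieldFullC K (M' * q * q)) π)⁻¹ ∉ V₂)
    (hBV₁ : ∀ x ∈ B, x ∈ cm85_Vinf (K := K) (M' * q * q) hπ) (hBV₂ : ∀ x ∈ B, x ∈ V₂)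
    (hBV₃ : ∀ x ∈ B, x ∈ nsb86_V3 M' q hq hM' hπ)
    (n : Ideal B) [hn : n.IsPrime]
    (htwo : (sf79_OnBr π B (cm85_Vinf (K := K) (M' * q * q) hπ).toSubring n ∧
        sf79_OnBr π B V₂.toSubring n) ∨
      (sf79_OnBr π B (cm85_Vinf (K := K) (M' * q * q) hπ).toSubring n ∧
        sf79_OnBr π B (nsb86_V3 M' q hq hM' hπ).toSubring n) ∨
      (sf79_OnBr π B V₂.toSubring n ∧
        sf79_OnBr π B (nsb86_V3 M' q hq hM' hπ).toSubring n))
    (m : ℕ) (hm : 0 < m) :
    (sf79_OnBr π B (cm85_Vinf (K := K) (M' * q * q) hπ).toSubring n ∧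
      sf79_OnBr π B V₂.toSubring n ∧
      sf79_OnBr π B (nsb86_V3 M' q hq hM' hπ).toSubring n) ∧
    (∀ x ∈ sf79_loc (pk15_chart R s') (n.comap (bk63_res (al97L_alpha K (M' * q) q).toRingHom (pk15_chart R s') B hαB)),
      al97L_alpha K (M' * q) q x ∈ sf79_loc B n) ∧
    (∀ x ∈ sf79_loc (pk15_chart R s') (n.comap (bk63_res (al97L_alpha K (M' * q) q).toRingHom (pk15_chart R s') B hαB)), x ∈ cm85_Vinf (K := K) (M' * q) hπ) ∧
    (∀ x ∈ sf79_loc (pk15_chart R s') (n.comap (bk63_res (al97L_alpha K (M' * q) q).toRingHom (pk15_chart R s') B hαB)),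
      (al97L_alpha K (M' * q) q x)⁻¹ ∈ sf79_loc B n →
        x⁻¹ ∈ sf79_loc (pk15_chart R s') (n.comap (bk63_res (al97L_alpha K (M' * q) q).toRingHom (pk15_chart R s') B hαB))) ∧
    (∀ x ∈ sf79_loc (pk15_chart R s') (n.comap (bk63_res (al97L_beta K (M' * q) q).toRingHom (pk15_chart R s') B hβB)),
      al97L_beta K (M' * q) q x ∈ sf79_loc B n) ∧
    (∀ x ∈ sf79_loc (pk15_chart R s') (n.comap (bk63_res (al97L_beta K (M' * q) q).toRingHom (pk15_chart R s') B hβB)),
      x ∈ s34i47c_V0 (K := K) M' q hq hM' hπ) ∧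
    (∀ x ∈ sf79_loc (pk15_chart R s') (n.comap (bk63_res (al97L_beta K (M' * q) q).toRingHom (pk15_chart R s') B hβB)),
      (al97L_beta K (M' * q) q x)⁻¹ ∈ sf79_loc B n →
        x⁻¹ ∈ sf79_loc (pk15_chart R s') (n.comap (bk63_res (al97L_beta K (M' * q) q).toRingHom (pk15_chart R s') B hβB))) ∧
    (∀ x : ↥(modularFunctionFieldFullC K (M' * q)),
      x ^ m ∈ sf79_loc (pk15_chart R s') (n.comap (bk63_res (al97L_alpha K (M' * q) q).toRingHom (pk15_chart R s') B hαB)) →
        x ∈ sf79_loc (pk15_chart R s') (n.comap (bk63_res (al97L_alpha K (M' * q) q).toRingHom (pk15_chart R s') B hαB))) ∧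
    (∀ x : ↥(modularFunctionFieldFullC K (M' * q)),
      x ^ m ∈ sf79_loc (pk15_chart R s') (n.comap (bk63_res (al97L_beta K (M' * q) q).toRingHom (pk15_chart R s') B hβB)) →
        x ∈ sf79_loc (pk15_chart R s') (n.comap (bk63_res (al97L_beta K (M' * q) q).toRingHom (pk15_chart R s') B hβB))) ∧
    (∀ r : R, algebraMap K ↥(modularFunctionFieldFullC K (M' * q)) (algebraMap R K r) ∈
      sf79_loc (pk15_chart R s') (n.comap (bk63_res (al97L_alpha K (M' * q) q).toRingHom (pk15_chart R s') B hαB))) ∧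
    (∀ r : R, algebraMap K ↥(modularFunctionFieldFullC K (M' * q)) (algebraMap R K r) ∈
      sf79_loc (pk15_chart R s') (n.comap (bk63_res (al97L_beta K (M' * q) q).toRingHom (pk15_chart R s') B hβB))) ∧
    (∀ eps : ↥(modularFunctionFieldFullC K (M' * q * q)), eps ≠ 0 → eps ∈ sf79_loc B n →
      eps⁻¹ ∈ sf79_loc B n →
      (s35i62_normA K (M' * q) q eps)⁻¹ ∈ sf79_loc (pk15_chart R s') (n.comap (bk63_res (al97L_alpha K (M' * q) q).toRingHom (pk15_chart R s') B hαB)) ∧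
      (s35i62_normB K (M' * q) q eps)⁻¹ ∈ sf79_loc (pk15_chart R s') (n.comap (bk63_res (al97L_beta K (M' * q) q).toRingHom (pk15_chart R s') B hβB))) :=
  tn81_node M' q hq hM' hπ hqR s' B
    (bk63_res (al97L_alpha K (M' * q) q).toRingHom (pk15_chart R s') B hαB) (fun _ => rfl)
    (tn81_res_isIntegral _ _ B hαB hαint)
    (bk63_res (al97L_beta K (M' * q) q).toRingHom (pk15_chart R s') B hβB) (fun _ => rfl)
    (tn81_res_isIntegral _ _ B hβB hβint)
    hB'Vi hB'V0 V₂ hα₂ hβ₂ hπ₂ hBV₁ hBV₂ hBV₃ n htwo m hm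

end canonical

end Fermat.Agent.S36
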