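import Mathlib
import Fermat.Agent.S36.CorePoints57

/-!
# S36 lab (helper41), registry row 628 (HP-T-TWIN): the twist `θ` of (HP-T), abstract

`tw41_HPT` : the package `cp57_HPT` of `CorePoints57` (existence of the twist `θ ≡ (w₁, w₂, 1)`
with `u₂ = (u ^ ((d+2) d) θ ^ m) ^ q ≡ 1` modulo `π V i`) from frame facts stated as explicit
hypotheses:

* constants: `α`, `β` fix `algebraMap R`; constants lie in `V_∞'`, `V_0'`, `V₁`, `V₂`, `V₃`; a
  constant of `R` in the maximal ideal of `V_∞'` (or `V_0'`) is divisible by `π`;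
* `π` is a nonunit of `V₁`, `V₂`, `V₃`, a uniformizer of `V₁` and `V₃`
  (`v y < 1 → π⁻¹ y ∈ V`), `𝔪(V₂)^(q-1) ⊆ π V₂`, and `q ∈ π V₂`;
* (CRT, the shape of `s3a66_crt_unit`) for units `w₁ w₂` of `R` there is a unit `θ` of
  `V₁ ⊓ V₂ ⊓ V₃` with `θ ≡ w₁, w₂, 1` modulo the three maximal ideals;
* (norms of principal units, `nv88_*` with `v = 1`) `u ≡ 1` modulo `𝔪(V i)` for `i = 1, 2, 3`
  implies `N_α u ≡ 1`, `N_β u ≡ 1` modulo `𝔪(V_∞')` and `𝔪(V_0')`.

Math: `w₁ = ((t0 s0)/(tinf sinf))^(q-1)`, `w₂ = t0^q sinf/(tinf^q s0)` (units of `R`).  The norm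
congruences give `cu tinf^m ≡ 1 ≡ cu t0^m` and `du sinf^m ≡ 1 ≡ du s0^m` modulo `π`, hence
`w₁^m ≡ w₂^m ≡ 1`, so `x = u^k θ^m ≡ 1` modulo `𝔪(V i)`; on `V₁`, `V₃` this is modulo `π`, and on
`V₂` the `q`-th power is `≡ 1` modulo `π` by the binomial theorem.

All names are prefixed `tw41_`.
-/

set_option autoImplicit false
set_option linter.style.longLine false
set_option linter.unusedVariables false
set_option linter.unusedSectionVars false

namespace Fermat.Agent.S36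

open Fermat.Agent.S18 Fermat.Agent.S34 Fermat.Agent.S35

/-! ### Congruences modulo the maximal ideal, in valuation form -/

section tw41_cong

variable {F : Type*} [Field F] (V : ValuationSubring F)

theorem tw41_mem_of_lt {x : F} (h : V.valuation x < 1) : x ∈ V :=
  (V.valuation_le_one_iff x).1 h.le

theorem tw41_mem_of_cong {a b : F} (h : V.valuation (a - b) < 1) (hb : b ∈ V) : a ∈ V := by
  have : a = (a - b) + b := by ring
  rw [this]
  exact V.add_mem _ _ (tw41_mem_of_lt V h) hb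

theorem tw41_cong_trans {a b c : F} (h1 : V.valuation (a - b) < 1)
    (h2 : V.valuation (b - c) < 1) : V.valuation (a - c) < 1 := by
  have : a - c = (a - b) + (b - c) := by ring
  rw [this]
  exact Valuation.map_add_lt _ h1 h2

theorem tw41_cong_mul {a a' b b' : F} (ha : V.valuation (a - a') < 1)
    (hb : V.valuation (b - b') < 1) (ha' : a' ∈ V) (hbV : b ∈ V) :
    V.valuation (a * b - a' * b') < 1 := by
  have e : a * b - a' * b' = (a - a') * b + a' * (b - b') := by ring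
  rw [e]
  refine Valuation.map_add_lt _ ?_ ?_
  · rw [map_mul]
    calc V.valuation (a - a') * V.valuation b ≤ V.valuation (a - a') * 1 :=
          mul_le_mul' le_rfl ((V.valuation_le_one_iff b).2 hbV)
      _ < 1 := by rw [mul_one]; exact ha
  · rw [map_mul]
    calc V.valuation a' * V.valuation (b - b') ≤ 1 * V.valuation (b - b') :=
          mul_le_mul' ((V.valuation_le_one_iff a').2 ha') le_rfl
      _ < 1 := by rw [one_mul]; exact hb

theorem tw41_cong_pow {a a' : F} (ha : V.valuation (a - a') < 1) (ha' : a' ∈ V) (n : ℕ) :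
    V.valuation (a ^ n - a' ^ n) < 1 := by
  have haV : a ∈ V := tw41_mem_of_cong V ha ha'
  induction n with
  | zero => simp
  | succ n ih =>
    rw [pow_succ, pow_succ]
    exact tw41_cong_mul V ih ha (pow_mem ha' n) haV

theorem tw41_pow_one {a : F} (ha : V.valuation (a - 1) < 1) (n : ℕ) :
    V.valuation (a ^ n - 1) < 1 := by
  have h := tw41_cong_pow V ha V.one_mem n
  rwa [one_pow] at h

theorem tw41_mul_one {a b : F} (ha : V.valuation (a - 1) < 1) (hb : V.valuation (b - 1) < 1) :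
    V.valuation (a * b - 1) < 1 := by
  have h := tw41_cong_mul V ha hb V.one_mem (tw41_mem_of_cong V hb V.one_mem)
  rwa [one_mul] at h

/-- The `q`-th power of a principal unit is `≡ 1` modulo `P` when `𝔪^(q-1) ⊆ P V` and
`q ∈ P V`. -/
theorem tw41_pow_q (P : F) (q : ℕ) (hq : q.Prime) (hqP : P⁻¹ * (q : F) ∈ V)
    (hrad : ∀ z : F, V.valuation z < 1 → P⁻¹ * z ^ (q - 1) ∈ V) (y : F)
    (hy : V.valuation (y - 1) < 1) : P⁻¹ * (y ^ q - 1) ∈ V := by
  have hz : y - 1 ∈ V := tw41_mem_of_lt V hy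
  obtain ⟨r, hr⟩ := exists_add_pow_prime_eq hq (⟨y - 1, hz⟩ : V) 1
  have hr' := congrArg (fun t : V => (t : F)) hr
  simp only [one_pow, mul_one] at hr'
  push_cast at hr'
  have e1 : y ^ q = (y - 1) ^ q + 1 + (q : F) * (y - 1) * (r : F) := by
    rw [← hr']
    ring
  have hq1 : q = (q - 1) + 1 := by have := hq.pos; omega
  have e2 : P⁻¹ * (y ^ q - 1) = P⁻¹ * (y - 1) ^ (q - 1) * (y - 1)
      + P⁻¹ * (q : F) * ((y - 1) * (r : F)) := by
    rw [e1]
    have e3 : (y - 1) ^ q = (y - 1) ^ (q - 1) * (y - 1) := by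
      conv_lhs => rw [hq1, pow_succ]
    rw [e3]
    ring
  rw [e2]
  exact V.add_mem _ _ (V.mul_mem _ _ (hrad _ hy) hz) (V.mul_mem _ _ hqP (V.mul_mem _ _ hz r.2))

end tw41_cong

/-! ### Constants -/

/-- From `c A^m ≡ 1` and `A ≡ t` modulo the maximal ideal of `V'`, for constants `c`, `t` coming
from `R`: `π ∣ rc * a^m - 1`. -/
theorem tw41_const_cong {R F1 : Type*} [CommRing R] [Field F1] (ι : R →+* F1)
    (V' : ValuationSubring F1) (π : R) (hR : ∀ r : R, ι r ∈ V')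
    (hc : ∀ r : R, V'.valuation (ι r) < 1 → π ∣ r) (rc a : R) (A : F1) (m : ℕ)
    (h1 : V'.valuation (ι rc * A ^ m - 1) < 1) (h2 : V'.valuation (A - ι a) < 1) :
    π ∣ rc * a ^ m - 1 := by
  apply hc
  have h3 : V'.valuation (A ^ m - ι a ^ m) < 1 := tw41_cong_pow V' h2 (hR a) m
  have h4 : V'.valuation (ι rc * A ^ m - ι rc * ι a ^ m) < 1 := by
    have e : ι rc * A ^ m - ι rc * ι a ^ m = ι rc * (A ^ m - ι a ^ m) := by ring
    rw [e, map_mul]
    calc V'.valuation (ι rc) * V'.valuation (A ^ m - ι a ^ m)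
        ≤ 1 * V'.valuation (A ^ m - ι a ^ m) :=
          mul_le_mul' ((V'.valuation_le_one_iff _).2 (hR rc)) le_rfl
      _ < 1 := by rw [one_mul]; exact h3
  have h5 : V'.valuation (ι rc * ι a ^ m - 1) < 1 := by
    have e : ι rc * ι a ^ m - 1 = -(ι rc * A ^ m - ι rc * ι a ^ m) + (ι rc * A ^ m - 1) := by
      ring
    rw [e]
    exact Valuation.map_add_lt _ (by rw [Valuation.map_neg]; exact h4) h1
  rw [map_sub, map_mul, map_pow, map_one]
  exact h5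

/-- In a commutative ring: from `π ∣ c a^m - 1` and `π ∣ c b^m - 1` with `c` a unit,
`a^m ≡ b^m` modulo `π` (in the quotient). -/
theorem tw41_quot_pow_eq {R : Type*} [CommRing R] (π : R) (c : Rˣ) (a b : R) (m : ℕ)
    (h1 : π ∣ (c : R) * a ^ m - 1) (h2 : π ∣ (c : R) * b ^ m - 1) :
    Ideal.Quotient.mk (Ideal.span {π}) a ^ m = Ideal.Quotient.mk (Ideal.span {π}) b ^ m := by
  have e1 : Ideal.Quotient.mk (Ideal.span {π}) ((c : R) * a ^ m - 1) = 0 :=
    Ideal.Quotient.eq_zero_iff_mem.2 (Ideal.mem_span_singleton.2 h1)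
  have e2 : Ideal.Quotient.mk (Ideal.span {π}) ((c : R) * b ^ m - 1) = 0 :=
    Ideal.Quotient.eq_zero_iff_mem.2 (Ideal.mem_span_singleton.2 h2)
  rw [map_sub, map_mul, map_pow, map_one, sub_eq_zero] at e1 e2
  have hu : IsUnit (Ideal.Quotient.mk (Ideal.span {π}) (c : R)) := c.isUnit.map _
  exact hu.mul_left_cancel (e1.trans e2.symm)

/-- The group computation: if `A^m = A'^m` and `B^m = B'^m` then the two twist constants have
trivial `m`-th power. -/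
theorem tw41_group {G : Type*} [CommGroup G] (A A' B B' : G) (m d : ℕ) (hA : A ^ m = A' ^ m)
    (hB : B ^ m = B' ^ m) :
    ((A' * B') ^ d * ((A * B) ^ d)⁻¹) ^ m = 1 ∧
    (A' ^ (d + 1) * B * (A ^ (d + 1) * B')⁻¹) ^ m = 1 := by
  have h1 : ((A' * B') ^ d) ^ m = ((A * B) ^ d) ^ m :=
    calc ((A' * B') ^ d) ^ m = ((A' * B') ^ m) ^ d := pow_right_comm _ _ _
      _ = (A' ^ m * B' ^ m) ^ d := by rw [mul_pow A' B' m]
      _ = (A ^ m * B ^ m) ^ d := by rw [hA, hB]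
      _ = ((A * B) ^ m) ^ d := by rw [mul_pow A B m]
      _ = ((A * B) ^ d) ^ m := pow_right_comm _ _ _
  have h2 : (A' ^ (d + 1) * B) ^ m = (A ^ (d + 1) * B') ^ m :=
    calc (A' ^ (d + 1) * B) ^ m = (A' ^ (d + 1)) ^ m * B ^ m := mul_pow _ _ _
      _ = (A' ^ m) ^ (d + 1) * B ^ m := by rw [pow_right_comm]
      _ = (A ^ m) ^ (d + 1) * B' ^ m := by rw [hA, hB]
      _ = (A ^ (d + 1)) ^ m * B' ^ m := by rw [pow_right_comm]
      _ = (A ^ (d + 1) * B') ^ m := (mul_pow _ _ _).symm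
  constructor
  · rw [mul_pow, inv_pow, h1, mul_inv_cancel]
  · rw [mul_pow, inv_pow, h2, mul_inv_cancel]

/-- A constant `w` of `R` with `π ∣ w^m - 1` has `w^m ≡ 1` modulo the maximal ideal of a
valuation subring in which `π` is a nonunit. -/
theorem tw41_const_lt {R F : Type*} [CommRing R] [Field F] [Algebra R F] (V : ValuationSubring F)
    (π : R) (hR : ∀ r : R, algebraMap R F r ∈ V) (hπ : V.valuation (algebraMap R F π) < 1)
    (w : R) (m : ℕ) (hw : π ∣ w ^ m - 1) : V.valuation (algebraMap R F w ^ m - 1) < 1 := by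
  obtain ⟨r, hr⟩ := hw
  have e : algebraMap R F w ^ m - 1 = algebraMap R F π * algebraMap R F r := by
    rw [← map_mul, ← hr, map_sub, map_pow, map_one]
  rw [e, map_mul]
  calc V.valuation (algebraMap R F π) * V.valuation (algebraMap R F r)
      ≤ V.valuation (algebraMap R F π) * 1 :=
        mul_le_mul' le_rfl ((V.valuation_le_one_iff _).2 (hR r))
    _ < 1 := by rw [mul_one]; exact hπ

/-! ### The twist -/

/-- **(HP-T), abstract**: the package `cp57_HPT` from the frame facts (constants, uniformizers,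
CRT, norms of principal units). -/
theorem tw41_HPT {R K F1 F2 : Type*} [CommRing R] [Field K] [Field F1] [Field F2] [Algebra R K]
    [Algebra K F1] [Algebra R F2] [Algebra K F2]
    (π : R) (q m : ℕ) (hq : q.Prime) (al be : F1 →+* F2) (Nal Nbe : F2 →* F1)
    (V₁ V₂ V₃ : ValuationSubring F2) (Vinf V0 : ValuationSubring F1)
    (hal : ∀ r : R, al (algebraMap K F1 (algebraMap R K r)) = algebraMap R F2 r)
    (hbe : ∀ r : R, be (algebraMap K F1 (algebraMap R K r)) = algebraMap R F2 r)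
    (hRinf : ∀ r : R, algebraMap K F1 (algebraMap R K r) ∈ Vinf)
    (hR0 : ∀ r : R, algebraMap K F1 (algebraMap R K r) ∈ V0)
    (hcinf : ∀ r : R, Vinf.valuation (algebraMap K F1 (algebraMap R K r)) < 1 → π ∣ r)
    (hc0 : ∀ r : R, V0.valuation (algebraMap K F1 (algebraMap R K r)) < 1 → π ∣ r)
    (hR1 : ∀ r : R, algebraMap R F2 r ∈ V₁) (hR2 : ∀ r : R, algebraMap R F2 r ∈ V₂)
    (hR3 : ∀ r : R, algebraMap R F2 r ∈ V₃)
    (hπ1 : V₁.valuation (algebraMap R F2 π) < 1) (hπ2 : V₂.valuation (algebraMap R F2 π) < 1)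
    (hπ3 : V₃.valuation (algebraMap R F2 π) < 1)
    (hmax1 : ∀ y : F2, V₁.valuation y < 1 → (algebraMap R F2 π)⁻¹ * y ∈ V₁)
    (hmax3 : ∀ y : F2, V₃.valuation y < 1 → (algebraMap R F2 π)⁻¹ * y ∈ V₃)
    (hrad2 : ∀ z : F2, V₂.valuation z < 1 → (algebraMap R F2 π)⁻¹ * z ^ (q - 1) ∈ V₂)
    (hqπ : (algebraMap R F2 π)⁻¹ * (q : F2) ∈ V₂)
    (hcrt : ∀ w₁ w₂ : Rˣ, ∃ θ : F2, θ ≠ 0 ∧ (θ ∈ V₁ ∧ θ⁻¹ ∈ V₁) ∧ (θ ∈ V₂ ∧ θ⁻¹ ∈ V₂) ∧
      (θ ∈ V₃ ∧ θ⁻¹ ∈ V₃) ∧ V₁.valuation (θ - algebraMap R F2 (w₁ : R)) < 1 ∧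
      V₂.valuation (θ - algebraMap R F2 (w₂ : R)) < 1 ∧ V₃.valuation (θ - 1) < 1)
    (hN : ∀ u : F2, V₁.valuation (u - 1) < 1 → V₂.valuation (u - 1) < 1 →
      V₃.valuation (u - 1) < 1 →
      Vinf.valuation (Nal u - 1) < 1 ∧ V0.valuation (Nal u - 1) < 1 ∧
      Vinf.valuation (Nbe u - 1) < 1 ∧ V0.valuation (Nbe u - 1) < 1) :
    cp57_HPT (K := K) π q m al be Nal Nbe V₁ V₂ V₃ Vinf V0 := by
  intro u cu Au tinf t0 du Bu sinf s0 hu0 hdata
  obtain ⟨h1, h2, h3, hNa, hAu0, hNb, hBu0, ⟨rc, rfl⟩, ⟨ai, rfl⟩, ⟨a0, rfl⟩, ⟨rd, rfl⟩, ⟨bi, rfl⟩,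
    ⟨b0, rfl⟩, hAi, hA0, hBi, hB0⟩ := hdata
  obtain ⟨hNai, hNa0, hNbi, hNb0⟩ := hN u h1 h2 h3
  rw [hNa] at hNai hNa0
  rw [hNb] at hNbi hNb0
  -- the four divisibilities in `R`
  have d1 : π ∣ (rc : R) * (ai : R) ^ m - 1 :=
    tw41_const_cong ((algebraMap K F1).comp (algebraMap R K)) Vinf π hRinf hcinf rc ai Au m
      hNai hAi
  have d2 : π ∣ (rc : R) * (a0 : R) ^ m - 1 :=
    tw41_const_cong ((algebraMap K F1).comp (algebraMap R K)) V0 π hR0 hc0 rc a0 Au m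
      hNa0 hA0
  have d3 : π ∣ (rd : R) * (bi : R) ^ m - 1 :=
    tw41_const_cong ((algebraMap K F1).comp (algebraMap R K)) Vinf π hRinf hcinf rd bi Bu m
      hNbi hBi
  have d4 : π ∣ (rd : R) * (b0 : R) ^ m - 1 :=
    tw41_const_cong ((algebraMap K F1).comp (algebraMap R K)) V0 π hR0 hc0 rd b0 Bu m
      hNb0 hB0
  have eA := tw41_quot_pow_eq π rc (ai : R) (a0 : R) m d1 d2
  have eB := tw41_quot_pow_eq π rd (bi : R) (b0 : R) m d3 d4
  -- units of the quotient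
  have hA' : (Units.map (Ideal.Quotient.mk (Ideal.span {π}) : R →* R ⧸ Ideal.span {π}) ai) ^ m =
      (Units.map (Ideal.Quotient.mk (Ideal.span {π}) : R →* R ⧸ Ideal.span {π}) a0) ^ m :=
    Units.ext (by simpa using eA)
  have hB' : (Units.map (Ideal.Quotient.mk (Ideal.span {π}) : R →* R ⧸ Ideal.span {π}) bi) ^ m =
      (Units.map (Ideal.Quotient.mk (Ideal.span {π}) : R →* R ⧸ Ideal.span {π}) b0) ^ m :=
    Units.ext (by simpa using eB)
  obtain ⟨g1, g2⟩ := tw41_group _ _ _ _ m (q - 1) hA' hB'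
  -- the two constants
  obtain ⟨w₁, hw₁⟩ : ∃ w₁ : Rˣ, w₁ = (a0 * b0) ^ (q - 1) * ((ai * bi) ^ (q - 1))⁻¹ := ⟨_, rfl⟩
  obtain ⟨w₂, hw₂⟩ : ∃ w₂ : Rˣ, w₂ = a0 ^ (q - 1 + 1) * bi * (ai ^ (q - 1 + 1) * b0)⁻¹ :=
    ⟨_, rfl⟩
  have hdvd : ∀ w : Rˣ,
      (Units.map (Ideal.Quotient.mk (Ideal.span {π}) : R →* R ⧸ Ideal.span {π}) w) ^ m = 1 →
      π ∣ (w : R) ^ m - 1 := by
    intro w hw
    have e2 := congrArg Units.val hw
    simp only [Units.val_pow_eq_pow_val, Units.coe_map, Units.val_one, MonoidHom.coe_coe] at e2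
    rw [← Ideal.mem_span_singleton, ← Ideal.Quotient.eq_zero_iff_mem, map_sub, map_pow, map_one,
      e2, sub_self]
  have hw1 : π ∣ (w₁ : R) ^ m - 1 := by
    apply hdvd
    rw [hw₁, map_mul, map_inv, map_pow, map_pow, map_mul, map_mul]
    exact g1
  have hw2 : π ∣ (w₂ : R) ^ m - 1 := by
    apply hdvd
    rw [hw₂, map_mul, map_inv, map_mul, map_mul, map_pow, map_pow]
    exact g2
  -- the exact relations in `R`
  have r1 : (w₁ : R) * ((ai : R) * (bi : R)) ^ (q - 1) = ((a0 : R) * (b0 : R)) ^ (q - 1) := by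
    have e : ((w₁ * (ai * bi) ^ (q - 1) : Rˣ) : R) = (((a0 * b0) ^ (q - 1) : Rˣ) : R) := by
      rw [hw₁, inv_mul_cancel_right]
    push_cast at e
    exact e
  have r2 : (w₂ : R) * ((ai : R) ^ (q - 1 + 1) * (b0 : R)) = (a0 : R) ^ (q - 1 + 1) * (bi : R) := by
    have e : ((w₂ * (ai ^ (q - 1 + 1) * b0) : Rˣ) : R) = ((a0 ^ (q - 1 + 1) * bi : Rˣ) : R) := by
      rw [hw₂, inv_mul_cancel_right]
    push_cast at e
    exact e
  obtain ⟨θ, hθ0, hθ1, hθ2, hθ3, hc1, hc2, hc3⟩ := hcrt w₁ w₂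
  -- `x = u^k θ^m ≡ 1` modulo the three maximal ideals
  have hx1 : V₁.valuation (u ^ ((q - 1 + 2) * (q - 1)) * θ ^ m - 1) < 1 :=
    tw41_mul_one V₁ (tw41_pow_one V₁ h1 _)
      (tw41_cong_trans V₁ (tw41_cong_pow V₁ hc1 (hR1 _) m) (tw41_const_lt V₁ π hR1 hπ1 _ m hw1))
  have hx2 : V₂.valuation (u ^ ((q - 1 + 2) * (q - 1)) * θ ^ m - 1) < 1 :=
    tw41_mul_one V₂ (tw41_pow_one V₂ h2 _)
      (tw41_cong_trans V₂ (tw41_cong_pow V₂ hc2 (hR2 _) m) (tw41_const_lt V₂ π hR2 hπ2 _ m hw2))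
  have hx3 : V₃.valuation (u ^ ((q - 1 + 2) * (q - 1)) * θ ^ m - 1) < 1 :=
    tw41_mul_one V₃ (tw41_pow_one V₃ h3 _) (tw41_pow_one V₃ hc3 m)
  refine ⟨θ, hθ0, hθ1, hθ2, hθ3, ⟨w₁, w₂, hc1, hc2, hc3, ?_, ?_⟩, ?_, ?_, ?_⟩
  · rw [hal, hal, hbe, hbe, ← map_mul, ← map_pow, ← map_mul, ← map_mul, ← map_pow, r1]
  · rw [hal, hal, hbe, hbe, ← map_pow, ← map_mul, ← map_mul, ← map_pow, ← map_mul, r2]
  · exact hmax1 _ (tw41_pow_one V₁ hx1 q)
  · exact tw41_pow_q V₂ _ q hq hqπ hrad2 _ hx2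
  · exact hmax3 _ (tw41_pow_one V₃ hx3 q)

end Fermat.Agent.S36
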