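import Mathlib
import Fermat.Agent.S36.Twist41
import Fermat.Agent.S36.NormOne88
import Fermat.Agent.S36.Split3Full66
import Fermat.Agent.S36.AbvBind72
import Fermat.Agent.S36.V2Final64
import Fermat.Agent.S36.NormSqBeta86

/-!
# S36 lab, row 628 HP-T-TWIN (helper41): the twist `cp57_HPT` ON THE CANONICAL FRAME

Instance of `tw41_HPT` (`Twist41`) on the literal frame of level `M' * q * q` (`q` prime,
`q ∤ M'`, residue characteristic `q`) over level `M' * q`:

* `V₁ = cm85_Vinf (M' * q * q) hπ`, `V₂` (parameter with the four facts of `ob72_ram`, or the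
  canonical `v2g64_V2`), `V₃` (parameter with `hV₃mem`, or the canonical `nsb86_V3`),
* `V_∞' = cm85_Vinf (M' * q) hπ`, `V_0' = s34i47c_V0 M' q hq hM' hπ`,
* `al = al97L_alpha K (M' * q) q`, `be = al97L_beta K (M' * q) q`,
  `Nal = s35i62_normA K (M' * q) q`, `Nbe = s35i62_normB K (M' * q) q`.

Main statements:

* `twi41_HPT_gen` : `cp57_HPT π q m al be Nal Nbe V₁ V₂ V₃ V_∞' V_0'` for ANY `V₂`, `V₃` with the
  frame facts (`hV₂ hπ₂ hne s hs` of `ob72_ram`, `hV₃mem`), any uniformizer `π` of `R` with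
  `¬ IsUnit (q : R)`;
* `twi41_HPT` : the CANONICAL instance (`π = q`, `V₂ = v2g64_V2`, `V₃ = nsb86_V3`) = literally the
  first hypothesis `hT` of `cp57_HP_of` in the frame of `FinalBind62` (`s36i62d_HPc2/3`).

Inputs: `s3f66_crt_unit` (CRT for units of `W`), `no88_hNU` (norms of `1`-units), `ob72_ram`
(uniformizer `s` of `V₂`), `gv85_hmax` (uniformizer `π` of the Gauss rings), `abb72_*`.
All names are prefixed `twi41_`.
-/

set_option autoImplicit false
set_option linter.unusedSectionVars false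
set_option linter.unusedVariables false
set_option linter.style.haveILetI false
set_option linter.style.longLine false

open ModularCurve AlgebraicCurve IntermediateField Polynomial

namespace Fermat.Agent.S36

open Fermat.Agent.S18 Fermat.Agent.S24 Fermat.Agent.S28 Fermat.Agent.S37 Fermat.Agent.S34
open Fermat.Agent.S42 Fermat.Agent.S35

local notation "Q̄" => AlgebraicClosure ℚ

section gen

variable {F : Type*} [Field F]

/-- A nonzero element of the maximal ideal has its inverse outside `V`. -/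
theorem twi41_inv_not_mem (V : ValuationSubring F) {y : F} (hy0 : y ≠ 0)
    (hy : V.valuation y < 1) : y⁻¹ ∉ V := by
  intro h
  have h1 : V.valuation y⁻¹ ≤ 1 := (V.valuation_le_one_iff _).mpr h
  have h2 : V.valuation (y * y⁻¹) < 1 := by
    rw [map_mul]
    calc V.valuation y * V.valuation y⁻¹ ≤ V.valuation y * 1 := mul_le_mul_right h1 _
      _ < 1 := by rwa [mul_one]
  rw [mul_inv_cancel₀ hy0, map_one] at h2
  exact lt_irrefl _ h2

/-- A constant of a discrete valuation ring `R` lying in the maximal ideal of a valuation ring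
containing the constants of `R` is divisible by the uniformizer. -/
theorem twi41_dvd_of_lt {R K : Type*} [CommRing R] [IsDomain R] [IsDiscreteValuationRing R]
    [Field K] [Algebra R K] [Algebra K F] {π : R} (hπ : Irreducible π) (V : ValuationSubring F)
    (hR : ∀ r : R, algebraMap K F (algebraMap R K r) ∈ V) (r : R)
    (h : V.valuation (algebraMap K F (algebraMap R K r)) < 1) : π ∣ r := by
  by_contra hnd
  have hu : IsUnit r := by
    by_contra hnu
    have h1 : r ∈ IsLocalRing.maximalIdeal R := (IsLocalRing.mem_maximalIdeal _).mpr hnu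
    rw [hπ.maximalIdeal_eq, Ideal.mem_span_singleton] at h1
    exact hnd h1
  obtain ⟨u, rfl⟩ := hu
  have h1 : algebraMap K F (algebraMap R K (u : R)) *
      algebraMap K F (algebraMap R K ((u⁻¹ : Rˣ) : R)) = 1 := by
    rw [← map_mul, ← map_mul, Units.mul_inv, map_one, map_one]
  have h2 : V.valuation (algebraMap K F (algebraMap R K ((u⁻¹ : Rˣ) : R))) ≤ 1 :=
    (V.valuation_le_one_iff _).mpr (hR _)
  have h3 := congrArg V.valuation h1
  rw [map_mul, map_one] at h3
  have h4 : V.valuation (algebraMap K F (algebraMap R K (u : R))) *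
      V.valuation (algebraMap K F (algebraMap R K ((u⁻¹ : Rˣ) : R))) < 1 := by
    calc _ ≤ V.valuation (algebraMap K F (algebraMap R K (u : R))) * 1 := mul_le_mul_right h2 _
      _ < 1 := by rwa [mul_one]
  exact absurd h3 h4.ne

end gen

section twi41

variable {R K : Type} [CommRing R] [IsDomain R] [IsDiscreteValuationRing R] [Field K] [CharZero K]
  [Algebra R K] [IsFractionRing R K] [Algebra K Q̄] (M' q : ℕ) [NeZero M'] [NeZero q]

set_option maxHeartbeats 1600000 in
/-- **The twist `cp57_HPT` on the level-`M' q q` frame**, `V₂` and `V₃` parameters with the frame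
facts of `ob72_ram` / `hV₃mem`. -/
theorem twi41_HPT_gen (hq : q.Prime) (hM' : ¬ q ∣ M') {π : R} (hπ : Irreducible π)
    [Algebra R ↥(modularFunctionFieldFullC K (M' * q * q))]
    [IsScalarTower R K ↥(modularFunctionFieldFullC K (M' * q * q))]
    (hqR : ¬ IsUnit (q : R)) (hL : ((M' * q * q : ℕ) : K) ≠ 0)
    (V₂ V₃ : ValuationSubring ↥(modularFunctionFieldFullC K (M' * q * q)))
    (hV₂ : ∀ c ∈ cm85_Vinf (K := K) (M' * q) hπ, al97L_alpha K (M' * q) q c ∈ V₂)
    (hπ₂ : (algebraMap K ↥(modularFunctionFieldFullC K (M' * q * q)) (algebraMap R K π))⁻¹ ∉ V₂)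
    (hne : cm85_Vinf (K := K) (M' * q * q) hπ ≠ V₂)
    (s : ↥(modularFunctionFieldFullC K (M' * q * q)))
    (hs : V₂.valuation s ^ (q - 1) =
      V₂.valuation (algebraMap K ↥(modularFunctionFieldFullC K (M' * q * q)) (algebraMap R K π)))
    (hV₃mem : ∀ x, x ∈ V₃ ↔
      als86_w2 (algebraMap K Q̄) M' q hq hM' hL x ∈ cm85_Vinf (K := K) (M' * q * q) hπ)
    (m : ℕ) :
    cp57_HPT (K := K) π q m
      (al97L_alpha K (M' * q) q : ↥(modularFunctionFieldFullC K (M' * q)) →+*
        ↥(modularFunctionFieldFullC K (M' * q * q)))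
      (al97L_beta K (M' * q) q : ↥(modularFunctionFieldFullC K (M' * q)) →+*
        ↥(modularFunctionFieldFullC K (M' * q * q)))
      (s35i62_normA K (M' * q) q) (s35i62_normB K (M' * q) q)
      (cm85_Vinf (K := K) (M' * q * q) hπ) V₂ V₃
      (cm85_Vinf (K := K) (M' * q) hπ) (s34i47c_V0 (K := K) M' q hq hM' hπ) := by
  have hϖ : ∀ r : R, algebraMap R ↥(modularFunctionFieldFullC K (M' * q * q)) r =
      algebraMap K ↥(modularFunctionFieldFullC K (M' * q * q)) (algebraMap R K r) :=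
    fun r => IsScalarTower.algebraMap_apply R K _ r
  -- the uniformizer
  have hπ₁ : (algebraMap K ↥(modularFunctionFieldFullC K (M' * q * q)) (algebraMap R K π))⁻¹ ∉
      cm85_Vinf (K := K) (M' * q * q) hπ :=
    gv85_pi_inv_not_mem (IsLocalRing.residue R) π (pk85_res_iff hπ) hπ.ne_zero _ _
  have hπ₃ := o3x72_V3_pi (K := K) M' q hq hM' hπ hL V₃ hV₃mem
  obtain ⟨p0, p1⟩ := abb72_pi_lt (cm85_Vinf (K := K) (M' * q * q) hπ) _ hπ₁
  obtain ⟨-, p2⟩ := abb72_pi_lt V₂ _ hπ₂
  obtain ⟨-, p3⟩ := abb72_pi_lt V₃ _ hπ₃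
  have hE2 := bv66_E2 (K := K) M' q hq hM' hπ hqR hL V₂ hV₂ hπ₂ hne
  -- constants
  have hcinf : ∀ r : R, algebraMap K ↥(modularFunctionFieldFullC K (M' * q)) (algebraMap R K r) ∈
      cm85_Vinf (K := K) (M' * q) hπ := fun r =>
    gv85_mem_V_of_integral _ _ _ _ (HahnSeries.C r) (by rw [gv85_coe_algebraMap, gv85_coeffMap_C])
  have hc0 : ∀ r : R, algebraMap K ↥(modularFunctionFieldFullC K (M' * q)) (algebraMap R K r) ∈
      s34i47c_V0 (K := K) M' q hq hM' hπ := by
    intro r
    rw [s34i47c_mem_V0, AlgEquiv.commutes]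
    exact hcinf r
  have hc1 : ∀ r : R,
      algebraMap K ↥(modularFunctionFieldFullC K (M' * q * q)) (algebraMap R K r) ∈
        cm85_Vinf (K := K) (M' * q * q) hπ := fun r =>
    gv85_mem_V_of_integral _ _ _ _ (HahnSeries.C r) (by rw [gv85_coe_algebraMap, gv85_coeffMap_C])
  have hc2 : ∀ r : R,
      algebraMap K ↥(modularFunctionFieldFullC K (M' * q * q)) (algebraMap R K r) ∈ V₂ := by
    intro r
    have h := hV₂ _ (hcinf r)
    rwa [AlgHom.commutes] at h
  have hc3 : ∀ r : R,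
      algebraMap K ↥(modularFunctionFieldFullC K (M' * q * q)) (algebraMap R K r) ∈ V₃ := by
    intro r
    rw [hV₃mem, AlgEquiv.commutes]
    exact hc1 r
  -- the uniformizer `s` of `V₂`
  obtain ⟨-, -, hunif, -, -⟩ :=
    ob72_ram (K := K) (M' * q) q hq (dvd_mul_left q M') hπ V₂ hV₂ hπ₂ hne s hs
  refine tw41_HPT (K := K) π q m hq _ _ _ _ _ _ _ _ _ ?_ ?_ hcinf hc0 ?_ ?_ ?_ ?_ ?_ ?_ ?_ ?_
    ?_ ?_ ?_ ?_ ?_ ?_
  · -- hal
    intro r
    rw [hϖ]
    exact (al97L_alpha K (M' * q) q).commutes _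
  · -- hbe
    intro r
    rw [hϖ]
    exact (al97L_beta K (M' * q) q).commutes _
  · exact fun r h => twi41_dvd_of_lt hπ _ hcinf r h
  · exact fun r h => twi41_dvd_of_lt hπ _ hc0 r h
  · intro r; rw [hϖ]; exact hc1 r
  · intro r; rw [hϖ]; exact hc2 r
  · intro r; rw [hϖ]; exact hc3 r
  · rw [hϖ]; exact p1
  · rw [hϖ]; exact p2
  · rw [hϖ]; exact p3
  · -- hmax1
    intro y hy
    rw [hϖ]
    by_cases hy0 : y = 0
    · rw [hy0, mul_zero]; exact ValuationSubring.zero_mem _
    exact gv85_hmax (IsLocalRing.residue R) π (pk85_res_iff hπ) hπ.ne_zero _ _ y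
      ((ValuationSubring.valuation_le_one_iff _ _).mp hy.le) (twi41_inv_not_mem _ hy0 hy)
  · -- hmax3
    intro y hy
    rw [hϖ]
    by_cases hy0 : y = 0
    · rw [hy0, mul_zero]; exact ValuationSubring.zero_mem _
    have hyV : y ∈ V₃ := (ValuationSubring.valuation_le_one_iff _ _).mp hy.le
    have hyi : y⁻¹ ∉ V₃ := twi41_inv_not_mem _ hy0 hy
    rw [hV₃mem] at hyV hyi ⊢
    rw [map_inv₀] at hyi
    rw [map_mul, map_inv₀, AlgEquiv.commutes]
    exact gv85_hmax (IsLocalRing.residue R) π (pk85_res_iff hπ) hπ.ne_zero _ _ _ hyV hyi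
  · -- hrad2
    intro z hz
    rw [hϖ]
    by_cases hz0 : z = 0
    · have hq1 : q - 1 ≠ 0 := by have := hq.two_le; omega
      rw [hz0, zero_pow hq1, mul_zero]; exact ValuationSubring.zero_mem _
    have hzV : z ∈ V₂ := (ValuationSubring.valuation_le_one_iff _ _).mp hz.le
    have h1 : s⁻¹ * z ∈ V₂ := hunif z hzV (twi41_inv_not_mem _ hz0 hz)
    have h2 : V₂.valuation ((s⁻¹ * z) ^ (q - 1)) ≤ 1 :=
      (ValuationSubring.valuation_le_one_iff _ _).mpr (pow_mem h1 _)
    rw [map_pow, map_mul, map_inv₀, mul_pow, inv_pow] at h2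
    rw [← ValuationSubring.valuation_le_one_iff, map_mul, map_inv₀, ← hs, map_pow]
    exact h2
  · -- hqπ
    have h1 : (q : R) ∈ IsLocalRing.maximalIdeal R := (IsLocalRing.mem_maximalIdeal _).mpr hqR
    rw [hπ.maximalIdeal_eq, Ideal.mem_span_singleton] at h1
    obtain ⟨r, hr⟩ := h1
    have e : ((q : ℕ) : ↥(modularFunctionFieldFullC K (M' * q * q))) =
        algebraMap K ↥(modularFunctionFieldFullC K (M' * q * q)) (algebraMap R K π) *
          algebraMap K ↥(modularFunctionFieldFullC K (M' * q * q)) (algebraMap R K r) := by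
      rw [← map_mul, ← map_mul, ← hr, map_natCast, map_natCast]
    rw [hϖ, e, inv_mul_cancel_left₀ p0]
    exact hc2 r
  · -- hcrt
    intro w₁ w₂
    have hunit : ∀ w : Rˣ,
        algebraMap K ↥(modularFunctionFieldFullC K (M' * q * q)) (algebraMap R K (w : R)) *
          algebraMap K ↥(modularFunctionFieldFullC K (M' * q * q))
            (algebraMap R K ((w⁻¹ : Rˣ) : R)) = 1 := by
      intro w
      rw [← map_mul, ← map_mul, Units.mul_inv, map_one, map_one]
    have hne0 : ∀ w : Rˣ,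
        algebraMap K ↥(modularFunctionFieldFullC K (M' * q * q)) (algebraMap R K (w : R)) ≠ 0 :=
      fun w => left_ne_zero_of_mul_eq_one (hunit w)
    have hinv : ∀ w : Rˣ,
        (algebraMap K ↥(modularFunctionFieldFullC K (M' * q * q)) (algebraMap R K (w : R)))⁻¹ =
          algebraMap K ↥(modularFunctionFieldFullC K (M' * q * q))
            (algebraMap R K ((w⁻¹ : Rˣ) : R)) :=
      fun w => inv_eq_of_mul_eq_one_right (hunit w)
    obtain ⟨G, ⟨hG1, hG2, hG3⟩, ⟨hGi1, hGi2, hGi3⟩, hd1, hd2, hd3⟩ :=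
      s3f66_crt_unit (K := K) M' q hq hM' hπ hqR hL V₂ V₃ hV₂ hπ₂ hne hV₃mem
        (algebraMap K ↥(modularFunctionFieldFullC K (M' * q * q)) (algebraMap R K (w₁ : R)))
        (algebraMap K ↥(modularFunctionFieldFullC K (M' * q * q)) (algebraMap R K (w₂ : R)))
        1 ⟨hc1 _, hc2 _, hc3 _⟩ ⟨hc1 _, hc2 _, hc3 _⟩
        ⟨ValuationSubring.one_mem _, ValuationSubring.one_mem _, ValuationSubring.one_mem _⟩
        (hne0 w₁) (hne0 w₂) one_ne_zero
        (by rw [hinv]; exact hc1 _) (by rw [hinv]; exact hc2 _)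
        (by rw [inv_one]; exact ValuationSubring.one_mem _)
    have hG0 : G ≠ 0 := by
      rintro rfl
      rw [zero_sub, mul_neg, neg_mem_iff, mul_one] at hd3
      exact hπ₃ hd3
    refine ⟨G, hG0, ⟨hG1, hGi1⟩, ⟨hG2, hGi2⟩, ⟨hG3, hGi3⟩, ?_, ?_, ?_⟩
    · rw [hϖ]; exact abb72_lt_of_div _ _ _ p0 p1 hd1
    · rw [hϖ]; exact abb72_lt_of_div _ _ _ p0 p2 hd2
    · exact abb72_lt_of_div _ _ _ p0 p3 hd3
  · -- hN
    exact fun u h1 h2 h3 =>
      no88_hNU (K := K) M' q hq hM' hπ hqR hL V₂ V₃ hV₂ hπ₂ hne s hs hE2 hV₃mem u h1 h2 h3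

/-- **The twist `cp57_HPT` on the CANONICAL frame** (`π = q`, `V₂ = v2g64_V2`, `V₃ = nsb86_V3`):
literally the hypothesis `hT` of `cp57_HP_of` in the frame of `FinalBind62`. -/
theorem twi41_HPT (hq : q.Prime) (hM' : ¬ q ∣ M')
    [Algebra R ↥(modularFunctionFieldFullC K (M' * q * q))]
    [IsScalarTower R K ↥(modularFunctionFieldFullC K (M' * q * q))]
    (hπ : Irreducible ((q : ℕ) : R)) (m : ℕ) :
    cp57_HPT (K := K) ((q : ℕ) : R) q m
      (al97L_alpha K (M' * q) q : ↥(modularFunctionFieldFullC K (M' * q)) →+*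
        ↥(modularFunctionFieldFullC K (M' * q * q)))
      (al97L_beta K (M' * q) q : ↥(modularFunctionFieldFullC K (M' * q)) →+*
        ↥(modularFunctionFieldFullC K (M' * q * q)))
      (s35i62_normA K (M' * q) q) (s35i62_normB K (M' * q) q)
      (cm85_Vinf (K := K) (M' * q * q) hπ)
      (v2g64_V2 (algebraMap K Q̄) M' q hq hM' hπ (Associated.refl _))
      (nsb86_V3 (K := K) M' q hq hM' hπ)
      (cm85_Vinf (K := K) (M' * q) hπ) (s34i47c_V0 (K := K) M' q hq hM' hπ) :=
  twi41_HPT_gen (K := K) M' q hq hM' hπ hπ.not_isUnit (Nat.cast_ne_zero.mpr (NeZero.ne _)) _ _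
    (v2g64_V2_alpha (algebraMap K Q̄) M' q hq hM' hπ (Associated.refl _))
    (v2g64_V2_pi (algebraMap K Q̄) M' q hq hM' hπ (Associated.refl _))
    (v2g64_V2_ne (algebraMap K Q̄) M' q hq hM' hπ (Associated.refl _))
    (v2g64_s K M' q)
    (v2g64_V2_val (algebraMap K Q̄) M' q hq hM' hπ (Associated.refl _))
    (fun _ => Iff.rfl) m

end twi41

end Fermat.Agent.S36
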