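import Fermat.Agent.S36.DataBind44

/-!
# S36 lab, row 599 (C-REGq), helper44: the case `q = 2` — (REG-q) on the level-3 charts

For `q = 2` the nodes lie over `j̄ = 0 = 1728` and the level-3 Hauptmodul `h` satisfies
`j h³ = (h + 27)(h + 243)³ ≡ (h + 1)⁴ (mod 2)`; with `h + 27 = ε c³` at every closed point where
`j` is regular (`rq43_level3_h27`, helper43) this gives `j̄ = unit · c̄¹²`, hence `ϖ¹² ∣ j̄`.

* `zt44_twelve`, `zt44_twelve_inv` : the algebra in a DVR `O` with `2 = 0` (charts `{h}`,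
  `{h⁻¹}`).
* `zt44_clause`, `zt44_clause_inv` : the clause `hq2` of `zd44_data` on any chart containing `h`
  (resp. `h⁻¹`).
* `zt44_reg_level3_two` : **(REG-q) = `nf21c_Reg` on both level-3 charts for `q = 2`**, no open
  hypothesis (`3 ∣ M'`, `M'` a unit of `R`, `nuThree M' = 0`).
* `zt44_reg_level3_all` : both level-3 charts for every `q ≠ 3`.

All names are prefixed `zt44_`.
-/

set_option autoImplicit false
set_option linter.unusedSectionVars false
set_option linter.style.haveILetI false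

open ModularCurve AlgebraicCurve IntermediateField

namespace Fermat.Agent.S36

open Fermat.Agent.S18 Fermat.Agent.S24 Fermat.Agent.S34

local notation "Q̄" => AlgebraicClosure ℚ

section ZT44Alg

variable {O : Type*} [CommRing O] [IsDomain O] [IsDiscreteValuationRing O]

/-- Characteristic `2`, level `3`, chart `{h}`: `x h³ = (h + 27)(h + 243)³`, `h + 27 = u d³`,
`x` not a unit ⟹ `ϖ ^ 12 ∣ x`. -/
theorem zt44_twelve (ϖ : O) (hϖ : Irreducible ϖ) (h2 : (2 : O) = 0) (x hh u d : O)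
    (hrel : x * hh ^ 3 = (hh + 27) * (hh + 243) ^ 3) (hu : IsUnit u)
    (hfac : hh + 27 = u * d ^ 3) (hxu : ¬ IsUnit x) : ϖ ^ 12 ∣ x := by
  have e27 : (27 : O) = 1 := by
    have : (27 : O) = 2 * 13 + 1 := by norm_num
    rw [this, h2, zero_mul, zero_add]
  have e243 : (243 : O) = 27 := by
    have : (243 : O) = 2 * 108 + 27 := by norm_num
    rw [this, h2, zero_mul, zero_add]
  have hrel' : x * hh ^ 3 = (u * d ^ 3) ^ 4 := by
    rw [hrel, e243, hfac]
    ring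
  have hd : ¬ IsUnit d := by
    intro hdu
    have h1 : IsUnit (x * hh ^ 3) := by
      rw [hrel']
      exact (hu.mul (hdu.pow 3)).pow 4
    exact hxu (isUnit_of_mul_isUnit_left h1)
  have hhu : IsUnit hh := by
    have hnu : ¬ IsUnit (u * d ^ 3) := fun h =>
      hd ((isUnit_pow_iff (by norm_num)).mp (isUnit_of_mul_isUnit_right h))
    have e : u * d ^ 3 + -hh = 1 := by
      rw [← hfac, e27]
      ring
    rcases IsLocalRing.isUnit_or_isUnit_of_add_one e with h' | h'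
    · exact absurd h' hnu
    · simpa using h'.neg
  obtain ⟨c, hc⟩ := rr79_dvd_of_not_isUnit ϖ hϖ d hd
  have h12 : ϖ ^ 12 ∣ x * hh ^ 3 := by
    rw [hrel', hc]
    exact ⟨u ^ 4 * c ^ 12, by ring⟩
  exact ((hhu.pow 3).dvd_mul_right).mp h12

/-- Characteristic `2`, level `3`, chart `{h⁻¹}` (`g = h⁻¹`): `x g = (1 + 27 g)(1 + 243 g)³`
forces `g` to be a unit, and `g y = 1 + 27 g`, `y = u d³`, `x` not a unit ⟹ `ϖ ^ 12 ∣ x`. -/
theorem zt44_twelve_inv (ϖ : O) (hϖ : Irreducible ϖ) (h2 : (2 : O) = 0) (x gg : O)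
    (hrel : x * gg = (1 + 27 * gg) * (1 + 243 * gg) ^ 3) :
    IsUnit gg ∧ ∀ y u d : O, gg * y = 1 + 27 * gg → IsUnit u → y = u * d ^ 3 → ¬ IsUnit x →
      ϖ ^ 12 ∣ x := by
  have hgu : IsUnit gg := by
    by_contra hn
    have h1 : ∀ c : O, IsUnit (1 + c * gg) := by
      intro c
      have e : (1 + c * gg) + -(c * gg) = 1 := by ring
      rcases IsLocalRing.isUnit_or_isUnit_of_add_one e with h' | h'
      · exact h'
      · exfalso
        have h'' : IsUnit (c * gg) := by simpa using h'.neg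
        exact hn (isUnit_of_mul_isUnit_right h'')
    have h3 : IsUnit (x * gg) := by
      rw [hrel]
      exact (h1 27).mul ((h1 243).pow 3)
    exact hn (isUnit_of_mul_isUnit_right h3)
  refine ⟨hgu, ?_⟩
  intro y u d hy hu hyd hxu
  obtain ⟨g, rfl⟩ := hgu
  have e1 : ∀ c : O, ((g⁻¹ : Oˣ) : O) + c = ((g⁻¹ : Oˣ) : O) * (1 + c * (g : O)) := by
    intro c
    rw [mul_add, mul_one, mul_comm c, ← mul_assoc, Units.inv_mul, one_mul]
  refine zt44_twelve ϖ hϖ h2 x ((g⁻¹ : Oˣ) : O) u d ?_ hu ?_ hxu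
  · rw [e1 27, e1 243, mul_pow]
    have hx : x = ((g⁻¹ : Oˣ) : O) * (x * (g : O)) := by
      rw [mul_comm x, ← mul_assoc, Units.inv_mul, one_mul]
    rw [hx, hrel]
    ring
  · rw [← hyd, e1 27, ← hy, ← mul_assoc, Units.inv_mul, one_mul]

end ZT44Alg

section ZT44

variable {R K : Type} [CommRing R] [IsDomain R] [IsDiscreteValuationRing R] [Field K]
  [NumberField K] [Algebra K Q̄] [Algebra R K] [IsFractionRing R K]
  (M' q : ℕ) [NeZero M'] [NeZero q] (hq : q.Prime) (hM' : ¬ q ∣ M')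
  [Algebra R ↥(modularFunctionFieldFullC K M')]
  [IsScalarTower R K ↥(modularFunctionFieldFullC K M')]
  [Algebra R ↥(modularFunctionFieldFullC K (M' * q))]
  [IsScalarTower R K ↥(modularFunctionFieldFullC K (M' * q))] {π : R} (hπ : Irreducible π)

/-- `2 = 0` in every branch ring when `q = 2`. -/
theorem zt44_two (hqR : ¬ IsUnit (q : R)) (hq2 : q = 2)
    (B : Subalgebra R ↥(modularFunctionFieldFullC K (M' * q)))
    (hBV : ∀ x ∈ B, x ∈ cm85_Vinf (K := K) (M' * q) hπ)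
    {O : Type*} [CommRing O] (ι : ↥B →+* O)
    (hι : ∀ x : ↥B, ι x = 0 ↔
      (algebraMap R ↥(modularFunctionFieldFullC K (M' * q)) π)⁻¹ *
        (x : ↥(modularFunctionFieldFullC K (M' * q))) ∈ cm85_Vinf (K := K) (M' * q) hπ) :
    (2 : O) = 0 := by
  obtain ⟨r, hr⟩ : π ∣ (q : R) := by
    have h1 : (q : R) ∈ IsLocalRing.maximalIdeal R := (IsLocalRing.mem_maximalIdeal _).mpr hqR
    rw [hπ.maximalIdeal_eq, Ideal.mem_span_singleton] at h1
    exact h1
  have e : (2 : R) = π * r := by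
    rw [← hr, hq2]
    norm_num
  have hconv : ∀ r : R, algebraMap R ↥(modularFunctionFieldFullC K (M' * q)) r =
      algebraMap K ↥(modularFunctionFieldFullC K (M' * q)) (algebraMap R K r) := fun r =>
    IsScalarTower.algebraMap_apply R K ↥(modularFunctionFieldFullC K (M' * q)) r
  have hπ0 : algebraMap R ↥(modularFunctionFieldFullC K (M' * q)) π ≠ 0 := by
    rw [hconv]
    intro h0
    have h1 : algebraMap R K π = 0 :=
      (map_eq_zero (algebraMap K ↥(modularFunctionFieldFullC K (M' * q)))).mp h0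
    exact hπ.ne_zero ((map_eq_zero_iff _ (IsFractionRing.injective R K)).mp h1)
  have h : ι (algebraMap R ↥B (π * r)) = 0 := by
    rw [hι, Subalgebra.coe_algebraMap, map_mul, ← mul_assoc, inv_mul_cancel₀ hπ0, one_mul]
    exact hBV _ (B.algebraMap_mem _)
  rw [← e, map_ofNat, map_ofNat] at h
  exact h

/-- Numerals of a chart, read in the function field. -/
theorem zt44_coe_ofNat {R F : Type*} [CommRing R] [Field F] [Algebra R F] (B : Subalgebra R F)
    (k : ℕ) [k.AtLeastTwo] : ((OfNat.ofNat k : ↥B) : F) = OfNat.ofNat k :=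
  map_ofNat B.val k

/-- `h + 27 ≠ 0`. -/
theorem zt44_h27_ne_zero (M : ℕ) [NeZero M] (h3 : 3 ∣ M) :
    pk85_h3 K M h3 + 27 ≠ 0 := fun h0 =>
  pk85_h3_transcendental K M h3 (by
    have e : pk85_h3 K M h3 = algebraMap K ↥(modularFunctionFieldFullC K M) (-27) := by
      rw [map_neg, map_ofNat]
      exact eq_neg_of_add_eq_zero_left h0
    rw [e]
    exact isAlgebraic_algebraMap _)

/-- **The clause `hq2` of `zd44_data`** on a chart containing the level-3 Hauptmodul `h`. -/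
theorem zt44_clause (hqR : ¬ IsUnit (q : R)) (hq2 : q = 2) (h3 : 3 ∣ M' * q)
    (B : Subalgebra R ↥(modularFunctionFieldFullC K (M' * q)))
    (hBV : ∀ x ∈ B, x ∈ cm85_Vinf (K := K) (M' * q) hπ)
    (hel : pk85_h3 K (M' * q) h3 ∈ B)
    (hroot : rt79_RootAt π B (rm90_j K (M' * q)) (pk85_h3 K (M' * q) h3 + 27) 3)
    (n : Ideal ↥B) (hn : n.IsMaximal) (hπn : algebraMap R ↥B π ∈ n)
    (a b : ↥B) (ha : a ∉ n)
    (hab : (a : ↥(modularFunctionFieldFullC K (M' * q))) * rm90_j K (M' * q) =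
      (b : ↥(modularFunctionFieldFullC K (M' * q)))) (hb : b ∈ n)
    (O : Type) [CommRing O] [IsDomain O] [IsDiscreteValuationRing O] (ι : ↥B →+* O)
    (hι : ∀ x : ↥B, ι x = 0 ↔
      (algebraMap R ↥(modularFunctionFieldFullC K (M' * q)) π)⁻¹ *
        (x : ↥(modularFunctionFieldFullC K (M' * q))) ∈ cm85_Vinf (K := K) (M' * q) hπ)
    (hunit : ∀ s : ↥B, IsUnit (ι s) ↔ s ∉ n) (ϖ : O) (hϖ : Irreducible ϖ) :
    ϖ ^ 12 ∣ ι b := by
  haveI := hn.isPrime
  have h2O : (2 : O) = 0 := zt44_two M' q hπ hqR hq2 B hBV ι hι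
  have hφ : ∀ s : ↥B, s ∉ n → IsUnit (ι s) := fun s hs => (hunit s).mpr hs
  have hιa : IsUnit (ι a) := hφ a ha
  have hreg : ∃ s : ↥B, s ∉ n ∧
      (s : ↥(modularFunctionFieldFullC K (M' * q))) * rm90_j K (M' * q) ∈ B :=
    ⟨a, ha, by rw [hab]; exact b.2⟩
  obtain ⟨x, hx⟩ : ∃ x : O, ι a * x = ι b := by
    obtain ⟨ua, hua⟩ := hιa
    exact ⟨((ua⁻¹ : Oˣ) : O) * ι b, by rw [← mul_assoc, ← hua, Units.mul_inv, one_mul]⟩
  have hxu : ¬ IsUnit x := fun h => (hunit b).mp (hx ▸ hιa.mul h) hb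
  obtain ⟨hB, hBdef⟩ : ∃ hB : ↥B, (hB : ↥(modularFunctionFieldFullC K (M' * q))) =
      pk85_h3 K (M' * q) h3 := ⟨⟨_, hel⟩, rfl⟩
  have hrelB : b * hB ^ 3 = a * ((hB + 27) * (hB + 243) ^ 3) := by
    apply Subtype.ext
    push_cast
    rw [zt44_coe_ofNat B 27, zt44_coe_ofNat B 243, hBdef, ← hab, mul_assoc,
      pk85_h3_rel K (M' * q) h3]
  have hrelO : x * ι hB ^ 3 = (ι hB + 27) * (ι hB + 243) ^ 3 := by
    have h := congrArg ι hrelB
    rw [map_mul, map_pow, map_mul, map_mul, map_pow, map_add, map_add, map_ofNat, map_ofNat,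
      ← hx, mul_assoc] at h
    exact mul_left_cancel₀ hιa.ne_zero h
  have hone : (1 : ↥B) ∉ n := (Ideal.ne_top_iff_one n).mp hn.ne_top
  obtain ⟨u, d, hu, hud⟩ := rr79_rootAt_map π B (rm90_j K (M' * q))
    (pk85_h3 K (M' * q) h3 + 27) 3 (zt44_h27_ne_zero (M' * q) h3) hroot n hn hπn hreg ι hφ
    1 (hB + 27) hone (by push_cast; rw [zt44_coe_ofNat B 27, hBdef, one_mul]) (ι hB + 27)
    (by rw [map_one, one_mul, map_add, map_ofNat])
  rw [← hx]
  exact Dvd.dvd.mul_left (zt44_twelve ϖ hϖ h2O x (ι hB) u d hrelO hu hud hxu) _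

/-- **The clause `hq2` of `zd44_data`** on a chart containing `h⁻¹`. -/
theorem zt44_clause_inv (hqR : ¬ IsUnit (q : R)) (hq2 : q = 2) (h3 : 3 ∣ M' * q)
    (B : Subalgebra R ↥(modularFunctionFieldFullC K (M' * q)))
    (hBV : ∀ x ∈ B, x ∈ cm85_Vinf (K := K) (M' * q) hπ)
    (hel : (pk85_h3 K (M' * q) h3)⁻¹ ∈ B)
    (hroot : rt79_RootAt π B (rm90_j K (M' * q)) (pk85_h3 K (M' * q) h3 + 27) 3)
    (n : Ideal ↥B) (hn : n.IsMaximal) (hπn : algebraMap R ↥B π ∈ n)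
    (a b : ↥B) (ha : a ∉ n)
    (hab : (a : ↥(modularFunctionFieldFullC K (M' * q))) * rm90_j K (M' * q) =
      (b : ↥(modularFunctionFieldFullC K (M' * q)))) (hb : b ∈ n)
    (O : Type) [CommRing O] [IsDomain O] [IsDiscreteValuationRing O] (ι : ↥B →+* O)
    (hι : ∀ x : ↥B, ι x = 0 ↔
      (algebraMap R ↥(modularFunctionFieldFullC K (M' * q)) π)⁻¹ *
        (x : ↥(modularFunctionFieldFullC K (M' * q))) ∈ cm85_Vinf (K := K) (M' * q) hπ)
    (hunit : ∀ s : ↥B, IsUnit (ι s) ↔ s ∉ n) (ϖ : O) (hϖ : Irreducible ϖ) :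
    ϖ ^ 12 ∣ ι b := by
  haveI := hn.isPrime
  have h2O : (2 : O) = 0 := zt44_two M' q hπ hqR hq2 B hBV ι hι
  have hφ : ∀ s : ↥B, s ∉ n → IsUnit (ι s) := fun s hs => (hunit s).mpr hs
  have hιa : IsUnit (ι a) := hφ a ha
  have hreg : ∃ s : ↥B, s ∉ n ∧
      (s : ↥(modularFunctionFieldFullC K (M' * q))) * rm90_j K (M' * q) ∈ B :=
    ⟨a, ha, by rw [hab]; exact b.2⟩
  obtain ⟨x, hx⟩ : ∃ x : O, ι a * x = ι b := by
    obtain ⟨ua, hua⟩ := hιa
    exact ⟨((ua⁻¹ : Oˣ) : O) * ι b, by rw [← mul_assoc, ← hua, Units.mul_inv, one_mul]⟩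
  have hxu : ¬ IsUnit x := fun h => (hunit b).mp (hx ▸ hιa.mul h) hb
  have hh0 : pk85_h3 K (M' * q) h3 ≠ 0 := ci22_h3_ne_zero (K := K) (M' * q) h3
  obtain ⟨gB, hgdef⟩ : ∃ gB : ↥B, (gB : ↥(modularFunctionFieldFullC K (M' * q))) =
      (pk85_h3 K (M' * q) h3)⁻¹ := ⟨⟨_, hel⟩, rfl⟩
  -- the relation `j g = (1 + 27 g)(1 + 243 g)³`
  have hF : rm90_j K (M' * q) * (pk85_h3 K (M' * q) h3)⁻¹ =
      (1 + 27 * (pk85_h3 K (M' * q) h3)⁻¹) * (1 + 243 * (pk85_h3 K (M' * q) h3)⁻¹) ^ 3 := by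
    have e1 : rm90_j K (M' * q) * (pk85_h3 K (M' * q) h3)⁻¹ =
        (rm90_j K (M' * q) * pk85_h3 K (M' * q) h3 ^ 3) *
          ((pk85_h3 K (M' * q) h3)⁻¹) ^ 4 := by
      field_simp
    have e2 : ∀ c : ↥(modularFunctionFieldFullC K (M' * q)),
        (pk85_h3 K (M' * q) h3 + c) * (pk85_h3 K (M' * q) h3)⁻¹ =
          1 + c * (pk85_h3 K (M' * q) h3)⁻¹ := by
      intro c
      field_simp
    rw [e1, pk85_h3_rel K (M' * q) h3, ← e2 27, ← e2 243]
    ring
  have hrelB : b * gB = a * ((1 + 27 * gB) * (1 + 243 * gB) ^ 3) := by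
    apply Subtype.ext
    push_cast
    rw [zt44_coe_ofNat B 27, zt44_coe_ofNat B 243, hgdef, ← hab, mul_assoc, hF]
  have hrelO : x * ι gB = (1 + 27 * ι gB) * (1 + 243 * ι gB) ^ 3 := by
    have h := congrArg ι hrelB
    rw [map_mul, map_mul, map_mul, map_pow, map_add, map_add, map_mul, map_mul, map_one,
      map_ofNat, map_ofNat, ← hx, mul_assoc] at h
    exact mul_left_cancel₀ hιa.ne_zero h
  obtain ⟨hgu, hmain⟩ := zt44_twelve_inv ϖ hϖ h2O x (ι gB) hrelO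
  have hg : gB ∉ n := (hunit gB).mp hgu
  obtain ⟨y, hy⟩ : ∃ y : O, ι gB * y = ι (1 + 27 * gB) := by
    obtain ⟨ug, hug⟩ := hgu
    exact ⟨((ug⁻¹ : Oˣ) : O) * ι (1 + 27 * gB),
      by rw [← mul_assoc, ← hug, Units.mul_inv, one_mul]⟩
  obtain ⟨u, d, hu, hud⟩ := rr79_rootAt_map π B (rm90_j K (M' * q))
    (pk85_h3 K (M' * q) h3 + 27) 3 (zt44_h27_ne_zero (M' * q) h3) hroot n hn hπn hreg ι hφ
    gB (1 + 27 * gB) hg (by push_cast; rw [zt44_coe_ofNat B 27, hgdef]; field_simp) y hy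
  rw [← hx]
  refine Dvd.dvd.mul_left (hmain y u d ?_ hu hud hxu) _
  rw [hy, map_add, map_mul, map_one, map_ofNat]

/-- **(REG-q) on both level-3 charts of the canonical frame for `q = 2`** — no open
hypothesis. -/
theorem zt44_reg_level3_two (hunit : ∀ n : ℕ, Nat.Coprime n q → IsUnit (n : R))
    (hqR : ¬ IsUnit (q : R)) (hqπ : ((q : ℕ) : R) = π) (h3 : 3 ∣ M') (hq2 : q = 2)
    (hMu : IsUnit (M' : R)) (hν3 : nuThree M' = 0) :
    nf21c_Reg M' q hq hM' hπ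
        (pk15_chart R ({pk85_h3 K (M' * q) (h3.trans (dvd_mul_right M' q))} :
          Set ↥(modularFunctionFieldFullC K (M' * q)))) ∧
      nf21c_Reg M' q hq hM' hπ
        (pk15_chart R ({(pk85_h3 K (M' * q) (h3.trans (dvd_mul_right M' q)))⁻¹} :
          Set ↥(modularFunctionFieldFullC K (M' * q)))) := by
  have hq3 : q ≠ 3 := by omega
  have hh : s34i47c_IsHaupt K (M' * q) q (pk85_h3 K (M' * q) (h3.trans (dvd_mul_right M' q))) :=
    Or.inr ⟨hq3, h3.trans (dvd_mul_right M' q), rfl⟩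
  have hcop : Nat.Coprime 3 q := (Nat.coprime_primes Nat.prime_three hq).mpr (Ne.symm hq3)
  have h3u : IsUnit (3 : R) := by
    have := hunit 3 hcop
    rwa [Nat.cast_ofNat] at this
  obtain ⟨hr₁, hr₂⟩ := rq43_level3_h27 (K := K) M' q hπ h3 hMu hν3
  obtain ⟨⟨hBW1, -, -, -, -⟩, ⟨hBW2, -, -, -, -⟩⟩ :=
    nf79c_chart_facts M' q hq hM' hπ hunit hqR _ hh
  refine nf21c_reg M' q hq hM' hπ hunit hqR hqπ _ hh ?_ ?_
  · intro n hn h1 h2'
    haveI := hn.isPrime
    exact zd44_data M' q hq hM' hπ hqR _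
      (fun x hx => (zd44_mem_W M' q hq hM' hπ x (hBW1 x hx)).1)
      (fun x hx => (zd44_mem_W M' q hq hM' hπ x (hBW1 x hx)).2) n hn
      (zd44_pi_mem M' q hπ _ n h1) h2'
      (cf22_level3 (algebraMap K Q̄) M' q hq hM' hπ hqR h3 h3u n h1 h2')
      (fun h => absurd hq2 h) (fun h => absurd hq2 h)
      (fun _ a b ha hab hb O _ _ _ ι hι hunit' ϖ hϖ =>
        zt44_clause M' q hπ hqR hq2 _ _
          (fun x hx => (zd44_mem_W M' q hq hM' hπ x (hBW1 x hx)).1)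
          (pk15_subset_chart _ (Set.mem_singleton _)) hr₁ n hn (zd44_pi_mem M' q hπ _ n h1)
          a b ha hab hb O ι hι hunit' ϖ hϖ)
  · intro n hn h1 h2'
    haveI := hn.isPrime
    exact zd44_data M' q hq hM' hπ hqR _
      (fun x hx => (zd44_mem_W M' q hq hM' hπ x (hBW2 x hx)).1)
      (fun x hx => (zd44_mem_W M' q hq hM' hπ x (hBW2 x hx)).2) n hn
      (zd44_pi_mem M' q hπ _ n h1) h2'
      (cf22_level3_inv (algebraMap K Q̄) M' q hq hM' hπ hqR h3 n h1 h2')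
      (fun h => absurd hq2 h) (fun h => absurd hq2 h)
      (fun _ a b ha hab hb O _ _ _ ι hι hunit' ϖ hϖ =>
        zt44_clause_inv M' q hπ hqR hq2 _ _
          (fun x hx => (zd44_mem_W M' q hq hM' hπ x (hBW2 x hx)).1)
          (pk15_subset_chart _ (Set.mem_singleton _)) hr₂ n hn (zd44_pi_mem M' q hπ _ n h1)
          a b ha hab hb O ι hι hunit' ϖ hϖ)

/-- **(REG-q) on both level-3 charts of the canonical frame, every `q ≠ 3`.** -/
theorem zt44_reg_level3_all (hunit : ∀ n : ℕ, Nat.Coprime n q → IsUnit (n : R))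
    (hqR : ¬ IsUnit (q : R)) (hqπ : ((q : ℕ) : R) = π) (h3 : 3 ∣ M') (hq3 : q ≠ 3)
    (hMu : IsUnit (M' : R)) (hν3 : nuThree M' = 0) (hν2 : nuTwo M' = 0) :
    nf21c_Reg M' q hq hM' hπ
        (pk15_chart R ({pk85_h3 K (M' * q) (h3.trans (dvd_mul_right M' q))} :
          Set ↥(modularFunctionFieldFullC K (M' * q)))) ∧
      nf21c_Reg M' q hq hM' hπ
        (pk15_chart R ({(pk85_h3 K (M' * q) (h3.trans (dvd_mul_right M' q)))⁻¹} :
          Set ↥(modularFunctionFieldFullC K (M' * q)))) := by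
  by_cases hq2 : q = 2
  · exact zt44_reg_level3_two M' q hq hM' hπ hunit hqR hqπ h3 hq2 hMu hν3
  · exact zd44_reg_level3 M' q hq hM' hπ hunit hqR hqπ h3 hq3 hq2 hMu hν3 hν2

end ZT44

end Fermat.Agent.S36
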