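import Fermat.Agent.S36.TripleFrameB71
import Fermat.Agent.S36.ChartMaps71
import Fermat.Agent.S36.FrameBind85
import Fermat.Agent.S36.SmoothCanon7
import Fermat.Agent.S36.ValUnitCanon1

/-!
# S36 lab (helper73), rows 598/605: `tf71b_twoGen` BOUND TO THE CANONICAL CHARTS of level `M' q q`

`V₁ = cm85_Vinf (M' q q)`, `V₃ = nsb86_V3`, `V₂` = any valuation subring with the four facts of
`ob72_ram` for `σ = v2g64_s K M' q`; charts `B = pk15_chart R {h}`, `{h⁻¹}` of level `M' q q` and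
`B' = pk15_chart R {h'}`, `{h'⁻¹}` of level `M' q` (`h`, `h'` the Hauptmodul of level `2` or `3`).

`tg73_twoGen_level2`, `tg73_twoGen_level2_inv`, `tg73_twoGen_level3`, `tg73_twoGen_level3_inv`:
`tl71_TwoGen π B` from ONLY

* `hr₁`, `hr₂` : (REG) `tl71_DivAt` at the two-branch points of the level-`q` chart `B'`
  (literal `hr₁`, `hr₂` of `tf71b_twoGen`);
* `hD₂` : `tl71_MidDivAt` at the `C₂`-only closed points of `B` (literal `hD₂` of `tf71b_twoGen`).

Everything else (lying-over of `V₂`, `V₃`, `π σ⁻¹ ∈ V₂`, `π⁻¹ σ^(q-1) ∈ V₂`, `α₂ B' ⊆ B`,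
`β₂ B' ⊆ B`, `B ⊆ V_i`, saturation, the three (3a)) is discharged here.

`tg73_core` is the chart-generic form.  All names are prefixed `tg73_`.
-/

set_option autoImplicit false
set_option linter.unusedSectionVars false
set_option linter.unusedVariables false
set_option linter.style.haveILetI false
set_option linter.style.longLine false

open ModularCurve AlgebraicCurve

namespace Fermat.Agent.S36

open Fermat.Agent.S18 Fermat.Agent.S24 Fermat.Agent.S34 Fermat.Agent.S36.TripleLoc71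

local notation "Q̄" => AlgebraicClosure ℚ

section tg73

variable {R K : Type} [CommRing R] [IsDomain R] [IsDiscreteValuationRing R] [Field K]
  [CharZero K] [Algebra R K] [IsFractionRing R K] [Algebra K Q̄] [Algebra.IsAlgebraic K Q̄]
  (M' q : ℕ) [NeZero M'] [NeZero q] (hq : q.Prime) (hM' : ¬ q ∣ M')
  [Algebra R ↥(modularFunctionFieldFullC K M')]
  [IsScalarTower R K ↥(modularFunctionFieldFullC K M')]
  [Algebra R ↥(modularFunctionFieldFullC K (M' * q))]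
  [IsScalarTower R K ↥(modularFunctionFieldFullC K (M' * q))]
  [Algebra R ↥(modularFunctionFieldFullC K (M' * q * q))]
  [IsScalarTower R K ↥(modularFunctionFieldFullC K (M' * q * q))]

/-- The `σ`-facts of `tf71b_twoGen` from `hs`: `σ ≠ 0`, `π σ⁻¹ ∈ V₂`, `π⁻¹ σ^(q-1) ∈ V₂`. -/
theorem tg73_sigma {π : R} (hπ : Irreducible π) (hq2 : 2 ≤ q)
    (V₂ : ValuationSubring ↥(modularFunctionFieldFullC K (M' * q * q)))
    (hπ₂ : (algebraMap K ↥(modularFunctionFieldFullC K (M' * q * q)) (algebraMap R K π))⁻¹ ∉ V₂)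
    (σ : ↥(modularFunctionFieldFullC K (M' * q * q)))
    (hs : V₂.valuation σ ^ (q - 1) =
      V₂.valuation (algebraMap K ↥(modularFunctionFieldFullC K (M' * q * q)) (algebraMap R K π))) :
    σ ≠ 0 ∧ algebraMap R ↥(modularFunctionFieldFullC K (M' * q * q)) π * σ⁻¹ ∈ V₂ ∧
      (algebraMap R ↥(modularFunctionFieldFullC K (M' * q * q)) π)⁻¹ * σ ^ (q - 1) ∈ V₂ := by
  rw [IsScalarTower.algebraMap_apply R K ↥(modularFunctionFieldFullC K (M' * q * q))]
  set P := algebraMap K ↥(modularFunctionFieldFullC K (M' * q * q)) (algebraMap R K π) with hP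
  have hπ0 : P ≠ 0 := by
    intro h0
    apply hπ₂
    rw [h0, inv_zero]
    exact V₂.zero_mem
  have hv0 : V₂.valuation P ≠ 0 := (Valuation.ne_zero_iff _).2 hπ0
  have hs0 : σ ≠ 0 := by
    intro h0
    rw [h0, map_zero, zero_pow (by omega)] at hs
    exact hv0 hs.symm
  have hvs0 : V₂.valuation σ ≠ 0 := (Valuation.ne_zero_iff _).2 hs0
  have hvP1 : V₂.valuation P < 1 := by
    by_contra hge
    rw [not_lt] at hge
    apply hπ₂
    rw [← V₂.valuation_le_one_iff, map_inv₀]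
    exact inv_le_one_of_one_le₀ hge
  have hvs1 : V₂.valuation σ ≤ 1 := by
    by_contra hgt
    rw [not_le] at hgt
    have h1 : 1 ≤ V₂.valuation σ ^ (q - 1) := one_le_pow₀ hgt.le
    rw [hs] at h1
    exact absurd hvP1 (not_lt.mpr h1)
  refine ⟨hs0, ?_, ?_⟩
  · have e2 : V₂.valuation σ ^ (q - 1) = V₂.valuation σ ^ (q - 2) * V₂.valuation σ := by
      rw [← pow_succ]
      congr 1
      omega
    have e3 : V₂.valuation (P * σ⁻¹) = V₂.valuation σ ^ (q - 2) := by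
      rw [map_mul, map_inv₀, ← hs, e2]
      exact mul_inv_cancel_right₀ hvs0 _
    rw [← V₂.valuation_le_one_iff, e3]
    exact pow_le_one₀ zero_le hvs1
  · rw [← V₂.valuation_le_one_iff, map_mul, map_inv₀, map_pow, hs, inv_mul_cancel₀ hv0]

/-- **Chart-generic form**: `tf71b_twoGen` with the frame facts of `V₂`, `V₃`, `σ` discharged. -/
theorem tg73_core {π : R} (hπ : Irreducible π) (hqR : ¬ IsUnit (q : R))
    (V₂ : ValuationSubring ↥(modularFunctionFieldFullC K (M' * q * q)))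
    (hV₂ : ∀ c ∈ cm85_Vinf (K := K) (M' * q) hπ, al97L_alpha K (M' * q) q c ∈ V₂)
    (hπ₂ : (algebraMap K ↥(modularFunctionFieldFullC K (M' * q * q)) (algebraMap R K π))⁻¹ ∉ V₂)
    (hs : V₂.valuation (v2g64_s K M' q) ^ (q - 1) =
      V₂.valuation (algebraMap K ↥(modularFunctionFieldFullC K (M' * q * q)) (algebraMap R K π)))
    (B' : Subalgebra R ↥(modularFunctionFieldFullC K (M' * q)))
    (B : Subalgebra R ↥(modularFunctionFieldFullC K (M' * q * q)))
    (hαB : ∀ x ∈ B', al97L_alpha K (M' * q) q x ∈ B)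
    (hβB : ∀ x ∈ B', al97L_beta K (M' * q) q x ∈ B)
    (hBW : ∀ x ∈ B, x ∈ (cm85_Vinf (K := K) (M' * q * q) hπ).toSubring ⊓ V₂.toSubring ⊓
      (nsb86_V3 (K := K) M' q hq hM' hπ).toSubring)
    (hsatW : ∀ x ∈ B, (algebraMap R ↥(modularFunctionFieldFullC K (M' * q * q)) π)⁻¹ * x ∈
        (cm85_Vinf (K := K) (M' * q * q) hπ).toSubring ⊓ V₂.toSubring ⊓
          (nsb86_V3 (K := K) M' q hq hM' hπ).toSubring →
      (algebraMap R ↥(modularFunctionFieldFullC K (M' * q * q)) π)⁻¹ * x ∈ B)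
    (hS₁ : sf79_Smooth π B (cm85_Vinf (K := K) (M' * q * q) hπ).toSubring)
    (hS₂ : tl71_MidSmooth π (v2g64_s K M' q) B V₂.toSubring)
    (hS₃ : sf79_Smooth π B (nsb86_V3 (K := K) M' q hq hM' hπ).toSubring)
    (hr₁ : ∀ m' : Ideal B', m'.IsMaximal →
      sf79_OnBr π B' (cm85_Vinf (K := K) (M' * q) hπ).toSubring m' →
      sf79_OnBr π B' (s34i47c_V0 (K := K) M' q hq hM' hπ).toSubring m' →
      tl71_DivAt π B' (cm85_Vinf (K := K) (M' * q) hπ).toSubring
        (s34i47c_V0 (K := K) M' q hq hM' hπ).toSubring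
        (s34i47c_V0 (K := K) M' q hq hM' hπ).toSubring m')
    (hr₂ : ∀ m' : Ideal B', m'.IsMaximal →
      sf79_OnBr π B' (s34i47c_V0 (K := K) M' q hq hM' hπ).toSubring m' →
      sf79_OnBr π B' (cm85_Vinf (K := K) (M' * q) hπ).toSubring m' →
      tl71_DivAt π B' (s34i47c_V0 (K := K) M' q hq hM' hπ).toSubring
        (cm85_Vinf (K := K) (M' * q) hπ).toSubring
        (cm85_Vinf (K := K) (M' * q) hπ).toSubring m')
    (hD₂ : ∀ n : Ideal B, n.IsMaximal → algebraMap R B π ∈ n →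
      tl71_OnMid (v2g64_s K M' q) B V₂.toSubring n →
      ¬ sf79_OnBr π B (cm85_Vinf (K := K) (M' * q * q) hπ).toSubring n →
      ¬ sf79_OnBr π B (nsb86_V3 (K := K) M' q hq hM' hπ).toSubring n →
      tl71_MidDivAt π (v2g64_s K M' q) B (cm85_Vinf (K := K) (M' * q * q) hπ).toSubring
        V₂.toSubring (nsb86_V3 (K := K) M' q hq hM' hπ).toSubring n) :
    tl71_TwoGen π B := by
  obtain ⟨hσ0, hπσ, hσe⟩ := tg73_sigma (R := R) (K := K) M' q hπ hq.two_le V₂ hπ₂ (v2g64_s K M' q) hs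
  exact tf71b_twoGen (K := K) M' q hq hM' hπ V₂ (nsb86_V3 (K := K) M' q hq hM' hπ)
    (v2g64_s K M' q) (q - 1) hV₂ (vuc1_V3_alpha (K := K) M' q hq hM' hπ)
    (vuc1_V2_beta (K := K) M' q hq hM' hπ hqR V₂ hV₂ hπ₂ hs)
    (vuc1_V3_beta (K := K) M' q hq hM' hπ) hπσ hσ0 hσe B' B hαB hβB
    (fun x hx => (hBW x hx).1.1) (fun x hx => (hBW x hx).1.2) (fun x hx => (hBW x hx).2)
    (fun x hx h1 h2 h3 => hsatW x hx ⟨⟨h1, h2⟩, h3⟩) hS₁ hS₃ hS₂ hr₁ hr₂ hD₂

/-- `α₂` of the Hauptmodul of level 2. -/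
theorem tg73_alpha_h2 (h2 : 2 ∣ M') :
    al97L_alpha K (M' * q) q (pk85_h2 K (M' * q) (h2.trans (dvd_mul_right M' q))) =
      pk85_h2 K (M' * q * q) (h2.trans ((dvd_mul_right M' q).trans (dvd_mul_right (M' * q) q))) := by
  apply Subtype.ext
  rw [al97L_alpha_coe, pk85_h2_coe, pk85_h2_coe]

/-- `α₂` of the Hauptmodul of level 3. -/
theorem tg73_alpha_h3 (h3 : 3 ∣ M') :
    al97L_alpha K (M' * q) q (pk85_h3 K (M' * q) (h3.trans (dvd_mul_right M' q))) =
      pk85_h3 K (M' * q * q) (h3.trans ((dvd_mul_right M' q).trans (dvd_mul_right (M' * q) q))) := by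
  apply Subtype.ext
  rw [al97L_alpha_coe, pk85_h3_coe, pk85_h3_coe]

/-- **Two generators on the chart `{h}`, level 2.** -/
theorem tg73_twoGen_level2 {π : R} (hπ : Irreducible π) (hqR : ¬ IsUnit (q : R))
    (hunit : ∀ n : ℕ, Nat.Coprime n q → IsUnit (n : R)) (h2 : 2 ∣ M')
    (V₂ : ValuationSubring ↥(modularFunctionFieldFullC K (M' * q * q)))
    (hV₂ : ∀ c ∈ cm85_Vinf (K := K) (M' * q) hπ, al97L_alpha K (M' * q) q c ∈ V₂)
    (hπ₂ : (algebraMap K ↥(modularFunctionFieldFullC K (M' * q * q)) (algebraMap R K π))⁻¹ ∉ V₂)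
    (hne : cm85_Vinf (K := K) (M' * q * q) hπ ≠ V₂)
    (hs : V₂.valuation (v2g64_s K M' q) ^ (q - 1) =
      V₂.valuation (algebraMap K ↥(modularFunctionFieldFullC K (M' * q * q)) (algebraMap R K π)))
    (hr₁ : ∀ m' : Ideal (pk15_chart R
        ({pk85_h2 K (M' * q) (h2.trans (dvd_mul_right M' q))} :
          Set ↥(modularFunctionFieldFullC K (M' * q)))), m'.IsMaximal →
      sf79_OnBr π _ (cm85_Vinf (K := K) (M' * q) hπ).toSubring m' →
      sf79_OnBr π _ (s34i47c_V0 (K := K) M' q hq hM' hπ).toSubring m' →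
      tl71_DivAt π _ (cm85_Vinf (K := K) (M' * q) hπ).toSubring
        (s34i47c_V0 (K := K) M' q hq hM' hπ).toSubring
        (s34i47c_V0 (K := K) M' q hq hM' hπ).toSubring m')
    (hr₂ : ∀ m' : Ideal (pk15_chart R
        ({pk85_h2 K (M' * q) (h2.trans (dvd_mul_right M' q))} :
          Set ↥(modularFunctionFieldFullC K (M' * q)))), m'.IsMaximal →
      sf79_OnBr π _ (s34i47c_V0 (K := K) M' q hq hM' hπ).toSubring m' →
      sf79_OnBr π _ (cm85_Vinf (K := K) (M' * q) hπ).toSubring m' →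
      tl71_DivAt π _ (s34i47c_V0 (K := K) M' q hq hM' hπ).toSubring
        (cm85_Vinf (K := K) (M' * q) hπ).toSubring
        (cm85_Vinf (K := K) (M' * q) hπ).toSubring m')
    (hD₂ : ∀ n : Ideal (pk15_chart R
        ({pk85_h2 K (M' * q * q)
          (h2.trans ((dvd_mul_right M' q).trans (dvd_mul_right (M' * q) q)))} :
          Set ↥(modularFunctionFieldFullC K (M' * q * q)))), n.IsMaximal →
      algebraMap R _ π ∈ n →
      tl71_OnMid (v2g64_s K M' q) _ V₂.toSubring n →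
      ¬ sf79_OnBr π _ (cm85_Vinf (K := K) (M' * q * q) hπ).toSubring n →
      ¬ sf79_OnBr π _ (nsb86_V3 (K := K) M' q hq hM' hπ).toSubring n →
      tl71_MidDivAt π (v2g64_s K M' q) _ (cm85_Vinf (K := K) (M' * q * q) hπ).toSubring
        V₂.toSubring (nsb86_V3 (K := K) M' q hq hM' hπ).toSubring n) :
    tl71_TwoGen π (pk15_chart R
      ({pk85_h2 K (M' * q * q)
        (h2.trans ((dvd_mul_right M' q).trans (dvd_mul_right (M' * q) q)))} :
        Set ↥(modularFunctionFieldFullC K (M' * q * q)))) := by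
  have hq2 : q ≠ 2 := by
    rintro rfl
    exact hM' h2
  have hMu : IsUnit (M' : R) :=
    hunit M' (Nat.Coprime.symm ((Nat.Prime.coprime_iff_not_dvd hq).2 hM'))
  have hH : s34i47c_IsHaupt K (M' * q) q (pk85_h2 K (M' * q) (h2.trans (dvd_mul_right M' q))) :=
    Or.inl ⟨hq2, h2.trans (dvd_mul_right M' q), rfl⟩
  obtain ⟨hα1, -⟩ := cm71_alpha_charts (R := R) (K := K) (M' * q) q
    (pk85_h2 K (M' * q) (h2.trans (dvd_mul_right M' q)))
  obtain ⟨hβ1, -⟩ := cm71_beta_charts (R := R) (K := K) (M' * q) q hq hunit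
    (pk85_h2 K (M' * q) (h2.trans (dvd_mul_right M' q))) hH
  rw [tg73_alpha_h2 (K := K) M' q h2] at hα1 hβ1
  obtain ⟨-, hC, -⟩ := fb85_frameV3_level2 (K := K) M' q hq hM' hπ hqR hMu h2 V₂ hV₂ hπ₂ hs
  obtain ⟨-, h12W, hsat₁, -, -, -, -, -, -⟩ := hC
  obtain ⟨⟨hS₁, hS₂, hS₃⟩, -⟩ := sm7_three_smooth_K_level2 (R := R) (K := K) M' q hq hM' hπ hqR
    h2 hMu V₂ hV₂ hπ₂ hne (v2g64_s K M' q) hs
  exact tg73_core (R := R) (K := K) M' q hq hM' hπ hqR V₂ hV₂ hπ₂ hs _ _ hα1 hβ1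
    (fun x hx => h12W x (pk15_chart_mono (by simp) hx)) hsat₁ hS₁ hS₂ hS₃ hr₁ hr₂ hD₂

/-- **Two generators on the chart `{h⁻¹}`, level 2.** -/
theorem tg73_twoGen_level2_inv {π : R} (hπ : Irreducible π) (hqR : ¬ IsUnit (q : R))
    (hunit : ∀ n : ℕ, Nat.Coprime n q → IsUnit (n : R)) (h2 : 2 ∣ M')
    (V₂ : ValuationSubring ↥(modularFunctionFieldFullC K (M' * q * q)))
    (hV₂ : ∀ c ∈ cm85_Vinf (K := K) (M' * q) hπ, al97L_alpha K (M' * q) q c ∈ V₂)
    (hπ₂ : (algebraMap K ↥(modularFunctionFieldFullC K (M' * q * q)) (algebraMap R K π))⁻¹ ∉ V₂)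
    (hne : cm85_Vinf (K := K) (M' * q * q) hπ ≠ V₂)
    (hs : V₂.valuation (v2g64_s K M' q) ^ (q - 1) =
      V₂.valuation (algebraMap K ↥(modularFunctionFieldFullC K (M' * q * q)) (algebraMap R K π)))
    (hr₁ : ∀ m' : Ideal (pk15_chart R
        ({(pk85_h2 K (M' * q) (h2.trans (dvd_mul_right M' q)))⁻¹} :
          Set ↥(modularFunctionFieldFullC K (M' * q)))), m'.IsMaximal →
      sf79_OnBr π _ (cm85_Vinf (K := K) (M' * q) hπ).toSubring m' →
      sf79_OnBr π _ (s34i47c_V0 (K := K) M' q hq hM' hπ).toSubring m' →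
      tl71_DivAt π _ (cm85_Vinf (K := K) (M' * q) hπ).toSubring
        (s34i47c_V0 (K := K) M' q hq hM' hπ).toSubring
        (s34i47c_V0 (K := K) M' q hq hM' hπ).toSubring m')
    (hr₂ : ∀ m' : Ideal (pk15_chart R
        ({(pk85_h2 K (M' * q) (h2.trans (dvd_mul_right M' q)))⁻¹} :
          Set ↥(modularFunctionFieldFullC K (M' * q)))), m'.IsMaximal →
      sf79_OnBr π _ (s34i47c_V0 (K := K) M' q hq hM' hπ).toSubring m' →
      sf79_OnBr π _ (cm85_Vinf (K := K) (M' * q) hπ).toSubring m' →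
      tl71_DivAt π _ (s34i47c_V0 (K := K) M' q hq hM' hπ).toSubring
        (cm85_Vinf (K := K) (M' * q) hπ).toSubring
        (cm85_Vinf (K := K) (M' * q) hπ).toSubring m')
    (hD₂ : ∀ n : Ideal (pk15_chart R
        ({(pk85_h2 K (M' * q * q)
          (h2.trans ((dvd_mul_right M' q).trans (dvd_mul_right (M' * q) q))))⁻¹} :
          Set ↥(modularFunctionFieldFullC K (M' * q * q)))), n.IsMaximal →
      algebraMap R _ π ∈ n →
      tl71_OnMid (v2g64_s K M' q) _ V₂.toSubring n →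
      ¬ sf79_OnBr π _ (cm85_Vinf (K := K) (M' * q * q) hπ).toSubring n →
      ¬ sf79_OnBr π _ (nsb86_V3 (K := K) M' q hq hM' hπ).toSubring n →
      tl71_MidDivAt π (v2g64_s K M' q) _ (cm85_Vinf (K := K) (M' * q * q) hπ).toSubring
        V₂.toSubring (nsb86_V3 (K := K) M' q hq hM' hπ).toSubring n) :
    tl71_TwoGen π (pk15_chart R
      ({(pk85_h2 K (M' * q * q)
        (h2.trans ((dvd_mul_right M' q).trans (dvd_mul_right (M' * q) q))))⁻¹} :
        Set ↥(modularFunctionFieldFullC K (M' * q * q)))) := by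
  have hq2 : q ≠ 2 := by
    rintro rfl
    exact hM' h2
  have hMu : IsUnit (M' : R) :=
    hunit M' (Nat.Coprime.symm ((Nat.Prime.coprime_iff_not_dvd hq).2 hM'))
  have hH : s34i47c_IsHaupt K (M' * q) q (pk85_h2 K (M' * q) (h2.trans (dvd_mul_right M' q))) :=
    Or.inl ⟨hq2, h2.trans (dvd_mul_right M' q), rfl⟩
  obtain ⟨-, hα1⟩ := cm71_alpha_charts (R := R) (K := K) (M' * q) q
    (pk85_h2 K (M' * q) (h2.trans (dvd_mul_right M' q)))
  obtain ⟨-, hβ1⟩ := cm71_beta_charts (R := R) (K := K) (M' * q) q hq hunit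
    (pk85_h2 K (M' * q) (h2.trans (dvd_mul_right M' q))) hH
  rw [tg73_alpha_h2 (K := K) M' q h2] at hα1 hβ1
  obtain ⟨-, hC, -⟩ := fb85_frameV3_level2 (K := K) M' q hq hM' hπ hqR hMu h2 V₂ hV₂ hπ₂ hs
  obtain ⟨-, h12W, -, hsat₂, -, -, -, -, -⟩ := hC
  obtain ⟨-, ⟨hS₁, hS₂, hS₃⟩⟩ := sm7_three_smooth_K_level2 (R := R) (K := K) M' q hq hM' hπ hqR
    h2 hMu V₂ hV₂ hπ₂ hne (v2g64_s K M' q) hs
  exact tg73_core (R := R) (K := K) M' q hq hM' hπ hqR V₂ hV₂ hπ₂ hs _ _ hα1 hβ1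
    (fun x hx => h12W x (pk15_chart_mono (by simp) hx)) hsat₂ hS₁ hS₂ hS₃ hr₁ hr₂ hD₂

/-- **Two generators on the chart `{h}`, level 3.** -/
theorem tg73_twoGen_level3 {π : R} (hπ : Irreducible π) (hqR : ¬ IsUnit (q : R))
    (hunit : ∀ n : ℕ, Nat.Coprime n q → IsUnit (n : R)) (h3 : 3 ∣ M')
    (V₂ : ValuationSubring ↥(modularFunctionFieldFullC K (M' * q * q)))
    (hV₂ : ∀ c ∈ cm85_Vinf (K := K) (M' * q) hπ, al97L_alpha K (M' * q) q c ∈ V₂)
    (hπ₂ : (algebraMap K ↥(modularFunctionFieldFullC K (M' * q * q)) (algebraMap R K π))⁻¹ ∉ V₂)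
    (hne : cm85_Vinf (K := K) (M' * q * q) hπ ≠ V₂)
    (hs : V₂.valuation (v2g64_s K M' q) ^ (q - 1) =
      V₂.valuation (algebraMap K ↥(modularFunctionFieldFullC K (M' * q * q)) (algebraMap R K π)))
    (hr₁ : ∀ m' : Ideal (pk15_chart R
        ({pk85_h3 K (M' * q) (h3.trans (dvd_mul_right M' q))} :
          Set ↥(modularFunctionFieldFullC K (M' * q)))), m'.IsMaximal →
      sf79_OnBr π _ (cm85_Vinf (K := K) (M' * q) hπ).toSubring m' →
      sf79_OnBr π _ (s34i47c_V0 (K := K) M' q hq hM' hπ).toSubring m' →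
      tl71_DivAt π _ (cm85_Vinf (K := K) (M' * q) hπ).toSubring
        (s34i47c_V0 (K := K) M' q hq hM' hπ).toSubring
        (s34i47c_V0 (K := K) M' q hq hM' hπ).toSubring m')
    (hr₂ : ∀ m' : Ideal (pk15_chart R
        ({pk85_h3 K (M' * q) (h3.trans (dvd_mul_right M' q))} :
          Set ↥(modularFunctionFieldFullC K (M' * q)))), m'.IsMaximal →
      sf79_OnBr π _ (s34i47c_V0 (K := K) M' q hq hM' hπ).toSubring m' →
      sf79_OnBr π _ (cm85_Vinf (K := K) (M' * q) hπ).toSubring m' →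
      tl71_DivAt π _ (s34i47c_V0 (K := K) M' q hq hM' hπ).toSubring
        (cm85_Vinf (K := K) (M' * q) hπ).toSubring
        (cm85_Vinf (K := K) (M' * q) hπ).toSubring m')
    (hD₂ : ∀ n : Ideal (pk15_chart R
        ({pk85_h3 K (M' * q * q)
          (h3.trans ((dvd_mul_right M' q).trans (dvd_mul_right (M' * q) q)))} :
          Set ↥(modularFunctionFieldFullC K (M' * q * q)))), n.IsMaximal →
      algebraMap R _ π ∈ n →
      tl71_OnMid (v2g64_s K M' q) _ V₂.toSubring n →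
      ¬ sf79_OnBr π _ (cm85_Vinf (K := K) (M' * q * q) hπ).toSubring n →
      ¬ sf79_OnBr π _ (nsb86_V3 (K := K) M' q hq hM' hπ).toSubring n →
      tl71_MidDivAt π (v2g64_s K M' q) _ (cm85_Vinf (K := K) (M' * q * q) hπ).toSubring
        V₂.toSubring (nsb86_V3 (K := K) M' q hq hM' hπ).toSubring n) :
    tl71_TwoGen π (pk15_chart R
      ({pk85_h3 K (M' * q * q)
        (h3.trans ((dvd_mul_right M' q).trans (dvd_mul_right (M' * q) q)))} :
        Set ↥(modularFunctionFieldFullC K (M' * q * q)))) := by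
  have hq3 : q ≠ 3 := by
    rintro rfl
    exact hM' h3
  have hMu : IsUnit (M' : R) :=
    hunit M' (Nat.Coprime.symm ((Nat.Prime.coprime_iff_not_dvd hq).2 hM'))
  have hH : s34i47c_IsHaupt K (M' * q) q (pk85_h3 K (M' * q) (h3.trans (dvd_mul_right M' q))) :=
    Or.inr ⟨hq3, h3.trans (dvd_mul_right M' q), rfl⟩
  obtain ⟨hα1, -⟩ := cm71_alpha_charts (R := R) (K := K) (M' * q) q
    (pk85_h3 K (M' * q) (h3.trans (dvd_mul_right M' q)))
  obtain ⟨hβ1, -⟩ := cm71_beta_charts (R := R) (K := K) (M' * q) q hq hunit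
    (pk85_h3 K (M' * q) (h3.trans (dvd_mul_right M' q))) hH
  rw [tg73_alpha_h3 (K := K) M' q h3] at hα1 hβ1
  obtain ⟨-, hC, -⟩ := fb85_frameV3_level3 (K := K) M' q hq hM' hπ hqR hMu h3 V₂ hV₂ hπ₂ hs
  obtain ⟨-, h12W, hsat₁, -, -, -, -, -, -⟩ := hC
  obtain ⟨⟨hS₁, hS₂, hS₃⟩, -⟩ := sm7_three_smooth_K_level3 (R := R) (K := K) M' q hq hM' hπ hqR
    h3 hMu V₂ hV₂ hπ₂ hne (v2g64_s K M' q) hs
  exact tg73_core (R := R) (K := K) M' q hq hM' hπ hqR V₂ hV₂ hπ₂ hs _ _ hα1 hβ1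
    (fun x hx => h12W x (pk15_chart_mono (by simp) hx)) hsat₁ hS₁ hS₂ hS₃ hr₁ hr₂ hD₂

/-- **Two generators on the chart `{h⁻¹}`, level 3.** -/
theorem tg73_twoGen_level3_inv {π : R} (hπ : Irreducible π) (hqR : ¬ IsUnit (q : R))
    (hunit : ∀ n : ℕ, Nat.Coprime n q → IsUnit (n : R)) (h3 : 3 ∣ M')
    (V₂ : ValuationSubring ↥(modularFunctionFieldFullC K (M' * q * q)))
    (hV₂ : ∀ c ∈ cm85_Vinf (K := K) (M' * q) hπ, al97L_alpha K (M' * q) q c ∈ V₂)
    (hπ₂ : (algebraMap K ↥(modularFunctionFieldFullC K (M' * q * q)) (algebraMap R K π))⁻¹ ∉ V₂)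
    (hne : cm85_Vinf (K := K) (M' * q * q) hπ ≠ V₂)
    (hs : V₂.valuation (v2g64_s K M' q) ^ (q - 1) =
      V₂.valuation (algebraMap K ↥(modularFunctionFieldFullC K (M' * q * q)) (algebraMap R K π)))
    (hr₁ : ∀ m' : Ideal (pk15_chart R
        ({(pk85_h3 K (M' * q) (h3.trans (dvd_mul_right M' q)))⁻¹} :
          Set ↥(modularFunctionFieldFullC K (M' * q)))), m'.IsMaximal →
      sf79_OnBr π _ (cm85_Vinf (K := K) (M' * q) hπ).toSubring m' →
      sf79_OnBr π _ (s34i47c_V0 (K := K) M' q hq hM' hπ).toSubring m' →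
      tl71_DivAt π _ (cm85_Vinf (K := K) (M' * q) hπ).toSubring
        (s34i47c_V0 (K := K) M' q hq hM' hπ).toSubring
        (s34i47c_V0 (K := K) M' q hq hM' hπ).toSubring m')
    (hr₂ : ∀ m' : Ideal (pk15_chart R
        ({(pk85_h3 K (M' * q) (h3.trans (dvd_mul_right M' q)))⁻¹} :
          Set ↥(modularFunctionFieldFullC K (M' * q)))), m'.IsMaximal →
      sf79_OnBr π _ (s34i47c_V0 (K := K) M' q hq hM' hπ).toSubring m' →
      sf79_OnBr π _ (cm85_Vinf (K := K) (M' * q) hπ).toSubring m' →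
      tl71_DivAt π _ (s34i47c_V0 (K := K) M' q hq hM' hπ).toSubring
        (cm85_Vinf (K := K) (M' * q) hπ).toSubring
        (cm85_Vinf (K := K) (M' * q) hπ).toSubring m')
    (hD₂ : ∀ n : Ideal (pk15_chart R
        ({(pk85_h3 K (M' * q * q)
          (h3.trans ((dvd_mul_right M' q).trans (dvd_mul_right (M' * q) q))))⁻¹} :
          Set ↥(modularFunctionFieldFullC K (M' * q * q)))), n.IsMaximal →
      algebraMap R _ π ∈ n →
      tl71_OnMid (v2g64_s K M' q) _ V₂.toSubring n →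
      ¬ sf79_OnBr π _ (cm85_Vinf (K := K) (M' * q * q) hπ).toSubring n →
      ¬ sf79_OnBr π _ (nsb86_V3 (K := K) M' q hq hM' hπ).toSubring n →
      tl71_MidDivAt π (v2g64_s K M' q) _ (cm85_Vinf (K := K) (M' * q * q) hπ).toSubring
        V₂.toSubring (nsb86_V3 (K := K) M' q hq hM' hπ).toSubring n) :
    tl71_TwoGen π (pk15_chart R
      ({(pk85_h3 K (M' * q * q)
        (h3.trans ((dvd_mul_right M' q).trans (dvd_mul_right (M' * q) q))))⁻¹} :
        Set ↥(modularFunctionFieldFullC K (M' * q * q)))) := by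
  have hq3 : q ≠ 3 := by
    rintro rfl
    exact hM' h3
  have hMu : IsUnit (M' : R) :=
    hunit M' (Nat.Coprime.symm ((Nat.Prime.coprime_iff_not_dvd hq).2 hM'))
  have hH : s34i47c_IsHaupt K (M' * q) q (pk85_h3 K (M' * q) (h3.trans (dvd_mul_right M' q))) :=
    Or.inr ⟨hq3, h3.trans (dvd_mul_right M' q), rfl⟩
  obtain ⟨-, hα1⟩ := cm71_alpha_charts (R := R) (K := K) (M' * q) q
    (pk85_h3 K (M' * q) (h3.trans (dvd_mul_right M' q)))
  obtain ⟨-, hβ1⟩ := cm71_beta_charts (R := R) (K := K) (M' * q) q hq hunit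
    (pk85_h3 K (M' * q) (h3.trans (dvd_mul_right M' q))) hH
  rw [tg73_alpha_h3 (K := K) M' q h3] at hα1 hβ1
  obtain ⟨-, hC, -⟩ := fb85_frameV3_level3 (K := K) M' q hq hM' hπ hqR hMu h3 V₂ hV₂ hπ₂ hs
  obtain ⟨-, h12W, -, hsat₂, -, -, -, -, -⟩ := hC
  obtain ⟨-, ⟨hS₁, hS₂, hS₃⟩⟩ := sm7_three_smooth_K_level3 (R := R) (K := K) M' q hq hM' hπ hqR
    h3 hMu V₂ hV₂ hπ₂ hne (v2g64_s K M' q) hs
  exact tg73_core (R := R) (K := K) M' q hq hM' hπ hqR V₂ hV₂ hπ₂ hs _ _ hα1 hβ1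
    (fun x hx => h12W x (pk15_chart_mono (by simp) hx)) hsat₂ hS₁ hS₂ hS₃ hr₁ hr₂ hD₂

end tg73

end Fermat.Agent.S36
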