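import Fermat.Agent.S36.TwoGenCanon7
import Fermat.Agent.S36.NodeRig7
import Fermat.Agent.S36.Rigid20

/-!
# S36 lab, rows 599 / 629 (helper7): two generators at every closed point of the canonical charts
of level `M' q²` at a RIGID level — the only remaining input is `hD₂` (rows 600 / 601)

Final-binder context (`FinalBind62`): `π = ((q : ℕ) : R)` irreducible, `[NumberField K]`,
`[Algebra K Q̄]`, only the `R`-algebra structure of level `M' * q * q` is a parameter.
Canonical frame: `V₁ = cm85_Vinf (M' * q * q) hπ`,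
`V₂ = v2g64_V2 (algebraMap K Q̄) M' q hq hM' hπ (Associated.refl _)`, `σ = v2g64_s K M' q`,
`V₃ = nsb86_V3 M' q hq hM' hπ`.

* `tgr7_twoGen_level2`, `tgr7_twoGen_level3` (`nuThree M' = 0`, `nuTwo M' = 0`) :
  for BOTH charts `B = pk15_chart R {h}`, `{h⁻¹}` (`h = pk85_h2 / pk85_h3 K (M' * q * q) _`):
  `hD₂ → tl71_TwoGen π B`, where `hD₂` is `tl71_MidDivAt` at the closed points on `C₂` only
  (LITERAL clause of `tl71_twoGen` / `tf71b_twoGen`).  (REG-q) = `nr7_reg_level2/3` (`NodeRig7`,
  on `nk21_reg` of helper21 and the clauses of helper79), the rest = `tg7_twoGen_level2/3`.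
* `tgr7_twoGen_rigid_level2/3` : the same with the rigidity prime `r` of `s36c67_Rigid6`.

All names are prefixed `tgr7_`.
-/

set_option autoImplicit false
set_option linter.unusedVariables false
set_option linter.unusedSectionVars false
set_option linter.style.longLine false
set_option linter.style.haveILetI false

open ModularCurve AlgebraicCurve

namespace Fermat.Agent.S36

open Fermat.Agent.S18 Fermat.Agent.S24 Fermat.Agent.S34 Fermat.Agent.S36.TripleLoc71

section tgr7

variable {R K : Type} [CommRing R] [IsDomain R] [IsDiscreteValuationRing R] [Field K]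
  [NumberField K] [Algebra K Kbar] [Algebra R K] [IsFractionRing R K]
  (M' q : ℕ) [NeZero M'] [NeZero q] (hq : q.Prime) (hM' : ¬ q ∣ M')
  [Algebra R ↥(modularFunctionFieldFullC K (M' * q * q))]
  [IsScalarTower R K ↥(modularFunctionFieldFullC K (M' * q * q))]

/-- **Two generators at every closed point of the two canonical charts of level `M' q²`
(Hauptmodul of level 2) at a rigid level, from `hD₂` ONLY** ((REG-q) discharged by
`nr7_reg_level2`). -/
theorem tgr7_twoGen_level2 (hπ : Irreducible ((q : ℕ) : R))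
    (hunit : ∀ n : ℕ, Nat.Coprime n q → IsUnit (n : R)) (h2 : 2 ∣ M')
    (hν3 : nuThree M' = 0) (hν2 : nuTwo M' = 0) :
    ((∀ n : Ideal (pk15_chart R {pk85_h2 K (M' * q * q)
          (h2.trans ((dvd_mul_right M' q).trans (dvd_mul_right (M' * q) q)))}), n.IsMaximal →
        algebraMap R (pk15_chart R {pk85_h2 K (M' * q * q)
          (h2.trans ((dvd_mul_right M' q).trans (dvd_mul_right (M' * q) q)))}) ((q : ℕ) : R) ∈ n →
        tl71_OnMid (v2g64_s K M' q) (pk15_chart R {pk85_h2 K (M' * q * q)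
          (h2.trans ((dvd_mul_right M' q).trans (dvd_mul_right (M' * q) q)))})
          (v2g64_V2 (algebraMap K Kbar) M' q hq hM' hπ (Associated.refl _)).toSubring n →
        ¬ sf79_OnBr ((q : ℕ) : R) (pk15_chart R {pk85_h2 K (M' * q * q)
          (h2.trans ((dvd_mul_right M' q).trans (dvd_mul_right (M' * q) q)))})
          (cm85_Vinf (K := K) (M' * q * q) hπ).toSubring n →
        ¬ sf79_OnBr ((q : ℕ) : R) (pk15_chart R {pk85_h2 K (M' * q * q)
          (h2.trans ((dvd_mul_right M' q).trans (dvd_mul_right (M' * q) q)))})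
          (nsb86_V3 (K := K) M' q hq hM' hπ).toSubring n →
        tl71_MidDivAt ((q : ℕ) : R) (v2g64_s K M' q) (pk15_chart R {pk85_h2 K (M' * q * q)
          (h2.trans ((dvd_mul_right M' q).trans (dvd_mul_right (M' * q) q)))})
          (cm85_Vinf (K := K) (M' * q * q) hπ).toSubring
          (v2g64_V2 (algebraMap K Kbar) M' q hq hM' hπ (Associated.refl _)).toSubring
          (nsb86_V3 (K := K) M' q hq hM' hπ).toSubring n) →
      tl71_TwoGen ((q : ℕ) : R) (pk15_chart R {pk85_h2 K (M' * q * q)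
          (h2.trans ((dvd_mul_right M' q).trans (dvd_mul_right (M' * q) q)))})) ∧
    ((∀ n : Ideal (pk15_chart R {(pk85_h2 K (M' * q * q)
          (h2.trans ((dvd_mul_right M' q).trans (dvd_mul_right (M' * q) q))))⁻¹}), n.IsMaximal →
        algebraMap R (pk15_chart R {(pk85_h2 K (M' * q * q)
          (h2.trans ((dvd_mul_right M' q).trans (dvd_mul_right (M' * q) q))))⁻¹}) ((q : ℕ) : R) ∈ n →
        tl71_OnMid (v2g64_s K M' q) (pk15_chart R {(pk85_h2 K (M' * q * q)
          (h2.trans ((dvd_mul_right M' q).trans (dvd_mul_right (M' * q) q))))⁻¹})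
          (v2g64_V2 (algebraMap K Kbar) M' q hq hM' hπ (Associated.refl _)).toSubring n →
        ¬ sf79_OnBr ((q : ℕ) : R) (pk15_chart R {(pk85_h2 K (M' * q * q)
          (h2.trans ((dvd_mul_right M' q).trans (dvd_mul_right (M' * q) q))))⁻¹})
          (cm85_Vinf (K := K) (M' * q * q) hπ).toSubring n →
        ¬ sf79_OnBr ((q : ℕ) : R) (pk15_chart R {(pk85_h2 K (M' * q * q)
          (h2.trans ((dvd_mul_right M' q).trans (dvd_mul_right (M' * q) q))))⁻¹})
          (nsb86_V3 (K := K) M' q hq hM' hπ).toSubring n →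
        tl71_MidDivAt ((q : ℕ) : R) (v2g64_s K M' q) (pk15_chart R {(pk85_h2 K (M' * q * q)
          (h2.trans ((dvd_mul_right M' q).trans (dvd_mul_right (M' * q) q))))⁻¹})
          (cm85_Vinf (K := K) (M' * q * q) hπ).toSubring
          (v2g64_V2 (algebraMap K Kbar) M' q hq hM' hπ (Associated.refl _)).toSubring
          (nsb86_V3 (K := K) M' q hq hM' hπ).toSubring n) →
      tl71_TwoGen ((q : ℕ) : R) (pk15_chart R {(pk85_h2 K (M' * q * q)
          (h2.trans ((dvd_mul_right M' q).trans (dvd_mul_right (M' * q) q))))⁻¹})) := by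
  letI : Algebra R ↥(modularFunctionFieldFullC K M') :=
    ((algebraMap K ↥(modularFunctionFieldFullC K M')).comp (algebraMap R K)).toAlgebra
  haveI : IsScalarTower R K ↥(modularFunctionFieldFullC K M') :=
    IsScalarTower.of_algebraMap_eq (fun _ => rfl)
  letI : Algebra R ↥(modularFunctionFieldFullC K (M' * q)) :=
    ((algebraMap K ↥(modularFunctionFieldFullC K (M' * q))).comp (algebraMap R K)).toAlgebra
  haveI : IsScalarTower R K ↥(modularFunctionFieldFullC K (M' * q)) :=
    IsScalarTower.of_algebraMap_eq (fun _ => rfl)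
  haveI : Algebra.IsAlgebraic K Kbar := cx_isAlgebraic_closure K
  have hqR : ¬ IsUnit (q : R) := hπ.not_isUnit
  have hq2 : q ≠ 2 := by
    rintro rfl
    exact hM' h2
  obtain ⟨⟨hr₁, hr₂⟩, ⟨hr₁', hr₂'⟩⟩ :=
    nr7_reg_level2 (R := R) (K := K) M' q hq hM' hπ hunit hqR rfl h2 hq2 hν3 hν2
  obtain ⟨t1, t2⟩ := tg7_twoGen_level2 (R := R) (K := K) M' q hq hM' hπ (Associated.refl _)
    hunit h2
  exact ⟨fun hD => t1 hr₁ hr₂ hD, fun hD => t2 hr₁' hr₂' hD⟩

/-- The same at a strongly rigid level (`r ≡ 11 mod 12`, `r ≠ q`, `r ∣ M' q`). -/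
theorem tgr7_twoGen_rigid_level2 (hπ : Irreducible ((q : ℕ) : R))
    (hunit : ∀ n : ℕ, Nat.Coprime n q → IsUnit (n : R)) (h2 : 2 ∣ M')
    (r : ℕ) (hr : r.Prime) (hr12 : r % 12 = 11) (hrq : r ≠ q) (hrN : r ∣ M' * q) :
    ((∀ n : Ideal (pk15_chart R {pk85_h2 K (M' * q * q)
          (h2.trans ((dvd_mul_right M' q).trans (dvd_mul_right (M' * q) q)))}), n.IsMaximal →
        algebraMap R (pk15_chart R {pk85_h2 K (M' * q * q)
          (h2.trans ((dvd_mul_right M' q).trans (dvd_mul_right (M' * q) q)))}) ((q : ℕ) : R) ∈ n →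
        tl71_OnMid (v2g64_s K M' q) (pk15_chart R {pk85_h2 K (M' * q * q)
          (h2.trans ((dvd_mul_right M' q).trans (dvd_mul_right (M' * q) q)))})
          (v2g64_V2 (algebraMap K Kbar) M' q hq hM' hπ (Associated.refl _)).toSubring n →
        ¬ sf79_OnBr ((q : ℕ) : R) (pk15_chart R {pk85_h2 K (M' * q * q)
          (h2.trans ((dvd_mul_right M' q).trans (dvd_mul_right (M' * q) q)))})
          (cm85_Vinf (K := K) (M' * q * q) hπ).toSubring n →
        ¬ sf79_OnBr ((q : ℕ) : R) (pk15_chart R {pk85_h2 K (M' * q * q)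
          (h2.trans ((dvd_mul_right M' q).trans (dvd_mul_right (M' * q) q)))})
          (nsb86_V3 (K := K) M' q hq hM' hπ).toSubring n →
        tl71_MidDivAt ((q : ℕ) : R) (v2g64_s K M' q) (pk15_chart R {pk85_h2 K (M' * q * q)
          (h2.trans ((dvd_mul_right M' q).trans (dvd_mul_right (M' * q) q)))})
          (cm85_Vinf (K := K) (M' * q * q) hπ).toSubring
          (v2g64_V2 (algebraMap K Kbar) M' q hq hM' hπ (Associated.refl _)).toSubring
          (nsb86_V3 (K := K) M' q hq hM' hπ).toSubring n) →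
      tl71_TwoGen ((q : ℕ) : R) (pk15_chart R {pk85_h2 K (M' * q * q)
          (h2.trans ((dvd_mul_right M' q).trans (dvd_mul_right (M' * q) q)))})) ∧
    ((∀ n : Ideal (pk15_chart R {(pk85_h2 K (M' * q * q)
          (h2.trans ((dvd_mul_right M' q).trans (dvd_mul_right (M' * q) q))))⁻¹}), n.IsMaximal →
        algebraMap R (pk15_chart R {(pk85_h2 K (M' * q * q)
          (h2.trans ((dvd_mul_right M' q).trans (dvd_mul_right (M' * q) q))))⁻¹}) ((q : ℕ) : R) ∈ n →
        tl71_OnMid (v2g64_s K M' q) (pk15_chart R {(pk85_h2 K (M' * q * q)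
          (h2.trans ((dvd_mul_right M' q).trans (dvd_mul_right (M' * q) q))))⁻¹})
          (v2g64_V2 (algebraMap K Kbar) M' q hq hM' hπ (Associated.refl _)).toSubring n →
        ¬ sf79_OnBr ((q : ℕ) : R) (pk15_chart R {(pk85_h2 K (M' * q * q)
          (h2.trans ((dvd_mul_right M' q).trans (dvd_mul_right (M' * q) q))))⁻¹})
          (cm85_Vinf (K := K) (M' * q * q) hπ).toSubring n →
        ¬ sf79_OnBr ((q : ℕ) : R) (pk15_chart R {(pk85_h2 K (M' * q * q)
          (h2.trans ((dvd_mul_right M' q).trans (dvd_mul_right (M' * q) q))))⁻¹})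
          (nsb86_V3 (K := K) M' q hq hM' hπ).toSubring n →
        tl71_MidDivAt ((q : ℕ) : R) (v2g64_s K M' q) (pk15_chart R {(pk85_h2 K (M' * q * q)
          (h2.trans ((dvd_mul_right M' q).trans (dvd_mul_right (M' * q) q))))⁻¹})
          (cm85_Vinf (K := K) (M' * q * q) hπ).toSubring
          (v2g64_V2 (algebraMap K Kbar) M' q hq hM' hπ (Associated.refl _)).toSubring
          (nsb86_V3 (K := K) M' q hq hM' hπ).toSubring n) →
      tl71_TwoGen ((q : ℕ) : R) (pk15_chart R {(pk85_h2 K (M' * q * q)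
          (h2.trans ((dvd_mul_right M' q).trans (dvd_mul_right (M' * q) q))))⁻¹})) := by
  have hrM : r ∣ M' :=
    (Nat.Coprime.dvd_mul_right ((Nat.coprime_primes hr hq).mpr hrq)).mp hrN
  exact tgr7_twoGen_level2 M' q hq hM' hπ hunit h2 (rg20_nuThree_eq_zero hr hr12 hrM)
    (rg20_nuTwo_eq_zero hr hr12 hrM)

/-- **Two generators at every closed point of the two canonical charts of level `M' q²`
(Hauptmodul of level 3) at a rigid level, from `hD₂` ONLY** ((REG-q) discharged by
`nr7_reg_level3`). -/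
theorem tgr7_twoGen_level3 (hπ : Irreducible ((q : ℕ) : R))
    (hunit : ∀ n : ℕ, Nat.Coprime n q → IsUnit (n : R)) (h3 : 3 ∣ M')
    (hν3 : nuThree M' = 0) (hν2 : nuTwo M' = 0) :
    ((∀ n : Ideal (pk15_chart R {pk85_h3 K (M' * q * q)
          (h3.trans ((dvd_mul_right M' q).trans (dvd_mul_right (M' * q) q)))}), n.IsMaximal →
        algebraMap R (pk15_chart R {pk85_h3 K (M' * q * q)
          (h3.trans ((dvd_mul_right M' q).trans (dvd_mul_right (M' * q) q)))}) ((q : ℕ) : R) ∈ n →
        tl71_OnMid (v2g64_s K M' q) (pk15_chart R {pk85_h3 K (M' * q * q)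
          (h3.trans ((dvd_mul_right M' q).trans (dvd_mul_right (M' * q) q)))})
          (v2g64_V2 (algebraMap K Kbar) M' q hq hM' hπ (Associated.refl _)).toSubring n →
        ¬ sf79_OnBr ((q : ℕ) : R) (pk15_chart R {pk85_h3 K (M' * q * q)
          (h3.trans ((dvd_mul_right M' q).trans (dvd_mul_right (M' * q) q)))})
          (cm85_Vinf (K := K) (M' * q * q) hπ).toSubring n →
        ¬ sf79_OnBr ((q : ℕ) : R) (pk15_chart R {pk85_h3 K (M' * q * q)
          (h3.trans ((dvd_mul_right M' q).trans (dvd_mul_right (M' * q) q)))})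
          (nsb86_V3 (K := K) M' q hq hM' hπ).toSubring n →
        tl71_MidDivAt ((q : ℕ) : R) (v2g64_s K M' q) (pk15_chart R {pk85_h3 K (M' * q * q)
          (h3.trans ((dvd_mul_right M' q).trans (dvd_mul_right (M' * q) q)))})
          (cm85_Vinf (K := K) (M' * q * q) hπ).toSubring
          (v2g64_V2 (algebraMap K Kbar) M' q hq hM' hπ (Associated.refl _)).toSubring
          (nsb86_V3 (K := K) M' q hq hM' hπ).toSubring n) →
      tl71_TwoGen ((q : ℕ) : R) (pk15_chart R {pk85_h3 K (M' * q * q)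
          (h3.trans ((dvd_mul_right M' q).trans (dvd_mul_right (M' * q) q)))})) ∧
    ((∀ n : Ideal (pk15_chart R {(pk85_h3 K (M' * q * q)
          (h3.trans ((dvd_mul_right M' q).trans (dvd_mul_right (M' * q) q))))⁻¹}), n.IsMaximal →
        algebraMap R (pk15_chart R {(pk85_h3 K (M' * q * q)
          (h3.trans ((dvd_mul_right M' q).trans (dvd_mul_right (M' * q) q))))⁻¹}) ((q : ℕ) : R) ∈ n →
        tl71_OnMid (v2g64_s K M' q) (pk15_chart R {(pk85_h3 K (M' * q * q)
          (h3.trans ((dvd_mul_right M' q).trans (dvd_mul_right (M' * q) q))))⁻¹})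
          (v2g64_V2 (algebraMap K Kbar) M' q hq hM' hπ (Associated.refl _)).toSubring n →
        ¬ sf79_OnBr ((q : ℕ) : R) (pk15_chart R {(pk85_h3 K (M' * q * q)
          (h3.trans ((dvd_mul_right M' q).trans (dvd_mul_right (M' * q) q))))⁻¹})
          (cm85_Vinf (K := K) (M' * q * q) hπ).toSubring n →
        ¬ sf79_OnBr ((q : ℕ) : R) (pk15_chart R {(pk85_h3 K (M' * q * q)
          (h3.trans ((dvd_mul_right M' q).trans (dvd_mul_right (M' * q) q))))⁻¹})
          (nsb86_V3 (K := K) M' q hq hM' hπ).toSubring n →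
        tl71_MidDivAt ((q : ℕ) : R) (v2g64_s K M' q) (pk15_chart R {(pk85_h3 K (M' * q * q)
          (h3.trans ((dvd_mul_right M' q).trans (dvd_mul_right (M' * q) q))))⁻¹})
          (cm85_Vinf (K := K) (M' * q * q) hπ).toSubring
          (v2g64_V2 (algebraMap K Kbar) M' q hq hM' hπ (Associated.refl _)).toSubring
          (nsb86_V3 (K := K) M' q hq hM' hπ).toSubring n) →
      tl71_TwoGen ((q : ℕ) : R) (pk15_chart R {(pk85_h3 K (M' * q * q)
          (h3.trans ((dvd_mul_right M' q).trans (dvd_mul_right (M' * q) q))))⁻¹})) := by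
  letI : Algebra R ↥(modularFunctionFieldFullC K M') :=
    ((algebraMap K ↥(modularFunctionFieldFullC K M')).comp (algebraMap R K)).toAlgebra
  haveI : IsScalarTower R K ↥(modularFunctionFieldFullC K M') :=
    IsScalarTower.of_algebraMap_eq (fun _ => rfl)
  letI : Algebra R ↥(modularFunctionFieldFullC K (M' * q)) :=
    ((algebraMap K ↥(modularFunctionFieldFullC K (M' * q))).comp (algebraMap R K)).toAlgebra
  haveI : IsScalarTower R K ↥(modularFunctionFieldFullC K (M' * q)) :=
    IsScalarTower.of_algebraMap_eq (fun _ => rfl)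
  haveI : Algebra.IsAlgebraic K Kbar := cx_isAlgebraic_closure K
  have hqR : ¬ IsUnit (q : R) := hπ.not_isUnit
  have hq3 : q ≠ 3 := by
    rintro rfl
    exact hM' h3
  obtain ⟨⟨hr₁, hr₂⟩, ⟨hr₁', hr₂'⟩⟩ :=
    nr7_reg_level3 (R := R) (K := K) M' q hq hM' hπ hunit hqR rfl h3 hq3 hν3 hν2
  obtain ⟨t1, t2⟩ := tg7_twoGen_level3 (R := R) (K := K) M' q hq hM' hπ (Associated.refl _)
    hunit h3
  exact ⟨fun hD => t1 hr₁ hr₂ hD, fun hD => t2 hr₁' hr₂' hD⟩

/-- The same at a strongly rigid level (`r ≡ 11 mod 12`, `r ≠ q`, `r ∣ M' q`). -/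
theorem tgr7_twoGen_rigid_level3 (hπ : Irreducible ((q : ℕ) : R))
    (hunit : ∀ n : ℕ, Nat.Coprime n q → IsUnit (n : R)) (h3 : 3 ∣ M')
    (r : ℕ) (hr : r.Prime) (hr12 : r % 12 = 11) (hrq : r ≠ q) (hrN : r ∣ M' * q) :
    ((∀ n : Ideal (pk15_chart R {pk85_h3 K (M' * q * q)
          (h3.trans ((dvd_mul_right M' q).trans (dvd_mul_right (M' * q) q)))}), n.IsMaximal →
        algebraMap R (pk15_chart R {pk85_h3 K (M' * q * q)
          (h3.trans ((dvd_mul_right M' q).trans (dvd_mul_right (M' * q) q)))}) ((q : ℕ) : R) ∈ n →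
        tl71_OnMid (v2g64_s K M' q) (pk15_chart R {pk85_h3 K (M' * q * q)
          (h3.trans ((dvd_mul_right M' q).trans (dvd_mul_right (M' * q) q)))})
          (v2g64_V2 (algebraMap K Kbar) M' q hq hM' hπ (Associated.refl _)).toSubring n →
        ¬ sf79_OnBr ((q : ℕ) : R) (pk15_chart R {pk85_h3 K (M' * q * q)
          (h3.trans ((dvd_mul_right M' q).trans (dvd_mul_right (M' * q) q)))})
          (cm85_Vinf (K := K) (M' * q * q) hπ).toSubring n →
        ¬ sf79_OnBr ((q : ℕ) : R) (pk15_chart R {pk85_h3 K (M' * q * q)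
          (h3.trans ((dvd_mul_right M' q).trans (dvd_mul_right (M' * q) q)))})
          (nsb86_V3 (K := K) M' q hq hM' hπ).toSubring n →
        tl71_MidDivAt ((q : ℕ) : R) (v2g64_s K M' q) (pk15_chart R {pk85_h3 K (M' * q * q)
          (h3.trans ((dvd_mul_right M' q).trans (dvd_mul_right (M' * q) q)))})
          (cm85_Vinf (K := K) (M' * q * q) hπ).toSubring
          (v2g64_V2 (algebraMap K Kbar) M' q hq hM' hπ (Associated.refl _)).toSubring
          (nsb86_V3 (K := K) M' q hq hM' hπ).toSubring n) →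
      tl71_TwoGen ((q : ℕ) : R) (pk15_chart R {pk85_h3 K (M' * q * q)
          (h3.trans ((dvd_mul_right M' q).trans (dvd_mul_right (M' * q) q)))})) ∧
    ((∀ n : Ideal (pk15_chart R {(pk85_h3 K (M' * q * q)
          (h3.trans ((dvd_mul_right M' q).trans (dvd_mul_right (M' * q) q))))⁻¹}), n.IsMaximal →
        algebraMap R (pk15_chart R {(pk85_h3 K (M' * q * q)
          (h3.trans ((dvd_mul_right M' q).trans (dvd_mul_right (M' * q) q))))⁻¹}) ((q : ℕ) : R) ∈ n →
        tl71_OnMid (v2g64_s K M' q) (pk15_chart R {(pk85_h3 K (M' * q * q)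
          (h3.trans ((dvd_mul_right M' q).trans (dvd_mul_right (M' * q) q))))⁻¹})
          (v2g64_V2 (algebraMap K Kbar) M' q hq hM' hπ (Associated.refl _)).toSubring n →
        ¬ sf79_OnBr ((q : ℕ) : R) (pk15_chart R {(pk85_h3 K (M' * q * q)
          (h3.trans ((dvd_mul_right M' q).trans (dvd_mul_right (M' * q) q))))⁻¹})
          (cm85_Vinf (K := K) (M' * q * q) hπ).toSubring n →
        ¬ sf79_OnBr ((q : ℕ) : R) (pk15_chart R {(pk85_h3 K (M' * q * q)
          (h3.trans ((dvd_mul_right M' q).trans (dvd_mul_right (M' * q) q))))⁻¹})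
          (nsb86_V3 (K := K) M' q hq hM' hπ).toSubring n →
        tl71_MidDivAt ((q : ℕ) : R) (v2g64_s K M' q) (pk15_chart R {(pk85_h3 K (M' * q * q)
          (h3.trans ((dvd_mul_right M' q).trans (dvd_mul_right (M' * q) q))))⁻¹})
          (cm85_Vinf (K := K) (M' * q * q) hπ).toSubring
          (v2g64_V2 (algebraMap K Kbar) M' q hq hM' hπ (Associated.refl _)).toSubring
          (nsb86_V3 (K := K) M' q hq hM' hπ).toSubring n) →
      tl71_TwoGen ((q : ℕ) : R) (pk15_chart R {(pk85_h3 K (M' * q * q)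
          (h3.trans ((dvd_mul_right M' q).trans (dvd_mul_right (M' * q) q))))⁻¹})) := by
  have hrM : r ∣ M' :=
    (Nat.Coprime.dvd_mul_right ((Nat.coprime_primes hr hq).mpr hrq)).mp hrN
  exact tgr7_twoGen_level3 M' q hq hM' hπ hunit h3 (rg20_nuThree_eq_zero hr hr12 hrM)
    (rg20_nuTwo_eq_zero hr hr12 hrM)

end tgr7

end Fermat.Agent.S36
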