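import Mathlib

/-!
# S36, endgame algebra (helper18) -- Mathlib only

A multiplicatively closed set `𝒮` of elements `a` of a (non-commutative) ring with
`(a - 1)² = 0` ("unipotent of level two").  Put `S_a := a - 1`.  Then

* `ua18_xyx`, `ua18_yxy` : `S_a S_b S_a = 0`, `S_b S_a S_b = 0`;
* `ua18_anticomm`        : `S_a S_b + S_b S_a = 0`;
* `ua18_two_triple`      : `S_c S_a S_b + S_c S_a S_b = 0`, i.e. `2 · S_c S_a S_b = 0`;
* `ua18_exists_fixed`    : on a module without `2`-torsion, every nonzero vector `w₀` yields a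
  NONZERO vector fixed by all of `𝒮`, namely one of `w₀`, `S_a w₀`, `S_b S_a w₀`;
* `ua18_exists_fixed_rep` : the same for a representation `ρ : G →* Module.End O M` and a
  subgroup `H` (the inertia group) on which `ρ g ∘ ρ g - 2 ρ g + 1` vanishes on the vectors.

No Kolchin, no rank, no fraction field: only the absence of `2`-torsion is used.
All names are prefixed `ua18_`.
-/

set_option autoImplicit false

namespace Fermat.Agent.S36

section ua18_ring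

variable {R : Type*} [Ring R]

/-- `x² = 0`, `y² = 0`, `(x + y + x y)² = 0` ⟹ `x y x = 0`. -/
theorem ua18_xyx (x y : R) (hx : x * x = 0) (hy : y * y = 0)
    (hxy : (x + y + x * y) * (x + y + x * y) = 0) : x * y * x = 0 := by
  have h1 : x * y * x * (1 + y) = 0 := by
    have e : x * y * x * (1 + y) = x * ((x + y + x * y) * (x + y + x * y))
        - (x * x) * (x + y + x * y + y * x + y * y + y * x * y) - x * (y * y) := by
      noncomm_ring
    rw [e, hxy, hx, hy]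
    simp
  have e2 : x * y * x = (x * y * x * (1 + y)) * (1 - y) + x * y * x * (y * y) := by
    noncomm_ring
  rw [e2, h1, hy]
  simp

/-- `x² = 0`, `y² = 0`, `(x + y + x y)² = 0` ⟹ `y x y = 0`. -/
theorem ua18_yxy (x y : R) (hx : x * x = 0) (hy : y * y = 0)
    (hxy : (x + y + x * y) * (x + y + x * y) = 0) : y * x * y = 0 := by
  have h1 : (1 + x) * (y * x * y) = 0 := by
    have e : (1 + x) * (y * x * y) = ((x + y + x * y) * (x + y + x * y)) * y
        - (x * x) * y - (x + x * x + y + y * x + x * y + x * y * x) * (y * y) := by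
      noncomm_ring
    rw [e, hxy, hx, hy]
    simp
  have e2 : y * x * y = (1 - x) * ((1 + x) * (y * x * y)) + (x * x) * (y * x * y) := by
    noncomm_ring
  rw [e2, h1, hx]
  simp

/-- `x² = 0`, `y² = 0`, `(x + y + x y)² = 0` ⟹ `x y + y x = 0`. -/
theorem ua18_anticomm_aux (x y : R) (hx : x * x = 0) (hy : y * y = 0)
    (hxy : (x + y + x * y) * (x + y + x * y) = 0) : x * y + y * x = 0 := by
  have h1 := ua18_xyx x y hx hy hxy
  have h2 := ua18_yxy x y hx hy hxy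
  have e : x * y + y * x = (x + y + x * y) * (x + y + x * y) - y * x * y - x * y * x
      - (x * y * x) * y - x * x - (x * x) * y - y * y - x * (y * y) := by
    noncomm_ring
  rw [e, hxy, h1, h2, hx, hy]
  simp

variable (𝒮 : Set R)

/-- Anticommutation of `a - 1` and `b - 1` for `a, b` in a multiplicatively closed set of
elements with `(a - 1)² = 0`. -/
theorem ua18_anticomm (hmul : ∀ a ∈ 𝒮, ∀ b ∈ 𝒮, a * b ∈ 𝒮)
    (hu : ∀ a ∈ 𝒮, (a - 1) * (a - 1) = 0) {a b : R} (ha : a ∈ 𝒮) (hb : b ∈ 𝒮) :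
    (a - 1) * (b - 1) + (b - 1) * (a - 1) = 0 := by
  refine ua18_anticomm_aux (a - 1) (b - 1) (hu a ha) (hu b hb) ?_
  have e : (a - 1) + (b - 1) + (a - 1) * (b - 1) = a * b - 1 := by noncomm_ring
  rw [e]
  exact hu _ (hmul a ha b hb)

/-- **All triple products vanish up to the factor `2`.** -/
theorem ua18_two_triple (hmul : ∀ a ∈ 𝒮, ∀ b ∈ 𝒮, a * b ∈ 𝒮)
    (hu : ∀ a ∈ 𝒮, (a - 1) * (a - 1) = 0) {a b c : R} (ha : a ∈ 𝒮) (hb : b ∈ 𝒮) (hc : c ∈ 𝒮) :
    (c - 1) * (a - 1) * (b - 1) + (c - 1) * (a - 1) * (b - 1) = 0 := by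
  have A1 := ua18_anticomm 𝒮 hmul hu hc ha
  have A2 := ua18_anticomm 𝒮 hmul hu hc hb
  have A3 := ua18_anticomm 𝒮 hmul hu hc (hmul a ha b hb)
  have e : (c - 1) * (a - 1) * (b - 1) + (c - 1) * (a - 1) * (b - 1)
      = ((c - 1) * (a * b - 1) + (a * b - 1) * (c - 1))
        - ((c - 1) * (a - 1) + (a - 1) * (c - 1))
        - ((c - 1) * (b - 1) + (b - 1) * (c - 1))
        - (a - 1) * ((c - 1) * (b - 1) + (b - 1) * (c - 1))
        + ((c - 1) * (a - 1) + (a - 1) * (c - 1)) * (b - 1) := by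
    noncomm_ring
  rw [e, A1, A2, A3]
  simp

end ua18_ring

section ua18_module

variable {R : Type*} [Ring R] {M : Type*} [AddCommGroup M] [Module R M]

/-- **A nonzero fixed vector.**  `𝒮` multiplicatively closed, `(a - 1)² = 0` for `a ∈ 𝒮`, `M`
without `2`-torsion: every `w₀ ≠ 0` yields a nonzero vector fixed by all of `𝒮` among
`w₀`, `(a - 1) w₀`, `(b - 1)(a - 1) w₀`. -/
theorem ua18_exists_fixed (𝒮 : Set R) (hmul : ∀ a ∈ 𝒮, ∀ b ∈ 𝒮, a * b ∈ 𝒮)
    (hu : ∀ a ∈ 𝒮, (a - 1) * (a - 1) = 0) (h2 : ∀ v : M, v + v = 0 → v = 0)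
    (w₀ : M) (hw₀ : w₀ ≠ 0) :
    ∃ w : M, w ≠ 0 ∧ (∀ c ∈ 𝒮, c • w = w) ∧
      (w = w₀ ∨ (∃ a ∈ 𝒮, w = (a - 1) • w₀) ∨
        ∃ a ∈ 𝒮, ∃ b ∈ 𝒮, w = ((b - 1) * (a - 1)) • w₀) := by
  have key : ∀ (w : M), (∀ c ∈ 𝒮, (c - 1) • w = 0) → ∀ c ∈ 𝒮, c • w = w := by
    intro w hw c hc
    have h := hw c hc
    rw [sub_smul, one_smul, sub_eq_zero] at h
    exact h
  by_cases h1 : ∀ a ∈ 𝒮, (a - 1) • w₀ = 0
  · exact ⟨w₀, hw₀, key w₀ h1, Or.inl rfl⟩
  · push Not at h1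
    obtain ⟨a, ha, hne⟩ := h1
    by_cases h3 : ∀ b ∈ 𝒮, (b - 1) • ((a - 1) • w₀) = 0
    · exact ⟨(a - 1) • w₀, hne, key _ h3, Or.inr (Or.inl ⟨a, ha, rfl⟩)⟩
    · push Not at h3
      obtain ⟨b, hb, hne2⟩ := h3
      rw [← mul_smul] at hne2
      refine ⟨((b - 1) * (a - 1)) • w₀, hne2, key _ ?_, Or.inr (Or.inr ⟨a, ha, b, hb, rfl⟩)⟩
      intro c hc
      apply h2
      rw [← mul_smul, ← add_smul, ← mul_assoc, ua18_two_triple 𝒮 hmul hu hb ha hc, zero_smul]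

end ua18_module

section ua18_rep

variable {G : Type*} [Group G] {O : Type*} [CommRing O] {M : Type*} [AddCommGroup M] [Module O M]

/-- **The representation form.**  `ρ : G →* Module.End O M`, `H ≤ G` (the inertia group) with
`ρ g (ρ g v) - 2 • ρ g v + v = 0` for all `g ∈ H` and all `v` (i.e. `(ρ g - 1)² = 0`), `M` without
`2`-torsion.  Every `w₀ ≠ 0` yields a nonzero `H`-fixed vector among
`w₀`, `ρ a w₀ - w₀`, `ρ b (ρ a w₀ - w₀) - (ρ a w₀ - w₀)` with `a, b ∈ H`. -/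
theorem ua18_exists_fixed_rep (ρ : G →* Module.End O M) (H : Subgroup G)
    (hu : ∀ g ∈ H, ∀ v : M, ρ g (ρ g v) - (2 : ℕ) • ρ g v + v = 0)
    (h2 : ∀ v : M, v + v = 0 → v = 0) (w₀ : M) (hw₀ : w₀ ≠ 0) :
    ∃ w : M, w ≠ 0 ∧ (∀ g ∈ H, ρ g w = w) ∧
      (w = w₀ ∨ (∃ a ∈ H, w = ρ a w₀ - w₀) ∨
        ∃ a ∈ H, ∃ b ∈ H, w = ρ b (ρ a w₀ - w₀) - (ρ a w₀ - w₀)) := by
  obtain ⟨w, hw, hfix, hform⟩ := ua18_exists_fixed (R := Module.End O M) (M := M) (ρ '' (H : Set G))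
    (by
      rintro _ ⟨g, hg, rfl⟩ _ ⟨h, hh, rfl⟩
      exact ⟨g * h, H.mul_mem hg hh, map_mul ρ g h⟩)
    (by
      rintro _ ⟨g, hg, rfl⟩
      refine LinearMap.ext fun v => ?_
      have h := hu g hg v
      simp only [Module.End.mul_apply, LinearMap.sub_apply, Module.End.one_apply, map_sub,
        LinearMap.zero_apply]
      rw [two_smul] at h
      rw [← h]
      abel)
    h2 w₀ hw₀
  refine ⟨w, hw, fun g hg => hfix (ρ g) ⟨g, hg, rfl⟩, ?_⟩
  rcases hform with h | ⟨_, ⟨a, ha, rfl⟩, h⟩ | ⟨_, ⟨a, ha, rfl⟩, _, ⟨b, hb, rfl⟩, h⟩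
  · exact Or.inl h
  · refine Or.inr (Or.inl ⟨a, ha, ?_⟩)
    rw [h]
    rfl
  · refine Or.inr (Or.inr ⟨a, ha, b, hb, ?_⟩)
    rw [h]
    rfl

end ua18_rep

end Fermat.Agent.S36
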