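import Mathlib
import Fermat.Agent.S36.LocPrinTwoGen9

/-!
# S36 lab (helper57, row INV-core): the local unit decomposition `u = ε c ^ m` at a closed point

Input (I6) of the bookkeeping text (#2876): at a closed point `n` of the special fibre of a chart
`B` whose local ring has a 2-generated maximal ideal, a function `u` with `m ∣ ord_O u` at every
horizontal `O` which is a unit along the vertical valuations is `ε c ^ m` with `ε` a unit of `B_n`
and `c` a unit along every vertical valuation through `n`.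

* `ud57_point`      : `lpz9_point` (helper9) with the last clause for EVERY valuation subring
  through `n` whose centre is not the closed point (vertical ones included);
* `ud57_locPrin_at` : the per-point clause of `s34i47_LocPrin` together with
  "`c` is a unit of every vertical valuation subring through `n` with non-closed centre";
* `ud57_sat_pow`    : saturation iterated (`π ^ k * y ∈ B`, `y ∈ W` ⟹ `y ∈ B`);
* `ud57_mem_loc`    : an element which is integral along the valuations through `n` and lies in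
  `B_n[1/π]` lies in `B_n`;
* `ud57_decomp_at`  : the decomposition `u = ε c ^ m`, `ε, ε⁻¹ ∈ B_n`.

All names are prefixed `ud57_`.
-/

set_option autoImplicit false

namespace Fermat.Agent.S36

open Fermat.Agent.S34 Fermat.Agent.S18 Fermat.Agent.S35

section Point

open IsLocalRing

variable {F : Type*} [Field F]

/-- **Unique zero at a 2-generated point**, against every valuation subring through `n` whose
centre is not the closed point. -/
theorem ud57_point (B : Subring F) [IsNoetherianRing B]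
    (hfrac : ∀ t : F, ∃ a ∈ B, ∃ b ∈ B, b ≠ 0 ∧ t * b = a)
    (n : Ideal B) [hn : n.IsPrime]
    (x y : B) (hx : x ∈ n) (hy : y ∈ n)
    (hgen : ∀ v ∈ n, ∃ s : B, s ∉ n ∧ ∃ a b : B,
      (s : F) * (v : F) = (a : F) * x + (b : F) * y)
    (O : ValuationSubring F) (hO : O ≠ ⊤) (hPIR : IsPrincipalIdealRing O)
    (hoff : ∃ t : B, t ∈ n ∧ (t : F) ≠ 0 ∧ (t : F)⁻¹ ∈ O)
    (hBO : ∀ t ∈ B, t ∈ O) (hthr : ∀ t : B, t ∉ n → (t : F)⁻¹ ∈ O) :
    ∃ g : F, g ≠ 0 ∧ g ∈ O ∧ g⁻¹ ∉ O ∧ (∀ t ∈ O, t⁻¹ ∉ O → t * g⁻¹ ∈ O) ∧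
      ∀ O' : ValuationSubring F, (∀ t ∈ B, t ∈ O') → (∀ t : B, t ∉ n → (t : F)⁻¹ ∈ O') →
        (∃ t : B, t ∈ n ∧ (t : F) ≠ 0 ∧ (t : F)⁻¹ ∈ O') → O' ≠ O → g ∈ O' ∧ g⁻¹ ∈ O' := by
  classical
  have : IsPrincipalIdealRing O := hPIR
  have : IsNoetherianRing (lp7_loc B n) := lp7_loc_isNoetherianRing B n
  have h1n : (1 : B) ∉ n := (Ideal.ne_top_iff_one n).mp hn.ne_top
  -- `B_n ⊆ O'` for every valuation subring through `n`
  have hDle : ∀ O' : ValuationSubring F, (∀ t ∈ B, t ∈ O') → (∀ t : B, t ∉ n → (t : F)⁻¹ ∈ O') →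
      ∀ t : lp7_loc B n, (t : F) ∈ O' := by
    intro O' h1 h2 t
    obtain ⟨s, hs, hst⟩ := t.2
    have hs0 := lp7_ne_zero_of_not_mem B n s hs
    have : (t : F) = (s : F)⁻¹ * ((s : F) * t) := by field_simp
    rw [this]; exact O'.mul_mem _ _ (h2 s hs) (h1 _ hst)
  -- inclusions
  let ι : B →+* lp7_loc B n := Subring.inclusion (fun t ht => lp7_le_loc B n t ht)
  have hι : ∀ b : B, ((ι b : lp7_loc B n) : F) = b := fun _ => rfl
  have hιmax : ∀ b : B, b ∈ n → ι b ∈ maximalIdeal (lp7_loc B n) := by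
    intro b hb
    rw [uz37_mem_max_iff]
    exact ⟨1, h1n, b, hb, by simp [hι]⟩
  have hmax : maximalIdeal (lp7_loc B n) = Ideal.span {ι x, ι y} := by
    apply le_antisymm
    · intro t ht
      obtain ⟨s, hs, v, hv, hsv⟩ := (uz37_mem_max_iff B n t).mp ht
      obtain ⟨s₁, hs₁, a, b, hab⟩ := hgen v hv
      have hss : s₁ * s ∉ n := fun h => (hn.mem_or_mem h).elim hs₁ hs
      have hs0 := lp7_ne_zero_of_not_mem B n s hs
      have hs₁0 := lp7_ne_zero_of_not_mem B n s₁ hs₁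
      have ht' : t = (⟨((s₁ * s : B) : F)⁻¹, lp7_inv_mem_loc B n _ hss⟩ : lp7_loc B n) *
          (ι a * ι x + ι b * ι y) := by
        apply Subtype.ext
        show (t : F) = ((s₁ * s : B) : F)⁻¹ * ((a : F) * (x : F) + (b : F) * (y : F))
        rw [← hab, ← hsv]
        push_cast
        field_simp
      rw [ht']
      refine Ideal.mul_mem_left _ _ (Ideal.add_mem _ ?_ ?_)
      · exact Ideal.mul_mem_left _ _ (Ideal.subset_span (by simp))
      · exact Ideal.mul_mem_left _ _ (Ideal.subset_span (by simp))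
    · rw [Ideal.span_le]
      rintro t (rfl | rfl)
      · exact hιmax _ hx
      · exact hιmax _ hy
  -- the centre of a horizontal valuation ring through `n` is principal
  have hcen : ∀ (O' : ValuationSubring F) (_ : ∀ t : lp7_loc B n, (t : F) ∈ O'),
      (∃ t : B, t ∈ n ∧ (t : F) ≠ 0 ∧ (t : F)⁻¹ ∈ O') →
      ∃ g : lp7_loc B n, O'.valuation (g : F) < 1 ∧
        ∀ t : lp7_loc B n, O'.valuation (t : F) < 1 → ∃ c : lp7_loc B n, t = g * c := by
    intro O' hD' hoff'
    obtain ⟨t₀, ht₀n, ht₀0, ht₀inv⟩ := hoff'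
    let ιO' : lp7_loc B n →+* O' := Subring.inclusion (fun t ht => hD' ⟨t, ht⟩)
    have hq : ((maximalIdeal O').comap ιO').IsPrime := Ideal.comap_isPrime ιO' _
    have hmemq : ∀ t : lp7_loc B n,
        t ∈ (maximalIdeal O').comap ιO' ↔ O'.valuation (t : F) < 1 := by
      intro t
      rw [Ideal.mem_comap, ValuationSubring.valuation_lt_one_iff]
      rfl
    have hπq : ι t₀ ∉ (maximalIdeal O').comap ιO' := by
      rw [hmemq]
      have h1 : O'.valuation (t₀ : F) = 1 :=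
        uz37_val_eq_one O' _ (hD' (ι t₀)) ht₀inv ht₀0
      show ¬ O'.valuation (t₀ : F) < 1
      rw [h1]; exact lt_irrefl _
    obtain ⟨g, hg, hgen'⟩ := lpz9_principal (ι x) (ι y) hmax _ hq ⟨ι t₀, hιmax _ ht₀n, hπq⟩
    exact ⟨g, (hmemq g).mp hg, fun t ht => hgen' t ((hmemq t).mpr ht)⟩
  have hDO := hDle O hBO hthr
  obtain ⟨g, hgv, hgenq⟩ := hcen O hDO hoff
  -- `g ≠ 0`
  have hg0 : (g : F) ≠ 0 := by
    intro h0
    obtain ⟨w, hw⟩ : ∃ w : F, w ∉ O := by
      by_contra hall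
      apply hO
      rw [eq_top_iff]
      intro t _
      by_contra ht
      exact hall ⟨t, ht⟩
    have hw2 := (uz37_inv_not_mem_iff O w⁻¹).mp (by rw [inv_inv]; exact hw)
    obtain ⟨a, ha, b, hb, hb0, hab⟩ := hfrac w⁻¹
    have hva : O.valuation a < 1 := by
      rw [← hab, map_mul]
      exact lt_of_le_of_lt (mul_le_of_le_one_right'
        ((O.valuation_le_one_iff _).mpr (hBO b hb))) hw2.2
    obtain ⟨c, hc⟩ := hgenq (ι ⟨a, ha⟩) hva
    have hcF : a = (g : F) * (c : F) := congrArg Subtype.val hc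
    rw [h0, zero_mul] at hcF
    rw [hcF] at hab
    exact (mul_eq_zero.mp hab).elim hw2.1 hb0
  have hginv : (g : F)⁻¹ ∉ O := (uz37_inv_not_mem_iff O _).mpr ⟨hg0, hgv⟩
  have hfracD : ∀ t : F, ∃ a ∈ lp7_loc B n, ∃ b ∈ lp7_loc B n, b ≠ 0 ∧ t * b = a := by
    intro t
    obtain ⟨a, ha, b, hb, hb0, hab⟩ := hfrac t
    exact ⟨a, lp7_le_loc B n a ha, b, lp7_le_loc B n b hb, hb0, hab⟩
  have hDO' : ∀ t ∈ lp7_loc B n, t ∈ O := fun t ht => hDO ⟨t, ht⟩
  have hgenO : ∀ t ∈ lp7_loc B n, t ≠ 0 → t⁻¹ ∉ O → ∃ c ∈ lp7_loc B n, t = (g : F) * c := by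
    intro t ht _ htinv
    obtain ⟨c, hc⟩ := hgenq ⟨t, ht⟩ ((uz37_inv_not_mem_iff O _).mp htinv).2
    exact ⟨c, c.2, congrArg Subtype.val hc⟩
  refine ⟨(g : F), hg0, hDO g, hginv, ?_, ?_⟩
  · intro t ht htinv
    exact slp9_unif (lp7_loc B n) O hPIR hDO' hfracD (g : F) hg0 g.2 hginv hgenO t ht htinv
  · intro O' hBO' hthr' hoff' hne
    have hDOO' := hDle O' hBO' hthr'
    refine ⟨hDOO' g, ?_⟩
    by_contra hg'
    apply hne
    obtain ⟨g', hg'v, hgenq'⟩ := hcen O' hDOO' hoff'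
    have hgv' : O'.valuation (g : F) < 1 := ((uz37_inv_not_mem_iff O' _).mp hg').2
    obtain ⟨d, hd⟩ := hgenq' g hgv'
    have hdF : (g : F) = (g' : F) * (d : F) := congrArg Subtype.val hd
    -- `g'` is a non-unit of `O`
    have hg'O : O.valuation (g' : F) < 1 := by
      by_contra hnot
      have hval1 : O.valuation (g' : F) = 1 :=
        le_antisymm ((O.valuation_le_one_iff _).mpr (hDO g')) (not_lt.mp hnot)
      have hdv : O.valuation (d : F) < 1 := by
        have : O.valuation (g : F) = O.valuation (g' : F) * O.valuation (d : F) := by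
          rw [hdF, map_mul]
        rw [hval1, one_mul] at this
        rw [← this]; exact hgv
      obtain ⟨e, he⟩ := hgenq d hdv
      have heF : (d : F) = (g : F) * (e : F) := congrArg Subtype.val he
      have h1 : (g' : F) * (e : F) = 1 := by
        have h2 : (g : F) * ((g' : F) * (e : F)) = (g : F) * 1 := by
          rw [mul_one]
          calc (g : F) * ((g' : F) * (e : F)) = (g' : F) * ((g : F) * (e : F)) := by ring
            _ = (g' : F) * (d : F) := by rw [← heF]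
            _ = (g : F) := hdF.symm
        exact mul_left_cancel₀ hg0 h2
      have h3 : O'.valuation ((g' : F) * (e : F)) < 1 := by
        rw [map_mul]
        exact lt_of_le_of_lt (mul_le_of_le_one_right'
          ((O'.valuation_le_one_iff _).mpr (hDOO' e))) hg'v
      rw [h1, map_one] at h3
      exact lt_irrefl _ h3
    refine slp9_eq_of_center (lp7_loc B n) O hPIR hDO' hfracD (g : F) hg0 g.2 hginv hgenO O'
      (fun t ht => hDOO' ⟨t, ht⟩) ?_ hg'
    intro t ht ht0 htinv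
    obtain ⟨c, hc⟩ := hgenq' ⟨t, ht⟩ ((uz37_inv_not_mem_iff O' _).mp htinv).2
    have hcF : t = (g' : F) * (c : F) := congrArg Subtype.val hc
    rw [uz37_inv_not_mem_iff]
    refine ⟨ht0, ?_⟩
    rw [hcF, map_mul]
    exact lt_of_le_of_lt (mul_le_of_le_one_right'
      ((O.valuation_le_one_iff _).mpr (hDO c))) hg'O


end Point

section Chart

variable {R F : Type*} [CommRing R] [Field F] [Algebra R F]

/-- The centre of the valuation subring `V` on the chart `B` is not the closed point `n`: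
some element of `n` is a unit of `V`. -/
def ud57_Off (B : Subalgebra R F) (n : Ideal B) (V : ValuationSubring F) : Prop :=
  ∃ t : B, t ∈ n ∧ (t : F) ≠ 0 ∧ (t : F)⁻¹ ∈ V

/-- A horizontal valuation subring through a closed point of the special fibre has a non-closed
centre (`π` is a unit of it). -/
theorem ud57_off_of_horiz (π : R) (hπ0 : algebraMap R F π ≠ 0) (B : Subalgebra R F)
    (n : Ideal B) (hπn : algebraMap R B π ∈ n) (O : ValuationSubring F)
    (hO : s34i47_IsHoriz π O) : ud57_Off B n O :=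
  ⟨algebraMap R B π, hπn, hπ0, hO.2.2.2⟩

/-- Unique zero at a 2-generated point, frame language. -/
theorem ud57_UZ_at (B : Subalgebra R F) [hN : IsNoetherianRing B]
    (hfrac : ∀ t : F, ∃ a ∈ B, ∃ b ∈ B, b ≠ 0 ∧ t * b = a)
    (n : Ideal B) (hn : n.IsMaximal)
    (h2 : ∃ x y : B, x ∈ n ∧ y ∈ n ∧
      ∀ v ∈ n, ∃ s : B, s ∉ n ∧ ∃ a b : B, s * v = a * x + b * y)
    (O : ValuationSubring F) (hOtop : O ≠ ⊤) (hPIR : IsPrincipalIdealRing O)
    (hOn : s34i47_Through B n O) (hoff : ud57_Off B n O) :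
    ∃ p : F, p ≠ 0 ∧ p ∈ O ∧ p⁻¹ ∉ O ∧ (∀ t ∈ O, t⁻¹ ∉ O → t * p⁻¹ ∈ O) ∧
      ∀ O' : ValuationSubring F, s34i47_Through B n O' → ud57_Off B n O' → O' ≠ O →
        p ∈ O' ∧ p⁻¹ ∈ O' := by
  obtain ⟨x, y, hx, hy, hgen⟩ := h2
  obtain ⟨hBO, hthr⟩ := hOn
  have hnp : (show Ideal B.toSubring from n).IsPrime := hn.isPrime
  have hgen' : ∀ v ∈ n, ∃ s : B, s ∉ n ∧ ∃ a b : B,
      (s : F) * (v : F) = (a : F) * x + (b : F) * y := by
    intro v hv
    obtain ⟨s, hs, a, b, h⟩ := hgen v hv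
    exact ⟨s, hs, a, b, congrArg Subtype.val h⟩
  obtain ⟨g, hg0, hgO, hginv, hunif, hother⟩ :=
    @ud57_point F _ B.toSubring hN hfrac n hnp x y hx hy hgen' O hOtop hPIR hoff hBO hthr
  exact ⟨g, hg0, hgO, hginv, hunif,
    fun O' hthrO' hoff' hne => hother O' hthrO'.1 hthrO'.2 hoff' hne⟩

/-- **(LP) at a 2-generated point, with vertical control**: there is `c ≠ 0` with `f / c ^ m` a
unit of every horizontal `O` through `n`, and `c` a unit of every valuation subring through `n`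
in which `π` is a nonunit and whose centre is not the closed point. -/
theorem ud57_locPrin_at (π : R) (hπ0 : algebraMap R F π ≠ 0) (B : Subalgebra R F)
    [IsNoetherianRing B]
    (hfrac : ∀ t : F, ∃ a ∈ B, ∃ b ∈ B, b ≠ 0 ∧ t * b = a)
    (n : Ideal B) (hn : n.IsMaximal) (hπn : algebraMap R B π ∈ n)
    (h2 : ∃ x y : B, x ∈ n ∧ y ∈ n ∧
      ∀ v ∈ n, ∃ s : B, s ∉ n ∧ ∃ a b : B, s * v = a * x + b * y)
    (m : ℕ) (hm : 0 < m) (f : F) (hf : f ≠ 0)
    (hOrd : s34i47_Ord π m f) (hFin : s34i47_Fin π f) :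
    ∃ c : F, c ≠ 0 ∧
      (∀ O : ValuationSubring F, s34i47_IsHoriz π O → s34i47_Through B n O →
        f / c ^ m ∈ O ∧ c ^ m / f ∈ O) ∧
      ∀ V : ValuationSubring F, s34i47_Through B n V → ud57_Off B n V →
        (algebraMap R F π)⁻¹ ∉ V → c ∈ V ∧ c⁻¹ ∈ V := by
  classical
  have hfin : {O : ValuationSubring F | s34i47_IsHoriz π O ∧ s34i47_Through B n O ∧
      ¬ (f ∈ O ∧ f⁻¹ ∈ O)}.Finite :=
    hFin.subset fun O hO => ⟨hO.1, hO.2.2⟩
  set T : Finset (ValuationSubring F) := hfin.toFinset with hT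
  have hmemT : ∀ O : ValuationSubring F, O ∈ T ↔
      s34i47_IsHoriz π O ∧ s34i47_Through B n O ∧ ¬ (f ∈ O ∧ f⁻¹ ∈ O) := by
    intro O
    rw [hT, Set.Finite.mem_toFinset]
    rfl
  have hex : ∀ O ∈ T, ∃ g : F, g ≠ 0 ∧ lp9_IsU O (f / g ^ m) ∧
      ∀ O' : ValuationSubring F, s34i47_Through B n O' → ud57_Off B n O' → O' ≠ O →
        lp9_IsU O' g := by
    intro O hO
    rw [hmemT] at hO
    obtain ⟨p, hp0, hpO, hpinv, hgen, hother⟩ :=
      ud57_UZ_at B hfrac n hn h2 O hO.1.1 hO.1.2.1 hO.2.1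
        (ud57_off_of_horiz π hπ0 B n hπn O hO.1)
    obtain ⟨ε, w, hε, hεinv, hfw⟩ := hOrd O hO.1
    have hw : w ≠ 0 := by
      rintro rfl
      apply hf
      rw [hfw, zero_pow (by omega), mul_zero]
    obtain ⟨k, hk⟩ := lp9_exists_zpow O hO.1.2.1 p hp0 hpO hpinv hgen w hw
    refine ⟨p ^ k, zpow_ne_zero k hp0, ?_, ?_⟩
    · have he : f / (p ^ k) ^ m = ε * (w / p ^ k) ^ m := by
        rw [hfw, div_pow, mul_div_assoc]
      rw [he]
      exact lp9_IsU_mul ⟨hε, hεinv⟩ (lp9_IsU_pow hk m)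
    · intro O' hOn' hoff' hne
      exact lp9_IsU_zpow (hother O' hOn' hoff' hne) k
  choose! g hg0 hgU hgother using hex
  refine ⟨∏ O ∈ T, g O, Finset.prod_ne_zero_iff.mpr hg0, ?_, ?_⟩
  · intro O hO hOn
    have hOoff : ud57_Off B n O := ud57_off_of_horiz π hπ0 B n hπn O hO
    have key : lp9_IsU O (f / (∏ O' ∈ T, g O') ^ m) := by
      by_cases hOT : O ∈ T
      · have hsplit : ∏ O' ∈ T, g O' = g O * ∏ O' ∈ T.erase O, g O' :=
          (Finset.mul_prod_erase T g hOT).symm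
        have hrest : lp9_IsU O (∏ O' ∈ T.erase O, g O') := by
          apply lp9_IsU_prod
          intro O' hO'
          have h := Finset.mem_erase.mp hO'
          exact hgother O' h.2 O hOn hOoff (Ne.symm h.1)
        have he : f / (∏ O' ∈ T, g O') ^ m =
            (f / g O ^ m) * ((∏ O' ∈ T.erase O, g O') ^ m)⁻¹ := by
          rw [hsplit, mul_pow, div_mul_eq_div_div, div_eq_mul_inv (f / g O ^ m)]
        rw [he]
        exact lp9_IsU_mul (hgU O hOT) (lp9_IsU_inv (lp9_IsU_pow hrest m))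
      · have hfU : lp9_IsU O f := by
          by_contra h
          exact hOT ((hmemT O).mpr ⟨hO, hOn, h⟩)
        have hcU : lp9_IsU O (∏ O' ∈ T, g O') := by
          apply lp9_IsU_prod
          intro O' hO'
          exact hgother O' hO' O hOn hOoff (by rintro rfl; exact hOT hO')
        rw [div_eq_mul_inv]
        exact lp9_IsU_mul hfU (lp9_IsU_inv (lp9_IsU_pow hcU m))
    refine ⟨key.1, ?_⟩
    have h2' := key.2
    rwa [inv_div] at h2'
  · intro V hVn hVoff hπV
    have hcU : lp9_IsU V (∏ O' ∈ T, g O') := by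
      apply lp9_IsU_prod
      intro O' hO'
      refine hgother O' hO' V hVn hVoff ?_
      rintro rfl
      exact hπV ((hmemT _).mp hO').1.2.2.2
    exact hcU

/-- Saturation iterated: `y ∈ W` and `π ^ k * y ∈ B` imply `y ∈ B`. -/
theorem ud57_sat_pow (π : R) (hπ0 : algebraMap R F π ≠ 0) (B : Subalgebra R F) (W : Subring F)
    (hBW : ∀ x ∈ B, x ∈ W)
    (hsat : ∀ x ∈ B, (algebraMap R F π)⁻¹ * x ∈ W → (algebraMap R F π)⁻¹ * x ∈ B)
    (k : ℕ) (y : F) (hy : y ∈ W) (hk : algebraMap R F π ^ k * y ∈ B) : y ∈ B := by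
  induction k with
  | zero => simpa using hk
  | succ k ih =>
    apply ih
    have hπW : algebraMap R F π ∈ W := hBW _ (B.algebraMap_mem π)
    have e : algebraMap R F π ^ k * y =
        (algebraMap R F π)⁻¹ * (algebraMap R F π ^ (k + 1) * y) := by
      rw [pow_succ]
      field_simp
    rw [e]
    apply hsat _ hk
    rw [← e]
    exact W.mul_mem (W.pow_mem hπW k) hy

/-- An element of `B_n[1/π]` which lies in every valuation subring of the family through `n`
lies in `B_n`.  The valuation subrings of the family NOT through `n` are absorbing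
(`hoffb`: for every `x` some `t ∉ n` has `t * x ∈ V i`). -/
theorem ud57_mem_loc (π : R) (hπ0 : algebraMap R F π ≠ 0) (B : Subalgebra R F) (W : Subring F)
    (hBW : ∀ x ∈ B, x ∈ W)
    (hsat : ∀ x ∈ B, (algebraMap R F π)⁻¹ * x ∈ W → (algebraMap R F π)⁻¹ * x ∈ B)
    (n : Ideal B) (hn : n.IsPrime)
    {ι : Type*} [Finite ι] (V : ι → ValuationSubring F)
    (hW : ∀ x : F, (∀ i, x ∈ V i) → x ∈ W) (hBV : ∀ i, ∀ x ∈ B, x ∈ V i)
    (hoffb : ∀ i, s34i47_Through B n (V i) ∨ ∀ x : F, ∃ t : B, t ∉ n ∧ (t : F) * x ∈ V i)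
    (e : F) (he : ∀ i, s34i47_Through B n (V i) → e ∈ V i)
    (hK : ∃ s : B, s ∉ n ∧ ∃ k : ℕ, algebraMap R F π ^ k * ((s : F) * e) ∈ B) :
    ∃ s : B, s ∉ n ∧ (s : F) * e ∈ B := by
  classical
  cases nonempty_fintype ι
  obtain ⟨s, hs, k, hk⟩ := hK
  have hex : ∀ i, ∃ t : B, t ∉ n ∧ (t : F) * e ∈ V i := by
    intro i
    rcases hoffb i with h | h
    · exact ⟨1, (Ideal.ne_top_iff_one n).mp hn.ne_top, by simpa using he i h⟩
    · exact h e
  choose t ht hte using hex
  have hprod : ∀ S : Finset ι, (∏ i ∈ S, t i) ∉ n := by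
    intro S
    induction S using Finset.induction_on with
    | empty => simpa using (Ideal.ne_top_iff_one n).mp hn.ne_top
    | insert a S ha ih =>
      rw [Finset.prod_insert ha]
      exact fun h => (hn.mem_or_mem h).elim (ht a) ih
  refine ⟨s * ∏ i, t i, fun h => (hn.mem_or_mem h).elim hs (hprod _), ?_⟩
  have hy : ((s * ∏ i, t i : B) : F) * e ∈ W := by
    apply hW
    intro i
    have hsplit : (∏ j, t j) = t i * ∏ j ∈ Finset.univ.erase i, t j :=
      (Finset.mul_prod_erase Finset.univ t (Finset.mem_univ i)).symm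
    have e1 : ((s * ∏ j, t j : B) : F) * e =
        ((s * ∏ j ∈ Finset.univ.erase i, t j : B) : F) * ((t i : F) * e) := by
      rw [hsplit]
      push_cast
      ring
    rw [e1]
    exact (V i).mul_mem _ _ (hBV i _ (s * ∏ j ∈ Finset.univ.erase i, t j).2) (hte i)
  apply ud57_sat_pow π hπ0 B W hBW hsat k _ hy
  have e2 : algebraMap R F π ^ k * (((s * ∏ i, t i : B) : F) * e) =
      ((∏ i, t i : B) : F) * (algebraMap R F π ^ k * ((s : F) * e)) := by
    push_cast
    ring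
  rw [e2]
  exact B.mul_mem (∏ i, t i).2 hk

/-- **(I6)**: the local decomposition `u = ε c ^ m` at a 2-generated closed point `n` of the
special fibre: `c` is a unit of every valuation subring of the family through `n`, and
`ε = u / c ^ m` and its inverse lie in `B_n`. -/
theorem ud57_decomp_at (π : R) (hπ0 : algebraMap R F π ≠ 0) (B : Subalgebra R F)
    [IsNoetherianRing B] (W : Subring F)
    (hfrac : ∀ t : F, ∃ a ∈ B, ∃ b ∈ B, b ≠ 0 ∧ t * b = a)
    (hBW : ∀ x ∈ B, x ∈ W)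
    (hsat : ∀ x ∈ B, (algebraMap R F π)⁻¹ * x ∈ W → (algebraMap R F π)⁻¹ * x ∈ B)
    (hKr : s34i47_Krull π B)
    (n : Ideal B) (hn : n.IsMaximal) (hπn : algebraMap R B π ∈ n)
    (h2 : ∃ x y : B, x ∈ n ∧ y ∈ n ∧
      ∀ v ∈ n, ∃ s : B, s ∉ n ∧ ∃ a b : B, s * v = a * x + b * y)
    {ι : Type*} [Finite ι] (V : ι → ValuationSubring F)
    (hW : ∀ x : F, (∀ i, x ∈ V i) → x ∈ W) (hBV : ∀ i, ∀ x ∈ B, x ∈ V i)
    (hπV : ∀ i, (algebraMap R F π)⁻¹ ∉ V i)
    (hoffb : ∀ i, (s34i47_Through B n (V i) ∧ ud57_Off B n (V i)) ∨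
      ∀ x : F, ∃ t : B, t ∉ n ∧ (t : F) * x ∈ V i)
    (m : ℕ) (hm : 0 < m) (u : F) (hu0 : u ≠ 0)
    (huV : ∀ i, u ∈ V i ∧ u⁻¹ ∈ V i)
    (hOrd : s34i47_Ord π m u) (hFin : s34i47_Fin π u) :
    ∃ c : F, c ≠ 0 ∧
      (∀ i, s34i47_Through B n (V i) → c ∈ V i ∧ c⁻¹ ∈ V i) ∧
      (∃ s : B, s ∉ n ∧ (s : F) * (u / c ^ m) ∈ B) ∧
      (∃ s : B, s ∉ n ∧ (s : F) * (c ^ m / u) ∈ B) := by
  obtain ⟨c, hc0, hhor, hver⟩ :=
    ud57_locPrin_at π hπ0 B hfrac n hn hπn h2 m hm u hu0 hOrd hFin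
  have hcV : ∀ i, s34i47_Through B n (V i) → c ∈ V i ∧ c⁻¹ ∈ V i := by
    intro i hi
    rcases hoffb i with h | h
    · exact hver (V i) h.1 h.2 (hπV i)
    · exfalso
      obtain ⟨t, ht, htπ⟩ := h (algebraMap R F π)⁻¹
      have h1 : (t : F)⁻¹ ∈ V i := hi.2 t ht
      apply hπV i
      have ht0 : (t : F) ≠ 0 := by
        intro h0
        apply ht
        have : t = 0 := Subtype.ext h0
        rw [this]
        exact n.zero_mem
      have e : (algebraMap R F π)⁻¹ = (t : F)⁻¹ * ((t : F) * (algebraMap R F π)⁻¹) := by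
        field_simp
      rw [e]
      exact (V i).mul_mem _ _ h1 htπ
  have hoffb' : ∀ i, s34i47_Through B n (V i) ∨ ∀ x : F, ∃ t : B, t ∉ n ∧ (t : F) * x ∈ V i :=
    fun i => (hoffb i).imp And.left id
  refine ⟨c, hc0, hcV, ?_, ?_⟩
  · apply ud57_mem_loc π hπ0 B W hBW hsat n hn.isPrime V hW hBV hoffb'
    · intro i hi
      rw [div_eq_mul_inv, ← inv_pow]
      exact (V i).mul_mem _ _ (huV i).1 (pow_mem (hcV i hi).2 m)
    · exact hKr n hn hπn _ fun O hO hOn => (hhor O hO hOn).1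
  · apply ud57_mem_loc π hπ0 B W hBW hsat n hn.isPrime V hW hBV hoffb'
    · intro i hi
      rw [div_eq_mul_inv]
      exact (V i).mul_mem _ _ (pow_mem (hcV i hi).1 m) (huV i).2
    · exact hKr n hn hπn _ fun O hO hOn => (hhor O hO hOn).2

end Chart

end Fermat.Agent.S36
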