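import Fermat.Agent.S36.UnitW31
import Fermat.Agent.S18.Haupt2
import Fermat.Agent.S18.Haupt3R_34

/-!
S36 lab, registry row 600 (C-C2), special points (helper31, backup of helper24).

The level-`q` function `w_h = (1/q) · dh(qτ)/dh(τ) = (θh)(Q^q)/(θh)(Q)` (`uwh31_w K q h`) for a
Hauptmodul `h`, i.e. ANY Laurent series `h ≠ 0` with `J h² = (h + 256)³` (level 2; on main:
`h70_h2 K`, see `uwh31_h2_ok`) or `J h³ = (h + 27)(h + 243)³` (level 3; on main: `h34_h3R K`,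
see `uwh31_h3_ok`):

* level 2 (`uwh31_level2_gen`): `w_h^6 · (h^4 (h + 64)^3 · U) = h_q^4 (h_q + 64)^3`, so `w_h`
  has no zero at the points with `h_q ≠ 0, -64` (in particular at ALL points over `j = 0`, and
  at the points over `j = 1728` with `h = 512`);
  chain rule `w_j · ((h+256)² (h-512) · h_q³) = w_h · ((h_q+256)² (h_q-512) · h³)`
  (literally the hypothesis `hrel` of `ht31_level2`, file `HauptTransfer31`).
* level 3 (`uwh31_level3_gen`): `w_h^6 · (h^3 (h + 27)^4 · U) = h_q^3 (h_q + 27)^4`, no zero at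
  the points with `h_q ≠ 0, -27` (in particular at ALL points over `j = 1728`);
  chain rule `w_j · ((h+243)² P(h) · h_q⁴) = w_h · ((h_q+243)² P(h_q) · h⁴)`,
  `P = X² - 486 X - 19683` (hypothesis `hrel` of `ht31_level3`).

`U = Δ(Q)/Δ(Q^q) = dq56_U K q`, `w_j = uw31_w K q`, `h_q = h(Q^q)`.  Field forms
(`uwh31_field2`, `uwh31_field3`) inside any field `F` with `ι : F →+* K((Q))`; chart forms
(`uwh31_nozero2`, `uwh31_nozero3`) = the input `aw tw haw hw` of `c2b24_mid_dvd`.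
-/

set_option autoImplicit false

namespace Fermat.Agent.S36

open ModularCurve Polynomial
open Fermat.Agent.S28 Fermat.Agent.S34 Fermat.Agent.S18

section Der

/-- An additive map with the Leibniz rule kills the numerals. -/
theorem uwh31_der_natCast {A : Type*} [CommRing A] (D : A →+ A)
    (hD : ∀ x y : A, D (x * y) = D x * y + x * D y) (n : ℕ) : D (n : A) = 0 := by
  have h1 : D 1 = 0 := by
    have := hD 1 1
    rw [mul_one, mul_one, one_mul] at this
    linear_combination -this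
  have : (n : A) = n • (1 : A) := by simp
  rw [this, map_nsmul, h1, smul_zero]

/-- Differentiating `x h² = (h + 256)³`. -/
theorem uwh31_der2 {A : Type*} [CommRing A] (D : A →+ A)
    (hD : ∀ x y : A, D (x * y) = D x * y + x * D y)
    (x h : A) (hrel : x * h ^ 2 = (h + 256) ^ 3) :
    D x * h ^ 3 = D h * ((h + 256) ^ 2 * (h - 512)) := by
  have h256 : D (256 : A) = 0 := by
    have := uwh31_der_natCast D hD 256
    simpa using this
  have e2 : D (h ^ 2) = 2 * h * D h := by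
    rw [pow_two, hD]
    ring
  have e3 : ∀ t : A, D (t ^ 3) = 3 * t ^ 2 * D t := by
    intro t
    rw [show t ^ 3 = t * (t * t) by ring, hD, hD]
    ring
  have h1 := congrArg D hrel
  rw [hD, e2, e3, map_add, h256, add_zero] at h1
  linear_combination h * h1 - (2 * D h) * hrel

/-- Differentiating `x h³ = (h + 27)(h + 243)³`. -/
theorem uwh31_der3 {A : Type*} [CommRing A] (D : A →+ A)
    (hD : ∀ x y : A, D (x * y) = D x * y + x * D y)
    (x h : A) (hrel : x * h ^ 3 = (h + 27) * (h + 243) ^ 3) :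
    D x * h ^ 4 = D h * ((h + 243) ^ 2 * (h ^ 2 - 486 * h - 19683)) := by
  have h27 : D (27 : A) = 0 := by
    have := uwh31_der_natCast D hD 27
    simpa using this
  have h243 : D (243 : A) = 0 := by
    have := uwh31_der_natCast D hD 243
    simpa using this
  have e3 : ∀ t : A, D (t ^ 3) = 3 * t ^ 2 * D t := by
    intro t
    rw [show t ^ 3 = t * (t * t) by ring, hD, hD]
    ring
  have h1 := congrArg D hrel
  rw [hD, hD, e3, e3, map_add, map_add, h27, h243, add_zero] at h1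
  linear_combination h * h1 - (3 * D h) * hrel

end Der

section Laurent

variable (K : Type*) [Field K] (q : ℕ)

/-- `w_h = (θh)(Q^q)/(θh)(Q)` for a Laurent series `h`. -/
noncomputable def uwh31_w (h : LaurentSeries K) : LaurentSeries K :=
  qE K q (partC_theta h) / partC_theta h

/-- **Generic form.**  If `θJ · A = θh · G` and `J^4 (J - 1728)^3 A^6 = G^6 R` with `A ≠ 0`,
then `θh ≠ 0`, `G ≠ 0`, `(θh)^6 = R Δ`, `w_h^6 (R U) = R(Q^q)` and
`w_j · (G · A(Q^q)) = w_h · (G(Q^q) · A)`. -/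
theorem uwh31_gen [NeZero q] (h Ah Gh Rh : LaurentSeries K) (hA0 : Ah ≠ 0)
    (ha : partC_theta (jqModC K) * Ah = partC_theta h * Gh)
    (hb : jqModC K ^ 4 * (jqModC K - 1728) ^ 3 * Ah ^ 6 = Gh ^ 6 * Rh) :
    partC_theta h ≠ 0 ∧ Gh ≠ 0 ∧
      uwh31_w K q h ^ 6 * (Rh * dq56_U K q) = qExpand K q Rh ∧
      uw31_w K q * (Gh * qExpand K q Ah) = uwh31_w K q h * (qExpand K q Gh * Ah) := by
  have hθJ := dq56_theta_J_ne_zero K
  have hprod : partC_theta h * Gh ≠ 0 := by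
    rw [← ha]
    exact mul_ne_zero hθJ hA0
  have hθh : partC_theta h ≠ 0 := left_ne_zero_of_mul hprod
  have hG : Gh ≠ 0 := right_ne_zero_of_mul hprod
  have hT := dq56_theta_pow_six K
  have h6 : partC_theta h ^ 6 = Rh * DeltaSer K := by
    apply mul_right_cancel₀ (pow_ne_zero 6 hG)
    have e : (partC_theta h * Gh) ^ 6 = (partC_theta (jqModC K) * Ah) ^ 6 := by rw [ha]
    linear_combination e + Ah ^ 6 * hT + DeltaSer K * hb
  have hw : uwh31_w K q h * partC_theta h = qExpand K q (partC_theta h) := by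
    unfold uwh31_w
    rw [qE_of_neZero]
    exact div_mul_cancel₀ _ hθh
  have hwj := uw31_w_mul_theta K q
  have hσ6 := congrArg (qExpand K q) h6
  rw [map_pow, map_mul] at hσ6
  have hinv : qExpand K q (DeltaSer K) * qExpand K q (DeltaInv K) = 1 := by
    rw [← map_mul, DeltaSer_mul_DeltaInv, map_one]
  have hw6 : uwh31_w K q h ^ 6 * partC_theta h ^ 6 = qExpand K q (partC_theta h) ^ 6 := by
    rw [← mul_pow, hw]
  have hσa := congrArg (qExpand K q) ha
  rw [map_mul, map_mul] at hσa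
  refine ⟨hθh, hG, ?_, ?_⟩
  · unfold dq56_U
    rw [qE_of_neZero]
    linear_combination (-(qExpand K q (DeltaInv K) * uwh31_w K q h ^ 6)) * h6 +
      (qExpand K q (DeltaInv K)) * hw6 + (qExpand K q (DeltaInv K)) * hσ6 +
      (qExpand K q Rh) * hinv
  · apply mul_right_cancel₀ hθJ
    linear_combination (Gh * qExpand K q Ah) * hwj + Gh * hσa -
      (Gh * qExpand K q Gh) * hw - (uwh31_w K q h * qExpand K q Gh) * ha

/-- **Level 2, any series `h` with `J h² = (h + 256)³`.** -/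
theorem uwh31_level2_gen [NeZero q] (h : LaurentSeries K) (hh0 : h ≠ 0)
    (hrel : jqModC K * h ^ 2 = (h + 256) ^ 3) :
    uwh31_w K q h ^ 6 * (h ^ 4 * (h + 64) ^ 3 * dq56_U K q) =
        qExpand K q h ^ 4 * (qExpand K q h + 64) ^ 3 ∧
      uw31_w K q * ((h + 256) ^ 2 * (h - 512) * qExpand K q h ^ 3) =
        uwh31_w K q h * ((qExpand K q h + 256) ^ 2 * (qExpand K q h - 512) * h ^ 3) ∧
      (qExpand K q h + 256) ^ 2 * (qExpand K q h - 512) * h ^ 3 ≠ 0 := by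
  have hrel2 : (jqModC K - 1728) * h ^ 2 = (h + 64) * (h - 512) ^ 2 := by
    linear_combination hrel
  have ha : partC_theta (jqModC K) * h ^ 3 = partC_theta h * ((h + 256) ^ 2 * (h - 512)) :=
    uwh31_der2 (dq56_theta K) (dq56_theta_leibniz K) (jqModC K) h hrel
  have hb : jqModC K ^ 4 * (jqModC K - 1728) ^ 3 * (h ^ 3) ^ 6 =
      ((h + 256) ^ 2 * (h - 512)) ^ 6 * (h ^ 4 * (h + 64) ^ 3) := by
    have e : jqModC K ^ 4 * (jqModC K - 1728) ^ 3 * (h ^ 3) ^ 6 =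
        (jqModC K * h ^ 2) ^ 4 * ((jqModC K - 1728) * h ^ 2) ^ 3 * h ^ 4 := by
      ring
    rw [e, hrel, hrel2]
    ring
  obtain ⟨-, hG, h1, h2⟩ := uwh31_gen K q h (h ^ 3)
    ((h + 256) ^ 2 * (h - 512)) (h ^ 4 * (h + 64) ^ 3) (pow_ne_zero 3 hh0) ha hb
  have hσG : qExpand K q ((h + 256) ^ 2 * (h - 512)) ≠ 0 :=
    (map_ne_zero_iff _ (qExpand_injective q)).mpr hG
  rw [map_mul, map_pow, map_pow, map_add, map_ofNat] at h1
  rw [map_pow, map_mul, map_pow, map_add, map_sub, map_ofNat, map_ofNat] at h2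
  rw [map_mul, map_pow, map_add, map_sub, map_ofNat, map_ofNat] at hσG
  refine ⟨?_, h2, mul_ne_zero hσG (pow_ne_zero 3 hh0)⟩
  rw [← h1]

/-- **Level 3, any series `h` with `J h³ = (h + 27)(h + 243)³`.** -/
theorem uwh31_level3_gen [NeZero q] (h : LaurentSeries K) (hh0 : h ≠ 0)
    (hrel : jqModC K * h ^ 3 = (h + 27) * (h + 243) ^ 3) :
    uwh31_w K q h ^ 6 * (h ^ 3 * (h + 27) ^ 4 * dq56_U K q) =
        qExpand K q h ^ 3 * (qExpand K q h + 27) ^ 4 ∧
      uw31_w K q * ((h + 243) ^ 2 * (h ^ 2 - 486 * h - 19683) * qExpand K q h ^ 4) =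
        uwh31_w K q h * ((qExpand K q h + 243) ^ 2 *
          (qExpand K q h ^ 2 - 486 * qExpand K q h - 19683) * h ^ 4) ∧
      (qExpand K q h + 243) ^ 2 * (qExpand K q h ^ 2 - 486 * qExpand K q h - 19683) * h ^ 4
        ≠ 0 := by
  have hrel2 : (jqModC K - 1728) * h ^ 3 = (h ^ 2 - 486 * h - 19683) ^ 2 := by
    linear_combination hrel
  have ha : partC_theta (jqModC K) * h ^ 4 =
      partC_theta h * ((h + 243) ^ 2 * (h ^ 2 - 486 * h - 19683)) :=
    uwh31_der3 (dq56_theta K) (dq56_theta_leibniz K) (jqModC K) h hrel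
  have hb : jqModC K ^ 4 * (jqModC K - 1728) ^ 3 * (h ^ 4) ^ 6 =
      ((h + 243) ^ 2 * (h ^ 2 - 486 * h - 19683)) ^ 6 * (h ^ 3 * (h + 27) ^ 4) := by
    have e : jqModC K ^ 4 * (jqModC K - 1728) ^ 3 * (h ^ 4) ^ 6 =
        (jqModC K * h ^ 3) ^ 4 * ((jqModC K - 1728) * h ^ 3) ^ 3 * h ^ 3 := by
      ring
    rw [e, hrel, hrel2]
    ring
  obtain ⟨-, hG, h1, h2⟩ := uwh31_gen K q h (h ^ 4)
    ((h + 243) ^ 2 * (h ^ 2 - 486 * h - 19683)) (h ^ 3 * (h + 27) ^ 4) (pow_ne_zero 4 hh0) ha hb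
  have hσG : qExpand K q ((h + 243) ^ 2 * (h ^ 2 - 486 * h - 19683)) ≠ 0 :=
    (map_ne_zero_iff _ (qExpand_injective q)).mpr hG
  rw [map_mul, map_pow, map_pow, map_add, map_ofNat] at h1
  rw [map_pow, map_mul, map_pow, map_add, map_sub, map_sub, map_mul, map_pow, map_ofNat,
    map_ofNat, map_ofNat] at h2
  rw [map_mul, map_pow, map_add, map_sub, map_sub, map_mul, map_pow, map_ofNat, map_ofNat,
    map_ofNat] at hσG
  refine ⟨?_, h2, mul_ne_zero hσG (pow_ne_zero 4 hh0)⟩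
  rw [← h1]

/-- **Field form, level 2.**  `F` a field, `ι : F →+* K((Q))`; `u, h, hQ ∈ F` of expansions
`U`, `hS`, `hS(Q^q)` where `hS` is ANY series with `J hS² = (hS + 256)³` (e.g. `h70_h2 K`,
by `h70_j_mul_h2_sq`); `wj ∈ F` of expansion `uw31_w K q` (from `uw31_field`).  Then there is
`wh ∈ F` with the sixth-power identity and the chain rule (= `hrel` of `ht31_level2`). -/
theorem uwh31_field2 (hq : q.Prime) {F : Type*} [Field F] (ι : F →+* LaurentSeries K)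
    (hS : LaurentSeries K) (hS0 : hS ≠ 0) (hSrel : jqModC K * hS ^ 2 = (hS + 256) ^ 3)
    (u h hQ wj : F) (hu : ι u = dq56_U K q)
    (hh : ι h = hS) (hhq : ι hQ = qE K q hS) (hwj : ι wj = uw31_w K q) :
    ∃ wh : F, ι wh = uwh31_w K q hS ∧
      wh ^ 6 * (h ^ 4 * (h + 64) ^ 3 * u) = hQ ^ 4 * (hQ + 64) ^ 3 ∧
      wj * ((h + 256) ^ 2 * (h - 512) * hQ ^ 3) = wh * ((hQ + 256) ^ 2 * (hQ - 512) * h ^ 3) := by
  have : NeZero q := ⟨hq.ne_zero⟩
  rw [qE_of_neZero] at hhq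
  have hinj : Function.Injective ι := ι.injective
  obtain ⟨h1, h2, h3⟩ := uwh31_level2_gen K q hS hS0 hSrel
  have hιd : ι ((hQ + 256) ^ 2 * (hQ - 512) * h ^ 3) =
      (qExpand K q hS + 256) ^ 2 * (qExpand K q hS - 512) * hS ^ 3 := by
    rw [map_mul, map_mul, map_pow, map_pow, map_add, map_sub, map_ofNat, map_ofNat, hh, hhq]
  have hιn : ι (wj * ((h + 256) ^ 2 * (h - 512) * hQ ^ 3)) =
      uw31_w K q * ((hS + 256) ^ 2 * (hS - 512) * qExpand K q hS ^ 3) := by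
    rw [map_mul, map_mul, map_mul, map_pow, map_pow, map_add, map_sub, map_ofNat, map_ofNat,
      hh, hhq, hwj]
  have hd : (hQ + 256) ^ 2 * (hQ - 512) * h ^ 3 ≠ 0 := by
    intro h0
    apply h3
    rw [← hιd, h0, map_zero]
  have e : ι (wj * ((h + 256) ^ 2 * (h - 512) * hQ ^ 3) /
      ((hQ + 256) ^ 2 * (hQ - 512) * h ^ 3)) = uwh31_w K q hS := by
    rw [map_div₀, hιd, hιn, div_eq_iff h3]
    exact h2
  refine ⟨wj * ((h + 256) ^ 2 * (h - 512) * hQ ^ 3) / ((hQ + 256) ^ 2 * (hQ - 512) * h ^ 3),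
    e, ?_, ?_⟩
  · apply hinj
    rw [map_mul, map_pow, e, map_mul, map_mul, map_pow, map_pow, map_add, map_ofNat, hh, hu,
      map_mul, map_pow, map_pow, map_add, map_ofNat, hhq]
    exact h1
  · rw [div_mul_cancel₀ _ hd]

/-- **Field form, level 3.**  Same with `J hS³ = (hS + 27)(hS + 243)³` (e.g. `h34_h3R K`, by
`h34_h3R_j`); chain rule = `hrel` of `ht31_level3`. -/
theorem uwh31_field3 (hq : q.Prime) {F : Type*} [Field F] (ι : F →+* LaurentSeries K)
    (hS : LaurentSeries K) (hS0 : hS ≠ 0)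
    (hSrel : jqModC K * hS ^ 3 = (hS + 27) * (hS + 243) ^ 3)
    (u h hQ wj : F) (hu : ι u = dq56_U K q)
    (hh : ι h = hS) (hhq : ι hQ = qE K q hS) (hwj : ι wj = uw31_w K q) :
    ∃ wh : F, ι wh = uwh31_w K q hS ∧
      wh ^ 6 * (h ^ 3 * (h + 27) ^ 4 * u) = hQ ^ 3 * (hQ + 27) ^ 4 ∧
      wj * ((h + 243) ^ 2 * (h ^ 2 - 486 * h - 19683) * hQ ^ 4) =
        wh * ((hQ + 243) ^ 2 * (hQ ^ 2 - 486 * hQ - 19683) * h ^ 4) := by
  have : NeZero q := ⟨hq.ne_zero⟩
  rw [qE_of_neZero] at hhq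
  have hinj : Function.Injective ι := ι.injective
  obtain ⟨h1, h2, h3⟩ := uwh31_level3_gen K q hS hS0 hSrel
  have hιd : ι ((hQ + 243) ^ 2 * (hQ ^ 2 - 486 * hQ - 19683) * h ^ 4) =
      (qExpand K q hS + 243) ^ 2 * (qExpand K q hS ^ 2 - 486 * qExpand K q hS - 19683) *
        hS ^ 4 := by
    rw [map_mul, map_mul, map_pow, map_pow, map_add, map_sub, map_sub, map_mul, map_pow,
      map_ofNat, map_ofNat, map_ofNat, hh, hhq]
  have hιn : ι (wj * ((h + 243) ^ 2 * (h ^ 2 - 486 * h - 19683) * hQ ^ 4)) =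
      uw31_w K q * ((hS + 243) ^ 2 * (hS ^ 2 - 486 * hS - 19683) * qExpand K q hS ^ 4) := by
    rw [map_mul, map_mul, map_mul, map_pow, map_pow, map_add, map_sub, map_sub, map_mul,
      map_pow, map_ofNat, map_ofNat, map_ofNat, hh, hhq, hwj]
  have hd : (hQ + 243) ^ 2 * (hQ ^ 2 - 486 * hQ - 19683) * h ^ 4 ≠ 0 := by
    intro h0
    apply h3
    rw [← hιd, h0, map_zero]
  have e : ι (wj * ((h + 243) ^ 2 * (h ^ 2 - 486 * h - 19683) * hQ ^ 4) /
      ((hQ + 243) ^ 2 * (hQ ^ 2 - 486 * hQ - 19683) * h ^ 4)) = uwh31_w K q hS := by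
    rw [map_div₀, hιd, hιn, div_eq_iff h3]
    exact h2
  refine ⟨wj * ((h + 243) ^ 2 * (h ^ 2 - 486 * h - 19683) * hQ ^ 4) /
    ((hQ + 243) ^ 2 * (hQ ^ 2 - 486 * hQ - 19683) * h ^ 4), e, ?_, ?_⟩
  · apply hinj
    rw [map_mul, map_pow, e, map_mul, map_mul, map_pow, map_pow, map_add, map_ofNat, hh, hu,
      map_mul, map_pow, map_pow, map_add, map_ofNat, hhq]
    exact h1
  · rw [div_mul_cancel₀ _ hd]

/-- The two Hauptmoduln on main satisfy the hypotheses. -/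
theorem uwh31_h2_ok : h70_h2 K ≠ 0 ∧ jqModC K * h70_h2 K ^ 2 = (h70_h2 K + 256) ^ 3 :=
  ⟨h70_h2_ne_zero K, h70_j_mul_h2_sq K⟩

theorem uwh31_h3_ok :
    h34_h3R K ≠ 0 ∧ jqModC K * h34_h3R K ^ 3 = (h34_h3R K + 27) * (h34_h3R K + 243) ^ 3 := by
  refine ⟨?_, h34_h3R_j K⟩
  intro h0
  have := h34_h3R_mul_inv K
  rw [h0, zero_mul] at this
  exact zero_ne_one this

end Laurent

section Chart

/-- **Level 2: `w_h` has no zero at the points with `h_q ≠ 0, -64`.** -/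
theorem uwh31_nozero2 {R F : Type*} [CommRing R] [Field F] [Algebra R F] (B : Subalgebra R F)
    (hroot : ∀ x : F, x ^ 6 ∈ B → x ∈ B) (n : Ideal B) [hn : n.IsPrime]
    (w : F) (h hQ u : B)
    (h6 : w ^ 6 * ((h : F) ^ 4 * ((h : F) + 64) ^ 3 * (u : F)) =
      (hQ : F) ^ 4 * ((hQ : F) + 64) ^ 3)
    (hhq : hQ ∉ n) (hhq' : hQ + 64 ∉ n) :
    ∃ aw tw : B, aw ∉ n ∧ w * (tw : F) = (aw : F) := by
  refine uw31_nozero B 6 (by norm_num) hroot n w (hQ ^ 4 * (hQ + 64) ^ 3)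
    (h ^ 4 * (h + 64) ^ 3 * u) ?_ ?_
  · intro hmem
    rcases hn.mem_or_mem hmem with h' | h'
    · exact hhq (hn.mem_of_pow_mem _ h')
    · exact hhq' (hn.mem_of_pow_mem _ h')
  · push_cast
    exact h6

/-- **Level 3: `w_h` has no zero at the points with `h_q ≠ 0, -27`.** -/
theorem uwh31_nozero3 {R F : Type*} [CommRing R] [Field F] [Algebra R F] (B : Subalgebra R F)
    (hroot : ∀ x : F, x ^ 6 ∈ B → x ∈ B) (n : Ideal B) [hn : n.IsPrime]
    (w : F) (h hQ u : B)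
    (h6 : w ^ 6 * ((h : F) ^ 3 * ((h : F) + 27) ^ 4 * (u : F)) =
      (hQ : F) ^ 3 * ((hQ : F) + 27) ^ 4)
    (hhq : hQ ∉ n) (hhq' : hQ + 27 ∉ n) :
    ∃ aw tw : B, aw ∉ n ∧ w * (tw : F) = (aw : F) := by
  refine uw31_nozero B 6 (by norm_num) hroot n w (hQ ^ 3 * (hQ + 27) ^ 4)
    (h ^ 3 * (h + 27) ^ 4 * u) ?_ ?_
  · intro hmem
    rcases hn.mem_or_mem hmem with h' | h'
    · exact hhq (hn.mem_of_pow_mem _ h')
    · exact hhq' (hn.mem_of_pow_mem _ h')
  · push_cast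
    exact h6

end Chart

end Fermat.Agent.S36
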