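import Fermat.Agent.S36.V2Mid64

/-!
# S36 lab (helper74): the diagonal clause (E) of `V₂` (rows 589 / 600)

Canonical frame binders of `V2Mid64` (helper64): `R` a discrete valuation ring, `K = Frac R`
(characteristic zero), `[Algebra K ℚ̄]`, `q` prime, `q ∤ M'`, `π` a uniformizer, `q ~ π`,
`V₂ := v2g64_V2 (algebraMap K ℚ̄) M' q hq hM' hπ hqπ`, `s = v2g64_s K M' q`.

* `v2d74_diag` : for `a ∈ V_∞(M')`:  `β₂ (β₁ a) - α₂ (α₁ a) ∈ m(V₂)`  (`f(q² τ) ≡ f(τ)` on the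
  middle component) — 3 lines from `v2m64_mid`.
* `v2d74_nonunits_div` : `x ∈ m(V₂) → x * s⁻¹ ∈ V₂`  (`s` is a uniformizer of `V₂`).
* `v2d74_diag_div` : `(β₂ (β₁ a) - α₂ (α₁ a)) * s⁻¹ ∈ V₂`  (= `hdσ` of `c2u74x_main`, `σ = s`).
* `v2d74_mem_of_div` : `x * s⁻¹ ∈ V₂ → x ∈ m(V₂)`.

All names are prefixed `v2d74_`.
-/

set_option autoImplicit false
set_option linter.unusedSectionVars false

open ModularCurve IntermediateField

namespace Fermat.Agent.S36

open Fermat.Agent.S18 Fermat.Agent.S24 Fermat.Agent.S28 Fermat.Agent.S37 Fermat.Agent.S34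
open Fermat.Agent.S35

section v2d74_main

variable {R K : Type} [CommRing R] [IsDomain R] [IsDiscreteValuationRing R] [Field K] [CharZero K]
  [Algebra R K] [IsFractionRing R K]
  (M' q : ℕ) [NeZero M'] [NeZero q] (hq : q.Prime) (hM' : ¬ q ∣ M')
variable [Algebra K Kbar]

/-- **(E)**: `β₂ (β₁ a) - α₂ (α₁ a) ∈ m(V₂)` for `a ∈ V_∞(M')`. -/
theorem v2d74_diag {π : R} (hπ : Irreducible π) (hqπ : Associated ((q : ℕ) : R) π)
    (a : ↥(modularFunctionFieldFullC K M')) (ha : a ∈ cm85_Vinf (K := K) M' hπ) :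
    al97L_beta K (M' * q) q (al97L_beta K M' q a) -
      al97L_alpha K (M' * q) q (al97L_alpha K M' q a) ∈
        (v2g64_V2 (algebraMap K Kbar) M' q hq hM' hπ hqπ).nonunits := by
  have h := v2m64_mid M' q hq hM' hπ hqπ (al97L_alpha K M' q a)
    ((al97V_alpha_mem_Vinf M' q hπ a).mpr ha)
  rwa [al97L_w_alpha_apply] at h

/-- `s` is a uniformizer of `V₂`: `m(V₂) ⊆ s V₂`. -/
theorem v2d74_nonunits_div {π : R} (hπ : Irreducible π) (hqπ : Associated ((q : ℕ) : R) π)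
    (x : ↥(modularFunctionFieldFullC K (M' * q * q)))
    (hx : x ∈ (v2g64_V2 (algebraMap K Kbar) M' q hq hM' hπ hqπ).nonunits) :
    x * (v2g64_s K M' q)⁻¹ ∈ v2g64_V2 (algebraMap K Kbar) M' q hq hM' hπ hqπ := by
  have hram := (ob72_ram (K := K) (M' * q) q hq (dvd_mul_left q M') hπ
    (v2g64_V2 (algebraMap K Kbar) M' q hq hM' hπ hqπ)
    (v2g64_V2_alpha (algebraMap K Kbar) M' q hq hM' hπ hqπ)
    (v2g64_V2_pi (algebraMap K Kbar) M' q hq hM' hπ hqπ)
    (v2g64_V2_ne (algebraMap K Kbar) M' q hq hM' hπ hqπ) (v2g64_s K M' q)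
    (v2g64_V2_val (algebraMap K Kbar) M' q hq hM' hπ hqπ)).2.2.1
  rcases (ValuationSubring.mem_nonunits_iff_or _).mp hx with hx0 | hxinv
  · rw [hx0, zero_mul]
    exact zero_mem _
  · have hxV : x ∈ v2g64_V2 (algebraMap K Kbar) M' q hq hM' hπ hqπ :=
      (ValuationSubring.valuation_le_one_iff _ x).mp
        (le_of_lt ((ValuationSubring.mem_nonunits_iff _).mp hx))
    have h2 := hram x hxV hxinv
    have e : x * (v2g64_s K M' q)⁻¹ = (v2g64_s K M' q)⁻¹ * x := mul_comm _ _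
    rw [e]
    exact h2

/-- **(E), divided form**: `(β₂ (β₁ a) - α₂ (α₁ a)) * s⁻¹ ∈ V₂` for `a ∈ V_∞(M')`. -/
theorem v2d74_diag_div {π : R} (hπ : Irreducible π) (hqπ : Associated ((q : ℕ) : R) π)
    (a : ↥(modularFunctionFieldFullC K M')) (ha : a ∈ cm85_Vinf (K := K) M' hπ) :
    (al97L_beta K (M' * q) q (al97L_beta K M' q a) -
      al97L_alpha K (M' * q) q (al97L_alpha K M' q a)) * (v2g64_s K M' q)⁻¹ ∈
        v2g64_V2 (algebraMap K Kbar) M' q hq hM' hπ hqπ :=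
  v2d74_nonunits_div (K := K) M' q hq hM' hπ hqπ _ (v2d74_diag (K := K) M' q hq hM' hπ hqπ a ha)

/-- `s ∈ m(V₂)`. -/
theorem v2d74_s_nonunits {π : R} (hπ : Irreducible π) (hqπ : Associated ((q : ℕ) : R) π) :
    v2g64_s K M' q ∈ (v2g64_V2 (algebraMap K Kbar) M' q hq hM' hπ hqπ).nonunits := by
  have hj : v2g64_j K M' ∈ cm85_Vinf (K := K) M' hπ :=
    gv85_mem_V_of_integral _ _ _ _ (jqModC R) (by
      show jqModC K = _
      rw [coeffMap_jqModC])
  exact v2d74_diag (K := K) M' q hq hM' hπ hqπ (v2g64_j K M') hj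

/-- `x * s⁻¹ ∈ V₂ → x ∈ m(V₂)`. -/
theorem v2d74_mem_of_div {π : R} (hπ : Irreducible π) (hqπ : Associated ((q : ℕ) : R) π)
    (x : ↥(modularFunctionFieldFullC K (M' * q * q)))
    (hx : x * (v2g64_s K M' q)⁻¹ ∈ v2g64_V2 (algebraMap K Kbar) M' q hq hM' hπ hqπ) :
    x ∈ (v2g64_V2 (algebraMap K Kbar) M' q hq hM' hπ hqπ).nonunits := by
  have hs := v2d74_s_nonunits (K := K) M' q hq hM' hπ hqπ
  have hs0 : v2g64_s K M' q ≠ 0 := v2m64_s_ne_zero (K := K) M' q hq.two_le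
  have e : x = (x * (v2g64_s K M' q)⁻¹) * v2g64_s K M' q := by
    rw [inv_mul_cancel_right₀ hs0]
  have h1 := (ValuationSubring.valuation_le_one_iff _ _).mpr hx
  have h2 := (ValuationSubring.mem_nonunits_iff _).mp hs
  rw [ValuationSubring.mem_nonunits_iff, e, map_mul]
  calc (v2g64_V2 (algebraMap K Kbar) M' q hq hM' hπ hqπ).valuation (x * (v2g64_s K M' q)⁻¹) *
        (v2g64_V2 (algebraMap K Kbar) M' q hq hM' hπ hqπ).valuation (v2g64_s K M' q)
      ≤ 1 * (v2g64_V2 (algebraMap K Kbar) M' q hq hM' hπ hqπ).valuation (v2g64_s K M' q) :=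
        mul_le_mul' h1 le_rfl
    _ = (v2g64_V2 (algebraMap K Kbar) M' q hq hM' hπ hqπ).valuation (v2g64_s K M' q) :=
        one_mul _
    _ < 1 := h2

end v2d74_main

end Fermat.Agent.S36
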