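import Fermat.Agent.S36.V2Final64
import Fermat.Agent.S36.OnlyBind72
import Fermat.Agent.S36.ValSq97

/-!
# S36 lab, row B1-V2 (helper64): uniqueness of `V₂`, identification with `vsq97_V2`, and (MID)

Canonical frame binders: `R` a discrete valuation ring, `K = Frac R` (characteristic zero),
`[Algebra K ℚ̄]`, `q` prime, `q ∤ M'`, `π` a uniformizer, `q ~ π`.
`V₂ := v2g64_V2 (algebraMap K ℚ̄) M' q hq hM' hπ hqπ` (`V2Final64`).

* `v2m64_s_val_V1` : `s = v2g64_s K M' q` is a unit of `V₁ = cm85_Vinf (M' q²)`.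
* `v2m64_unique` : ANY valuation subring `V` of `F(M' q²)_K` with `α₂ V_∞' ⊆ V`, `π⁻¹ ∉ V`,
  `V ≠ V₁` is `V₂` (from `ob72_ram`).
* `v2m64_eq_vsq97` : helper97's `vsq97_V2 R K M' q hq hM' ζ` (`ζ^q = 1 ≠ ζ`) IS `V₂`.
* `v2m64_mid` : **(MID)** `β₂ (w g) - α₂ g ∈ m(V₂)` for `g ∈ V_∞(M' q)`.
* `v2m64_beta_V0` : `β₂ V_0' ⊆ V₂`; `v2m64_beta_beta` : `β₂ β₁ V(M') ⊆ V₂` (`hE2` of
  `OnlyBindBeta72`).

So the one valuation subring `V₂` has the four facts of `ob72_ram`, (MID) and the `β`-facts.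
All names are prefixed `v2m64_`.
-/

set_option autoImplicit false
set_option linter.unusedSectionVars false
set_option linter.style.haveILetI false

open ModularCurve IntermediateField

namespace Fermat.Agent.S36

open Fermat.Agent.S18 Fermat.Agent.S24 Fermat.Agent.S28 Fermat.Agent.S37 Fermat.Agent.S34
open Fermat.Agent.S35

section v2m64_s

variable {R K : Type} [CommRing R] [IsDomain R] [IsDiscreteValuationRing R] [Field K]
  [Algebra R K] [IsFractionRing R K] (N q : ℕ) [NeZero N] [NeZero q]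

/-- `s = j(Q^(q²)) - j(Q)` is `R`-integral. -/
theorem v2m64_s_int :
    ((v2g64_s K N q : ↥(modularFunctionFieldFullC K (N * q * q))) : LaurentSeries K) =
      coeffMap (algebraMap R K) (qExpand R q (qExpand R q (jqModC R)) - jqModC R) := by
  rw [v2g64_s_coe, map_sub, coeffMap_qExpand, coeffMap_qExpand, coeffMap_jqModC]

/-- ... with nonzero reduction. -/
theorem v2m64_s_res (hq : 2 ≤ q) :
    coeffMap (IsLocalRing.residue R) (qExpand R q (qExpand R q (jqModC R)) - jqModC R) ≠ 0 := by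
  intro h0
  have h1 := congrArg (fun z : LaurentSeries (IsLocalRing.ResidueField R) =>
    z.coeff ((q : ℤ) * ((q : ℤ) * (-1)))) h0
  have hlt : (q : ℤ) * ((q : ℤ) * (-1)) < -1 := by
    have h2 : (2 : ℤ) ≤ q := by exact_mod_cast hq
    nlinarith
  simp only [coeffMap_coeff, HahnSeries.coeff_sub, qExpand_coeff_mul,
    coeff_jqModC_neg_one, coeff_jqModC_of_lt R hlt, sub_zero, map_one,
    HahnSeries.coeff_zero] at h1
  exact one_ne_zero h1

theorem v2m64_s_ne_zero (hq : 2 ≤ q) : v2g64_s K N q ≠ 0 := by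
  intro h
  have h0 : ((v2g64_s K N q : ↥(modularFunctionFieldFullC K (N * q * q))) : LaurentSeries K) =
      0 := by rw [h]; rfl
  have h1 := congrArg (fun z : LaurentSeries K => z.coeff ((q : ℤ) * ((q : ℤ) * (-1)))) h0
  have hlt : (q : ℤ) * ((q : ℤ) * (-1)) < -1 := by
    have h2 : (2 : ℤ) ≤ q := by exact_mod_cast hq
    nlinarith
  simp only [v2g64_s_coe, HahnSeries.coeff_sub, qExpand_coeff_mul,
    coeff_jqModC_neg_one, coeff_jqModC_of_lt K hlt, sub_zero, HahnSeries.coeff_zero] at h1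
  exact one_ne_zero h1

/-- `s ∈ V₁`. -/
theorem v2m64_s_mem_V1 {π : R} (hπ : Irreducible π) :
    v2g64_s K N q ∈ cm85_Vinf (K := K) (N * q * q) hπ :=
  gv85_mem_V_of_integral _ _ _ _ _ (v2m64_s_int (R := R) (K := K) N q)

/-- `s⁻¹ ∈ V₁`. -/
theorem v2m64_s_inv_mem_V1 (hq : 2 ≤ q) {π : R} (hπ : Irreducible π) :
    (v2g64_s K N q)⁻¹ ∈ cm85_Vinf (K := K) (N * q * q) hπ :=
  v2g64_gv_inv_mem _ _ _ _ _ (v2m64_s_int (R := R) (K := K) N q) (v2m64_s_res (R := R) q hq)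

/-- `s` is a unit of `V₁`. -/
theorem v2m64_s_val_V1 (hq : 2 ≤ q) {π : R} (hπ : Irreducible π) :
    (cm85_Vinf (K := K) (N * q * q) hπ).valuation (v2g64_s K N q) = 1 := by
  have h1 := ((cm85_Vinf (K := K) (N * q * q) hπ).valuation_le_one_iff _).mpr
    (v2m64_s_mem_V1 (R := R) (K := K) N q hπ)
  have h2 := ((cm85_Vinf (K := K) (N * q * q) hπ).valuation_le_one_iff _).mpr
    (v2m64_s_inv_mem_V1 (R := R) (K := K) N q hq hπ)
  rw [map_inv₀] at h2
  have h3 : (cm85_Vinf (K := K) (N * q * q) hπ).valuation (v2g64_s K N q) ≠ 0 :=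
    (Valuation.ne_zero_iff _).mpr (v2m64_s_ne_zero (K := K) N q hq)
  exact le_antisymm h1 ((inv_le_one₀ (zero_lt_iff.mpr h3)).mp h2)

end v2m64_s

section v2m64_main

variable {R K : Type} [CommRing R] [IsDomain R] [IsDiscreteValuationRing R] [Field K] [CharZero K]
  [Algebra R K] [IsFractionRing R K]
  (M' q : ℕ) [NeZero M'] [NeZero q] (hq : q.Prime) (hM' : ¬ q ∣ M')

/-- **Uniqueness of `V₂`**: a valuation subring of `F(M' q²)_K` over `V_∞(M' q)` along `α₂`,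
not containing `π⁻¹` and different from `V₁`, is `V₂`. -/
theorem v2m64_unique (φ : K →+* Kbar) {π : R} (hπ : Irreducible π)
    (hqπ : Associated ((q : ℕ) : R) π)
    (V : ValuationSubring ↥(modularFunctionFieldFullC K (M' * q * q)))
    (hV : ∀ c ∈ cm85_Vinf (K := K) (M' * q) hπ, al97L_alpha K (M' * q) q c ∈ V)
    (hVπ : (algebraMap K ↥(modularFunctionFieldFullC K (M' * q * q)) (algebraMap R K π))⁻¹ ∉ V)
    (hne : V ≠ cm85_Vinf (K := K) (M' * q * q) hπ) :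
    V = v2g64_V2 φ M' q hq hM' hπ hqπ :=
  ((ob72_ram (K := K) (M' * q) q hq (dvd_mul_left q M') hπ (v2g64_V2 φ M' q hq hM' hπ hqπ)
    (v2g64_V2_alpha φ M' q hq hM' hπ hqπ) (v2g64_V2_pi φ M' q hq hM' hπ hqπ)
    (v2g64_V2_ne φ M' q hq hM' hπ hqπ) (v2g64_s K M' q)
    (v2g64_V2_val φ M' q hq hM' hπ hqπ)).1 V hV hVπ).resolve_left hne

variable [Algebra K Kbar]

/-- `¬ IsUnit (q : R)` from `q ~ π`. -/
theorem v2m64_hqR {π : R} (hπ : Irreducible π) (hqπ : Associated ((q : ℕ) : R) π) :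
    ¬ IsUnit ((q : ℕ) : R) := fun h => hπ.not_isUnit (hqπ.isUnit h)

/-- `s` is a non-unit of `vsq97_V2`. -/
theorem v2m64_s_mem_nonunits_vsq97 (ζ : Kbarˣ) (hζq : ζ ^ q = 1) (hζ1 : ζ ≠ 1) {π : R}
    (hπ : Irreducible π) (hqR : ¬ IsUnit ((q : ℕ) : R)) :
    v2g64_s K M' q ∈ (vsq97_V2 R K M' q hq hM' ζ).nonunits := by
  have h := vsq97_V2_mid M' q hq hM' ζ hζq hζ1 hπ hqR
    (al97L_alpha K M' q (v2g64_j K M'))
    ((al97V_alpha_mem_Vinf M' q hπ (v2g64_j K M')).mpr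
      (gv85_mem_V_of_integral _ _ _ _ (jqModC R) (by
        show jqModC K = _
        rw [coeffMap_jqModC])))
  rw [al97L_w_alpha_apply] at h
  exact h

/-- **helper97's `vsq97_V2` is `V₂`.** -/
theorem v2m64_eq_vsq97 (ζ : Kbarˣ) (hζq : ζ ^ q = 1) (hζ1 : ζ ≠ 1) {π : R} (hπ : Irreducible π)
    (hqπ : Associated ((q : ℕ) : R) π) :
    vsq97_V2 R K M' q hq hM' ζ = v2g64_V2 (algebraMap K Kbar) M' q hq hM' hπ hqπ := by
  have hqR := v2m64_hqR q hπ hqπ
  refine v2m64_unique M' q hq hM' (algebraMap K Kbar) hπ hqπ _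
    (fun c hc => vsq97_V2_over M' q hq hM' ζ hζq hζ1 hπ c hc) ?_ ?_
  · have h := vsq97_V2_const (R := R) (K := K) M' q hq hM' ζ hζq hζ1 π hπ.ne_zero hπ.not_isUnit
    rwa [(al97L_alpha K (M' * q) q).commutes] at h
  · intro heq
    have h1 := v2m64_s_mem_nonunits_vsq97 (K := K) M' q hq hM' ζ hζq hζ1 hπ hqR
    rw [vsq97_mem_nonunits_iff_inv _ _ (v2m64_s_ne_zero (K := K) M' q hq.two_le), heq] at h1
    exact h1 (v2m64_s_inv_mem_V1 (R := R) (K := K) M' q hq.two_le hπ)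

include hq in
/-- There is a nontrivial `q`-th root of unity in `ℚ̄`. -/
theorem v2m64_exists_zeta : ∃ ζ : Kbarˣ, ζ ^ q = 1 ∧ ζ ≠ 1 := by
  obtain ⟨ζ, hζ⟩ : ∃ ζ : Kbar, IsPrimitiveRoot ζ q :=
    HasEnoughRootsOfUnity.exists_primitiveRoot Kbar q
  have hζ0 : ζ ≠ 0 := hζ.ne_zero hq.ne_zero
  refine ⟨Units.mk0 ζ hζ0, ?_, ?_⟩
  · apply Units.ext
    rw [Units.val_pow_eq_pow_val, Units.val_mk0, hζ.pow_eq_one, Units.val_one]
  · intro h
    have h1 : ζ = 1 := by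
      have := congrArg Units.val h
      rwa [Units.val_mk0, Units.val_one] at this
    exact hζ.ne_one hq.one_lt h1

/-- **(MID)** for `V₂`: `β₂ (w g) ≡ α₂ g` modulo the maximal ideal of `V₂`, for `g ∈ V_∞(M' q)`. -/
theorem v2m64_mid {π : R} (hπ : Irreducible π) (hqπ : Associated ((q : ℕ) : R) π)
    (g : ↥(modularFunctionFieldFullC K (M' * q))) (hg : g ∈ cm85_Vinf (K := K) (M' * q) hπ) :
    al97L_beta K (M' * q) q (al97L_w (algebraMap K Kbar) M' q hq hM' g) -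
      al97L_alpha K (M' * q) q g ∈
        (v2g64_V2 (algebraMap K Kbar) M' q hq hM' hπ hqπ).nonunits := by
  obtain ⟨ζ, hζq, hζ1⟩ := v2m64_exists_zeta q hq
  rw [← v2m64_eq_vsq97 M' q hq hM' ζ hζq hζ1 hπ hqπ]
  exact vsq97_V2_mid M' q hq hM' ζ hζq hζ1 hπ (v2m64_hqR q hπ hqπ) g hg

/-- `β₂ (w g) ∈ V₂` for `g ∈ V_∞(M' q)`. -/
theorem v2m64_beta_w {π : R} (hπ : Irreducible π) (hqπ : Associated ((q : ℕ) : R) π)
    (g : ↥(modularFunctionFieldFullC K (M' * q))) (hg : g ∈ cm85_Vinf (K := K) (M' * q) hπ) :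
    al97L_beta K (M' * q) q (al97L_w (algebraMap K Kbar) M' q hq hM' g) ∈
      v2g64_V2 (algebraMap K Kbar) M' q hq hM' hπ hqπ := by
  have h1 := v2m64_mid M' q hq hM' hπ hqπ g hg
  have h2 := v2g64_V2_alpha (algebraMap K Kbar) M' q hq hM' hπ hqπ g hg
  have h3 : al97L_beta K (M' * q) q (al97L_w (algebraMap K Kbar) M' q hq hM' g) =
      (al97L_beta K (M' * q) q (al97L_w (algebraMap K Kbar) M' q hq hM' g) -
        al97L_alpha K (M' * q) q g) + al97L_alpha K (M' * q) q g := by ring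
  rw [h3]
  exact add_mem
    ((ValuationSubring.valuation_le_one_iff _ _).mp
      (le_of_lt ((ValuationSubring.mem_nonunits_iff _).mp h1))) h2

/-- **`β₂ V_0' ⊆ V₂`.** -/
theorem v2m64_beta_V0 {π : R} (hπ : Irreducible π) (hqπ : Associated ((q : ℕ) : R) π)
    (x : ↥(modularFunctionFieldFullC K (M' * q)))
    (hx : x ∈ s34i47c_V0 (K := K) M' q hq hM' hπ) :
    al97L_beta K (M' * q) q x ∈ v2g64_V2 (algebraMap K Kbar) M' q hq hM' hπ hqπ := by
  have h := v2m64_beta_w M' q hq hM' hπ hqπ _ ((s34i47c_mem_V0 M' q hq hM' hπ x).mp hx)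
  rwa [al97L_w_w] at h

/-- **`β₂ β₁ V(M') ⊆ V₂`** (`hE2` of `OnlyBindBeta72`). -/
theorem v2m64_beta_beta {π : R} (hπ : Irreducible π) (hqπ : Associated ((q : ℕ) : R) π)
    (a : ↥(modularFunctionFieldFullC K M')) (ha : a ∈ cm85_Vinf (K := K) M' hπ) :
    al97L_beta K (M' * q) q (al97L_beta K M' q a) ∈
      v2g64_V2 (algebraMap K Kbar) M' q hq hM' hπ hqπ := by
  have h := v2m64_beta_w M' q hq hM' hπ hqπ (al97L_alpha K M' q a)
    ((al97V_alpha_mem_Vinf M' q hπ a).mpr ha)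
  rwa [al97L_w_alpha_apply] at h

end v2m64_main

end Fermat.Agent.S36
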