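import Fermat.Agent.S36.V2Mid64

/-!
# S36 lab, row B1-V2 (helper64): (MID) for functions of level `M'` (helper24's clause E)

`V₂ := v2g64_V2 (algebraMap K ℚ̄) M' q hq hM' hπ hqπ`.  For every `x ∈ F(M')_K` in the Gauss ring
`cm85_Vinf M'` (e.g. every `x` with `R`-integral `q`-expansion: `j`, the Hauptmoduln)

  `β₂ (β₁ x) - α₂ (α₁ x) = x(Q^(q²)) - x(Q)`

lies in the maximal ideal of `V₂`:

* `v2ml64_mid` : `... ∈ V₂.nonunits`;
* `v2ml64_mid_val` : `V₂.valuation (...) < 1`;
* `v2ml64_mid_mem` : `... ∈ V₂`;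
* `v2ml64_mid_inv` : if the difference is nonzero its inverse is not in `V₂`;
* `v2ml64_mid_int` : the same for `x` with `R`-integral expansion `y`
  (`(x : K((Q))) = coeffMap (algebraMap R K) y`).

All names are prefixed `v2ml64_`.
-/

set_option autoImplicit false
set_option linter.unusedSectionVars false

open ModularCurve IntermediateField

namespace Fermat.Agent.S36

open Fermat.Agent.S18 Fermat.Agent.S24 Fermat.Agent.S28 Fermat.Agent.S37 Fermat.Agent.S34
open Fermat.Agent.S35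

section v2ml64

variable {R K : Type} [CommRing R] [IsDomain R] [IsDiscreteValuationRing R] [Field K] [CharZero K]
  [Algebra R K] [IsFractionRing R K] [Algebra K Kbar]
  (M' q : ℕ) [NeZero M'] [NeZero q] (hq : q.Prime) (hM' : ¬ q ∣ M')

/-- **(MID) at level `M'`**: `x(Q^(q²)) - x(Q) ∈ m(V₂)` for `x` in the Gauss ring of level `M'`. -/
theorem v2ml64_mid {π : R} (hπ : Irreducible π) (hqπ : Associated ((q : ℕ) : R) π)
    (x : ↥(modularFunctionFieldFullC K M')) (hx : x ∈ cm85_Vinf (K := K) M' hπ) :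
    al97L_beta K (M' * q) q (al97L_beta K M' q x) -
      al97L_alpha K (M' * q) q (al97L_alpha K M' q x) ∈
        (v2g64_V2 (algebraMap K Kbar) M' q hq hM' hπ hqπ).nonunits := by
  have h := v2m64_mid M' q hq hM' hπ hqπ (al97L_alpha K M' q x)
    ((al97V_alpha_mem_Vinf M' q hπ x).mpr hx)
  rwa [al97L_w_alpha_apply] at h

theorem v2ml64_mid_val {π : R} (hπ : Irreducible π) (hqπ : Associated ((q : ℕ) : R) π)
    (x : ↥(modularFunctionFieldFullC K M')) (hx : x ∈ cm85_Vinf (K := K) M' hπ) :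
    (v2g64_V2 (algebraMap K Kbar) M' q hq hM' hπ hqπ).valuation
      (al97L_beta K (M' * q) q (al97L_beta K M' q x) -
        al97L_alpha K (M' * q) q (al97L_alpha K M' q x)) < 1 :=
  (ValuationSubring.mem_nonunits_iff _).mp (v2ml64_mid M' q hq hM' hπ hqπ x hx)

theorem v2ml64_mid_mem {π : R} (hπ : Irreducible π) (hqπ : Associated ((q : ℕ) : R) π)
    (x : ↥(modularFunctionFieldFullC K M')) (hx : x ∈ cm85_Vinf (K := K) M' hπ) :
    al97L_beta K (M' * q) q (al97L_beta K M' q x) -
      al97L_alpha K (M' * q) q (al97L_alpha K M' q x) ∈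
        v2g64_V2 (algebraMap K Kbar) M' q hq hM' hπ hqπ :=
  (ValuationSubring.valuation_le_one_iff _ _).mp (v2ml64_mid_val M' q hq hM' hπ hqπ x hx).le

theorem v2ml64_mid_inv {π : R} (hπ : Irreducible π) (hqπ : Associated ((q : ℕ) : R) π)
    (x : ↥(modularFunctionFieldFullC K M')) (hx : x ∈ cm85_Vinf (K := K) M' hπ)
    (hne : al97L_beta K (M' * q) q (al97L_beta K M' q x) -
      al97L_alpha K (M' * q) q (al97L_alpha K M' q x) ≠ 0) :
    (al97L_beta K (M' * q) q (al97L_beta K M' q x) -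
      al97L_alpha K (M' * q) q (al97L_alpha K M' q x))⁻¹ ∉
        v2g64_V2 (algebraMap K Kbar) M' q hq hM' hπ hqπ :=
  (vsq97_mem_nonunits_iff_inv _ _ hne).mp (v2ml64_mid M' q hq hM' hπ hqπ x hx)

/-- The same for `x` with `R`-integral `q`-expansion. -/
theorem v2ml64_mid_int {π : R} (hπ : Irreducible π) (hqπ : Associated ((q : ℕ) : R) π)
    (x : ↥(modularFunctionFieldFullC K M')) (y : LaurentSeries R)
    (hxy : (x : LaurentSeries K) = coeffMap (algebraMap R K) y) :
    al97L_beta K (M' * q) q (al97L_beta K M' q x) -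
      al97L_alpha K (M' * q) q (al97L_alpha K M' q x) ∈
        (v2g64_V2 (algebraMap K Kbar) M' q hq hM' hπ hqπ).nonunits :=
  v2ml64_mid M' q hq hM' hπ hqπ x (gv85_mem_V_of_integral _ _ _ x y hxy)

end v2ml64

end Fermat.Agent.S36
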