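/-
S36 lab, row B2-val (helper11, abstract twin; Mathlib only).

"Newness kills the vertical part" (helper62 #2806): the bookkeeping of the three vertical
valuations `v₁, v₂, v₃` of level `q² M''` (normalised `v₁ π = 1`, `v₂ π = q - 1`, `v₃ π = 1`)
against the two vertical valuations `v∞', v₀'` of level `q M''`, through the valuation formulas
for the norms along `α` and `β`:

  `v∞'(N_α y) = v₁ y + v₂ y`,  `v₀'(N_α y) = q · v₃ y`,
  `v∞'(N_β y) = q · v₁ y`,      `v₀'(N_β y) = v₂ y + v₃ y`.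

If `N_α f = c_a · a^m` and `N_β f = c_b · b^m` with constants `c_a, c_b` (equal valuation at `∞'`
and `0'`), then `(q+1) · (v₁ f, v₂ f, v₃ f) ≡ (q+1) · v₁ f · (1, q-1, 1)` modulo `m`, so
`f^(q+1) / (π^k · y^m)` is a unit along all three valuations for `k = (q+1) · v₁ f` and a suitable
monomial `y` in uniformisers of `V₂`, `V₃`.

* `vb11_arith`  : the integer arithmetic;
* `vb11_group`  : commutative groups `G = Fˣ`, `G' = F'ˣ`, valuations as homs to `Multiplicative ℤ`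
                  replaced by additive maps `G → ℤ` (`v (x * y) = v x + v y`);
* `vb11_field`  : the same for fields, maps `F → ℤ` additive on nonzero elements, norms as
                  monoid homs `F →* F'`.
-/
import Mathlib

set_option autoImplicit false

namespace Fermat.Agent.S36

/-- The integer arithmetic behind "newness kills the vertical part". -/
theorem vb11_arith (q m e₁ e₂ e₃ A B : ℤ)
    (hA : e₁ + e₂ - q * e₃ = m * A) (hB : q * e₁ - e₂ - e₃ = m * B) :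
    (q + 1) * e₂ = (q + 1) * e₁ * (q - 1) + m * (A - q * B) ∧
      (q + 1) * e₃ = (q + 1) * e₁ + m * (-(A + B)) := by
  constructor
  · have h2 : e₂ = m * A - e₁ + q * e₃ := by linarith
    have h3 : (q + 1) * e₃ = (q + 1) * e₁ - m * (A + B) := by linarith
    calc (q + 1) * e₂ = (q + 1) * (m * A - e₁) + q * ((q + 1) * e₃) := by rw [h2]; ring
      _ = (q + 1) * (m * A - e₁) + q * ((q + 1) * e₁ - m * (A + B)) := by rw [h3]
      _ = (q + 1) * e₁ * (q - 1) + m * (A - q * B) := by ring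
  · linarith

/-- An additive map from a commutative group to `ℤ` respects powers, integer powers and
quotients. -/
theorem vb11_add_hom {H : Type*} [CommGroup H] (v : H → ℤ) (hv : ∀ x y, v (x * y) = v x + v y) :
    (∀ x : H, ∀ n : ℕ, v (x ^ n) = n * v x) ∧ (∀ x : H, ∀ n : ℤ, v (x ^ n) = n * v x) ∧
      (∀ x y : H, v (x / y) = v x - v y) := by
  let φ : H →* Multiplicative ℤ :=
    { toFun := fun x => Multiplicative.ofAdd (v x)
      map_one' := by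
        have h := hv 1 1
        rw [one_mul] at h
        have h0 : v 1 = 0 := by linarith
        simp [h0]
      map_mul' := fun x y => by simp [hv x y] }
  have hφ : ∀ x, v x = Multiplicative.toAdd (φ x) := fun x => rfl
  refine ⟨fun x n => ?_, fun x n => ?_, fun x y => ?_⟩
  · rw [hφ, hφ, map_pow]; simp
  · rw [hφ, hφ, map_zpow]; simp
  · rw [hφ, hφ, hφ, map_div]; simp

section Group

variable {G G' : Type*} [CommGroup G] [CommGroup G']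

/-- **B2-val, group form.**  `G = Fˣ` (level `q² M''`), `G' = F'ˣ` (level `q M''`);
`v₁ v₂ v₃ : G → ℤ` and `vi vz : G' → ℤ` (the valuations at `∞'`, `0'`) additive; the four
valuation formulas for the norms `NA`, `NB`; `π` with valuation vector `(1, q - 1, 1)`;
`y₂`, `y₃` with valuation vectors `(0, 1, 0)`, `(0, 0, 1)`; constants `ca`, `cb` with
`vi c = vz c`.  If `NA f = ca * a ^ m` and `NB f = cb * b ^ m`, then
`f ^ (q + 1) / (π ^ k * y ^ m)` has valuation vector `0` for some `k : ℤ` and `y : G`. -/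
theorem vb11_group (q m : ℕ)
    (v₁ v₂ v₃ : G → ℤ) (vi vz : G' → ℤ)
    (h₁ : ∀ x y, v₁ (x * y) = v₁ x + v₁ y) (h₂ : ∀ x y, v₂ (x * y) = v₂ x + v₂ y)
    (h₃ : ∀ x y, v₃ (x * y) = v₃ x + v₃ y)
    (hi : ∀ x y, vi (x * y) = vi x + vi y) (hz : ∀ x y, vz (x * y) = vz x + vz y)
    (NA NB : G → G')
    (hAi : ∀ y, vi (NA y) = v₁ y + v₂ y) (hAz : ∀ y, vz (NA y) = q * v₃ y)
    (hBi : ∀ y, vi (NB y) = q * v₁ y) (hBz : ∀ y, vz (NB y) = v₂ y + v₃ y)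
    (π y₂ y₃ : G)
    (hπ₁ : v₁ π = 1) (hπ₂ : v₂ π = (q : ℤ) - 1) (hπ₃ : v₃ π = 1)
    (hy₂₁ : v₁ y₂ = 0) (hy₂₂ : v₂ y₂ = 1) (hy₂₃ : v₃ y₂ = 0)
    (hy₃₁ : v₁ y₃ = 0) (hy₃₂ : v₂ y₃ = 0) (hy₃₃ : v₃ y₃ = 1)
    (f : G) (a b ca cb : G') (hca : vi ca = vz ca) (hcb : vi cb = vz cb)
    (hNA : NA f = ca * a ^ m) (hNB : NB f = cb * b ^ m) :
    ∃ (k : ℤ) (y : G), v₁ (f ^ (q + 1) / (π ^ k * y ^ m)) = 0 ∧
      v₂ (f ^ (q + 1) / (π ^ k * y ^ m)) = 0 ∧ v₃ (f ^ (q + 1) / (π ^ k * y ^ m)) = 0 := by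
  obtain ⟨p₁, z₁, d₁⟩ := vb11_add_hom v₁ h₁
  obtain ⟨p₂, z₂, d₂⟩ := vb11_add_hom v₂ h₂
  obtain ⟨p₃, z₃, d₃⟩ := vb11_add_hom v₃ h₃
  obtain ⟨pi', -, -⟩ := vb11_add_hom vi hi
  obtain ⟨pz', -, -⟩ := vb11_add_hom vz hz
  set e₁ := v₁ f with he₁
  set e₂ := v₂ f with he₂
  set e₃ := v₃ f with he₃
  -- the two congruences
  have hA1 : e₁ + e₂ = vi ca + m * vi a := by
    rw [← hAi f, hNA, hi, pi']
  have hA2 : (q : ℤ) * e₃ = vz ca + m * vz a := by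
    rw [← hAz f, hNA, hz, pz']
  have hB1 : (q : ℤ) * e₁ = vi cb + m * vi b := by
    rw [← hBi f, hNB, hi, pi']
  have hB2 : e₂ + e₃ = vz cb + m * vz b := by
    rw [← hBz f, hNB, hz, pz']
  have hA : e₁ + e₂ - q * e₃ = (m : ℤ) * (vi a - vz a) := by
    have : e₁ + e₂ - q * e₃ = (vi ca + m * vi a) - (vz ca + m * vz a) := by rw [← hA1, ← hA2]
    rw [this, hca]; ring
  have hB : q * e₁ - e₂ - e₃ = (m : ℤ) * (vi b - vz b) := by
    have : q * e₁ - e₂ - e₃ = (vi cb + m * vi b) - (vz cb + m * vz b) := by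
      rw [← hB1, ← hB2]; ring
    rw [this, hcb]; ring
  obtain ⟨k2, k3⟩ := vb11_arith q m e₁ e₂ e₃ (vi a - vz a) (vi b - vz b) hA hB
  set A := vi a - vz a with hAdef
  set B := vi b - vz b with hBdef
  refine ⟨((q : ℤ) + 1) * e₁, y₂ ^ (A - q * B) * y₃ ^ (-(A + B)), ?_, ?_, ?_⟩
  · rw [d₁, p₁, h₁, z₁, p₁, h₁, z₁, z₁, hπ₁, hy₂₁, hy₃₁]
    push_cast
    ring
  · rw [d₂, p₂, h₂, z₂, p₂, h₂, z₂, z₂, hπ₂, hy₂₂, hy₃₂]
    push_cast
    have := k2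
    linarith
  · rw [d₃, p₃, h₃, z₃, p₃, h₃, z₃, z₃, hπ₃, hy₂₃, hy₃₃]
    push_cast
    have := k3
    linarith

end Group

section Field

variable {F F' : Type*} [Field F] [Field F']

/-- **B2-val, field form.**  The valuations are maps `F → ℤ`, `F' → ℤ` additive on nonzero
elements; the norms are monoid homs `F →* F'`. -/
theorem vb11_field (q m : ℕ)
    (v₁ v₂ v₃ : F → ℤ) (vi vz : F' → ℤ)
    (h₁ : ∀ x y, x ≠ 0 → y ≠ 0 → v₁ (x * y) = v₁ x + v₁ y)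
    (h₂ : ∀ x y, x ≠ 0 → y ≠ 0 → v₂ (x * y) = v₂ x + v₂ y)
    (h₃ : ∀ x y, x ≠ 0 → y ≠ 0 → v₃ (x * y) = v₃ x + v₃ y)
    (hi : ∀ x y, x ≠ 0 → y ≠ 0 → vi (x * y) = vi x + vi y)
    (hz : ∀ x y, x ≠ 0 → y ≠ 0 → vz (x * y) = vz x + vz y)
    (NA NB : F →* F')
    (hAi : ∀ y, y ≠ 0 → vi (NA y) = v₁ y + v₂ y) (hAz : ∀ y, y ≠ 0 → vz (NA y) = q * v₃ y)
    (hBi : ∀ y, y ≠ 0 → vi (NB y) = q * v₁ y) (hBz : ∀ y, y ≠ 0 → vz (NB y) = v₂ y + v₃ y)
    (π y₂ y₃ : F) (hπ0 : π ≠ 0) (hy₂0 : y₂ ≠ 0) (hy₃0 : y₃ ≠ 0)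
    (hπ₁ : v₁ π = 1) (hπ₂ : v₂ π = (q : ℤ) - 1) (hπ₃ : v₃ π = 1)
    (hy₂₁ : v₁ y₂ = 0) (hy₂₂ : v₂ y₂ = 1) (hy₂₃ : v₃ y₂ = 0)
    (hy₃₁ : v₁ y₃ = 0) (hy₃₂ : v₂ y₃ = 0) (hy₃₃ : v₃ y₃ = 1)
    (f : F) (hf0 : f ≠ 0) (a b ca cb : F') (ha0 : a ≠ 0) (hb0 : b ≠ 0) (hca0 : ca ≠ 0)
    (hcb0 : cb ≠ 0) (hca : vi ca = vz ca) (hcb : vi cb = vz cb)
    (hNA : NA f = ca * a ^ m) (hNB : NB f = cb * b ^ m) :
    ∃ (k : ℤ) (y : F), y ≠ 0 ∧ v₁ (f ^ (q + 1) / (π ^ k * y ^ m)) = 0 ∧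
      v₂ (f ^ (q + 1) / (π ^ k * y ^ m)) = 0 ∧ v₃ (f ^ (q + 1) / (π ^ k * y ^ m)) = 0 := by
  obtain ⟨k, y, hk₁, hk₂, hk₃⟩ := vb11_group (G := Fˣ) (G' := F'ˣ) q m
    (fun u => v₁ (u : F)) (fun u => v₂ (u : F)) (fun u => v₃ (u : F))
    (fun u => vi (u : F')) (fun u => vz (u : F'))
    (fun x y => by simpa using h₁ x y x.ne_zero y.ne_zero)
    (fun x y => by simpa using h₂ x y x.ne_zero y.ne_zero)
    (fun x y => by simpa using h₃ x y x.ne_zero y.ne_zero)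
    (fun x y => by simpa using hi x y x.ne_zero y.ne_zero)
    (fun x y => by simpa using hz x y x.ne_zero y.ne_zero)
    (Units.map NA) (Units.map NB)
    (fun y => by simpa using hAi y y.ne_zero) (fun y => by simpa using hAz y y.ne_zero)
    (fun y => by simpa using hBi y y.ne_zero) (fun y => by simpa using hBz y y.ne_zero)
    (Units.mk0 π hπ0) (Units.mk0 y₂ hy₂0) (Units.mk0 y₃ hy₃0)
    (by simpa using hπ₁) (by simpa using hπ₂) (by simpa using hπ₃)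
    (by simpa using hy₂₁) (by simpa using hy₂₂) (by simpa using hy₂₃)
    (by simpa using hy₃₁) (by simpa using hy₃₂) (by simpa using hy₃₃)
    (Units.mk0 f hf0) (Units.mk0 a ha0) (Units.mk0 b hb0) (Units.mk0 ca hca0) (Units.mk0 cb hcb0)
    (by simpa using hca) (by simpa using hcb)
    (by ext; simpa using hNA) (by ext; simpa using hNB)
  refine ⟨k, (y : F), y.ne_zero, ?_, ?_, ?_⟩
  · simpa using hk₁
  · simpa using hk₂
  · simpa using hk₃

end Field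

end Fermat.Agent.S36
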