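import Fermat.Agent.S36.OnlyThree72
import Fermat.Agent.S36.V2Gauss64
import Fermat.Agent.S36.NormVal3
import Fermat.Agent.S36.BetaByW3
import Fermat.Agent.S35.Iface62

/-!
# S36 lab, row 620 B2-VAL-INST (helper3): the norm-valuation identities on the level `M' q²` frame

Concrete frame (conventions of `OnlyBind72` / `OnlyBindInert72` / `Split3Inst66`):
`F1 = F_K(M' q)`, `F2 = F_K(M' q q)`, `V_∞' = cm85_Vinf (M' q)`, `V_0' = s34i47c_V0 M' q`,
`V₁ = cm85_Vinf (M' q q)`; `V₂`, `V₃` are PARAMETERS with the hypotheses of `ob72_ram` /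
`obi72_inert`.

* `vi3_alpha_inf` : `v_∞'(N_α y) = v₁(y) + v₂(y)`;
* `vi3_alpha_zero` : `v_0'(N_α y) = q v₃(y)`;
* `vi3_beta` : the two `β`-identities, by `w₂` (`als86_w2`), for `V₃ = w₂^* V₁` and a
  `w₂`-stable `V₂`.

All four in the literal shape of the hypotheses `hAinf`, `hA0`, `hBinf`, `hB0` of `vs1_main`.
-/

set_option autoImplicit false
set_option linter.unusedSectionVars false
set_option linter.style.haveILetI false
set_option linter.style.longLine false

open ModularCurve AlgebraicCurve IntermediateField Polynomial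

namespace Fermat.Agent.S36

open Fermat.Agent.S18 Fermat.Agent.S24 Fermat.Agent.S28 Fermat.Agent.S37 Fermat.Agent.S34
open Fermat.Agent.S42 Fermat.Agent.S35

local notation "Q̄" => AlgebraicClosure ℚ

/-- Archimedean property of a valuation subring over a discrete valuation subring, with respect
to any nonzero non-unit `s`. -/
theorem vi3_harch {K L : Type*} [Field K] [Field L] [Algebra K L] [FiniteDimensional K L]
    {V' : ValuationSubring K} {π : K} {V : ValuationSubring L}
    (hD : oe10_DVR V' π) (hV : oe10_Over V' π V) (s : L) (hs0 : s ≠ 0)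
    (hs : V.valuation s < 1) : ∀ x : L, x ≠ 0 → ∃ n : ℕ, (s ^ n)⁻¹ * x ∉ V := by
  intro x hx
  obtain ⟨a₀, ha₀⟩ := oe10_pow_mul_le_pi hD hV hs x⁻¹
  refine ⟨a₀, fun hmem => ?_⟩
  have h1 := ha₀ a₀ le_rfl
  have h2 := (V.valuation_le_one_iff _).2 hmem
  have hvs : V.valuation s ≠ 0 := (Valuation.ne_zero_iff _).2 hs0
  have hvx : V.valuation x ≠ 0 := (Valuation.ne_zero_iff _).2 hx
  have h3 : V.valuation s ^ a₀ * V.valuation x⁻¹ < 1 :=
    lt_of_le_of_lt h1 (oe10_val_pi_lt_one hD hV)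
  have h4 : (V.valuation s ^ a₀ * V.valuation x⁻¹) * V.valuation ((s ^ a₀)⁻¹ * x) = 1 := by
    rw [map_mul, map_inv₀, map_inv₀, map_pow]
    field_simp
  have h5 : (V.valuation s ^ a₀ * V.valuation x⁻¹) * V.valuation ((s ^ a₀)⁻¹ * x) < 1 := by
    calc (V.valuation s ^ a₀ * V.valuation x⁻¹) * V.valuation ((s ^ a₀)⁻¹ * x)
        ≤ (V.valuation s ^ a₀ * V.valuation x⁻¹) * 1 := mul_le_mul' le_rfl h2
      _ = V.valuation s ^ a₀ * V.valuation x⁻¹ := mul_one _
      _ < 1 := h3
  rw [h4] at h5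
  exact lt_irrefl _ h5

section vi3

variable {R K : Type} [CommRing R] [IsDomain R] [IsDiscreteValuationRing R] [Field K] [CharZero K]
  [Algebra R K] [IsFractionRing R K] (M' q : ℕ) [NeZero M'] [NeZero q]

/-- **(I1), `α` over `V_∞'`**: `v_∞'(N_α y) = v₁(y) + v₂(y)`. -/
theorem vi3_alpha_inf (hq : q.Prime) {π : R} (hπ : Irreducible π)
    (V₂ : ValuationSubring ↥(modularFunctionFieldFullC K (M' * q * q)))
    (hV₂ : ∀ c ∈ cm85_Vinf (K := K) (M' * q) hπ, al97L_alpha K (M' * q) q c ∈ V₂)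
    (hπ₂ : (algebraMap K ↥(modularFunctionFieldFullC K (M' * q * q)) (algebraMap R K π))⁻¹ ∉ V₂)
    (hne : cm85_Vinf (K := K) (M' * q * q) hπ ≠ V₂)
    (s : ↥(modularFunctionFieldFullC K (M' * q * q)))
    (hs : V₂.valuation s ^ (q - 1) =
      V₂.valuation (algebraMap K ↥(modularFunctionFieldFullC K (M' * q * q)) (algebraMap R K π)))
    (hs1 : (cm85_Vinf (K := K) (M' * q * q) hπ).valuation s = 1) :
    ∀ y : ↥(modularFunctionFieldFullC K (M' * q * q)), y ≠ 0 → ∀ a b : ℤ,
      (cm85_Vinf (K := K) (M' * q * q) hπ).valuation y =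
        (cm85_Vinf (K := K) (M' * q * q) hπ).valuation
          (algebraMap K ↥(modularFunctionFieldFullC K (M' * q * q)) (algebraMap R K π)) ^ a →
      V₂.valuation y = V₂.valuation s ^ b →
      (cm85_Vinf (K := K) (M' * q) hπ).valuation (s35i62_normA K (M' * q) q y) =
        (cm85_Vinf (K := K) (M' * q) hπ).valuation
          (algebraMap K ↥(modularFunctionFieldFullC K (M' * q)) (algebraMap R K π)) ^ (a + b) := by
  letI alg : Algebra ↥(modularFunctionFieldFullC K (M' * q))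
      ↥(modularFunctionFieldFullC K (M' * q * q)) :=
    (al97L_alpha K (M' * q) q).toRingHom.toAlgebra
  have hqM : q ∣ M' * q := dvd_mul_left q M'
  have hfr := ob72_finrank K (M' * q) q hq hqM
  haveI : FiniteDimensional ↥(modularFunctionFieldFullC K (M' * q))
      ↥(modularFunctionFieldFullC K (M' * q * q)) :=
    Module.finite_of_finrank_pos (by rw [hfr]; exact hq.pos)
  have hπEF : algebraMap ↥(modularFunctionFieldFullC K (M' * q))
      ↥(modularFunctionFieldFullC K (M' * q * q))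
      (algebraMap K ↥(modularFunctionFieldFullC K (M' * q)) (algebraMap R K π)) =
      algebraMap K ↥(modularFunctionFieldFullC K (M' * q * q)) (algebraMap R K π) :=
    (al97L_alpha K (M' * q) q).commutes _
  have hD : oe10_DVR (cm85_Vinf (K := K) (M' * q) hπ)
      (algebraMap K ↥(modularFunctionFieldFullC K (M' * q)) (algebraMap R K π)) :=
    ⟨gv85_mem_V_of_integral _ _ _ _ (HahnSeries.C π)
        (by rw [gv85_coe_algebraMap, gv85_coeffMap_C]),
      gv85_pi_inv_not_mem (IsLocalRing.residue R) π (pk85_res_iff hπ) hπ.ne_zero _ _,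
      fun x hx hx' =>
        gv85_hmax (IsLocalRing.residue R) π (pk85_res_iff hπ) hπ.ne_zero _ _ x hx hx',
      fs85_harch (K := K) (M' * q) hπ⟩
  have hO1 : oe10_Over (cm85_Vinf (K := K) (M' * q) hπ)
      (algebraMap K ↥(modularFunctionFieldFullC K (M' * q)) (algebraMap R K π))
      (cm85_Vinf (K := K) (M' * q * q) hπ) :=
    ⟨fun c hc => (al97V_alpha_mem_Vinf (M' * q) q hπ c).mpr hc, by
      rw [hπEF]
      exact gv85_pi_inv_not_mem (IsLocalRing.residue R) π (pk85_res_iff hπ) hπ.ne_zero _ _⟩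
  have hO2 : oe10_Over (cm85_Vinf (K := K) (M' * q) hπ)
      (algebraMap K ↥(modularFunctionFieldFullC K (M' * q)) (algebraMap R K π)) V₂ :=
    ⟨hV₂, by rw [hπEF]; exact hπ₂⟩
  obtain ⟨b, hb, hrepr⟩ := ob72_ram_basis (K := K) (M' * q) q hq hqM hπ V₂ hV₂ hπ₂ hne s hs
  obtain ⟨-, -, hmax2, -, -⟩ := ob72_ram (K := K) (M' * q) q hq hqM hπ V₂ hV₂ hπ₂ hne s hs
  have hd' : vv3_Disc (cm85_Vinf (K := K) (M' * q) hπ)
      (algebraMap K ↥(modularFunctionFieldFullC K (M' * q)) (algebraMap R K π)) :=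
    vv3_disc_of_hmax _ _ (oe10_pi_ne_zero hD) hD.mem hD.inv_not_mem hD.hmax hD.harch
  have hp1 := oe10_val_pi_lt_one hD hO1
  have hπ2lt := oe10_val_pi_lt_one hD hO2
  have hq1 : q - 1 ≠ 0 := by have := hq.two_le; omega
  have hs' : V₂.valuation s ^ (q - 1) = V₂.valuation
      (algebraMap ↥(modularFunctionFieldFullC K (M' * q)) ↥(modularFunctionFieldFullC K (M' * q * q))
        (algebraMap K ↥(modularFunctionFieldFullC K (M' * q)) (algebraMap R K π))) := by
    rw [hπEF]; exact hs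
  have hs0 : s ≠ 0 := by
    rintro rfl
    rw [map_zero, zero_pow hq1] at hs'
    exact (oe10_val_pi_ne_zero (V := V₂) hD) hs'.symm
  have hslt : V₂.valuation s < 1 := by
    by_contra hcon
    have h1 : 1 ≤ V₂.valuation s ^ (q - 1) := one_le_pow₀ (not_lt.1 hcon)
    rw [hs'] at h1
    exact absurd hπ2lt (not_lt.2 h1)
  have hsmem : s ∈ V₂ := (V₂.valuation_le_one_iff _).1 hslt.le
  have hsinv : s⁻¹ ∉ V₂ := by
    intro h
    have h1 := (V₂.valuation_le_one_iff _).2 h
    rw [map_inv₀] at h1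
    have hpos : 0 < V₂.valuation s := zero_lt_iff.2 ((Valuation.ne_zero_iff _).2 hs0)
    exact absurd hslt (not_lt.2 ((inv_le_one₀ hpos).1 h1))
  have hd2 : vv3_Disc V₂ s :=
    vv3_disc_of_hmax V₂ s hs0 hsmem hsinv hmax2 (vi3_harch hD hO2 s hs0 hslt)
  have hp2 : V₂.valuation (algebraMap ↥(modularFunctionFieldFullC K (M' * q))
      ↥(modularFunctionFieldFullC K (M' * q * q))
      (algebraMap K ↥(modularFunctionFieldFullC K (M' * q)) (algebraMap R K π)))
      = V₂.valuation s ^ ((q : ℤ) - 1) := by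
    rw [← hs', ← Nat.cast_pred hq.pos, zpow_natCast]
  have key := nv3_pair q hq.two_le hfr (cm85_Vinf (K := K) (M' * q) hπ)
    (cm85_Vinf (K := K) (M' * q * q) hπ) V₂
    (algebraMap K ↥(modularFunctionFieldFullC K (M' * q)) (algebraMap R K π)) s
    hO1.le hO2.le hd' hp1 hd2 hp2 hs1 b hb hrepr
  intro y _ a b' ha hb'
  rw [← hπEF] at ha
  exact key y a b' ha hb'

end vi3

section vi3b

variable {R K : Type} [CommRing R] [IsDomain R] [IsDiscreteValuationRing R] [Field K] [CharZero K]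
  [Algebra R K] [IsFractionRing R K] [Algebra K Q̄] (M' q : ℕ) [NeZero M'] [NeZero q]

/-- **(I1), `α` over `V_0'`**: `v_0'(N_α y) = q v₃(y)`, for any `V₃` over `V_0'` (along `α`)
with a Frobenius witness `y₀` (the hypotheses of `obi72_inert`). -/
theorem vi3_alpha_zero (hq : q.Prime) (hM' : ¬ q ∣ M') {π : R} (hπ : Irreducible π)
    (V₃ : ValuationSubring ↥(modularFunctionFieldFullC K (M' * q * q)))
    (hV₃ : ∀ c ∈ s34i47c_V0 (K := K) M' q hq hM' hπ, al97L_alpha K (M' * q) q c ∈ V₃)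
    (hπ₃ : (algebraMap K ↥(modularFunctionFieldFullC K (M' * q * q)) (algebraMap R K π))⁻¹ ∉ V₃)
    (y₀ : ↥(modularFunctionFieldFullC K (M' * q * q))) (hy : y₀ ∈ V₃)
    (hya : (algebraMap K ↥(modularFunctionFieldFullC K (M' * q * q)) (algebraMap R K π))⁻¹ *
      (y₀ ^ q - al97L_alpha K (M' * q) q (al97L_beta K M' q (relimc_J K M'))) ∈ V₃) :
    ∀ y : ↥(modularFunctionFieldFullC K (M' * q * q)), y ≠ 0 → ∀ c : ℤ,
      V₃.valuation y = V₃.valuation
          (algebraMap K ↥(modularFunctionFieldFullC K (M' * q * q)) (algebraMap R K π)) ^ c →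
      (s34i47c_V0 (K := K) M' q hq hM' hπ).valuation (s35i62_normA K (M' * q) q y) =
        (s34i47c_V0 (K := K) M' q hq hM' hπ).valuation
          (algebraMap K ↥(modularFunctionFieldFullC K (M' * q)) (algebraMap R K π)) ^
            ((q : ℤ) * c) := by
  letI alg : Algebra ↥(modularFunctionFieldFullC K (M' * q))
      ↥(modularFunctionFieldFullC K (M' * q * q)) :=
    (al97L_alpha K (M' * q) q).toRingHom.toAlgebra
  have hfr := ob72_finrank K (M' * q) q hq (dvd_mul_left q M')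
  haveI : FiniteDimensional ↥(modularFunctionFieldFullC K (M' * q))
      ↥(modularFunctionFieldFullC K (M' * q * q)) :=
    Module.finite_of_finrank_pos (by rw [hfr]; exact hq.pos)
  have hπEF : algebraMap ↥(modularFunctionFieldFullC K (M' * q))
      ↥(modularFunctionFieldFullC K (M' * q * q))
      (algebraMap K ↥(modularFunctionFieldFullC K (M' * q)) (algebraMap R K π)) =
      algebraMap K ↥(modularFunctionFieldFullC K (M' * q * q)) (algebraMap R K π) :=
    (al97L_alpha K (M' * q) q).commutes _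
  have hD := obi72_V0_dvr (K := K) M' q hq hM' hπ
  obtain ⟨b, hb, hrepr⟩ := obi72_inert_basis (K := K) M' q hq hM' hπ V₃ hV₃ hπ₃ y₀ hy hya
  have key := nv3_single q hfr (s34i47c_V0 (K := K) M' q hq hM' hπ) V₃
    (algebraMap K ↥(modularFunctionFieldFullC K (M' * q)) (algebraMap R K π))
    (oe10_pi_ne_zero hD) b hb hrepr
  intro y _ c hc
  rw [← hπEF] at hc
  exact key y c hc

/-- `N_β y = w (N_α (w₂ y))` for the interface norms. -/
theorem vi3_norm_beta (hq : q.Prime) (hM' : ¬ q ∣ M') (hL : ((M' * q * q : ℕ) : K) ≠ 0)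
    (y : ↥(modularFunctionFieldFullC K (M' * q * q))) :
    s35i62_normB K (M' * q) q y = al97L_w (algebraMap K Q̄) M' q hq hM'
      (s35i62_normA K (M' * q) q (als86_w2 (algebraMap K Q̄) M' q hq hM' hL y)) :=
  als86_norm_beta (algebraMap K Q̄) M' q hq hM' hL y

/-- The four norm-valuation identities **(I1)** on the level `M' q²` frame, in the literal shape
of the hypotheses `hAinf`, `hA0`, `hBinf`, `hB0` of `vs1_main`, for `V₃` the `w₂`-transport of
`V₁` and a `w₂`-stable `V₂` (a parameter with the facts of `ob72_ram`). -/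
theorem vi3_four (hq : q.Prime) (hM' : ¬ q ∣ M') {π : R} (hπ : Irreducible π)
    (hqR : ¬ IsUnit (q : R)) (hL : ((M' * q * q : ℕ) : K) ≠ 0)
    (V₂ : ValuationSubring ↥(modularFunctionFieldFullC K (M' * q * q)))
    (hV₂ : ∀ c ∈ cm85_Vinf (K := K) (M' * q) hπ, al97L_alpha K (M' * q) q c ∈ V₂)
    (hπ₂ : (algebraMap K ↥(modularFunctionFieldFullC K (M' * q * q)) (algebraMap R K π))⁻¹ ∉ V₂)
    (hne : cm85_Vinf (K := K) (M' * q * q) hπ ≠ V₂)
    (s : ↥(modularFunctionFieldFullC K (M' * q * q)))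
    (hs : V₂.valuation s ^ (q - 1) =
      V₂.valuation (algebraMap K ↥(modularFunctionFieldFullC K (M' * q * q)) (algebraMap R K π)))
    (hs1 : (cm85_Vinf (K := K) (M' * q * q) hπ).valuation s = 1)
    (h22 : ∀ x, x ∈ V₂ ↔ als86_w2 (algebraMap K Q̄) M' q hq hM' hL x ∈ V₂)
    (hw2s : V₂.valuation (als86_w2 (algebraMap K Q̄) M' q hq hM' hL s) = V₂.valuation s)
    (V₃ : ValuationSubring ↥(modularFunctionFieldFullC K (M' * q * q)))
    (hV₃mem : ∀ x, x ∈ V₃ ↔
      als86_w2 (algebraMap K Q̄) M' q hq hM' hL x ∈ cm85_Vinf (K := K) (M' * q * q) hπ) :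
    (∀ y : ↥(modularFunctionFieldFullC K (M' * q * q)), y ≠ 0 → ∀ a b : ℤ,
      (cm85_Vinf (K := K) (M' * q * q) hπ).valuation y =
        (cm85_Vinf (K := K) (M' * q * q) hπ).valuation
          (algebraMap K ↥(modularFunctionFieldFullC K (M' * q * q)) (algebraMap R K π)) ^ a →
      V₂.valuation y = V₂.valuation s ^ b →
      (cm85_Vinf (K := K) (M' * q) hπ).valuation (s35i62_normA K (M' * q) q y) =
        (cm85_Vinf (K := K) (M' * q) hπ).valuation
          (algebraMap K ↥(modularFunctionFieldFullC K (M' * q)) (algebraMap R K π)) ^ (a + b)) ∧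
    (∀ y : ↥(modularFunctionFieldFullC K (M' * q * q)), y ≠ 0 → ∀ c : ℤ,
      V₃.valuation y = V₃.valuation
          (algebraMap K ↥(modularFunctionFieldFullC K (M' * q * q)) (algebraMap R K π)) ^ c →
      (s34i47c_V0 (K := K) M' q hq hM' hπ).valuation (s35i62_normA K (M' * q) q y) =
        (s34i47c_V0 (K := K) M' q hq hM' hπ).valuation
          (algebraMap K ↥(modularFunctionFieldFullC K (M' * q)) (algebraMap R K π)) ^
            ((q : ℤ) * c)) ∧
    (∀ y : ↥(modularFunctionFieldFullC K (M' * q * q)), y ≠ 0 → ∀ a : ℤ,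
      (cm85_Vinf (K := K) (M' * q * q) hπ).valuation y =
        (cm85_Vinf (K := K) (M' * q * q) hπ).valuation
          (algebraMap K ↥(modularFunctionFieldFullC K (M' * q * q)) (algebraMap R K π)) ^ a →
      (cm85_Vinf (K := K) (M' * q) hπ).valuation (s35i62_normB K (M' * q) q y) =
        (cm85_Vinf (K := K) (M' * q) hπ).valuation
          (algebraMap K ↥(modularFunctionFieldFullC K (M' * q)) (algebraMap R K π)) ^
            ((q : ℤ) * a)) ∧
    (∀ y : ↥(modularFunctionFieldFullC K (M' * q * q)), y ≠ 0 → ∀ b c : ℤ,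
      V₂.valuation y = V₂.valuation s ^ b →
      V₃.valuation y = V₃.valuation
          (algebraMap K ↥(modularFunctionFieldFullC K (M' * q * q)) (algebraMap R K π)) ^ c →
      (s34i47c_V0 (K := K) M' q hq hM' hπ).valuation (s35i62_normB K (M' * q) q y) =
        (s34i47c_V0 (K := K) M' q hq hM' hπ).valuation
          (algebraMap K ↥(modularFunctionFieldFullC K (M' * q)) (algebraMap R K π)) ^ (b + c)) := by
  have hAinf := vi3_alpha_inf (K := K) M' q hq hπ V₂ hV₂ hπ₂ hne s hs hs1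
  have hA0 := vi3_alpha_zero (K := K) M' q hq hM' hπ V₃
    (o3x72_V3_over M' q hq hM' hπ hL V₃ hV₃mem)
    (o3x72_V3_pi M' q hq hM' hπ hL V₃ hV₃mem) _
    (o3x72_V3_y M' q hq hM' hπ hL V₃ hV₃mem)
    (o3x72_V3_frob M' q hq hM' hπ hqR hL V₃ hV₃mem)
  have hπ0 : algebraMap R K π ≠ 0 := fun h =>
    hπ.ne_zero ((IsFractionRing.injective R K) (h.trans (map_zero _).symm))
  have hp2 : algebraMap K ↥(modularFunctionFieldFullC K (M' * q * q)) (algebraMap R K π) ≠ 0 :=
    (_root_.map_ne_zero _).2 hπ0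
  have hp1 : algebraMap K ↥(modularFunctionFieldFullC K (M' * q)) (algebraMap R K π) ≠ 0 :=
    (_root_.map_ne_zero _).2 hπ0
  have hq1 : q - 1 ≠ 0 := by have := hq.two_le; omega
  have hs0 : s ≠ 0 := by
    rintro rfl
    rw [map_zero, zero_pow hq1] at hs
    exact ((Valuation.ne_zero_iff _).2 hp2) hs.symm
  obtain ⟨hBinf, hB0⟩ := bw3_beta q (s35i62_normA K (M' * q) q) (s35i62_normB K (M' * q) q)
    ((al97L_w (algebraMap K Q̄) M' q hq hM' : ↥(modularFunctionFieldFullC K (M' * q)) ≃ₐ[K] _) :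
      ↥(modularFunctionFieldFullC K (M' * q)) →+* _)
    ((als86_w2 (algebraMap K Q̄) M' q hq hM' hL :
      ↥(modularFunctionFieldFullC K (M' * q * q)) ≃ₐ[K] _) :
      ↥(modularFunctionFieldFullC K (M' * q * q)) →+* _)
    (fun y => vi3_norm_beta M' q hq hM' hL y)
    (cm85_Vinf (K := K) (M' * q * q) hπ) V₂ V₃
    (cm85_Vinf (K := K) (M' * q) hπ) (s34i47c_V0 (K := K) M' q hq hM' hπ)
    hV₃mem
    (fun x => by
      have h := hV₃mem (als86_w2 (algebraMap K Q̄) M' q hq hM' hL x)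
      rw [als86_w2_w2] at h
      exact h.symm)
    h22
    (fun x => s34i47c_mem_V0 M' q hq hM' hπ x)
    (fun x => by
      have h := s34i47c_mem_V0 (K := K) M' q hq hM' hπ
        (al97L_w (algebraMap K Q̄) M' q hq hM' x)
      rw [al97L_w_w] at h
      exact h.symm)
    (algebraMap K ↥(modularFunctionFieldFullC K (M' * q * q)) (algebraMap R K π)) s
    (algebraMap K ↥(modularFunctionFieldFullC K (M' * q)) (algebraMap R K π))
    hp2 hs0 hp1
    ((al97L_w (algebraMap K Q̄) M' q hq hM').commutes _)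
    ((als86_w2 (algebraMap K Q̄) M' q hq hM' hL).commutes _)
    hw2s hAinf hA0
  exact ⟨hAinf, hA0, hBinf, hB0⟩

/-- `w₂ s = -s` for the canonical `s = j(Q^(q²)) - j(Q)` of `V2Gauss64`; hence the hypothesis
`hw2s` of `vi3_four` holds for it. -/
theorem vi3_w2_s (hq : q.Prime) (hM' : ¬ q ∣ M') (hL : ((M' * q * q : ℕ) : K) ≠ 0) :
    als86_w2 (algebraMap K Q̄) M' q hq hM' hL (v2g64_s K M' q) = -(v2g64_s K M' q) := by
  unfold v2g64_s
  rw [map_sub, als86_w2_beta, als86_w2_alpha, al97L_w_beta_apply, al97L_w_alpha_apply, neg_sub]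

/-- The hypothesis `hw2s` of `vi3_four` from `w₂ s = -s`. -/
theorem vi3_hw2s {F : Type*} [Field F] (V : ValuationSubring F) (w2 : F → F) (s : F)
    (h : w2 s = -s) : V.valuation (w2 s) = V.valuation s := by
  rw [h, Valuation.map_neg]

end vi3b

end Fermat.Agent.S36
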