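import Fermat.Agent.S36.ValSq97
import Fermat.Agent.S36.V2Gauss64
import Fermat.Prelude.Thm_ModularCurve_coeff_jqModC_neg_one

/-!
# S36 lab (helper97): ramification of the middle valuation `V₂ = vsq97_V2` of `F(M' q²)_K`

For the definite `V₂ = vsq97_V2 R K M' q hq hM' ζ` (`ζ` a primitive `q`-th root of unity of `ℚ̄`),
`s = v2g64_s K M' q = j(Q^{q²}) - j(Q)` and an unramified uniformizer (`q ~ π` in `R`):

* `vsq97_s_nonunit` : `s ∈ V₂.nonunits`, `vsq97_s_ne_zero`;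
* `vsq97_V2_ram`    : `V₂.valuation s ^ (q - 1) = V₂.valuation π`;
* `vsq97_V1_ne_V2`  : `cm85_Vinf (M' q²) ≠ V₂`;
* `vsq97_V2_pkg`    : the four conjuncts of `v2g64_exists_of_datum` + **(MID)** for this `V₂`.

All names are prefixed `vsq97_`.
-/

set_option autoImplicit false
set_option linter.unusedSectionVars false

open ModularCurve AlgebraicCurve IntermediateField
open Fermat.Agent.S24 Fermat.Agent.S28 Fermat.Agent.S18 Fermat.Agent.S37 Fermat.Agent.S34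
open Fermat.Agent.S42 Fermat.Agent.S35

namespace Fermat.Agent.S36

/-- `q = (μ⁻¹ - 1)^(q-1) · unit` for a primitive `q`-th root of unity `μ` in a domain. -/
theorem vsq97_cyc_unit {A : Type*} [CommRing A] [IsDomain A] (μ μi : A) (hμi : μ * μi = 1)
    (q : ℕ) (hq : q.Prime) (hμ : IsPrimitiveRoot μ q) :
    ∃ e e' : A, e * e' = 1 ∧ (q : A) = (μi - 1) ^ (q - 1) * e := by
  obtain ⟨n, rfl⟩ : ∃ n, q = n + 1 := ⟨q - 1, by have := hq.pos; omega⟩
  have hprod := hμ.prod_one_sub_pow_eq_order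
  have hassoc : ∀ k : Fin n, ∃ e : Aˣ, (μi - 1) * e = 1 - μ ^ ((k : ℕ) + 1) := by
    intro k
    have hcop : Nat.Coprime ((k : ℕ) + 1) (n + 1) :=
      ((Nat.Prime.coprime_iff_not_dvd hq).mpr
        (Nat.not_dvd_of_pos_of_lt (Nat.succ_pos _) (by have := k.2; omega))).symm
    have h1 : Associated (μ - 1) (μ ^ ((k : ℕ) + 1) - 1) :=
      hμ.associated_sub_one_pow_sub_one_of_coprime hcop
    have h2 : Associated (μi - 1) (μ - 1) :=
      ⟨-(Units.mkOfMulEqOne μ μi hμi), by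
        simp only [Units.val_neg, Units.val_mkOfMulEqOne]
        linear_combination (-1 : A) * hμi⟩
    have h3 : Associated (μ ^ ((k : ℕ) + 1) - 1) (1 - μ ^ ((k : ℕ) + 1)) :=
      ⟨-1, by simp⟩
    exact h2.trans (h1.trans h3)
  choose e he using hassoc
  refine ⟨∏ k : Fin n, (e k : A), ∏ k : Fin n, (((e k)⁻¹ : Aˣ) : A), ?_, ?_⟩
  · rw [← Finset.prod_mul_distrib]
    exact Finset.prod_eq_one (fun k _ => by simp)
  · have h4 : ∏ k : Fin n, (1 - μ ^ ((k : ℕ) + 1)) = (μi - 1) ^ n * ∏ k : Fin n, (e k : A) := by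
      rw [← Finset.prod_congr rfl (fun k _ => he k), Finset.prod_mul_distrib, Finset.prod_const,
        Finset.card_univ, Fintype.card_fin]
    rw [Nat.add_sub_cancel, ← h4, Fin.prod_univ_eq_prod_range (fun k => 1 - μ ^ (k + 1)) n,
      hprod]
    push_cast
    ring

theorem vsq97_val_eq_iff {F : Type*} [Field F] (B : ValuationSubring F) (a b : F)
    (ha : a ≠ 0) (hb : b ≠ 0) :
    B.valuation a = B.valuation b ↔ (a * b⁻¹ ∈ B ∧ b * a⁻¹ ∈ B) := by
  have hpa : 0 < B.valuation a := by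
    rw [pos_iff_ne_zero]; exact (Valuation.ne_zero_iff _).mpr ha
  have hpb : 0 < B.valuation b := by
    rw [pos_iff_ne_zero]; exact (Valuation.ne_zero_iff _).mpr hb
  rw [← ValuationSubring.valuation_le_one_iff, ← ValuationSubring.valuation_le_one_iff, map_mul,
    map_mul, map_inv₀, map_inv₀, mul_inv_le_iff₀ hpb, mul_inv_le_iff₀ hpa, one_mul, one_mul]
  exact le_antisymm_iff

section vsq97_ram

variable {R K : Type} [CommRing R] [IsDomain R] [IsDiscreteValuationRing R] [Field K]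
  [Algebra R K] [IsFractionRing R K] [Algebra K Kbar]
  (M' q : ℕ) [NeZero M'] [NeZero q] (hq : q.Prime) (hM' : ¬ q ∣ M')

/-- `s = β₂ (w g₀) - α₂ g₀` with `g₀ = α₁ j`. -/
theorem vsq97_s_eq :
    v2g64_s K M' q =
      al97L_beta K (M' * q) q (al97L_w (algebraMap K Kbar) M' q hq hM'
        (al97L_alpha K M' q (v2g64_j K M'))) -
      al97L_alpha K (M' * q) q (al97L_alpha K M' q (v2g64_j K M')) := by
  rw [al97L_w_alpha_apply]
  rfl

theorem vsq97_j_mem {π : R} (hπ : Irreducible π) :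
    al97L_alpha K M' q (v2g64_j K M') ∈ cm85_Vinf (K := K) (M' * q) hπ := by
  refine gv85_mem_V_of_integral _ _ _ _ (jqModC R) ?_
  rw [al97L_alpha_coe, coeffMap_jqModC]
  rfl

/-- `s ∈ 𝔪(V₂)`. -/
theorem vsq97_s_nonunit (ζ : Kbarˣ) (hζq : ζ ^ q = 1) (hζ1 : ζ ≠ 1) {π : R}
    (hπ : Irreducible π) (hqR : ¬ IsUnit (q : R)) :
    v2g64_s K M' q ∈ (vsq97_V2 R K M' q hq hM' ζ).nonunits := by
  rw [vsq97_s_eq M' q hq hM']
  exact vsq97_V2_mid M' q hq hM' ζ hζq hζ1 hπ hqR _ (vsq97_j_mem M' q hπ)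

theorem vsq97_s_ne_zero (hq : q.Prime) : v2g64_s K M' q ≠ 0 := by
  intro h
  have h1 := congrArg (fun z : ↥(modularFunctionFieldFullC K (M' * q * q)) =>
    (z : LaurentSeries K).coeff (-1)) h
  simp only [v2g64_s_coe] at h1
  rw [HahnSeries.coeff_sub, qExpand_coeff_of_not_dvd q _ (nsq97_not_dvd q hq),
    coeff_jqModC_neg_one] at h1
  simp at h1

/-- `Θ_ζ (s) = j(ζ Q) - j(Q)`. -/
theorem vsq97_Theta_s (ζ : Kbarˣ) (hζq : ζ ^ q = 1) (hζ1 : ζ ≠ 1) :
    nsq97_Theta (algebraMap K Kbar) M' q hq hM' (vsq97_natCast_ne_zero K (M' * q * q)) ζ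
      (v2g64_s K M' q) = twist ζ (jqModC Kbar) - jqModC Kbar := by
  rw [vsq97_s_eq M' q hq hM', map_sub, nsq97_Theta_alpha _ _ _ _ _ _ ζ hζq hζ1,
    nsq97_Theta_beta _ _ _ _ _ _ ζ hζq hζ1, al97L_w_w, nsq97_val_apply, al97L_alpha_coe]
  show twist ζ (coeffMap (algebraMap K Kbar) (jqModC K)) -
    coeffMap (algebraMap K Kbar) (jqModC K) = _
  rw [coeffMap_jqModC]

/-- `Θ_ζ` on constants. -/
theorem vsq97_Theta_const (ζ : Kbarˣ) (hζq : ζ ^ q = 1) (hζ1 : ζ ≠ 1) (c : K) :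
    nsq97_Theta (algebraMap K Kbar) M' q hq hM' (vsq97_natCast_ne_zero K (M' * q * q)) ζ
      (algebraMap K ↥(modularFunctionFieldFullC K (M' * q * q)) c) =
      HahnSeries.C (algebraMap K Kbar c) := by
  have h1 : algebraMap K ↥(modularFunctionFieldFullC K (M' * q * q)) c =
      al97L_alpha K (M' * q) q (algebraMap K ↥(modularFunctionFieldFullC K (M' * q)) c) :=
    ((al97L_alpha K (M' * q) q).commutes c).symm
  rw [h1, nsq97_Theta_alpha _ _ _ _ _ _ ζ hζq hζ1, vsq97_val_algebraMap]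

/-- the `O`-integral shape of `j(ζQ) - j(Q)`: it is `(ζ⁻¹ - 1) · U` with `U` an `O`-integral
series, `U ≢ 0` modulo the maximal ideal. -/
theorem vsq97_exists_U (R : Type) [CommRing R] [IsDomain R] [IsDiscreteValuationRing R]
    [Algebra R K] [IsFractionRing R K] (hq : q.Prime) (ζ : Kbarˣ) (hζq : ζ ^ q = 1)
    (hζ1 : ζ ≠ 1) :
    ∃ uO : LaurentSeries ↥(vsq97_O R K),
      coeffMap (IsLocalRing.residue ↥(vsq97_O R K)) uO ≠ 0 ∧
      twist ζ (jqModC Kbar) - jqModC Kbar =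
        HahnSeries.C (((ζ⁻¹ : Kbarˣ) : Kbar) - 1) * coeffMap (vsq97_O R K).subtype uO := by
  set ζO := vsq97_zetaO R K ζ q hq.pos hζq with hζO
  set tO : LaurentSeries ↥(vsq97_O R K) :=
    twist ζO (jqModC ↥(vsq97_O R K)) - jqModC ↥(vsq97_O R K) with htO
  set cO : ↥(vsq97_O R K) := ((ζO⁻¹ : (↥(vsq97_O R K))ˣ) : ↥(vsq97_O R K)) - 1 with hcOdef
  have hcOK : ((cO : ↥(vsq97_O R K)) : Kbar) = ((ζ⁻¹ : Kbarˣ) : Kbar) - 1 := rfl
  have hcO : cO ≠ 0 := by
    intro h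
    have h1 : ((ζ⁻¹ : Kbarˣ) : Kbar) - 1 = 0 := by rw [← hcOK, h]; rfl
    have h2 : (ζ⁻¹ : Kbarˣ) = 1 := Units.ext (by rw [Units.val_one]; exact sub_eq_zero.mp h1)
    exact hζ1 (inv_eq_one.mp h2)
  have hdiv0 : ∀ m : ℕ, cO ∣ (((ζO⁻¹ : (↥(vsq97_O R K))ˣ) : ↥(vsq97_O R K)) ^ m - 1) := by
    intro m
    simpa using sub_dvd_pow_sub_pow (((ζO⁻¹ : (↥(vsq97_O R K))ˣ) : ↥(vsq97_O R K))) 1 m
  have hdiv1 : ∀ n : ℤ, cO ∣ (((ζO ^ n : (↥(vsq97_O R K))ˣ) : ↥(vsq97_O R K)) - 1) := by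
    intro n
    obtain ⟨m, rfl | rfl⟩ := Int.eq_nat_or_neg n
    · have h1 : (((ζO ^ (m : ℤ) : (↥(vsq97_O R K))ˣ) : ↥(vsq97_O R K)) - 1) =
          -((ζO ^ m : (↥(vsq97_O R K))ˣ) : ↥(vsq97_O R K)) *
            ((((ζO⁻¹ : (↥(vsq97_O R K))ˣ) : ↥(vsq97_O R K)) ^ m - 1)) := by
        rw [zpow_natCast, ← Units.val_pow_eq_pow_val, inv_pow]
        have h2 : ((ζO ^ m : (↥(vsq97_O R K))ˣ) : ↥(vsq97_O R K)) *
            (((ζO ^ m)⁻¹ : (↥(vsq97_O R K))ˣ) : ↥(vsq97_O R K)) = 1 := by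
          rw [← Units.val_mul, mul_inv_cancel, Units.val_one]
        linear_combination h2
      rw [h1]
      exact Dvd.dvd.mul_left (hdiv0 m) _
    · have h1 : (((ζO ^ (-(m : ℤ)) : (↥(vsq97_O R K))ˣ) : ↥(vsq97_O R K)) - 1) =
          (((ζO⁻¹ : (↥(vsq97_O R K))ˣ) : ↥(vsq97_O R K)) ^ m - 1) := by
        rw [zpow_neg, zpow_natCast, ← inv_pow, Units.val_pow_eq_pow_val]
      rw [h1]
      exact hdiv0 m
  have hcoeff : ∀ n : ℤ, tO.coeff n =
      (((ζO ^ n : (↥(vsq97_O R K))ˣ) : ↥(vsq97_O R K)) - 1) *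
        (jqModC ↥(vsq97_O R K)).coeff n := by
    intro n
    rw [htO, HahnSeries.coeff_sub, twist_coeff]
    ring
  have hdiv : ∀ n : ℤ, cO ∣ tO.coeff n := by
    intro n
    rw [hcoeff]
    exact Dvd.dvd.mul_right (hdiv1 n) _
  obtain ⟨uO, huO⟩ := gv85_exists_div tO cO hcO hdiv
  have hu1 : uO.coeff (-1) = 1 := by
    have h1 : tO.coeff (-1) = cO * 1 := by
      rw [hcoeff, coeff_jqModC_neg_one, zpow_neg_one]
    rw [huO, gv85_coeff_C_mul] at h1
    exact mul_left_cancel₀ hcO h1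
  refine ⟨uO, ?_, ?_⟩
  · intro h
    have h1 := congrArg (fun z => z.coeff (-1)) h
    simp only [coeffMap_coeff, hu1, map_one, HahnSeries.coeff_zero] at h1
    exact one_ne_zero h1
  · have h1 : coeffMap (vsq97_O R K).subtype tO = twist ζ (jqModC Kbar) - jqModC Kbar := by
      rw [htO, map_sub, vsq97_sub_twist, coeffMap_jqModC]
    rw [← h1, huO, map_mul, gv85_coeffMap_C]
    rfl

theorem vsq97_field_aux {F : Type*} [Field F] (a U E Y : F) (ha : a ≠ 0) (hU : U ≠ 0)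
    (hE : E ≠ 0) (hY : Y ≠ 0) (n : ℕ) :
    (a * U) ^ n * (a ^ n * E * Y)⁻¹ = U ^ n * E⁻¹ * Y⁻¹ ∧
      (a ^ n * E * Y) * ((a * U) ^ n)⁻¹ = E * Y * (U⁻¹) ^ n := by
  constructor
  · rw [mul_pow]
    field_simp
  · rw [mul_pow, inv_pow]
    field_simp

/-- **Ramification of `V₂`**: `v₂(s)^(q-1) = v₂(π)` for an unramified uniformizer. -/
theorem vsq97_V2_ram (R : Type) [CommRing R] [IsDomain R] [IsDiscreteValuationRing R]
    [Algebra R K] [IsFractionRing R K] (hq : q.Prime) (hM' : ¬ q ∣ M') (ζ : Kbarˣ)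
    (hζ : IsPrimitiveRoot ζ q) {π : R} (hπ : Irreducible π)
    (hqπ : Associated ((q : ℕ) : R) π) :
    (vsq97_V2 R K M' q hq hM' ζ).valuation (v2g64_s K M' q) ^ (q - 1) =
      (vsq97_V2 R K M' q hq hM' ζ).valuation
        (algebraMap K ↥(modularFunctionFieldFullC K (M' * q * q)) (algebraMap R K π)) := by
  classical
  have hζq : ζ ^ q = 1 := hζ.pow_eq_one
  have hζ1 : ζ ≠ 1 := hζ.ne_one hq.one_lt
  obtain ⟨uO, hures, hU⟩ := vsq97_exists_U (K := K) q R hq ζ hζq hζ1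
  have hμ : IsPrimitiveRoot
      (((vsq97_zetaO R K ζ q hq.pos hζq : (↥(vsq97_O R K))ˣ)) : ↥(vsq97_O R K)) q :=
    IsPrimitiveRoot.of_map_of_injective (f := (vsq97_O R K).subtype)
      (IsPrimitiveRoot.coe_units_iff.mpr hζ) Subtype.val_injective
  obtain ⟨e, e', hee', hqe⟩ := vsq97_cyc_unit _
    ((((vsq97_zetaO R K ζ q hq.pos hζq)⁻¹ : (↥(vsq97_O R K))ˣ)) : ↥(vsq97_O R K))
    (by rw [← Units.val_mul, mul_inv_cancel, Units.val_one]) q hq hμ
  obtain ⟨υ, hυ⟩ := hqπ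
  set cO : ↥(vsq97_O R K) :=
    ((((vsq97_zetaO R K ζ q hq.pos hζq)⁻¹ : (↥(vsq97_O R K))ˣ)) : ↥(vsq97_O R K)) - 1 with hcO
  set a : LaurentSeries Kbar := HahnSeries.C (((ζ⁻¹ : Kbarˣ) : Kbar) - 1) with ha
  set U : LaurentSeries Kbar := coeffMap (vsq97_O R K).subtype uO with hUdef
  set E : LaurentSeries Kbar := coeffMap (vsq97_O R K).subtype (HahnSeries.C e) with hE
  set E' : LaurentSeries Kbar := coeffMap (vsq97_O R K).subtype (HahnSeries.C e') with hE'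
  set Y : LaurentSeries Kbar :=
    coeffMap (vsq97_O R K).subtype (HahnSeries.C (vsq97_rho R K (υ : R))) with hY
  set Y' : LaurentSeries Kbar :=
    coeffMap (vsq97_O R K).subtype (HahnSeries.C (vsq97_rho R K ((υ⁻¹ : Rˣ) : R))) with hY'
  have haO : a = coeffMap (vsq97_O R K).subtype (HahnSeries.C cO) := by
    rw [gv85_coeffMap_C]; rfl
  have hEE' : E * E' = 1 := by
    rw [hE, hE', ← map_mul, ← map_mul, hee', map_one, map_one]
  have hYY' : Y * Y' = 1 := by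
    rw [hY, hY', ← map_mul, ← map_mul, ← map_mul, ← Units.val_mul, mul_inv_cancel,
      Units.val_one, map_one, map_one, map_one]
  have hE0 : E ≠ 0 := left_ne_zero_of_mul_eq_one hEE'
  have hY0 : Y ≠ 0 := left_ne_zero_of_mul_eq_one hYY'
  have ha0 : a ≠ 0 := by
    apply HahnSeries.C_ne_zero
    intro h
    have h2 : (ζ⁻¹ : Kbarˣ) = 1 := Units.ext (by rw [Units.val_one]; exact sub_eq_zero.mp h)
    exact hζ1 (inv_eq_one.mp h2)
  have hU0 : U ≠ 0 := by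
    intro h
    apply hures
    have h1 : uO = 0 := gd97_coeffMap_injective (vsq97_O R K) (by rw [← hUdef, h, map_zero])
    rw [h1, map_zero]
  have hΘS : nsq97_Theta (algebraMap K Kbar) M' q hq hM'
      (vsq97_natCast_ne_zero K (M' * q * q)) ζ (v2g64_s K M' q) = a * U := by
    rw [vsq97_Theta_s M' q hq hM' ζ hζq hζ1, hU]
  have hρπ : vsq97_rho R K π = cO ^ (q - 1) * e * vsq97_rho R K (υ : R) := by
    rw [← hυ, map_mul, map_natCast, hqe]
  have hΘP : nsq97_Theta (algebraMap K Kbar) M' q hq hM'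
      (vsq97_natCast_ne_zero K (M' * q * q)) ζ
      (algebraMap K ↥(modularFunctionFieldFullC K (M' * q * q)) (algebraMap R K π)) =
      a ^ (q - 1) * E * Y := by
    rw [vsq97_Theta_const M' q hq hM' ζ hζq hζ1]
    have h1 : (HahnSeries.C (algebraMap K Kbar (algebraMap R K π)) : LaurentSeries Kbar) =
        coeffMap (vsq97_O R K).subtype (HahnSeries.C (vsq97_rho R K π)) := by
      rw [gv85_coeffMap_C]; rfl
    rw [h1, hρπ, haO, hE, hY]
    simp only [map_mul, map_pow]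
  have hS0 : v2g64_s K M' q ≠ 0 := vsq97_s_ne_zero M' q hq
  have hP0 : algebraMap K ↥(modularFunctionFieldFullC K (M' * q * q)) (algebraMap R K π) ≠ 0 := by
    intro h
    have h1 : algebraMap R K π = 0 :=
      (algebraMap K ↥(modularFunctionFieldFullC K (M' * q * q))).injective (by rw [h, map_zero])
    exact hπ.ne_zero (IsFractionRing.injective R K (by rw [h1, map_zero]))
  rw [← map_pow, vsq97_val_eq_iff _ _ _ (pow_ne_zero _ hS0) hP0]
  obtain ⟨h1, h2⟩ := vsq97_field_aux a U E Y ha0 hU0 hE0 hY0 (q - 1)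
  constructor
  · rw [vsq97_mem_V2, map_mul, map_inv₀, map_pow, hΘS, hΘP, h1,
      inv_eq_of_mul_eq_one_right hEE', inv_eq_of_mul_eq_one_right hYY']
    exact mul_mem (mul_mem (pow_mem (gd97_int_mem _ uO) _) (gd97_int_mem _ _))
      (gd97_int_mem _ _)
  · rw [vsq97_mem_V2, map_mul, map_inv₀, map_pow, hΘS, hΘP, h2]
    exact mul_mem (mul_mem (gd97_int_mem _ _) (gd97_int_mem _ _))
      (pow_mem (gd97_inv_mem _ 1 uO (by rw [map_one]; exact one_ne_zero) hures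
        (by rw [map_one, one_mul])) _)

/-- `s` is a unit of `V₁ = cm85_Vinf (M' q²)`. -/
theorem vsq97_s_inv_mem_V1 (hq : q.Prime) {π : R} (hπ : Irreducible π) :
    (v2g64_s K M' q)⁻¹ ∈ cm85_Vinf (K := K) (M' * q * q) hπ := by
  unfold cm85_Vinf
  refine (gv85_mem_V _ _ _ _).mpr
    ⟨qExpand R q (qExpand R q (jqModC R)) - jqModC R, 1, ?_, ?_⟩
  · intro h
    have h1 := congrArg (fun z => z.coeff (-1)) h
    simp only [map_sub, coeffMap_qExpand, coeffMap_jqModC, HahnSeries.coeff_sub,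
      HahnSeries.coeff_zero] at h1
    rw [qExpand_coeff_of_not_dvd q _ (nsq97_not_dvd q hq), coeff_jqModC_neg_one] at h1
    simp at h1
  · have h1 : coeffMap (algebraMap R K) (qExpand R q (qExpand R q (jqModC R)) - jqModC R) =
        ((v2g64_s K M' q : ↥(modularFunctionFieldFullC K (M' * q * q))) : LaurentSeries K) := by
      rw [map_sub, coeffMap_qExpand, coeffMap_qExpand, coeffMap_jqModC, v2g64_s_coe]
    have h2 : (((v2g64_s K M' q)⁻¹ : ↥(modularFunctionFieldFullC K (M' * q * q))) :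
        LaurentSeries K) =
        ((v2g64_s K M' q : ↥(modularFunctionFieldFullC K (M' * q * q))) : LaurentSeries K)⁻¹ :=
      rfl
    rw [h1, map_one, h2, mul_inv_cancel₀]
    intro h
    exact vsq97_s_ne_zero (K := K) M' q hq (Subtype.ext h)

/-- `V₁ ≠ V₂`. -/
theorem vsq97_V1_ne_V2 (ζ : Kbarˣ) (hζq : ζ ^ q = 1) (hζ1 : ζ ≠ 1) {π : R}
    (hπ : Irreducible π) (hqR : ¬ IsUnit (q : R)) :
    cm85_Vinf (K := K) (M' * q * q) hπ ≠ vsq97_V2 R K M' q hq hM' ζ := by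
  intro h
  have h1 := vsq97_s_inv_mem_V1 (K := K) M' q hq hπ
  rw [h] at h1
  have h2 := vsq97_s_nonunit (K := K) M' q hq hM' ζ hζq hζ1 hπ hqR
  rw [vsq97_mem_nonunits_iff_inv _ _ (vsq97_s_ne_zero (K := K) M' q hq)] at h2
  exact h2 h1

/-- **The `V₂` package for the definite `V₂ = vsq97_V2`**: the four conjuncts of
`v2g64_exists_of_datum` (over `V_∞(M' q)`, `π⁻¹ ∉ V₂`, `V₁ ≠ V₂`, `v₂(s)^(q-1) = v₂(π)`) and
**(MID)**. -/
theorem vsq97_V2_pkg (R : Type) [CommRing R] [IsDomain R] [IsDiscreteValuationRing R]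
    [Algebra R K] [IsFractionRing R K] (hq : q.Prime) (hM' : ¬ q ∣ M') (ζ : Kbarˣ)
    (hζ : IsPrimitiveRoot ζ q) {π : R} (hπ : Irreducible π)
    (hqπ : Associated ((q : ℕ) : R) π) :
    (∀ c ∈ cm85_Vinf (K := K) (M' * q) hπ,
      al97L_alpha K (M' * q) q c ∈ vsq97_V2 R K M' q hq hM' ζ) ∧
    (algebraMap K ↥(modularFunctionFieldFullC K (M' * q * q)) (algebraMap R K π))⁻¹ ∉
      vsq97_V2 R K M' q hq hM' ζ ∧
    cm85_Vinf (K := K) (M' * q * q) hπ ≠ vsq97_V2 R K M' q hq hM' ζ ∧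
    (vsq97_V2 R K M' q hq hM' ζ).valuation (v2g64_s K M' q) ^ (q - 1) =
      (vsq97_V2 R K M' q hq hM' ζ).valuation
        (algebraMap K ↥(modularFunctionFieldFullC K (M' * q * q)) (algebraMap R K π)) ∧
    (∀ g ∈ cm85_Vinf (K := K) (M' * q) hπ,
      al97L_beta K (M' * q) q (al97L_w (algebraMap K Kbar) M' q hq hM' g) -
        al97L_alpha K (M' * q) q g ∈ (vsq97_V2 R K M' q hq hM' ζ).nonunits) := by
  have hζq : ζ ^ q = 1 := hζ.pow_eq_one
  have hζ1 : ζ ≠ 1 := hζ.ne_one hq.one_lt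
  have hqR : ¬ IsUnit ((q : ℕ) : R) := fun h => hπ.not_isUnit (hqπ.isUnit h)
  refine ⟨fun c hc => vsq97_V2_over M' q hq hM' ζ hζq hζ1 hπ c hc, ?_,
    vsq97_V1_ne_V2 M' q hq hM' ζ hζq hζ1 hπ hqR,
    vsq97_V2_ram M' q R hq hM' ζ hζ hπ hqπ,
    fun g hg => vsq97_V2_mid M' q hq hM' ζ hζq hζ1 hπ hqR g hg⟩
  have h1 : algebraMap K ↥(modularFunctionFieldFullC K (M' * q * q)) (algebraMap R K π) =
      al97L_alpha K (M' * q) q (algebraMap K ↥(modularFunctionFieldFullC K (M' * q))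
        (algebraMap R K π)) :=
    ((al97L_alpha K (M' * q) q).commutes _).symm
  rw [h1]
  exact vsq97_V2_const M' q hq hM' ζ hζq hζ1 π hπ.ne_zero hπ.not_isUnit

end vsq97_ram

end Fermat.Agent.S36
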