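import Mathlib

/-!
# S36 lab, row B2-val (helper1): newness kills the vertical part  (Mathlib only)

Abstract form of step (B0) of the bookkeeping text (#2876; helper62 #2806).

`F2 ⊇ F1` are the function fields of level `q² M''` and `q M''`, `Nal`, `Nbe` the two norms.
`v1, v2, v3 : F2 → ℤ` are the three vertical valuations (`v2` normalised by `v2 π = q - 1`),
`vinf, v0 : F1 → ℤ` the two vertical valuations of level `q`.  Input (I1): the valuation of a norm,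

* `vinf (Nal y) = v1 y + v2 y`, `v0 (Nal y) = q * v3 y`,
* `vinf (Nbe y) = q * v1 y`,    `v0 (Nbe y) = v2 y + v3 y`.

If `Nal f = c_a a ^ m` and `Nbe f = c_b b ^ m` (constants times `m`-th powers), then
`f₂ := f ^ (q + 1) * c₀ * y ^ m` (`c₀` a constant, `y ∈ F2`) is a unit for all three valuations,
and its two norms are again (unit constant) * (`m`-th power of a unit of both level-`q`
valuations).

All names are prefixed `b2v1_`.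
-/

set_option autoImplicit false

namespace Fermat.Agent.S36

/-- An additive `ℤ`-valued valuation on the nonzero elements of a field (only multiplicativity
is used). -/
def b2v1_IsVal {F : Type*} [Field F] (v : F → ℤ) : Prop :=
  ∀ x y : F, x ≠ 0 → y ≠ 0 → v (x * y) = v x + v y

section Basic

variable {F : Type*} [Field F] {v : F → ℤ}

theorem b2v1_one (hv : b2v1_IsVal v) : v 1 = 0 := by
  have h := hv 1 1 one_ne_zero one_ne_zero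
  rw [mul_one] at h
  linarith

theorem b2v1_inv (hv : b2v1_IsVal v) {x : F} (hx : x ≠ 0) : v x⁻¹ = - v x := by
  have h := hv x x⁻¹ hx (inv_ne_zero hx)
  rw [mul_inv_cancel₀ hx, b2v1_one hv] at h
  linarith

theorem b2v1_pow (hv : b2v1_IsVal v) {x : F} (hx : x ≠ 0) (n : ℕ) :
    v (x ^ n) = (n : ℤ) * v x := by
  induction n with
  | zero => simp [b2v1_one hv]
  | succ n ih =>
    rw [pow_succ, hv _ _ (pow_ne_zero n hx) hx, ih]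
    push_cast
    ring

theorem b2v1_zpow (hv : b2v1_IsVal v) {x : F} (hx : x ≠ 0) (n : ℤ) :
    v (x ^ n) = n * v x := by
  cases n with
  | ofNat k =>
    rw [Int.ofNat_eq_natCast, zpow_natCast, b2v1_pow hv hx]
  | negSucc k =>
    rw [zpow_negSucc, b2v1_inv hv (pow_ne_zero _ hx), b2v1_pow hv hx, Int.negSucc_eq]
    push_cast
    ring

end Basic

/-- **(B0)**: newness kills the vertical part of `div f`. -/
theorem b2v1_main
    {K F1 F2 : Type*} [Field K] [Field F1] [Field F2]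
    (ι1 : K →+* F1) (ι2 : K →+* F2) (Nal Nbe : F2 →* F1)
    (v1 v2 v3 : F2 → ℤ) (vinf v0 : F1 → ℤ)
    (h1 : b2v1_IsVal v1) (h2 : b2v1_IsVal v2) (h3 : b2v1_IsVal v3)
    (hinf : b2v1_IsVal vinf) (h0 : b2v1_IsVal v0)
    (q m : ℕ) (hm : 0 < m)
    (hK : ∀ c : K, c ≠ 0 → vinf (ι1 c) = v0 (ι1 c))
    (π : K) (hπ : π ≠ 0)
    (hπ1 : v1 (ι2 π) = 1) (hπ2 : v2 (ι2 π) = (q : ℤ) - 1) (hπ3 : v3 (ι2 π) = 1)
    (hπinf : vinf (ι1 π) = 1)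
    (hNalK : ∀ c : K, Nal (ι2 c) = ι1 (c ^ q)) (hNbeK : ∀ c : K, Nbe (ι2 c) = ι1 (c ^ q))
    (hAinf : ∀ y : F2, y ≠ 0 → vinf (Nal y) = v1 y + v2 y)
    (hA0 : ∀ y : F2, y ≠ 0 → v0 (Nal y) = (q : ℤ) * v3 y)
    (hBinf : ∀ y : F2, y ≠ 0 → vinf (Nbe y) = (q : ℤ) * v1 y)
    (hB0 : ∀ y : F2, y ≠ 0 → v0 (Nbe y) = v2 y + v3 y)
    (y2 y3 : F2) (hy2 : y2 ≠ 0) (hy3 : y3 ≠ 0)
    (hy2v : v1 y2 = 0 ∧ v2 y2 = 1 ∧ v3 y2 = 0) (hy3v : v1 y3 = 0 ∧ v2 y3 = 0 ∧ v3 y3 = 1)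
    (f : F2) (hf : f ≠ 0) (ca cb : K) (hca : ca ≠ 0) (hcb : cb ≠ 0)
    (a b : F1) (ha : a ≠ 0) (hb : b ≠ 0)
    (hNa : Nal f = ι1 ca * a ^ m) (hNb : Nbe f = ι1 cb * b ^ m) :
    ∃ (c0 : K) (y f2 : F2), c0 ≠ 0 ∧ y ≠ 0 ∧ f2 ≠ 0 ∧ f2 = f ^ (q + 1) * ι2 c0 * y ^ m ∧
      v1 f2 = 0 ∧ v2 f2 = 0 ∧ v3 f2 = 0 ∧
      (∃ (cA : K) (A2 : F1), cA ≠ 0 ∧ A2 ≠ 0 ∧ vinf (ι1 cA) = 0 ∧ vinf A2 = 0 ∧ v0 A2 = 0 ∧
        Nal f2 = ι1 cA * A2 ^ m) ∧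
      (∃ (cB : K) (B2 : F1), cB ≠ 0 ∧ B2 ≠ 0 ∧ vinf (ι1 cB) = 0 ∧ vinf B2 = 0 ∧ v0 B2 = 0 ∧
        Nbe f2 = ι1 cB * B2 ^ m) := by
  classical
  have hι1 : ∀ c : K, c ≠ 0 → ι1 c ≠ 0 := fun c hc => (map_ne_zero ι1).mpr hc
  have hι2 : ∀ c : K, c ≠ 0 → ι2 c ≠ 0 := fun c hc => (map_ne_zero ι2).mpr hc
  have hNal0 : ∀ y : F2, y ≠ 0 → Nal y ≠ 0 := fun y hy =>
    ((IsUnit.mk0 y hy).map Nal).ne_zero
  have hNbe0 : ∀ y : F2, y ≠ 0 → Nbe y ≠ 0 := fun y hy =>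
    ((IsUnit.mk0 y hy).map Nbe).ne_zero
  have hπ0 : v0 (ι1 π) = 1 := by rw [← hK π hπ]; exact hπinf
  -- the two congruences
  set e1 := v1 f with he1
  set e2 := v2 f with he2
  set e3 := v3 f with he3
  set da := vinf a - v0 a with hda
  set db := vinf b - v0 b with hdb
  have Ea : e1 + e2 - (q : ℤ) * e3 - (m : ℤ) * da = 0 := by
    have hA1 := hAinf f hf
    have hA2 := hA0 f hf
    rw [hNa, hinf _ _ (hι1 ca hca) (pow_ne_zero m ha), b2v1_pow hinf ha] at hA1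
    rw [hNa, h0 _ _ (hι1 ca hca) (pow_ne_zero m ha), b2v1_pow h0 ha] at hA2
    have := hK ca hca
    rw [hda]
    linarith
  have Eb : (q : ℤ) * e1 - e2 - e3 - (m : ℤ) * db = 0 := by
    have hB1 := hBinf f hf
    have hB2 := hB0 f hf
    rw [hNb, hinf _ _ (hι1 cb hcb) (pow_ne_zero m hb), b2v1_pow hinf hb] at hB1
    rw [hNb, h0 _ _ (hι1 cb hcb) (pow_ne_zero m hb), b2v1_pow h0 hb] at hB2
    have := hK cb hcb
    rw [hdb]
    linarith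
  -- the correcting elements
  set a2 : ℤ := da - (q : ℤ) * db with ha2
  set a3 : ℤ := -(da + db) with ha3
  set z : ℤ := -(((q : ℤ) + 1) * e1) with hz
  set c0 : K := π ^ z with hc0
  set y : F2 := (y2 ^ a2 * y3 ^ a3)⁻¹ with hy
  have hc0ne : c0 ≠ 0 := zpow_ne_zero _ hπ
  have hy2z : y2 ^ a2 ≠ 0 := zpow_ne_zero _ hy2
  have hy3z : y3 ^ a3 ≠ 0 := zpow_ne_zero _ hy3
  have hyne : y ≠ 0 := inv_ne_zero (mul_ne_zero hy2z hy3z)
  have hιc0 : ι2 c0 = (ι2 π) ^ z := by rw [hc0, map_zpow₀]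
  have hfq : f ^ (q + 1) ≠ 0 := pow_ne_zero _ hf
  have hym : y ^ m ≠ 0 := pow_ne_zero _ hyne
  set f2 : F2 := f ^ (q + 1) * ι2 c0 * y ^ m with hf2
  have hf2ne : f2 ≠ 0 := mul_ne_zero (mul_ne_zero hfq (hι2 c0 hc0ne)) hym
  -- valuations of y
  have vy : ∀ (v : F2 → ℤ), b2v1_IsVal v → v y = -(a2 * v y2 + a3 * v y3) := by
    intro v hv
    rw [hy, b2v1_inv hv (mul_ne_zero hy2z hy3z), hv _ _ hy2z hy3z, b2v1_zpow hv hy2,
      b2v1_zpow hv hy3]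
  have vf2 : ∀ (v : F2 → ℤ), b2v1_IsVal v →
      v f2 = ((q : ℤ) + 1) * v f + z * v (ι2 π) + (m : ℤ) * v y := by
    intro v hv
    rw [hf2, hv _ _ (mul_ne_zero hfq (hι2 c0 hc0ne)) hym, hv _ _ hfq (hι2 c0 hc0ne),
      b2v1_pow hv hf, b2v1_pow hv hyne, hιc0, b2v1_zpow hv (hι2 π hπ)]
    push_cast
    ring
  have hv1f2 : v1 f2 = 0 := by
    rw [vf2 v1 h1, vy v1 h1, hπ1, hy2v.1, hy3v.1, hz]
    ring
  have hv2f2 : v2 f2 = 0 := by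
    rw [vf2 v2 h2, vy v2 h2, hπ2, hy2v.2.1, hy3v.2.1, hz, ha2]
    linear_combination Ea - (q : ℤ) * Eb
  have hv3f2 : v3 f2 = 0 := by
    rw [vf2 v3 h3, vy v3 h3, hπ3, hy2v.2.2, hy3v.2.2, hz, ha3]
    linear_combination -Ea - Eb
  -- the norms: a general step
  have key : ∀ (N : F2 →* F1) (c : K) (g : F1), c ≠ 0 → g ≠ 0 → N f = ι1 c * g ^ m →
      (∀ c : K, N (ι2 c) = ι1 (c ^ q)) → (∀ y : F2, y ≠ 0 → N y ≠ 0) →
      vinf (N f2) = 0 → v0 (N f2) = 0 →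
      ∃ (cA : K) (A2 : F1), cA ≠ 0 ∧ A2 ≠ 0 ∧ vinf (ι1 cA) = 0 ∧ vinf A2 = 0 ∧ v0 A2 = 0 ∧
        N f2 = ι1 cA * A2 ^ m := by
    intro N c g hc hg hN hNK hN0 hvi hv0'
    obtain ⟨c', hc'⟩ : ∃ c' : K, c' = c ^ (q + 1) * c0 ^ q := ⟨_, rfl⟩
    obtain ⟨a', ha'⟩ : ∃ a' : F1, a' = g ^ (q + 1) * N y := ⟨_, rfl⟩
    have hc'ne : c' ≠ 0 := by
      rw [hc']; exact mul_ne_zero (pow_ne_zero _ hc) (pow_ne_zero _ hc0ne)
    have ha'ne : a' ≠ 0 := by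
      rw [ha']; exact mul_ne_zero (pow_ne_zero _ hg) (hN0 y hyne)
    have hNf2 : N f2 = ι1 c' * a' ^ m := by
      rw [hf2, map_mul, map_mul, map_pow, map_pow, hN, hNK, hc', ha', map_mul, map_pow, map_pow]
      ring
    have e1' : vinf (ι1 c') + (m : ℤ) * vinf a' = 0 := by
      rw [hNf2, hinf _ _ (hι1 c' hc'ne) (pow_ne_zero m ha'ne), b2v1_pow hinf ha'ne] at hvi
      exact hvi
    have e2' : vinf (ι1 c') + (m : ℤ) * v0 a' = 0 := by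
      rw [hNf2, h0 _ _ (hι1 c' hc'ne) (pow_ne_zero m ha'ne), b2v1_pow h0 ha'ne,
        ← hK c' hc'ne] at hv0'
      exact hv0'
    have hmZ : (m : ℤ) ≠ 0 := by exact_mod_cast hm.ne'
    have ht : vinf a' = v0 a' := by
      have : (m : ℤ) * (vinf a' - v0 a') = 0 := by linarith
      rcases mul_eq_zero.mp this with h | h
      · exact absurd h hmZ
      · linarith
    obtain ⟨t, htdef⟩ : ∃ t : ℤ, t = vinf a' := ⟨_, rfl⟩
    have hιπ : ι1 π ≠ 0 := hι1 π hπ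
    obtain ⟨P, hP⟩ : ∃ P : F1, P = ι1 π := ⟨_, rfl⟩
    have hPne : P ≠ 0 := by rw [hP]; exact hιπ
    have hPinf : vinf P = 1 := by rw [hP]; exact hπinf
    have hP0 : v0 P = 1 := by rw [hP]; exact hπ0
    have hcA : ι1 (c' * π ^ ((m : ℤ) * t)) = ι1 c' * P ^ ((m : ℤ) * t) := by
      rw [map_mul, map_zpow₀, hP]
    refine ⟨c' * π ^ ((m : ℤ) * t), a' * P ^ (-t), mul_ne_zero hc'ne (zpow_ne_zero _ hπ),
      mul_ne_zero ha'ne (zpow_ne_zero _ hPne), ?_, ?_, ?_, ?_⟩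
    · rw [hcA, hinf _ _ (hι1 c' hc'ne) (zpow_ne_zero _ hPne), b2v1_zpow hinf hPne, hPinf]
      rw [htdef]
      linarith
    · rw [hinf _ _ ha'ne (zpow_ne_zero _ hPne), b2v1_zpow hinf hPne, hPinf, htdef]
      ring
    · rw [h0 _ _ ha'ne (zpow_ne_zero _ hPne), b2v1_zpow h0 hPne, hP0, htdef, ← ht]
      ring
    · rw [hNf2, hcA, mul_pow, ← zpow_natCast (P ^ (-t)) m, ← zpow_mul]
      have hz' : P ^ ((m : ℤ) * t) * P ^ (-t * (m : ℤ)) = 1 := by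
        rw [← zpow_add₀ hPne]
        have : (m : ℤ) * t + -t * (m : ℤ) = 0 := by ring
        rw [this, zpow_zero]
      calc ι1 c' * a' ^ m = ι1 c' * a' ^ m * 1 := by ring
        _ = ι1 c' * a' ^ m * (P ^ ((m : ℤ) * t) * P ^ (-t * (m : ℤ))) := by rw [hz']
        _ = ι1 c' * P ^ ((m : ℤ) * t) * (a' ^ m * P ^ (-t * (m : ℤ))) := by ring
  refine ⟨c0, y, f2, hc0ne, hyne, hf2ne, rfl, hv1f2, hv2f2, hv3f2, ?_, ?_⟩
  · apply key Nal ca a hca ha hNa hNalK hNal0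
    · rw [hAinf f2 hf2ne, hv1f2, hv2f2]; ring
    · rw [hA0 f2 hf2ne, hv3f2]; ring
  · apply key Nbe cb b hcb hb hNb hNbeK hNbe0
    · rw [hBinf f2 hf2ne, hv1f2]; ring
    · rw [hB0 f2 hf2ne, hv2f2, hv3f2]; ring

end Fermat.Agent.S36
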