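import Fermat.Agent.S36.ValUnitSub1
import Fermat.Agent.S36.NormVal41
import Fermat.Agent.S36.OnlyBind72
import Fermat.Agent.S36.OnlyBindInert72
import Fermat.Agent.S36.Split3Inst66
import Fermat.Agent.S36.AtkinLehnerSq86
import Fermat.Agent.S35.Iface62

/-!
# S36 lab, row B2-val (helper1): `vs1_main` on the literal level-`M' q²` frame

`F₁ = F_K(M' q)`, `F₂ = F_K(M' q q)`, `α₂ = al97L_alpha K (M' * q) q`,
`β₂ = al97L_beta K (M' * q) q`, `V_∞' = cm85_Vinf (M' * q) hπ`, `V_0' = s34i47c_V0 M' q hq hM' hπ`,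
`V₁ = cm85_Vinf (M' * q * q) hπ`; `V₂`, `V₃` are PARAMETERS.

* `vuf1_disc_Vinf`   : `vs1_Disc` for the Gauss ring of any level;
* `vuf1_alpha_ram`   : `V₂` over `V_∞'` along `α` (level `M q`, `q ∣ M`): `vs1_Disc V₂ s` and
  `v_∞'(N_α y) = v₁ y + v₂ y`;
* `vuf1_alpha_inert` : `V₃` over `V_0'` along `α₂`: `vs1_Disc V₃ π` and `v_0'(N_α y) = q v₃ y`;
* `vuf1_beta_inert`  : `v_∞'(N_β y) = q v₁ y`;
* `vuf1_beta_ram`    : `v_0'(N_β y) = v₂ y + v₃ y`;
* `vuf1_main`        : (B0) on the frame.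
-/

set_option autoImplicit false
set_option linter.unusedSectionVars false
set_option linter.style.haveILetI false
set_option linter.unusedVariables false

open ModularCurve AlgebraicCurve IntermediateField Polynomial

namespace Fermat.Agent.S36

open Fermat.Agent.S18 Fermat.Agent.S24 Fermat.Agent.S28 Fermat.Agent.S37 Fermat.Agent.S34
open Fermat.Agent.S42 Fermat.Agent.S35

local notation "Q̄" => AlgebraicClosure ℚ

section vuf1a

variable {R K : Type} [CommRing R] [IsDomain R] [IsDiscreteValuationRing R] [Field K] [CharZero K]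
  [Algebra R K] [IsFractionRing R K]

/-- The Gauss ring of any level is discrete with uniformizer `π`. -/
theorem vuf1_disc_Vinf (M : ℕ) [NeZero M] {π : R} (hπ : Irreducible π) :
    vs1_Disc (cm85_Vinf (K := K) M hπ)
      (algebraMap K ↥(modularFunctionFieldFullC K M) (algebraMap R K π)) :=
  vs1_disc_of_dvr _ _
    (gv85_mem_V_of_integral _ _ _ _ (HahnSeries.C π) (by rw [gv85_coe_algebraMap, gv85_coeffMap_C]))
    (gv85_pi_inv_not_mem (IsLocalRing.residue R) π (pk85_res_iff hπ) hπ.ne_zero _ _)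
    (fun x hx hx' => gv85_hmax (IsLocalRing.residue R) π (pk85_res_iff hπ) hπ.ne_zero _ _ x hx hx')
    (fs85_harch (K := K) M hπ)

/-- **Ramified pair along `α`** (level `M q`, `q ∣ M`). -/
theorem vuf1_alpha_ram (M q : ℕ) [NeZero M] [NeZero q] (hq : q.Prime) (hqM : q ∣ M)
    {π : R} (hπ : Irreducible π)
    (V₂ : ValuationSubring ↥(modularFunctionFieldFullC K (M * q)))
    (hV₂ : ∀ c ∈ cm85_Vinf (K := K) M hπ, al97L_alpha K M q c ∈ V₂)
    (hπ₂ : (algebraMap K ↥(modularFunctionFieldFullC K (M * q)) (algebraMap R K π))⁻¹ ∉ V₂)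
    (s : ↥(modularFunctionFieldFullC K (M * q)))
    (hs : V₂.valuation s ^ (q - 1) =
      V₂.valuation (algebraMap K ↥(modularFunctionFieldFullC K (M * q)) (algebraMap R K π)))
    (hs1 : (cm85_Vinf (K := K) (M * q) hπ).valuation s = 1) :
    vs1_Disc V₂ s ∧
    ∀ y : ↥(modularFunctionFieldFullC K (M * q)), y ≠ 0 → ∀ a b : ℤ,
      (cm85_Vinf (K := K) (M * q) hπ).valuation y =
        (cm85_Vinf (K := K) (M * q) hπ).valuation
          (algebraMap K ↥(modularFunctionFieldFullC K (M * q)) (algebraMap R K π)) ^ a →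
      V₂.valuation y = V₂.valuation s ^ b →
      (cm85_Vinf (K := K) M hπ).valuation (s35i62_normA K M q y) =
        (cm85_Vinf (K := K) M hπ).valuation
          (algebraMap K ↥(modularFunctionFieldFullC K M) (algebraMap R K π)) ^ (a + b) := by
  letI alg : Algebra ↥(modularFunctionFieldFullC K M) ↥(modularFunctionFieldFullC K (M * q)) :=
    (al97L_alpha K M q).toRingHom.toAlgebra
  have hfr := ob72_finrank K M q hq hqM
  haveI : FiniteDimensional ↥(modularFunctionFieldFullC K M)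
      ↥(modularFunctionFieldFullC K (M * q)) :=
    Module.finite_of_finrank_pos (by rw [hfr]; exact hq.pos)
  have hπEF : algebraMap ↥(modularFunctionFieldFullC K M) ↥(modularFunctionFieldFullC K (M * q))
      (algebraMap K ↥(modularFunctionFieldFullC K M) (algebraMap R K π)) =
      algebraMap K ↥(modularFunctionFieldFullC K (M * q)) (algebraMap R K π) :=
    (al97L_alpha K M q).commutes _
  have hd' := vuf1_disc_Vinf (K := K) M hπ
  have hd1 := vuf1_disc_Vinf (K := K) (M * q) hπ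
  have hmax : ∀ x ∈ cm85_Vinf (K := K) M hπ, x⁻¹ ∉ cm85_Vinf (K := K) M hπ →
      (algebraMap K ↥(modularFunctionFieldFullC K M) (algebraMap R K π))⁻¹ * x ∈
        cm85_Vinf (K := K) M hπ := fun x hx hx' =>
    gv85_hmax (IsLocalRing.residue R) π (pk85_res_iff hπ) hπ.ne_zero _ _ x hx hx'
  have harch := fs85_harch (K := K) M hπ
  have hV₁ : ∀ c ∈ cm85_Vinf (K := K) M hπ,
      algebraMap ↥(modularFunctionFieldFullC K M) ↥(modularFunctionFieldFullC K (M * q)) c ∈
        cm85_Vinf (K := K) (M * q) hπ := fun c hc =>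
    (al97V_alpha_mem_Vinf M q hπ c).mpr hc
  have hπ₁ : (algebraMap ↥(modularFunctionFieldFullC K M) ↥(modularFunctionFieldFullC K (M * q))
      (algebraMap K ↥(modularFunctionFieldFullC K M) (algebraMap R K π)))⁻¹ ∉
        cm85_Vinf (K := K) (M * q) hπ := by
    rw [hπEF]
    exact gv85_pi_inv_not_mem (IsLocalRing.residue R) π (pk85_res_iff hπ) hπ.ne_zero _ _
  have hπ₂' : (algebraMap ↥(modularFunctionFieldFullC K M) ↥(modularFunctionFieldFullC K (M * q))
      (algebraMap K ↥(modularFunctionFieldFullC K M) (algebraMap R K π)))⁻¹ ∉ V₂ := by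
    rw [hπEF]; exact hπ₂
  have hs' : V₂.valuation s ^ (q - 1) = V₂.valuation
      (algebraMap ↥(modularFunctionFieldFullC K M) ↥(modularFunctionFieldFullC K (M * q))
        (algebraMap K ↥(modularFunctionFieldFullC K M) (algebraMap R K π))) := by
    rw [hπEF]; exact hs
  have hq2 := hq.two_le
  -- `V₁ ≠ V₂`
  have hπ2mem : algebraMap K ↥(modularFunctionFieldFullC K (M * q)) (algebraMap R K π) ∈ V₂ := by
    rw [← hπEF]
    exact hV₂ _ (((cm85_Vinf (K := K) M hπ).valuation_le_one_iff _).mp hd'.2.1.le)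
  have hπ2lt : V₂.valuation
      (algebraMap K ↥(modularFunctionFieldFullC K (M * q)) (algebraMap R K π)) < 1 := by
    refine lt_of_le_of_ne ((V₂.valuation_le_one_iff _).mpr hπ2mem) ?_
    intro h
    apply hπ₂
    rw [← V₂.valuation_le_one_iff, map_inv₀, h, inv_one]
  have hne : cm85_Vinf (K := K) (M * q) hπ ≠ V₂ := by
    intro h
    have h1 : V₂.valuation s = 1 := h ▸ hs1
    rw [h1, one_pow] at hs
    exact hπ2lt.ne hs.symm
  obtain ⟨-, hint, hu2, -, -⟩ := ob72_ram (K := K) M q hq hqM hπ V₂ hV₂ hπ₂ hne s hs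
  have harch2P := nv41_arch_up (cm85_Vinf (K := K) M hπ) _ hmax harch V₂ hV₂ hπ₂'
  have harch2 := nv41_arch_pow _ V₂ s (q - 1) hs' harch2P
  obtain ⟨hs0, hs2⟩ := nv41_unif V₂ s harch2
  have dvr2 := nv41_dvr V₂ s hu2 harch2
  refine ⟨⟨hs0, hs2, dvr2⟩, ?_⟩
  intro y hy a b ha hb
  have := nv41_ram (q - 1) (by omega) (by rw [hfr]; omega) (cm85_Vinf (K := K) M hπ) _ hmax harch
    (cm85_Vinf (K := K) (M * q) hπ) V₂ hV₁ hπ₁ hV₂ hπ₂' hint s hs' hs1 y a b
    (by rw [hπEF]; exact ha) hb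
  exact this

end vuf1a

section vuf1b

variable {R K : Type} [CommRing R] [IsDomain R] [IsDiscreteValuationRing R] [Field K] [CharZero K]
  [Algebra R K] [IsFractionRing R K] [Algebra K Q̄] (M' q : ℕ) [NeZero M'] [NeZero q]

/-- `V_0'` is discrete with uniformizer `π`. -/
theorem vuf1_disc_V0 (hq : q.Prime) (hM' : ¬ q ∣ M') {π : R} (hπ : Irreducible π) :
    vs1_Disc (s34i47c_V0 (K := K) M' q hq hM' hπ)
      (algebraMap K ↥(modularFunctionFieldFullC K (M' * q)) (algebraMap R K π)) := by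
  obtain ⟨d1, d2, d3, d4⟩ := obi72_V0_dvr (K := K) M' q hq hM' hπ
  exact vs1_disc_of_dvr _ _ d1 d2 d3 d4

/-- **Inert half along `α₂`**: `V₃` over `V_0'`. -/
theorem vuf1_alpha_inert (hq : q.Prime) (hM' : ¬ q ∣ M') {π : R} (hπ : Irreducible π)
    (V₃ : ValuationSubring ↥(modularFunctionFieldFullC K (M' * q * q)))
    (hV₃ : ∀ c ∈ s34i47c_V0 (K := K) M' q hq hM' hπ, al97L_alpha K (M' * q) q c ∈ V₃)
    (hπ₃ : (algebraMap K ↥(modularFunctionFieldFullC K (M' * q * q)) (algebraMap R K π))⁻¹ ∉ V₃)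
    (y : ↥(modularFunctionFieldFullC K (M' * q * q))) (hy : y ∈ V₃)
    (hya : (algebraMap K ↥(modularFunctionFieldFullC K (M' * q * q)) (algebraMap R K π))⁻¹ *
      (y ^ q - al97L_alpha K (M' * q) q (al97L_beta K M' q (relimc_J K M'))) ∈ V₃) :
    vs1_Disc V₃ (algebraMap K ↥(modularFunctionFieldFullC K (M' * q * q)) (algebraMap R K π)) ∧
    ∀ z : ↥(modularFunctionFieldFullC K (M' * q * q)), z ≠ 0 → ∀ c : ℤ,
      V₃.valuation z = V₃.valuation
        (algebraMap K ↥(modularFunctionFieldFullC K (M' * q * q)) (algebraMap R K π)) ^ c →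
      (s34i47c_V0 (K := K) M' q hq hM' hπ).valuation (s35i62_normA K (M' * q) q z) =
        (s34i47c_V0 (K := K) M' q hq hM' hπ).valuation
          (algebraMap K ↥(modularFunctionFieldFullC K (M' * q)) (algebraMap R K π)) ^
            ((q : ℤ) * c) := by
  letI alg : Algebra ↥(modularFunctionFieldFullC K (M' * q))
      ↥(modularFunctionFieldFullC K (M' * q * q)) :=
    (al97L_alpha K (M' * q) q).toRingHom.toAlgebra
  have hfr := ob72_finrank K (M' * q) q hq (dvd_mul_left q M')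
  haveI : FiniteDimensional ↥(modularFunctionFieldFullC K (M' * q))
      ↥(modularFunctionFieldFullC K (M' * q * q)) :=
    Module.finite_of_finrank_pos (by rw [hfr]; exact hq.pos)
  have hπEF : algebraMap ↥(modularFunctionFieldFullC K (M' * q))
      ↥(modularFunctionFieldFullC K (M' * q * q))
      (algebraMap K ↥(modularFunctionFieldFullC K (M' * q)) (algebraMap R K π)) =
      algebraMap K ↥(modularFunctionFieldFullC K (M' * q * q)) (algebraMap R K π) :=
    (al97L_alpha K (M' * q) q).commutes _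
  obtain ⟨d1, d2, d3, d4⟩ := obi72_V0_dvr (K := K) M' q hq hM' hπ
  have hd0 := vuf1_disc_V0 (K := K) M' q hq hM' hπ
  obtain ⟨-, hint, hu, -⟩ := obi72_inert (K := K) M' q hq hM' hπ V₃ hV₃ hπ₃ y hy hya
  have harchV := nv41_arch_up (s34i47c_V0 (K := K) M' q hq hM' hπ) _ d3 d4 V₃ hV₃
    (by rw [hπEF]; exact hπ₃)
  rw [hπEF] at harchV
  have hmem : algebraMap K ↥(modularFunctionFieldFullC K (M' * q * q)) (algebraMap R K π) ∈ V₃ := by
    rw [← hπEF]; exact hV₃ _ d1
  refine ⟨vs1_disc_of_dvr _ _ hmem hπ₃ hu harchV, ?_⟩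
  intro z hz c hc
  have := nv41_inert q hfr (s34i47c_V0 (K := K) M' q hq hM' hπ) _ hd0.1 V₃ hint z c
    (by rw [hπEF]; exact hc)
  exact this

/-- **Inert half along `β₂`**: `V₁` over `V_∞'`. -/
theorem vuf1_beta_inert (hq : q.Prime) (hM' : ¬ q ∣ M') {π : R} (hπ : Irreducible π)
    (hqR : ¬ IsUnit (q : R)) :
    ∀ z : ↥(modularFunctionFieldFullC K (M' * q * q)), z ≠ 0 → ∀ a : ℤ,
      (cm85_Vinf (K := K) (M' * q * q) hπ).valuation z =
        (cm85_Vinf (K := K) (M' * q * q) hπ).valuation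
          (algebraMap K ↥(modularFunctionFieldFullC K (M' * q * q)) (algebraMap R K π)) ^ a →
      (cm85_Vinf (K := K) (M' * q) hπ).valuation (s35i62_normB K (M' * q) q z) =
        (cm85_Vinf (K := K) (M' * q) hπ).valuation
          (algebraMap K ↥(modularFunctionFieldFullC K (M' * q)) (algebraMap R K π)) ^
            ((q : ℤ) * a) := by
  letI alg : Algebra ↥(modularFunctionFieldFullC K (M' * q))
      ↥(modularFunctionFieldFullC K (M' * q * q)) :=
    (al97L_beta K (M' * q) q).toRingHom.toAlgebra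
  have hL : ((M' * q * q : ℕ) : K) ≠ 0 := Nat.cast_ne_zero.mpr (NeZero.ne _)
  have hfr : Module.finrank ↥(modularFunctionFieldFullC K (M' * q))
      ↥(modularFunctionFieldFullC K (M' * q * q)) = q :=
    als86_finrank_beta (algebraMap K Q̄) M' q hq hM' hL
  haveI : FiniteDimensional ↥(modularFunctionFieldFullC K (M' * q))
      ↥(modularFunctionFieldFullC K (M' * q * q)) :=
    Module.finite_of_finrank_pos (by rw [hfr]; exact hq.pos)
  have hπEF : algebraMap ↥(modularFunctionFieldFullC K (M' * q))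
      ↥(modularFunctionFieldFullC K (M' * q * q))
      (algebraMap K ↥(modularFunctionFieldFullC K (M' * q)) (algebraMap R K π)) =
      algebraMap K ↥(modularFunctionFieldFullC K (M' * q * q)) (algebraMap R K π) :=
    (al97L_beta K (M' * q) q).commutes _
  have hd' := vuf1_disc_Vinf (K := K) (M' * q) hπ
  have hπV' : algebraMap K ↥(modularFunctionFieldFullC K (M' * q)) (algebraMap R K π) ∈
      cm85_Vinf (K := K) (M' * q) hπ :=
    ((cm85_Vinf (K := K) (M' * q) hπ).valuation_le_one_iff _).mp hd'.2.1.le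
  have hπV'' : (algebraMap K ↥(modularFunctionFieldFullC K (M' * q)) (algebraMap R K π))⁻¹ ∉
      cm85_Vinf (K := K) (M' * q) hπ :=
    gv85_pi_inv_not_mem (IsLocalRing.residue R) π (pk85_res_iff hπ) hπ.ne_zero _ _
  have hmax : ∀ x ∈ cm85_Vinf (K := K) (M' * q) hπ, x⁻¹ ∉ cm85_Vinf (K := K) (M' * q) hπ →
      (algebraMap K ↥(modularFunctionFieldFullC K (M' * q)) (algebraMap R K π))⁻¹ * x ∈
        cm85_Vinf (K := K) (M' * q) hπ := fun x hx hx' =>
    gv85_hmax (IsLocalRing.residue R) π (pk85_res_iff hπ) hπ.ne_zero _ _ x hx hx'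
  have harch := fs85_harch (K := K) (M' * q) hπ
  have hV₁ : ∀ c ∈ cm85_Vinf (K := K) (M' * q) hπ,
      algebraMap ↥(modularFunctionFieldFullC K (M' * q))
        ↥(modularFunctionFieldFullC K (M' * q * q)) c ∈
        cm85_Vinf (K := K) (M' * q * q) hπ := fun c hc =>
    (al97V_beta_mem_Vinf (M' * q) q hπ c).mpr hc
  have hπ₁ : (algebraMap ↥(modularFunctionFieldFullC K (M' * q))
      ↥(modularFunctionFieldFullC K (M' * q * q))
      (algebraMap K ↥(modularFunctionFieldFullC K (M' * q)) (algebraMap R K π)))⁻¹ ∉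
        cm85_Vinf (K := K) (M' * q * q) hπ := by
    rw [hπEF]
    exact gv85_pi_inv_not_mem (IsLocalRing.residue R) π (pk85_res_iff hπ) hπ.ne_zero _ _
  have hJ : al97L_alpha K (M' * q) q (relimc_J K (M' * q)) = relimc_J K (M' * q * q) :=
    Subtype.ext rfl
  have hyV : relimc_J K (M' * q * q) ∈ cm85_Vinf (K := K) (M' * q * q) hπ :=
    gv85_mem_V_of_integral _ _ _ _ (jqModC R) (by rw [relimc_J_coe, coeffMap_jqModC])
  have haV : relimc_J K (M' * q) ∈ cm85_Vinf (K := K) (M' * q) hπ :=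
    gv85_mem_V_of_integral _ _ _ _ (jqModC R) (by rw [relimc_J_coe, coeffMap_jqModC])
  have hfrob := fs85_frob (K := K) (M' * q) q hq hπ hqR
  have hya : (algebraMap ↥(modularFunctionFieldFullC K (M' * q))
      ↥(modularFunctionFieldFullC K (M' * q * q))
      (algebraMap K ↥(modularFunctionFieldFullC K (M' * q)) (algebraMap R K π)))⁻¹ *
      (relimc_J K (M' * q * q) ^ q -
        algebraMap ↥(modularFunctionFieldFullC K (M' * q))
          ↥(modularFunctionFieldFullC K (M' * q * q)) (relimc_J K (M' * q))) ∈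
        cm85_Vinf (K := K) (M' * q * q) hπ := by
    rw [hπEF]
    have e : (algebraMap K ↥(modularFunctionFieldFullC K (M' * q * q)) (algebraMap R K π))⁻¹ *
        (relimc_J K (M' * q * q) ^ q -
          algebraMap ↥(modularFunctionFieldFullC K (M' * q))
            ↥(modularFunctionFieldFullC K (M' * q * q)) (relimc_J K (M' * q))) =
        -((algebraMap K ↥(modularFunctionFieldFullC K (M' * q * q)) (algebraMap R K π))⁻¹ *
          (al97L_beta K (M' * q) q (relimc_J K (M' * q)) -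
            al97L_alpha K (M' * q) q (relimc_J K (M' * q) ^ q))) := by
      rw [map_pow, hJ]
      have : algebraMap ↥(modularFunctionFieldFullC K (M' * q))
            ↥(modularFunctionFieldFullC K (M' * q * q)) (relimc_J K (M' * q)) =
          al97L_beta K (M' * q) q (relimc_J K (M' * q)) := rfl
      rw [this]
      ring
    rw [e]
    exact neg_mem hfrob
  have hnp : ∀ b ∈ cm85_Vinf (K := K) (M' * q) hπ,
      (algebraMap K ↥(modularFunctionFieldFullC K (M' * q)) (algebraMap R K π))⁻¹ *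
        (b ^ q - relimc_J K (M' * q)) ∉ cm85_Vinf (K := K) (M' * q) hπ := fun b hb =>
    fs85_hpow (M' * q) hπ q hq.two_le b hb
  obtain ⟨-, hint, -, -, -⟩ := oe72_inert_main q hq hfr.le
    (cm85_Vinf (K := K) (M' * q) hπ) _ hπV' hπV'' hmax harch
    (cm85_Vinf (K := K) (M' * q * q) hπ) hV₁ hπ₁ (relimc_J K (M' * q * q)) hyV
    (relimc_J K (M' * q)) haV hya hnp
  intro z hz a ha
  have := nv41_inert q hfr (cm85_Vinf (K := K) (M' * q) hπ) _ hd'.1
    (cm85_Vinf (K := K) (M' * q * q) hπ) hint z a (by rw [hπEF]; exact ha)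
  exact this

/-- **Ramified pair along `β₂`**: `V₃`, `V₂` over `V_0'`. -/
theorem vuf1_beta_ram (hq : q.Prime) (hM' : ¬ q ∣ M') {π : R} (hπ : Irreducible π)
    (V₂ V₃ : ValuationSubring ↥(modularFunctionFieldFullC K (M' * q * q)))
    (hβ₂ : ∀ c ∈ s34i47c_V0 (K := K) M' q hq hM' hπ, al97L_beta K (M' * q) q c ∈ V₂)
    (hβ₃ : ∀ c ∈ s34i47c_V0 (K := K) M' q hq hM' hπ, al97L_beta K (M' * q) q c ∈ V₃)
    (hπ₂ : (algebraMap K ↥(modularFunctionFieldFullC K (M' * q * q)) (algebraMap R K π))⁻¹ ∉ V₂)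
    (hπ₃ : (algebraMap K ↥(modularFunctionFieldFullC K (M' * q * q)) (algebraMap R K π))⁻¹ ∉ V₃)
    (s : ↥(modularFunctionFieldFullC K (M' * q * q)))
    (hs : V₂.valuation s ^ (q - 1) =
      V₂.valuation (algebraMap K ↥(modularFunctionFieldFullC K (M' * q * q)) (algebraMap R K π)))
    (hs3 : V₃.valuation s = 1) :
    ∀ z : ↥(modularFunctionFieldFullC K (M' * q * q)), z ≠ 0 → ∀ b c : ℤ,
      V₂.valuation z = V₂.valuation s ^ b →
      V₃.valuation z = V₃.valuation
        (algebraMap K ↥(modularFunctionFieldFullC K (M' * q * q)) (algebraMap R K π)) ^ c →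
      (s34i47c_V0 (K := K) M' q hq hM' hπ).valuation (s35i62_normB K (M' * q) q z) =
        (s34i47c_V0 (K := K) M' q hq hM' hπ).valuation
          (algebraMap K ↥(modularFunctionFieldFullC K (M' * q)) (algebraMap R K π)) ^ (b + c) := by
  letI alg : Algebra ↥(modularFunctionFieldFullC K (M' * q))
      ↥(modularFunctionFieldFullC K (M' * q * q)) :=
    (al97L_beta K (M' * q) q).toRingHom.toAlgebra
  have hL : ((M' * q * q : ℕ) : K) ≠ 0 := Nat.cast_ne_zero.mpr (NeZero.ne _)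
  have hfr : Module.finrank ↥(modularFunctionFieldFullC K (M' * q))
      ↥(modularFunctionFieldFullC K (M' * q * q)) = q :=
    als86_finrank_beta (algebraMap K Q̄) M' q hq hM' hL
  haveI : FiniteDimensional ↥(modularFunctionFieldFullC K (M' * q))
      ↥(modularFunctionFieldFullC K (M' * q * q)) :=
    Module.finite_of_finrank_pos (by rw [hfr]; exact hq.pos)
  have hπEF : algebraMap ↥(modularFunctionFieldFullC K (M' * q))
      ↥(modularFunctionFieldFullC K (M' * q * q))
      (algebraMap K ↥(modularFunctionFieldFullC K (M' * q)) (algebraMap R K π)) =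
      algebraMap K ↥(modularFunctionFieldFullC K (M' * q * q)) (algebraMap R K π) :=
    (al97L_beta K (M' * q) q).commutes _
  obtain ⟨d1, d2, d3, d4⟩ := obi72_V0_dvr (K := K) M' q hq hM' hπ
  have hq2 := hq.two_le
  have hπ₂' : (algebraMap ↥(modularFunctionFieldFullC K (M' * q))
      ↥(modularFunctionFieldFullC K (M' * q * q))
      (algebraMap K ↥(modularFunctionFieldFullC K (M' * q)) (algebraMap R K π)))⁻¹ ∉ V₂ := by
    rw [hπEF]; exact hπ₂
  have hπ₃' : (algebraMap ↥(modularFunctionFieldFullC K (M' * q))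
      ↥(modularFunctionFieldFullC K (M' * q * q))
      (algebraMap K ↥(modularFunctionFieldFullC K (M' * q)) (algebraMap R K π)))⁻¹ ∉ V₃ := by
    rw [hπEF]; exact hπ₃
  have hs' : V₂.valuation s ^ (q - 1) = V₂.valuation
      (algebraMap ↥(modularFunctionFieldFullC K (M' * q))
        ↥(modularFunctionFieldFullC K (M' * q * q))
        (algebraMap K ↥(modularFunctionFieldFullC K (M' * q)) (algebraMap R K π))) := by
    rw [hπEF]; exact hs
  have hπ2mem : algebraMap K ↥(modularFunctionFieldFullC K (M' * q * q)) (algebraMap R K π) ∈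
      V₂ := by
    rw [← hπEF]; exact hβ₂ _ d1
  have hπ2lt : V₂.valuation
      (algebraMap K ↥(modularFunctionFieldFullC K (M' * q * q)) (algebraMap R K π)) < 1 := by
    refine lt_of_le_of_ne ((V₂.valuation_le_one_iff _).mpr hπ2mem) ?_
    intro h
    apply hπ₂
    rw [← V₂.valuation_le_one_iff, map_inv₀, h, inv_one]
  have hne : V₃ ≠ V₂ := by
    intro h
    have h1 : V₂.valuation s = 1 := h ▸ hs3
    rw [h1, one_pow] at hs
    exact hπ2lt.ne hs.symm
  obtain ⟨-, hint, -, -, -, -, -⟩ := oe72_ram_main (q - 1) (by omega) (by rw [hfr]; omega)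
    (s34i47c_V0 (K := K) M' q hq hM' hπ) _ d1 d2 d3 d4 V₃ V₂ hne hβ₃ hπ₃' hβ₂ hπ₂' s hs'
  intro z hz b c hb hc
  have := nv41_ram (q - 1) (by omega) (by rw [hfr]; omega)
    (s34i47c_V0 (K := K) M' q hq hM' hπ) _ d3 d4 V₃ V₂ hβ₃ hπ₃' hβ₂ hπ₂' hint s hs' hs3 z c b
    (by rw [hπEF]; exact hc) hb
  rw [add_comm b c]
  exact this

/-- **(B0) on the level-`M' q²` frame**: newness kills the vertical part.  `V₂`, `V₃` are
parameters with the four over-inclusions of `s3i66_eAB`, `π` a non-unit of both,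
`v₂(s) ^ (q - 1) = v₂(π)`, `s` a unit of `V₁` and of `V₃`, and the inert witness `(y, hy, hya)`
of `obi72_inert` for `V₃`. -/
theorem vuf1_main (hq : q.Prime) (hM' : ¬ q ∣ M') {π : R} (hπ : Irreducible π)
    (hqR : ¬ IsUnit (q : R))
    (V₂ V₃ : ValuationSubring ↥(modularFunctionFieldFullC K (M' * q * q)))
    (hα₂ : ∀ x ∈ cm85_Vinf (K := K) (M' * q) hπ, al97L_alpha K (M' * q) q x ∈ V₂)
    (hα₃ : ∀ x ∈ s34i47c_V0 (K := K) M' q hq hM' hπ, al97L_alpha K (M' * q) q x ∈ V₃)
    (hβ₂ : ∀ x ∈ s34i47c_V0 (K := K) M' q hq hM' hπ, al97L_beta K (M' * q) q x ∈ V₂)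
    (hβ₃ : ∀ x ∈ s34i47c_V0 (K := K) M' q hq hM' hπ, al97L_beta K (M' * q) q x ∈ V₃)
    (hπ₂ : (algebraMap K ↥(modularFunctionFieldFullC K (M' * q * q)) (algebraMap R K π))⁻¹ ∉ V₂)
    (hπ₃ : (algebraMap K ↥(modularFunctionFieldFullC K (M' * q * q)) (algebraMap R K π))⁻¹ ∉ V₃)
    (s : ↥(modularFunctionFieldFullC K (M' * q * q)))
    (hs : V₂.valuation s ^ (q - 1) =
      V₂.valuation (algebraMap K ↥(modularFunctionFieldFullC K (M' * q * q)) (algebraMap R K π)))
    (hs1 : (cm85_Vinf (K := K) (M' * q * q) hπ).valuation s = 1)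
    (hs3 : V₃.valuation s = 1)
    (y₃ : ↥(modularFunctionFieldFullC K (M' * q * q))) (hy₃ : y₃ ∈ V₃)
    (hya : (algebraMap K ↥(modularFunctionFieldFullC K (M' * q * q)) (algebraMap R K π))⁻¹ *
      (y₃ ^ q - al97L_alpha K (M' * q) q (al97L_beta K M' q (relimc_J K M'))) ∈ V₃)
    (m : ℕ) (hm : 0 < m)
    (f : ↥(modularFunctionFieldFullC K (M' * q * q))) (hf : f ≠ 0)
    (ca cb : K) (hca : ca ≠ 0) (hcb : cb ≠ 0)
    (a b : ↥(modularFunctionFieldFullC K (M' * q))) (ha : a ≠ 0) (hb : b ≠ 0)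
    (hNa : s35i62_normA K (M' * q) q f =
      algebraMap K ↥(modularFunctionFieldFullC K (M' * q)) ca * a ^ m)
    (hNb : s35i62_normB K (M' * q) q f =
      algebraMap K ↥(modularFunctionFieldFullC K (M' * q)) cb * b ^ m) :
    ∃ (c0 : K) (y f2 : ↥(modularFunctionFieldFullC K (M' * q * q))), c0 ≠ 0 ∧ y ≠ 0 ∧ f2 ≠ 0 ∧
      f2 = f ^ (q + 1) * algebraMap K ↥(modularFunctionFieldFullC K (M' * q * q)) c0 * y ^ m ∧
      (f2 ∈ cm85_Vinf (K := K) (M' * q * q) hπ ∧ f2⁻¹ ∈ cm85_Vinf (K := K) (M' * q * q) hπ) ∧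
      (f2 ∈ V₂ ∧ f2⁻¹ ∈ V₂) ∧ (f2 ∈ V₃ ∧ f2⁻¹ ∈ V₃) ∧
      (∃ (cA : K) (A2 : ↥(modularFunctionFieldFullC K (M' * q))), cA ≠ 0 ∧ A2 ≠ 0 ∧
        (algebraMap K ↥(modularFunctionFieldFullC K (M' * q)) cA ∈
            cm85_Vinf (K := K) (M' * q) hπ ∧
          (algebraMap K ↥(modularFunctionFieldFullC K (M' * q)) cA)⁻¹ ∈
            cm85_Vinf (K := K) (M' * q) hπ) ∧
        (algebraMap K ↥(modularFunctionFieldFullC K (M' * q)) cA ∈
            s34i47c_V0 (K := K) M' q hq hM' hπ ∧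
          (algebraMap K ↥(modularFunctionFieldFullC K (M' * q)) cA)⁻¹ ∈
            s34i47c_V0 (K := K) M' q hq hM' hπ) ∧
        (A2 ∈ cm85_Vinf (K := K) (M' * q) hπ ∧ A2⁻¹ ∈ cm85_Vinf (K := K) (M' * q) hπ) ∧
        (A2 ∈ s34i47c_V0 (K := K) M' q hq hM' hπ ∧
          A2⁻¹ ∈ s34i47c_V0 (K := K) M' q hq hM' hπ) ∧
        s35i62_normA K (M' * q) q f2 =
          algebraMap K ↥(modularFunctionFieldFullC K (M' * q)) cA * A2 ^ m) ∧
      (∃ (cB : K) (B2 : ↥(modularFunctionFieldFullC K (M' * q))), cB ≠ 0 ∧ B2 ≠ 0 ∧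
        (algebraMap K ↥(modularFunctionFieldFullC K (M' * q)) cB ∈
            cm85_Vinf (K := K) (M' * q) hπ ∧
          (algebraMap K ↥(modularFunctionFieldFullC K (M' * q)) cB)⁻¹ ∈
            cm85_Vinf (K := K) (M' * q) hπ) ∧
        (algebraMap K ↥(modularFunctionFieldFullC K (M' * q)) cB ∈
            s34i47c_V0 (K := K) M' q hq hM' hπ ∧
          (algebraMap K ↥(modularFunctionFieldFullC K (M' * q)) cB)⁻¹ ∈
            s34i47c_V0 (K := K) M' q hq hM' hπ) ∧
        (B2 ∈ cm85_Vinf (K := K) (M' * q) hπ ∧ B2⁻¹ ∈ cm85_Vinf (K := K) (M' * q) hπ) ∧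
        (B2 ∈ s34i47c_V0 (K := K) M' q hq hM' hπ ∧
          B2⁻¹ ∈ s34i47c_V0 (K := K) M' q hq hM' hπ) ∧
        s35i62_normB K (M' * q) q f2 =
          algebraMap K ↥(modularFunctionFieldFullC K (M' * q)) cB * B2 ^ m) := by
  obtain ⟨hd2, hAinf⟩ := vuf1_alpha_ram (K := K) (M' * q) q hq (dvd_mul_left q M') hπ V₂ hα₂ hπ₂
    s hs hs1
  obtain ⟨hd3, hA0⟩ := vuf1_alpha_inert (K := K) M' q hq hM' hπ V₃ hα₃ hπ₃ y₃ hy₃ hya
  have hBinf := vuf1_beta_inert (K := K) M' q hq hM' hπ hqR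
  have hB0 := vuf1_beta_ram (K := K) M' q hq hM' hπ V₂ V₃ hβ₂ hβ₃ hπ₂ hπ₃ s hs hs3
  have hd1 := vuf1_disc_Vinf (K := K) (M' * q * q) hπ
  have hdinf := vuf1_disc_Vinf (K := K) (M' * q) hπ
  have hd0 := vuf1_disc_V0 (K := K) M' q hq hM' hπ
  -- the separator
  obtain ⟨eA, hA1, hA2, hA3⟩ : ∃ eA : ↥(modularFunctionFieldFullC K (M' * q * q)),
      (algebraMap K ↥(modularFunctionFieldFullC K (M' * q * q)) (algebraMap R K π))⁻¹ * eA ∈
        cm85_Vinf (K := K) (M' * q * q) hπ ∧
      (algebraMap K ↥(modularFunctionFieldFullC K (M' * q * q)) (algebraMap R K π))⁻¹ * eA ∈ V₂ ∧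
      (algebraMap K ↥(modularFunctionFieldFullC K (M' * q * q)) (algebraMap R K π))⁻¹ *
        (eA - 1) ∈ V₃ := by
    letI i1 : Algebra R ↥(modularFunctionFieldFullC K (M' * q)) :=
      ((algebraMap K ↥(modularFunctionFieldFullC K (M' * q))).comp (algebraMap R K)).toAlgebra
    haveI t1 : IsScalarTower R K ↥(modularFunctionFieldFullC K (M' * q)) :=
      IsScalarTower.of_algebraMap_eq (fun _ => rfl)
    letI i2 : Algebra R ↥(modularFunctionFieldFullC K (M' * q * q)) :=
      ((algebraMap K ↥(modularFunctionFieldFullC K (M' * q * q))).comp (algebraMap R K)).toAlgebra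
    haveI t2 : IsScalarTower R K ↥(modularFunctionFieldFullC K (M' * q * q)) :=
      IsScalarTower.of_algebraMap_eq (fun _ => rfl)
    obtain ⟨eA, eB, ⟨h1, h2, h3⟩, -⟩ :=
      s3i66_eAB (K := K) M' q hq hM' hπ V₂ V₃ hqR hα₂ hα₃ hβ₂ hβ₃
    exact ⟨eA, h1, h2, h3⟩
  -- constants
  have hK : ∀ c : K, algebraMap K ↥(modularFunctionFieldFullC K (M' * q)) c ∈
      cm85_Vinf (K := K) (M' * q) hπ ↔
      algebraMap K ↥(modularFunctionFieldFullC K (M' * q)) c ∈
        s34i47c_V0 (K := K) M' q hq hM' hπ := by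
    intro c
    rw [s34i47c_mem_V0, AlgEquiv.commutes]
  have hL : ((M' * q * q : ℕ) : K) ≠ 0 := Nat.cast_ne_zero.mpr (NeZero.ne _)
  have hNalK : ∀ c : K, s35i62_normA K (M' * q) q
      (algebraMap K ↥(modularFunctionFieldFullC K (M' * q * q)) c) =
      algebraMap K ↥(modularFunctionFieldFullC K (M' * q)) (c ^ q) := by
    intro c
    letI alg : Algebra ↥(modularFunctionFieldFullC K (M' * q))
        ↥(modularFunctionFieldFullC K (M' * q * q)) :=
      (al97L_alpha K (M' * q) q).toRingHom.toAlgebra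
    have hfr := ob72_finrank K (M' * q) q hq (dvd_mul_left q M')
    have e : algebraMap K ↥(modularFunctionFieldFullC K (M' * q * q)) c =
        algebraMap ↥(modularFunctionFieldFullC K (M' * q))
          ↥(modularFunctionFieldFullC K (M' * q * q))
          (algebraMap K ↥(modularFunctionFieldFullC K (M' * q)) c) :=
      ((al97L_alpha K (M' * q) q).commutes c).symm
    rw [e, map_pow]
    have := Algebra.norm_algebraMap (R := ↥(modularFunctionFieldFullC K (M' * q)))
      (S := ↥(modularFunctionFieldFullC K (M' * q * q)))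
      (algebraMap K ↥(modularFunctionFieldFullC K (M' * q)) c)
    rw [hfr] at this
    exact this
  have hNbeK : ∀ c : K, s35i62_normB K (M' * q) q
      (algebraMap K ↥(modularFunctionFieldFullC K (M' * q * q)) c) =
      algebraMap K ↥(modularFunctionFieldFullC K (M' * q)) (c ^ q) := by
    intro c
    letI alg : Algebra ↥(modularFunctionFieldFullC K (M' * q))
        ↥(modularFunctionFieldFullC K (M' * q * q)) :=
      (al97L_beta K (M' * q) q).toRingHom.toAlgebra
    have hfr : Module.finrank ↥(modularFunctionFieldFullC K (M' * q))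
        ↥(modularFunctionFieldFullC K (M' * q * q)) = q :=
      als86_finrank_beta (algebraMap K Q̄) M' q hq hM' hL
    have e : algebraMap K ↥(modularFunctionFieldFullC K (M' * q * q)) c =
        algebraMap ↥(modularFunctionFieldFullC K (M' * q))
          ↥(modularFunctionFieldFullC K (M' * q * q))
          (algebraMap K ↥(modularFunctionFieldFullC K (M' * q)) c) :=
      ((al97L_beta K (M' * q) q).commutes c).symm
    rw [e, map_pow]
    have := Algebra.norm_algebraMap (R := ↥(modularFunctionFieldFullC K (M' * q)))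
      (S := ↥(modularFunctionFieldFullC K (M' * q * q)))
      (algebraMap K ↥(modularFunctionFieldFullC K (M' * q)) c)
    rw [hfr] at this
    exact this
  exact vs1_main (algebraMap K ↥(modularFunctionFieldFullC K (M' * q)))
    (algebraMap K ↥(modularFunctionFieldFullC K (M' * q * q)))
    (s35i62_normA K (M' * q) q) (s35i62_normB K (M' * q) q)
    (cm85_Vinf (K := K) (M' * q * q) hπ) V₂ V₃ (cm85_Vinf (K := K) (M' * q) hπ)
    (s34i47c_V0 (K := K) M' q hq hM' hπ) q m hq.two_le hm (algebraMap R K π) s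
    hd1 hd2 hd3 hdinf hd0 hs hs1 hs3 eA hA1 hA2 hA3 hK hNalK hNbeK hAinf hA0 hBinf hB0
    f hf ca cb hca hcb a b ha hb hNa hNb

end vuf1b

end Fermat.Agent.S36
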