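import Mathlib

/-!
# S36 lab, row B2-val (helper3, twin): newness kills the vertical part (abstract, Mathlib only)

Setting: a field `F` (level `q²`) with three discrete valuation subrings `V1`, `V2`, `V3`
(uniformizers `p`, `s`, `p`; `v₂(p) = v₂(s)^(q-1)`), a field `F'` (level `q`) with two discrete
valuation subrings `Vi`, `V0` (common uniformizer `p'`), and two multiplicative maps
`Nα, Nβ : F → F'` satisfying the "valuation of a norm" formulas
`v_∞'(Nα y) = e₁ + e₂`, `v₀'(Nα y) = q e₃`, `v_∞'(Nβ y) = q e₁`, `v₀'(Nβ y) = e₂ + e₃`.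

`vv3_main`: if `Nα f = c_a a^m` and `Nβ f = c_b b^m` with constants `c_a`, `c_b` (same order at
`Vi` and `V0`), then `f^(q+1) p^k / (s^a₂ y₃^a₃)^m` is a unit at `V1`, `V2`, `V3` for suitable
integers `k`, `a₂`, `a₃` (`y₃` a uniformizer of `V3` which is a unit at `V1`, `V2`).

Companions: `vv3_disc_of_hmax` (discreteness from a uniformizer + Archimedean property),
`vv3_two_of_unit` / `vv3_one_of_unit` (the norm formulas from their unit forms and the norms of
the uniformizers), `vv3_norm_f2` (the norm of the corrected function).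
-/

set_option autoImplicit false

namespace Fermat.Agent.S36

/-- Integer algebra: `e₁ + e₂ ≡ q e₃` and `q e₁ ≡ e₂ + e₃` modulo `m` give
`(q + 1) (e₁, e₂, e₃) ≡ (q + 1) e₁ (1, q - 1, 1)` modulo `m`. -/
theorem vv3_valvec (m q e1 e2 e3 : ℤ)
    (hA : m ∣ e1 + e2 - q * e3) (hB : m ∣ q * e1 - (e2 + e3)) :
    ∃ a2 a3 : ℤ, (q + 1) * e2 = (q + 1) * e1 * (q - 1) + m * a2 ∧
      (q + 1) * e3 = (q + 1) * e1 + m * a3 := by
  obtain ⟨a, ha⟩ := hA
  obtain ⟨b, hb⟩ := hB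
  exact ⟨a - q * b, -(a + b), by linear_combination ha - q * hb, by linear_combination -ha - hb⟩

section ord

variable {F : Type*} [Field F]

/-- `V` is discrete with uniformizer `y`: `y` is a nonzero nonunit and every nonzero element is
`y ^ e` times a unit (`e : ℤ`). -/
def vv3_Disc (V : ValuationSubring F) (y : F) : Prop :=
  y ≠ 0 ∧ V.valuation y < 1 ∧ ∀ x : F, x ≠ 0 → ∃ e : ℤ, V.valuation x = V.valuation y ^ e

theorem vv3_val_ne_zero {V : ValuationSubring F} {y : F} (h : vv3_Disc V y) :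
    V.valuation y ≠ 0 :=
  (Valuation.ne_zero_iff _).2 h.1

theorem vv3_zpow_inj {V : ValuationSubring F} {y : F} (h : vv3_Disc V y) {a b : ℤ}
    (hab : V.valuation y ^ a = V.valuation y ^ b) : a = b :=
  (zpow_right_strictAnti₀ (zero_lt_iff.2 (vv3_val_ne_zero h)) h.2.1).injective hab

/-- Discreteness from a uniformizer and the Archimedean property. -/
theorem vv3_disc_of_hmax (V : ValuationSubring F) (y : F) (hy0 : y ≠ 0) (hy : y ∈ V)
    (hyi : y⁻¹ ∉ V) (hmax : ∀ x ∈ V, x⁻¹ ∉ V → y⁻¹ * x ∈ V)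
    (harch : ∀ x : F, x ≠ 0 → ∃ n : ℕ, (y ^ n)⁻¹ * x ∉ V) : vv3_Disc V y := by
  classical
  have hv0 : V.valuation y ≠ 0 := (Valuation.ne_zero_iff _).2 hy0
  have hylt : V.valuation y < 1 := by
    refine lt_of_le_of_ne ((V.valuation_le_one_iff _).2 hy) (fun h1 => hyi ?_)
    rw [← V.valuation_le_one_iff, map_inv₀, h1, inv_one]
  have key : ∀ x : F, x ≠ 0 → x ∈ V → ∃ l : ℕ, V.valuation x = V.valuation y ^ l := by
    intro x hx0 hx
    have hP : ∃ n : ℕ, (y ^ n)⁻¹ * x ∉ V := harch x hx0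
    have hm1 : (y ^ Nat.find hP)⁻¹ * x ∉ V := Nat.find_spec hP
    have hm0 : Nat.find hP ≠ 0 := by
      intro h
      rw [h] at hm1
      exact hm1 (by simpa using hx)
    obtain ⟨l, hl⟩ := Nat.exists_eq_succ_of_ne_zero hm0
    have hε : (y ^ l)⁻¹ * x ∈ V := by
      by_contra h
      exact Nat.find_min hP (by omega : l < Nat.find hP) h
    have hεinv : ((y ^ l)⁻¹ * x)⁻¹ ∈ V := by
      by_contra h
      have h4 := hmax _ hε h
      apply hm1
      rw [hl]
      have h5 : (y ^ (l + 1))⁻¹ * x = y⁻¹ * ((y ^ l)⁻¹ * x) := by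
        rw [pow_succ, mul_inv]
        ring
      rw [Nat.succ_eq_add_one, h5]
      exact h4
    refine ⟨l, ?_⟩
    have hε0 : (y ^ l)⁻¹ * x ≠ 0 := mul_ne_zero (inv_ne_zero (pow_ne_zero _ hy0)) hx0
    have h1 : V.valuation ((y ^ l)⁻¹ * x) = 1 := by
      have a := (V.valuation_le_one_iff _).2 hε
      have b := (V.valuation_le_one_iff _).2 hεinv
      rw [map_inv₀] at b
      have hpos : 0 < V.valuation ((y ^ l)⁻¹ * x) :=
        zero_lt_iff.2 ((Valuation.ne_zero_iff _).2 hε0)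
      exact le_antisymm a ((inv_le_one₀ hpos).1 b)
    rw [map_mul, map_inv₀, map_pow] at h1
    have h2 : V.valuation x = V.valuation y ^ l * ((V.valuation y ^ l)⁻¹ * V.valuation x) := by
      rw [← mul_assoc, mul_inv_cancel₀ (pow_ne_zero _ hv0), one_mul]
    rw [h2, h1, mul_one]
  refine ⟨hy0, hylt, ?_⟩
  intro x hx0
  rcases V.mem_or_inv_mem x with hx | hx
  · obtain ⟨l, hl⟩ := key x hx0 hx
    exact ⟨(l : ℤ), by rw [hl, zpow_natCast]⟩
  · obtain ⟨l, hl⟩ := key x⁻¹ (inv_ne_zero hx0) hx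
    refine ⟨-(l : ℤ), ?_⟩
    rw [map_inv₀] at hl
    rw [zpow_neg, zpow_natCast, ← hl, inv_inv]

/-- Valuation of the corrected function in terms of the orders of its ingredients. -/
theorem vv3_val_combo {Γ : Type*} [LinearOrderedCommGroupWithZero Γ] (v : Valuation F Γ)
    (u f p s y : F) (hu : v u ≠ 0) (ef ep es ey : ℤ) (hf : v f = v u ^ ef)
    (hp : v p = v u ^ ep) (hs : v s = v u ^ es) (hy : v y = v u ^ ey) (n m : ℕ) (k a2 a3 : ℤ) :
    v (f ^ n * p ^ k * ((s ^ a2 * y ^ a3) ^ m)⁻¹)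
      = v u ^ ((n : ℤ) * ef + k * ep - (m : ℤ) * (a2 * es + a3 * ey)) := by
  have e1 : v (f ^ n) = v u ^ ((n : ℤ) * ef) := by
    rw [map_pow, hf, ← zpow_natCast, ← zpow_mul, mul_comm]
  have e2 : v (p ^ k) = v u ^ (k * ep) := by
    rw [map_zpow₀, hp, ← zpow_mul, mul_comm]
  have e3 : v (s ^ a2 * y ^ a3) = v u ^ (a2 * es + a3 * ey) := by
    rw [map_mul, map_zpow₀, map_zpow₀, hs, hy, ← zpow_mul, ← zpow_mul, zpow_add₀ hu,
      mul_comm es, mul_comm ey]
  have e4 : v (((s ^ a2 * y ^ a3) ^ m)⁻¹) = v u ^ (-((m : ℤ) * (a2 * es + a3 * ey))) := by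
    rw [map_inv₀, map_pow, e3, ← zpow_natCast, ← zpow_mul, zpow_neg, mul_comm]
  rw [map_mul, map_mul, e1, e2, e4, ← zpow_add₀ hu, ← zpow_add₀ hu]
  congr 1

end ord


section main

variable {F F' : Type*} [Field F] [Field F']

/-- **B2-val, abstract form.**  Newness kills the vertical part of the divisor: if
`Nα f = c_a a^m` and `Nβ f = c_b b^m` with constants `c_a`, `c_b`, then
`f^(q+1) p^k / (s^a₂ y₃^a₃)^m` is a unit at `V1`, `V2`, `V3` for suitable integers. -/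
theorem vv3_main (q m : ℕ)
    (V1 V2 V3 : ValuationSubring F) (Vi V0 : ValuationSubring F')
    (p s y3 : F) (p' : F')
    (hd1 : vv3_Disc V1 p) (hd2 : vv3_Disc V2 s) (hd3 : vv3_Disc V3 p)
    (hdi : vv3_Disc Vi p') (hd0 : vv3_Disc V0 p')
    (hp2 : V2.valuation p = V2.valuation s ^ ((q : ℤ) - 1))
    (hs1 : V1.valuation s = 1) (hs3 : V3.valuation s = 1)
    (hy1 : V1.valuation y3 = 1) (hy2 : V2.valuation y3 = 1)
    (hy3 : V3.valuation y3 = V3.valuation p)
    (Nα Nβ : F → F')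
    (hαi : ∀ (y : F) (e1 e2 : ℤ), V1.valuation y = V1.valuation p ^ e1 →
      V2.valuation y = V2.valuation s ^ e2 → Vi.valuation (Nα y) = Vi.valuation p' ^ (e1 + e2))
    (hα0 : ∀ (y : F) (e3 : ℤ), V3.valuation y = V3.valuation p ^ e3 →
      V0.valuation (Nα y) = V0.valuation p' ^ ((q : ℤ) * e3))
    (hβi : ∀ (y : F) (e1 : ℤ), V1.valuation y = V1.valuation p ^ e1 →
      Vi.valuation (Nβ y) = Vi.valuation p' ^ ((q : ℤ) * e1))
    (hβ0 : ∀ (y : F) (e2 e3 : ℤ), V2.valuation y = V2.valuation s ^ e2 →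
      V3.valuation y = V3.valuation p ^ e3 → V0.valuation (Nβ y) = V0.valuation p' ^ (e2 + e3))
    (f : F) (hf : f ≠ 0) (ca cb a b : F') (ha : a ≠ 0) (hb : b ≠ 0)
    (hca : ∃ k : ℤ, Vi.valuation ca = Vi.valuation p' ^ k ∧ V0.valuation ca = V0.valuation p' ^ k)
    (hcb : ∃ k : ℤ, Vi.valuation cb = Vi.valuation p' ^ k ∧ V0.valuation cb = V0.valuation p' ^ k)
    (hNα : Nα f = ca * a ^ m) (hNβ : Nβ f = cb * b ^ m) :
    ∃ k a2 a3 : ℤ,
      V1.valuation (f ^ (q + 1) * p ^ k * ((s ^ a2 * y3 ^ a3) ^ m)⁻¹) = 1 ∧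
      V2.valuation (f ^ (q + 1) * p ^ k * ((s ^ a2 * y3 ^ a3) ^ m)⁻¹) = 1 ∧
      V3.valuation (f ^ (q + 1) * p ^ k * ((s ^ a2 * y3 ^ a3) ^ m)⁻¹) = 1 := by
  obtain ⟨e1, he1⟩ := hd1.2.2 f hf
  obtain ⟨e2, he2⟩ := hd2.2.2 f hf
  obtain ⟨e3, he3⟩ := hd3.2.2 f hf
  obtain ⟨ki, hki⟩ := hdi.2.2 a ha
  obtain ⟨k0, hk0⟩ := hd0.2.2 a ha
  obtain ⟨li, hli⟩ := hdi.2.2 b hb
  obtain ⟨l0, hl0⟩ := hd0.2.2 b hb
  obtain ⟨kc, hkci, hkc0⟩ := hca
  obtain ⟨lc, hlci, hlc0⟩ := hcb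
  have hui := vv3_val_ne_zero hdi
  have hu0 := vv3_val_ne_zero hd0
  -- the four order identities
  have A1 : e1 + e2 = kc + (m : ℤ) * ki := by
    apply vv3_zpow_inj hdi
    rw [← hαi f e1 e2 he1 he2, hNα, map_mul, map_pow, hkci, hki, ← zpow_natCast, ← zpow_mul,
      ← zpow_add₀ hui, mul_comm]
  have A2 : (q : ℤ) * e3 = kc + (m : ℤ) * k0 := by
    apply vv3_zpow_inj hd0
    rw [← hα0 f e3 he3, hNα, map_mul, map_pow, hkc0, hk0, ← zpow_natCast, ← zpow_mul,
      ← zpow_add₀ hu0, mul_comm]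
  have B1 : (q : ℤ) * e1 = lc + (m : ℤ) * li := by
    apply vv3_zpow_inj hdi
    rw [← hβi f e1 he1, hNβ, map_mul, map_pow, hlci, hli, ← zpow_natCast, ← zpow_mul,
      ← zpow_add₀ hui, mul_comm]
  have B2 : e2 + e3 = lc + (m : ℤ) * l0 := by
    apply vv3_zpow_inj hd0
    rw [← hβ0 f e2 e3 he2 he3, hNβ, map_mul, map_pow, hlc0, hl0, ← zpow_natCast, ← zpow_mul,
      ← zpow_add₀ hu0, mul_comm]
  obtain ⟨a2, a3, h2, h3⟩ := vv3_valvec (m : ℤ) (q : ℤ) e1 e2 e3
    ⟨ki - k0, by linear_combination A1 - A2⟩ ⟨li - l0, by linear_combination B1 - B2⟩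
  refine ⟨-(((q : ℤ) + 1) * e1), a2, a3, ?_, ?_, ?_⟩
  · rw [vv3_val_combo V1.valuation p f p s y3 (vv3_val_ne_zero hd1) e1 1 0 0 he1
      (by rw [zpow_one]) (by rw [hs1, zpow_zero]) (by rw [hy1, zpow_zero])]
    have : ((q + 1 : ℕ) : ℤ) * e1 + -(((q : ℤ) + 1) * e1) * 1 - (m : ℤ) * (a2 * 0 + a3 * 0) = 0 := by
      push_cast; ring
    rw [this, zpow_zero]
  · rw [vv3_val_combo V2.valuation s f p s y3 (vv3_val_ne_zero hd2) e2 ((q : ℤ) - 1) 1 0 he2
      hp2 (by rw [zpow_one]) (by rw [hy2, zpow_zero])]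
    have : ((q + 1 : ℕ) : ℤ) * e2 + -(((q : ℤ) + 1) * e1) * ((q : ℤ) - 1)
        - (m : ℤ) * (a2 * 1 + a3 * 0) = 0 := by
      push_cast; linear_combination h2
    rw [this, zpow_zero]
  · rw [vv3_val_combo V3.valuation p f p s y3 (vv3_val_ne_zero hd3) e3 1 0 1 he3
      (by rw [zpow_one]) (by rw [hs3, zpow_zero]) (by rw [hy3, zpow_one])]
    have : ((q + 1 : ℕ) : ℤ) * e3 + -(((q : ℤ) + 1) * e1) * 1 - (m : ℤ) * (a2 * 0 + a3 * 1) = 0 := by
      push_cast; linear_combination h3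
    rw [this, zpow_zero]

/-- The norm of the corrected function. -/
theorem vv3_norm_f2 (N : F →*₀ F') (f p s y3 : F) (n m : ℕ) (k a2 a3 : ℤ) :
    N (f ^ n * p ^ k * ((s ^ a2 * y3 ^ a3) ^ m)⁻¹)
      = N f ^ n * N p ^ k * ((N s ^ a2 * N y3 ^ a3) ^ m)⁻¹ := by
  rw [map_mul, map_mul, map_inv₀, map_pow, map_pow, map_mul, map_zpow₀, map_zpow₀, map_zpow₀]

/-- The corrected function still has norm `constant * m-th power`. -/
theorem vv3_norm_f2_shape (N : F →*₀ F') (f p s y3 : F) (q m : ℕ) (k a2 a3 : ℤ)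
    (c a : F') (hN : N f = c * a ^ m) :
    N (f ^ (q + 1) * p ^ k * ((s ^ a2 * y3 ^ a3) ^ m)⁻¹)
      = (c ^ (q + 1) * N p ^ k) * (a ^ (q + 1) * (N s ^ a2 * N y3 ^ a3)⁻¹) ^ m := by
  rw [vv3_norm_f2, hN, mul_pow, mul_pow, mul_pow, inv_pow, ← pow_mul, ← pow_mul, mul_comm m (q + 1)]
  ring

end main

section unitforms

variable {F F' : Type*} [Field F] [Field F']

/-- The norm formula at one valuation over one valuation (`v'(N y) = d * v(y)`) from its unit
form and the norm of the uniformizer. -/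
theorem vv3_one_of_unit (V : ValuationSubring F) (V' : ValuationSubring F') (p : F) (p' : F')
    (hp : p ≠ 0) (N : F →*₀ F') (d : ℤ)
    (hunit : ∀ y : F, V.valuation y = 1 → V'.valuation (N y) = 1)
    (hNp : V'.valuation (N p) = V'.valuation p' ^ d) :
    ∀ (y : F) (e : ℤ), V.valuation y = V.valuation p ^ e →
      V'.valuation (N y) = V'.valuation p' ^ (d * e) := by
  intro y e hy
  have hvp : V.valuation p ≠ 0 := (Valuation.ne_zero_iff _).2 hp
  have h1 : V.valuation (y * (p ^ e)⁻¹) = 1 := by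
    rw [map_mul, map_inv₀, map_zpow₀, hy, mul_inv_cancel₀ (zpow_ne_zero _ hvp)]
  have h2 := hunit _ h1
  rw [map_mul, map_inv₀, map_zpow₀, map_mul, map_inv₀, map_zpow₀, hNp, ← zpow_mul] at h2
  have hN0 : V'.valuation p' ^ (d * e) ≠ 0 := by
    intro h0
    rw [h0, inv_zero, mul_zero] at h2
    exact zero_ne_one h2
  calc V'.valuation (N y) = V'.valuation (N y) * (V'.valuation p' ^ (d * e))⁻¹
        * V'.valuation p' ^ (d * e) := by
        rw [mul_assoc, inv_mul_cancel₀ hN0, mul_one]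
    _ = V'.valuation p' ^ (d * e) := by rw [h2, one_mul]

/-- The norm formula at two valuations over one valuation (`v'(N y) = v₁(y) + v₂(y)`, with
`v₂(p) = v₂(s)^(q-1)`) from its unit form and the norms of `p` and `s`. -/
theorem vv3_two_of_unit (q : ℕ) (V1 V2 : ValuationSubring F) (V' : ValuationSubring F')
    (p s : F) (p' : F') (hp : p ≠ 0) (hs : s ≠ 0) (hp' : V'.valuation p' ≠ 0)
    (hp2 : V2.valuation p = V2.valuation s ^ ((q : ℤ) - 1)) (hs1 : V1.valuation s = 1)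
    (N : F →*₀ F')
    (hunit : ∀ y : F, V1.valuation y = 1 → V2.valuation y = 1 → V'.valuation (N y) = 1)
    (hNp : V'.valuation (N p) = V'.valuation p' ^ (q : ℤ))
    (hNs : V'.valuation (N s) = V'.valuation p') :
    ∀ (y : F) (e1 e2 : ℤ), V1.valuation y = V1.valuation p ^ e1 →
      V2.valuation y = V2.valuation s ^ e2 → V'.valuation (N y) = V'.valuation p' ^ (e1 + e2) := by
  intro y e1 e2 hy1 hy2
  have hv1 : V1.valuation p ≠ 0 := (Valuation.ne_zero_iff _).2 hp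
  have hv2 : V2.valuation s ≠ 0 := (Valuation.ne_zero_iff _).2 hs
  -- the unit `y * p^(-e1) * s^((q-1) e1 - e2)`
  have h1 : V1.valuation (y * (p ^ e1)⁻¹ * s ^ (((q : ℤ) - 1) * e1 - e2)) = 1 := by
    rw [map_mul, map_mul, map_inv₀, map_zpow₀, map_zpow₀, hy1, hs1, one_zpow, mul_one,
      mul_inv_cancel₀ (zpow_ne_zero _ hv1)]
  have h2 : V2.valuation (y * (p ^ e1)⁻¹ * s ^ (((q : ℤ) - 1) * e1 - e2)) = 1 := by
    rw [map_mul, map_mul, map_inv₀, map_zpow₀, map_zpow₀, hy2, hp2, ← zpow_mul, ← zpow_neg,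
      ← zpow_add₀ hv2, ← zpow_add₀ hv2]
    have : e2 + -(((q : ℤ) - 1) * e1) + (((q : ℤ) - 1) * e1 - e2) = 0 := by ring
    rw [this, zpow_zero]
  have h3 := hunit _ h1 h2
  simp only [map_mul, map_inv₀, map_zpow₀] at h3
  rw [hNp, hNs, ← zpow_mul, ← zpow_neg, mul_assoc, ← zpow_add₀ hp'] at h3
  have hN0 : V'.valuation p' ^ (-((q : ℤ) * e1) + (((q : ℤ) - 1) * e1 - e2)) ≠ 0 :=
    zpow_ne_zero _ hp'
  have h4 : V'.valuation (N y)
      = (V'.valuation p' ^ (-((q : ℤ) * e1) + (((q : ℤ) - 1) * e1 - e2)))⁻¹ := by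
    exact eq_inv_of_mul_eq_one_left h3
  rw [h4, ← zpow_neg]
  congr 1
  ring

end unitforms


section ordfn

variable {F : Type*} [Field F]

open Classical in
/-- The `ℤ`-valued order at a discrete valuation subring `V` with uniformizer `y`
(junk value `0` when undefined, e.g. at `0`). -/
noncomputable def vv3_ord (V : ValuationSubring F) (y : F) (x : F) : ℤ :=
  if h : ∃ e : ℤ, V.valuation x = V.valuation y ^ e then h.choose else 0

variable {V : ValuationSubring F} {y : F}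

theorem vv3_ord_spec (hd : vv3_Disc V y) {x : F} (hx : x ≠ 0) :
    V.valuation x = V.valuation y ^ vv3_ord V y x := by
  have h := hd.2.2 x hx
  unfold vv3_ord
  rw [dif_pos h]
  exact h.choose_spec

theorem vv3_ord_eq (hd : vv3_Disc V y) {x : F} {e : ℤ}
    (h : V.valuation x = V.valuation y ^ e) : vv3_ord V y x = e := by
  have hx : x ≠ 0 := by
    rintro rfl
    rw [map_zero] at h
    exact zpow_ne_zero e (vv3_val_ne_zero hd) h.symm
  apply vv3_zpow_inj hd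
  rw [← vv3_ord_spec hd hx, h]

theorem vv3_ord_mul (hd : vv3_Disc V y) {x x' : F} (hx : x ≠ 0) (hx' : x' ≠ 0) :
    vv3_ord V y (x * x') = vv3_ord V y x + vv3_ord V y x' := by
  apply vv3_ord_eq hd
  rw [map_mul, vv3_ord_spec hd hx, vv3_ord_spec hd hx', ← zpow_add₀ (vv3_val_ne_zero hd)]

theorem vv3_ord_self (hd : vv3_Disc V y) : vv3_ord V y y = 1 :=
  vv3_ord_eq hd (zpow_one _).symm

theorem vv3_ord_one (hd : vv3_Disc V y) : vv3_ord V y 1 = 0 :=
  vv3_ord_eq hd (by rw [map_one, zpow_zero])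

theorem vv3_ord_inv (hd : vv3_Disc V y) {x : F} (hx : x ≠ 0) :
    vv3_ord V y x⁻¹ = -vv3_ord V y x := by
  apply vv3_ord_eq hd
  rw [map_inv₀, vv3_ord_spec hd hx, zpow_neg]

theorem vv3_ord_pow (hd : vv3_Disc V y) {x : F} (hx : x ≠ 0) (n : ℕ) :
    vv3_ord V y (x ^ n) = n * vv3_ord V y x := by
  apply vv3_ord_eq hd
  rw [map_pow, vv3_ord_spec hd hx, ← zpow_natCast, ← zpow_mul, mul_comm]

theorem vv3_ord_zpow (hd : vv3_Disc V y) {x : F} (hx : x ≠ 0) (n : ℤ) :
    vv3_ord V y (x ^ n) = n * vv3_ord V y x := by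
  apply vv3_ord_eq hd
  rw [map_zpow₀, vv3_ord_spec hd hx, ← zpow_mul, mul_comm]

/-- Order zero means unit. -/
theorem vv3_ord_eq_zero_iff (hd : vv3_Disc V y) {x : F} (hx : x ≠ 0) :
    vv3_ord V y x = 0 ↔ V.valuation x = 1 := by
  constructor
  · intro h
    rw [vv3_ord_spec hd hx, h, zpow_zero]
  · intro h
    exact vv3_ord_eq hd (by rw [h, zpow_zero])

/-- Valuation one means unit of the valuation subring. -/
theorem vv3_val_eq_one_iff (V : ValuationSubring F) (x : F) :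
    V.valuation x = 1 ↔ x ∈ V ∧ x⁻¹ ∈ V ∧ x ≠ 0 := by
  constructor
  · intro h
    refine ⟨(V.valuation_le_one_iff _).1 h.le, (V.valuation_le_one_iff _).1 ?_, ?_⟩
    · rw [map_inv₀, h, inv_one]
    · rintro rfl
      rw [map_zero] at h
      exact zero_ne_one h
  · rintro ⟨h1, h2, h0⟩
    have a := (V.valuation_le_one_iff _).2 h1
    have b := (V.valuation_le_one_iff _).2 h2
    rw [map_inv₀] at b
    have hpos : 0 < V.valuation x := zero_lt_iff.2 ((Valuation.ne_zero_iff _).2 h0)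
    exact le_antisymm a ((inv_le_one₀ hpos).1 b)

/-- Order at a second uniformizer-power relation: if `v(p) = v(s)^r` then orders with respect
to `s` of elements are determined multiplicatively; in particular `ord_s p = r`. -/
theorem vv3_ord_of_val (hd : vv3_Disc V y) {p : F} {r : ℤ}
    (hp : V.valuation p = V.valuation y ^ r) : vv3_ord V y p = r :=
  vv3_ord_eq hd hp

end ordfn

end Fermat.Agent.S36
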