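import Fermat.Agent.S34.Iface47c
import Fermat.Agent.S36.GaussRed30

/-!
# S36 lab (helper30): the reduction ring homs of `V_∞ = cm85_Vinf` and `V_0 = s34i47c_V0`

`R` a discrete valuation ring with uniformiser `π`, residue field `κ = ResidueField R`, fraction
field `K`; `F = F_K(M)`.

* `vr30_red M hπ : ↥(cm85_Vinf M hπ) →+* LaurentSeries κ` (ANY level `M`): the coefficientwise
  reduction of the `q`-expansion; `vr30_red_integral` (`x = y` with `y ∈ R((q))` ⟹ `red x = ȳ`),
  `vr30_red_algebraMap`, `vr30_red_eq_zero_iff` (`red x = 0 ↔ π⁻¹ x ∈ V_∞`, in the literal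
  `algebraMap R F` notation), `vr30_red_eq_zero_iff_not_isUnit`, `vr30_red_eq_iff`.
* `vr30_red0 M' q hq hM' hπ : ↥(s34i47c_V0 M' q hq hM' hπ) →+* LaurentSeries κ` (level `M' q`):
  `red_0 = red_∞ ∘ w`; `vr30_red0_apply`, `vr30_red0_eq_zero_iff`, `vr30_red0_algebraMap`.

So the residue fields of `V_∞`, `V_0` are embedded into `κ((q))`, and every identity of
`q`-expansions with `R`-integral coefficients reduces to an identity in `κ((q))`.
-/

set_option autoImplicit false
set_option linter.unusedSectionVars false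

open ModularCurve

namespace Fermat.Agent.S36

open Fermat.Agent.S18 Fermat.Agent.S34

local notation "Q̄" => AlgebraicClosure ℚ

section vr30

variable {R K : Type} [CommRing R] [IsDomain R] [IsDiscreteValuationRing R] [Field K]
  [Algebra R K] [IsFractionRing R K] (M : ℕ) [NeZero M]

/-- The reduction ring hom of the Gauss valuation ring `V_∞` of `F_K(M)`. -/
noncomputable def vr30_red {π : R} (hπ : Irreducible π) :
    ↥(cm85_Vinf (K := K) M hπ) →+* LaurentSeries (IsLocalRing.ResidueField R) :=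
  gr30_red (IsLocalRing.residue R) (modularFunctionFieldFullC K M) (pk85_HF K M hπ)

theorem vr30_red_integral {π : R} (hπ : Irreducible π) (x : ↥(cm85_Vinf (K := K) M hπ))
    (y : LaurentSeries R)
    (hxy : ((x : ↥(modularFunctionFieldFullC K M)) : LaurentSeries K) =
      coeffMap (algebraMap R K) y) :
    vr30_red M hπ x = coeffMap (IsLocalRing.residue R) y :=
  gr30_red_integral _ _ _ x y hxy

theorem vr30_red_mul_eq {π : R} (hπ : Irreducible π) (x : ↥(cm85_Vinf (K := K) M hπ))
    (s t : LaurentSeries R) (hs : coeffMap (IsLocalRing.residue R) s ≠ 0)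
    (hst : coeffMap (algebraMap R K) s *
      ((x : ↥(modularFunctionFieldFullC K M)) : LaurentSeries K) = coeffMap (algebraMap R K) t) :
    coeffMap (IsLocalRing.residue R) s * vr30_red M hπ x = coeffMap (IsLocalRing.residue R) t :=
  gr30_red_mul_eq _ _ _ x s t hs hst

variable [Algebra R ↥(modularFunctionFieldFullC K M)]
  [IsScalarTower R K ↥(modularFunctionFieldFullC K M)]

theorem vr30_red_algebraMap {π : R} (hπ : Irreducible π) (r : R) :
    vr30_red (K := K) M hπ
      ⟨algebraMap R ↥(modularFunctionFieldFullC K M) r, pk85_hRV (K := K) M hπ r⟩ =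
      HahnSeries.C (IsLocalRing.residue R r) := by
  have h := vr30_red_integral (K := K) M hπ
    ⟨algebraMap R ↥(modularFunctionFieldFullC K M) r, pk85_hRV (K := K) M hπ r⟩ (HahnSeries.C r) (by
      show ((algebraMap R ↥(modularFunctionFieldFullC K M) r : ↥(modularFunctionFieldFullC K M)) :
        LaurentSeries K) = _
      rw [IsScalarTower.algebraMap_apply R K ↥(modularFunctionFieldFullC K M),
        gv85_coe_algebraMap, gv85_coeffMap_C])
  rw [h, gv85_coeffMap_C]

/-- **The kernel of `red_∞` is `π V_∞`.** -/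
theorem vr30_red_eq_zero_iff {π : R} (hπ : Irreducible π) (x : ↥(cm85_Vinf (K := K) M hπ)) :
    vr30_red M hπ x = 0 ↔
      (algebraMap R ↥(modularFunctionFieldFullC K M) π)⁻¹ *
        (x : ↥(modularFunctionFieldFullC K M)) ∈ cm85_Vinf (K := K) M hπ := by
  rw [IsScalarTower.algebraMap_apply R K ↥(modularFunctionFieldFullC K M)]
  exact gr30_red_eq_zero_iff _ _ _ π (pk85_res_iff hπ) hπ.ne_zero x

theorem vr30_red_eq_zero_iff_not_isUnit {π : R} (hπ : Irreducible π)
    (x : ↥(cm85_Vinf (K := K) M hπ)) : vr30_red M hπ x = 0 ↔ ¬ IsUnit x :=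
  gr30_red_eq_zero_iff_not_isUnit _ _ _ π (pk85_res_iff hπ) hπ.ne_zero x

/-- Two elements of `V_∞` have the same reduction iff they are congruent mod `π V_∞`. -/
theorem vr30_red_eq_iff {π : R} (hπ : Irreducible π) (x y : ↥(cm85_Vinf (K := K) M hπ)) :
    vr30_red M hπ x = vr30_red M hπ y ↔
      (algebraMap R ↥(modularFunctionFieldFullC K M) π)⁻¹ *
        ((x : ↥(modularFunctionFieldFullC K M)) - (y : ↥(modularFunctionFieldFullC K M))) ∈
          cm85_Vinf (K := K) M hπ := by
  rw [← sub_eq_zero, ← map_sub, vr30_red_eq_zero_iff]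
  rfl

end vr30

section vr30zero

variable {R K : Type} [CommRing R] [IsDomain R] [IsDiscreteValuationRing R] [Field K]
  [Algebra R K] [IsFractionRing R K] [Algebra K Q̄]
  (M' q : ℕ) [NeZero M'] [NeZero q] (hq : q.Prime) (hM' : ¬ q ∣ M')
  [Algebra R ↥(modularFunctionFieldFullC K (M' * q))]
  [IsScalarTower R K ↥(modularFunctionFieldFullC K (M' * q))]

/-- The Atkin-Lehner involution as a ring hom `V_0 → V_∞`. -/
noncomputable def vr30_wHom {π : R} (hπ : Irreducible π) :
    ↥(s34i47c_V0 (K := K) M' q hq hM' hπ) →+* ↥(cm85_Vinf (K := K) (M' * q) hπ) :=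
  (((al97L_w (algebraMap K Q̄) M' q hq hM' :
      ↥(modularFunctionFieldFullC K (M' * q)) ≃ₐ[K] ↥(modularFunctionFieldFullC K (M' * q))) :
      ↥(modularFunctionFieldFullC K (M' * q)) →+* ↥(modularFunctionFieldFullC K (M' * q))).comp
    (s34i47c_V0 (K := K) M' q hq hM' hπ).subtype).codRestrict
      (cm85_Vinf (K := K) (M' * q) hπ) (fun x => x.2)

theorem vr30_wHom_coe {π : R} (hπ : Irreducible π)
    (x : ↥(s34i47c_V0 (K := K) M' q hq hM' hπ)) :
    ((vr30_wHom M' q hq hM' hπ x : ↥(cm85_Vinf (K := K) (M' * q) hπ)) :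
      ↥(modularFunctionFieldFullC K (M' * q))) =
      al97L_w (algebraMap K Q̄) M' q hq hM' (x : ↥(modularFunctionFieldFullC K (M' * q))) :=
  rfl

/-- The reduction ring hom of `V_0 = w^* V_∞`: `red_0 = red_∞ ∘ w`. -/
noncomputable def vr30_red0 {π : R} (hπ : Irreducible π) :
    ↥(s34i47c_V0 (K := K) M' q hq hM' hπ) →+* LaurentSeries (IsLocalRing.ResidueField R) :=
  (vr30_red (K := K) (M' * q) hπ).comp (vr30_wHom M' q hq hM' hπ)

theorem vr30_red0_apply {π : R} (hπ : Irreducible π)
    (x : ↥(s34i47c_V0 (K := K) M' q hq hM' hπ)) :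
    vr30_red0 M' q hq hM' hπ x = vr30_red (K := K) (M' * q) hπ (vr30_wHom M' q hq hM' hπ x) :=
  rfl

/-- **The kernel of `red_0` is `π V_0`.** -/
theorem vr30_red0_eq_zero_iff {π : R} (hπ : Irreducible π)
    (x : ↥(s34i47c_V0 (K := K) M' q hq hM' hπ)) :
    vr30_red0 M' q hq hM' hπ x = 0 ↔
      (algebraMap R ↥(modularFunctionFieldFullC K (M' * q)) π)⁻¹ *
        (x : ↥(modularFunctionFieldFullC K (M' * q))) ∈ s34i47c_V0 (K := K) M' q hq hM' hπ := by
  rw [vr30_red0_apply, vr30_red_eq_zero_iff, vr30_wHom_coe, s34i47c_mem_V0, map_mul, map_inv₀,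
    IsScalarTower.algebraMap_apply R K ↥(modularFunctionFieldFullC K (M' * q)), AlgEquiv.commutes]

theorem vr30_red0_algebraMap {π : R} (hπ : Irreducible π) (r : R)
    (hr : algebraMap R ↥(modularFunctionFieldFullC K (M' * q)) r ∈
      s34i47c_V0 (K := K) M' q hq hM' hπ) :
    vr30_red0 M' q hq hM' hπ ⟨algebraMap R ↥(modularFunctionFieldFullC K (M' * q)) r, hr⟩ =
      HahnSeries.C (IsLocalRing.residue R r) := by
  rw [vr30_red0_apply, ← vr30_red_algebraMap (K := K) (M' * q) hπ r]
  congr 1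
  apply Subtype.ext
  have h : al97L_w (algebraMap K Q̄) M' q hq hM'
      (algebraMap R ↥(modularFunctionFieldFullC K (M' * q)) r) =
      algebraMap R ↥(modularFunctionFieldFullC K (M' * q)) r := by
    rw [IsScalarTower.algebraMap_apply R K ↥(modularFunctionFieldFullC K (M' * q)),
      AlgEquiv.commutes]
  exact h

end vr30zero

end Fermat.Agent.S36
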