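import Fermat.Agent.S34.Iface47c
import Fermat.Agent.S36.VinfConst30

/-!
# S36 lab (helper30): LEMMA K on the canonical level-`M' q` frame `W' = V_∞' ⊓ V_0'`

`R` a discrete valuation ring with uniformiser `π`, fraction field `K`; `F = F_K(M' q)`,
`V_∞ = cm85_Vinf (M' * q) hπ`, `V_0 = s34i47c_V0 = V_∞.comap w` (Atkin-Lehner), `W = s34i47c_W`.
`m` a unit of `R`, `c, c' ∈ Rˣ`.

* `wc30_V0_const_unit` : `x ∈ V_0`, `π⁻¹ (c' x ^ m - c) ∈ V_0` ⟹
  `∃ a ∈ Rˣ, π ∣ c' a ^ m - c ∧ π⁻¹ (x - a) ∈ V_0`.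
* `wc30_W_const_unit` : `x ∈ W`, `π⁻¹ (c' x ^ m - c) ∈ W` ⟹ constants `ainf, a0 ∈ Rˣ` with
  `π⁻¹ (x - ainf) ∈ V_∞`, `π⁻¹ (x - a0) ∈ V_0`, `π ∣ c' ainf ^ m - c`, `π ∣ c' a0 ^ m - c`
  (so `(ainf / a0) ^ m ≡ 1 mod π`): the norm roots `A_u`, `B_u` of the (B) text have CONSTANT
  reductions on both branches.
-/

set_option autoImplicit false
set_option linter.unusedSectionVars false

open ModularCurve

namespace Fermat.Agent.S36

open Fermat.Agent.S18 Fermat.Agent.S34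

local notation "Q̄" => AlgebraicClosure ℚ

section wc30

variable {R K : Type} [CommRing R] [IsDomain R] [IsDiscreteValuationRing R] [Field K]
  [Algebra R K] [IsFractionRing R K] [Algebra K Q̄]
  (M' q : ℕ) [NeZero M'] [NeZero q] (hq : q.Prime) (hM' : ¬ q ∣ M')
  [Algebra R ↥(modularFunctionFieldFullC K (M' * q))]
  [IsScalarTower R K ↥(modularFunctionFieldFullC K (M' * q))]

theorem wc30_w_algebraMap (r : R) :
    al97L_w (algebraMap K Q̄) M' q hq hM'
      (algebraMap R ↥(modularFunctionFieldFullC K (M' * q)) r) =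
      algebraMap R ↥(modularFunctionFieldFullC K (M' * q)) r := by
  rw [IsScalarTower.algebraMap_apply R K ↥(modularFunctionFieldFullC K (M' * q)),
    AlgEquiv.commutes]

theorem wc30_V0_const_unit {π : R} (hπ : Irreducible π) (m : ℕ) (hm : IsUnit (m : R))
    (x : ↥(modularFunctionFieldFullC K (M' * q))) (hx : x ∈ s34i47c_V0 (K := K) M' q hq hM' hπ)
    (c c' : R) (hc : IsUnit c) (hc' : IsUnit c')
    (h : (algebraMap R ↥(modularFunctionFieldFullC K (M' * q)) π)⁻¹ *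
      (algebraMap R ↥(modularFunctionFieldFullC K (M' * q)) c' * x ^ m -
        algebraMap R ↥(modularFunctionFieldFullC K (M' * q)) c) ∈
          s34i47c_V0 (K := K) M' q hq hM' hπ) :
    ∃ a : R, IsUnit a ∧ π ∣ c' * a ^ m - c ∧
      (algebraMap R ↥(modularFunctionFieldFullC K (M' * q)) π)⁻¹ *
        (x - algebraMap R ↥(modularFunctionFieldFullC K (M' * q)) a) ∈
          s34i47c_V0 (K := K) M' q hq hM' hπ := by
  rw [s34i47c_mem_V0] at hx h
  rw [map_mul, map_inv₀, map_sub, map_mul, map_pow, wc30_w_algebraMap, wc30_w_algebraMap,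
    wc30_w_algebraMap] at h
  obtain ⟨a, hau, ha, hxa⟩ := vc30_Vinf_const_unit (K := K) (M' * q) hπ m hm _ hx c c' hc hc' h
  refine ⟨a, hau, ha, ?_⟩
  rw [s34i47c_mem_V0, map_mul, map_inv₀, map_sub, wc30_w_algebraMap, wc30_w_algebraMap]
  exact hxa

theorem wc30_W_const_unit {π : R} (hπ : Irreducible π) (m : ℕ) (hm : IsUnit (m : R))
    (x : ↥(modularFunctionFieldFullC K (M' * q))) (hx : x ∈ s34i47c_W (K := K) M' q hq hM' hπ)
    (c c' : R) (hc : IsUnit c) (hc' : IsUnit c')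
    (h : (algebraMap R ↥(modularFunctionFieldFullC K (M' * q)) π)⁻¹ *
      (algebraMap R ↥(modularFunctionFieldFullC K (M' * q)) c' * x ^ m -
        algebraMap R ↥(modularFunctionFieldFullC K (M' * q)) c) ∈
          s34i47c_W (K := K) M' q hq hM' hπ) :
    ∃ ainf a0 : R, IsUnit ainf ∧ IsUnit a0 ∧ π ∣ c' * ainf ^ m - c ∧ π ∣ c' * a0 ^ m - c ∧
      (algebraMap R ↥(modularFunctionFieldFullC K (M' * q)) π)⁻¹ *
        (x - algebraMap R ↥(modularFunctionFieldFullC K (M' * q)) ainf) ∈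
          cm85_Vinf (K := K) (M' * q) hπ ∧
      (algebraMap R ↥(modularFunctionFieldFullC K (M' * q)) π)⁻¹ *
        (x - algebraMap R ↥(modularFunctionFieldFullC K (M' * q)) a0) ∈
          s34i47c_V0 (K := K) M' q hq hM' hπ := by
  have hx' := (wa5_mem_W _ _ x).mp hx
  have h' := (wa5_mem_W _ _ _).mp h
  obtain ⟨a, hau, ha, hxa⟩ :=
    vc30_Vinf_const_unit (K := K) (M' * q) hπ m hm x hx'.1 c c' hc hc' h'.1
  obtain ⟨b, hbu, hb, hxb⟩ :=
    wc30_V0_const_unit (K := K) M' q hq hM' hπ m hm x hx'.2 c c' hc hc' h'.2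
  exact ⟨a, b, hau, hbu, ha, hb, hxa, hxb⟩

end wc30

end Fermat.Agent.S36
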