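import Mathlib

/-!
# S36 (helper64): integrality from a complete family of embeddings (Mathlib only)

`wi64_integral_of_embeddings`: `E ⊆ F` finite separable, `Ω` a field over `E`, `σ : ι → (F →ₐ[E] Ω)`
an injective family with `card ι = [F : E]`, `O` a subring of `Ω` and `V'` a subring of `E`
containing every `e : E` whose image lies in `O`.  If all conjugates `σ i x` lie in `O`, then `x`
is integral over `V'` (the coefficients of `minpoly E x` are symmetric functions of the conjugates).

Use (S36): `E = F(M'')`, `F = F(M'' q²)`, `Ω = ℚ̄((Q))`, `O` = the Gauss ring, `V'` = the Gauss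
valuation ring of `E`; every embedding induces one of `V_1, V_2, V_3`, so `W = V_1 ⊓ V_2 ⊓ V_3` is
integral over `V'` — the `(WInt)` input of the saturation transfer `cm85_sat_transfer`.

All names are prefixed `wi64_`.
-/

set_option autoImplicit false

open Polynomial

namespace Fermat.Agent.S36

section

variable {E F Ω : Type*} [Field E] [Field F] [Field Ω] [Algebra E F] [Algebra E Ω]
  [FiniteDimensional E F] [Algebra.IsSeparable E F]

/-- a monic polynomial which is a product of `X - C r`, `r` in a subring, has its coefficients in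
the subring. -/
theorem wi64_coeff_prod_mem {A : Type*} [CommRing A] (O : Subring A) (s : Multiset A)
    (hs : ∀ r ∈ s, r ∈ O) (k : ℕ) : ((s.map fun r => (X - C r : A[X])).prod).coeff k ∈ O := by
  classical
  induction s using Multiset.induction_on generalizing k with
  | empty =>
    simp only [Multiset.map_zero, Multiset.prod_zero, coeff_one]
    split_ifs
    · exact O.one_mem
    · exact O.zero_mem
  | cons a s ih =>
    have ha : a ∈ O := hs a (Multiset.mem_cons_self a s)
    have ih' := fun k => ih (fun r hr => hs r (Multiset.mem_cons_of_mem hr)) k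
    rw [Multiset.map_cons, Multiset.prod_cons, sub_mul, coeff_sub, coeff_C_mul]
    refine O.sub_mem ?_ (O.mul_mem ha (ih' k))
    cases k with
    | zero => rw [coeff_X_mul_zero]; exact O.zero_mem
    | succ k => rw [coeff_X_mul]; exact ih' k

/-- **Integrality from conjugates.** -/
theorem wi64_integral_of_embeddings {ι : Type*} [Fintype ι] (σ : ι → F →ₐ[E] Ω)
    (hσ : Function.Injective σ) (hcard : Fintype.card ι = Module.finrank E F)
    (O : Subring Ω) (V' : Subring E) (hV' : ∀ e : E, algebraMap E Ω e ∈ O → e ∈ V')
    (x : F) (hx : ∀ i, σ i x ∈ O) : IsIntegral V' x := by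
  classical
  let Ωb := AlgebraicClosure Ω
  let j : Ω →ₐ[E] Ωb := IsScalarTower.toAlgHom E Ω Ωb
  have hj : Function.Injective j := (algebraMap Ω Ωb).injective
  let τ : ι → (F →ₐ[E] Ωb) := fun i => j.comp (σ i)
  have hτ : Function.Injective τ := by
    intro a b hab
    apply hσ
    ext y
    apply hj
    exact DFunLike.congr_fun hab y
  have hcard' : Fintype.card (F →ₐ[E] Ωb) = Module.finrank E F := AlgHom.card E F Ωb
  have hsurj : Function.Surjective τ :=
    ((Fintype.bijective_iff_injective_and_card τ).mpr ⟨hτ, by rw [hcard, hcard']⟩).2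
  have hxE : IsIntegral E x := IsIntegral.of_finite E x
  set p := minpoly E x with hp
  have hmonic : p.Monic := minpoly.monic hxE
  let O' : Subring Ωb := O.map j.toRingHom
  -- the roots of `p` in `Ωb` lie in `O'`
  have hroots : ∀ r ∈ (p.map (algebraMap E Ωb)).roots, r ∈ O' := by
    intro r hr
    have hr' : r ∈ p.rootSet Ωb := by
      rw [mem_rootSet]
      refine ⟨hmonic.ne_zero, ?_⟩
      rw [mem_roots (map_ne_zero hmonic.ne_zero), IsRoot.def, eval_map] at hr
      exact hr
    have hrange := Algebra.IsAlgebraic.range_eval_eq_rootSet_minpoly (F := E) (K := F) Ωb x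
    rw [← hp] at hrange
    rw [← hrange] at hr'
    obtain ⟨ψ, hψ⟩ := hr'
    obtain ⟨i, hi⟩ := hsurj ψ
    refine ⟨σ i x, hx i, ?_⟩
    rw [← hψ, ← hi]
    rfl
  -- `p` is the product of its linear factors
  have hsplit : (p.map (algebraMap E Ωb)).Splits := IsAlgClosed.splits _
  have hprod := hsplit.eq_prod_roots_of_monic (hmonic.map (algebraMap E Ωb))
  have hcoeff : ∀ k, algebraMap E Ωb (p.coeff k) ∈ O' := by
    intro k
    rw [← coeff_map]
    rw [hprod]
    exact wi64_coeff_prod_mem O' _ hroots k
  have hcoeffV : ∀ k, p.coeff k ∈ V' := by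
    intro k
    obtain ⟨o, ho, hoj⟩ := hcoeff k
    apply hV'
    have h1 : j (algebraMap E Ω (p.coeff k)) = algebraMap E Ωb (p.coeff k) := by
      rw [AlgHom.commutes]
    have h2 : o = algebraMap E Ω (p.coeff k) := hj (by rw [h1]; exact hoj)
    rw [← h2]
    exact ho
  have hsub : (↑p.coeffs : Set E) ⊆ V' := by
    intro c hc
    obtain ⟨k, -, rfl⟩ := Polynomial.mem_coeffs_iff.mp (by exact_mod_cast hc)
    exact hcoeffV k
  refine ⟨p.toSubring V' hsub, (monic_toSubring p V' hsub).mpr hmonic, ?_⟩
  have h3 : eval₂ (algebraMap V' F) x (p.toSubring V' hsub) = aeval x p := by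
    rw [aeval_def]
    conv_rhs => rw [← map_toSubring p V' hsub]
    rw [eval₂_map]
    rfl
  rw [h3]
  exact minpoly.aeval E x

end

end Fermat.Agent.S36
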