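import Mathlib
import Fermat.Agent.S36.ValUnit1

/-!
# S36 lab (helper35): `ℤ`-valued valuations read off a valuation subring with a uniformiser

Adapter between the intrinsic valuation statements of the frame (valuation subrings `V` of a
function field with a uniformiser `s`: `𝔪_V = s V`, `⋂ sⁿ V = 0`; valuation-of-a-norm formulas in
the form `V'.valuation (N y) = V'.valuation π ^ (a + b)`) and the `ℤ`-valued bookkeeping of
`b2v1_main` (helper1, row B2-val), whose only hypothesis on a valuation is `b2v1_IsVal`.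

* `zv35_v V s x : ℤ` : the exponent `a` with `V.valuation x = V.valuation s ^ a` (junk `0` if there
  is none);
* `zv35_exists_of_arch` : such an exponent exists for every `x ≠ 0` as soon as `𝔪_V = s V`
  (`hmax`) and no nonzero element is divisible by all powers of `s` (`harch`);
* `zv35_spec`, `zv35_unique`, `zv35_eq_iff`, `zv35_self`, `zv35_isVal` (literally `b2v1_IsVal`),
  `zv35_nonneg_iff` (`x ∈ V`), `zv35_eq_zero_iff` (`x` a unit of `V`), `zv35_pos_iff`,
  `zv35_of_pow` (change of uniformiser `π = s ^ e · unit`);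
* `zv35_transfer_add`, `zv35_transfer_mul` : the valuation-of-a-norm formulas in valuation-power
  form give the `ℤ`-form identities `v' (N y) = v₁ y + v₂ y` and `v' (N y) = d * v y`.

All names are prefixed `zv35_`.  Mathlib only (plus the definition `b2v1_IsVal`).
-/

set_option autoImplicit false

namespace Fermat.Agent.S36

section zv35

variable {F : Type*} [Field F]

open Classical in
/-- The exponent `a` with `V.valuation x = V.valuation s ^ a` (`0` if there is none). -/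
noncomputable def zv35_v (V : ValuationSubring F) (s x : F) : ℤ :=
  if h : ∃ a : ℤ, V.valuation x = V.valuation s ^ a then h.choose else 0

theorem zv35_spec (V : ValuationSubring F) (s : F) {x : F}
    (h : ∃ a : ℤ, V.valuation x = V.valuation s ^ a) :
    V.valuation x = V.valuation s ^ zv35_v V s x := by
  unfold zv35_v
  rw [dif_pos h]
  exact h.choose_spec

theorem zv35_val_pos (V : ValuationSubring F) {s : F} (hs0 : s ≠ 0) : 0 < V.valuation s :=
  zero_lt_iff.mpr ((map_ne_zero V.valuation).mpr hs0)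

theorem zv35_val_lt_one (V : ValuationSubring F) {s : F} (_hs0 : s ≠ 0) (hs : s⁻¹ ∉ V) :
    V.valuation s < 1 := by
  by_contra hcon
  apply hs
  rw [← V.valuation_le_one_iff, map_inv₀]
  exact inv_le_one_of_one_le₀ (not_lt.mp hcon)

theorem zv35_unique (V : ValuationSubring F) {s : F} (hs0 : s ≠ 0) (hs : s⁻¹ ∉ V) {x : F} {a : ℤ}
    (h : V.valuation x = V.valuation s ^ a) : zv35_v V s x = a := by
  have h1 := zv35_spec V s ⟨a, h⟩
  rw [h] at h1
  exact (zpow_right_injective₀ (zv35_val_pos V hs0) (zv35_val_lt_one V hs0 hs).ne h1).symm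

theorem zv35_eq_iff (V : ValuationSubring F) {s : F} (hs0 : s ≠ 0) (hs : s⁻¹ ∉ V)
    (hex : ∀ x : F, x ≠ 0 → ∃ a : ℤ, V.valuation x = V.valuation s ^ a) {x : F} (hx : x ≠ 0)
    (a : ℤ) : zv35_v V s x = a ↔ V.valuation x = V.valuation s ^ a :=
  ⟨fun h => h ▸ zv35_spec V s (hex x hx), fun h => zv35_unique V hs0 hs h⟩

theorem zv35_self (V : ValuationSubring F) {s : F} (hs0 : s ≠ 0) (hs : s⁻¹ ∉ V) :
    zv35_v V s s = 1 :=
  zv35_unique V hs0 hs (zpow_one _).symm

theorem zv35_one (V : ValuationSubring F) {s : F} (hs0 : s ≠ 0) (hs : s⁻¹ ∉ V) :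
    zv35_v V s 1 = 0 :=
  zv35_unique V hs0 hs (by rw [map_one, zpow_zero])

/-- **`zv35_v V s` is a `ℤ`-valued valuation in the sense of `b2v1_IsVal`.** -/
theorem zv35_isVal (V : ValuationSubring F) {s : F} (hs0 : s ≠ 0) (hs : s⁻¹ ∉ V)
    (hex : ∀ x : F, x ≠ 0 → ∃ a : ℤ, V.valuation x = V.valuation s ^ a) :
    b2v1_IsVal (zv35_v V s) := by
  intro x y hx hy
  apply zv35_unique V hs0 hs
  rw [map_mul, zv35_spec V s (hex x hx), zv35_spec V s (hex y hy),
    zpow_add₀ ((map_ne_zero V.valuation).mpr hs0)]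

theorem zv35_nonneg_iff (V : ValuationSubring F) {s : F} (hs0 : s ≠ 0) (hs : s⁻¹ ∉ V)
    (hex : ∀ x : F, x ≠ 0 → ∃ a : ℤ, V.valuation x = V.valuation s ^ a) {x : F} (hx : x ≠ 0) :
    0 ≤ zv35_v V s x ↔ x ∈ V := by
  rw [← V.valuation_le_one_iff, zv35_spec V s (hex x hx)]
  exact (zpow_le_one_iff_right_of_lt_one₀ (zv35_val_pos V hs0) (zv35_val_lt_one V hs0 hs)).symm

theorem zv35_inv (V : ValuationSubring F) {s : F} (hs0 : s ≠ 0) (hs : s⁻¹ ∉ V)
    (hex : ∀ x : F, x ≠ 0 → ∃ a : ℤ, V.valuation x = V.valuation s ^ a) {x : F} (hx : x ≠ 0) :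
    zv35_v V s x⁻¹ = - zv35_v V s x := by
  apply zv35_unique V hs0 hs
  rw [map_inv₀, zv35_spec V s (hex x hx), zpow_neg]

theorem zv35_eq_zero_iff (V : ValuationSubring F) {s : F} (hs0 : s ≠ 0) (hs : s⁻¹ ∉ V)
    (hex : ∀ x : F, x ≠ 0 → ∃ a : ℤ, V.valuation x = V.valuation s ^ a) {x : F} (hx : x ≠ 0) :
    zv35_v V s x = 0 ↔ x ∈ V ∧ x⁻¹ ∈ V := by
  rw [← zv35_nonneg_iff V hs0 hs hex hx, ← zv35_nonneg_iff V hs0 hs hex (inv_ne_zero hx),
    zv35_inv V hs0 hs hex hx]
  constructor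
  · intro h
    rw [h]
    exact ⟨le_refl _, by simp⟩
  · rintro ⟨h1, h2⟩
    exact le_antisymm (by linarith) h1

theorem zv35_pos_iff (V : ValuationSubring F) {s : F} (hs0 : s ≠ 0) (hs : s⁻¹ ∉ V)
    (hex : ∀ x : F, x ≠ 0 → ∃ a : ℤ, V.valuation x = V.valuation s ^ a) {x : F} (hx : x ≠ 0) :
    0 < zv35_v V s x ↔ x⁻¹ ∉ V := by
  rw [← zv35_nonneg_iff V hs0 hs hex (inv_ne_zero hx), zv35_inv V hs0 hs hex hx]
  constructor
  · intro h h'
    linarith
  · intro h
    by_contra hcon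
    exact h (by linarith [not_lt.mp hcon])

theorem zv35_pow (V : ValuationSubring F) {s : F} (hs0 : s ≠ 0) (hs : s⁻¹ ∉ V)
    (hex : ∀ x : F, x ≠ 0 → ∃ a : ℤ, V.valuation x = V.valuation s ^ a) {x : F} (hx : x ≠ 0)
    (n : ℕ) : zv35_v V s (x ^ n) = n * zv35_v V s x := by
  apply zv35_unique V hs0 hs
  rw [map_pow, zv35_spec V s (hex x hx), ← zpow_natCast, ← zpow_mul, mul_comm]

/-- **Existence of the exponent**: `𝔪_V = s V` and `⋂ sⁿ V = 0` make `V.valuation s` a generator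
of the value group. -/
theorem zv35_exists_of_arch (V : ValuationSubring F) {s : F} (hs0 : s ≠ 0)
    (hmax : ∀ x ∈ V, x⁻¹ ∉ V → s⁻¹ * x ∈ V)
    (harch : ∀ x : F, x ≠ 0 → ∃ n : ℕ, (s ^ n)⁻¹ * x ∉ V) :
    ∀ x : F, x ≠ 0 → ∃ a : ℤ, V.valuation x = V.valuation s ^ a := by
  have hvs : V.valuation s ≠ 0 := (map_ne_zero V.valuation).mpr hs0
  -- the integral case
  have key : ∀ x : F, x ≠ 0 → x ∈ V → ∃ a : ℤ, V.valuation x = V.valuation s ^ a := by
    intro x hx hxV
    classical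
    obtain ⟨n0, hn0⟩ := harch x hx
    let n := Nat.find (harch x hx)
    have hn : (s ^ n)⁻¹ * x ∉ V := Nat.find_spec (harch x hx)
    have hnpos : n ≠ 0 := by
      intro h0
      apply hn
      rw [h0, pow_zero, inv_one, one_mul]
      exact hxV
    obtain ⟨k, hk⟩ := Nat.exists_eq_succ_of_ne_zero hnpos
    have hkV : (s ^ k)⁻¹ * x ∈ V := by
      by_contra hcon
      exact Nat.find_min (harch x hx) (by omega : k < n) hcon
    set y : F := (s ^ k)⁻¹ * x with hy
    have hy0 : y ≠ 0 := mul_ne_zero (inv_ne_zero (pow_ne_zero k hs0)) hx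
    have hyinv : y⁻¹ ∈ V := by
      by_contra hcon
      apply hn
      have h1 := hmax y hkV hcon
      have h2 : (s ^ n)⁻¹ * x = s⁻¹ * y := by
        rw [hy, hk, pow_succ]
        field_simp
      rw [h2]
      exact h1
    have hval : V.valuation y = 1 := by
      apply le_antisymm ((V.valuation_le_one_iff y).mpr hkV)
      have h3 := (V.valuation_le_one_iff y⁻¹).mpr hyinv
      rw [map_inv₀] at h3
      exact (inv_le_one₀ (zero_lt_iff.mpr ((map_ne_zero V.valuation).mpr hy0))).mp h3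
    refine ⟨(k : ℤ), ?_⟩
    have hx' : x = s ^ k * y := by
      rw [hy]
      field_simp
    rw [hx', map_mul, hval, mul_one, map_pow, zpow_natCast]
  intro x hx
  rcases V.mem_or_inv_mem x with hxV | hxV
  · exact key x hx hxV
  · obtain ⟨a, ha⟩ := key x⁻¹ (inv_ne_zero hx) hxV
    refine ⟨-a, ?_⟩
    rw [zpow_neg, ← ha, map_inv₀, inv_inv]

/-- Change of uniformiser: if `V.valuation π = V.valuation s ^ e` then the `s`-exponent of `π` is
`e` (e.g. `e = q - 1` for the ramified middle valuation, `π = s ^ (q - 1) · unit`). -/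
theorem zv35_of_pow (V : ValuationSubring F) {s : F} (hs0 : s ≠ 0) (hs : s⁻¹ ∉ V) {p : F} {e : ℕ}
    (hp : V.valuation p = V.valuation s ^ e) : zv35_v V s p = e :=
  zv35_unique V hs0 hs (by rw [hp, zpow_natCast])

/-- `π = s ^ e · u` with `u` a unit of `V` has `s`-exponent `e`. -/
theorem zv35_of_unit_mul_pow (V : ValuationSubring F) {s : F} (hs0 : s ≠ 0) (hs : s⁻¹ ∉ V)
    {p u : F} {e : ℕ} (hu : u ∈ V) (hu' : u⁻¹ ∈ V) (hu0 : u ≠ 0) (hp : p = s ^ e * u) :
    zv35_v V s p = e := by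
  apply zv35_of_pow V hs0 hs
  have hval : V.valuation u = 1 := by
    apply le_antisymm ((V.valuation_le_one_iff u).mpr hu)
    have h3 := (V.valuation_le_one_iff u⁻¹).mpr hu'
    rw [map_inv₀] at h3
    exact (inv_le_one₀ (zero_lt_iff.mpr ((map_ne_zero V.valuation).mpr hu0))).mp h3
  rw [hp, map_mul, hval, mul_one, map_pow]

end zv35

section zv35_transfer

variable {F1 F2 : Type*} [Field F1] [Field F2]

/-- **Transfer (ramified / two valuations above)**: the valuation-of-a-norm formula in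
valuation-power form gives the `ℤ`-form `v' (N y) = v₁ y + v₂ y`. -/
theorem zv35_transfer_add (N : F2 → F1) (V' : ValuationSubring F1) {p' : F1} (hp'0 : p' ≠ 0)
    (hp' : p'⁻¹ ∉ V') (V₁ V₂ : ValuationSubring F2) (p s : F2)
    (hex₁ : ∀ x : F2, x ≠ 0 → ∃ a : ℤ, V₁.valuation x = V₁.valuation p ^ a)
    (hex₂ : ∀ x : F2, x ≠ 0 → ∃ a : ℤ, V₂.valuation x = V₂.valuation s ^ a)
    (h : ∀ y : F2, y ≠ 0 → ∀ a b : ℤ, V₁.valuation y = V₁.valuation p ^ a →
      V₂.valuation y = V₂.valuation s ^ b → V'.valuation (N y) = V'.valuation p' ^ (a + b))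
    (y : F2) (hy : y ≠ 0) :
    zv35_v V' p' (N y) = zv35_v V₁ p y + zv35_v V₂ s y :=
  zv35_unique V' hp'0 hp' (h y hy _ _ (zv35_spec V₁ p (hex₁ y hy)) (zv35_spec V₂ s (hex₂ y hy)))

/-- **Transfer (inert / one valuation above)**: `V'.valuation (N y) = V'.valuation π ^ (d * c)`
gives `v' (N y) = d * v y`. -/
theorem zv35_transfer_mul (N : F2 → F1) (V' : ValuationSubring F1) {p' : F1} (hp'0 : p' ≠ 0)
    (hp' : p'⁻¹ ∉ V') (V : ValuationSubring F2) (p : F2) (d : ℤ)
    (hex : ∀ x : F2, x ≠ 0 → ∃ a : ℤ, V.valuation x = V.valuation p ^ a)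
    (h : ∀ y : F2, y ≠ 0 → ∀ c : ℤ, V.valuation y = V.valuation p ^ c →
      V'.valuation (N y) = V'.valuation p' ^ (d * c))
    (y : F2) (hy : y ≠ 0) :
    zv35_v V' p' (N y) = d * zv35_v V p y :=
  zv35_unique V' hp'0 hp' (h y hy _ (zv35_spec V p (hex y hy)))

end zv35_transfer

end Fermat.Agent.S36
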